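import Mathlib

set_option autoImplicit false

/-!
# The diagonal ideal of a smooth curve algebra is an invertible module

Brick DIAG of the S25 project (helper3378).  Mathlib only, statement-agnostic.

Main results (namespace `Fermat.Agent.S25.helper3378`):

* `invertible_of_one_mem_range_contractLeft` : an ideal `I` of a commutative ring whose
  trace ideal is the unit ideal is an invertible module.
* `invertible_of_locally_principal` : in a domain, a nonzero finitely generated ideal which is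
  "locally principal modulo its square" at every prime containing it is an invertible module.
* `invertible_diagonalIdeal` : the diagonal ideal of `A ⊗[k] A`.
-/

open TensorProduct

namespace Fermat.Agent.S25.helper3378

section TraceIdeal

variable {T : Type*} [CommRing T] (I : Ideal T)

/-- For a linear form `g` on an ideal `I` and `a b ∈ I`: `g b * a = g a * b`. -/
theorem dual_mul_comm (g : Module.Dual T I) (a b : I) :
    g b * (a : T) = g a * (b : T) := by
  have h : (a : T) • b = (b : T) • a := by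
    ext
    simp [mul_comm]
  have h2 := congrArg g h
  rw [map_smul, map_smul, smul_eq_mul, smul_eq_mul] at h2
  linear_combination h2

/-- For linear forms `f g` on an ideal `I` and `a x ∈ I`: `f x * g a = f a * g x`. -/
theorem dual_dual_comm (f g : Module.Dual T I) (a x : I) :
    f x * g a = f a * g x := by
  have h : f x • a = f a • x := by
    ext
    simpa using dual_mul_comm I f a x
  have h2 := congrArg g h
  rwa [map_smul, map_smul, smul_eq_mul, smul_eq_mul] at h2

theorem contractLeft_smul_tmul (f g : Module.Dual T I) (a b : I) :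
    g b • (f ⊗ₜ[T] a) = f a • (g ⊗ₜ[T] b) := by
  have h1 : g b • a = g a • b := by
    ext
    simpa using dual_mul_comm I g a b
  have h2 : g a • f = f a • g := by
    ext x
    simpa [mul_comm] using dual_dual_comm I g f x a
  calc g b • (f ⊗ₜ[T] a) = f ⊗ₜ[T] (g b • a) := by rw [TensorProduct.tmul_smul]
    _ = f ⊗ₜ[T] (g a • b) := by rw [h1]
    _ = (g a • f) ⊗ₜ[T] b := by rw [TensorProduct.tmul_smul, TensorProduct.smul_tmul']
    _ = (f a • g) ⊗ₜ[T] b := by rw [h2]
    _ = f a • (g ⊗ₜ[T] b) := by rw [TensorProduct.smul_tmul']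

theorem contractLeft_smul_eq (f : Module.Dual T I) (a : I) (z : Module.Dual T I ⊗[T] I) :
    contractLeft T I z • (f ⊗ₜ[T] a) = f a • z := by
  induction z using TensorProduct.induction_on with
  | zero => simp
  | tmul g b =>
    rw [contractLeft_apply]
    exact contractLeft_smul_tmul I f g a b
  | add z w hz hw => rw [map_add, add_smul, hz, hw, smul_add]

/-- An ideal whose trace ideal is the unit ideal is an invertible module. -/
theorem invertible_of_one_mem_range_contractLeft
    (h : (1 : T) ∈ LinearMap.range (contractLeft T I)) : Module.Invertible T I := by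
  obtain ⟨z₀, hz₀⟩ := h
  have key : ∀ z : Module.Dual T I ⊗[T] I, z = contractLeft T I z • z₀ := by
    intro z
    induction z using TensorProduct.induction_on with
    | zero => simp
    | tmul f a =>
      have := contractLeft_smul_eq I f a z₀
      rw [hz₀, one_smul] at this
      rw [contractLeft_apply]
      exact this
    | add z w hz hw => rw [map_add, add_smul, ← hz, ← hw]
  refine ⟨⟨?_, ?_⟩⟩
  · rw [injective_iff_map_eq_zero]
    intro z hz
    rw [key z, hz, zero_smul]
  · intro r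
    exact ⟨r • z₀, by rw [map_smul, hz₀, smul_eq_mul, mul_one]⟩

end TraceIdeal

section Nakayama

variable {T : Type*} [CommRing T]

/-- Determinant-trick form of Nakayama: if `I` is a finitely generated ideal contained in a prime
`𝔓`, `t ∈ I`, and some `u ∉ 𝔓` multiplies `I` into `(t) + I²`, then some `s ∉ 𝔓` multiplies
`I` into `(t)`. -/
theorem exists_notMem_mul_mem_span_singleton (I : Ideal T) (hI : I.FG) (𝔓 : Ideal T)
    [𝔓.IsPrime] (hI𝔓 : I ≤ 𝔓) (t : T) (u : T) (hu : u ∉ 𝔓)
    (h : ∀ x ∈ I, u * x ∈ Ideal.span {t} ⊔ I ^ 2) :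
    ∃ s : T, s ∉ 𝔓 ∧ ∀ x ∈ I, s * x ∈ Ideal.span {t} := by
  classical
  -- the module `N = (I + (t)) / (t)` inside `T / (t)`
  let q : T →ₗ[T] (T ⧸ Ideal.span {t}) := (Ideal.span {t}).mkQ
  let N : Submodule T (T ⧸ Ideal.span {t}) := Submodule.map q I
  have hNfg : N.FG := Submodule.FG.map q hI
  have : Module.Finite T N := Module.Finite.of_fg hNfg
  let f : Module.End T N := u • LinearMap.id
  -- elements of `I ^ 2` map into `I • N`
  have hsq : ∀ z ∈ I ^ 2, ∃ w : N, (w : T ⧸ Ideal.span {t}) = q z ∧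
      w ∈ I • (⊤ : Submodule T N) := by
    intro z hz
    rw [pow_two] at hz
    refine Submodule.mul_induction_on hz ?_ ?_
    · intro a ha b hb
      refine ⟨a • (⟨q b, ⟨b, hb, rfl⟩⟩ : N), ?_, Submodule.smul_mem_smul ha Submodule.mem_top⟩
      simp [← smul_eq_mul]
    · rintro a b ⟨wa, hwa, hwa'⟩ ⟨wb, hwb, hwb'⟩
      exact ⟨wa + wb, by simp [hwa, hwb], Submodule.add_mem _ hwa' hwb'⟩
  have hrange : LinearMap.range f ≤ I • (⊤ : Submodule T N) := by
    rintro _ ⟨⟨n, hn⟩, rfl⟩
    obtain ⟨x, hx, rfl⟩ := hn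
    obtain ⟨y, hy, z, hz, hyz⟩ := Submodule.mem_sup.mp (h x hx)
    -- `u • q x = q z` with `z ∈ I ^ 2`
    have hq : u • q x = q z := by
      have hy0 : q y = 0 := by
        simpa [q] using (Submodule.Quotient.mk_eq_zero _).mpr hy
      have : q (u * x) = q y + q z := by rw [← map_add, hyz]
      rw [hy0, zero_add] at this
      rw [← this, ← smul_eq_mul, map_smul]
    obtain ⟨w, hw, hw'⟩ := hsq z hz
    have : f ⟨q x, ⟨x, hx, rfl⟩⟩ = w := by
      ext
      simp [f, hq, hw]
    rw [this]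
    exact hw'
  obtain ⟨p, hp, -, hcoeff, hev⟩ :=
    LinearMap.exists_monic_and_natDegree_eq_and_coeff_mem_pow_and_aeval_eq_zero T f I hrange
  -- `p.eval u` kills `N` and is not in `𝔓`
  refine ⟨p.eval u, ?_, ?_⟩
  · intro hmem
    rw [Polynomial.eval_eq_sum_range, Finset.sum_range_succ, hp.coeff_natDegree, one_mul] at hmem
    have hlow : ∑ i ∈ Finset.range p.natDegree, p.coeff i * u ^ i ∈ 𝔓 := by
      refine Ideal.sum_mem _ fun i hi => ?_
      have hi' : p.natDegree - i ≠ 0 := by
        have := Finset.mem_range.mp hi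
        omega
      exact Ideal.mul_mem_right _ _ (hI𝔓 (Ideal.pow_le_self hi' (hcoeff i)))
    have hpow : u ^ p.natDegree ∈ 𝔓 := by
      have := Ideal.sub_mem _ hmem hlow
      simpa using this
    exact hu (Ideal.IsPrime.mem_of_pow_mem inferInstance _ hpow)
  · intro x hx
    have hf : f = algebraMap T (Module.End T N) u := by
      ext n
      simp [f]
    rw [hf, Polynomial.aeval_algebraMap_apply] at hev
    have h0 := congrArg (fun g : Module.End T N => (g ⟨q x, ⟨x, hx, rfl⟩⟩ : T ⧸ Ideal.span {t})) hev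
    simp only [Module.algebraMap_end_apply, LinearMap.zero_apply, Submodule.coe_smul,
      ZeroMemClass.coe_zero, Polynomial.coe_aeval_eq_eval] at h0
    rw [← map_smul, smul_eq_mul] at h0
    exact (Submodule.Quotient.mk_eq_zero _).mp h0

end Nakayama

section Domain

variable {T : Type*} [CommRing T] [IsDomain T]

/-- In a domain, if `s • I ⊆ (t)` with `t ≠ 0`, then `x ↦ s * x / t` is a linear form on `I`. -/
theorem exists_dual_apply_eq (I : Ideal T) (t : T) (ht : t ∈ I) (ht0 : t ≠ 0) (s : T)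
    (hs : ∀ x ∈ I, s * x ∈ Ideal.span {t}) :
    ∃ f : Module.Dual T I, f ⟨t, ht⟩ = s := by
  classical
  have hex : ∀ x : I, ∃ y : T, y * t = s * (x : T) := fun x =>
    Ideal.mem_span_singleton'.mp (hs x x.2)
  choose φ hφ using hex
  have hφ_unique : ∀ (x : I) (y : T), y * t = s * (x : T) → φ x = y := by
    intro x y hy
    exact mul_right_cancel₀ ht0 ((hφ x).trans hy.symm)
  refine ⟨{ toFun := φ, map_add' := ?_, map_smul' := ?_ }, ?_⟩
  · intro x y
    apply hφ_unique
    rw [add_mul, hφ x, hφ y]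
    simp [mul_add]
  · intro r x
    apply hφ_unique
    simp only [RingHom.id_apply, smul_eq_mul, Submodule.coe_smul]
    rw [mul_assoc, hφ x]
    ring
  · exact hφ_unique ⟨t, ht⟩ s rfl

/-- **Invertibility criterion.** In a domain, a nonzero finitely generated ideal `I` such that
for every maximal ideal `𝔓 ⊇ I` there is `t ∈ I` generating `I` modulo `I²` locally at `𝔓`
is an invertible module. -/
theorem invertible_of_locally_principal (I : Ideal T) (hI : I.FG) (hne : I ≠ ⊥)
    (h : ∀ 𝔓 : Ideal T, 𝔓.IsMaximal → I ≤ 𝔓 →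
      ∃ t ∈ I, ∀ x ∈ I, ∃ u : T, u ∉ 𝔓 ∧ u * x ∈ Ideal.span {t} ⊔ I ^ 2) :
    Module.Invertible T I := by
  classical
  apply invertible_of_one_mem_range_contractLeft
  by_contra hone
  let Tr : Ideal T := LinearMap.range (contractLeft T I)
  have hTr : Tr ≠ ⊤ := fun htop => hone ((Ideal.eq_top_iff_one Tr).mp htop)
  obtain ⟨𝔓, h𝔓max, hTr𝔓⟩ := Ideal.exists_le_maximal Tr hTr
  have h𝔓prime : 𝔓.IsPrime := h𝔓max.isPrime
  have hmem : ∀ (f : Module.Dual T I) (x : I), f x ∈ 𝔓 := fun f x =>
    hTr𝔓 ⟨f ⊗ₜ[T] x, contractLeft_apply f x⟩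
  by_cases hI𝔓 : I ≤ 𝔓
  · obtain ⟨t, ht, hloc⟩ := h 𝔓 h𝔓max hI𝔓
    obtain ⟨S, hS⟩ := hI
    choose! u hu hux using hloc
    -- a uniform multiplier
    let U : T := ∏ x ∈ S, u x
    have hSI : ∀ x ∈ S, x ∈ I := fun x hx => hS ▸ Ideal.subset_span hx
    have hU : U ∉ 𝔓 := by
      intro hU
      obtain ⟨x, hx, hx'⟩ := (Ideal.IsPrime.prod_mem_iff).mp hU
      exact hu x (hSI x hx) hx'
    have hUx : ∀ x ∈ I, U * x ∈ Ideal.span {t} ⊔ I ^ 2 := by
      have hle : I ≤ Submodule.comap (LinearMap.mulLeft T U) (Ideal.span {t} ⊔ I ^ 2) := by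
        refine hS.symm.le.trans (Ideal.span_le.mpr fun x hx => ?_)
        simp only [SetLike.mem_coe, Submodule.mem_comap, LinearMap.mulLeft_apply]
        have hdvd : u x ∣ U := Finset.dvd_prod_of_mem u hx
        obtain ⟨c, hc⟩ := hdvd
        rw [hc, mul_comm (u x) c, mul_assoc]
        exact Ideal.mul_mem_left _ _ (hux x (hSI x hx))
      intro x hx
      simpa using hle hx
    obtain ⟨s, hs𝔓, hs⟩ := exists_notMem_mul_mem_span_singleton I ⟨S, hS⟩ 𝔓 hI𝔓 t U hU hUx
    have hs0 : s ≠ 0 := fun h0 => hs𝔓 (h0 ▸ 𝔓.zero_mem)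
    have ht0 : t ≠ 0 := by
      rintro rfl
      apply hne
      rw [eq_bot_iff]
      intro x hx
      have := hs x hx
      simp only [Ideal.span_singleton_zero, Ideal.mem_bot, mul_eq_zero] at this
      exact this.resolve_left hs0
    obtain ⟨f, hf⟩ := exists_dual_apply_eq I t ht ht0 s hs
    exact hs𝔓 (hf ▸ hmem f ⟨t, ht⟩)
  · obtain ⟨x, hx, hx𝔓⟩ := SetLike.not_le_iff_exists.mp hI𝔓
    exact hx𝔓 (hmem I.subtype ⟨x, hx⟩)

end Domain

section Cotangent

variable {T : Type*} [CommRing T]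

/-- If the cotangent module `I/I²` is generated at `𝔓` by one element, then `I` is generated
modulo `I²` at `𝔓` by one element of `I`. -/
theorem exists_mem_of_cotangent_cyclic (I : Ideal T) (𝔓 : Ideal T)
    (h : ∃ ω : I.Cotangent, ∀ η : I.Cotangent, ∃ u : T, u ∉ 𝔓 ∧ ∃ b : T, u • η = b • ω) :
    ∃ t ∈ I, ∀ x ∈ I, ∃ u : T, u ∉ 𝔓 ∧ u * x ∈ Ideal.span {t} ⊔ I ^ 2 := by
  obtain ⟨ω, hω⟩ := h
  obtain ⟨⟨t, ht⟩, rfl⟩ := Ideal.toCotangent_surjective I ω
  refine ⟨t, ht, fun x hx => ?_⟩
  obtain ⟨u, hu, b, hb⟩ := hω (I.toCotangent ⟨x, hx⟩)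
  refine ⟨u, hu, ?_⟩
  have h0 : I.toCotangent (u • (⟨x, hx⟩ : I) - b • (⟨t, ht⟩ : I)) = 0 := by
    rw [map_sub, map_smul, map_smul, hb, sub_self]
  rw [Ideal.toCotangent_eq_zero] at h0
  have hdecomp : u * x = b * t + (u * x - b * t) := by ring
  rw [hdecomp]
  refine Submodule.add_mem_sup (Ideal.mem_span_singleton'.mpr ⟨b, rfl⟩) ?_
  simpa using h0

end Cotangent

section Diagonal

variable (R A : Type*) [CommRing R] [CommRing A] [Algebra R A]

/-- The property "locally generated by one element" for a module. -/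
def LocallyCyclic (M : Type*) [AddCommGroup M] [Module A M] : Prop :=
  ∀ 𝔭 : Ideal A, 𝔭.IsPrime → ∃ ω : M, ∀ η : M, ∃ a : A, a ∉ 𝔭 ∧ ∃ b : A, a • η = b • ω

/-- **The diagonal ideal is invertible.**  Let `A` be an `R`-algebra such that `A ⊗[R] A` is a
domain, the diagonal ideal `I = ker (A ⊗[R] A → A)` is finitely generated and nonzero, and
`Ω[A⁄R]` is locally generated by one element.  Then `I` is an invertible `A ⊗[R] A`-module. -/
theorem invertible_diagonalIdeal [IsDomain (A ⊗[R] A)]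
    (hfg : (KaehlerDifferential.ideal R A).FG) (hne : KaehlerDifferential.ideal R A ≠ ⊥)
    (hΩ : LocallyCyclic A Ω[A⁄R]) :
    Module.Invertible (A ⊗[R] A) (KaehlerDifferential.ideal R A) := by
  refine invertible_of_locally_principal _ hfg hne fun 𝔓 h𝔓 _ => ?_
  have h𝔓prime : 𝔓.IsPrime := h𝔓.isPrime
  apply exists_mem_of_cotangent_cyclic
  obtain ⟨ω, hω⟩ := hΩ (𝔓.comap (Algebra.TensorProduct.includeLeft : A →ₐ[R] A ⊗[R] A))
    (Ideal.comap_isPrime _ _)
  refine ⟨ω, fun η => ?_⟩
  obtain ⟨a, ha, b, hb⟩ := hω η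
  refine ⟨a ⊗ₜ[R] 1, ha, b ⊗ₜ[R] 1, ?_⟩
  have key : ∀ (c : A) (ξ : Ω[A⁄R]), (c ⊗ₜ[R] (1 : A) : A ⊗[R] A) • ξ = c • ξ := by
    intro c ξ
    have : (c ⊗ₜ[R] (1 : A) : A ⊗[R] A) = c • (1 : A ⊗[R] A) := by
      rw [Algebra.TensorProduct.one_def, TensorProduct.smul_tmul', smul_eq_mul, mul_one]
    rw [this, smul_assoc, one_smul]
  exact (key a η).trans (hb.trans (key b ω).symm)

end Diagonal

end Fermat.Agent.S25.helper3378
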