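/-
S25 generic algebra brick (helper5597): divisor ideals are invertible.

* `schanuel`: Schanuel's lemma.
* `DiagData B A`: "dual basis" data for the diagonal ideal of a `B`-algebra `A`
  (equivalent to: the kernel of `A ⊗[B] A → A` is a finitely generated projective
  `A ⊗[B] A`-module).
* `DiagData.ker_projective`: if `M` is an `A`-module that is finitely generated projective over
  `B`, the kernel of any surjection from a f.g. projective `A`-module onto `M` is f.g. projective.
* `invertible_of_projective_of_faithful`: a f.g. projective faithful ideal is invertible.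
-/
import Mathlib

set_option autoImplicit false

namespace Fermat.Agent.S25.helper5597

open TensorProduct

section Schanuel

variable {R : Type*} [Ring R] {M P P' X : Type*}
  [AddCommGroup M] [Module R M] [AddCommGroup P] [Module R P] [AddCommGroup P'] [Module R P']
  [AddCommGroup X] [Module R X]

/-- A surjection onto a projective module splits: `X ≃ ker π × P`. -/
theorem nonempty_equiv_ker_prod_of_surjective [Module.Projective R P] (π : X →ₗ[R] P)
    (hπ : Function.Surjective π) : Nonempty (X ≃ₗ[R] (LinearMap.ker π × P)) := by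
  obtain ⟨s, hs⟩ := Module.projective_lifting_property π LinearMap.id hπ
  have hs' : ∀ p, π (s p) = p := fun p => by
    have := congrArg (fun f => f p) hs
    simpa using this
  refine ⟨LinearEquiv.ofLinearMap
    (LinearMap.prod (LinearMap.codRestrict (LinearMap.ker π) (LinearMap.id - s ∘ₗ π) ?_) π)
    (LinearMap.coprod (LinearMap.ker π).subtype s) ?_ ?_⟩
  · intro x
    simp [LinearMap.mem_ker, hs']
  · apply LinearMap.ext
    rintro ⟨⟨k, hk⟩, p⟩
    have hk' : π k = 0 := hk
    ext <;> simp [hs', hk']
  · apply LinearMap.ext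
    intro x
    simp

/-- The fibre product of two linear maps, as a submodule of the product. -/
def fibreProd (f : P →ₗ[R] M) (f' : P' →ₗ[R] M) : Submodule R (P × P') :=
  LinearMap.ker (f ∘ₗ LinearMap.fst R P P' - f' ∘ₗ LinearMap.snd R P P')

theorem mem_fibreProd {f : P →ₗ[R] M} {f' : P' →ₗ[R] M} {x : P × P'} :
    x ∈ fibreProd f f' ↔ f x.1 = f' x.2 := by
  simp [fibreProd, LinearMap.mem_ker, sub_eq_zero]

/-- **Schanuel's lemma**: if `f : P → M` and `f' : P' → M` are surjections from projective
modules, then `ker f × P' ≃ ker f' × P`. -/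
theorem schanuel [Module.Projective R P] [Module.Projective R P'] (f : P →ₗ[R] M)
    (f' : P' →ₗ[R] M) (hf : Function.Surjective f) (hf' : Function.Surjective f') :
    Nonempty ((LinearMap.ker f × P') ≃ₗ[R] (LinearMap.ker f' × P)) := by
  -- the two projections of the fibre product
  let X := fibreProd f f'
  let π₁ : X →ₗ[R] P := LinearMap.fst R P P' ∘ₗ X.subtype
  let π₂ : X →ₗ[R] P' := LinearMap.snd R P P' ∘ₗ X.subtype
  have h₁ : Function.Surjective π₁ := by
    intro p
    obtain ⟨p', hp'⟩ := hf' (f p)
    exact ⟨⟨(p, p'), mem_fibreProd.2 hp'.symm⟩, rfl⟩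
  have h₂ : Function.Surjective π₂ := by
    intro p'
    obtain ⟨p, hp⟩ := hf (f' p')
    exact ⟨⟨(p, p'), mem_fibreProd.2 hp⟩, rfl⟩
  -- kernels of the projections
  have e₁ : LinearMap.ker π₁ ≃ₗ[R] LinearMap.ker f' := by
    refine LinearEquiv.ofLinearMap
      (LinearMap.codRestrict _ (π₂ ∘ₗ (LinearMap.ker π₁).subtype) ?_)
      (LinearMap.codRestrict _ (LinearMap.codRestrict X
        (LinearMap.inr R P P' ∘ₗ (LinearMap.ker f').subtype) ?_) ?_) ?_ ?_
    · rintro ⟨⟨⟨p, p'⟩, hx⟩, hk⟩
      have h1 : p = 0 := hk
      have h2 : f p = f' p' := mem_fibreProd.1 hx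
      simp [π₂, LinearMap.mem_ker, ← h2, h1]
    · rintro ⟨p', hp'⟩
      have : f' p' = 0 := hp'
      simp [X, mem_fibreProd, this]
    · rintro ⟨p', hp'⟩
      simp [π₁, LinearMap.mem_ker]
    · apply LinearMap.ext
      rintro ⟨p', hp'⟩
      rfl
    · apply LinearMap.ext
      rintro ⟨⟨⟨p, p'⟩, hx⟩, hk⟩
      have h1 : p = 0 := hk
      subst h1
      rfl
  have e₂ : LinearMap.ker π₂ ≃ₗ[R] LinearMap.ker f := by
    refine LinearEquiv.ofLinearMap
      (LinearMap.codRestrict _ (π₁ ∘ₗ (LinearMap.ker π₂).subtype) ?_)
      (LinearMap.codRestrict _ (LinearMap.codRestrict X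
        (LinearMap.inl R P P' ∘ₗ (LinearMap.ker f).subtype) ?_) ?_) ?_ ?_
    · rintro ⟨⟨⟨p, p'⟩, hx⟩, hk⟩
      have h1 : p' = 0 := hk
      have h2 : f p = f' p' := mem_fibreProd.1 hx
      simp [π₁, LinearMap.mem_ker, h2, h1]
    · rintro ⟨p, hp⟩
      have : f p = 0 := hp
      simp [X, mem_fibreProd, this]
    · rintro ⟨p, hp⟩
      simp [π₂, LinearMap.mem_ker]
    · apply LinearMap.ext
      rintro ⟨p, hp⟩
      rfl
    · apply LinearMap.ext
      rintro ⟨⟨⟨p, p'⟩, hx⟩, hk⟩
      have h1 : p' = 0 := hk
      subst h1
      rfl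
  obtain ⟨a₁⟩ := nonempty_equiv_ker_prod_of_surjective π₁ h₁
  obtain ⟨a₂⟩ := nonempty_equiv_ker_prod_of_surjective π₂ h₂
  exact ⟨((e₂.symm.prodCongr (LinearEquiv.refl R P')).trans a₂.symm).trans
    (a₁.trans (e₁.prodCongr (LinearEquiv.refl R P)))⟩

/-- Consequence of Schanuel's lemma: if `M` has one presentation `0 → K → P → M → 0` with `K`
and `P` finitely generated projective, then the kernel of every surjection from a finitely
generated projective module onto `M` is finitely generated projective. -/
theorem ker_finite_projective_of_schanuel {K : Type*} [AddCommGroup K] [Module R K]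
    [Module.Projective R P] [Module.Projective R P'] [Module.Finite R P]
    [Module.Projective R K] [Module.Finite R K]
    (f : P →ₗ[R] M) (hf : Function.Surjective f) (e : K ≃ₗ[R] LinearMap.ker f)
    (f' : P' →ₗ[R] M) (hf' : Function.Surjective f') [Module.Finite R P'] :
    Module.Finite R (LinearMap.ker f') ∧ Module.Projective R (LinearMap.ker f') := by
  obtain ⟨a⟩ := schanuel f f' hf hf'
  have hK : Module.Projective R (LinearMap.ker f) := Module.Projective.of_equiv e
  have hKf : Module.Finite R (LinearMap.ker f) := Module.Finite.equiv e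
  have h1 : Module.Projective R (LinearMap.ker f' × P) := Module.Projective.of_equiv a
  have h2 : Module.Finite R (LinearMap.ker f' × P) := Module.Finite.equiv a
  constructor
  · exact Module.Finite.of_surjective (LinearMap.fst R (LinearMap.ker f') P)
      LinearMap.fst_surjective
  · exact Module.Projective.of_split (LinearMap.inl R (LinearMap.ker f') P)
      (LinearMap.fst R (LinearMap.ker f') P) (by ext; simp)

end Schanuel

section InvertibleIdeal

variable {A : Type*} [CommRing A]

/-- In the dual of an ideal, `f n • g = g n • f`. -/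
theorem dual_ideal_smul_comm (I : Ideal A) (f g : Module.Dual A I) (n : I) :
    f n • g = g n • f := by
  apply LinearMap.ext
  intro x
  have h1 : g ((f n) • x) = f n * g x := by rw [map_smul, smul_eq_mul]
  have h2 : f ((g x) • n) = g x * f n := by rw [map_smul, smul_eq_mul]
  have h3 : g ((n : A) • x) = (n : A) * g x := by rw [map_smul, smul_eq_mul]
  have h4 : f ((x : A) • n) = (x : A) * f n := by rw [map_smul, smul_eq_mul]
  have h5 : g ((x : A) • n) = (x : A) * g n := by rw [map_smul, smul_eq_mul]
  have h6 : ((n : A) • x : I) = (x : A) • n := by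
    apply Subtype.ext
    simp [mul_comm]
  simp only [LinearMap.smul_apply, smul_eq_mul]
  -- `f n * g x = g (f n • x)` and `f n • x = f (x • n) ... `
  have h7 : (f n • x : I) = (f x) • n := by
    apply Subtype.ext
    have : (f ((n : A) • x) : A) = f ((x : A) • n) := by rw [h6]
    rw [map_smul, map_smul, smul_eq_mul, smul_eq_mul] at this
    simp only [Submodule.coe_smul, smul_eq_mul]
    linear_combination (-1 : A) * this
  calc f n * g x = g (f n • x) := h1.symm
    _ = g (f x • n) := by rw [h7]
    _ = f x * g n := by rw [map_smul, smul_eq_mul]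
    _ = g n * f x := mul_comm _ _

/-- In an ideal, `f m • n = f n • m`. -/
theorem ideal_dual_smul_comm (I : Ideal A) (f : Module.Dual A I) (m n : I) :
    f m • n = f n • m := by
  apply Subtype.ext
  have h6 : ((n : A) • m : I) = (m : A) • n := by
    apply Subtype.ext
    simp [mul_comm]
  have : (f ((n : A) • m) : A) = f ((m : A) • n) := by rw [h6]
  rw [map_smul, map_smul, smul_eq_mul, smul_eq_mul] at this
  simp only [Submodule.coe_smul, smul_eq_mul]
  linear_combination this

/-- An ideal whose trace ideal is the unit ideal is an invertible module. -/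
theorem invertible_of_contractLeft_eq_one (I : Ideal A)
    (t : Module.Dual A I ⊗[A] I) (ht : contractLeft A I t = 1) : Module.Invertible A I := by
  have key : ∀ t t' : Module.Dual A I ⊗[A] I,
      contractLeft A I t • t' = contractLeft A I t' • t := by
    intro t t'
    induction t using TensorProduct.induction_on with
    | zero => simp
    | add x y hx hy => rw [map_add, add_smul, hx, hy, smul_add]
    | tmul f m =>
      induction t' using TensorProduct.induction_on with
      | zero => simp
      | add x y hx hy => rw [map_add, add_smul, ← hx, ← hy, smul_add]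
      | tmul g n =>
        simp only [contractLeft_apply]
        calc f m • (g ⊗ₜ[A] n) = g ⊗ₜ[A] (f m • n) := by rw [TensorProduct.tmul_smul]
          _ = g ⊗ₜ[A] (f n • m) := by rw [ideal_dual_smul_comm]
          _ = (f n • g) ⊗ₜ[A] m := by rw [TensorProduct.smul_tmul]
          _ = (g n • f) ⊗ₜ[A] m := by rw [dual_ideal_smul_comm]
          _ = g n • (f ⊗ₜ[A] m) := by rw [TensorProduct.smul_tmul']
  refine ⟨?_, ?_⟩
  · rw [injective_iff_map_eq_zero]
    intro t' ht'
    have := key t t'
    rw [ht, ht', one_smul, zero_smul] at this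
    exact this
  · intro a
    exact ⟨a • t, by rw [map_smul, ht, smul_eq_mul, mul_one]⟩

/-- A finitely generated projective ideal with trivial annihilator is an invertible module. -/
theorem invertible_of_projective_of_faithful (I : Ideal A) [Module.Finite A I]
    [Module.Projective A I] (hI : ∀ r : A, (∀ x ∈ I, r * x = 0) → r = 0) :
    Module.Invertible A I := by
  obtain ⟨n, f, g, -, -, hfg⟩ := Module.Finite.exists_comp_eq_id_of_projective A I
  -- the trace ideal
  let τ : Ideal A := LinearMap.range (contractLeft A I)
  have hτ : ∀ (x : I) (i : Fin n), g x i ∈ τ := fun x i =>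
    ⟨(LinearMap.proj i ∘ₗ g) ⊗ₜ[A] x, by simp [contractLeft_apply]⟩
  have hle : I ≤ τ • (I : Submodule A A) := by
    intro x hx
    have hx' : f (g ⟨x, hx⟩) = ⟨x, hx⟩ := by
      have := congrArg (fun φ => φ ⟨x, hx⟩) hfg
      simpa using this
    have hsum : g ⟨x, hx⟩ = ∑ i, g ⟨x, hx⟩ i • (Pi.single i (1 : A) : Fin n → A) := by
      ext k
      simp [Finset.sum_apply, Pi.single_apply]
    have hx'' : x = ∑ i, g ⟨x, hx⟩ i • (f (Pi.single i (1 : A)) : A) := by
      have h := congrArg (fun y : I => (y : A)) hx'
      simp only at h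
      rw [hsum, map_sum] at h
      simp only [map_smul] at h
      exact h.symm.trans (by simp)
    rw [hx'']
    refine Submodule.sum_mem _ fun i _ => ?_
    exact Submodule.smul_mem_smul (hτ _ i) (f (Pi.single i (1 : A))).2
  obtain ⟨r, hr, hr0⟩ := Submodule.exists_sub_one_mem_and_smul_eq_zero_of_fg_of_le_smul τ
    (I : Submodule A A) (Module.Finite.iff_fg.mp inferInstance) hle
  have hr' : r = 0 := hI r fun x hx => by simpa using hr0 x hx
  have h1 : (1 : A) ∈ τ := by
    have : r - 1 = -1 := by rw [hr']; ring
    rw [this] at hr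
    simpa using τ.neg_mem hr
  obtain ⟨t, ht⟩ := h1
  exact invertible_of_contractLeft_eq_one I t ht

end InvertibleIdeal

section Diag

variable (B A : Type*) [CommRing B] [CommRing A] [Algebra B A]

/-- "Dual basis" data for the diagonal ideal of the `B`-algebra `A`: elements `j i` of the
kernel of the multiplication `A ⊗[B] A → A` and bimodule derivations `D i : A → A ⊗[B] A` with
`∑ i, D i x * j i = x ⊗ 1 - 1 ⊗ x`.  Equivalent to: the diagonal ideal is a finitely generated
projective `A ⊗[B] A`-module (see `hasDiagBasis_of_projective`). -/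
def HasDiagBasis : Prop :=
  ∃ (n : ℕ) (j : Fin n → A ⊗[B] A) (D : Fin n → (A →ₗ[B] A ⊗[B] A)),
    (∀ i, Algebra.TensorProduct.lmul' B (j i) = 0) ∧
    (∀ i (a x : A), D i (a * x) = (a ⊗ₜ[B] (1 : A)) * D i x + ((1 : A) ⊗ₜ[B] x) * D i a) ∧
    (∀ x : A, ∑ i, D i x * j i = x ⊗ₜ[B] (1 : A) - (1 : A) ⊗ₜ[B] x)

variable {B A}

/-- The diagonal ideal: the kernel of the multiplication map `A ⊗[B] A → A`. -/
abbrev diagIdeal (B A : Type*) [CommRing B] [CommRing A] [Algebra B A] : Ideal (A ⊗[B] A) :=
  RingHom.ker (Algebra.TensorProduct.lmul' B : A ⊗[B] A →ₐ[B] A)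

theorem delta_mem_diagIdeal (x : A) : x ⊗ₜ[B] (1 : A) - (1 : A) ⊗ₜ[B] x ∈ diagIdeal B A := by
  simp [RingHom.mem_ker]

/-- If the diagonal ideal is a finitely generated projective module, there is a diagonal dual
basis. -/
theorem hasDiagBasis_of_projective [Module.Finite (A ⊗[B] A) (diagIdeal B A)]
    [Module.Projective (A ⊗[B] A) (diagIdeal B A)] : HasDiagBasis B A := by
  obtain ⟨n, f, g, -, -, hfg⟩ :=
    Module.Finite.exists_comp_eq_id_of_projective (A ⊗[B] A) (diagIdeal B A)
  have hfg' : ∀ y, f (g y) = y := fun y => by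
    have := congrArg (fun φ => φ y) hfg
    simpa using this
  -- the universal bimodule derivation
  let δ : A →ₗ[B] diagIdeal B A :=
    { toFun := fun x => ⟨x ⊗ₜ[B] (1 : A) - (1 : A) ⊗ₜ[B] x, delta_mem_diagIdeal x⟩
      map_add' := fun x y => by
        apply Subtype.ext
        simp only [Submodule.coe_add, TensorProduct.add_tmul, TensorProduct.tmul_add]
        abel
      map_smul' := fun b x => by
        apply Subtype.ext
        simp only [RingHom.id_apply, Submodule.coe_smul_of_tower, smul_sub,
          TensorProduct.smul_tmul', TensorProduct.tmul_smul] }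
  have hδ : ∀ a x : A, δ (a * x) = (a ⊗ₜ[B] (1 : A)) • δ x + ((1 : A) ⊗ₜ[B] x) • δ a := by
    intro a x
    apply Subtype.ext
    simp only [δ, LinearMap.coe_mk, AddHom.coe_mk, Submodule.coe_add, Submodule.coe_smul,
      smul_eq_mul, mul_sub, Algebra.TensorProduct.tmul_mul_tmul, mul_one, one_mul]
    rw [mul_comm x a]
    abel
  refine ⟨n, fun i => (f (Pi.single i 1) : A ⊗[B] A),
    fun i => ((LinearMap.proj i : (Fin n → A ⊗[B] A) →ₗ[A ⊗[B] A] A ⊗[B] A).restrictScalars B) ∘ₗ
      (g.restrictScalars B) ∘ₗ δ, ?_, ?_, ?_⟩
  · intro i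
    exact (f (Pi.single i 1)).2
  · intro i a x
    simp only [LinearMap.coe_comp, LinearMap.coe_restrictScalars, Function.comp_apply,
      LinearMap.proj_apply]
    rw [hδ, map_add, map_smul, map_smul]
    rfl
  · intro x
    have hsum : g (δ x) = ∑ i, g (δ x) i • (Pi.single i (1 : A ⊗[B] A) : Fin n → A ⊗[B] A) := by
      ext k
      simp [Finset.sum_apply, Pi.single_apply]
    have h : ((f (g (δ x)) : diagIdeal B A) : A ⊗[B] A) = (δ x : A ⊗[B] A) :=
      congrArg Subtype.val (hfg' (δ x))
    rw [hsum, map_sum] at h
    simp only [map_smul] at h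
    refine Eq.trans ?_ h
    simp only [AddSubmonoidClass.coe_finsetSum, Submodule.coe_smul, smul_eq_mul]
    rfl

section Action

variable (B A)
variable (M : Type*) [AddCommGroup M] [Module B M] [Module A M] [IsScalarTower B A M]

/-- The action of `A ⊗[B] A` on `A ⊗[B] M`: `(a ⊗ a') • (x ⊗ m) = (a * x) ⊗ (a' • m)`. -/
noncomputable def actHom : A ⊗[B] A →ₐ[B] Module.End A (A ⊗[B] M) :=
  ((LinearMap.tensorProductEnd B A M).restrictScalars B).comp
    (Algebra.TensorProduct.map (AlgHom.id B A) (Algebra.lsmul B B M))

/-- The multiplication map `A ⊗[B] M → M`. -/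
noncomputable def mulM : A ⊗[B] M →ₗ[A] M :=
  LinearMap.liftBaseChange A (LinearMap.id : M →ₗ[B] M)

variable {B A M}

@[simp]
theorem actHom_tmul_tmul (a a' x : A) (m : M) :
    actHom B A M (a ⊗ₜ[B] a') (x ⊗ₜ[B] m) = (a * x) ⊗ₜ[B] (a' • m) := by
  simp [actHom, LinearMap.tensorProductEnd, LinearMap.tensorProduct, TensorProduct.smul_tmul']

@[simp]
theorem mulM_tmul (a : A) (m : M) : mulM B A M (a ⊗ₜ[B] m) = a • m := by
  simp [mulM]

theorem mulM_surjective : Function.Surjective (mulM B A M) := fun m =>
  ⟨(1 : A) ⊗ₜ[B] m, by simp⟩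

theorem mulM_actHom (s : A ⊗[B] A) (y : A ⊗[B] M) :
    mulM B A M (actHom B A M s y) = Algebra.TensorProduct.lmul' B s • mulM B A M y := by
  induction s using TensorProduct.induction_on with
  | zero => simp
  | add s s' hs hs' => rw [map_add, LinearMap.add_apply, map_add, hs, hs', map_add, add_smul]
  | tmul a a' =>
    induction y using TensorProduct.induction_on with
    | zero => simp
    | add y y' hy hy' => rw [map_add, map_add, hy, hy', map_add, smul_add]
    | tmul x m =>
      simp only [actHom_tmul_tmul, mulM_tmul, Algebra.TensorProduct.lmul'_apply_tmul]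
      rw [smul_smul, smul_smul]
      congr 1
      ring

/-- The auxiliary `B`-linear map `x ⊗ m ↦ (D x) • (1 ⊗ m)`. -/
noncomputable def diagPhi (D : A →ₗ[B] A ⊗[B] A) : A ⊗[B] M →ₗ[B] A ⊗[B] M :=
  TensorProduct.lift
    (LinearMap.mk₂ B (fun (x : A) (m : M) => actHom B A M (D x) ((1 : A) ⊗ₜ[B] m))
      (fun x x' m => by simp [map_add])
      (fun b x m => by simp [map_smul])
      (fun x m m' => by simp [TensorProduct.tmul_add, map_add])
      (fun b x m => by simp [TensorProduct.tmul_smul]))

@[simp]
theorem diagPhi_tmul (D : A →ₗ[B] A ⊗[B] A) (x : A) (m : M) :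
    diagPhi (M := M) D (x ⊗ₜ[B] m) = actHom B A M (D x) ((1 : A) ⊗ₜ[B] m) := by
  simp [diagPhi]

theorem diagPhi_smul (D : A →ₗ[B] A ⊗[B] A)
    (hD : ∀ a x : A, D (a * x) = (a ⊗ₜ[B] (1 : A)) * D x + ((1 : A) ⊗ₜ[B] x) * D a)
    (a : A) (y : A ⊗[B] M) :
    diagPhi (M := M) D (a • y) =
      a • diagPhi (M := M) D y + actHom B A M (D a) ((1 : A) ⊗ₜ[B] mulM B A M y) := by
  induction y using TensorProduct.induction_on with
  | zero => simp
  | add y y' hy hy' =>
    rw [smul_add, map_add, hy, hy', map_add, smul_add, map_add, TensorProduct.tmul_add, map_add]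
    abel
  | tmul x m =>
    rw [TensorProduct.smul_tmul', smul_eq_mul, diagPhi_tmul, diagPhi_tmul, hD, map_add,
      map_mul, map_mul, LinearMap.add_apply, Module.End.mul_apply, Module.End.mul_apply,
      mulM_tmul]
    congr 1
    · have : a • (actHom B A M (D x) ((1 : A) ⊗ₜ[B] m)) =
          actHom B A M (a ⊗ₜ[B] (1 : A)) (actHom B A M (D x) ((1 : A) ⊗ₜ[B] m)) := by
        generalize actHom B A M (D x) ((1 : A) ⊗ₜ[B] m) = z
        induction z using TensorProduct.induction_on with
        | zero => simp
        | add z z' hz hz' => rw [smul_add, hz, hz', map_add]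
        | tmul u v => simp [TensorProduct.smul_tmul']
      rw [this]
    · have h1 : actHom B A M ((1 : A) ⊗ₜ[B] x) ((1 : A) ⊗ₜ[B] m) = (1 : A) ⊗ₜ[B] (x • m) := by
        simp
      rw [← h1, ← Module.End.mul_apply, ← Module.End.mul_apply, ← map_mul, ← map_mul, mul_comm]

theorem sum_actHom_diagPhi {n : ℕ} (j : Fin n → A ⊗[B] A) (D : Fin n → (A →ₗ[B] A ⊗[B] A))
    (hsum : ∀ x : A, ∑ i, D i x * j i = x ⊗ₜ[B] (1 : A) - (1 : A) ⊗ₜ[B] x) (y : A ⊗[B] M) :
    ∑ i, actHom B A M (j i) (diagPhi (M := M) (D i) y) = y - (1 : A) ⊗ₜ[B] mulM B A M y := by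
  induction y using TensorProduct.induction_on with
  | zero => simp
  | add y y' hy hy' =>
    simp only [map_add, Finset.sum_add_distrib, hy, hy', TensorProduct.tmul_add]
    abel
  | tmul x m =>
    simp only [diagPhi_tmul, mulM_tmul]
    have : ∀ i, actHom B A M (j i) (actHom B A M (D i x) ((1 : A) ⊗ₜ[B] m)) =
        actHom B A M (D i x * j i) ((1 : A) ⊗ₜ[B] m) := fun i => by
      rw [mul_comm, map_mul, Module.End.mul_apply]
    simp only [this]
    rw [← LinearMap.sum_apply, ← map_sum, hsum, map_sub, LinearMap.sub_apply]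
    simp

end Action

section Main

variable {M : Type*} [AddCommGroup M] [Module B M] [Module A M] [IsScalarTower B A M]

/-- **Key lemma.** If `A` has a diagonal dual basis over `B` and `M` is an `A`-module which is
finitely generated projective over `B`, then the kernel of the multiplication map
`A ⊗[B] M → M` is a finitely generated projective `A`-module. -/
theorem HasDiagBasis.ker_mulM (h : HasDiagBasis B A) [Module.Finite B M]
    [Module.Projective B M] :
    Module.Finite A (LinearMap.ker (mulM B A M)) ∧
      Module.Projective A (LinearMap.ker (mulM B A M)) := by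
  obtain ⟨n, j, D, hj, hD, hsum⟩ := h
  -- the retraction data
  let α : LinearMap.ker (mulM B A M) →ₗ[A] (Fin n → A ⊗[B] M) :=
    { toFun := fun k i => diagPhi (M := M) (D i) k
      map_add' := fun k k' => by
        ext i
        simp
      map_smul' := fun a k => by
        ext i
        have hk : mulM B A M (k : A ⊗[B] M) = 0 := k.2
        simp only [Submodule.coe_smul, RingHom.id_apply, Pi.smul_apply]
        rw [diagPhi_smul (D i) (hD i), hk]
        simp }
  let β₀ : (Fin n → A ⊗[B] M) →ₗ[A] A ⊗[B] M :=
    ∑ i, (actHom B A M (j i)) ∘ₗ (LinearMap.proj i)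
  have hβ₀ : ∀ v, β₀ v ∈ LinearMap.ker (mulM B A M) := by
    intro v
    simp only [β₀, LinearMap.mem_ker, LinearMap.sum_apply, LinearMap.comp_apply,
      LinearMap.proj_apply, map_sum, mulM_actHom, hj, zero_smul, Finset.sum_const_zero]
  let β : (Fin n → A ⊗[B] M) →ₗ[A] LinearMap.ker (mulM B A M) :=
    LinearMap.codRestrict _ β₀ hβ₀
  have hβα : β ∘ₗ α = LinearMap.id := by
    apply LinearMap.ext
    intro k
    apply Subtype.ext
    have hk : mulM B A M (k : A ⊗[B] M) = 0 := k.2
    have := sum_actHom_diagPhi (M := M) j D hsum (k : A ⊗[B] M)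
    rw [hk, TensorProduct.tmul_zero, sub_zero] at this
    simpa [β, β₀, α] using this
  have hsurj : Function.Surjective β := fun k => ⟨α k, by
    have := congrArg (fun φ => φ k) hβα
    simpa using this⟩
  have hproj : Module.Projective A (Fin n → A ⊗[B] M) :=
    Module.Projective.of_equiv
      (DFinsupp.linearEquivFunOnFintype (R := A) (M := fun _ : Fin n => A ⊗[B] M))
  exact ⟨Module.Finite.of_surjective β hsurj, Module.Projective.of_split α β hβα⟩

/-- If `A` has a diagonal dual basis over `B` and `M` is an `A`-module which is finitely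
generated projective over `B`, then the kernel of every surjection from a finitely generated
projective `A`-module onto `M` is finitely generated projective over `A`. -/
theorem HasDiagBasis.ker_finite_projective (h : HasDiagBasis B A) [Module.Finite B M]
    [Module.Projective B M] {P : Type*} [AddCommGroup P] [Module A P] [Module.Finite A P]
    [Module.Projective A P] (f : P →ₗ[A] M) (hf : Function.Surjective f) :
    Module.Finite A (LinearMap.ker f) ∧ Module.Projective A (LinearMap.ker f) := by
  obtain ⟨h1, h2⟩ := h.ker_mulM (M := M)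
  exact ker_finite_projective_of_schanuel (K := LinearMap.ker (mulM B A M)) (mulM B A M)
    mulM_surjective (LinearEquiv.refl A (LinearMap.ker (mulM B A M))) f hf

/-- If `A` has a diagonal dual basis over `B`, every ideal `I` of `A` such that `A ⧸ I` is
finitely generated projective over `B` is a finitely generated projective `A`-module. -/
theorem HasDiagBasis.ideal_finite_projective (h : HasDiagBasis B A) (I : Ideal A)
    [Module.Finite B (A ⧸ I)] [Module.Projective B (A ⧸ I)] :
    Module.Finite A I ∧ Module.Projective A I := by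
  obtain ⟨h1, h2⟩ := h.ker_finite_projective (M := A ⧸ I) (P := A) (Submodule.mkQ I)
    (Submodule.mkQ_surjective I)
  have e : LinearMap.ker (Submodule.mkQ I) ≃ₗ[A] I := LinearEquiv.ofEq _ _ (Submodule.ker_mkQ I)
  exact ⟨Module.Finite.equiv e, Module.Projective.of_equiv e⟩

/-- **Divisor ideals are invertible.** If `A` has a diagonal dual basis over `B`, `I` is an
ideal of `A` with trivial annihilator and `A ⧸ I` is finitely generated projective over `B`,
then `I` is an invertible `A`-module. -/
theorem HasDiagBasis.ideal_invertible (h : HasDiagBasis B A) (I : Ideal A)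
    [Module.Finite B (A ⧸ I)] [Module.Projective B (A ⧸ I)]
    (hI : ∀ r : A, (∀ x ∈ I, r * x = 0) → r = 0) : Module.Invertible A I := by
  obtain ⟨h1, h2⟩ := h.ideal_finite_projective I
  exact invertible_of_projective_of_faithful I hI

end Main

end Diag

section BaseChange

variable (k R B A : Type*) [CommRing k] [CommRing R] [CommRing B] [CommRing A]
  [Algebra k R] [Algebra k B] [Algebra k A] [Algebra R A] [Algebra B A]
  [IsScalarTower k R A] [IsScalarTower k B A]

/-- The map `R ⊗[k] R → A ⊗[B] A` induced by `R → A`. -/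
noncomputable def tensorSq : R ⊗[k] R →ₐ[k] A ⊗[B] A :=
  Algebra.TensorProduct.lift
    (((Algebra.TensorProduct.includeLeft : A →ₐ[B] A ⊗[B] A).restrictScalars k).comp
      (IsScalarTower.toAlgHom k R A))
    (((Algebra.TensorProduct.includeRight : A →ₐ[B] A ⊗[B] A).restrictScalars k).comp
      (IsScalarTower.toAlgHom k R A))
    (fun _ _ => Commute.all _ _)

variable {k R B A}

@[simp]
theorem tensorSq_tmul (r r' : R) :
    tensorSq k R B A (r ⊗ₜ[k] r') = (algebraMap R A r) ⊗ₜ[B] (algebraMap R A r') := by
  simp [tensorSq]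

theorem lmul'_tensorSq (s : R ⊗[k] R) :
    Algebra.TensorProduct.lmul' B (tensorSq k R B A s) =
      algebraMap R A (Algebra.TensorProduct.lmul' k s) := by
  induction s using TensorProduct.induction_on with
  | zero => simp
  | add s s' hs hs' => simp only [map_add, hs, hs']
  | tmul r r' => simp

/-- **Base change of the diagonal dual basis**: if `R` has a diagonal dual basis over `k` and
`A` is the pushout of `R` and `B` over `k`, then `A` has a diagonal dual basis over `B`. -/
theorem HasDiagBasis.of_isPushout [Algebra.IsPushout k B R A] (h : HasDiagBasis k R) :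
    HasDiagBasis B A := by
  obtain ⟨n, j, D, hj, hD, hsum⟩ := h
  have hbc : IsBaseChange B (IsScalarTower.toAlgHom k R A).toLinearMap :=
    Algebra.IsPushout.out
  let D' : Fin n → (A →ₗ[B] A ⊗[B] A) := fun i =>
    hbc.lift ((tensorSq k R B A).toLinearMap ∘ₗ D i)
  have hD' : ∀ i (r : R), D' i (algebraMap R A r) = tensorSq k R B A (D i r) := fun i r =>
    hbc.lift_eq ((tensorSq k R B A).toLinearMap ∘ₗ D i) r
  have he : ∀ r : R, (IsScalarTower.toAlgHom k R A).toLinearMap r = algebraMap R A r :=
    fun _ => rfl
  refine ⟨n, fun i => tensorSq k R B A (j i), D', ?_, ?_, ?_⟩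
  · intro i
    rw [lmul'_tensorSq, hj, map_zero]
  · intro i a x
    induction a using hbc.inductionOn with
    | zero => simp
    | add a a' ha ha' =>
      rw [add_mul, map_add, ha, ha', TensorProduct.add_tmul, map_add]
      ring
    | smul b a ha =>
      rw [smul_mul_assoc, map_smul, ha, map_smul, smul_add, ← smul_mul_assoc,
        TensorProduct.smul_tmul', mul_smul_comm]
    | tmul r =>
      induction x using hbc.inductionOn with
      | zero => simp
      | add x x' hx hx' =>
        rw [mul_add, map_add, hx, hx', TensorProduct.tmul_add, map_add]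
        ring
      | smul b x hx =>
        rw [mul_smul_comm, map_smul, hx, map_smul, TensorProduct.tmul_smul, smul_add,
          mul_smul_comm, smul_mul_assoc]
      | tmul r' =>
        simp only [he]
        rw [← map_mul, hD', hD', hD', hD, map_add, map_mul, map_mul, tensorSq_tmul,
          tensorSq_tmul, map_one]
  · intro x
    induction x using hbc.inductionOn with
    | zero => simp
    | add x x' hx hx' =>
      simp only [map_add, add_mul, Finset.sum_add_distrib, hx, hx', TensorProduct.add_tmul,
        TensorProduct.tmul_add]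
      abel
    | smul b x hx =>
      simp only [map_smul, smul_mul_assoc, ← Finset.smul_sum, hx, smul_sub,
        TensorProduct.smul_tmul', TensorProduct.tmul_smul]
    | tmul r =>
      simp only [he, hD', ← map_mul, ← map_sum, hsum, map_sub, tensorSq_tmul, map_one]

end BaseChange

section NoFiniteIdeal

variable {k R B A : Type*} [Field k] [CommRing R] [CommRing B] [CommRing A]
  [Algebra k R] [Algebra k B] [Algebra k A] [Algebra R A] [Algebra B A]
  [IsScalarTower k R A] [IsScalarTower k B A]

/-- Coordinates of `b • a` in a basis of `A` over `R` coming from a `k`-basis of `B` are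
`k`-linear combinations of the coordinates of `a`. -/
theorem repr_smul_mem_of_isBaseChange {ι : Type*} (β : Module.Basis ι k B)
    (ibc : IsBaseChange R (IsScalarTower.toAlgHom k B A).toLinearMap) (V : Submodule k R)
    (a : A) (ha : ∀ t, (ibc.basis β).repr a t ∈ V) (b : B) (s : ι) :
    (ibc.basis β).repr (b • a) s ∈ V := by
  set γ := ibc.basis β with hγ
  let L : A →ₗ[R] R :=
    (Finsupp.lapply s) ∘ₗ γ.repr.toLinearMap ∘ₗ (LinearMap.mulLeft R (algebraMap B A b))
  have hLa : L a = γ.repr (b • a) s := by
    simp [L, Algebra.smul_def]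
  have hLγ : ∀ t, L (γ t) = algebraMap k R (β.repr (b * β t) s) := by
    intro t
    have h1 : γ t = algebraMap B A (β t) := ibc.basis_apply β t
    have h2 : algebraMap B A b * γ t = (IsScalarTower.toAlgHom k B A).toLinearMap (b * β t) := by
      rw [h1]
      simp
    simp only [L, LinearMap.coe_comp, Function.comp_apply, LinearMap.mulLeft_apply,
      LinearEquiv.coe_coe, Finsupp.lapply_apply]
    rw [h2]
    exact ibc.basis_repr_comp_apply β (b * β t) s
  have hL : L a = (γ.repr a).sum (fun t r => r • L (γ t)) := by
    conv_lhs => rw [← γ.linearCombination_repr a, Finsupp.linearCombination_apply,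
      map_finsuppSum]
    simp [map_smul]
  rw [← hLa, hL]
  refine Submodule.sum_mem _ fun t _ => ?_
  show γ.repr a t • L (γ t) ∈ V
  rw [hLγ, smul_eq_mul, mul_comm, ← Algebra.smul_def]
  exact V.smul_mem _ (ha t)

/-- If `R` is a domain that is not finite over the field `k`, and `A` is the pushout of `R`
and `B` over `k`, then the only ideal of `A` contained in a finitely generated `B`-submodule
of `A` is zero. -/
theorem ideal_eq_bot_of_le_fg [IsDomain R] [Algebra.IsPushout k B R A]
    (hR : ¬ Module.Finite k R) (𝔞 : Ideal A) (N : Submodule B A) (hN : N.FG)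
    (h : ∀ a ∈ 𝔞, a ∈ N) : 𝔞 = ⊥ := by
  classical
  have ibc : IsBaseChange R (IsScalarTower.toAlgHom k B A).toLinearMap :=
    (Algebra.IsPushout.symm (inferInstance : Algebra.IsPushout k B R A)).out
  let β := Module.Free.chooseBasis k B
  set γ := ibc.basis β with hγ
  obtain ⟨S, hS⟩ := hN
  -- the finite-dimensional space containing all coordinates
  let F : Finset R := S.biUnion fun n => (γ.repr n).support.image (γ.repr n)
  let V : Submodule k R := Submodule.span k (F : Set R)
  have hVgen : ∀ n ∈ S, ∀ t, γ.repr n t ∈ V := by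
    intro n hn t
    by_cases ht : t ∈ (γ.repr n).support
    · refine Submodule.subset_span ?_
      simp only [F, Finset.coe_biUnion, Set.mem_iUnion, Finset.mem_coe]
      exact ⟨n, hn, Finset.mem_image_of_mem _ ht⟩
    · rw [Finsupp.notMem_support_iff.mp ht]
      exact V.zero_mem
  have hVN : ∀ a ∈ N, ∀ t, γ.repr a t ∈ V := by
    intro a ha
    rw [← hS] at ha
    induction ha using Submodule.span_induction with
    | mem n hn => exact hVgen n hn
    | zero => intro t; simp
    | add x y _ _ hx hy => intro t; rw [map_add, Finsupp.add_apply]; exact V.add_mem (hx t) (hy t)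
    | smul b x _ hx => intro t; exact repr_smul_mem_of_isBaseChange β ibc V x hx b t
  have hfin : Module.Finite k V := Module.Finite.iff_fg.mpr (Submodule.fg_span F.finite_toSet)
  rw [eq_bot_iff]
  intro r hr
  rw [Submodule.mem_bot]
  apply γ.repr.injective
  rw [map_zero]
  ext s
  rw [Finsupp.zero_apply]
  by_contra hne
  apply hR
  -- multiplication by the nonzero coordinate embeds `R` into `V`
  have hmem : ∀ r' : R, r' * γ.repr r s ∈ V := by
    intro r'
    have h1 : r' • r ∈ N := h _ (by
      rw [Algebra.smul_def]
      exact 𝔞.mul_mem_left _ hr)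
    have h2 := hVN _ h1 s
    rwa [map_smul, Finsupp.smul_apply, smul_eq_mul] at h2
  let f : R →ₗ[k] V :=
    { toFun := fun r' => ⟨r' * γ.repr r s, hmem r'⟩
      map_add' := fun x y => by
        apply Subtype.ext
        simp [add_mul]
      map_smul' := fun c x => by
        apply Subtype.ext
        simp }
  have hf : Function.Injective f := by
    intro x y hxy
    have := congrArg Subtype.val hxy
    simpa [f, hne] using this
  exact Module.Finite.of_injective f hf

/-- If `R` is a domain that is not finite over the field `k`, `A` is the pushout of `R` and `B`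
over `k`, and `I` is an ideal of `A` with `A ⧸ I` finite over `B`, then `I` has trivial
annihilator. -/
theorem eq_zero_of_mul_eq_zero_of_finite_quotient [IsDomain R] [Algebra.IsPushout k B R A]
    (hR : ¬ Module.Finite k R) (I : Ideal A) [Module.Finite B (A ⧸ I)]
    (r : A) (hr : ∀ x ∈ I, r * x = 0) : r = 0 := by
  -- the ideal `(r)` is a quotient of `A ⧸ I`
  let g : A ⧸ I →ₗ[A] A := Submodule.liftQ I (LinearMap.mulLeft A r) (by
    intro x hx
    simpa [LinearMap.mem_ker] using hr x hx)
  have hg : ∀ a : A, g (Submodule.Quotient.mk a) = r * a := fun a => rfl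
  let N : Submodule B A := LinearMap.range (g.restrictScalars B)
  have hN : N.FG := by
    have : Module.Finite B N := Module.Finite.range (g.restrictScalars B)
    exact Module.Finite.iff_fg.mp this
  have hbot : Ideal.span {r} = ⊥ := by
    refine ideal_eq_bot_of_le_fg hR (Ideal.span {r}) N hN ?_
    intro a ha
    obtain ⟨c, rfl⟩ := Ideal.mem_span_singleton'.mp ha
    exact ⟨Submodule.Quotient.mk c, (hg c).trans (mul_comm r c)⟩
  simpa using hbot

end NoFiniteIdeal

section Final

variable {k R B A : Type*} [Field k] [CommRing R] [CommRing B] [CommRing A]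
  [Algebra k R] [Algebra k B] [Algebra k A] [Algebra R A] [Algebra B A]
  [IsScalarTower k R A] [IsScalarTower k B A]

/-- **Divisor ideals are invertible (pushout form).**  Let `R` be a domain, not finite over the
field `k`, whose diagonal ideal has a dual basis (e.g. is finitely generated projective), and
let `A` be the pushout of `R` and `B` over `k` (e.g. `A = R ⊗[k] B`).  If `I` is an ideal of `A`
such that `A ⧸ I` is finitely generated projective over `B`, then `I` is an invertible
`A`-module. -/
theorem divisorIdeal_invertible [IsDomain R] [Algebra.IsPushout k B R A]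
    (hdiag : HasDiagBasis k R) (hR : ¬ Module.Finite k R) (I : Ideal A)
    [Module.Finite B (A ⧸ I)] [Module.Projective B (A ⧸ I)] : Module.Invertible A I := by
  have h2 : HasDiagBasis B A := hdiag.of_isPushout
  exact h2.ideal_invertible I
    (eq_zero_of_mul_eq_zero_of_finite_quotient (k := k) (R := R) (B := B) hR I)

/-- Variant of `divisorIdeal_invertible` with the diagonal ideal of `R` assumed invertible. -/
theorem divisorIdeal_invertible' [IsDomain R] [Algebra.IsPushout k B R A]
    [Module.Invertible (R ⊗[k] R) (KaehlerDifferential.ideal k R)]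
    (hR : ¬ Module.Finite k R) (I : Ideal A)
    [Module.Finite B (A ⧸ I)] [Module.Projective B (A ⧸ I)] : Module.Invertible A I :=
  divisorIdeal_invertible (B := B) (hasDiagBasis_of_projective (B := k) (A := R)) hR I

end Final

section Concrete

/-- Over an algebraically closed field, a domain with invertible module of differentials is not
finite over the base field. -/
theorem not_finite_of_invertible_kaehler (k R : Type*) [Field k] [IsAlgClosed k] [CommRing R]
    [IsDomain R] [Algebra k R] [Module.Invertible R (Ω[R⁄k])] : ¬ Module.Finite k R := by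
  intro hfin
  have hsurj : Function.Surjective (algebraMap k R) :=
    (IsAlgClosed.algebraMap_bijective_of_isIntegral (k := k) (K := R)).2
  have hsub : Subsingleton (Ω[R⁄k]) := KaehlerDifferential.subsingleton_of_surjective k R hsurj
  have e := Module.Invertible.linearEquiv R (Ω[R⁄k])
  have : Subsingleton R := e.symm.toEquiv.subsingleton
  exact not_subsingleton R this

attribute [local instance] Algebra.TensorProduct.rightAlgebra in
/-- **Divisor ideals are invertible (tensor form `R ⊗[k] B`)**, with `B` acting on `R ⊗[k] B`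
through the right factor (`Algebra.TensorProduct.rightAlgebra`). -/
theorem divisorIdeal_invertible_tensorRight {k R B : Type*} [Field k] [CommRing R] [CommRing B]
    [Algebra k R] [Algebra k B] [IsDomain R] (hdiag : HasDiagBasis k R)
    (hR : ¬ Module.Finite k R) (I : Ideal (R ⊗[k] B))
    [Module.Finite B ((R ⊗[k] B) ⧸ I)] [Module.Projective B ((R ⊗[k] B) ⧸ I)] :
    Module.Invertible (R ⊗[k] B) I :=
  divisorIdeal_invertible (k := k) (R := R) (B := B) hdiag hR I

attribute [local instance] Algebra.TensorProduct.rightAlgebra in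
/-- **Divisor ideals are invertible (tensor form `B ⊗[k] R`)**, with `B` acting on `B ⊗[k] R`
through the left factor. -/
theorem divisorIdeal_invertible_tensorLeft {k R B : Type*} [Field k] [CommRing R] [CommRing B]
    [Algebra k R] [Algebra k B] [IsDomain R] (hdiag : HasDiagBasis k R)
    (hR : ¬ Module.Finite k R) (I : Ideal (B ⊗[k] R))
    [Module.Finite B ((B ⊗[k] R) ⧸ I)] [Module.Projective B ((B ⊗[k] R) ⧸ I)] :
    Module.Invertible (B ⊗[k] R) I :=
  divisorIdeal_invertible (k := k) (R := R) (B := B) hdiag hR I

end Concrete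

end Fermat.Agent.S25.helper5597
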