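import Fermat.Agent.S25.helper1705_Curve

set_option autoImplicit false

open TensorProduct

namespace Fermat.Agent.S25.helper2945

universe u

/-! ## Base change of a linear map along a commutative square of rings -/

section SqBaseChange

variable {R S R' S' : Type*} [CommRing R] [CommRing S] [CommRing R'] [CommRing S']
  [Algebra R S] [Algebra R R'] [Algebra R' S'] [Algebra S S'] [Algebra R S']
  [IsScalarTower R S S'] [IsScalarTower R R' S']
  {M N : Type*} [AddCommGroup M] [AddCommGroup N] [Module R M] [Module S N] [Module R N]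
  [IsScalarTower R S N]

/-- Base change of an `R`-linear map `f : M → N` (with `N` an `S`-module) along a commutative
square `R → S`, `R → R'`, `R' → S'`, `S → S'`: the map `R' ⊗[R] M → S' ⊗[S] N`,
`r ⊗ m ↦ r ⊗ f m`. -/
noncomputable def sqBaseChange (f : M →ₗ[R] N) : R' ⊗[R] M →ₗ[R'] S' ⊗[S] N :=
  LinearMap.liftBaseChange R' (((TensorProduct.mk S S' N 1).restrictScalars R).comp f)

@[simp] theorem sqBaseChange_tmul (f : M →ₗ[R] N) (r : R') (m : M) :
    sqBaseChange (S := S) (S' := S') f (r ⊗ₜ m) = algebraMap R' S' r ⊗ₜ f m := by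
  simp [sqBaseChange, TensorProduct.smul_tmul', Algebra.smul_def]

theorem isBaseChange_sqBaseChange (f : M →ₗ[R] N) (hf : IsBaseChange S f) :
    IsBaseChange S' (sqBaseChange (S := S) (R' := R') (S' := S') f) := by
  have h2 : IsBaseChange S' (TensorProduct.mk S S' N 1) := TensorProduct.isBaseChange S N S'
  have h3 := IsBaseChange.comp hf h2
  have h4 : IsBaseChange R' (TensorProduct.mk R R' M 1) := TensorProduct.isBaseChange R M R'
  refine IsBaseChange.of_comp h4 ?_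
  convert h3 using 1
  ext m
  simp

end SqBaseChange

/-! ## Extra structure on the rings of a curve datum (on top of `helper1705.CurveDatum`) -/

open Fermat.Agent.S25.helper1705

section Rings

variable {k : Type u} [Field k] (D : CurveDatum k) (B : Type u) [CommRing B] [Algebra k B]

/-- `R₀ ⊗ B` as a `B`-algebra (right factor). -/
noncomputable instance algebraBA₀ : Algebra B (D.A₀ B) := Algebra.TensorProduct.rightAlgebra
/-- `R₁ ⊗ B` as a `B`-algebra (right factor). -/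
noncomputable instance algebraBA₁ : Algebra B (D.A₁ B) := Algebra.TensorProduct.rightAlgebra
/-- `R₀₁ ⊗ B` as a `B`-algebra (right factor). -/
noncomputable instance algebraBA₀₁ : Algebra B (D.A₀₁ B) := Algebra.TensorProduct.rightAlgebra

/-- `R₀₁ ⊗ B` as an algebra over `R₀ ⊗ B`, through `D.res₀ B`. -/
noncomputable instance algebraA₀A₀₁ : Algebra (D.A₀ B) (D.A₀₁ B) := (D.res₀ B).toRingHom.toAlgebra
/-- `R₀₁ ⊗ B` as an algebra over `R₁ ⊗ B`, through `D.res₁ B`. -/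
noncomputable instance algebraA₁A₀₁ : Algebra (D.A₁ B) (D.A₀₁ B) := (D.res₁ B).toRingHom.toAlgebra

theorem algebraMap_B_A₀ (b : B) : algebraMap B (D.A₀ B) b = 1 ⊗ₜ b := rfl
theorem algebraMap_B_A₁ (b : B) : algebraMap B (D.A₁ B) b = 1 ⊗ₜ b := rfl
theorem algebraMap_B_A₀₁ (b : B) : algebraMap B (D.A₀₁ B) b = 1 ⊗ₜ b := rfl

theorem algebraMap_A₀_A₀₁ : algebraMap (D.A₀ B) (D.A₀₁ B) = (D.res₀ B).toRingHom := rfl
theorem algebraMap_A₁_A₀₁ : algebraMap (D.A₁ B) (D.A₀₁ B) = (D.res₁ B).toRingHom := rfl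

theorem algebraMap_A₀_A₀₁_apply (a : D.A₀ B) : algebraMap (D.A₀ B) (D.A₀₁ B) a = D.res₀ B a := rfl
theorem algebraMap_A₁_A₀₁_apply (a : D.A₁ B) : algebraMap (D.A₁ B) (D.A₀₁ B) a = D.res₁ B a := rfl

@[simp] theorem algebraMap_A₀_A₀₁_tmul (r : D.R₀) (b : B) :
    algebraMap (D.A₀ B) (D.A₀₁ B) (r ⊗ₜ b) = algebraMap D.R₀ D.R₀₁ r ⊗ₜ b := rfl
@[simp] theorem algebraMap_A₁_A₀₁_tmul (r : D.R₁) (b : B) :
    algebraMap (D.A₁ B) (D.A₀₁ B) (r ⊗ₜ b) = algebraMap D.R₁ D.R₀₁ r ⊗ₜ b := rfl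

/-- The coordinate `x` on the first chart of `C ×ₖ Spec B`. -/
def xB : D.A₀ B := D.x ⊗ₜ 1
/-- The coordinate `y = 1/x` on the second chart of `C ×ₖ Spec B`. -/
def yB : D.A₁ B := D.y ⊗ₜ 1

theorem xB_mul_yB :
    algebraMap (D.A₀ B) (D.A₀₁ B) (xB D B) * algebraMap (D.A₁ B) (D.A₀₁ B) (yB D B) = 1 := by
  simp only [xB, yB, algebraMap_A₀_A₀₁_tmul, algebraMap_A₁_A₀₁_tmul,
    Algebra.TensorProduct.tmul_mul_tmul, D.xy, mul_one]
  rfl

instance towerR₀A₀A₀₁ : IsScalarTower D.R₀ (D.A₀ B) (D.A₀₁ B) :=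
  IsScalarTower.of_algebraMap_eq fun r => by
    simp [Algebra.TensorProduct.algebraMap_apply, algebraMap_A₀_A₀₁]

instance towerR₁A₁A₀₁ : IsScalarTower D.R₁ (D.A₁ B) (D.A₀₁ B) :=
  IsScalarTower.of_algebraMap_eq fun r => by
    simp [Algebra.TensorProduct.algebraMap_apply, algebraMap_A₁_A₀₁]

instance towerBA₀A₀₁ : IsScalarTower B (D.A₀ B) (D.A₀₁ B) :=
  IsScalarTower.of_algebraMap_eq fun b => by
    simp [algebraMap_B_A₀, algebraMap_B_A₀₁, algebraMap_A₀_A₀₁]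

instance towerBA₁A₀₁ : IsScalarTower B (D.A₁ B) (D.A₀₁ B) :=
  IsScalarTower.of_algebraMap_eq fun b => by
    simp [algebraMap_B_A₁, algebraMap_B_A₀₁, algebraMap_A₁_A₀₁]

instance towerkBA₀ : IsScalarTower k B (D.A₀ B) :=
  IsScalarTower.of_algebraMap_eq fun c => by
    simp [Algebra.algebraMap_eq_smul_one]

instance towerkBA₁ : IsScalarTower k B (D.A₁ B) :=
  IsScalarTower.of_algebraMap_eq fun c => by
    simp [Algebra.algebraMap_eq_smul_one]

instance towerkBA₀₁ : IsScalarTower k B (D.A₀₁ B) :=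
  IsScalarTower.of_algebraMap_eq fun c => by
    simp [Algebra.algebraMap_eq_smul_one]

instance awayA₀ : IsLocalization.Away (xB D B) (D.A₀₁ B) := by
  have h : Submonoid.powers (xB D B) =
      Algebra.algebraMapSubmonoid (D.A₀ B) (Submonoid.powers D.x) := by
    simp [xB, Algebra.TensorProduct.algebraMap_apply]
  rw [IsLocalization.Away, h]
  refine IsLocalization.tensorProduct_tensorProduct _ _ _ _ ?_
  ext b
  simp [RingHom.algebraMap_toAlgebra]

instance awayA₁ : IsLocalization.Away (yB D B) (D.A₀₁ B) := by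
  have h : Submonoid.powers (yB D B) =
      Algebra.algebraMapSubmonoid (D.A₁ B) (Submonoid.powers D.y) := by
    simp [yB, Algebra.TensorProduct.algebraMap_apply]
  rw [IsLocalization.Away, h]
  refine IsLocalization.tensorProduct_tensorProduct _ _ _ _ ?_
  ext b
  simp [RingHom.algebraMap_toAlgebra]

@[simp] theorem eB_tmul (r : D.R₁) (b : B) : D.eB B (r ⊗ₜ b) = algebraMap k B (D.e r) * b := by
  simp [CurveDatum.eB, Algebra.ofId_apply]

theorem eB_algebraMap (b : B) : D.eB B (algebraMap B (D.A₁ B) b) = b := by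
  simp [algebraMap_B_A₁]

theorem eB_yB : D.eB B (yB D B) = 0 := by
  simp [yB, D.ey]

/-- `B` as an algebra over `R₁ ⊗ B` through the section `ε` (NOT an instance). -/
@[reducible] noncomputable def algE : Algebra (D.A₁ B) B := (D.eB B).toRingHom.toAlgebra

section MapRings

variable {B} {B' : Type u} [CommRing B'] [Algebra k B'] (φ : B →ₐ[k] B')

@[simp] theorem map₀_tmul (r : D.R₀) (b : B) : D.map₀ φ (r ⊗ₜ b) = r ⊗ₜ φ b := rfl
@[simp] theorem map₁_tmul (r : D.R₁) (b : B) : D.map₁ φ (r ⊗ₜ b) = r ⊗ₜ φ b := rfl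
@[simp] theorem map₀₁_tmul (r : D.R₀₁) (b : B) : D.map₀₁ φ (r ⊗ₜ b) = r ⊗ₜ φ b := rfl

/-- `R₀ ⊗ B'` as an algebra over `R₀ ⊗ B` (NOT an instance: depends on `φ`). -/
@[reducible] noncomputable def algA₀ : Algebra (D.A₀ B) (D.A₀ B') := (D.map₀ φ).toRingHom.toAlgebra
/-- `R₁ ⊗ B'` as an algebra over `R₁ ⊗ B` (NOT an instance: depends on `φ`). -/
@[reducible] noncomputable def algA₁ : Algebra (D.A₁ B) (D.A₁ B') := (D.map₁ φ).toRingHom.toAlgebra
/-- `R₀₁ ⊗ B'` as an algebra over `R₀₁ ⊗ B` (NOT an instance: depends on `φ`). -/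
@[reducible] noncomputable def algA₀₁ : Algebra (D.A₀₁ B) (D.A₀₁ B') :=
  (D.map₀₁ φ).toRingHom.toAlgebra
/-- `R₀₁ ⊗ B'` as an algebra over `R₀ ⊗ B` (NOT an instance: depends on `φ`). -/
@[reducible] noncomputable def algA₀A₀₁ : Algebra (D.A₀ B) (D.A₀₁ B') :=
  ((D.res₀ B').toRingHom.comp (D.map₀ φ).toRingHom).toAlgebra
/-- `R₀₁ ⊗ B'` as an algebra over `R₁ ⊗ B` (NOT an instance: depends on `φ`). -/
@[reducible] noncomputable def algA₁A₀₁ : Algebra (D.A₁ B) (D.A₀₁ B') :=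
  ((D.res₁ B').toRingHom.comp (D.map₁ φ).toRingHom).toAlgebra

theorem res₀_map₀ (a : D.A₀ B) : D.res₀ B' (D.map₀ φ a) = D.map₀₁ φ (D.res₀ B a) := by
  induction a using TensorProduct.induction_on with
  | zero => simp
  | tmul r b => rfl
  | add a b ha hb => simp [ha, hb]

theorem res₁_map₁ (a : D.A₁ B) : D.res₁ B' (D.map₁ φ a) = D.map₀₁ φ (D.res₁ B a) := by
  induction a using TensorProduct.induction_on with
  | zero => simp
  | tmul r b => rfl
  | add a b ha hb => simp [ha, hb]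

theorem eB_map₁ (a : D.A₁ B) : D.eB B' (D.map₁ φ a) = φ (D.eB B a) := by
  induction a using TensorProduct.induction_on with
  | zero => simp
  | tmul r b => simp
  | add a b ha hb => simp [ha, hb]

theorem map₀_xB : D.map₀ φ (xB D B) = xB D B' := by simp [xB]
theorem map₁_yB : D.map₁ φ (yB D B) = yB D B' := by simp [yB]

theorem tower_A₀_A₀₁_A₀₁' :
    @IsScalarTower (D.A₀ B) (D.A₀₁ B) (D.A₀₁ B') _ (algA₀₁ D φ).toSMul (algA₀A₀₁ D φ).toSMul := by
  let _ := algA₀₁ D φ; let _ := algA₀A₀₁ D φ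
  exact IsScalarTower.of_algebraMap_eq fun a => res₀_map₀ D φ a

theorem tower_A₀_A₀'_A₀₁' :
    @IsScalarTower (D.A₀ B) (D.A₀ B') (D.A₀₁ B') (algA₀ D φ).toSMul _ (algA₀A₀₁ D φ).toSMul := by
  let _ := algA₀ D φ; let _ := algA₀A₀₁ D φ
  exact IsScalarTower.of_algebraMap_eq fun a => rfl

theorem tower_A₁_A₀₁_A₀₁' :
    @IsScalarTower (D.A₁ B) (D.A₀₁ B) (D.A₀₁ B') _ (algA₀₁ D φ).toSMul (algA₁A₀₁ D φ).toSMul := by
  let _ := algA₀₁ D φ; let _ := algA₁A₀₁ D φ
  exact IsScalarTower.of_algebraMap_eq fun a => res₁_map₁ D φ a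

theorem tower_A₁_A₁'_A₀₁' :
    @IsScalarTower (D.A₁ B) (D.A₁ B') (D.A₀₁ B') (algA₁ D φ).toSMul _ (algA₁A₀₁ D φ).toSMul := by
  let _ := algA₁ D φ; let _ := algA₁A₀₁ D φ
  exact IsScalarTower.of_algebraMap_eq fun a => rfl

end MapRings

end Rings

/-! ## Two-chart line bundles -/

/-- A line bundle on `C ×ₖ Spec B` in two-chart form: invertible modules `M₀`, `M₁` over the two
charts, a module `M₀₁` over the overlap, and restriction maps `ρ₀`, `ρ₁` which are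
localizations at `x`, resp. `y`. The module `M₀₁` carries compatible module structures over
the three rings `D.A₀ B`, `D.A₁ B`, `D.A₀₁ B`. -/
structure GlueDatum {k : Type u} [Field k] (D : CurveDatum k) (B : Type u) [CommRing B]
    [Algebra k B] where
  /-- sections over the first chart -/
  M₀ : Type u
  /-- sections over the chart at infinity -/
  M₁ : Type u
  /-- sections over the overlap -/
  M₀₁ : Type u
  [addCommGroup₀ : AddCommGroup M₀]
  [addCommGroup₁ : AddCommGroup M₁]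
  [addCommGroup₀₁ : AddCommGroup M₀₁]
  [module₀ : Module (D.A₀ B) M₀]
  [module₁ : Module (D.A₁ B) M₁]
  [module₀₁ : Module (D.A₀₁ B) M₀₁]
  [module₀_₀₁ : Module (D.A₀ B) M₀₁]
  [module₁_₀₁ : Module (D.A₁ B) M₀₁]
  [tower₀ : IsScalarTower (D.A₀ B) (D.A₀₁ B) M₀₁]
  [tower₁ : IsScalarTower (D.A₁ B) (D.A₀₁ B) M₀₁]
  /-- restriction from the first chart to the overlap -/
  ρ₀ : M₀ →ₗ[D.A₀ B] M₀₁
  /-- restriction from the chart at infinity to the overlap -/
  ρ₁ : M₁ →ₗ[D.A₁ B] M₀₁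
  [loc₀ : IsLocalizedModule (Submonoid.powers (xB D B)) ρ₀]
  [loc₁ : IsLocalizedModule (Submonoid.powers (yB D B)) ρ₁]
  [inv₀ : Module.Invertible (D.A₀ B) M₀]
  [inv₁ : Module.Invertible (D.A₁ B) M₁]

attribute [instance] GlueDatum.addCommGroup₀ GlueDatum.addCommGroup₁ GlueDatum.addCommGroup₀₁
  GlueDatum.module₀ GlueDatum.module₁ GlueDatum.module₀₁ GlueDatum.module₀_₀₁
  GlueDatum.module₁_₀₁ GlueDatum.tower₀ GlueDatum.tower₁ GlueDatum.loc₀ GlueDatum.loc₁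
  GlueDatum.inv₀ GlueDatum.inv₁

namespace GlueDatum

variable {k : Type u} [Field k] {D : CurveDatum k} {B : Type u} [CommRing B] [Algebra k B]

section BModule

variable (G : GlueDatum D B)

/-- `M₀` as a `B`-module (through `B → R₀ ⊗ B`). -/
noncomputable instance moduleB₀ : Module B G.M₀ :=
  Module.compHom G.M₀ (algebraMap B (D.A₀ B))

/-- `M₁` as a `B`-module (through `B → R₁ ⊗ B`). -/
noncomputable instance moduleB₁ : Module B G.M₁ :=
  Module.compHom G.M₁ (algebraMap B (D.A₁ B))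

/-- `M₀₁` as a `B`-module (through `B → R₀₁ ⊗ B`). -/
noncomputable instance moduleB₀₁ : Module B G.M₀₁ :=
  Module.compHom G.M₀₁ (algebraMap B (D.A₀₁ B))

theorem smul_def₀ (b : B) (m : G.M₀) : b • m = algebraMap B (D.A₀ B) b • m := rfl
theorem smul_def₁ (b : B) (m : G.M₁) : b • m = algebraMap B (D.A₁ B) b • m := rfl
theorem smul_def₀₁ (b : B) (m : G.M₀₁) : b • m = algebraMap B (D.A₀₁ B) b • m := rfl

instance towerB₀ : IsScalarTower B (D.A₀ B) G.M₀ :=
  ⟨fun b a m => by rw [smul_def₀, Algebra.smul_def, mul_smul]⟩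

instance towerB₁ : IsScalarTower B (D.A₁ B) G.M₁ :=
  ⟨fun b a m => by rw [smul_def₁, Algebra.smul_def, mul_smul]⟩

instance towerB₀₁ : IsScalarTower B (D.A₀₁ B) G.M₀₁ :=
  ⟨fun b a m => by rw [smul_def₀₁, Algebra.smul_def, mul_smul]⟩

theorem smul_def₀₁_₀ (b : B) (m : G.M₀₁) : b • m = algebraMap B (D.A₀ B) b • m := by
  rw [smul_def₀₁, IsScalarTower.algebraMap_apply B (D.A₀ B) (D.A₀₁ B), algebraMap_smul]

theorem smul_def₀₁_₁ (b : B) (m : G.M₀₁) : b • m = algebraMap B (D.A₁ B) b • m := by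
  rw [smul_def₀₁, IsScalarTower.algebraMap_apply B (D.A₁ B) (D.A₀₁ B), algebraMap_smul]

instance towerB₀_₀₁ : IsScalarTower B (D.A₀ B) G.M₀₁ :=
  ⟨fun b a m => by rw [smul_def₀₁_₀, Algebra.smul_def, mul_smul]⟩

instance towerB₁_₀₁ : IsScalarTower B (D.A₁ B) G.M₀₁ :=
  ⟨fun b a m => by rw [smul_def₀₁_₁, Algebra.smul_def, mul_smul]⟩

/-- `ρ₀` as a `B`-linear map. -/
noncomputable def ρ₀B : G.M₀ →ₗ[B] G.M₀₁ := G.ρ₀.restrictScalars B

/-- `ρ₁` as a `B`-linear map. -/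
noncomputable def ρ₁B : G.M₁ →ₗ[B] G.M₀₁ := G.ρ₁.restrictScalars B

@[simp] theorem ρ₀B_apply (m : G.M₀) : G.ρ₀B m = G.ρ₀ m := rfl
@[simp] theorem ρ₁B_apply (m : G.M₁) : G.ρ₁B m = G.ρ₁ m := rfl

/-- The Čech differential `M₀ × M₁ → M₀₁`, `(a, b) ↦ a|₀₁ - b|₀₁`. -/
noncomputable def delta : (G.M₀ × G.M₁) →ₗ[B] G.M₀₁ :=
  G.ρ₀B.coprod (-G.ρ₁B)

@[simp] theorem delta_apply (p : G.M₀ × G.M₁) : G.delta p = G.ρ₀ p.1 - G.ρ₁ p.2 := by
  simp [delta, sub_eq_add_neg]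

/-- `H⁰(C_B, L)` as a `B`-submodule of `M₀ × M₁`. -/
noncomputable def H0 : Submodule B (G.M₀ × G.M₁) := LinearMap.ker G.delta

theorem mem_H0 (p : G.M₀ × G.M₁) : p ∈ G.H0 ↔ G.ρ₀ p.1 = G.ρ₁ p.2 := by
  rw [H0, LinearMap.mem_ker, delta_apply, sub_eq_zero]

/-- `H¹(C_B, L)` as a `B`-module. -/
abbrev H1 : Type u := G.M₀₁ ⧸ LinearMap.range G.delta

/-- Euler characteristic `dim H⁰ - dim H¹` (meaningful when `B` is a field). -/
noncomputable def chi : ℤ := (Module.finrank B G.H0 : ℤ) - (Module.finrank B G.H1 : ℤ)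

end BModule

/-! ### Isomorphisms -/

/-- An isomorphism of two-chart line bundles. -/
structure Iso (G G' : GlueDatum D B) where
  /-- on the first chart -/
  e₀ : G.M₀ ≃ₗ[D.A₀ B] G'.M₀
  /-- on the chart at infinity -/
  e₁ : G.M₁ ≃ₗ[D.A₁ B] G'.M₁
  /-- on the overlap -/
  e₀₁ : G.M₀₁ ≃ₗ[D.A₀₁ B] G'.M₀₁
  comm₀ : ∀ m, e₀₁ (G.ρ₀ m) = G'.ρ₀ (e₀ m)
  comm₁ : ∀ m, e₀₁ (G.ρ₁ m) = G'.ρ₁ (e₁ m)

/-- The identity isomorphism. -/
def Iso.refl (G : GlueDatum D B) : Iso G G where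
  e₀ := LinearEquiv.refl _ _
  e₁ := LinearEquiv.refl _ _
  e₀₁ := LinearEquiv.refl _ _
  comm₀ _ := rfl
  comm₁ _ := rfl

/-- The inverse isomorphism. -/
def Iso.symm {G G' : GlueDatum D B} (f : Iso G G') : Iso G' G where
  e₀ := f.e₀.symm
  e₁ := f.e₁.symm
  e₀₁ := f.e₀₁.symm
  comm₀ m := by
    rw [LinearEquiv.symm_apply_eq, f.comm₀, LinearEquiv.apply_symm_apply]
  comm₁ m := by
    rw [LinearEquiv.symm_apply_eq, f.comm₁, LinearEquiv.apply_symm_apply]

/-- Composition of isomorphisms. -/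
def Iso.trans {G G' G'' : GlueDatum D B} (f : Iso G G') (g : Iso G' G'') : Iso G G'' where
  e₀ := f.e₀.trans g.e₀
  e₁ := f.e₁.trans g.e₁
  e₀₁ := f.e₀₁.trans g.e₀₁
  comm₀ m := by simp [f.comm₀, g.comm₀]
  comm₁ m := by simp [f.comm₁, g.comm₁]

/-- Two two-chart line bundles are equivalent if they are isomorphic. -/
def Equiv (G G' : GlueDatum D B) : Prop := Nonempty (Iso G G')

theorem Equiv.refl (G : GlueDatum D B) : G.Equiv G := ⟨Iso.refl G⟩
theorem Equiv.symm {G G' : GlueDatum D B} (h : G.Equiv G') : G'.Equiv G := h.elim fun f => ⟨f.symm⟩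
theorem Equiv.trans {G G' G'' : GlueDatum D B} (h : G.Equiv G') (h' : G'.Equiv G'') :
    G.Equiv G'' := h.elim fun f => h'.elim fun g => ⟨f.trans g⟩

theorem equiv_equivalence : Equivalence (Equiv : GlueDatum D B → GlueDatum D B → Prop) :=
  ⟨Equiv.refl, Equiv.symm, Equiv.trans⟩

/-! ### The trivial bundle -/

variable (D B) in
/-- The trivial line bundle `𝒪` on `C ×ₖ Spec B`. -/
noncomputable def unit : GlueDatum D B where
  M₀ := D.A₀ B
  M₁ := D.A₁ B
  M₀₁ := D.A₀₁ B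
  ρ₀ := Algebra.linearMap (D.A₀ B) (D.A₀₁ B)
  ρ₁ := Algebra.linearMap (D.A₁ B) (D.A₀₁ B)

@[simp] theorem unit_ρ₀_apply (a : D.A₀ B) : (unit D B).ρ₀ a = algebraMap (D.A₀ B) (D.A₀₁ B) a := rfl
@[simp] theorem unit_ρ₁_apply (a : D.A₁ B) : (unit D B).ρ₁ a = algebraMap (D.A₁ B) (D.A₀₁ B) a := rfl

/-! ### Base change -/

section BaseChange

variable {B' : Type u} [CommRing B'] [Algebra k B']

/-- Base change of a two-chart line bundle along `φ : B → B'`: the three modules are tensored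
with `D.A₀ B'`, `D.A₁ B'`, `D.A₀₁ B'` over `D.A₀ B`, `D.A₁ B`, `D.A₀₁ B`
(algebra structures `algA₀ D φ`, `algA₁ D φ`, `algA₀₁ D φ`). -/
noncomputable def baseChange (G : GlueDatum D B) (φ : B →ₐ[k] B') : GlueDatum D B' :=
  letI := algA₀ D φ
  letI := algA₁ D φ
  letI := algA₀₁ D φ
  letI := algA₀A₀₁ D φ
  letI := algA₁A₀₁ D φ
  haveI := tower_A₀_A₀₁_A₀₁' D φ
  haveI := tower_A₀_A₀'_A₀₁' D φ
  haveI := tower_A₁_A₀₁_A₀₁' D φ
  haveI := tower_A₁_A₁'_A₀₁' D φ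
  { M₀ := D.A₀ B' ⊗[D.A₀ B] G.M₀
    M₁ := D.A₁ B' ⊗[D.A₁ B] G.M₁
    M₀₁ := D.A₀₁ B' ⊗[D.A₀₁ B] G.M₀₁
    ρ₀ := sqBaseChange (S := D.A₀₁ B) (S' := D.A₀₁ B') G.ρ₀
    ρ₁ := sqBaseChange (S := D.A₀₁ B) (S' := D.A₀₁ B') G.ρ₁
    loc₀ := (isLocalizedModule_iff_isBaseChange (S := Submonoid.powers (xB D B'))
      (A := D.A₀₁ B') _).mpr (isBaseChange_sqBaseChange _
        (IsLocalizedModule.isBaseChange (Submonoid.powers (xB D B)) (D.A₀₁ B) G.ρ₀))
    loc₁ := (isLocalizedModule_iff_isBaseChange (S := Submonoid.powers (yB D B'))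
      (A := D.A₀₁ B') _).mpr (isBaseChange_sqBaseChange _
        (IsLocalizedModule.isBaseChange (Submonoid.powers (yB D B)) (D.A₀₁ B) G.ρ₁)) }

end BaseChange

/-! ### Rigidification and degree zero -/

/-- The bundle is trivial along the section `ε`: `B ⊗_{ε} M₁ ≅ B` as `B`-modules. -/
def IsRig (G : GlueDatum D B) : Prop :=
  letI := algE D B
  Nonempty ((B ⊗[D.A₁ B] G.M₁) ≃ₗ[B] B)

/-- Fibrewise Euler characteristic equal to that of the trivial bundle, at every field-valued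
point of `Spec B`. -/
def DegZero (G : GlueDatum D B) : Prop :=
  ∀ (K : Type u) [Field K] [Algebra k K] (φ : B →ₐ[k] K), (G.baseChange φ).chi = (unit D K).chi

end GlueDatum

end Fermat.Agent.S25.helper2945
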