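/-
S25, layer 0: reduction of the universal property of the relative Picard scheme to
affine test schemes `Spec A`.

Everything is stated in the frozen vocabulary of the S25 statement
(`RigidifiedLineBundle`, `pullbackAlong`, `SubPicCondition`, `RepresentsRelSubPic`).
Hypothesis-passing: the two inputs are `Stmt_Sep` (rigidified line bundles which are
isomorphic locally on the base are isomorphic) and `Stmt_AffineUniv` (the universal
property for test schemes of the form `Spec A`).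
-/
import Mathlib
import Fermat.Prelude.Def_AlgebraicGeometry_NeronModelPropertyBundleCarrier
import Fermat.Prelude.Def_JacJ1Iface
import Fermat.Prelude.Def_AlgebraicGeometry_RelativePicardFunctor
import Fermat.Prelude.Def_AlgebraicGeometry_RepresentsRelSubPic

set_option autoImplicit false

universe u

open CategoryTheory CategoryTheory.Limits AlgebraicGeometry AlgebraicGeometry.RelPicard
  NeronModelInfra GoodReductionJacobian

namespace Fermat.Agent.S25.helper7579

variable {R : Type u} [CommRing R] {C : Scheme.{u}} {c : C ⟶ Spec (CommRingCat.of R)}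
  {ε : SchemeHomOver (𝟙 (Spec (CommRingCat.of R))) c}

/-! ### Bricks on `pullbackAlong` -/

/-- Pulling back along equal morphisms gives isomorphic bundles. -/
theorem pullbackAlong_congr_hom {T T' : Scheme.{u}} {t : T ⟶ Spec (CommRingCat.of R)}
    {t' : T' ⟶ Spec (CommRingCat.of R)} (M : RigidifiedLineBundle c ε t)
    {ψ ψ' : SchemeHomOver t' t} (h : ψ = ψ') :
    Nonempty ((M.pullbackAlong ψ).L ≅ (M.pullbackAlong ψ').L) := by
  subst h
  exact ⟨Iso.refl _⟩

/-- Pulling back along equal underlying morphisms gives isomorphic bundles. -/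
theorem pullbackAlong_congr_val {T T' : Scheme.{u}} {t : T ⟶ Spec (CommRingCat.of R)}
    {t' : T' ⟶ Spec (CommRingCat.of R)} (M : RigidifiedLineBundle c ε t)
    {ψ ψ' : SchemeHomOver t' t} (h : ψ.1 = ψ'.1) :
    Nonempty ((M.pullbackAlong ψ).L ≅ (M.pullbackAlong ψ').L) :=
  pullbackAlong_congr_hom M (Subtype.ext h)

/-- Two successive pullbacks are the pullback along the composite. -/
noncomputable def pullbackAlongCompIso {X X' T' : Scheme.{u}} {x : X ⟶ Spec (CommRingCat.of R)}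
    {x' : X' ⟶ Spec (CommRingCat.of R)} {t' : T' ⟶ Spec (CommRingCat.of R)}
    (M : RigidifiedLineBundle c ε x') (φ : SchemeHomOver x x') (ψ : SchemeHomOver t' x) :
    ((M.pullbackAlong φ).pullbackAlong ψ).L ≅ (M.pullbackAlong (postComp φ ψ)).L :=
  (Scheme.Modules.pullbackComp _ _).app M.L ≪≫
    (Scheme.Modules.pullbackCongr (baseChangeSnd_comp c φ ψ)).app M.L

/-- Pulling back along the identity does nothing. -/
noncomputable def pullbackAlongIdIso {T : Scheme.{u}} {t : T ⟶ Spec (CommRingCat.of R)}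
    (M : RigidifiedLineBundle c ε t) :
    (M.pullbackAlong (⟨𝟙 T, Category.id_comp t⟩ : SchemeHomOver t t)).L ≅ M.L :=
  (Scheme.Modules.pullbackCongr (baseChangeSnd_id c t)).app M.L ≪≫
    (Scheme.Modules.pullbackId (pullback c t)).app M.L

/-- Pulling back along a morphism whose underlying map is the identity does nothing. -/
theorem pullbackAlong_of_val_eq_id {T : Scheme.{u}} {t : T ⟶ Spec (CommRingCat.of R)}
    (M : RigidifiedLineBundle c ε t) (ψ : SchemeHomOver t t) (h : ψ.1 = 𝟙 T) :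
    Nonempty ((M.pullbackAlong ψ).L ≅ M.L) := by
  obtain ⟨e⟩ := pullbackAlong_congr_val M (ψ := ψ) (ψ' := ⟨𝟙 T, Category.id_comp t⟩) h
  exact ⟨e ≪≫ pullbackAlongIdIso M⟩

/-- The member of an open cover, as a morphism over the base. -/
abbrev coverHom {T : Scheme.{u}} (t : T ⟶ Spec (CommRingCat.of R)) (𝒰 : Scheme.OpenCover.{u} T)
    (i : 𝒰.I₀) : SchemeHomOver (𝒰.f i ≫ t) t :=
  ⟨𝒰.f i, rfl⟩

/-! ### The two inputs -/

/-- (Sep): rigidified line bundles which are isomorphic locally on the base are isomorphic. -/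
def Stmt_Sep (c : C ⟶ Spec (CommRingCat.of R))
    (ε : SchemeHomOver (𝟙 (Spec (CommRingCat.of R))) c) : Prop :=
  ∀ {T : Scheme.{u}} (t : T ⟶ Spec (CommRingCat.of R)) (M M' : RigidifiedLineBundle c ε t)
    (𝒰 : Scheme.OpenCover.{u} T),
    (∀ i, Nonempty ((M.pullbackAlong (coverHom t 𝒰 i)).L ≅
      (M'.pullbackAlong (coverHom t 𝒰 i)).L)) → Nonempty (M.L ≅ M'.L)

/-- The universal property for test schemes of the form `Spec A`. -/
def Stmt_AffineUniv (P : SubPicCondition c ε) {J : Scheme.{u}}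
    (j : J ⟶ Spec (CommRingCat.of R)) (Pc : RigidifiedLineBundle c ε j) : Prop :=
  ∀ (A : CommRingCat.{u}) (φ : CommRingCat.of R ⟶ A)
    (M : RigidifiedLineBundle c ε (Spec.map φ)), P.P (Spec.map φ) M →
    ∃! g : SchemeHomOver (Spec.map φ) j, Nonempty ((Pc.pullbackAlong g).L ≅ M.L)

/-- The universal property for a given test scheme. -/
def UnivAt (P : SubPicCondition c ε) {J : Scheme.{u}}
    (j : J ⟶ Spec (CommRingCat.of R)) (Pc : RigidifiedLineBundle c ε j)
    {T : Scheme.{u}} (t : T ⟶ Spec (CommRingCat.of R)) : Prop :=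
  ∀ (M : RigidifiedLineBundle c ε t), P.P t M →
    ∃! g : SchemeHomOver t j, Nonempty ((Pc.pullbackAlong g).L ≅ M.L)

section

variable {P : SubPicCondition c ε} {J : Scheme.{u}} {j : J ⟶ Spec (CommRingCat.of R)}
  {Pc : RigidifiedLineBundle c ε j}

/-- Transport of the universal property along an isomorphism of test schemes. -/
theorem univAt_of_iso {T T' : Scheme.{u}} {t : T ⟶ Spec (CommRingCat.of R)}
    {t' : T' ⟶ Spec (CommRingCat.of R)} (e : T' ≅ T) (he : e.hom ≫ t = t')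
    (h : UnivAt P j Pc t') : UnivAt P j Pc t := by
  intro M hM
  let ψ : SchemeHomOver t' t := ⟨e.hom, he⟩
  let ψ' : SchemeHomOver t t' := ⟨e.inv, by rw [← he, Iso.inv_hom_id_assoc]⟩
  obtain ⟨g', ⟨i'⟩, hg'⟩ := h (M.pullbackAlong ψ) (P.pullback_mem _ _ ψ M hM)
  refine ⟨postComp g' ψ', ?_, ?_⟩
  · obtain ⟨i₀⟩ := pullbackAlong_of_val_eq_id M (postComp ψ ψ') (by simp [postComp, ψ, ψ'])
    exact ⟨(pullbackAlongCompIso Pc g' ψ').symm ≪≫
      (Scheme.Modules.pullback (baseChangeSnd c ψ')).mapIso i' ≪≫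
      pullbackAlongCompIso M ψ ψ' ≪≫ i₀⟩
  · rintro g₁ ⟨i₁⟩
    have h1 : postComp g₁ ψ = g' :=
      hg' _ ⟨(pullbackAlongCompIso Pc g₁ ψ).symm ≪≫
        (Scheme.Modules.pullback (baseChangeSnd c ψ)).mapIso i₁⟩
    apply Subtype.ext
    have h2 : e.hom ≫ g₁.1 = g'.1 := congrArg Subtype.val h1
    change g₁.1 = e.inv ≫ g'.1
    rw [← h2, Iso.inv_hom_id_assoc]

/-- The universal property for all affine test schemes. -/
theorem univAt_of_isAffine (hAff : Stmt_AffineUniv P j Pc) {T : Scheme.{u}} [IsAffine T]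
    (t : T ⟶ Spec (CommRingCat.of R)) : UnivAt P j Pc t := by
  have key : UnivAt P j Pc (Spec.map (Spec.preimage (T.isoSpec.inv ≫ t))) :=
    fun M hM => hAff _ _ M hM
  exact univAt_of_iso T.isoSpec.symm (by simp [Spec.map_preimage]) key

/-- Two classifying maps agree on an affine scheme mapping compatibly to their sources. -/
theorem classify_eq_of_affine (hAff : Stmt_AffineUniv P j Pc) {S T₁ T₂ T : Scheme.{u}}
    [IsAffine S] {s : S ⟶ Spec (CommRingCat.of R)} {t₁ : T₁ ⟶ Spec (CommRingCat.of R)}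
    {t₂ : T₂ ⟶ Spec (CommRingCat.of R)} {t : T ⟶ Spec (CommRingCat.of R)}
    (M : RigidifiedLineBundle c ε t) (hM : P.P t M)
    (a₁ : SchemeHomOver s t₁) (a₂ : SchemeHomOver s t₂)
    (p₁ : SchemeHomOver t₁ t) (p₂ : SchemeHomOver t₂ t) (hp : a₁.1 ≫ p₁.1 = a₂.1 ≫ p₂.1)
    (g₁ : SchemeHomOver t₁ j) (g₂ : SchemeHomOver t₂ j)
    (h₁ : Nonempty ((Pc.pullbackAlong g₁).L ≅ (M.pullbackAlong p₁).L))
    (h₂ : Nonempty ((Pc.pullbackAlong g₂).L ≅ (M.pullbackAlong p₂).L)) :
    a₁.1 ≫ g₁.1 = a₂.1 ≫ g₂.1 := by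
  obtain ⟨i₁⟩ := h₁
  obtain ⟨i₂⟩ := h₂
  have hN : P.P s (M.pullbackAlong (postComp p₁ a₁)) := P.pullback_mem _ _ _ M hM
  obtain ⟨i₀⟩ := pullbackAlong_congr_val M (ψ := postComp p₂ a₂) (ψ' := postComp p₁ a₁) hp.symm
  have e₁ : Nonempty ((Pc.pullbackAlong (postComp g₁ a₁)).L ≅
      (M.pullbackAlong (postComp p₁ a₁)).L) :=
    ⟨(pullbackAlongCompIso Pc g₁ a₁).symm ≪≫
      (Scheme.Modules.pullback (baseChangeSnd c a₁)).mapIso i₁ ≪≫ pullbackAlongCompIso M p₁ a₁⟩
  have e₂ : Nonempty ((Pc.pullbackAlong (postComp g₂ a₂)).L ≅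
      (M.pullbackAlong (postComp p₁ a₁)).L) :=
    ⟨(pullbackAlongCompIso Pc g₂ a₂).symm ≪≫
      (Scheme.Modules.pullback (baseChangeSnd c a₂)).mapIso i₂ ≪≫
      pullbackAlongCompIso M p₂ a₂ ≪≫ i₀⟩
  exact congrArg Subtype.val ((univAt_of_isAffine hAff s _ hN).unique e₁ e₂)

/-- **Layer 0.** The universal property for all test schemes, from `Spec A` and (Sep). -/
theorem univAt_of_affine (hSep : Stmt_Sep c ε) (hAff : Stmt_AffineUniv P j Pc)
    {T : Scheme.{u}} (t : T ⟶ Spec (CommRingCat.of R)) : UnivAt P j Pc t := by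
  intro M hM
  let 𝒰 : Scheme.OpenCover.{u} T := T.affineCover
  have hAffI : ∀ i, IsAffine (𝒰.X i) := fun i => by dsimp [𝒰]; infer_instance
  -- the local classifying maps
  have hloc : ∀ i, ∃! g : SchemeHomOver (𝒰.f i ≫ t) j,
      Nonempty ((Pc.pullbackAlong g).L ≅ (M.pullbackAlong (coverHom t 𝒰 i)).L) := fun i =>
    @univAt_of_isAffine _ _ _ _ _ _ _ _ _ hAff _ (hAffI i) _ _ (P.pullback_mem _ _ _ M hM)
  choose g hg hguniq using hloc
  -- they agree on overlaps
  have hcompat : ∀ x y, pullback.fst (𝒰.f x) (𝒰.f y) ≫ (g x).1 =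
      pullback.snd (𝒰.f x) (𝒰.f y) ≫ (g y).1 := by
    intro x y
    let 𝒱 : Scheme.OpenCover.{u} (pullback (𝒰.f x) (𝒰.f y)) :=
      (pullback (𝒰.f x) (𝒰.f y)).affineCover
    refine 𝒱.hom_ext _ _ fun l => ?_
    have : IsAffine (𝒱.X l) := by dsimp [𝒱]; infer_instance
    let s : 𝒱.X l ⟶ Spec (CommRingCat.of R) := (𝒱.f l ≫ pullback.fst _ _) ≫ 𝒰.f x ≫ t
    let a₁ : SchemeHomOver s (𝒰.f x ≫ t) := ⟨𝒱.f l ≫ pullback.fst _ _, rfl⟩
    let a₂ : SchemeHomOver s (𝒰.f y ≫ t) := ⟨𝒱.f l ≫ pullback.snd _ _, by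
      simp only [s, Category.assoc, pullback.condition_assoc]⟩
    have := classify_eq_of_affine hAff M hM a₁ a₂ (coverHom t 𝒰 x) (coverHom t 𝒰 y)
      (by simp only [a₁, a₂, Category.assoc, pullback.condition]) (g x) (g y) (hg x) (hg y)
    simpa only [a₁, a₂, Category.assoc] using this
  let G : T ⟶ J := 𝒰.glueMorphisms (fun i => (g i).1) hcompat
  have hG : ∀ i, 𝒰.f i ≫ G = (g i).1 := fun i => 𝒰.ι_glueMorphisms _ hcompat i
  have hGj : G ≫ j = t := by
    refine 𝒰.hom_ext _ _ fun i => ?_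
    rw [← Category.assoc, hG, (g i).2]
  refine ⟨⟨G, hGj⟩, ?_, ?_⟩
  · refine hSep t _ M 𝒰 fun i => ?_
    obtain ⟨e₁⟩ := hg i
    obtain ⟨e₀⟩ := pullbackAlong_congr_val Pc
      (ψ := postComp (⟨G, hGj⟩ : SchemeHomOver t j) (coverHom t 𝒰 i)) (ψ' := g i) (hG i)
    exact ⟨pullbackAlongCompIso Pc ⟨G, hGj⟩ (coverHom t 𝒰 i) ≪≫ e₀ ≪≫ e₁⟩
  · rintro g' ⟨i'⟩
    apply Subtype.ext
    refine 𝒰.hom_ext _ _ fun i => ?_
    change 𝒰.f i ≫ g'.1 = 𝒰.f i ≫ G
    rw [hG]
    have h1 : postComp g' (coverHom t 𝒰 i) = g i :=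
      hguniq i _ ⟨(pullbackAlongCompIso Pc g' (coverHom t 𝒰 i)).symm ≪≫
        (Scheme.Modules.pullback (baseChangeSnd c (coverHom t 𝒰 i))).mapIso i'⟩
    exact congrArg Subtype.val h1

/-- **Layer 0, packaged.** A scheme `J` over the base with a rigidified line bundle `Pc`
satisfying the cut, the universal property on `Spec A`'s and (Sep) carries a zero section
making it represent the cut-out subfunctor of the relative Picard functor. -/
theorem layer0 (P : SubPicCondition c ε) {J : Scheme.{u}} (j : J ⟶ Spec (CommRingCat.of R))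
    (Pc : RigidifiedLineBundle c ε j) (hmem : P.P j Pc) (hSep : Stmt_Sep c ε)
    (hAff : Stmt_AffineUniv P j Pc) :
    ∃ (z : Spec (CommRingCat.of R) ⟶ J) (hz : z ≫ j = 𝟙 (Spec (CommRingCat.of R))),
      Nonempty (RepresentsRelSubPic c ε P
        (⟨J, j, z, hz⟩ : RelativePic0Designation R c)) := by
  obtain ⟨z, hz, -⟩ := univAt_of_affine hSep hAff (𝟙 (Spec (CommRingCat.of R)))
    (RigidifiedLineBundle.unit (c := c) (ε := ε) (𝟙 _)) (P.unit_mem _)
  exact ⟨z.1, z.2, ⟨{
    poincare := Pc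
    poincare_mem := hmem
    univ := fun t M hM => univAt_of_affine hSep hAff t M hM
    zero := hz }⟩⟩

/-- **Layer 0, in the shape of the S25 conclusion.** -/
theorem exists_designation_of_layer0 (P : SubPicCondition c ε) {J : Scheme.{u}}
    (j : J ⟶ Spec (CommRingCat.of R)) (Pc : RigidifiedLineBundle c ε j) (hmem : P.P j Pc)
    (hSep : Stmt_Sep c ε) (hAff : Stmt_AffineUniv P j Pc)
    (h₁ : Smooth j) (h₂ : IsProper j) (h₃ : GeometricallyConnected j) :
    ∃ D : RelativePic0Designation R c,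
      Nonempty (RepresentsRelSubPic c ε P D) ∧
        Smooth D.toBase ∧ IsProper D.toBase ∧ GeometricallyConnected D.toBase := by
  obtain ⟨z, hz, h⟩ := layer0 P j Pc hmem hSep hAff
  exact ⟨⟨J, j, z, hz⟩, h, h₁, h₂, h₃⟩

end

end Fermat.Agent.S25.helper7579
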