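import Fermat.Agent.S25.helper1705_Spec2
import Fermat.Agent.S25.helper7579_AffineReduction

/-!
# S25, leaf CHARTS-AFF: formal core of the assembly of `Stmt_ChartsAff` (helper9473)

`Stmt_ChartsAff` of `helper1705_Spec2` asks for a family of charts of the rigidified Picard
functor satisfying the chart conditions on affine test schemes.  This file proves it from an
abstract, `Prop`-valued "model" interface between rigidified line bundles on `C ×ₖ Spec B`
and algebraic data over the `k`-algebra `B`:

* `Dat B`       : the algebraic data over `B` (any universe), with a relation `eqv` and base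
                  change `bc φ` along `k`-algebra maps;
* `Models B M G`: the rigidified line bundle `M` over `Spec B` is modelled by `G`;
* (D1) every bundle in the cut has a model; (D3) two bundles with models are isomorphic iff
  the models are equivalent; (D4) base change of a model is a model of the pullback;
* a family of finitely generated `k`-algebras `W i` with data `Gu i` over `W i` such that
  (D2) `Gu i` is the model of some bundle in the cut, (C1) the charts are monomorphisms,
  (C2)+(C3) the chart loci of a bundle in the cut are open subsets of `Spec B`, compatible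
  with base change, and cover `Spec B`.  `exists_open_cover_of_ideal` derives (C2)+(C3) from
  loci cut out by ideals and a covering property over algebraically closed fields.

All the bookkeeping between morphisms of affine schemes over `Spec k` and `k`-algebra maps is
done here, once.
-/

set_option autoImplicit false

universe u w

open CategoryTheory CategoryTheory.Limits AlgebraicGeometry AlgebraicGeometry.RelPicard
  NeronModelInfra GoodReductionJacobian

namespace Fermat.Agent.S25.helper9473

open Fermat.Agent.S25.helper1705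

section Base

variable (k : Type u) [CommRing k]

/-- The structure morphism of `Spec B` for a `k`-algebra `B`. -/
noncomputable abbrev tB (B : Type u) [CommRing B] [Algebra k B] :
    Spec (CommRingCat.of B) ⟶ Spec (CommRingCat.of k) :=
  Spec.map (CommRingCat.ofHom (algebraMap k B))

variable {k}

/-- The morphism over `Spec k` induced by a `k`-algebra map. -/
noncomputable def tBHom {B B' : Type u} [CommRing B] [Algebra k B] [CommRing B'] [Algebra k B']
    (φ : B →ₐ[k] B') : SchemeHomOver (tB k B') (tB k B) :=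
  ⟨Spec.map (CommRingCat.ofHom φ.toRingHom), by
    rw [← Spec.map_comp]
    congr 1
    ext x
    simp⟩

@[simp]
theorem tBHom_val {B B' : Type u} [CommRing B] [Algebra k B] [CommRing B'] [Algebra k B']
    (φ : B →ₐ[k] B') : (tBHom φ).1 = Spec.map (CommRingCat.ofHom φ.toRingHom) := rfl

/-- Every morphism `Spec B ⟶ Spec A` over `Spec k` comes from a unique `k`-algebra map. -/
theorem exists_algHom_of_schemeHomOver {A B : Type u} [CommRing A] [Algebra k A] [CommRing B]
    [Algebra k B] (g : SchemeHomOver (tB k B) (tB k A)) : ∃ φ : A →ₐ[k] B, g = tBHom φ := by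
  obtain ⟨g, hg⟩ := g
  obtain ⟨γ, rfl⟩ : ∃ γ : CommRingCat.of A ⟶ CommRingCat.of B, Spec.map γ = g :=
    ⟨Spec.preimage g, Spec.map_preimage g⟩
  have h1 : CommRingCat.ofHom (algebraMap k A) ≫ γ = CommRingCat.ofHom (algebraMap k B) := by
    apply Spec.map_injective
    rw [Spec.map_comp]
    exact hg
  have h2 : ∀ r : k, γ.hom (algebraMap k A r) = algebraMap k B r := fun r => by
    have := congrArg (fun f => f.hom r) h1
    simpa using this
  refine ⟨{ γ.hom with commutes' := h2 }, ?_⟩
  apply Subtype.ext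
  rfl

theorem tBHom_injective {A B : Type u} [CommRing A] [Algebra k A] [CommRing B] [Algebra k B]
    {φ φ' : A →ₐ[k] B} (h : tBHom φ = tBHom φ') : φ = φ' := by
  have h1 : Spec.map (CommRingCat.ofHom φ.toRingHom) = Spec.map (CommRingCat.ofHom φ'.toRingHom) :=
    congrArg Subtype.val h
  have h2 := Spec.map_injective h1
  ext x
  have := congrArg (fun f => f.hom x) h2
  simpa using this

/-- A ring map lands, on prime spectra, in the complement of `V(𝔞)` iff `𝔞` generates the
unit ideal in the target. -/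
theorem forall_comap_mem_compl_zeroLocus_iff {B B' : Type u} [CommRing B] [CommRing B']
    (𝔞 : Ideal B) (f : B →+* B') :
    (∀ p : PrimeSpectrum B', PrimeSpectrum.comap f p ∈ (PrimeSpectrum.zeroLocus (𝔞 : Set B))ᶜ) ↔
      𝔞.map f = ⊤ := by
  constructor
  · intro h
    by_contra hne
    obtain ⟨m, hm, hle⟩ := Ideal.exists_le_maximal _ hne
    apply h (⟨m, hm.isPrime⟩ : PrimeSpectrum B')
    intro a ha
    exact hle (Ideal.mem_map_of_mem _ ha)
  · intro h p hp
    have h1 : 𝔞.map f ≤ p.asIdeal := Ideal.map_le_iff_le_comap.mpr hp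
    rw [h] at h1
    exact p.isPrime.ne_top (top_le_iff.mp h1)

end Base

section Model

variable {k : Type u} [CommRing k] {C : Scheme.{u}} {c : C ⟶ Spec (CommRingCat.of k)}
  {ε : SchemeHomOver (𝟙 (Spec (CommRingCat.of k))) c}

/-- Membership in a chart only depends on the underlying morphism of the pullback. -/
theorem inChart_congr {Pc : SubPicCondition c ε} (F : ChartFamily Pc) (i : F.ι)
    {T T' : Scheme.{u}} {t : T ⟶ Spec (CommRingCat.of k)} (M : RigidifiedLineBundle c ε t)
    (ψ : T' ⟶ T) {t₁ t₂ : T' ⟶ Spec (CommRingCat.of k)} (h₁ : ψ ≫ t = t₁) (h₂ : ψ ≫ t = t₂) :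
    F.InChart i t₁ (M.pullbackAlong ⟨ψ, h₁⟩) ↔ F.InChart i t₂ (M.pullbackAlong ⟨ψ, h₂⟩) := by
  subst h₁
  subst h₂
  exact Iff.rfl

/-- The open-cover condition of a chart model, from chart loci cut out by ideals and a
covering property tested on algebraically closed fields only. -/
theorem exists_open_cover_of_ideal {Pc : SubPicCondition c ε}
    (Dat : ∀ (B : Type u) [CommRing B] [Algebra k B], Type w)
    (eqv : ∀ {B : Type u} [CommRing B] [Algebra k B], Dat B → Dat B → Prop)
    (bc : ∀ {B B' : Type u} [CommRing B] [Algebra k B] [CommRing B'] [Algebra k B'],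
      (B →ₐ[k] B') → Dat B → Dat B')
    (Models : ∀ (B : Type u) [CommRing B] [Algebra k B],
      RigidifiedLineBundle c ε (tB k B) → Dat B → Prop)
    (models_bc : ∀ {B B' : Type u} [CommRing B] [Algebra k B] [CommRing B'] [Algebra k B']
      (φ : B →ₐ[k] B') (M : RigidifiedLineBundle c ε (tB k B)) (G : Dat B),
      Models B M G → Models B' (M.pullbackAlong (tBHom φ)) (bc φ G))
    {ι : Type u} (W : ι → Type u) [∀ i, CommRing (W i)] [∀ i, Algebra k (W i)]
    (Gu : ∀ i, Dat (W i))
    (open_locus : ∀ (B : Type u) [CommRing B] [Algebra k B]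
      (M : RigidifiedLineBundle c ε (tB k B)) (G : Dat B), Pc.P (tB k B) M → Models B M G →
      ∀ i : ι, ∃ 𝔞 : Ideal B, ∀ (B' : Type u) [CommRing B'] [Algebra k B'] (ψ : B →ₐ[k] B'),
        (∃ φ : W i →ₐ[k] B', eqv (bc φ (Gu i)) (bc ψ G)) ↔ 𝔞.map ψ = ⊤)
    (cover : ∀ (K : Type u) [Field K] [Algebra k K] [IsAlgClosed K]
      (M : RigidifiedLineBundle c ε (tB k K)) (G : Dat K), Pc.P (tB k K) M → Models K M G →
      ∃ (i : ι) (φ : W i →ₐ[k] K), eqv (bc φ (Gu i)) G)
    (B : Type u) [CommRing B] [Algebra k B] (M : RigidifiedLineBundle c ε (tB k B)) (G : Dat B)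
    (hM : Pc.P (tB k B) M) (hG : Models B M G) :
    ∃ U : ι → Set (PrimeSpectrum B), (∀ i, IsOpen (U i)) ∧
      (∀ (i : ι) (B' : Type u) [CommRing B'] [Algebra k B'] (ψ : B →ₐ[k] B'),
        (∀ p : PrimeSpectrum B', PrimeSpectrum.comap ψ.toRingHom p ∈ U i) ↔
          ∃ φ : W i →ₐ[k] B', eqv (bc φ (Gu i)) (bc ψ G)) ∧
      (⋃ i, U i) = Set.univ := by
  choose 𝔞 h𝔞 using open_locus B M G hM hG
  refine ⟨fun i => (PrimeSpectrum.zeroLocus (𝔞 i : Set B))ᶜ,
    fun i => (PrimeSpectrum.isClosed_zeroLocus _).isOpen_compl, ?_, ?_⟩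
  · intro i B' _ _ ψ
    exact (forall_comap_mem_compl_zeroLocus_iff (𝔞 i) ψ.toRingHom).trans (h𝔞 i B' ψ).symm
  · rw [Set.eq_univ_iff_forall]
    intro p
    let κ := p.asIdeal.ResidueField
    let K := AlgebraicClosure κ
    let f : B →+* K := (algebraMap κ K).comp (algebraMap B κ)
    let _ : Algebra k K := (f.comp (algebraMap k B)).toAlgebra
    let ψK : B →ₐ[k] K := { f with commutes' := fun _ => rfl }
    obtain ⟨i, φ, h⟩ := cover K (M.pullbackAlong (tBHom ψK)) (bc ψK G)
      (Pc.pullback_mem _ _ (tBHom ψK) M hM) (models_bc ψK M G hG)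
    have h1 : (𝔞 i).map ψK = ⊤ := (h𝔞 i K ψK).mp ⟨φ, h⟩
    refine Set.mem_iUnion.mpr ⟨i, fun hle => ?_⟩
    have h2 : (𝔞 i).map ψK ≤ ⊥ := by
      rw [Ideal.map_le_iff_le_comap]
      intro a ha
      have ha' : algebraMap B κ a = 0 :=
        (Ideal.algebraMap_residueField_eq_zero).mpr (hle ha)
      change f a ∈ (⊥ : Ideal K)
      simp [f, ha']
    rw [h1] at h2
    exact absurd (top_le_iff.mp h2) (by simp)

/-- The abstract interface between rigidified line bundles over affine test schemes and
algebraic data, together with a family of algebraic charts. -/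
structure ChartModel (Pc : SubPicCondition c ε) : Type (max (u + 1) (w + 1)) where
  /-- algebraic data over a `k`-algebra -/
  Dat : ∀ (B : Type u) [CommRing B] [Algebra k B], Type w
  /-- equivalence of algebraic data -/
  eqv : ∀ {B : Type u} [CommRing B] [Algebra k B], Dat B → Dat B → Prop
  /-- base change of algebraic data -/
  bc : ∀ {B B' : Type u} [CommRing B] [Algebra k B] [CommRing B'] [Algebra k B'],
    (B →ₐ[k] B') → Dat B → Dat B'
  /-- the modelling relation -/
  Models : ∀ (B : Type u) [CommRing B] [Algebra k B],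
    RigidifiedLineBundle c ε (tB k B) → Dat B → Prop
  /-- (D1) every bundle in the cut has a model -/
  exists_model : ∀ (B : Type u) [CommRing B] [Algebra k B]
    (M : RigidifiedLineBundle c ε (tB k B)), Pc.P (tB k B) M → ∃ G, Models B M G
  /-- (D3) isomorphism of bundles is equivalence of models -/
  iso_iff : ∀ (B : Type u) [CommRing B] [Algebra k B]
    (M M' : RigidifiedLineBundle c ε (tB k B)) (G G' : Dat B),
    Models B M G → Models B M' G' → (Nonempty (M.L ≅ M'.L) ↔ eqv G G')
  /-- (D4) base change of a model is a model of the pullback -/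
  models_bc : ∀ {B B' : Type u} [CommRing B] [Algebra k B] [CommRing B'] [Algebra k B']
    (φ : B →ₐ[k] B') (M : RigidifiedLineBundle c ε (tB k B)) (G : Dat B),
    Models B M G → Models B' (M.pullbackAlong (tBHom φ)) (bc φ G)
  /-- the index type of the charts -/
  ι : Type u
  /-- the chart algebras -/
  W : ι → Type u
  [commRing : ∀ i, CommRing (W i)]
  [algebra : ∀ i, Algebra k (W i)]
  finiteType : ∀ i, Algebra.FiniteType k (W i)
  /-- the universal data of the charts -/
  Gu : ∀ i, Dat (W i)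
  /-- (D2) the universal datum of a chart is the model of a bundle in the cut -/
  exists_bundle : ∀ i, ∃ M : RigidifiedLineBundle c ε (tB k (W i)),
    Pc.P (tB k (W i)) M ∧ Models (W i) M (Gu i)
  /-- (C1) the charts are monomorphisms -/
  mono : ∀ (i : ι) (B : Type u) [CommRing B] [Algebra k B] (φ φ' : W i →ₐ[k] B),
    eqv (bc φ (Gu i)) (bc φ' (Gu i)) → φ = φ'
  /-- (C2)+(C3) the chart loci of a bundle in the cut are open, compatible with base change,
  and cover -/
  open_cover : ∀ (B : Type u) [CommRing B] [Algebra k B]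
    (M : RigidifiedLineBundle c ε (tB k B)) (G : Dat B), Pc.P (tB k B) M → Models B M G →
    ∃ U : ι → Set (PrimeSpectrum B), (∀ i, IsOpen (U i)) ∧
      (∀ (i : ι) (B' : Type u) [CommRing B'] [Algebra k B'] (ψ : B →ₐ[k] B'),
        (∀ p : PrimeSpectrum B', PrimeSpectrum.comap ψ.toRingHom p ∈ U i) ↔
          ∃ φ : W i →ₐ[k] B', eqv (bc φ (Gu i)) (bc ψ G)) ∧
      (⋃ i, U i) = Set.univ

attribute [instance] ChartModel.commRing ChartModel.algebra

namespace ChartModel

variable {Pc : SubPicCondition c ε} (𝓜 : ChartModel.{u, w} Pc)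

/-- The chart family attached to a choice of bundles modelled by the universal data. -/
noncomputable def family (Q : ∀ i, RigidifiedLineBundle c ε (tB k (𝓜.W i)))
    (hQ : ∀ i, Pc.P (tB k (𝓜.W i)) (Q i)) : ChartFamily Pc where
  ι := 𝓜.ι
  X := fun i => Spec (CommRingCat.of (𝓜.W i))
  x := fun i => tB k (𝓜.W i)
  Q := Q
  mem := hQ

section Aux

variable (Q : ∀ i, RigidifiedLineBundle c ε (tB k (𝓜.W i)))
  (hQ : ∀ i, Pc.P (tB k (𝓜.W i)) (Q i)) (hQm : ∀ i, 𝓜.Models (𝓜.W i) (Q i) (𝓜.Gu i))

include hQm in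
theorem mono_aux (i : 𝓜.ι) (B : Type u) [CommRing B] [Algebra k B]
    (g g' : SchemeHomOver (tB k B) (tB k (𝓜.W i)))
    (h : Nonempty (((Q i).pullbackAlong g).L ≅ ((Q i).pullbackAlong g').L)) : g = g' := by
  obtain ⟨φ, rfl⟩ := exists_algHom_of_schemeHomOver g
  obtain ⟨φ', rfl⟩ := exists_algHom_of_schemeHomOver g'
  have h1 := (𝓜.iso_iff B _ _ _ _ (𝓜.models_bc φ (Q i) _ (hQm i))
    (𝓜.models_bc φ' (Q i) _ (hQm i))).mp h
  rw [𝓜.mono i B φ φ' h1]

include hQm in
theorem inChart_iff (i : 𝓜.ι) {B B' : Type u} [CommRing B] [Algebra k B] [CommRing B']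
    [Algebra k B'] (ψ : B →ₐ[k] B') (M : RigidifiedLineBundle c ε (tB k B)) (G : 𝓜.Dat B)
    (hG : 𝓜.Models B M G) :
    (𝓜.family Q hQ).InChart i (tB k B') (M.pullbackAlong (tBHom ψ)) ↔
      ∃ φ : 𝓜.W i →ₐ[k] B', 𝓜.eqv (𝓜.bc φ (𝓜.Gu i)) (𝓜.bc ψ G) := by
  constructor
  · rintro ⟨g, hg⟩
    obtain ⟨φ, rfl⟩ := exists_algHom_of_schemeHomOver g
    exact ⟨φ, (𝓜.iso_iff B' _ _ _ _ (𝓜.models_bc φ (Q i) _ (hQm i))
      (𝓜.models_bc ψ M G hG)).mp hg⟩
  · rintro ⟨φ, h⟩
    exact ⟨tBHom φ, (𝓜.iso_iff B' _ _ _ _ (𝓜.models_bc φ (Q i) _ (hQm i))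
      (𝓜.models_bc ψ M G hG)).mpr h⟩

end Aux

include 𝓜 in
/-- **CHARTS-AFF, formal core.** A chart model yields a chart family, locally of finite type,
satisfying the chart conditions on affine test schemes. -/
theorem exists_chartFamily :
    ∃ F : ChartFamily Pc,
      (∀ i, LocallyOfFiniteType (F.x i)) ∧ F.IsMonoAff ∧ F.IsOpenCoverAff := by
  choose Q hQ hQm using 𝓜.exists_bundle
  refine ⟨𝓜.family Q hQ, ?_, ?_, ?_⟩
  · intro (i : 𝓜.ι)
    exact (HasRingHomProperty.Spec_iff (P := @LocallyOfFiniteType)).mpr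
      ((RingHom.finiteType_algebraMap (A := k) (B := 𝓜.W i)).mpr (𝓜.finiteType i))
  · intro i B t g g' h
    obtain ⟨τ, rfl⟩ : ∃ τ : CommRingCat.of k ⟶ B, Spec.map τ = t :=
      ⟨Spec.preimage t, Spec.map_preimage t⟩
    let _ : Algebra k B := τ.hom.toAlgebra
    exact 𝓜.mono_aux Q hQm i B g g' h
  · intro B t M hM
    obtain ⟨τ, rfl⟩ : ∃ τ : CommRingCat.of k ⟶ B, Spec.map τ = t :=
      ⟨Spec.preimage t, Spec.map_preimage t⟩
    let _ : Algebra k B := τ.hom.toAlgebra
    obtain ⟨G, hG⟩ := 𝓜.exists_model B M hM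
    obtain ⟨U, hUo, hU, hcov⟩ := 𝓜.open_cover B M G hM hG
    refine ⟨fun i => (⟨U i, hUo i⟩ : (Spec (CommRingCat.of B)).Opens), ?_, ?_⟩
    · intro i B' ψ
      obtain ⟨ψ', rfl⟩ : ∃ ψ' : CommRingCat.of B ⟶ B', Spec.map ψ' = ψ :=
        ⟨Spec.preimage ψ, Spec.map_preimage ψ⟩
      let _ : Algebra k B' := (ψ'.hom.comp (algebraMap k B)).toAlgebra
      let ψa : B →ₐ[k] B' := { ψ'.hom with commutes' := fun _ => rfl }
      refine Iff.trans ?_ (inChart_congr (𝓜.family Q hQ) i M (Spec.map ψ') (tBHom ψa).2 rfl)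
      refine Iff.trans ?_ (𝓜.inChart_iff Q hQ hQm i ψa M G hG).symm
      exact hU i B' ψa
    · rw [eq_top_iff]
      intro p _
      rw [TopologicalSpace.Opens.mem_iSup]
      have hp : (show PrimeSpectrum B from p) ∈ ⋃ i, U i := hcov ▸ Set.mem_univ _
      obtain ⟨i, hi⟩ := Set.mem_iUnion.mp hp
      exact ⟨i, hi⟩

end ChartModel

end Model

/-- **CHARTS-AFF from chart models.** If every curve of S25 admits a chart model for the cut
`algEquivZeroCut`, then `Stmt_ChartsAff` holds. -/
theorem stmt_ChartsAff_of_chartModel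
    (h : ∀ (k : Type u) [Field k] {C : Scheme.{u}} (c : C ⟶ Spec (CommRingCat.of k))
      (_ : IsCurve k c) (ε : SchemeHomOver (𝟙 (Spec (CommRingCat.of k))) c),
      Nonempty (ChartModel.{u, w} (algEquivZeroCut c ε))) :
    Stmt_ChartsAff.{u} := by
  intro k _ C c hc ε
  obtain ⟨𝓜⟩ := h k c hc ε
  exact 𝓜.exists_chartFamily

end Fermat.Agent.S25.helper9473
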