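import Fermat.Agent.S25.helper1705_Spec

/-!
# S25, layer G (properties of the Jacobian): specification (sub-architect helper985)

`helper1705_Spec` splits S25 into `Stmt_Rep` and four property statements
`Stmt_Smooth`, `Stmt_Sep`, `Stmt_UC`, `Stmt_GC` about ANY representing designation.

This file states, in the FROZEN vocabulary only (no `CurveDatum`, no `GlueDatum`), the four
facts about rigidified line bundles over AFFINE test schemes to which the property statements
reduce by pure functor-of-points arguments:

* `Stmt_LiftSqZero` : bundles lift along square-zero thickenings        (⟹ `Stmt_Smooth`);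
* `Stmt_ValUniq`    : over a valuation ring, generic isomorphism extends (⟹ `Stmt_Sep`);
* `Stmt_Bounded`    : one affine family meets every geometric point      (⟹ quasi-compact);
* `Stmt_ValExistAC` : over a valuation ring with algebraically closed fraction field,
                      bundles on the generic fibre extend               (⟹ `Stmt_UC`).

The wiring theorems (`Stmt_LiftSqZero → Stmt_Smooth`, ...) are separate leaves; so are the
proofs of the four statements from the dictionary and the algebra core.
Only definitions here: nothing to prove, nothing to break.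
-/

set_option autoImplicit false

universe u

open CategoryTheory CategoryTheory.Limits AlgebraicGeometry AlgebraicGeometry.RelPicard
  NeronModelInfra GoodReductionJacobian

namespace Fermat.Agent.S25.helper985

open Fermat.Agent.S25.helper1705

/-- The structure morphism `Spec B ⟶ Spec k` of an affine `k`-scheme. -/
noncomputable abbrev specStr (k : Type u) [CommRing k] (B : Type u) [CommRing B] [Algebra k B] :
    Spec (CommRingCat.of B) ⟶ Spec (CommRingCat.of k) :=
  Spec.map (CommRingCat.ofHom (algebraMap k B))

/-- The morphism `Spec B' ⟶ Spec B` over `Spec k` induced by a `k`-algebra map `B → B'`. -/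
noncomputable def specHomOver {k : Type u} [CommRing k] {B B' : Type u} [CommRing B] [Algebra k B]
    [CommRing B'] [Algebra k B'] (φ : B →ₐ[k] B') : SchemeHomOver (specStr k B') (specStr k B) :=
  ⟨Spec.map (CommRingCat.ofHom φ.toRingHom), by
    rw [specStr, specStr, ← Spec.map_comp, ← CommRingCat.ofHom_comp]
    exact congrArg (fun f => Spec.map (CommRingCat.ofHom f)) φ.comp_algebraMap⟩

@[simp]
theorem specHomOver_val {k : Type u} [CommRing k] {B B' : Type u} [CommRing B] [Algebra k B]
    [CommRing B'] [Algebra k B'] (φ : B →ₐ[k] B') :
    (specHomOver φ).1 = Spec.map (CommRingCat.ofHom φ.toRingHom) := rfl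

/-- LIFT. Rigidified line bundles on `C × Spec (B ⧸ I)` (in the cut) lift to `C × Spec B`
when `I ^ 2 = 0`. (The lift is automatically in the cut: every geometric point of `Spec B`
factors through `Spec (B ⧸ I)`; that remark is part of the wiring, not of this statement.) -/
def Stmt_LiftSqZero : Prop :=
  ∀ (k : Type u) [Field k] {C : Scheme.{u}} (c : C ⟶ Spec (CommRingCat.of k)) (_ : IsCurve k c)
    (ε : SchemeHomOver (𝟙 (Spec (CommRingCat.of k))) c)
    (B : Type u) [CommRing B] [Algebra k B] (I : Ideal B), I ^ 2 = ⊥ →
    ∀ M : RigidifiedLineBundle c ε (specStr k (B ⧸ I)), FibrewiseAlgEquivZero M →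
      ∃ M' : RigidifiedLineBundle c ε (specStr k B),
        Nonempty ((M'.pullbackAlong (specHomOver (Ideal.Quotient.mkₐ k I))).L ≅ M.L)

/-- VAL-UNIQ. Over a valuation ring `V` (any rank) with fraction field `K`: two rigidified line
bundles in the cut on `C × Spec V` that are isomorphic over `K` are isomorphic. -/
def Stmt_ValUniq : Prop :=
  ∀ (k : Type u) [Field k] {C : Scheme.{u}} (c : C ⟶ Spec (CommRingCat.of k)) (_ : IsCurve k c)
    (ε : SchemeHomOver (𝟙 (Spec (CommRingCat.of k))) c)
    (V : Type u) [CommRing V] [IsDomain V] [ValuationRing V] [Algebra k V]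
    (K : Type u) [Field K] [Algebra V K] [IsFractionRing V K] [Algebra k K] [IsScalarTower k V K]
    (M M' : RigidifiedLineBundle c ε (specStr k V)),
    FibrewiseAlgEquivZero M → FibrewiseAlgEquivZero M' →
    Nonempty ((M.pullbackAlong (specHomOver (IsScalarTower.toAlgHom k V K))).L ≅
      (M'.pullbackAlong (specHomOver (IsScalarTower.toAlgHom k V K))).L) →
    Nonempty (M.L ≅ M'.L)

/-- BOUNDED. There is ONE affine family (over some `k`-algebra `B₀`) in the cut through which
every geometric point of the functor factors. -/
def Stmt_Bounded : Prop :=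
  ∀ (k : Type u) [Field k] {C : Scheme.{u}} (c : C ⟶ Spec (CommRingCat.of k)) (_ : IsCurve k c)
    (ε : SchemeHomOver (𝟙 (Spec (CommRingCat.of k))) c),
    ∃ (B₀ : Type u) (_ : CommRing B₀) (_ : Algebra k B₀)
      (M₀ : RigidifiedLineBundle c ε (specStr k B₀)), FibrewiseAlgEquivZero M₀ ∧
      ∀ (K : Type u) [Field K] [IsAlgClosed K] [Algebra k K]
        (M : RigidifiedLineBundle c ε (specStr k K)), FibrewiseAlgEquivZero M →
        ∃ φ : B₀ →ₐ[k] K, Nonempty ((M₀.pullbackAlong (specHomOver φ)).L ≅ M.L)

/-- VAL-EXIST (algebraically closed fraction field). Over a valuation ring `V` (any rank) whose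
fraction field `K` is algebraically closed: every rigidified line bundle in the cut on
`C × Spec K` extends to one in the cut on `C × Spec V`. -/
def Stmt_ValExistAC : Prop :=
  ∀ (k : Type u) [Field k] {C : Scheme.{u}} (c : C ⟶ Spec (CommRingCat.of k)) (_ : IsCurve k c)
    (ε : SchemeHomOver (𝟙 (Spec (CommRingCat.of k))) c)
    (V : Type u) [CommRing V] [IsDomain V] [ValuationRing V] [Algebra k V]
    (K : Type u) [Field K] [IsAlgClosed K] [Algebra V K] [IsFractionRing V K] [Algebra k K]
    [IsScalarTower k V K]
    (M : RigidifiedLineBundle c ε (specStr k K)), FibrewiseAlgEquivZero M →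
    ∃ M' : RigidifiedLineBundle c ε (specStr k V), FibrewiseAlgEquivZero M' ∧
      Nonempty ((M'.pullbackAlong (specHomOver (IsScalarTower.toAlgHom k V K))).L ≅ M.L)

/-- Quasi-compactness of any representing designation (intermediate statement for `Stmt_UC`). -/
def Stmt_QC : Prop :=
  ∀ (k : Type u) [Field k] {C : Scheme.{u}} (c : C ⟶ Spec (CommRingCat.of k)) (_ : IsCurve k c)
    (ε : SchemeHomOver (𝟙 (Spec (CommRingCat.of k))) c) (D : RelativePic0Designation k c),
    Represents c ε D → QuasiCompact D.toBase

end Fermat.Agent.S25.helper985
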