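import Fermat.Agent.S25.helper1705_Spec2
import Fermat.Agent.S25.helper2945_AlgDefs
import Fermat.Agent.S25.helper985_LGSpec
import Fermat.Agent.S25.helper9473_ChartsAffCore

/-!
# S25 specification file, part III: the dictionary and the charts (architect helper1705)

* `Dictionary c ε D` : the interface between invertible sheaves on `C ×ₖ Spec B` and two-chart
  line bundles (`helper2945.GlueDatum D B`), for all `k`-algebras `B` (layer B).
  Field for field the abstract `ModelSystem` of `helper175_PointsDict` (without the cut) and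
  the `ChartModel` of `helper9473_ChartsAffCore` (without the charts).
* `Stmt_Dict` : a realization of the curve by a curve datum gives a dictionary.
* `Stmt_FAEZ` : under a dictionary, "fibrewise algebraically equivalent to zero" is
  "fibrewise of degree zero".
* `AlgChartFamily D`, `Stmt_AlgCharts` : the purely algebraic chart theorem (layer C).
* `stmt_ChartsAff_of` : PROVED wiring
  `Stmt_Chart → Stmt_Dict → Stmt_FAEZ → Stmt_AlgCharts → Stmt_ChartsAff`.
-/

set_option autoImplicit false

universe u

open CategoryTheory CategoryTheory.Limits AlgebraicGeometry AlgebraicGeometry.RelPicard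
  NeronModelInfra GoodReductionJacobian

namespace Fermat.Agent.S25.helper1705

open Fermat.Agent.S25.helper2945 Fermat.Agent.S25.helper985

section Dict

variable {k : Type u} [Field k] {C : Scheme.{u}} (c : C ⟶ Spec (CommRingCat.of k))
  (ε : SchemeHomOver (𝟙 (Spec (CommRingCat.of k))) c) (D : CurveDatum k)

/-- The dictionary between invertible sheaves on `C ×ₖ Spec B` and two-chart line bundles over
`B`, for all `k`-algebras `B`. -/
structure Dictionary where
  /-- `Models B L G`: the two-chart line bundle `G` describes the sheaf `L` on `C ×ₖ Spec B` -/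
  Models : ∀ (B : Type u) [CommRing B] [Algebra k B],
    (pullback c (specStr k B)).Modules → GlueDatum D B → Prop
  /-- every invertible sheaf has a model -/
  exists_model : ∀ (B : Type u) [CommRing B] [Algebra k B]
    (L : (pullback c (specStr k B)).Modules),
    Scheme.Modules.IsInvertible L → ∃ G : GlueDatum D B, Models B L G
  /-- every two-chart line bundle is the model of an invertible sheaf -/
  exists_sheaf : ∀ (B : Type u) [CommRing B] [Algebra k B] (G : GlueDatum D B),
    ∃ L : (pullback c (specStr k B)).Modules, Scheme.Modules.IsInvertible L ∧ Models B L G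
  /-- isomorphism of sheaves is equivalence of models -/
  iso_iff : ∀ (B : Type u) [CommRing B] [Algebra k B]
    {L L' : (pullback c (specStr k B)).Modules} {G G' : GlueDatum D B},
    Models B L G → Models B L' G' → (Nonempty (L ≅ L') ↔ G.Equiv G')
  /-- pullback of sheaves is base change of models -/
  models_baseChange : ∀ {B B' : Type u} [CommRing B] [Algebra k B] [CommRing B'] [Algebra k B']
    (φ : B →ₐ[k] B') {L : (pullback c (specStr k B)).Modules} {G : GlueDatum D B},
    Models B L G →
      Models B' ((Scheme.Modules.pullback (baseChangeSnd c (specHomOver φ))).obj L)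
        (G.baseChange φ)
  /-- the sheaf is trivial along `ε` iff its model is -/
  rig_iff : ∀ (B : Type u) [CommRing B] [Algebra k B]
    {L : (pullback c (specStr k B)).Modules} {G : GlueDatum D B}, Models B L G →
    (Nonempty ((Scheme.Modules.pullback (rigSection c (specStr k B) ε)).obj L ≅
      SheafOfModules.unit (Spec (CommRingCat.of B)).ringCatSheaf) ↔ G.IsRig)
  /-- the structure sheaf is modelled by the unit datum -/
  models_unit : ∀ (B : Type u) [CommRing B] [Algebra k B],
    Models B (SheafOfModules.unit (pullback c (specStr k B)).ringCatSheaf) (GlueDatum.unit D B)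

end Dict

/-- DICT (layer B). A realization of the curve by a curve datum gives a dictionary. -/
def Stmt_Dict : Prop :=
  ∀ (k : Type u) [Field k] {C : Scheme.{u}} (c : C ⟶ Spec (CommRingCat.of k))
    (ε : SchemeHomOver (𝟙 (Spec (CommRingCat.of k))) c) (D : CurveDatum k),
    Realization c ε D → Nonempty (Dictionary c ε D)

/-- FAEZ. Under a dictionary, a rigidified line bundle over an affine base is fibrewise
algebraically equivalent to zero iff its model has fibrewise degree zero. -/
def Stmt_FAEZ : Prop :=
  ∀ (k : Type u) [Field k] {C : Scheme.{u}} (c : C ⟶ Spec (CommRingCat.of k)) (_ : IsCurve k c)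
    (ε : SchemeHomOver (𝟙 (Spec (CommRingCat.of k))) c) (D : CurveDatum k)
    (_ : Realization c ε D) (𝔇 : Dictionary c ε D)
    (B : Type u) [CommRing B] [Algebra k B] (M : RigidifiedLineBundle c ε (specStr k B))
    (G : GlueDatum D B), 𝔇.Models B M.L G → (FibrewiseAlgEquivZero M ↔ G.DegZero)

/-- The algebraic charts of the Jacobian: finitely generated `k`-algebras `W i` with universal
rigidified two-chart line bundles of degree zero `Gu i`, such that the functors
`B ↦ (W i →ₐ[k] B)` are open subfunctors (mono + open locus) covering the functor of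
rigidified two-chart line bundles of degree zero up to equivalence. -/
structure AlgChartFamily {k : Type u} [Field k] (D : CurveDatum k) where
  /-- the index type of the charts -/
  ι : Type u
  /-- the chart algebras -/
  W : ι → Type u
  [commRing : ∀ i, CommRing (W i)]
  [algebra : ∀ i, Algebra k (W i)]
  finiteType : ∀ i, Algebra.FiniteType k (W i)
  /-- the universal two-chart line bundles -/
  Gu : ∀ i, GlueDatum D (W i)
  isRig : ∀ i, (Gu i).IsRig
  degZero : ∀ i, (Gu i).DegZero
  /-- the charts are monomorphisms -/
  mono : ∀ (i : ι) (B : Type u) [CommRing B] [Algebra k B] (φ φ' : W i →ₐ[k] B),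
    ((Gu i).baseChange φ).Equiv ((Gu i).baseChange φ') → φ = φ'
  /-- the chart loci are open: cut out by an ideal, compatibly with base change -/
  open_locus : ∀ (B : Type u) [CommRing B] [Algebra k B] (G : GlueDatum D B),
    G.IsRig → G.DegZero → ∀ i : ι,
    ∃ 𝔞 : Ideal B, ∀ (B' : Type u) [CommRing B'] [Algebra k B'] (ψ : B →ₐ[k] B'),
      (∃ φ : W i →ₐ[k] B', ((Gu i).baseChange φ).Equiv (G.baseChange ψ)) ↔ 𝔞.map ψ = ⊤
  /-- the charts cover the points with values in algebraically closed fields -/
  cover : ∀ (K : Type u) [Field K] [Algebra k K] [IsAlgClosed K] (G : GlueDatum D K),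
    G.IsRig → G.DegZero → ∃ (i : ι) (φ : W i →ₐ[k] K), ((Gu i).baseChange φ).Equiv G

attribute [instance] AlgChartFamily.commRing AlgChartFamily.algebra

/-- ALG-CHARTS (layer C). Every curve datum over an algebraically closed field has an
algebraic chart family. -/
def Stmt_AlgCharts : Prop :=
  ∀ (k : Type u) [Field k] [IsAlgClosed k] (D : CurveDatum k), Nonempty (AlgChartFamily D)

section Wiring

variable {k : Type u} [Field k] {C : Scheme.{u}} {c : C ⟶ Spec (CommRingCat.of k)}
  {ε : SchemeHomOver (𝟙 (Spec (CommRingCat.of k))) c} {D : CurveDatum k}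

/-- The two-chart line bundles over `B` that model a rigidified line bundle in the cut. -/
def Dictionary.CutDatum (𝔇 : Dictionary c ε D) (B : Type u) [CommRing B] [Algebra k B] :
    Type (u + 1) :=
  { G : GlueDatum D B // ∃ M : RigidifiedLineBundle c ε (specStr k B),
      FibrewiseAlgEquivZero M ∧ 𝔇.Models B M.L G }

/-- Base change of the two-chart line bundles that model a bundle in the cut. -/
noncomputable def Dictionary.cutBC (𝔇 : Dictionary c ε D) {B B' : Type u} [CommRing B]
    [Algebra k B] [CommRing B'] [Algebra k B'] (φ : B →ₐ[k] B') (G : 𝔇.CutDatum B) :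
    𝔇.CutDatum B' :=
  ⟨G.1.baseChange φ, by
    obtain ⟨M, hM, hG⟩ := G.2
    exact ⟨M.pullbackAlong (specHomOver φ), hM.pullback _, 𝔇.models_baseChange φ hG⟩⟩

/-- The universal datum of an algebraic chart models a bundle in the cut. -/
noncomputable def Dictionary.chartDatum (𝔇 : Dictionary c ε D)
    (hF : ∀ (B : Type u) [CommRing B] [Algebra k B] (M : RigidifiedLineBundle c ε (specStr k B))
      (G : GlueDatum D B), 𝔇.Models B M.L G → (FibrewiseAlgEquivZero M ↔ G.DegZero))
    (A : AlgChartFamily D) (i : A.ι) : 𝔇.CutDatum (A.W i) :=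
  ⟨A.Gu i, by
    obtain ⟨L, hinv, hL⟩ := 𝔇.exists_sheaf (A.W i) (A.Gu i)
    exact ⟨⟨L, hinv, (𝔇.rig_iff (A.W i) hL).mpr (A.isRig i)⟩,
      (hF (A.W i) ⟨L, hinv, (𝔇.rig_iff (A.W i) hL).mpr (A.isRig i)⟩ (A.Gu i) hL).mpr
        (A.degZero i), hL⟩⟩

/-- The chart model (in the sense of `helper9473_ChartsAffCore`) attached to a dictionary, the
translation of the cut and an algebraic chart family. -/
noncomputable def chartModelOf (𝔇 : Dictionary c ε D)
    (hF : ∀ (B : Type u) [CommRing B] [Algebra k B] (M : RigidifiedLineBundle c ε (specStr k B))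
      (G : GlueDatum D B), 𝔇.Models B M.L G → (FibrewiseAlgEquivZero M ↔ G.DegZero))
    (A : AlgChartFamily D) : helper9473.ChartModel.{u, u + 1} (algEquivZeroCut c ε) where
  Dat B _ _ := 𝔇.CutDatum B
  eqv G G' := G.1.Equiv G'.1
  bc φ G := 𝔇.cutBC φ G
  Models B _ _ M G := 𝔇.Models B M.L G.1
  exists_model B _ _ M hM := by
    obtain ⟨G, hG⟩ := 𝔇.exists_model B M.L M.isInvertible
    exact ⟨⟨G, M, hM, hG⟩, hG⟩
  iso_iff B _ _ M M' G G' h h' := 𝔇.iso_iff B h h'
  models_bc φ M G h := 𝔇.models_baseChange φ h
  ι := A.ι
  W := A.W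
  finiteType := A.finiteType
  Gu i := 𝔇.chartDatum hF A i
  exists_bundle i := (𝔇.chartDatum hF A i).2
  mono i B _ _ φ φ' h := A.mono i B φ φ' h
  open_cover B _ _ M G hM hG :=
    helper9473.exists_open_cover_of_ideal (Pc := algEquivZeroCut c ε)
      (fun B [CommRing B] [Algebra k B] => 𝔇.CutDatum B)
      (fun G G' => G.1.Equiv G'.1)
      (fun φ G => 𝔇.cutBC φ G)
      (fun B [CommRing B] [Algebra k B] M G => 𝔇.Models B M.L G.1)
      (fun φ _ _ h => 𝔇.models_baseChange φ h)
      A.W
      (fun i => 𝔇.chartDatum hF A i)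
      (fun B [CommRing B] [Algebra k B] M G hM hG i =>
        A.open_locus B G.1 ((𝔇.rig_iff B hG).mp M.rigidified) ((hF B M G.1 hG).mp hM) i)
      (fun K [Field K] [Algebra k K] [IsAlgClosed K] M G hM hG =>
        A.cover K G.1 ((𝔇.rig_iff K hG).mp M.rigidified) ((hF K M G.1 hG).mp hM))
      B M G hM hG

end Wiring

/-- **CHARTS-AFF, assembled.** The chart statement of part II follows from the two-chart atlas
of the curve, the dictionary, the translation of the cut and the algebraic chart theorem. -/
theorem stmt_ChartsAff_of (hChart : Stmt_Chart.{u}) (hDict : Stmt_Dict.{u})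
    (hFAEZ : Stmt_FAEZ.{u}) (hAlg : Stmt_AlgCharts.{u}) : Stmt_ChartsAff.{u} := by
  refine helper9473.stmt_ChartsAff_of_chartModel.{u, u + 1} fun k _ C c hc ε => ?_
  obtain ⟨D, ⟨R⟩⟩ := hChart k c hc ε
  obtain ⟨𝔇⟩ := hDict k c ε D R
  have := hc.algClosed
  obtain ⟨A⟩ := hAlg k D
  exact ⟨chartModelOf 𝔇 (fun B _ _ M G h => hFAEZ k c hc ε D R 𝔇 B M G h) A⟩

end Fermat.Agent.S25.helper1705
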