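/-
S25, leaf U17 (layer LG): PointsDict.

For a designation `D` representing a cut `Pc` of the rigidified Picard functor, the points of
`D.P` with values in an `R`-algebra `B` are the same as the "models" (two-chart data) over `B`
that are rigidified and lie in the cut, up to equivalence, naturally in `B`.

The file is formal: it is written against an abstract `ModelSystem` (= what the dictionary
between invertible sheaves on `C ×_R Spec B` and two-chart data, together with the translation
of the cut, has to export).  Only the frozen vocabulary, Mathlib and `pullbackAlongCompIso`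
of layer 0 are used.
-/
import Mathlib
import Fermat.Prelude.Def_AlgebraicGeometry_NeronModelPropertyBundleCarrier
import Fermat.Prelude.Def_JacJ1Iface
import Fermat.Prelude.Def_AlgebraicGeometry_RelativePicardFunctor
import Fermat.Prelude.Def_AlgebraicGeometry_RepresentsRelSubPic
import Fermat.Agent.S25.helper7579_AffineReduction

set_option autoImplicit false

universe w u

open CategoryTheory CategoryTheory.Limits AlgebraicGeometry AlgebraicGeometry.RelPicard
  NeronModelInfra GoodReductionJacobian

namespace Fermat.Agent.S25.helper175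

variable {R : Type u} [CommRing R]

/-- Structure morphism of the affine test scheme `Spec B` of an `R`-algebra `B`. -/
noncomputable abbrev tB (R : Type u) [CommRing R] (B : Type u) [CommRing B] [Algebra R B] :
    Spec (CommRingCat.of B) ⟶ Spec (CommRingCat.of R) :=
  Spec.map (CommRingCat.ofHom (algebraMap R B))

/-- The morphism of affine test schemes (over `Spec R`) induced by an `R`-algebra hom. -/
noncomputable def bc {B B' : Type u} [CommRing B] [Algebra R B] [CommRing B'] [Algebra R B']
    (φ : B →ₐ[R] B') : SchemeHomOver (tB R B') (tB R B) :=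
  ⟨Spec.map (CommRingCat.ofHom φ.toRingHom), by
    rw [← Spec.map_comp, ← CommRingCat.ofHom_comp]
    congr 2
    exact φ.comp_algebraMap⟩

@[simp] theorem bc_val {B B' : Type u} [CommRing B] [Algebra R B] [CommRing B'] [Algebra R B']
    (φ : B →ₐ[R] B') : (bc φ).1 = Spec.map (CommRingCat.ofHom φ.toRingHom) := rfl

/-- An abstract dictionary between invertible sheaves on `C ×_R Spec B` and algebraic "models"
over `B` (for S25: two-chart glueing data), for all `R`-algebras `B`, together with the
translation of rigidifications and of a cut `Pc`. -/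
structure ModelSystem {C : Scheme.{u}} (c : C ⟶ Spec (CommRingCat.of R))
    (ε : SchemeHomOver (𝟙 (Spec (CommRingCat.of R))) c) (Pc : SubPicCondition c ε) where
  /-- the models over `B` -/
  Obj : ∀ (B : Type u) [CommRing B] [Algebra R B], Type w
  /-- isomorphism of models -/
  Equiv : ∀ {B : Type u} [CommRing B] [Algebra R B], Obj B → Obj B → Prop
  /-- base change of models -/
  baseChange : ∀ {B B' : Type u} [CommRing B] [Algebra R B] [CommRing B'] [Algebra R B'],
    (B →ₐ[R] B') → Obj B → Obj B'
  /-- the model can be rigidified along `ε` -/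
  IsRig : ∀ {B : Type u} [CommRing B] [Algebra R B], Obj B → Prop
  /-- the model lies in the cut -/
  InCut : ∀ {B : Type u} [CommRing B] [Algebra R B], Obj B → Prop
  /-- the sheaf `L` on `C ×_R Spec B` is described by the model `G` -/
  Models : ∀ (B : Type u) [CommRing B] [Algebra R B],
    (pullback c (tB R B)).Modules → Obj B → Prop
  exists_model : ∀ (B : Type u) [CommRing B] [Algebra R B]
    (L : (pullback c (tB R B)).Modules),
    Scheme.Modules.IsInvertible L → ∃ G : Obj B, Models B L G
  exists_sheaf : ∀ (B : Type u) [CommRing B] [Algebra R B] (G : Obj B),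
    ∃ L : (pullback c (tB R B)).Modules, Scheme.Modules.IsInvertible L ∧ Models B L G
  iso_iff : ∀ (B : Type u) [CommRing B] [Algebra R B]
    {L L' : (pullback c (tB R B)).Modules} {G G' : Obj B},
    Models B L G → Models B L' G' → (Nonempty (L ≅ L') ↔ Equiv G G')
  models_baseChange : ∀ {B B' : Type u} [CommRing B] [Algebra R B] [CommRing B']
    [Algebra R B'] (φ : B →ₐ[R] B') {L : (pullback c (tB R B)).Modules} {G : Obj B},
    Models B L G →
      Models B' ((Scheme.Modules.pullback (baseChangeSnd c (bc φ))).obj L) (baseChange φ G)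
  rig_iff : ∀ (B : Type u) [CommRing B] [Algebra R B]
    {L : (pullback c (tB R B)).Modules} {G : Obj B}, Models B L G →
    (Nonempty ((Scheme.Modules.pullback (rigSection c (tB R B) ε)).obj L ≅
      SheafOfModules.unit (Spec (CommRingCat.of B)).ringCatSheaf) ↔ IsRig G)
  cut_iff : ∀ (B : Type u) [CommRing B] [Algebra R B]
    (M : RigidifiedLineBundle c ε (tB R B)) {G : Obj B},
    Models B M.L G → (Pc.P (tB R B) M ↔ InCut G)

namespace ModelSystem

variable {C : Scheme.{u}} {c : C ⟶ Spec (CommRingCat.of R)}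
  {ε : SchemeHomOver (𝟙 (Spec (CommRingCat.of R))) c} {Pc : SubPicCondition c ε}
  (S : ModelSystem.{w, u} c ε Pc)

section Formal

variable {B : Type u} [CommRing B] [Algebra R B]

theorem equiv_refl (G : S.Obj B) : S.Equiv G G := by
  obtain ⟨L, -, hL⟩ := S.exists_sheaf B G
  exact (S.iso_iff B hL hL).mp ⟨Iso.refl _⟩

theorem equiv_symm {G G' : S.Obj B} (h : S.Equiv G G') : S.Equiv G' G := by
  obtain ⟨L, -, hL⟩ := S.exists_sheaf B G
  obtain ⟨L', -, hL'⟩ := S.exists_sheaf B G'
  obtain ⟨e⟩ := (S.iso_iff B hL hL').mpr h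
  exact (S.iso_iff B hL' hL).mp ⟨e.symm⟩

theorem equiv_trans {G G' G'' : S.Obj B} (h : S.Equiv G G') (h' : S.Equiv G' G'') :
    S.Equiv G G'' := by
  obtain ⟨L, -, hL⟩ := S.exists_sheaf B G
  obtain ⟨L', -, hL'⟩ := S.exists_sheaf B G'
  obtain ⟨L'', -, hL''⟩ := S.exists_sheaf B G''
  obtain ⟨e⟩ := (S.iso_iff B hL hL').mpr h
  obtain ⟨e'⟩ := (S.iso_iff B hL' hL'').mpr h'
  exact (S.iso_iff B hL hL'').mp ⟨e ≪≫ e'⟩

theorem equiv_baseChange {B' : Type u} [CommRing B'] [Algebra R B'] (φ : B →ₐ[R] B')
    {G G' : S.Obj B} (h : S.Equiv G G') :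
    S.Equiv (S.baseChange φ G) (S.baseChange φ G') := by
  obtain ⟨L, -, hL⟩ := S.exists_sheaf B G
  obtain ⟨L', -, hL'⟩ := S.exists_sheaf B G'
  obtain ⟨e⟩ := (S.iso_iff B hL hL').mpr h
  exact (S.iso_iff B' (S.models_baseChange φ hL) (S.models_baseChange φ hL')).mp
    ⟨(Scheme.Modules.pullback (baseChangeSnd c (bc φ))).mapIso e⟩

theorem isRig_of_equiv {G G' : S.Obj B} (h : S.Equiv G G') (hG : S.IsRig G) : S.IsRig G' := by
  obtain ⟨L, -, hL⟩ := S.exists_sheaf B G
  obtain ⟨L', -, hL'⟩ := S.exists_sheaf B G'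
  obtain ⟨e⟩ := (S.iso_iff B hL hL').mpr h
  obtain ⟨r⟩ := (S.rig_iff B hL).mpr hG
  exact (S.rig_iff B hL').mp
    ⟨(Scheme.Modules.pullback (rigSection c (tB R B) ε)).mapIso e.symm ≪≫ r⟩

theorem inCut_of_equiv {G G' : S.Obj B} (h : S.Equiv G G') (hG : S.IsRig G)
    (hG' : S.InCut G) : S.InCut G' := by
  obtain ⟨L, hinv, hL⟩ := S.exists_sheaf B G
  obtain ⟨L', hinv', hL'⟩ := S.exists_sheaf B G'
  have e := (S.iso_iff B hL hL').mpr h
  let M : RigidifiedLineBundle c ε (tB R B) := ⟨L, hinv, (S.rig_iff B hL).mpr hG⟩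
  let M' : RigidifiedLineBundle c ε (tB R B) :=
    ⟨L', hinv', (S.rig_iff B hL').mpr (S.isRig_of_equiv h hG)⟩
  have hM : Pc.P (tB R B) M := (S.cut_iff B M hL).mpr hG'
  exact (S.cut_iff B M' hL').mp (Pc.congr _ M M' e hM)

end Formal

/-! ### Points of a representing designation -/

variable {D : RelativePic0Designation R c} (h : RepresentsRelSubPic c ε Pc D)

/-- The point `g : Spec B ⟶ D.P` (over `Spec R`) classifies the model `G`: the pullback of
the Poincaré bundle along `g` is described by a model equivalent to `G`. -/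
def Classifies {B : Type u} [CommRing B] [Algebra R B]
    (g : SchemeHomOver (tB R B) D.toBase) (G : S.Obj B) : Prop :=
  ∃ G₁ : S.Obj B, S.Models B (h.poincare.pullbackAlong g).L G₁ ∧ S.Equiv G₁ G

section Points

variable {B : Type u} [CommRing B] [Algebra R B]

theorem Classifies.of_equiv {g : SchemeHomOver (tB R B) D.toBase} {G G' : S.Obj B}
    (hg : S.Classifies h g G) (e : S.Equiv G G') : S.Classifies h g G' := by
  obtain ⟨G₁, h₁, e₁⟩ := hg
  exact ⟨G₁, h₁, S.equiv_trans e₁ e⟩

/-- (ex) Every point classifies a rigidified model in the cut. -/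
theorem exists_classifies (g : SchemeHomOver (tB R B) D.toBase) :
    ∃ G : S.Obj B, S.Classifies h g G ∧ S.IsRig G ∧ S.InCut G := by
  obtain ⟨G, hG⟩ := S.exists_model B (h.poincare.pullbackAlong g).L
    (h.poincare.pullbackAlong g).isInvertible
  refine ⟨G, ⟨G, hG, S.equiv_refl G⟩, ?_, ?_⟩
  · exact (S.rig_iff B hG).mp (h.poincare.pullbackAlong g).rigidified
  · exact (S.cut_iff B (h.poincare.pullbackAlong g) hG).mp
      (Pc.pullback_mem _ _ g _ h.poincare_mem)

/-- A model classified by a point is rigidified and lies in the cut. -/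
theorem Classifies.isRig_inCut {g : SchemeHomOver (tB R B) D.toBase} {G : S.Obj B}
    (hg : S.Classifies h g G) : S.IsRig G ∧ S.InCut G := by
  obtain ⟨G₁, h₁, e₁⟩ := hg
  have hr : S.IsRig G₁ := (S.rig_iff B h₁).mp (h.poincare.pullbackAlong g).rigidified
  have hc : S.InCut G₁ := (S.cut_iff B (h.poincare.pullbackAlong g) h₁).mp
    (Pc.pullback_mem _ _ g _ h.poincare_mem)
  exact ⟨S.isRig_of_equiv e₁ hr, S.inCut_of_equiv e₁ hr hc⟩

/-- (surj) Every rigidified model in the cut is classified by a point. -/
theorem exists_point (G : S.Obj B) (hrig : S.IsRig G) (hcut : S.InCut G) :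
    ∃ g : SchemeHomOver (tB R B) D.toBase, S.Classifies h g G := by
  obtain ⟨L, hinv, hL⟩ := S.exists_sheaf B G
  let M : RigidifiedLineBundle c ε (tB R B) := ⟨L, hinv, (S.rig_iff B hL).mpr hrig⟩
  have hM : Pc.P (tB R B) M := (S.cut_iff B M hL).mpr hcut
  refine ⟨h.classify _ M hM, ?_⟩
  obtain ⟨G₁, hG₁⟩ := S.exists_model B (h.poincare.pullbackAlong (h.classify _ M hM)).L
    (h.poincare.pullbackAlong (h.classify _ M hM)).isInvertible
  exact ⟨G₁, hG₁, (S.iso_iff B hG₁ hL).mp (h.classify_spec _ M hM)⟩

/-- (inj) Two points are equal iff the models they classify are equivalent. -/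
theorem classifies_eq_iff {g g' : SchemeHomOver (tB R B) D.toBase} {G G' : S.Obj B}
    (hg : S.Classifies h g G) (hg' : S.Classifies h g' G') : g = g' ↔ S.Equiv G G' := by
  obtain ⟨G₁, h₁, e₁⟩ := hg
  obtain ⟨G₁', h₁', e₁'⟩ := hg'
  constructor
  · rintro rfl
    have e : S.Equiv G₁ G₁' := (S.iso_iff B h₁ h₁').mp ⟨Iso.refl _⟩
    exact S.equiv_trans (S.equiv_symm e₁) (S.equiv_trans e e₁')
  · intro e
    have e' : S.Equiv G₁ G₁' := S.equiv_trans e₁ (S.equiv_trans e (S.equiv_symm e₁'))
    exact h.ext_of_iso _ g g' ((S.iso_iff B h₁ h₁').mpr e')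

/-- (nat) Classification is compatible with base change. -/
theorem Classifies.baseChange {B' : Type u} [CommRing B'] [Algebra R B'] (φ : B →ₐ[R] B')
    {g : SchemeHomOver (tB R B) D.toBase} {G : S.Obj B} (hg : S.Classifies h g G) :
    S.Classifies h (postComp g (bc φ)) (S.baseChange φ G) := by
  obtain ⟨G₁, h₁, e₁⟩ := hg
  obtain ⟨G₂, h₂⟩ := S.exists_model B' (h.poincare.pullbackAlong (postComp g (bc φ))).L
    (h.poincare.pullbackAlong (postComp g (bc φ))).isInvertible
  have hbc : S.Models B' ((h.poincare.pullbackAlong g).pullbackAlong (bc φ)).L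
      (S.baseChange φ G₁) := S.models_baseChange φ h₁
  have e₂ : S.Equiv G₂ (S.baseChange φ G₁) :=
    (S.iso_iff B' h₂ hbc).mp
      ⟨(Fermat.Agent.S25.helper7579.pullbackAlongCompIso h.poincare g (bc φ)).symm⟩
  exact ⟨G₂, h₂, S.equiv_trans e₂ (S.equiv_baseChange φ e₁)⟩

end Points

/-! ### Transfer of lifting properties from models to points -/

section Transfer

variable {B B' : Type u} [CommRing B] [Algebra R B] [CommRing B'] [Algebra R B']

include h

/-- If base change along `φ : B → B'` reflects equivalence of rigidified models in the cut,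
then restriction of points along `Spec B' ⟶ Spec B` is injective
(valuative uniqueness: `B` a valuation ring, `B'` its fraction field). -/
theorem point_ext_of_reflects (φ : B →ₐ[R] B')
    (hφ : ∀ G G' : S.Obj B, S.IsRig G → S.InCut G → S.IsRig G' → S.InCut G' →
      S.Equiv (S.baseChange φ G) (S.baseChange φ G') → S.Equiv G G')
    (g g' : SchemeHomOver (tB R B) D.toBase)
    (hgg' : postComp g (bc φ) = postComp g' (bc φ)) : g = g' := by
  obtain ⟨G, hG, hr, hc⟩ := S.exists_classifies h g
  obtain ⟨G', hG', hr', hc'⟩ := S.exists_classifies h g'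
  have e : S.Equiv (S.baseChange φ G) (S.baseChange φ G') :=
    (S.classifies_eq_iff h (hG.baseChange S h φ) (hG'.baseChange S h φ)).mp hgg'
  exact (S.classifies_eq_iff h hG hG').mpr (hφ G G' hr hc hr' hc' e)

/-- If every rigidified model in the cut over `B'` descends along `φ : B → B'`, then every
`B'`-point extends to a `B`-point (square-zero lifting: `B' = B ⧸ I`; valuative existence:
`B` a valuation ring, `B'` its fraction field). -/
theorem exists_point_of_descends (φ : B →ₐ[R] B')
    (hφ : ∀ G' : S.Obj B', S.IsRig G' → S.InCut G' →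
      ∃ G : S.Obj B, S.IsRig G ∧ S.InCut G ∧ S.Equiv (S.baseChange φ G) G')
    (g' : SchemeHomOver (tB R B') D.toBase) :
    ∃ g : SchemeHomOver (tB R B) D.toBase, postComp g (bc φ) = g' := by
  obtain ⟨G', hG', hr', hc'⟩ := S.exists_classifies h g'
  obtain ⟨G, hr, hc, e⟩ := hφ G' hr' hc'
  obtain ⟨g, hg⟩ := S.exists_point h G hr hc
  exact ⟨g, (S.classifies_eq_iff h (hg.baseChange S h φ) hG').mpr e⟩

end Transfer

/-! ### Transfer of model-level statements to rigidified line bundles on affine test schemes

These four statements do not mention a representing object: they turn facts about models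
(descent along `φ`, reflection of equivalence along `φ`, a bounding family) into the
corresponding facts about rigidified line bundles in the cut, in the frozen vocabulary. -/

section Sheaves

variable {B B' : Type u} [CommRing B] [Algebra R B] [CommRing B'] [Algebra R B']

/-- The rigidified line bundle attached to a rigidified model, with its model relation. -/
theorem exists_rigidified (G : S.Obj B) (hrig : S.IsRig G) :
    ∃ M : RigidifiedLineBundle c ε (tB R B), S.Models B M.L G := by
  obtain ⟨L, hinv, hL⟩ := S.exists_sheaf B G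
  exact ⟨⟨L, hinv, (S.rig_iff B hL).mpr hrig⟩, hL⟩

/-- Every rigidified line bundle in the cut has a rigidified model in the cut. -/
theorem exists_model_of_mem (M : RigidifiedLineBundle c ε (tB R B)) (hM : Pc.P (tB R B) M) :
    ∃ G : S.Obj B, S.Models B M.L G ∧ S.IsRig G ∧ S.InCut G := by
  obtain ⟨G, hG⟩ := S.exists_model B M.L M.isInvertible
  exact ⟨G, hG, (S.rig_iff B hG).mp M.rigidified, (S.cut_iff B M hG).mp hM⟩

/-- The model of a pulled back rigidified line bundle is the base change of the model. -/
theorem models_pullbackAlong (φ : B →ₐ[R] B') {M : RigidifiedLineBundle c ε (tB R B)}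
    {G : S.Obj B} (hG : S.Models B M.L G) :
    S.Models B' (M.pullbackAlong (bc φ)).L (S.baseChange φ G) :=
  S.models_baseChange φ hG

/-- (descent ⟹ extension of bundles) If every rigidified model in the cut over `B'` descends
along `φ : B → B'` to a rigidified model, then every rigidified line bundle in the cut over
`B'` extends to a rigidified line bundle over `B` (square-zero lifting: `B' = B ⧸ I`). -/
theorem exists_extension_of_descends (φ : B →ₐ[R] B')
    (hφ : ∀ G' : S.Obj B', S.IsRig G' → S.InCut G' →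
      ∃ G : S.Obj B, S.IsRig G ∧ S.Equiv (S.baseChange φ G) G')
    (M : RigidifiedLineBundle c ε (tB R B')) (hM : Pc.P (tB R B') M) :
    ∃ M' : RigidifiedLineBundle c ε (tB R B),
      Nonempty ((M'.pullbackAlong (bc φ)).L ≅ M.L) := by
  obtain ⟨G', hG', hr', hc'⟩ := S.exists_model_of_mem M hM
  obtain ⟨G, hr, e⟩ := hφ G' hr' hc'
  obtain ⟨M', hM'⟩ := S.exists_rigidified G hr
  exact ⟨M', (S.iso_iff B' (S.models_pullbackAlong φ hM') hG').mpr e⟩

/-- (descent inside the cut ⟹ extension inside the cut) As `exists_extension_of_descends`,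
keeping track of the cut (valuative existence: `B` a valuation ring, `B'` its fraction
field). -/
theorem exists_extension_mem_of_descends (φ : B →ₐ[R] B')
    (hφ : ∀ G' : S.Obj B', S.IsRig G' → S.InCut G' →
      ∃ G : S.Obj B, S.IsRig G ∧ S.InCut G ∧ S.Equiv (S.baseChange φ G) G')
    (M : RigidifiedLineBundle c ε (tB R B')) (hM : Pc.P (tB R B') M) :
    ∃ M' : RigidifiedLineBundle c ε (tB R B), Pc.P (tB R B) M' ∧
      Nonempty ((M'.pullbackAlong (bc φ)).L ≅ M.L) := by
  obtain ⟨G', hG', hr', hc'⟩ := S.exists_model_of_mem M hM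
  obtain ⟨G, hr, hc, e⟩ := hφ G' hr' hc'
  obtain ⟨M', hM'⟩ := S.exists_rigidified G hr
  exact ⟨M', (S.cut_iff B M' hM').mpr hc,
    (S.iso_iff B' (S.models_pullbackAlong φ hM') hG').mpr e⟩

/-- (reflection ⟹ uniqueness of extensions) If base change along `φ : B → B'` reflects
equivalence of rigidified models in the cut, then two rigidified line bundles in the cut over
`B` that become isomorphic over `B'` are isomorphic (valuative uniqueness). -/
theorem iso_of_reflects (φ : B →ₐ[R] B')
    (hφ : ∀ G G' : S.Obj B, S.IsRig G → S.InCut G → S.IsRig G' → S.InCut G' →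
      S.Equiv (S.baseChange φ G) (S.baseChange φ G') → S.Equiv G G')
    (M M' : RigidifiedLineBundle c ε (tB R B)) (hM : Pc.P (tB R B) M)
    (hM' : Pc.P (tB R B) M')
    (e : Nonempty ((M.pullbackAlong (bc φ)).L ≅ (M'.pullbackAlong (bc φ)).L)) :
    Nonempty (M.L ≅ M'.L) := by
  obtain ⟨G, hG, hr, hc⟩ := S.exists_model_of_mem M hM
  obtain ⟨G', hG', hr', hc'⟩ := S.exists_model_of_mem M' hM'
  exact (S.iso_iff B hG hG').mpr (hφ G G' hr hc hr' hc'
    ((S.iso_iff B' (S.models_pullbackAlong φ hG) (S.models_pullbackAlong φ hG')).mp e))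

/-- (bounding family of models ⟹ bounding family of bundles) A rigidified model `G₀` in the
cut over `B` such that every rigidified model in the cut over a test algebra `B'` satisfying
`Q` is a base change of `G₀` gives a rigidified line bundle `M₀` in the cut over `B` such that
every rigidified line bundle in the cut over such a `B'` is a pullback of `M₀`. -/
theorem exists_bounding (G₀ : S.Obj B) (hr₀ : S.IsRig G₀) (hc₀ : S.InCut G₀) :
    ∃ M₀ : RigidifiedLineBundle c ε (tB R B), Pc.P (tB R B) M₀ ∧ S.Models B M₀.L G₀ ∧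
      ∀ (B' : Type u) [CommRing B'] [Algebra R B'],
        (∀ G : S.Obj B', S.IsRig G → S.InCut G →
          ∃ φ : B →ₐ[R] B', S.Equiv (S.baseChange φ G₀) G) →
        ∀ M : RigidifiedLineBundle c ε (tB R B'), Pc.P (tB R B') M →
          ∃ φ : B →ₐ[R] B', Nonempty ((M₀.pullbackAlong (bc φ)).L ≅ M.L) := by
  obtain ⟨M₀, hM₀⟩ := S.exists_rigidified G₀ hr₀
  refine ⟨M₀, (S.cut_iff B M₀ hM₀).mpr hc₀, hM₀, ?_⟩
  intro B' _ _ hB' M hM
  obtain ⟨G, hG, hr, hc⟩ := S.exists_model_of_mem M hM
  obtain ⟨φ, e⟩ := hB' G hr hc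
  exact ⟨φ, (S.iso_iff B' (S.models_pullbackAlong φ hM₀) hG).mpr e⟩

end Sheaves

end ModelSystem

end Fermat.Agent.S25.helper175
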