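import Fermat.Agent.S25.helper2945_AlgDefs

/-!
# S25, layer G: the four ALGEBRA inputs, as closed Props against `helper2945_AlgDefs`
(leaf LG-ALG, sub-architect helper985; shapes agreed with helper8442 (backup) and helper175)

`helper985_LGSpec` states, in the frozen vocabulary, the four facts about rigidified line
bundles over affine test schemes to which smoothness, separatedness, quasi-compactness and
universal closedness of the Jacobian reduce (`Stmt_LiftSqZero`, `Stmt_ValUniq`,
`Stmt_Bounded`, `Stmt_ValExistAC`).  This file states their ALGEBRAIC counterparts, about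
two-chart line bundles (`GlueDatum`) of an arbitrary `CurveDatum` over an algebraically closed
field.  Every hypothesis that the descent through the dictionary supplies for free is handed
to the algebra side (`k` algebraically closed, `IsRig`, and `DegZero` where the cut is used).

* `Stmt_AlgLiftSqZero`  (leaf U7)        ⟹ `Stmt_LiftSqZero`   (D-LIFT; no degree needed)
* `Stmt_AlgValUniq`     (leaf U8)        ⟹ `Stmt_ValUniq`      (D-VALUNIQ; no degree needed)
* `Stmt_AlgBounded`     (leaves UV, U9)  ⟹ `Stmt_Bounded`      (D-BOUNDED; needs `Stmt_FAEZ`)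
* `Stmt_AlgValExistAC`  (leaf U18)       ⟹ `Stmt_ValExistAC`   (D-VALEX; needs `Stmt_FAEZ`)

Only definitions here.
-/

set_option autoImplicit false

universe u

namespace Fermat.Agent.S25.helper985

open Fermat.Agent.S25.helper1705 Fermat.Agent.S25.helper2945

/-- ALG-LIFT (leaf U7). A rigidified two-chart line bundle over `B ⧸ I` with `I ^ 2 = 0` lifts
to a rigidified two-chart line bundle over `B`.  (No degree hypothesis is needed.) -/
def Stmt_AlgLiftSqZero : Prop :=
  ∀ (k : Type u) [Field k] [IsAlgClosed k] (D : CurveDatum k)
    (B : Type u) [CommRing B] [Algebra k B] (I : Ideal B), I ^ 2 = ⊥ →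
    ∀ G : GlueDatum D (B ⧸ I), G.IsRig →
      ∃ G' : GlueDatum D B, G'.IsRig ∧ (G'.baseChange (Ideal.Quotient.mkₐ k I)).Equiv G

/-- ALG-VAL-UNIQ (leaf U8). Over a valuation ring `V` (any rank) with fraction field `K`: two
rigidified two-chart line bundles over `V` that become isomorphic over `K` are isomorphic.
(No degree hypothesis is needed.) -/
def Stmt_AlgValUniq : Prop :=
  ∀ (k : Type u) [Field k] [IsAlgClosed k] (D : CurveDatum k)
    (V : Type u) [CommRing V] [IsDomain V] [ValuationRing V] [Algebra k V]
    (K : Type u) [Field K] [Algebra V K] [IsFractionRing V K] [Algebra k K] [IsScalarTower k V K]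
    (G G' : GlueDatum D V), G.IsRig → G'.IsRig →
    (G.baseChange (IsScalarTower.toAlgHom k V K)).Equiv
      (G'.baseChange (IsScalarTower.toAlgHom k V K)) →
    G.Equiv G'

/-- ALG-BOUNDED (leaves UV + U9). There is ONE rigidified degree-zero two-chart line bundle,
over some `k`-algebra `B₀`, which specialises to every rigidified degree-zero two-chart line
bundle over every algebraically closed field `K ⊇ k`. -/
def Stmt_AlgBounded : Prop :=
  ∀ (k : Type u) [Field k] [IsAlgClosed k] (D : CurveDatum k),
    ∃ (B₀ : Type u) (_ : CommRing B₀) (_ : Algebra k B₀) (G₀ : GlueDatum D B₀),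
      G₀.IsRig ∧ G₀.DegZero ∧
      ∀ (K : Type u) [Field K] [IsAlgClosed K] [Algebra k K] (G : GlueDatum D K),
        G.IsRig → G.DegZero → ∃ φ : B₀ →ₐ[k] K, (G₀.baseChange φ).Equiv G

/-- ALG-VAL-EXIST (leaf U18). Over a valuation ring `V` (any rank) whose fraction field `K` is
algebraically closed: every rigidified degree-zero two-chart line bundle over `K` extends to
a rigidified degree-zero two-chart line bundle over `V`. -/
def Stmt_AlgValExistAC : Prop :=
  ∀ (k : Type u) [Field k] [IsAlgClosed k] (D : CurveDatum k)
    (V : Type u) [CommRing V] [IsDomain V] [ValuationRing V] [Algebra k V]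
    (K : Type u) [Field K] [IsAlgClosed K] [Algebra V K] [IsFractionRing V K] [Algebra k K]
    [IsScalarTower k V K]
    (G : GlueDatum D K), G.IsRig → G.DegZero →
    ∃ G' : GlueDatum D V, G'.IsRig ∧ G'.DegZero ∧
      (G'.baseChange (IsScalarTower.toAlgHom k V K)).Equiv G

end Fermat.Agent.S25.helper985
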