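/-
S25, layer LG: the four DESCENT arrows (D-LIFT, D-VALUNIQ, D-BOUNDED, D-VALEX).

The dictionary of Spec part III (`helper1705.Dictionary`), with or without the translation of
the cut (`helper1705.Stmt_FAEZ`), is a `ModelSystem` in the sense of `helper175_PointsDict`.
Hence the four algebra statements of `helper985_LGAlg` (about two-chart line bundles) give the
four frozen-vocabulary statements of `helper985_LGSpec` (about rigidified line bundles on
affine test schemes).
-/
import Fermat.Agent.S25.helper1705_Spec3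
import Fermat.Agent.S25.helper985_LGAlg
import Fermat.Agent.S25.helper175_PointsDict

set_option autoImplicit false

universe u

open CategoryTheory CategoryTheory.Limits AlgebraicGeometry AlgebraicGeometry.RelPicard
  NeronModelInfra GoodReductionJacobian

namespace Fermat.Agent.S25.helper175

open Fermat.Agent.S25.helper1705 Fermat.Agent.S25.helper2945 Fermat.Agent.S25.helper985

variable {k : Type u} [Field k] {C : Scheme.{u}} {c : C ⟶ Spec (CommRingCat.of k)}
  {ε : SchemeHomOver (𝟙 (Spec (CommRingCat.of k))) c} {D : CurveDatum k}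

theorem bc_eq_specHomOver {B B' : Type u} [CommRing B] [Algebra k B] [CommRing B']
    [Algebra k B'] (φ : B →ₐ[k] B') : bc φ = specHomOver φ := rfl

/-- The model system of a dictionary, for the full rigidified Picard functor (no cut, so the
translation of the cut is not needed). -/
noncomputable def modelSystemTop (𝔇 : Dictionary c ε D) :
    ModelSystem.{u + 1, u} c ε (SubPicCondition.top c ε) where
  Obj B _ _ := GlueDatum D B
  Equiv G G' := G.Equiv G'
  baseChange φ G := G.baseChange φ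
  IsRig G := G.IsRig
  InCut _ := True
  Models B _ _ L G := 𝔇.Models B L G
  exists_model B _ _ L hL := 𝔇.exists_model B L hL
  exists_sheaf B _ _ G := 𝔇.exists_sheaf B G
  iso_iff B _ _ _ _ _ _ h h' := 𝔇.iso_iff B h h'
  models_baseChange φ _ _ h := 𝔇.models_baseChange φ h
  rig_iff B _ _ _ _ h := 𝔇.rig_iff B h
  cut_iff _ _ _ _ _ _ := Iff.rfl

/-- The model system of a dictionary, for the cut "fibrewise algebraically equivalent to
zero", given the translation of the cut into `DegZero`. -/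
noncomputable def modelSystemAEZ (𝔇 : Dictionary c ε D)
    (hF : ∀ (B : Type u) [CommRing B] [Algebra k B] (M : RigidifiedLineBundle c ε (specStr k B))
      (G : GlueDatum D B), 𝔇.Models B M.L G → (FibrewiseAlgEquivZero M ↔ G.DegZero)) :
    ModelSystem.{u + 1, u} c ε (algEquivZeroCut c ε) where
  Obj B _ _ := GlueDatum D B
  Equiv G G' := G.Equiv G'
  baseChange φ G := G.baseChange φ
  IsRig G := G.IsRig
  InCut G := G.DegZero
  Models B _ _ L G := 𝔇.Models B L G
  exists_model B _ _ L hL := 𝔇.exists_model B L hL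
  exists_sheaf B _ _ G := 𝔇.exists_sheaf B G
  iso_iff B _ _ _ _ _ _ h h' := 𝔇.iso_iff B h h'
  models_baseChange φ _ _ h := 𝔇.models_baseChange φ h
  rig_iff B _ _ _ _ h := 𝔇.rig_iff B h
  cut_iff B _ _ M _ h := hF B M _ h

/-! ### The four descent arrows -/

/-- **D-LIFT** (no cut needed): square-zero lifting of rigidified two-chart line bundles gives
`Stmt_LiftSqZero`. -/
theorem stmt_LiftSqZero_of (hChart : Stmt_Chart.{u}) (hDict : Stmt_Dict.{u})
    (hU7 : Stmt_AlgLiftSqZero.{u}) : Stmt_LiftSqZero.{u} := by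
  intro k _ C c hc ε B _ _ I hI M _
  have := hc.algClosed
  obtain ⟨D, ⟨ρ⟩⟩ := hChart k c hc ε
  obtain ⟨𝔇⟩ := hDict k c ε D ρ
  exact (modelSystemTop 𝔇).exists_extension_of_descends (Ideal.Quotient.mkₐ k I)
    (fun G' hr _ => hU7 k D B I hI G' hr) M trivial

/-- D-LIFT, variant: the algebra input may use that the datum to be lifted is `DegZero`. -/
theorem stmt_LiftSqZero_of_degZero (hChart : Stmt_Chart.{u}) (hDict : Stmt_Dict.{u})
    (hFAEZ : Stmt_FAEZ.{u})
    (hU7 : ∀ (k : Type u) [Field k] [IsAlgClosed k] (D : CurveDatum k)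
      (B : Type u) [CommRing B] [Algebra k B] (I : Ideal B), I ^ 2 = ⊥ →
      ∀ G : GlueDatum D (B ⧸ I), G.IsRig → G.DegZero →
        ∃ G' : GlueDatum D B, G'.IsRig ∧ (G'.baseChange (Ideal.Quotient.mkₐ k I)).Equiv G) :
    Stmt_LiftSqZero.{u} := by
  intro k _ C c hc ε B _ _ I hI M hM
  have := hc.algClosed
  obtain ⟨D, ⟨ρ⟩⟩ := hChart k c hc ε
  obtain ⟨𝔇⟩ := hDict k c ε D ρ
  exact (modelSystemAEZ 𝔇 (hFAEZ k c hc ε D ρ 𝔇)).exists_extension_of_descends
    (Ideal.Quotient.mkₐ k I) (fun G' hr hd => hU7 k D B I hI G' hr hd) M hM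

/-- **D-VALUNIQ** (no cut needed): if base change from a valuation ring to its fraction field
reflects equivalence of rigidified two-chart line bundles, then `Stmt_ValUniq` holds. -/
theorem stmt_ValUniq_of (hChart : Stmt_Chart.{u}) (hDict : Stmt_Dict.{u})
    (hU8 : Stmt_AlgValUniq.{u}) : Stmt_ValUniq.{u} := by
  intro k _ C c hc ε V _ _ _ _ K _ _ _ _ _ M M' _ _ e
  have := hc.algClosed
  obtain ⟨D, ⟨ρ⟩⟩ := hChart k c hc ε
  obtain ⟨𝔇⟩ := hDict k c ε D ρ
  exact (modelSystemTop 𝔇).iso_of_reflects (IsScalarTower.toAlgHom k V K)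
    (fun G G' hr _ hr' _ he => hU8 k D V K G G' hr hr' he) M M' trivial trivial e

/-- D-VALUNIQ, variant: the algebra input may use that both data are `DegZero`. -/
theorem stmt_ValUniq_of_degZero (hChart : Stmt_Chart.{u}) (hDict : Stmt_Dict.{u})
    (hFAEZ : Stmt_FAEZ.{u})
    (hU8 : ∀ (k : Type u) [Field k] [IsAlgClosed k] (D : CurveDatum k)
      (V : Type u) [CommRing V] [IsDomain V] [ValuationRing V] [Algebra k V]
      (K : Type u) [Field K] [Algebra V K] [IsFractionRing V K] [Algebra k K]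
      [IsScalarTower k V K] (G G' : GlueDatum D V), G.IsRig → G.DegZero → G'.IsRig →
      G'.DegZero → (G.baseChange (IsScalarTower.toAlgHom k V K)).Equiv
        (G'.baseChange (IsScalarTower.toAlgHom k V K)) → G.Equiv G') :
    Stmt_ValUniq.{u} := by
  intro k _ C c hc ε V _ _ _ _ K _ _ _ _ _ M M' hM hM' e
  have := hc.algClosed
  obtain ⟨D, ⟨ρ⟩⟩ := hChart k c hc ε
  obtain ⟨𝔇⟩ := hDict k c ε D ρ
  exact (modelSystemAEZ 𝔇 (hFAEZ k c hc ε D ρ 𝔇)).iso_of_reflects
    (IsScalarTower.toAlgHom k V K)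
    (fun G G' hr hd hr' hd' he => hU8 k D V K G G' hr hd hr' hd' he) M M' hM hM' e

/-- **D-BOUNDED**: a universal rigidified `DegZero` two-chart line bundle over one `k`-algebra
`B₀`, specialising to every rigidified `DegZero` two-chart line bundle over every
algebraically closed field, gives `Stmt_Bounded`. -/
theorem stmt_Bounded_of (hChart : Stmt_Chart.{u}) (hDict : Stmt_Dict.{u})
    (hFAEZ : Stmt_FAEZ.{u}) (hU9 : Stmt_AlgBounded.{u}) : Stmt_Bounded.{u} := by
  intro k _ C c hc ε
  have := hc.algClosed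
  obtain ⟨D, ⟨ρ⟩⟩ := hChart k c hc ε
  obtain ⟨𝔇⟩ := hDict k c ε D ρ
  obtain ⟨B₀, _, _, G₀, hr₀, hd₀, hG₀⟩ := hU9 k D
  obtain ⟨M₀, hM₀, -, hB⟩ :=
    (modelSystemAEZ 𝔇 (hFAEZ k c hc ε D ρ 𝔇)).exists_bounding G₀ hr₀ hd₀
  refine ⟨B₀, inferInstance, inferInstance, M₀, hM₀, ?_⟩
  intro K _ _ _ M hM
  exact hB K (fun G hr hd => hG₀ K G hr hd) M hM

/-- **D-VALEX**: extension of rigidified `DegZero` two-chart line bundles from an
algebraically closed fraction field to the valuation ring gives `Stmt_ValExistAC`. -/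
theorem stmt_ValExistAC_of (hChart : Stmt_Chart.{u}) (hDict : Stmt_Dict.{u})
    (hFAEZ : Stmt_FAEZ.{u}) (hU18 : Stmt_AlgValExistAC.{u}) : Stmt_ValExistAC.{u} := by
  intro k _ C c hc ε V _ _ _ _ K _ _ _ _ _ _ M hM
  have := hc.algClosed
  obtain ⟨D, ⟨ρ⟩⟩ := hChart k c hc ε
  obtain ⟨𝔇⟩ := hDict k c ε D ρ
  exact (modelSystemAEZ 𝔇 (hFAEZ k c hc ε D ρ 𝔇)).exists_extension_mem_of_descends
    (IsScalarTower.toAlgHom k V K) (fun G hr hd => hU18 k D V K G hr hd) M hM

/-- **All four descent arrows.** The frozen-vocabulary statements of `helper985_LGSpec` from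
the two-chart atlas, the dictionary, the translation of the cut and the four algebra
statements of `helper985_LGAlg`. -/
theorem stmt_frozen_of (hChart : Stmt_Chart.{u}) (hDict : Stmt_Dict.{u})
    (hFAEZ : Stmt_FAEZ.{u}) (hU7 : Stmt_AlgLiftSqZero.{u}) (hU8 : Stmt_AlgValUniq.{u})
    (hU9 : Stmt_AlgBounded.{u}) (hU18 : Stmt_AlgValExistAC.{u}) :
    Stmt_LiftSqZero.{u} ∧ Stmt_ValUniq.{u} ∧ Stmt_Bounded.{u} ∧ Stmt_ValExistAC.{u} :=
  ⟨stmt_LiftSqZero_of hChart hDict hU7, stmt_ValUniq_of hChart hDict hU8,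
    stmt_Bounded_of hChart hDict hFAEZ hU9, stmt_ValExistAC_of hChart hDict hFAEZ hU18⟩

end Fermat.Agent.S25.helper175
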