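import Mathlib

/-!
# S25: the algebraic curve datum (architect helper1705)

Interface between the scheme side and the algebra side of the S25 project.
A smooth proper integral curve `C` over a field `k` with a rational point `ε` is encoded by a
two-chart atlas: `C = Spec R₀ ∪ Spec R₁` (index `₁` = the chart at infinity), glued along `Spec R₀₁` where
`R₀₁ = R₀[1/x] = R₁[1/y]` and `x * y = 1` (so `x : C → ℙ¹` is a finite morphism, `Spec R₀` is the
locus where `x` is finite and `Spec R₁` the locus where `y = 1/x` is finite).
The point `ε` lies on `V(y) ⊆ Spec R₁`.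

Only Mathlib is imported. Everything the algebra side proves is about a `CurveDatum k`;
the scheme side proves that the curve of S25 admits such a datum (`Stmt_Chart` in the Spec).

Axioms are kept minimal. In particular the following are THEOREMS to be proved on the algebra
side (for `k` algebraically closed), not fields:
* `R₀ ⊗[k] K` is a domain for every field `K/k`;
* `R₀ ∩ R₁ = k` inside `R₀₁`;
* the diagonal ideal of `R₀ ⊗[k] R₀` is an invertible module (from `Ω` invertible);
* `R₀`, `R₁` are of finite type over `k`, `R₀₁` is a domain, `x` is transcendental, ...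
-/

set_option autoImplicit false

universe u

open scoped TensorProduct

namespace Fermat.Agent.S25.helper1705

/-- A two-chart atlas of a smooth proper integral curve over `k` with a marked rational point. -/
structure CurveDatum (k : Type u) [Field k] where
  /-- coordinate ring of the chart where `x` is finite -/
  R₀ : Type u
  /-- coordinate ring of the chart where `y = 1/x` is finite -/
  R₁ : Type u
  /-- coordinate ring of the overlap -/
  R₀₁ : Type u
  [commRing₀ : CommRing R₀]
  [commRing₁ : CommRing R₁]
  [commRing₀₁ : CommRing R₀₁]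
  [algebra₀ : Algebra k R₀]
  [algebra₁ : Algebra k R₁]
  [algebra₀₁ : Algebra k R₀₁]
  [algebra₀₀₁ : Algebra R₀ R₀₁]
  [algebra₁₀₁ : Algebra R₁ R₀₁]
  [tower₀ : IsScalarTower k R₀ R₀₁]
  [tower₁ : IsScalarTower k R₁ R₀₁]
  /-- the function `x`, regular on the first chart -/
  x : R₀
  /-- the function `y = 1/x`, regular on the second chart -/
  y : R₁
  [away₀ : IsLocalization.Away x R₀₁]
  [away₁ : IsLocalization.Away y R₀₁]
  xy : algebraMap R₀ R₀₁ x * algebraMap R₁ R₀₁ y = 1
  /-- the marked rational point `ε`, a `k`-point of the second chart -/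
  e : R₁ →ₐ[k] k
  /-- `ε` lies on the divisor `y = 0` -/
  ey : e y = 0
  [isDomain₀ : IsDomain R₀]
  [isDomain₁ : IsDomain R₁]
  /-- properness, first half: `R₀` is finite over `k[x]` -/
  finite₀ : (Polynomial.aeval x : Polynomial k →ₐ[k] R₀).toRingHom.Finite
  /-- properness, second half: `R₁` is finite over `k[y]` -/
  finite₁ : (Polynomial.aeval y : Polynomial k →ₐ[k] R₁).toRingHom.Finite
  /-- smoothness of relative dimension one, first chart -/
  [omega₀ : Module.Invertible R₀ (Ω[R₀⁄k])]
  /-- smoothness of relative dimension one, second chart -/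
  [omega₁ : Module.Invertible R₁ (Ω[R₁⁄k])]

namespace CurveDatum

attribute [instance] commRing₀ commRing₁ commRing₀₁ algebra₀ algebra₁ algebra₀₁ algebra₀₀₁
  algebra₁₀₁ tower₀ tower₁ away₀ away₁ isDomain₀ isDomain₁ omega₀ omega₁

variable {k : Type u} [Field k] (D : CurveDatum k)

/-- The ring of the first chart of `C ×ₖ Spec B`. -/
abbrev A₀ (B : Type u) [CommRing B] [Algebra k B] : Type u := D.R₀ ⊗[k] B

/-- The ring of the second chart of `C ×ₖ Spec B`. -/
abbrev A₁ (B : Type u) [CommRing B] [Algebra k B] : Type u := D.R₁ ⊗[k] B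

/-- The ring of the overlap of the two charts of `C ×ₖ Spec B`. -/
abbrev A₀₁ (B : Type u) [CommRing B] [Algebra k B] : Type u := D.R₀₁ ⊗[k] B

/-- Restriction from the first chart to the overlap. -/
noncomputable abbrev res₀ (B : Type u) [CommRing B] [Algebra k B] : D.A₀ B →ₐ[k] D.A₀₁ B :=
  Algebra.TensorProduct.map (IsScalarTower.toAlgHom k D.R₀ D.R₀₁) (AlgHom.id k B)

/-- Restriction from the second chart to the overlap. -/
noncomputable abbrev res₁ (B : Type u) [CommRing B] [Algebra k B] : D.A₁ B →ₐ[k] D.A₀₁ B :=
  Algebra.TensorProduct.map (IsScalarTower.toAlgHom k D.R₁ D.R₀₁) (AlgHom.id k B)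

/-- The section `ε` of the second chart of `C ×ₖ Spec B`. -/
noncomputable abbrev eB (B : Type u) [CommRing B] [Algebra k B] : D.A₁ B →ₐ[k] B :=
  Algebra.TensorProduct.lift ((Algebra.ofId k B).comp D.e) (AlgHom.id k B) (fun _ _ => .all _ _)

/-- Base change of the first chart ring along `B → B'`. -/
noncomputable abbrev map₀ {B B' : Type u} [CommRing B] [Algebra k B] [CommRing B'] [Algebra k B']
    (φ : B →ₐ[k] B') : D.A₀ B →ₐ[k] D.A₀ B' :=
  Algebra.TensorProduct.map (AlgHom.id k D.R₀) φ

/-- Base change of the second chart ring along `B → B'`. -/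
noncomputable abbrev map₁ {B B' : Type u} [CommRing B] [Algebra k B] [CommRing B'] [Algebra k B']
    (φ : B →ₐ[k] B') : D.A₁ B →ₐ[k] D.A₁ B' :=
  Algebra.TensorProduct.map (AlgHom.id k D.R₁) φ

/-- Base change of the overlap ring along `B → B'`. -/
noncomputable abbrev map₀₁ {B B' : Type u} [CommRing B] [Algebra k B] [CommRing B'] [Algebra k B']
    (φ : B →ₐ[k] B') : D.A₀₁ B →ₐ[k] D.A₀₁ B' :=
  Algebra.TensorProduct.map (AlgHom.id k D.R₀₁) φ

end CurveDatum

end Fermat.Agent.S25.helper1705
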