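import Fermat.Agent.S25.helper1705_Spec
import Fermat.Agent.S25.helper1705_Curve

/-!
# S25 specification file, part II: representability (architect helper1705)

`Stmt_Rep` is split into
* `Stmt_LocIso`, `Stmt_GlueObj` : the rigidified Picard functor of the curve is a Zariski sheaf
  (separatedness and effectivity), in the frozen vocabulary;
* `Stmt_CutLocal` : the cut `algEquivZeroCut` is Zariski-local on the base;
* `Stmt_GlueRep` : FORMAL gluing theorem, for any base ring and any local cut: a family of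
  charts that are monomorphisms, open and jointly covering glues to a representing designation
  (Mathlib's `Scheme.LocalRepresentability`, or gluing by hand);
* `Stmt_AffRed` : FORMAL reduction of the chart conditions to affine test schemes;
* `Stmt_ChartsAff` : the curve has a chart family satisfying the affine chart conditions
  (this is where the dictionary and the algebra core enter, see part III);
* `Realization`, `Stmt_Chart` : the two-chart atlas of the curve (layer A / M1).
-/

set_option autoImplicit false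

universe u

open CategoryTheory CategoryTheory.Limits AlgebraicGeometry AlgebraicGeometry.RelPicard
  NeronModelInfra GoodReductionJacobian

namespace Fermat.Agent.S25.helper1705

section General

variable {R : Type u} [CommRing R] {C : Scheme.{u}} (c : C ⟶ Spec (CommRingCat.of R))
  (ε : SchemeHomOver (𝟙 (Spec (CommRingCat.of R))) c)

/-- Separatedness of the rigidified Picard functor for the Zariski topology: two rigidified
line bundles on `C ×_R T` that are isomorphic over every member of an open cover of `T` are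
isomorphic. -/
def LocIso : Prop :=
  ∀ {T : Scheme.{u}} (t : T ⟶ Spec (CommRingCat.of R)) (M M' : RigidifiedLineBundle c ε t)
    (𝒰 : Scheme.OpenCover.{u} T),
    (∀ i, Nonempty ((M.pullbackAlong (⟨𝒰.f i, rfl⟩ : SchemeHomOver (𝒰.f i ≫ t) t)).L ≅
        (M'.pullbackAlong (⟨𝒰.f i, rfl⟩ : SchemeHomOver (𝒰.f i ≫ t) t)).L)) →
    Nonempty (M.L ≅ M'.L)

/-- Effectivity of gluing for the rigidified Picard functor: classes over an open cover of `T`
that agree on the overlaps come from a rigidified line bundle on `C ×_R T`. -/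
def GlueObj : Prop :=
  ∀ {T : Scheme.{u}} (t : T ⟶ Spec (CommRingCat.of R)) (𝒰 : Scheme.OpenCover.{u} T)
    (M : ∀ i, RigidifiedLineBundle c ε (𝒰.f i ≫ t)),
    (∀ i j, Nonempty
      (((M i).pullbackAlong (⟨pullback.fst (𝒰.f i) (𝒰.f j), rfl⟩ :
          SchemeHomOver (pullback.fst (𝒰.f i) (𝒰.f j) ≫ 𝒰.f i ≫ t) (𝒰.f i ≫ t))).L ≅
        ((M j).pullbackAlong (⟨pullback.snd (𝒰.f i) (𝒰.f j), by
            rw [← Category.assoc, ← pullback.condition, Category.assoc]⟩ :
          SchemeHomOver (pullback.fst (𝒰.f i) (𝒰.f j) ≫ 𝒰.f i ≫ t) (𝒰.f j ≫ t))).L)) →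
    ∃ N : RigidifiedLineBundle c ε t,
      ∀ i, Nonempty ((N.pullbackAlong (⟨𝒰.f i, rfl⟩ : SchemeHomOver (𝒰.f i ≫ t) t)).L ≅ (M i).L)

variable {c ε}

/-- A cut is Zariski-local on the base. -/
def IsLocalCut (Pc : SubPicCondition c ε) : Prop :=
  ∀ {T : Scheme.{u}} (t : T ⟶ Spec (CommRingCat.of R)) (M : RigidifiedLineBundle c ε t)
    (𝒰 : Scheme.OpenCover.{u} T),
    (∀ i, Pc.P (𝒰.f i ≫ t) (M.pullbackAlong (⟨𝒰.f i, rfl⟩ : SchemeHomOver (𝒰.f i ≫ t) t))) →
    Pc.P t M

/-- A family of charts: `R`-schemes `X i` carrying rigidified line bundles `Q i` in the cut. -/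
structure ChartFamily (Pc : SubPicCondition c ε) where
  /-- index type -/
  ι : Type u
  /-- the chart schemes -/
  X : ι → Scheme.{u}
  /-- their structure morphisms -/
  x : ∀ i, X i ⟶ Spec (CommRingCat.of R)
  /-- the universal bundles of the charts -/
  Q : ∀ i, RigidifiedLineBundle c ε (x i)
  mem : ∀ i, Pc.P (x i) (Q i)

namespace ChartFamily

variable {Pc : SubPicCondition c ε} (F : ChartFamily Pc)

/-- `M` over `T` is pulled back from the `i`-th chart. -/
def InChart (i : F.ι) {T : Scheme.{u}} (t : T ⟶ Spec (CommRingCat.of R))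
    (M : RigidifiedLineBundle c ε t) : Prop :=
  ∃ g : SchemeHomOver t (F.x i), Nonempty (((F.Q i).pullbackAlong g).L ≅ M.L)

/-- Each chart is a monomorphism of functors: the classifying map is unique. -/
def IsMono : Prop :=
  ∀ (i : F.ι) {T : Scheme.{u}} (t : T ⟶ Spec (CommRingCat.of R)) (g g' : SchemeHomOver t (F.x i)),
    Nonempty (((F.Q i).pullbackAlong g).L ≅ ((F.Q i).pullbackAlong g').L) → g = g'

/-- The charts are open subfunctors and jointly cover the cut. -/
def IsOpenCover : Prop :=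
  ∀ {T : Scheme.{u}} (t : T ⟶ Spec (CommRingCat.of R)) (M : RigidifiedLineBundle c ε t),
    Pc.P t M → ∃ U : F.ι → T.Opens,
      (∀ (i : F.ι) {T' : Scheme.{u}} (ψ : T' ⟶ T),
        (∀ p : T', ψ.base p ∈ U i) ↔
          F.InChart i (ψ ≫ t) (M.pullbackAlong (⟨ψ, rfl⟩ : SchemeHomOver (ψ ≫ t) t))) ∧
      (⨆ i, U i) = ⊤

/-- `IsMono`, tested on affine schemes only. -/
def IsMonoAff : Prop :=
  ∀ (i : F.ι) (B : CommRingCat.{u}) (t : Spec B ⟶ Spec (CommRingCat.of R))
    (g g' : SchemeHomOver t (F.x i)),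
    Nonempty (((F.Q i).pullbackAlong g).L ≅ ((F.Q i).pullbackAlong g').L) → g = g'

/-- `IsOpenCover`, tested on affine schemes only. -/
def IsOpenCoverAff : Prop :=
  ∀ (B : CommRingCat.{u}) (t : Spec B ⟶ Spec (CommRingCat.of R)) (M : RigidifiedLineBundle c ε t),
    Pc.P t M → ∃ U : F.ι → (Spec B).Opens,
      (∀ (i : F.ι) (B' : CommRingCat.{u}) (ψ : Spec B' ⟶ Spec B),
        (∀ p : Spec B', ψ.base p ∈ U i) ↔
          F.InChart i (ψ ≫ t) (M.pullbackAlong (⟨ψ, rfl⟩ : SchemeHomOver (ψ ≫ t) t))) ∧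
      (⨆ i, U i) = ⊤

end ChartFamily

end General

/-- GLUE-REP (formal, no curves). A family of charts that are monomorphisms, open and jointly
covering, for a local cut of a rigidified Picard functor that is a Zariski sheaf, glues to a
representing designation having the charts as an open cover. -/
def Stmt_GlueRep : Prop :=
  ∀ (R : Type u) [CommRing R] {C : Scheme.{u}} (c : C ⟶ Spec (CommRingCat.of R))
    (ε : SchemeHomOver (𝟙 (Spec (CommRingCat.of R))) c) (Pc : SubPicCondition c ε),
    LocIso c ε → GlueObj c ε → IsLocalCut Pc →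
    ∀ F : ChartFamily Pc, F.IsMono → F.IsOpenCover →
      ∃ D : RelativePic0Designation R c, Nonempty (RepresentsRelSubPic c ε Pc D) ∧
        ∃ j : ∀ i, F.X i ⟶ D.P, (∀ i, IsOpenImmersion (j i)) ∧ (∀ i, j i ≫ D.toBase = F.x i) ∧
          ∀ p : D.P, ∃ i, ∃ q : F.X i, (j i).base q = p

/-- AFF-RED (formal, no curves). The chart conditions can be tested on affine schemes. -/
def Stmt_AffRed : Prop :=
  ∀ (R : Type u) [CommRing R] {C : Scheme.{u}} (c : C ⟶ Spec (CommRingCat.of R))
    (ε : SchemeHomOver (𝟙 (Spec (CommRingCat.of R))) c) (Pc : SubPicCondition c ε),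
    LocIso c ε → ∀ F : ChartFamily Pc, F.IsMonoAff → F.IsOpenCoverAff → F.IsMono ∧ F.IsOpenCover

/-- LOC-ISO for the curve. -/
def Stmt_LocIso : Prop :=
  ∀ (k : Type u) [Field k] {C : Scheme.{u}} (c : C ⟶ Spec (CommRingCat.of k)) (_ : IsCurve k c)
    (ε : SchemeHomOver (𝟙 (Spec (CommRingCat.of k))) c), LocIso c ε

/-- GLUE-OBJ for the curve. -/
def Stmt_GlueObj : Prop :=
  ∀ (k : Type u) [Field k] {C : Scheme.{u}} (c : C ⟶ Spec (CommRingCat.of k)) (_ : IsCurve k c)
    (ε : SchemeHomOver (𝟙 (Spec (CommRingCat.of k))) c), GlueObj c ε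

/-- CUT-LOCAL. Fibrewise algebraic equivalence to zero is Zariski-local on the base. -/
def Stmt_CutLocal : Prop :=
  ∀ (R : Type u) [CommRing R] {C : Scheme.{u}} (c : C ⟶ Spec (CommRingCat.of R))
    (ε : SchemeHomOver (𝟙 (Spec (CommRingCat.of R))) c), IsLocalCut (algEquivZeroCut c ε)

/-- CHARTS-AFF. The curve has a family of charts, locally of finite type over `k`, satisfying
the chart conditions on affine test schemes. -/
def Stmt_ChartsAff : Prop :=
  ∀ (k : Type u) [Field k] {C : Scheme.{u}} (c : C ⟶ Spec (CommRingCat.of k)) (_ : IsCurve k c)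
    (ε : SchemeHomOver (𝟙 (Spec (CommRingCat.of k))) c),
    ∃ F : ChartFamily (algEquivZeroCut c ε),
      (∀ i, LocallyOfFiniteType (F.x i)) ∧ F.IsMonoAff ∧ F.IsOpenCoverAff

set_option backward.isDefEq.respectTransparency false in
/-- Assembly of `Stmt_Rep`. -/
theorem stmt_Rep_of (hGlueRep : Stmt_GlueRep.{u}) (hAffRed : Stmt_AffRed.{u})
    (hLocIso : Stmt_LocIso.{u}) (hGlueObj : Stmt_GlueObj.{u}) (hCutLocal : Stmt_CutLocal.{u})
    (hCharts : Stmt_ChartsAff.{u}) : Stmt_Rep.{u} := by
  intro k _ C c hc ε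
  obtain ⟨F, hft, hmono, hopen⟩ := hCharts k c hc ε
  have hL : LocIso c ε := hLocIso k c hc ε
  have hG : GlueObj c ε := hGlueObj k c hc ε
  have hP : IsLocalCut (algEquivZeroCut c ε) := hCutLocal k c ε
  obtain ⟨hm, ho⟩ := hAffRed k c ε _ hL F hmono hopen
  obtain ⟨D, hD, j, hj, hjx, hcov⟩ := hGlueRep k c ε _ hL hG hP F hm ho
  refine ⟨D, hD, ?_⟩
  have := hj
  let 𝒰 : Scheme.OpenCover.{u} D.P := Scheme.Cover.mkOfCovers F.ι F.X j hcov
  refine IsZariskiLocalAtSource.of_openCover (P := @LocallyOfFiniteType) 𝒰 fun i => ?_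
  change LocallyOfFiniteType (j i ≫ D.toBase)
  rw [hjx i]
  exact hft i

/-! ## The two-chart atlas of the curve (layer A / M1) -/

/-- The curve `C` is glued from `Spec R₀` and `Spec R₁` along `Spec R₀₁`, compatibly with the
structure morphism, and `ε` is the point `e` of the chart at infinity. -/
structure Realization {k : Type u} [Field k] {C : Scheme.{u}} (c : C ⟶ Spec (CommRingCat.of k))
    (ε : SchemeHomOver (𝟙 (Spec (CommRingCat.of k))) c) (D : CurveDatum k) where
  /-- the open immersion of the first chart -/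
  j₀ : Spec (CommRingCat.of D.R₀) ⟶ C
  /-- the open immersion of the chart at infinity -/
  j₁ : Spec (CommRingCat.of D.R₁) ⟶ C
  isOpenImmersion₀ : IsOpenImmersion j₀
  isOpenImmersion₁ : IsOpenImmersion j₁
  fac₀ : j₀ ≫ c = Spec.map (CommRingCat.ofHom (algebraMap k D.R₀))
  fac₁ : j₁ ≫ c = Spec.map (CommRingCat.ofHom (algebraMap k D.R₁))
  cover : ∀ p : C, (∃ q, j₀.base q = p) ∨ (∃ q, j₁.base q = p)
  isPullback : IsPullback (Spec.map (CommRingCat.ofHom (algebraMap D.R₀ D.R₀₁)))
    (Spec.map (CommRingCat.ofHom (algebraMap D.R₁ D.R₀₁))) j₀ j₁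
  eps : ε.1 = Spec.map (CommRingCat.ofHom D.e.toRingHom) ≫ j₁

/-- CHART (layer A / M1). The curve of S25 has a two-chart atlas. -/
def Stmt_Chart : Prop :=
  ∀ (k : Type u) [Field k] {C : Scheme.{u}} (c : C ⟶ Spec (CommRingCat.of k)) (_ : IsCurve k c)
    (ε : SchemeHomOver (𝟙 (Spec (CommRingCat.of k))) c),
    ∃ D : CurveDatum k, Nonempty (Realization c ε D)

end Fermat.Agent.S25.helper1705
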