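/-
S25, brick PC = PRODUCT CHARTS (helper2911).

Scheme-side input of the dictionary between invertible modules on `C ×ₖ Spec B` and two-chart
gluing data: the two-chart realization of `C` base-changes to a two-chart realization of
`pullback c t`, compatibly with base change in `B` and with the rigidifying section.
All proofs complete.
-/
import Fermat.Agent.S25.helper1705_Spec2

set_option autoImplicit false

universe u

open CategoryTheory CategoryTheory.Limits AlgebraicGeometry TensorProduct

namespace Fermat.Agent.S25.helper2911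

/-! ### PC1: generic charts of a fibre product -/

section Generic

variable {C S T U : Scheme.{u}} (c : C ⟶ S) (t : T ⟶ S) (j : U ⟶ C)

/-- The chart of `pullback c t` lying over `j : U ⟶ C`. -/
noncomputable def chartMap : pullback (j ≫ c) t ⟶ pullback c t :=
  pullback.map (j ≫ c) t c t j (𝟙 T) (𝟙 S) (by simp) (by simp)

@[reassoc (attr := simp)]
theorem chartMap_fst : chartMap c t j ≫ pullback.fst c t = pullback.fst (j ≫ c) t ≫ j :=
  pullback.lift_fst _ _ _

@[reassoc (attr := simp)]
theorem chartMap_snd : chartMap c t j ≫ pullback.snd c t = pullback.snd (j ≫ c) t :=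
  (pullback.lift_snd _ _ _).trans (Category.comp_id _)

instance chartMap_isOpenImmersion [IsOpenImmersion j] : IsOpenImmersion (chartMap c t j) := by
  unfold chartMap
  infer_instance

/-- The chart is the base change of `j` along the first projection. -/
theorem isPullback_chartMap :
    IsPullback (chartMap c t j) (pullback.fst (j ≫ c) t) (pullback.fst c t) j := by
  have h1 : IsPullback (pullback.fst (j ≫ c) t) (pullback.snd (j ≫ c) t) (j ≫ c) t :=
    IsPullback.of_hasPullback _ _
  have h2 : IsPullback (pullback.fst c t) (pullback.snd c t) c t := IsPullback.of_hasPullback _ _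
  refine IsPullback.of_right ?_ (chartMap_fst c t j) h2.flip
  rw [chartMap_snd]
  exact h1.flip

theorem range_chartMap :
    Set.range (chartMap c t j) = pullback.fst c t ⁻¹' Set.range j := by
  unfold chartMap
  rw [Scheme.Pullback.range_map]
  simp

theorem opensRange_chartMap [IsOpenImmersion j] :
    (chartMap c t j).opensRange = pullback.fst c t ⁻¹ᵁ j.opensRange := by
  ext z
  exact Set.ext_iff.mp (range_chartMap c t j) z

end Generic

section Overlap

variable {C S T U₀ U₁ U₀₁ : Scheme.{u}} (c : C ⟶ S) (t : T ⟶ S)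
  {j₀ : U₀ ⟶ C} {j₁ : U₁ ⟶ C} {i₀ : U₀₁ ⟶ U₀} {i₁ : U₀₁ ⟶ U₁}

/-- The chart over the overlap `U₀₁`, mapped to the chart over `U₁`. -/
noncomputable def chartMapSnd (w : i₀ ≫ j₀ = i₁ ≫ j₁) :
    pullback (i₀ ≫ j₀ ≫ c) t ⟶ pullback (j₁ ≫ c) t :=
  pullback.map (i₀ ≫ j₀ ≫ c) t (j₁ ≫ c) t i₁ (𝟙 T) (𝟙 S)
    (by rw [Category.comp_id, ← Category.assoc, w, Category.assoc]) (by simp)

@[reassoc (attr := simp)]
theorem chartMapSnd_fst (w : i₀ ≫ j₀ = i₁ ≫ j₁) :
    chartMapSnd c t w ≫ pullback.fst (j₁ ≫ c) t = pullback.fst (i₀ ≫ j₀ ≫ c) t ≫ i₁ :=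
  pullback.lift_fst _ _ _

@[reassoc (attr := simp)]
theorem chartMapSnd_snd (w : i₀ ≫ j₀ = i₁ ≫ j₁) :
    chartMapSnd c t w ≫ pullback.snd (j₁ ≫ c) t = pullback.snd (i₀ ≫ j₀ ≫ c) t :=
  (pullback.lift_snd _ _ _).trans (Category.comp_id _)

/-- The charts over `U₀` and `U₁` intersect in the chart over the overlap `U₀₁ = U₀ ×_C U₁`. -/
theorem isPullback_chartMap_overlap (h : IsPullback i₀ i₁ j₀ j₁) :
    IsPullback (chartMap (j₀ ≫ c) t i₀) (chartMapSnd c t h.w) (chartMap c t j₀)
      (chartMap c t j₁) := by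
  have h1 : IsPullback (chartMap (j₀ ≫ c) t i₀) (pullback.fst (i₀ ≫ j₀ ≫ c) t ≫ i₁)
      (pullback.fst (j₀ ≫ c) t ≫ j₀) j₁ :=
    (isPullback_chartMap (j₀ ≫ c) t i₀).paste_vert h
  rw [← chartMapSnd_fst c t h.w, ← chartMap_fst c t j₀] at h1
  refine IsPullback.of_bot h1 ?_ (isPullback_chartMap c t j₁)
  apply pullback.hom_ext
  · simp only [Category.assoc, chartMap_fst, chartMapSnd_fst_assoc, chartMap_fst_assoc, h.w]
  · simp only [Category.assoc, chartMap_snd, chartMapSnd_snd, chartMap_snd]

end Overlap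

/-! ### PC2: affine charts `Spec (A ⊗[k] B) ⟶ pullback c (Spec B ⟶ Spec k)` -/

section Affine

open AlgebraicGeometry.RelPicard NeronModelInfra

variable {k : Type u} [CommRing k] {C : Scheme.{u}} (c : C ⟶ Spec (CommRingCat.of k))

/-- The structure morphism `Spec B ⟶ Spec k` of a `k`-algebra. -/
noncomputable abbrev specStr (k : Type u) [CommRing k] (B : Type u) [CommRing B] [Algebra k B] :
    Spec (CommRingCat.of B) ⟶ Spec (CommRingCat.of k) :=
  Spec.map (CommRingCat.ofHom (algebraMap k B))

/-- `Spec` of `a ↦ a ⊗ 1`. -/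
noncomputable abbrev specInl (k : Type u) [CommRing k] (A B : Type u) [CommRing A] [Algebra k A]
    [CommRing B] [Algebra k B] : Spec (CommRingCat.of (A ⊗[k] B)) ⟶ Spec (CommRingCat.of A) :=
  Spec.map (CommRingCat.ofHom (Algebra.TensorProduct.includeLeftRingHom : A →+* A ⊗[k] B))

/-- `Spec` of `b ↦ 1 ⊗ b`. -/
noncomputable abbrev specInr (k : Type u) [CommRing k] (A B : Type u) [CommRing A] [Algebra k A]
    [CommRing B] [Algebra k B] : Spec (CommRingCat.of (A ⊗[k] B)) ⟶ Spec (CommRingCat.of B) :=
  Spec.map (CommRingCat.ofHom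
    (Algebra.TensorProduct.includeRight : B →ₐ[k] A ⊗[k] B).toRingHom)

theorem isPullback_specInl_specInr (k : Type u) [CommRing k] (A B : Type u) [CommRing A]
    [Algebra k A] [CommRing B] [Algebra k B] :
    IsPullback (specInl k A B) (specInr k A B) (specStr k A) (specStr k B) :=
  isPullback_SpecMap_of_isPushout _ _ _ _ (CommRingCat.isPushout_tensorProduct k A B)

variable {A : Type u} [CommRing A] [Algebra k A] (j : Spec (CommRingCat.of A) ⟶ C)
  (hj : j ≫ c = specStr k A) (B : Type u) [CommRing B] [Algebra k B]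

/-- PC2. The affine chart of `pullback c (Spec B ⟶ Spec k)` over an affine chart
`j : Spec A ⟶ C` of `C`. -/
noncomputable def affChart :
    Spec (CommRingCat.of (A ⊗[k] B)) ⟶ pullback c (specStr k B) :=
  pullback.lift (specInl k A B ≫ j) (specInr k A B)
    (by rw [Category.assoc, hj]; exact (isPullback_specInl_specInr k A B).w)

@[reassoc (attr := simp)]
theorem affChart_fst :
    affChart c j hj B ≫ pullback.fst c (specStr k B) = specInl k A B ≫ j :=
  pullback.lift_fst _ _ _

@[reassoc (attr := simp)]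
theorem affChart_snd :
    affChart c j hj B ≫ pullback.snd c (specStr k B) = specInr k A B :=
  pullback.lift_snd _ _ _

/-- The affine chart is the base change of `j` along the first projection. -/
theorem isPullback_affChart :
    IsPullback (affChart c j hj B) (specInl k A B) (pullback.fst c (specStr k B)) j := by
  have h2 : IsPullback (pullback.fst c (specStr k B)) (pullback.snd c (specStr k B)) c
      (specStr k B) := IsPullback.of_hasPullback _ _
  refine IsPullback.of_right ?_ (affChart_fst c j hj B) h2.flip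
  rw [affChart_snd, hj]
  exact (isPullback_specInl_specInr k A B).flip

instance affChart_isOpenImmersion [IsOpenImmersion j] : IsOpenImmersion (affChart c j hj B) :=
  MorphismProperty.of_isPullback (P := @IsOpenImmersion) (isPullback_affChart c j hj B).flip
    inferInstance

theorem range_affChart :
    Set.range (affChart c j hj B) = pullback.fst c (specStr k B) ⁻¹' Set.range j := by
  ext z
  constructor
  · rintro ⟨w, rfl⟩
    refine ⟨specInl k A B w, ?_⟩
    rw [← Scheme.Hom.comp_apply, ← Scheme.Hom.comp_apply, affChart_fst]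
  · rintro ⟨a, ha⟩
    obtain ⟨w, hw1, hw2⟩ := Scheme.exists_preimage_of_isPullback
      (isPullback_affChart c j hj B) z a ha.symm
    exact ⟨w, hw1⟩

end Affine

/-! ### Functoriality of `Spec` of tensor products -/

section SpecTensor

variable {k : Type u} [CommRing k] {A A' : Type u} [CommRing A] [Algebra k A] [CommRing A']
  [Algebra k A'] {B B' : Type u} [CommRing B] [Algebra k B] [CommRing B'] [Algebra k B']

/-- `Spec` of a `k`-algebra homomorphism. -/
noncomputable abbrev specAlg (f : A →ₐ[k] A') :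
    Spec (CommRingCat.of A') ⟶ Spec (CommRingCat.of A) :=
  Spec.map (CommRingCat.ofHom f.toRingHom)

@[reassoc (attr := simp)]
theorem specAlg_specStr (f : A →ₐ[k] A') : specAlg f ≫ specStr k A = specStr k A' := by
  rw [← Spec.map_comp]
  congr 1
  ext x
  exact f.commutes x

@[reassoc]
theorem specAlg_map_specInl (f : A →ₐ[k] A') (g : B →ₐ[k] B') :
    specAlg (Algebra.TensorProduct.map f g) ≫ specInl k A B = specInl k A' B' ≫ specAlg f := by
  rw [← Spec.map_comp, ← Spec.map_comp]
  congr 1
  ext x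
  simp

@[reassoc]
theorem specAlg_map_specInr (f : A →ₐ[k] A') (g : B →ₐ[k] B') :
    specAlg (Algebra.TensorProduct.map f g) ≫ specInr k A B = specInr k A' B' ≫ specAlg g := by
  rw [← Spec.map_comp, ← Spec.map_comp]
  congr 1
  ext x
  simp

@[simp]
theorem specAlg_id : specAlg (AlgHom.id k A) = 𝟙 _ := Spec.map_id _

/-- A morphism `Spec B' ⟶ Spec B` over `Spec k` is `Spec` of a `k`-algebra homomorphism. -/
theorem exists_algHom_of_over (ψ : Spec (CommRingCat.of B') ⟶ Spec (CommRingCat.of B))
    (hψ : ψ ≫ specStr k B = specStr k B') : ∃ φ : B →ₐ[k] B', ψ = specAlg φ := by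
  obtain ⟨φ, rfl⟩ := Spec.map_surjective ψ
  rw [← Spec.map_comp] at hψ
  have h := Spec.map_injective hψ
  refine ⟨{ φ.hom with commutes' := fun r => ?_ }, rfl⟩
  exact congrArg (fun f : CommRingCat.of k ⟶ CommRingCat.of B' => f.hom r) h

end SpecTensor

/-! ### PC2 (overlap) and PC3 (base change, rigidifying section) -/

section AffineOverlap

open AlgebraicGeometry.RelPicard NeronModelInfra

variable {k : Type u} [CommRing k] {C : Scheme.{u}} (c : C ⟶ Spec (CommRingCat.of k))
  {A₀ A₁ A₀₁ : Type u} [CommRing A₀] [Algebra k A₀] [CommRing A₁] [Algebra k A₁] [CommRing A₀₁]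
  [Algebra k A₀₁] (f₀ : A₀ →ₐ[k] A₀₁) (f₁ : A₁ →ₐ[k] A₀₁)
  (j₀ : Spec (CommRingCat.of A₀) ⟶ C) (j₁ : Spec (CommRingCat.of A₁) ⟶ C)
  (hj₀ : j₀ ≫ c = specStr k A₀) (hj₁ : j₁ ≫ c = specStr k A₁)
  (B : Type u) [CommRing B] [Algebra k B]

/-- `Spec (A₀₁ ⊗ B)` is the base change of `Spec A₀₁ ⟶ Spec A₀` along `Spec (A₀ ⊗ B) ⟶ Spec A₀`. -/
theorem isPullback_specAlg_map_specInl :
    IsPullback (specAlg (Algebra.TensorProduct.map f₀ (AlgHom.id k B))) (specInl k A₀₁ B)
      (specInl k A₀ B) (specAlg f₀) := by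
  refine IsPullback.of_right ?_ (specAlg_map_specInl f₀ (AlgHom.id k B))
    (isPullback_specInl_specInr k A₀ B).flip
  rw [specAlg_map_specInr, specAlg_id, Category.comp_id, specAlg_specStr]
  exact (isPullback_specInl_specInr k A₀₁ B).flip

/-- PC2, overlap: the affine charts over `Spec A₀` and `Spec A₁` intersect in the affine chart
over their overlap. -/
theorem isPullback_affChart_overlap (h : IsPullback (specAlg f₀) (specAlg f₁) j₀ j₁) :
    IsPullback (specAlg (Algebra.TensorProduct.map f₀ (AlgHom.id k B)))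
      (specAlg (Algebra.TensorProduct.map f₁ (AlgHom.id k B)))
      (affChart c j₀ hj₀ B) (affChart c j₁ hj₁ B) := by
  have h1 : IsPullback (specAlg (Algebra.TensorProduct.map f₀ (AlgHom.id k B)))
      (specInl k A₀₁ B ≫ specAlg f₁) (specInl k A₀ B ≫ j₀) j₁ :=
    (isPullback_specAlg_map_specInl f₀ B).paste_vert h
  rw [← specAlg_map_specInl f₁ (AlgHom.id k B), ← affChart_fst c j₀ hj₀ B] at h1
  refine IsPullback.of_bot h1 ?_ (isPullback_affChart c j₁ hj₁ B)
  apply pullback.hom_ext
  · simp only [Category.assoc, affChart_fst]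
    rw [specAlg_map_specInl_assoc, specAlg_map_specInl_assoc, h.w]
  · simp only [Category.assoc, affChart_snd]
    rw [specAlg_map_specInr, specAlg_map_specInr]

variable {A : Type u} [CommRing A] [Algebra k A] (j : Spec (CommRingCat.of A) ⟶ C)
  (hj : j ≫ c = specStr k A)

/-- PC3, base change: the affine charts are compatible with `baseChangeSnd`. -/
theorem affChart_baseChangeSnd {B' : Type u} [CommRing B'] [Algebra k B'] (φ : B →ₐ[k] B') :
    affChart c j hj B' ≫ baseChangeSnd c
        (⟨specAlg φ, specAlg_specStr φ⟩ : SchemeHomOver (specStr k B') (specStr k B)) =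
      specAlg (Algebra.TensorProduct.map (AlgHom.id k A) φ) ≫ affChart c j hj B := by
  unfold baseChangeSnd
  apply pullback.hom_ext
  · simp only [Category.assoc, pullback.lift_fst, affChart_fst, Category.comp_id]
    rw [specAlg_map_specInl_assoc, specAlg_id, Category.id_comp]
  · simp only [Category.assoc, pullback.lift_snd, affChart_snd, affChart_snd_assoc]
    rw [specAlg_map_specInr]

/-- The `B`-point of `Spec (A ⊗[k] B)` induced by a `k`-point `e` of `Spec A`. -/
noncomputable abbrev pointB (e : A →ₐ[k] k) : A ⊗[k] B →ₐ[k] B :=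
  Algebra.TensorProduct.lift ((Algebra.ofId k B).comp e) (AlgHom.id k B) (fun _ _ => .all _ _)

/-- PC3, section: if the section `ε` of `c` is the `k`-point `e` of the chart `j`, then the
rigidifying section of `pullback c (Spec B ⟶ Spec k)` is the `B`-point `pointB e` of the affine
chart. -/
theorem rigSection_eq_affChart (e : A →ₐ[k] k)
    (ε : SchemeHomOver (𝟙 (Spec (CommRingCat.of k))) c) (hε : ε.1 = specAlg e ≫ j) :
    rigSection c (specStr k B) ε = specAlg (pointB B e) ≫ affChart c j hj B := by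
  unfold rigSection
  apply pullback.hom_ext
  · simp only [Category.assoc, pullback.lift_fst, affChart_fst, hε]
    rw [← Category.assoc, ← Category.assoc]
    congr 1
    rw [← Spec.map_comp, ← Spec.map_comp]
    congr 1
    ext x
    simp
  · simp only [Category.assoc, pullback.lift_snd, affChart_snd]
    rw [← Spec.map_comp, ← Spec.map_id]
    congr 1
    ext x
    simp

end AffineOverlap

/-! ### The two-chart realization of `pullback c (Spec B ⟶ Spec k)` for a `CurveDatum` -/

section Curve

open AlgebraicGeometry.RelPicard NeronModelInfra Fermat.Agent.S25.helper1705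

variable {k : Type u} [Field k] {C : Scheme.{u}} (c : C ⟶ Spec (CommRingCat.of k))
  (D : CurveDatum k)
  (j₀ : Spec (CommRingCat.of D.R₀) ⟶ C) (j₁ : Spec (CommRingCat.of D.R₁) ⟶ C)
  (hj₀ : j₀ ≫ c = specStr k D.R₀) (hj₁ : j₁ ≫ c = specStr k D.R₁)
  (B : Type u) [CommRing B] [Algebra k B]

/-- The first chart `Spec (R₀ ⊗[k] B) ⟶ C ×ₖ Spec B`. -/
noncomputable abbrev chart₀ : Spec (CommRingCat.of (D.A₀ B)) ⟶ pullback c (specStr k B) :=
  affChart c j₀ hj₀ B

/-- The second chart `Spec (R₁ ⊗[k] B) ⟶ C ×ₖ Spec B`. -/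
noncomputable abbrev chart₁ : Spec (CommRingCat.of (D.A₁ B)) ⟶ pullback c (specStr k B) :=
  affChart c j₁ hj₁ B

/-- PC2 for a curve datum: the two charts of `C ×ₖ Spec B` are glued along
`Spec (R₀₁ ⊗[k] B)`. -/
theorem isPullback_chart₀_chart₁
    (h : IsPullback (Spec.map (CommRingCat.ofHom (algebraMap D.R₀ D.R₀₁)))
      (Spec.map (CommRingCat.ofHom (algebraMap D.R₁ D.R₀₁))) j₀ j₁) :
    IsPullback (specAlg (D.res₀ B)) (specAlg (D.res₁ B)) (chart₀ c D j₀ hj₀ B)
      (chart₁ c D j₁ hj₁ B) :=
  isPullback_affChart_overlap c (IsScalarTower.toAlgHom k D.R₀ D.R₀₁)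
    (IsScalarTower.toAlgHom k D.R₁ D.R₀₁) j₀ j₁ hj₀ hj₁ B h

/-- PC2 for a curve datum: the two charts of `C ×ₖ Spec B` are jointly surjective. -/
theorem range_chart₀_union_range_chart₁ (hcov : Set.range j₀ ∪ Set.range j₁ = Set.univ) :
    Set.range (chart₀ c D j₀ hj₀ B) ∪ Set.range (chart₁ c D j₁ hj₁ B) = Set.univ := by
  rw [range_affChart, range_affChart, ← Set.preimage_union, hcov, Set.preimage_univ]

/-- PC3 for a curve datum: base change of the first chart. -/
theorem chart₀_baseChangeSnd {B' : Type u} [CommRing B'] [Algebra k B'] (φ : B →ₐ[k] B') :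
    chart₀ c D j₀ hj₀ B' ≫ baseChangeSnd c
        (⟨specAlg φ, specAlg_specStr φ⟩ : SchemeHomOver (specStr k B') (specStr k B)) =
      specAlg (D.map₀ φ) ≫ chart₀ c D j₀ hj₀ B :=
  affChart_baseChangeSnd c B j₀ hj₀ φ

/-- PC3 for a curve datum: base change of the second chart. -/
theorem chart₁_baseChangeSnd {B' : Type u} [CommRing B'] [Algebra k B'] (φ : B →ₐ[k] B') :
    chart₁ c D j₁ hj₁ B' ≫ baseChangeSnd c
        (⟨specAlg φ, specAlg_specStr φ⟩ : SchemeHomOver (specStr k B') (specStr k B)) =
      specAlg (D.map₁ φ) ≫ chart₁ c D j₁ hj₁ B :=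
  affChart_baseChangeSnd c B j₁ hj₁ φ

/-- PC3 for a curve datum: the rigidifying section lies in the second chart and is the
`B`-point `D.eB B`. -/
theorem rigSection_eq_chart₁ (ε : SchemeHomOver (𝟙 (Spec (CommRingCat.of k))) c)
    (hε : ε.1 = Spec.map (CommRingCat.ofHom D.e.toRingHom) ≫ j₁) :
    rigSection c (specStr k B) ε = specAlg (D.eB B) ≫ chart₁ c D j₁ hj₁ B :=
  rigSection_eq_affChart c B j₁ hj₁ D.e ε hε

end Curve

/-! ### The same statements for a `Realization` of the Spec (leaf LA-PROD) -/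

section Real

open AlgebraicGeometry.RelPicard NeronModelInfra Fermat.Agent.S25.helper1705

variable {k : Type u} [Field k] {C : Scheme.{u}} {c : C ⟶ Spec (CommRingCat.of k)}
  {ε : SchemeHomOver (𝟙 (Spec (CommRingCat.of k))) c} {D : CurveDatum k}
  (R : Realization c ε D) (B : Type u) [CommRing B] [Algebra k B]

/-- The first chart `Spec (R₀ ⊗[k] B) ⟶ C ×ₖ Spec B` of a realization. -/
noncomputable abbrev realChart₀ : Spec (CommRingCat.of (D.A₀ B)) ⟶ pullback c (specStr k B) :=
  affChart c R.j₀ R.fac₀ B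

/-- The chart at infinity `Spec (R₁ ⊗[k] B) ⟶ C ×ₖ Spec B` of a realization. -/
noncomputable abbrev realChart₁ : Spec (CommRingCat.of (D.A₁ B)) ⟶ pullback c (specStr k B) :=
  affChart c R.j₁ R.fac₁ B

theorem realChart₀_isOpenImmersion : IsOpenImmersion (realChart₀ R B) :=
  haveI := R.isOpenImmersion₀
  affChart_isOpenImmersion c R.j₀ R.fac₀ B

theorem realChart₁_isOpenImmersion : IsOpenImmersion (realChart₁ R B) :=
  haveI := R.isOpenImmersion₁
  affChart_isOpenImmersion c R.j₁ R.fac₁ B

@[reassoc]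
theorem realChart₀_fst :
    realChart₀ R B ≫ pullback.fst c (specStr k B) = specInl k D.R₀ B ≫ R.j₀ :=
  affChart_fst c R.j₀ R.fac₀ B

@[reassoc]
theorem realChart₀_snd : realChart₀ R B ≫ pullback.snd c (specStr k B) = specInr k D.R₀ B :=
  affChart_snd c R.j₀ R.fac₀ B

@[reassoc]
theorem realChart₁_fst :
    realChart₁ R B ≫ pullback.fst c (specStr k B) = specInl k D.R₁ B ≫ R.j₁ :=
  affChart_fst c R.j₁ R.fac₁ B

@[reassoc]
theorem realChart₁_snd : realChart₁ R B ≫ pullback.snd c (specStr k B) = specInr k D.R₁ B :=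
  affChart_snd c R.j₁ R.fac₁ B

/-- The two charts cover `C ×ₖ Spec B` (same shape as `Realization.cover`). -/
theorem realChart_cover (p : ↥(pullback c (specStr k B))) :
    (∃ q, (realChart₀ R B).base q = p) ∨ (∃ q, (realChart₁ R B).base q = p) := by
  rcases R.cover ((pullback.fst c (specStr k B)).base p) with h | h
  · left
    have : p ∈ Set.range (realChart₀ R B) := by
      rw [range_affChart]
      exact h
    exact this
  · right
    have : p ∈ Set.range (realChart₁ R B) := by
      rw [range_affChart]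
      exact h
    exact this

/-- The two charts are glued along `Spec (R₀₁ ⊗[k] B)` (same shape as
`Realization.isPullback`). -/
theorem realChart_isPullback :
    IsPullback (Spec.map (CommRingCat.ofHom (D.res₀ B).toRingHom))
      (Spec.map (CommRingCat.ofHom (D.res₁ B).toRingHom)) (realChart₀ R B) (realChart₁ R B) :=
  isPullback_chart₀_chart₁ c D R.j₀ R.j₁ R.fac₀ R.fac₁ B R.isPullback

/-- Base change `B → B'` on the first chart. -/
theorem realChart₀_baseChangeSnd {B' : Type u} [CommRing B'] [Algebra k B'] (φ : B →ₐ[k] B') :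
    realChart₀ R B' ≫ baseChangeSnd c
        (⟨Spec.map (CommRingCat.ofHom φ.toRingHom), specAlg_specStr φ⟩ :
          SchemeHomOver (specStr k B') (specStr k B)) =
      Spec.map (CommRingCat.ofHom (D.map₀ φ).toRingHom) ≫ realChart₀ R B :=
  affChart_baseChangeSnd c B R.j₀ R.fac₀ φ

/-- Base change `B → B'` on the chart at infinity. -/
theorem realChart₁_baseChangeSnd {B' : Type u} [CommRing B'] [Algebra k B'] (φ : B →ₐ[k] B') :
    realChart₁ R B' ≫ baseChangeSnd c
        (⟨Spec.map (CommRingCat.ofHom φ.toRingHom), specAlg_specStr φ⟩ :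
          SchemeHomOver (specStr k B') (specStr k B)) =
      Spec.map (CommRingCat.ofHom (D.map₁ φ).toRingHom) ≫ realChart₁ R B :=
  affChart_baseChangeSnd c B R.j₁ R.fac₁ φ

/-- The rigidifying section of `C ×ₖ Spec B` is the `B`-point `D.eB B` of the chart at
infinity. -/
theorem realChart₁_rigSection :
    rigSection c (specStr k B) ε =
      Spec.map (CommRingCat.ofHom (D.eB B).toRingHom) ≫ realChart₁ R B :=
  rigSection_eq_affChart c B R.j₁ R.fac₁ D.e ε R.eps

end Real

end Fermat.Agent.S25.helper2911
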