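/-
S25, layer LB (dictionary) — interface file of the sub-architect (helper7939).

* `chartRingHom J : Γ(X, J.opensRange) ⟶ A` for an open immersion `J : Spec A ⟶ X`, an iso, with
  its compatibilities `appLE_chartRingHom` (commutative square of charts) and
  `appLE_top_ΓSpecIso` (a section through the chart).
* For a `Realization R` and a `k`-algebra `B`: the chart opens `U₀ R B`, `U₁ R B`,
  `U₀₁ R B = U₀ ⊓ U₁` of `C ×ₖ Spec B`, the overlap chart `realChart₀₁`, the ring isomorphisms
  `γ₀ : Γ(X, U₀) ≃+* D.A₀ B`, `γ₁`, `γ₀₁` and `γ₀₁_res₀`, `γ₀₁_res₁`.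
* `SecIso R L G` / `Models R L G`: the dictionary relation in OPENS FORM.
* The six fields of the dictionary as `Prop`s: `Stmt_ExistsModel`, `Stmt_ExistsSheaf` (U14),
  `Stmt_IsoIff` (U15), `Stmt_BaseChange` (P8), `Stmt_RigIff` (U16), `Stmt_Unit`.
-/
import Fermat.Agent.S25.helper2911_ProdChart
import Fermat.Agent.S25.helper2945_AlgDefs

set_option autoImplicit false

universe u

open CategoryTheory CategoryTheory.Limits AlgebraicGeometry Opposite

namespace Fermat.Agent.S25.helper7939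

noncomputable section

section ChartRing

variable {X Y : Scheme.{u}} {A A' : CommRingCat.{u}}

lemma appTop_eq_appLE' {X Y : Scheme.{u}} (f : X ⟶ Y) :
    f.appTop = f.appLE ⊤ ⊤ f.preimage_top.ge := by
  rw [Scheme.Hom.appLE, Scheme.Hom.appTop]
  have h : ∀ (h : (⊤ : X.Opens) ≤ f ⁻¹ᵁ ⊤), X.presheaf.map (homOfLE h).op = 𝟙 _ := by
    intro h
    exact X.presheaf.map_id _
  rw [h]
  exact (Category.comp_id (f.app ⊤)).symm

lemma id_appLE' {X : Scheme.{u}} (U V : X.Opens) (h : V ≤ (𝟙 X) ⁻¹ᵁ U) :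
    Scheme.Hom.appLE (𝟙 X) U V h = X.presheaf.map (homOfLE h).op := by
  simp only [Scheme.Hom.appLE, Scheme.Hom.id_app]
  exact Category.id_comp (X.presheaf.map (homOfLE h).op)

lemma appLE_congr_hom {X Y : Scheme.{u}} {g g' : X ⟶ Y} (hg : g = g') (U : Y.Opens)
    (V : X.Opens) (h : V ≤ g ⁻¹ᵁ U) (h' : V ≤ g' ⁻¹ᵁ U) :
    g.appLE U V h = g'.appLE U V h' := by
  subst hg; rfl

lemma top_le_preimage_opensRange (J : Spec A ⟶ X) [IsOpenImmersion J] :
    (⊤ : (Spec A).Opens) ≤ J ⁻¹ᵁ J.opensRange :=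
  fun p _ => ⟨p, rfl⟩

lemma top_le_comp_preimage_opensRange {Z : Scheme.{u}} (g : Z ⟶ Spec A) (J : Spec A ⟶ X)
    [IsOpenImmersion J] : (⊤ : Z.Opens) ≤ (g ≫ J) ⁻¹ᵁ J.opensRange :=
  fun p _ => ⟨g.base p, by simp⟩

/-- The ring of sections of `X` over the range of an affine chart `J : Spec A ⟶ X`,
mapped to `A`. -/
def chartRingHom (J : Spec A ⟶ X) [IsOpenImmersion J] : Γ(X, J.opensRange) ⟶ A :=
  J.appLE J.opensRange ⊤ (top_le_preimage_opensRange J) ≫ (Scheme.ΓSpecIso A).hom

instance isIso_chartRingHom (J : Spec A ⟶ X) [IsOpenImmersion J] : IsIso (chartRingHom J) := by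
  unfold chartRingHom
  have : IsIso (J.appLE J.opensRange ⊤ (top_le_preimage_opensRange J)) := by
    rw [Scheme.Hom.appLE]
    have := J.isIso_app J.opensRange le_rfl
    have e : J ⁻¹ᵁ J.opensRange = ⊤ := J.preimage_opensRange
    have h2 : ∀ (h : (⊤ : (Spec A).Opens) ≤ J ⁻¹ᵁ J.opensRange),
        IsIso ((Spec A).presheaf.map (homOfLE h).op) := by
      intro h
      have : homOfLE h = eqToHom e.symm := Subsingleton.elim _ _
      rw [this]
      infer_instance
    have := h2 (top_le_preimage_opensRange J)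
    infer_instance
  infer_instance

/-- Core compatibility: sections over a chart, pulled back along `Spec.map ψ ≫ J`. -/
lemma comp_appLE_top_ΓSpecIso (J : Spec A ⟶ X) [IsOpenImmersion J] (ψ : A ⟶ A') :
    (Spec.map ψ ≫ J).appLE J.opensRange ⊤ (top_le_comp_preimage_opensRange _ J) ≫
        (Scheme.ΓSpecIso A').hom = chartRingHom J ≫ ψ := by
  unfold chartRingHom
  rw [Category.assoc, ← Scheme.ΓSpecIso_naturality, ← Category.assoc, appTop_eq_appLE',
    Scheme.Hom.appLE_comp_appLE]

lemma opensRange_le_preimage {J : Spec A ⟶ X} {J' : Spec A' ⟶ Y} [IsOpenImmersion J]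
    [IsOpenImmersion J'] {f : Y ⟶ X} {ψ : A ⟶ A'} (w : J' ≫ f = Spec.map ψ ≫ J) :
    J'.opensRange ≤ f ⁻¹ᵁ J.opensRange := by
  rintro _ ⟨p, rfl⟩
  refine ⟨(Spec.map ψ).base p, ?_⟩
  have := congrArg (fun g : Spec A' ⟶ X => g.base p) w
  simpa using this.symm

/-- The one compatibility of `chartRingHom`: a commutative square of charts. -/
lemma appLE_chartRingHom (J : Spec A ⟶ X) (J' : Spec A' ⟶ Y) [IsOpenImmersion J]
    [IsOpenImmersion J'] (f : Y ⟶ X) (ψ : A ⟶ A') (w : J' ≫ f = Spec.map ψ ≫ J) :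
    f.appLE J.opensRange J'.opensRange (opensRange_le_preimage w) ≫ chartRingHom J' =
      chartRingHom J ≫ ψ := by
  rw [← comp_appLE_top_ΓSpecIso J ψ]
  unfold chartRingHom
  rw [← Category.assoc, Scheme.Hom.appLE_comp_appLE]
  congr 1
  exact appLE_congr_hom w _ _ _ _

/-- Compatibility of `chartRingHom` with a section `σ = Spec.map e ≫ J` through the chart. -/
lemma appLE_top_ΓSpecIso (J : Spec A ⟶ X) [IsOpenImmersion J] (σ : Spec A' ⟶ X) (e : A ⟶ A')
    (w : σ = Spec.map e ≫ J) (h : (⊤ : (Spec A').Opens) ≤ σ ⁻¹ᵁ J.opensRange) :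
    σ.appLE J.opensRange ⊤ h ≫ (Scheme.ΓSpecIso A').hom = chartRingHom J ≫ e := by
  rw [← comp_appLE_top_ΓSpecIso J e]
  congr 1
  exact appLE_congr_hom w _ _ _ _

end ChartRing

section Models

open AlgebraicGeometry.RelPicard NeronModelInfra Fermat.Agent.S25.helper1705
  Fermat.Agent.S25.helper2911 Fermat.Agent.S25.helper2945

variable {k : Type u} [Field k] {C : Scheme.{u}} {c : C ⟶ Spec (CommRingCat.of k)}
  {ε : SchemeHomOver (𝟙 (Spec (CommRingCat.of k))) c} {D : CurveDatum k}
  (R : Realization c ε D) (B : Type u) [CommRing B] [Algebra k B]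

instance isOpenImmersion_realChart₀ : IsOpenImmersion (realChart₀ R B) :=
  realChart₀_isOpenImmersion R B

instance isOpenImmersion_realChart₁ : IsOpenImmersion (realChart₁ R B) :=
  realChart₁_isOpenImmersion R B

/-- The overlap chart `Spec (R₀₁ ⊗[k] B) ⟶ C ×ₖ Spec B`. -/
def realChart₀₁ : Spec (CommRingCat.of (D.A₀₁ B)) ⟶ pullback c (specStr k B) :=
  Spec.map (CommRingCat.ofHom (D.res₀ B).toRingHom) ≫ realChart₀ R B

lemma realChart₀₁_eq₁ :
    realChart₀₁ R B = Spec.map (CommRingCat.ofHom (D.res₁ B).toRingHom) ≫ realChart₁ R B :=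
  (realChart_isPullback R B).w

instance isOpenImmersion_realChart₀₁ : IsOpenImmersion (realChart₀₁ R B) := by
  have h := realChart_isPullback R B
  have : IsOpenImmersion (Spec.map (CommRingCat.ofHom (D.res₀ B).toRingHom)) :=
    MorphismProperty.of_isPullback h.flip (inferInstanceAs (IsOpenImmersion (realChart₁ R B)))
  unfold realChart₀₁
  infer_instance

/-- The first chart open of `C ×ₖ Spec B`. -/
def U₀ : (pullback c (specStr k B)).Opens := (realChart₀ R B).opensRange

/-- The chart open at infinity of `C ×ₖ Spec B`. -/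
def U₁ : (pullback c (specStr k B)).Opens := (realChart₁ R B).opensRange

/-- The overlap of the two chart opens. -/
def U₀₁ : (pullback c (specStr k B)).Opens := U₀ R B ⊓ U₁ R B

lemma opensRange_realChart₀₁ : (realChart₀₁ R B).opensRange = U₀₁ R B := by
  have h := realChart_isPullback R B
  ext p
  change p ∈ Set.range (realChart₀₁ R B) ↔
    p ∈ Set.range (realChart₀ R B) ∩ Set.range (realChart₁ R B)
  rw [← Scheme.Pullback.range_fst_comp]
  have e : realChart₀₁ R B = h.isoPullback.hom ≫ pullback.fst _ _ ≫ realChart₀ R B := by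
    rw [IsPullback.isoPullback_hom_fst_assoc]; rfl
  rw [e, Scheme.Hom.comp_base, TopCat.coe_comp, Set.range_comp]
  have : Set.range h.isoPullback.hom = Set.univ :=
    Set.range_eq_univ.mpr h.isoPullback.hom.surjective
  rw [this, Set.image_univ]

/-- Sections of `𝒪` over the first chart open are `R₀ ⊗[k] B`. -/
def γ₀ : Γ(pullback c (specStr k B), U₀ R B) ≃+* D.A₀ B :=
  (asIso (chartRingHom (realChart₀ R B))).commRingCatIsoToRingEquiv

/-- Sections of `𝒪` over the chart open at infinity are `R₁ ⊗[k] B`. -/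
def γ₁ : Γ(pullback c (specStr k B), U₁ R B) ≃+* D.A₁ B :=
  (asIso (chartRingHom (realChart₁ R B))).commRingCatIsoToRingEquiv

/-- Sections of `𝒪` over the overlap are `R₀₁ ⊗[k] B`. -/
def γ₀₁ : Γ(pullback c (specStr k B), U₀₁ R B) ≃+* D.A₀₁ B :=
  ((pullback c (specStr k B)).presheaf.mapIso (eqToIso (opensRange_realChart₀₁ R B)).op ≪≫
    asIso (chartRingHom (realChart₀₁ R B))).commRingCatIsoToRingEquiv

lemma realChart₀₁_comp_id :
    realChart₀₁ R B ≫ 𝟙 _ = Spec.map (CommRingCat.ofHom (D.res₀ B).toRingHom) ≫ realChart₀ R B :=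
  Category.comp_id _

lemma realChart₀₁_comp_id₁ :
    realChart₀₁ R B ≫ 𝟙 _ = Spec.map (CommRingCat.ofHom (D.res₁ B).toRingHom) ≫ realChart₁ R B :=
  (Category.comp_id _).trans (realChart₀₁_eq₁ R B)

lemma γ₀₁_res₀ (r : Γ(pullback c (specStr k B), U₀ R B)) :
    γ₀₁ R B ((pullback c (specStr k B)).presheaf.map (homOfLE inf_le_left).op r) =
      D.res₀ B (γ₀ R B r) := by
  have h := appLE_chartRingHom (realChart₀ R B) (realChart₀₁ R B) (𝟙 _)
    (CommRingCat.ofHom (D.res₀ B).toRingHom) (realChart₀₁_comp_id R B)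
  have h3 : Scheme.Hom.appLE (𝟙 (pullback c (specStr k B))) (realChart₀ R B).opensRange
      (realChart₀₁ R B).opensRange (opensRange_le_preimage (realChart₀₁_comp_id R B)) =
      (pullback c (specStr k B)).presheaf.map (homOfLE (inf_le_left : U₀₁ R B ≤ U₀ R B)).op ≫
        (pullback c (specStr k B)).presheaf.map (eqToHom (opensRange_realChart₀₁ R B)).op := by
    rw [id_appLE']
    exact (pullback c (specStr k B)).presheaf.map_comp
      (homOfLE (inf_le_left : U₀₁ R B ≤ U₀ R B)).op (eqToHom (opensRange_realChart₀₁ R B)).op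
  rw [h3] at h
  exact congrArg (fun f => f.hom r) h

lemma γ₀₁_res₁ (r : Γ(pullback c (specStr k B), U₁ R B)) :
    γ₀₁ R B ((pullback c (specStr k B)).presheaf.map (homOfLE inf_le_right).op r) =
      D.res₁ B (γ₁ R B r) := by
  have h := appLE_chartRingHom (realChart₁ R B) (realChart₀₁ R B) (𝟙 _)
    (CommRingCat.ofHom (D.res₁ B).toRingHom) (realChart₀₁_comp_id₁ R B)
  have h3 : Scheme.Hom.appLE (𝟙 (pullback c (specStr k B))) (realChart₁ R B).opensRange
      (realChart₀₁ R B).opensRange (opensRange_le_preimage (realChart₀₁_comp_id₁ R B)) =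
      (pullback c (specStr k B)).presheaf.map (homOfLE (inf_le_right : U₀₁ R B ≤ U₁ R B)).op ≫
        (pullback c (specStr k B)).presheaf.map (eqToHom (opensRange_realChart₀₁ R B)).op := by
    rw [id_appLE']
    exact (pullback c (specStr k B)).presheaf.map_comp
      (homOfLE (inf_le_right : U₀₁ R B ≤ U₁ R B)).op (eqToHom (opensRange_realChart₀₁ R B)).op
  rw [h3] at h
  exact congrArg (fun f => f.hom r) h

lemma isAffineOpen_U₀ : IsAffineOpen (U₀ R B) := isAffineOpen_opensRange (realChart₀ R B)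

lemma isAffineOpen_U₁ : IsAffineOpen (U₁ R B) := isAffineOpen_opensRange (realChart₁ R B)

lemma isAffineOpen_U₀₁ : IsAffineOpen (U₀₁ R B) :=
  opensRange_realChart₀₁ R B ▸ isAffineOpen_opensRange (realChart₀₁ R B)

lemma U₀_sup_U₁ : U₀ R B ⊔ U₁ R B = ⊤ := by
  rw [eq_top_iff]
  intro p _
  rcases realChart_cover R B p with h | h
  · exact Or.inl h
  · exact Or.inr h

variable {B}

/-- An isomorphism between the two-chart sections datum of a sheaf of modules `L` on
`C ×ₖ Spec B` and a `GlueDatum`: additive bijections on the three chart opens, semilinear for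
the ring isomorphisms `γ₀`, `γ₁`, `γ₀₁`, and compatible with the restriction maps. -/
structure SecIso (L : (pullback c (specStr k B)).Modules) (G : GlueDatum D B) where
  /-- on the first chart -/
  e₀ : Γ(L, U₀ R B) ≃+ G.M₀
  /-- on the chart at infinity -/
  e₁ : Γ(L, U₁ R B) ≃+ G.M₁
  /-- on the overlap -/
  e₀₁ : Γ(L, U₀₁ R B) ≃+ G.M₀₁
  smul₀ : ∀ (r : Γ(pullback c (specStr k B), U₀ R B)) (s : Γ(L, U₀ R B)),
    e₀ (r • s) = γ₀ R B r • e₀ s
  smul₁ : ∀ (r : Γ(pullback c (specStr k B), U₁ R B)) (s : Γ(L, U₁ R B)),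
    e₁ (r • s) = γ₁ R B r • e₁ s
  smul₀₁ : ∀ (r : Γ(pullback c (specStr k B), U₀₁ R B)) (s : Γ(L, U₀₁ R B)),
    e₀₁ (r • s) = γ₀₁ R B r • e₀₁ s
  comm₀ : ∀ s : Γ(L, U₀ R B),
    e₀₁ (L.presheaf.map (homOfLE (inf_le_left : U₀₁ R B ≤ U₀ R B)).op s) = G.ρ₀ (e₀ s)
  comm₁ : ∀ s : Γ(L, U₁ R B),
    e₀₁ (L.presheaf.map (homOfLE (inf_le_right : U₀₁ R B ≤ U₁ R B)).op s) = G.ρ₁ (e₁ s)

/-- **The dictionary relation**: the invertible sheaf `L` on `C ×ₖ Spec B` is modelled by the
two-chart datum `G`. -/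
def Models (L : (pullback c (specStr k B)).Modules) (G : GlueDatum D B) : Prop :=
  Scheme.Modules.IsInvertible L ∧ Nonempty (SecIso R L G)

/-- Field `exists_model` of the dictionary. -/
def Stmt_ExistsModel : Prop :=
  ∀ (B : Type u) [CommRing B] [Algebra k B] (L : (pullback c (specStr k B)).Modules),
    Scheme.Modules.IsInvertible L → ∃ G : GlueDatum D B, Models R L G

/-- Field `exists_sheaf` of the dictionary (leaf U14). -/
def Stmt_ExistsSheaf : Prop :=
  ∀ (B : Type u) [CommRing B] [Algebra k B] (G : GlueDatum D B),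
    ∃ L : (pullback c (specStr k B)).Modules, Scheme.Modules.IsInvertible L ∧ Models R L G

/-- Field `iso_iff` of the dictionary (leaf U15). -/
def Stmt_IsoIff : Prop :=
  ∀ (B : Type u) [CommRing B] [Algebra k B] (L L' : (pullback c (specStr k B)).Modules)
    (G G' : GlueDatum D B), Models R L G → Models R L' G' → (Nonempty (L ≅ L') ↔ G.Equiv G')

/-- Field `baseChange` of the dictionary (leaf P8). -/
def Stmt_BaseChange : Prop :=
  ∀ (B B' : Type u) [CommRing B] [Algebra k B] [CommRing B'] [Algebra k B'] (φ : B →ₐ[k] B')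
    (L : (pullback c (specStr k B)).Modules) (G : GlueDatum D B), Models R L G →
      Models R ((Scheme.Modules.pullback (baseChangeSnd c
        (⟨Spec.map (CommRingCat.ofHom φ.toRingHom), specAlg_specStr φ⟩ :
          SchemeHomOver (specStr k B') (specStr k B)))).obj L) (G.baseChange φ)

/-- Field `rig_iff` of the dictionary (leaf U16). -/
def Stmt_RigIff : Prop :=
  ∀ (B : Type u) [CommRing B] [Algebra k B] (L : (pullback c (specStr k B)).Modules)
    (G : GlueDatum D B), Models R L G →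
      (Nonempty ((Scheme.Modules.pullback (rigSection c (specStr k B) ε)).obj L ≅
        SheafOfModules.unit (Spec (CommRingCat.of B)).ringCatSheaf) ↔ G.IsRig)

/-- Field `unit` of the dictionary. -/
def Stmt_Unit : Prop :=
  ∀ (B : Type u) [CommRing B] [Algebra k B],
    Models R (SheafOfModules.unit (pullback c (specStr k B)).ringCatSheaf) (GlueDatum.unit D B)

/-! ### Compatibility of the `γ`'s with base change and with the rigidifying section
(appended; nothing above this line was changed) -/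

section BaseChangeCompat

variable {B' : Type u} [CommRing B'] [Algebra k B'] (φ : B →ₐ[k] B')

/-- The base-change morphism `C ×ₖ Spec B' ⟶ C ×ₖ Spec B` of a `k`-algebra map. -/
abbrev bcMap : pullback c (specStr k B') ⟶ pullback c (specStr k B) :=
  baseChangeSnd c (⟨Spec.map (CommRingCat.ofHom φ.toRingHom), specAlg_specStr φ⟩ :
    SchemeHomOver (specStr k B') (specStr k B))

lemma realChart₀₁_baseChangeSnd :
    realChart₀₁ R B' ≫ bcMap (c := c) φ =
      Spec.map (CommRingCat.ofHom (D.map₀₁ φ).toRingHom) ≫ realChart₀₁ R B := by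
  unfold realChart₀₁
  rw [Category.assoc, realChart₀_baseChangeSnd, ← Category.assoc, ← Category.assoc,
    ← Spec.map_comp, ← Spec.map_comp]
  congr 2
  refine CommRingCat.hom_ext (RingHom.ext fun a => ?_)
  exact res₀_map₀ D φ a

lemma U₀_le_preimage : U₀ R B' ≤ bcMap (c := c) φ ⁻¹ᵁ U₀ R B :=
  opensRange_le_preimage (realChart₀_baseChangeSnd R B φ)

lemma U₁_le_preimage : U₁ R B' ≤ bcMap (c := c) φ ⁻¹ᵁ U₁ R B :=
  opensRange_le_preimage (realChart₁_baseChangeSnd R B φ)

lemma U₀₁_le_preimage : U₀₁ R B' ≤ bcMap (c := c) φ ⁻¹ᵁ U₀₁ R B :=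
  fun _ hp => ⟨U₀_le_preimage R φ hp.1, U₁_le_preimage R φ hp.2⟩

lemma γ₀_baseChange (r : Γ(pullback c (specStr k B), U₀ R B)) :
    γ₀ R B' ((bcMap (c := c) φ).appLE (U₀ R B) (U₀ R B') (U₀_le_preimage R φ) r) =
      D.map₀ φ (γ₀ R B r) :=
  congrArg (fun f => f.hom r) (appLE_chartRingHom (realChart₀ R B) (realChart₀ R B')
    (bcMap (c := c) φ) (CommRingCat.ofHom (D.map₀ φ).toRingHom) (realChart₀_baseChangeSnd R B φ))

lemma γ₁_baseChange (r : Γ(pullback c (specStr k B), U₁ R B)) :
    γ₁ R B' ((bcMap (c := c) φ).appLE (U₁ R B) (U₁ R B') (U₁_le_preimage R φ) r) =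
      D.map₁ φ (γ₁ R B r) :=
  congrArg (fun f => f.hom r) (appLE_chartRingHom (realChart₁ R B) (realChart₁ R B')
    (bcMap (c := c) φ) (CommRingCat.ofHom (D.map₁ φ).toRingHom) (realChart₁_baseChangeSnd R B φ))

lemma γ₀₁_baseChange (r : Γ(pullback c (specStr k B), U₀₁ R B)) :
    γ₀₁ R B' ((bcMap (c := c) φ).appLE (U₀₁ R B) (U₀₁ R B') (U₀₁_le_preimage R φ) r) =
      D.map₀₁ φ (γ₀₁ R B r) := by
  have h := appLE_chartRingHom (realChart₀₁ R B) (realChart₀₁ R B')
    (bcMap (c := c) φ) (CommRingCat.ofHom (D.map₀₁ φ).toRingHom) (realChart₀₁_baseChangeSnd R φ)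
  have h2 := congrArg (fun f => f.hom ((pullback c (specStr k B)).presheaf.map
    (eqToHom (opensRange_realChart₀₁ R B)).op r)) h
  refine Eq.trans ?_ h2
  change (chartRingHom (realChart₀₁ R B')).hom
      (((bcMap (c := c) φ).appLE (U₀₁ R B) (U₀₁ R B') (U₀₁_le_preimage R φ) ≫
        (pullback c (specStr k B')).presheaf.map (eqToHom (opensRange_realChart₀₁ R B')).op).hom r) =
    (chartRingHom (realChart₀₁ R B')).hom
      (((pullback c (specStr k B)).presheaf.map (eqToHom (opensRange_realChart₀₁ R B)).op ≫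
        (bcMap (c := c) φ).appLE (realChart₀₁ R B).opensRange (realChart₀₁ R B').opensRange
          (opensRange_le_preimage (realChart₀₁_baseChangeSnd R φ))).hom r)
  rw [Scheme.Hom.appLE_map, Scheme.Hom.map_appLE]

end BaseChangeCompat

section RigCompat

variable (B)

lemma top_le_rigSection_preimage_U₁ :
    (⊤ : (Spec (CommRingCat.of B)).Opens) ≤ rigSection c (specStr k B) ε ⁻¹ᵁ U₁ R B := by
  intro p _
  change (rigSection c (specStr k B) ε).base p ∈ Set.range (realChart₁ R B).base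
  rw [realChart₁_rigSection R B]
  exact ⟨_, rfl⟩

/-- Under `γ₁`, pulling functions back along the rigidifying section is `D.eB B`. -/
lemma γ₁_rigSection (r : Γ(pullback c (specStr k B), U₁ R B)) :
    (Scheme.ΓSpecIso (CommRingCat.of B)).hom
        ((rigSection c (specStr k B) ε).appLE (U₁ R B) ⊤ (top_le_rigSection_preimage_U₁ R B) r) =
      D.eB B (γ₁ R B r) :=
  congrArg (fun f => f.hom r) (appLE_top_ΓSpecIso (realChart₁ R B) (rigSection c (specStr k B) ε)
    (CommRingCat.ofHom (D.eB B).toRingHom) (realChart₁_rigSection R B)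
    (top_le_rigSection_preimage_U₁ R B))

end RigCompat

end Models

end

end Fermat.Agent.S25.helper7939
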