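import Fermat.Agent.S25.helper263_TildeResTop
import Fermat.Agent.S25.helper7939_Models

/-!
# Sections of a two-chart glued module over the charts and the overlap

For `L = helper9577.glue hpb b₀ b₁` (the module on `X` glued from `M₀` on `U₀`, `M₁` on `U₁`
along `b₀ : M₀ ⟶ s₀_* M₀₁`, `b₁ : M₁ ⟶ s₁_* M₀₁`) we compute the sections of `L` over the two
chart opens `j₀.opensRange`, `j₁.opensRange` and their intersection:

* `secMap₀ : Γ(L, j₀.opensRange) ⟶ Γ(M₀, ⊤)`, `secMap₁`, `secMap₀₁ : Γ(L, W₀ ⊓ W₁) ⟶ Γ(M₀₁, ⊤)`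
  are isomorphisms, semilinear for the `appLE` ring maps;
* the restriction maps of `L` correspond to `b₀.app ⊤` and `b₁.app ⊤`.
-/

set_option autoImplicit false

universe u

open CategoryTheory CategoryTheory.Limits AlgebraicGeometry

namespace Fermat.Agent.S25.helper263

open Fermat.Agent.S25.helper9577

noncomputable section

variable {X U₀ U₁ U₀₁ : Scheme.{u}} {s₀ : U₀₁ ⟶ U₀} {s₁ : U₀₁ ⟶ U₁} {j₀ : U₀ ⟶ X} {j₁ : U₁ ⟶ X}
  [IsOpenImmersion j₀] [IsOpenImmersion j₁]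
  (hpb : IsPullback s₀ s₁ j₀ j₁)
  {M₀ : U₀.Modules} {M₁ : U₁.Modules} {M₀₁ : U₀₁.Modules}
  (b₀ : M₀ ⟶ (Scheme.Modules.pushforward s₀).obj M₀₁)
  (b₁ : M₁ ⟶ (Scheme.Modules.pushforward s₁).obj M₀₁)

omit [IsOpenImmersion j₁] in
lemma top_le_preimage_opensRange₀ : (⊤ : U₀.Opens) ≤ j₀ ⁻¹ᵁ j₀.opensRange :=
  fun p _ => ⟨p, rfl⟩

include hpb in
omit [IsOpenImmersion j₀] [IsOpenImmersion j₁] in
lemma top_le_preimage_inf (W₀ W₁ : X.Opens) (h₀ : Set.range j₀.base ⊆ W₀)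
    (h₁ : Set.range j₁.base ⊆ W₁) :
    (⊤ : U₀₁.Opens) ≤ (s₀ ≫ j₀) ⁻¹ᵁ (W₀ ⊓ W₁) := by
  intro p _
  refine ⟨h₀ ⟨s₀.base p, by simp⟩, h₁ ⟨s₁.base p, ?_⟩⟩
  have := congrArg (fun g : U₀₁ ⟶ X => g.base p) hpb.w
  simpa using this.symm

/-- Sections of the glued module over the first chart. -/
def secMap₀ : Γ(glue hpb b₀ b₁, j₀.opensRange) ⟶ Γ(M₀, ⊤) :=
  (glueFst hpb b₀ b₁).app j₀.opensRange ≫
    M₀.presheaf.map (homOfLE (top_le_preimage_opensRange₀ (j₀ := j₀))).op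

/-- Sections of the glued module over the second chart. -/
def secMap₁ : Γ(glue hpb b₀ b₁, j₁.opensRange) ⟶ Γ(M₁, ⊤) :=
  (glueSnd hpb b₀ b₁).app j₁.opensRange ≫
    M₁.presheaf.map (homOfLE (top_le_preimage_opensRange₀ (j₀ := j₁))).op

/-- Sections of the glued module over the overlap. -/
def secMap₀₁ : Γ(glue hpb b₀ b₁, j₀.opensRange ⊓ j₁.opensRange) ⟶ Γ(M₀₁, ⊤) :=
  (glueFst hpb b₀ b₁ ≫ a₀ j₀ b₀).app (j₀.opensRange ⊓ j₁.opensRange) ≫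
    M₀₁.presheaf.map (homOfLE (top_le_preimage_inf hpb _ _ le_rfl le_rfl)).op

/-- Scalar multiplication on sections of a pushforward. -/
lemma pushforward_smul {Y Z : Scheme.{u}} (f : Y ⟶ Z) (M : Y.Modules) (U : Z.Opens)
    (r : Γ(Z, U)) (x : Γ((Scheme.Modules.pushforward f).obj M, U)) :
    r • x = (show Γ(M, f ⁻¹ᵁ U) from (f.app U r) • (show Γ(M, f ⁻¹ᵁ U) from x)) := rfl

/-! ### Semilinearity -/

omit [IsOpenImmersion j₁] in
lemma secMap₀_smul (r : Γ(X, j₀.opensRange)) (s : Γ(glue hpb b₀ b₁, j₀.opensRange)) :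
    secMap₀ hpb b₀ b₁ (r • s) =
      (j₀.appLE j₀.opensRange ⊤ top_le_preimage_opensRange₀ r) • secMap₀ hpb b₀ b₁ s := by
  change M₀.presheaf.map _ ((glueFst hpb b₀ b₁).app _ (r • s)) = _
  rw [Scheme.Modules.Hom.app_smul, pushforward_smul]
  exact M₀.map_smul _ _ _

omit [IsOpenImmersion j₀] in
lemma secMap₁_smul (r : Γ(X, j₁.opensRange)) (s : Γ(glue hpb b₀ b₁, j₁.opensRange)) :
    secMap₁ hpb b₀ b₁ (r • s) =
      (j₁.appLE j₁.opensRange ⊤ top_le_preimage_opensRange₀ r) • secMap₁ hpb b₀ b₁ s := by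
  change M₁.presheaf.map _ ((glueSnd hpb b₀ b₁).app _ (r • s)) = _
  rw [Scheme.Modules.Hom.app_smul, pushforward_smul]
  exact M₁.map_smul _ _ _

lemma secMap₀₁_smul (r : Γ(X, j₀.opensRange ⊓ j₁.opensRange))
    (s : Γ(glue hpb b₀ b₁, j₀.opensRange ⊓ j₁.opensRange)) :
    secMap₀₁ hpb b₀ b₁ (r • s) =
      ((s₀ ≫ j₀).appLE (j₀.opensRange ⊓ j₁.opensRange) ⊤
        (top_le_preimage_inf hpb _ _ le_rfl le_rfl) r) • secMap₀₁ hpb b₀ b₁ s := by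
  change M₀₁.presheaf.map _ ((glueFst hpb b₀ b₁ ≫ a₀ j₀ b₀).app _ (r • s)) = _
  rw [Scheme.Modules.Hom.app_smul, pushforward_smul]
  exact M₀₁.map_smul _ _ _

/-! ### Compatibility with restriction -/

/-- Naturality of a morphism of modules with respect to restriction. -/
lemma app_naturality {Y : Scheme.{u}} {M N : Y.Modules} (φ : M ⟶ N) {U V : Y.Opens} (i : U ⟶ V) :
    M.presheaf.map i.op ≫ φ.app U = φ.app V ≫ N.presheaf.map i.op :=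
  φ.mapPresheaf.naturality i.op

/-- Composition of two restriction maps, elementwise. -/
lemma presheaf_map_map {Y : Scheme.{u}} (M : Y.Modules) {U V W : Y.Opens} (h₁ : V ≤ U)
    (h₂ : W ≤ V) (x : Γ(M, U)) :
    M.presheaf.map (homOfLE h₂).op (M.presheaf.map (homOfLE h₁).op x) =
      M.presheaf.map (homOfLE (h₂.trans h₁)).op x := by
  have := congr($(M.presheaf.map_comp (homOfLE h₁).op (homOfLE h₂).op) x)
  exact this.symm

/-- Naturality, elementwise. -/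
lemma app_map_apply {Y : Scheme.{u}} {M N : Y.Modules} (φ : M ⟶ N) {U V : Y.Opens} (h : U ≤ V)
    (x : Γ(M, V)) :
    φ.app U (M.presheaf.map (homOfLE h).op x) = N.presheaf.map (homOfLE h).op (φ.app V x) :=
  congr($(app_naturality φ (homOfLE h)) x)

omit [IsOpenImmersion j₁] in
lemma top_le_preimage_comp₀ : (⊤ : U₀₁.Opens) ≤ (s₀ ≫ j₀) ⁻¹ᵁ j₀.opensRange :=
  fun p _ => ⟨s₀.base p, by simp⟩

/-- The restriction from the first chart to the overlap is `b₀` on global sections. -/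
lemma secMap₀₁_res₀ (s : Γ(glue hpb b₀ b₁, j₀.opensRange)) :
    secMap₀₁ hpb b₀ b₁ ((glue hpb b₀ b₁).presheaf.map
        (homOfLE (inf_le_left : j₀.opensRange ⊓ j₁.opensRange ≤ j₀.opensRange)).op s) =
      b₀.app ⊤ (secMap₀ hpb b₀ b₁ s) := by
  have h3 : (glueFst hpb b₀ b₁ ≫ a₀ j₀ b₀).app j₀.opensRange s =
      b₀.app (j₀ ⁻¹ᵁ j₀.opensRange) ((glueFst hpb b₀ b₁).app j₀.opensRange s) := by
    rw [Scheme.Modules.Hom.comp_app, a₀_app]; rfl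
  have e1 : secMap₀₁ hpb b₀ b₁ ((glue hpb b₀ b₁).presheaf.map
        (homOfLE (inf_le_left : j₀.opensRange ⊓ j₁.opensRange ≤ j₀.opensRange)).op s) =
      M₀₁.presheaf.map (homOfLE (top_le_preimage_inf hpb _ _ le_rfl le_rfl)).op
          (M₀₁.presheaf.map (homOfLE (show (s₀ ≫ j₀) ⁻¹ᵁ (j₀.opensRange ⊓ j₁.opensRange) ≤
              (s₀ ≫ j₀) ⁻¹ᵁ j₀.opensRange from fun _ hp => hp.1)).op
            ((glueFst hpb b₀ b₁ ≫ a₀ j₀ b₀).app j₀.opensRange s)) :=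
    congrArg (M₀₁.presheaf.map (homOfLE (top_le_preimage_inf hpb _ _ le_rfl le_rfl)).op)
      (app_map_apply (glueFst hpb b₀ b₁ ≫ a₀ j₀ b₀) inf_le_left s)
  have e2 := presheaf_map_map M₀₁ (show (s₀ ≫ j₀) ⁻¹ᵁ (j₀.opensRange ⊓ j₁.opensRange) ≤
      (s₀ ≫ j₀) ⁻¹ᵁ j₀.opensRange from fun _ hp => hp.1)
      (top_le_preimage_inf hpb _ _ le_rfl le_rfl)
      ((glueFst hpb b₀ b₁ ≫ a₀ j₀ b₀).app j₀.opensRange s)
  have e3 : b₀.app ⊤ (secMap₀ hpb b₀ b₁ s) =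
      M₀₁.presheaf.map (homOfLE (top_le_preimage_comp₀ (s₀ := s₀) (j₀ := j₀))).op
        (b₀.app (j₀ ⁻¹ᵁ j₀.opensRange) ((glueFst hpb b₀ b₁).app j₀.opensRange s)) :=
    app_map_apply b₀ (top_le_preimage_opensRange₀ (j₀ := j₀)) _
  rw [e1, e2, e3, h3]

omit [IsOpenImmersion j₀] in
lemma top_le_preimage_comp₁ : (⊤ : U₀₁.Opens) ≤ (s₁ ≫ j₁) ⁻¹ᵁ j₁.opensRange :=
  fun p _ => ⟨s₁.base p, by simp⟩

include hpb in
omit [IsOpenImmersion j₀] [IsOpenImmersion j₁] in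
lemma preimage_comp_le (W : X.Opens) : (s₀ ≫ j₀) ⁻¹ᵁ W ≤ (s₁ ≫ j₁) ⁻¹ᵁ W := by
  rw [hpb.w]

/-- `pushforwardCongr` on sections is a restriction map. -/
lemma pushforwardCongr_app_apply {Y Z : Scheme.{u}} {f g : Y ⟶ Z} (hf : f = g) (M : Y.Modules)
    (U : Z.Opens) (h : g ⁻¹ᵁ U ≤ f ⁻¹ᵁ U) (x : Γ(M, f ⁻¹ᵁ U)) :
    ((Scheme.Modules.pushforwardCongr hf).hom.app M).app U x =
      M.presheaf.map (homOfLE h).op x := by
  rw [Scheme.Modules.pushforwardCongr_hom_app_app]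
  rfl

/-- The restriction from the second chart to the overlap is `b₁` on global sections. -/
lemma secMap₀₁_res₁ (s : Γ(glue hpb b₀ b₁, j₁.opensRange)) :
    secMap₀₁ hpb b₀ b₁ ((glue hpb b₀ b₁).presheaf.map
        (homOfLE (inf_le_right : j₀.opensRange ⊓ j₁.opensRange ≤ j₁.opensRange)).op s) =
      b₁.app ⊤ (secMap₁ hpb b₀ b₁ s) := by
  have h3 : (glueFst hpb b₀ b₁ ≫ a₀ j₀ b₀).app j₁.opensRange s =
      M₀₁.presheaf.map (homOfLE (preimage_comp_le hpb j₁.opensRange)).op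
        (b₁.app (j₁ ⁻¹ᵁ j₁.opensRange) ((glueSnd hpb b₀ b₁).app j₁.opensRange s)) := by
    rw [glue_condition, Scheme.Modules.Hom.comp_app, a₁_app]
    exact pushforwardCongr_app_apply hpb.w.symm M₀₁ j₁.opensRange
      (preimage_comp_le hpb j₁.opensRange) _
  have e1 : secMap₀₁ hpb b₀ b₁ ((glue hpb b₀ b₁).presheaf.map
        (homOfLE (inf_le_right : j₀.opensRange ⊓ j₁.opensRange ≤ j₁.opensRange)).op s) =
      M₀₁.presheaf.map (homOfLE (top_le_preimage_inf hpb _ _ le_rfl le_rfl)).op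
          (M₀₁.presheaf.map (homOfLE (show (s₀ ≫ j₀) ⁻¹ᵁ (j₀.opensRange ⊓ j₁.opensRange) ≤
              (s₀ ≫ j₀) ⁻¹ᵁ j₁.opensRange from fun _ hp => hp.2)).op
            ((glueFst hpb b₀ b₁ ≫ a₀ j₀ b₀).app j₁.opensRange s)) :=
    congrArg (M₀₁.presheaf.map (homOfLE (top_le_preimage_inf hpb _ _ le_rfl le_rfl)).op)
      (app_map_apply (glueFst hpb b₀ b₁ ≫ a₀ j₀ b₀) inf_le_right s)
  have e2 := presheaf_map_map M₀₁ (show (s₀ ≫ j₀) ⁻¹ᵁ (j₀.opensRange ⊓ j₁.opensRange) ≤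
      (s₀ ≫ j₀) ⁻¹ᵁ j₁.opensRange from fun _ hp => hp.2)
      (top_le_preimage_inf hpb _ _ le_rfl le_rfl)
      ((glueFst hpb b₀ b₁ ≫ a₀ j₀ b₀).app j₁.opensRange s)
  have e3 : b₁.app ⊤ (secMap₁ hpb b₀ b₁ s) =
      M₀₁.presheaf.map (homOfLE (top_le_preimage_comp₁ (s₁ := s₁) (j₁ := j₁))).op
        (b₁.app (j₁ ⁻¹ᵁ j₁.opensRange) ((glueSnd hpb b₀ b₁).app j₁.opensRange s)) :=
    app_map_apply b₁ (top_le_preimage_opensRange₀ (j₀ := j₁)) _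
  rw [e1, e2, e3, h3]
  exact presheaf_map_map M₀₁ _ _ _

/-! ### Bijectivity -/

variable (hb₀ : ∀ V : U₀.Opens, (V : Set U₀) ⊆ Set.range s₀.base → IsIso (b₀.app V))
  (hb₁ : ∀ V : U₁.Opens, (V : Set U₁) ⊆ Set.range s₁.base → IsIso (b₁.app V))

include hb₁ in
omit [IsOpenImmersion j₁] in
lemma isIso_secMap₀ : IsIso (secMap₀ hpb b₀ b₁) := by
  have i1 := isIso_glueFst_app hpb b₀ b₁ hb₁ j₀.opensRange (fun p hp => hp)
  have i2 := isIso_presheaf_map_of_eq M₀ (top_le_iff.mp (top_le_preimage_opensRange₀ (j₀ := j₀))).symm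
    (top_le_preimage_opensRange₀ (j₀ := j₀))
  exact @IsIso.comp_isIso _ _ _ _ _ _ _ i1 i2

include hb₀ in
omit [IsOpenImmersion j₀] in
lemma isIso_secMap₁ : IsIso (secMap₁ hpb b₀ b₁) := by
  have i1 := isIso_glueSnd_app hpb b₀ b₁ hb₀ j₁.opensRange (fun p hp => hp)
  have i2 := isIso_presheaf_map_of_eq M₁ (top_le_iff.mp (top_le_preimage_opensRange₀ (j₀ := j₁))).symm
    (top_le_preimage_opensRange₀ (j₀ := j₁))
  exact @IsIso.comp_isIso _ _ _ _ _ _ _ i1 i2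

include hb₀ hb₁ in
lemma isIso_secMap₀₁ : IsIso (secMap₀₁ hpb b₀ b₁) := by
  have i1 := isIso_glueFst_app hpb b₀ b₁ hb₁ (j₀.opensRange ⊓ j₁.opensRange) (fun p hp => hp.1)
  have i2 := isIso_a₀_app hpb b₀ hb₀ (j₀.opensRange ⊓ j₁.opensRange) (fun p hp => hp.2)
  have i3 := isIso_presheaf_map_of_eq M₀₁
    (top_le_iff.mp (top_le_preimage_inf hpb j₀.opensRange j₁.opensRange le_rfl le_rfl)).symm
    (top_le_preimage_inf hpb j₀.opensRange j₁.opensRange le_rfl le_rfl)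
  have i4 : IsIso ((glueFst hpb b₀ b₁ ≫ a₀ j₀ b₀).app (j₀.opensRange ⊓ j₁.opensRange)) := by
    rw [Scheme.Modules.Hom.comp_app]
    exact @IsIso.comp_isIso _ _ _ _ _ _ _ i1 i2
  exact @IsIso.comp_isIso _ _ _ _ _ _ _ i4 i3

end

/-! ## The tilde specialization: sections of `glueTilde` -/

noncomputable section

/-- Global sections of `Ñ` are `N`, as an additive equivalence. -/
def tildeTopEquiv {A : CommRingCat.{u}} (N : ModuleCat.{u} A) : N ≃+ Γ(tilde N, ⊤) :=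
  (tilde.isoTop N).toLinearEquiv.toAddEquiv

lemma tildeTopEquiv_apply {A : CommRingCat.{u}} (N : ModuleCat.{u} A) (n : N) :
    tildeTopEquiv N n = (tilde.toOpen N ⊤).hom n := rfl

/-- `tildeTopEquiv` is semilinear for `ΓSpecIso`. -/
lemma tildeTopEquiv_smul {A : CommRingCat.{u}} (N : ModuleCat.{u} A) (a : A) (n : N) :
    tildeTopEquiv N (a • n) = (Scheme.ΓSpecIso A).inv a • tildeTopEquiv N n := by
  have h1 : tildeTopEquiv N (a • n) = a • tildeTopEquiv N n :=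
    (tilde.isoTop N).toLinearEquiv.map_smul a n
  rw [h1, Scheme.Modules.smul_Spec_def]
  congr 1

lemma tildeTopEquiv_symm_smul {A : CommRingCat.{u}} (N : ModuleCat.{u} A) (c : Γ(Spec A, ⊤))
    (t : Γ(tilde N, ⊤)) :
    (tildeTopEquiv N).symm (c • t) = (Scheme.ΓSpecIso A).hom c • (tildeTopEquiv N).symm t := by
  apply (tildeTopEquiv N).injective
  rw [tildeTopEquiv_smul, AddEquiv.apply_symm_apply, AddEquiv.apply_symm_apply]
  congr 1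
  exact (congr($((Scheme.ΓSpecIso A).hom_inv_id) c)).symm

section TildeGlue

variable {X : Scheme.{u}} {A₀ A₁ A₀₁ : CommRingCat.{u}} {r₀ : A₀ ⟶ A₀₁} {r₁ : A₁ ⟶ A₀₁}
  {j₀ : Spec A₀ ⟶ X} {j₁ : Spec A₁ ⟶ X} [IsOpenImmersion j₀] [IsOpenImmersion j₁]
  (hpb : IsPullback (Spec.map r₀) (Spec.map r₁) j₀ j₁)
  (N₀ : ModuleCat.{u} A₀) (N₁ : ModuleCat.{u} A₁) (N₀₁ : ModuleCat.{u} A₀₁)
  (ρ₀ : N₀ ⟶ (ModuleCat.restrictScalars r₀.hom).obj N₀₁)
  (ρ₁ : N₁ ⟶ (ModuleCat.restrictScalars r₁.hom).obj N₀₁) (x : A₀) (y : A₁)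
  (h₀ : IsLocAt r₀.hom ρ₀ x) (h₁ : IsLocAt r₁.hom ρ₁ y)

/-- Auxiliary form of `glueSections_tilde`, stated for `glue` of the two `tildeRes`. -/
theorem glueSections_tilde_aux [IsOpenImmersion (Spec.map r₀)] [IsOpenImmersion (Spec.map r₁)] :
    ∃ (σ₀ : Γ(glue hpb (tildeRes r₀ N₀ N₀₁ (extendIso h₀)) (tildeRes r₁ N₁ N₀₁ (extendIso h₁)),
        j₀.opensRange) ≃+ N₀)
      (σ₁ : Γ(glue hpb (tildeRes r₀ N₀ N₀₁ (extendIso h₀)) (tildeRes r₁ N₁ N₀₁ (extendIso h₁)),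
        j₁.opensRange) ≃+ N₁)
      (σ₀₁ : Γ(glue hpb (tildeRes r₀ N₀ N₀₁ (extendIso h₀)) (tildeRes r₁ N₁ N₀₁ (extendIso h₁)),
        j₀.opensRange ⊓ j₁.opensRange) ≃+ N₀₁),
      (∀ c s, σ₀ (c • s) = (helper7939.chartRingHom j₀).hom c • σ₀ s) ∧
      (∀ c s, σ₁ (c • s) = (helper7939.chartRingHom j₁).hom c • σ₁ s) ∧
      (∀ c s, σ₀₁ (c • s) = (Scheme.ΓSpecIso A₀₁).hom
        ((Spec.map r₀ ≫ j₀).appLE (j₀.opensRange ⊓ j₁.opensRange) ⊤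
          (top_le_preimage_inf hpb _ _ le_rfl le_rfl) c) • σ₀₁ s) ∧
      (∀ s, σ₀₁ ((glue hpb (tildeRes r₀ N₀ N₀₁ (extendIso h₀))
          (tildeRes r₁ N₁ N₀₁ (extendIso h₁))).presheaf.map
        (homOfLE (inf_le_left : j₀.opensRange ⊓ j₁.opensRange ≤ j₀.opensRange)).op s) =
          ρ₀.hom (σ₀ s)) ∧
      (∀ s, σ₀₁ ((glue hpb (tildeRes r₀ N₀ N₀₁ (extendIso h₀))
          (tildeRes r₁ N₁ N₀₁ (extendIso h₁))).presheaf.map
        (homOfLE (inf_le_right : j₀.opensRange ⊓ j₁.opensRange ≤ j₁.opensRange)).op s) =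
          ρ₁.hom (σ₁ s)) := by
  have hb₀ := isIso_tildeRes_app r₀ N₀ N₀₁ (extendIso h₀)
  have hb₁ := isIso_tildeRes_app r₁ N₁ N₀₁ (extendIso h₁)
  have := isIso_secMap₀ hpb (tildeRes r₀ N₀ N₀₁ (extendIso h₀))
    (tildeRes r₁ N₁ N₀₁ (extendIso h₁)) hb₁
  have := isIso_secMap₁ hpb (tildeRes r₀ N₀ N₀₁ (extendIso h₀))
    (tildeRes r₁ N₁ N₀₁ (extendIso h₁)) hb₀
  have := isIso_secMap₀₁ hpb (tildeRes r₀ N₀ N₀₁ (extendIso h₀))
    (tildeRes r₁ N₁ N₀₁ (extendIso h₁)) hb₀ hb₁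
  refine ⟨(asIso (secMap₀ hpb (tildeRes r₀ N₀ N₀₁ (extendIso h₀))
      (tildeRes r₁ N₁ N₀₁ (extendIso h₁)))).addCommGroupIsoToAddEquiv.trans (tildeTopEquiv N₀).symm,
    (asIso (secMap₁ hpb (tildeRes r₀ N₀ N₀₁ (extendIso h₀))
      (tildeRes r₁ N₁ N₀₁ (extendIso h₁)))).addCommGroupIsoToAddEquiv.trans (tildeTopEquiv N₁).symm,
    (asIso (secMap₀₁ hpb (tildeRes r₀ N₀ N₀₁ (extendIso h₀))
      (tildeRes r₁ N₁ N₀₁ (extendIso h₁)))).addCommGroupIsoToAddEquiv.trans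
        (tildeTopEquiv N₀₁).symm, ?_, ?_, ?_, ?_, ?_⟩
  · intro c s
    change (tildeTopEquiv N₀).symm (secMap₀ hpb _ _ (c • s)) =
      _ • (tildeTopEquiv N₀).symm (secMap₀ hpb _ _ s)
    rw [secMap₀_smul, tildeTopEquiv_symm_smul]
    rfl
  · intro c s
    change (tildeTopEquiv N₁).symm (secMap₁ hpb _ _ (c • s)) =
      _ • (tildeTopEquiv N₁).symm (secMap₁ hpb _ _ s)
    rw [secMap₁_smul, tildeTopEquiv_symm_smul]
    rfl
  · intro c s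
    change (tildeTopEquiv N₀₁).symm (secMap₀₁ hpb _ _ (c • s)) =
      _ • (tildeTopEquiv N₀₁).symm (secMap₀₁ hpb _ _ s)
    rw [secMap₀₁_smul, tildeTopEquiv_symm_smul]
  · intro s
    change (tildeTopEquiv N₀₁).symm (secMap₀₁ hpb _ _ _) =
      ρ₀.hom ((tildeTopEquiv N₀).symm (secMap₀ hpb _ _ s))
    rw [secMap₀₁_res₀]
    obtain ⟨n, hn⟩ := (tildeTopEquiv N₀).surjective (secMap₀ hpb _ _ s)
    rw [← hn, AddEquiv.symm_apply_apply]
    exact (AddEquiv.symm_apply_eq (tildeTopEquiv N₀₁)).mpr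
      (tildeRes_extendIso_app_top r₀ N₀ N₀₁ ρ₀ h₀ n)
  · intro s
    change (tildeTopEquiv N₀₁).symm (secMap₀₁ hpb _ _ _) =
      ρ₁.hom ((tildeTopEquiv N₁).symm (secMap₁ hpb _ _ s))
    rw [secMap₀₁_res₁]
    obtain ⟨n, hn⟩ := (tildeTopEquiv N₁).surjective (secMap₁ hpb _ _ s)
    rw [← hn, AddEquiv.symm_apply_apply]
    exact (AddEquiv.symm_apply_eq (tildeTopEquiv N₀₁)).mpr
      (tildeRes_extendIso_app_top r₁ N₁ N₀₁ ρ₁ h₁ n)

/-- **Sections of the two-chart glued tilde module** over the two charts and the overlap: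
they are `N₀`, `N₁`, `N₀₁`, semilinearly for the chart ring maps, and the restriction maps are
`ρ₀`, `ρ₁`. -/
theorem glueSections_tilde :
    ∃ (σ₀ : Γ(glueTilde hpb N₀ N₁ N₀₁ (extendIso h₀) (extendIso h₁), j₀.opensRange) ≃+ N₀)
      (σ₁ : Γ(glueTilde hpb N₀ N₁ N₀₁ (extendIso h₀) (extendIso h₁), j₁.opensRange) ≃+ N₁)
      (σ₀₁ : Γ(glueTilde hpb N₀ N₁ N₀₁ (extendIso h₀) (extendIso h₁),
        j₀.opensRange ⊓ j₁.opensRange) ≃+ N₀₁),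
      (∀ c s, σ₀ (c • s) = (helper7939.chartRingHom j₀).hom c • σ₀ s) ∧
      (∀ c s, σ₁ (c • s) = (helper7939.chartRingHom j₁).hom c • σ₁ s) ∧
      (∀ c s, σ₀₁ (c • s) = (Scheme.ΓSpecIso A₀₁).hom
        ((Spec.map r₀ ≫ j₀).appLE (j₀.opensRange ⊓ j₁.opensRange) ⊤
          (top_le_preimage_inf hpb _ _ le_rfl le_rfl) c) • σ₀₁ s) ∧
      (∀ s, σ₀₁ ((glueTilde hpb N₀ N₁ N₀₁ (extendIso h₀) (extendIso h₁)).presheaf.map
        (homOfLE (inf_le_left : j₀.opensRange ⊓ j₁.opensRange ≤ j₀.opensRange)).op s) =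
          ρ₀.hom (σ₀ s)) ∧
      (∀ s, σ₀₁ ((glueTilde hpb N₀ N₁ N₀₁ (extendIso h₀) (extendIso h₁)).presheaf.map
        (homOfLE (inf_le_right : j₀.opensRange ⊓ j₁.opensRange ≤ j₁.opensRange)).op s) =
          ρ₁.hom (σ₁ s)) :=
  haveI := isOpenImmersion_fst_of_isPullback hpb
  haveI := isOpenImmersion_snd_of_isPullback hpb
  glueSections_tilde_aux hpb N₀ N₁ N₀₁ ρ₀ ρ₁ x y h₀ h₁

end TildeGlue

end

end Fermat.Agent.S25.helper263
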