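import Mathlib
import Fermat.Prelude.Def_AlgebraicGeometry_RelativePicardFunctor

/-!
# S25 bridge brick (helper845): invertible `Scheme.Modules` are quasi-coherent and locally free of
rank one on sections

* `isQuasicoherent_of_isInvertible` : Prelude-invertible ⟹ `IsQuasicoherent`.
* `sections_linearEquiv_of_le` : if `M` is trivial on `U` and `V ≤ U` then `Γ(M, V) ≃ₗ Γ(X, V)`.
* `isIso_fromTildeΓ_of_isInvertible` : on `Spec R`, `M ≅ (Γ M)^~`.
* `exists_bo_linearEquiv`, `finite_sections`, `projective_sections` : on `Spec R`, the module of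
  global sections is finite projective, free of rank one on a cover by basic opens.
-/

set_option autoImplicit false

namespace Fermat.Agent.S25.helper845

open CategoryTheory CategoryTheory.Limits AlgebraicGeometry

universe u

/-- The structure sheaf, as an `𝒪_X`-module. -/
noncomputable abbrev OO (X : Scheme.{u}) : X.Modules := SheafOfModules.unit.{u} X.ringCatSheaf

/-- The structure sheaf is quasi-coherent. -/
theorem isQuasicoherent_unit (X : Scheme.{u}) :
    (SheafOfModules.unit.{u} X.ringCatSheaf).IsQuasicoherent := by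
  have h : (SheafOfModules.free.{u} (R := X.ringCatSheaf) PUnit.{u+1}).IsQuasicoherent :=
    inferInstance
  have e : SheafOfModules.free.{u} (R := X.ringCatSheaf) PUnit.{u+1} ≅
      SheafOfModules.unit.{u} X.ringCatSheaf :=
    Limits.coproductUniqueIso _
  exact (SheafOfModules.isQuasicoherent X.ringCatSheaf).prop_of_iso e h

/-- An invertible module (Prelude sense) is quasi-coherent. -/
theorem isQuasicoherent_of_isInvertible {X : Scheme.{u}} (M : X.Modules)
    (h : Scheme.Modules.IsInvertible M) : M.IsQuasicoherent := by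
  choose U hxU hU using h.exists_trivialization
  have hcov : (Opens.grothendieckTopology X).CoversTop U := by
    rw [Opens.coversTop_iff, TopologicalSpace.IsOpenCover, eq_top_iff]
    intro x _
    exact TopologicalSpace.Opens.mem_iSup.mpr ⟨x, hxU x⟩
  have key : ∀ x : X, (M.over (U x)).IsQuasicoherent := by
    intro x
    obtain ⟨e3⟩ := hU x
    let E := Scheme.Modules.overEquiv (U x)
    have e1 : E.functor.obj (M.over (U x)) ≅ (Scheme.Modules.restrictFunctor (U x).ι).obj M :=
      (Scheme.Modules.overFunctorEquiv (U x)).app M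
    have e2 : (Scheme.Modules.restrictFunctor (U x).ι).obj M ≅
        (Scheme.Modules.pullback (U x).ι).obj M :=
      (Scheme.Modules.restrictFunctorIsoPullback (U x).ι).app M
    have e1' : E.functor.obj ((SheafOfModules.unit.{u} X.ringCatSheaf).over (U x)) ≅
        (Scheme.Modules.restrictFunctor (U x).ι).obj (SheafOfModules.unit.{u} X.ringCatSheaf) :=
      (Scheme.Modules.overFunctorEquiv (U x)).app _
    have e2' : (Scheme.Modules.restrictFunctor (U x).ι).obj (SheafOfModules.unit.{u} X.ringCatSheaf)
        ≅ SheafOfModules.unit.{u} (U x).toScheme.ringCatSheaf :=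
      Scheme.Modules.restrictUnitIso _
    have e : M.over (U x) ≅ (SheafOfModules.unit.{u} X.ringCatSheaf).over (U x) :=
      E.fullyFaithfulFunctor.preimageIso (e1 ≪≫ e2 ≪≫ e3 ≪≫ e2'.symm ≪≫ e1'.symm)
    have hq : ((SheafOfModules.unit.{u} X.ringCatSheaf).over (U x)).IsQuasicoherent :=
      haveI := isQuasicoherent_unit X
      SheafOfModules.isQuasicoherent_over _ (U x)
    exact (SheafOfModules.isQuasicoherent.{u} (X.ringCatSheaf.over (U x))).prop_of_iso e.symm hq
  exact SheafOfModules.IsQuasicoherent.of_coversTop M U hcov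

/-- If `M` is trivial on the open `U`, then for every open `W` of `U` the sections of `M` over
(the image of) `W` form a free module of rank one over the sections of `𝒪_X`. -/
theorem sections_linearEquiv_of_iso_unit {X : Scheme.{u}} (M : X.Modules) (U : X.Opens)
    (e : (Scheme.Modules.pullback U.ι).obj M ≅ SheafOfModules.unit.{u} U.toScheme.ringCatSheaf)
    (W : U.toScheme.Opens) :
    Nonempty (Γ(M, U.ι ''ᵁ W) ≃ₗ[Γ(X, U.ι ''ᵁ W)] Γ(X, U.ι ''ᵁ W)) := by
  let e' : M.restrict U.ι ≅ OO U.toScheme :=
    (Scheme.Modules.restrictFunctorIsoPullback U.ι).app M ≪≫ e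
  let φ : Γ(M.restrict U.ι, W) ⟶ Γ(OO U.toScheme, W) := e'.hom.app W
  let ψ : Γ(OO U.toScheme, W) ⟶ Γ(M.restrict U.ι, W) := e'.inv.app W
  have hφψ : φ ≫ ψ = 𝟙 _ := by
    have := Scheme.Modules.Hom.comp_app (U := W) e'.hom e'.inv
    rw [e'.hom_inv_id] at this
    exact this.symm
  have hψφ : ψ ≫ φ = 𝟙 _ := by
    have := Scheme.Modules.Hom.comp_app (U := W) e'.inv e'.hom
    rw [e'.inv_hom_id] at this
    exact this.symm
  let β : Γ(M.restrict U.ι, W) ≃+ Γ(OO U.toScheme, W) :=
    (Iso.mk φ ψ hφψ hψφ).addCommGroupIsoToAddEquiv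
  let α : Γ(M, U.ι ''ᵁ W) ≃+ Γ(M.restrict U.ι, W) :=
    (M.restrictAppIso U.ι W).symm.addCommGroupIsoToAddEquiv
  let δ : Γ(OO U.toScheme, W) ≃+ Γ(U.toScheme, W) := AddEquiv.refl _
  let a : Γ(X, U.ι ''ᵁ W) ≃+* Γ(U.toScheme, W) := (U.ι.appIso W).commRingCatIsoToRingEquiv
  have hα : ∀ (s : Γ(X, U.ι ''ᵁ W)) (m : Γ(M, U.ι ''ᵁ W)), α (s • m) = a s • α m := by
    intro s m
    exact Scheme.Modules.smul_restrictAppIso_inv_apply U.ι M W s m
  have hβ : ∀ (r : Γ(U.toScheme, W)) (m : Γ(M.restrict U.ι, W)), β (r • m) = r • β m := by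
    intro r m
    exact Scheme.Modules.Hom.app_smul e'.hom r m
  have hδ : ∀ (r : Γ(U.toScheme, W)) (m : Γ(OO U.toScheme, W)), δ (r • m) = r * δ m := by
    intro r m
    rfl
  refine ⟨
    { toFun := fun m => a.symm (δ (β (α m)))
      invFun := fun s => α.symm (β.symm (δ.symm (a s)))
      map_add' := ?_
      map_smul' := ?_
      left_inv := ?_
      right_inv := ?_ }⟩
  · intro m m'
    simp only [map_add]
  · intro s m
    simp only [hα, hβ, hδ, map_mul, RingEquiv.symm_apply_apply, RingHom.id_apply, smul_eq_mul]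
  · intro m
    simp only [RingEquiv.apply_symm_apply, AddEquiv.symm_apply_apply]
  · intro s
    simp only [AddEquiv.apply_symm_apply, RingEquiv.symm_apply_apply]

/-- If `M` is trivial on the open `U` and `V ≤ U`, then `Γ(M, V)` is free of rank one
over `Γ(X, V)`. -/
theorem sections_linearEquiv_of_le {X : Scheme.{u}} (M : X.Modules) (U : X.Opens)
    (e : (Scheme.Modules.pullback U.ι).obj M ≅ SheafOfModules.unit.{u} U.toScheme.ringCatSheaf)
    (V : X.Opens) (hV : V ≤ U) :
    Nonempty (Γ(M, V) ≃ₗ[Γ(X, V)] Γ(X, V)) := by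
  have h := sections_linearEquiv_of_iso_unit M U e (U.ι ⁻¹ᵁ V)
  have hV' : U.ι ''ᵁ (U.ι ⁻¹ᵁ V) = V := by
    rw [Scheme.Hom.image_preimage_eq_opensRange_inf, Scheme.Opens.opensRange_ι]
    exact inf_eq_right.mpr hV
  exact hV' ▸ h

section SpecCase

variable {R : CommRingCat.{u}}

/-- A basic open of `Spec R`, typed as an open of the scheme. -/
def bo (f : R) : (Spec R).Opens := PrimeSpectrum.basicOpen f

/-- On `Spec R`, an invertible module is the tilde of its global sections. -/
theorem isIso_fromTildeΓ_of_isInvertible (M : (Spec R).Modules)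
    (h : Scheme.Modules.IsInvertible M) : IsIso M.fromTildeΓ :=
  haveI := isQuasicoherent_of_isInvertible M h
  inferInstance

/-- On `Spec R`, an invertible module is free of rank one on a basic open around each point. -/
theorem exists_bo_linearEquiv (M : (Spec R).Modules)
    (h : Scheme.Modules.IsInvertible M) (x : Spec R) :
    ∃ f : R, x ∈ bo f ∧ Nonempty (Γ(M, bo f) ≃ₗ[Γ(Spec R, bo f)] Γ(Spec R, bo f)) := by
  obtain ⟨U, hxU, ⟨e⟩⟩ := h.exists_trivialization x
  obtain ⟨a, ⟨_, ⟨f, rfl⟩, rfl⟩, hxf, hfU : PrimeSpectrum.basicOpen _ ≤ _⟩ :=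
    PrimeSpectrum.isBasis_basic_opens.exists_subset_of_mem_open hxU U.2
  exact ⟨f, hxf, sections_linearEquiv_of_le M U e (bo f) hfU⟩

/-- The elements `f` such that `M` is free of rank one over `D(f)` generate the unit ideal. -/
theorem span_trivializing_eq_top (M : (Spec R).Modules) (h : Scheme.Modules.IsInvertible M) :
    Ideal.span {f : R | Nonempty (Γ(M, bo f) ≃ₗ[Γ(Spec R, bo f)] Γ(Spec R, bo f))} = ⊤ := by
  by_contra hne
  obtain ⟨m, hm, hle⟩ := Ideal.exists_le_maximal _ hne
  obtain ⟨f, hxf, hf⟩ := exists_bo_linearEquiv M h (⟨m, hm.isPrime⟩ : PrimeSpectrum R)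
  exact hxf (hle (Ideal.subset_span hf))

/-- The restriction map `Γ(M, ⊤) → Γ(M, D(f))`, as an `R`-linear map. -/
noncomputable def resBo (M : (Spec R).Modules) (f : R) :
    Γ(M, (⊤ : (Spec R).Opens)) →ₗ[R] Γ(M, bo f) :=
  ((modulesSpecToSheaf.obj M).obj.map (bo f).leTop.op).hom

theorem isLocalizedModule_resBo (M : (Spec R).Modules) (h : Scheme.Modules.IsInvertible M)
    (f : R) : IsLocalizedModule (.powers f) (resBo M f) := by
  have := isIso_fromTildeΓ_of_isInvertible M h
  exact (isIso_fromTildeΓ_iff_isLocalizing M).mp inferInstance f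

set_option backward.isDefEq.respectTransparency.types false in
instance isLocalization_bo (f : R) : IsLocalization.Away f Γ(Spec R, bo f) :=
  inferInstanceAs (IsLocalization.Away f
    ((Spec.structureSheaf R).obj.obj (Opposite.op <| PrimeSpectrum.basicOpen f)))

/-- Global sections of an invertible module on `Spec R` form a finitely presented `R`-module. -/
theorem finitePresentation_sections (M : (Spec R).Modules) (h : Scheme.Modules.IsInvertible M) :
    Module.FinitePresentation R Γ(M, (⊤ : (Spec R).Opens)) := by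
  have := fun f => isLocalizedModule_resBo M h f
  refine Module.FinitePresentation.of_localizationSpan' _ (span_trivializing_eq_top M h)
    (Rₚ := fun g => Γ(Spec R, bo g.1)) (Mₚ := fun g => Γ(M, bo g.1))
    (fun g => resBo M g.1) (fun g => ?_)
  obtain ⟨e⟩ := g.2
  exact Module.FinitePresentation.of_equiv e.symm

/-- Global sections of an invertible module on `Spec R` form a flat `R`-module. -/
theorem flat_sections (M : (Spec R).Modules) (h : Scheme.Modules.IsInvertible M) :
    Module.Flat R Γ(M, (⊤ : (Spec R).Opens)) := by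
  have := fun f => isLocalizedModule_resBo M h f
  refine Module.flat_of_isLocalized_span (R := R) R _ _ (span_trivializing_eq_top M h)
    (fun g => Γ(M, bo g.1)) (fun g => resBo M g.1) (fun g => ?_)
  obtain ⟨e⟩ := g.2
  have hfl : Module.Flat R Γ(Spec R, bo g.1) := IsLocalization.flat _ (.powers g.1)
  exact Module.Flat.of_linearEquiv (e.restrictScalars R)

/-- Global sections of an invertible module on `Spec R` form a finite `R`-module. -/
theorem finite_sections (M : (Spec R).Modules) (h : Scheme.Modules.IsInvertible M) :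
    Module.Finite R Γ(M, (⊤ : (Spec R).Opens)) :=
  haveI := finitePresentation_sections M h
  inferInstance

/-- Global sections of an invertible module on `Spec R` form a projective `R`-module. -/
theorem projective_sections (M : (Spec R).Modules) (h : Scheme.Modules.IsInvertible M) :
    Module.Projective R Γ(M, (⊤ : (Spec R).Opens)) :=
  haveI := finitePresentation_sections M h
  haveI := flat_sections M h
  Module.Flat.projective_of_finitePresentation

end SpecCase

end Fermat.Agent.S25.helper845

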