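import Fermat.Agent.S25.helper3484_IsoIff
import Fermat.Agent.S25.helper7939_Models
import Fermat.Agent.S25.helper845_InvTilde

/-!
# S25 leaf U15: the `iso_iff` field of the dictionary (helper3484)

`stmt_IsoIff R : helper7939.Stmt_IsoIff R` — for a realization `R` of the curve by a curve datum
`D`, invertible sheaves `L`, `L'` on `C ×ₖ Spec B` modelled by two-chart data `G`, `G'` are
isomorphic if and only if `G.Equiv G'`.

Proof: `helper7939.SecIso` is a section model in the sense of `helper3484_IsoIff`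
(`secModelOfSecIso`), the three chart opens are affine and cover, invertible sheaves are
quasi-coherent (`helper845`), so `SecModel.nonempty_iso_iff` applies.
-/

set_option autoImplicit false

universe u

open CategoryTheory CategoryTheory.Limits AlgebraicGeometry Opposite
open AlgebraicGeometry.RelPicard NeronModelInfra
open Fermat.Agent.S25.helper1705 Fermat.Agent.S25.helper2911 Fermat.Agent.S25.helper2945
open Fermat.Agent.S25.helper4193 Fermat.Agent.S25.helper7939

namespace Fermat.Agent.S25.helper3484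

variable {k : Type u} [Field k] {C : Scheme.{u}} {c : C ⟶ Spec (CommRingCat.of k)}
  {ε : SchemeHomOver (𝟙 (Spec (CommRingCat.of k))) c} {D : CurveDatum k}
  (R : Realization c ε D) {B : Type u} [CommRing B] [Algebra k B]

/-- A `helper7939.SecIso` is a section model (with the inverse ring isomorphisms). -/
noncomputable def secModelOfSecIso {L : (pullback c (specStr k B)).Modules} {G : GlueDatum D B}
    (S : SecIso R L G) :
    SecModel L (U₀ R B) (U₁ R B) (γ₀ R B).symm.toRingHom (γ₁ R B).symm.toRingHom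
      (γ₀₁ R B).symm.toRingHom (fun m => G.ρ₀ m) (fun m => G.ρ₁ m) where
  e₀ := S.e₀.symm
  e₁ := S.e₁.symm
  e₀₁ := S.e₀₁.symm
  smul₀ a m := by
    have h := symm_smul_of_smul (γ₀ R B).toRingHom S.e₀ S.smul₀ ((γ₀ R B).symm a) m
    rw [RingEquiv.toRingHom_eq_coe, RingEquiv.coe_toRingHom, RingEquiv.apply_symm_apply] at h
    exact h
  smul₁ a m := by
    have h := symm_smul_of_smul (γ₁ R B).toRingHom S.e₁ S.smul₁ ((γ₁ R B).symm a) m
    rw [RingEquiv.toRingHom_eq_coe, RingEquiv.coe_toRingHom, RingEquiv.apply_symm_apply] at h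
    exact h
  smul₀₁ a m := by
    have h := symm_smul_of_smul (γ₀₁ R B).toRingHom S.e₀₁ S.smul₀₁ ((γ₀₁ R B).symm a) m
    rw [RingEquiv.toRingHom_eq_coe, RingEquiv.coe_toRingHom, RingEquiv.apply_symm_apply] at h
    exact h
  comm₀ m := by
    have h := S.comm₀ (S.e₀.symm m)
    rw [AddEquiv.apply_symm_apply] at h
    exact (S.e₀₁.symm_apply_eq).2 h.symm
  comm₁ m := by
    have h := S.comm₁ (S.e₁.symm m)
    rw [AddEquiv.apply_symm_apply] at h
    exact (S.e₀₁.symm_apply_eq).2 h.symm

/-- **Leaf U15 = field `iso_iff` of the dictionary.** Invertible sheaves on `C ×ₖ Spec B` are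
isomorphic if and only if their two-chart models are equivalent. -/
theorem stmt_IsoIff : Stmt_IsoIff R := by
  intro B _ _ L L' G G' hLG hLG'
  obtain ⟨hL, ⟨S⟩⟩ := hLG
  obtain ⟨hL', ⟨S'⟩⟩ := hLG'
  have hqc : L.IsQuasicoherent := helper845.isQuasicoherent_of_isInvertible L hL
  have hqc' : L'.IsQuasicoherent := helper845.isQuasicoherent_of_isInvertible L' hL'
  have key := SecModel.nonempty_iso_iff (isAffineOpen_U₀ R B) (isAffineOpen_U₁ R B)
    (isAffineOpen_U₀₁ R B) (U₀_sup_U₁ R B) (γ₀ R B).symm.surjective (γ₁ R B).symm.surjective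
    (γ₀₁ R B).symm.surjective (secModelOfSecIso R S) (secModelOfSecIso R S')
  rw [key]
  constructor
  · rintro ⟨f₀, f₁, f₀₁, c₀, c₁⟩
    exact ⟨⟨f₀, f₁, f₀₁, c₀, c₁⟩⟩
  · rintro ⟨⟨f₀, f₁, f₀₁, c₀, c₁⟩⟩
    exact ⟨f₀, f₁, f₀₁, c₀, c₁⟩

end Fermat.Agent.S25.helper3484
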