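/-
S25, leaf U16 (backup copy, helper7490): rigidification `⟺` `IsRig`, SECTIONS FORM.

Independent of `helper7084_RigCore`: built on `helper5681_RigChart` (tilde form) and
`helper845_InvTilde` (invertible ⟹ quasi-coherent).

* `chartHom J : R →+* Γ(X, J ''ᵁ ⊤)` : the canonical coordinate map of an affine chart
  `J : Spec R ⟶ X` (an open immersion).
* `smul_restrict_top` : the `R`-action on `Γ(L|_{Spec R}, ⊤) = Γ(L, J ''ᵁ ⊤)` is the action of
  `chartHom J`.
* `sectionsLinearEquiv`, `nonempty_pullback_iso_tilde` : an `R`-module `M` with an additive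
  identification `M ≃+ Γ(L, J ''ᵁ ⊤)` that is semilinear along `chartHom J` satisfies
  `J^* L ≅ M^~` (for `L` invertible).
* `nonempty_pullback_iso_unit_iff_sections(_of_eq)` : for `σ = Spec (A → B) ≫ J`,
  `σ^* L ≅ 𝒪` iff `B ⊗[A] M ≃ₗ[B] B`.
* `rigidified_iff_isRig_of_sections` : for a `Realization` and a `helper2945.GlueDatum` `G`
  whose `G.M₁` is identified with the sections of `L` over the chart at infinity:
  `L` is trivial along `rigSection` iff `G.IsRig`.
-/
import Fermat.Agent.S25.helper5681_RigChart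
import Fermat.Agent.S25.helper845_InvTilde
import Fermat.Agent.S25.helper2911_ProdChart
import Fermat.Agent.S25.helper2945_AlgDefs

set_option autoImplicit false

universe u
open CategoryTheory AlgebraicGeometry TensorProduct

namespace Fermat.Agent.S25.helper7490

noncomputable section

variable {X : Scheme.{u}} {R : CommRingCat.{u}}

/-- The canonical ring map `A → Γ(X, J(Spec A))` of an affine chart `J : Spec A ⟶ X`. -/
def chartHom (J : Spec R ⟶ X) [IsOpenImmersion J] : R →+* Γ(X, J ''ᵁ ⊤) :=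
  ((Scheme.ΓSpecIso R).inv ≫ (J.appIso ⊤).inv).hom

theorem chartHom_apply (J : Spec R ⟶ X) [IsOpenImmersion J] (a : R) :
    chartHom J a = (J.appIso ⊤).inv.hom ((Scheme.ΓSpecIso R).inv.hom a) := rfl

/-- The `A`-action on the global sections of `L|_{Spec A}` is the action of `chartHom J`. -/
theorem smul_restrict_top (J : Spec R ⟶ X) [IsOpenImmersion J] (L : X.Modules)
    (a : R) (x : Γ(L.restrict J, ⊤)) :
    (a • x : Γ(L.restrict J, ⊤)) = (chartHom J a • (show Γ(L, J ''ᵁ ⊤) from x) : Γ(L, J ''ᵁ ⊤)) := by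
  rw [Scheme.Modules.smul_Spec_def]
  have h := Scheme.Modules.smul_restrictAppIso_hom J L ⊤
    (((Spec R).presheaf.map (TopologicalSpace.Opens.leTop ⊤).op).hom
      ((Scheme.ΓSpecIso R).inv.hom a))
  have h2 := congr($(h).hom x)
  have h3 : ((Spec R).presheaf.map (TopologicalSpace.Opens.leTop (⊤ : (Spec R).Opens)).op) = 𝟙 _ :=
    (Spec R).presheaf.map_id _
  rw [h3] at h2 ⊢
  exact h2

/-- A module `M` over `R` with an additive identification with `Γ(L, J(Spec R))`, semilinear
along `chartHom J`, is the module of global sections of `L|_{Spec R}`. -/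
def sectionsLinearEquiv (J : Spec R ⟶ X) [IsOpenImmersion J] (L : X.Modules)
    (M : Type u) [AddCommGroup M] [Module R M]
    (e : M ≃+ Γ(L, J ''ᵁ ⊤)) (he : ∀ (a : R) (m : M), e (a • m) = chartHom J a • e m) :
    (moduleSpecΓFunctor.obj (L.restrict J)) ≃ₗ[R] M where
  toFun x := e.symm x
  invFun m := e m
  map_add' x y := e.symm.map_add x y
  map_smul' a x :=
    e.injective ((e.apply_symm_apply _).trans ((smul_restrict_top J L a x).trans
      ((he a (e.symm x)).trans (congrArg (fun t => chartHom J a • t) (e.apply_symm_apply x))).symm))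
  left_inv x := e.apply_symm_apply x
  right_inv m := e.symm_apply_apply m

/-- On an affine chart `J : Spec R ⟶ X`, the pullback of an invertible `L` is the tilde of any
`R`-module `M` that is identified, semilinearly along `chartHom J`, with `Γ(L, J(Spec R))`. -/
theorem nonempty_pullback_iso_tilde (J : Spec R ⟶ X) [IsOpenImmersion J] (L : X.Modules)
    (hL : Scheme.Modules.IsInvertible L)
    (M : Type u) [AddCommGroup M] [Module R M]
    (e : M ≃+ Γ(L, J ''ᵁ ⊤)) (he : ∀ (a : R) (m : M), e (a • m) = chartHom J a • e m) :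
    Nonempty ((Scheme.Modules.pullback J).obj L ≅ (tilde.functor R).obj (ModuleCat.of R M)) := by
  have hP : Scheme.Modules.IsInvertible ((Scheme.Modules.pullback J).obj L) := hL.pullback J
  have hiso := Fermat.Agent.S25.helper845.isIso_fromTildeΓ_of_isInvertible _ hP
  have i1 : L.restrict J ≅ (Scheme.Modules.pullback J).obj L :=
    (Scheme.Modules.restrictFunctorIsoPullback J).app L
  have i2 : (tilde.functor R).obj (moduleSpecΓFunctor.obj ((Scheme.Modules.pullback J).obj L)) ≅
      (Scheme.Modules.pullback J).obj L := @asIso _ _ _ _ _ hiso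
  have i3 : moduleSpecΓFunctor.obj (L.restrict J) ≅ ModuleCat.of R M :=
    (sectionsLinearEquiv J L M e he).toModuleIso
  exact ⟨i2.symm ≪≫ (tilde.functor R).mapIso (moduleSpecΓFunctor.mapIso i1.symm ≪≫ i3)⟩

section Unbundled

variable {A B : Type u} [CommRing A] [CommRing B] [Algebra A B]

/-- **Rigidification on a chart, sections form.** Let `J : Spec A ⟶ X` be an affine chart, `B` an
`A`-algebra and `σ = Spec (A → B) ≫ J`. For an invertible `L` on `X` and an `A`-module `M`
identified with `Γ(L, J(Spec A))` semilinearly along `chartHom J`: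
`σ^* L ≅ 𝒪_{Spec B}` iff `B ⊗[A] M ≃ₗ[B] B`. -/
theorem nonempty_pullback_iso_unit_iff_sections
    (J : Spec (CommRingCat.of A) ⟶ X) [IsOpenImmersion J]
    (σ : Spec (CommRingCat.of B) ⟶ X)
    (hσ : σ = Spec.map (CommRingCat.ofHom (algebraMap A B)) ≫ J)
    (L : X.Modules) (hL : Scheme.Modules.IsInvertible L)
    (M : Type u) [AddCommGroup M] [Module A M]
    (e : M ≃+ Γ(L, J ''ᵁ ⊤))
    (he : ∀ (a : A) (m : M), e (a • m) = chartHom (R := CommRingCat.of A) J a • e m) :
    Nonempty ((Scheme.Modules.pullback σ).obj L ≅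
        SheafOfModules.unit.{u} (Spec (CommRingCat.of B)).ringCatSheaf) ↔
      Nonempty ((B ⊗[A] M) ≃ₗ[B] B) := by
  obtain ⟨i⟩ := nonempty_pullback_iso_tilde (R := CommRingCat.of A) J L hL M e he
  exact Fermat.Agent.S25.helper5681.nonempty_pullback_iso_unit_iff_tensor M J σ hσ L i

end Unbundled

/-! ## Arbitrary name for the chart open and for the coordinate ring map -/

/-- A ring map `γ : R → Γ(X, J(Spec R))` whose pullback along `J` is the canonical identification
is `chartHom J`. -/
theorem eq_chartHom_of_appLE (J : Spec R ⟶ X) [IsOpenImmersion J]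
    (γ : R →+* Γ(X, J ''ᵁ ⊤)) (hle : ⊤ ≤ J ⁻¹ᵁ (J ''ᵁ ⊤))
    (hγ : ∀ a : R, (J.appLE (J ''ᵁ ⊤) ⊤ hle).hom (γ a) = (Scheme.ΓSpecIso R).inv.hom a) :
    γ = chartHom J := by
  ext a
  rw [chartHom_apply, ← hγ a]
  have h : J.appLE (J ''ᵁ ⊤) ⊤ hle = (J.appIso ⊤).hom := (J.appIso_hom' ⊤).symm
  rw [h]
  exact (congr($((J.appIso ⊤).hom_inv_id).hom (γ a))).symm

section Unbundled'

variable {A B : Type u} [CommRing A] [CommRing B] [Algebra A B]

/-- **Rigidification on a chart, sections form, any name for the chart open.**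
`U` is the image of the chart `J : Spec A ⟶ X`, `γ : A → Γ(X, U)` is the canonical coordinate
map (characterised by: pulled back along `J` it is `A ≅ Γ(Spec A, ⊤)`), and `M` is an `A`-module
identified with `Γ(L, U)` semilinearly along `γ`. -/
theorem nonempty_pullback_iso_unit_iff_sections_of_eq
    (J : Spec (CommRingCat.of A) ⟶ X) [IsOpenImmersion J]
    (σ : Spec (CommRingCat.of B) ⟶ X)
    (hσ : σ = Spec.map (CommRingCat.ofHom (algebraMap A B)) ≫ J)
    (L : X.Modules) (hL : Scheme.Modules.IsInvertible L)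
    (U : X.Opens) (hU : J ''ᵁ ⊤ = U) (hle : ⊤ ≤ J ⁻¹ᵁ U)
    (γ : A →+* Γ(X, U))
    (hγ : ∀ a : A, (J.appLE U ⊤ hle).hom (γ a) =
      (Scheme.ΓSpecIso (CommRingCat.of A)).inv.hom a)
    (M : Type u) [AddCommGroup M] [Module A M]
    (e : M ≃+ Γ(L, U)) (he : ∀ (a : A) (m : M), e (a • m) = γ a • e m) :
    Nonempty ((Scheme.Modules.pullback σ).obj L ≅
        SheafOfModules.unit.{u} (Spec (CommRingCat.of B)).ringCatSheaf) ↔
      Nonempty ((B ⊗[A] M) ≃ₗ[B] B) := by
  subst hU
  have hγ' : γ = chartHom (R := CommRingCat.of A) J :=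
    eq_chartHom_of_appLE (R := CommRingCat.of A) J γ hle hγ
  subst hγ'
  exact nonempty_pullback_iso_unit_iff_sections J σ hσ L hL M e he

end Unbundled'

/-! ## The dictionary entry `rig_iff` for a realization -/

section Real

open CategoryTheory.Limits AlgebraicGeometry.RelPicard NeronModelInfra Fermat.Agent.S25.helper1705
  Fermat.Agent.S25.helper2911 Fermat.Agent.S25.helper2945

variable {k : Type u} [Field k] {C : Scheme.{u}} {c : C ⟶ Spec (CommRingCat.of k)}
  {ε : SchemeHomOver (𝟙 (Spec (CommRingCat.of k))) c} {D : CurveDatum k}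
  (Rz : Realization c ε D) (B : Type u) [CommRing B] [Algebra k B]

/-- **`rig_iff`, Models-agnostic form.** Let `L` be an invertible module on `C ×ₖ Spec B` and let
`G` be a glue datum whose module `G.M₁` at infinity is identified with the sections of `L` over
the chart at infinity `U₁` (semilinearly along the canonical coordinate map
`γ₁ : R₁ ⊗[k] B → Γ(X, U₁)`). Then `L` is trivial along the rigidifying section iff `G.IsRig`. -/
theorem rigidified_iff_isRig_of_sections
    (L : (pullback c (specStr k B)).Modules) (hL : Scheme.Modules.IsInvertible L)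
    (G : GlueDatum D B)
    (U₁ : (pullback c (specStr k B)).Opens)
    (hU₁ : haveI := realChart₁_isOpenImmersion Rz B; (realChart₁ Rz B) ''ᵁ ⊤ = U₁)
    (hle : ⊤ ≤ (realChart₁ Rz B) ⁻¹ᵁ U₁)
    (γ₁ : D.A₁ B →+* Γ(pullback c (specStr k B), U₁))
    (hγ₁ : ∀ a : D.A₁ B, ((realChart₁ Rz B).appLE U₁ ⊤ hle).hom (γ₁ a) =
      (Scheme.ΓSpecIso (CommRingCat.of (D.A₁ B))).inv.hom a)
    (e₁ : G.M₁ ≃+ Γ(L, U₁)) (he₁ : ∀ (a : D.A₁ B) (m : G.M₁), e₁ (a • m) = γ₁ a • e₁ m) :
    Nonempty ((Scheme.Modules.pullback (rigSection c (specStr k B) ε)).obj L ≅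
        SheafOfModules.unit.{u} (Spec (CommRingCat.of B)).ringCatSheaf) ↔ G.IsRig := by
  have := realChart₁_isOpenImmersion Rz B
  letI := algE D B
  exact nonempty_pullback_iso_unit_iff_sections_of_eq (A := D.A₁ B) (B := B)
    (realChart₁ Rz B) (rigSection c (specStr k B) ε) (realChart₁_rigSection Rz B) L hL
    U₁ hU₁ hle γ₁ hγ₁ G.M₁ e₁ he₁

/-- **`rig_iff`, Models-agnostic form, with `U₁ := (realChart₁ Rz B).opensRange`.** -/
theorem rigidified_iff_isRig_of_sections_opensRange
    (L : (pullback c (specStr k B)).Modules) (hL : Scheme.Modules.IsInvertible L)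
    (G : GlueDatum D B)
    (hle : ⊤ ≤ (realChart₁ Rz B) ⁻¹ᵁ
      (@Scheme.Hom.opensRange _ _ (realChart₁ Rz B) (realChart₁_isOpenImmersion Rz B)))
    (γ₁ : D.A₁ B →+* Γ(pullback c (specStr k B),
      @Scheme.Hom.opensRange _ _ (realChart₁ Rz B) (realChart₁_isOpenImmersion Rz B)))
    (hγ₁ : ∀ a : D.A₁ B, ((realChart₁ Rz B).appLE _ ⊤ hle).hom (γ₁ a) =
      (Scheme.ΓSpecIso (CommRingCat.of (D.A₁ B))).inv.hom a)
    (e₁ : G.M₁ ≃+ Γ(L, @Scheme.Hom.opensRange _ _ (realChart₁ Rz B)
      (realChart₁_isOpenImmersion Rz B)))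
    (he₁ : ∀ (a : D.A₁ B) (m : G.M₁), e₁ (a • m) = γ₁ a • e₁ m) :
    Nonempty ((Scheme.Modules.pullback (rigSection c (specStr k B) ε)).obj L ≅
        SheafOfModules.unit.{u} (Spec (CommRingCat.of B)).ringCatSheaf) ↔ G.IsRig :=
  rigidified_iff_isRig_of_sections Rz B L hL G _
    (@Scheme.Hom.image_top_eq_opensRange _ _ (realChart₁ Rz B) (realChart₁_isOpenImmersion Rz B))
    hle γ₁ hγ₁ e₁ he₁

end Real

end

end Fermat.Agent.S25.helper7490
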