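/-
S25, leaf U16 (helper7490, registered backup): the field `rig_iff` of the dictionary,
`helper7939.Stmt_RigIff R`, for the opens-form `Models` of `helper7939_Models`.

Proof: `helper7490.rigidified_iff_isRig_of_sections` (sections form of the rigidification
criterion on the chart at infinity) applied to `e₁.symm : G.M₁ ≃+ Γ(L, U₁)` and the coordinate
map `γ₁.symm : R₁ ⊗[k] B → Γ(X, U₁)`.
-/
import Fermat.Agent.S25.helper7490_RigSections
import Fermat.Agent.S25.helper7939_Models

set_option autoImplicit false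

universe u
open CategoryTheory CategoryTheory.Limits AlgebraicGeometry TensorProduct

namespace Fermat.Agent.S25.helper7490

open AlgebraicGeometry.RelPicard NeronModelInfra Fermat.Agent.S25.helper1705
  Fermat.Agent.S25.helper2911 Fermat.Agent.S25.helper2945 Fermat.Agent.S25.helper7939

variable {k : Type u} [Field k] {C : Scheme.{u}} {c : C ⟶ Spec (CommRingCat.of k)}
  {ε : SchemeHomOver (𝟙 (Spec (CommRingCat.of k))) c} {D : CurveDatum k}

/-- **Field `rig_iff` of the dictionary (leaf U16)** for the opens-form `Models` of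
`helper7939_Models`. -/
theorem stmt_RigIff (R : Realization c ε D) : Stmt_RigIff R := by
  intro B _ _ L G hM
  obtain ⟨hL, ⟨S⟩⟩ := hM
  have hle : (⊤ : (Spec (CommRingCat.of (D.A₁ B))).Opens) ≤ (realChart₁ R B) ⁻¹ᵁ (U₁ R B) :=
    top_le_preimage_opensRange (realChart₁ R B)
  refine rigidified_iff_isRig_of_sections R B L hL G (U₁ R B)
    (Scheme.Hom.image_top_eq_opensRange (realChart₁ R B)) hle
    ((γ₁ R B).symm : D.A₁ B →+* _) ?_ S.e₁.symm ?_
  · intro a
    have h1 : γ₁ R B ((γ₁ R B).symm a) = a := (γ₁ R B).apply_symm_apply a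
    have h2 : γ₁ R B ((γ₁ R B).symm a) = (Scheme.ΓSpecIso (CommRingCat.of (D.A₁ B))).hom.hom
        (((realChart₁ R B).appLE (U₁ R B) ⊤ hle).hom ((γ₁ R B).symm a)) := rfl
    rw [h2] at h1
    have h3 := congrArg (Scheme.ΓSpecIso (CommRingCat.of (D.A₁ B))).inv.hom h1
    rw [← h3]
    exact (congr($((Scheme.ΓSpecIso (CommRingCat.of (D.A₁ B))).hom_inv_id).hom
      (((realChart₁ R B).appLE (U₁ R B) ⊤ hle).hom ((γ₁ R B).symm a)))).symm
  · intro a m
    apply S.e₁.injective
    rw [AddEquiv.apply_symm_apply]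
    refine ((S.smul₁ ((γ₁ R B).symm a) (S.e₁.symm m)).trans ?_).symm
    rw [RingEquiv.apply_symm_apply, AddEquiv.apply_symm_apply]

end Fermat.Agent.S25.helper7490
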