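/-
S25, layer LB: assembly of the dictionary (`helper1705.Stmt_Dict`) from its six fields, stated
against the opens-form `Models` of `helper7939_Models`.
-/
import Fermat.Agent.S25.helper7939_Models
import Fermat.Agent.S25.helper1705_Spec3

set_option autoImplicit false

universe u

open CategoryTheory CategoryTheory.Limits AlgebraicGeometry Opposite
open AlgebraicGeometry.RelPicard NeronModelInfra Fermat.Agent.S25.helper1705
  Fermat.Agent.S25.helper2911 Fermat.Agent.S25.helper2945

namespace Fermat.Agent.S25.helper7939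

noncomputable section

variable {k : Type u} [Field k] {C : Scheme.{u}} {c : C ⟶ Spec (CommRingCat.of k)}
  {ε : SchemeHomOver (𝟙 (Spec (CommRingCat.of k))) c} {D : CurveDatum k}

/-- The dictionary of a realization, from the six field statements. -/
def dictionaryOf (R : Realization c ε D) (h1 : Stmt_ExistsModel R) (h2 : Stmt_ExistsSheaf R)
    (h3 : Stmt_IsoIff R) (h4 : Stmt_BaseChange R) (h5 : Stmt_RigIff R) (h6 : Stmt_Unit R) :
    Dictionary c ε D where
  Models _ _ _ L G := Models R L G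
  exists_model B _ _ L hL := h1 B L hL
  exists_sheaf B _ _ G := h2 B G
  iso_iff B _ _ {L L' G G'} hL hL' := h3 B L L' G G' hL hL'
  models_baseChange {B B'} _ _ _ _ φ {L G} hL := h4 B B' φ L G hL
  rig_iff B _ _ {L G} hL := h5 B L G hL
  models_unit B _ _ := h6 B

/-- **Stmt_Dict** from the six field statements (for every realization). -/
theorem stmt_Dict_of
    (h1 : ∀ (k : Type u) [Field k] {C : Scheme.{u}} (c : C ⟶ Spec (CommRingCat.of k))
      (ε : SchemeHomOver (𝟙 (Spec (CommRingCat.of k))) c) (D : CurveDatum k)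
      (R : Realization c ε D), Stmt_ExistsModel R)
    (h2 : ∀ (k : Type u) [Field k] {C : Scheme.{u}} (c : C ⟶ Spec (CommRingCat.of k))
      (ε : SchemeHomOver (𝟙 (Spec (CommRingCat.of k))) c) (D : CurveDatum k)
      (R : Realization c ε D), Stmt_ExistsSheaf R)
    (h3 : ∀ (k : Type u) [Field k] {C : Scheme.{u}} (c : C ⟶ Spec (CommRingCat.of k))
      (ε : SchemeHomOver (𝟙 (Spec (CommRingCat.of k))) c) (D : CurveDatum k)
      (R : Realization c ε D), Stmt_IsoIff R)
    (h4 : ∀ (k : Type u) [Field k] {C : Scheme.{u}} (c : C ⟶ Spec (CommRingCat.of k))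
      (ε : SchemeHomOver (𝟙 (Spec (CommRingCat.of k))) c) (D : CurveDatum k)
      (R : Realization c ε D), Stmt_BaseChange R)
    (h5 : ∀ (k : Type u) [Field k] {C : Scheme.{u}} (c : C ⟶ Spec (CommRingCat.of k))
      (ε : SchemeHomOver (𝟙 (Spec (CommRingCat.of k))) c) (D : CurveDatum k)
      (R : Realization c ε D), Stmt_RigIff R)
    (h6 : ∀ (k : Type u) [Field k] {C : Scheme.{u}} (c : C ⟶ Spec (CommRingCat.of k))
      (ε : SchemeHomOver (𝟙 (Spec (CommRingCat.of k))) c) (D : CurveDatum k)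
      (R : Realization c ε D), Stmt_Unit R) :
    Stmt_Dict.{u} := fun k _ _ c ε D R =>
  ⟨dictionaryOf R (h1 k c ε D R) (h2 k c ε D R) (h3 k c ε D R) (h4 k c ε D R) (h5 k c ε D R)
    (h6 k c ε D R)⟩

/-! ### The `unit` field -/

/-- The structure sheaf is modelled by the unit datum: the three `γ`'s themselves. -/
def secIsoUnit (R : Realization c ε D) (B : Type u) [CommRing B] [Algebra k B] :
    SecIso R (SheafOfModules.unit (pullback c (specStr k B)).ringCatSheaf)
      (GlueDatum.unit D B) where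
  e₀ := (γ₀ R B).toAddEquiv
  e₁ := (γ₁ R B).toAddEquiv
  e₀₁ := (γ₀₁ R B).toAddEquiv
  smul₀ r s := map_mul (γ₀ R B) r s
  smul₁ r s := map_mul (γ₁ R B) r s
  smul₀₁ r s := map_mul (γ₀₁ R B) r s
  comm₀ s := γ₀₁_res₀ R B s
  comm₁ s := γ₀₁_res₁ R B s

/-- Field `unit` of the dictionary. -/
theorem stmt_Unit (R : Realization c ε D) : Stmt_Unit R := fun B _ _ =>
  ⟨Scheme.Modules.isInvertible_unit _, ⟨secIsoUnit R B⟩⟩

/-- **Stmt_Dict** from the five remaining field statements. -/
theorem stmt_Dict_of_five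
    (h1 : ∀ (k : Type u) [Field k] {C : Scheme.{u}} (c : C ⟶ Spec (CommRingCat.of k))
      (ε : SchemeHomOver (𝟙 (Spec (CommRingCat.of k))) c) (D : CurveDatum k)
      (R : Realization c ε D), Stmt_ExistsModel R)
    (h2 : ∀ (k : Type u) [Field k] {C : Scheme.{u}} (c : C ⟶ Spec (CommRingCat.of k))
      (ε : SchemeHomOver (𝟙 (Spec (CommRingCat.of k))) c) (D : CurveDatum k)
      (R : Realization c ε D), Stmt_ExistsSheaf R)
    (h3 : ∀ (k : Type u) [Field k] {C : Scheme.{u}} (c : C ⟶ Spec (CommRingCat.of k))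
      (ε : SchemeHomOver (𝟙 (Spec (CommRingCat.of k))) c) (D : CurveDatum k)
      (R : Realization c ε D), Stmt_IsoIff R)
    (h4 : ∀ (k : Type u) [Field k] {C : Scheme.{u}} (c : C ⟶ Spec (CommRingCat.of k))
      (ε : SchemeHomOver (𝟙 (Spec (CommRingCat.of k))) c) (D : CurveDatum k)
      (R : Realization c ε D), Stmt_BaseChange R)
    (h5 : ∀ (k : Type u) [Field k] {C : Scheme.{u}} (c : C ⟶ Spec (CommRingCat.of k))
      (ε : SchemeHomOver (𝟙 (Spec (CommRingCat.of k))) c) (D : CurveDatum k)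
      (R : Realization c ε D), Stmt_RigIff R) :
    Stmt_Dict.{u} :=
  stmt_Dict_of h1 h2 h3 h4 h5 (fun _ _ _ _ _ _ R => stmt_Unit R)

end

end Fermat.Agent.S25.helper7939
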