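/-
S25, layer LB: the root `helper1705.Stmt_Dict`, reduced to the dictionary fields that are not
yet on main.  Fields already proved and imported here:
* `Stmt_Unit`   — `helper7939.stmt_Unit`
* `Stmt_RigIff` — `helper7490.stmt_RigIff`
* `Stmt_IsoIff` — `helper3484.stmt_IsoIff`
-/
import Fermat.Agent.S25.helper7939_Dict
import Fermat.Agent.S25.helper7490_RigIff
import Fermat.Agent.S25.helper3484_StmtIsoIff

set_option autoImplicit false

universe u

open CategoryTheory CategoryTheory.Limits AlgebraicGeometry Opposite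
open AlgebraicGeometry.RelPicard NeronModelInfra Fermat.Agent.S25.helper1705
  Fermat.Agent.S25.helper2911 Fermat.Agent.S25.helper2945

namespace Fermat.Agent.S25.helper7939

/-- **Stmt_Dict** from the three field statements still open (`ExistsModel`, `ExistsSheaf`,
`BaseChange`). -/
theorem stmt_Dict_of_three
    (h1 : ∀ (k : Type u) [Field k] {C : Scheme.{u}} (c : C ⟶ Spec (CommRingCat.of k))
      (ε : SchemeHomOver (𝟙 (Spec (CommRingCat.of k))) c) (D : CurveDatum k)
      (R : Realization c ε D), Stmt_ExistsModel R)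
    (h2 : ∀ (k : Type u) [Field k] {C : Scheme.{u}} (c : C ⟶ Spec (CommRingCat.of k))
      (ε : SchemeHomOver (𝟙 (Spec (CommRingCat.of k))) c) (D : CurveDatum k)
      (R : Realization c ε D), Stmt_ExistsSheaf R)
    (h4 : ∀ (k : Type u) [Field k] {C : Scheme.{u}} (c : C ⟶ Spec (CommRingCat.of k))
      (ε : SchemeHomOver (𝟙 (Spec (CommRingCat.of k))) c) (D : CurveDatum k)
      (R : Realization c ε D), Stmt_BaseChange R) :
    Stmt_Dict.{u} :=
  stmt_Dict_of_five h1 h2 (fun _ _ _ _ _ _ R => Fermat.Agent.S25.helper3484.stmt_IsoIff R) h4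
    (fun _ _ _ _ _ _ R => Fermat.Agent.S25.helper7490.stmt_RigIff R)

end Fermat.Agent.S25.helper7939
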