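import Fermat.Agent.S25.helper845_ChartModel
import Fermat.Agent.S25.helper7939_Models

/-!
# S25, layer LB: the field `exists_model` of the two-chart dictionary (helper845)

For an invertible module `L` on `C ×ₖ Spec B` the sections of `L` over the three chart opens,
with the module structures transported along `γ₀`, `γ₁`, `γ₀₁` and the restriction maps, form a
`GlueDatum` which models `L`.
-/

set_option autoImplicit false

open CategoryTheory CategoryTheory.Limits AlgebraicGeometry Opposite

namespace Fermat.Agent.S25.helper845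

universe u

open Fermat.Agent.S25.helper7939 in
/-- The basic open of a function on the range of an affine chart is the image of the
corresponding basic open of the chart. -/
theorem basicOpen_eq_image_bo {X : Scheme.{u}} {A : CommRingCat.{u}} (J : Spec A ⟶ X)
    [IsOpenImmersion J] (f : Γ(X, J.opensRange)) :
    X.basicOpen f = J ''ᵁ (bo ((chartRingHom J).hom f)) := by
  have h1 : X.basicOpen f = J ''ᵁ (J ⁻¹ᵁ X.basicOpen f) := by
    rw [J.image_preimage_eq_opensRange_inf]
    exact (inf_eq_right.mpr (X.basicOpen_le f)).symm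
  rw [h1]
  congr 1
  rw [Scheme.preimage_basicOpen]
  have h2 : (Spec A).basicOpen ((Spec A).presheaf.map
      (homOfLE (top_le_preimage_opensRange J)).op (J.app _ f)) =
      (Spec A).basicOpen (J.app _ f) := by
    rw [Scheme.basicOpen_res]
    exact top_inf_eq _
  rw [← h2, basicOpen_eq_of_affine']
  rfl

section Overlap

open AlgebraicGeometry.RelPicard NeronModelInfra Fermat.Agent.S25.helper1705
  Fermat.Agent.S25.helper2911 Fermat.Agent.S25.helper2945 Fermat.Agent.S25.helper7939

variable {k : Type u} [Field k] {C : Scheme.{u}} {c : C ⟶ Spec (CommRingCat.of k)}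
  {ε : SchemeHomOver (𝟙 (Spec (CommRingCat.of k))) c} {D : CurveDatum k}
  (R : Realization c ε D) (B : Type u) [CommRing B] [Algebra k B]

instance isOpenImmersion_res₀ :
    IsOpenImmersion (Spec.map (CommRingCat.ofHom (D.res₀ B).toRingHom)) :=
  IsOpenImmersion.of_isLocalization (S := D.A₀₁ B) (xB D B)

instance isOpenImmersion_res₁ :
    IsOpenImmersion (Spec.map (CommRingCat.ofHom (D.res₁ B).toRingHom)) :=
  IsOpenImmersion.of_isLocalization (S := D.A₀₁ B) (yB D B)

/-- The range of the overlap chart inside the first chart is `D(x)`. -/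
theorem opensRange_res₀ :
    (Spec.map (CommRingCat.ofHom (D.res₀ B).toRingHom)).opensRange =
      (bo (R := CommRingCat.of (D.A₀ B)) (xB D B)) := by
  rw [SetLike.ext'_iff]
  exact PrimeSpectrum.localization_away_comap_range (D.A₀₁ B) (xB D B)

/-- The range of the overlap chart inside the chart at infinity is `D(y)`. -/
theorem opensRange_res₁ :
    (Spec.map (CommRingCat.ofHom (D.res₁ B).toRingHom)).opensRange =
      (bo (R := CommRingCat.of (D.A₁ B)) (yB D B)) := by
  rw [SetLike.ext'_iff]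
  exact PrimeSpectrum.localization_away_comap_range (D.A₀₁ B) (yB D B)

/-- The overlap of the two chart opens is the basic open of `x` in the first chart. -/
theorem U₀₁_eq_basicOpen₀ :
    U₀₁ R B = (pullback c (specStr k B)).basicOpen ((γ₀ R B).symm (xB D B)) := by
  have h := basicOpen_eq_image_bo (realChart₀ R B) ((γ₀ R B).symm (xB D B))
  have hx : (chartRingHom (realChart₀ R B)).hom ((γ₀ R B).symm (xB D B)) = xB D B :=
    (γ₀ R B).apply_symm_apply _
  rw [hx] at h
  refine Eq.trans ?_ h.symm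
  rw [← opensRange_realChart₀₁, ← opensRange_res₀]
  exact Scheme.Hom.opensRange_comp _ _

/-- The overlap of the two chart opens is the basic open of `y` in the chart at infinity. -/
theorem U₀₁_eq_basicOpen₁ :
    U₀₁ R B = (pullback c (specStr k B)).basicOpen ((γ₁ R B).symm (yB D B)) := by
  have h := basicOpen_eq_image_bo (realChart₁ R B) ((γ₁ R B).symm (yB D B))
  have hy : (chartRingHom (realChart₁ R B)).hom ((γ₁ R B).symm (yB D B)) = yB D B :=
    (γ₁ R B).apply_symm_apply _
  rw [hy] at h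
  refine Eq.trans ?_ h.symm
  rw [← opensRange_realChart₀₁, ← opensRange_res₁]
  have e : (realChart₀₁ R B).opensRange =
      (Spec.map (CommRingCat.ofHom (D.res₁ B).toRingHom) ≫ realChart₁ R B).opensRange :=
    TopologicalSpace.Opens.ext (by rw [Scheme.Hom.coe_opensRange, Scheme.Hom.coe_opensRange,
      realChart₀₁_eq₁])
  rw [e]
  exact Scheme.Hom.opensRange_comp _ _

theorem U₀₁_le_U₀ : U₀₁ R B ≤ U₀ R B := inf_le_left

theorem U₀₁_le_U₁ : U₀₁ R B ≤ U₁ R B := inf_le_right

/-- Restriction of functions to the overlap, in terms of the `γ`'s (first chart). -/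
theorem res_γ₀_symm (a : D.A₀ B) :
    (pullback c (specStr k B)).presheaf.map (homOfLE (U₀₁_le_U₀ R B)).op
      ((γ₀ R B).symm a) = (γ₀₁ R B).symm (D.res₀ B a) := by
  apply (γ₀₁ R B).injective
  rw [RingEquiv.apply_symm_apply]
  exact (γ₀₁_res₀ R B _).trans (by rw [RingEquiv.apply_symm_apply])

/-- Restriction of functions to the overlap, in terms of the `γ`'s (chart at infinity). -/
theorem res_γ₁_symm (a : D.A₁ B) :
    (pullback c (specStr k B)).presheaf.map (homOfLE (U₀₁_le_U₁ R B)).op
      ((γ₁ R B).symm a) = (γ₀₁ R B).symm (D.res₁ B a) := by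
  apply (γ₀₁ R B).injective
  rw [RingEquiv.apply_symm_apply]
  exact (γ₀₁_res₁ R B _).trans (by rw [RingEquiv.apply_symm_apply])

variable (L : (pullback c (specStr k B)).Modules)

/-- The `GlueDatum` of sections of an invertible module on `C ×ₖ Spec B` over the three chart
opens. -/
noncomputable def sectionsDatum (hL : Scheme.Modules.IsInvertible L) : GlueDatum D B :=
  letI m₀ : Module (D.A₀ B) Γ(L, U₀ R B) := Module.compHom _ (γ₀ R B).symm.toRingHom
  letI m₁ : Module (D.A₁ B) Γ(L, U₁ R B) := Module.compHom _ (γ₁ R B).symm.toRingHom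
  letI m₀₁ : Module (D.A₀₁ B) Γ(L, U₀₁ R B) := Module.compHom _ (γ₀₁ R B).symm.toRingHom
  letI m₀_₀₁ : Module (D.A₀ B) Γ(L, U₀₁ R B) :=
    Module.compHom _ (algebraMap (D.A₀ B) (D.A₀₁ B))
  letI m₁_₀₁ : Module (D.A₁ B) Γ(L, U₀₁ R B) :=
    Module.compHom _ (algebraMap (D.A₁ B) (D.A₀₁ B))
  haveI t₀ : IsScalarTower (D.A₀ B) (D.A₀₁ B) Γ(L, U₀₁ R B) :=
    IsScalarTower.of_algebraMap_smul fun _ _ => rfl
  haveI t₁ : IsScalarTower (D.A₁ B) (D.A₀₁ B) Γ(L, U₀₁ R B) :=
    IsScalarTower.of_algebraMap_smul fun _ _ => rfl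
  have he₀ : ∀ (a : D.A₀ B) (m : Γ(L, U₀₁ R B)),
      a • m = (pullback c (specStr k B)).presheaf.map
        (homOfLE (U₀₁_le_U₀ R B)).op ((γ₀ R B).symm a) • m := by
    intro a m
    rw [res_γ₀_symm]
    rfl
  have he₁ : ∀ (a : D.A₁ B) (m : Γ(L, U₀₁ R B)),
      a • m = (pullback c (specStr k B)).presheaf.map
        (homOfLE (U₀₁_le_U₁ R B)).op ((γ₁ R B).symm a) • m := by
    intro a m
    rw [res_γ₁_symm]
    rfl
  let ρ₀ : Γ(L, U₀ R B) →ₗ[D.A₀ B] Γ(L, U₀₁ R B) :=
    { toFun := fun s => L.presheaf.map (homOfLE (U₀₁_le_U₀ R B)).op s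
      map_add' := fun s s' => map_add _ s s'
      map_smul' := fun a s => by
        change L.presheaf.map (homOfLE (U₀₁_le_U₀ R B)).op
          ((γ₀ R B).symm a • s) = a • L.presheaf.map (homOfLE (U₀₁_le_U₀ R B)).op s
        rw [he₀]
        exact Scheme.Modules.map_smul L (homOfLE (U₀₁_le_U₀ R B)) _ s }
  let ρ₁ : Γ(L, U₁ R B) →ₗ[D.A₁ B] Γ(L, U₀₁ R B) :=
    { toFun := fun s => L.presheaf.map (homOfLE (U₀₁_le_U₁ R B)).op s
      map_add' := fun s s' => map_add _ s s'
      map_smul' := fun a s => by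
        change L.presheaf.map (homOfLE (U₀₁_le_U₁ R B)).op
          ((γ₁ R B).symm a • s) = a • L.presheaf.map (homOfLE (U₀₁_le_U₁ R B)).op s
        rw [he₁]
        exact Scheme.Modules.map_smul L (homOfLE (U₀₁_le_U₁ R B)) _ s }
  { M₀ := Γ(L, U₀ R B)
    M₁ := Γ(L, U₁ R B)
    M₀₁ := Γ(L, U₀₁ R B)
    module₀ := m₀
    module₁ := m₁
    module₀₁ := m₀₁
    module₀_₀₁ := m₀_₀₁
    module₁_₀₁ := m₁_₀₁
    tower₀ := t₀
    tower₁ := t₁
    ρ₀ := ρ₀
    ρ₁ := ρ₁
    loc₀ := isLocalizedModule_of_sections L (isAffineOpen_U₀ R B) (γ₀ R B).symm hL (xB D B)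
      (U₀₁_eq_basicOpen₀ R B) (U₀₁_le_U₀ R B) (AddEquiv.refl _) (fun _ _ => rfl)
      (AddEquiv.refl _) he₀ ρ₀ (fun _ => rfl)
    loc₁ := isLocalizedModule_of_sections L (isAffineOpen_U₁ R B) (γ₁ R B).symm hL (yB D B)
      (U₀₁_eq_basicOpen₁ R B) (U₀₁_le_U₁ R B) (AddEquiv.refl _) (fun _ _ => rfl)
      (AddEquiv.refl _) he₁ ρ₁ (fun _ => rfl)
    inv₀ := invertible_of_sections L (isAffineOpen_U₀ R B) (γ₀ R B).symm hL
      (AddEquiv.refl _) (fun _ _ => rfl)
    inv₁ := invertible_of_sections L (isAffineOpen_U₁ R B) (γ₁ R B).symm hL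
      (AddEquiv.refl _) (fun _ _ => rfl) }

/-- The sections datum models `L` (identity maps). -/
noncomputable def secIsoSections (hL : Scheme.Modules.IsInvertible L) :
    SecIso R L (sectionsDatum R B L hL) where
  e₀ := AddEquiv.refl _
  e₁ := AddEquiv.refl _
  e₀₁ := AddEquiv.refl _
  smul₀ r s := by
    change r • s = (γ₀ R B).symm (γ₀ R B r) • s
    rw [RingEquiv.symm_apply_apply]
  smul₁ r s := by
    change r • s = (γ₁ R B).symm (γ₁ R B r) • s
    rw [RingEquiv.symm_apply_apply]
  smul₀₁ r s := by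
    change r • s = (γ₀₁ R B).symm (γ₀₁ R B r) • s
    rw [RingEquiv.symm_apply_apply]
  comm₀ _ := rfl
  comm₁ _ := rfl

end Overlap

section Main

open AlgebraicGeometry.RelPicard NeronModelInfra Fermat.Agent.S25.helper1705
  Fermat.Agent.S25.helper2911 Fermat.Agent.S25.helper2945 Fermat.Agent.S25.helper7939

variable {k : Type u} [Field k] {C : Scheme.{u}} {c : C ⟶ Spec (CommRingCat.of k)}
  {ε : SchemeHomOver (𝟙 (Spec (CommRingCat.of k))) c} {D : CurveDatum k}

/-- **Field `exists_model` of the two-chart dictionary**: every invertible module on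
`C ×ₖ Spec B` is modelled by a `GlueDatum` (its sections over the three chart opens). -/
theorem stmt_ExistsModel (R : Realization c ε D) : Stmt_ExistsModel R :=
  fun B _ _ L hL => ⟨sectionsDatum R B L hL, hL, ⟨secIsoSections R B L hL⟩⟩

end Main

end Fermat.Agent.S25.helper845
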