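/-
S25, layer LB: the root `helper1705.Stmt_Dict`, reduced to its LAST field not yet on main
(`Stmt_ExistsSheaf`, leaf U14).  Fields proved on main and imported here:
* `Stmt_Unit`        — `helper7939.stmt_Unit`
* `Stmt_RigIff`      — `helper7490.stmt_RigIff`
* `Stmt_IsoIff`      — `helper3484.stmt_IsoIff`
* `Stmt_ExistsModel` — `helper845.stmt_ExistsModel`
* `Stmt_BaseChange`  — `helper263.stmt_BaseChange`
-/
import Fermat.Agent.S25.helper7939_StmtDict
import Fermat.Agent.S25.helper845_ExistsModel
import Fermat.Agent.S25.helper263_StmtBaseChange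

set_option autoImplicit false

universe u

open CategoryTheory CategoryTheory.Limits AlgebraicGeometry Opposite
open AlgebraicGeometry.RelPicard NeronModelInfra Fermat.Agent.S25.helper1705
  Fermat.Agent.S25.helper2911 Fermat.Agent.S25.helper2945

namespace Fermat.Agent.S25.helper7939

/-- **Stmt_Dict** from the single field statement still missing (`ExistsSheaf`). -/
theorem stmt_Dict_of_existsSheaf
    (h2 : ∀ (k : Type u) [Field k] {C : Scheme.{u}} (c : C ⟶ Spec (CommRingCat.of k))
      (ε : SchemeHomOver (𝟙 (Spec (CommRingCat.of k))) c) (D : CurveDatum k)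
      (R : Realization c ε D), Stmt_ExistsSheaf R) :
    Stmt_Dict.{u} :=
  stmt_Dict_of_three (fun _ _ _ _ _ _ R => Fermat.Agent.S25.helper845.stmt_ExistsModel R) h2
    (fun _ _ _ _ _ _ R => Fermat.Agent.S25.helper263.stmt_BaseChange R)

end Fermat.Agent.S25.helper7939
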