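import Fermat.Agent.S25.helper9577_ExistsSheafOf
import Fermat.Agent.S25.helper263_GlueSections
import Fermat.Agent.S25.helper7939_StmtDict2

/-!
S25, layer LB: the last dictionary field `Stmt_ExistsSheaf` (leaf U14) and the root `Stmt_Dict`.

* `stmt_GlueSections : helper9577.Stmt_GlueSections` — the chart-level sections statement,
  from `helper263.glueSections_tilde`.
* `stmt_ExistsSheaf R : helper7939.Stmt_ExistsSheaf R` — via `helper9577.stmt_ExistsSheaf_of`.
* `stmt_Dict : helper1705.Stmt_Dict` — via `helper7939.stmt_Dict_of_existsSheaf`.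
-/

set_option autoImplicit false

universe u

open CategoryTheory CategoryTheory.Limits AlgebraicGeometry
open AlgebraicGeometry.RelPicard NeronModelInfra Fermat.Agent.S25.helper1705
  Fermat.Agent.S25.helper2911 Fermat.Agent.S25.helper2945

namespace Fermat.Agent.S25.helper263

/-- The chart-level sections statement of the two-chart gluing of tildes. -/
theorem stmt_GlueSections : helper9577.Stmt_GlueSections.{u} :=
  fun hpb N₀ N₁ N₀₁ ρ₀ ρ₁ x y h₀ h₁ => glueSections_tilde hpb N₀ N₁ N₀₁ ρ₀ ρ₁ x y h₀ h₁

variable {k : Type u} [Field k] {C : Scheme.{u}} {c : C ⟶ Spec (CommRingCat.of k)}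
  {ε : SchemeHomOver (𝟙 (Spec (CommRingCat.of k))) c} {D : CurveDatum k}

/-- **Field `exists_sheaf` of the dictionary (leaf U14)**: every two-chart gluing datum is
modelled by an invertible module on `C ×ₖ Spec B`. -/
theorem stmt_ExistsSheaf (R : Realization c ε D) : helper7939.Stmt_ExistsSheaf R :=
  helper9577.stmt_ExistsSheaf_of stmt_GlueSections R

/-- **Root `Stmt_Dict`**: every realization of a curve datum carries a dictionary. -/
theorem stmt_Dict : Stmt_Dict.{u} :=
  helper7939.stmt_Dict_of_existsSheaf (fun _ _ _ _ _ _ R => stmt_ExistsSheaf R)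

end Fermat.Agent.S25.helper263
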