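import Mathlib

/-!
# S25, leaf UV: uniform vanishing of `H¹` under twisting, over an algebraically closed field

Setting (lattice form of a two-chart bundle on a curve finite over `ℙ¹`, over a field `K`):
`N` is the `K`-space of sections over the overlap, `T : N ≃ₗ[K] N` is multiplication by the
coordinate `x`, `Λ₀` (sections over the chart where `x` is finite) is stable under `T`,
`Λ₁` (sections over the chart at infinity) is stable under `T⁻¹`, and every element of `N`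
is moved into `Λ₀` by a power of `T`.  The first cohomology of the `m`-th twist is
`N ⧸ (Λ₀ ⊔ T^m Λ₁)`.

Main results (no duality, no splitting theorem):

* `pencil_finrank_lt` : a pencil `τ - c • ι` of surjections out of a nonzero finite-dimensional
  space over an algebraically closed field strictly drops the dimension;
* `finrank_quotient_twistSup_succ_lt` : `h¹` strictly decreases under one twist as long as it
  is nonzero;
* `twistSup_eq_top` : `H¹` of the `m`-th twist vanishes for every `m ≥ m₀ + h¹(m₀)`.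

Only Mathlib is imported.
-/

set_option autoImplicit false

namespace Fermat.Agent.S25.helper8622

open Module

section Pencil

variable {K : Type*} [Field K] [IsAlgClosed K]
variable {V W : Type*} [AddCommGroup V] [Module K V] [AddCommGroup W] [Module K W]

/-- **Pencil lemma.** Let `ι, τ : V → W` be linear maps out of a nonzero finite-dimensional
space over an algebraically closed field such that `ι` and all `τ - c • ι` are surjective.
Then `dim W < dim V`. -/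
theorem pencil_finrank_lt [FiniteDimensional K V] [Nontrivial V] (ι τ : V →ₗ[K] W)
    (hι : Function.Surjective ι) (hτ : ∀ c : K, Function.Surjective (τ - c • ι)) :
    finrank K W < finrank K V := by
  have : FiniteDimensional K W := Module.Finite.of_surjective ι hι
  have hle : finrank K W ≤ finrank K V := LinearMap.finrank_le_finrank_of_surjective hι
  by_contra hlt
  have heq : finrank K V = finrank K W := by omega
  have hιinj : Function.Injective ι :=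
    (LinearMap.injective_iff_surjective_of_finrank_eq_finrank heq).mpr hι
  let e : V ≃ₗ[K] W := LinearEquiv.ofBijective ι ⟨hιinj, hι⟩
  let f : Module.End K V := e.symm.toLinearMap ∘ₗ τ
  obtain ⟨c, hc⟩ := Module.End.exists_eigenvalue f
  obtain ⟨v, hv⟩ := hc.exists_hasEigenvector
  have hinj : Function.Injective (τ - c • ι) :=
    (LinearMap.injective_iff_surjective_of_finrank_eq_finrank heq).mpr (hτ c)
  have h1 : f v = c • v := hv.apply_eq_smul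
  have h2 : τ v = ι (c • v) := by
    have h3 : e (f v) = e (c • v) := congrArg e h1
    have h5 : e (f v) = τ v := by simp [f]
    rw [h5] at h3
    exact h3
  have h4 : (τ - c • ι) v = (τ - c • ι) 0 := by
    simp [h2]
  exact hv.2 (hinj h4)

end Pencil

section Lattice

variable {K : Type*} [Field K] {N : Type*} [AddCommGroup N] [Module K N]

/-- `Λ₀ ⊔ T^m Λ₁`: the sum of the two lattices of the `m`-th twist; the first cohomology of the
`m`-th twist is `N ⧸ twistSup T Λ₀ Λ₁ m`. -/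
def twistSup (T : N ≃ₗ[K] N) (Λ₀ Λ₁ : Submodule K N) (m : ℤ) : Submodule K N :=
  Λ₀ ⊔ Λ₁.map ((T ^ m : N ≃ₗ[K] N) : N →ₗ[K] N)

variable (T : N ≃ₗ[K] N) (Λ₀ Λ₁ : Submodule K N)

theorem le_twistSup (m : ℤ) : Λ₀ ≤ twistSup T Λ₀ Λ₁ m := le_sup_left

theorem twistSup_le_succ (h₁ : ∀ z ∈ Λ₁, T.symm z ∈ Λ₁) (m : ℤ) :
    twistSup T Λ₀ Λ₁ m ≤ twistSup T Λ₀ Λ₁ (m + 1) := by
  refine sup_le le_sup_left ?_
  rintro _ ⟨z, hz, rfl⟩
  refine Submodule.mem_sup_right ⟨T.symm z, h₁ z hz, ?_⟩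
  have h : (T ^ (m + 1)) (T.symm z) = (T ^ m) z := by
    rw [zpow_add_one, LinearEquiv.mul_apply, LinearEquiv.apply_symm_apply]
  exact h

theorem map_twistSup_le_succ (h₀ : ∀ z ∈ Λ₀, T z ∈ Λ₀) (m : ℤ) :
    (twistSup T Λ₀ Λ₁ m).map (T : N →ₗ[K] N) ≤ twistSup T Λ₀ Λ₁ (m + 1) := by
  rw [twistSup, Submodule.map_sup]
  refine sup_le ?_ ?_
  · rintro _ ⟨z, hz, rfl⟩
    exact Submodule.mem_sup_left (h₀ z hz)
  · rintro _ ⟨_, ⟨z, hz, rfl⟩, rfl⟩
    refine Submodule.mem_sup_right ⟨z, hz, ?_⟩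
    have h : (T ^ (m + 1)) z = T ((T ^ m) z) := by
      rw [add_comm, zpow_one_add, LinearEquiv.mul_apply]
    exact h

/-- Every element of `N` lies in `Λ₀ + (T - c) N`. -/
theorem sup_range_sub_smul_eq_top (hex : ∀ z : N, ∃ j : ℕ, (T ^ j) z ∈ Λ₀) (c : K) :
    Λ₀ ⊔ LinearMap.range ((T : N →ₗ[K] N) - c • LinearMap.id) = ⊤ := by
  rw [eq_top_iff]
  rintro z -
  by_cases hc : c = 0
  · subst hc
    refine Submodule.mem_sup_right ⟨T.symm z, ?_⟩
    simp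
  · obtain ⟨j, hj⟩ := hex z
    induction j generalizing z with
    | zero => exact Submodule.mem_sup_left (by simpa using hj)
    | succ j ih =>
      have h1 : (T ^ j) (T z) ∈ Λ₀ := by
        have h : (T ^ (j + 1)) z = (T ^ j) (T z) := by
          rw [pow_succ, LinearEquiv.mul_apply]
        rw [← h]; exact hj
      have h2 := @ih (T z) h1
      have h3 : z = c⁻¹ • T z -
          c⁻¹ • ((T : N →ₗ[K] N) - c • LinearMap.id : N →ₗ[K] N) z := by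
        simp [smul_sub, smul_smul, inv_mul_cancel₀ hc]
      rw [h3]
      exact Submodule.sub_mem _ (Submodule.smul_mem _ _ h2)
        (Submodule.smul_mem _ _ (Submodule.mem_sup_right ⟨z, rfl⟩))

/-- **Strict decrease of `h¹` under twisting** over an algebraically closed field: if
`H¹` of the `m`-th twist is finite-dimensional and nonzero, then `H¹` of the `(m+1)`-st twist has
strictly smaller dimension. -/
theorem finrank_quotient_twistSup_succ_lt [IsAlgClosed K]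
    (h₀ : ∀ z ∈ Λ₀, T z ∈ Λ₀) (h₁ : ∀ z ∈ Λ₁, T.symm z ∈ Λ₁)
    (hex : ∀ z : N, ∃ j : ℕ, (T ^ j) z ∈ Λ₀) (m : ℤ)
    [FiniteDimensional K (N ⧸ twistSup T Λ₀ Λ₁ m)] (hne : twistSup T Λ₀ Λ₁ m ≠ ⊤) :
    finrank K (N ⧸ twistSup T Λ₀ Λ₁ (m + 1)) < finrank K (N ⧸ twistSup T Λ₀ Λ₁ m) := by
  have : Nontrivial (N ⧸ twistSup T Λ₀ Λ₁ m) := Submodule.Quotient.nontrivial_iff.mpr hne
  let ι : (N ⧸ twistSup T Λ₀ Λ₁ m) →ₗ[K] (N ⧸ twistSup T Λ₀ Λ₁ (m + 1)) :=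
    Submodule.mapQ _ _ LinearMap.id (by simpa using twistSup_le_succ T Λ₀ Λ₁ h₁ m)
  let τ : (N ⧸ twistSup T Λ₀ Λ₁ m) →ₗ[K] (N ⧸ twistSup T Λ₀ Λ₁ (m + 1)) :=
    Submodule.mapQ _ _ (T : N →ₗ[K] N)
      (Submodule.map_le_iff_le_comap.mp (map_twistSup_le_succ T Λ₀ Λ₁ h₀ m))
  refine pencil_finrank_lt ι τ ?_ ?_
  · intro w
    obtain ⟨z, rfl⟩ := Submodule.Quotient.mk_surjective _ w
    exact ⟨Submodule.Quotient.mk z, by simp [ι]⟩
  · intro c w
    obtain ⟨z, rfl⟩ := Submodule.Quotient.mk_surjective _ w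
    have hz : z ∈ Λ₀ ⊔ LinearMap.range ((T : N →ₗ[K] N) - c • LinearMap.id) := by
      rw [sup_range_sub_smul_eq_top T Λ₀ hex c]; trivial
    obtain ⟨a, ha, b, ⟨u, rfl⟩, rfl⟩ := Submodule.mem_sup.mp hz
    refine ⟨Submodule.Quotient.mk u, ?_⟩
    have h5 : (τ - c • ι) (Submodule.Quotient.mk u) =
        Submodule.Quotient.mk (((T : N →ₗ[K] N) - c • LinearMap.id : N →ₗ[K] N) u) := by
      simp [ι, τ]
    rw [h5, eq_comm, Submodule.Quotient.eq]
    simpa using le_twistSup T Λ₀ Λ₁ (m + 1) ha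

/-- Iterated form: after `j` further twists, either `H¹` has vanished or its dimension has
dropped by at least `j`. -/
theorem finrank_quotient_twistSup_add [IsAlgClosed K]
    (h₀ : ∀ z ∈ Λ₀, T z ∈ Λ₀) (h₁ : ∀ z ∈ Λ₁, T.symm z ∈ Λ₁)
    (hex : ∀ z : N, ∃ j : ℕ, (T ^ j) z ∈ Λ₀) (m₀ : ℤ)
    [FiniteDimensional K (N ⧸ twistSup T Λ₀ Λ₁ m₀)] (j : ℕ) :
    FiniteDimensional K (N ⧸ twistSup T Λ₀ Λ₁ (m₀ + j)) ∧
      (twistSup T Λ₀ Λ₁ (m₀ + j) = ⊤ ∨
        finrank K (N ⧸ twistSup T Λ₀ Λ₁ (m₀ + j)) + j ≤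
          finrank K (N ⧸ twistSup T Λ₀ Λ₁ m₀)) := by
  induction j with
  | zero =>
    have h00 : m₀ + ((0 : ℕ) : ℤ) = m₀ := by simp
    rw [h00]
    exact ⟨inferInstance, Or.inr le_rfl⟩
  | succ j ih =>
    obtain ⟨hfin, hor⟩ := ih
    have hcast : m₀ + ((j + 1 : ℕ) : ℤ) = m₀ + j + 1 := by push_cast; ring
    rw [hcast]
    have hle := twistSup_le_succ T Λ₀ Λ₁ h₁ (m₀ + j)
    have hfin' : FiniteDimensional K (N ⧸ twistSup T Λ₀ Λ₁ (m₀ + j + 1)) := by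
      refine Module.Finite.of_surjective
        (Submodule.mapQ _ _ LinearMap.id (by simpa using hle)) ?_
      intro w
      obtain ⟨z, rfl⟩ := Submodule.Quotient.mk_surjective _ w
      exact ⟨Submodule.Quotient.mk z, by simp⟩
    refine ⟨hfin', ?_⟩
    rcases hor with htop | hrank
    · exact Or.inl (top_le_iff.mp (htop ▸ hle))
    · by_cases htop : twistSup T Λ₀ Λ₁ (m₀ + j) = ⊤
      · exact Or.inl (top_le_iff.mp (htop ▸ hle))
      · have hlt := finrank_quotient_twistSup_succ_lt T Λ₀ Λ₁ h₀ h₁ hex (m₀ + j) htop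
        exact Or.inr (by omega)

/-- **Uniform vanishing.** Over an algebraically closed field, if `H¹` of the `m₀`-th twist has
dimension at most `r`, then `H¹` of the `m`-th twist vanishes for every `m ≥ m₀ + r`. -/
theorem twistSup_eq_top [IsAlgClosed K]
    (h₀ : ∀ z ∈ Λ₀, T z ∈ Λ₀) (h₁ : ∀ z ∈ Λ₁, T.symm z ∈ Λ₁)
    (hex : ∀ z : N, ∃ j : ℕ, (T ^ j) z ∈ Λ₀) (m₀ : ℤ)
    [FiniteDimensional K (N ⧸ twistSup T Λ₀ Λ₁ m₀)] (r : ℕ)
    (hr : finrank K (N ⧸ twistSup T Λ₀ Λ₁ m₀) ≤ r) (m : ℤ) (hm : m₀ + r ≤ m) :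
    twistSup T Λ₀ Λ₁ m = ⊤ := by
  obtain ⟨j, rfl⟩ : ∃ j : ℕ, m = m₀ + j := ⟨(m - m₀).toNat, by omega⟩
  have hj : r ≤ j := by omega
  obtain ⟨hfin, htop | hrank⟩ := finrank_quotient_twistSup_add T Λ₀ Λ₁ h₀ h₁ hex m₀ j
  · exact htop
  · have h0 : finrank K (N ⧸ twistSup T Λ₀ Λ₁ (m₀ + j)) = 0 := by omega
    have hsub : Subsingleton (N ⧸ twistSup T Λ₀ Λ₁ (m₀ + j)) := finrank_zero_iff.mp h0
    exact Submodule.Quotient.subsingleton_iff.mp hsub

/-! ### Arbitrary fields: the stabilisation argument (no eigenvalues needed) -/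

/-- If the sums of the lattices of two consecutive twists agree, so do the next two. -/
theorem twistSup_succ_eq_of_eq (h₀ : ∀ z ∈ Λ₀, T z ∈ Λ₀) (h₁ : ∀ z ∈ Λ₁, T.symm z ∈ Λ₁)
    (m : ℤ) (h : twistSup T Λ₀ Λ₁ m = twistSup T Λ₀ Λ₁ (m + 1)) :
    twistSup T Λ₀ Λ₁ (m + 1) = twistSup T Λ₀ Λ₁ (m + 1 + 1) := by
  refine le_antisymm (twistSup_le_succ T Λ₀ Λ₁ h₁ (m + 1)) (sup_le le_sup_left ?_)
  rintro _ ⟨z, hz, rfl⟩
  have h2 : (T ^ (m + 1)) z ∈ twistSup T Λ₀ Λ₁ m := by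
    rw [h]; exact Submodule.mem_sup_right ⟨z, hz, rfl⟩
  have h3 : T ((T ^ (m + 1)) z) ∈ twistSup T Λ₀ Λ₁ (m + 1) :=
    map_twistSup_le_succ T Λ₀ Λ₁ h₀ m ⟨_, h2, rfl⟩
  have h4 : (T ^ (m + 1 + 1)) z = T ((T ^ (m + 1)) z) := by
    rw [add_comm (m + 1) 1, zpow_one_add, LinearEquiv.mul_apply]
  change (T ^ (m + 1 + 1)) z ∈ _
  rw [h4]; exact h3

theorem twistSup_add_eq_of_eq (h₀ : ∀ z ∈ Λ₀, T z ∈ Λ₀) (h₁ : ∀ z ∈ Λ₁, T.symm z ∈ Λ₁)
    (m : ℤ) (h : twistSup T Λ₀ Λ₁ m = twistSup T Λ₀ Λ₁ (m + 1)) (j : ℕ) :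
    twistSup T Λ₀ Λ₁ (m + j) = twistSup T Λ₀ Λ₁ m ∧
      twistSup T Λ₀ Λ₁ (m + j) = twistSup T Λ₀ Λ₁ (m + j + 1) := by
  induction j with
  | zero => simpa using h
  | succ j ih =>
    have hcast : m + ((j + 1 : ℕ) : ℤ) = m + j + 1 := by push_cast; ring
    rw [hcast]
    exact ⟨ih.2.symm.trans ih.1, twistSup_succ_eq_of_eq T Λ₀ Λ₁ h₀ h₁ (m + j) ih.2⟩

theorem twistSup_mono (h₁ : ∀ z ∈ Λ₁, T.symm z ∈ Λ₁) {a b : ℤ} (hab : a ≤ b) :
    twistSup T Λ₀ Λ₁ a ≤ twistSup T Λ₀ Λ₁ b := by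
  obtain ⟨j, rfl⟩ : ∃ j : ℕ, b = a + j := ⟨(b - a).toNat, by omega⟩
  induction j with
  | zero => simp
  | succ j ih =>
    have hcast : a + ((j + 1 : ℕ) : ℤ) = a + j + 1 := by push_cast; ring
    rw [hcast]
    exact (ih (by omega)).trans (twistSup_le_succ T Λ₀ Λ₁ h₁ (a + j))

/-- **Stabilisation.** If `N = ⋃ T^j Λ₁` and the sums of the lattices of two consecutive twists
agree, then `H¹` of that twist vanishes. Valid over any field (indeed any ring). -/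
theorem twistSup_eq_top_of_eq_succ (h₀ : ∀ z ∈ Λ₀, T z ∈ Λ₀) (h₁ : ∀ z ∈ Λ₁, T.symm z ∈ Λ₁)
    (hex₁ : ∀ z : N, ∃ j : ℕ, ∃ b ∈ Λ₁, z = (T ^ j) b) (m : ℤ)
    (h : twistSup T Λ₀ Λ₁ m = twistSup T Λ₀ Λ₁ (m + 1)) : twistSup T Λ₀ Λ₁ m = ⊤ := by
  rw [eq_top_iff]
  rintro z -
  obtain ⟨j, b, hb, rfl⟩ := hex₁ z
  have h5 : (T ^ j) b ∈ twistSup T Λ₀ Λ₁ (j : ℤ) :=
    Submodule.mem_sup_right ⟨b, hb, by rw [zpow_natCast]; rfl⟩
  have h6 : twistSup T Λ₀ Λ₁ (j : ℤ) ≤ twistSup T Λ₀ Λ₁ (m + (j + (-m).toNat : ℕ)) :=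
    twistSup_mono T Λ₀ Λ₁ h₁ (by omega)
  rw [← (twistSup_add_eq_of_eq T Λ₀ Λ₁ h₀ h₁ m h (j + (-m).toNat)).1]
  exact h6 h5

/-- Strict decrease of `h¹` under twisting, over an arbitrary field. -/
theorem finrank_quotient_twistSup_succ_lt_of_exhaust
    (h₀ : ∀ z ∈ Λ₀, T z ∈ Λ₀) (h₁ : ∀ z ∈ Λ₁, T.symm z ∈ Λ₁)
    (hex₁ : ∀ z : N, ∃ j : ℕ, ∃ b ∈ Λ₁, z = (T ^ j) b) (m : ℤ)
    [FiniteDimensional K (N ⧸ twistSup T Λ₀ Λ₁ m)] (hne : twistSup T Λ₀ Λ₁ m ≠ ⊤) :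
    finrank K (N ⧸ twistSup T Λ₀ Λ₁ (m + 1)) < finrank K (N ⧸ twistSup T Λ₀ Λ₁ m) := by
  have hle := twistSup_le_succ T Λ₀ Λ₁ h₁ m
  let ι : (N ⧸ twistSup T Λ₀ Λ₁ m) →ₗ[K] (N ⧸ twistSup T Λ₀ Λ₁ (m + 1)) :=
    Submodule.mapQ _ _ LinearMap.id (by simpa using hle)
  have hι : Function.Surjective ι := by
    intro w
    obtain ⟨z, rfl⟩ := Submodule.Quotient.mk_surjective _ w
    exact ⟨Submodule.Quotient.mk z, by simp [ι]⟩
  have hfin : FiniteDimensional K (N ⧸ twistSup T Λ₀ Λ₁ (m + 1)) :=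
    Module.Finite.of_surjective ι hι
  have hle' : finrank K (N ⧸ twistSup T Λ₀ Λ₁ (m + 1)) ≤ finrank K (N ⧸ twistSup T Λ₀ Λ₁ m) :=
    LinearMap.finrank_le_finrank_of_surjective hι
  by_contra hlt
  have heq : finrank K (N ⧸ twistSup T Λ₀ Λ₁ m) = finrank K (N ⧸ twistSup T Λ₀ Λ₁ (m + 1)) := by
    omega
  have hinj : Function.Injective ι :=
    (LinearMap.injective_iff_surjective_of_finrank_eq_finrank heq).mpr hι
  refine hne (twistSup_eq_top_of_eq_succ T Λ₀ Λ₁ h₀ h₁ hex₁ m (le_antisymm hle ?_))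
  intro z hz
  have h7 : ι (Submodule.Quotient.mk z) = ι 0 := by
    simp only [ι, Submodule.mapQ_apply, LinearMap.id_coe, id_eq, map_zero]
    exact (Submodule.Quotient.mk_eq_zero _).mpr hz
  exact (Submodule.Quotient.mk_eq_zero _).mp (hinj h7)

/-- Iterated form over an arbitrary field. -/
theorem finrank_quotient_twistSup_add_of_exhaust
    (h₀ : ∀ z ∈ Λ₀, T z ∈ Λ₀) (h₁ : ∀ z ∈ Λ₁, T.symm z ∈ Λ₁)
    (hex₁ : ∀ z : N, ∃ j : ℕ, ∃ b ∈ Λ₁, z = (T ^ j) b) (m₀ : ℤ)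
    [FiniteDimensional K (N ⧸ twistSup T Λ₀ Λ₁ m₀)] (j : ℕ) :
    FiniteDimensional K (N ⧸ twistSup T Λ₀ Λ₁ (m₀ + j)) ∧
      (twistSup T Λ₀ Λ₁ (m₀ + j) = ⊤ ∨
        finrank K (N ⧸ twistSup T Λ₀ Λ₁ (m₀ + j)) + j ≤
          finrank K (N ⧸ twistSup T Λ₀ Λ₁ m₀)) := by
  induction j with
  | zero =>
    have h00 : m₀ + ((0 : ℕ) : ℤ) = m₀ := by simp
    rw [h00]
    exact ⟨inferInstance, Or.inr le_rfl⟩
  | succ j ih =>
    obtain ⟨hfin, hor⟩ := ih
    have hcast : m₀ + ((j + 1 : ℕ) : ℤ) = m₀ + j + 1 := by push_cast; ring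
    rw [hcast]
    have hle := twistSup_le_succ T Λ₀ Λ₁ h₁ (m₀ + j)
    have hfin' : FiniteDimensional K (N ⧸ twistSup T Λ₀ Λ₁ (m₀ + j + 1)) := by
      refine Module.Finite.of_surjective
        (Submodule.mapQ _ _ LinearMap.id (by simpa using hle)) ?_
      intro w
      obtain ⟨z, rfl⟩ := Submodule.Quotient.mk_surjective _ w
      exact ⟨Submodule.Quotient.mk z, by simp⟩
    refine ⟨hfin', ?_⟩
    rcases hor with htop | hrank
    · exact Or.inl (top_le_iff.mp (htop ▸ hle))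
    · by_cases htop : twistSup T Λ₀ Λ₁ (m₀ + j) = ⊤
      · exact Or.inl (top_le_iff.mp (htop ▸ hle))
      · have hlt := finrank_quotient_twistSup_succ_lt_of_exhaust T Λ₀ Λ₁ h₀ h₁ hex₁ (m₀ + j) htop
        exact Or.inr (by omega)

/-- **Uniform vanishing over an arbitrary field.** If `N = ⋃ T^j Λ₁` and `H¹` of the `m₀`-th
twist has dimension at most `r`, then `H¹` of the `m`-th twist vanishes for every
`m ≥ m₀ + r`. -/
theorem twistSup_eq_top_of_exhaust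
    (h₀ : ∀ z ∈ Λ₀, T z ∈ Λ₀) (h₁ : ∀ z ∈ Λ₁, T.symm z ∈ Λ₁)
    (hex₁ : ∀ z : N, ∃ j : ℕ, ∃ b ∈ Λ₁, z = (T ^ j) b) (m₀ : ℤ)
    [FiniteDimensional K (N ⧸ twistSup T Λ₀ Λ₁ m₀)] (r : ℕ)
    (hr : finrank K (N ⧸ twistSup T Λ₀ Λ₁ m₀) ≤ r) (m : ℤ) (hm : m₀ + r ≤ m) :
    twistSup T Λ₀ Λ₁ m = ⊤ := by
  obtain ⟨j, rfl⟩ : ∃ j : ℕ, m = m₀ + j := ⟨(m - m₀).toNat, by omega⟩
  have hj : r ≤ j := by omega
  obtain ⟨hfin, htop | hrank⟩ :=
    finrank_quotient_twistSup_add_of_exhaust T Λ₀ Λ₁ h₀ h₁ hex₁ m₀ j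
  · exact htop
  · have h0 : finrank K (N ⧸ twistSup T Λ₀ Λ₁ (m₀ + j)) = 0 := by omega
    have hsub : Subsingleton (N ⧸ twistSup T Λ₀ Λ₁ (m₀ + j)) := finrank_zero_iff.mp h0
    exact Submodule.Quotient.subsingleton_iff.mp hsub

end Lattice

section UnitForm

variable {K : Type*} [Field K] {A : Type*} [CommRing A] [Algebra K A]
variable {M : Type*} [AddCommGroup M] [Module A M] [Module K M] [IsScalarTower K A M]

/-- Multiplication by a unit of `A` as a `K`-linear automorphism of an `A`-module. -/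
def unitSmulHom : Aˣ →* (M ≃ₗ[K] M) where
  toFun u :=
    { toFun := fun z => u • z
      invFun := fun z => u⁻¹ • z
      map_add' := fun a b => smul_add u a b
      map_smul' := fun c z => by
        simp only [Units.smul_def, RingHom.id_apply]
        exact smul_comm _ _ _
      left_inv := fun z => inv_smul_smul u z
      right_inv := fun z => smul_inv_smul u z }
  map_one' := by ext z; simp
  map_mul' u v := by ext z; simp [mul_smul]

@[simp]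
theorem unitSmulHom_apply (u : Aˣ) (z : M) : unitSmulHom (K := K) u z = u • z := rfl

theorem unitSmulHom_symm_apply (u : Aˣ) (z : M) :
    (unitSmulHom (K := K) u).symm z = u⁻¹ • z := rfl

theorem unitSmulHom_zpow_apply (u : Aˣ) (m : ℤ) (z : M) :
    (unitSmulHom (K := K) u ^ m) z = (u ^ m) • z := by
  rw [← map_zpow]; rfl

theorem unitSmulHom_pow_apply (u : Aˣ) (j : ℕ) (z : M) :
    (unitSmulHom (K := K) u ^ j) z = (u ^ j) • z := by
  rw [← map_pow]; rfl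

/-- **Uniform vanishing, unit form.** `M` is a module over a commutative `K`-algebra `A`
(sections over the overlap), `u` a unit of `A` (the coordinate `x`), `Λ₀`, `Λ₁` are `K`-subspaces
with `u Λ₀ ⊆ Λ₀`, `u⁻¹ Λ₁ ⊆ Λ₁`, `M = ⋃ u^{-j} Λ₀`.  If `M = Λ₀ + u^{m₀} Λ₁ + ⟨v₁, …, v_r⟩`
(that is, `h¹` of the `m₀`-th twist is at most `r`) and `K` is algebraically closed, then
`M = Λ₀ + u^m Λ₁` for every `m ≥ m₀ + r`. -/
theorem exists_add_zpow_smul [IsAlgClosed K] (u : Aˣ) (Λ₀ Λ₁ : Submodule K M)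
    (h₀ : ∀ z ∈ Λ₀, u • z ∈ Λ₀) (h₁ : ∀ z ∈ Λ₁, u⁻¹ • z ∈ Λ₁)
    (hex : ∀ z : M, ∃ j : ℕ, (u ^ j) • z ∈ Λ₀) (m₀ : ℤ) (r : ℕ) (v : Fin r → M)
    (hspan : ∀ z : M, ∃ a ∈ Λ₀, ∃ b ∈ Λ₁, ∃ c : Fin r → K,
      z = a + (u ^ m₀) • b + ∑ i, c i • v i)
    (m : ℤ) (hm : m₀ + r ≤ m) (z : M) :
    ∃ a ∈ Λ₀, ∃ b ∈ Λ₁, z = a + (u ^ m) • b := by
  set T : M ≃ₗ[K] M := unitSmulHom (K := K) u with hT
  -- `H¹(m₀)` is spanned by the classes of the `v i`
  let q : (Fin r → K) →ₗ[K] (M ⧸ twistSup T Λ₀ Λ₁ m₀) :=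
    Fintype.linearCombination K (fun i => Submodule.Quotient.mk (v i))
  have hq : Function.Surjective q := by
    intro w
    obtain ⟨z, rfl⟩ := Submodule.Quotient.mk_surjective _ w
    obtain ⟨a, ha, b, hb, c, rfl⟩ := hspan z
    refine ⟨c, ?_⟩
    have h1 : q c = Submodule.Quotient.mk (∑ i, c i • v i) := by
      simp only [q, Fintype.linearCombination_apply]
      rw [← Submodule.mkQ_apply, map_sum]
      rfl
    rw [h1, Submodule.Quotient.eq]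
    have h2 : ∑ i, c i • v i - (a + (u ^ m₀) • b + ∑ i, c i • v i) = -(a + (u ^ m₀) • b) := by
      abel
    rw [h2]
    refine Submodule.neg_mem _ (Submodule.add_mem _ (Submodule.mem_sup_left ha)
      (Submodule.mem_sup_right ⟨b, hb, ?_⟩))
    exact unitSmulHom_zpow_apply u m₀ b
  have hfin : FiniteDimensional K (M ⧸ twistSup T Λ₀ Λ₁ m₀) := Module.Finite.of_surjective q hq
  have hr : finrank K (M ⧸ twistSup T Λ₀ Λ₁ m₀) ≤ r := by
    have h3 := LinearMap.finrank_le_finrank_of_surjective hq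
    simpa using h3
  have htop := twistSup_eq_top T Λ₀ Λ₁ h₀ h₁
    (fun z => by
      obtain ⟨j, hj⟩ := hex z
      exact ⟨j, by rw [hT, unitSmulHom_pow_apply]; exact hj⟩) m₀ r hr m hm
  have hz : z ∈ twistSup T Λ₀ Λ₁ m := by rw [htop]; trivial
  obtain ⟨a, ha, _, ⟨b, hb, rfl⟩, rfl⟩ := Submodule.mem_sup.mp hz
  exact ⟨a, ha, b, hb, by rw [← unitSmulHom_zpow_apply (K := K) u m b]; rfl⟩

/-- **Uniform vanishing, unit form, arbitrary field.** Same as `exists_add_zpow_smul` but over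
any field, with the exhaustion hypothesis on the lattice at infinity: `M = ⋃ u^j Λ₁`. -/
theorem exists_add_zpow_smul_of_exhaust (u : Aˣ) (Λ₀ Λ₁ : Submodule K M)
    (h₀ : ∀ z ∈ Λ₀, u • z ∈ Λ₀) (h₁ : ∀ z ∈ Λ₁, u⁻¹ • z ∈ Λ₁)
    (hex₁ : ∀ z : M, ∃ j : ℕ, ∃ b ∈ Λ₁, z = (u ^ j) • b) (m₀ : ℤ) (r : ℕ) (v : Fin r → M)
    (hspan : ∀ z : M, ∃ a ∈ Λ₀, ∃ b ∈ Λ₁, ∃ c : Fin r → K,
      z = a + (u ^ m₀) • b + ∑ i, c i • v i)
    (m : ℤ) (hm : m₀ + r ≤ m) (z : M) :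
    ∃ a ∈ Λ₀, ∃ b ∈ Λ₁, z = a + (u ^ m) • b := by
  set T : M ≃ₗ[K] M := unitSmulHom (K := K) u with hT
  let q : (Fin r → K) →ₗ[K] (M ⧸ twistSup T Λ₀ Λ₁ m₀) :=
    Fintype.linearCombination K (fun i => Submodule.Quotient.mk (v i))
  have hq : Function.Surjective q := by
    intro w
    obtain ⟨z, rfl⟩ := Submodule.Quotient.mk_surjective _ w
    obtain ⟨a, ha, b, hb, c, rfl⟩ := hspan z
    refine ⟨c, ?_⟩
    have h1 : q c = Submodule.Quotient.mk (∑ i, c i • v i) := by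
      simp only [q, Fintype.linearCombination_apply]
      rw [← Submodule.mkQ_apply, map_sum]
      rfl
    rw [h1, Submodule.Quotient.eq]
    have h2 : ∑ i, c i • v i - (a + (u ^ m₀) • b + ∑ i, c i • v i) = -(a + (u ^ m₀) • b) := by
      abel
    rw [h2]
    refine Submodule.neg_mem _ (Submodule.add_mem _ (Submodule.mem_sup_left ha)
      (Submodule.mem_sup_right ⟨b, hb, ?_⟩))
    exact unitSmulHom_zpow_apply u m₀ b
  have hfin : FiniteDimensional K (M ⧸ twistSup T Λ₀ Λ₁ m₀) := Module.Finite.of_surjective q hq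
  have hr : finrank K (M ⧸ twistSup T Λ₀ Λ₁ m₀) ≤ r := by
    have h3 := LinearMap.finrank_le_finrank_of_surjective hq
    simpa using h3
  have htop := twistSup_eq_top_of_exhaust T Λ₀ Λ₁ h₀ h₁
    (fun z => by
      obtain ⟨j, b, hb, hj⟩ := hex₁ z
      exact ⟨j, b, hb, by rw [hT, unitSmulHom_pow_apply]; exact hj⟩) m₀ r hr m hm
  have hz : z ∈ twistSup T Λ₀ Λ₁ m := by rw [htop]; trivial
  obtain ⟨a, ha, _, ⟨b, hb, rfl⟩, rfl⟩ := Submodule.mem_sup.mp hz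
  exact ⟨a, ha, b, hb, by rw [← unitSmulHom_zpow_apply (K := K) u m b]; rfl⟩

end UnitForm

end Fermat.Agent.S25.helper8622
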