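import Fermat.Agent.S25.helper2945_AlgDefs
import Fermat.Agent.S25.helper8622_UniformVanishing

/-!
# S25, leaf UV, part 2: uniform vanishing of `H¹` for two-chart line bundles (`GlueDatum`)

For a two-chart line bundle `G` over an algebraically closed field `K`, write
`H¹(G(m)) = M₀₁ ⧸ (ρ₀ M₀ + x^m ρ₁ M₁)` for the first cohomology of the twist by `m · D∞`.
If `H¹(G(m₀))` is spanned by `r` classes, then `H¹(G(m)) = 0` for all `m ≥ m₀ + r`
(`h1TwistVanishes_of_span`).  No twist construction is needed: everything is stated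
inside `G.M₀₁` with the unit `xUnit D K` of the overlap ring.
-/

set_option autoImplicit false

universe u

open TensorProduct

namespace Fermat.Agent.S25.helper8622

open Fermat.Agent.S25.helper1705 Fermat.Agent.S25.helper2945

variable {k : Type u} [Field k] (D : CurveDatum k) (B : Type u) [CommRing B] [Algebra k B]

/-- The coordinate `x` as a unit of the overlap ring `R₀₁ ⊗ B`, with inverse `y`. -/
noncomputable def xUnit : (D.A₀₁ B)ˣ where
  val := algebraMap (D.A₀ B) (D.A₀₁ B) (xB D B)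
  inv := algebraMap (D.A₁ B) (D.A₀₁ B) (yB D B)
  val_inv := xB_mul_yB D B
  inv_val := by rw [mul_comm]; exact xB_mul_yB D B

@[simp] theorem xUnit_val : ((xUnit D B : (D.A₀₁ B)ˣ) : D.A₀₁ B) =
    algebraMap (D.A₀ B) (D.A₀₁ B) (xB D B) := rfl

@[simp] theorem xUnit_inv_val : (((xUnit D B)⁻¹ : (D.A₀₁ B)ˣ) : D.A₀₁ B) =
    algebraMap (D.A₁ B) (D.A₀₁ B) (yB D B) := rfl

variable {D B}

/-- `x • ρ₀ a = ρ₀ (x • a)` inside `M₀₁`. -/
theorem xUnit_smul_ρ₀ (G : GlueDatum D B) (a : G.M₀) :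
    xUnit D B • G.ρ₀ a = G.ρ₀ (xB D B • a) := by
  rw [Units.smul_def, xUnit_val, algebraMap_smul, map_smul]

/-- `x⁻¹ • ρ₁ b = ρ₁ (y • b)` inside `M₀₁`. -/
theorem xUnit_inv_smul_ρ₁ (G : GlueDatum D B) (b : G.M₁) :
    (xUnit D B)⁻¹ • G.ρ₁ b = G.ρ₁ (yB D B • b) := by
  rw [Units.smul_def, xUnit_inv_val, algebraMap_smul, map_smul]

/-- Every element of `M₀₁` is moved into the image of `M₀` by a power of `x`. -/
theorem exists_pow_xUnit_smul_mem (G : GlueDatum D B) (z : G.M₀₁) :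
    ∃ (j : ℕ) (a : G.M₀), (xUnit D B) ^ j • z = G.ρ₀ a := by
  obtain ⟨⟨a, ⟨s, j, rfl⟩⟩, h⟩ :=
    IsLocalizedModule.surj (Submonoid.powers (xB D B)) G.ρ₀ z
  refine ⟨j, a, ?_⟩
  rw [← h, Units.smul_def, Units.val_pow_eq_pow_val, xUnit_val, ← map_pow, algebraMap_smul]
  rfl

/-- Every element of `M₀₁` is a power of `x` times an element of the image of `M₁`. -/
theorem exists_eq_pow_xUnit_smul_ρ₁ (G : GlueDatum D B) (z : G.M₀₁) :
    ∃ (j : ℕ) (b : G.M₁), z = (xUnit D B) ^ j • G.ρ₁ b := by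
  obtain ⟨⟨b, ⟨s, j, rfl⟩⟩, h⟩ :=
    IsLocalizedModule.surj (Submonoid.powers (yB D B)) G.ρ₁ z
  refine ⟨j, b, ?_⟩
  have h1 : G.ρ₁ b = ((xUnit D B)⁻¹) ^ j • z := by
    rw [← h, Units.smul_def, Units.val_pow_eq_pow_val, xUnit_inv_val, ← map_pow, algebraMap_smul]
    rfl
  rw [h1, ← mul_smul, ← mul_pow, mul_inv_cancel, one_pow, one_smul]

/-- `H¹` of the twist of `G` by `m · D∞` vanishes: `M₀₁ = ρ₀ M₀ + x^m ρ₁ M₁`. -/
def H1TwistVanishes (G : GlueDatum D B) (m : ℤ) : Prop :=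
  ∀ z : G.M₀₁, ∃ (a : G.M₀) (b : G.M₁), z = G.ρ₀ a + (xUnit D B) ^ m • G.ρ₁ b

/-- `H¹` of the twist of `G` by `m · D∞` is spanned over the base by `r` classes. -/
def H1TwistSpannedBy (G : GlueDatum D B) (m : ℤ) (r : ℕ) : Prop :=
  ∃ v : Fin r → G.M₀₁, ∀ z : G.M₀₁, ∃ (a : G.M₀) (b : G.M₁) (c : Fin r → B),
    z = G.ρ₀ a + (xUnit D B) ^ m • G.ρ₁ b + ∑ i, c i • v i

theorem H1TwistVanishes.spannedBy {G : GlueDatum D B} {m : ℤ} (h : H1TwistVanishes G m)
    (r : ℕ) : H1TwistSpannedBy G m r :=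
  ⟨fun _ => 0, fun z => by
    obtain ⟨a, b, hz⟩ := h z
    exact ⟨a, b, fun _ => 0, by simp [hz]⟩⟩

section Field

variable {K : Type u} [Field K] [Algebra k K]

/-- **Uniform vanishing for two-chart line bundles.** Over an algebraically closed field, if
`H¹(G(m₀))` is spanned by `r` classes then `H¹(G(m)) = 0` for every `m ≥ m₀ + r`. -/
theorem h1TwistVanishes_of_span [IsAlgClosed K] (G : GlueDatum D K) (m₀ : ℤ) (r : ℕ)
    (h : H1TwistSpannedBy G m₀ r) (m : ℤ) (hm : m₀ + r ≤ m) : H1TwistVanishes G m := by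
  obtain ⟨v, hv⟩ := h
  intro z
  obtain ⟨a, ⟨a', rfl⟩, b, ⟨b', rfl⟩, hz⟩ :=
    exists_add_zpow_smul (K := K) (A := D.A₀₁ K) (M := G.M₀₁) (xUnit D K)
      (LinearMap.range G.ρ₀B) (LinearMap.range G.ρ₁B)
      (by
        rintro _ ⟨a, rfl⟩
        exact ⟨xB D K • a, (xUnit_smul_ρ₀ G a).symm⟩)
      (by
        rintro _ ⟨b, rfl⟩
        exact ⟨yB D K • b, (xUnit_inv_smul_ρ₁ G b).symm⟩)
      (fun z => by
        obtain ⟨j, a, ha⟩ := exists_pow_xUnit_smul_mem G z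
        exact ⟨j, a, ha.symm⟩)
      m₀ r v
      (fun z => by
        obtain ⟨a, b, c, hz⟩ := hv z
        exact ⟨_, ⟨a, rfl⟩, _, ⟨b, rfl⟩, c, hz⟩)
      m hm z
  exact ⟨a', b', hz⟩

/-- **Uniform vanishing for two-chart line bundles, arbitrary field.** If `H¹(G(m₀))` is spanned
by `r` classes then `H¹(G(m)) = 0` for every `m ≥ m₀ + r` (stabilisation argument; no algebraic
closedness needed). -/
theorem h1TwistVanishes_of_span_field (G : GlueDatum D K) (m₀ : ℤ) (r : ℕ)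
    (h : H1TwistSpannedBy G m₀ r) (m : ℤ) (hm : m₀ + r ≤ m) : H1TwistVanishes G m := by
  obtain ⟨v, hv⟩ := h
  intro z
  obtain ⟨a, ⟨a', rfl⟩, b, ⟨b', rfl⟩, hz⟩ :=
    exists_add_zpow_smul_of_exhaust (K := K) (A := D.A₀₁ K) (M := G.M₀₁) (xUnit D K)
      (LinearMap.range G.ρ₀B) (LinearMap.range G.ρ₁B)
      (by
        rintro _ ⟨a, rfl⟩
        exact ⟨xB D K • a, (xUnit_smul_ρ₀ G a).symm⟩)
      (by
        rintro _ ⟨b, rfl⟩
        exact ⟨yB D K • b, (xUnit_inv_smul_ρ₁ G b).symm⟩)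
      (fun z => by
        obtain ⟨j, b, hb⟩ := exists_eq_pow_xUnit_smul_ρ₁ G z
        exact ⟨j, _, ⟨b, rfl⟩, hb⟩)
      m₀ r v
      (fun z => by
        obtain ⟨a, b, c, hz⟩ := hv z
        exact ⟨_, ⟨a, rfl⟩, _, ⟨b, rfl⟩, c, hz⟩)
      m hm z
  exact ⟨a', b', hz⟩

/-- Monotonicity: once `H¹(G(m))` vanishes it vanishes for all larger twists. -/
theorem H1TwistVanishes.mono {G : GlueDatum D K} {m : ℤ} (h : H1TwistVanishes G m) {m' : ℤ}
    (hm : m ≤ m') : H1TwistVanishes G m' :=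
  h1TwistVanishes_of_span_field G m 0 (h.spannedBy 0) m' (by simpa using hm)

end Field

end Fermat.Agent.S25.helper8622
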