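import Fermat.Agent.S25.helper1705_Curve

/-!
# S25, leaf U2a: `H⁰(C_B, 𝒪) = B` universally (helper1167)

For a `CurveDatum k` over an algebraically closed field `k`:

* `inter_eq_bot` : `R₀ ∩ R₁ = k` inside `R₀₁` (a function regular on both charts is constant);
* `inter_eq_bot_baseChange` : the same after base change to an arbitrary `k`-algebra `B`,
  i.e. `(R₀ ⊗ B) ∩ (R₁ ⊗ B) = B` inside `R₀₁ ⊗ B`;
* by-products: `x`, `y` are transcendental over `k`, the restriction maps are injective
  (also after base change), `R₀₁` is a domain.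

The core (`finite_inter`, `inter_eq_bot_core`) is stated without `CurveDatum`.
-/

set_option autoImplicit false
set_option linter.style.haveILetI false

universe u

open scoped TensorProduct
open Polynomial

namespace Fermat.Agent.S25.helper1167

section Core

variable {k : Type*} [Field k]

/-- If `ξ * η = 1` then `q(η) * ξ ^ d = (reflect d q)(ξ)` for `natDegree q ≤ d`. -/
theorem aeval_mul_pow_eq_aeval_reflect {S : Type*} [CommRing S] [Algebra k S] (ξ η : S)
    (h : ξ * η = 1) (q : k[X]) (d : ℕ) (hd : q.natDegree ≤ d) :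
    aeval η q * ξ ^ d = aeval ξ (reflect d q) := by
  letI : Invertible ξ := ⟨η, by rw [mul_comm]; exact h, h⟩
  have h1 := eval₂_reflect_mul_pow (algebraMap k S) ξ d (reflect d q)
    (natDegree_reflect_le.trans (by simp [hd]))
  rw [reflect_reflect] at h1
  exact h1

variable {R₀ R₁ R₀₁ : Type*} [CommRing R₀] [CommRing R₁] [CommRing R₀₁]
  [Algebra k R₀] [Algebra k R₁] [Algebra k R₀₁] [Algebra R₀ R₀₁] [Algebra R₁ R₀₁]
  [IsScalarTower k R₀ R₀₁] [IsScalarTower k R₁ R₀₁]

/-- The subalgebra of `R₀` of functions that extend to the other chart. -/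
noncomputable def interSubalgebra (k R₀ R₁ R₀₁ : Type*) [Field k] [CommRing R₀] [CommRing R₁]
    [CommRing R₀₁] [Algebra k R₀] [Algebra k R₁] [Algebra k R₀₁] [Algebra R₀ R₀₁] [Algebra R₁ R₀₁]
    [IsScalarTower k R₀ R₀₁] [IsScalarTower k R₁ R₀₁] : Subalgebra k R₀ :=
  (IsScalarTower.toAlgHom k R₁ R₀₁).range.comap (IsScalarTower.toAlgHom k R₀ R₀₁)

theorem mem_interSubalgebra {a : R₀} :
    a ∈ interSubalgebra k R₀ R₁ R₀₁ ↔ ∃ b : R₁, algebraMap R₁ R₀₁ b = algebraMap R₀ R₀₁ a := by
  simp [interSubalgebra, Subalgebra.mem_comap, AlgHom.mem_range]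

/-- `H⁰` is finite-dimensional: the functions regular on both charts form a finite-dimensional
`k`-vector space. -/
theorem finite_inter [IsDomain R₀] (x : R₀) (y : R₁) [IsLocalization.Away x R₀₁]
    (xy : algebraMap R₀ R₀₁ x * algebraMap R₁ R₀₁ y = 1)
    (hx : Transcendental k x)
    (fin₀ : (aeval x : k[X] →ₐ[k] R₀).toRingHom.Finite)
    (fin₁ : (aeval y : k[X] →ₐ[k] R₁).toRingHom.Finite) :
    Module.Finite k ↥(interSubalgebra k R₀ R₁ R₀₁) := by
  classical
  have hx0 : x ≠ 0 := by
    rintro rfl
    exact hx ⟨X, X_ne_zero, by simp⟩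
  have hι₀ : Function.Injective (algebraMap R₀ R₀₁) :=
    IsLocalization.injective R₀₁ (powers_le_nonZeroDivisors_of_noZeroDivisors hx0)
  -- module structure of `R₀` over `k[X]`
  letI alg₀ : Algebra k[X] R₀ := (aeval x : k[X] →ₐ[k] R₀).toRingHom.toAlgebra
  haveI : Module.Finite k[X] R₀ := fin₀
  have smul₀ : ∀ (p : k[X]) (r : R₀), p • r = aeval x p * r := fun p r => rfl
  haveI : Module.IsTorsionFree k[X] R₀ := Module.IsTorsionFree.of_smul_eq_zero (fun p r h => by
    rw [smul₀, mul_eq_zero] at h
    rcases h with h | h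
    · left
      exact (transcendental_iff_injective.mp hx) (by simpa using h)
    · right; exact h)
  haveI : Module.Free k[X] R₀ := Module.free_of_finite_type_torsion_free'
  let bas := Module.Free.chooseBasis k[X] R₀
  -- generators of `R₁` over `k[y]`
  letI alg₁ : Algebra k[X] R₁ := (aeval y : k[X] →ₐ[k] R₁).toRingHom.toAlgebra
  haveI : Module.Finite k[X] R₁ := fin₁
  have smul₁ : ∀ (p : k[X]) (r : R₁), p • r = aeval y p * r := fun p r => rfl
  obtain ⟨S, hS⟩ := (Module.Finite.fg_top : (⊤ : Submodule k[X] R₁).FG)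
  -- common denominator
  have hsurj : ∀ g : R₁, ∃ (n : ℕ) (a : R₀),
      algebraMap R₁ R₀₁ g * algebraMap R₀ R₀₁ x ^ n = algebraMap R₀ R₀₁ a :=
    fun g => IsLocalization.Away.surj x (algebraMap R₁ R₀₁ g)
  choose nn aa haa using hsurj
  let N : ℕ := S.sup nn
  let a' : R₁ → R₀ := fun g => x ^ (N - nn g) * aa g
  have ha' : ∀ g ∈ S,
      algebraMap R₁ R₀₁ g * algebraMap R₀ R₀₁ x ^ N = algebraMap R₀ R₀₁ (a' g) := by
    intro g hg
    have hle : nn g ≤ N := Finset.le_sup hg
    have hN : N = (N - nn g) + nn g := (Nat.sub_add_cancel hle).symm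
    simp only [a', map_mul, map_pow]
    rw [← haa g]
    conv_lhs => rw [hN, pow_add]
    ring
  let D : ℕ := S.sup (fun g => Finset.univ.sup (fun i => (bas.repr (a' g) i).natDegree))
  -- the key degree bound
  have key : ∀ a ∈ interSubalgebra k R₀ R₁ R₀₁, ∀ i, (bas.repr a i).natDegree ≤ D := by
    intro a ha i
    obtain ⟨b, hb⟩ := mem_interSubalgebra.mp ha
    have hbS : b ∈ Submodule.span k[X] (S : Set R₁) := hS ▸ Submodule.mem_top
    obtain ⟨q, -, hq⟩ := Submodule.mem_span_finset.mp hbS
    let d : ℕ := S.sup (fun g => (q g).natDegree)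
    have hmain : (X ^ (N + d) : k[X]) • a = ∑ g ∈ S, reflect d (q g) • a' g := by
      apply hι₀
      rw [smul₀, map_sum, map_mul, ← hb, ← hq, map_sum, Finset.mul_sum]
      refine Finset.sum_congr rfl (fun g hg => ?_)
      have hdg : (q g).natDegree ≤ d := Finset.le_sup (f := fun g => (q g).natDegree) hg
      rw [smul₀, smul₁, map_mul, map_mul, ← aeval_algebraMap_apply, ← aeval_algebraMap_apply,
        ← aeval_algebraMap_apply, ← ha' g hg,
        ← aeval_mul_pow_eq_aeval_reflect (algebraMap R₀ R₀₁ x) (algebraMap R₁ R₀₁ y) xy (q g) d hdg]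
      simp only [pow_add, map_mul, map_pow, aeval_X]
      ring
    have hrepr : (X ^ (N + d) : k[X]) * bas.repr a i
        = ∑ g ∈ S, reflect d (q g) * bas.repr (a' g) i := by
      have := congrArg (fun r => bas.repr r i) hmain
      simpa [map_sum, Finsupp.finsetSum_apply] using this
    by_cases h0 : bas.repr a i = 0
    · rw [h0]; simp
    · have h1 : ((X ^ (N + d) : k[X]) * bas.repr a i).natDegree
          = (bas.repr a i).natDegree + (N + d) := natDegree_X_pow_mul _ h0
      have h2 : (∑ g ∈ S, reflect d (q g) * bas.repr (a' g) i).natDegree ≤ d + D := by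
        refine natDegree_sum_le_of_forall_le _ _ (fun g hg => ?_)
        refine natDegree_mul_le.trans (add_le_add ?_ ?_)
        · refine natDegree_reflect_le.trans ?_
          have hdg : (q g).natDegree ≤ d := Finset.le_sup (f := fun g => (q g).natDegree) hg
          simp [hdg]
        · have e1 : (bas.repr (a' g) i).natDegree
              ≤ Finset.univ.sup (fun i => (bas.repr (a' g) i).natDegree) :=
            Finset.le_sup (f := fun i => (bas.repr (a' g) i).natDegree) (Finset.mem_univ i)
          exact e1.trans (Finset.le_sup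
            (f := fun g => Finset.univ.sup (fun i => (bas.repr (a' g) i).natDegree)) hg)
      rw [hrepr] at h1
      omega
  -- the coefficient map
  have hC : ∀ (c : k) (r : R₀), c • r = (C c : k[X]) • r := by
    intro c r
    rw [smul₀, aeval_C, Algebra.smul_def]
  let Ψ : ↥(interSubalgebra k R₀ R₁ R₀₁) →ₗ[k]
      (Module.Free.ChooseBasisIndex k[X] R₀ → Fin (D + 1) → k) :=
    { toFun := fun a i m => (bas.repr (a : R₀) i).coeff m
      map_add' := by
        intro a b
        funext i m
        simp
      map_smul' := by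
        intro c a
        funext i m
        simp [hC] }
  have hΨ : Function.Injective Ψ := by
    rw [injective_iff_map_eq_zero]
    intro a ha
    have hz : ∀ i, bas.repr (a : R₀) i = 0 := by
      intro i
      ext m
      rw [coeff_zero]
      by_cases hm : m ≤ D
      · have := congrFun (congrFun ha i) ⟨m, Nat.lt_succ_of_le hm⟩
        simpa [Ψ] using this
      · exact coeff_eq_zero_of_natDegree_lt (lt_of_le_of_lt (key a a.2 i) (not_le.mp hm))
    have : bas.repr (a : R₀) = 0 := Finsupp.ext hz
    have h0 : (a : R₀) = 0 := by simpa using this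
    exact Subtype.ext h0
  exact Module.Finite.of_injective Ψ hΨ

/-- `R₀ ∩ R₁ = k`, abstract form. -/
theorem inter_eq_bot_core [IsAlgClosed k] [IsDomain R₀] [IsDomain R₁] (x : R₀) (y : R₁)
    [IsLocalization.Away x R₀₁] [IsLocalization.Away y R₀₁]
    (xy : algebraMap R₀ R₀₁ x * algebraMap R₁ R₀₁ y = 1)
    (hx : Transcendental k x)
    (fin₀ : (aeval x : k[X] →ₐ[k] R₀).toRingHom.Finite)
    (fin₁ : (aeval y : k[X] →ₐ[k] R₁).toRingHom.Finite)
    (a : R₀) (b : R₁) (hab : algebraMap R₀ R₀₁ a = algebraMap R₁ R₀₁ b) :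
    ∃ c : k, a = algebraMap k R₀ c ∧ b = algebraMap k R₁ c := by
  have hx0 : x ≠ 0 := by
    rintro rfl
    exact hx ⟨X, X_ne_zero, by simp⟩
  have hι₀ : Function.Injective (algebraMap R₀ R₀₁) :=
    IsLocalization.injective R₀₁ (powers_le_nonZeroDivisors_of_noZeroDivisors hx0)
  haveI : Nontrivial R₀₁ := hι₀.nontrivial
  have hy0 : y ≠ 0 := by
    rintro rfl
    rw [map_zero, mul_zero] at xy
    exact zero_ne_one xy
  have hι₁ : Function.Injective (algebraMap R₁ R₀₁) :=
    IsLocalization.injective R₀₁ (powers_le_nonZeroDivisors_of_noZeroDivisors hy0)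
  haveI : Module.Finite k ↥(interSubalgebra k R₀ R₁ R₀₁) := finite_inter x y xy hx fin₀ fin₁
  haveI : Algebra.IsIntegral k ↥(interSubalgebra k R₀ R₁ R₀₁) := Algebra.IsIntegral.of_finite k _
  have ha : a ∈ interSubalgebra k R₀ R₁ R₀₁ := mem_interSubalgebra.mpr ⟨b, hab.symm⟩
  obtain ⟨c, hc⟩ := (IsAlgClosed.algebraMap_bijective_of_isIntegral (k := k)
    (K := ↥(interSubalgebra k R₀ R₁ R₀₁))).2 ⟨a, ha⟩
  have hac : a = algebraMap k R₀ c := by
    have := congrArg (Subtype.val) hc
    simpa using this.symm
  refine ⟨c, hac, hι₁ ?_⟩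
  rw [← hab, hac, ← IsScalarTower.algebraMap_apply, ← IsScalarTower.algebraMap_apply]

/-- On a curve chart whose module of differentials is invertible, the coordinate `x` (over
which the chart is finite) is transcendental. -/
theorem transcendental_of_invertible_omega [IsAlgClosed k] {R : Type*} [CommRing R] [IsDomain R]
    [Algebra k R] (x : R) (fin : (aeval x : k[X] →ₐ[k] R).toRingHom.Finite)
    [Module.Invertible R (Ω[R⁄k])] : Transcendental k x := by
  intro halg
  have hint : IsIntegral k x := halg.isIntegral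
  obtain ⟨c, hc⟩ : x ∈ (algebraMap k R).range := minpoly.mem_range_of_degree_eq_one k x
    (IsAlgClosed.degree_eq_one_of_irreducible k (minpoly.irreducible hint))
  have hfin : Module.Finite k R := by
    letI : Algebra k[X] R := (aeval x : k[X] →ₐ[k] R).toRingHom.toAlgebra
    haveI : Module.Finite k[X] R := fin
    obtain ⟨S, hS⟩ := (Module.Finite.fg_top : (⊤ : Submodule k[X] R).FG)
    refine ⟨⟨S, ?_⟩⟩
    rw [eq_top_iff]
    rintro r -
    have hr : r ∈ Submodule.span k[X] (S : Set R) := hS ▸ Submodule.mem_top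
    induction hr using Submodule.span_induction with
    | mem s hs => exact Submodule.subset_span hs
    | zero => exact zero_mem _
    | add a b _ _ ha hb => exact add_mem ha hb
    | smul p a _ ha =>
      have h1 : p • a = (p.eval c) • a := by
        change aeval x p * a = _
        rw [← hc, Algebra.smul_def, aeval_algebraMap_apply]
        simp
      rw [h1]
      exact Submodule.smul_mem _ _ ha
  haveI := hfin
  haveI : Algebra.IsIntegral k R := Algebra.IsIntegral.of_finite k R
  have hsurj : Function.Surjective (algebraMap k R) :=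
    (IsAlgClosed.algebraMap_bijective_of_isIntegral (k := k) (K := R)).2
  haveI : Subsingleton (Ω[R⁄k]) := KaehlerDifferential.subsingleton_of_surjective k R hsurj
  have hbij := Module.Invertible.bijective (R := R) (M := Ω[R⁄k])
  obtain ⟨t, ht⟩ := hbij.2 1
  rw [Subsingleton.elim t 0, map_zero] at ht
  exact zero_ne_one ht

end Core

section LinearAlgebra

variable {k : Type*} [Field k] {V₀ V₁ V : Type*} [AddCommGroup V₀] [AddCommGroup V₁]
  [AddCommGroup V] [Module k V₀] [Module k V₁] [Module k V]

theorem toSpanSingleton_rTensor {W : Type*} [AddCommGroup W] [Module k W] (e : W)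
    (B : Type*) [AddCommGroup B] [Module k B] (t : k ⊗[k] B) :
    (LinearMap.toSpanSingleton k W e).rTensor B t = e ⊗ₜ[k] (TensorProduct.lid k B t) := by
  induction t using TensorProduct.induction_on with
  | zero => simp
  | tmul c m => simp [TensorProduct.smul_tmul]
  | add t₁ t₂ h₁ h₂ => simp only [map_add, TensorProduct.tmul_add, h₁, h₂]

/-- A fibre product of vector spaces that is a line stays a line after tensoring. -/
theorem pullback_line_baseChange (i₀ : V₀ →ₗ[k] V) (i₁ : V₁ →ₗ[k] V) (e₀ : V₀) (e₁ : V₁)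
    (he : i₀ e₀ = i₁ e₁)
    (h : ∀ a b, i₀ a = i₁ b → ∃ c : k, a = c • e₀ ∧ b = c • e₁)
    (B : Type*) [AddCommGroup B] [Module k B]
    (a : V₀ ⊗[k] B) (b : V₁ ⊗[k] B) (hab : i₀.rTensor B a = i₁.rTensor B b) :
    ∃ c : B, a = e₀ ⊗ₜ[k] c ∧ b = e₁ ⊗ₜ[k] c := by
  let f : k →ₗ[k] V₀ × V₁ := (LinearMap.toSpanSingleton k (V₀ × V₁) (e₀, e₁))
  let g : V₀ × V₁ →ₗ[k] V := i₀.coprod (-i₁)
  have hex : Function.Exact f g := by
    intro z
    constructor
    · intro hz
      have hz' : i₀ z.1 = i₁ z.2 := by
        have : i₀ z.1 - i₁ z.2 = 0 := by simpa [g, sub_eq_add_neg] using hz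
        exact sub_eq_zero.mp this
      obtain ⟨c, h1, h2⟩ := h z.1 z.2 hz'
      refine ⟨c, ?_⟩
      simp [f, LinearMap.toSpanSingleton_apply, Prod.ext_iff, h1, h2]
    · rintro ⟨c, rfl⟩
      simp [f, g, LinearMap.toSpanSingleton_apply, he]
  have hexB := Module.Flat.rTensor_exact B hex
  let z : (V₀ × V₁) ⊗[k] B :=
    (LinearMap.inl k V₀ V₁).rTensor B a + (LinearMap.inr k V₀ V₁).rTensor B b
  have hgz : g.rTensor B z = 0 := by
    have e1 : g ∘ₗ LinearMap.inl k V₀ V₁ = i₀ := LinearMap.coprod_inl _ _
    have e2 : g ∘ₗ LinearMap.inr k V₀ V₁ = -i₁ := LinearMap.coprod_inr _ _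
    simp only [z, map_add]
    rw [← LinearMap.comp_apply, ← LinearMap.comp_apply, ← LinearMap.rTensor_comp,
      ← LinearMap.rTensor_comp, e1, e2, LinearMap.rTensor_neg, LinearMap.neg_apply, hab]
    abel
  obtain ⟨t, ht⟩ := (hexB z).mp hgz
  refine ⟨TensorProduct.lid k B t, ?_, ?_⟩
  · have e1 : LinearMap.fst k V₀ V₁ ∘ₗ f = LinearMap.toSpanSingleton k V₀ e₀ := by
      ext; simp [f]
    have h1 : (LinearMap.fst k V₀ V₁).rTensor B z = a := by
      simp only [z, map_add]
      rw [← LinearMap.comp_apply, ← LinearMap.comp_apply, ← LinearMap.rTensor_comp,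
        ← LinearMap.rTensor_comp, LinearMap.fst_comp_inl, LinearMap.fst_comp_inr]
      simp
    have h2 : (LinearMap.fst k V₀ V₁).rTensor B (f.rTensor B t)
        = e₀ ⊗ₜ[k] (TensorProduct.lid k B t) := by
      rw [← LinearMap.comp_apply, ← LinearMap.rTensor_comp, e1]
      exact toSpanSingleton_rTensor _ B t
    rw [ht, h1] at h2
    exact h2
  · have e1 : LinearMap.snd k V₀ V₁ ∘ₗ f = LinearMap.toSpanSingleton k V₁ e₁ := by
      ext; simp [f]
    have h1 : (LinearMap.snd k V₀ V₁).rTensor B z = b := by
      simp only [z, map_add]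
      rw [← LinearMap.comp_apply, ← LinearMap.comp_apply, ← LinearMap.rTensor_comp,
        ← LinearMap.rTensor_comp, LinearMap.snd_comp_inl, LinearMap.snd_comp_inr]
      simp
    have h2 : (LinearMap.snd k V₀ V₁).rTensor B (f.rTensor B t)
        = e₁ ⊗ₜ[k] (TensorProduct.lid k B t) := by
      rw [← LinearMap.comp_apply, ← LinearMap.rTensor_comp, e1]
      exact toSpanSingleton_rTensor _ B t
    rw [ht, h1] at h2
    exact h2

end LinearAlgebra

section Datum

open Fermat.Agent.S25.helper1705

variable {k : Type u} [Field k] [IsAlgClosed k] (D : CurveDatum k)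

/-- The coordinate `x` of a curve datum is transcendental over `k`. -/
theorem x_transcendental : Transcendental k D.x :=
  transcendental_of_invertible_omega D.x D.finite₀

/-- The coordinate `y` of a curve datum is transcendental over `k`. -/
theorem y_transcendental : Transcendental k D.y :=
  transcendental_of_invertible_omega D.y D.finite₁

theorem x_ne_zero : D.x ≠ 0 := by
  intro h
  exact x_transcendental D ⟨X, X_ne_zero, by simp [h]⟩

theorem y_ne_zero : D.y ≠ 0 := by
  intro h
  exact y_transcendental D ⟨X, X_ne_zero, by simp [h]⟩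

/-- Restriction from the first chart to the overlap is injective. -/
theorem algebraMap₀_injective : Function.Injective (algebraMap D.R₀ D.R₀₁) :=
  IsLocalization.injective D.R₀₁ (powers_le_nonZeroDivisors_of_noZeroDivisors (x_ne_zero D))

/-- Restriction from the second chart to the overlap is injective. -/
theorem algebraMap₁_injective : Function.Injective (algebraMap D.R₁ D.R₀₁) :=
  IsLocalization.injective D.R₀₁ (powers_le_nonZeroDivisors_of_noZeroDivisors (y_ne_zero D))

/-- The overlap ring is a domain. -/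
theorem isDomain₀₁ : IsDomain D.R₀₁ :=
  IsLocalization.isDomain_of_le_nonZeroDivisors D.R₀₁
    (powers_le_nonZeroDivisors_of_noZeroDivisors (x_ne_zero D))

/-- **`R₀ ∩ R₁ = k`**: a function regular on both charts of the curve is a constant. -/
theorem inter_eq_bot (a : D.R₀) (b : D.R₁)
    (h : algebraMap D.R₀ D.R₀₁ a = algebraMap D.R₁ D.R₀₁ b) :
    ∃ c : k, a = algebraMap k D.R₀ c ∧ b = algebraMap k D.R₁ c :=
  inter_eq_bot_core D.x D.y D.xy (x_transcendental D) D.finite₀ D.finite₁ a b h

/-- The functions regular on both charts form a finite-dimensional space (even without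
algebraic closedness of `k` once `x` is transcendental; here for a curve datum). -/
theorem finite_interSubalgebra : Module.Finite k ↥(interSubalgebra k D.R₀ D.R₁ D.R₀₁) :=
  finite_inter D.x D.y D.xy (x_transcendental D) D.finite₀ D.finite₁

variable (B : Type u) [CommRing B] [Algebra k B]

omit [IsAlgClosed k] in
theorem res₀_eq_rTensor (t : D.A₀ B) :
    D.res₀ B t = (IsScalarTower.toAlgHom k D.R₀ D.R₀₁).toLinearMap.rTensor B t := by
  induction t using TensorProduct.induction_on with
  | zero => simp
  | tmul r b => simp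
  | add t₁ t₂ h₁ h₂ => rw [map_add, map_add, h₁, h₂]

omit [IsAlgClosed k] in
theorem res₁_eq_rTensor (t : D.A₁ B) :
    D.res₁ B t = (IsScalarTower.toAlgHom k D.R₁ D.R₀₁).toLinearMap.rTensor B t := by
  induction t using TensorProduct.induction_on with
  | zero => simp
  | tmul r b => simp
  | add t₁ t₂ h₁ h₂ => rw [map_add, map_add, h₁, h₂]

/-- Restriction from the first chart of `C ×ₖ Spec B` to the overlap is injective. -/
theorem res₀_injective : Function.Injective (D.res₀ B) := by
  have h := Module.Flat.rTensor_preserves_injective_linearMap (M := B)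
    (IsScalarTower.toAlgHom k D.R₀ D.R₀₁).toLinearMap (algebraMap₀_injective D)
  intro s t hst
  apply h
  rw [← res₀_eq_rTensor, ← res₀_eq_rTensor, hst]

/-- Restriction from the second chart of `C ×ₖ Spec B` to the overlap is injective. -/
theorem res₁_injective : Function.Injective (D.res₁ B) := by
  have h := Module.Flat.rTensor_preserves_injective_linearMap (M := B)
    (IsScalarTower.toAlgHom k D.R₁ D.R₀₁).toLinearMap (algebraMap₁_injective D)
  intro s t hst
  apply h
  rw [← res₁_eq_rTensor, ← res₁_eq_rTensor, hst]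

/-- **`H⁰(C_B, 𝒪) = B` for every `k`-algebra `B`**: a pair of functions on the two charts of
`C ×ₖ Spec B` that agree on the overlap comes from a unique element of `B`. -/
theorem inter_eq_bot_baseChange (a : D.A₀ B) (b : D.A₁ B) (h : D.res₀ B a = D.res₁ B b) :
    ∃ c : B, a = (1 : D.R₀) ⊗ₜ[k] c ∧ b = (1 : D.R₁) ⊗ₜ[k] c := by
  refine pullback_line_baseChange (IsScalarTower.toAlgHom k D.R₀ D.R₀₁).toLinearMap
    (IsScalarTower.toAlgHom k D.R₁ D.R₀₁).toLinearMap (1 : D.R₀) (1 : D.R₁) (by simp) ?_ B a b ?_
  · intro a b hab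
    obtain ⟨c, h1, h2⟩ := inter_eq_bot D a b (by simpa using hab)
    exact ⟨c, by rw [h1, Algebra.algebraMap_eq_smul_one], by rw [h2, Algebra.algebraMap_eq_smul_one]⟩
  · rw [← res₀_eq_rTensor, ← res₁_eq_rTensor, h]

omit [IsAlgClosed k] in
/-- Uniqueness of the constant in `inter_eq_bot_baseChange`. -/
theorem one_tmul_injective₀ : Function.Injective (fun c : B => ((1 : D.R₀) ⊗ₜ[k] c : D.A₀ B)) := by
  intro c c' h
  have hinj : Function.Injective (algebraMap k D.R₀) := (algebraMap k D.R₀).injective
  have h2 := Module.Flat.rTensor_preserves_injective_linearMap (M := B)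
    (Algebra.linearMap k D.R₀) hinj
  have h3 : (Algebra.linearMap k D.R₀).rTensor B ((1 : k) ⊗ₜ[k] c)
      = (Algebra.linearMap k D.R₀).rTensor B ((1 : k) ⊗ₜ[k] c') := by
    simpa using h
  have h4 := h2 h3
  have h5 := congrArg (TensorProduct.lid k B) h4
  simpa using h5

end Datum

end Fermat.Agent.S25.helper1167
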