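import Fermat.Agent.S25.helper1705_Curve

/-!
# S25 (helper1800): basic consequences of a `CurveDatum`

Algebra-side theorems about `helper1705.CurveDatum k` that are listed in the docstring of
`helper1705_Curve` as consequences of the axioms (for `k` algebraically closed):

* `x`, `y` are transcendental over `k` (`transcendental_x`, `aeval_x_injective`, ...), in
  particular nonzero, and `x` is not a unit of `R₀`;
* `R₀`, `R₁`, `R₀₁` are `k`-algebras of finite type (hence noetherian);
* `R₀₁` is a domain and `R₀ → R₀₁`, `R₁ → R₀₁` are injective;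
* `R₀` is finite free over `k[x]` and `R₁` is finite free over `k[y]`, in an instance-free
  basis form (`exists_basis₀`, `exists_basis₁`).

The generic statements (any `k`-algebra `R` finite over `k[x]`) come first.
-/

set_option autoImplicit false

open TensorProduct Polynomial

namespace Fermat.Agent.S25.helper1800

universe u

section Generic

variable {k R : Type*} [Field k] [CommRing R] [Algebra k R] (x : R)

/-- If `R` is finite over `k[x]` and `x` is algebraic over `k`, then `R` is integral over `k`. -/
theorem isIntegral_of_finite_aeval_of_isAlgebraic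
    (hfin : (Polynomial.aeval x : Polynomial k →ₐ[k] R).toRingHom.Finite)
    (hx : IsAlgebraic k x) : Algebra.IsIntegral k R := by
  have hA : Algebra.IsIntegral k (Algebra.adjoin k {x}) :=
    Algebra.IsIntegral.adjoin (by
      intro y hy
      rw [Set.mem_singleton_iff] at hy
      subst hy
      exact hx.isIntegral)
  have hR : Algebra.IsIntegral (Algebra.adjoin k {x}) R := by
    refine ⟨fun r => ?_⟩
    obtain ⟨P, hP, hr⟩ := hfin.to_isIntegral r
    have hmem : ∀ p : Polynomial k, Polynomial.aeval x p ∈ Algebra.adjoin k {x} := by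
      intro p
      rw [Algebra.adjoin_singleton_eq_range_aeval]
      exact ⟨p, rfl⟩
    let g : Polynomial k →+* Algebra.adjoin k {x} :=
      RingHom.codRestrict (Polynomial.aeval x : Polynomial k →ₐ[k] R).toRingHom
        (Algebra.adjoin k {x}) hmem
    refine ⟨P.map g, hP.map g, ?_⟩
    rw [Polynomial.eval₂_map]
    exact hr
  exact Algebra.IsIntegral.trans (R := k) (A := Algebra.adjoin k {x}) (B := R)

/-- A nontrivial ring has no invertible module that is a subsingleton. -/
theorem not_subsingleton_of_invertible (S : Type*) [CommRing S] [Nontrivial S]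
    (M : Type*) [AddCommGroup M] [Module S M] [Module.Invertible S M] : ¬ Subsingleton M := by
  intro h
  have h0 : ∀ t : Module.Dual S M ⊗[S] M, t = 0 := by
    intro t
    induction t using TensorProduct.induction_on with
    | zero => rfl
    | tmul φ m => rw [Subsingleton.elim m 0, tmul_zero]
    | add a b ha hb => rw [ha, hb, add_zero]
  obtain ⟨t, ht⟩ := (Module.Invertible.bijective (R := S) (M := M)).2 1
  rw [h0 t, map_zero] at ht
  exact zero_ne_one ht

/-- **`x` is transcendental.** Over an algebraically closed field `k`, if the domain `R` is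
finite over `k[x]` and `Ω[R⁄k]` is invertible, then `x` is transcendental over `k`. -/
theorem transcendental_of_finite_aeval [IsAlgClosed k] [IsDomain R]
    [Module.Invertible R Ω[R⁄k]]
    (hfin : (Polynomial.aeval x : Polynomial k →ₐ[k] R).toRingHom.Finite) :
    Transcendental k x := by
  intro hx
  have := isIntegral_of_finite_aeval_of_isAlgebraic x hfin hx
  have hb := IsAlgClosed.algebraMap_bijective_of_isIntegral (k := k) (K := R)
  have := KaehlerDifferential.subsingleton_of_surjective k R hb.2
  exact not_subsingleton_of_invertible R Ω[R⁄k] this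

/-- If `R` is finite over `k[x]`, then `R` is a `k`-algebra of finite type. -/
theorem finiteType_of_finite_aeval
    (hfin : (Polynomial.aeval x : Polynomial k →ₐ[k] R).toRingHom.Finite) :
    Algebra.FiniteType k R := by
  rw [← RingHom.finiteType_algebraMap]
  have h1 : algebraMap k R =
      (Polynomial.aeval x : Polynomial k →ₐ[k] R).toRingHom.comp (algebraMap k (Polynomial k)) := by
    ext c
    simp
  rw [h1]
  exact RingHom.FiniteType.comp hfin.finiteType
    (RingHom.finiteType_algebraMap.mpr inferInstance)

/-- **Freeness over `k[x]`, basis form.** If the domain `R` is finite over `k[x]` and `x` is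
transcendental over `k`, then `R` is a free `k[x]`-module of finite positive rank: there are
`b₁, …, bₙ` such that every element is uniquely `∑ pᵢ(x) bᵢ` with `pᵢ ∈ k[X]`. -/
theorem exists_basis_of_finite_aeval [IsDomain R]
    (hfin : (Polynomial.aeval x : Polynomial k →ₐ[k] R).toRingHom.Finite)
    (hx : Transcendental k x) :
    ∃ (n : ℕ) (b : Fin n → R), 0 < n ∧
      ∀ r : R, ∃! p : Fin n → Polynomial k, r = ∑ i, Polynomial.aeval x (p i) * b i := by
  letI : Algebra (Polynomial k) R := (Polynomial.aeval x : Polynomial k →ₐ[k] R).toRingHom.toAlgebra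
  have hsmul : ∀ (p : Polynomial k) (r : R), p • r = Polynomial.aeval x p * r := fun p r => by
    rw [Algebra.smul_def]; rfl
  haveI : Module.Finite (Polynomial k) R := hfin
  haveI : Module.IsTorsionFree (Polynomial k) R :=
    Module.isTorsionFree_iff_algebraMap_injective.mpr (transcendental_iff_injective.mp hx)
  obtain ⟨n, b⟩ := Module.basisOfFiniteTypeTorsionFree' (R := Polynomial k) (M := R)
  refine ⟨n, b, ?_, fun r => ⟨fun i => b.repr r i, ?_, ?_⟩⟩
  · rcases Nat.eq_zero_or_pos n with h0 | h0
    · subst h0
      have : (1 : R) = 0 := by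
        have := b.sum_repr (1 : R)
        simpa using this.symm
      exact absurd this one_ne_zero
    · exact h0
  · have := b.sum_repr r
    simp only [hsmul] at this
    exact this.symm
  · intro p hp
    have h2 : r = ∑ i, p i • b i := by
      simp only [hsmul]; exact hp
    funext i
    rw [h2, b.repr_sum_self]

/-- If `R` is finite over `k[x]` and `x` is transcendental, then `x` is not a unit of `R`. -/
theorem not_isUnit_of_finite_aeval [IsDomain R]
    (hfin : (Polynomial.aeval x : Polynomial k →ₐ[k] R).toRingHom.Finite)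
    (hx : Transcendental k x) : ¬ IsUnit x := by
  rintro ⟨u, hu⟩
  obtain ⟨P, hP, hr⟩ := hfin.to_isIntegral (↑u⁻¹ : R)
  set f : Polynomial k →+* R := (Polynomial.aeval x : Polynomial k →ₐ[k] R).toRingHom with hf
  -- reverse the integrality equation of `x⁻¹` to get an equation for `x`
  letI : Invertible (↑u⁻¹ : R) := ⟨x, by rw [← hu]; simp, by rw [← hu]; simp⟩
  have h1 : Polynomial.eval₂ f x P.reverse = 0 := by
    have h2 := Polynomial.eval₂_reverse_mul_pow f (↑u⁻¹ : R) P
    rw [hr] at h2
    have h3 : ⅟(↑u⁻¹ : R) = x := rfl
    rw [h3] at h2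
    have hunit : IsUnit ((↑u⁻¹ : R) ^ P.natDegree) := (Units.isUnit u⁻¹).pow _
    exact (hunit.mul_left_eq_zero).mp h2
  -- substitute `Y ↦ X`
  have h4 : Polynomial.aeval x (P.reverse.eval₂ (RingHom.id _) Polynomial.X) = 0 := by
    have := Polynomial.hom_eval₂ P.reverse (RingHom.id (Polynomial k)) f Polynomial.X
    rw [RingHom.comp_id] at this
    have hfX : f Polynomial.X = x := by simp [hf]
    rw [hfX] at this
    change f _ = 0
    rw [this, h1]
  have h5 : P.reverse.eval₂ (RingHom.id _) Polynomial.X = 0 :=
    (transcendental_iff_injective.mp hx) (by rw [h4, map_zero])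
  -- evaluate at `X = 0`
  have h6 := congrArg (Polynomial.evalRingHom (0 : k)) h5
  rw [Polynomial.hom_eval₂, map_zero] at h6
  simp only [Polynomial.coe_evalRingHom, Polynomial.eval_X, RingHom.comp_id] at h6
  rw [Polynomial.eval₂_at_zero, Polynomial.coeff_zero_reverse, hP.leadingCoeff] at h6
  simp at h6

end Generic

section Datum

open helper1705

variable {k : Type u} [Field k] (D : CurveDatum k)

/-- `R₀` is a `k`-algebra of finite type. -/
theorem finiteType₀ : Algebra.FiniteType k D.R₀ := finiteType_of_finite_aeval D.x D.finite₀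

/-- `R₁` is a `k`-algebra of finite type. -/
theorem finiteType₁ : Algebra.FiniteType k D.R₁ := finiteType_of_finite_aeval D.y D.finite₁

/-- `R₀₁` is a `k`-algebra of finite type. -/
theorem finiteType₀₁ : Algebra.FiniteType k D.R₀₁ := by
  haveI := finiteType₀ D
  haveI : Algebra.FiniteType D.R₀ D.R₀₁ := IsLocalization.finiteType_of_monoid_fg
    (Submonoid.powers D.x) D.R₀₁
  exact Algebra.FiniteType.trans (R := k) (S := D.R₀) (A := D.R₀₁) inferInstance inferInstance

/-- `R₀` is noetherian. -/
theorem isNoetherianRing₀ : IsNoetherianRing D.R₀ :=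
  haveI := finiteType₀ D
  Algebra.FiniteType.isNoetherianRing k D.R₀

/-- `R₁` is noetherian. -/
theorem isNoetherianRing₁ : IsNoetherianRing D.R₁ :=
  haveI := finiteType₁ D
  Algebra.FiniteType.isNoetherianRing k D.R₁

/-- `R₀₁` is noetherian. -/
theorem isNoetherianRing₀₁ : IsNoetherianRing D.R₀₁ :=
  haveI := finiteType₀₁ D
  Algebra.FiniteType.isNoetherianRing k D.R₀₁

variable [IsAlgClosed k]

/-- `x` is transcendental over `k`. -/
theorem transcendental_x : Transcendental k D.x := transcendental_of_finite_aeval D.x D.finite₀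

/-- `y` is transcendental over `k`. -/
theorem transcendental_y : Transcendental k D.y := transcendental_of_finite_aeval D.y D.finite₁

/-- `k[X] → R₀`, `X ↦ x` is injective. -/
theorem aeval_x_injective :
    Function.Injective (Polynomial.aeval D.x : Polynomial k →ₐ[k] D.R₀) :=
  transcendental_iff_injective.mp (transcendental_x D)

/-- `k[X] → R₁`, `X ↦ y` is injective. -/
theorem aeval_y_injective :
    Function.Injective (Polynomial.aeval D.y : Polynomial k →ₐ[k] D.R₁) :=
  transcendental_iff_injective.mp (transcendental_y D)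

theorem x_ne_zero : D.x ≠ 0 := fun h =>
  transcendental_x D (h ▸ isAlgebraic_zero)

theorem y_ne_zero : D.y ≠ 0 := fun h =>
  transcendental_y D (h ▸ isAlgebraic_zero)

/-- `x` is not a unit of `R₀` (the function `x` has a zero on the first chart). -/
theorem not_isUnit_x : ¬ IsUnit D.x :=
  not_isUnit_of_finite_aeval D.x D.finite₀ (transcendental_x D)

/-- `y` is not a unit of `R₁`. -/
theorem not_isUnit_y : ¬ IsUnit D.y :=
  not_isUnit_of_finite_aeval D.y D.finite₁ (transcendental_y D)

theorem powers_x_le_nonZeroDivisors : Submonoid.powers D.x ≤ nonZeroDivisors D.R₀ :=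
  Submonoid.powers_le.mpr (mem_nonZeroDivisors_of_ne_zero (x_ne_zero D))

theorem powers_y_le_nonZeroDivisors : Submonoid.powers D.y ≤ nonZeroDivisors D.R₁ :=
  Submonoid.powers_le.mpr (mem_nonZeroDivisors_of_ne_zero (y_ne_zero D))

/-- The overlap ring `R₀₁` is a domain. -/
theorem isDomain₀₁ : IsDomain D.R₀₁ :=
  IsLocalization.isDomain_of_le_nonZeroDivisors D.R₀₁ (powers_x_le_nonZeroDivisors D)

/-- `R₀ → R₀₁` is injective. -/
theorem algebraMap₀_injective : Function.Injective (algebraMap D.R₀ D.R₀₁) :=
  IsLocalization.injective D.R₀₁ (powers_x_le_nonZeroDivisors D)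

/-- `R₁ → R₀₁` is injective. -/
theorem algebraMap₁_injective : Function.Injective (algebraMap D.R₁ D.R₀₁) :=
  IsLocalization.injective D.R₀₁ (powers_y_le_nonZeroDivisors D)

/-- **`R₀` is finite free over `k[x]`** (basis form). -/
theorem exists_basis₀ :
    ∃ (n : ℕ) (b : Fin n → D.R₀), 0 < n ∧
      ∀ r : D.R₀, ∃! p : Fin n → Polynomial k, r = ∑ i, Polynomial.aeval D.x (p i) * b i :=
  exists_basis_of_finite_aeval D.x D.finite₀ (transcendental_x D)

/-- **`R₁` is finite free over `k[y]`** (basis form). -/
theorem exists_basis₁ :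
    ∃ (n : ℕ) (b : Fin n → D.R₁), 0 < n ∧
      ∀ r : D.R₁, ∃! p : Fin n → Polynomial k, r = ∑ i, Polynomial.aeval D.y (p i) * b i :=
  exists_basis_of_finite_aeval D.y D.finite₁ (transcendental_y D)

end Datum

end Fermat.Agent.S25.helper1800
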