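import Fermat.Agent.S25.helper2945_AlgDefs
import Fermat.Agent.S25.helper1800_CurveDatumBasics

/-!
# S25, leaf LC-API (backup helper1804): lattice view of a two-chart line bundle

API on top of `helper2945.GlueDatum`:

* regularity of `x ⊗ 1` on `D.A₀ B` and of `y ⊗ 1` on `D.A₁ B`, injectivity of `ρ₀`, `ρ₁`;
* the lattice view `(N, T, Λ₀, Λ₁)`: `N = M₀₁` as a `B`-module, `T` = multiplication by `x`
  (a `B`-linear automorphism), `Λ₀ = range ρ₀`, `Λ₁ = range ρ₁`;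
  stability, exhaustion, `range delta = Λ₀ ⊔ Λ₁`, `H¹ ≃ N ⧸ (Λ₀ ⊔ Λ₁)`, `H⁰ ≃ Λ₀ ⊓ Λ₁`.
-/

set_option autoImplicit false

open TensorProduct

namespace Fermat.Agent.S25.helper1804

open Fermat.Agent.S25.helper1705 Fermat.Agent.S25.helper2945

universe u

section Regular

variable {k : Type u} [Field k] (D : CurveDatum k) (B : Type u) [CommRing B] [Algebra k B]

theorem xB_eq_algebraMap : xB D B = algebraMap D.R₀ (D.A₀ B) D.x := by
  rw [Algebra.TensorProduct.algebraMap_apply]; rfl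

theorem yB_eq_algebraMap : yB D B = algebraMap D.R₁ (D.A₁ B) D.y := by
  rw [Algebra.TensorProduct.algebraMap_apply]; rfl

/-- `x ⊗ 1` is a nonzerodivisor of `R₀ ⊗ B` as soon as `x ≠ 0`. -/
theorem isSMulRegular_xB (hx : D.x ≠ 0) : IsSMulRegular (D.A₀ B) (xB D B) := by
  rw [xB_eq_algebraMap]
  exact IsSMulRegular.of_flat (IsLeftRegular.isSMulRegular (IsRegular.of_ne_zero hx).left)

/-- `y ⊗ 1` is a nonzerodivisor of `R₁ ⊗ B` as soon as `y ≠ 0`. -/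
theorem isSMulRegular_yB (hy : D.y ≠ 0) : IsSMulRegular (D.A₁ B) (yB D B) := by
  rw [yB_eq_algebraMap]
  exact IsSMulRegular.of_flat (IsLeftRegular.isSMulRegular (IsRegular.of_ne_zero hy).left)

theorem isRegular_xB (hx : D.x ≠ 0) : IsRegular (xB D B) :=
  ⟨(isSMulRegular_xB D B hx), fun a b h => isSMulRegular_xB D B hx (by
    simpa [mul_comm, smul_eq_mul] using h)⟩

theorem isRegular_yB (hy : D.y ≠ 0) : IsRegular (yB D B) :=
  ⟨(isSMulRegular_yB D B hy), fun a b h => isSMulRegular_yB D B hy (by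
    simpa [mul_comm, smul_eq_mul] using h)⟩

end Regular

variable {k : Type u} [Field k] {D : CurveDatum k} {B : Type u} [CommRing B] [Algebra k B]

namespace Lattice

variable (G : GlueDatum D B)

/-! ### Injectivity of the restriction maps -/

theorem smul_xB_pow_eq_zero (hx : D.x ≠ 0) (n : ℕ) {m : G.M₀} (h : xB D B ^ n • m = 0) :
    m = 0 := by
  have hreg : IsSMulRegular G.M₀ (xB D B ^ n) :=
    Module.Flat.isSMulRegular_of_isRegular ((isRegular_xB D B hx).pow n)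
  exact hreg (by simpa using h)

theorem smul_yB_pow_eq_zero (hy : D.y ≠ 0) (n : ℕ) {m : G.M₁} (h : yB D B ^ n • m = 0) :
    m = 0 := by
  have hreg : IsSMulRegular G.M₁ (yB D B ^ n) :=
    Module.Flat.isSMulRegular_of_isRegular ((isRegular_yB D B hy).pow n)
  exact hreg (by simpa using h)

/-- `ρ₀` is injective as soon as `x ≠ 0`. -/
theorem ρ₀_injective_of_ne_zero (hx : D.x ≠ 0) : Function.Injective G.ρ₀ := by
  rw [injective_iff_map_eq_zero]
  intro m hm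
  obtain ⟨⟨_, n, rfl⟩, hs⟩ :=
    (IsLocalizedModule.eq_zero_iff (Submonoid.powers (xB D B)) G.ρ₀).mp hm
  exact smul_xB_pow_eq_zero G hx n hs

/-- `ρ₁` is injective as soon as `y ≠ 0`. -/
theorem ρ₁_injective_of_ne_zero (hy : D.y ≠ 0) : Function.Injective G.ρ₁ := by
  rw [injective_iff_map_eq_zero]
  intro m hm
  obtain ⟨⟨_, n, rfl⟩, hs⟩ :=
    (IsLocalizedModule.eq_zero_iff (Submonoid.powers (yB D B)) G.ρ₁).mp hm
  exact smul_yB_pow_eq_zero G hy n hs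

/-- `ρ₀` is injective (`k` algebraically closed). -/
theorem ρ₀_injective [IsAlgClosed k] : Function.Injective G.ρ₀ :=
  ρ₀_injective_of_ne_zero G (helper1800.x_ne_zero D)

/-- `ρ₁` is injective (`k` algebraically closed). -/
theorem ρ₁_injective [IsAlgClosed k] : Function.Injective G.ρ₁ :=
  ρ₁_injective_of_ne_zero G (helper1800.y_ne_zero D)

/-! ### The lattice view -/

/-- The image of `x` in the overlap ring. -/
noncomputable def x₀₁ (D : CurveDatum k) (B : Type u) [CommRing B] [Algebra k B] : D.A₀₁ B :=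
  algebraMap (D.A₀ B) (D.A₀₁ B) (xB D B)

/-- The image of `y` in the overlap ring. -/
noncomputable def y₀₁ (D : CurveDatum k) (B : Type u) [CommRing B] [Algebra k B] : D.A₀₁ B :=
  algebraMap (D.A₁ B) (D.A₀₁ B) (yB D B)

theorem x₀₁_mul_y₀₁ : x₀₁ D B * y₀₁ D B = 1 := xB_mul_yB D B

theorem y₀₁_mul_x₀₁ : y₀₁ D B * x₀₁ D B = 1 := by rw [mul_comm]; exact xB_mul_yB D B

theorem xB_smul₀₁ (n : G.M₀₁) : xB D B • n = x₀₁ D B • n := by
  rw [x₀₁, algebraMap_smul]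

theorem yB_smul₀₁ (n : G.M₀₁) : yB D B • n = y₀₁ D B • n := by
  rw [y₀₁, algebraMap_smul]

/-- Multiplication by `x` on the sections over the overlap, as a `B`-linear automorphism. -/
noncomputable def T : G.M₀₁ ≃ₗ[B] G.M₀₁ where
  toFun n := x₀₁ D B • n
  invFun n := y₀₁ D B • n
  map_add' _ _ := smul_add _ _ _
  map_smul' b n := by
    simp only [RingHom.id_apply]
    rw [GlueDatum.smul_def₀₁, GlueDatum.smul_def₀₁, smul_smul, smul_smul, mul_comm]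
  left_inv n := by simp only [smul_smul, y₀₁_mul_x₀₁, one_smul]
  right_inv n := by simp only [smul_smul, x₀₁_mul_y₀₁, one_smul]

@[simp] theorem T_apply (n : G.M₀₁) : T G n = x₀₁ D B • n := rfl

@[simp] theorem T_symm_apply (n : G.M₀₁) : (T G).symm n = y₀₁ D B • n := rfl

theorem T_apply' (n : G.M₀₁) : T G n = xB D B • n := (xB_smul₀₁ G n).symm

theorem T_symm_apply' (n : G.M₀₁) : (T G).symm n = yB D B • n := (yB_smul₀₁ G n).symm

theorem T_pow_apply (j : ℕ) (n : G.M₀₁) : (T G ^ j) n = x₀₁ D B ^ j • n := by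
  induction j generalizing n with
  | zero => simp
  | succ j ih =>
    rw [pow_succ, LinearEquiv.mul_apply, ih, T_apply, smul_smul, pow_succ]

theorem T_symm_pow_apply (j : ℕ) (n : G.M₀₁) : ((T G).symm ^ j) n = y₀₁ D B ^ j • n := by
  induction j generalizing n with
  | zero => simp
  | succ j ih =>
    rw [pow_succ, LinearEquiv.mul_apply, ih, T_symm_apply, smul_smul, pow_succ]

theorem T_zpow_natCast_apply (j : ℕ) (n : G.M₀₁) : (T G ^ (j : ℤ)) n = x₀₁ D B ^ j • n := by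
  rw [zpow_natCast, T_pow_apply]

theorem T_zpow_neg_natCast_apply (j : ℕ) (n : G.M₀₁) :
    (T G ^ (-(j : ℤ))) n = y₀₁ D B ^ j • n := by
  rw [zpow_neg, zpow_natCast, ← inv_pow]
  exact T_symm_pow_apply G j n

/-- The lattice of sections over the first chart. -/
noncomputable def Λ₀ : Submodule B G.M₀₁ := LinearMap.range G.ρ₀B

/-- The lattice of sections over the chart at infinity. -/
noncomputable def Λ₁ : Submodule B G.M₀₁ := LinearMap.range G.ρ₁B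

theorem mem_Λ₀ {n : G.M₀₁} : n ∈ Λ₀ G ↔ ∃ m : G.M₀, G.ρ₀ m = n := Iff.rfl

theorem mem_Λ₁ {n : G.M₀₁} : n ∈ Λ₁ G ↔ ∃ m : G.M₁, G.ρ₁ m = n := Iff.rfl

theorem ρ₀_mem_Λ₀ (m : G.M₀) : G.ρ₀ m ∈ Λ₀ G := ⟨m, rfl⟩

theorem ρ₁_mem_Λ₁ (m : G.M₁) : G.ρ₁ m ∈ Λ₁ G := ⟨m, rfl⟩

theorem T_ρ₀ (m : G.M₀) : T G (G.ρ₀ m) = G.ρ₀ (xB D B • m) := by
  rw [T_apply', map_smul]

theorem T_symm_ρ₁ (m : G.M₁) : (T G).symm (G.ρ₁ m) = G.ρ₁ (yB D B • m) := by
  rw [T_symm_apply', map_smul]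

/-- `Λ₀` is stable under multiplication by `x`. -/
theorem stable₀ : ∀ n ∈ Λ₀ G, T G n ∈ Λ₀ G := by
  rintro _ ⟨m, rfl⟩
  exact ⟨xB D B • m, (T_ρ₀ G m).symm⟩

/-- `Λ₁` is stable under multiplication by `y = x⁻¹`. -/
theorem stable₁ : ∀ n ∈ Λ₁ G, (T G).symm n ∈ Λ₁ G := by
  rintro _ ⟨m, rfl⟩
  exact ⟨yB D B • m, (T_symm_ρ₁ G m).symm⟩

/-- Every section over the overlap becomes regular on the first chart after multiplication by a
power of `x`. -/
theorem exh₀ (n : G.M₀₁) : ∃ j : ℕ, (T G ^ (j : ℤ)) n ∈ Λ₀ G := by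
  obtain ⟨⟨m, ⟨_, j, rfl⟩⟩, h⟩ := IsLocalizedModule.surj (Submonoid.powers (xB D B)) G.ρ₀ n
  refine ⟨j, m, ?_⟩
  rw [T_zpow_natCast_apply]
  have h' : xB D B ^ j • n = G.ρ₀ m := h
  rw [GlueDatum.ρ₀B_apply, ← h', x₀₁, ← map_pow, algebraMap_smul]

/-- Every section over the overlap becomes regular on the chart at infinity after multiplication
by a power of `y`. -/
theorem exh₁ (n : G.M₀₁) : ∃ j : ℕ, (T G ^ (-(j : ℤ))) n ∈ Λ₁ G := by
  obtain ⟨⟨m, ⟨_, j, rfl⟩⟩, h⟩ := IsLocalizedModule.surj (Submonoid.powers (yB D B)) G.ρ₁ n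
  refine ⟨j, m, ?_⟩
  rw [T_zpow_neg_natCast_apply]
  have h' : yB D B ^ j • n = G.ρ₁ m := h
  rw [GlueDatum.ρ₁B_apply, ← h', y₀₁, ← map_pow, algebraMap_smul]

/-- The image of the Čech differential is `Λ₀ + Λ₁`. -/
theorem range_delta : LinearMap.range G.delta = Λ₀ G ⊔ Λ₁ G := by
  rw [GlueDatum.delta, LinearMap.range_coprod, LinearMap.range_neg]
  rfl

/-- `H¹` in lattice form. -/
noncomputable def H1Equiv : G.H1 ≃ₗ[B] G.M₀₁ ⧸ (Λ₀ G ⊔ Λ₁ G) :=
  Submodule.quotEquivOfEq _ _ (range_delta G)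

@[simp] theorem H1Equiv_mk (n : G.M₀₁) :
    H1Equiv G (Submodule.Quotient.mk n) = Submodule.Quotient.mk n := rfl

/-- `H¹ = 0` iff `Λ₀ + Λ₁` is everything. -/
theorem subsingleton_H1_iff : Subsingleton G.H1 ↔ Λ₀ G ⊔ Λ₁ G = ⊤ := by
  rw [← range_delta]
  exact Submodule.Quotient.subsingleton_iff

/-- The map `H⁰ → Λ₀ ⊓ Λ₁`, `(a, b) ↦ a|₀₁ = b|₀₁`. -/
noncomputable def H0ToInf : G.H0 →ₗ[B] ↥(Λ₀ G ⊓ Λ₁ G) :=
  LinearMap.codRestrict _ (G.ρ₀B.comp ((LinearMap.fst B G.M₀ G.M₁).comp G.H0.subtype))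
    (fun p => ⟨⟨p.1.1, rfl⟩, ⟨p.1.2, by
      have := (G.mem_H0 p.1).mp p.2
      simpa using this.symm⟩⟩)

@[simp] theorem H0ToInf_apply (p : G.H0) : (H0ToInf G p : G.M₀₁) = G.ρ₀ p.1.1 := rfl

theorem H0ToInf_surjective : Function.Surjective (H0ToInf G) := by
  rintro ⟨n, ⟨a, ha⟩, ⟨b, hb⟩⟩
  refine ⟨⟨(a, b), (G.mem_H0 _).mpr ?_⟩, Subtype.ext ha⟩
  simpa using ha.trans hb.symm

theorem H0ToInf_injective (h₀ : Function.Injective G.ρ₀) (h₁ : Function.Injective G.ρ₁) :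
    Function.Injective (H0ToInf G) := by
  rintro ⟨⟨a, b⟩, hp⟩ ⟨⟨a', b'⟩, hp'⟩ h
  have h1 : G.ρ₀ a = G.ρ₀ a' := congrArg Subtype.val h
  have h2 : G.ρ₁ b = G.ρ₁ b' := by
    rw [← (G.mem_H0 _).mp hp, ← (G.mem_H0 _).mp hp']; exact h1
  exact Subtype.ext (Prod.ext (h₀ h1) (h₁ h2))

/-- `H⁰ ≃ Λ₀ ⊓ Λ₁` when the restriction maps are injective. -/
noncomputable def H0EquivOfInjective (h₀ : Function.Injective G.ρ₀)
    (h₁ : Function.Injective G.ρ₁) : G.H0 ≃ₗ[B] ↥(Λ₀ G ⊓ Λ₁ G) :=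
  LinearEquiv.ofBijective (H0ToInf G) ⟨H0ToInf_injective G h₀ h₁, H0ToInf_surjective G⟩

/-- `H⁰ ≃ Λ₀ ⊓ Λ₁` (`k` algebraically closed). -/
noncomputable def H0Equiv [IsAlgClosed k] : G.H0 ≃ₗ[B] ↥(Λ₀ G ⊓ Λ₁ G) :=
  H0EquivOfInjective G (ρ₀_injective G) (ρ₁_injective G)

@[simp] theorem H0Equiv_apply [IsAlgClosed k] (p : G.H0) :
    (H0Equiv G p : G.M₀₁) = G.ρ₀ p.1.1 := rfl

end Lattice

end Fermat.Agent.S25.helper1804
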