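import Mathlib
import Fermat.Agent.S25.helper1705_Curve

/-!
# S25, brick CB: the base-changed rings of a curve datum (helper6786)

For a two-chart curve datum `D : CurveDatum k` and a `k`-algebra `B`, the rings
`D.A₀ B = D.R₀ ⊗[k] B`, `D.A₁ B`, `D.A₀₁ B` of the two charts of `C ×ₖ Spec B` and of their
overlap form again a "two-chart ring datum", now over `B`.  This file provides, once and for
all, the instances and lemmas needed to instantiate unbundled two-chart statements
(`A₀ A₁ A₀₁` algebras over `B`, `x : A₀`, `y : A₁`, `A₀₁ = A₀[1/x] = A₁[1/y]`, `x * y = 1`)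
at these rings.

Only Mathlib and `helper1705_Curve` are imported.
-/

set_option autoImplicit false

universe u

open scoped TensorProduct

open Fermat.Agent.S25.helper1705

noncomputable section

namespace Fermat.Agent.S25.helper6786

namespace CurveBase

variable {k : Type u} [Field k] (D : CurveDatum k) (B : Type u) [CommRing B] [Algebra k B]

/-- The function `x ⊗ 1` on the first chart of `C ×ₖ Spec B`. -/
abbrev xB : D.A₀ B := D.x ⊗ₜ[k] (1 : B)

/-- The function `y ⊗ 1` on the second chart of `C ×ₖ Spec B`. -/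
abbrev yB : D.A₁ B := D.y ⊗ₜ[k] (1 : B)

/-- `D.A₀₁ B` as an algebra over `D.A₀ B`, via the restriction map `D.res₀ B`. -/
@[reducible] def algebra₀ : Algebra (D.A₀ B) (D.A₀₁ B) := (D.res₀ B).toRingHom.toAlgebra

/-- `D.A₀₁ B` as an algebra over `D.A₁ B`, via the restriction map `D.res₁ B`. -/
@[reducible] def algebra₁ : Algebra (D.A₁ B) (D.A₀₁ B) := (D.res₁ B).toRingHom.toAlgebra

scoped instance instAlgebra₀ : Algebra (D.A₀ B) (D.A₀₁ B) := algebra₀ D B

scoped instance instAlgebra₁ : Algebra (D.A₁ B) (D.A₀₁ B) := algebra₁ D B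

theorem algebraMap₀_eq : algebraMap (D.A₀ B) (D.A₀₁ B) = (D.res₀ B).toRingHom := rfl

theorem algebraMap₁_eq : algebraMap (D.A₁ B) (D.A₀₁ B) = (D.res₁ B).toRingHom := rfl

@[simp] theorem algebraMap₀_apply (z : D.A₀ B) :
    algebraMap (D.A₀ B) (D.A₀₁ B) z = D.res₀ B z := rfl

@[simp] theorem algebraMap₁_apply (z : D.A₁ B) :
    algebraMap (D.A₁ B) (D.A₀₁ B) z = D.res₁ B z := rfl

@[simp] theorem res₀_tmul (a : D.R₀) (b : B) :
    D.res₀ B (a ⊗ₜ[k] b) = algebraMap D.R₀ D.R₀₁ a ⊗ₜ[k] b := by
  simp [CurveDatum.res₀]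

@[simp] theorem res₁_tmul (a : D.R₁) (b : B) :
    D.res₁ B (a ⊗ₜ[k] b) = algebraMap D.R₁ D.R₀₁ a ⊗ₜ[k] b := by
  simp [CurveDatum.res₁]

/-! ### Scalar towers -/

scoped instance isScalarTower_k₀ : IsScalarTower k (D.A₀ B) (D.A₀₁ B) :=
  IsScalarTower.of_algebraMap_eq fun r => by
    simp [Algebra.TensorProduct.algebraMap_apply, IsScalarTower.algebraMap_apply k D.R₀ D.R₀₁]

scoped instance isScalarTower_k₁ : IsScalarTower k (D.A₁ B) (D.A₀₁ B) :=
  IsScalarTower.of_algebraMap_eq fun r => by
    simp [Algebra.TensorProduct.algebraMap_apply, IsScalarTower.algebraMap_apply k D.R₁ D.R₀₁]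

scoped instance isScalarTower_R₀ : IsScalarTower D.R₀ (D.A₀ B) (D.A₀₁ B) :=
  IsScalarTower.of_algebraMap_eq fun r => by
    simp [Algebra.TensorProduct.algebraMap_apply]

scoped instance isScalarTower_R₁ : IsScalarTower D.R₁ (D.A₁ B) (D.A₀₁ B) :=
  IsScalarTower.of_algebraMap_eq fun r => by
    simp [Algebra.TensorProduct.algebraMap_apply]

attribute [local instance] Algebra.TensorProduct.rightAlgebra

scoped instance isScalarTower_B₀ : IsScalarTower B (D.A₀ B) (D.A₀₁ B) :=
  IsScalarTower.of_algebraMap_eq fun r => by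
    simp [Algebra.TensorProduct.right_algebraMap_apply]

scoped instance isScalarTower_B₁ : IsScalarTower B (D.A₁ B) (D.A₀₁ B) :=
  IsScalarTower.of_algebraMap_eq fun r => by
    simp [Algebra.TensorProduct.right_algebraMap_apply]

/-! ### The overlap is the localization of each chart -/

/-- `x ⊗ 1` and `y ⊗ 1` are inverse to each other on the overlap. -/
theorem res₀_xB_mul_res₁_yB : D.res₀ B (xB D B) * D.res₁ B (yB D B) = 1 := by
  simp only [xB, yB, res₀_tmul, res₁_tmul, Algebra.TensorProduct.tmul_mul_tmul, D.xy, mul_one]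
  rfl

theorem res₁_yB_mul_res₀_xB : D.res₁ B (yB D B) * D.res₀ B (xB D B) = 1 := by
  rw [mul_comm]; exact res₀_xB_mul_res₁_yB D B

theorem algebraMap_xB_mul_algebraMap_yB :
    algebraMap (D.A₀ B) (D.A₀₁ B) (xB D B) * algebraMap (D.A₁ B) (D.A₀₁ B) (yB D B) = 1 :=
  res₀_xB_mul_res₁_yB D B

theorem isUnit_res₀_xB : IsUnit (D.res₀ B (xB D B)) :=
  IsUnit.of_mul_eq_one _ (res₀_xB_mul_res₁_yB D B)

theorem isUnit_res₁_yB : IsUnit (D.res₁ B (yB D B)) :=
  IsUnit.of_mul_eq_one _ (res₁_yB_mul_res₀_xB D B)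

/-- The overlap ring `D.A₀₁ B` is the localization of `D.A₀ B` away from `x ⊗ 1`. -/
scoped instance isLocalization_away₀ : IsLocalization.Away (xB D B) (D.A₀₁ B) := by
  have H : (algebraMap (D.A₀ B) (D.A₀₁ B)).comp
      (Algebra.TensorProduct.includeRight : B →ₐ[k] D.A₀ B).toRingHom =
      (Algebra.TensorProduct.includeRight : B →ₐ[k] D.A₀₁ B).toRingHom := by
    ext b
    simp
  have h := IsLocalization.tensorProduct_tensorProduct k B (Submonoid.powers D.x) D.R₀₁ H
  have e : Algebra.algebraMapSubmonoid (D.A₀ B) (Submonoid.powers D.x) =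
      Submonoid.powers (xB D B) := by
    simp [Algebra.algebraMapSubmonoid, Submonoid.map_powers,
      Algebra.TensorProduct.algebraMap_apply]
  rw [e] at h
  exact h

/-- The overlap ring `D.A₀₁ B` is the localization of `D.A₁ B` away from `y ⊗ 1`. -/
scoped instance isLocalization_away₁ : IsLocalization.Away (yB D B) (D.A₀₁ B) := by
  have H : (algebraMap (D.A₁ B) (D.A₀₁ B)).comp
      (Algebra.TensorProduct.includeRight : B →ₐ[k] D.A₁ B).toRingHom =
      (Algebra.TensorProduct.includeRight : B →ₐ[k] D.A₀₁ B).toRingHom := by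
    ext b
    simp
  have h := IsLocalization.tensorProduct_tensorProduct k B (Submonoid.powers D.y) D.R₀₁ H
  have e : Algebra.algebraMapSubmonoid (D.A₁ B) (Submonoid.powers D.y) =
      Submonoid.powers (yB D B) := by
    simp [Algebra.algebraMapSubmonoid, Submonoid.map_powers,
      Algebra.TensorProduct.algebraMap_apply]
  rw [e] at h
  exact h

/-! ### The section `ε` -/

@[simp] theorem eB_tmul (a : D.R₁) (b : B) :
    D.eB B (a ⊗ₜ[k] b) = algebraMap k B (D.e a) * b := by
  simp [CurveDatum.eB, Algebra.ofId_apply]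

/-- The section `ε` lies on the divisor `y ⊗ 1 = 0`. -/
@[simp] theorem eB_yB : D.eB B (yB D B) = 0 := by
  simp [yB, D.ey]

@[simp] theorem eB_one_tmul (b : B) : D.eB B ((1 : D.R₁) ⊗ₜ[k] b) = b := by
  simp

/-- `ε` is a section of the structure map `B → D.A₁ B`. -/
@[simp] theorem eB_algebraMap (b : B) : D.eB B (algebraMap B (D.A₁ B) b) = b := by
  simp [Algebra.TensorProduct.right_algebraMap_apply]

theorem eB_comp_includeRight :
    (D.eB B).comp (Algebra.TensorProduct.includeRight : B →ₐ[k] D.A₁ B) = AlgHom.id k B := by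
  ext b
  simp

theorem eB_surjective : Function.Surjective (D.eB B) := fun b => ⟨1 ⊗ₜ[k] b, eB_one_tmul D B b⟩

/-- The section `ε`, as a homomorphism of `B`-algebras. -/
def eBAlg : D.A₁ B →ₐ[B] B :=
  { (D.eB B).toRingHom with
    commutes' := fun b => eB_algebraMap D B b }

@[simp] theorem eBAlg_apply (z : D.A₁ B) : eBAlg D B z = D.eB B z := rfl

/-! ### Naturality in `B` -/

section Naturality

variable {B} {B' B'' : Type u} [CommRing B'] [Algebra k B'] [CommRing B''] [Algebra k B'']
  (φ : B →ₐ[k] B') (ψ : B' →ₐ[k] B'')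

@[simp] theorem map₀_tmul (a : D.R₀) (b : B) : D.map₀ φ (a ⊗ₜ[k] b) = a ⊗ₜ[k] φ b := by
  simp [CurveDatum.map₀]

@[simp] theorem map₁_tmul (a : D.R₁) (b : B) : D.map₁ φ (a ⊗ₜ[k] b) = a ⊗ₜ[k] φ b := by
  simp [CurveDatum.map₁]

@[simp] theorem map₀₁_tmul (a : D.R₀₁) (b : B) : D.map₀₁ φ (a ⊗ₜ[k] b) = a ⊗ₜ[k] φ b := by
  simp [CurveDatum.map₀₁]

theorem map₀_xB : D.map₀ φ (xB D B) = xB D B' := by simp [xB]

theorem map₁_yB : D.map₁ φ (yB D B) = yB D B' := by simp [yB]

/-- Restriction to the overlap commutes with base change (first chart). -/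
theorem res₀_comp_map₀ : (D.res₀ B').comp (D.map₀ φ) = (D.map₀₁ φ).comp (D.res₀ B) := by
  ext <;> simp

/-- Restriction to the overlap commutes with base change (second chart). -/
theorem res₁_comp_map₁ : (D.res₁ B').comp (D.map₁ φ) = (D.map₀₁ φ).comp (D.res₁ B) := by
  ext <;> simp

theorem res₀_map₀ (z : D.A₀ B) : D.res₀ B' (D.map₀ φ z) = D.map₀₁ φ (D.res₀ B z) :=
  DFunLike.congr_fun (res₀_comp_map₀ D φ) z

theorem res₁_map₁ (z : D.A₁ B) : D.res₁ B' (D.map₁ φ z) = D.map₀₁ φ (D.res₁ B z) :=
  DFunLike.congr_fun (res₁_comp_map₁ D φ) z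

/-- The section `ε` commutes with base change. -/
theorem eB_comp_map₁ : (D.eB B').comp (D.map₁ φ) = φ.comp (D.eB B) := by
  ext <;> simp

theorem eB_map₁ (z : D.A₁ B) : D.eB B' (D.map₁ φ z) = φ (D.eB B z) :=
  DFunLike.congr_fun (eB_comp_map₁ D φ) z

variable (B) in
theorem map₀_id : D.map₀ (AlgHom.id k B) = AlgHom.id k (D.A₀ B) := by
  ext <;> simp

variable (B) in
theorem map₁_id : D.map₁ (AlgHom.id k B) = AlgHom.id k (D.A₁ B) := by
  ext <;> simp

variable (B) in
theorem map₀₁_id : D.map₀₁ (AlgHom.id k B) = AlgHom.id k (D.A₀₁ B) := by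
  ext <;> simp

theorem map₀_comp : D.map₀ (ψ.comp φ) = (D.map₀ ψ).comp (D.map₀ φ) := by
  ext <;> simp

theorem map₁_comp : D.map₁ (ψ.comp φ) = (D.map₁ ψ).comp (D.map₁ φ) := by
  ext <;> simp

theorem map₀₁_comp : D.map₀₁ (ψ.comp φ) = (D.map₀₁ ψ).comp (D.map₀₁ φ) := by
  ext <;> simp

/-- Base change commutes with the structure maps from the base rings. -/
theorem map₀_algebraMap (b : B) :
    D.map₀ φ (algebraMap B (D.A₀ B) b) = algebraMap B' (D.A₀ B') (φ b) := by
  simp [Algebra.TensorProduct.right_algebraMap_apply]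

theorem map₁_algebraMap (b : B) :
    D.map₁ φ (algebraMap B (D.A₁ B) b) = algebraMap B' (D.A₁ B') (φ b) := by
  simp [Algebra.TensorProduct.right_algebraMap_apply]

theorem map₀₁_algebraMap (b : B) :
    D.map₀₁ φ (algebraMap B (D.A₀₁ B) b) = algebraMap B' (D.A₀₁ B') (φ b) := by
  simp [Algebra.TensorProduct.right_algebraMap_apply]

end Naturality

/-! ### Finiteness over `B[X]` -/

section Finite

/-- Generic form: if `R` is finite over `k[X]` via `X ↦ r`, then `R ⊗[k] B` is generated over
`B[X]` (acting via `X ↦ r ⊗ 1`) by finitely many elements `i ⊗ 1`. -/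
theorem exists_finset_generators {R : Type u} [CommRing R] [Algebra k R] (r : R)
    (h : (Polynomial.aeval r : Polynomial k →ₐ[k] R).toRingHom.Finite) :
    ∃ s : Finset R, ∀ z : R ⊗[k] B, ∃ c : R → Polynomial B,
      z = ∑ i ∈ s, Polynomial.aeval (r ⊗ₜ[k] (1 : B)) (c i) * (i ⊗ₜ[k] (1 : B)) := by
  classical
  have key : ∃ s : Finset R, ∀ a : R, ∃ c : R → Polynomial k,
      a = ∑ i ∈ s, Polynomial.aeval r (c i) * i := by
    let _ := (Polynomial.aeval r : Polynomial k →ₐ[k] R).toRingHom.toAlgebra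
    have hfin : Module.Finite (Polynomial k) R := h
    obtain ⟨s, hs⟩ := hfin.fg_top
    refine ⟨s, fun a => ?_⟩
    have ha : a ∈ Submodule.span (Polynomial k) (s : Set R) := by rw [hs]; trivial
    obtain ⟨c, -, hc⟩ := Submodule.mem_span_finset.mp ha
    refine ⟨c, hc.symm.trans ?_⟩
    refine Finset.sum_congr rfl fun i _ => ?_
    rw [Algebra.smul_def]
    rfl
  obtain ⟨s, hs⟩ := key
  refine ⟨s, fun z => ?_⟩
  induction z using TensorProduct.induction_on with
  | zero => exact ⟨0, by simp⟩
  | tmul a b =>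
    obtain ⟨c, hc⟩ := hs a
    refine ⟨fun i => Polynomial.C b * (c i).map (algebraMap k B), ?_⟩
    have h1 : ∀ p : Polynomial k,
        Polynomial.aeval (r ⊗ₜ[k] (1 : B)) (Polynomial.C b * p.map (algebraMap k B)) =
          Polynomial.aeval r p ⊗ₜ[k] b := by
      intro p
      rw [map_mul, Polynomial.aeval_C, Polynomial.aeval_map_algebraMap]
      have h2 : Polynomial.aeval (r ⊗ₜ[k] (1 : B)) p =
          (Polynomial.aeval r p) ⊗ₜ[k] (1 : B) :=
        Polynomial.aeval_algHom_apply
          (Algebra.TensorProduct.includeLeft : R →ₐ[k] R ⊗[k] B) r p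
      rw [h2, Algebra.TensorProduct.right_algebraMap_apply,
        Algebra.TensorProduct.tmul_mul_tmul, one_mul, mul_one]
    conv_lhs => rw [hc, TensorProduct.sum_tmul]
    refine Finset.sum_congr rfl fun i _ => ?_
    rw [h1, Algebra.TensorProduct.tmul_mul_tmul, mul_one]
  | add z w hz hw =>
    obtain ⟨c, hc⟩ := hz
    obtain ⟨c', hc'⟩ := hw
    refine ⟨c + c', ?_⟩
    simp only [Pi.add_apply, map_add, add_mul, Finset.sum_add_distrib]
    rw [← hc, ← hc']

/-- Generic form: if `R` is finite over `k[X]` via `X ↦ r`, then `R ⊗[k] B` is finite over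
`B[X]` via `X ↦ r ⊗ 1`. -/
theorem finite_aeval_tmul {R : Type u} [CommRing R] [Algebra k R] (r : R)
    (h : (Polynomial.aeval r : Polynomial k →ₐ[k] R).toRingHom.Finite) :
    (Polynomial.aeval (r ⊗ₜ[k] (1 : B)) : Polynomial B →ₐ[B] R ⊗[k] B).toRingHom.Finite := by
  classical
  obtain ⟨s, hs⟩ := exists_finset_generators B r h
  let _ := (Polynomial.aeval (r ⊗ₜ[k] (1 : B)) : Polynomial B →ₐ[B] R ⊗[k] B).toRingHom.toAlgebra
  change Module.Finite (Polynomial B) (R ⊗[k] B)
  refine ⟨⟨s.image fun i => i ⊗ₜ[k] (1 : B), ?_⟩⟩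
  rw [eq_top_iff]
  rintro z -
  obtain ⟨c, rfl⟩ := hs z
  refine Submodule.sum_mem _ fun i hi => ?_
  have : Polynomial.aeval (r ⊗ₜ[k] (1 : B)) (c i) * (i ⊗ₜ[k] (1 : B)) =
      c i • (i ⊗ₜ[k] (1 : B)) := by
    rw [Algebra.smul_def]
    rfl
  rw [this]
  exact Submodule.smul_mem _ _ (Submodule.subset_span (by
    simp only [Finset.coe_image, Set.mem_image, Finset.mem_coe]
    exact ⟨i, hi, rfl⟩))

/-- Every element of the first chart ring `D.A₀ B` is a `B[x ⊗ 1]`-combination of finitely
many fixed elements `i ⊗ 1`. -/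
theorem exists_generators₀ : ∃ s : Finset D.R₀, ∀ z : D.A₀ B, ∃ c : D.R₀ → Polynomial B,
    z = ∑ i ∈ s, Polynomial.aeval (xB D B) (c i) * (i ⊗ₜ[k] (1 : B)) :=
  exists_finset_generators B D.x D.finite₀

/-- Every element of the second chart ring `D.A₁ B` is a `B[y ⊗ 1]`-combination of finitely
many fixed elements `i ⊗ 1`. -/
theorem exists_generators₁ : ∃ s : Finset D.R₁, ∀ z : D.A₁ B, ∃ c : D.R₁ → Polynomial B,
    z = ∑ i ∈ s, Polynomial.aeval (yB D B) (c i) * (i ⊗ₜ[k] (1 : B)) :=
  exists_finset_generators B D.y D.finite₁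

/-- `D.A₀ B` is finite over `B[X]` via `X ↦ x ⊗ 1`. -/
theorem finite_aeval_xB :
    (Polynomial.aeval (xB D B) : Polynomial B →ₐ[B] D.A₀ B).toRingHom.Finite :=
  finite_aeval_tmul B D.x D.finite₀

/-- `D.A₁ B` is finite over `B[X]` via `X ↦ y ⊗ 1`. -/
theorem finite_aeval_yB :
    (Polynomial.aeval (yB D B) : Polynomial B →ₐ[B] D.A₁ B).toRingHom.Finite :=
  finite_aeval_tmul B D.y D.finite₁

end Finite

/-! ### Freeness over the base -/

section Free

/-- The swap `B ⊗[k] R ≃ R ⊗[k] B`, as a `B`-linear equivalence (`B` acts on the right factor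
of the target). -/
def commB (R : Type u) [CommRing R] [Algebra k R] : B ⊗[k] R ≃ₗ[B] R ⊗[k] B :=
  { (TensorProduct.comm k B R) with
    map_smul' := fun c z => by
      induction z using TensorProduct.induction_on with
      | zero => simp
      | tmul b r =>
        simp [Algebra.smul_def, Algebra.TensorProduct.right_algebraMap_apply]
      | add z w hz hw =>
        simp only [smul_add, map_add, AddHom.toFun_eq_coe, LinearMap.coe_toAddHom,
          LinearEquiv.coe_coe, RingHom.id_apply] at hz hw ⊢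
        rw [hz, hw] }

@[simp] theorem commB_tmul (R : Type u) [CommRing R] [Algebra k R] (b : B) (r : R) :
    commB B R (b ⊗ₜ[k] r) = r ⊗ₜ[k] b := rfl

/-- For any `k`-algebra `R` (`k` a field), `R ⊗[k] B` is a free `B`-module. -/
theorem free_tensor_right (R : Type u) [CommRing R] [Algebra k R] : Module.Free B (R ⊗[k] B) :=
  Module.Free.of_equiv (commB B R)

scoped instance free₀ : Module.Free B (D.A₀ B) := free_tensor_right B D.R₀

scoped instance free₁ : Module.Free B (D.A₁ B) := free_tensor_right B D.R₁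

scoped instance free₀₁ : Module.Free B (D.A₀₁ B) := free_tensor_right B D.R₀₁

end Free

/-! ### Base change `B → B'` is a pushout

For a `k`-algebra `R` and a homomorphism of `k`-algebras `B → B'` (given as an `Algebra B B'`
instance with `IsScalarTower k B B'`), the square
```
B        →  B'
↓           ↓
R ⊗[k] B →  R ⊗[k] B'
```
is a pushout. The instances are scoped; the algebra structure of `R ⊗[k] B'` over `R ⊗[k] B`
is `Algebra.TensorProduct.map (AlgHom.id k R) (IsScalarTower.toAlgHom k B B')`, which for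
`R = D.R₀` is `D.map₀ (IsScalarTower.toAlgHom k B B')`. -/

section Pushout

variable (R : Type u) [CommRing R] [Algebra k R]
  (B' : Type u) [CommRing B'] [Algebra k B'] [Algebra B B'] [IsScalarTower k B B']

/-- `R ⊗[k] B'` as an algebra over `R ⊗[k] B`. -/
@[reducible] def algebraTensor : Algebra (R ⊗[k] B) (R ⊗[k] B') :=
  (Algebra.TensorProduct.map (AlgHom.id k R) (IsScalarTower.toAlgHom k B B')).toRingHom.toAlgebra

/-- `R ⊗[k] B'` as an algebra over `B`, through `B'`. -/
@[reducible] def algebraBase : Algebra B (R ⊗[k] B') :=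
  ((algebraMap B' (R ⊗[k] B')).comp (algebraMap B B')).toAlgebra

scoped instance (priority := 90) instAlgebraTensor : Algebra (R ⊗[k] B) (R ⊗[k] B') :=
  algebraTensor B R B'

scoped instance (priority := 50) instAlgebraBase : Algebra B (R ⊗[k] B') := algebraBase B R B'

theorem algebraMap_tensor_apply (z : R ⊗[k] B) :
    algebraMap (R ⊗[k] B) (R ⊗[k] B') z =
      Algebra.TensorProduct.map (AlgHom.id k R) (IsScalarTower.toAlgHom k B B') z := rfl

@[simp] theorem algebraMap_tensor_tmul (r : R) (b : B) :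
    algebraMap (R ⊗[k] B) (R ⊗[k] B') (r ⊗ₜ[k] b) = r ⊗ₜ[k] algebraMap B B' b := by
  simp [algebraMap_tensor_apply]

omit [Algebra k B] [IsScalarTower k B B'] in
theorem algebraMap_base_apply (b : B) :
    algebraMap B (R ⊗[k] B') b = (1 : R) ⊗ₜ[k] algebraMap B B' b := rfl

scoped instance isScalarTower_base : IsScalarTower B B' (R ⊗[k] B') :=
  IsScalarTower.of_algebraMap_eq fun _ => rfl

scoped instance isScalarTower_tensor_B : IsScalarTower B (R ⊗[k] B) (R ⊗[k] B') :=
  IsScalarTower.of_algebraMap_eq fun b => by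
    simp [algebraMap_base_apply]

scoped instance isScalarTower_tensor_k : IsScalarTower k (R ⊗[k] B) (R ⊗[k] B') :=
  IsScalarTower.of_algebraMap_eq fun c => by
    simp [Algebra.TensorProduct.algebraMap_apply]

scoped instance isScalarTower_tensor_R : IsScalarTower R (R ⊗[k] B) (R ⊗[k] B') :=
  IsScalarTower.of_algebraMap_eq fun r => by
    simp [Algebra.TensorProduct.algebraMap_apply]

/-- The base-change square of `R ⊗[k] -` along `B → B'` is a pushout. -/
scoped instance isPushout_tensor : Algebra.IsPushout B B' (R ⊗[k] B) (R ⊗[k] B') :=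
  (Algebra.IsPushout.comp_iff k B R (R ⊗[k] B) (T := B') (T' := R ⊗[k] B')).mp inferInstance

/-- First chart: `D.A₀ B' = B' ⊗[B] D.A₀ B`. -/
theorem isPushout₀ : Algebra.IsPushout B B' (D.A₀ B) (D.A₀ B') := isPushout_tensor B D.R₀ B'

/-- Second chart: `D.A₁ B' = B' ⊗[B] D.A₁ B`. -/
theorem isPushout₁ : Algebra.IsPushout B B' (D.A₁ B) (D.A₁ B') := isPushout_tensor B D.R₁ B'

/-- Overlap: `D.A₀₁ B' = B' ⊗[B] D.A₀₁ B`. -/
theorem isPushout₀₁ : Algebra.IsPushout B B' (D.A₀₁ B) (D.A₀₁ B') := isPushout_tensor B D.R₀₁ B'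

end Pushout

/-! ### Base change of modules along a pushout square

Generic statements (any pushout square of commutative rings `R → S`, `R → A`, `B = S ⊗[R] A`):
a map `f : M → N` from an `A`-module to a `B`-module is a base change along `A → B` if and only
if it is a base change along `R → S`. With `isPushout₀/₁/₀₁` this identifies extension of scalars
along `D.mapᵢ φ` with `B' ⊗[B] -`; the explicit equivalence is Mathlib's
`Algebra.IsPushout.cancelBaseChange B B' (D.Aᵢ B) (D.Aᵢ B') M : D.Aᵢ B' ⊗ M ≃ₗ[B'] B' ⊗[B] M`. -/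

section ModulePushout

variable (R S A B : Type*) [CommRing R] [CommRing S] [CommRing A] [CommRing B]
  [Algebra R S] [Algebra R A] [Algebra R B] [Algebra A B] [Algebra S B]
  [IsScalarTower R A B] [IsScalarTower R S B] [Algebra.IsPushout R S A B]
  {M N : Type*} [AddCommGroup M] [Module R M] [Module A M] [IsScalarTower R A M]
  [AddCommGroup N] [Module R N] [Module A N] [Module S N] [Module B N]
  [IsScalarTower A B N] [IsScalarTower S B N] [IsScalarTower R S N] [IsScalarTower R A N]

/-- A base change along `A → B` is a base change along `R → S`, if `B = S ⊗[R] A`. -/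
theorem isBaseChange_restrictScalars_of_isPushout (f : M →ₗ[A] N) (hf : IsBaseChange B f) :
    IsBaseChange S (f.restrictScalars R) := by
  refine IsBaseChange.of_equiv
    ((Algebra.IsPushout.cancelBaseChange R S A B M).symm ≪≫ₗ (hf.equiv.restrictScalars S)) ?_
  intro m
  simp [IsBaseChange.equiv_tmul]

/-- A base change along `R → S` which is `A`-linear is a base change along `A → B`, if
`B = S ⊗[R] A`. -/
theorem isBaseChange_of_isPushout_of_restrictScalars (f : M →ₗ[A] N)
    (hf : IsBaseChange S (f.restrictScalars R)) : IsBaseChange B f := by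
  let g : B ⊗[A] M →ₗ[B] N := (TensorProduct.isBaseChange A M B).lift f
  have hg : ∀ (b : B) (m : M), g (b ⊗ₜ[A] m) = b • f m := by
    intro b m
    have : b ⊗ₜ[A] m = b • (TensorProduct.mk A B M 1 m) := by
      simp [TensorProduct.smul_tmul']
    rw [this, map_smul, IsBaseChange.lift_eq]
  let c := Algebra.IsPushout.cancelBaseChange R S A B M
  have key : ∀ w : S ⊗[R] M, g (c.symm w) = hf.equiv w := by
    intro w
    induction w using TensorProduct.induction_on with
    | zero => simp
    | tmul s m =>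
      rw [Algebra.IsPushout.cancelBaseChange_symm_tmul, hg, IsBaseChange.equiv_tmul,
        algebraMap_smul]
      rfl
    | add w w' hw hw' => rw [map_add, map_add, map_add, hw, hw']
  have hbij : Function.Bijective g := by
    have : (g : B ⊗[A] M → N) = hf.equiv ∘ c := by
      funext z
      have := key (c z)
      rwa [LinearEquiv.symm_apply_apply] at this
    rw [this]
    exact hf.equiv.bijective.comp c.bijective
  refine IsBaseChange.of_equiv (LinearEquiv.ofBijective g hbij) fun m => ?_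
  simp [hg]

/-- For a pushout square `B = S ⊗[R] A`: base change along `A → B` is the same as base change
along `R → S`. -/
theorem isBaseChange_iff_restrictScalars_of_isPushout (f : M →ₗ[A] N) :
    IsBaseChange B f ↔ IsBaseChange S (f.restrictScalars R) :=
  ⟨isBaseChange_restrictScalars_of_isPushout R S A B f,
    isBaseChange_of_isPushout_of_restrictScalars R S A B f⟩

end ModulePushout

end CurveBase

end Fermat.Agent.S25.helper6786
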