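import Mathlib

/-!
# S25, leaf U2b (field case degree theory), unbundled core — helper7215

Everything here is plain commutative algebra over a field `K`; only Mathlib is imported.
The Euler characteristic of a two-chart datum `(M₀, M₁, M₀₁, l₀, l₁)` over a field is
`(cechDiff l₀ l₁).index`, where `cechDiff l₀ l₁ (a, b) = l₀ a - l₁ b` and `LinearMap.index` is
Mathlib's index (`dim ker - dim coker`).

* Part A (`index_eq_of_comm`): index formula for an injective morphism of two-term complexes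
  (a direct consequence of Mathlib's `LinearMap.index_comp`).
* Part B (`injective_and_torsion_coker`, `finite_quotient_span_singleton`,
  `finite_coker_of_ne_zero`): a nonzero homomorphism of invertible modules over a domain finite
  over `K[x]` is injective with finite-dimensional cokernel.
* Part C (`exists_sub_mem_of_finite_quotient`): a finite-dimensional cokernel maps ONTO its
  localisation.
* Part D (`index_cechDiff_of_injective_hom`): `χ(G') = χ(G) + dim Q₀ + dim Q₁ - dim Q₀₁` for an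
  injective morphism `G → G'` of two-chart data, with `dim Q₀₁ ≤ dim Q₀, dim Q₁`.
* Part E (`chi`, `hom_index`): for invertible two-chart data over a field and a nonzero
  morphism `ψ : G → G'`: `ψ` is injective with finite-dimensional cokernels, `χ(G) ≤ χ(G')`,
  `dim coker ψᵢ ≤ χ(G') - χ(G)`, and `χ(G') ≤ χ(G)` forces `ψ` to be an isomorphism.
* Part F (`section_generates`, `eq_zero_of_chi_lt`, `chi_le_finrank_ker`): a nonzero section of
  a datum with `χ(G) ≤ χ(unit)` generates both chart modules; `χ(G) < χ(unit)` forces `H⁰ = 0`;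
  Riemann's inequality `χ ≤ h⁰`.

Setting of Parts E, F (unbundled, as in the other S25 algebra bricks): a field `K`, domains
`A₀`, `A₁`, `A₀₁` (`K`-algebras), `x : A₀`, `y : A₁` with `A₀₁ = A₀[1/x] = A₁[1/y]`, `A₀` finite
over `K[x]`, `A₁` finite over `K[y]`; a datum is `(M₀, M₁, M₀₁, l₀, l₁)` with `Mᵢ` invertible over
`Aᵢ` and `lᵢ : Mᵢ → M₀₁` the localisation maps.
-/

set_option autoImplicit false

namespace Fermat.Agent.S25.helper7215

open Module TensorProduct Polynomial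

/-! ## Part A: the index formula -/

section Index

variable {K : Type*} [Field K]
variable {E F E' F' : Type*} [AddCommGroup E] [Module K E] [AddCommGroup F] [Module K F]
  [AddCommGroup E'] [Module K E'] [AddCommGroup F'] [Module K F']

/-- Index formula for an injective morphism `(ψE, ψF) : δ → δ'` of two-term complexes whose
cokernels are finite-dimensional:
`index δ' = index δ + dim coker ψE - dim coker ψF`. -/
theorem index_eq_of_comm (δ : E →ₗ[K] F) (δ' : E' →ₗ[K] F') (ψE : E →ₗ[K] E') (ψF : F →ₗ[K] F')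
    (hcomm : δ' ∘ₗ ψE = ψF ∘ₗ δ)
    (hE : Function.Injective ψE) (hF : Function.Injective ψF)
    [FiniteDimensional K (LinearMap.ker δ)] [FiniteDimensional K (F ⧸ LinearMap.range δ)]
    [FiniteDimensional K (LinearMap.ker δ')] [FiniteDimensional K (F' ⧸ LinearMap.range δ')]
    [FiniteDimensional K (E' ⧸ LinearMap.range ψE)]
    [FiniteDimensional K (F' ⧸ LinearMap.range ψF)] :
    δ'.index = δ.index + finrank K (E' ⧸ LinearMap.range ψE)
      - finrank K (F' ⧸ LinearMap.range ψF) := by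
  have h1 : (δ' ∘ₗ ψE).index = δ'.index + ψE.index := by
    have : FiniteDimensional K (LinearMap.ker ψE) := by
      rw [LinearMap.ker_eq_bot.2 hE]; infer_instance
    exact LinearMap.index_comp δ'
  have h2 : (ψF ∘ₗ δ).index = ψF.index + δ.index := by
    have : FiniteDimensional K (LinearMap.ker ψF) := by
      rw [LinearMap.ker_eq_bot.2 hF]; infer_instance
    exact LinearMap.index_comp ψF
  rw [hcomm, h2, LinearMap.index_of_injective hE, LinearMap.index_of_injective hF] at h1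
  linarith

end Index

/-! ## Part B: homomorphisms of invertible modules over a one-dimensional domain -/

section Invertible

variable {A : Type*} [CommRing A] [IsDomain A] {M M' : Type*} [AddCommGroup M] [Module A M]
  [AddCommGroup M'] [Module A M'] [Module.Invertible A M] [Module.Invertible A M']

/-- A nonzero homomorphism between invertible modules over a domain is injective and its
cokernel is torsion. -/
theorem injective_and_torsion_coker (ψ : M →ₗ[A] M') (hψ : ψ ≠ 0) :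
    Function.Injective ψ ∧ ∀ m' : M', ∃ a : A, a ≠ 0 ∧ a • m' ∈ LinearMap.range ψ := by
  classical
  let S := nonZeroDivisors A
  let F := FractionRing A
  let f := LocalizedModule.mkLinearMap S M
  let f' := LocalizedModule.mkLinearMap S M'
  have hf : Function.Injective f := by
    rw [← LinearMap.ker_eq_bot, LinearMap.ker_eq_bot']
    intro m hm
    obtain ⟨s, hs⟩ := (IsLocalizedModule.eq_zero_iff S f).1 hm
    rcases smul_eq_zero.1 hs with h | h
    · exact absurd h (nonZeroDivisors.coe_ne_zero s)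
    · exact h
  have hf' : Function.Injective f' := by
    rw [← LinearMap.ker_eq_bot, LinearMap.ker_eq_bot']
    intro m hm
    obtain ⟨s, hs⟩ := (IsLocalizedModule.eq_zero_iff S f').1 hm
    rcases smul_eq_zero.1 hs with h | h
    · exact absurd h (nonZeroDivisors.coe_ne_zero s)
    · exact h
  let ψA : LocalizedModule S M →ₗ[A] LocalizedModule S M' := IsLocalizedModule.map S f f' ψ
  have hψA : ∀ m, ψA (f m) = f' (ψ m) := fun m => IsLocalizedModule.map_apply S f f' ψ m
  let ψF : LocalizedModule S M →ₗ[F] LocalizedModule S M' :=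
    LinearMap.extendScalarsOfIsLocalization S F ψA
  have hψF : ∀ t, ψF t = ψA t := fun t => rfl
  have h1 : finrank F (LocalizedModule S M) = 1 := Module.Invertible.finrank_eq_one _ _
  have h1' : finrank F (LocalizedModule S M') = 1 := Module.Invertible.finrank_eq_one _ _
  have hne : ψF ≠ 0 := by
    intro h0
    apply hψ
    ext m
    apply hf'
    rw [← hψA, ← hψF, h0]
    simp
  have : FiniteDimensional F (LocalizedModule S M) := Module.finite_of_finrank_eq_succ h1
  have : FiniteDimensional F (LocalizedModule S M') := Module.finite_of_finrank_eq_succ h1'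
  have hinjF : Function.Injective ψF := by
    rw [← LinearMap.ker_eq_bot]
    by_contra hker
    have hpos : 0 < finrank F (LinearMap.ker ψF) := by
      rw [Module.finrank_pos_iff_exists_ne_zero]
      obtain ⟨x, hx, hx0⟩ := (Submodule.ne_bot_iff _).1 hker
      exact ⟨⟨x, hx⟩, fun h => hx0 (congrArg Subtype.val h)⟩
    have hle : finrank F (LinearMap.ker ψF) ≤ 1 := h1 ▸ Submodule.finrank_le _
    have htop : LinearMap.ker ψF = ⊤ := by
      apply Submodule.eq_top_of_finrank_eq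
      omega
    exact hne (LinearMap.ker_eq_top.1 htop)
  have hsurjF : Function.Surjective ψF :=
    (LinearMap.injective_iff_surjective_of_finrank_eq_finrank (h1.trans h1'.symm)).1 hinjF
  refine ⟨?_, ?_⟩
  · intro m₁ m₂ h
    apply hf
    apply hinjF
    rw [hψF, hψF, hψA, hψA, h]
  · intro m'
    obtain ⟨t, ht⟩ := hsurjF (f' m')
    obtain ⟨⟨m, s⟩, hms⟩ := IsLocalizedModule.surj S f t
    refine ⟨s, nonZeroDivisors.coe_ne_zero s, m, ?_⟩
    apply hf'
    have h2 : ψA (f m) = (s : A) • ψA t := by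
      rw [← hms]; exact map_smul ψA (s : A) t
    rw [← hψA, h2, ← hψF, ht, map_smul]

end Invertible

section Coker

variable {K : Type*} [Field K] {A : Type*} [CommRing A] [Algebra K A]

/-- If `A ⧸ (a)` is finite-dimensional, then so is `M ⧸ N` for every finite `A`-module `M` and
every submodule `N ⊇ a • M`. -/
theorem finite_quotient_of_smul_le {M : Type*} [AddCommGroup M] [Module A M] [Module K M]
    [IsScalarTower K A M] [Module.Finite A M] (a : A)
    [Module.Finite K (A ⧸ Ideal.span {a})] (N : Submodule A M)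
    (hN : ∀ m : M, a • m ∈ N) : Module.Finite K (M ⧸ N) := by
  let I : Ideal A := Ideal.span {a}
  have h3 : Module.Finite K ((A ⧸ I) ⊗[A] M) := Module.Finite.trans (A ⧸ I) _
  have hle : (I • ⊤ : Submodule A M) ≤ N := by
    rw [Submodule.smul_le]
    intro r hr m _
    obtain ⟨b, rfl⟩ := Ideal.mem_span_singleton'.1 hr
    rw [mul_smul]
    exact N.smul_mem b (hN m)
  let g : ((A ⧸ I) ⊗[A] M) →ₗ[A] M ⧸ N :=
    (Submodule.factor hle) ∘ₗ (TensorProduct.quotTensorEquivQuotSMul M I).toLinearMap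
  have hg : Function.Surjective g :=
    (Submodule.factor_surjective hle).comp (TensorProduct.quotTensorEquivQuotSMul M I).surjective
  exact Module.Finite.of_surjective (g.restrictScalars K) hg

/-- In a domain finite over `K[x]`, every nonzero principal ideal has finite codimension. -/
theorem finite_quotient_span_singleton [IsDomain A] (x : A)
    (hfin : (Polynomial.aeval x : K[X] →ₐ[K] A).toRingHom.Finite) {a : A} (ha : a ≠ 0) :
    Module.Finite K (A ⧸ Ideal.span {a}) := by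
  classical
  let φ : K[X] →+* A := (Polynomial.aeval x : K[X] →ₐ[K] A).toRingHom
  let I : Ideal A := Ideal.span {a}
  let q : A →+* A ⧸ I := Ideal.Quotient.mk I
  -- a nonzero polynomial in `x` lying in `(a)`
  obtain ⟨p, hp0, hpa⟩ : ∃ p : K[X], p ≠ 0 ∧ φ p ∈ I := by
    let _ : Algebra K[X] A := φ.toAlgebra
    have hint : IsIntegral K[X] a := (RingHom.Finite.to_isIntegral hfin) a
    have hne : I.comap (algebraMap K[X] A) ≠ ⊥ :=
      Ideal.comap_ne_bot_of_integral_mem ha (Ideal.mem_span_singleton_self a) hint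
    obtain ⟨p, hp, hp0⟩ := Submodule.exists_mem_ne_zero_of_ne_bot hne
    exact ⟨p, hp0, hp⟩
  have h1 : (q.comp φ).Finite :=
    RingHom.Finite.comp (RingHom.Finite.of_surjective q Ideal.Quotient.mk_surjective) hfin
  let φbar : K[X] ⧸ Ideal.span {p} →+* A ⧸ I :=
    Ideal.Quotient.lift (Ideal.span {p}) (q.comp φ) (by
      intro r hr
      obtain ⟨s, rfl⟩ := Ideal.mem_span_singleton'.1 hr
      simp only [RingHom.comp_apply, map_mul]
      rw [show q (φ p) = 0 from Ideal.Quotient.eq_zero_iff_mem.2 hpa, mul_zero])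
  have h2 : φbar.Finite := by
    apply RingHom.Finite.of_comp_finite (f := Ideal.Quotient.mk (Ideal.span {p}))
    have : φbar.comp (Ideal.Quotient.mk (Ideal.span {p})) = q.comp φ := by
      ext r <;> simp [φbar]
    rw [this]; exact h1
  have h3 : (algebraMap K (K[X] ⧸ Ideal.span {p})).Finite := by
    rw [RingHom.finite_algebraMap]
    exact (AdjoinRoot.powerBasis hp0).finite
  have h4 : (φbar.comp (algebraMap K (K[X] ⧸ Ideal.span {p}))).Finite := h2.comp h3
  have h5 : φbar.comp (algebraMap K (K[X] ⧸ Ideal.span {p})) = algebraMap K (A ⧸ I) := by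
    ext c
    have e1 : algebraMap K (K[X] ⧸ Ideal.span {p}) c =
        Ideal.Quotient.mk _ (algebraMap K K[X] c) := rfl
    have e2 : algebraMap K (A ⧸ I) c = q (algebraMap K A c) := rfl
    rw [RingHom.comp_apply, e1, Ideal.Quotient.lift_mk, e2, RingHom.comp_apply]
    congr 1
    simp [φ]
  rw [h5, RingHom.finite_algebraMap] at h4
  exact h4

variable [IsDomain A]

/-- A nonzero homomorphism of invertible modules over a domain `A` all of whose nonzero principal
ideals have finite `K`-codimension has a finite-dimensional cokernel. -/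
theorem finite_coker_of_ne_zero (hA : ∀ a : A, a ≠ 0 → Module.Finite K (A ⧸ Ideal.span {a}))
    {M M' : Type*} [AddCommGroup M] [Module A M] [AddCommGroup M'] [Module A M']
    [Module.Invertible A M] [Module.Invertible A M'] [Module K M'] [IsScalarTower K A M']
    (ψ : M →ₗ[A] M') (hψ : ψ ≠ 0) : Module.Finite K (M' ⧸ LinearMap.range ψ) := by
  classical
  obtain ⟨-, htors⟩ := injective_and_torsion_coker ψ hψ
  obtain ⟨s, hs⟩ := (Module.Finite.fg_top : (⊤ : Submodule A M').FG)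
  choose c hc0 hc using htors
  let a : A := ∏ i ∈ s, c i
  have ha : a ≠ 0 := Finset.prod_ne_zero_iff.2 fun i _ => hc0 i
  have hmem : ∀ m : M', a • m ∈ LinearMap.range ψ := by
    intro m
    have hm : m ∈ Submodule.span A (s : Set M') := by rw [hs]; trivial
    induction hm using Submodule.span_induction with
    | mem m hm =>
      obtain ⟨b, hb⟩ := Finset.dvd_prod_of_mem c hm
      have : a • m = b • (c m • m) := by rw [smul_smul]; congr 1; rw [mul_comm]; exact hb
      rw [this]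
      exact Submodule.smul_mem _ _ (hc m)
    | zero => simp
    | add u v _ _ hu hv => rw [smul_add]; exact Submodule.add_mem _ hu hv
    | smul r u _ hu => rw [smul_comm]; exact Submodule.smul_mem _ _ hu
  have := hA a ha
  exact finite_quotient_of_smul_le a _ hmem

end Coker

/-! ## Part C: a finite-dimensional cokernel maps onto its localisation -/

section Loc

variable {K : Type*} [Field K] {A A' : Type*} [CommRing A] [CommRing A'] [Algebra K A]
  [Algebra A A'] (x : A) (hx : IsUnit (algebraMap A A' x))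
  {M M' : Type*} [AddCommGroup M] [Module A M] [Module K M] [IsScalarTower K A M]
  [AddCommGroup M'] [Module A M'] [Module A' M'] [IsScalarTower A A' M']
  (l : M →ₗ[A] M') [IsLocalizedModule (Submonoid.powers x) l]

include hx in
/-- If `M ⧸ N` is finite-dimensional over `K`, the localisation `M'` of `M` at `x` is the sum of
the image of `M` and any `A'`-submodule containing the image of `N`. -/
theorem exists_sub_mem_of_finite_quotient (N : Submodule A M) [Module.Finite K (M ⧸ N)]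
    (N' : Submodule A' M') (hN : ∀ n ∈ N, l n ∈ N') (z : M') :
    ∃ m : M, z - l m ∈ N' := by
  classical
  obtain ⟨⟨m₁, ⟨_, n, rfl⟩⟩, hm₁⟩ := IsLocalizedModule.surj (Submonoid.powers x) l z
  change x ^ n • z = l m₁ at hm₁
  -- multiplication by `x` on the finite-dimensional quotient
  let T : Module.End K (M ⧸ N) :=
    ((LinearMap.lsmul A (M ⧸ N) x).restrictScalars K)
  have hT : ∀ (j : ℕ) (m : M),
      (T ^ j) (Submodule.Quotient.mk m) = Submodule.Quotient.mk (x ^ j • m) := by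
    intro j
    induction j with
    | zero => intro m; simp
    | succ j ih =>
      intro m
      rw [pow_succ', Module.End.mul_apply, ih, pow_succ', mul_smul]
      rfl
  obtain ⟨N₀, hN₀⟩ := Filter.eventually_atTop.1 T.eventually_iInf_range_pow_eq
  have hrange : LinearMap.range (T ^ N₀) ≤ LinearMap.range (T ^ (N₀ + n)) := by
    rw [← hN₀ N₀ le_rfl]
    exact iInf_le _ _
  obtain ⟨qbar, hq⟩ := hrange ⟨Submodule.Quotient.mk m₁, rfl⟩
  obtain ⟨q, rfl⟩ := Submodule.Quotient.mk_surjective _ qbar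
  rw [hT, hT, eq_comm, Submodule.Quotient.eq] at hq
  refine ⟨q, ?_⟩
  have h1 := hN _ hq
  rw [map_sub, map_smul, map_smul, ← hm₁, smul_smul, ← pow_add, ← smul_sub] at h1
  obtain ⟨u, hu⟩ := hx
  have h2 : (x ^ (N₀ + n)) • (z - l q) = (algebraMap A A' x) ^ (N₀ + n) • (z - l q) := by
    rw [← map_pow, algebraMap_smul]
  rw [h2, ← hu] at h1
  have h3 := N'.smul_mem ((↑(u⁻¹ ^ (N₀ + n)) : A')) h1
  rwa [smul_smul, ← Units.val_pow_eq_pow_val, ← Units.val_mul, inv_pow, inv_mul_cancel,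
    Units.val_one, one_smul] at h3

end Loc

/-! ## Part D: the Euler characteristic of two-chart data (`K`-linear form) -/

section TwoChartLinear

variable {K : Type*} [Field K]
variable {M₀ M₁ M₀₁ N₀ N₁ N₀₁ : Type*}
  [AddCommGroup M₀] [Module K M₀] [AddCommGroup M₁] [Module K M₁]
  [AddCommGroup M₀₁] [Module K M₀₁]
  [AddCommGroup N₀] [Module K N₀] [AddCommGroup N₁] [Module K N₁]
  [AddCommGroup N₀₁] [Module K N₀₁]

/-- The Čech differential of a two-chart datum: `(a, b) ↦ l₀ a - l₁ b`.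
Its kernel is `H⁰`, its cokernel is `H¹`, its `LinearMap.index` is the Euler characteristic. -/
def cechDiff (l₀ : M₀ →ₗ[K] M₀₁) (l₁ : M₁ →ₗ[K] M₀₁) : M₀ × M₁ →ₗ[K] M₀₁ :=
  l₀.coprod (-l₁)

@[simp] theorem cechDiff_apply (l₀ : M₀ →ₗ[K] M₀₁) (l₁ : M₁ →ₗ[K] M₀₁) (p : M₀ × M₁) :
    cechDiff l₀ l₁ p = l₀ p.1 - l₁ p.2 := by
  simp [cechDiff, sub_eq_add_neg]

/-- The cokernel of a product map is the product of the cokernels (dimension count). -/
theorem finrank_quotient_range_prodMap (ψ₀ : M₀ →ₗ[K] N₀) (ψ₁ : M₁ →ₗ[K] N₁)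
    [FiniteDimensional K (N₀ ⧸ LinearMap.range ψ₀)]
    [FiniteDimensional K (N₁ ⧸ LinearMap.range ψ₁)] :
    FiniteDimensional K ((N₀ × N₁) ⧸ LinearMap.range (ψ₀.prodMap ψ₁)) ∧
      finrank K ((N₀ × N₁) ⧸ LinearMap.range (ψ₀.prodMap ψ₁)) =
        finrank K (N₀ ⧸ LinearMap.range ψ₀) + finrank K (N₁ ⧸ LinearMap.range ψ₁) := by
  let π : N₀ × N₁ →ₗ[K] (N₀ ⧸ LinearMap.range ψ₀) × (N₁ ⧸ LinearMap.range ψ₁) :=
    (LinearMap.range ψ₀).mkQ.prodMap (LinearMap.range ψ₁).mkQ
  have hπ : Function.Surjective π :=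
    Function.Surjective.prodMap (Submodule.mkQ_surjective _) (Submodule.mkQ_surjective _)
  have hker : LinearMap.ker π = LinearMap.range (ψ₀.prodMap ψ₁) := by
    rw [LinearMap.ker_prodMap, LinearMap.range_prodMap, Submodule.ker_mkQ, Submodule.ker_mkQ]
  let e : ((N₀ × N₁) ⧸ LinearMap.range (ψ₀.prodMap ψ₁)) ≃ₗ[K]
      (N₀ ⧸ LinearMap.range ψ₀) × (N₁ ⧸ LinearMap.range ψ₁) :=
    (Submodule.quotEquivOfEq _ _ hker.symm).trans (π.quotKerEquivOfSurjective hπ)
  exact ⟨Module.Finite.equiv e.symm, by rw [e.finrank_eq, Module.finrank_prod]⟩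

/-- **Euler characteristic of an injective morphism of two-chart data.**
`(ψ₀, ψ₁, ψ₀₁) : (M₀, M₁, M₀₁) → (N₀, N₁, N₀₁)` injective, with finite-dimensional chart
cokernels `Q₀, Q₁` mapping onto the overlap cokernel `Q₀₁`. Then
`χ(N) = χ(M) + dim Q₀ + dim Q₁ - dim Q₀₁` and `dim Q₀₁ ≤ dim Q₀, dim Q₁`. -/
theorem index_cechDiff_of_injective_hom
    (l₀ : M₀ →ₗ[K] M₀₁) (l₁ : M₁ →ₗ[K] M₀₁) (l₀' : N₀ →ₗ[K] N₀₁) (l₁' : N₁ →ₗ[K] N₀₁)
    (ψ₀ : M₀ →ₗ[K] N₀) (ψ₁ : M₁ →ₗ[K] N₁) (ψ₀₁ : M₀₁ →ₗ[K] N₀₁)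
    (h₀ : ∀ m, l₀' (ψ₀ m) = ψ₀₁ (l₀ m)) (h₁ : ∀ m, l₁' (ψ₁ m) = ψ₀₁ (l₁ m))
    (hψ₀ : Function.Injective ψ₀) (hψ₁ : Function.Injective ψ₁) (hψ₀₁ : Function.Injective ψ₀₁)
    [FiniteDimensional K (LinearMap.ker (cechDiff l₀ l₁))]
    [FiniteDimensional K (M₀₁ ⧸ LinearMap.range (cechDiff l₀ l₁))]
    [FiniteDimensional K (LinearMap.ker (cechDiff l₀' l₁'))]
    [FiniteDimensional K (N₀₁ ⧸ LinearMap.range (cechDiff l₀' l₁'))]
    [FiniteDimensional K (N₀ ⧸ LinearMap.range ψ₀)]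
    [FiniteDimensional K (N₁ ⧸ LinearMap.range ψ₁)]
    (hs₀ : ∀ z : N₀₁, ∃ m, z - l₀' m ∈ LinearMap.range ψ₀₁)
    (hs₁ : ∀ z : N₀₁, ∃ m, z - l₁' m ∈ LinearMap.range ψ₀₁) :
    FiniteDimensional K (N₀₁ ⧸ LinearMap.range ψ₀₁) ∧
      finrank K (N₀₁ ⧸ LinearMap.range ψ₀₁) ≤ finrank K (N₀ ⧸ LinearMap.range ψ₀) ∧
      finrank K (N₀₁ ⧸ LinearMap.range ψ₀₁) ≤ finrank K (N₁ ⧸ LinearMap.range ψ₁) ∧
      (cechDiff l₀' l₁').index = (cechDiff l₀ l₁).index + finrank K (N₀ ⧸ LinearMap.range ψ₀)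
        + finrank K (N₁ ⧸ LinearMap.range ψ₁) - finrank K (N₀₁ ⧸ LinearMap.range ψ₀₁) := by
  -- the surjections `Q₀ → Q₀₁`, `Q₁ → Q₀₁`
  have hle₀ : LinearMap.range ψ₀ ≤ (LinearMap.range ψ₀₁).comap l₀' := by
    rintro _ ⟨m, rfl⟩
    exact ⟨l₀ m, (h₀ m).symm⟩
  have hle₁ : LinearMap.range ψ₁ ≤ (LinearMap.range ψ₀₁).comap l₁' := by
    rintro _ ⟨m, rfl⟩
    exact ⟨l₁ m, (h₁ m).symm⟩
  let q₀ := Submodule.mapQ (LinearMap.range ψ₀) (LinearMap.range ψ₀₁) l₀' hle₀
  let q₁ := Submodule.mapQ (LinearMap.range ψ₁) (LinearMap.range ψ₀₁) l₁' hle₁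
  have hq₀ : Function.Surjective q₀ := by
    intro zbar
    obtain ⟨z, rfl⟩ := Submodule.Quotient.mk_surjective _ zbar
    obtain ⟨m, hm⟩ := hs₀ z
    exact ⟨Submodule.Quotient.mk m, ((Submodule.Quotient.eq _).2 hm).symm⟩
  have hq₁ : Function.Surjective q₁ := by
    intro zbar
    obtain ⟨z, rfl⟩ := Submodule.Quotient.mk_surjective _ zbar
    obtain ⟨m, hm⟩ := hs₁ z
    exact ⟨Submodule.Quotient.mk m, ((Submodule.Quotient.eq _).2 hm).symm⟩
  have hfin : FiniteDimensional K (N₀₁ ⧸ LinearMap.range ψ₀₁) :=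
    Module.Finite.of_surjective q₀ hq₀
  obtain ⟨hfinE, hrkE⟩ := finrank_quotient_range_prodMap ψ₀ ψ₁
  have hcomm : cechDiff l₀' l₁' ∘ₗ ψ₀.prodMap ψ₁ = ψ₀₁ ∘ₗ cechDiff l₀ l₁ := by
    apply LinearMap.ext
    intro p
    simp only [LinearMap.comp_apply, cechDiff_apply, LinearMap.prodMap_apply, map_sub, h₀, h₁]
  have hinjE : Function.Injective (ψ₀.prodMap ψ₁) := Function.Injective.prodMap hψ₀ hψ₁
  have hidx := index_eq_of_comm (cechDiff l₀ l₁) (cechDiff l₀' l₁') (ψ₀.prodMap ψ₁) ψ₀₁ hcomm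
    hinjE hψ₀₁
  refine ⟨hfin, LinearMap.finrank_le_finrank_of_surjective hq₀,
    LinearMap.finrank_le_finrank_of_surjective hq₁, ?_⟩
  rw [hidx, hrkE]; push_cast; ring

end TwoChartLinear

/-! ## Part E: morphisms of invertible two-chart data over a field -/


/-- The localisation map (away from `x`) of a torsion-free module over a domain is injective,
provided the localised ring is nontrivial. -/
theorem injective_of_isLocalizedModule {A A' : Type*} [CommRing A] [IsDomain A] [CommRing A']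
    [Nontrivial A'] [Algebra A A'] (x : A) [IsLocalization.Away x A']
    {N N' : Type*} [AddCommGroup N] [Module A N] [Module.IsTorsionFree A N]
    [AddCommGroup N'] [Module A N'] (l : N →ₗ[A] N')
    [IsLocalizedModule (Submonoid.powers x) l] : Function.Injective l := by
  have hux : IsUnit (algebraMap A A' x) := IsLocalization.Away.algebraMap_isUnit x
  have hx0 : x ≠ 0 := by
    rintro rfl
    rw [map_zero] at hux
    exact not_isUnit_zero hux
  rw [← LinearMap.ker_eq_bot, LinearMap.ker_eq_bot']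
  intro n hn
  obtain ⟨⟨_, k, rfl⟩, hs⟩ := (IsLocalizedModule.eq_zero_iff (Submonoid.powers x) l).1 hn
  rcases smul_eq_zero.1 hs with h | h
  · exact absurd h (pow_ne_zero k hx0)
  · exact h

/-- The Euler characteristic of a two-chart datum over a field (junk unless `H⁰`, `H¹` are
finite-dimensional). -/
noncomputable def chi (K : Type*) [Field K] {A₀ A₁ : Type*} [CommRing A₀] [CommRing A₁]
    [Algebra K A₀] [Algebra K A₁] {M₀ M₁ M₀₁ : Type*}
    [AddCommGroup M₀] [Module A₀ M₀] [Module K M₀] [IsScalarTower K A₀ M₀]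
    [AddCommGroup M₁] [Module A₁ M₁] [Module K M₁] [IsScalarTower K A₁ M₁]
    [AddCommGroup M₀₁] [Module A₀ M₀₁] [Module A₁ M₀₁] [Module K M₀₁]
    [IsScalarTower K A₀ M₀₁] [IsScalarTower K A₁ M₀₁]
    (l₀ : M₀ →ₗ[A₀] M₀₁) (l₁ : M₁ →ₗ[A₁] M₀₁) : ℤ :=
  (cechDiff (l₀.restrictScalars K) (l₁.restrictScalars K)).index

/-- Riemann's inequality: `χ ≤ h⁰`. -/
theorem chi_le_finrank_ker (K : Type*) [Field K] {A₀ A₁ : Type*} [CommRing A₀] [CommRing A₁]
    [Algebra K A₀] [Algebra K A₁] {M₀ M₁ M₀₁ : Type*}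
    [AddCommGroup M₀] [Module A₀ M₀] [Module K M₀] [IsScalarTower K A₀ M₀]
    [AddCommGroup M₁] [Module A₁ M₁] [Module K M₁] [IsScalarTower K A₁ M₁]
    [AddCommGroup M₀₁] [Module A₀ M₀₁] [Module A₁ M₀₁] [Module K M₀₁]
    [IsScalarTower K A₀ M₀₁] [IsScalarTower K A₁ M₀₁]
    (l₀ : M₀ →ₗ[A₀] M₀₁) (l₁ : M₁ →ₗ[A₁] M₀₁) :
    chi K l₀ l₁ ≤ finrank K
      (LinearMap.ker (cechDiff (l₀.restrictScalars K) (l₁.restrictScalars K))) := by
  unfold chi LinearMap.index
  omega

section TwoChart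

/-- `K` acts on an `A'`-module compatibly with its action through `A`. -/
theorem isScalarTower_of_towers (K A A' M : Type*) [CommSemiring K] [CommSemiring A]
    [CommSemiring A'] [Algebra K A] [Algebra K A'] [Algebra A A'] [IsScalarTower K A A']
    [AddCommMonoid M] [Module A' M] [Module A M] [Module K M] [IsScalarTower A A' M]
    [IsScalarTower K A' M] : IsScalarTower K A M :=
  ⟨fun c a m => by
    have h : algebraMap A A' (c • a) = c • algebraMap A A' a := by
      rw [Algebra.smul_def c a, map_mul, ← IsScalarTower.algebraMap_apply, Algebra.smul_def]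
    rw [← algebraMap_smul A' (c • a) m, ← algebraMap_smul A' a m, h, smul_assoc]⟩

variable {K : Type*} [Field K]
  {A₀ A₁ A₀₁ : Type*} [CommRing A₀] [CommRing A₁] [CommRing A₀₁]
  [Algebra K A₀] [Algebra K A₁] [Algebra K A₀₁] [Algebra A₀ A₀₁] [Algebra A₁ A₀₁]
  [IsDomain A₀] [IsDomain A₁] [IsDomain A₀₁]
  (x : A₀) (y : A₁) [IsLocalization.Away x A₀₁] [IsLocalization.Away y A₀₁]
  {M₀ M₁ M₀₁ N₀ N₁ N₀₁ : Type*}
  [AddCommGroup M₀] [Module A₀ M₀] [Module K M₀] [IsScalarTower K A₀ M₀]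
  [Module.Invertible A₀ M₀]
  [AddCommGroup M₁] [Module A₁ M₁] [Module K M₁] [IsScalarTower K A₁ M₁]
  [Module.Invertible A₁ M₁]
  [AddCommGroup M₀₁] [Module A₀₁ M₀₁] [Module A₀ M₀₁] [Module A₁ M₀₁] [Module K M₀₁]
  [IsScalarTower A₀ A₀₁ M₀₁] [IsScalarTower A₁ A₀₁ M₀₁] [IsScalarTower K A₀₁ M₀₁]
  [IsScalarTower K A₀ M₀₁] [IsScalarTower K A₁ M₀₁]
  [AddCommGroup N₀] [Module A₀ N₀] [Module K N₀] [IsScalarTower K A₀ N₀]
  [Module.Invertible A₀ N₀]
  [AddCommGroup N₁] [Module A₁ N₁] [Module K N₁] [IsScalarTower K A₁ N₁]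
  [Module.Invertible A₁ N₁]
  [AddCommGroup N₀₁] [Module A₀₁ N₀₁] [Module A₀ N₀₁] [Module A₁ N₀₁] [Module K N₀₁]
  [IsScalarTower A₀ A₀₁ N₀₁] [IsScalarTower A₁ A₀₁ N₀₁] [IsScalarTower K A₀₁ N₀₁]
  [IsScalarTower K A₀ N₀₁] [IsScalarTower K A₁ N₀₁]

include x y in
/-- **Morphisms of invertible two-chart data over a field.** A nonzero morphism
`ψ = (ψ₀, ψ₁, ψ₀₁) : G → G'` is injective with finite-dimensional cokernels, `χ(G) ≤ χ(G')`,
the chart cokernels have dimension `≤ χ(G') - χ(G)`, and `χ(G') ≤ χ(G)` forces `ψ` to be an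
isomorphism. -/
theorem hom_index
    (hfin₀ : (Polynomial.aeval x : K[X] →ₐ[K] A₀).toRingHom.Finite)
    (hfin₁ : (Polynomial.aeval y : K[X] →ₐ[K] A₁).toRingHom.Finite)
    (l₀ : M₀ →ₗ[A₀] M₀₁) (l₁ : M₁ →ₗ[A₁] M₀₁)
    [IsLocalizedModule (Submonoid.powers x) l₀] [IsLocalizedModule (Submonoid.powers y) l₁]
    (l₀' : N₀ →ₗ[A₀] N₀₁) (l₁' : N₁ →ₗ[A₁] N₀₁)
    [IsLocalizedModule (Submonoid.powers x) l₀'] [IsLocalizedModule (Submonoid.powers y) l₁']
    (ψ₀ : M₀ →ₗ[A₀] N₀) (ψ₁ : M₁ →ₗ[A₁] N₁) (ψ₀₁ : M₀₁ →ₗ[A₀₁] N₀₁)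
    (h₀ : ∀ m, l₀' (ψ₀ m) = ψ₀₁ (l₀ m)) (h₁ : ∀ m, l₁' (ψ₁ m) = ψ₀₁ (l₁ m))
    (hψ : ψ₀ ≠ 0)
    [FiniteDimensional K (LinearMap.ker (cechDiff (l₀.restrictScalars K) (l₁.restrictScalars K)))]
    [FiniteDimensional K
      (M₀₁ ⧸ LinearMap.range (cechDiff (l₀.restrictScalars K) (l₁.restrictScalars K)))]
    [FiniteDimensional K
      (LinearMap.ker (cechDiff (l₀'.restrictScalars K) (l₁'.restrictScalars K)))]
    [FiniteDimensional K
      (N₀₁ ⧸ LinearMap.range (cechDiff (l₀'.restrictScalars K) (l₁'.restrictScalars K)))] :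
    Function.Injective ψ₀ ∧ Function.Injective ψ₁ ∧ Function.Injective ψ₀₁ ∧
    Module.Finite K (N₀ ⧸ LinearMap.range ψ₀) ∧ Module.Finite K (N₁ ⧸ LinearMap.range ψ₁) ∧
    (finrank K (N₀ ⧸ LinearMap.range ψ₀) : ℤ) ≤ chi K l₀' l₁' - chi K l₀ l₁ ∧
    (finrank K (N₁ ⧸ LinearMap.range ψ₁) : ℤ) ≤ chi K l₀' l₁' - chi K l₀ l₁ ∧
    chi K l₀ l₁ ≤ chi K l₀' l₁' ∧
    (chi K l₀' l₁' ≤ chi K l₀ l₁ →
      Function.Bijective ψ₀ ∧ Function.Bijective ψ₁ ∧ Function.Bijective ψ₀₁) := by
  classical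
  have hux : IsUnit (algebraMap A₀ A₀₁ x) := IsLocalization.Away.algebraMap_isUnit x
  have huy : IsUnit (algebraMap A₁ A₀₁ y) := IsLocalization.Away.algebraMap_isUnit y
  have : Module.Invertible A₀₁ M₀₁ :=
    Module.Invertible.of_isLocalization (Submonoid.powers x) l₀
  have : Module.Invertible A₀₁ N₀₁ :=
    Module.Invertible.of_isLocalization (Submonoid.powers x) l₀'
  -- `l₀'` is injective
  have hl₀' : Function.Injective l₀' := injective_of_isLocalizedModule (A' := A₀₁) x l₀'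
  have hψ₀₁ : ψ₀₁ ≠ 0 := by
    intro h
    apply hψ
    ext m
    apply hl₀'
    rw [h₀, h]; simp
  have hψ₁ : ψ₁ ≠ 0 := by
    intro h
    apply hψ₀₁
    ext z
    obtain ⟨⟨m, ⟨_, k, rfl⟩⟩, hm⟩ := IsLocalizedModule.surj (Submonoid.powers y) l₁ z
    change y ^ k • z = l₁ m at hm
    have h2 : algebraMap A₁ A₀₁ (y ^ k) • ψ₀₁ z = 0 := by
      rw [← map_smul, algebraMap_smul, hm, ← h₁, h]; simp
    rw [map_pow] at h2
    simpa using (huy.pow k).smul_eq_zero.1 h2
  obtain ⟨hinj₀, -⟩ := injective_and_torsion_coker ψ₀ hψ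
  obtain ⟨hinj₁, -⟩ := injective_and_torsion_coker ψ₁ hψ₁
  obtain ⟨hinj₀₁, -⟩ := injective_and_torsion_coker ψ₀₁ hψ₀₁
  have hF₀ : Module.Finite K (N₀ ⧸ LinearMap.range ψ₀) :=
    finite_coker_of_ne_zero (fun a ha => finite_quotient_span_singleton x hfin₀ ha) ψ₀ hψ
  have hF₁ : Module.Finite K (N₁ ⧸ LinearMap.range ψ₁) :=
    finite_coker_of_ne_zero (fun a ha => finite_quotient_span_singleton y hfin₁ ha) ψ₁ hψ₁
  have hs₀ : ∀ z : N₀₁, ∃ m, z - l₀' m ∈ LinearMap.range ψ₀₁ := fun z =>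
    exists_sub_mem_of_finite_quotient (K := K) x hux l₀' (LinearMap.range ψ₀)
      (LinearMap.range ψ₀₁) (by rintro _ ⟨m, rfl⟩; exact ⟨l₀ m, (h₀ m).symm⟩) z
  have hs₁ : ∀ z : N₀₁, ∃ m, z - l₁' m ∈ LinearMap.range ψ₀₁ := fun z =>
    exists_sub_mem_of_finite_quotient (K := K) y huy l₁' (LinearMap.range ψ₁)
      (LinearMap.range ψ₀₁) (by rintro _ ⟨m, rfl⟩; exact ⟨l₁ m, (h₁ m).symm⟩) z
  -- pass to `K`-linear maps
  let e₀ : (N₀ ⧸ LinearMap.range (ψ₀.restrictScalars K)) ≃ₗ[K] N₀ ⧸ LinearMap.range ψ₀ :=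
    Submodule.Quotient.restrictScalarsEquiv K (LinearMap.range ψ₀)
  let e₁ : (N₁ ⧸ LinearMap.range (ψ₁.restrictScalars K)) ≃ₗ[K] N₁ ⧸ LinearMap.range ψ₁ :=
    Submodule.Quotient.restrictScalarsEquiv K (LinearMap.range ψ₁)
  have hF₀' : FiniteDimensional K (N₀ ⧸ LinearMap.range (ψ₀.restrictScalars K)) :=
    Module.Finite.equiv e₀.symm
  have hF₁' : FiniteDimensional K (N₁ ⧸ LinearMap.range (ψ₁.restrictScalars K)) :=
    Module.Finite.equiv e₁.symm
  obtain ⟨hfin₀₁, hle₀, hle₁, hidx⟩ := index_cechDiff_of_injective_hom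
    (l₀.restrictScalars K) (l₁.restrictScalars K) (l₀'.restrictScalars K)
    (l₁'.restrictScalars K) (ψ₀.restrictScalars K) (ψ₁.restrictScalars K)
    (ψ₀₁.restrictScalars K) h₀ h₁ hinj₀ hinj₁ hinj₀₁ hs₀ hs₁
  rw [e₀.finrank_eq, e₁.finrank_eq] at hidx
  rw [e₀.finrank_eq] at hle₀
  rw [e₁.finrank_eq] at hle₁
  have hidx' : chi K l₀' l₁' = chi K l₀ l₁ + finrank K (N₀ ⧸ LinearMap.range ψ₀)
      + finrank K (N₁ ⧸ LinearMap.range ψ₁)
      - finrank K (N₀₁ ⧸ LinearMap.range (ψ₀₁.restrictScalars K)) := hidx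
  refine ⟨hinj₀, hinj₁, hinj₀₁, hF₀, hF₁, by omega, by omega, by omega, fun hle => ?_⟩
  have hq₀ : finrank K (N₀ ⧸ LinearMap.range ψ₀) = 0 := by omega
  have hq₁ : finrank K (N₁ ⧸ LinearMap.range ψ₁) = 0 := by omega
  have hq₀₁ : finrank K (N₀₁ ⧸ LinearMap.range (ψ₀₁.restrictScalars K)) = 0 := by omega
  have hsurj₀ : Function.Surjective ψ₀ := by
    rw [← LinearMap.range_eq_top, ← Submodule.Quotient.subsingleton_iff]
    exact Module.finrank_zero_iff.1 hq₀
  have hsurj₁ : Function.Surjective ψ₁ := by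
    rw [← LinearMap.range_eq_top, ← Submodule.Quotient.subsingleton_iff]
    exact Module.finrank_zero_iff.1 hq₁
  have hsurj₀₁ : Function.Surjective ψ₀₁ := by
    have h : LinearMap.range (ψ₀₁.restrictScalars K) = ⊤ := by
      rw [← Submodule.Quotient.subsingleton_iff]
      exact Module.finrank_zero_iff.1 hq₀₁
    intro z
    have hz : z ∈ LinearMap.range (ψ₀₁.restrictScalars K) := by rw [h]; trivial
    exact hz
  exact ⟨⟨hinj₀, hsurj₀⟩, ⟨hinj₁, hsurj₁⟩, ⟨hinj₀₁, hsurj₀₁⟩⟩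

variable [IsScalarTower K A₀ A₀₁] [IsScalarTower K A₁ A₀₁]

include x y in
/-- **Sections of invertible two-chart data over a field.** If `G'` has a nonzero section
`(a, b)` then `χ(unit) ≤ χ(G')`; if moreover `χ(G') ≤ χ(unit)` then `a` generates `N₀` and `b`
generates `N₁` (the section is nowhere zero, so `G'` is trivial). -/
theorem section_generates
    (hfin₀ : (Polynomial.aeval x : K[X] →ₐ[K] A₀).toRingHom.Finite)
    (hfin₁ : (Polynomial.aeval y : K[X] →ₐ[K] A₁).toRingHom.Finite)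
    (l₀' : N₀ →ₗ[A₀] N₀₁) (l₁' : N₁ →ₗ[A₁] N₀₁)
    [IsLocalizedModule (Submonoid.powers x) l₀'] [IsLocalizedModule (Submonoid.powers y) l₁']
    (a : N₀) (b : N₁) (hab : l₀' a = l₁' b) (ha : a ≠ 0)
    [FiniteDimensional K (LinearMap.ker (cechDiff ((Algebra.linearMap A₀ A₀₁).restrictScalars K)
      ((Algebra.linearMap A₁ A₀₁).restrictScalars K)))]
    [FiniteDimensional K
      (A₀₁ ⧸ LinearMap.range (cechDiff ((Algebra.linearMap A₀ A₀₁).restrictScalars K)
        ((Algebra.linearMap A₁ A₀₁).restrictScalars K)))]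
    [FiniteDimensional K
      (LinearMap.ker (cechDiff (l₀'.restrictScalars K) (l₁'.restrictScalars K)))]
    [FiniteDimensional K
      (N₀₁ ⧸ LinearMap.range (cechDiff (l₀'.restrictScalars K) (l₁'.restrictScalars K)))] :
    chi K (Algebra.linearMap A₀ A₀₁) (Algebra.linearMap A₁ A₀₁) ≤ chi K l₀' l₁' ∧
    (chi K l₀' l₁' ≤ chi K (Algebra.linearMap A₀ A₀₁) (Algebra.linearMap A₁ A₀₁) →
      (∀ n : N₀, ∃ r : A₀, r • a = n) ∧ (∀ n : N₁, ∃ r : A₁, r • b = n)) := by
  have key := hom_index (K := K) x y hfin₀ hfin₁ (Algebra.linearMap A₀ A₀₁)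
    (Algebra.linearMap A₁ A₀₁) l₀' l₁' (LinearMap.toSpanSingleton A₀ N₀ a)
    (LinearMap.toSpanSingleton A₁ N₁ b) (LinearMap.toSpanSingleton A₀₁ N₀₁ (l₀' a))
    (fun r => by
      simp only [LinearMap.toSpanSingleton_apply, Algebra.linearMap_apply, map_smul,
        algebraMap_smul])
    (fun r => by
      simp only [LinearMap.toSpanSingleton_apply, Algebra.linearMap_apply, map_smul,
        algebraMap_smul, hab])
    (fun h => ha (by simpa using LinearMap.congr_fun h 1))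
  obtain ⟨-, -, -, -, -, -, -, hle, hbij⟩ := key
  refine ⟨hle, fun h => ?_⟩
  obtain ⟨h₀, h₁, -⟩ := hbij h
  exact ⟨fun n => h₀.2 n, fun n => h₁.2 n⟩

include x y in
/-- Negative degree: if `χ(G') < χ(unit)` then `G'` has no nonzero section. -/
theorem eq_zero_of_chi_lt
    (hfin₀ : (Polynomial.aeval x : K[X] →ₐ[K] A₀).toRingHom.Finite)
    (hfin₁ : (Polynomial.aeval y : K[X] →ₐ[K] A₁).toRingHom.Finite)
    (l₀' : N₀ →ₗ[A₀] N₀₁) (l₁' : N₁ →ₗ[A₁] N₀₁)
    [IsLocalizedModule (Submonoid.powers x) l₀'] [IsLocalizedModule (Submonoid.powers y) l₁']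
    [FiniteDimensional K (LinearMap.ker (cechDiff ((Algebra.linearMap A₀ A₀₁).restrictScalars K)
      ((Algebra.linearMap A₁ A₀₁).restrictScalars K)))]
    [FiniteDimensional K
      (A₀₁ ⧸ LinearMap.range (cechDiff ((Algebra.linearMap A₀ A₀₁).restrictScalars K)
        ((Algebra.linearMap A₁ A₀₁).restrictScalars K)))]
    [FiniteDimensional K
      (LinearMap.ker (cechDiff (l₀'.restrictScalars K) (l₁'.restrictScalars K)))]
    [FiniteDimensional K
      (N₀₁ ⧸ LinearMap.range (cechDiff (l₀'.restrictScalars K) (l₁'.restrictScalars K)))]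
    (hlt : chi K l₀' l₁' < chi K (Algebra.linearMap A₀ A₀₁) (Algebra.linearMap A₁ A₀₁))
    (a : N₀) (b : N₁) (hab : l₀' a = l₁' b) : a = 0 ∧ b = 0 := by
  have ha : a = 0 := by
    by_contra ha
    have h := (section_generates (K := K) (A₀₁ := A₀₁) x y hfin₀ hfin₁ l₀' l₁' a b hab ha).1
    omega
  refine ⟨ha, ?_⟩
  apply injective_of_isLocalizedModule (A' := A₀₁) y l₁'
  rw [← hab, ha, map_zero, map_zero]

end TwoChart

end Fermat.Agent.S25.helper7215
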