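import Fermat.Agent.S25.helper2945_AlgDefs

/-!
# S25, layer LC: API for two-chart line bundles (`helper2945.GlueDatum`)

Author: helper743 (registry leaf LC-API).  Everything is on top of
`Fermat.Agent.S25.helper2945_AlgDefs`; no new structure is introduced.

Contents:
* (A1) invariance of `H0`, `H1`, `chi` under `Iso` / `Equiv`;
* (A2) `Iso.baseChange`, `Equiv.baseChange`;
* (A3) `baseChange_id`, `baseChange_comp`, `unit_baseChange` (up to `Equiv`);
* (A4) `IsRig` under `Equiv` / base change, `isRig_unit`;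
* (A5) `DegZero` under `Equiv` / base change, `degZero_unit`;
* (A6) injectivity of the restriction maps and the lattice view.
-/

set_option autoImplicit false

open TensorProduct

namespace Fermat.Agent.S25.helper743

open Fermat.Agent.S25.helper1705 Fermat.Agent.S25.helper2945

universe u

/-! ## Generic linear algebra -/

section Generic

variable {R : Type*} [CommRing R] {E F E' F' : Type*} [AddCommGroup E] [AddCommGroup F]
  [AddCommGroup E'] [AddCommGroup F'] [Module R E] [Module R F] [Module R E'] [Module R F']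

/-- Kernels of two linear maps intertwined by linear equivalences are linearly equivalent. -/
noncomputable def kerEquivOfComm (d : E →ₗ[R] F) (d' : E' →ₗ[R] F') (eE : E ≃ₗ[R] E')
    (eF : F ≃ₗ[R] F') (h : ∀ v, d' (eE v) = eF (d v)) :
    LinearMap.ker d ≃ₗ[R] LinearMap.ker d' :=
  LinearEquiv.ofSubmodules eE _ _ (by
    ext w
    simp only [Submodule.mem_map, LinearMap.mem_ker, LinearEquiv.coe_coe]
    constructor
    · rintro ⟨v, hv, rfl⟩
      rw [h, hv, map_zero]
    · intro hw
      refine ⟨eE.symm w, ?_, by simp⟩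
      apply eF.injective
      rw [← h, LinearEquiv.apply_symm_apply, hw, map_zero])

/-- Cokernels of two linear maps intertwined by linear equivalences are linearly equivalent. -/
noncomputable def cokerEquivOfComm (d : E →ₗ[R] F) (d' : E' →ₗ[R] F') (eE : E ≃ₗ[R] E')
    (eF : F ≃ₗ[R] F') (h : ∀ v, d' (eE v) = eF (d v)) :
    (F ⧸ LinearMap.range d) ≃ₗ[R] (F' ⧸ LinearMap.range d') :=
  Submodule.Quotient.equiv _ _ eF (by
    ext w
    simp only [Submodule.mem_map, LinearMap.mem_range, LinearEquiv.coe_coe]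
    constructor
    · rintro ⟨_, ⟨v, rfl⟩, rfl⟩
      exact ⟨eE v, h v⟩
    · rintro ⟨v', rfl⟩
      exact ⟨d (eE.symm v'), ⟨_, rfl⟩, by rw [← h, LinearEquiv.apply_symm_apply]⟩)

end Generic

variable {k : Type u} [Field k] {D : CurveDatum k} {B : Type u} [CommRing B] [Algebra k B]

open GlueDatum

/-! ## (A1) Invariance of cohomology under isomorphism -/

section IsoCoh

variable {G G' : GlueDatum D B} (f : Iso G G')

/-- The `B`-linear equivalence of Čech 0-cochains induced by an isomorphism. -/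
noncomputable def isoCochainEquiv : (G.M₀ × G.M₁) ≃ₗ[B] (G'.M₀ × G'.M₁) :=
  (f.e₀.restrictScalars B).prodCongr (f.e₁.restrictScalars B)

/-- The `B`-linear equivalence of Čech 1-cochains induced by an isomorphism. -/
noncomputable def isoOverlapEquiv : G.M₀₁ ≃ₗ[B] G'.M₀₁ := f.e₀₁.restrictScalars B

theorem iso_delta_comm (v : G.M₀ × G.M₁) :
    G'.delta (isoCochainEquiv f v) = isoOverlapEquiv f (G.delta v) := by
  simp only [delta_apply, isoCochainEquiv, isoOverlapEquiv, LinearEquiv.prodCongr_apply,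
    LinearEquiv.restrictScalars_apply, map_sub, f.comm₀, f.comm₁]

/-- Isomorphic two-chart bundles have isomorphic `H⁰`. -/
noncomputable def isoH0Equiv : G.H0 ≃ₗ[B] G'.H0 :=
  kerEquivOfComm G.delta G'.delta (isoCochainEquiv f) (isoOverlapEquiv f) (iso_delta_comm f)

/-- Isomorphic two-chart bundles have isomorphic `H¹`. -/
noncomputable def isoH1Equiv : G.H1 ≃ₗ[B] G'.H1 :=
  cokerEquivOfComm G.delta G'.delta (isoCochainEquiv f) (isoOverlapEquiv f) (iso_delta_comm f)

include f in
theorem iso_chi_eq : G.chi = G'.chi := by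
  unfold chi
  rw [(isoH0Equiv f).finrank_eq, (isoH1Equiv f).finrank_eq]

end IsoCoh

theorem equiv_chi_eq {G G' : GlueDatum D B} (h : G.Equiv G') : G.chi = G'.chi :=
  h.elim fun f => iso_chi_eq f

/-! ## (A2) Base change of isomorphisms -/

section SqGeneric

variable {R S R' S' : Type*} [CommRing R] [CommRing S] [CommRing R'] [CommRing S']
  [Algebra R S] [Algebra R R'] [Algebra R' S'] [Algebra S S'] [Algebra R S']
  [IsScalarTower R S S'] [IsScalarTower R R' S']
  {M N M' N' : Type*} [AddCommGroup M] [AddCommGroup N] [Module R M] [Module S N] [Module R N]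
  [IsScalarTower R S N] [AddCommGroup M'] [AddCommGroup N'] [Module R M'] [Module S N']
  [Module R N'] [IsScalarTower R S N']

/-- `sqBaseChange` is natural with respect to linear equivalences. -/
theorem sqBaseChange_comm (f : M →ₗ[R] N) (f' : M' →ₗ[R] N') (eM : M ≃ₗ[R] M')
    (eN : N ≃ₗ[S] N') (h : ∀ m, eN (f m) = f' (eM m)) (w : R' ⊗[R] M) :
    eN.baseChange S S' N N' (sqBaseChange (S := S) (S' := S') f w) =
      sqBaseChange (S := S) (S' := S') f' (eM.baseChange R R' M M' w) := by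
  induction w using TensorProduct.induction_on with
  | zero => simp
  | tmul a m => simp [h]
  | add x y hx hy => simp only [map_add, hx, hy]

end SqGeneric

section IsoBaseChange

variable {B' : Type u} [CommRing B'] [Algebra k B']

/-- Base change of an isomorphism of two-chart bundles. -/
noncomputable def isoBaseChange {G G' : GlueDatum D B} (f : Iso G G') (φ : B →ₐ[k] B') :
    Iso (G.baseChange φ) (G'.baseChange φ) :=
  letI := algA₀ D φ
  letI := algA₁ D φ
  letI := algA₀₁ D φ
  letI := algA₀A₀₁ D φ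
  letI := algA₁A₀₁ D φ
  haveI := tower_A₀_A₀₁_A₀₁' D φ
  haveI := tower_A₀_A₀'_A₀₁' D φ
  haveI := tower_A₁_A₀₁_A₀₁' D φ
  haveI := tower_A₁_A₁'_A₀₁' D φ
  { e₀ := f.e₀.baseChange (D.A₀ B) (D.A₀ B') G.M₀ G'.M₀
    e₁ := f.e₁.baseChange (D.A₁ B) (D.A₁ B') G.M₁ G'.M₁
    e₀₁ := f.e₀₁.baseChange (D.A₀₁ B) (D.A₀₁ B') G.M₀₁ G'.M₀₁
    comm₀ := sqBaseChange_comm (S := D.A₀₁ B) (S' := D.A₀₁ B') G.ρ₀ G'.ρ₀ f.e₀ f.e₀₁ f.comm₀
    comm₁ := sqBaseChange_comm (S := D.A₀₁ B) (S' := D.A₀₁ B') G.ρ₁ G'.ρ₁ f.e₁ f.e₀₁ f.comm₁ }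

theorem equiv_baseChange {G G' : GlueDatum D B} (h : G.Equiv G') (φ : B →ₐ[k] B') :
    (G.baseChange φ).Equiv (G'.baseChange φ) :=
  h.elim fun f => ⟨isoBaseChange f φ⟩

end IsoBaseChange

/-! ## (A3) Recognising a base change; `baseChange_id`, `baseChange_comp`, `unit_baseChange` -/

section SlLift

variable {S S' : Type*} [CommRing S] [CommRing S'] [Algebra S S']
  {M M' : Type*} [AddCommGroup M] [Module S M] [AddCommGroup M'] [Module S' M']

/-- The `S'`-linear map `S' ⊗[S] M → M'`, `a ⊗ m ↦ a • g m`, induced by a map `g : M → M'`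
which is semilinear along `S → S'`. -/
noncomputable def slLift (g : M →ₛₗ[algebraMap S S'] M') : S' ⊗[S] M →ₗ[S'] M' where
  toFun := TensorProduct.liftAddHom
    (AddMonoidHom.mk' (fun a : S' =>
        AddMonoidHom.mk' (fun m : M => a • g m) (fun m m' => by rw [map_add, smul_add]))
      (fun a a' => by
        ext m
        simp [add_smul]))
    (fun s a m => by
      simp only [AddMonoidHom.mk'_apply, map_smulₛₗ]
      rw [Algebra.smul_def, mul_comm, mul_smul])
  map_add' := map_add _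
  map_smul' := fun a w => by
    induction w using TensorProduct.induction_on with
    | zero => simp
    | tmul a' m =>
      simp only [TensorProduct.smul_tmul', smul_eq_mul, TensorProduct.liftAddHom_tmul,
        AddMonoidHom.mk'_apply, RingHom.id_apply, mul_smul]
    | add w₁ w₂ h₁ h₂ => simp only [smul_add, map_add, h₁, h₂]

@[simp] theorem slLift_tmul (g : M →ₛₗ[algebraMap S S'] M') (a : S') (m : M) :
    slLift g (a ⊗ₜ[S] m) = a • g m := rfl

/-- Every element of `S' ⊗[S] M` is of the form `1 ⊗ m` when `S → S'` is surjective. -/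
theorem exists_one_tmul_of_surjective (h : Function.Surjective (algebraMap S S'))
    (w : S' ⊗[S] M) : ∃ m : M, w = (1 : S') ⊗ₜ[S] m := by
  induction w using TensorProduct.induction_on with
  | zero => exact ⟨0, by simp⟩
  | tmul a m =>
    obtain ⟨s, rfl⟩ := h a
    exact ⟨s • m, by rw [TensorProduct.tmul_smul, Algebra.algebraMap_eq_smul_one,
      TensorProduct.smul_tmul']⟩
  | add w₁ w₂ h₁ h₂ =>
    obtain ⟨m₁, rfl⟩ := h₁
    obtain ⟨m₂, rfl⟩ := h₂
    exact ⟨m₁ + m₂, by rw [TensorProduct.tmul_add]⟩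

/-- If `S → S'` is surjective and `g` is bijective, then `slLift g` is bijective. -/
theorem slLift_bijective_of_surjective (h : Function.Surjective (algebraMap S S'))
    (g : M →ₛₗ[algebraMap S S'] M') (hg : Function.Bijective g) :
    Function.Bijective (slLift g) := by
  constructor
  · intro w₁ w₂ hw
    obtain ⟨m₁, rfl⟩ := exists_one_tmul_of_surjective h w₁
    obtain ⟨m₂, rfl⟩ := exists_one_tmul_of_surjective h w₂
    simp only [slLift_tmul, one_smul] at hw
    rw [hg.1 hw]
  · intro m'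
    obtain ⟨m, rfl⟩ := hg.2 m'
    exact ⟨1 ⊗ₜ m, by simp⟩

/-- The base change of the ring itself: `S' ⊗[S] S → S'` is bijective. -/
theorem slLift_algebraMap_bijective :
    Function.Bijective (slLift ((algebraMap S S').toSemilinearMap : S →ₛₗ[algebraMap S S'] S')) := by
  have h : ∀ w : S' ⊗[S] S,
      slLift ((algebraMap S S').toSemilinearMap : S →ₛₗ[algebraMap S S'] S') w =
        TensorProduct.rid S S' w := by
    intro w
    induction w using TensorProduct.induction_on with
    | zero => simp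
    | tmul a s =>
      simp [Algebra.smul_def, mul_comm]
    | add w₁ w₂ h₁ h₂ => simp only [map_add, h₁, h₂]
  have : (slLift ((algebraMap S S').toSemilinearMap : S →ₛₗ[algebraMap S S'] S') :
      S' ⊗[S] S → S') = TensorProduct.rid S S' := funext h
  rw [this]
  exact (TensorProduct.rid S S').bijective

end SlLift

section Tower

variable {S S' S'' : Type*} [CommRing S] [CommRing S'] [CommRing S''] [Algebra S S']
  [Algebra S' S''] [Algebra S S''] [IsScalarTower S S' S'']
  (M : Type*) [AddCommGroup M] [Module S M]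

/-- The canonical map `S' ⊗[S] M → S'' ⊗[S] M`, `a ⊗ m ↦ a ⊗ m`, semilinear along `S' → S''`. -/
noncomputable def towerMap : S' ⊗[S] M →ₛₗ[algebraMap S' S''] S'' ⊗[S] M where
  toFun := TensorProduct.liftAddHom
    (AddMonoidHom.mk' (fun a : S' =>
        AddMonoidHom.mk' (fun m : M => (algebraMap S' S'' a) ⊗ₜ[S] m)
          (fun m m' => by rw [TensorProduct.tmul_add]))
      (fun a a' => by
        ext m
        simp [TensorProduct.add_tmul]))
    (fun s a m => by
      simp only [AddMonoidHom.mk'_apply]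
      rw [Algebra.smul_def, map_mul, ← IsScalarTower.algebraMap_apply, ← Algebra.smul_def,
        TensorProduct.smul_tmul])
  map_add' := map_add _
  map_smul' := fun a w => by
    induction w using TensorProduct.induction_on with
    | zero => simp
    | tmul a' m =>
      simp only [TensorProduct.smul_tmul', smul_eq_mul, TensorProduct.liftAddHom_tmul,
        AddMonoidHom.mk'_apply, map_mul]
    | add w₁ w₂ h₁ h₂ => simp only [smul_add, map_add, h₁, h₂]

@[simp] theorem towerMap_tmul (a : S') (m : M) :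
    towerMap (S'' := S'') M (a ⊗ₜ[S] m) = (algebraMap S' S'' a) ⊗ₜ[S] m := rfl

theorem slLift_towerMap_bijective :
    Function.Bijective (slLift (towerMap (S := S) (S' := S') (S'' := S'') M)) := by
  have h : ∀ w : S'' ⊗[S'] (S' ⊗[S] M), slLift (towerMap (S'' := S'') M) w =
      TensorProduct.AlgebraTensorModule.cancelBaseChange S S' S'' S'' M w := by
    intro w
    induction w using TensorProduct.induction_on with
    | zero => simp
    | tmul c v =>
      induction v using TensorProduct.induction_on with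
      | zero => simp
      | tmul a m =>
        simp [TensorProduct.smul_tmul', Algebra.smul_def, mul_comm]
      | add v₁ v₂ h₁ h₂ => simp only [TensorProduct.tmul_add, map_add, h₁, h₂]
    | add w₁ w₂ h₁ h₂ => simp only [map_add, h₁, h₂]
  have : (slLift (towerMap (S'' := S'') M) : S'' ⊗[S'] (S' ⊗[S] M) → S'' ⊗[S] M) =
      TensorProduct.AlgebraTensorModule.cancelBaseChange S S' S'' S'' M := funext h
  rw [this]
  exact (TensorProduct.AlgebraTensorModule.cancelBaseChange S S' S'' S'' M).bijective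

end Tower

section SqLift

variable {R S R' S' : Type*} [CommRing R] [CommRing S] [CommRing R'] [CommRing S']
  [Algebra R S] [Algebra R R'] [Algebra R' S'] [Algebra S S'] [Algebra R S']
  [IsScalarTower R S S'] [IsScalarTower R R' S']
  {M N M' N' : Type*} [AddCommGroup M] [AddCommGroup N] [Module R M] [Module S N] [Module R N]
  [IsScalarTower R S N] [AddCommGroup M'] [AddCommGroup N'] [Module R' M'] [Module S' N']
  [Module R' N'] [IsScalarTower R' S' N']

/-- Compatibility of `sqBaseChange` with `slLift`. -/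
theorem slLift_sqBaseChange (f : M →ₗ[R] N) (f' : M' →ₗ[R'] N')
    (b : M →ₛₗ[algebraMap R R'] M') (c : N →ₛₗ[algebraMap S S'] N')
    (h : ∀ m, f' (b m) = c (f m)) (w : R' ⊗[R] M) :
    slLift c (sqBaseChange (S := S) (S' := S') f w) = f' (slLift b w) := by
  induction w using TensorProduct.induction_on with
  | zero => simp
  | tmul a m =>
    rw [sqBaseChange_tmul, slLift_tmul, slLift_tmul, map_smul, h, algebraMap_smul]
  | add x y hx hy => simp only [map_add, hx, hy]

end SqLift

section Recognise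

variable {B' : Type u} [CommRing B'] [Algebra k B']

/-- RECOGNITION PRINCIPLE for base changes.  Let `G` be a two-chart bundle over `B`,
`φ : B → B'` and `G'` a two-chart bundle over `B'`.  Three maps `b₀, b₁, b₀₁` from the modules
of `G` to those of `G'`, semilinear along `D.map₀ φ`, `D.map₁ φ`, `D.map₀₁ φ`, compatible with
the restriction maps, and inducing bijections after extension of scalars, give an isomorphism
`G.baseChange φ ≅ G'`. -/
noncomputable def isoOfBaseChange (G : GlueDatum D B) (φ : B →ₐ[k] B') (G' : GlueDatum D B')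
    (b₀ : G.M₀ →ₛₗ[(D.map₀ φ).toRingHom] G'.M₀) (b₁ : G.M₁ →ₛₗ[(D.map₁ φ).toRingHom] G'.M₁)
    (b₀₁ : G.M₀₁ →ₛₗ[(D.map₀₁ φ).toRingHom] G'.M₀₁)
    (hc₀ : ∀ m, G'.ρ₀ (b₀ m) = b₀₁ (G.ρ₀ m)) (hc₁ : ∀ m, G'.ρ₁ (b₁ m) = b₀₁ (G.ρ₁ m))
    (h₀ : letI := algA₀ D φ; Function.Bijective (slLift (S := D.A₀ B) (S' := D.A₀ B') b₀))
    (h₁ : letI := algA₁ D φ; Function.Bijective (slLift (S := D.A₁ B) (S' := D.A₁ B') b₁))
    (h₀₁ : letI := algA₀₁ D φ;
      Function.Bijective (slLift (S := D.A₀₁ B) (S' := D.A₀₁ B') b₀₁)) :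
    Iso (G.baseChange φ) G' :=
  letI := algA₀ D φ
  letI := algA₁ D φ
  letI := algA₀₁ D φ
  letI := algA₀A₀₁ D φ
  letI := algA₁A₀₁ D φ
  haveI := tower_A₀_A₀₁_A₀₁' D φ
  haveI := tower_A₀_A₀'_A₀₁' D φ
  haveI := tower_A₁_A₀₁_A₀₁' D φ
  haveI := tower_A₁_A₁'_A₀₁' D φ
  { e₀ := LinearEquiv.ofBijective (slLift (S := D.A₀ B) (S' := D.A₀ B') b₀) h₀
    e₁ := LinearEquiv.ofBijective (slLift (S := D.A₁ B) (S' := D.A₁ B') b₁) h₁
    e₀₁ := LinearEquiv.ofBijective (slLift (S := D.A₀₁ B) (S' := D.A₀₁ B') b₀₁) h₀₁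
    comm₀ := slLift_sqBaseChange (S := D.A₀₁ B) (S' := D.A₀₁ B') G.ρ₀ G'.ρ₀ b₀ b₀₁ hc₀
    comm₁ := slLift_sqBaseChange (S := D.A₀₁ B) (S' := D.A₀₁ B') G.ρ₁ G'.ρ₁ b₁ b₀₁ hc₁ }

theorem equiv_of_baseChange (G : GlueDatum D B) (φ : B →ₐ[k] B') (G' : GlueDatum D B')
    (b₀ : G.M₀ →ₛₗ[(D.map₀ φ).toRingHom] G'.M₀) (b₁ : G.M₁ →ₛₗ[(D.map₁ φ).toRingHom] G'.M₁)
    (b₀₁ : G.M₀₁ →ₛₗ[(D.map₀₁ φ).toRingHom] G'.M₀₁)
    (hc₀ : ∀ m, G'.ρ₀ (b₀ m) = b₀₁ (G.ρ₀ m)) (hc₁ : ∀ m, G'.ρ₁ (b₁ m) = b₀₁ (G.ρ₁ m))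
    (h₀ : letI := algA₀ D φ; Function.Bijective (slLift (S := D.A₀ B) (S' := D.A₀ B') b₀))
    (h₁ : letI := algA₁ D φ; Function.Bijective (slLift (S := D.A₁ B) (S' := D.A₁ B') b₁))
    (h₀₁ : letI := algA₀₁ D φ;
      Function.Bijective (slLift (S := D.A₀₁ B) (S' := D.A₀₁ B') b₀₁)) :
    (G.baseChange φ).Equiv G' :=
  ⟨isoOfBaseChange G φ G' b₀ b₁ b₀₁ hc₀ hc₁ h₀ h₁ h₀₁⟩

end Recognise

section Applications

variable {B' : Type u} [CommRing B'] [Algebra k B']

/-- The base change of the trivial bundle is the trivial bundle. -/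
theorem unit_baseChange (φ : B →ₐ[k] B') : ((unit D B).baseChange φ).Equiv (unit D B') := by
  let _ := algA₀ D φ
  let _ := algA₁ D φ
  let _ := algA₀₁ D φ
  exact equiv_of_baseChange (unit D B) φ (unit D B')
    ((D.map₀ φ).toRingHom.toSemilinearMap) ((D.map₁ φ).toRingHom.toSemilinearMap)
    ((D.map₀₁ φ).toRingHom.toSemilinearMap)
    (fun m => res₀_map₀ D φ m) (fun m => res₁_map₁ D φ m)
    (slLift_algebraMap_bijective (S := D.A₀ B) (S' := D.A₀ B'))
    (slLift_algebraMap_bijective (S := D.A₁ B) (S' := D.A₁ B'))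
    (slLift_algebraMap_bijective (S := D.A₀₁ B) (S' := D.A₀₁ B'))

/-- Base change along the identity does nothing. -/
theorem baseChange_id (G : GlueDatum D B) : (G.baseChange (AlgHom.id k B)).Equiv G := by
  have e₀ : ∀ a : D.A₀ B, D.map₀ (AlgHom.id k B) a = a := fun a => by
    rw [show D.map₀ (AlgHom.id k B) = AlgHom.id k _ from Algebra.TensorProduct.map_id]; rfl
  have e₁ : ∀ a : D.A₁ B, D.map₁ (AlgHom.id k B) a = a := fun a => by
    rw [show D.map₁ (AlgHom.id k B) = AlgHom.id k _ from Algebra.TensorProduct.map_id]; rfl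
  have e₀₁ : ∀ a : D.A₀₁ B, D.map₀₁ (AlgHom.id k B) a = a := fun a => by
    rw [show D.map₀₁ (AlgHom.id k B) = AlgHom.id k _ from Algebra.TensorProduct.map_id]; rfl
  let _ := algA₀ D (AlgHom.id k B)
  let _ := algA₁ D (AlgHom.id k B)
  let _ := algA₀₁ D (AlgHom.id k B)
  let b₀ : G.M₀ →ₛₗ[(D.map₀ (AlgHom.id k B)).toRingHom] G.M₀ :=
    { toFun := id
      map_add' := fun _ _ => rfl
      map_smul' := fun a m => by
        change a • m = (D.map₀ (AlgHom.id k B) a) • m
        rw [e₀] }
  let b₁ : G.M₁ →ₛₗ[(D.map₁ (AlgHom.id k B)).toRingHom] G.M₁ :=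
    { toFun := id
      map_add' := fun _ _ => rfl
      map_smul' := fun a m => by
        change a • m = (D.map₁ (AlgHom.id k B) a) • m
        rw [e₁] }
  let b₀₁ : G.M₀₁ →ₛₗ[(D.map₀₁ (AlgHom.id k B)).toRingHom] G.M₀₁ :=
    { toFun := id
      map_add' := fun _ _ => rfl
      map_smul' := fun a m => by
        change a • m = (D.map₀₁ (AlgHom.id k B) a) • m
        rw [e₀₁] }
  exact equiv_of_baseChange G (AlgHom.id k B) G b₀ b₁ b₀₁ (fun _ => rfl) (fun _ => rfl)
    (slLift_bijective_of_surjective (S := D.A₀ B) (S' := D.A₀ B) (fun a => ⟨a, e₀ a⟩) b₀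
      Function.bijective_id)
    (slLift_bijective_of_surjective (S := D.A₁ B) (S' := D.A₁ B) (fun a => ⟨a, e₁ a⟩) b₁
      Function.bijective_id)
    (slLift_bijective_of_surjective (S := D.A₀₁ B) (S' := D.A₀₁ B) (fun a => ⟨a, e₀₁ a⟩) b₀₁
      Function.bijective_id)

end Applications

section TowerSq

variable {R S R' S' R'' S'' : Type*} [CommRing R] [CommRing S] [CommRing R'] [CommRing S']
  [CommRing R''] [CommRing S'']
  [Algebra R S] [Algebra R R'] [Algebra R' S'] [Algebra S S'] [Algebra R S']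
  [IsScalarTower R S S'] [IsScalarTower R R' S']
  [Algebra R R''] [Algebra R'' S''] [Algebra S S''] [Algebra R S'']
  [IsScalarTower R S S''] [IsScalarTower R R'' S'']
  [Algebra R' R''] [Algebra S' S''] [IsScalarTower R R' R''] [IsScalarTower S S' S'']
  {M N : Type*} [AddCommGroup M] [AddCommGroup N] [Module R M] [Module S N] [Module R N]
  [IsScalarTower R S N]

/-- `sqBaseChange` is compatible with the tower maps. -/
theorem sqBaseChange_towerMap
    (hsq : ∀ a : R', algebraMap R'' S'' (algebraMap R' R'' a) =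
      algebraMap S' S'' (algebraMap R' S' a))
    (f : M →ₗ[R] N) (w : R' ⊗[R] M) :
    sqBaseChange (S := S) (R' := R'') (S' := S'') f (towerMap (S'' := R'') M w) =
      towerMap (S'' := S'') N (sqBaseChange (S := S) (R' := R') (S' := S') f w) := by
  induction w using TensorProduct.induction_on with
  | zero => simp
  | tmul a m =>
    rw [towerMap_tmul, sqBaseChange_tmul, sqBaseChange_tmul, towerMap_tmul, hsq]
  | add x y hx hy => simp only [map_add, hx, hy]

end TowerSq

section Comp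

variable {B' B'' : Type u} [CommRing B'] [Algebra k B'] [CommRing B''] [Algebra k B'']

theorem map₀_comp (φ : B →ₐ[k] B') (ψ : B' →ₐ[k] B'') (a : D.A₀ B) :
    D.map₀ (ψ.comp φ) a = D.map₀ ψ (D.map₀ φ a) := by
  induction a using TensorProduct.induction_on with
  | zero => simp
  | tmul r b => rfl
  | add a b ha hb => simp only [map_add, ha, hb]

theorem map₁_comp (φ : B →ₐ[k] B') (ψ : B' →ₐ[k] B'') (a : D.A₁ B) :
    D.map₁ (ψ.comp φ) a = D.map₁ ψ (D.map₁ φ a) := by
  induction a using TensorProduct.induction_on with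
  | zero => simp
  | tmul r b => rfl
  | add a b ha hb => simp only [map_add, ha, hb]

theorem map₀₁_comp (φ : B →ₐ[k] B') (ψ : B' →ₐ[k] B'') (a : D.A₀₁ B) :
    D.map₀₁ (ψ.comp φ) a = D.map₀₁ ψ (D.map₀₁ φ a) := by
  induction a using TensorProduct.induction_on with
  | zero => simp
  | tmul r b => rfl
  | add a b ha hb => simp only [map_add, ha, hb]

/-- Base change is compatible with composition. -/
theorem baseChange_comp (G : GlueDatum D B) (φ : B →ₐ[k] B') (ψ : B' →ₐ[k] B'') :
    ((G.baseChange φ).baseChange ψ).Equiv (G.baseChange (ψ.comp φ)) := by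
  let _ := algA₀ D φ
  let _ := algA₁ D φ
  let _ := algA₀₁ D φ
  let _ := algA₀A₀₁ D φ
  let _ := algA₁A₀₁ D φ
  have := tower_A₀_A₀₁_A₀₁' D φ
  have := tower_A₀_A₀'_A₀₁' D φ
  have := tower_A₁_A₀₁_A₀₁' D φ
  have := tower_A₁_A₁'_A₀₁' D φ
  let _ := algA₀ D ψ
  let _ := algA₁ D ψ
  let _ := algA₀₁ D ψ
  let _ := algA₀ D (ψ.comp φ)
  let _ := algA₁ D (ψ.comp φ)
  let _ := algA₀₁ D (ψ.comp φ)
  let _ := algA₀A₀₁ D (ψ.comp φ)
  let _ := algA₁A₀₁ D (ψ.comp φ)
  have := tower_A₀_A₀₁_A₀₁' D (ψ.comp φ)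
  have := tower_A₀_A₀'_A₀₁' D (ψ.comp φ)
  have := tower_A₁_A₀₁_A₀₁' D (ψ.comp φ)
  have := tower_A₁_A₁'_A₀₁' D (ψ.comp φ)
  have t₀ : IsScalarTower (D.A₀ B) (D.A₀ B') (D.A₀ B'') :=
    IsScalarTower.of_algebraMap_eq fun a => map₀_comp φ ψ a
  have t₁ : IsScalarTower (D.A₁ B) (D.A₁ B') (D.A₁ B'') :=
    IsScalarTower.of_algebraMap_eq fun a => map₁_comp φ ψ a
  have t₀₁ : IsScalarTower (D.A₀₁ B) (D.A₀₁ B') (D.A₀₁ B'') :=
    IsScalarTower.of_algebraMap_eq fun a => map₀₁_comp φ ψ a
  exact equiv_of_baseChange (G.baseChange φ) ψ (G.baseChange (ψ.comp φ))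
    (towerMap (S := D.A₀ B) (S' := D.A₀ B') (S'' := D.A₀ B'') G.M₀)
    (towerMap (S := D.A₁ B) (S' := D.A₁ B') (S'' := D.A₁ B'') G.M₁)
    (towerMap (S := D.A₀₁ B) (S' := D.A₀₁ B') (S'' := D.A₀₁ B'') G.M₀₁)
    (sqBaseChange_towerMap (S := D.A₀₁ B) (S' := D.A₀₁ B') (S'' := D.A₀₁ B'')
      (fun a => res₀_map₀ D ψ a) G.ρ₀)
    (sqBaseChange_towerMap (S := D.A₀₁ B) (S' := D.A₀₁ B') (S'' := D.A₀₁ B'')
      (fun a => res₁_map₁ D ψ a) G.ρ₁)
    (slLift_towerMap_bijective (S := D.A₀ B) (S' := D.A₀ B') (S'' := D.A₀ B'') G.M₀)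
    (slLift_towerMap_bijective (S := D.A₁ B) (S' := D.A₁ B') (S'' := D.A₁ B'') G.M₁)
    (slLift_towerMap_bijective (S := D.A₀₁ B) (S' := D.A₀₁ B') (S'' := D.A₀₁ B'') G.M₀₁)

end Comp

/-! ## (A4) Rigidification -/

section Rig

variable {B' : Type u} [CommRing B'] [Algebra k B']

/-- `IsRig` only depends on the isomorphism class. -/
theorem isRig_of_equiv {G G' : GlueDatum D B} (h : G.Equiv G') (hG : G.IsRig) : G'.IsRig := by
  obtain ⟨f⟩ := h
  let _ := algE D B
  obtain ⟨e⟩ := hG
  exact ⟨(f.e₁.symm.baseChange (D.A₁ B) B G'.M₁ G.M₁).trans e⟩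

theorem isRig_iff_of_equiv {G G' : GlueDatum D B} (h : G.Equiv G') : G.IsRig ↔ G'.IsRig :=
  ⟨isRig_of_equiv h, isRig_of_equiv h.symm⟩

/-- The trivial bundle is rigidified. -/
theorem isRig_unit : (unit D B).IsRig := by
  let _ := algE D B
  exact ⟨TensorProduct.AlgebraTensorModule.rid (D.A₁ B) B B⟩

end Rig

section RigGeneric

variable {A A' C C' : Type*} [CommRing A] [CommRing A'] [CommRing C] [CommRing C']
  [Algebra A A'] [Algebra A C] [Algebra A' C'] [Algebra C C'] [Algebra A C']
  [IsScalarTower A A' C'] [IsScalarTower A C C']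
  {M : Type*} [AddCommGroup M] [Module A M]

/-- Generic form of "rigidifications base-change". -/
theorem nonempty_rig_baseChange (e : C ⊗[A] M ≃ₗ[C] C) :
    Nonempty (C' ⊗[A'] (A' ⊗[A] M) ≃ₗ[C'] C') :=
  ⟨(TensorProduct.AlgebraTensorModule.cancelBaseChange A A' C' C' M).trans
    ((TensorProduct.AlgebraTensorModule.cancelBaseChange A C C' C' M).symm.trans
      ((e.baseChange C C' (C ⊗[A] M) C).trans
        (TensorProduct.AlgebraTensorModule.rid C C' C')))⟩

end RigGeneric

section RigBaseChange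

variable {B' : Type u} [CommRing B'] [Algebra k B']

/-- Rigidifications base-change. -/
theorem isRig_baseChange {G : GlueDatum D B} (hG : G.IsRig) (φ : B →ₐ[k] B') :
    (G.baseChange φ).IsRig := by
  let _ := algE D B
  let _ := algE D B'
  let _ := algA₁ D φ
  let _ : Algebra B B' := φ.toRingHom.toAlgebra
  let _ : Algebra (D.A₁ B) B' := ((D.eB B').toRingHom.comp (D.map₁ φ).toRingHom).toAlgebra
  have t₁ : IsScalarTower (D.A₁ B) (D.A₁ B') B' := IsScalarTower.of_algebraMap_eq fun a => rfl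
  have t₂ : IsScalarTower (D.A₁ B) B B' := IsScalarTower.of_algebraMap_eq fun a => eB_map₁ D φ a
  obtain ⟨e⟩ := hG
  exact nonempty_rig_baseChange (A := D.A₁ B) (A' := D.A₁ B') (C := B) (C' := B') e

end RigBaseChange

/-! ## (A5) Degree zero -/

section Deg

variable {B' : Type u} [CommRing B'] [Algebra k B']

/-- `DegZero` only depends on the isomorphism class. -/
theorem degZero_of_equiv {G G' : GlueDatum D B} (h : G.Equiv G') (hG : G.DegZero) :
    G'.DegZero := by
  intro K _ _ φ
  rw [← hG K φ]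
  exact (equiv_chi_eq (equiv_baseChange h φ)).symm

theorem degZero_iff_of_equiv {G G' : GlueDatum D B} (h : G.Equiv G') : G.DegZero ↔ G'.DegZero :=
  ⟨degZero_of_equiv h, degZero_of_equiv h.symm⟩

/-- `DegZero` is stable under base change. -/
theorem degZero_baseChange {G : GlueDatum D B} (hG : G.DegZero) (φ : B →ₐ[k] B') :
    (G.baseChange φ).DegZero := by
  intro K _ _ ψ
  rw [equiv_chi_eq (baseChange_comp G φ ψ)]
  exact hG K (ψ.comp φ)

/-- The trivial bundle has degree zero. -/
theorem degZero_unit : (unit D B).DegZero := by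
  intro K _ _ φ
  exact equiv_chi_eq (unit_baseChange φ)

/-- `DegZero` can be tested after base change along a map through which every field point
factors (e.g. a surjection with nilpotent kernel). -/
theorem degZero_of_baseChange {G : GlueDatum D B} (φ : B →ₐ[k] B')
    (hφ : ∀ (K : Type u) [Field K] [Algebra k K] (χ : B →ₐ[k] K), ∃ ψ : B' →ₐ[k] K, ψ.comp φ = χ)
    (hG : (G.baseChange φ).DegZero) : G.DegZero := by
  intro K _ _ χ
  obtain ⟨ψ, rfl⟩ := hφ K χ
  rw [← equiv_chi_eq (baseChange_comp G φ ψ)]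
  exact hG K ψ

end Deg

/-! ## (A4') Rigidifiability over rings with trivial Picard group -/

section RigLocal

/-- Every two-chart line bundle over a ring with trivial Picard group is rigidifiable. -/
theorem isRig_of_subsingleton_pic [Subsingleton (CommRing.Pic B)] (G : GlueDatum D B) :
    G.IsRig := by
  let _ := algE D B
  exact Module.Invertible.free_iff_linearEquiv.mp inferInstance

/-- Every two-chart line bundle over a local ring (e.g. a field, a valuation ring) is
rigidifiable. -/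
theorem isRig_of_isLocalRing [IsLocalRing B] (G : GlueDatum D B) : G.IsRig :=
  isRig_of_subsingleton_pic G

/-- Every two-chart line bundle over a field is rigidifiable. -/
theorem isRig_of_field {K : Type u} [Field K] [Algebra k K] (G : GlueDatum D K) : G.IsRig :=
  isRig_of_subsingleton_pic G

end RigLocal

end Fermat.Agent.S25.helper743
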