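import Fermat.Agent.S25.helper8703_FieldCase
import Fermat.Agent.S25.helper1804_AlgApi
import Fermat.Agent.S25.helper743_AlgApi
import Fermat.Agent.S25.helper7215_FieldCase
import Fermat.Agent.S25.helper6786_CurveBase
import Fermat.Agent.S25.helper1167_UnitSections
import Fermat.Agent.Lib.helper9007_TensorDomain

/-!
# S25 / U2b: field case of the degree theory for `GlueDatum` (helper8703)

Adapter of `helper8703_FieldCase` to `helper2945.GlueDatum`, over a field `K` containing the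
algebraically closed base field `k`.
-/

set_option autoImplicit false
set_option linter.style.haveILetI false

universe u

namespace Fermat.Agent.S25.helper8703

open Module Function
open Fermat.Agent.S25.helper1705 Fermat.Agent.S25.helper2945

section Ring

variable {k : Type u} [Field k] (D : CurveDatum k) (B : Type u) [CommRing B] [Algebra k B]

theorem isUnit_algebraMap_xB : IsUnit (algebraMap (D.A₀ B) (D.A₀₁ B) (xB D B)) :=
  IsUnit.of_mul_eq_one _ (xB_mul_yB D B)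

theorem isUnit_algebraMap_yB : IsUnit (algebraMap (D.A₁ B) (D.A₀₁ B) (yB D B)) :=
  IsUnit.of_mul_eq_one _ ((mul_comm _ _).trans (xB_mul_yB D B))

variable (K : Type u) [Field K] [Algebra k K]

/-- First chart ring over a field: a domain. -/
theorem isDomain_A₀ [IsAlgClosed k] : IsDomain (D.A₀ K) :=
  Fermat.Agent.Lib.helper9007.isDomain_tensorProduct_field k D.R₀ K

/-- Second chart ring over a field: a domain. -/
theorem isDomain_A₁ [IsAlgClosed k] : IsDomain (D.A₁ K) :=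
  Fermat.Agent.Lib.helper9007.isDomain_tensorProduct_field k D.R₁ K

/-- Nonzero principal ideals of the first chart ring over a field have finite codimension. -/
theorem finQuot_A₀ [IsAlgClosed k] (a : D.A₀ K) (ha : a ≠ 0) :
    Module.Finite K (D.A₀ K ⧸ Ideal.span {a}) := by
  haveI := isDomain_A₀ D K
  exact Fermat.Agent.S25.helper7215.finite_quotient_span_singleton (xB D K)
    (Fermat.Agent.S25.helper6786.CurveBase.finite_aeval_tmul K D.x D.finite₀) ha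

/-- Nonzero principal ideals of the second chart ring over a field have finite codimension. -/
theorem finQuot_A₁ [IsAlgClosed k] (a : D.A₁ K) (ha : a ≠ 0) :
    Module.Finite K (D.A₁ K ⧸ Ideal.span {a}) := by
  haveI := isDomain_A₁ D K
  exact Fermat.Agent.S25.helper7215.finite_quotient_span_singleton (yB D K)
    (Fermat.Agent.S25.helper6786.CurveBase.finite_aeval_tmul K D.y D.finite₁) ha

end Ring

section Loc

variable {k : Type u} [Field k] [IsAlgClosed k] {D : CurveDatum k} {B : Type u} [CommRing B]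
  [Algebra k B] (G : GlueDatum D B)

/-- `ρ₀` of a two-chart line bundle is a localization map in the elementwise sense. -/
theorem isLocAt_ρ₀ : IsLocAt (D.A₀₁ B) (xB D B) G.ρ₀ where
  map_add := map_add G.ρ₀
  map_smul a m := by rw [map_smul, algebraMap_smul]
  injective := Fermat.Agent.S25.helper1804.Lattice.ρ₀_injective G
  surj z := by
    obtain ⟨⟨m, ⟨_, n, rfl⟩⟩, h⟩ := IsLocalizedModule.surj (Submonoid.powers (xB D B)) G.ρ₀ z
    refine ⟨n, m, ?_⟩
    rw [← map_pow, algebraMap_smul]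
    exact h

/-- `ρ₁` of a two-chart line bundle is a localization map in the elementwise sense. -/
theorem isLocAt_ρ₁ : IsLocAt (D.A₀₁ B) (yB D B) G.ρ₁ where
  map_add := map_add G.ρ₁
  map_smul a m := by rw [map_smul, algebraMap_smul]
  injective := Fermat.Agent.S25.helper1804.Lattice.ρ₁_injective G
  surj z := by
    obtain ⟨⟨m, ⟨_, n, rfl⟩⟩, h⟩ := IsLocalizedModule.surj (Submonoid.powers (yB D B)) G.ρ₁ z
    refine ⟨n, m, ?_⟩
    rw [← map_pow, algebraMap_smul]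
    exact h

end Loc

section Field

variable {k : Type u} [Field k] {D : CurveDatum k} {K : Type u} [Field K] [Algebra k K]

/-- Finite-dimensional cohomology of a two-chart line bundle over a field. -/
def FinCoh (G : GlueDatum D K) : Prop := Module.Finite K G.H0 ∧ Module.Finite K G.H1

theorem FinCoh.isFred {G : GlueDatum D K} (h : FinCoh G) : IsFred G.delta := h

/-- `χ` of a two-chart line bundle over a field is the index of its Čech differential. -/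
theorem chi_eq_index (G : GlueDatum D K) : G.chi = G.delta.index := by
  rw [LinearMap.index_eq_finrank_sub]
  rfl

/-- **Riemann inequality** `χ ≤ h⁰`. -/
theorem chi_le_finrank_H0 (G : GlueDatum D K) : G.chi ≤ finrank K G.H0 := by
  unfold GlueDatum.chi
  omega

variable [IsAlgClosed k]

/-- **Monotonicity of `χ`** along a nonzero morphism of two-chart line bundles over a field;
the defect bounds the dimension of each chart cokernel. -/
theorem hom_chi_le (G G' : GlueDatum D K) (hG : FinCoh G) (hG' : FinCoh G')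
    (ψ₀ : G.M₀ →ₗ[D.A₀ K] G'.M₀) (ψ₁ : G.M₁ →ₗ[D.A₁ K] G'.M₁) (ψ : G.M₀₁ →ₗ[D.A₀₁ K] G'.M₀₁)
    (h₀ : ∀ m, ψ (G.ρ₀ m) = G'.ρ₀ (ψ₀ m)) (h₁ : ∀ m, ψ (G.ρ₁ m) = G'.ρ₁ (ψ₁ m)) (hne : ψ₀ ≠ 0) :
    G.chi + finrank K (G'.M₀ ⧸ LinearMap.range ψ₀) ≤ G'.chi ∧
      G.chi + finrank K (G'.M₁ ⧸ LinearMap.range ψ₁) ≤ G'.chi ∧ G.chi ≤ G'.chi := by
  haveI := isDomain_A₀ D K
  haveI := isDomain_A₁ D K
  rw [chi_eq_index, chi_eq_index]
  exact morphism_index_le (isLocAt_ρ₀ G) (isLocAt_ρ₁ G) (isLocAt_ρ₀ G') (isLocAt_ρ₁ G')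
    (isUnit_algebraMap_xB D K) (isUnit_algebraMap_yB D K) (finQuot_A₀ D K) (finQuot_A₁ D K)
    ψ₀ ψ₁ ψ h₀ h₁ hne G.delta G'.delta (fun a b => G.delta_apply (a, b))
    (fun a b => G'.delta_apply (a, b)) hG hG'

/-- A nonzero morphism of two-chart line bundles over a field is injective. -/
theorem hom_injective (G G' : GlueDatum D K)
    (ψ₀ : G.M₀ →ₗ[D.A₀ K] G'.M₀) (ψ₁ : G.M₁ →ₗ[D.A₁ K] G'.M₁) (ψ : G.M₀₁ →ₗ[D.A₀₁ K] G'.M₀₁)
    (h₀ : ∀ m, ψ (G.ρ₀ m) = G'.ρ₀ (ψ₀ m)) (h₁ : ∀ m, ψ (G.ρ₁ m) = G'.ρ₁ (ψ₁ m)) (hne : ψ₀ ≠ 0) :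
    Injective ψ₀ ∧ Injective ψ₁ ∧ Injective ψ ∧ ψ₁ ≠ 0 := by
  haveI := isDomain_A₀ D K
  haveI := isDomain_A₁ D K
  exact morphism_injective (isLocAt_ρ₀ G) (isLocAt_ρ₁ G) (isLocAt_ρ₀ G') (isLocAt_ρ₁ G')
    (isUnit_algebraMap_xB D K) (isUnit_algebraMap_yB D K) ψ₀ ψ₁ ψ h₀ h₁ hne

/-- **A nonzero morphism `G → G'` with `χ(G') ≤ χ(G)` is bijective on both charts and on the
overlap.** -/
theorem hom_bijective (G G' : GlueDatum D K) (hG : FinCoh G) (hG' : FinCoh G')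
    (ψ₀ : G.M₀ →ₗ[D.A₀ K] G'.M₀) (ψ₁ : G.M₁ →ₗ[D.A₁ K] G'.M₁) (ψ : G.M₀₁ →ₗ[D.A₀₁ K] G'.M₀₁)
    (h₀ : ∀ m, ψ (G.ρ₀ m) = G'.ρ₀ (ψ₀ m)) (h₁ : ∀ m, ψ (G.ρ₁ m) = G'.ρ₁ (ψ₁ m)) (hne : ψ₀ ≠ 0)
    (hχ : G'.chi ≤ G.chi) : Bijective ψ₀ ∧ Bijective ψ₁ ∧ Bijective ψ := by
  haveI := isDomain_A₀ D K
  haveI := isDomain_A₁ D K
  rw [chi_eq_index, chi_eq_index] at hχ
  exact morphism_bijective_of_index_le (isLocAt_ρ₀ G) (isLocAt_ρ₁ G) (isLocAt_ρ₀ G')
    (isLocAt_ρ₁ G') (isUnit_algebraMap_xB D K) (isUnit_algebraMap_yB D K) (finQuot_A₀ D K)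
    (finQuot_A₁ D K) ψ₀ ψ₁ ψ h₀ h₁ hne G.delta G'.delta (fun a b => G.delta_apply (a, b))
    (fun a b => G'.delta_apply (a, b)) hG hG' hχ

/-- The isomorphism given by a nonzero morphism `G → G'` with `χ(G') ≤ χ(G)`. -/
noncomputable def isoOfHom (G G' : GlueDatum D K) (hG : FinCoh G) (hG' : FinCoh G')
    (ψ₀ : G.M₀ →ₗ[D.A₀ K] G'.M₀) (ψ₁ : G.M₁ →ₗ[D.A₁ K] G'.M₁) (ψ : G.M₀₁ →ₗ[D.A₀₁ K] G'.M₀₁)
    (h₀ : ∀ m, ψ (G.ρ₀ m) = G'.ρ₀ (ψ₀ m)) (h₁ : ∀ m, ψ (G.ρ₁ m) = G'.ρ₁ (ψ₁ m)) (hne : ψ₀ ≠ 0)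
    (hχ : G'.chi ≤ G.chi) : GlueDatum.Iso G G' where
  e₀ := LinearEquiv.ofBijective ψ₀ (hom_bijective G G' hG hG' ψ₀ ψ₁ ψ h₀ h₁ hne hχ).1
  e₁ := LinearEquiv.ofBijective ψ₁ (hom_bijective G G' hG hG' ψ₀ ψ₁ ψ h₀ h₁ hne hχ).2.1
  e₀₁ := LinearEquiv.ofBijective ψ (hom_bijective G G' hG hG' ψ₀ ψ₁ ψ h₀ h₁ hne hχ).2.2
  comm₀ := h₀
  comm₁ := h₁

/-- **A nonzero morphism between two-chart line bundles of equal `χ` over a field is an
isomorphism.** -/
theorem equiv_of_hom (G G' : GlueDatum D K) (hG : FinCoh G) (hG' : FinCoh G')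
    (ψ₀ : G.M₀ →ₗ[D.A₀ K] G'.M₀) (ψ₁ : G.M₁ →ₗ[D.A₁ K] G'.M₁) (ψ : G.M₀₁ →ₗ[D.A₀₁ K] G'.M₀₁)
    (h₀ : ∀ m, ψ (G.ρ₀ m) = G'.ρ₀ (ψ₀ m)) (h₁ : ∀ m, ψ (G.ρ₁ m) = G'.ρ₁ (ψ₁ m)) (hne : ψ₀ ≠ 0)
    (hχ : G'.chi ≤ G.chi) : G.Equiv G' :=
  ⟨isoOfHom G G' hG hG' ψ₀ ψ₁ ψ h₀ h₁ hne hχ⟩

end Field

section Sections

variable {k : Type u} [Field k] {D : CurveDatum k}

/-- A nonzero global section is nonzero on the first chart (any base ring). -/
theorem fst_ne_zero_of_mem_H0 [IsAlgClosed k] {B : Type u} [CommRing B] [Algebra k B]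
    (G : GlueDatum D B)
    {p : G.M₀ × G.M₁} (hp : p ∈ G.H0) (hne : p ≠ 0) : p.1 ≠ 0 := by
  intro h
  apply hne
  have h2 : G.ρ₁ p.2 = 0 := by rw [← (G.mem_H0 p).mp hp, h, map_zero]
  have h3 : p.2 = 0 :=
    Fermat.Agent.S25.helper1804.Lattice.ρ₁_injective G (h2.trans (map_zero _).symm)
  exact Prod.ext h h3

variable {K : Type u} [Field K] [Algebra k K]

/-- Chart `0` component of the morphism `𝒪 → G` defined by a section. -/
noncomputable def secHom₀ (G : GlueDatum D K) (s₀ : G.M₀) : (GlueDatum.unit D K).M₀ →ₗ[D.A₀ K] G.M₀ :=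
  LinearMap.toSpanSingleton (D.A₀ K) G.M₀ s₀

/-- Chart `1` component of the morphism `𝒪 → G` defined by a section. -/
noncomputable def secHom₁ (G : GlueDatum D K) (s₁ : G.M₁) : (GlueDatum.unit D K).M₁ →ₗ[D.A₁ K] G.M₁ :=
  LinearMap.toSpanSingleton (D.A₁ K) G.M₁ s₁

/-- Overlap component of the morphism `𝒪 → G` defined by a section. -/
noncomputable def secHom₀₁ (G : GlueDatum D K) (s : G.M₀₁) :
    (GlueDatum.unit D K).M₀₁ →ₗ[D.A₀₁ K] G.M₀₁ :=
  LinearMap.toSpanSingleton (D.A₀₁ K) G.M₀₁ s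

theorem secHom₀_apply (G : GlueDatum D K) (s₀ : G.M₀) (a : D.A₀ K) :
    secHom₀ G s₀ a = a • s₀ := rfl

theorem secHom₁_apply (G : GlueDatum D K) (s₁ : G.M₁) (a : D.A₁ K) :
    secHom₁ G s₁ a = a • s₁ := rfl

theorem secHom₀₁_apply (G : GlueDatum D K) (s : G.M₀₁) (a : D.A₀₁ K) :
    secHom₀₁ G s a = a • s := rfl

theorem secHom_comm₀ (G : GlueDatum D K) (p : G.M₀ × G.M₁) (a : (GlueDatum.unit D K).M₀) :
    secHom₀₁ G (G.ρ₀ p.1) ((GlueDatum.unit D K).ρ₀ a) = G.ρ₀ (secHom₀ G p.1 a) := by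
  rw [secHom₀_apply, secHom₀₁_apply, map_smul, GlueDatum.unit_ρ₀_apply, algebraMap_smul]

theorem secHom_comm₁ (G : GlueDatum D K) {p : G.M₀ × G.M₁} (hp : p ∈ G.H0)
    (a : (GlueDatum.unit D K).M₁) :
    secHom₀₁ G (G.ρ₀ p.1) ((GlueDatum.unit D K).ρ₁ a) = G.ρ₁ (secHom₁ G p.2 a) := by
  rw [secHom₁_apply, secHom₀₁_apply, map_smul, GlueDatum.unit_ρ₁_apply, algebraMap_smul,
    (G.mem_H0 p).mp hp]

theorem secHom₀_ne_zero (G : GlueDatum D K) {s₀ : G.M₀} (h : s₀ ≠ 0) : secHom₀ G s₀ ≠ 0 := by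
  intro h0
  apply h
  have := LinearMap.congr_fun h0 (1 : D.A₀ K)
  rw [secHom₀_apply, one_smul] at this
  exact this

theorem range_secHom₀ (G : GlueDatum D K) (s₀ : G.M₀) :
    LinearMap.range (secHom₀ G s₀) = Submodule.span (D.A₀ K) {s₀} :=
  (LinearMap.span_singleton_eq_range (D.A₀ K) G.M₀ s₀).symm

theorem range_secHom₁ (G : GlueDatum D K) (s₁ : G.M₁) :
    LinearMap.range (secHom₁ G s₁) = Submodule.span (D.A₁ K) {s₁} :=
  (LinearMap.span_singleton_eq_range (D.A₁ K) G.M₁ s₁).symm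

variable [IsAlgClosed k]

/-- **A nonzero section forces `χ(𝒪) ≤ χ(G)`**, and the defect bounds the dimension of the
cokernel of the section on each chart ("at most `deg G` zeros"). -/
theorem unit_chi_le_of_section (G : GlueDatum D K) (hU : FinCoh (GlueDatum.unit D K)) (hG : FinCoh G)
    {p : G.M₀ × G.M₁} (hp : p ∈ G.H0) (hne : p ≠ 0) :
    (GlueDatum.unit D K).chi + finrank K (G.M₀ ⧸ LinearMap.range (secHom₀ G p.1)) ≤ G.chi ∧
      (GlueDatum.unit D K).chi + finrank K (G.M₁ ⧸ LinearMap.range (secHom₁ G p.2)) ≤ G.chi ∧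
      (GlueDatum.unit D K).chi ≤ G.chi :=
  hom_chi_le (GlueDatum.unit D K) G hU hG (secHom₀ G p.1) (secHom₁ G p.2) (secHom₀₁ G (G.ρ₀ p.1))
    (secHom_comm₀ G p) (secHom_comm₁ G hp) (secHom₀_ne_zero G (fst_ne_zero_of_mem_H0 G hp hne))

/-- **A nonzero section of a two-chart line bundle with `χ(G) ≤ χ(𝒪)` over a field
trivialises it.** -/
noncomputable def isoUnitOfSection (G : GlueDatum D K) (hU : FinCoh (GlueDatum.unit D K)) (hG : FinCoh G)
    {p : G.M₀ × G.M₁} (hp : p ∈ G.H0) (hne : p ≠ 0) (hχ : G.chi ≤ (GlueDatum.unit D K).chi) :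
    GlueDatum.Iso (GlueDatum.unit D K) G :=
  isoOfHom (GlueDatum.unit D K) G hU hG (secHom₀ G p.1) (secHom₁ G p.2) (secHom₀₁ G (G.ρ₀ p.1))
    (secHom_comm₀ G p) (secHom_comm₁ G hp) (secHom₀_ne_zero G (fst_ne_zero_of_mem_H0 G hp hne)) hχ

theorem equiv_unit_of_section (G : GlueDatum D K) (hU : FinCoh (GlueDatum.unit D K)) (hG : FinCoh G)
    {p : G.M₀ × G.M₁} (hp : p ∈ G.H0) (hne : p ≠ 0) (hχ : G.chi ≤ (GlueDatum.unit D K).chi) :
    (GlueDatum.unit D K).Equiv G :=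
  ⟨isoUnitOfSection G hU hG hp hne hχ⟩

/-- A nonzero section of a two-chart line bundle with `χ(G) ≤ χ(𝒪)` generates both chart
modules freely. -/
theorem section_generates (G : GlueDatum D K) (hU : FinCoh (GlueDatum.unit D K)) (hG : FinCoh G)
    {p : G.M₀ × G.M₁} (hp : p ∈ G.H0) (hne : p ≠ 0) (hχ : G.chi ≤ (GlueDatum.unit D K).chi) :
    Bijective (fun a : D.A₀ K => a • p.1) ∧ Bijective (fun a : D.A₁ K => a • p.2) := by
  have h := hom_bijective (GlueDatum.unit D K) G hU hG (secHom₀ G p.1) (secHom₁ G p.2)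
    (secHom₀₁ G (G.ρ₀ p.1)) (secHom_comm₀ G p) (secHom_comm₁ G hp)
    (secHom₀_ne_zero G (fst_ne_zero_of_mem_H0 G hp hne)) hχ
  exact ⟨h.1, h.2.1⟩

/-- **Negative degree: no sections.** -/
theorem H0_eq_bot_of_chi_lt (G : GlueDatum D K) (hU : FinCoh (GlueDatum.unit D K)) (hG : FinCoh G)
    (hχ : G.chi < (GlueDatum.unit D K).chi) : G.H0 = ⊥ := by
  rw [Submodule.eq_bot_iff]
  intro p hp
  by_contra hne
  have := (unit_chi_le_of_section G hU hG hp hne).2.2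
  omega

/-- A degree-zero two-chart line bundle over a field with a nonzero section is trivial. -/
theorem equiv_unit_of_degZero_of_section (G : GlueDatum D K) (hU : FinCoh (GlueDatum.unit D K))
    (hG : FinCoh G) (hdeg : G.DegZero) {p : G.M₀ × G.M₁} (hp : p ∈ G.H0) (hne : p ≠ 0) :
    (GlueDatum.unit D K).Equiv G := by
  have h1 := hdeg K (AlgHom.id k K)
  have h2 := Fermat.Agent.S25.helper743.equiv_chi_eq
    (Fermat.Agent.S25.helper743.baseChange_id G)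
  exact equiv_unit_of_section G hU hG hp hne (by omega)

end Sections

section UnitH0

variable {k : Type u} [Field k] [IsAlgClosed k] {D : CurveDatum k} {K : Type u} [Field K]
  [Algebra k K]

variable (D K) in
/-- The section `1` of the trivial bundle. -/
def unitOne : (GlueDatum.unit D K).M₀ × (GlueDatum.unit D K).M₁ :=
  ((1 : D.A₀ K), (1 : D.A₁ K))

omit [IsAlgClosed k] in
theorem unitOne_mem_H0 : unitOne D K ∈ (GlueDatum.unit D K).H0 := by
  rw [GlueDatum.mem_H0]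
  change algebraMap (D.A₀ K) (D.A₀₁ K) 1 = algebraMap (D.A₁ K) (D.A₀₁ K) 1
  rw [map_one, map_one]

/-- `H⁰(𝒪)` over a field is the line spanned by `(1, 1)`. -/
theorem H0_unit_eq_span :
    (GlueDatum.unit D K).H0 = Submodule.span K {unitOne D K} := by
  apply le_antisymm
  · intro p hp
    rw [GlueDatum.mem_H0] at hp
    obtain ⟨c, h1, h2⟩ := Fermat.Agent.S25.helper1167.inter_eq_bot_baseChange D K p.1 p.2 hp
    rw [Submodule.mem_span_singleton]
    refine ⟨c, Prod.ext ?_ ?_⟩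
    · change algebraMap K (D.A₀ K) c • (1 : D.A₀ K) = p.1
      rw [h1, smul_eq_mul, mul_one]
      rfl
    · change algebraMap K (D.A₁ K) c • (1 : D.A₁ K) = p.2
      rw [h2, smul_eq_mul, mul_one]
      rfl
  · rw [Submodule.span_le, Set.singleton_subset_iff]
    exact unitOne_mem_H0

/-- `h⁰(𝒪) = 1` over a field. -/
theorem finrank_H0_unit : finrank K (GlueDatum.unit D K).H0 = 1 := by
  haveI := isDomain_A₀ D K
  rw [H0_unit_eq_span]
  apply finrank_span_singleton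
  intro h
  have h1 : (1 : D.A₀ K) = 0 := congrArg Prod.fst h
  exact one_ne_zero h1

theorem finite_H0_unit : Module.Finite K (GlueDatum.unit D K).H0 :=
  Module.finite_of_finrank_pos (by rw [finrank_H0_unit]; exact Nat.one_pos)

/-- `FinCoh` of the trivial bundle only needs `H¹`. -/
theorem finCoh_unit (h1 : Module.Finite K (GlueDatum.unit D K).H1) :
    FinCoh (GlueDatum.unit D K) :=
  ⟨finite_H0_unit, h1⟩

/-- **`h⁰(G) ≤ 1` as soon as `χ(G) ≤ χ(𝒪)`** (in particular for degree zero). -/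
theorem finrank_H0_le_one (G : GlueDatum D K) (hU : FinCoh (GlueDatum.unit D K))
    (hG : FinCoh G) (hχ : G.chi ≤ (GlueDatum.unit D K).chi) : finrank K G.H0 ≤ 1 := by
  by_cases h : G.H0 = ⊥
  · rw [h, finrank_bot]
    exact Nat.zero_le 1
  · obtain ⟨p, hp, hne⟩ := (Submodule.ne_bot_iff _).mp h
    have e := Fermat.Agent.S25.helper743.isoH0Equiv (isoUnitOfSection G hU hG hp hne hχ)
    rw [← e.finrank_eq, finrank_H0_unit]

end UnitH0

end Fermat.Agent.S25.helper8703
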