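import Fermat.Agent.S25.helper239_GlueIndex
import Fermat.Agent.S25.helper8703_FieldGlue
import Fermat.Agent.S25.helper8622_UniformVanishingGlue

/-!
# S25, leaf UV2b: ONE twist kills `H¹` of every degree-zero two-chart line bundle (helper905)

For a curve datum `D` over an algebraically closed field `k` there is one integer `m₁`
(explicitly `genusBound D = 1 - χ(𝒪)`, "the genus") such that for EVERY field `K` over `k` and
EVERY degree-zero two-chart line bundle `G : GlueDatum D K` one has `H¹(G(m · D∞)) = 0` for all
`m ≥ m₁` (`exists_uniform_h1TwistVanishes`), in the vocabulary `helper8622.H1TwistVanishes`.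

Proof: `χ(G) = χ(𝒪_K) = χ(𝒪_k)` (degree zero + invariance of `χ` under field extension),
`h⁰(G) ≤ 1` (`helper8703.finrank_H0_le_one`), hence `h¹(G) ≤ g := 1 - χ(𝒪_k)`, uniformly in `K`
and `G`; then the stabilisation theorem `helper8622.h1TwistVanishes_of_span_field` with
`m₀ = 0`, `r = g`.
-/

set_option autoImplicit false

universe u

namespace Fermat.Agent.S25.helper905

open Fermat.Agent.S25.helper1705 Fermat.Agent.S25.helper2945

section Uniform

variable {k : Type u} [Field k] [IsAlgClosed k]

/-- The uniform bound `g = 1 - χ(𝒪)` ("the genus" of the curve datum). -/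
noncomputable def genusBound (D : CurveDatum k) : ℕ := (1 - (GlueDatum.unit D k).chi).toNat

/-- `χ(𝒪_K)` does not depend on the field `K`. -/
theorem chi_unit_field (D : CurveDatum k) (K : Type u) [Field K] [Algebra k K] :
    (GlueDatum.unit D K).chi = (GlueDatum.unit D k).chi := by
  rw [← helper743.equiv_chi_eq (helper743.unit_baseChange (D := D) (Algebra.ofId k K))]
  exact helper239.chi_field_ext (GlueDatum.unit D k) (Algebra.ofId k K)

variable {D : CurveDatum k} {K : Type u} [Field K] [Algebra k K]

omit [IsAlgClosed k] in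
/-- A degree-zero bundle over a field has the Euler characteristic of the trivial bundle. -/
theorem chi_eq_of_degZero (G : GlueDatum D K) (h : G.DegZero) :
    G.chi = (GlueDatum.unit D K).chi := by
  rw [← h K (AlgHom.id k K)]
  exact (helper743.equiv_chi_eq (helper743.baseChange_id G)).symm

/-- `h¹(G) ≤ g` for every degree-zero two-chart line bundle over every field. -/
theorem finrank_H1_le_of_degZero (G : GlueDatum D K) (h : G.DegZero) :
    Module.finrank K G.H1 ≤ genusBound D := by
  have hU : helper8703.FinCoh (GlueDatum.unit D K) :=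
    ⟨helper239.finite_H0_field _, helper239.finite_H1_field _⟩
  have hG : helper8703.FinCoh G := ⟨helper239.finite_H0_field G, helper239.finite_H1_field G⟩
  have h0 : Module.finrank K G.H0 ≤ 1 :=
    helper8703.finrank_H0_le_one G hU hG (chi_eq_of_degZero G h).le
  have hchi : G.chi = (Module.finrank K G.H0 : ℤ) - (Module.finrank K G.H1 : ℤ) := rfl
  have h1 := chi_eq_of_degZero G h
  rw [chi_unit_field D K] at h1
  unfold genusBound
  omega

omit [IsAlgClosed k] in
/-- If `H¹(G)` has dimension `≤ r` then it is spanned by `r` classes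
(in the vocabulary of `helper8622`). -/
theorem h1TwistSpannedBy_zero_of_finrank_le (G : GlueDatum D K) [Module.Finite K G.H1] (r : ℕ)
    (hr : Module.finrank K G.H1 ≤ r) : helper8622.H1TwistSpannedBy G 0 r := by
  classical
  let b := Module.finBasis K G.H1
  -- a surjection `K^r → H¹`
  let π : (Fin r → K) →ₗ[K] G.H1 :=
    b.equivFun.symm.toLinearMap ∘ₗ LinearMap.funLeft K K (Fin.castLE hr)
  have hπ : Function.Surjective π := by
    refine b.equivFun.symm.surjective.comp ?_
    exact LinearMap.funLeft_surjective_of_injective K K _ (Fin.castLE_injective hr)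
  have hmk : Function.Surjective (Submodule.mkQ (LinearMap.range G.delta)) :=
    Submodule.mkQ_surjective _
  choose v hv using fun i : Fin r => hmk (π (Pi.single i 1))
  refine ⟨v, fun z => ?_⟩
  obtain ⟨c, hc⟩ := hπ (Submodule.mkQ (LinearMap.range G.delta) z)
  have hc' : c = ∑ i, c i • (Pi.single i (1 : K) : Fin r → K) := by
    ext j
    simp [Finset.sum_apply, Pi.single_apply]
  have hπc : π c = ∑ i, c i • π (Pi.single i 1) := by
    conv_lhs => rw [hc']
    rw [map_sum]
    simp only [map_smul]
  have hz : Submodule.mkQ (LinearMap.range G.delta) (z - ∑ i, c i • v i) = 0 := by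
    rw [map_sub, ← hc, map_sum, hπc]
    simp only [map_smul, hv, sub_self]
  rw [Submodule.mkQ_apply, Submodule.Quotient.mk_eq_zero] at hz
  obtain ⟨⟨a, b'⟩, hab⟩ := hz
  refine ⟨a, -b', c, ?_⟩
  rw [GlueDatum.delta_apply] at hab
  rw [zpow_zero, one_smul, map_neg, ← sub_eq_add_neg, hab]
  abel

/-- **UV2b: uniform vanishing.**  One twist `m₁` kills `H¹` of every degree-zero two-chart line
bundle over every field `K` over `k`. -/
theorem exists_uniform_h1TwistVanishes (D : CurveDatum k) :
    ∃ m₁ : ℤ, ∀ (K : Type u) [Field K] [Algebra k K] (G : GlueDatum D K), G.DegZero →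
      ∀ m : ℤ, m₁ ≤ m → helper8622.H1TwistVanishes G m := by
  refine ⟨(genusBound D : ℤ), fun K _ _ G hG m hm => ?_⟩
  haveI := helper239.finite_H1_field G
  exact helper8622.h1TwistVanishes_of_span_field G 0 (genusBound D)
    (h1TwistSpannedBy_zero_of_finrank_le G _ (finrank_H1_le_of_degZero G hG)) m
    (by simpa using hm)

/-- The explicit form: `H¹(G(m · D∞)) = 0` for every degree-zero `G` and every `m ≥ g`. -/
theorem h1TwistVanishes_of_degZero (G : GlueDatum D K) (hG : G.DegZero) (m : ℤ)
    (hm : (genusBound D : ℤ) ≤ m) : helper8622.H1TwistVanishes G m := by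
  haveI := helper239.finite_H1_field G
  exact helper8622.h1TwistVanishes_of_span_field G 0 (genusBound D)
    (h1TwistSpannedBy_zero_of_finrank_le G _ (finrank_H1_le_of_degZero G hG)) m
    (by simpa using hm)

/-- The shape (S-UV) consumed by the LC5 integration (one `m₁`, algebraically closed `K`). -/
theorem exists_uniform_h1TwistVanishes_algClosed (D : CurveDatum k) :
    ∃ m₁ : ℤ, ∀ (K : Type u) [Field K] [IsAlgClosed K] [Algebra k K] (G : GlueDatum D K),
      G.DegZero → helper8622.H1TwistVanishes G m₁ :=
  ⟨(genusBound D : ℤ), fun _ _ _ _ G hG => h1TwistVanishes_of_degZero G hG _ le_rfl⟩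

end Uniform

end Fermat.Agent.S25.helper905
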