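/-
S25 brick GI (helper6784): geometric integrality over an algebraically closed field.

* `isDomain_tensorProduct_of_isAlgClosed`: for `k` algebraically closed and `k`-algebras `A`, `B`
  that are domains, `A ⊗[k] B` is a domain (no finiteness hypotheses).
* scheme-level corollaries (`GeometricallyIntegral`, integrality of fibre products).

Mathlib only, statement-agnostic.
-/
import Mathlib

set_option autoImplicit false

open TensorProduct

namespace Fermat.Agent.S25.helper6784

universe u v w

section Algebra

variable (k : Type u) [Field k] [IsAlgClosed k]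

/-- Nullstellensatz form: a nonzero element of a finitely generated domain over an algebraically
closed field `k` is nonzero at some `k`-point. -/
theorem exists_algHom_ne_zero (A : Type v) [CommRing A] [Algebra k A] [Algebra.FiniteType k A]
    [IsDomain A] (a : A) (ha : a ≠ 0) : ∃ φ : A →ₐ[k] k, φ a ≠ 0 := by
  have hJ : IsJacobsonRing A := isJacobsonRing_of_finiteType (A := k)
  have hjac : (⊥ : Ideal A).jacobson = ⊥ := IsJacobsonRing.out hJ Ideal.isRadical_bot
  obtain ⟨m, hm, ham⟩ : ∃ m : Ideal A, m.IsMaximal ∧ a ∉ m := by
    by_contra h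
    push Not at h
    apply ha
    have : a ∈ (⊥ : Ideal A).jacobson := by
      rw [Ideal.jacobson, Ideal.mem_sInf]
      rintro J ⟨-, hJ⟩
      exact h J hJ
    rwa [hjac] at this
  let _ := Ideal.Quotient.field m
  have : Module.Finite k (A ⧸ m) := finite_of_finite_type_of_isJacobsonRing k (A ⧸ m)
  have hbij : Function.Bijective (algebraMap k (A ⧸ m)) :=
    IsAlgClosed.algebraMap_bijective_of_isIntegral
  let e : k ≃ₐ[k] (A ⧸ m) := AlgEquiv.ofBijective (Algebra.ofId k (A ⧸ m)) hbij
  refine ⟨(e.symm : (A ⧸ m) →ₐ[k] k).comp (Ideal.Quotient.mkₐ k m), ?_⟩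
  intro h0
  apply ham
  have : (Ideal.Quotient.mkₐ k m) a = 0 := by
    have := congrArg e h0
    simpa using this
  exact Ideal.Quotient.eq_zero_iff_mem.mp this

omit [IsAlgClosed k] in
/-- Coordinates of the specialisation `A ⊗[k] B → B` at a `k`-point `φ` of `A`, in a `k`-basis
of `B`. -/
theorem repr_specialize {A : Type v} {B : Type w} [CommRing A] [CommRing B] [Algebra k A]
    [Algebra k B] {ι : Type*} (b : Module.Basis ι k B) (φ : A →ₐ[k] k) (z : A ⊗[k] B) :
    b.repr ((Algebra.TensorProduct.lid k B)
        (Algebra.TensorProduct.map φ (AlgHom.id k B) z)) =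
      Finsupp.mapRange φ (map_zero φ) ((Algebra.TensorProduct.basis A b).repr z) := by
  induction z using TensorProduct.induction_on with
  | zero => simp
  | tmul a c =>
    ext i
    simp [Algebra.smul_def]
    rw [← Algebra.smul_def, map_smul, Finsupp.smul_apply, smul_eq_mul]
  | add x y hx hy =>
    ext i
    simp only [map_add, Finsupp.add_apply, Finsupp.mapRange_apply] at hx hy ⊢
    rw [hx, hy]
    simp

/-- If `A` is a finitely generated domain over the algebraically closed field `k` and `B` is a
domain, then `A ⊗[k] B` has no zero divisors. -/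
theorem noZeroDivisors_tensorProduct_of_finiteType_left (A : Type v) (B : Type w) [CommRing A]
    [CommRing B] [Algebra k A] [Algebra k B] [Algebra.FiniteType k A] [IsDomain A] [IsDomain B] :
    NoZeroDivisors (A ⊗[k] B) := by
  refine ⟨fun {x y} hxy => ?_⟩
  by_contra hne
  push Not at hne
  obtain ⟨hx, hy⟩ := hne
  let b := Module.Basis.ofVectorSpace k B
  let β := Algebra.TensorProduct.basis A b
  have hex : ∀ z : A ⊗[k] B, z ≠ 0 → ∃ i, β.repr z i ≠ 0 := by
    intro z hz
    by_contra h
    push Not at h
    apply hz
    apply β.repr.injective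
    ext i
    simp [h i]
  obtain ⟨i, hi⟩ := hex x hx
  obtain ⟨j, hj⟩ := hex y hy
  obtain ⟨φ, hφ⟩ := exists_algHom_ne_zero k A (β.repr x i * β.repr y j) (mul_ne_zero hi hj)
  let Φ : A ⊗[k] B →ₐ[k] B :=
    (Algebra.TensorProduct.lid k B : k ⊗[k] B →ₐ[k] B).comp
      (Algebra.TensorProduct.map φ (AlgHom.id k B))
  have key : ∀ z : A ⊗[k] B, Φ z = 0 → ∀ i, φ (β.repr z i) = 0 := by
    intro z hz i
    have h1 := repr_specialize k b φ z
    have h2 : (Algebra.TensorProduct.lid k B)
        (Algebra.TensorProduct.map φ (AlgHom.id k B) z) = 0 := hz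
    rw [h2, map_zero] at h1
    have h3 := DFunLike.congr_fun h1 i
    simpa using h3.symm
  have h1 : Φ x * Φ y = 0 := by rw [← map_mul, hxy, map_zero]
  rcases mul_eq_zero.mp h1 with h | h
  · exact hφ (by rw [map_mul, key x h i, zero_mul])
  · exact hφ (by rw [map_mul, key y h j, mul_zero])

/-- **Geometric integrality over an algebraically closed field, algebra form.**
If `k` is algebraically closed and `A`, `B` are `k`-algebras that are domains, then `A ⊗[k] B`
is a domain. -/
theorem isDomain_tensorProduct_of_isAlgClosed (A : Type v) (B : Type w) [CommRing A]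
    [CommRing B] [Algebra k A] [Algebra k B] [IsDomain A] [IsDomain B] :
    IsDomain (A ⊗[k] B) := by
  have hnt : Nontrivial (A ⊗[k] B) := inferInstance
  have hnzd : NoZeroDivisors (A ⊗[k] B) := by
    refine ⟨fun {x y} hxy => ?_⟩
    obtain ⟨C₁, hC₁, hx⟩ := exists_fg_and_mem_baseChange x
    obtain ⟨C₂, hC₂, hy⟩ := exists_fg_and_mem_baseChange y
    let C : Subalgebra k B := C₁ ⊔ C₂
    have hC : C.FG := hC₁.sup hC₂
    have hft : Algebra.FiniteType k C := (Subalgebra.fg_iff_finiteType C).mp hC
    let ι : A ⊗[k] C →ₐ[A] A ⊗[k] B := Algebra.TensorProduct.map (AlgHom.id A A) C.val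
    have hι : Function.Injective ι := by
      have : Function.Injective (LinearMap.lTensor A C.val.toLinearMap) :=
        Module.Flat.lTensor_preserves_injective_linearMap _ Subtype.val_injective
      intro a b hab
      apply this
      exact hab
    have hmono : ∀ C' : Subalgebra k B, C' ≤ C → ∀ z, z ∈ C'.baseChange A → z ∈ ι.range := by
      rintro C' hC' z ⟨z', rfl⟩
      refine ⟨Algebra.TensorProduct.map (AlgHom.id A A) (Subalgebra.inclusion hC') z', ?_⟩
      induction z' using TensorProduct.induction_on with
      | zero => simp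
      | tmul a c => rfl
      | add x y hx hy => simp only [map_add, hx, hy]
    obtain ⟨x', rfl⟩ := hmono C₁ le_sup_left x hx
    obtain ⟨y', rfl⟩ := hmono C₂ le_sup_right y hy
    have h1 : NoZeroDivisors (C ⊗[k] A) :=
      noZeroDivisors_tensorProduct_of_finiteType_left k C A
    have h2 : x' * y' = 0 := by
      apply hι
      rw [map_mul, map_zero]
      exact hxy
    have h3 : (Algebra.TensorProduct.comm k A C) x' * (Algebra.TensorProduct.comm k A C) y' = 0 := by
      rw [← map_mul, h2, map_zero]
    rcases mul_eq_zero.mp h3 with h | h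
    · left
      rw [(Algebra.TensorProduct.comm k A C).map_eq_zero_iff.mp h, map_zero]
    · right
      rw [(Algebra.TensorProduct.comm k A C).map_eq_zero_iff.mp h, map_zero]
  exact NoZeroDivisors.to_isDomain _

end Algebra

section Scheme

open AlgebraicGeometry CategoryTheory CategoryTheory.Limits

variable {k : Type u} [Field k] [IsAlgClosed k]

/-- Affine case: the fibre product over an algebraically closed field of the spectra of two
domains is integral. -/
theorem isIntegral_pullback_Spec_of_isAlgClosed {S T : CommRingCat.{u}} [IsDomain S] [IsDomain T]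
    (a : Spec S ⟶ Spec (.of k)) (b : Spec T ⟶ Spec (.of k)) : IsIntegral (pullback a b) := by
  obtain ⟨φ, rfl⟩ := Spec.map_surjective a
  obtain ⟨ψ, rfl⟩ := Spec.map_surjective b
  algebraize [φ.hom, ψ.hom]
  have : IsDomain (S ⊗[k] T) := isDomain_tensorProduct_of_isAlgClosed k S T
  exact IsIntegral.of_isIso (pullbackSpecIso k S T).inv

/-- Affine case, for abstract affine schemes. -/
theorem isIntegral_pullback_of_isAffine_of_isAlgClosed {U V : Scheme.{u}} [IsAffine U]
    [IsAffine V] [IsIntegral U] [IsIntegral V] (a : U ⟶ Spec (.of k)) (b : V ⟶ Spec (.of k)) :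
    IsIntegral (pullback a b) := by
  have h := isIntegral_pullback_Spec_of_isAlgClosed (S := Γ(U, ⊤)) (T := Γ(V, ⊤))
    (U.isoSpec.inv ≫ a) (V.isoSpec.inv ≫ b)
  exact IsIntegral.of_isIso (pullback.map (U.isoSpec.inv ≫ a) (V.isoSpec.inv ≫ b) a b
    U.isoSpec.inv V.isoSpec.inv (𝟙 _) (by simp) (by simp))

/-- An affine open cover of a scheme all of whose members are nonempty (indexed by the points
of the scheme). -/
noncomputable def pointedAffineCover (X : Scheme.{u}) : X.OpenCover where
  I₀ := X
  X x := X.affineCover.X (X.affineCover.idx x)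
  f x := X.affineCover.f (X.affineCover.idx x)
  mem₀ := by
    rw [Scheme.presieve₀_mem_precoverage_iff]
    exact ⟨fun x => ⟨x, X.affineCover.covers x⟩, fun x => inferInstance⟩

instance pointedAffineCover_isAffine (X : Scheme.{u}) (x : (pointedAffineCover X).I₀) :
    IsAffine ((pointedAffineCover X).X x) :=
  inferInstanceAs (IsAffine (X.affineCover.X (X.affineCover.idx x)))

instance pointedAffineCover_nonempty (X : Scheme.{u}) (x : (pointedAffineCover X).I₀) :
    Nonempty ((pointedAffineCover X).X x) :=
  ⟨(X.affineCover.covers x).choose⟩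

instance pointedAffineCover_isIntegral (X : Scheme.{u}) [IsIntegral X]
    (x : (pointedAffineCover X).I₀) : IsIntegral ((pointedAffineCover X).X x) :=
  isIntegral_of_isOpenImmersion ((pointedAffineCover X).f x)

/-- **Products of integral schemes over an algebraically closed field are integral.**
No finiteness hypotheses on `X`, `Y`. -/
theorem isIntegral_pullback_of_isAlgClosed {X Y : Scheme.{u}} (f : X ⟶ Spec (.of k))
    (g : Y ⟶ Spec (.of k)) [IsIntegral X] [IsIntegral Y] : IsIntegral (pullback f g) := by
  let 𝒰 := Scheme.Pullback.openCoverOfLeftRight (pointedAffineCover X) (pointedAffineCover Y) f g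
  have hint : ∀ ij, IsIntegral (𝒰.X ij) := by
    rintro ⟨i, j⟩
    exact isIntegral_pullback_of_isAffine_of_isAlgClosed _ _
  have hred : IsReduced (pullback f g) := IsReduced.of_openCover _ 𝒰
  have hne : Nonempty ↥(pullback f g) := inferInstance
  have hirr : PreirreducibleSpace ↥(pullback f g) := by
    refine PreirreducibleSpace.of_isOpenCover (U := fun ij => (𝒰.f ij).opensRange) ?_
      𝒰.isOpenCover_opensRange ?_
    · rintro ⟨i, j⟩ ⟨i', j'⟩ -
      obtain ⟨x, hx, hx'⟩ := nonempty_preirreducible_inter
        ((pointedAffineCover X).f i).isOpenEmbedding.isOpen_range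
        ((pointedAffineCover X).f i').isOpenEmbedding.isOpen_range
        (Set.range_nonempty _) (Set.range_nonempty _)
      obtain ⟨y, hy, hy'⟩ := nonempty_preirreducible_inter
        ((pointedAffineCover Y).f j).isOpenEmbedding.isOpen_range
        ((pointedAffineCover Y).f j').isOpenEmbedding.isOpen_range
        (Set.range_nonempty _) (Set.range_nonempty _)
      obtain ⟨z, hz1, hz2⟩ := Scheme.Pullback.exists_preimage_pullback (f := f) (g := g) x y
        (Subsingleton.elim _ _)
      intro hdis
      have hmem : ∀ (ij : 𝒰.I₀), x ∈ Set.range ((pointedAffineCover X).f ij.1) →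
          y ∈ Set.range ((pointedAffineCover Y).f ij.2) → z ∈ (𝒰.f ij).opensRange := by
        rintro ⟨i₀, j₀⟩ hxi hyj
        change z ∈ Set.range (𝒰.f (i₀, j₀))
        simp only [𝒰, Scheme.Pullback.openCoverOfLeftRight_f]
        refine (Set.ext_iff.mp (Scheme.Pullback.range_map _ _ _ _ _ _ _ _ _) z).mpr ⟨?_, ?_⟩
        · rw [Set.mem_preimage, hz1]
          exact hxi
        · rw [Set.mem_preimage, hz2]
          exact hyj
      exact (hdis.le_bot : _ ≤ ⊥) ⟨hmem (i, j) hx hy, hmem (i', j') hx' hy'⟩
    · intro ij
      have := hint ij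
      have h1 : IsPreirreducible (Set.range (𝒰.f ij)) := by
        rw [← Set.image_univ]
        exact (IrreducibleSpace.isIrreducible_univ _).isPreirreducible.image _
          (𝒰.f ij).continuous.continuousOn
      exact Subtype.preirreducibleSpace h1
  have : IrreducibleSpace ↥(pullback f g) := { hirr with toNonempty := hne }
  exact isIntegral_of_irreducibleSpace_of_isReduced _

/-- **Integral schemes over an algebraically closed field are geometrically integral.** -/
theorem geometricallyIntegral_of_isAlgClosed {X : Scheme.{u}} (f : X ⟶ Spec (.of k))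
    [IsIntegral X] : GeometricallyIntegral f := by
  constructor
  intro K _ y Z fst snd hP
  have := isIntegral_pullback_of_isAlgClosed f y
  exact IsIntegral.of_isIso hP.isoPullback.inv

end Scheme

end Fermat.Agent.S25.helper6784

namespace Fermat.Agent.S25.helper6784

open AlgebraicGeometry CategoryTheory CategoryTheory.Limits

universe u

variable {k : Type u} [Field k] [IsAlgClosed k]

/-- Integral schemes over an algebraically closed field are geometrically irreducible. -/
theorem geometricallyIrreducible_of_isAlgClosed {X : Scheme.{u}} (f : X ⟶ Spec (.of k))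
    [IsIntegral X] : GeometricallyIrreducible f :=
  have := geometricallyIntegral_of_isAlgClosed f
  inferInstance

/-- Integral schemes over an algebraically closed field are geometrically reduced. -/
theorem geometricallyReduced_of_isAlgClosed {X : Scheme.{u}} (f : X ⟶ Spec (.of k))
    [IsIntegral X] : GeometricallyReduced f :=
  have := geometricallyIntegral_of_isAlgClosed f
  inferInstance

/-- Integral schemes over an algebraically closed field are geometrically connected. -/
theorem geometricallyConnected_of_isAlgClosed {X : Scheme.{u}} (f : X ⟶ Spec (.of k))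
    [IsIntegral X] : GeometricallyConnected f := by
  have := geometricallyIntegral_of_isAlgClosed f
  constructor
  intro K _ y Z fst snd hP
  have : IsIntegral Z := GeometricallyIntegral.geometrically_isIntegral y fst snd hP
  infer_instance

end Fermat.Agent.S25.helper6784
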