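import Fermat.Agent.S25.helper985_LGAlg

/-!
# S25, layer G: the bounded family with its finiteness properties (helper985)

`Stmt_AlgBoundedFT` is `Stmt_AlgBounded` together with the facts that the base `B₀` of the
universal family is a domain of finite type over `k` (true for `B₀ = R₀^{⊗d}`).  With these two
extra conjuncts the same family also proves the direction `DegZero ⟹ FibrewiseAlgEquivZero`
of `Stmt_FAEZ` (the family contains the unit datum and every degree-zero datum over every
algebraically closed field, and `K ⊗[k] B₀` is a domain of finite type over `K`).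
-/

set_option autoImplicit false

universe u

namespace Fermat.Agent.S25.helper985

open Fermat.Agent.S25.helper1705 Fermat.Agent.S25.helper2945

/-- ALG-BOUNDED-FT (leaves UV + U9a + U9b). `Stmt_AlgBounded` with a base `B₀` that is a domain
of finite type over `k`. -/
def Stmt_AlgBoundedFT : Prop :=
  ∀ (k : Type u) [Field k] [IsAlgClosed k] (D : CurveDatum k),
    ∃ (B₀ : Type u) (_ : CommRing B₀) (_ : Algebra k B₀) (G₀ : GlueDatum D B₀),
      IsDomain B₀ ∧ Algebra.FiniteType k B₀ ∧ G₀.IsRig ∧ G₀.DegZero ∧
      ∀ (K : Type u) [Field K] [IsAlgClosed K] [Algebra k K] (G : GlueDatum D K),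
        G.IsRig → G.DegZero → ∃ φ : B₀ →ₐ[k] K, (G₀.baseChange φ).Equiv G

theorem stmt_AlgBounded_of_FT (h : Stmt_AlgBoundedFT.{u}) : Stmt_AlgBounded.{u} := by
  intro k _ _ D
  obtain ⟨B₀, i₁, i₂, G₀, -, -, hrig, hdeg, hall⟩ := h k D
  exact ⟨B₀, i₁, i₂, G₀, hrig, hdeg, hall⟩

end Fermat.Agent.S25.helper985
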