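import Fermat.Agent.S25.helper5903_FAEZModels
import Fermat.Agent.S25.helper1705_Spec3
import Fermat.Agent.S25.helper985_LGAlg2
import Fermat.Agent.S25.helper6784_GeomIntegral
import Fermat.Agent.S25.helper743_AlgApi

/-!
# S25, leaf LG-FAEZ, part 3: `Stmt_FAEZ` from the Euler characteristic API (helper5903)

`helper1705.Stmt_FAEZ` ("under a dictionary, fibrewise algebraically equivalent to zero is
fibrewise of degree zero") is PROVED here from three closed algebra Props about two-chart
line bundles (`helper2945.GlueDatum`):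

* `Stmt_ChiEquiv`    : over a field, equivalent two-chart line bundles have the same `chi`;
* `Stmt_ChiLocConst` : for a noetherian `k`-algebra `B` and `G : GlueDatum D B` there is a
  locally constant `f : PrimeSpectrum B → ℤ` such that `(G.baseChange φ).chi = f (ker φ)` for
  every field-valued point `φ : B →ₐ[k] K`;
* `helper985.Stmt_AlgBoundedFT` : the bounded family over a domain of finite type.

Main declarations (namespace `Fermat.Agent.S25.helper5903`):
* `Stmt_ChiEquiv`, `Stmt_ChiLocConst`;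
* `fibreModelsOf` : the `FibreModels` attached to a dictionary;
* `stmt_FAEZ_of : Stmt_ChiEquiv → Stmt_ChiLocConst → Stmt_AlgBoundedFT → Stmt_FAEZ`;
* `stmt_ChiEquiv` (from `helper743.equiv_chi_eq`) and
  `stmt_FAEZ_of' : Stmt_ChiLocConst → Stmt_AlgBoundedFT → Stmt_FAEZ`;
* `degZero_of_fibrewiseAlgEquivZero` : the direction (⟹) alone (needs no bounded family).
-/

set_option autoImplicit false

universe u

open CategoryTheory CategoryTheory.Limits AlgebraicGeometry AlgebraicGeometry.RelPicard
  NeronModelInfra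

namespace Fermat.Agent.S25.helper5903

open Fermat.Agent.S25.helper1705 Fermat.Agent.S25.helper2945
open Fermat.Agent.S25.helper985 (specStr specHomOver)

/-- CHI-EQUIV. Over a field, equivalent two-chart line bundles have the same Euler
characteristic. -/
def Stmt_ChiEquiv : Prop :=
  ∀ (k : Type u) [Field k] [IsAlgClosed k] (D : CurveDatum k)
    (K : Type u) [Field K] [Algebra k K] (G G' : GlueDatum D K), G.Equiv G' → G.chi = G'.chi

/-- CHI-LOC-CONST. The Euler characteristic of the fibres of a two-chart line bundle over a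
noetherian base is a locally constant function of the point of the base. -/
def Stmt_ChiLocConst : Prop :=
  ∀ (k : Type u) [Field k] [IsAlgClosed k] (D : CurveDatum k)
    (B : Type u) [CommRing B] [Algebra k B] [IsNoetherianRing B] (G : GlueDatum D B),
    ∃ f : PrimeSpectrum B → ℤ, IsLocallyConstant f ∧
      ∀ (K : Type u) [Field K] [Algebra k K] (φ : B →ₐ[k] K) (q : PrimeSpectrum B),
        q.asIdeal = RingHom.ker φ.toRingHom → (G.baseChange φ).chi = f q

noncomputable section

variable {k : Type u} [Field k] {C : Scheme.{u}} {c : C ⟶ Spec (CommRingCat.of k)}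
  {ε : SchemeHomOver (𝟙 (Spec (CommRingCat.of k))) c} {D : CurveDatum k}

/-- The system of models attached to a dictionary and the Euler characteristic of two-chart
line bundles. -/
def fibreModelsOf (𝔇 : Dictionary c ε D)
    (hEq : ∀ (K : Type u) [Field K] [Algebra k K] (G G' : GlueDatum D K),
      G.Equiv G' → G.chi = G'.chi)
    (hLoc : ∀ (B : Type u) [CommRing B] [Algebra k B] [IsNoetherianRing B] (G : GlueDatum D B),
      ∃ f : PrimeSpectrum B → ℤ, IsLocallyConstant f ∧
        ∀ (K : Type u) [Field K] [Algebra k K] (φ : B →ₐ[k] K) (q : PrimeSpectrum B),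
          q.asIdeal = RingHom.ker φ.toRingHom → (G.baseChange φ).chi = f q) :
    FibreModels.{u, u + 1} c where
  Obj B _ _ := GlueDatum D B
  Eqv G G' := G.Equiv G'
  bc φ G := G.baseChange φ
  one B _ _ := GlueDatum.unit D B
  Models B _ _ L G := 𝔇.Models B L G
  exists_model B _ _ L hL := 𝔇.exists_model B L hL
  eqv_of_iso B _ _ _ _ _ _ h h' e := (𝔇.iso_iff B h h').1 e
  iso_of_eqv B _ _ _ _ _ _ h h' e := (𝔇.iso_iff B h h').2 e
  models_bc φ _ _ h := 𝔇.models_baseChange φ h
  models_one B _ _ := 𝔇.models_unit B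
  chi _ _ _ G := G.chi
  chi_eqv K _ _ G G' h := hEq K G G' h
  chi_locConst B _ _ _ G := hLoc B G

/-- (⟹) of `Stmt_FAEZ`, for one dictionary. -/
theorem degZero_of_fibrewiseAlgEquivZero (𝔇 : Dictionary c ε D)
    (hEq : ∀ (K : Type u) [Field K] [Algebra k K] (G G' : GlueDatum D K),
      G.Equiv G' → G.chi = G'.chi)
    (hLoc : ∀ (B : Type u) [CommRing B] [Algebra k B] [IsNoetherianRing B] (G : GlueDatum D B),
      ∃ f : PrimeSpectrum B → ℤ, IsLocallyConstant f ∧
        ∀ (K : Type u) [Field K] [Algebra k K] (φ : B →ₐ[k] K) (q : PrimeSpectrum B),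
          q.asIdeal = RingHom.ker φ.toRingHom → (G.baseChange φ).chi = f q)
    {B : Type u} [CommRing B] [Algebra k B] (M : RigidifiedLineBundle c ε (specStr k B))
    (G : GlueDatum D B) (hG : 𝔇.Models B M.L G) (hM : FibrewiseAlgEquivZero M) : G.DegZero :=
  fun K _ _ φ =>
    (fibreModelsOf 𝔇 hEq hLoc).chi_eq_of_fibrewiseAlgEquivZero M G hG hM K φ

/-- Degree zero is stable under base change (through the dictionary). -/
theorem degZero_baseChange (𝔇 : Dictionary c ε D)
    (hEq : ∀ (K : Type u) [Field K] [Algebra k K] (G G' : GlueDatum D K),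
      G.Equiv G' → G.chi = G'.chi)
    {B B' : Type u} [CommRing B] [Algebra k B] [CommRing B'] [Algebra k B'] (φ : B →ₐ[k] B')
    {L : (pullback c (specStr k B)).Modules} {G : GlueDatum D B} (hG : 𝔇.Models B L G)
    (hdeg : G.DegZero) : (G.baseChange φ).DegZero := by
  intro K _ _ ψ
  rw [← hdeg K (ψ.comp φ)]
  exact hEq K _ _ ((𝔇.iso_iff K (𝔇.models_baseChange ψ (𝔇.models_baseChange φ hG))
    (𝔇.models_baseChange (ψ.comp φ) hG)).1
    ⟨restrCompIso c (specHomOver φ) (specHomOver ψ) (specHomOver (ψ.comp φ))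
      (FibreModels.specHomOver_comp_val φ ψ) L⟩)

/-- The unit datum has degree zero (through the dictionary). -/
theorem degZero_unit (𝔇 : Dictionary c ε D)
    (hEq : ∀ (K : Type u) [Field K] [Algebra k K] (G G' : GlueDatum D K),
      G.Equiv G' → G.chi = G'.chi)
    (B : Type u) [CommRing B] [Algebra k B] : (GlueDatum.unit D B).DegZero := by
  intro K _ _ ψ
  exact hEq K _ _ ((𝔇.iso_iff K (𝔇.models_baseChange ψ (𝔇.models_unit B))
    (𝔇.models_unit K)).1 ⟨Scheme.Modules.pullbackUnitIso _⟩)

/-- The unit datum is rigidified (through the dictionary). -/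
theorem isRig_unit (𝔇 : Dictionary c ε D) (B : Type u) [CommRing B] [Algebra k B] :
    (GlueDatum.unit D B).IsRig :=
  (𝔇.rig_iff B (𝔇.models_unit B)).1 ⟨Scheme.Modules.pullbackUnitIso _⟩

end

/-- **FAEZ, assembled.** `Stmt_FAEZ` from the Euler characteristic API and the bounded
family. -/
theorem stmt_FAEZ_of (hEq : Stmt_ChiEquiv.{u}) (hLoc : Stmt_ChiLocConst.{u})
    (hBdd : helper985.Stmt_AlgBoundedFT.{u}) : Stmt_FAEZ.{u} := by
  intro k _ C c hc ε D _ 𝔇 B _ _ M G hG
  have := hc.algClosed
  refine ⟨degZero_of_fibrewiseAlgEquivZero 𝔇 (hEq k D) (hLoc k D) M G hG, fun hdeg => ?_⟩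
  obtain ⟨B₀, _, _, G₀, hdom, hft, -, -, hall⟩ := hBdd k D
  obtain ⟨N₀, hN₀, hG₀⟩ := 𝔇.exists_sheaf B₀ G₀
  have hlft : LocallyOfFiniteType (specStr k B₀) := by
    rw [HasRingHomProperty.Spec_iff (P := @LocallyOfFiniteType)]
    exact RingHom.finiteType_algebraMap.mpr hft
  have hgi : GeometricallyIntegral (specStr k B₀) :=
    helper6784.geometricallyIntegral_of_isAlgClosed _
  refine (fibreModelsOf 𝔇 (hEq k D) (hLoc k D)).fibrewiseAlgEquivZero_of_bounded
    N₀ hN₀ G₀ hG₀ M G hG ?_
  intro K _ _ _ φ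
  refine ⟨hall K (G.baseChange φ) ?_ (degZero_baseChange 𝔇 (hEq k D) φ hG hdeg),
    hall K (GlueDatum.unit D K) (isRig_unit 𝔇 K) (degZero_unit 𝔇 (hEq k D) K)⟩
  exact (𝔇.rig_iff K (𝔇.models_baseChange φ hG)).1 (M.pullbackAlong (specHomOver φ)).rigidified

/-- CHI-EQUIV holds (API of helper743). -/
theorem stmt_ChiEquiv : Stmt_ChiEquiv.{u} :=
  fun _ _ _ _ _ _ _ _ _ h => helper743.equiv_chi_eq h

/-- **FAEZ, assembled**: the two remaining inputs are the local constancy of `chi` and the
bounded family. -/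
theorem stmt_FAEZ_of' (hLoc : Stmt_ChiLocConst.{u}) (hBdd : helper985.Stmt_AlgBoundedFT.{u}) :
    Stmt_FAEZ.{u} :=
  stmt_FAEZ_of stmt_ChiEquiv hLoc hBdd

end Fermat.Agent.S25.helper5903
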