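import Fermat.Agent.S25.helper7530_ValExist
import Fermat.Agent.S25.helper743_AlgApi
import Fermat.Agent.S25.helper985_LGAlg

/-!
# S25, root `Stmt_AlgValExistAC` (LC4 integration, helper7530)

`V` a valuation ring over `k` whose fraction field `K` is algebraically closed.  Every
degree-zero two-chart line bundle over `K` extends to a rigidified degree-zero two-chart line
bundle over `V`.

This file contains the part of the argument that is independent of the construction of the
point twists and of the point decomposition:

* `isRig_of_isLocalRing`: over a local ring every two-chart line bundle is rigidified;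
* `GluePointTwist`: the point-twist operations on `GlueDatum` and the laws used
  (Equiv-congruence, base change, agreement on the overlap);
* `GluePointTwist.exists_extension_list`: the twist of the generic fibre of a datum over `V`
  by `K`-points of chart 0 is the generic fibre of a datum over `V`;
* `degZero_of_chi_const`: degree zero spreads from the generic fibre when the fibrewise Euler
  characteristic is constant;
* the two reductions `stmt_AlgValExistAC_of_chiLocConst` and `stmt_AlgValExistAC_of_count` of
  `helper985.Stmt_AlgValExistAC` to the point decomposition.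
-/

set_option autoImplicit false

universe u

open TensorProduct

namespace Fermat.Agent.S25.helper7530

open Fermat.Agent.S25.helper1705 Fermat.Agent.S25.helper2945 Fermat.Agent.S25.helper743

section Rig

variable {k : Type u} [Field k] {D : CurveDatum k}

/-- Over a local ring every two-chart line bundle is trivial along the section `ε`. -/
theorem isRig_of_isLocalRing {B : Type u} [CommRing B] [Algebra k B] [IsLocalRing B]
    (G : GlueDatum D B) : G.IsRig := by
  let _ := algE D B
  have h : Module.Free B (B ⊗[D.A₁ B] G.M₁) := inferInstance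
  exact Module.Invertible.free_iff_linearEquiv.mp h

end Rig

/-! ## Point twists on `GlueDatum` -/

/-- Twists of two-chart line bundles by a point of chart 0 or of chart 1, with the laws used in
the valuative existence argument. -/
structure GluePointTwist {k : Type u} [Field k] (D : CurveDatum k) where
  /-- twist `G(−P)` by a point of chart 0 -/
  tw₀ : ∀ {B : Type u} [CommRing B] [Algebra k B], GlueDatum D B → (D.R₀ →ₐ[k] B) → GlueDatum D B
  /-- twist `G(−Q)` by a point of chart 1 -/
  tw₁ : ∀ {B : Type u} [CommRing B] [Algebra k B], GlueDatum D B → (D.R₁ →ₐ[k] B) → GlueDatum D B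
  tw₀_congr : ∀ {B : Type u} [CommRing B] [Algebra k B] {G G' : GlueDatum D B}
    (p : D.R₀ →ₐ[k] B), G.Equiv G' → (tw₀ G p).Equiv (tw₀ G' p)
  bc_tw₀ : ∀ {B B' : Type u} [CommRing B] [Algebra k B] [CommRing B'] [Algebra k B']
    (φ : B →ₐ[k] B') (G : GlueDatum D B) (p : D.R₀ →ₐ[k] B),
    ((tw₀ G p).baseChange φ).Equiv (tw₀ (G.baseChange φ) (φ.comp p))
  bc_tw₁ : ∀ {B B' : Type u} [CommRing B] [Algebra k B] [CommRing B'] [Algebra k B']
    (φ : B →ₐ[k] B') (G : GlueDatum D B) (q : D.R₁ →ₐ[k] B),
    ((tw₁ G q).baseChange φ).Equiv (tw₁ (G.baseChange φ) (φ.comp q))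
  /-- a point of the overlap gives the same twist in both charts -/
  tw_same : ∀ {B : Type u} [CommRing B] [Algebra k B] (G : GlueDatum D B) (r : D.R₀₁ →ₐ[k] B),
    (tw₀ G (r.comp (IsScalarTower.toAlgHom k D.R₀ D.R₀₁))).Equiv
      (tw₁ G (r.comp (IsScalarTower.toAlgHom k D.R₁ D.R₀₁)))

namespace GluePointTwist

variable {k : Type u} [Field k] {D : CurveDatum k} (T : GluePointTwist D)

/-- Iterated twist by a list of points of chart 0: `G(−P₁ − ⋯ − P_d)`. -/
def twList {B : Type u} [CommRing B] [Algebra k B] (G : GlueDatum D B)
    (L : List (D.R₀ →ₐ[k] B)) : GlueDatum D B :=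
  L.foldl T.tw₀ G

@[simp] theorem twList_nil {B : Type u} [CommRing B] [Algebra k B] (G : GlueDatum D B) :
    T.twList G [] = G := rfl

@[simp] theorem twList_cons {B : Type u} [CommRing B] [Algebra k B] (G : GlueDatum D B)
    (p : D.R₀ →ₐ[k] B) (L : List (D.R₀ →ₐ[k] B)) :
    T.twList G (p :: L) = T.twList (T.tw₀ G p) L := rfl

theorem twList_append {B : Type u} [CommRing B] [Algebra k B] (G : GlueDatum D B)
    (L L' : List (D.R₀ →ₐ[k] B)) :
    T.twList G (L ++ L') = T.twList (T.twList G L) L' := by
  simp [twList, List.foldl_append]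

theorem twList_congr {B : Type u} [CommRing B] [Algebra k B] (L : List (D.R₀ →ₐ[k] B))
    {G G' : GlueDatum D B} (h : G.Equiv G') : (T.twList G L).Equiv (T.twList G' L) := by
  induction L generalizing G G' with
  | nil => exact h
  | cons p L ih => exact ih (T.tw₀_congr p h)

/-- Base change of an iterated twist. -/
theorem bc_twList {B B' : Type u} [CommRing B] [Algebra k B] [CommRing B'] [Algebra k B']
    (φ : B →ₐ[k] B') (L : List (D.R₀ →ₐ[k] B)) (G : GlueDatum D B) :
    ((T.twList G L).baseChange φ).Equiv (T.twList (G.baseChange φ) (L.map φ.comp)) := by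
  induction L generalizing G with
  | nil => exact GlueDatum.Equiv.refl _
  | cons p L ih =>
    exact (ih (T.tw₀ G p)).trans (T.twList_congr _ (T.bc_tw₀ φ G p))

section Valuation

variable {V K : Type u} [CommRing V] [IsDomain V] [ValuationRing V] [Field K]
  [Algebra V K] [IsFractionRing V K] [Algebra k V] [Algebra k K] [IsScalarTower k V K]

/-- One step: a datum over `V` whose generic fibre is the twist of the generic fibre of `G`
by a given `K`-point of chart 0.  The new datum is a twist of `G` by a `V`-point of chart 0 or
of chart 1. -/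
theorem exists_step (G : GlueDatum D V) (p : D.R₀ →ₐ[k] K) :
    ∃ G' : GlueDatum D V,
      ((G'.baseChange (IsScalarTower.toAlgHom k V K)).Equiv
        (T.tw₀ (G.baseChange (IsScalarTower.toAlgHom k V K)) p)) ∧
      ((∃ p' : D.R₀ →ₐ[k] V, G' = T.tw₀ G p') ∨ (∃ q' : D.R₁ →ₐ[k] V, G' = T.tw₁ G q')) := by
  rcases helper6505.point_extension₀ (V := V) D p with ⟨p', hp'⟩ | ⟨q', r, hr₀, hr₁, -⟩
  · refine ⟨T.tw₀ G p', ?_, Or.inl ⟨p', rfl⟩⟩
    have h := T.bc_tw₀ (IsScalarTower.toAlgHom k V K) G p'
    rwa [hp'] at h
  · refine ⟨T.tw₁ G q', ?_, Or.inr ⟨q', rfl⟩⟩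
    have h := T.bc_tw₁ (IsScalarTower.toAlgHom k V K) G q'
    rw [← hr₁] at h
    have h' := T.tw_same (G.baseChange (IsScalarTower.toAlgHom k V K)) r
    rw [hr₀] at h'
    exact h.trans h'.symm

/-- **Valuative existence for point twists.**  For every datum `G` over `V`, every datum `H`
over `K` isomorphic to the generic fibre of `G`, and every list `L` of `K`-points of chart 0,
the twist `H(−Σ L)` is the generic fibre of a datum over `V`. -/
theorem exists_extension_list (L : List (D.R₀ →ₐ[k] K)) (G : GlueDatum D V) (H : GlueDatum D K)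
    (hGH : (G.baseChange (IsScalarTower.toAlgHom k V K)).Equiv H) :
    ∃ G' : GlueDatum D V,
      (G'.baseChange (IsScalarTower.toAlgHom k V K)).Equiv (T.twList H L) := by
  induction L generalizing G H with
  | nil => exact ⟨G, hGH⟩
  | cons p L ih =>
    obtain ⟨G₁, hG₁, -⟩ := T.exists_step G p
    exact ih G₁ (T.tw₀ H p) (hG₁.trans (T.tw₀_congr p hGH))

end Valuation

/-- The twists drop the Euler characteristic by one over every field. -/
structure ChiDrop : Prop where
  chi_tw₀ : ∀ {F : Type u} [Field F] [Algebra k F] (G : GlueDatum D F) (p : D.R₀ →ₐ[k] F),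
    (T.tw₀ G p).chi = G.chi - 1
  chi_tw₁ : ∀ {F : Type u} [Field F] [Algebra k F] (G : GlueDatum D F) (q : D.R₁ →ₐ[k] F),
    (T.tw₁ G q).chi = G.chi - 1

/-- The abstract point-twist interface of `helper7530_ValExist`, instantiated with
`GlueDatum`. -/
noncomputable def toData (hT : T.ChiDrop) : PointTwistData.{u, u + 1} D where
  Obj B _ _ := GlueDatum D B
  Rel G G' := G.Equiv G'
  rel_refl G := GlueDatum.Equiv.refl G
  rel_symm h := h.symm
  rel_trans h h' := h.trans h'
  bc φ G := G.baseChange φ
  bc_congr φ _ _ h := equiv_baseChange h φ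
  tw₀ := T.tw₀
  tw₁ := T.tw₁
  tw₀_congr := T.tw₀_congr
  bc_tw₀ := T.bc_tw₀
  bc_tw₁ := T.bc_tw₁
  tw_same := T.tw_same
  chi G := G.chi
  chi_congr h := equiv_chi_eq h
  chi_tw₀ := hT.chi_tw₀
  chi_tw₁ := hT.chi_tw₁

end GluePointTwist

/-! ## Degree zero from the generic fibre -/

section DegZero

variable {k : Type u} [Field k] {D : CurveDatum k}

/-- The fibrewise Euler characteristic of every two-chart line bundle over a domain is
constant.  (Consequence of local constancy of the Euler characteristic, leaf LC-CHI.) -/
def ChiConst (D : CurveDatum k) : Prop :=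
  ∀ (B : Type u) [CommRing B] [IsDomain B] [Algebra k B] (G : GlueDatum D B),
    ∃ c : ℤ, ∀ (L : Type u) [Field L] [Algebra k L] (φ : B →ₐ[k] L), (G.baseChange φ).chi = c

/-- Local constancy of the fibrewise Euler characteristic on `Spec B` (the shape of the
LC-CHI index theorem). -/
def ChiLocConst (D : CurveDatum k) : Prop :=
  ∀ (B : Type u) [CommRing B] [Algebra k B] (G : GlueDatum D B),
    ∃ f : PrimeSpectrum B → ℤ, IsLocallyConstant f ∧
      ∀ (L : Type u) [Field L] [Algebra k L] (φ : B →ₐ[k] L),
        (G.baseChange φ).chi = f ⟨RingHom.ker φ.toRingHom, RingHom.ker_isPrime _⟩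

theorem ChiLocConst.chiConst (h : ChiLocConst D) : ChiConst D := by
  intro B _ _ _ G
  obtain ⟨f, hf, hφ⟩ := h B G
  refine ⟨f ⟨⊥, Ideal.isPrime_bot⟩, fun L _ _ φ => ?_⟩
  rw [hφ L φ]
  exact hf.apply_eq_of_preconnectedSpace _ _

/-- If the fibrewise Euler characteristic is constant over the domain `B`, a datum over `B`
whose fibre at ONE field point has the Euler characteristic of the trivial bundle has degree
zero. -/
theorem degZero_of_chiConst (h : ChiConst D) {B : Type u} [CommRing B] [IsDomain B] [Algebra k B]
    (G : GlueDatum D B) {K : Type u} [Field K] [Algebra k K] (ι : B →ₐ[k] K)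
    (hG : (G.baseChange ι).chi = (GlueDatum.unit D K).chi) : G.DegZero := by
  obtain ⟨c, hc⟩ := h B G
  obtain ⟨c₀, hc₀⟩ := h B (GlueDatum.unit D B)
  have h₀ : ∀ (L : Type u) [Field L] [Algebra k L] (φ : B →ₐ[k] L),
      (GlueDatum.unit D L).chi = c₀ := fun L _ _ φ => by
    rw [← hc₀ L φ, equiv_chi_eq (unit_baseChange φ)]
  have hcc : c = c₀ := by rw [← hc K ι, hG, h₀ K ι]
  intro L _ _ φ
  rw [hc L φ, hcc, h₀ L φ]

end DegZero

/-! ## The point decomposition, as consumed here -/

section Decomp

variable {k : Type u} [Field k] {D : CurveDatum k}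

/-- A family of two-chart line bundles over all `k`-algebras, compatible with base change
(for instance `O(m·D∞)`, or the base changes of one bundle over `k`). -/
structure BaseFamily (D : CurveDatum k) where
  /-- the member over `B` -/
  obj : ∀ (B : Type u) [CommRing B] [Algebra k B], GlueDatum D B
  bc : ∀ {B B' : Type u} [CommRing B] [Algebra k B] [CommRing B'] [Algebra k B']
    (φ : B →ₐ[k] B'), ((obj B).baseChange φ).Equiv (obj B')

/-- The base changes of one bundle over `k` form a base family. -/
noncomputable def BaseFamily.ofBase (N : GlueDatum D k) : BaseFamily D where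
  obj B _ _ := N.baseChange (Algebra.ofId k B)
  bc {B B'} _ _ _ _ φ := by
    have h := baseChange_comp N (Algebra.ofId k B) φ
    have e : φ.comp (Algebra.ofId k B) = Algebra.ofId k B' := Subsingleton.elim _ _
    rwa [e] at h

/-- The trivial bundles form a base family. -/
noncomputable def BaseFamily.unit (D : CurveDatum k) : BaseFamily D where
  obj B _ _ := GlueDatum.unit D B
  bc φ := unit_baseChange φ

/-- POINT DECOMPOSITION (leaf U9a), weak form: over an algebraically closed field `K`, every
degree-zero two-chart line bundle is a twist, by finitely many `K`-points of chart 0, of a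
member of a base family. -/
def PointDecomp (T : GluePointTwist D) : Prop :=
  ∀ (K : Type u) [Field K] [IsAlgClosed K] [Algebra k K] (G : GlueDatum D K), G.DegZero →
    ∃ (O : BaseFamily D) (L : List (D.R₀ →ₐ[k] K)), G.Equiv (T.twList (O.obj K) L)

/-- POINT DECOMPOSITION (leaf U9a), counting form: as `PointDecomp`, with the number of points
equal to the excess of the Euler characteristic of the base family over that of the trivial
bundle, on every field. -/
def PointDecompCount (T : GluePointTwist D) : Prop :=
  ∀ (K : Type u) [Field K] [IsAlgClosed K] [Algebra k K] (G : GlueDatum D K), G.DegZero →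
    ∃ (O : BaseFamily D) (L : List (D.R₀ →ₐ[k] K)),
      (∀ (F : Type u) [Field F] [Algebra k F],
        (O.obj F).chi = (GlueDatum.unit D F).chi + L.length) ∧
      G.Equiv (T.twList (O.obj K) L)

end Decomp

/-! ## Valuative existence -/

section Main

variable {k : Type u} [Field k] {D : CurveDatum k}

/-- Valuative existence from the point decomposition and constancy of the fibrewise Euler
characteristic over domains (one curve, one valuation ring). -/
theorem exists_model_of_chiConst (T : GluePointTwist D) (hT : PointDecomp T) (hchi : ChiConst D)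
    (V : Type u) [CommRing V] [IsDomain V] [ValuationRing V] [Algebra k V]
    (K : Type u) [Field K] [IsAlgClosed K] [Algebra V K] [IsFractionRing V K] [Algebra k K]
    [IsScalarTower k V K] (G : GlueDatum D K) (hG : G.DegZero) :
    ∃ G' : GlueDatum D V, G'.IsRig ∧ G'.DegZero ∧
      (G'.baseChange (IsScalarTower.toAlgHom k V K)).Equiv G := by
  obtain ⟨O, L, hGL⟩ := hT K G hG
  obtain ⟨G', hG'⟩ := T.exists_extension_list L (O.obj V) (O.obj K)
    (O.bc (IsScalarTower.toAlgHom k V K))
  have hG'G : (G'.baseChange (IsScalarTower.toAlgHom k V K)).Equiv G := hG'.trans hGL.symm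
  refine ⟨G', isRig_of_isLocalRing G', ?_, hG'G⟩
  refine degZero_of_chiConst hchi G' (IsScalarTower.toAlgHom k V K) ?_
  rw [equiv_chi_eq hG'G, ← hG K (AlgHom.id k K), equiv_chi_eq (baseChange_id G)]

/-- Valuative existence from the counting form of the point decomposition and the drop of the
Euler characteristic under point twists (one curve, one valuation ring). -/
theorem exists_model_of_count (T : GluePointTwist D) (hdrop : T.ChiDrop)
    (hT : PointDecompCount T)
    (V : Type u) [CommRing V] [IsDomain V] [ValuationRing V] [Algebra k V]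
    (K : Type u) [Field K] [IsAlgClosed K] [Algebra V K] [IsFractionRing V K] [Algebra k K]
    [IsScalarTower k V K] (G : GlueDatum D K) (hG : G.DegZero) :
    ∃ G' : GlueDatum D V, G'.IsRig ∧ G'.DegZero ∧
      (G'.baseChange (IsScalarTower.toAlgHom k V K)).Equiv G := by
  obtain ⟨O, L, hO, hGL⟩ := hT K G hG
  obtain ⟨G', hG', hchi⟩ := (T.toData hdrop).exists_extension_list L (O.obj V) (O.obj K)
    (O.bc (IsScalarTower.toAlgHom k V K))
  refine ⟨G', isRig_of_isLocalRing G', fun F _ _ φ => ?_, GlueDatum.Equiv.trans hG' hGL.symm⟩
  have h1 : (G'.baseChange φ).chi = ((O.obj V).baseChange φ).chi - L.length := hchi F φ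
  rw [h1, equiv_chi_eq (O.bc φ), hO F]
  ring

end Main

/-- **LC4, variant B.**  `helper985.Stmt_AlgValExistAC` from: point twists on `GlueDatum`
(leaf U3-PT), the point decomposition over algebraically closed fields (leaf U9a, weak form)
and constancy of the fibrewise Euler characteristic over domains (leaf LC-CHI). -/
theorem stmt_AlgValExistAC_of_chiConst
    (h : ∀ (k : Type u) [Field k] [IsAlgClosed k] (D : CurveDatum k),
      ChiConst D ∧ ∃ T : GluePointTwist D, PointDecomp T) :
    helper985.Stmt_AlgValExistAC.{u} := by
  intro k _ _ D V _ _ _ _ K _ _ _ _ _ _ G _ hG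
  obtain ⟨hchi, T, hT⟩ := h k D
  exact exists_model_of_chiConst T hT hchi V K G hG

/-- **LC4, variant A.**  `helper985.Stmt_AlgValExistAC` from: point twists on `GlueDatum` with
the drop of the Euler characteristic (leaf U3-PT) and the counting form of the point
decomposition over algebraically closed fields (leaf U9a). -/
theorem stmt_AlgValExistAC_of_count
    (h : ∀ (k : Type u) [Field k] [IsAlgClosed k] (D : CurveDatum k),
      ∃ T : GluePointTwist D, T.ChiDrop ∧ PointDecompCount T) :
    helper985.Stmt_AlgValExistAC.{u} := by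
  intro k _ _ D V _ _ _ _ K _ _ _ _ _ _ G _ hG
  obtain ⟨T, hdrop, hT⟩ := h k D
  exact exists_model_of_count T hdrop hT V K G hG

end Fermat.Agent.S25.helper7530
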