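import Fermat.Agent.S25.helper985_LGAlg2

/-!
# S25, layer C: the strengthened boundedness statement (captain helper505, ruling R8)

`helper985.Stmt_AlgBounded` asks for ONE rigidified degree-zero two-chart line bundle `G₀`
over some `k`-algebra `B₀` through which every rigidified degree-zero two-chart line bundle
over an algebraically closed field factors.  The family actually constructed (`B₀` = a tensor
power of `R₀`, `G₀ = 𝒪(m D∞ - Σ Γ_i)`) lives over a finitely generated `k`-DOMAIN.  Recording
this makes the same family serve a second purpose: any two points of `Spec B₀` with values in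
an algebraically closed field `K` are connected by the geometrically integral `k`-scheme
`Spec B₀`, which is exactly the connecting family required by "degree zero ⟹ algebraically
equivalent to zero" (direction `⟸` of `helper1705.Stmt_FAEZ`).

* `Stmt_AlgBoundedDom` : the strengthened statement (deliverable of the LC5 integrator);
* `stmt_AlgBounded_of_dom` : it implies `helper985.Stmt_AlgBounded`;
* `exists_connecting_of_dom` : the connecting family in two-chart vocabulary.
-/

set_option autoImplicit false

universe u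

namespace Fermat.Agent.S25.helper505

open Fermat.Agent.S25.helper1705 Fermat.Agent.S25.helper2945

/-- ALG-BOUNDED, strengthened: the base `B₀` of the bounding family is a finitely generated
`k`-algebra and a domain. -/
def Stmt_AlgBoundedDom : Prop :=
  ∀ (k : Type u) [Field k] [IsAlgClosed k] (D : CurveDatum k),
    ∃ (B₀ : Type u) (_ : CommRing B₀) (_ : Algebra k B₀) (_ : IsDomain B₀)
      (_ : Algebra.FiniteType k B₀) (G₀ : GlueDatum D B₀),
      G₀.IsRig ∧ G₀.DegZero ∧
      ∀ (K : Type u) [Field K] [IsAlgClosed K] [Algebra k K] (G : GlueDatum D K),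
        G.IsRig → G.DegZero → ∃ φ : B₀ →ₐ[k] K, (G₀.baseChange φ).Equiv G

/-- The strengthened statement implies the one consumed by the descent arrow D-BOUNDED. -/
theorem stmt_AlgBounded_of_dom (h : Stmt_AlgBoundedDom.{u}) :
    Fermat.Agent.S25.helper985.Stmt_AlgBounded.{u} := by
  intro k _ _ D
  obtain ⟨B₀, i₁, i₂, _, _, G₀, hrig, hdeg, hall⟩ := h k D
  exact ⟨B₀, i₁, i₂, G₀, hrig, hdeg, hall⟩

/-- The connecting family, in two-chart vocabulary: over an algebraically closed field `K`,
every rigidified degree-zero two-chart line bundle `G` and the trivial one are two fibres of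
one two-chart line bundle over a finitely generated `k`-domain `B₀` (which does not depend on
`K` or `G`). The hypotheses on the unit datum are supplied by the `GlueDatum` API. -/
theorem exists_connecting_of_dom (h : Stmt_AlgBoundedDom.{u})
    (k : Type u) [Field k] [IsAlgClosed k] (D : CurveDatum k) :
    ∃ (B₀ : Type u) (_ : CommRing B₀) (_ : Algebra k B₀) (_ : IsDomain B₀)
      (_ : Algebra.FiniteType k B₀) (G₀ : GlueDatum D B₀),
      G₀.IsRig ∧ G₀.DegZero ∧
      ∀ (K : Type u) [Field K] [IsAlgClosed K] [Algebra k K],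
        (GlueDatum.unit D K).IsRig → (GlueDatum.unit D K).DegZero →
        ∀ G : GlueDatum D K, G.IsRig → G.DegZero →
          ∃ φ₀ φ₁ : B₀ →ₐ[k] K,
            (G₀.baseChange φ₀).Equiv (GlueDatum.unit D K) ∧ (G₀.baseChange φ₁).Equiv G := by
  obtain ⟨B₀, i₁, i₂, i₃, i₄, G₀, hrig, hdeg, hall⟩ := h k D
  refine ⟨B₀, i₁, i₂, i₃, i₄, G₀, hrig, hdeg, ?_⟩
  intro K _ _ _ hUrig hUdeg G hGrig hGdeg
  obtain ⟨φ₀, h₀⟩ := hall K (GlueDatum.unit D K) hUrig hUdeg
  obtain ⟨φ₁, h₁⟩ := hall K G hGrig hGdeg
  exact ⟨φ₀, φ₁, h₀, h₁⟩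

/-- `Stmt_AlgBoundedDom` and `helper985.Stmt_AlgBoundedFT` are the same statement (binder form
versus conjunct form). The CANONICAL name, consumed by `helper985.stmt_FAEZ_mpr`, is
`helper985.Stmt_AlgBoundedFT`. -/
theorem stmt_AlgBoundedFT_of_dom (h : Stmt_AlgBoundedDom.{u}) :
    Fermat.Agent.S25.helper985.Stmt_AlgBoundedFT.{u} := by
  intro k _ _ D
  obtain ⟨B₀, i₁, i₂, i₃, i₄, G₀, hrig, hdeg, hall⟩ := h k D
  exact ⟨B₀, i₁, i₂, G₀, i₃, i₄, hrig, hdeg, hall⟩

/-- The converse of `stmt_AlgBoundedFT_of_dom`. -/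
theorem stmt_AlgBoundedDom_of_FT (h : Fermat.Agent.S25.helper985.Stmt_AlgBoundedFT.{u}) :
    Stmt_AlgBoundedDom.{u} := by
  intro k _ _ D
  obtain ⟨B₀, i₁, i₂, G₀, i₃, i₄, hrig, hdeg, hall⟩ := h k D
  exact ⟨B₀, i₁, i₂, i₃, i₄, G₀, hrig, hdeg, hall⟩

end Fermat.Agent.S25.helper505
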