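import Fermat.Agent.S25.helper6135_AEZFamily
import Fermat.Agent.S25.helper985_LGSpec
import Fermat.Agent.S25.helper6784_GeomIntegral

/-!
# S25, brick FAEZ-AFF: algebraic families give fibrewise algebraic equivalence to zero (helper6135)

Dictionary-independent wiring for the direction `DegZero ⟹ FibrewiseAlgEquivZero` of
`Stmt_FAEZ`.  To show that a rigidified line bundle `M` on `C × Spec B` is fibrewise
algebraically equivalent to zero it suffices to give, for every algebraically closed field `K`
over `k` and every `k`-algebra map `φ : B → K`, an AFFINE algebraic family: a `K`-domain `B₀` of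
finite type, an invertible module `N` on `C × Spec B₀` (the literal scheme
`pullback c (specStr k B₀)`) and two `K`-points `q₀ q₁ : B₀ → K` such that `N` is trivial at `q₀`
and is the pullback of `M.L` along `φ` at `q₁`.

Main declarations (namespace `Fermat.Agent.S25.helper6135`):
* `baseChangeSnd_comp_eq`, `bcsCompIso` : composition of `baseChangeSnd` and of the pullbacks;
* `AlgFamily c φ L : Prop`;
* `familyForm_of_algFamily`;
* `fibrewiseAlgEquivZero_of_algFamily`.
-/

set_option autoImplicit false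

universe u

open CategoryTheory CategoryTheory.Limits AlgebraicGeometry AlgebraicGeometry.RelPicard
  NeronModelInfra

namespace Fermat.Agent.S25.helper6135

open Fermat.Agent.S25.helper985 (specStr specHomOver)

noncomputable section

section General

variable {R : Type u} [CommRing R] {C : Scheme.{u}} (c : C ⟶ Spec (CommRingCat.of R))

/-- `baseChangeSnd` is functorial: a commutative triangle of schemes over `R` gives a
commutative triangle of base changes of `C`. -/
theorem baseChangeSnd_comp_eq {T₁ T₂ T₃ : Scheme.{u}} {t₁ : T₁ ⟶ Spec (CommRingCat.of R)}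
    {t₂ : T₂ ⟶ Spec (CommRingCat.of R)} {t₃ : T₃ ⟶ Spec (CommRingCat.of R)}
    (ψ₁ : SchemeHomOver t₁ t₂) (ψ₂ : SchemeHomOver t₂ t₃) (ψ₃ : SchemeHomOver t₁ t₃)
    (h : ψ₁.1 ≫ ψ₂.1 = ψ₃.1) :
    baseChangeSnd c ψ₁ ≫ baseChangeSnd c ψ₂ = baseChangeSnd c ψ₃ := by
  rw [baseChangeSnd_comp]
  exact congrArg (baseChangeSnd c) (Subtype.ext h)

/-- Pullback of modules along a composite of base changes. -/
def bcsCompIso {T₁ T₂ T₃ : Scheme.{u}} {t₁ : T₁ ⟶ Spec (CommRingCat.of R)}
    {t₂ : T₂ ⟶ Spec (CommRingCat.of R)} {t₃ : T₃ ⟶ Spec (CommRingCat.of R)}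
    (ψ₁ : SchemeHomOver t₁ t₂) (ψ₂ : SchemeHomOver t₂ t₃) (ψ₃ : SchemeHomOver t₁ t₃)
    (h : ψ₁.1 ≫ ψ₂.1 = ψ₃.1) (M : (pullback c t₃).Modules) :
    (Scheme.Modules.pullback (baseChangeSnd c ψ₁)).obj
        ((Scheme.Modules.pullback (baseChangeSnd c ψ₂)).obj M) ≅
      (Scheme.Modules.pullback (baseChangeSnd c ψ₃)).obj M :=
  compIso (baseChangeSnd_comp_eq c ψ₁ ψ₂ ψ₃ h) M

end General

variable {k : Type u} [CommRing k] {C : Scheme.{u}} (c : C ⟶ Spec (CommRingCat.of k))

/-- An affine algebraic family witnessing that the pullback of `L` along `φ : B → K` is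
algebraically equivalent to zero. -/
def AlgFamily {B : Type u} [CommRing B] [Algebra k B] {K : Type u} [Field K] [Algebra k K]
    (φ : B →ₐ[k] K) (L : (pullback c (specStr k B)).Modules) : Prop :=
  ∃ (B₀ : Type u) (_ : CommRing B₀) (_ : IsDomain B₀) (_ : Algebra K B₀) (_ : Algebra k B₀)
    (_ : IsScalarTower k K B₀) (_ : Algebra.FiniteType K B₀)
    (N : (pullback c (specStr k B₀)).Modules) (_ : Scheme.Modules.IsInvertible N)
    (q₀ q₁ : B₀ →ₐ[K] K),
    Nonempty ((Scheme.Modules.pullback
        (baseChangeSnd c (specHomOver (q₀.restrictScalars k)))).obj N ≅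
        SheafOfModules.unit (pullback c (specStr k K)).ringCatSheaf) ∧
    Nonempty ((Scheme.Modules.pullback
        (baseChangeSnd c (specHomOver (q₁.restrictScalars k)))).obj N ≅
        (Scheme.Modules.pullback (baseChangeSnd c (specHomOver φ))).obj L)

theorem specStr_comp_specStr (K : Type u) [CommRing K] [Algebra k K] (B₀ : Type u) [CommRing B₀]
    [Algebra K B₀] [Algebra k B₀] [IsScalarTower k K B₀] :
    specStr K B₀ ≫ specStr k K = specStr k B₀ := by
  rw [specStr, specStr, specStr, ← Spec.map_comp, ← CommRingCat.ofHom_comp,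
    ← IsScalarTower.algebraMap_eq]

theorem specMap_point_comp_specStr {K : Type u} [CommRing K] {B₀ : Type u} [CommRing B₀]
    [Algebra K B₀] (q : B₀ →ₐ[K] K) :
    Spec.map (CommRingCat.ofHom q.toRingHom) ≫ specStr K B₀ = 𝟙 (Spec (CommRingCat.of K)) := by
  have hq : q.toRingHom.comp (algebraMap K B₀) = RingHom.id K :=
    RingHom.ext fun x => by simp
  rw [specStr, ← Spec.map_comp, ← CommRingCat.ofHom_comp, hq]
  exact Spec.map_id _

/-- **FAEZ-AFF**, family form. -/
theorem familyForm_of_algFamily {B : Type u} [CommRing B] [Algebra k B] {K : Type u} [Field K]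
    [IsAlgClosed K] [Algebra k K] (φ : B →ₐ[k] K) (L : (pullback c (specStr k B)).Modules)
    (hL : AlgFamily c φ L) : FamilyForm c (specStr k B) (specHomOver φ).1 L := by
  obtain ⟨B₀, _, _, _, _, _, hft, N, hN, q₀, q₁, ⟨e₀⟩, ⟨e₁⟩⟩ := hL
  -- the structure morphisms
  have hs : (specHomOver φ).1 ≫ specStr k B = specStr k K := (specHomOver φ).2
  have hτ : 𝟙 _ ≫ specStr k B₀ = specStr K B₀ ≫ (specHomOver φ).1 ≫ specStr k B := by
    rw [Category.id_comp, hs, specStr_comp_specStr]
  -- the identity of `Spec B₀`, seen over `R` with the two structure morphisms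
  let ι₀ : SchemeHomOver (specStr K B₀ ≫ (specHomOver φ).1 ≫ specStr k B) (specStr k B₀) :=
    ⟨𝟙 _, hτ⟩
  -- the identity of `Spec K`, seen over `R` with the two structure morphisms
  let ι : SchemeHomOver ((specHomOver φ).1 ≫ specStr k B) (specStr k K) :=
    ⟨𝟙 _, by rw [Category.id_comp, hs]⟩
  have hlft : LocallyOfFiniteType (specStr K B₀) := by
    rw [specStr, HasRingHomProperty.Spec_iff (P := @LocallyOfFiniteType)]
    exact RingHom.finiteType_algebraMap.mpr hft
  have hgi : GeometricallyIntegral (specStr K B₀) :=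
    helper6784.geometricallyIntegral_of_isAlgClosed _
  let t₀ : SchemeHomOver (𝟙 (Spec (CommRingCat.of K))) (specStr K B₀) :=
    ⟨Spec.map (CommRingCat.ofHom q₀.toRingHom), specMap_point_comp_specStr q₀⟩
  let t₁ : SchemeHomOver (𝟙 (Spec (CommRingCat.of K))) (specStr K B₀) :=
    ⟨Spec.map (CommRingCat.ofHom q₁.toRingHom), specMap_point_comp_specStr q₁⟩
  refine ⟨Spec (CommRingCat.of B₀), specStr K B₀, hlft, hgi,
    (Scheme.Modules.pullback (baseChangeSnd c ι₀)).obj N, hN.pullback _, t₀, t₁, ⟨?_⟩, ⟨?_⟩⟩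
  · refine bcsCompIso c (sec (specStr k B) (specHomOver φ).1 t₀) ι₀
        (postComp ι₀ (sec (specStr k B) (specHomOver φ).1 t₀)) rfl N ≪≫
      (bcsCompIso c ι (specHomOver (q₀.restrictScalars k))
        (postComp ι₀ (sec (specStr k B) (specHomOver φ).1 t₀)) ?_ N).symm ≪≫
      (Scheme.Modules.pullback (baseChangeSnd c ι)).mapIso e₀ ≪≫
      Scheme.Modules.pullbackUnitIso _
    simp [ι, ι₀, t₀, sec, postComp]
  · refine bcsCompIso c (sec (specStr k B) (specHomOver φ).1 t₁) ι₀
        (postComp ι₀ (sec (specStr k B) (specHomOver φ).1 t₁)) rfl N ≪≫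
      (bcsCompIso c ι (specHomOver (q₁.restrictScalars k))
        (postComp ι₀ (sec (specStr k B) (specHomOver φ).1 t₁)) ?_ N).symm ≪≫
      (Scheme.Modules.pullback (baseChangeSnd c ι)).mapIso e₁ ≪≫
      bcsCompIso c ι (specHomOver φ) (pt (specStr k B) (specHomOver φ).1) ?_ L
    · simp [ι, ι₀, t₁, sec, postComp]
    · simp [ι, pt]

/-- **FAEZ-AFF.** A rigidified line bundle on `C × Spec B` all of whose geometric fibres admit an
affine algebraic family to the trivial bundle is fibrewise algebraically equivalent to zero. -/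
theorem fibrewiseAlgEquivZero_of_algFamily
    {ε : SchemeHomOver (𝟙 (Spec (CommRingCat.of k))) c} {B : Type u} [CommRing B] [Algebra k B]
    (M : RigidifiedLineBundle c ε (specStr k B))
    (H : ∀ (K : Type u) [Field K] [IsAlgClosed K] [Algebra k K] (φ : B →ₐ[k] K),
      AlgFamily c φ M.L) :
    FibrewiseAlgEquivZero M := by
  intro K _ _ s
  rw [isAlgEquivZero_fibre_iff]
  -- the `k`-algebra structure on `K` induced by `s`
  let ρ : B →+* K := (Spec.preimage s).hom
  let _ : Algebra k K := (ρ.comp (algebraMap k B)).toAlgebra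
  let φ : B →ₐ[k] K := { ρ with commutes' := fun _ => rfl }
  have hs : (specHomOver φ).1 = s := by
    rw [helper985.specHomOver_val]
    exact Spec.map_preimage s
  have := familyForm_of_algFamily c φ M.L (H K φ)
  rwa [hs] at this

end

end Fermat.Agent.S25.helper6135
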