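import Fermat.Agent.S25.helper1705_Spec3
import Fermat.Agent.S25.helper985_LGAlg2
import Fermat.Agent.S25.helper6135_AEZAffine
import Fermat.Agent.Lib.helper9007_TensorDomain

/-!
# S25, layer G: `DegZero ⟹ FibrewiseAlgEquivZero` from the bounded family (helper985)

The direction `(⟸)` of `Stmt_FAEZ`.  The universal family `G₀` over `B₀` of
`Stmt_AlgBoundedFT` contains every rigidified degree-zero two-chart line bundle over every
algebraically closed field `K ⊇ k`, in particular the unit datum and the fibre `G_K` of the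
given datum.  As `K ⊗[k] B₀` is a `K`-domain of finite type, the sheaf of
`G₀ ⊗ (K ⊗[k] B₀)` is an algebraic family joining the trivial bundle to the fibre
(`helper6135.AlgFamily`), which is what `IsAlgEquivZero` asks for.

* `iso_chi_eq`, `equiv_chi_eq` : equivalent two-chart line bundles have the same `chi`;
* `dict_equiv_baseChange_comp`, `dict_equiv_baseChange`, `dict_equiv_unit_baseChange` :
  compatibilities of `Equiv` with base change, derived from a dictionary;
* `faez_of_degZero` : the arrow, for one curve with a dictionary;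
* `stmt_FAEZ_mpr` : the closed form.
-/

set_option autoImplicit false

universe u

open CategoryTheory CategoryTheory.Limits AlgebraicGeometry AlgebraicGeometry.RelPicard
  NeronModelInfra GoodReductionJacobian TensorProduct

namespace Fermat.Agent.S25.helper985

open Fermat.Agent.S25.helper1705 Fermat.Agent.S25.helper2945

section Chi

variable {k : Type u} [Field k] {D : CurveDatum k} {B : Type u} [CommRing B] [Algebra k B]

/-- Isomorphic two-chart line bundles have the same Euler characteristic. -/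
theorem iso_chi_eq {G G' : GlueDatum D B} (f : GlueDatum.Iso G G') : G.chi = G'.chi := by
  let e₀ : G.M₀ ≃ₗ[B] G'.M₀ := f.e₀.restrictScalars B
  let e₁ : G.M₁ ≃ₗ[B] G'.M₁ := f.e₁.restrictScalars B
  let e₀₁ : G.M₀₁ ≃ₗ[B] G'.M₀₁ := f.e₀₁.restrictScalars B
  let e : (G.M₀ × G.M₁) ≃ₗ[B] (G'.M₀ × G'.M₁) := e₀.prodCongr e₁
  have hcomm : ∀ p, G'.delta (e p) = e₀₁ (G.delta p) := by
    intro p
    rw [GlueDatum.delta_apply, GlueDatum.delta_apply]
    change G'.ρ₀ (f.e₀ p.1) - G'.ρ₁ (f.e₁ p.2) = f.e₀₁ (G.ρ₀ p.1 - G.ρ₁ p.2)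
    rw [map_sub, f.comm₀, f.comm₁]
  -- H0
  have hH0 : G.H0.map (e : (G.M₀ × G.M₁) →ₗ[B] (G'.M₀ × G'.M₁)) = G'.H0 := by
    ext q
    constructor
    · rintro ⟨p, hp, rfl⟩
      have hp' : G.delta p = 0 := hp
      change G'.delta (e p) = 0
      rw [hcomm, hp', map_zero]
    · intro hq
      have hq' : G'.delta q = 0 := hq
      refine ⟨e.symm q, ?_, e.apply_symm_apply q⟩
      change G.delta (e.symm q) = 0
      apply e₀₁.injective
      rw [← hcomm, e.apply_symm_apply, hq', map_zero]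
  have h0 : Module.finrank B G.H0 = Module.finrank B G'.H0 := by
    rw [← hH0]
    exact (e.submoduleMap G.H0).finrank_eq
  -- H1
  have hR : (LinearMap.range G.delta).map (e₀₁ : G.M₀₁ →ₗ[B] G'.M₀₁) = LinearMap.range G'.delta := by
    ext n
    constructor
    · rintro ⟨_, ⟨p, rfl⟩, rfl⟩
      exact ⟨e p, hcomm p⟩
    · rintro ⟨q, rfl⟩
      refine ⟨G.delta (e.symm q), ⟨_, rfl⟩, ?_⟩
      change e₀₁ (G.delta (e.symm q)) = _
      rw [← hcomm, e.apply_symm_apply]
  have h1 : Module.finrank B G.H1 = Module.finrank B G'.H1 :=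
    (Submodule.Quotient.equiv _ _ e₀₁ hR).finrank_eq
  rw [GlueDatum.chi, GlueDatum.chi, h0, h1]

/-- Equivalent two-chart line bundles have the same Euler characteristic. -/
theorem equiv_chi_eq {G G' : GlueDatum D B} (h : G.Equiv G') : G.chi = G'.chi :=
  h.elim iso_chi_eq

end Chi

section Dict

variable {k : Type u} [Field k] {C : Scheme.{u}} {c : C ⟶ Spec (CommRingCat.of k)}
  {ε : SchemeHomOver (𝟙 (Spec (CommRingCat.of k))) c} {D : CurveDatum k}

/-- Two successive base changes are equivalent to the base change along the composite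
(derived from a dictionary). -/
theorem dict_equiv_baseChange_comp (𝔇 : Dictionary c ε D) {B B' B'' : Type u}
    [CommRing B] [Algebra k B] [CommRing B'] [Algebra k B'] [CommRing B''] [Algebra k B'']
    (φ : B →ₐ[k] B') (ψ : B' →ₐ[k] B'') (G : GlueDatum D B) :
    ((G.baseChange φ).baseChange ψ).Equiv (G.baseChange (ψ.comp φ)) := by
  obtain ⟨L, -, hG⟩ := 𝔇.exists_sheaf B G
  have h1 := 𝔇.models_baseChange ψ (𝔇.models_baseChange φ hG)
  have h2 := 𝔇.models_baseChange (ψ.comp φ) hG
  refine (𝔇.iso_iff B'' h1 h2).mp ⟨helper6135.bcsCompIso c (specHomOver ψ) (specHomOver φ)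
    (specHomOver (ψ.comp φ)) ?_ L⟩
  rw [specHomOver_val, specHomOver_val, specHomOver_val, ← Spec.map_comp]
  rfl

/-- Base change respects equivalence (derived from a dictionary). -/
theorem dict_equiv_baseChange (𝔇 : Dictionary c ε D) {B B' : Type u}
    [CommRing B] [Algebra k B] [CommRing B'] [Algebra k B'] (φ : B →ₐ[k] B')
    {G G' : GlueDatum D B} (h : G.Equiv G') : (G.baseChange φ).Equiv (G'.baseChange φ) := by
  obtain ⟨L, -, hG⟩ := 𝔇.exists_sheaf B G
  obtain ⟨L', -, hG'⟩ := 𝔇.exists_sheaf B G'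
  obtain ⟨e⟩ := (𝔇.iso_iff B hG hG').mpr h
  exact (𝔇.iso_iff B' (𝔇.models_baseChange φ hG) (𝔇.models_baseChange φ hG')).mp
    ⟨(Scheme.Modules.pullback (baseChangeSnd c (specHomOver φ))).mapIso e⟩

/-- The base change of the unit datum is equivalent to the unit datum (derived from a
dictionary). -/
theorem dict_equiv_unit_baseChange (𝔇 : Dictionary c ε D) {B B' : Type u}
    [CommRing B] [Algebra k B] [CommRing B'] [Algebra k B'] (φ : B →ₐ[k] B') :
    ((GlueDatum.unit D B).baseChange φ).Equiv (GlueDatum.unit D B') :=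
  (𝔇.iso_iff B' (𝔇.models_baseChange φ (𝔇.models_unit B)) (𝔇.models_unit B')).mp
    ⟨Scheme.Modules.pullbackUnitIso _⟩

/-- The unit datum is rigidified (derived from a dictionary). -/
theorem dict_isRig_unit (𝔇 : Dictionary c ε D) (B : Type u) [CommRing B] [Algebra k B] :
    (GlueDatum.unit D B).IsRig :=
  (𝔇.rig_iff B (𝔇.models_unit B)).mp ⟨Scheme.Modules.pullbackUnitIso _⟩

/-- The unit datum has degree zero (derived from a dictionary). -/
theorem dict_degZero_unit (𝔇 : Dictionary c ε D) (B : Type u) [CommRing B] [Algebra k B] :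
    (GlueDatum.unit D B).DegZero :=
  fun _ _ _ φ => equiv_chi_eq (dict_equiv_unit_baseChange 𝔇 φ)

/-- Degree zero is stable under base change (derived from a dictionary). -/
theorem dict_degZero_baseChange (𝔇 : Dictionary c ε D) {B B' : Type u}
    [CommRing B] [Algebra k B] [CommRing B'] [Algebra k B'] (φ : B →ₐ[k] B')
    {G : GlueDatum D B} (h : G.DegZero) : (G.baseChange φ).DegZero :=
  fun K _ _ ψ => (equiv_chi_eq (dict_equiv_baseChange_comp 𝔇 φ ψ G)).trans (h K (ψ.comp φ))

/-- **`DegZero ⟹ FibrewiseAlgEquivZero`** for one curve with a dictionary, from a bounded family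
over a domain of finite type. -/
theorem faez_of_degZero [IsAlgClosed k] (𝔇 : Dictionary c ε D)
    (hB : ∃ (B₀ : Type u) (_ : CommRing B₀) (_ : Algebra k B₀) (G₀ : GlueDatum D B₀),
      IsDomain B₀ ∧ Algebra.FiniteType k B₀ ∧ G₀.IsRig ∧ G₀.DegZero ∧
      ∀ (K : Type u) [Field K] [IsAlgClosed K] [Algebra k K] (G : GlueDatum D K),
        G.IsRig → G.DegZero → ∃ φ : B₀ →ₐ[k] K, (G₀.baseChange φ).Equiv G)
    (B : Type u) [CommRing B] [Algebra k B] (M : RigidifiedLineBundle c ε (specStr k B))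
    (G : GlueDatum D B) (hG : 𝔇.Models B M.L G) (hdeg : G.DegZero) :
    FibrewiseAlgEquivZero M := by
  obtain ⟨B₀, _, _, G₀, hdom, hft, -, -, hall⟩ := hB
  refine helper6135.fibrewiseAlgEquivZero_of_algFamily c M fun K _ _ _ φ => ?_
  -- the fibre of `G` at `φ`
  have hGK : 𝔇.Models K ((Scheme.Modules.pullback (baseChangeSnd c (specHomOver φ))).obj M.L)
      (G.baseChange φ) := 𝔇.models_baseChange φ hG
  have hrigK : (G.baseChange φ).IsRig :=
    (𝔇.rig_iff K hGK).mp (M.pullbackAlong (specHomOver φ)).rigidified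
  obtain ⟨φ₁, h₁⟩ := hall K (G.baseChange φ) hrigK (dict_degZero_baseChange 𝔇 φ hdeg)
  obtain ⟨φ₀, h₀⟩ := hall K (GlueDatum.unit D K) (dict_isRig_unit 𝔇 K) (dict_degZero_unit 𝔇 K)
  -- the family over `K ⊗[k] B₀`
  have hdom' : IsDomain (K ⊗[k] B₀) := Fermat.Agent.Lib.helper9007.isDomain_tensorProduct k K B₀
  have hft' : Algebra.FiniteType K (K ⊗[k] B₀) := inferInstance
  let incl : B₀ →ₐ[k] K ⊗[k] B₀ := Algebra.TensorProduct.includeRight
  obtain ⟨N, hN, hNG⟩ := 𝔇.exists_sheaf (K ⊗[k] B₀) (G₀.baseChange incl)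
  let q : (B₀ →ₐ[k] K) → (K ⊗[k] B₀ →ₐ[K] K) := fun ψ =>
    Algebra.TensorProduct.lift (AlgHom.id K K) ψ (fun _ _ => Commute.all _ _)
  have hq : ∀ ψ : B₀ →ₐ[k] K, ((q ψ).restrictScalars k).comp incl = ψ := by
    intro ψ
    ext b
    simp [q, incl]
  have key : ∀ ψ : B₀ →ₐ[k] K,
      𝔇.Models K ((Scheme.Modules.pullback
        (baseChangeSnd c (specHomOver ((q ψ).restrictScalars k)))).obj N)
        ((G₀.baseChange incl).baseChange ((q ψ).restrictScalars k)) :=
    fun ψ => 𝔇.models_baseChange _ hNG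
  have keyE : ∀ ψ : B₀ →ₐ[k] K,
      ((G₀.baseChange incl).baseChange ((q ψ).restrictScalars k)).Equiv (G₀.baseChange ψ) := by
    intro ψ
    have := dict_equiv_baseChange_comp 𝔇 incl ((q ψ).restrictScalars k) G₀
    rwa [hq ψ] at this
  refine ⟨K ⊗[k] B₀, inferInstance, hdom', inferInstance, inferInstance, inferInstance, hft',
    N, hN, q φ₀, q φ₁, ?_, ?_⟩
  · exact (𝔇.iso_iff K (key φ₀) (𝔇.models_unit K)).mpr ((keyE φ₀).trans h₀)
  · exact (𝔇.iso_iff K (key φ₁) hGK).mpr ((keyE φ₁).trans h₁)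

end Dict

/-- **The direction `(⟸)` of `Stmt_FAEZ`, closed form**: from the bounded family. -/
theorem stmt_FAEZ_mpr (hB : Stmt_AlgBoundedFT.{u})
    (k : Type u) [Field k] {C : Scheme.{u}} (c : C ⟶ Spec (CommRingCat.of k)) (hc : IsCurve k c)
    (ε : SchemeHomOver (𝟙 (Spec (CommRingCat.of k))) c) (D : CurveDatum k)
    (𝔇 : Dictionary c ε D)
    (B : Type u) [CommRing B] [Algebra k B] (M : RigidifiedLineBundle c ε (specStr k B))
    (G : GlueDatum D B) (hG : 𝔇.Models B M.L G) (hdeg : G.DegZero) :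
    FibrewiseAlgEquivZero M :=
  have := hc.algClosed
  faez_of_degZero 𝔇 (hB k D) B M G hG hdeg

end Fermat.Agent.S25.helper985
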