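import Fermat.Agent.S25.helper7810_ChiAlg
import Fermat.Agent.S25.helper1705_Spec3
import Fermat.Agent.S25.helper743_AlgApi
import Fermat.Agent.S25.helper985_FAEZBounded
import Fermat.Agent.S25.helper505_LCSpec

/-!
# S25, leaf LG-FAEZ: the direction `FibrewiseAlgEquivZero ⟹ DegZero` of `Stmt_FAEZ`

(helper7810, backup of LG-FAEZ.)  This file instantiates the abstract machine of
`helper7810_ChiAlg` (connectedness of the frozen witness + local constancy of the Euler
characteristic) at the `Dictionary` of Spec III and the Euler characteristic `GlueDatum.chi`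
of `helper2945_AlgDefs`.

* `Stmt_ChiExt`, `Stmt_ChiLoc` : the two remaining algebra inputs (closed Props in `GlueDatum`
  vocabulary): `chi` is invariant under extension of the base field, and `q ↦ chi (G ⊗ κ(q))` is
  locally constant on `PrimeSpectrum B` for noetherian `B`.
* `Stmt_ChiIndex` : the index form ("`chi (G ⊗ K) = f (ker φ)` for a locally constant `f`"),
  and `stmt_ChiExt_of_index`, `stmt_ChiLoc_of_index`.
* `dictModelSystem` : a `Dictionary` is an abstract `helper175.ModelSystem` (cut `⊤`).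
* `degZero_of_fibrewiseAlgEquivZero` : the direction `⟹` for a dictionary.
* `Stmt_FAEZ_mp`, `Stmt_FAEZ_mpr`, `stmt_FAEZ_mp_of`, `stmt_FAEZ_of` : the wiring to
  `helper1705.Stmt_FAEZ`.
* `stmt_FAEZ_of_index_boundedFT`, `stmt_FAEZ_of_index_boundedDom` : `Stmt_FAEZ` from the index
  form of the Euler characteristic and the bounded family (direction `⟸` = `helper985`).
-/

set_option autoImplicit false

universe u

open CategoryTheory CategoryTheory.Limits AlgebraicGeometry AlgebraicGeometry.RelPicard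
  NeronModelInfra GoodReductionJacobian

namespace Fermat.Agent.S25.helper7810

open Fermat.Agent.S25.helper1705 Fermat.Agent.S25.helper2945 Fermat.Agent.S25.helper985

/-- CHI-EXT. The Euler characteristic of a two-chart line bundle over a field does not change
under extension of the field. -/
def Stmt_ChiExt : Prop :=
  ∀ (k : Type u) [Field k] [IsAlgClosed k] (D : CurveDatum k) (K K' : Type u) [Field K]
    [Field K'] [Algebra k K] [Algebra k K'] (φ : K →ₐ[k] K') (G : GlueDatum D K),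
    (G.baseChange φ).chi = G.chi

/-- CHI-LOC. The Euler characteristic of the fibres of a two-chart line bundle over a noetherian
base is locally constant on the prime spectrum. -/
def Stmt_ChiLoc : Prop :=
  ∀ (k : Type u) [Field k] [IsAlgClosed k] (D : CurveDatum k) (B : Type u) [CommRing B]
    [Algebra k B] [IsNoetherianRing B] (G : GlueDatum D B),
    IsLocallyConstant (fun q : PrimeSpectrum B =>
      (G.baseChange (IsScalarTower.toAlgHom k B q.asIdeal.ResidueField)).chi)

/-- CHI-INDEX. The Euler characteristic of the fibre of a two-chart line bundle at a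
field-valued point `φ` depends only on the prime `ker φ`, and is a locally constant function
of it. -/
def Stmt_ChiIndex : Prop :=
  ∀ (k : Type u) [Field k] [IsAlgClosed k] (D : CurveDatum k) (B : Type u) [CommRing B]
    [Algebra k B] (G : GlueDatum D B),
    ∃ f : PrimeSpectrum B → ℤ, IsLocallyConstant f ∧
      ∀ (K : Type u) [Field K] [Algebra k K] (φ : B →ₐ[k] K) (q : PrimeSpectrum B),
        q.asIdeal = RingHom.ker φ → (G.baseChange φ).chi = f q

/-- CHI-INDEX in subtype form (the shape proved by the owners of the chi API). -/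
def Stmt_ChiIndexKer : Prop :=
  ∀ (k : Type u) [Field k] [IsAlgClosed k] (D : CurveDatum k) (B : Type u) [CommRing B]
    [Algebra k B] (G : GlueDatum D B),
    ∃ f : PrimeSpectrum B → ℤ, IsLocallyConstant f ∧
      ∀ (K : Type u) [Field K] [Algebra k K] (φ : B →ₐ[k] K),
        (G.baseChange φ).chi = f ⟨RingHom.ker φ.toRingHom, RingHom.ker_isPrime _⟩

theorem stmt_ChiIndex_of_ker (h : Stmt_ChiIndexKer.{u}) : Stmt_ChiIndex.{u} := by
  intro k _ _ D B _ _ G
  obtain ⟨f, hf, hf'⟩ := h k D B G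
  refine ⟨f, hf, fun K _ _ φ q hq => ?_⟩
  rw [hf' K φ]
  congr 1
  exact PrimeSpectrum.ext hq.symm

theorem stmt_ChiExt_of_index (h : Stmt_ChiIndex.{u}) : Stmt_ChiExt.{u} := by
  intro k _ _ D K K' _ _ _ _ φ G
  obtain ⟨f, -, hf⟩ := h k D K G
  have h1 := hf K' φ ⟨⊥, Ideal.isPrime_bot⟩ (by
    ext x
    simp [RingHom.mem_ker])
  have h2 := hf K (AlgHom.id k K) ⟨⊥, Ideal.isPrime_bot⟩ (by
    ext x
    simp [RingHom.mem_ker])
  rw [h1, ← h2]
  exact helper743.equiv_chi_eq (helper743.baseChange_id G)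

theorem stmt_ChiLoc_of_index (h : Stmt_ChiIndex.{u}) : Stmt_ChiLoc.{u} := by
  intro k _ _ D B _ _ _ G
  obtain ⟨f, hf, hf'⟩ := h k D B G
  convert hf using 2 with q
  refine hf' _ _ q ?_
  ext x
  simp [RingHom.mem_ker]

section Dict

variable {k : Type u} [Field k] {C : Scheme.{u}} {c : C ⟶ Spec (CommRingCat.of k)}
  {ε : SchemeHomOver (𝟙 (Spec (CommRingCat.of k))) c} {D : CurveDatum k}

/-- A dictionary of Spec III is an abstract model system (for the trivial cut). -/
noncomputable def dictModelSystem (𝔇 : Dictionary c ε D) :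
    helper175.ModelSystem.{u + 1, u} c ε (SubPicCondition.top c ε) where
  Obj B _ _ := GlueDatum D B
  Equiv G G' := G.Equiv G'
  baseChange φ G := G.baseChange φ
  IsRig G := G.IsRig
  InCut _ := True
  Models B _ _ L G := 𝔇.Models B L G
  exists_model B _ _ L hL := 𝔇.exists_model B L hL
  exists_sheaf B _ _ G := 𝔇.exists_sheaf B G
  iso_iff B _ _ _ _ _ _ h h' := 𝔇.iso_iff B h h'
  models_baseChange φ _ _ h := 𝔇.models_baseChange φ h
  rig_iff B _ _ _ _ h := 𝔇.rig_iff B h
  cut_iff _ _ _ _ _ _ := Iff.rfl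

/-- **FAEZ ⟹ DegZero.** Under a dictionary, the model of a rigidified line bundle that is
fibrewise algebraically equivalent to zero has fibrewise degree zero. -/
theorem degZero_of_fibrewiseAlgEquivZero [IsAlgClosed k] (hext : Stmt_ChiExt.{u})
    (hloc : Stmt_ChiLoc.{u}) (𝔇 : Dictionary c ε D) {B : Type u} [CommRing B] [Algebra k B]
    (M : RigidifiedLineBundle c ε (specStr k B)) {G : GlueDatum D B} (hG : 𝔇.Models B M.L G)
    (hM : FibrewiseAlgEquivZero M) : G.DegZero := by
  intro K _ _ φ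
  exact ChiAlg.chi_baseChange_eq_of_fibrewiseAlgEquivZero (dictModelSystem 𝔇)
    (fun K _ _ G => G.chi)
    (fun K _ _ G G' h => helper743.equiv_chi_eq h)
    (fun K K' _ _ _ _ φ G => hext k D K K' φ G)
    (fun B _ _ _ G => hloc k D B G)
    M hG hM K φ (𝔇.models_unit K)

end Dict

/-- The direction `⟹` of `helper1705.Stmt_FAEZ`. -/
def Stmt_FAEZ_mp : Prop :=
  ∀ (k : Type u) [Field k] {C : Scheme.{u}} (c : C ⟶ Spec (CommRingCat.of k)) (_ : IsCurve k c)
    (ε : SchemeHomOver (𝟙 (Spec (CommRingCat.of k))) c) (D : CurveDatum k)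
    (_ : Realization c ε D) (𝔇 : Dictionary c ε D)
    (B : Type u) [CommRing B] [Algebra k B] (M : RigidifiedLineBundle c ε (specStr k B))
    (G : GlueDatum D B), 𝔇.Models B M.L G → FibrewiseAlgEquivZero M → G.DegZero

/-- The direction `⟸` of `helper1705.Stmt_FAEZ`. -/
def Stmt_FAEZ_mpr : Prop :=
  ∀ (k : Type u) [Field k] {C : Scheme.{u}} (c : C ⟶ Spec (CommRingCat.of k)) (_ : IsCurve k c)
    (ε : SchemeHomOver (𝟙 (Spec (CommRingCat.of k))) c) (D : CurveDatum k)
    (_ : Realization c ε D) (𝔇 : Dictionary c ε D)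
    (B : Type u) [CommRing B] [Algebra k B] (M : RigidifiedLineBundle c ε (specStr k B))
    (G : GlueDatum D B), 𝔇.Models B M.L G → G.DegZero → FibrewiseAlgEquivZero M

theorem stmt_FAEZ_mp_of (hext : Stmt_ChiExt.{u}) (hloc : Stmt_ChiLoc.{u}) : Stmt_FAEZ_mp.{u} := by
  intro k _ C c hc ε D _ 𝔇 B _ _ M G hG hM
  have := hc.algClosed
  exact degZero_of_fibrewiseAlgEquivZero hext hloc 𝔇 M hG hM

theorem stmt_FAEZ_mp_of_index (h : Stmt_ChiIndex.{u}) : Stmt_FAEZ_mp.{u} :=
  stmt_FAEZ_mp_of (stmt_ChiExt_of_index h) (stmt_ChiLoc_of_index h)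

theorem stmt_FAEZ_of_mp_mpr (h₁ : Stmt_FAEZ_mp.{u}) (h₂ : Stmt_FAEZ_mpr.{u}) :
    helper1705.Stmt_FAEZ.{u} := by
  intro k _ C c hc ε D hR 𝔇 B _ _ M G hG
  exact ⟨h₁ k c hc ε D hR 𝔇 B M G hG, h₂ k c hc ε D hR 𝔇 B M G hG⟩

/-- **Wiring of LG-FAEZ.** -/
theorem stmt_FAEZ_of (hext : Stmt_ChiExt.{u}) (hloc : Stmt_ChiLoc.{u})
    (hmpr : Stmt_FAEZ_mpr.{u}) : helper1705.Stmt_FAEZ.{u} :=
  stmt_FAEZ_of_mp_mpr (stmt_FAEZ_mp_of hext hloc) hmpr

theorem stmt_FAEZ_of_index (h : Stmt_ChiIndex.{u}) (hmpr : Stmt_FAEZ_mpr.{u}) :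
    helper1705.Stmt_FAEZ.{u} :=
  stmt_FAEZ_of (stmt_ChiExt_of_index h) (stmt_ChiLoc_of_index h) hmpr

/-- The direction `⟸` from the bounded family over a domain of finite type (`helper985`). -/
theorem stmt_FAEZ_mpr_of_boundedFT (hB : helper985.Stmt_AlgBoundedFT.{u}) :
    Stmt_FAEZ_mpr.{u} := by
  intro k _ C c hc ε D _ 𝔇 B _ _ M G hG hdeg
  exact helper985.stmt_FAEZ_mpr hB k c hc ε D 𝔇 B M G hG hdeg

theorem stmt_AlgBoundedFT_of_dom (h : helper505.Stmt_AlgBoundedDom.{u}) :
    helper985.Stmt_AlgBoundedFT.{u} := by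
  intro k _ _ D
  obtain ⟨B₀, i₁, i₂, i₃, i₄, G₀, hrig, hdeg, hall⟩ := h k D
  exact ⟨B₀, i₁, i₂, G₀, i₃, i₄, hrig, hdeg, hall⟩

/-- **`Stmt_FAEZ`** from the index form of the Euler characteristic and the bounded family. -/
theorem stmt_FAEZ_of_index_boundedFT (h : Stmt_ChiIndex.{u})
    (hB : helper985.Stmt_AlgBoundedFT.{u}) : helper1705.Stmt_FAEZ.{u} :=
  stmt_FAEZ_of_index h (stmt_FAEZ_mpr_of_boundedFT hB)

/-- **`Stmt_FAEZ`** from the index form of the Euler characteristic and the bounded family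
(captain's form of the bounded family). -/
theorem stmt_FAEZ_of_index_boundedDom (h : Stmt_ChiIndex.{u})
    (hB : helper505.Stmt_AlgBoundedDom.{u}) : helper1705.Stmt_FAEZ.{u} :=
  stmt_FAEZ_of_index_boundedFT h (stmt_AlgBoundedFT_of_dom hB)

/-- **`Stmt_FAEZ`** from the two chi statements and the bounded family. -/
theorem stmt_FAEZ_of_boundedDom (hext : Stmt_ChiExt.{u}) (hloc : Stmt_ChiLoc.{u})
    (hB : helper505.Stmt_AlgBoundedDom.{u}) : helper1705.Stmt_FAEZ.{u} :=
  stmt_FAEZ_of hext hloc (stmt_FAEZ_mpr_of_boundedFT (stmt_AlgBoundedFT_of_dom hB))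

/-- **`Stmt_FAEZ`** from the index form (subtype shape) and the bounded family. -/
theorem stmt_FAEZ_of_indexKer_boundedDom (h : Stmt_ChiIndexKer.{u})
    (hB : helper505.Stmt_AlgBoundedDom.{u}) : helper1705.Stmt_FAEZ.{u} :=
  stmt_FAEZ_of_index_boundedDom (stmt_ChiIndex_of_ker h) hB

end Fermat.Agent.S25.helper7810
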