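import Fermat.Agent.S25.helper239_GlueIndex
import Fermat.Agent.S25.helper7810_FAEZ
import Fermat.Agent.S25.helper5903_FAEZWiring
import Fermat.Agent.S25.helper7530_ValExistAlg

/-!
# S25, root `Stmt_ChiIndex` (helper239)

The closed Props of the `χ` chain of LG-FAEZ, proved from the index theorem
`helper239.chi_index` (`helper239_GlueIndex.lean`):

* `stmt_ChiIndexKer : helper7810.Stmt_ChiIndexKer`, `stmt_ChiIndex : helper7810.Stmt_ChiIndex`;
* `stmt_ChiExt : helper7810.Stmt_ChiExt`, `stmt_ChiLoc : helper7810.Stmt_ChiLoc`;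
* `stmt_ChiLocConst : helper5903.Stmt_ChiLocConst`;
* `chiLocConst D : helper7530.ChiLocConst D`, `chiConst D : helper7530.ChiConst D` (supplier of
  `helper7530.stmt_AlgValExistAC_of_chiConst`).
-/

set_option autoImplicit false

universe u

namespace Fermat.Agent.S25.helper239

open Fermat.Agent.S25.helper1705 Fermat.Agent.S25.helper2945

/-- **Root `Stmt_ChiIndexKer`**: `χ` of the fibre at a field valued point `φ` is a locally
constant function of `ker φ`. -/
theorem stmt_ChiIndexKer : helper7810.Stmt_ChiIndexKer.{u} := by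
  intro k _ _ D B _ _ G
  obtain ⟨f, hf, h⟩ := chi_index G
  exact ⟨f, hf, fun K _ _ φ => (h K φ).2.2⟩

/-- **Root `Stmt_ChiIndex`.** -/
theorem stmt_ChiIndex : helper7810.Stmt_ChiIndex.{u} :=
  helper7810.stmt_ChiIndex_of_ker stmt_ChiIndexKer

/-- `χ` is invariant under extension of the base field. -/
theorem stmt_ChiExt : helper7810.Stmt_ChiExt.{u} :=
  helper7810.stmt_ChiExt_of_index stmt_ChiIndex

/-- `q ↦ χ (G ⊗ κ(q))` is locally constant. -/
theorem stmt_ChiLoc : helper7810.Stmt_ChiLoc.{u} :=
  helper7810.stmt_ChiLoc_of_index stmt_ChiIndex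

/-- The form of the index theorem used by `helper5903_FAEZWiring`. -/
theorem stmt_ChiLocConst : helper5903.Stmt_ChiLocConst.{u} := by
  intro k _ _ D B _ _ _ G
  obtain ⟨f, hf, h⟩ := stmt_ChiIndex k D B G
  exact ⟨f, hf, fun K _ _ φ q hq => h K φ q hq⟩

section ValExist

variable {k : Type u} [Field k] [IsAlgClosed k] (D : CurveDatum k)

/-- Supplier Prop `helper7530.ChiLocConst` of LC4 (`helper7530_ValExistAlg`). -/
theorem chiLocConst : helper7530.ChiLocConst D := by
  intro B _ _ G
  obtain ⟨f, hf, h⟩ := chi_index G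
  exact ⟨f, hf, fun L _ _ φ => (h L φ).2.2⟩

/-- Supplier Prop `helper7530.ChiConst` of LC4: the fibrewise Euler characteristic of a glue
datum over a domain is constant. -/
theorem chiConst : helper7530.ChiConst D :=
  (chiLocConst D).chiConst

end ValExist

end Fermat.Agent.S25.helper239
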