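import Mathlib
import Fermat.Agent.S25.helper1705_Curve

/-!
# S25, leaf U1b: the constant in the `χ`-shift of the twist by `D∞` (helper1153)

For a curve datum `D` over a field `k` put `n := degInf D := dim_k (R₁ / y R₁)` (the degree of
`x : C → ℙ¹`, i.e. the degree of the divisor `D∞ = V(y)`).  We prove:

* `degInf_pos` : `0 < n`; `finrank_quot_y_pow` : `dim_k (R₁ / y ^ m) = m * n`;
* for every `k`-algebra `B` the ring `A₁ B / (y ⊗ 1) ^ m` is `B ⊗[k] (R₁ / y ^ m)`, hence finite
  free of rank `m * n` over `B`; for a finite projective `A₁ B`-module `M` the quotient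
  `M / (y ⊗ 1) ^ m M` is a finite projective `B`-module;
* for a field `K / k` and an invertible `A₁ K`-module `M`:
  `M / (y ⊗ 1) ^ m M ≃ A₁ K / (y ⊗ 1) ^ m` as `A₁ K`-modules, and
  `dim_K (M / (y ⊗ 1) ^ m M) = m * n`.

So `χ(G(m + 1)) = χ(G(m)) + n` with `n` independent of `G` and of `K`.

The first part is generic: a `k`-algebra `R` and `f : R` with `R / f` finite over `k`
(a relative effective Cartier divisor, finite over the base).

Only Mathlib and the curve datum are imported.
-/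

set_option autoImplicit false

universe u v

open scoped TensorProduct Pointwise nonZeroDivisors

namespace Fermat.Agent.S25.helper1153

open Fermat.Agent.S25.helper1705

/-! ## Generalities -/

/-- An invertible module modulo an element `r` with `A / r` semilocal is free of rank one
over `A / r`. -/
theorem nonempty_quotSMulTop_linearEquiv {A : Type u} [CommRing A] (r : A)
    [Finite (MaximalSpectrum (A ⧸ Ideal.span {r}))]
    (M : Type*) [AddCommGroup M] [Module A M] [Module.Invertible A M] :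
    Nonempty (QuotSMulTop r M ≃ₗ[A] A ⧸ Ideal.span {r}) := by
  have h2 : Module.Free (A ⧸ Ideal.span {r}) ((A ⧸ Ideal.span {r}) ⊗[A] M) := inferInstance
  obtain ⟨e⟩ := Module.Invertible.free_iff_linearEquiv.mp h2
  exact ⟨QuotSMulTop.equivQuotTensor r M ≪≫ₗ e.restrictScalars A⟩

/-- Projectivity is transitive along a free ring extension. -/
theorem projective_of_free_of_projective (B F M : Type*) [CommRing B] [CommRing F] [Algebra B F]
    [AddCommGroup M] [Module B M] [Module F M] [IsScalarTower B F M] [Module.Free B F]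
    [Module.Projective F M] : Module.Projective B M := by
  obtain ⟨s, hs⟩ := (Module.projective_def (R := F) (P := M)).mp inferInstance
  exact Module.Projective.of_split (M := M →₀ F) (s.restrictScalars B)
    ((Finsupp.linearCombination F (id : M → M)).restrictScalars B)
    (LinearMap.ext fun m => hs m)

/-- If `k[X] → R`, `X ↦ f`, is finite, then `R / f ^ m` is finite over `k`. -/
theorem finite_quot_pow_of_finite_aeval {k : Type*} [Field k] {R : Type*} [CommRing R]
    [Algebra k R] (f : R) (h : (Polynomial.aeval f : Polynomial k →ₐ[k] R).toRingHom.Finite)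
    (m : ℕ) : Module.Finite k (R ⧸ Ideal.span {f ^ m}) := by
  classical
  -- `φ : k[X] → R → R / f ^ m` is finite and kills `X ^ m`
  set φ : Polynomial k →+* R ⧸ Ideal.span {f ^ m} :=
    (Ideal.Quotient.mk (Ideal.span {f ^ m})).comp
      (Polynomial.aeval f : Polynomial k →ₐ[k] R).toRingHom with hφ
  have hφfin : φ.Finite :=
    RingHom.Finite.comp (RingHom.Finite.of_surjective _ Ideal.Quotient.mk_surjective) h
  have hker : ∀ a ∈ Ideal.span {(Polynomial.X : Polynomial k) ^ m}, φ a = 0 := by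
    intro a ha
    obtain ⟨b, rfl⟩ := Ideal.mem_span_singleton'.mp ha
    have : φ (Polynomial.X ^ m) = 0 := by
      simp [hφ]
    rw [map_mul, this, mul_zero]
  set ψ : (Polynomial k ⧸ Ideal.span {(Polynomial.X : Polynomial k) ^ m}) →+*
      R ⧸ Ideal.span {f ^ m} := Ideal.Quotient.lift _ φ hker with hψ
  have hψfin : ψ.Finite := by
    refine RingHom.Finite.of_comp_finite (f := Ideal.Quotient.mk _) ?_
    have : ψ.comp (Ideal.Quotient.mk _) = φ := by
      ext a <;> simp [hψ]
    rw [this]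
    exact hφfin
  have h0 : (algebraMap k (Polynomial k ⧸ Ideal.span {(Polynomial.X : Polynomial k) ^ m})).Finite :=
    RingHom.finite_algebraMap.mpr (Polynomial.monic_X_pow m).finite_quotient
  have hcomp : ψ.comp (algebraMap k _) = algebraMap k (R ⧸ Ideal.span {f ^ m}) := by
    ext a
    rw [RingHom.comp_apply, ← Ideal.Quotient.mk_algebraMap, hψ, Ideal.Quotient.lift_mk, hφ,
      RingHom.comp_apply, ← Ideal.Quotient.mk_algebraMap]
    simp
  rw [← RingHom.finite_algebraMap, ← hcomp]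
  exact RingHom.Finite.comp hψfin h0

/-- `dim_k (R / f ^ m) = m * dim_k (R / f)` for a non-zero-divisor `f`. -/
theorem finrank_quot_pow {k : Type*} [Field k] {R : Type*} [CommRing R] [Algebra k R] (f : R)
    (hf : f ∈ R⁰) (hfin : ∀ m : ℕ, Module.Finite k (R ⧸ Ideal.span {f ^ m})) (m : ℕ) :
    Module.finrank k (R ⧸ Ideal.span {f ^ m}) = m * Module.finrank k (R ⧸ Ideal.span {f}) := by
  induction m with
  | zero =>
    have : Subsingleton (R ⧸ Ideal.span {f ^ 0}) := by
      rw [pow_zero, Ideal.span_singleton_one]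
      exact Ideal.Quotient.subsingleton_iff.mpr rfl
    simp [Module.finrank_zero_of_subsingleton]
  | succ m ih =>
    have hle : Ideal.span {f ^ (m + 1)} ≤ Ideal.span {f} := by
      rw [Ideal.span_singleton_le_span_singleton]
      exact Dvd.intro_left (f ^ m) (pow_succ f m).symm
    let π : (R ⧸ Ideal.span {f ^ (m + 1)}) →ₗ[k] R ⧸ Ideal.span {f} :=
      (Ideal.Quotient.factorₐ k hle).toLinearMap
    have hπ : Function.Surjective π := Ideal.Quotient.factor_surjective hle
    have hmap : Ideal.span {f ^ m} ≤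
        Submodule.comap (LinearMap.mulLeft R f) (Ideal.span {f ^ (m + 1)}) := by
      intro a ha
      obtain ⟨b, rfl⟩ := Ideal.mem_span_singleton'.mp ha
      exact Ideal.mem_span_singleton'.mpr ⟨b, by simp only [LinearMap.mulLeft_apply]; ring⟩
    let μ : (R ⧸ Ideal.span {f ^ m}) →ₗ[k] R ⧸ Ideal.span {f ^ (m + 1)} :=
      (Submodule.mapQ (Ideal.span {f ^ m}) (Ideal.span {f ^ (m + 1)})
        (LinearMap.mulLeft R f) hmap).restrictScalars k
    have hμ : ∀ a : R, μ (Ideal.Quotient.mk _ a) = Ideal.Quotient.mk _ (f * a) := fun a => rfl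
    have hπmk : ∀ a : R, π (Ideal.Quotient.mk _ a) = Ideal.Quotient.mk _ a := fun a => rfl
    have hμinj : Function.Injective μ := by
      rw [← LinearMap.ker_eq_bot, LinearMap.ker_eq_bot']
      intro q hq
      obtain ⟨a, rfl⟩ := Ideal.Quotient.mk_surjective q
      rw [hμ] at hq
      have h1 : f * a ∈ Ideal.span {f ^ (m + 1)} := Ideal.Quotient.eq_zero_iff_mem.mp hq
      obtain ⟨b, hb⟩ := Ideal.mem_span_singleton'.mp h1
      have h2 : f * a = f * (b * f ^ m) := by rw [← hb]; ring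
      have h3 : a = b * f ^ m := (mul_cancel_left_mem_nonZeroDivisors hf).mp h2
      exact Ideal.Quotient.eq_zero_iff_mem.mpr (Ideal.mem_span_singleton'.mpr ⟨b, h3.symm⟩)
    have hrange : LinearMap.range μ = LinearMap.ker π := by
      ext q
      obtain ⟨a, rfl⟩ := Ideal.Quotient.mk_surjective q
      constructor
      · rintro ⟨q', hq'⟩
        obtain ⟨a', rfl⟩ := Ideal.Quotient.mk_surjective q'
        rw [LinearMap.mem_ker, ← hq', hμ, hπmk]
        exact Ideal.Quotient.eq_zero_iff_mem.mpr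
          (Ideal.mem_span_singleton'.mpr ⟨a', mul_comm _ _⟩)
      · intro hq
        rw [LinearMap.mem_ker, hπmk] at hq
        have h1 : a ∈ Ideal.span {f} := Ideal.Quotient.eq_zero_iff_mem.mp hq
        obtain ⟨b, rfl⟩ := Ideal.mem_span_singleton'.mp h1
        exact ⟨Ideal.Quotient.mk _ b, by rw [hμ, mul_comm]⟩
    have := hfin (m + 1)
    have h1 := LinearMap.finrank_range_add_finrank_ker π
    rw [LinearMap.range_eq_top.mpr hπ, finrank_top, ← hrange,
      ← (LinearEquiv.ofInjective μ hμinj).finrank_eq, ih] at h1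
    rw [← h1]
    ring

/-! ## Generic base change: `R` a `k`-algebra, `f : R`, `B` a `k`-algebra -/

section Generic

variable (k : Type u) [Field k] (R : Type u) [CommRing R] [Algebra k R] (f : R)

section BaseChange

variable (B : Type u) [CommRing B] [Algebra k B]

theorem span_tmul_one :
    Ideal.span {f ⊗ₜ[k] (1 : B)} = (Ideal.span {f}).map (algebraMap R (R ⊗[k] B)) := by
  rw [Ideal.map_span, Set.image_singleton]
  rfl

/-- `(R ⊗[k] B) / (f ⊗ 1) = B ⊗[k] (R / f)` as rings. -/
noncomputable def quotTmulEquiv :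
    (R ⊗[k] B ⧸ Ideal.span {f ⊗ₜ[k] (1 : B)}) ≃+* B ⊗[k] (R ⧸ Ideal.span {f}) :=
  (Ideal.quotEquivOfEq (span_tmul_one k R f B)).trans <|
    (Algebra.TensorProduct.quotientTensorEquiv (R := k) k B R
      (Ideal.span {f})).symm.toRingEquiv.trans
      (Algebra.TensorProduct.comm k _ B).toRingEquiv

theorem quotTmulEquiv_mk_tmul (r : R) (b : B) :
    quotTmulEquiv k R f B (Ideal.Quotient.mk _ (r ⊗ₜ[k] b)) = b ⊗ₜ[k] Ideal.Quotient.mk _ r :=
  rfl

/-- If `f` is a non-zero-divisor of `R` then `f ⊗ 1` is a non-zero-divisor of `R ⊗[k] B`. -/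
theorem tmul_one_mem_nonZeroDivisors (hf : f ∈ R⁰) : f ⊗ₜ[k] (1 : B) ∈ (R ⊗[k] B)⁰ := by
  have h := Module.Flat.isSMulRegular_of_nonZeroDivisors (M := R ⊗[k] B) hf
  refine mem_nonZeroDivisors_iff_right.mpr fun a ha => ?_
  apply h
  have e : f • a = a * f ⊗ₜ[k] (1 : B) := by
    rw [Algebra.smul_def, mul_comm]
    rfl
  simp only [e, ha, smul_zero]

/-! `B` acts on `R ⊗[k] B` through the right factor (Mathlib's
`Algebra.TensorProduct.rightAlgebra`, a local instance here as in Mathlib). -/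

attribute [local instance] Algebra.TensorProduct.rightAlgebra

/-- `(R ⊗[k] B) / (f ⊗ 1) = B ⊗[k] (R / f)` as `B`-algebras. -/
noncomputable def quotTmulAlgEquiv :
    (R ⊗[k] B ⧸ Ideal.span {f ⊗ₜ[k] (1 : B)}) ≃ₐ[B] B ⊗[k] (R ⧸ Ideal.span {f}) :=
  AlgEquiv.ofRingEquiv (f := quotTmulEquiv k R f B) fun b => by
    rw [Algebra.TensorProduct.algebraMap_apply]
    exact quotTmulEquiv_mk_tmul k R f B 1 b

/-- `(R ⊗[k] B) / (f ⊗ 1)` is a free `B`-module. -/
instance free_quot_tmul : Module.Free B (R ⊗[k] B ⧸ Ideal.span {f ⊗ₜ[k] (1 : B)}) :=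
  Module.Free.of_equiv (quotTmulAlgEquiv k R f B).symm.toLinearEquiv

/-- `(R ⊗[k] B) / (f ⊗ 1)` is a finite `B`-module if `R / f` is finite over `k`. -/
instance finite_quot_tmul [Module.Finite k (R ⧸ Ideal.span {f})] :
    Module.Finite B (R ⊗[k] B ⧸ Ideal.span {f ⊗ₜ[k] (1 : B)}) :=
  Module.Finite.equiv (quotTmulAlgEquiv k R f B).symm.toLinearEquiv

/-- `(R ⊗[k] B) / (f ⊗ 1)` has rank `dim_k (R / f)` over `B`. -/
theorem finrank_quot_tmul [Nontrivial B] :
    Module.finrank B (R ⊗[k] B ⧸ Ideal.span {f ⊗ₜ[k] (1 : B)}) =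
      Module.finrank k (R ⧸ Ideal.span {f}) := by
  rw [(quotTmulAlgEquiv k R f B).toLinearEquiv.finrank_eq, Module.finrank_baseChange]

variable (M : Type v) [AddCommGroup M] [Module (R ⊗[k] B) M] [Module B M]
  [IsScalarTower B (R ⊗[k] B) M]

/-- For a projective `R ⊗[k] B`-module `M`, the quotient `M / (f ⊗ 1) M` is projective
over `B`. -/
theorem projective_quotSMulTop_tmul [Module.Projective (R ⊗[k] B) M] :
    Module.Projective B (QuotSMulTop (f ⊗ₜ[k] (1 : B)) M) := by
  have h1 : Module.Projective B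
      ((R ⊗[k] B ⧸ Ideal.span {f ⊗ₜ[k] (1 : B)}) ⊗[R ⊗[k] B] M) :=
    projective_of_free_of_projective B (R ⊗[k] B ⧸ Ideal.span {f ⊗ₜ[k] (1 : B)}) _
  exact Module.Projective.of_equiv
    ((QuotSMulTop.equivQuotTensor (f ⊗ₜ[k] (1 : B)) M).restrictScalars B).symm

/-- For a finite `R ⊗[k] B`-module `M`, the quotient `M / (f ⊗ 1) M` is finite over `B`
if `R / f` is finite over `k`. -/
theorem finite_quotSMulTop_tmul [Module.Finite k (R ⧸ Ideal.span {f})]
    [Module.Finite (R ⊗[k] B) M] : Module.Finite B (QuotSMulTop (f ⊗ₜ[k] (1 : B)) M) := by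
  have h1 : Module.Finite B
      ((R ⊗[k] B ⧸ Ideal.span {f ⊗ₜ[k] (1 : B)}) ⊗[R ⊗[k] B] M) :=
    Module.Finite.trans (R ⊗[k] B ⧸ Ideal.span {f ⊗ₜ[k] (1 : B)}) _
  exact Module.Finite.equiv
    ((QuotSMulTop.equivQuotTensor (f ⊗ₜ[k] (1 : B)) M).restrictScalars B).symm

end BaseChange

/-! ### The field case -/

section Field

variable (K : Type u) [Field K] [Algebra k K] [Module.Finite k (R ⧸ Ideal.span {f})]

attribute [local instance] Algebra.TensorProduct.rightAlgebra

/-- `(R ⊗[k] K) / (f ⊗ 1)` is an artinian ring when `R / f` is finite over `k`. -/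
instance isArtinianRing_quot_tmul :
    IsArtinianRing (R ⊗[k] K ⧸ Ideal.span {f ⊗ₜ[k] (1 : K)}) :=
  IsArtinianRing.of_finite K _

variable (M : Type v) [AddCommGroup M] [Module (R ⊗[k] K) M] [Module.Invertible (R ⊗[k] K) M]

/-- STRUCTURE-AGNOSTIC FORM. For an invertible module `M` over `R ⊗[k] K`, `K` a field,
`M / (f ⊗ 1) M` is free of rank one over `(R ⊗[k] K) / (f ⊗ 1)`. -/
theorem nonempty_quotSMulTop_tmul_linearEquiv :
    Nonempty (QuotSMulTop (f ⊗ₜ[k] (1 : K)) M ≃ₗ[R ⊗[k] K]
      R ⊗[k] K ⧸ Ideal.span {f ⊗ₜ[k] (1 : K)}) :=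
  nonempty_quotSMulTop_linearEquiv _ M

/-- FINRANK FORM. `dim_K (M / (f ⊗ 1) M) = dim_k (R / f)` for `M` invertible over
`R ⊗[k] K`. -/
theorem finrank_quotSMulTop_tmul [Module K M] [IsScalarTower K (R ⊗[k] K) M] :
    Module.finrank K (QuotSMulTop (f ⊗ₜ[k] (1 : K)) M) =
      Module.finrank k (R ⧸ Ideal.span {f}) := by
  obtain ⟨e⟩ := nonempty_quotSMulTop_tmul_linearEquiv k R f K M
  rw [(e.restrictScalars K).finrank_eq, finrank_quot_tmul]

/-- SEMILINEAR FORM (no `K`-module structure on `M` needed): an additive isomorphism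
`M / (f ⊗ 1) M ≃ K ^ n`, `n = dim_k (R / f)`, under which `1 ⊗ c` acts as `c`. -/
theorem exists_addEquiv_quotSMulTop_tmul :
    ∃ e : QuotSMulTop (f ⊗ₜ[k] (1 : K)) M ≃+ (Fin (Module.finrank k (R ⧸ Ideal.span {f})) → K),
      ∀ (c : K) (q : QuotSMulTop (f ⊗ₜ[k] (1 : K)) M),
        e (((1 : R) ⊗ₜ[k] c) • q) = c • e q := by
  let _ : Module K M := Module.compHom M (algebraMap K (R ⊗[k] K))
  have : IsScalarTower K (R ⊗[k] K) M := ⟨fun c a m => by
    change (c • a) • m = (algebraMap K (R ⊗[k] K) c) • (a • m)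
    rw [Algebra.smul_def, mul_smul]⟩
  have hfr := finrank_quotSMulTop_tmul k R f K M
  have hfin : Module.Finite K (QuotSMulTop (f ⊗ₜ[k] (1 : K)) M) :=
    finite_quotSMulTop_tmul k R f K M
  let b := Module.finBasisOfFinrankEq K _ hfr
  refine ⟨b.equivFun.toAddEquiv, fun c q => ?_⟩
  have h : ((1 : R) ⊗ₜ[k] c) • q = c • q := by
    induction q using Submodule.Quotient.induction_on with
    | H m => rfl
  rw [h]
  exact b.equivFun.map_smul c q

/-- LATTICE FORM. If `r : M → N` is an injective `K`-linear map then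
`r(M) / r((f ⊗ 1) M)` has `K`-dimension `dim_k (R / f)`. -/
theorem finrank_range_quot_tmul [Module K M] [IsScalarTower K (R ⊗[k] K) M]
    {N : Type*} [AddCommGroup N] [Module K N] (r : M →ₗ[K] N) (hr : Function.Injective r) :
    Module.finrank K (↥(LinearMap.range r) ⧸ Submodule.comap (LinearMap.range r).subtype
      (Submodule.map r (((f ⊗ₜ[k] (1 : K)) • (⊤ : Submodule (R ⊗[k] K) M)).restrictScalars K))) =
      Module.finrank k (R ⧸ Ideal.span {f}) := by
  rw [← finrank_quotSMulTop_tmul k R f K M]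
  set P : Submodule K M :=
    ((f ⊗ₜ[k] (1 : K)) • (⊤ : Submodule (R ⊗[k] K) M)).restrictScalars K with hP
  have e1 : (M ⧸ P) ≃ₗ[K] QuotSMulTop (f ⊗ₜ[k] (1 : K)) M :=
    Submodule.Quotient.restrictScalarsEquiv K _
  have e2 : (M ⧸ P) ≃ₗ[K] (↥(LinearMap.range r) ⧸
      Submodule.comap (LinearMap.range r).subtype (Submodule.map r P)) := by
    refine Submodule.Quotient.equiv P _ (LinearEquiv.ofInjective r hr) ?_
    ext ⟨n, hn⟩
    simp only [Submodule.mem_map, Submodule.mem_comap, Submodule.subtype_apply]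
    constructor
    · rintro ⟨m, hm, hmn⟩
      exact ⟨m, hm, congrArg Subtype.val hmn⟩
    · rintro ⟨m, hm, hmn⟩
      exact ⟨m, hm, Subtype.ext hmn⟩
  rw [← e2.finrank_eq, e1.finrank_eq]

end Field

end Generic

/-! ## The curve datum: the divisor at infinity -/

variable {k : Type u} [Field k] (D : CurveDatum k)

/-- `R₁ / y ^ m` is finite-dimensional over `k`. -/
instance finite_quot_y_pow (m : ℕ) : Module.Finite k (D.R₁ ⧸ Ideal.span {D.y ^ m}) :=
  finite_quot_pow_of_finite_aeval D.y D.finite₁ m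

/-- `R₁ / y` is finite-dimensional over `k`. -/
instance finite_quot_y : Module.Finite k (D.R₁ ⧸ Ideal.span {D.y}) := by
  have h := finite_quot_y_pow D 1
  rwa [pow_one] at h

/-- `R₀ / x ^ m` is finite-dimensional over `k`. -/
instance finite_quot_x_pow (m : ℕ) : Module.Finite k (D.R₀ ⧸ Ideal.span {D.x ^ m}) :=
  finite_quot_pow_of_finite_aeval D.x D.finite₀ m

/-- `R₀ / x` is finite-dimensional over `k`. -/
instance finite_quot_x : Module.Finite k (D.R₀ ⧸ Ideal.span {D.x}) := by
  have h := finite_quot_x_pow D 1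
  rwa [pow_one] at h

/-- `R₁ / y` is not the zero ring: the point `ε` lies on `V(y)`. -/
instance nontrivial_quot_y : Nontrivial (D.R₁ ⧸ Ideal.span {D.y}) := by
  rw [Ideal.Quotient.nontrivial_iff]
  intro h
  have h1 : (1 : D.R₁) ∈ Ideal.span {D.y} := h ▸ Submodule.mem_top
  obtain ⟨a, ha⟩ := Ideal.mem_span_singleton'.mp h1
  have := congrArg D.e ha
  simp [D.ey] at this

/-- The degree of the divisor at infinity `D∞ = V(y)`, i.e. the degree of `x : C → ℙ¹`. -/
noncomputable def degInf : ℕ := Module.finrank k (D.R₁ ⧸ Ideal.span {D.y})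

theorem degInf_pos : 0 < degInf D := Module.finrank_pos

/-- `y ≠ 0` in `R₁` (otherwise `R₁ = k`, which has no invertible module of differentials). -/
theorem y_ne_zero : D.y ≠ 0 := by
  intro hy
  have hfin : Module.Finite k D.R₁ := by
    rw [← RingHom.finite_algebraMap]
    refine RingHom.Finite.of_comp_finite (f := Polynomial.constantCoeff) ?_
    have h : (algebraMap k D.R₁).comp Polynomial.constantCoeff =
        (Polynomial.aeval D.y : Polynomial k →ₐ[k] D.R₁).toRingHom := by
      refine Polynomial.ringHom_ext (fun a => by simp) (by simp [hy])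
    rw [h]
    exact D.finite₁
  have hfield : IsField D.R₁ :=
    isField_of_isIntegral_of_isField' (R := k) (Field.toIsField k)
  have hinj : Function.Injective D.e := by
    let _ := hfield.toField
    exact D.e.toRingHom.injective
  have hsurj : Function.Surjective (algebraMap k D.R₁) := fun r => ⟨D.e r, hinj (by simp)⟩
  have hsub : Subsingleton (Ω[D.R₁⁄k]) :=
    KaehlerDifferential.subsingleton_of_surjective k D.R₁ hsurj
  have h10 : (1 : D.R₁) = 0 :=
    FaithfulSMul.eq_of_smul_eq_smul (α := Ω[D.R₁⁄k]) fun m => Subsingleton.elim _ _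
  exact one_ne_zero h10

/-- `x ≠ 0` in `R₀`. -/
theorem x_ne_zero : D.x ≠ 0 := by
  intro hx
  have h := D.xy
  rw [hx, map_zero, zero_mul] at h
  have hsub : Subsingleton D.R₀₁ := subsingleton_of_zero_eq_one h
  have h0 : algebraMap D.R₁ D.R₀₁ (D.y * 1) = algebraMap D.R₁ D.R₀₁ (D.y * 0) :=
    Subsingleton.elim _ _
  obtain ⟨⟨_, n, rfl⟩, hn⟩ := (IsLocalization.eq_iff_exists (Submonoid.powers D.y) D.R₀₁).mp h0
  simp only [mul_one, mul_zero] at hn
  exact y_ne_zero D (pow_eq_zero_iff (n := n + 1) (by omega) |>.mp (by rw [pow_succ]; exact hn))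

theorem y_mem_nonZeroDivisors : D.y ∈ (D.R₁)⁰ := mem_nonZeroDivisors_of_ne_zero (y_ne_zero D)

theorem x_mem_nonZeroDivisors : D.x ∈ (D.R₀)⁰ := mem_nonZeroDivisors_of_ne_zero (x_ne_zero D)

/-- `dim_k (R₁ / y ^ m) = m * degInf D`. -/
theorem finrank_quot_y_pow (m : ℕ) :
    Module.finrank k (D.R₁ ⧸ Ideal.span {D.y ^ m}) = m * degInf D :=
  finrank_quot_pow D.y (y_mem_nonZeroDivisors D) (finite_quot_y_pow D) m

/-! ### Base change to a `k`-algebra `B` -/

section BaseChange

variable (B : Type u) [CommRing B] [Algebra k B]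

/-- The function `y ⊗ 1` on the chart at infinity of `C ×ₖ Spec B`. -/
noncomputable abbrev yB : D.A₁ B := D.y ⊗ₜ[k] (1 : B)

theorem yB_pow (m : ℕ) : yB D B ^ m = (D.y ^ m) ⊗ₜ[k] (1 : B) := by
  simp [Algebra.TensorProduct.tmul_pow]

/-- `y ⊗ 1` is a non-zero-divisor of `A₁ B`. -/
theorem yB_mem_nonZeroDivisors : yB D B ∈ (D.A₁ B)⁰ :=
  tmul_one_mem_nonZeroDivisors k D.R₁ D.y B (y_mem_nonZeroDivisors D)

/-- `y ⊗ 1` acts injectively on every flat (e.g. invertible) `A₁ B`-module. -/
theorem yB_isSMulRegular (M : Type*) [AddCommGroup M] [Module (D.A₁ B) M]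
    [Module.Flat (D.A₁ B) M] : IsSMulRegular M (yB D B) :=
  Module.Flat.isSMulRegular_of_nonZeroDivisors (yB_mem_nonZeroDivisors D B)

attribute [local instance] Algebra.TensorProduct.rightAlgebra

/-- `A₁ B / (y ⊗ 1) ^ m` is a free `B`-module. -/
instance free_quot_yB_pow (m : ℕ) : Module.Free B (D.A₁ B ⧸ Ideal.span {yB D B ^ m}) := by
  rw [yB_pow]
  infer_instance

/-- `A₁ B / (y ⊗ 1) ^ m` is a finite `B`-module. -/
instance finite_quot_yB_pow (m : ℕ) : Module.Finite B (D.A₁ B ⧸ Ideal.span {yB D B ^ m}) := by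
  rw [yB_pow]
  infer_instance

/-- `A₁ B / (y ⊗ 1) ^ m` has rank `m * degInf D` over `B`. -/
theorem finrank_quot_yB_pow [Nontrivial B] (m : ℕ) :
    Module.finrank B (D.A₁ B ⧸ Ideal.span {yB D B ^ m}) = m * degInf D := by
  rw [yB_pow, finrank_quot_tmul, finrank_quot_y_pow]

variable (M : Type v) [AddCommGroup M] [Module (D.A₁ B) M] [Module B M]
  [IsScalarTower B (D.A₁ B) M]

/-- For a projective `A₁ B`-module `M` (e.g. invertible), `M / (y ⊗ 1) ^ m M` is a projective
`B`-module. -/
theorem projective_quot_yB_pow_smul [Module.Projective (D.A₁ B) M] (m : ℕ) :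
    Module.Projective B (QuotSMulTop (yB D B ^ m) M) := by
  rw [yB_pow]
  exact projective_quotSMulTop_tmul k D.R₁ (D.y ^ m) B M

/-- For a finite `A₁ B`-module `M` (e.g. invertible), `M / (y ⊗ 1) ^ m M` is a finite
`B`-module. -/
theorem finite_quot_yB_pow_smul [Module.Finite (D.A₁ B) M] (m : ℕ) :
    Module.Finite B (QuotSMulTop (yB D B ^ m) M) := by
  rw [yB_pow]
  exact finite_quotSMulTop_tmul k D.R₁ (D.y ^ m) B M

end BaseChange

/-! ### The field case: the constant of the `χ`-shift -/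

section Field

variable (K : Type u) [Field K] [Algebra k K]

attribute [local instance] Algebra.TensorProduct.rightAlgebra

variable (M : Type v) [AddCommGroup M] [Module (D.A₁ K) M] [Module.Invertible (D.A₁ K) M]

/-- STRUCTURE-AGNOSTIC FORM. For an invertible module `M` over `A₁ K = R₁ ⊗[k] K`, `K` a field,
`M / (y ⊗ 1) ^ m M` is free of rank one over `A₁ K / (y ⊗ 1) ^ m`. -/
theorem nonempty_quot_yB_pow_linearEquiv (m : ℕ) :
    Nonempty (QuotSMulTop (yB D K ^ m) M ≃ₗ[D.A₁ K] D.A₁ K ⧸ Ideal.span {yB D K ^ m}) := by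
  rw [yB_pow]
  exact nonempty_quotSMulTop_tmul_linearEquiv k D.R₁ (D.y ^ m) K M

/-- STRUCTURE-AGNOSTIC FORM, `m = 1`. -/
theorem nonempty_quot_yB_linearEquiv :
    Nonempty (QuotSMulTop (yB D K) M ≃ₗ[D.A₁ K] D.A₁ K ⧸ Ideal.span {yB D K}) :=
  nonempty_quotSMulTop_tmul_linearEquiv k D.R₁ D.y K M

/-- SEMILINEAR FORM (no `K`-module structure on `M` needed): an additive isomorphism
`M / (y ⊗ 1) M ≃ K ^ n`, `n = degInf D`, under which `1 ⊗ c` acts as `c`. -/
theorem exists_addEquiv_quot_yB_smul :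
    ∃ e : QuotSMulTop (yB D K) M ≃+ (Fin (degInf D) → K),
      ∀ (c : K) (q : QuotSMulTop (yB D K) M), e (((1 : D.R₁) ⊗ₜ[k] c) • q) = c • e q :=
  exists_addEquiv_quotSMulTop_tmul k D.R₁ D.y K M

variable [Module K M] [IsScalarTower K (D.A₁ K) M]

/-- FINRANK FORM. For an invertible module `M` over `A₁ K`, `K` a field:
`dim_K (M / (y ⊗ 1) ^ m M) = m * degInf D`. -/
theorem finrank_quot_yB_pow_smul (m : ℕ) :
    Module.finrank K (QuotSMulTop (yB D K ^ m) M) = m * degInf D := by
  rw [yB_pow, finrank_quotSMulTop_tmul, finrank_quot_y_pow]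

/-- THE CONSTANT OF THE `χ`-SHIFT. For an invertible module `M` over `A₁ K`, `K` a field:
`dim_K (M / (y ⊗ 1) M) = degInf D`. -/
theorem finrank_quot_yB_smul : Module.finrank K (QuotSMulTop (yB D K) M) = degInf D :=
  finrank_quotSMulTop_tmul k D.R₁ D.y K M

/-- `M / (y ⊗ 1) ^ m M` is finite-dimensional over `K`. -/
theorem finite_quot_yB_pow_smul_field (m : ℕ) :
    Module.Finite K (QuotSMulTop (yB D K ^ m) M) :=
  finite_quot_yB_pow_smul D K M m

/-- LATTICE FORM. If `r : M → N` is an injective `K`-linear map (e.g. the restriction map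
`M₁ → M₀₁` of a glue datum) then `r(M) / r((y ⊗ 1) M)` has `K`-dimension `degInf D`. -/
theorem finrank_range_quot_yB {N : Type*} [AddCommGroup N] [Module K N] (r : M →ₗ[K] N)
    (hr : Function.Injective r) :
    Module.finrank K (↥(LinearMap.range r) ⧸ Submodule.comap (LinearMap.range r).subtype
      (Submodule.map r ((yB D K • (⊤ : Submodule (D.A₁ K) M)).restrictScalars K))) =
      degInf D :=
  finrank_range_quot_tmul k D.R₁ D.y K M r hr

end Field

end Fermat.Agent.S25.helper1153
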