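import Mathlib

/-!
# S25, leaf U1 (twist by `m · D∞`): def-agnostic cores (helper3115)

Mathlib-only, statement-agnostic.  Three cores used by the twist `G ↦ G(m · D∞)` of a two-chart
line bundle (rescale the gluing by `x ^ m`):

* `finrank_quotient_smul_top_eq` : THE CONSTANT of the `χ`-shift.  An invertible module `M` over a
  `K`-algebra `S` satisfies `finrank_K (M ⧸ I • ⊤) = finrank_K (S ⧸ I)` for every ideal `I` of
  finite codimension (so `finrank_K (M₁ ⧸ y M₁)` does not depend on the line bundle).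
* `index_comp_injective`, `index_family` : the `χ`-SHIFT ENGINE in complex form.  If
  `d = d' ∘ ι` with `ι` injective of finite-dimensional cokernel, then `d`, `d'` have
  finite-dimensional cohomology simultaneously and `index d' = index d + finrank (coker ι)`;
  for a family `d m = d (m + 1) ∘ ι` (the differentials of the twists, `ι = id × y`) the index
  is `index (d m₀) + (m - m₀) * finrank (coker ι)`.
* `sup_map_zpow_eq_top` : SERRE VANISHING in lattice form, `Λ₀ + Tᵐ Λ₁ = N` for `m ≥ n₀` with an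
  explicit `n₀` depending only on a generating family (hence stable under base change).
-/

set_option autoImplicit false

open scoped TensorProduct
open Module LinearMap

namespace Fermat.Agent.S25.helper3115

section Constant

variable (K : Type*) [Field K] (S : Type*) [CommRing S] [Algebra K S]
  (M : Type*) [AddCommGroup M] [Module S M] [Module K M] [IsScalarTower K S M]

/-- THE CONSTANT of the `χ`-shift: an invertible module `M` over a `K`-algebra `S` has the same
`K`-dimension modulo an ideal `I` of finite codimension as `S` itself. -/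
theorem finrank_quotient_smul_top_eq [Module.Invertible S M] (I : Ideal S)
    [Module.Finite K (S ⧸ I)] :
    Module.finrank K (M ⧸ (I • ⊤ : Submodule S M)) = Module.finrank K (S ⧸ I) := by
  have hart : IsArtinianRing (S ⧸ I) := IsArtinianRing.of_finite K (S ⧸ I)
  have hfree : Module.Free (S ⧸ I) ((S ⧸ I) ⊗[S] M) := inferInstance
  obtain ⟨e₂⟩ := Module.Invertible.free_iff_linearEquiv.mp hfree
  have e₁ : ((S ⧸ I) ⊗[S] M) ≃ₗ[S] M ⧸ (I • ⊤ : Submodule S M) :=
    TensorProduct.quotTensorEquivQuotSMul M I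
  rw [← (e₁.restrictScalars K).finrank_eq, (e₂.restrictScalars K).finrank_eq]

end Constant

section Index

variable {K : Type*} [Field K]

/-- A space with finite-dimensional kernel and range of a linear map is finite-dimensional, with
the expected dimension. -/
theorem finrank_of_ker_range {A B : Type*} [AddCommGroup A] [Module K A] [AddCommGroup B]
    [Module K B] (f : A →ₗ[K] B) (hk : FiniteDimensional K (ker f))
    (hr : FiniteDimensional K (range f)) :
    FiniteDimensional K A ∧ finrank K A = finrank K (ker f) + finrank K (range f) := by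
  have hq : Module.Finite K (A ⧸ ker f) := Module.Finite.equiv f.quotKerEquivRange.symm
  have hA : FiniteDimensional K A := Module.Finite.of_submodule_quotient (ker f)
  exact ⟨hA, by rw [add_comm]; exact (f.finrank_range_add_finrank_ker).symm⟩

variable {E E' F : Type*} [AddCommGroup E] [Module K E] [AddCommGroup E'] [Module K E']
  [AddCommGroup F] [Module K F]

/-- Finite-dimensional cohomology of a two-term complex `d : E → F`. -/
def FinCoh (d : E →ₗ[K] F) : Prop :=
  FiniteDimensional K (ker d) ∧ FiniteDimensional K (F ⧸ range d)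

/-- The Euler characteristic (index) `dim ker d - dim coker d` of a two-term complex. -/
noncomputable def index (d : E →ₗ[K] F) : ℤ :=
  (finrank K (ker d) : ℤ) - finrank K (F ⧸ range d)

/-- `χ`-SHIFT ENGINE. If `ι : E → E'` is injective with finite-dimensional cokernel, then
`d' ∘ ι` and `d'` have finite-dimensional cohomology simultaneously, and
`index d' = index (d' ∘ ι) + dim coker ι`. -/
theorem index_comp_injective (ι : E →ₗ[K] E') (hι : Function.Injective ι) (d' : E' →ₗ[K] F)
    (hc : FiniteDimensional K (E' ⧸ range ι)) :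
    (FinCoh (d' ∘ₗ ι) ↔ FinCoh d') ∧
      (FinCoh d' → index d' = index (d' ∘ₗ ι) + finrank K (E' ⧸ range ι)) := by
  classical
  set d := d' ∘ₗ ι with hd
  have hdι : ∀ e, d e = d' (ι e) := fun _ => rfl
  let b : ker d' →ₗ[K] E' ⧸ range ι := (range ι).mkQ ∘ₗ (ker d').subtype
  have bmk : ∀ w : ker d', b w = Submodule.Quotient.mk (w : E') := fun _ => rfl
  have hle : range ι ≤ ker ((range d).mkQ ∘ₗ d') := by
    rintro _ ⟨e, rfl⟩
    simp only [mem_ker, coe_comp, Function.comp_apply, Submodule.mkQ_apply,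
      Submodule.Quotient.mk_eq_zero]
    exact ⟨e, rfl⟩
  let c : E' ⧸ range ι →ₗ[K] F ⧸ range d := (range ι).liftQ ((range d).mkQ ∘ₗ d') hle
  have cmk : ∀ e' : E', c (Submodule.Quotient.mk e') = Submodule.Quotient.mk (d' e') :=
    fun _ => rfl
  have hdd : range d ≤ range d' := by
    rintro _ ⟨e, rfl⟩; exact ⟨ι e, rfl⟩
  let h : F ⧸ range d →ₗ[K] F ⧸ range d' := Submodule.factor hdd
  have hmk : ∀ f : F, h (Submodule.Quotient.mk f) = Submodule.Quotient.mk f := fun _ => rfl
  -- (F1) `ker b ≃ ker d`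
  have hmap : (ker b).map (ker d').subtype = (ker d).map ι := by
    ext z
    simp only [Submodule.mem_map, mem_ker, Subtype.exists, bmk,
      Submodule.subtype_apply, Submodule.Quotient.mk_eq_zero, mem_range, hdι]
    constructor
    · rintro ⟨w, hw, ⟨e, rfl⟩, rfl⟩
      exact ⟨e, hw, rfl⟩
    · rintro ⟨e, he, rfl⟩
      exact ⟨ι e, he, ⟨e, rfl⟩, rfl⟩
  have e1 : ker b ≃ₗ[K] ker d :=
    (Submodule.equivMapOfInjective (ker d').subtype (Submodule.subtype_injective _) (ker b)).trans
      ((LinearEquiv.ofEq _ _ hmap).trans (Submodule.equivMapOfInjective ι hι (ker d)).symm)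
  -- (F2) `ker c = range b`
  have hcb : ker c = range b := by
    ext z
    obtain ⟨e', rfl⟩ := Submodule.Quotient.mk_surjective _ z
    simp only [mem_ker, cmk, Submodule.Quotient.mk_eq_zero, mem_range, bmk, Subtype.exists, hdι]
    constructor
    · rintro ⟨e, he⟩
      refine ⟨e' - ι e, by simp [he], ?_⟩
      rw [Submodule.Quotient.eq]
      simp
    · rintro ⟨w, hw, hwe⟩
      rw [Submodule.Quotient.eq] at hwe
      obtain ⟨e, he⟩ := hwe
      refine ⟨-e, ?_⟩
      have : e' = w - ι e := by rw [he]; abel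
      rw [this, map_sub, mem_ker.mp hw, map_neg, map_neg, zero_sub]
  -- (F3) `ker h = range c`
  have hhc : ker h = range c := by
    ext z
    obtain ⟨f, rfl⟩ := Submodule.Quotient.mk_surjective _ z
    simp only [mem_ker, hmk, Submodule.Quotient.mk_eq_zero, mem_range]
    constructor
    · rintro ⟨e', rfl⟩
      exact ⟨Submodule.Quotient.mk e', cmk e'⟩
    · rintro ⟨w, hw⟩
      obtain ⟨e', rfl⟩ := Submodule.Quotient.mk_surjective _ w
      rw [cmk, Submodule.Quotient.eq] at hw
      obtain ⟨e, he⟩ := hw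
      refine ⟨e' - ι e, ?_⟩
      rw [map_sub, ← hdι, he]
      abel
  -- (F4) `h` is surjective
  have hsurj : Function.Surjective h := Submodule.factor_surjective hdd
  have hrb : FiniteDimensional K (range b) := inferInstance
  have hrc : FiniteDimensional K (range c) := inferInstance
  have hkc : FiniteDimensional K (ker c) := inferInstance
  have hkh : FiniteDimensional K (ker h) := by rw [hhc]; exact hrc
  -- the three rank-nullity identities
  have key1 : FiniteDimensional K (ker d) → FiniteDimensional K (ker d') ∧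
      finrank K (ker d') = finrank K (ker d) + finrank K (range b) := by
    intro hfd
    have hkb : FiniteDimensional K (ker b) := Module.Finite.equiv e1.symm
    have := finrank_of_ker_range b hkb hrb
    rw [e1.finrank_eq] at this
    exact this
  have key2 : finrank K (E' ⧸ range ι) = finrank K (range b) + finrank K (range c) := by
    have := (finrank_of_ker_range c hkc hrc).2
    rw [this, hcb]
  have key3 : FiniteDimensional K (F ⧸ range d') → FiniteDimensional K (F ⧸ range d) ∧
      finrank K (F ⧸ range d) = finrank K (range c) + finrank K (F ⧸ range d') := by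
    intro hfd
    have hrh : FiniteDimensional K (range h) := inferInstance
    have := finrank_of_ker_range h hkh hrh
    have e3 : range h ≃ₗ[K] F ⧸ range d' :=
      (LinearEquiv.ofEq _ _ (range_eq_top.mpr hsurj)).trans Submodule.topEquiv
    rw [e3.finrank_eq, hhc] at this
    exact this
  have hiff : FinCoh d ↔ FinCoh d' := by
    constructor
    · rintro ⟨h1, h2⟩
      exact ⟨(key1 h1).1, Module.Finite.of_surjective h hsurj⟩
    · rintro ⟨h1, h2⟩
      have hkb : FiniteDimensional K (ker b) := inferInstance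
      exact ⟨Module.Finite.equiv e1, (key3 h2).1⟩
  refine ⟨hiff, fun hf' => ?_⟩
  obtain ⟨h1, h2⟩ := hiff.mpr hf'
  have k1 := (key1 h1).2
  have k3 := (key3 hf'.2).2
  unfold index
  rw [k1, k3, key2]
  push_cast
  ring

/-- ITERATED `χ`-SHIFT. A family of differentials `d m : E → F` (`m : ℤ`) with
`d m = d (m + 1) ∘ ι` for one injective `ι` of finite-dimensional cokernel: finiteness of the
cohomology at one `m₀` gives finiteness at every `m`, and the index is affine in `m`. -/
theorem index_family (d : ℤ → (E →ₗ[K] F)) (ι : E →ₗ[K] E) (hι : Function.Injective ι)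
    (hc : FiniteDimensional K (E ⧸ range ι)) (hd : ∀ m, d m = d (m + 1) ∘ₗ ι) (m₀ : ℤ)
    (h0 : FinCoh (d m₀)) (m : ℤ) :
    FinCoh (d m) ∧ index (d m) = index (d m₀) + (m - m₀) * finrank K (E ⧸ range ι) := by
  induction m using Int.inductionOn' (b := m₀) with
  | zero => exact ⟨h0, by ring⟩
  | succ j _ ih =>
    obtain ⟨hf, hi⟩ := ih
    have key := index_comp_injective ι hι (d (j + 1)) hc
    rw [← hd j] at key
    have hf' : FinCoh (d (j + 1)) := key.1.mp hf
    refine ⟨hf', ?_⟩
    rw [key.2 hf', hi]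
    ring
  | pred j _ ih =>
    obtain ⟨hf, hi⟩ := ih
    have key := index_comp_injective ι hι (d j) hc
    have hd' : d (j - 1) = d j ∘ₗ ι := by
      have := hd (j - 1)
      rwa [sub_add_cancel] at this
    rw [← hd'] at key
    have hf' : FinCoh (d (j - 1)) := key.1.mpr hf
    refine ⟨hf', ?_⟩
    have := key.2 hf
    rw [hi] at this
    linarith

/-- The cokernel of `id × Y` on `M₀ × M₁` is the cokernel of `Y`. -/
noncomputable def cokerProdMapIdEquiv {M₀ M₁ : Type*} [AddCommGroup M₀] [Module K M₀]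
    [AddCommGroup M₁] [Module K M₁] (Y : M₁ →ₗ[K] M₁) :
    ((M₀ × M₁) ⧸ range ((LinearMap.id : M₀ →ₗ[K] M₀).prodMap Y)) ≃ₗ[K] (M₁ ⧸ range Y) := by
  have hsurj : Function.Surjective ((range Y).mkQ ∘ₗ LinearMap.snd K M₀ M₁) := by
    intro z
    obtain ⟨b, rfl⟩ := Submodule.Quotient.mk_surjective _ z
    exact ⟨(0, b), rfl⟩
  have hker : ker ((range Y).mkQ ∘ₗ LinearMap.snd K M₀ M₁) =
      range ((LinearMap.id : M₀ →ₗ[K] M₀).prodMap Y) := by
    ext ⟨a, b⟩
    simp only [mem_ker, coe_comp, Function.comp_apply, snd_apply, Submodule.mkQ_apply,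
      Submodule.Quotient.mk_eq_zero, mem_range, prodMap_apply, id_coe, id_eq, Prod.mk.injEq,
      Prod.exists]
    exact ⟨fun ⟨y, hy⟩ => ⟨a, y, rfl, hy⟩, fun ⟨_, y, _, hy⟩ => ⟨y, hy⟩⟩
  exact (Submodule.quotEquivOfEq _ _ hker.symm).trans
    (LinearMap.quotKerEquivOfSurjective _ hsurj)

end Index

section Serre

variable {B : Type*} [CommRing B] {N : Type*} [AddCommGroup N] [Module B N]

/-- `ℤ`-powers of a linear automorphism stabilise a submodule that `T` stabilises. -/
theorem zpow_mem_of_stable (T : N ≃ₗ[B] N) (Λ₀ : Submodule B N) (h₀ : ∀ z ∈ Λ₀, T z ∈ Λ₀)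
    (j : ℕ) {z : N} (hz : z ∈ Λ₀) : (T ^ (j : ℤ)) z ∈ Λ₀ := by
  induction j with
  | zero => simpa using hz
  | succ j ih =>
    have : (T ^ ((j + 1 : ℕ) : ℤ)) z = T ((T ^ (j : ℤ)) z) := by
      rw [Nat.cast_succ, add_comm, zpow_one_add]
      rfl
    rw [this]
    exact h₀ _ ih

/-- SERRE VANISHING, lattice form (`N = M₀₁`, `T` = multiplication by `x`, `Λ₀ = range ρ₀`,
`Λ₁ = range ρ₁`): if `Λ₁` is spanned over `B` by the `T⁻ʲ s` for `s` in a finite set `S`, `Λ₀` is
`T`-stable and every `s ∈ S` is moved into `Λ₀` by a power of `T`, and `N = ⋃ Tʲ Λ₁`, then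
`Λ₀ + Tᵐ Λ₁ = N` for all `m ≥ n₀`, with `n₀` explicit: any bound with `T^{n₀} s ∈ Λ₀` on `S`. -/
theorem sup_map_zpow_eq_top (T : N ≃ₗ[B] N) (Λ₀ Λ₁ : Submodule B N)
    (h₀ : ∀ z ∈ Λ₀, T z ∈ Λ₀) (hex₁ : ∀ z, ∃ j : ℕ, (T ^ (-(j : ℤ))) z ∈ Λ₁)
    (S : Set N) (hS : Λ₁ ≤ Submodule.span B {z | ∃ s ∈ S, ∃ j : ℕ, z = (T ^ (-(j : ℤ))) s})
    (hS' : ∀ s ∈ S, ∀ j : ℕ, (T ^ (-(j : ℤ))) s ∈ Λ₁)
    (n₀ : ℕ) (hn₀ : ∀ s ∈ S, ∃ j : ℕ, j ≤ n₀ ∧ (T ^ (j : ℤ)) s ∈ Λ₀) (m : ℤ) (hm : (n₀ : ℤ) ≤ m) :
    Λ₀ ⊔ Λ₁.map ((T ^ m : N ≃ₗ[B] N) : N →ₗ[B] N) = ⊤ := by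
  set W := Λ₀ ⊔ Λ₁.map ((T ^ m : N ≃ₗ[B] N) : N →ₗ[B] N) with hW
  rw [eq_top_iff]
  rintro z -
  obtain ⟨j, hj⟩ := hex₁ z
  have key : Λ₁ ≤ W.comap ((T ^ (j : ℤ) : N ≃ₗ[B] N) : N →ₗ[B] N) := by
    refine hS.trans (Submodule.span_le.mpr ?_)
    rintro _ ⟨s, hs, i, rfl⟩
    simp only [Submodule.comap_coe, Set.mem_preimage, LinearEquiv.coe_coe, SetLike.mem_coe]
    have hcomb : (T ^ (j : ℤ)) ((T ^ (-(i : ℤ))) s) = (T ^ ((j : ℤ) - i)) s := by
      rw [← LinearEquiv.mul_apply, ← zpow_add, sub_eq_add_neg]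
    rw [hcomb]
    by_cases he : (j : ℤ) - i ≤ m
    · -- in `T^m Λ₁`
      refine Submodule.mem_sup_right ⟨(T ^ (-((m - ((j : ℤ) - i)).toNat : ℤ))) s, hS' s hs _, ?_⟩
      simp only [LinearEquiv.coe_coe]
      rw [← LinearEquiv.mul_apply, ← zpow_add, Int.toNat_of_nonneg (by omega)]
      congr 2
      ring
    · -- in `Λ₀`
      obtain ⟨j₀, hj₀, hmem⟩ := hn₀ s hs
      refine Submodule.mem_sup_left ?_
      have hsplit : (T ^ ((j : ℤ) - i)) s =
          (T ^ ((((j : ℤ) - i - j₀).toNat : ℕ) : ℤ)) ((T ^ (j₀ : ℤ)) s) := by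
        rw [← LinearEquiv.mul_apply, ← zpow_add, Int.toNat_of_nonneg (by omega)]
        congr 2
        ring
      rw [hsplit]
      exact zpow_mem_of_stable T Λ₀ h₀ _ hmem
  have := key hj
  simp only [Submodule.mem_comap, LinearEquiv.coe_coe] at this
  rw [← LinearEquiv.mul_apply, ← zpow_add, add_neg_cancel, zpow_zero] at this
  simpa using this

end Serre

end Fermat.Agent.S25.helper3115
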