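import Fermat.Agent.S25.helper2945_AlgDefs
import Fermat.Agent.S25.helper3115_Twist
import Fermat.Agent.S25.helper1153_TwistConst

/-!
# S25, leaf U1: the twist `G ↦ G(m · D∞)` of a two-chart line bundle (helper3115)

On top of `helper2945_AlgDefs` (`GlueDatum`).  The twist keeps the three modules and rescales
the gluing: `ρ₁` is replaced by `x ^ m • ρ₁` (`x` is a unit on the overlap).
-/

set_option autoImplicit false

open scoped TensorProduct Pointwise
open Module LinearMap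

namespace Fermat.Agent.S25.helper3115

open Fermat.Agent.S25.helper1705 Fermat.Agent.S25.helper2945

universe u

variable {k : Type u} [Field k] (D : CurveDatum k) (B : Type u) [CommRing B] [Algebra k B]

/-- The coordinate `x` as a unit of the overlap ring `R₀₁ ⊗ B` (inverse `y`). -/
noncomputable def xU : (D.A₀₁ B)ˣ where
  val := algebraMap (D.A₀ B) (D.A₀₁ B) (xB D B)
  inv := algebraMap (D.A₁ B) (D.A₀₁ B) (yB D B)
  val_inv := xB_mul_yB D B
  inv_val := (mul_comm _ _).trans (xB_mul_yB D B)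

@[simp] theorem xU_val : ((xU D B : (D.A₀₁ B)ˣ) : D.A₀₁ B) = algebraMap (D.A₀ B) (D.A₀₁ B) (xB D B) :=
  rfl

@[simp] theorem xU_inv_val :
    (((xU D B)⁻¹ : (D.A₀₁ B)ˣ) : D.A₀₁ B) = algebraMap (D.A₁ B) (D.A₀₁ B) (yB D B) := rfl

variable {D B}

namespace Twist

/-- Multiplication by `x ^ m` on the overlap module, as an `A₁`-linear automorphism. -/
noncomputable def smulX (G : GlueDatum D B) (m : ℤ) : G.M₀₁ ≃ₗ[D.A₁ B] G.M₀₁ :=
  (LinearEquiv.smulOfUnit (xU D B ^ m) : G.M₀₁ ≃ₗ[D.A₀₁ B] G.M₀₁).restrictScalars (D.A₁ B)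

@[simp] theorem smulX_apply (G : GlueDatum D B) (m : ℤ) (z : G.M₀₁) :
    smulX G m z = ((xU D B ^ m : (D.A₀₁ B)ˣ) : D.A₀₁ B) • z := rfl

end Twist

/-- THE TWIST `G(m · D∞)`: same modules, gluing rescaled by `x ^ m`. -/
noncomputable def twist (G : GlueDatum D B) (m : ℤ) : GlueDatum D B where
  M₀ := G.M₀
  M₁ := G.M₁
  M₀₁ := G.M₀₁
  ρ₀ := G.ρ₀
  ρ₁ := (Twist.smulX G m).toLinearMap ∘ₗ G.ρ₁

@[simp] theorem twist_ρ₀_apply (G : GlueDatum D B) (m : ℤ) (a : G.M₀) :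
    (twist G m).ρ₀ a = G.ρ₀ a := rfl

@[simp] theorem twist_ρ₁_apply (G : GlueDatum D B) (m : ℤ) (b : G.M₁) :
    (twist G m).ρ₁ b = ((xU D B ^ m : (D.A₀₁ B)ˣ) : D.A₀₁ B) • G.ρ₁ b := rfl

/-- `G(0) ≅ G`. -/
noncomputable def twistZeroIso (G : GlueDatum D B) : GlueDatum.Iso (twist G 0) G where
  e₀ := LinearEquiv.refl _ _
  e₁ := LinearEquiv.refl _ _
  e₀₁ := LinearEquiv.refl _ _
  comm₀ _ := rfl
  comm₁ b := by
    show ((xU D B ^ (0 : ℤ) : (D.A₀₁ B)ˣ) : D.A₀₁ B) • G.ρ₁ b = G.ρ₁ b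
    simp

theorem twist_zero (G : GlueDatum D B) : (twist G 0).Equiv G := ⟨twistZeroIso G⟩

/-- `G(m)(n) ≅ G(m + n)`. -/
noncomputable def twistTwistIso (G : GlueDatum D B) (m n : ℤ) :
    GlueDatum.Iso (twist (twist G m) n) (twist G (m + n)) where
  e₀ := LinearEquiv.refl _ _
  e₁ := LinearEquiv.refl _ _
  e₀₁ := LinearEquiv.refl _ _
  comm₀ _ := rfl
  comm₁ b := by
    show ((xU D B ^ n : (D.A₀₁ B)ˣ) : D.A₀₁ B) • (((xU D B ^ m : (D.A₀₁ B)ˣ) : D.A₀₁ B) • G.ρ₁ b) =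
      ((xU D B ^ (m + n) : (D.A₀₁ B)ˣ) : D.A₀₁ B) • G.ρ₁ b
    rw [smul_smul, ← Units.val_mul, ← zpow_add, add_comm]

theorem twist_twist (G : GlueDatum D B) (m n : ℤ) :
    (twist (twist G m) n).Equiv (twist G (m + n)) := ⟨twistTwistIso G m n⟩

/-- Twisting is compatible with isomorphisms. -/
noncomputable def twistIso {G G' : GlueDatum D B} (f : GlueDatum.Iso G G') (m : ℤ) :
    GlueDatum.Iso (twist G m) (twist G' m) where
  e₀ := f.e₀
  e₁ := f.e₁
  e₀₁ := f.e₀₁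
  comm₀ := f.comm₀
  comm₁ := fun (b : G.M₁) =>
    (map_smul f.e₀₁ ((xU D B ^ m : (D.A₀₁ B)ˣ) : D.A₀₁ B) (G.ρ₁ b)).trans
      (congrArg (fun z => ((xU D B ^ m : (D.A₀₁ B)ˣ) : D.A₀₁ B) • z) (f.comm₁ b))

theorem Equiv_twist {G G' : GlueDatum D B} (h : G.Equiv G') (m : ℤ) :
    (twist G m).Equiv (twist G' m) := h.elim fun f => ⟨twistIso f m⟩

/-- Twisting does not change the rigidification condition. -/
theorem twist_isRig (G : GlueDatum D B) (m : ℤ) : (twist G m).IsRig ↔ G.IsRig := Iff.rfl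

/-! ## Base change -/

section SqSmul

variable {R S R' S' : Type*} [CommRing R] [CommRing S] [CommRing R'] [CommRing S']
  [Algebra R S] [Algebra R R'] [Algebra R' S'] [Algebra S S'] [Algebra R S']
  [IsScalarTower R S S'] [IsScalarTower R R' S']
  {M N : Type*} [AddCommGroup M] [AddCommGroup N] [Module R M] [Module S N] [Module R N]
  [IsScalarTower R S N]

/-- `sqBaseChange` of a rescaled map is the rescaled `sqBaseChange`. -/
theorem sqBaseChange_smul (f g : M →ₗ[R] N) (s : S) (hg : ∀ m, g m = s • f m) (t : R' ⊗[R] M) :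
    sqBaseChange (S := S) (S' := S') g t =
      algebraMap S S' s • sqBaseChange (S := S) (S' := S') f t := by
  induction t using TensorProduct.induction_on with
  | zero => simp
  | add a b ha hb => rw [map_add, map_add, smul_add, ha, hb]
  | tmul r m =>
    rw [sqBaseChange_tmul, sqBaseChange_tmul, hg, TensorProduct.smul_tmul', smul_eq_mul,
      ← TensorProduct.smul_tmul, Algebra.smul_def]

end SqSmul

variable {B' : Type u} [CommRing B'] [Algebra k B']

theorem map₀₁_xU (φ : B →ₐ[k] B') (m : ℤ) :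
    D.map₀₁ φ ((xU D B ^ m : (D.A₀₁ B)ˣ) : D.A₀₁ B) = ((xU D B' ^ m : (D.A₀₁ B')ˣ) : D.A₀₁ B') := by
  have h : Units.map (D.map₀₁ φ : D.A₀₁ B →* D.A₀₁ B') (xU D B) = xU D B' := by
    ext
    show D.map₀₁ φ (D.res₀ B (xB D B)) = D.res₀ B' (xB D B')
    rw [← res₀_map₀, map₀_xB]
  rw [← h, ← map_zpow]
  rfl

/-- Twisting commutes with base change. -/
noncomputable def baseChangeTwistIso (G : GlueDatum D B) (φ : B →ₐ[k] B') (m : ℤ) :
    GlueDatum.Iso ((twist G m).baseChange φ) (twist (G.baseChange φ) m) where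
  e₀ := LinearEquiv.refl _ _
  e₁ := LinearEquiv.refl _ _
  e₀₁ := LinearEquiv.refl _ _
  comm₀ _ := rfl
  comm₁ b := by
    let _ := algA₀ D φ
    let _ := algA₁ D φ
    let _ := algA₀₁ D φ
    let _ := algA₀A₀₁ D φ
    let _ := algA₁A₀₁ D φ
    have := tower_A₀_A₀₁_A₀₁' D φ
    have := tower_A₀_A₀'_A₀₁' D φ
    have := tower_A₁_A₀₁_A₀₁' D φ
    have := tower_A₁_A₁'_A₀₁' D φ
    have h := sqBaseChange_smul (R := D.A₁ B) (S := D.A₀₁ B) (R' := D.A₁ B') (S' := D.A₀₁ B')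
      G.ρ₁ (twist G m).ρ₁ ((xU D B ^ m : (D.A₀₁ B)ˣ) : D.A₀₁ B) (fun _ => rfl) b
    have h2 : algebraMap (D.A₀₁ B) (D.A₀₁ B') ((xU D B ^ m : (D.A₀₁ B)ˣ) : D.A₀₁ B) =
        ((xU D B' ^ m : (D.A₀₁ B')ˣ) : D.A₀₁ B') := map₀₁_xU φ m
    rw [h2] at h
    exact h

theorem baseChange_twist (G : GlueDatum D B) (φ : B →ₐ[k] B') (m : ℤ) :
    ((twist G m).baseChange φ).Equiv (twist (G.baseChange φ) m) := ⟨baseChangeTwistIso G φ m⟩


/-! ## The lattice view -/

/-- Multiplication by a unit of the overlap ring, as a `B`-linear automorphism of `M₀₁`. -/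
noncomputable def TB (G : GlueDatum D B) : (D.A₀₁ B)ˣ →* (G.M₀₁ ≃ₗ[B] G.M₀₁) where
  toFun u := (LinearEquiv.smulOfUnit u : G.M₀₁ ≃ₗ[D.A₀₁ B] G.M₀₁).restrictScalars B
  map_one' := by ext z; simp [LinearEquiv.smulOfUnit]
  map_mul' u v := by ext z; simp [LinearEquiv.smulOfUnit, mul_smul]

@[simp] theorem TB_apply (G : GlueDatum D B) (u : (D.A₀₁ B)ˣ) (z : G.M₀₁) :
    TB G u z = (u : D.A₀₁ B) • z := rfl

theorem TB_zpow (G : GlueDatum D B) (u : (D.A₀₁ B)ˣ) (m : ℤ) : TB G u ^ m = TB G (u ^ m) :=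
  (map_zpow (TB G) u m).symm

theorem twist_ρ₁B (G : GlueDatum D B) (m : ℤ) :
    ((twist G m).ρ₁B : G.M₁ →ₗ[B] G.M₀₁) =
      ((TB G (xU D B) ^ m : G.M₀₁ ≃ₗ[B] G.M₀₁) : G.M₀₁ →ₗ[B] G.M₀₁) ∘ₗ G.ρ₁B := by
  rw [TB_zpow]
  rfl

theorem twist_delta (G : GlueDatum D B) (m : ℤ) :
    ((twist G m).delta : (G.M₀ × G.M₁) →ₗ[B] G.M₀₁) =
      G.ρ₀B.coprod (-(((TB G (xU D B) ^ m : G.M₀₁ ≃ₗ[B] G.M₀₁) : G.M₀₁ →ₗ[B] G.M₀₁) ∘ₗ G.ρ₁B)) := by
  rw [← twist_ρ₁B]
  rfl

theorem range_delta_twist (G : GlueDatum D B) (m : ℤ) :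
    LinearMap.range (twist G m).delta =
      (LinearMap.range G.ρ₀B ⊔
        (LinearMap.range G.ρ₁B).map
          ((TB G (xU D B) ^ m : G.M₀₁ ≃ₗ[B] G.M₀₁) : G.M₀₁ →ₗ[B] G.M₀₁) : Submodule B G.M₀₁) := by
  have h : LinearMap.range (G.ρ₀B.coprod
      (-(((TB G (xU D B) ^ m : G.M₀₁ ≃ₗ[B] G.M₀₁) : G.M₀₁ →ₗ[B] G.M₀₁) ∘ₗ G.ρ₁B))) =
      LinearMap.range G.ρ₀B ⊔ (LinearMap.range G.ρ₁B).map
          ((TB G (xU D B) ^ m : G.M₀₁ ≃ₗ[B] G.M₀₁) : G.M₀₁ →ₗ[B] G.M₀₁) := by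
    rw [LinearMap.range_coprod, LinearMap.range_neg, LinearMap.range_comp]
  exact (congrArg LinearMap.range (twist_delta G m)).trans h


section Gen
variable (D)
/-- `R₁` is spanned over `k` by the `y ^ t * r`, `r` in a finite set (finiteness over `k[y]`). -/
theorem exists_finset_span_R₁ :
    ∃ s : Finset D.R₁, ∀ r : D.R₁,
      r ∈ Submodule.span k {z : D.R₁ | ∃ r₀ ∈ s, ∃ t : ℕ, z = D.y ^ t * r₀} := by
  let _ : Algebra (Polynomial k) D.R₁ :=
    (Polynomial.aeval D.y : Polynomial k →ₐ[k] D.R₁).toRingHom.toAlgebra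
  have hfin : Module.Finite (Polynomial k) D.R₁ := D.finite₁
  obtain ⟨s, hs⟩ := hfin.fg_top
  refine ⟨s, ?_⟩
  set V : Submodule k D.R₁ :=
    Submodule.span k {z : D.R₁ | ∃ r₀ ∈ s, ∃ t : ℕ, z = D.y ^ t * r₀} with hV
  have hy : ∀ v ∈ V, D.y * v ∈ V := by
    intro v hv
    induction hv using Submodule.span_induction with
    | mem z hz =>
      obtain ⟨r₀, hr₀, t, rfl⟩ := hz
      exact Submodule.subset_span ⟨r₀, hr₀, t + 1, by rw [pow_succ, mul_assoc, mul_comm]; ring⟩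
    | zero => simp
    | add a b _ _ ha hb => rw [mul_add]; exact V.add_mem ha hb
    | smul c a _ ha => rw [mul_smul_comm]; exact V.smul_mem c ha
  have hyn : ∀ (n : ℕ), ∀ v ∈ V, D.y ^ n * v ∈ V := by
    intro n
    induction n with
    | zero => intro v hv; simpa using hv
    | succ n ih => intro v hv; rw [pow_succ, mul_assoc]; exact ih _ (hy v hv)
  have hp : ∀ (p : Polynomial k), ∀ v ∈ V, p • v ∈ V := by
    intro p v hv
    have hsm : ∀ q : Polynomial k, q • v = Polynomial.aeval D.y q * v := fun q => rfl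
    induction p using Polynomial.induction_on' with
    | add p q hp hq => rw [add_smul]; exact V.add_mem hp hq
    | monomial n c =>
      rw [hsm, Polynomial.aeval_monomial, mul_assoc, ← Algebra.smul_def]
      exact V.smul_mem c (hyn n v hv)
  intro r
  have hr : r ∈ Submodule.span (Polynomial k) (s : Set D.R₁) := by rw [hs]; trivial
  induction hr using Submodule.span_induction with
  | mem z hz => exact Submodule.subset_span ⟨z, hz, 0, by simp⟩
  | zero => exact V.zero_mem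
  | add a b _ _ ha hb => exact V.add_mem ha hb
  | smul p a _ ha => exact hp p a ha

end Gen

/-- `M₁` is spanned over `B` by the `y ^ t • h`, `h` in a finite set. -/
theorem exists_finset_span_M₁ (G : GlueDatum D B) :
    ∃ S : Finset G.M₁, ∀ m : G.M₁,
      m ∈ Submodule.span B {z : G.M₁ | ∃ h ∈ S, ∃ t : ℕ, z = (yB D B ^ t) • h} := by
  classical
  obtain ⟨s, hs⟩ := exists_finset_span_R₁ D
  obtain ⟨gens, hgens⟩ := (inferInstance : Module.Finite (D.A₁ B) G.M₁).fg_top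
  let S : Finset G.M₁ := (s ×ˢ gens).image fun p => ((p.1 ⊗ₜ[k] (1 : B) : D.A₁ B)) • p.2
  refine ⟨S, ?_⟩
  set W : Submodule B G.M₁ :=
    Submodule.span B {z : G.M₁ | ∃ h ∈ S, ∃ t : ℕ, z = (yB D B ^ t) • h} with hW
  -- Claim B1
  have hB1 : ∀ (r : D.R₁), ∀ g ∈ gens, ((r ⊗ₜ[k] (1 : B) : D.A₁ B)) • g ∈ W := by
    intro r g hg
    have hr := hs r
    induction hr using Submodule.span_induction with
    | mem z hz =>
      obtain ⟨r₀, hr₀, t, rfl⟩ := hz
      refine Submodule.subset_span ⟨((r₀ ⊗ₜ[k] (1 : B) : D.A₁ B)) • g, ?_, t, ?_⟩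
      · exact Finset.mem_image.mpr ⟨(r₀, g), Finset.mem_product.mpr ⟨hr₀, hg⟩, rfl⟩
      · rw [smul_smul]
        congr 1
        simp [yB, Algebra.TensorProduct.tmul_pow]
    | zero => simp
    | add a b _ _ ha hb => rw [TensorProduct.add_tmul, add_smul]; exact W.add_mem ha hb
    | smul c a _ ha =>
      have : ((c • a) ⊗ₜ[k] (1 : B) : D.A₁ B) =
          algebraMap B (D.A₁ B) (algebraMap k B c) * (a ⊗ₜ[k] (1 : B)) := by
        rw [algebraMap_B_A₁, Algebra.TensorProduct.tmul_mul_tmul, one_mul, mul_one,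
          TensorProduct.smul_tmul, Algebra.algebraMap_eq_smul_one]
      rw [this, mul_smul, ← GlueDatum.smul_def₁]
      exact W.smul_mem _ ha
  have hB : ∀ (a : D.A₁ B), ∀ g ∈ gens, a • g ∈ W := by
    intro a g hg
    induction a using TensorProduct.induction_on with
    | zero => simp
    | add a b ha hb => rw [add_smul]; exact W.add_mem ha hb
    | tmul r b =>
      have : (r ⊗ₜ[k] b : D.A₁ B) = algebraMap B (D.A₁ B) b * (r ⊗ₜ[k] (1 : B)) := by
        rw [algebraMap_B_A₁, Algebra.TensorProduct.tmul_mul_tmul, one_mul, mul_one]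
      rw [this, mul_smul, ← GlueDatum.smul_def₁]
      exact W.smul_mem _ (hB1 r g hg)
  intro m
  have hm : m ∈ Submodule.span (D.A₁ B) (gens : Set G.M₁) := by rw [hgens]; trivial
  have key : ∀ a : D.A₁ B, a • m ∈ W := by
    induction hm using Submodule.span_induction with
    | mem z hz => exact fun a => hB a z hz
    | zero => intro a; simp
    | add x y _ _ hx hy => intro a; rw [smul_add]; exact W.add_mem (hx a) (hy a)
    | smul c x _ hx => intro a; rw [smul_smul]; exact hx _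
  simpa using key 1


/-! ## Serre vanishing -/

theorem TB_neg_natCast (G : GlueDatum D B) (t : ℕ) (z : G.M₀₁) :
    (TB G (xU D B) ^ (-(t : ℤ))) z = (yB D B ^ t) • z := by
  rw [TB_zpow, TB_apply, zpow_neg, zpow_natCast, ← inv_pow, Units.val_pow_eq_pow_val, xU_inv_val,
    ← map_pow, algebraMap_smul]

theorem TB_natCast (G : GlueDatum D B) (t : ℕ) (z : G.M₀₁) :
    (TB G (xU D B) ^ (t : ℤ)) z = (xB D B ^ t) • z := by
  rw [TB_zpow, TB_apply, zpow_natCast, Units.val_pow_eq_pow_val, xU_val,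
    ← map_pow, algebraMap_smul]

/-- SERRE VANISHING for a two-chart line bundle: `H¹(G(m)) = 0` for all `m ≥ n₀`. -/
theorem exists_range_delta_twist_eq_top (G : GlueDatum D B) :
    ∃ n₀ : ℕ, ∀ m : ℤ, (n₀ : ℤ) ≤ m → LinearMap.range (twist G m).delta = ⊤ := by
  classical
  obtain ⟨S, hS⟩ := exists_finset_span_M₁ G
  have hsurj₀ : ∀ z : G.M₀₁, ∃ j : ℕ, (TB G (xU D B) ^ (j : ℤ)) z ∈ LinearMap.range G.ρ₀B := by
    intro z
    obtain ⟨⟨a, ⟨_, j, rfl⟩⟩, h⟩ := IsLocalizedModule.surj (Submonoid.powers (xB D B)) G.ρ₀ z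
    exact ⟨j, a, by rw [TB_natCast]; exact h.symm⟩
  choose jf hjf using hsurj₀
  refine ⟨S.sup fun h => jf (G.ρ₁ h), fun m hm => ?_⟩
  rw [range_delta_twist]
  refine sup_map_zpow_eq_top (TB G (xU D B)) _ _ ?_ ?_ (G.ρ₁ '' (S : Set G.M₁)) ?_ ?_
    (S.sup fun h => jf (G.ρ₁ h)) ?_ m hm
  · rintro _ ⟨a, rfl⟩
    refine ⟨xB D B • a, ?_⟩
    have := TB_natCast G 1 (G.ρ₀B a)
    rw [Nat.cast_one, zpow_one, pow_one] at this
    rw [this]
    simp
  · intro z
    obtain ⟨⟨b, ⟨_, j, rfl⟩⟩, h⟩ := IsLocalizedModule.surj (Submonoid.powers (yB D B)) G.ρ₁ z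
    exact ⟨j, b, by rw [TB_neg_natCast]; exact h.symm⟩
  · rintro _ ⟨b, rfl⟩
    have hb := hS b
    have : G.ρ₁B b ∈ (Submodule.span B {z : G.M₁ | ∃ h ∈ S, ∃ t : ℕ, z = (yB D B ^ t) • h}).map
        G.ρ₁B := Submodule.mem_map_of_mem hb
    rw [Submodule.map_span] at this
    refine Submodule.span_mono ?_ this
    rintro _ ⟨_, ⟨h, hh, t, rfl⟩, rfl⟩
    refine ⟨G.ρ₁ h, Set.mem_image_of_mem _ hh, t, ?_⟩
    rw [TB_neg_natCast]
    simp
  · rintro _ ⟨h, -, rfl⟩ j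
    exact ⟨yB D B ^ j • h, by rw [TB_neg_natCast]; simp⟩
  · rintro _ ⟨h, hh, rfl⟩
    exact ⟨jf (G.ρ₁ h), Finset.le_sup (f := fun h => jf (G.ρ₁ h)) hh, hjf _⟩


/-- Vanishing of `H¹` is invariant under isomorphism. -/
theorem range_delta_eq_top_of_iso {G G' : GlueDatum D B} (f : GlueDatum.Iso G G')
    (h : LinearMap.range G.delta = ⊤) : LinearMap.range G'.delta = ⊤ := by
  rw [LinearMap.range_eq_top] at h ⊢
  intro z
  obtain ⟨⟨a, b⟩, hab⟩ := h (f.e₀₁.symm z)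
  refine ⟨(f.e₀ a, f.e₁ b), ?_⟩
  rw [GlueDatum.delta_apply] at hab ⊢
  simp only at hab ⊢
  rw [← f.comm₀, ← f.comm₁, ← map_sub, hab, LinearEquiv.apply_symm_apply]

/-- Vanishing of `H¹` is stable under base change. -/
theorem range_delta_baseChange_eq_top (G : GlueDatum D B) (φ : B →ₐ[k] B')
    (h : LinearMap.range G.delta = ⊤) : LinearMap.range (G.baseChange φ).delta = ⊤ := by
  let _ := algA₀ D φ
  let _ := algA₁ D φ
  let _ := algA₀₁ D φ
  let _ := algA₀A₀₁ D φ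
  let _ := algA₁A₀₁ D φ
  have := tower_A₀_A₀₁_A₀₁' D φ
  have := tower_A₀_A₀'_A₀₁' D φ
  have := tower_A₁_A₀₁_A₀₁' D φ
  have := tower_A₁_A₁'_A₀₁' D φ
  rw [LinearMap.range_eq_top] at h
  have key : ∀ z : D.A₀₁ B' ⊗[D.A₀₁ B] G.M₀₁, z ∈ LinearMap.range (G.baseChange φ).delta := by
    intro z
    induction z using TensorProduct.induction_on with
    | zero => exact Submodule.zero_mem _
    | add a b ha hb => exact Submodule.add_mem _ ha hb
    | tmul s z =>
      induction s using TensorProduct.induction_on with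
      | zero => rw [TensorProduct.zero_tmul]; exact Submodule.zero_mem _
      | add a b ha hb => rw [TensorProduct.add_tmul]; exact Submodule.add_mem _ ha hb
      | tmul r b' =>
        have h1 : (r ⊗ₜ[k] b' : D.A₀₁ B') = (r ⊗ₜ[k] (1 : B) : D.A₀₁ B) • ((1 : D.R₀₁) ⊗ₜ[k] b' : D.A₀₁ B') := by
          rw [Algebra.smul_def]
          show _ = D.map₀₁ φ (r ⊗ₜ[k] (1 : B)) * _
          rw [map₀₁_tmul, Algebra.TensorProduct.tmul_mul_tmul, mul_one, map_one, one_mul]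
        rw [h1, TensorProduct.smul_tmul]
        obtain ⟨⟨a, c⟩, hac⟩ := h ((r ⊗ₜ[k] (1 : B) : D.A₀₁ B) • z)
        rw [GlueDatum.delta_apply] at hac
        simp only at hac
        refine ⟨((((1 : D.R₀) ⊗ₜ[k] b' : D.A₀ B') ⊗ₜ[D.A₀ B] a),
          (((1 : D.R₁) ⊗ₜ[k] b' : D.A₁ B') ⊗ₜ[D.A₁ B] c)), ?_⟩
        rw [GlueDatum.delta_apply, ← hac, TensorProduct.tmul_sub]
        congr 1
        · show sqBaseChange (S := D.A₀₁ B) (S' := D.A₀₁ B') G.ρ₀ _ = _
          rw [sqBaseChange_tmul, algebraMap_A₀_A₀₁_tmul, map_one]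
        · show sqBaseChange (S := D.A₀₁ B) (S' := D.A₀₁ B') G.ρ₁ _ = _
          rw [sqBaseChange_tmul, algebraMap_A₁_A₀₁_tmul, map_one]
  exact eq_top_iff.mpr fun z _ => key z


/-- SERRE VANISHING, uniformly in the base change: `H¹(G_{B'}(m)) = 0` for all `m ≥ n₀` and all
`φ : B → B'`, with `n₀` depending only on `G`. -/
theorem exists_forall_range_delta_baseChange_twist_eq_top (G : GlueDatum D B) :
    ∃ n₀ : ℕ, ∀ m : ℤ, (n₀ : ℤ) ≤ m → ∀ (B' : Type u) [CommRing B'] [Algebra k B']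
      (φ : B →ₐ[k] B'), LinearMap.range (twist (G.baseChange φ) m).delta = ⊤ := by
  obtain ⟨n₀, h⟩ := exists_range_delta_twist_eq_top G
  exact ⟨n₀, fun m hm B' _ _ φ => range_delta_eq_top_of_iso (baseChangeTwistIso G φ m)
    (range_delta_baseChange_eq_top _ φ (h m hm))⟩

/-- `H¹ = 0` in module form. -/
theorem subsingleton_H1_iff (G : GlueDatum D B) :
    Subsingleton G.H1 ↔ LinearMap.range G.delta = ⊤ :=
  Submodule.Quotient.subsingleton_iff

/-! ## The `χ`-shift -/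

/-- Multiplication by `y` on `M₁`, as a `B`-linear endomorphism. -/
noncomputable def yEnd (G : GlueDatum D B) : G.M₁ →ₗ[B] G.M₁ :=
  (LinearMap.lsmul (D.A₁ B) G.M₁ (yB D B)).restrictScalars B

@[simp] theorem yEnd_apply (G : GlueDatum D B) (b : G.M₁) : yEnd G b = yB D B • b := rfl

/-- The differential of the twist `G(m)`, on the modules of `G`. -/
noncomputable def dtw (G : GlueDatum D B) (m : ℤ) : (G.M₀ × G.M₁) →ₗ[B] G.M₀₁ :=
  G.ρ₀B.coprod (-(((TB G (xU D B) ^ m : G.M₀₁ ≃ₗ[B] G.M₀₁) : G.M₀₁ →ₗ[B] G.M₀₁) ∘ₗ G.ρ₁B))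

theorem dtw_apply (G : GlueDatum D B) (m : ℤ) (p : G.M₀ × G.M₁) :
    dtw G m p = G.ρ₀ p.1 - (TB G (xU D B) ^ m) (G.ρ₁ p.2) := by
  simp [dtw, sub_eq_add_neg]

theorem dtw_zero (G : GlueDatum D B) : dtw G 0 = G.delta := by
  ext p <;> simp [dtw, GlueDatum.delta]

theorem dtw_succ (G : GlueDatum D B) (m : ℤ) :
    dtw G m = dtw G (m + 1) ∘ₗ (LinearMap.id : G.M₀ →ₗ[B] G.M₀).prodMap (yEnd G) := by
  apply LinearMap.ext
  rintro ⟨a, b⟩
  rw [LinearMap.comp_apply, dtw_apply, dtw_apply]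
  simp only [prodMap_apply, id_coe, id_eq, yEnd_apply]
  congr 1
  have h1 : G.ρ₁ (yB D B • b) = (TB G (xU D B) ^ (-((1 : ℕ) : ℤ))) (G.ρ₁ b) := by
    rw [TB_neg_natCast, pow_one, map_smul]
  rw [h1, ← LinearEquiv.mul_apply, ← zpow_add]
  congr 2
  simp

section Field

variable {K : Type u} [Field K] [Algebra k K]

/-- `χ`-SHIFT: `χ(G(m)) = χ(G) + m · dim_K (M₁ / y M₁)` over a field `K`, together with the
finite-dimensionality of the cohomology of every twist. -/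
theorem chi_twist (G : GlueDatum D K) (hy : Function.Injective (yEnd G))
    (hfin : FiniteDimensional K (G.M₁ ⧸ LinearMap.range (yEnd G))) (h0 : FinCoh G.delta) (m : ℤ) :
    FinCoh (twist G m).delta ∧
      (twist G m).chi = G.chi + m * Module.finrank K (G.M₁ ⧸ LinearMap.range (yEnd G)) := by
  have hι : Function.Injective ((LinearMap.id : G.M₀ →ₗ[K] G.M₀).prodMap (yEnd G)) := by
    rintro ⟨a, b⟩ ⟨a', b'⟩ h
    simp only [prodMap_apply, id_coe, id_eq, Prod.mk.injEq] at h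
    exact Prod.ext h.1 (hy h.2)
  have hc : FiniteDimensional K
      ((G.M₀ × G.M₁) ⧸ LinearMap.range ((LinearMap.id : G.M₀ →ₗ[K] G.M₀).prodMap (yEnd G))) :=
    Module.Finite.equiv (cokerProdMapIdEquiv (M₀ := G.M₀) (yEnd G)).symm
  have h0' : FinCoh (dtw G 0) := by rw [dtw_zero]; exact h0
  have key := index_family (dtw G) _ hι hc (dtw_succ G) 0 h0' m
  rw [dtw_zero, sub_zero, (cokerProdMapIdEquiv (M₀ := G.M₀) (yEnd G)).finrank_eq] at key
  have hd : (twist G m).delta = dtw G m := twist_delta G m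
  exact ⟨hd ▸ key.1, (congrArg index hd).trans key.2⟩

end Field


/-! ## Elementwise descriptions of the cohomology of a twist -/

theorem mem_H0_twist (G : GlueDatum D B) (m : ℤ) (a : G.M₀) (b : G.M₁) :
    ((a, b) : (twist G m).M₀ × (twist G m).M₁) ∈ (twist G m).H0 ↔
      G.ρ₀ a = ((xU D B ^ m : (D.A₀₁ B)ˣ) : D.A₀₁ B) • G.ρ₁ b :=
  (twist G m).mem_H0 (a, b)

theorem mem_range_delta_twist (G : GlueDatum D B) (m : ℤ) (z : G.M₀₁) :
    z ∈ LinearMap.range (twist G m).delta ↔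
      ∃ (a : G.M₀) (b : G.M₁), z = G.ρ₀ a - ((xU D B ^ m : (D.A₀₁ B)ˣ) : D.A₀₁ B) • G.ρ₁ b := by
  constructor
  · rintro ⟨⟨a, b⟩, rfl⟩
    exact ⟨a, b, (twist G m).delta_apply (a, b)⟩
  · rintro ⟨a, b, rfl⟩
    exact ⟨(a, b), (twist G m).delta_apply (a, b)⟩

theorem range_delta_twist_eq_top_iff (G : GlueDatum D B) (m : ℤ) :
    LinearMap.range (twist G m).delta = ⊤ ↔
      ∀ z : G.M₀₁, ∃ (a : G.M₀) (b : G.M₁),
        z = G.ρ₀ a + ((xU D B ^ m : (D.A₀₁ B)ˣ) : D.A₀₁ B) • G.ρ₁ b := by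
  rw [eq_top_iff]
  constructor
  · intro h z
    obtain ⟨a, b, hab⟩ := (mem_range_delta_twist G m z).mp (h trivial)
    exact ⟨a, -b, by rw [hab, map_neg, smul_neg, sub_eq_add_neg]⟩
  · intro h z _
    obtain ⟨a, b, hab⟩ := h z
    exact (mem_range_delta_twist G m z).mpr ⟨a, -b, by rw [hab, map_neg, smul_neg, sub_neg_eq_add]⟩

/-- SECTIONS GENERATE ALONG `V(y)`: if `H¹(G(m - 1)) = 0` then every element of `M₁` is, modulo
`y M₁`, the chart-at-infinity component of a global section of `G(m)`. -/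
theorem exists_mem_H0_twist_of_range_delta_pred_eq_top (G : GlueDatum D B) (m : ℤ)
    (h : LinearMap.range (twist G (m - 1)).delta = ⊤) (b₀ : G.M₁) :
    ∃ (a : G.M₀) (c : G.M₁),
      ((a, b₀ + yB D B • c) : (twist G m).M₀ × (twist G m).M₁) ∈ (twist G m).H0 := by
  obtain ⟨a, c, hac⟩ := (range_delta_twist_eq_top_iff G (m - 1)).mp h
    (((xU D B ^ m : (D.A₀₁ B)ˣ) : D.A₀₁ B) • G.ρ₁ b₀)
  refine ⟨a, -c, (mem_H0_twist G m a _).mpr ?_⟩
  have hy : G.ρ₁ (yB D B • c) = ((xU D B ^ (-1 : ℤ) : (D.A₀₁ B)ˣ) : D.A₀₁ B) • G.ρ₁ c := by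
    rw [map_smul, zpow_neg_one, xU_inv_val, algebraMap_smul]
  rw [map_add, smul_neg, map_neg, hy, smul_add, smul_neg, smul_smul, ← Units.val_mul, ← zpow_add,
    show m + (-1 : ℤ) = m - 1 by ring]
  rw [hac]
  abel


section Field2

variable {K : Type u} [Field K] [Algebra k K]

theorem yEnd_injective (G : GlueDatum D K) : Function.Injective (yEnd G) :=
  helper1153.yB_isSMulRegular D K G.M₁

theorem range_yEnd (G : GlueDatum D K) :
    LinearMap.range (yEnd G) =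
      ((yB D K • (⊤ : Submodule (D.A₁ K) G.M₁)).restrictScalars K) := by
  ext z
  simp only [LinearMap.mem_range, yEnd_apply, Submodule.restrictScalars_mem,
    Submodule.mem_smul_pointwise_iff_exists, Submodule.mem_top, true_and]

/-- `M₁ / y M₁` in the two forms (range of `yEnd`, `QuotSMulTop`). -/
noncomputable def quotYEndEquiv (G : GlueDatum D K) :
    (G.M₁ ⧸ LinearMap.range (yEnd G)) ≃ₗ[K] QuotSMulTop (yB D K) G.M₁ :=
  (Submodule.quotEquivOfEq _ _ (range_yEnd G)).trans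
    (Submodule.Quotient.restrictScalarsEquiv K (yB D K • (⊤ : Submodule (D.A₁ K) G.M₁)))

theorem finrank_quot_yEnd (G : GlueDatum D K) :
    Module.finrank K (G.M₁ ⧸ LinearMap.range (yEnd G)) = helper1153.degInf D :=
  (quotYEndEquiv G).finrank_eq.trans (helper1153.finrank_quot_yB_smul D K G.M₁)

theorem finite_quot_yEnd (G : GlueDatum D K) :
    FiniteDimensional K (G.M₁ ⧸ LinearMap.range (yEnd G)) :=
  Module.finite_of_finrank_pos (by rw [finrank_quot_yEnd]; exact helper1153.degInf_pos D)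

/-- `χ`-SHIFT, final form: `χ(G(m)) = χ(G) + m · degInf D` over a field. -/
theorem chi_twist_degInf (G : GlueDatum D K) (h0 : FinCoh G.delta) (m : ℤ) :
    FinCoh (twist G m).delta ∧ (twist G m).chi = G.chi + m * helper1153.degInf D := by
  have := chi_twist G (yEnd_injective G) (finite_quot_yEnd G) h0 m
  rwa [finrank_quot_yEnd] at this


/-- Finiteness of the cohomology of one twist is equivalent to that of any other twist. -/
theorem finCoh_twist_iff (G : GlueDatum D K) (m m' : ℤ) :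
    FinCoh (twist G m).delta ↔ FinCoh (twist G m').delta := by
  have hι : Function.Injective ((LinearMap.id : G.M₀ →ₗ[K] G.M₀).prodMap (yEnd G)) := by
    rintro ⟨a, b⟩ ⟨a', b'⟩ h
    simp only [prodMap_apply, id_coe, id_eq, Prod.mk.injEq] at h
    exact Prod.ext h.1 (yEnd_injective G h.2)
  have hc : FiniteDimensional K
      ((G.M₀ × G.M₁) ⧸ LinearMap.range ((LinearMap.id : G.M₀ →ₗ[K] G.M₀).prodMap (yEnd G))) :=
    haveI := finite_quot_yEnd G
    Module.Finite.equiv (cokerProdMapIdEquiv (M₀ := G.M₀) (yEnd G)).symm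
  have key : ∀ a b : ℤ, FinCoh (dtw G a) → FinCoh (dtw G b) := fun a b h =>
    (index_family (dtw G) _ hι hc (dtw_succ G) a h b).1
  have hd : ∀ a : ℤ, FinCoh (twist G a).delta ↔ FinCoh (dtw G a) := fun a => by
    have : (twist G a).delta = dtw G a := twist_delta G a
    exact ⟨fun h => this ▸ h, fun h => this ▸ h⟩
  exact ⟨fun h => (hd m').mpr (key m m' ((hd m).mp h)), fun h => (hd m).mpr (key m' m ((hd m').mp h))⟩

/-- `χ`-SHIFT between two arbitrary twists. -/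
theorem chi_twist_sub (G : GlueDatum D K) (m₀ : ℤ) (h0 : FinCoh (twist G m₀).delta) (m : ℤ) :
    FinCoh (twist G m).delta ∧
      (twist G m).chi = (twist G m₀).chi + (m - m₀) * helper1153.degInf D := by
  have hι : Function.Injective ((LinearMap.id : G.M₀ →ₗ[K] G.M₀).prodMap (yEnd G)) := by
    rintro ⟨a, b⟩ ⟨a', b'⟩ h
    simp only [prodMap_apply, id_coe, id_eq, Prod.mk.injEq] at h
    exact Prod.ext h.1 (yEnd_injective G h.2)
  have hc : FiniteDimensional K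
      ((G.M₀ × G.M₁) ⧸ LinearMap.range ((LinearMap.id : G.M₀ →ₗ[K] G.M₀).prodMap (yEnd G))) :=
    haveI := finite_quot_yEnd G
    Module.Finite.equiv (cokerProdMapIdEquiv (M₀ := G.M₀) (yEnd G)).symm
  have hd : ∀ a : ℤ, (twist G a).delta = dtw G a := twist_delta G
  have h0' : FinCoh (dtw G m₀) := hd m₀ ▸ h0
  have key := index_family (dtw G) _ hι hc (dtw_succ G) m₀ h0' m
  rw [(cokerProdMapIdEquiv (M₀ := G.M₀) (yEnd G)).finrank_eq, finrank_quot_yEnd] at key
  exact ⟨hd m ▸ key.1, ((congrArg index (hd m)).trans key.2).trans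
    (by rw [show index (dtw G m₀) = (twist G m₀).chi from (congrArg index (hd m₀)).symm])⟩

/-- FINITENESS OF COHOMOLOGY OVER A FIELD, reduced to the case `H¹ = 0`: if every two-chart line
bundle over `K` with vanishing `H¹` has finite-dimensional `H⁰` (LC-COH), then every two-chart
line bundle over `K` has finite-dimensional `H⁰` and `H¹`. -/
theorem finCoh_delta_of_forall (G : GlueDatum D K)
    (hfin : ∀ G' : GlueDatum D K, LinearMap.range G'.delta = ⊤ → Module.Finite K G'.H0) :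
    FinCoh G.delta := by
  obtain ⟨n₀, h⟩ := exists_range_delta_twist_eq_top G
  have htop := h n₀ le_rfl
  have h1 : FinCoh (twist G n₀).delta := by
    refine ⟨hfin _ htop, ?_⟩
    rw [htop]
    infer_instance
  have h2 := (finCoh_twist_iff G n₀ 0).mp h1
  have hd0 : (twist G 0).delta = G.delta := (twist_delta G 0).trans (dtw_zero G)
  exact hd0 ▸ h2

end Field2

end Fermat.Agent.S25.helper3115
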