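import Mathlib
import Fermat.Agent.Lib.helper9007_TensorDomain

/-!
# S25, leaf U9b: the universal point family algebra (helper5047)

`Pow k R d` is the `d`-fold tensor power of a commutative `k`-algebra `R`, i.e. the coproduct of
`d` copies of `R` in commutative `k`-algebras: `Spec (Pow k R d) = (Spec R)^d`.

* `Pow.ι i : R →ₐ[k] Pow k R d` : the `i`-th coordinate point;
* `Pow.lift P : Pow k R d →ₐ[k] B` for `P : Fin d → (R →ₐ[k] B)`, with `Pow.lift_comp_ι`,
  `Pow.hom_ext`, `Pow.lift_unique` (universal property);
* `Pow.succEquiv : Pow k R (d+1) ≃ₐ[k] R ⊗[k] Pow k R d`, `Pow.zeroEquiv : Pow k R 0 ≃ₐ[k] k`;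
* `Pow.finiteType`, and for `k` an algebraically closed field and `R` a domain:
  `Pow.isDomain`, `Pow.isDomain_tensor_right`, `Pow.isDomain_tensor_left`.
-/

set_option autoImplicit false

universe u v w

open scoped TensorProduct

namespace Fermat.Agent.S25.helper5047

section Pow

variable (k : Type u) [CommRing k] (R : Type v) [CommRing R] [Algebra k R] (d : ℕ)

/-- The `d`-fold tensor power of `R` over `k`. -/
abbrev Pow : Type (max u v) := PiTensorProduct k (fun _ : Fin d => R)

namespace Pow

variable {k R d}

/-- The `i`-th coordinate map `R → R^{⊗d}`. -/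
noncomputable def ι (i : Fin d) : R →ₐ[k] Pow k R d :=
  PiTensorProduct.singleAlgHom (R := k) (A := fun _ : Fin d => R) i

/-- Universal property of the tensor power: a family of `d` points gives a map out of it. -/
noncomputable def lift {B : Type w} [CommRing B] [Algebra k B] (P : Fin d → (R →ₐ[k] B)) :
    Pow k R d →ₐ[k] B :=
  PiTensorProduct.liftAlgHom
    ((MultilinearMap.mkPiAlgebra k (Fin d) B).compLinearMap fun i => (P i).toLinearMap)
    (by simp) (by intro x y; simp [Finset.prod_mul_distrib])

@[simp]
theorem lift_ι {B : Type w} [CommRing B] [Algebra k B] (P : Fin d → (R →ₐ[k] B)) (i : Fin d)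
    (r : R) : lift P (ι i r) = P i r := by
  unfold lift ι
  rw [PiTensorProduct.singleAlgHom_apply, PiTensorProduct.liftAlgHom_apply,
    PiTensorProduct.lift.tprod]
  simp only [MultilinearMap.compLinearMap_apply, AlgHom.toLinearMap_apply,
    MultilinearMap.mkPiAlgebra_apply]
  rw [Finset.prod_eq_single i]
  · simp
  · intro j _ hj
    simp [hj]
  · intro h
    exact absurd (Finset.mem_univ i) h

@[simp]
theorem lift_comp_ι {B : Type w} [CommRing B] [Algebra k B] (P : Fin d → (R →ₐ[k] B))
    (i : Fin d) : (lift P).comp (ι i) = P i :=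
  AlgHom.ext fun r => lift_ι P i r

/-- Two algebra maps out of the tensor power that agree on all coordinates are equal. -/
theorem hom_ext {B : Type w} [CommRing B] [Algebra k B] {f g : Pow k R d →ₐ[k] B}
    (h : ∀ i, f.comp (ι i) = g.comp (ι i)) : f = g :=
  PiTensorProduct.algHom_ext h

theorem lift_unique {B : Type w} [CommRing B] [Algebra k B] (P : Fin d → (R →ₐ[k] B))
    (f : Pow k R d →ₐ[k] B) (h : ∀ i, f.comp (ι i) = P i) : f = lift P :=
  hom_ext fun i => by rw [h i, lift_comp_ι]

/-- `R^{⊗0} = k`. -/
noncomputable def zeroEquiv : Pow k R 0 ≃ₐ[k] k :=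
  AlgEquiv.ofAlgHom (lift (fun i => i.elim0)) (Algebra.ofId k _)
    (by ext)
    (hom_ext (fun i => i.elim0))

/-- `R^{⊗(d+1)} = R ⊗ R^{⊗d}`. -/
noncomputable def succEquiv : Pow k R (d + 1) ≃ₐ[k] R ⊗[k] Pow k R d :=
  AlgEquiv.ofAlgHom
    (lift (Fin.cases Algebra.TensorProduct.includeLeft
      (fun i => Algebra.TensorProduct.includeRight.comp (ι i))))
    (Algebra.TensorProduct.lift (ι 0) (lift (fun i => ι i.succ)) (fun _ _ => Commute.all _ _))
    (by
      apply Algebra.TensorProduct.ext
      · ext r; simp
      · apply hom_ext; intro i; ext r; simp)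
    (by
      apply hom_ext; intro i; ext r
      refine Fin.cases ?_ (fun j => ?_) i <;> simp)

@[simp]
theorem succEquiv_ι_zero (r : R) :
    succEquiv (k := k) (R := R) (d := d) (ι 0 r) = r ⊗ₜ[k] (1 : Pow k R d) := by
  simp [succEquiv]

@[simp]
theorem succEquiv_ι_succ (i : Fin d) (r : R) :
    succEquiv (k := k) (R := R) (d := d) (ι i.succ r) = (1 : R) ⊗ₜ[k] (ι i r : Pow k R d) := by
  simp [succEquiv]

variable (k R) in
/-- Tensor powers of finite type algebras are of finite type. -/
theorem finiteType [Algebra.FiniteType k R] (d : ℕ) : Algebra.FiniteType k (Pow k R d) := by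
  induction d with
  | zero => exact Algebra.FiniteType.equiv (inferInstance : Algebra.FiniteType k k) zeroEquiv.symm
  | succ d ih =>
    have := ih
    have h1 : Algebra.FiniteType R (R ⊗[k] Pow k R d) := inferInstance
    have h2 : Algebra.FiniteType k (R ⊗[k] Pow k R d) :=
      Algebra.FiniteType.trans (inferInstance : Algebra.FiniteType k R) h1
    exact Algebra.FiniteType.equiv h2 succEquiv.symm

end Pow

end Pow

section Field

variable (k : Type u) [Field k] [IsAlgClosed k] (R : Type v) [CommRing R] [Algebra k R]
  [IsDomain R]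

/-- Over an algebraically closed field, tensor powers of a domain are domains. -/
theorem Pow.isDomain (d : ℕ) : IsDomain (Pow k R d) := by
  induction d with
  | zero => exact (Pow.zeroEquiv (k := k) (R := R)).toMulEquiv.isDomain k
  | succ d ih =>
    have := ih
    have := Lib.helper9007.isDomain_tensorProduct k R (Pow k R d)
    exact (Pow.succEquiv (k := k) (R := R) (d := d)).toMulEquiv.isDomain (R ⊗[k] Pow k R d)

/-- Geometric integrality of `(Spec R)^d`, right form. -/
theorem Pow.isDomain_tensor_right (d : ℕ) (K : Type w) [Field K] [Algebra k K] :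
    IsDomain (Pow k R d ⊗[k] K) := by
  have := Pow.isDomain k R d
  exact Lib.helper9007.isDomain_tensorProduct k (Pow k R d) K

/-- Geometric integrality of `(Spec R)^d`, left form. -/
theorem Pow.isDomain_tensor_left (d : ℕ) (K : Type w) [Field K] [Algebra k K] :
    IsDomain (K ⊗[k] Pow k R d) := by
  have := Pow.isDomain k R d
  exact Lib.helper9007.isDomain_tensorProduct k K (Pow k R d)

end Field

section Points

variable {k : Type u} [CommRing k] {R : Type v} [CommRing R] [Algebra k R] {d : ℕ}
  {K : Type w} [CommRing K] [Algebra k K]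

/-- The `K`-point of the `K`-algebra `K ⊗ R^{⊗d}` attached to `d` points of `R` with values
in `K`. -/
noncomputable def Pow.pointK (P : Fin d → (R →ₐ[k] K)) : K ⊗[k] Pow k R d →ₐ[K] K :=
  Algebra.TensorProduct.lift (AlgHom.id K K) (Pow.lift P) (fun _ _ => Commute.all _ _)

@[simp]
theorem Pow.pointK_tmul (P : Fin d → (R →ₐ[k] K)) (a : K) (z : Pow k R d) :
    Pow.pointK P (a ⊗ₜ[k] z) = a * Pow.lift P z := by
  simp [Pow.pointK]

theorem Pow.pointK_comp_includeRight (P : Fin d → (R →ₐ[k] K)) :
    ((Pow.pointK P).restrictScalars k).comp Algebra.TensorProduct.includeRight = Pow.lift P := by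
  ext z; simp

/-- Every `K`-point of `K ⊗ R^{⊗d}` comes from a unique family of `d` points. -/
theorem Pow.exists_pointK (q : K ⊗[k] Pow k R d →ₐ[K] K) :
    ∃ P : Fin d → (R →ₐ[k] K), q = Pow.pointK P := by
  refine ⟨fun i => ((q.restrictScalars k).comp Algebra.TensorProduct.includeRight).comp
    (Pow.ι i), ?_⟩
  apply Algebra.TensorProduct.ext
  · ext
  · apply Pow.hom_ext
    intro i
    ext r
    simp

/-- `K ⊗ R^{⊗d}` is of finite type over `K`. -/
theorem Pow.finiteType_tensor_left [Algebra.FiniteType k R] (d : ℕ) (K : Type w) [CommRing K]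
    [Algebra k K] : Algebra.FiniteType K (K ⊗[k] Pow k R d) := by
  have := Pow.finiteType k R d
  infer_instance

/-- The coordinate points are jointly surjective in the sense that the tensor power is
generated by their images: a map out of it is determined by the points (K-algebra form). -/
theorem Pow.pointK_injective {P Q : Fin d → (R →ₐ[k] K)}
    (h : Pow.pointK P = Pow.pointK Q) : P = Q := by
  funext i
  have h1 := congrArg (fun q : K ⊗[k] Pow k R d →ₐ[K] K =>
    ((q.restrictScalars k).comp Algebra.TensorProduct.includeRight).comp (Pow.ι i)) h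
  simpa [Pow.pointK_comp_includeRight] using h1

end Points

end Fermat.Agent.S25.helper5047
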