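import Fermat.Agent.S25.helper2945_AlgDefs

/-!
# S25, layer C (algebra core): specification of the chart layer and its assembly (helper8573)

The chart layer has to deliver a family of algebraic charts (`AlgChartFamily` of the master
Spec, part III): finite type `k`-algebras `E i` with rigidified degree-zero two-chart bundles
`P i` over them, which are monomorphisms of functors, open, and jointly covering.

This file fixes the ONE interface between the two halves of that work, in the vocabulary of
`helper2945_AlgDefs` only (no auxiliary construction has to be agreed on):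

* `Mor G G'`       : morphisms of two-chart line bundles;
* `InChartOf N G`  : the intrinsic chart condition for a base bundle `N` over `k` and a bundle
  `G` over a `k`-algebra `B`: there is `σ : G → N_B` which is surjective modulo `y` on the
  chart at infinity (an isomorphism along `V(y)`) and which generates all morphisms `G → N_B`;
* `Stmt_ChartOf`   : (chart theorem + openness) for EVERY base bundle `N` of degree `g` there is
  a small family of charts (finite type, rigidified, degree zero, mono, open) through which every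
  field-valued bundle satisfying `InChartOf N` factors;
* `Stmt_Cover`     : (general position) there is a small family of base bundles of degree `g`
  such that every rigidified degree-zero bundle over a field satisfies `InChartOf` for one of
  them;
* `exists_algCharts` : the formal assembly: these two statements (and stability of `IsRig`,
  `DegZero` under base change) give the chart family, in exactly the unfolded shape of
  `Stmt_AlgCharts`.
-/

set_option autoImplicit false

open TensorProduct

namespace Fermat.Agent.S25.helper8573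

open Fermat.Agent.S25.helper1705 Fermat.Agent.S25.helper2945

universe u

section Defs

variable {k : Type u} [Field k] {D : CurveDatum k}

/-- A morphism of two-chart line bundles: linear maps on the three charts commuting with the
restriction maps. -/
structure Mor {B : Type u} [CommRing B] [Algebra k B] (G G' : GlueDatum D B) where
  /-- on the first chart -/
  f₀ : G.M₀ →ₗ[D.A₀ B] G'.M₀
  /-- on the chart at infinity -/
  f₁ : G.M₁ →ₗ[D.A₁ B] G'.M₁
  /-- on the overlap -/
  f₀₁ : G.M₀₁ →ₗ[D.A₀₁ B] G'.M₀₁
  comm₀ : ∀ m, f₀₁ (G.ρ₀ m) = G'.ρ₀ (f₀ m)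
  comm₁ : ∀ m, f₀₁ (G.ρ₁ m) = G'.ρ₁ (f₁ m)

/-- The morphism underlying an isomorphism. -/
def Mor.ofIso {B : Type u} [CommRing B] [Algebra k B] {G G' : GlueDatum D B}
    (e : GlueDatum.Iso G G') : Mor G G' where
  f₀ := e.e₀.toLinearMap
  f₁ := e.e₁.toLinearMap
  f₀₁ := e.e₀₁.toLinearMap
  comm₀ := e.comm₀
  comm₁ := e.comm₁

/-- Composition of morphisms. -/
def Mor.comp {B : Type u} [CommRing B] [Algebra k B] {G G' G'' : GlueDatum D B}
    (g : Mor G' G'') (f : Mor G G') : Mor G G'' where
  f₀ := g.f₀.comp f.f₀
  f₁ := g.f₁.comp f.f₁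
  f₀₁ := g.f₀₁.comp f.f₀₁
  comm₀ m := by simp [f.comm₀, g.comm₀]
  comm₁ m := by simp [f.comm₁, g.comm₁]

/-- `σ` is surjective modulo `y` on the chart at infinity, i.e. `σ` is an isomorphism along the
divisor `V(y)` (which contains the marked point `ε`). -/
def Mor.SurjModY {B : Type u} [CommRing B] [Algebra k B] {G G' : GlueDatum D B}
    (σ : Mor G G') : Prop :=
  ∀ n : G'.M₁, ∃ (m : G.M₁) (n' : G'.M₁), n = σ.f₁ m + yB D B • n'

/-- `σ` generates the `B`-module of all morphisms `G → G'`. -/
def Mor.Generates {B : Type u} [CommRing B] [Algebra k B] {G G' : GlueDatum D B}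
    (σ : Mor G G') : Prop :=
  ∀ τ : Mor G G', ∃ c : B, (∀ m, τ.f₀ m = c • σ.f₀ m) ∧ (∀ m, τ.f₁ m = c • σ.f₁ m)

/-- The base bundle `N` (over `k`) pulled back to `C ×ₖ Spec B`. -/
noncomputable abbrev baseOver (N : GlueDatum D k) (B : Type u) [CommRing B] [Algebra k B] :
    GlueDatum D B :=
  N.baseChange (Algebra.ofId k B)

/-- The intrinsic chart condition: `G` admits a morphism to `N_B` which is an isomorphism along
`V(y)` and generates all morphisms `G → N_B`. (Over a field: `Hom(G, N_K)` is a line spanned by
a morphism whose zero divisor lies in the first chart.) -/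
def InChartOf (N : GlueDatum D k) {B : Type u} [CommRing B] [Algebra k B]
    (G : GlueDatum D B) : Prop :=
  ∃ σ : Mor G (baseOver N B), σ.SurjModY ∧ σ.Generates

/-- `G` is pulled back from the chart `(E, P)`. -/
def InChart {E : Type u} [CommRing E] [Algebra k E] (P : GlueDatum D E)
    {B : Type u} [CommRing B] [Algebra k B] (G : GlueDatum D B) : Prop :=
  ∃ γ : E →ₐ[k] B, (P.baseChange γ).Equiv G

/-- The chart `(E, P)` is a monomorphism of functors. -/
def ChartMono {E : Type u} [CommRing E] [Algebra k E] (P : GlueDatum D E) : Prop :=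
  ∀ (B : Type u) [CommRing B] [Algebra k B] (φ φ' : E →ₐ[k] B),
    (P.baseChange φ).Equiv (P.baseChange φ') → φ = φ'

/-- The chart `(E, P)` is an open subfunctor of the functor of rigidified degree-zero bundles. -/
def ChartOpen {E : Type u} [CommRing E] [Algebra k E] (P : GlueDatum D E) : Prop :=
  ∀ (B : Type u) [CommRing B] [Algebra k B] (G : GlueDatum D B), G.IsRig → G.DegZero →
    ∃ U : Set (PrimeSpectrum B), IsOpen U ∧
      ∀ (B' : Type u) [CommRing B'] [Algebra k B'] (φ : B →ₐ[k] B'),
        (∀ p : PrimeSpectrum B', PrimeSpectrum.comap φ.toRingHom p ∈ U) ↔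
          InChart P (G.baseChange φ)

variable (D) in
/-- The genus `g = dim H¹(C, 𝒪)`. -/
noncomputable def genus : ℕ := Module.finrank k (GlueDatum.unit D k).H1

/-- `N` (over `k`) has degree `g`: `χ(N) = χ(𝒪) + g`. -/
def HasDegreeGenus (N : GlueDatum D k) : Prop :=
  N.chi = (GlueDatum.unit D k).chi + (genus D : ℤ)

end Defs

/-- CHART-OF (chart theorem + openness; leaves U4, U5a, LC-QC, LC-HOM, U3).
For every base bundle `N` of degree `g` there is a small family of charts — finite type
`k`-algebras with rigidified degree-zero bundles that are monomorphisms and open subfunctors —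
such that every rigidified degree-zero bundle over a field satisfying the intrinsic chart
condition `InChartOf N` is pulled back from one of them. -/
def Stmt_ChartOf : Prop :=
  ∀ (k : Type u) [Field k] [IsAlgClosed k] (D : CurveDatum k) (N : GlueDatum D k),
    HasDegreeGenus N →
    ∃ (ι : Type u) (E : ι → Type u) (_ : ∀ i, CommRing (E i)) (_ : ∀ i, Algebra k (E i))
      (P : ∀ i, GlueDatum D (E i)),
      (∀ i, Algebra.FiniteType k (E i)) ∧ (∀ i, (P i).IsRig) ∧ (∀ i, (P i).DegZero) ∧
      (∀ i, ChartMono (P i)) ∧ (∀ i, ChartOpen (P i)) ∧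
      ∀ (K : Type u) [Field K] [Algebra k K] (G : GlueDatum D K), G.IsRig → G.DegZero →
        InChartOf N G → ∃ i, InChart (P i) G

/-- COVER (general position; leaf U5b). There is a small family of base bundles of degree `g`
over `k` such that every rigidified degree-zero bundle over a field `K ⊇ k` satisfies the
intrinsic chart condition for one of them. -/
def Stmt_Cover : Prop :=
  ∀ (k : Type u) [Field k] [IsAlgClosed k] (D : CurveDatum k),
    ∃ (ι₀ : Type u) (N : ι₀ → GlueDatum D k), (∀ j, HasDegreeGenus (N j)) ∧
      ∀ (K : Type u) [Field K] [Algebra k K] (G : GlueDatum D K), G.IsRig → G.DegZero →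
        ∃ j, InChartOf (N j) G

/-- RIG-BC (API). Rigidifications pull back. -/
def Stmt_RigBC : Prop :=
  ∀ (k : Type u) [Field k] (D : CurveDatum k) (B B' : Type u) [CommRing B] [Algebra k B]
    [CommRing B'] [Algebra k B'] (φ : B →ₐ[k] B') (G : GlueDatum D B),
    G.IsRig → (G.baseChange φ).IsRig

/-- DEG-BC (API). Degree zero is stable under base change. -/
def Stmt_DegZeroBC : Prop :=
  ∀ (k : Type u) [Field k] (D : CurveDatum k) (B B' : Type u) [CommRing B] [Algebra k B]
    [CommRing B'] [Algebra k B'] (φ : B →ₐ[k] B') (G : GlueDatum D B),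
    G.DegZero → (G.baseChange φ).DegZero

/-- ASSEMBLY of the chart layer: the unfolded form of `Stmt_AlgCharts` (existence of an
`AlgChartFamily` which is mono and an open cover) from `Stmt_ChartOf` and `Stmt_Cover`. -/
theorem exists_algCharts (hChart : Stmt_ChartOf.{u}) (hCover : Stmt_Cover.{u})
    (hRig : Stmt_RigBC.{u}) (hDeg : Stmt_DegZeroBC.{u})
    (k : Type u) [Field k] [IsAlgClosed k] (D : CurveDatum k) :
    ∃ (ι : Type u) (E : ι → Type u) (_ : ∀ i, CommRing (E i)) (_ : ∀ i, Algebra k (E i))
      (P : ∀ i, GlueDatum D (E i)),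
      (∀ i, Algebra.FiniteType k (E i)) ∧ (∀ i, (P i).IsRig) ∧ (∀ i, (P i).DegZero) ∧
      (∀ (i : ι) (B : Type u) [CommRing B] [Algebra k B] (φ φ' : E i →ₐ[k] B),
        ((P i).baseChange φ).Equiv ((P i).baseChange φ') → φ = φ') ∧
      (∀ (B : Type u) [CommRing B] [Algebra k B] (G : GlueDatum D B), G.IsRig → G.DegZero →
        ∃ U : ι → Set (PrimeSpectrum B), (∀ i, IsOpen (U i)) ∧
          (∀ (i : ι) (B' : Type u) [CommRing B'] [Algebra k B'] (φ : B →ₐ[k] B'),
            (∀ p : PrimeSpectrum B', PrimeSpectrum.comap φ.toRingHom p ∈ U i) ↔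
              ∃ γ : E i →ₐ[k] B', ((P i).baseChange γ).Equiv (G.baseChange φ)) ∧
          (⋃ i, U i) = Set.univ) := by
  classical
  obtain ⟨ι₀, N, hN, hcov⟩ := hCover k D
  choose ι' E' instR instA P' hft hrig hdeg hmono hopen himg using fun j => hChart k D (N j) (hN j)
  refine ⟨Σ j, ι' j, fun i => E' i.1 i.2, fun i => instR i.1 i.2, fun i => instA i.1 i.2,
    fun i => P' i.1 i.2, fun i => hft i.1 i.2, fun i => hrig i.1 i.2, fun i => hdeg i.1 i.2,
    fun i B _ _ φ φ' h => hmono i.1 i.2 B φ φ' h, ?_⟩
  intro B _ _ G hG hG0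
  choose U hU hUiff using fun i : Σ j, ι' j => hopen i.1 i.2 B G hG hG0
  refine ⟨U, hU, fun i B' _ _ φ => hUiff i B' φ, ?_⟩
  refine Set.eq_univ_of_forall fun p => ?_
  -- the residue field at `p`
  let K := p.asIdeal.ResidueField
  let φp : B →ₐ[k] K := IsScalarTower.toAlgHom k B K
  have hGp : (G.baseChange φp).IsRig := hRig k D B K φp G hG
  have hGp0 : (G.baseChange φp).DegZero := hDeg k D B K φp G hG0
  obtain ⟨j, hj⟩ := hcov K (G.baseChange φp) hGp hGp0
  obtain ⟨i, hi⟩ := himg j K (G.baseChange φp) hGp hGp0 hj
  refine Set.mem_iUnion.mpr ⟨⟨j, i⟩, ?_⟩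
  have h := (hUiff ⟨j, i⟩ K φp).mpr hi
  have hp := h ⊥
  have hker : PrimeSpectrum.comap φp.toRingHom (⊥ : PrimeSpectrum K) = p := by
    apply PrimeSpectrum.ext
    change Ideal.comap φp.toRingHom ⊥ = p.asIdeal
    rw [← RingHom.ker_eq_comap_bot]
    exact Ideal.ker_algebraMap_residueField p.asIdeal
  rwa [hker] at hp

end Fermat.Agent.S25.helper8573
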