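import Fermat.Agent.S25.helper2945_AlgDefs
import Fermat.Agent.S25.helper8573_LCSpec
import Fermat.Agent.S25.helper3115_TwistGlue
import Fermat.Agent.S25.helper743_AlgApi
import Fermat.Agent.S25.helper1153_TwistConst

/-!
# S25, leaf U1b part 2: `χ` is additive under twists, in `GlueDatum` vocabulary (helper1153)

`K` is a field over `k` and `G`, `G'` are two-chart line bundles over `K`
(`helper2945.GlueDatum D K`), with finite-dimensional cohomology.

* `chi_eq_of_mor` : for an injective morphism `σ : G → G'` (`helper8573.Mor`) with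
  finite-dimensional cokernels `Q₀`, `Q₁`, `Q₀₁` on the three charts,
  `χ(G') = χ(G) + dim Q₀ + dim Q₁ - dim Q₀₁`.
* `IsTwistInf n G G'` : `G'` is (isomorphic to) the twist `G(n · D∞)`, `n : ℕ`; stated without
  any twist constructor, so that it applies to every construction of the twist:
  isomorphisms on the first chart and on the overlap, and `ρ₁ b = ρ₁' (yⁿ • e₁ b)` on the
  chart at infinity.
* `IsTwistInf.chi_eq` : `χ(G(n · D∞)) = χ(G) + n * degInf D`.
* `chi_twist`, `chi_twist_eq`, `chi_baseChange_twist` : the same for THE twist constructor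
  `helper3115.twist G m`, `m : ℤ`:  `χ(G(m · D∞)) = χ(G) + m * degInf D`, with
  finite-dimensionality of the cohomology of every twist; `finrank_quot_range_yEnd` is the
  constant `dim_K (M₁ / y M₁) = degInf D` in the shape of `helper3115.chi_twist`.
-/

set_option autoImplicit false

universe u

open scoped TensorProduct Pointwise

namespace Fermat.Agent.S25.helper1153

open Fermat.Agent.S25.helper1705 Fermat.Agent.S25.helper2945 Fermat.Agent.S25.helper8573

/-! ## Linear algebra: the index of a morphism of two-term complexes -/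

section Index

variable {K : Type*} [Field K] {E F E' F' : Type*} [AddCommGroup E] [Module K E]
  [AddCommGroup F] [Module K F] [AddCommGroup E'] [Module K E'] [AddCommGroup F'] [Module K F']

/-- Index formula for an injective morphism `(ι, τ) : d → d'` of two-term complexes with
finite-dimensional cokernels: `index d' = index d + dim coker ι - dim coker τ`. -/
theorem index_eq_of_injective_comm (d : E →ₗ[K] F) (d' : E' →ₗ[K] F') (ι : E →ₗ[K] E')
    (τ : F →ₗ[K] F') (hcomm : d' ∘ₗ ι = τ ∘ₗ d) (hι : Function.Injective ι)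
    (hτ : Function.Injective τ)
    [FiniteDimensional K (LinearMap.ker d)] [FiniteDimensional K (F ⧸ LinearMap.range d)]
    [FiniteDimensional K (LinearMap.ker d')] [FiniteDimensional K (F' ⧸ LinearMap.range d')]
    [FiniteDimensional K (E' ⧸ LinearMap.range ι)]
    [FiniteDimensional K (F' ⧸ LinearMap.range τ)] :
    d'.index = d.index + Module.finrank K (E' ⧸ LinearMap.range ι)
      - Module.finrank K (F' ⧸ LinearMap.range τ) := by
  have hkι : FiniteDimensional K (LinearMap.ker ι) := by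
    rw [LinearMap.ker_eq_bot.mpr hι]; infer_instance
  have hkτ : FiniteDimensional K (LinearMap.ker τ) := by
    rw [LinearMap.ker_eq_bot.mpr hτ]; infer_instance
  have h1 : (d' ∘ₗ ι).index = d'.index + ι.index := LinearMap.index_comp d'
  have h2 : (τ ∘ₗ d).index = τ.index + d.index := LinearMap.index_comp τ
  rw [hcomm, h2, LinearMap.index_of_injective hι, LinearMap.index_of_injective hτ] at h1
  linarith

variable {M N M' N' : Type*} [AddCommGroup M] [Module K M] [AddCommGroup N] [Module K N]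
  [AddCommGroup M'] [Module K M'] [AddCommGroup N'] [Module K N']

/-- The cokernel of `f × g` is the product of the cokernels. -/
noncomputable def quotRangeProdMapEquiv (f : M →ₗ[K] M') (g : N →ₗ[K] N') :
    ((M' × N') ⧸ LinearMap.range (f.prodMap g)) ≃ₗ[K]
      (M' ⧸ LinearMap.range f) × (N' ⧸ LinearMap.range g) := by
  have hsurj : Function.Surjective
      ((LinearMap.range f).mkQ.prodMap (LinearMap.range g).mkQ) := by
    rintro ⟨a, b⟩
    obtain ⟨a, rfl⟩ := Submodule.mkQ_surjective _ a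
    obtain ⟨b, rfl⟩ := Submodule.mkQ_surjective _ b
    exact ⟨(a, b), rfl⟩
  have hker : LinearMap.ker ((LinearMap.range f).mkQ.prodMap (LinearMap.range g).mkQ) =
      LinearMap.range (f.prodMap g) := by
    rw [LinearMap.ker_prodMap, Submodule.ker_mkQ, Submodule.ker_mkQ, LinearMap.range_prodMap]
  exact (Submodule.quotEquivOfEq _ _ hker.symm).trans
    (LinearMap.quotKerEquivOfSurjective _ hsurj)

end Index

/-! ## `χ` of an injective morphism of two-chart line bundles over a field -/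

section Glue

variable {k : Type u} [Field k] {D : CurveDatum k} {K : Type u} [Field K] [Algebra k K]

/-- `χ` is the index of the Čech differential. -/
theorem chi_eq_index (G : GlueDatum D K) : G.chi = G.delta.index := rfl

variable {G G' : GlueDatum D K}

/-- The map of Čech complexes induced by a morphism of bundles, in degree zero. -/
noncomputable def morProd (σ : Mor G G') : (G.M₀ × G.M₁) →ₗ[K] (G'.M₀ × G'.M₁) :=
  (σ.f₀.restrictScalars K).prodMap (σ.f₁.restrictScalars K)

theorem delta_comp_morProd (σ : Mor G G') :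
    G'.delta ∘ₗ morProd σ = (σ.f₀₁.restrictScalars K) ∘ₗ G.delta := by
  refine LinearMap.ext fun p => ?_
  simp [morProd, σ.comm₀, σ.comm₁]

/-- `χ` OF AN INJECTIVE MORPHISM. For an injective morphism `σ : G → G'` of two-chart line
bundles over a field with finite-dimensional cokernels `Q₀`, `Q₁`, `Q₀₁`:
`χ(G') = χ(G) + dim Q₀ + dim Q₁ - dim Q₀₁`. -/
theorem chi_eq_of_mor (σ : Mor G G') (h₀ : Function.Injective σ.f₀)
    (h₁ : Function.Injective σ.f₁) (h₀₁ : Function.Injective σ.f₀₁)
    [Module.Finite K G.H0] [Module.Finite K G.H1] [Module.Finite K G'.H0] [Module.Finite K G'.H1]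
    [Module.Finite K (G'.M₀ ⧸ LinearMap.range σ.f₀)]
    [Module.Finite K (G'.M₁ ⧸ LinearMap.range σ.f₁)]
    [Module.Finite K (G'.M₀₁ ⧸ LinearMap.range σ.f₀₁)] :
    G'.chi = G.chi + Module.finrank K (G'.M₀ ⧸ LinearMap.range σ.f₀)
      + Module.finrank K (G'.M₁ ⧸ LinearMap.range σ.f₁)
      - Module.finrank K (G'.M₀₁ ⧸ LinearMap.range σ.f₀₁) := by
  -- the three cokernels, as quotients by `K`-submodules
  have e₀ : (G'.M₀ ⧸ LinearMap.range (σ.f₀.restrictScalars K)) ≃ₗ[K]
      (G'.M₀ ⧸ LinearMap.range σ.f₀) :=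
    (Submodule.quotEquivOfEq _ _ (LinearMap.range_restrictScalars (R := K) σ.f₀)).trans
      (Submodule.Quotient.restrictScalarsEquiv K _)
  have e₁ : (G'.M₁ ⧸ LinearMap.range (σ.f₁.restrictScalars K)) ≃ₗ[K]
      (G'.M₁ ⧸ LinearMap.range σ.f₁) :=
    (Submodule.quotEquivOfEq _ _ (LinearMap.range_restrictScalars (R := K) σ.f₁)).trans
      (Submodule.Quotient.restrictScalarsEquiv K _)
  have e₀₁ : (G'.M₀₁ ⧸ LinearMap.range (σ.f₀₁.restrictScalars K)) ≃ₗ[K]
      (G'.M₀₁ ⧸ LinearMap.range σ.f₀₁) :=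
    (Submodule.quotEquivOfEq _ _ (LinearMap.range_restrictScalars (R := K) σ.f₀₁)).trans
      (Submodule.Quotient.restrictScalarsEquiv K _)
  have hf₀ : Module.Finite K (G'.M₀ ⧸ LinearMap.range (σ.f₀.restrictScalars K)) :=
    Module.Finite.equiv e₀.symm
  have hf₁ : Module.Finite K (G'.M₁ ⧸ LinearMap.range (σ.f₁.restrictScalars K)) :=
    Module.Finite.equiv e₁.symm
  have hf₀₁ : Module.Finite K (G'.M₀₁ ⧸ LinearMap.range (σ.f₀₁.restrictScalars K)) :=
    Module.Finite.equiv e₀₁.symm
  have eE : ((G'.M₀ × G'.M₁) ⧸ LinearMap.range (morProd σ)) ≃ₗ[K]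
      (G'.M₀ ⧸ LinearMap.range (σ.f₀.restrictScalars K)) ×
        (G'.M₁ ⧸ LinearMap.range (σ.f₁.restrictScalars K)) :=
    quotRangeProdMapEquiv (σ.f₀.restrictScalars K) (σ.f₁.restrictScalars K)
  have hfE : Module.Finite K ((G'.M₀ × G'.M₁) ⧸ LinearMap.range (morProd σ)) :=
    Module.Finite.equiv eE.symm
  have hk : Module.Finite K (LinearMap.ker G.delta) := ‹Module.Finite K G.H0›
  have hk' : Module.Finite K (LinearMap.ker G'.delta) := ‹Module.Finite K G'.H0›
  have hc : Module.Finite K (G.M₀₁ ⧸ LinearMap.range G.delta) := ‹Module.Finite K G.H1›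
  have hc' : Module.Finite K (G'.M₀₁ ⧸ LinearMap.range G'.delta) := ‹Module.Finite K G'.H1›
  have hι : Function.Injective (morProd σ) := Function.Injective.prodMap h₀ h₁
  have key := index_eq_of_injective_comm G.delta G'.delta (morProd σ)
    (σ.f₀₁.restrictScalars K) (delta_comp_morProd σ) hι h₀₁
  have hE : Module.finrank K ((G'.M₀ × G'.M₁) ⧸ LinearMap.range (morProd σ)) =
      Module.finrank K (G'.M₀ ⧸ LinearMap.range σ.f₀) +
        Module.finrank K (G'.M₁ ⧸ LinearMap.range σ.f₁) := by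
    rw [eE.finrank_eq, Module.finrank_prod, e₀.finrank_eq, e₁.finrank_eq]
  rw [chi_eq_index, chi_eq_index, key, hE, e₀₁.finrank_eq]
  push_cast
  ring

end Glue

/-! ## The twist by `n · D∞`, as a relation -/

section Twist

variable {k : Type u} [Field k] {D : CurveDatum k}

/-- `G'` is (isomorphic to) the twist `G(n · D∞)` of `G` by `n` times the divisor at infinity:
the two bundles agree on the first chart and on the overlap, and on the chart at infinity
`M₁' = y⁻ⁿ M₁` inside `M₀₁`, i.e. `ρ₁ b = ρ₁' (yⁿ • e₁ b)` (equivalently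
`ρ₁' ∘ e₁ = xⁿ • ρ₁`: the gluing is rescaled by `xⁿ`).  No twist constructor is involved. -/
def IsTwistInf {B : Type u} [CommRing B] [Algebra k B] (n : ℕ) (G G' : GlueDatum D B) : Prop :=
  ∃ (e₀ : G.M₀ ≃ₗ[D.A₀ B] G'.M₀) (e₁ : G.M₁ ≃ₗ[D.A₁ B] G'.M₁)
    (e₀₁ : G.M₀₁ ≃ₗ[D.A₀₁ B] G'.M₀₁),
    (∀ a, e₀₁ (G.ρ₀ a) = G'.ρ₀ (e₀ a)) ∧
      ∀ b, e₀₁ (G.ρ₁ b) = G'.ρ₁ (helper2945.yB D B ^ n • e₁ b)

/-- The inclusion `G → G(n · D∞)`. -/
noncomputable def morOfTwist {B : Type u} [CommRing B] [Algebra k B] {n : ℕ}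
    {G G' : GlueDatum D B} (e₀ : G.M₀ ≃ₗ[D.A₀ B] G'.M₀) (e₁ : G.M₁ ≃ₗ[D.A₁ B] G'.M₁)
    (e₀₁ : G.M₀₁ ≃ₗ[D.A₀₁ B] G'.M₀₁) (h₀ : ∀ a, e₀₁ (G.ρ₀ a) = G'.ρ₀ (e₀ a))
    (h₁ : ∀ b, e₀₁ (G.ρ₁ b) = G'.ρ₁ (helper2945.yB D B ^ n • e₁ b)) : Mor G G' where
  f₀ := e₀.toLinearMap
  f₁ := (helper2945.yB D B ^ n) • e₁.toLinearMap
  f₀₁ := e₀₁.toLinearMap
  comm₀ := h₀
  comm₁ := h₁

variable {K : Type u} [Field K] [Algebra k K] {G G' : GlueDatum D K}

/-- `χ(G(n · D∞)) = χ(G) + n * degInf D` over a field. -/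
theorem IsTwistInf.chi_eq {n : ℕ} (h : IsTwistInf n G G')
    [Module.Finite K G.H0] [Module.Finite K G.H1] [Module.Finite K G'.H0]
    [Module.Finite K G'.H1] :
    G'.chi = G.chi + n * degInf D := by
  obtain ⟨e₀, e₁, e₀₁, h₀, h₁⟩ := h
  set σ : Mor G G' := morOfTwist e₀ e₁ e₀₁ h₀ h₁ with hσ
  have hy : helper2945.yB D K = yB D K := rfl
  -- ranges
  have hr₀ : LinearMap.range σ.f₀ = ⊤ := LinearMap.range_eq_top.mpr e₀.surjective
  have hr₀₁ : LinearMap.range σ.f₀₁ = ⊤ := LinearMap.range_eq_top.mpr e₀₁.surjective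
  have hr₁ : LinearMap.range σ.f₁ = (yB D K ^ n) • (⊤ : Submodule (D.A₁ K) G'.M₁) := by
    ext z
    rw [Submodule.mem_smul_pointwise_iff_exists]
    constructor
    · rintro ⟨b, rfl⟩
      exact ⟨e₁ b, Submodule.mem_top, rfl⟩
    · rintro ⟨b, -, rfl⟩
      exact ⟨e₁.symm b, by simp [hσ, morOfTwist, hy]⟩
  -- injectivity
  have hi₁ : Function.Injective σ.f₁ := by
    have hreg : IsSMulRegular G'.M₁ (yB D K ^ n) := (yB_isSMulRegular D K G'.M₁).pow n
    intro a b hab
    exact e₁.injective (hreg hab)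
  -- finiteness and dimensions of the cokernels
  have hs₀ : Subsingleton (G'.M₀ ⧸ LinearMap.range σ.f₀) := by
    rw [hr₀]; infer_instance
  have hs₀₁ : Subsingleton (G'.M₀₁ ⧸ LinearMap.range σ.f₀₁) := by
    rw [hr₀₁]; infer_instance
  have hfin₁ : Module.Finite K (G'.M₁ ⧸ LinearMap.range σ.f₁) := by
    rw [hr₁]; exact finite_quot_yB_pow_smul_field D K G'.M₁ n
  have hd₁ : Module.finrank K (G'.M₁ ⧸ LinearMap.range σ.f₁) = n * degInf D := by
    rw [hr₁]; exact finrank_quot_yB_pow_smul D K G'.M₁ n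
  have key := chi_eq_of_mor σ e₀.injective hi₁ e₀₁.injective
  rw [key, hd₁, Module.finrank_zero_of_subsingleton, Module.finrank_zero_of_subsingleton]
  push_cast
  ring

end Twist

/-! ## The twist `helper3115.twist G m` by `m · D∞` -/

section TwistGlue

variable {k : Type u} [Field k] {D : CurveDatum k}

section Base

variable {B : Type u} [CommRing B] [Algebra k B]

/-- `xᵐ • (yᵐ • z) = z` on the overlap. -/
theorem xU_pow_smul_yB_pow_smul (G : GlueDatum D B) (n : ℕ) (z : G.M₀₁) :
    ((helper3115.xU D B ^ (n : ℤ) : (D.A₀₁ B)ˣ) : D.A₀₁ B) • (helper2945.yB D B ^ n • z) = z := by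
  have h : ((helper3115.xU D B ^ (n : ℤ) : (D.A₀₁ B)ˣ) : D.A₀₁ B) *
      algebraMap (D.A₁ B) (D.A₀₁ B) (helper2945.yB D B ^ n) = 1 := by
    rw [zpow_natCast, Units.val_pow_eq_pow_val, map_pow, ← mul_pow, helper3115.xU_val,
      xB_mul_yB, one_pow]
  rw [← algebraMap_smul (D.A₀₁ B) (helper2945.yB D B ^ n) z, smul_smul, h, one_smul]

/-- `helper3115.twist G n` is the twist of `G` by `n · D∞` in the sense of `IsTwistInf`. -/
theorem isTwistInf_twist (G : GlueDatum D B) (n : ℕ) :
    IsTwistInf n G (helper3115.twist G (n : ℤ)) :=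
  ⟨LinearEquiv.refl _ _, LinearEquiv.refl _ _, LinearEquiv.refl _ _, fun _ => rfl, fun b => by
    change G.ρ₁ b = (helper3115.twist G (n : ℤ)).ρ₁ (helper2945.yB D B ^ n • b)
    rw [helper3115.twist_ρ₁_apply, map_smul, xU_pow_smul_yB_pow_smul]⟩

end Base

variable {K : Type u} [Field K] [Algebra k K]

/-- The range of multiplication by `y` on `M₁`. -/
theorem range_yEnd (G : GlueDatum D K) :
    LinearMap.range (helper3115.yEnd G) =
      ((yB D K) • (⊤ : Submodule (D.A₁ K) G.M₁)).restrictScalars K := by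
  ext z
  rw [Submodule.restrictScalars_mem, Submodule.mem_smul_pointwise_iff_exists]
  constructor
  · rintro ⟨b, rfl⟩
    exact ⟨b, Submodule.mem_top, rfl⟩
  · rintro ⟨b, -, rfl⟩
    exact ⟨b, rfl⟩

/-- `M₁ / y M₁`, as the cokernel of `helper3115.yEnd G`. -/
noncomputable def quotRangeYEndEquiv (G : GlueDatum D K) :
    (G.M₁ ⧸ LinearMap.range (helper3115.yEnd G)) ≃ₗ[K] QuotSMulTop (yB D K) G.M₁ :=
  (Submodule.quotEquivOfEq _ _ (range_yEnd G)).trans
    (Submodule.Quotient.restrictScalarsEquiv K _)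

theorem yEnd_injective (G : GlueDatum D K) : Function.Injective (helper3115.yEnd G) :=
  yB_isSMulRegular D K G.M₁

theorem finite_quot_range_yEnd (G : GlueDatum D K) :
    Module.Finite K (G.M₁ ⧸ LinearMap.range (helper3115.yEnd G)) :=
  have _h : Module.Finite K (QuotSMulTop (yB D K) G.M₁) :=
    finite_quotSMulTop_tmul k D.R₁ D.y K G.M₁
  Module.Finite.equiv (quotRangeYEndEquiv G).symm

/-- THE CONSTANT for `helper3115.chi_twist`. -/
theorem finrank_quot_range_yEnd (G : GlueDatum D K) :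
    Module.finrank K (G.M₁ ⧸ LinearMap.range (helper3115.yEnd G)) = degInf D := by
  rw [(quotRangeYEndEquiv G).finrank_eq]
  exact finrank_quot_yB_smul D K G.M₁

/-- `χ` IS ADDITIVE UNDER THE TWIST BY `m · D∞`:
`χ(G(m · D∞)) = χ(G) + m * degInf D` over a field, and the cohomology of the twist is
finite-dimensional as soon as that of `G` is. -/
theorem chi_twist (G : GlueDatum D K) (h0 : helper3115.FinCoh G.delta) (m : ℤ) :
    helper3115.FinCoh (helper3115.twist G m).delta ∧
      (helper3115.twist G m).chi = G.chi + m * degInf D := by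
  have key := helper3115.chi_twist G (yEnd_injective G) (finite_quot_range_yEnd G) h0 m
  rw [finrank_quot_range_yEnd] at key
  exact key

/-- `χ(G(m · D∞)) = χ(G) + m * degInf D`, instance form. -/
theorem chi_twist_eq (G : GlueDatum D K) [h0 : Module.Finite K G.H0] [h1 : Module.Finite K G.H1]
    (m : ℤ) : (helper3115.twist G m).chi = G.chi + m * degInf D :=
  (chi_twist G ⟨h0, h1⟩ m).2

/-- The cohomology of a twist is finite-dimensional. -/
theorem finite_H0_twist (G : GlueDatum D K) [h0 : Module.Finite K G.H0]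
    [h1 : Module.Finite K G.H1] (m : ℤ) : Module.Finite K (helper3115.twist G m).H0 :=
  (chi_twist G ⟨h0, h1⟩ m).1.1

theorem finite_H1_twist (G : GlueDatum D K) [h0 : Module.Finite K G.H0]
    [h1 : Module.Finite K G.H1] (m : ℤ) : Module.Finite K (helper3115.twist G m).H1 :=
  (chi_twist G ⟨h0, h1⟩ m).1.2

/-- Fibrewise form: for `G` over any `k`-algebra `B` and a field-valued point `φ : B → K`,
`χ(G(m · D∞)_φ) = χ(G_φ) + m * degInf D`. -/
theorem chi_baseChange_twist {B : Type u} [CommRing B] [Algebra k B] (G : GlueDatum D B)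
    (φ : B →ₐ[k] K) (h0 : helper3115.FinCoh (G.baseChange φ).delta) (m : ℤ) :
    ((helper3115.twist G m).baseChange φ).chi = (G.baseChange φ).chi + m * degInf D := by
  rw [helper743.equiv_chi_eq (helper3115.baseChange_twist G φ m)]
  exact (chi_twist _ h0 m).2

end TwistGlue

end Fermat.Agent.S25.helper1153
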