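import Fermat.Agent.S25.helper239_GlueIndex
import Fermat.Agent.S25.helper1153_ChiTwist

/-!
# S25, leaf LC-CHI: unconditional numerical corollaries (helper239)

Hypothesis-free forms (`k` algebraically closed) of the numerical statements about the Euler
characteristic of a glue datum that the integrators consume:

* `finCoh_delta G : helper3115.FinCoh G.delta` for `G` over any field;
* `chi_twist G m : (helper3115.twist G m).chi = G.chi + m * helper1153.degInf D`;
* `chi_unit K : (unit D K).chi = (unit D k).chi`, `chi_twist_unit`;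
* `chi_fibre_twist` : the fibrewise twist formula over an arbitrary base;
* `degZero_iff_chi` (over a field), `degZero_iff_algClosed`, `degZero_of_preconnected`,
  `exists_isClopen_degZero` (the degree zero locus is open and closed in `Spec B`).
-/

set_option autoImplicit false

universe u

namespace Fermat.Agent.S25.helper239

open Fermat.Agent.S25.helper1705 Fermat.Agent.S25.helper2945

variable {k : Type u} [Field k] [IsAlgClosed k] {D : CurveDatum k}

section Field

variable {K : Type u} [Field K] [Algebra k K] (G : GlueDatum D K)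

/-- The cohomology of a glue datum over a field is finite dimensional (`helper3115.FinCoh`
form). -/
theorem finCoh_delta : helper3115.FinCoh G.delta :=
  ⟨finite_H0_field G, finite_H1_field G⟩

/-- **`χ(G(m · D∞)) = χ(G) + m · degInf D`** over a field, no hypothesis. -/
theorem chi_twist (m : ℤ) :
    (helper3115.twist G m).chi = G.chi + m * helper1153.degInf D :=
  (helper1153.chi_twist G (finCoh_delta G) m).2

/-- `χ` of the trivial bundle does not depend on the field. -/
theorem chi_unit_ext {K' : Type u} [Field K'] [Algebra k K'] (ψ : K →ₐ[k] K') :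
    (GlueDatum.unit D K').chi = (GlueDatum.unit D K).chi := by
  rw [← chi_field_ext (GlueDatum.unit D K) ψ]
  exact (helper743.equiv_chi_eq (helper743.unit_baseChange ψ)).symm

variable (D K) in
/-- `χ (𝒪_{C_K}) = χ (𝒪_C)`. -/
theorem chi_unit : (GlueDatum.unit D K).chi = (GlueDatum.unit D k).chi :=
  chi_unit_ext (Algebra.ofId k K)

variable (D K) in
/-- `χ (𝒪(m · D∞)) = χ (𝒪_C) + m · degInf D` over every field. -/
theorem chi_twist_unit (m : ℤ) :
    (helper3115.twist (GlueDatum.unit D K) m).chi =
      (GlueDatum.unit D k).chi + m * helper1153.degInf D := by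
  rw [chi_twist, chi_unit]

/-- Over a field, degree zero is the single equation `χ(G) = χ(𝒪)`. -/
theorem degZero_iff_chi : G.DegZero ↔ G.chi = (GlueDatum.unit D K).chi := by
  constructor
  · intro h
    have h1 := h K (AlgHom.id k K)
    rwa [helper743.equiv_chi_eq (helper743.baseChange_id G)] at h1
  · intro h K' _ _ ψ
    rw [chi_field_ext G ψ, h, chi_unit_ext ψ]

end Field

section Base

variable {B : Type u} [CommRing B] [Algebra k B] (G : GlueDatum D B)

/-- The fibrewise twist formula, no hypothesis:
`χ(G(m · D∞)_φ) = χ(G_φ) + m · degInf D` at every field valued point `φ`. -/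
theorem chi_fibre_twist {K : Type u} [Field K] [Algebra k K] (φ : B →ₐ[k] K) (m : ℤ) :
    ((helper3115.twist G m).baseChange φ).chi =
      (G.baseChange φ).chi + m * helper1153.degInf D :=
  helper1153.chi_baseChange_twist G φ (finCoh_delta (G.baseChange φ)) m

/-- Degree zero of a fibre is the single equation `χ(G_φ) = χ(𝒪)`. -/
theorem degZero_fibre_iff {K : Type u} [Field K] [Algebra k K] (φ : B →ₐ[k] K) :
    (G.baseChange φ).DegZero ↔ (G.baseChange φ).chi = (GlueDatum.unit D K).chi :=
  degZero_iff_chi (G.baseChange φ)

/-- Degree zero can be tested at the points with values in algebraically closed fields. -/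
theorem degZero_iff_algClosed :
    G.DegZero ↔ ∀ (K : Type u) [Field K] [IsAlgClosed K] [Algebra k K] (φ : B →ₐ[k] K),
      (G.baseChange φ).chi = (GlueDatum.unit D K).chi := by
  constructor
  · intro h K _ _ _ φ
    exact h K φ
  · intro h K _ _ φ
    let ψ : K →ₐ[k] AlgebraicClosure K := IsScalarTower.toAlgHom k K (AlgebraicClosure K)
    rw [← chi_fibre_comp G φ ψ, h (AlgebraicClosure K) (ψ.comp φ), chi_unit_ext ψ]

/-- **The degree zero locus is open and closed** in `Spec B`. -/
theorem exists_isClopen_degZero :
    ∃ U : Set (PrimeSpectrum B), IsClopen U ∧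
      ∀ (K : Type u) [Field K] [Algebra k K] (φ : B →ₐ[k] K),
        (G.baseChange φ).chi = (GlueDatum.unit D K).chi ↔
          (⟨RingHom.ker φ.toRingHom, RingHom.ker_isPrime _⟩ : PrimeSpectrum B) ∈ U := by
  obtain ⟨f, hf, h⟩ := chi_index G
  refine ⟨f ⁻¹' {(GlueDatum.unit D k).chi}, hf.isClopen_fiber _, fun K _ _ φ => ?_⟩
  rw [(h K φ).2.2, chi_unit D K]
  rfl

/-- Over a base with connected spectrum, degree zero can be tested at ONE field valued
point. -/
theorem degZero_of_preconnected [PreconnectedSpace (PrimeSpectrum B)]
    {K₀ : Type u} [Field K₀] [Algebra k K₀] (φ₀ : B →ₐ[k] K₀)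
    (h₀ : (G.baseChange φ₀).chi = (GlueDatum.unit D K₀).chi) : G.DegZero := by
  obtain ⟨f, hf, h⟩ := chi_index G
  intro K _ _ φ
  rw [(h K φ).2.2, chi_unit D K, ← chi_unit D K₀, ← h₀, (h K₀ φ₀).2.2]
  exact hf.apply_eq_of_preconnectedSpace _ _

/-- Over a domain, degree zero can be tested at ONE field valued point. -/
theorem degZero_of_isDomain [IsDomain B]
    {K₀ : Type u} [Field K₀] [Algebra k K₀] (φ₀ : B →ₐ[k] K₀)
    (h₀ : (G.baseChange φ₀).chi = (GlueDatum.unit D K₀).chi) : G.DegZero :=
  degZero_of_preconnected G φ₀ h₀

end Base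

end Fermat.Agent.S25.helper239
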