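import Mathlib

/-!
# S25, leaf U10: the Euler characteristic of a two-chart module is locally constant

Mathlib-only, statement-agnostic.
-/

set_option autoImplicit false
set_option linter.unusedSectionVars false

namespace Fermat.Agent.S25.helper8628

open Module

section FieldIndex

variable {K E F : Type*} [Field K] [AddCommGroup E] [Module K E] [AddCommGroup F] [Module K F]

/-- **Index lemma over a field.** If `δ'` is surjective with finite-dimensional kernel and `j` is
injective with finite-dimensional cokernel, then `δ' ∘ j` has finite-dimensional kernel and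
cokernel and its index is `dim ker δ' - dim coker j`. -/
theorem index_comp_of_surjective_of_injective (δ' : E →ₗ[K] F) (j : E →ₗ[K] E)
    (hδ' : Function.Surjective δ') (hj : Function.Injective j)
    [FiniteDimensional K (LinearMap.ker δ')] [FiniteDimensional K (E ⧸ LinearMap.range j)] :
    FiniteDimensional K (LinearMap.ker (δ' ∘ₗ j)) ∧
    FiniteDimensional K (F ⧸ LinearMap.range (δ' ∘ₗ j)) ∧
    (finrank K (LinearMap.ker (δ' ∘ₗ j)) : ℤ) - finrank K (F ⧸ LinearMap.range (δ' ∘ₗ j)) =
      finrank K (LinearMap.ker δ') - finrank K (E ⧸ LinearMap.range j) := by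
  classical
  set P := LinearMap.ker δ' with hP
  set J := LinearMap.range j with hJ
  -- the comparison map `P → E/J`
  let φ : P →ₗ[K] E ⧸ J := J.mkQ ∘ₗ P.subtype
  -- the map `E/J → F / range (δ' ∘ j)` induced by `δ'`
  have hle : J ≤ (LinearMap.range (δ' ∘ₗ j)).comap δ' := by
    rintro _ ⟨a, rfl⟩
    exact ⟨a, rfl⟩
  let ψ : E ⧸ J →ₗ[K] F ⧸ LinearMap.range (δ' ∘ₗ j) := J.mapQ _ δ' hle
  have hψ_surj : Function.Surjective ψ := by
    intro z
    obtain ⟨f, rfl⟩ := Submodule.mkQ_surjective _ z
    obtain ⟨e, rfl⟩ := hδ' f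
    exact ⟨J.mkQ e, rfl⟩
  have hψ_ker : LinearMap.ker ψ = LinearMap.range φ := by
    ext z
    obtain ⟨e, rfl⟩ := Submodule.mkQ_surjective _ z
    simp only [LinearMap.mem_ker, LinearMap.mem_range]
    constructor
    · intro h
      have h' : δ' e ∈ LinearMap.range (δ' ∘ₗ j) := by
        simpa [ψ, Submodule.mapQ_apply, Submodule.Quotient.mk_eq_zero] using h
      obtain ⟨a, ha⟩ := h'
      have hmem : e - j a ∈ P := by
        simp only [hP, LinearMap.mem_ker, map_sub]
        simp only [LinearMap.comp_apply] at ha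
        rw [ha, sub_self]
      refine ⟨⟨e - j a, hmem⟩, ?_⟩
      simp only [φ, LinearMap.comp_apply, Submodule.subtype_apply, Submodule.mkQ_apply]
      rw [Submodule.Quotient.mk_sub]
      have : (Submodule.Quotient.mk (j a) : E ⧸ J) = 0 :=
        (Submodule.Quotient.mk_eq_zero _).mpr ⟨a, rfl⟩
      rw [this, sub_zero]
    · rintro ⟨⟨p, hp⟩, hpz⟩
      simp only [φ, LinearMap.comp_apply, Submodule.subtype_apply] at hpz
      rw [← hpz]
      have hp' : δ' p = 0 := hp
      simp [ψ, Submodule.mapQ_apply, hp']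
  -- the kernel of `δ' ∘ j` is the kernel of `φ`
  have hφ_mem : ∀ a : LinearMap.ker (δ' ∘ₗ j), j a.1 ∈ P := fun a => a.2
  let κ : LinearMap.ker (δ' ∘ₗ j) →ₗ[K] LinearMap.ker φ :=
    { toFun := fun a => ⟨⟨j a.1, hφ_mem a⟩, by
        simp only [LinearMap.mem_ker, φ, LinearMap.comp_apply, Submodule.subtype_apply,
          Submodule.mkQ_apply]
        exact (Submodule.Quotient.mk_eq_zero _).mpr ⟨a.1, rfl⟩⟩
      map_add' := fun a b => by ext; simp
      map_smul' := fun c a => by ext; simp }
  have hκ_inj : Function.Injective κ := by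
    intro a b hab
    have : j a.1 = j b.1 := congrArg (fun z : LinearMap.ker φ => (z.1.1 : E)) hab
    exact Subtype.ext (hj this)
  have hκ_surj : Function.Surjective κ := by
    rintro ⟨⟨p, hp⟩, hpφ⟩
    have hpJ : p ∈ J := by
      have : (Submodule.Quotient.mk p : E ⧸ J) = 0 := hpφ
      exact (Submodule.Quotient.mk_eq_zero _).mp this
    obtain ⟨a, rfl⟩ := hpJ
    exact ⟨⟨a, hp⟩, rfl⟩
  let κe : LinearMap.ker (δ' ∘ₗ j) ≃ₗ[K] LinearMap.ker φ :=
    LinearEquiv.ofBijective κ ⟨hκ_inj, hκ_surj⟩
  have fin1 : FiniteDimensional K (LinearMap.ker (δ' ∘ₗ j)) :=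
    Module.Finite.equiv κe.symm
  have fin2 : FiniteDimensional K (F ⧸ LinearMap.range (δ' ∘ₗ j)) :=
    Module.Finite.of_surjective ψ hψ_surj
  refine ⟨fin1, fin2, ?_⟩
  have e1 : finrank K (LinearMap.ker (δ' ∘ₗ j)) = finrank K (LinearMap.ker φ) := κe.finrank_eq
  have e2 := LinearMap.finrank_range_add_finrank_ker φ
  have e3 := LinearMap.finrank_range_add_finrank_ker ψ
  have e4 : finrank K (LinearMap.range ψ) = finrank K (F ⧸ LinearMap.range (δ' ∘ₗ j)) := by
    rw [LinearMap.range_eq_top.mpr hψ_surj, finrank_top]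
  rw [hψ_ker] at e3
  omega


/-- Variant of the index lemma where `ker δ'` and `coker j` are presented by an injection
`ι : P → E` and a surjection `π : E → Q`. -/
theorem index_comp_of_exact {P Q : Type*} [AddCommGroup P] [Module K P] [AddCommGroup Q]
    [Module K Q] (δ' : E →ₗ[K] F) (j : E →ₗ[K] E) (ι : P →ₗ[K] E) (π : E →ₗ[K] Q)
    (hδ' : Function.Surjective δ') (hj : Function.Injective j)
    (hι : Function.Injective ι) (hιδ : LinearMap.range ι = LinearMap.ker δ')
    (hπ : Function.Surjective π) (hjπ : LinearMap.ker π = LinearMap.range j)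
    [FiniteDimensional K P] [FiniteDimensional K Q] :
    FiniteDimensional K (LinearMap.ker (δ' ∘ₗ j)) ∧
    FiniteDimensional K (F ⧸ LinearMap.range (δ' ∘ₗ j)) ∧
    (finrank K (LinearMap.ker (δ' ∘ₗ j)) : ℤ) - finrank K (F ⧸ LinearMap.range (δ' ∘ₗ j)) =
      finrank K P - finrank K Q := by
  let e1 : P ≃ₗ[K] LinearMap.ker δ' :=
    (LinearEquiv.ofInjective ι hι).trans (LinearEquiv.ofEq _ _ hιδ)
  let e2 : (E ⧸ LinearMap.range j) ≃ₗ[K] Q :=
    (Submodule.quotEquivOfEq _ _ hjπ.symm).trans (π.quotKerEquivOfSurjective hπ)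
  have : FiniteDimensional K (LinearMap.ker δ') := Module.Finite.equiv e1
  have : FiniteDimensional K (E ⧸ LinearMap.range j) := Module.Finite.equiv e2.symm
  obtain ⟨h1, h2, h3⟩ := index_comp_of_surjective_of_injective δ' j hδ' hj
  refine ⟨h1, h2, ?_⟩
  rw [h3, e1.finrank_eq, e2.finrank_eq]


/-- Kernel and cokernel dimensions are invariant under isomorphisms of two-term complexes. -/
theorem index_congr {E₂ F₂ : Type*} [AddCommGroup E₂] [Module K E₂] [AddCommGroup F₂]
    [Module K F₂] (δ₁ : E →ₗ[K] F) (δ₂ : E₂ →ₗ[K] F₂) (eE : E ≃ₗ[K] E₂) (eF : F ≃ₗ[K] F₂)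
    (hcomm : ∀ z, δ₂ (eE z) = eF (δ₁ z))
    [FiniteDimensional K (LinearMap.ker δ₁)] [FiniteDimensional K (F ⧸ LinearMap.range δ₁)] :
    FiniteDimensional K (LinearMap.ker δ₂) ∧ FiniteDimensional K (F₂ ⧸ LinearMap.range δ₂) ∧
    finrank K (LinearMap.ker δ₂) = finrank K (LinearMap.ker δ₁) ∧
    finrank K (F₂ ⧸ LinearMap.range δ₂) = finrank K (F ⧸ LinearMap.range δ₁) := by
  have hker : (LinearMap.ker δ₁).map (eE : E →ₗ[K] E₂) = LinearMap.ker δ₂ := by
    ext x
    simp only [Submodule.mem_map, LinearMap.mem_ker, LinearEquiv.coe_coe]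
    constructor
    · rintro ⟨y, hy, rfl⟩
      rw [hcomm, hy, map_zero]
    · intro hx
      refine ⟨eE.symm x, ?_, eE.apply_symm_apply x⟩
      have := hcomm (eE.symm x)
      rw [eE.apply_symm_apply, hx] at this
      exact eF.map_eq_zero_iff.mp this.symm
  have hrange : (LinearMap.range δ₁).map (eF : F →ₗ[K] F₂) = LinearMap.range δ₂ := by
    ext x
    simp only [Submodule.mem_map, LinearMap.mem_range, LinearEquiv.coe_coe]
    constructor
    · rintro ⟨_, ⟨y, rfl⟩, rfl⟩
      exact ⟨eE y, hcomm y⟩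
    · rintro ⟨y, rfl⟩
      refine ⟨δ₁ (eE.symm y), ⟨_, rfl⟩, ?_⟩
      rw [← hcomm, eE.apply_symm_apply]
  let e1 : LinearMap.ker δ₁ ≃ₗ[K] LinearMap.ker δ₂ :=
    (eE.submoduleMap (LinearMap.ker δ₁)).trans (LinearEquiv.ofEq _ _ hker)
  let e2 : (F ⧸ LinearMap.range δ₁) ≃ₗ[K] (F₂ ⧸ LinearMap.range δ₂) :=
    Submodule.Quotient.equiv _ _ eF hrange
  exact ⟨Module.Finite.equiv e1, Module.Finite.equiv e2, e1.finrank_eq.symm, e2.finrank_eq.symm⟩

end FieldIndex

section BaseChange

open TensorProduct

/-- The point of `Spec B` under a field-valued point `B → L`. -/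
noncomputable def fieldPoint (B L : Type*) [CommRing B] [Field L] [Algebra B L] :
    PrimeSpectrum B :=
  ⟨RingHom.ker (algebraMap B L), RingHom.ker_isPrime _⟩

lemma fieldPoint_eq_comap (B L : Type*) [CommRing B] [Field L] [Algebra B L]
    (q : PrimeSpectrum L) : fieldPoint B L = PrimeSpectrum.comap (algebraMap B L) q := by
  have hq : q.asIdeal = ⊥ := by
    rcases Ideal.eq_bot_or_top q.asIdeal with h | h
    · exact h
    · exact absurd h q.2.ne_top
  ext x
  simp only [fieldPoint, PrimeSpectrum.comap_asIdeal, hq]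
  rfl

/-- The dimension of the fibre of a finite projective module at a field-valued point is the rank
at the corresponding point of `Spec B`. -/
lemma finrank_baseChange_eq_rankAtStalk (B L P : Type*) [CommRing B] [Field L] [Algebra B L]
    [AddCommGroup P] [Module B P] [Module.Finite B P] [Module.Projective B P] :
    finrank L (L ⊗[B] P) = rankAtStalk P (fieldPoint B L) := by
  have h := Module.rankAtStalk_baseChange (R := B) (M := P) (S := L) ⟨⊥, Ideal.isPrime_bot⟩
  rw [← fieldPoint_eq_comap, Module.rankAtStalk_eq_finrank_of_free] at h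
  exact h

variable {B E F : Type*} [CommRing B] [AddCommGroup E] [Module B E] [AddCommGroup F] [Module B F]

/-- The kernel of a split surjection from a projective module is projective; it is finite as
soon as it is finitely generated. -/
theorem ker_finite_projective_of_section (δ' : E →ₗ[B] F) (σ : F →ₗ[B] E)
    (hσ : δ' ∘ₗ σ = LinearMap.id) [Module.Projective B E] (hP : (LinearMap.ker δ').FG) :
    Module.Finite B (LinearMap.ker δ') ∧ Module.Projective B (LinearMap.ker δ') := by
  have hσ' : ∀ f, δ' (σ f) = f := fun f => congrArg (fun g : F →ₗ[B] F => g f) hσ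
  let ρ : E →ₗ[B] LinearMap.ker δ' := (LinearMap.id - σ ∘ₗ δ').codRestrict _ (fun e => by
    simp [hσ'])
  have hρ : ρ ∘ₗ (LinearMap.ker δ').subtype = LinearMap.id := by
    ext ⟨p, hp⟩
    have hp' : δ' p = 0 := hp
    simp [ρ, hp']
  exact ⟨Module.Finite.iff_fg.mpr hP, Module.Projective.of_split _ ρ hρ⟩

/-- The cokernel of a split injection into a projective module is projective. -/
theorem quotient_projective_of_retraction (j τ : E →ₗ[B] E) (hτ : τ ∘ₗ j = LinearMap.id)
    [Module.Projective B E] : Module.Projective B (E ⧸ LinearMap.range j) := by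
  have hτ' : ∀ e, τ (j e) = e := fun e => congrArg (fun g : E →ₗ[B] E => g e) hτ
  let s : E ⧸ LinearMap.range j →ₗ[B] E := (LinearMap.range j).liftQ (LinearMap.id - j ∘ₗ τ) (by
    rintro _ ⟨a, rfl⟩
    simp [hτ'])
  have hs : (LinearMap.range j).mkQ ∘ₗ s = LinearMap.id := by
    apply Submodule.linearMap_qext
    ext e
    simp only [LinearMap.comp_apply, Submodule.mkQ_apply, LinearMap.id_comp, s,
      Submodule.liftQ_apply, LinearMap.sub_apply, LinearMap.id_apply]
    rw [Submodule.Quotient.mk_sub]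
    have : (Submodule.Quotient.mk (j (τ e)) : E ⧸ LinearMap.range j) = 0 :=
      (Submodule.Quotient.mk_eq_zero _).mpr ⟨τ e, rfl⟩
    rw [this, sub_zero]
  exact Module.Projective.of_split s _ hs

/-- **Index under base change.** Let `δ' : E → F` be a split surjection of `B`-modules with
finitely generated kernel and `j : E → E` a split injection with finite cokernel, `E` projective
(so that `ker δ'` and `coker j` are finite projective). Then for every field `L` over `B` the base
change of `δ' ∘ j` to `L` has finite-dimensional kernel and cokernel, of index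
`rank (ker δ') - rank (coker j)` at the point of `Spec B` below `L`. -/
theorem index_baseChange (δ' : E →ₗ[B] F) (σ : F →ₗ[B] E) (hσ : δ' ∘ₗ σ = LinearMap.id)
    (j τ : E →ₗ[B] E) (hτ : τ ∘ₗ j = LinearMap.id) [Module.Projective B E]
    (hP : (LinearMap.ker δ').FG) (hQ : Module.Finite B (E ⧸ LinearMap.range j))
    (L : Type*) [Field L] [Algebra B L] :
    FiniteDimensional L (LinearMap.ker ((δ' ∘ₗ j).baseChange L)) ∧
    FiniteDimensional L ((L ⊗[B] F) ⧸ LinearMap.range ((δ' ∘ₗ j).baseChange L)) ∧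
    (finrank L (LinearMap.ker ((δ' ∘ₗ j).baseChange L)) : ℤ) -
        finrank L ((L ⊗[B] F) ⧸ LinearMap.range ((δ' ∘ₗ j).baseChange L)) =
      rankAtStalk (LinearMap.ker δ') (fieldPoint B L) -
        rankAtStalk (E ⧸ LinearMap.range j) (fieldPoint B L) := by
  classical
  obtain ⟨finP, projP⟩ := ker_finite_projective_of_section δ' σ hσ hP
  have projQ := quotient_projective_of_retraction j τ hτ
  set P := LinearMap.ker δ' with hPdef
  set J := LinearMap.range j with hJdef
  -- retraction onto the kernel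
  have hσ' : ∀ f, δ' (σ f) = f := fun f => congrArg (fun g : F →ₗ[B] F => g f) hσ
  let ρ : E →ₗ[B] P := (LinearMap.id - σ ∘ₗ δ').codRestrict P (fun e => by
    simp [hPdef, hσ'])
  have hρ : ρ ∘ₗ P.subtype = LinearMap.id := by
    ext ⟨p, hp⟩
    have hp' : δ' p = 0 := hp
    simp [ρ, hp']
  have hρ' : ∀ e : E, ((ρ e : P) : E) + σ (δ' e) = e := fun e => by simp [ρ]
  -- base changes
  have hδL : Function.Surjective (δ'.baseChange L) :=
    LinearMap.baseChange_surjective L (fun f => ⟨σ f, hσ' f⟩)
  have hjL : Function.Injective (j.baseChange L) := by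
    have h : τ.baseChange L ∘ₗ j.baseChange L = LinearMap.id := by
      rw [← LinearMap.baseChange_comp, hτ, LinearMap.baseChange_id]
    exact Function.LeftInverse.injective (g := τ.baseChange L)
      (fun z => congrArg (fun g : L ⊗[B] E →ₗ[L] L ⊗[B] E => g z) h)
  have hιL : Function.Injective (P.subtype.baseChange L) := by
    have h : ρ.baseChange L ∘ₗ P.subtype.baseChange L = LinearMap.id := by
      rw [← LinearMap.baseChange_comp, hρ, LinearMap.baseChange_id]
    exact Function.LeftInverse.injective (g := ρ.baseChange L)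
      (fun z => congrArg (fun g : L ⊗[B] P →ₗ[L] L ⊗[B] P => g z) h)
  have hιδL : LinearMap.range (P.subtype.baseChange L) = LinearMap.ker (δ'.baseChange L) := by
    apply le_antisymm
    · rintro _ ⟨z, rfl⟩
      rw [LinearMap.mem_ker, ← LinearMap.comp_apply, ← LinearMap.baseChange_comp]
      have : δ' ∘ₗ P.subtype = 0 := by
        ext ⟨p, hp⟩
        exact hp
      rw [this, LinearMap.baseChange_zero, LinearMap.zero_apply]
    · intro z hz
      have hdec : (P.subtype ∘ₗ ρ + σ ∘ₗ δ' : E →ₗ[B] E) = LinearMap.id := by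
        ext e
        simpa using hρ' e
      have h2 : (P.subtype.baseChange L) ((ρ.baseChange L) z) +
          (σ.baseChange L) ((δ'.baseChange L) z) = z := by
        have := congrArg (fun g : E →ₗ[B] E => (g.baseChange L) z) hdec
        simpa [LinearMap.baseChange_add, LinearMap.baseChange_comp] using this
      rw [LinearMap.mem_ker] at hz
      rw [hz, map_zero, add_zero] at h2
      exact ⟨_, h2⟩
  have hπL : Function.Surjective (J.mkQ.baseChange L) :=
    LinearMap.baseChange_surjective L (Submodule.mkQ_surjective J)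
  have hjπL : LinearMap.ker (J.mkQ.baseChange L) = LinearMap.range (j.baseChange L) := by
    have hex : Function.Exact (j.lTensor L) (J.mkQ.lTensor L) :=
      lTensor_exact L (LinearMap.exact_map_mkQ_range j) (Submodule.mkQ_surjective J)
    ext z
    rw [LinearMap.mem_ker, LinearMap.mem_range]
    have := hex z
    simp only [Set.mem_range] at this
    rw [← LinearMap.baseChange_eq_ltensor, ← LinearMap.baseChange_eq_ltensor] at this
    exact this
  have key := index_comp_of_exact (δ'.baseChange L) (j.baseChange L) (P.subtype.baseChange L)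
    (J.mkQ.baseChange L) hδL hjL hιL hιδL hπL hjπL
  rw [LinearMap.baseChange_comp]
  rw [finrank_baseChange_eq_rankAtStalk B L P, finrank_baseChange_eq_rankAtStalk B L (E ⧸ J)]
    at key
  exact key

end BaseChange

section PolySmul

open Polynomial

variable {B : Type*} [CommRing B] {M : Type*} [AddCommGroup M] [Module B M] [Module B[X] M]
  [IsScalarTower B B[X] M]

lemma C_smul_eq_smul (c : B) (a : M) : (C c : B[X]) • a = c • a := by
  have h : (C c : B[X]) = c • (1 : B[X]) := by rw [smul_eq_C_mul, mul_one]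
  rw [h, smul_assoc, one_smul]

/-- A predicate closed under addition, `B`-scalars and `X •` is closed under `p •`. -/
lemma poly_smul_induction {Pr : M → Prop} (hadd : ∀ a b, Pr a → Pr b → Pr (a + b))
    (hsmul : ∀ (c : B) a, Pr a → Pr (c • a)) (hX : ∀ a, Pr a → Pr ((X : B[X]) • a))
    (p : B[X]) (a : M) (ha : Pr a) : Pr (p • a) := by
  induction p using Polynomial.induction_on' with
  | add p q hp hq => rw [add_smul]; exact hadd _ _ hp hq
  | monomial n c =>
    rw [← C_mul_X_pow_eq_monomial, mul_smul, C_smul_eq_smul]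
    apply hsmul
    induction n with
    | zero => simpa using ha
    | succ n ih => rw [pow_succ', mul_smul]; exact hX _ ih

/-- Induction principle for a `B[X]`-module generated by a set `S`. -/
lemma span_poly_induction {S : Set M} (hS : Submodule.span B[X] S = ⊤) {Pr : M → Prop}
    (h0 : Pr 0) (hadd : ∀ a b, Pr a → Pr b → Pr (a + b))
    (hsmul : ∀ (c : B) a, Pr a → Pr (c • a)) (hX : ∀ a, Pr a → Pr ((X : B[X]) • a))
    (hgen : ∀ g ∈ S, Pr g) (a : M) : Pr a := by
  have ha : a ∈ Submodule.span B[X] S := hS ▸ Submodule.mem_top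
  induction ha using Submodule.span_induction with
  | mem x hx => exact hgen x hx
  | zero => exact h0
  | add x y _ _ hx hy => exact hadd x y hx hy
  | smul p x _ hx => exact poly_smul_induction hadd hsmul hX p x hx

/-- Division with remainder by `X ^ m`. -/
lemma exists_degree_lt_add_X_pow_mul (m : ℕ) (u : B[X]) :
    ∃ v : B[X], v.degree < m ∧ ∃ w : B[X], u = v + X ^ m * w := by
  rcases subsingleton_or_nontrivial B with hB | hB
  · refine ⟨0, ?_, 0, Subsingleton.elim _ _⟩
    simp
  · refine ⟨u %ₘ X ^ m, ?_, u /ₘ X ^ m, (modByMonic_add_div u (X ^ m)).symm⟩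
    have := degree_modByMonic_lt u (monic_X_pow m)
    rwa [degree_X_pow] at this

/-- `divX` as a `B`-linear map. -/
noncomputable def divXLin (B : Type*) [CommRing B] : B[X] →ₗ[B] B[X] where
  toFun := divX
  map_add' _ _ := divX_add
  map_smul' c p := by simp [smul_eq_C_mul]

lemma divXLin_pow_X_pow_mul (m : ℕ) (p : B[X]) : (divXLin B ^ m) (X ^ m * p) = p := by
  induction m generalizing p with
  | zero => simp
  | succ m ih =>
    rw [pow_succ, Module.End.mul_apply]
    have : divXLin B (X ^ (m + 1) * p) = X ^ m * p := by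
      change divX (X ^ (m + 1) * p) = X ^ m * p
      ext n
      rw [coeff_divX, pow_succ, mul_assoc, mul_comm X p, ← mul_assoc, coeff_mul_X]
    rw [this, ih]

end PolySmul

section TwoChart

open Polynomial Module

variable {B : Type*} [CommRing B] {M0 M1 N : Type*}
  [AddCommGroup M0] [Module B M0] [Module B[X] M0] [IsScalarTower B B[X] M0]
  [AddCommGroup M1] [Module B M1] [Module B[X] M1] [IsScalarTower B B[X] M1]
  [AddCommGroup N] [Module B N]

/-- A two-chart module over `B` in operator form.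

`M0` is the module of sections on the chart where `x` is regular, viewed as a `B[X]`-module
(`X` acts as `x`); `M1` is the module of sections on the chart where `y = 1/x` is regular, viewed
as a `B[X]`-module (`X` acts as `y`); `N` is the module of sections on the overlap, on which
multiplication by `x` is the automorphism `T` (with inverse `Tinv`); `r0`, `r1` are the restriction
maps, which are localizations (at `x`, resp. at `y`). -/
structure TwoChart (r0 : M0 →ₗ[B] N) (r1 : M1 →ₗ[B] N) (T Tinv : N →ₗ[B] N) : Prop where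
  T_Tinv : ∀ n, T (Tinv n) = n
  Tinv_T : ∀ n, Tinv (T n) = n
  r0_X : ∀ a, r0 ((X : B[X]) • a) = T (r0 a)
  r1_X : ∀ b, r1 ((X : B[X]) • b) = Tinv (r1 b)
  loc0 : ∀ n, ∃ k : ℕ, (T ^ k) n ∈ LinearMap.range r0
  loc1 : ∀ n, ∃ k : ℕ, (Tinv ^ k) n ∈ LinearMap.range r1
  tor0 : ∀ a, r0 a = 0 → ∃ k : ℕ, (X ^ k : B[X]) • a = 0
  tor1 : ∀ b, r1 b = 0 → ∃ k : ℕ, (X ^ k : B[X]) • b = 0

/-- The twisted difference map `(a, b) ↦ r0 a - T^m (r1 b)`, whose kernel and cokernel are
`H⁰` and `H¹` of the `m`-th twist. -/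
def twistMap (r0 : M0 →ₗ[B] N) (r1 : M1 →ₗ[B] N) (T : N →ₗ[B] N) (m : ℕ) : M0 × M1 →ₗ[B] N :=
  r0.coprod (-((T ^ m) ∘ₗ r1))

@[simp] lemma twistMap_apply (r0 : M0 →ₗ[B] N) (r1 : M1 →ₗ[B] N) (T : N →ₗ[B] N) (m : ℕ)
    (z : M0 × M1) : twistMap r0 r1 T m z = r0 z.1 - (T ^ m) (r1 z.2) := by
  simp [twistMap, sub_eq_add_neg]

namespace TwoChart

variable {r0 : M0 →ₗ[B] N} {r1 : M1 →ₗ[B] N} {T Tinv : N →ₗ[B] N}

lemma symm (h : TwoChart r0 r1 T Tinv) : TwoChart r1 r0 Tinv T :=
  ⟨h.Tinv_T, h.T_Tinv, h.r1_X, h.r0_X, h.loc1, h.loc0, h.tor1, h.tor0⟩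

lemma r0_X_pow (h : TwoChart r0 r1 T Tinv) (k : ℕ) (a : M0) :
    r0 ((X ^ k : B[X]) • a) = (T ^ k) (r0 a) := by
  induction k generalizing a with
  | zero => simp
  | succ k ih => rw [pow_succ, mul_smul, ih, h.r0_X, pow_succ, Module.End.mul_apply]

lemma r1_X_pow (h : TwoChart r0 r1 T Tinv) (k : ℕ) (b : M1) :
    r1 ((X ^ k : B[X]) • b) = (Tinv ^ k) (r1 b) :=
  h.symm.r0_X_pow k b

lemma T_pow_Tinv_pow (h : TwoChart r0 r1 T Tinv) (k : ℕ) (n : N) :
    (T ^ k) ((Tinv ^ k) n) = n := by
  induction k generalizing n with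
  | zero => simp
  | succ k ih =>
    rw [pow_succ, Module.End.mul_apply, pow_succ', Module.End.mul_apply, h.T_Tinv, ih]

lemma Tinv_pow_T_pow (h : TwoChart r0 r1 T Tinv) (k : ℕ) (n : N) :
    (Tinv ^ k) ((T ^ k) n) = n :=
  h.symm.T_pow_Tinv_pow k n

lemma T_pow_Tinv_pow_of_le (h : TwoChart r0 r1 T Tinv) {k l : ℕ} (hkl : k ≤ l) (n : N) :
    (T ^ k) ((Tinv ^ l) n) = (Tinv ^ (l - k)) n := by
  obtain ⟨d, rfl⟩ := Nat.exists_eq_add_of_le hkl
  rw [pow_add, Module.End.mul_apply, h.T_pow_Tinv_pow, Nat.add_sub_cancel_left]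

lemma T_pow_comm (T : N →ₗ[B] N) (k l : ℕ) (n : N) :
    (T ^ k) ((T ^ l) n) = (T ^ l) ((T ^ k) n) := by
  rw [← Module.End.mul_apply, ← Module.End.mul_apply, ← pow_add, ← pow_add, add_comm]

/-- **Serre vanishing.** For `m` large the twisted difference map is surjective. -/
theorem exists_twistMap_surjective [Module.Finite B[X] M0] (h : TwoChart r0 r1 T Tinv) :
    ∃ c : ℕ, ∀ m, c ≤ m → Function.Surjective (twistMap r0 r1 T m) := by
  classical
  obtain ⟨S, hS⟩ := (Module.Finite.fg_top : (⊤ : Submodule B[X] M0).FG)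
  choose k u hu using fun g : M0 => h.loc1 (r0 g)
  refine ⟨S.sup k, fun m hm n => ?_⟩
  set W := LinearMap.range (twistMap r0 r1 T m) with hW
  have key : ∀ a : M0, ∀ l : ℕ, (Tinv ^ l) (r0 a) ∈ W := by
    intro a
    refine span_poly_induction (B := B) hS (Pr := fun a => ∀ l : ℕ, (Tinv ^ l) (r0 a) ∈ W)
      ?_ ?_ ?_ ?_ ?_ a
    · intro l
      simp
    · intro a b ha hb l
      rw [map_add, map_add]
      exact W.add_mem (ha l) (hb l)
    · intro c a ha l
      rw [map_smul, map_smul]
      exact W.smul_mem c (ha l)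
    · intro a ha l
      rw [h.r0_X]
      cases l with
      | zero =>
        refine ⟨((X : B[X]) • a, 0), ?_⟩
        simp [h.r0_X]
      | succ l =>
        rw [pow_succ, Module.End.mul_apply, h.Tinv_T]
        exact ha l
    · intro g hg l
      have hkg : k g ≤ m := le_trans (Finset.le_sup hg) hm
      refine ⟨(0, -((X ^ (l + m - k g) : B[X]) • u g)), ?_⟩
      rw [twistMap_apply]
      simp only [map_zero, map_neg, zero_sub, neg_neg]
      rw [h.r1_X_pow, hu g, ← Module.End.mul_apply (Tinv ^ (l + m - k g)), ← pow_add,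
        show l + m - k g + k g = l + m by omega, h.T_pow_Tinv_pow_of_le (by omega),
        show l + m - m = l by omega]
  obtain ⟨l, a, ha⟩ := h.loc0 n
  have := key a l
  rw [ha, h.Tinv_pow_T_pow] at this
  exact this

/-- **Degree bound.** The first components of the elements of `ker (twistMap m)` lie in a
finitely generated `B`-submodule of `M0`. -/
theorem exists_fg_bound [Module.Finite B[X] M0] [Module.Projective B[X] M0]
    [Module.Finite B[X] M1] (h : TwoChart r0 r1 T Tinv) (m : ℕ) :
    ∃ G : Submodule B M0, G.FG ∧ ∀ a b, r0 a = (T ^ m) (r1 b) → a ∈ G := by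
  classical
  obtain ⟨n, f, g, -, -, hfg⟩ := Module.Finite.exists_comp_eq_id_of_projective B[X] M0
  have hfg' : ∀ a, f (g a) = a := fun a => congrArg (fun φ : M0 →ₗ[B[X]] M0 => φ a) hfg
  obtain ⟨S, hS⟩ := (Module.Finite.fg_top : (⊤ : Submodule B[X] M1).FG)
  choose k c hc using fun b : M1 => h.loc0 (r1 b)
  set D := S.sup k with hD
  set d' := S.sup (fun b => Finset.univ.sup
    (fun i : Fin n => (g ((X ^ (D - k b) : B[X]) • c b) i).natDegree)) with hd'
  have key : ∀ b : M1, ∃ e : ℕ, ∃ a' : M0, (T ^ (D + e)) (r1 b) = r0 a' ∧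
      ∀ i, (g a' i).natDegree ≤ e + d' := by
    intro b
    refine span_poly_induction (B := B) hS
      (Pr := fun b => ∃ e : ℕ, ∃ a' : M0, (T ^ (D + e)) (r1 b) = r0 a' ∧
        ∀ i, (g a' i).natDegree ≤ e + d') ?_ ?_ ?_ ?_ ?_ b
    · exact ⟨0, 0, by simp, by simp⟩
    · rintro b1 b2 ⟨e1, a1, h1, hd1⟩ ⟨e2, a2, h2, hd2⟩
      refine ⟨e1 + e2, (X ^ e2 : B[X]) • a1 + (X ^ e1 : B[X]) • a2, ?_, ?_⟩
      · rw [map_add, map_add, map_add, h.r0_X_pow, h.r0_X_pow, ← h1, ← h2,
          ← Module.End.mul_apply (T ^ e2), ← pow_add, ← Module.End.mul_apply (T ^ e1), ← pow_add]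
        congr 3 <;> omega
      · intro i
        simp only [map_add, map_smul, Pi.add_apply, Pi.smul_apply, smul_eq_mul]
        refine (natDegree_add_le _ _).trans (max_le ?_ ?_)
        · refine natDegree_mul_le.trans ?_
          have := natDegree_X_pow_le (R := B) e2
          have := hd1 i
          omega
        · refine natDegree_mul_le.trans ?_
          have := natDegree_X_pow_le (R := B) e1
          have := hd2 i
          omega
    · rintro β b ⟨e, a', h1, hd1⟩
      refine ⟨e, β • a', by rw [map_smul, map_smul, map_smul, h1], fun i => ?_⟩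
      rw [← C_smul_eq_smul, map_smul, Pi.smul_apply, smul_eq_mul]
      exact (natDegree_C_mul_le _ _).trans (hd1 i)
    · rintro b ⟨e, a', h1, hd1⟩
      refine ⟨e + 1, a', ?_, fun i => (hd1 i).trans (by omega)⟩
      rw [h.r1_X, ← add_assoc, pow_succ, Module.End.mul_apply, h.T_Tinv, h1]
    · intro b hb
      have hkb : k b ≤ D := Finset.le_sup hb
      refine ⟨0, (X ^ (D - k b) : B[X]) • c b, ?_, fun i => ?_⟩
      · rw [h.r0_X_pow, hc b, ← Module.End.mul_apply, ← pow_add]
        congr 2
        omega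
      · rw [zero_add]
        exact le_trans (Finset.le_sup (f := fun i : Fin n =>
          (g ((X ^ (D - k b) : B[X]) • c b) i).natDegree) (Finset.mem_univ i))
          (Finset.le_sup (f := fun b => Finset.univ.sup
            (fun i : Fin n => (g ((X ^ (D - k b) : B[X]) • c b) i).natDegree)) hb)
  refine ⟨(Submodule.pi Set.univ (fun _ : Fin n => degreeLE B ((m + d' : ℕ) : WithBot ℕ))).map
    (f.restrictScalars B), ?_, ?_⟩
  · refine Submodule.FG.map _ (Submodule.fg_pi fun _ => ?_)
    exact ⟨_, degreeLE_eq_span_X_pow.symm⟩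
  · intro a b hab
    obtain ⟨e, a', he, hd⟩ := key b
    have h1 : r0 ((X ^ (D + e) : B[X]) • a - (X ^ m : B[X]) • a') = 0 := by
      rw [map_sub, h.r0_X_pow, h.r0_X_pow, hab, ← he, T_pow_comm, sub_self]
    obtain ⟨s, hs⟩ := h.tor0 _ h1
    have h2 : (X ^ (s + (D + e)) : B[X]) • a = (X ^ (s + m) : B[X]) • a' := by
      rw [smul_sub, sub_eq_zero] at hs
      rw [pow_add, mul_smul, hs, pow_add, mul_smul]
    refine ⟨g a, ?_, hfg' a⟩
    simp only [SetLike.mem_coe, Submodule.mem_pi, Set.mem_univ, forall_true_left]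
    intro i
    rw [mem_degreeLE]
    by_cases hz : g a i = 0
    · rw [hz]
      simp
    · rw [← natDegree_le_iff_degree_le]
      have h3 : (X ^ (s + (D + e)) : B[X]) * g a i = (X ^ (s + m) : B[X]) * g a' i := by
        have := congrArg (fun z => g z i) h2
        simpa using this
      have h4 := congrArg natDegree h3
      have hnt : Nontrivial B := Nontrivial.of_polynomial_ne hz
      rw [natDegree_X_pow_mul _ hz] at h4
      have h5 : ((X ^ (s + m) : B[X]) * g a' i).natDegree ≤ s + m + (e + d') :=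
        natDegree_mul_le.trans (add_le_add (natDegree_X_pow_le _) (hd i))
      omega

/-- Multiplication by `X ^ m` on a finite projective `B[X]`-module has a `B`-linear
retraction. -/
theorem exists_retraction_X_pow [Module.Finite B[X] M1] [Module.Projective B[X] M1] (m : ℕ) :
    ∃ τ : M1 →ₗ[B] M1, ∀ b, τ ((X ^ m : B[X]) • b) = b := by
  obtain ⟨n, f, g, -, -, hfg⟩ := Module.Finite.exists_comp_eq_id_of_projective B[X] M1
  have hfg' : ∀ a, f (g a) = a := fun a => congrArg (fun φ : M1 →ₗ[B[X]] M1 => φ a) hfg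
  refine ⟨(f.restrictScalars B) ∘ₗ
    (LinearMap.pi fun i : Fin n => (divXLin B ^ m) ∘ₗ LinearMap.proj i) ∘ₗ
    (g.restrictScalars B), fun b => ?_⟩
  simp only [LinearMap.comp_apply, LinearMap.restrictScalars_apply, map_smul]
  have : (LinearMap.pi fun i : Fin n => (divXLin B ^ m) ∘ₗ LinearMap.proj i)
      ((X ^ m : B[X]) • g b) = g b := by
    ext1 i
    simp only [LinearMap.pi_apply, LinearMap.comp_apply, LinearMap.proj_apply, Pi.smul_apply,
      smul_eq_mul]
    exact divXLin_pow_X_pow_mul m _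
  rw [this, hfg']

/-- A finite `B[X]`-module is, modulo `X ^ m`, finite over `B`. -/
theorem exists_fg_add_X_pow_smul [Module.Finite B[X] M1] (m : ℕ) :
    ∃ V : Submodule B M1, V.FG ∧ ∀ b : M1, ∃ v ∈ V, ∃ w : M1, b = v + (X ^ m : B[X]) • w := by
  classical
  obtain ⟨n, f, hf⟩ := Module.Finite.exists_fin' B[X] M1
  refine ⟨(Submodule.pi Set.univ (fun _ : Fin n => degreeLT B m)).map (f.restrictScalars B),
    ?_, fun b => ?_⟩
  · refine Submodule.FG.map _ (Submodule.fg_pi fun _ => ?_)
    exact ⟨_, degreeLT_eq_span_X_pow.symm⟩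
  · obtain ⟨u, rfl⟩ := hf b
    choose v hv w hw using fun i => exists_degree_lt_add_X_pow_mul m (u i)
    refine ⟨f v, ⟨v, ?_, rfl⟩, f w, ?_⟩
    · simp only [SetLike.mem_coe, Submodule.mem_pi, Set.mem_univ, forall_true_left]
      exact fun i => mem_degreeLT.mpr (hv i)
    · rw [← map_smul, ← map_add]
      congr 1
      ext1 i
      simp [hw i]

end TwoChart

/-- A finite projective `B[X]`-module is projective over `B`. -/
lemma projective_of_polynomial (B M : Type*) [CommRing B] [AddCommGroup M] [Module B M]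
    [Module B[X] M] [IsScalarTower B B[X] M] [Module.Finite B[X] M] [Module.Projective B[X] M] :
    Module.Projective B M := by
  obtain ⟨n, f, g, -, -, hfg⟩ := Module.Finite.exists_comp_eq_id_of_projective B[X] M
  exact Module.Projective.of_split (g.restrictScalars B) (f.restrictScalars B)
    (by ext a; exact congrArg (fun φ : M →ₗ[B[X]] M => φ a) hfg)

/-- Multiplication by `X ^ m` as a `B`-linear map. -/
noncomputable def xPowLin (B M : Type*) [CommRing B] [AddCommGroup M] [Module B M]
    [Module B[X] M] [IsScalarTower B B[X] M] (m : ℕ) : M →ₗ[B] M where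
  toFun b := (X ^ m : B[X]) • b
  map_add' := smul_add _
  map_smul' c b := by
    rw [RingHom.id_apply]
    calc (X ^ m : B[X]) • (c • b) = (X ^ m : B[X]) • ((C c : B[X]) • b) := by
          rw [C_smul_eq_smul]
      _ = (C c * X ^ m : B[X]) • b := by rw [smul_smul, mul_comm]
      _ = (C c : B[X]) • ((X ^ m : B[X]) • b) := by rw [mul_smul]
      _ = c • ((X ^ m : B[X]) • b) := by rw [C_smul_eq_smul]

@[simp] lemma xPowLin_apply (m : ℕ) (b : M1) : xPowLin B M1 m b = (X ^ m : B[X]) • b := rfl

/-- The map `(a, b) ↦ (a, X^m • b)`: the inclusion of a two-chart module in its `m`-th twist. -/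
noncomputable def shiftMap (B M0 M1 : Type*) [CommRing B] [AddCommGroup M0] [Module B M0]
    [AddCommGroup M1] [Module B M1] [Module B[X] M1] [IsScalarTower B B[X] M1] (m : ℕ) :
    M0 × M1 →ₗ[B] M0 × M1 :=
  LinearMap.prodMap LinearMap.id (xPowLin B M1 m)

@[simp] lemma shiftMap_apply (m : ℕ) (z : M0 × M1) :
    shiftMap B M0 M1 m z = (z.1, (X ^ m : B[X]) • z.2) := rfl

lemma TwoChart.twistMap_comp_shiftMap {r0 : M0 →ₗ[B] N} {r1 : M1 →ₗ[B] N} {T Tinv : N →ₗ[B] N}
    (h : TwoChart r0 r1 T Tinv) (m : ℕ) :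
    twistMap r0 r1 T m ∘ₗ shiftMap B M0 M1 m = twistMap r0 r1 T 0 := by
  ext z <;> simp [h.r1_X_pow, h.T_pow_Tinv_pow]

/-- The Euler characteristic function of a two-chart module, computed from the `m`-th twist:
`rank H⁰(G(m)) - rank (G(m)/G)`. For `m` large enough (`twistMap m` surjective) this is the Euler
characteristic of every fibre, see `TwoChart.index_baseChange_eq_chiAt`. -/
noncomputable def chiAt (r0 : M0 →ₗ[B] N) (r1 : M1 →ₗ[B] N) (T : N →ₗ[B] N) (m : ℕ)
    (p : PrimeSpectrum B) : ℤ :=
  (Module.rankAtStalk (LinearMap.ker (twistMap r0 r1 T m)) p : ℤ) -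
    Module.rankAtStalk ((M0 × M1) ⧸ LinearMap.range (shiftMap B M0 M1 m)) p

namespace TwoChart

variable {r0 : M0 →ₗ[B] N} {r1 : M1 →ₗ[B] N} {T Tinv : N →ₗ[B] N}

/-- Auxiliary data for the main theorem: a section of the twisted difference map, a retraction
of the shift map, finiteness of `H⁰(G(m))` and of `G(m)/G`. -/
theorem exists_section_retraction [Module.Finite B[X] M0] [Module.Projective B[X] M0]
    [Module.Finite B[X] M1] [Module.Projective B[X] M1] [Module.Projective B N]
    (h : TwoChart r0 r1 T Tinv) (m : ℕ) (hm : Function.Surjective (twistMap r0 r1 T m)) :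
    ∃ (σ : N →ₗ[B] M0 × M1) (τ : M0 × M1 →ₗ[B] M0 × M1),
      twistMap r0 r1 T m ∘ₗ σ = LinearMap.id ∧ τ ∘ₗ shiftMap B M0 M1 m = LinearMap.id ∧
      (LinearMap.ker (twistMap r0 r1 T m)).FG ∧
      Module.Finite B ((M0 × M1) ⧸ LinearMap.range (shiftMap B M0 M1 m)) := by
  classical
  set δ' := twistMap r0 r1 T m with hδ'
  set j := shiftMap B M0 M1 m with hj
  -- a section of `δ'`
  obtain ⟨σ, hσ⟩ := Module.projective_lifting_property δ' LinearMap.id hm
  -- a retraction of `j`
  obtain ⟨τ1, hτ1⟩ := exists_retraction_X_pow (B := B) (M1 := M1) m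
  let τ : M0 × M1 →ₗ[B] M0 × M1 := LinearMap.prodMap LinearMap.id τ1
  have hτ : τ ∘ₗ j = LinearMap.id := by
    ext z <;> simp [τ, hj, hτ1]
  -- the kernel of `δ'` is finitely generated
  obtain ⟨G0, hG0, hG0'⟩ := h.exists_fg_bound m
  obtain ⟨G1, hG1, hG1'⟩ := h.symm.exists_fg_bound m
  have hσ' : ∀ n, δ' (σ n) = n := fun n => congrArg (fun φ : N →ₗ[B] N => φ n) hσ
  have hP : (LinearMap.ker δ').FG := by
    have hker : LinearMap.ker δ' = (G0.prod G1).map (LinearMap.id - σ ∘ₗ δ') := by
      apply le_antisymm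
      · rintro ⟨a, b⟩ hz
        have hz' : r0 a - (T ^ m) (r1 b) = 0 := by
          have : δ' (a, b) = 0 := hz
          simpa [hδ'] using this
        have hab : r0 a = (T ^ m) (r1 b) := sub_eq_zero.mp hz'
        refine ⟨(a, b), ⟨hG0' a b hab, hG1' b a ?_⟩, ?_⟩
        · rw [hab, h.Tinv_pow_T_pow]
        · have : δ' (a, b) = 0 := hz
          simp [this]
      · rintro _ ⟨z, -, rfl⟩
        simp [hσ']
    rw [hker]
    exact (hG0.prod hG1).map _
  -- the cokernel of `j` is finite
  have hQ : Module.Finite B ((M0 × M1) ⧸ LinearMap.range j) := by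
    obtain ⟨V, hV, hV'⟩ := exists_fg_add_X_pow_smul (B := B) (M1 := M1) m
    have : Module.Finite B V := Module.Finite.iff_fg.mpr hV
    refine Module.Finite.of_surjective
      ((LinearMap.range j).mkQ ∘ₗ LinearMap.inr B M0 M1 ∘ₗ V.subtype) ?_
    intro z
    obtain ⟨⟨a, b⟩, rfl⟩ := Submodule.mkQ_surjective _ z
    obtain ⟨v, hv, w, rfl⟩ := hV' b
    refine ⟨⟨v, hv⟩, ?_⟩
    simp only [LinearMap.comp_apply, Submodule.subtype_apply, LinearMap.inr_apply,
      Submodule.mkQ_apply]
    symm
    rw [Submodule.Quotient.eq]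
    exact ⟨(a, w), by simp [hj]⟩
  exact ⟨σ, τ, hσ, hτ, hP, hQ⟩

/-- `chiAt m` is locally constant on `Spec B` when `H¹(G(m)) = 0`. -/
theorem isLocallyConstant_chiAt [Module.Finite B[X] M0] [Module.Projective B[X] M0]
    [Module.Finite B[X] M1] [Module.Projective B[X] M1] [Module.Projective B N]
    (h : TwoChart r0 r1 T Tinv) (m : ℕ) (hm : Function.Surjective (twistMap r0 r1 T m)) :
    IsLocallyConstant (chiAt r0 r1 T m) := by
  have pM0 : Module.Projective B M0 := projective_of_polynomial B M0
  have pM1 : Module.Projective B M1 := projective_of_polynomial B M1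
  obtain ⟨σ, τ, hσ, hτ, hP, hQ⟩ := h.exists_section_retraction m hm
  obtain ⟨finP, projP⟩ := ker_finite_projective_of_section _ σ hσ hP
  have projQ := quotient_projective_of_retraction _ τ hτ
  have fpP : Module.FinitePresentation B (LinearMap.ker (twistMap r0 r1 T m)) :=
    Module.finitePresentation_of_projective _ _
  have fpQ : Module.FinitePresentation B
      ((M0 × M1) ⧸ LinearMap.range (shiftMap B M0 M1 m)) :=
    Module.finitePresentation_of_projective _ _
  have h1 : IsLocallyConstant
      (Module.rankAtStalk (R := B) (LinearMap.ker (twistMap r0 r1 T m))) :=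
    Module.isLocallyConstant_rankAtStalk
  have h2 : IsLocallyConstant
      (Module.rankAtStalk (R := B) ((M0 × M1) ⧸ LinearMap.range (shiftMap B M0 M1 m))) :=
    Module.isLocallyConstant_rankAtStalk
  exact (h1.comp (Nat.cast : ℕ → ℤ)).sub (h2.comp (Nat.cast : ℕ → ℤ))

open TensorProduct in
/-- **Main theorem (tensor form).** Let `(M0, M1, N)` be a two-chart module over `B` with `M0`,
`M1` finite projective over `B[X]` and `N` projective over `B`, and let `m` be such that the
`m`-th twisted difference map is surjective (`H¹(G(m)) = 0`; such `m` exist by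
`exists_twistMap_surjective`). Then for every field `L` over `B` the base change of the difference
map `(a, b) ↦ r0 a - r1 b` to `L` has finite-dimensional kernel and cokernel, of index `chiAt m`
at the point of `Spec B` below `L`. -/
theorem index_baseChange_eq_chiAt [Module.Finite B[X] M0] [Module.Projective B[X] M0]
    [Module.Finite B[X] M1] [Module.Projective B[X] M1] [Module.Projective B N]
    (h : TwoChart r0 r1 T Tinv) (m : ℕ) (hm : Function.Surjective (twistMap r0 r1 T m))
    (L : Type*) [Field L] [Algebra B L] :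
    FiniteDimensional L (LinearMap.ker ((twistMap r0 r1 T 0).baseChange L)) ∧
    FiniteDimensional L ((L ⊗[B] N) ⧸ LinearMap.range ((twistMap r0 r1 T 0).baseChange L)) ∧
    (Module.finrank L (LinearMap.ker ((twistMap r0 r1 T 0).baseChange L)) : ℤ) -
        Module.finrank L ((L ⊗[B] N) ⧸ LinearMap.range ((twistMap r0 r1 T 0).baseChange L)) =
      chiAt r0 r1 T m (fieldPoint B L) := by
  have pM0 : Module.Projective B M0 := projective_of_polynomial B M0
  have pM1 : Module.Projective B M1 := projective_of_polynomial B M1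
  obtain ⟨σ, τ, hσ, hτ, hP, hQ⟩ := h.exists_section_retraction m hm
  have := index_baseChange _ σ hσ _ τ hτ hP hQ L
  rw [h.twistMap_comp_shiftMap m] at this
  exact this

open TensorProduct in
/-- **Main theorem (`IsBaseChange` form).** Same as `index_baseChange_eq_chiAt`, for any
`L`-vector spaces `M0'`, `M1'`, `N'` that are base changes of `M0`, `M1`, `N` along `B → L` and
any `L`-linear maps `r0'`, `r1'` compatible with `r0`, `r1`. -/
theorem index_eq_chiAt_of_isBaseChange [Module.Finite B[X] M0] [Module.Projective B[X] M0]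
    [Module.Finite B[X] M1] [Module.Projective B[X] M1] [Module.Projective B N]
    (h : TwoChart r0 r1 T Tinv) (m : ℕ) (hm : Function.Surjective (twistMap r0 r1 T m))
    (L : Type*) [Field L] [Algebra B L] {M0' M1' N' : Type*}
    [AddCommGroup M0'] [Module B M0'] [Module L M0'] [IsScalarTower B L M0']
    [AddCommGroup M1'] [Module B M1'] [Module L M1'] [IsScalarTower B L M1']
    [AddCommGroup N'] [Module B N'] [Module L N'] [IsScalarTower B L N']
    (b0 : M0 →ₗ[B] M0') (b1 : M1 →ₗ[B] M1') (bN : N →ₗ[B] N')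
    (hb0 : IsBaseChange L b0) (hb1 : IsBaseChange L b1) (hbN : IsBaseChange L bN)
    (r0' : M0' →ₗ[L] N') (r1' : M1' →ₗ[L] N')
    (c0 : ∀ a, r0' (b0 a) = bN (r0 a)) (c1 : ∀ b, r1' (b1 b) = bN (r1 b)) :
    FiniteDimensional L (LinearMap.ker (r0'.coprod (-r1'))) ∧
    FiniteDimensional L (N' ⧸ LinearMap.range (r0'.coprod (-r1'))) ∧
    (Module.finrank L (LinearMap.ker (r0'.coprod (-r1'))) : ℤ) -
        Module.finrank L (N' ⧸ LinearMap.range (r0'.coprod (-r1'))) =
      chiAt r0 r1 T m (fieldPoint B L) := by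
  obtain ⟨f1, f2, hidx⟩ := h.index_baseChange_eq_chiAt m hm L
  let eE : L ⊗[B] (M0 × M1) ≃ₗ[L] M0' × M1' :=
    (TensorProduct.prodRight B L L M0 M1).trans (hb0.equiv.prodCongr hb1.equiv)
  have hcomm : ∀ z, (r0'.coprod (-r1')) (eE z) =
      hbN.equiv (((twistMap r0 r1 T 0).baseChange L) z) := by
    intro z
    induction z with
    | zero => simp
    | add x y hx hy => rw [map_add, map_add, hx, hy, map_add, map_add]
    | tmul l z =>
      obtain ⟨a, b⟩ := z
      simp only [eE, LinearEquiv.trans_apply, TensorProduct.prodRight_tmul,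
        LinearEquiv.prodCongr_apply, IsBaseChange.equiv_tmul, LinearMap.coprod_apply,
        LinearMap.neg_apply, LinearMap.baseChange_tmul, twistMap_apply, pow_zero,
        Module.End.one_apply, map_smul, c0, c1, map_sub]
      rw [smul_neg, smul_sub, sub_eq_add_neg]
  obtain ⟨g1, g2, g3, g4⟩ := index_congr ((twistMap r0 r1 T 0).baseChange L)
    (r0'.coprod (-r1')) eE hbN.equiv hcomm
  exact ⟨g1, g2, by rw [g3, g4]; exact hidx⟩

/-- The Euler characteristic function of a two-chart module (with `M0` finite over `B[X]`). -/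
noncomputable def chi [Module.Finite B[X] M0] (h : TwoChart r0 r1 T Tinv) :
    PrimeSpectrum B → ℤ :=
  chiAt r0 r1 T (Classical.choose h.exists_twistMap_surjective)

/-- **U10, operator form.** The Euler characteristic of a two-chart module is locally constant on
`Spec B`, for every commutative ring `B`. -/
theorem isLocallyConstant_chi [Module.Finite B[X] M0] [Module.Projective B[X] M0]
    [Module.Finite B[X] M1] [Module.Projective B[X] M1] [Module.Projective B N]
    (h : TwoChart r0 r1 T Tinv) : IsLocallyConstant h.chi :=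
  h.isLocallyConstant_chiAt _ (Classical.choose_spec h.exists_twistMap_surjective _ le_rfl)

/-- **U10, operator form.** `chi` computes the Euler characteristic of every fibre. -/
theorem index_eq_chi_of_isBaseChange [Module.Finite B[X] M0] [Module.Projective B[X] M0]
    [Module.Finite B[X] M1] [Module.Projective B[X] M1] [Module.Projective B N]
    (h : TwoChart r0 r1 T Tinv)
    (L : Type*) [Field L] [Algebra B L] {M0' M1' N' : Type*}
    [AddCommGroup M0'] [Module B M0'] [Module L M0'] [IsScalarTower B L M0']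
    [AddCommGroup M1'] [Module B M1'] [Module L M1'] [IsScalarTower B L M1']
    [AddCommGroup N'] [Module B N'] [Module L N'] [IsScalarTower B L N']
    (b0 : M0 →ₗ[B] M0') (b1 : M1 →ₗ[B] M1') (bN : N →ₗ[B] N')
    (hb0 : IsBaseChange L b0) (hb1 : IsBaseChange L b1) (hbN : IsBaseChange L bN)
    (r0' : M0' →ₗ[L] N') (r1' : M1' →ₗ[L] N')
    (c0 : ∀ a, r0' (b0 a) = bN (r0 a)) (c1 : ∀ b, r1' (b1 b) = bN (r1 b)) :
    FiniteDimensional L (LinearMap.ker (r0'.coprod (-r1'))) ∧
    FiniteDimensional L (N' ⧸ LinearMap.range (r0'.coprod (-r1'))) ∧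
    (Module.finrank L (LinearMap.ker (r0'.coprod (-r1'))) : ℤ) -
        Module.finrank L (N' ⧸ LinearMap.range (r0'.coprod (-r1'))) =
      h.chi (fieldPoint B L) :=
  h.index_eq_chiAt_of_isBaseChange _
    (Classical.choose_spec h.exists_twistMap_surjective _ le_rfl) L b0 b1 bN hb0 hb1 hbN r0' r1'
    c0 c1

end TwoChart

end TwoChart

end Fermat.Agent.S25.helper8628
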