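import Mathlib

/-!
# S25, layer C: `H¹ = 0 ⟹ H⁰` finite projective, by splitting (helper9607)

Two-chart (Čech) data on `ℙ¹_B` in ENDOMORPHISM FORM (the form of helper239, chat #48):
`B` a commutative ring, `M₀ M₁ N` plain `B`-modules; the coordinate `x` acts on `M₀` by `X₀`,
the coordinate `y = 1/x` acts on `M₁` by `Y₁`, on the overlap module `N` they act by the
mutually inverse endomorphisms `X`, `Y`; `r₀ : M₀ → N`, `r₁ : M₁ → N` are the restriction maps.

Main result (`ker_fg_and_projective`): if `M₀`, `M₁` are equivariant retracts of finite free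
`B[X]`-modules (`IsRetractOfFree`), `N` is `B`-projective and `M₀ × M₁ → N`, `(a, b) ↦ r₀ a - r₁ b`
is surjective (`H¹ = 0`), then its kernel (`H⁰`) is a finitely generated projective `B`-module.
No noetherian hypothesis, no rank hypothesis, no finite presentation of `H¹`.

Proof: the surjection onto the projective module `N` splits, so `H⁰` is a retract of `M₀ × M₁`
by a `B`-linear retraction `ρ`; a degree bound shows `H⁰ ≤ G₀ × G₁` with `G₀`, `G₁` finitely
generated; hence `H⁰ = ρ (G₀ × G₁)` is finitely generated.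

Base change of `H⁰` is then Mathlib's `LinearMap.kerLTensorEquivOfSurjective`.
-/

set_option autoImplicit false

open Polynomial

namespace Fermat.Agent.S25.helper9607

section

variable {B : Type*} [CommRing B]

/-- `(M, φ)` is an equivariant `B`-linear retract of the finite free `B[X]`-module
`Fin n → B[X]` (`φ` corresponding to multiplication by `X`). This is the endomorphism form of
"`M` is a finite projective `B[x]`-module, `x` acting by `φ`". -/
def IsRetractOfFree {M : Type*} [AddCommGroup M] [Module B M] (φ : Module.End B M) : Prop :=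
  ∃ (n : ℕ) (i : M →ₗ[B] (Fin n → B[X])) (p : (Fin n → B[X]) →ₗ[B] M),
    (∀ m, p (i m) = m) ∧ (∀ m, i (φ m) = (X : B[X]) • i m) ∧
      (∀ v, p ((X : B[X]) • v) = φ (p v))

theorem IsRetractOfFree.projective {M : Type*} [AddCommGroup M] [Module B M]
    {φ : Module.End B M} (h : IsRetractOfFree φ) : Module.Projective B M := by
  obtain ⟨n, i, p, hpi, -, -⟩ := h
  exact Module.Projective.of_split i p (LinearMap.ext hpi)

/-- Adapter: a finite projective `B[X]`-module, with `φ` = multiplication by `X`. -/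
theorem isRetractOfFree_of_finite_projective {M : Type*} [AddCommGroup M] [Module B M]
    [Module B[X] M] [IsScalarTower B B[X] M] [Module.Finite B[X] M] [Module.Projective B[X] M]
    (φ : Module.End B M) (hφ : ∀ m, φ m = (X : B[X]) • m) : IsRetractOfFree φ := by
  obtain ⟨n, f, g, -, -, hfg⟩ := Module.Finite.exists_comp_eq_id_of_projective B[X] M
  refine ⟨n, g.restrictScalars B, f.restrictScalars B, fun m => ?_, fun m => ?_, fun v => ?_⟩
  · exact congrArg (fun h => h m) hfg
  · simp [hφ]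
  · simp [hφ]

/-- The degree bound: the elements of `M` whose restriction to the overlap comes from the other
chart lie in a finitely generated `B`-submodule. -/
theorem exists_fg_bound
    {M M' N : Type*} [AddCommGroup M] [Module B M] [AddCommGroup M'] [Module B M']
    [AddCommGroup N] [Module B N]
    (φ : Module.End B M) (ψ : Module.End B M') (X' Y' : Module.End B N)
    (hXY : ∀ z, X' (Y' z) = z)
    (r : M →ₗ[B] N) (r' : M' →ₗ[B] N)
    (hr : ∀ m, r (φ m) = X' (r m)) (hr' : ∀ m, r' (ψ m) = Y' (r' m))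
    (hloc : ∀ z, ∃ (n : ℕ) (m : M), (X' ^ n) z = r m)
    (hker : ∀ m, r m = 0 → ∃ n : ℕ, (φ ^ n) m = 0)
    (hφ : IsRetractOfFree φ) (hψ : IsRetractOfFree ψ) :
    ∃ G : Submodule B M, G.FG ∧ ∀ a b, r a = r' b → a ∈ G := by
  classical
  obtain ⟨n, i, p, hpi, hiX, -⟩ := hφ
  obtain ⟨n', i', p', hpi', -, hpX'⟩ := hψ
  have hi_pow : ∀ (t : ℕ) (m : M), i ((φ ^ t) m) = (X : B[X]) ^ t • i m := by
    intro t
    induction t with
    | zero => intro m; simp
    | succ t ih =>
      intro m
      rw [pow_succ', Module.End.mul_apply, hiX, ih, pow_succ', mul_smul]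
  have hr_pow : ∀ (t : ℕ) (m : M), r ((φ ^ t) m) = (X' ^ t) (r m) := by
    intro t
    induction t with
    | zero => intro m; simp
    | succ t ih =>
      intro m
      rw [pow_succ', Module.End.mul_apply, hr, ih, pow_succ', Module.End.mul_apply]
  have hinj : ∀ m, r m = 0 → m = 0 := by
    intro m hm
    obtain ⟨t, ht⟩ := hker m hm
    have h1 : (X : B[X]) ^ t • i m = 0 := by rw [← hi_pow, ht, map_zero]
    have h2 : i m = 0 := by
      funext c
      have h3 := congrFun h1 c
      simp only [Pi.smul_apply, smul_eq_mul, Pi.zero_apply] at h3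
      exact (monic_X_pow t).mul_right_eq_zero_iff.mp h3
    rw [← hpi m, h2, map_zero]
  -- generators of the other chart and their expressions on this chart
  choose e m hem using fun c : Fin n' => hloc (r' (p' (Pi.single c 1)))
  let D : ℕ := Finset.univ.sup fun c : Fin n' => Finset.univ.sup fun c' : Fin n =>
    (i (m c) c').natDegree
  have hD : ∀ c c', (i (m c) c').natDegree ≤ D := fun c c' =>
    le_trans (Finset.le_sup (f := fun c' : Fin n => (i (m c) c').natDegree) (Finset.mem_univ c'))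
      (Finset.le_sup (f := fun c : Fin n' => Finset.univ.sup fun c' : Fin n =>
        (i (m c) c').natDegree) (Finset.mem_univ c))
  -- the submodule of elements of the overlap of "degree ≤ D"
  let S : Submodule B N :=
    { carrier := {z | ∃ (t : ℕ) (a : M), (X' ^ t) z = r a ∧ ∀ c', (i a c').natDegree ≤ D + t}
      add_mem' := by
        rintro z₁ z₂ ⟨t₁, a₁, h₁, d₁⟩ ⟨t₂, a₂, h₂, d₂⟩
        refine ⟨t₁ + t₂, (φ ^ t₂) a₁ + (φ ^ t₁) a₂, ?_, fun c' => ?_⟩
        · rw [map_add, map_add, hr_pow, hr_pow, ← h₁, ← h₂, ← Module.End.mul_apply,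
            ← Module.End.mul_apply, ← pow_add, ← pow_add, add_comm t₂ t₁]
        · rw [map_add, hi_pow, hi_pow]
          simp only [Pi.add_apply, Pi.smul_apply, smul_eq_mul]
          refine natDegree_add_le_of_degree_le ?_ ?_
          · refine le_trans natDegree_mul_le ?_
            have := natDegree_X_pow_le (R := B) t₂
            have := d₁ c'
            omega
          · refine le_trans natDegree_mul_le ?_
            have := natDegree_X_pow_le (R := B) t₁
            have := d₂ c'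
            omega
      zero_mem' := ⟨0, 0, by simp, fun c' => by simp⟩
      smul_mem' := by
        rintro b z ⟨t, a, h, d⟩
        refine ⟨t, b • a, by rw [map_smul, map_smul, h], fun c' => ?_⟩
        rw [map_smul]
        exact le_trans (natDegree_smul_le b _) (d c') }
  have hSY : ∀ z ∈ S, Y' z ∈ S := by
    rintro z ⟨t, a, h, d⟩
    refine ⟨t + 1, a, ?_, fun c' => le_trans (d c') (by omega)⟩
    rw [pow_succ, Module.End.mul_apply, hXY, h]
  have hSgen : ∀ (c : Fin n') (q : B[X]), r' (p' (Pi.single c q)) ∈ S := by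
    intro c q
    induction q using Polynomial.induction_on with
    | C b =>
      have : (Pi.single c (C b) : Fin n' → B[X]) = b • Pi.single c (1 : B[X]) := by
        rw [← Pi.single_smul, smul_eq_C_mul, mul_one]
      rw [this, map_smul, map_smul]
      exact S.smul_mem b ⟨e c, m c, hem c, fun c' => le_trans (hD c c') (by omega)⟩
    | add q₁ q₂ h₁ h₂ =>
      rw [Pi.single_add, map_add, map_add]
      exact S.add_mem h₁ h₂
    | monomial t b h =>
      have : (Pi.single c (C b * X ^ (t + 1)) : Fin n' → B[X]) =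
          (X : B[X]) • Pi.single c (C b * X ^ t) := by
        rw [← Pi.single_smul, smul_eq_mul]
        congr 1
        ring
      rw [this, hpX', hr']
      exact hSY _ h
  have hSall : ∀ b : M', r' b ∈ S := by
    intro b
    rw [← hpi' b, ← Finset.univ_sum_single (i' b), map_sum, map_sum]
    exact S.sum_mem fun c _ => hSgen c _
  refine ⟨(Submodule.pi Set.univ fun _ : Fin n => degreeLE B (D : WithBot ℕ)).map p, ?_, ?_⟩
  · refine Submodule.FG.map p (Submodule.fg_pi fun _ => ?_)
    rw [degreeLE_eq_span_X_pow]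
    exact Submodule.fg_span (Finset.finite_toSet _)
  · intro a b hab
    obtain ⟨t, a', h, d⟩ : r a ∈ S := hab ▸ hSall b
    have h1 : (φ ^ t) a = a' := by
      have : r ((φ ^ t) a - a') = 0 := by rw [map_sub, hr_pow, h, sub_self]
      exact sub_eq_zero.mp (hinj _ this)
    refine ⟨i a, ?_, hpi a⟩
    intro c' _
    rw [SetLike.mem_coe, mem_degreeLE]
    by_cases h0 : i a c' = 0
    · rw [h0]; simp
    · rw [← natDegree_le_iff_degree_le]
      have : Nontrivial B := Polynomial.nontrivial_iff.mp (nontrivial_of_ne _ _ h0)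
      have h2 : (X : B[X]) ^ t * i a c' = i a' c' := by
        rw [← h1, hi_pow]; rfl
      have h3 := d c'
      rw [← h2, mul_comm, natDegree_mul_X_pow t h0] at h3
      omega

/-- A surjection onto a projective module has a linear retraction onto its kernel. -/
theorem exists_retraction_ker {E N : Type*} [AddCommGroup E] [Module B E] [AddCommGroup N]
    [Module B N] [Module.Projective B N] (δ : E →ₗ[B] N) (hδ : Function.Surjective δ) :
    ∃ ρ : E →ₗ[B] E, (∀ z, ρ z ∈ LinearMap.ker δ) ∧ ∀ z ∈ LinearMap.ker δ, ρ z = z := by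
  obtain ⟨σ, hσ⟩ := Module.projective_lifting_property δ LinearMap.id hδ
  have hσ' : ∀ z, δ (σ z) = z := fun z => congrArg (fun h => h z) hσ
  refine ⟨LinearMap.id - σ ∘ₗ δ, fun z => ?_, fun z hz => ?_⟩
  · simp [hσ']
  · have : δ z = 0 := hz
    simp [this]

/-- **`H¹ = 0 ⟹ H⁰` finite projective** (endomorphism form, any commutative ring `B`).
`M₀`, `M₁` are the modules of the two charts (with `x` acting on `M₀` by `X₀` and `y = 1/x`
acting on `M₁` by `Y₁`), `N` the module of the overlap, on which `x`, `y` act by the mutually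
inverse `X`, `Y`; `r₀`, `r₁` are the restriction maps, equivariant and localizations.
If both charts are equivariant retracts of finite free `B[X]`-modules, `N` is `B`-projective and
`(a, b) ↦ r₀ a - r₁ b` is surjective, then its kernel is finitely generated and projective. -/
theorem ker_fg_and_projective
    {M₀ M₁ N : Type*} [AddCommGroup M₀] [Module B M₀] [AddCommGroup M₁] [Module B M₁]
    [AddCommGroup N] [Module B N] [Module.Projective B N]
    (X₀ : Module.End B M₀) (Y₁ : Module.End B M₁) (X' Y' : Module.End B N)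
    (hXY : ∀ z, X' (Y' z) = z) (hYX : ∀ z, Y' (X' z) = z)
    (r₀ : M₀ →ₗ[B] N) (r₁ : M₁ →ₗ[B] N)
    (hr₀ : ∀ m, r₀ (X₀ m) = X' (r₀ m)) (hr₁ : ∀ m, r₁ (Y₁ m) = Y' (r₁ m))
    (hloc₀ : ∀ z, ∃ (n : ℕ) (m : M₀), (X' ^ n) z = r₀ m)
    (hker₀ : ∀ m, r₀ m = 0 → ∃ n : ℕ, (X₀ ^ n) m = 0)
    (hloc₁ : ∀ z, ∃ (n : ℕ) (m : M₁), (Y' ^ n) z = r₁ m)
    (hker₁ : ∀ m, r₁ m = 0 → ∃ n : ℕ, (Y₁ ^ n) m = 0)
    (h₀ : IsRetractOfFree X₀) (h₁ : IsRetractOfFree Y₁)
    (hsurj : Function.Surjective (r₀.coprod (-r₁))) :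
    (LinearMap.ker (r₀.coprod (-r₁))).FG ∧
      Module.Projective B (LinearMap.ker (r₀.coprod (-r₁))) := by
  obtain ⟨ρ, hρker, hρid⟩ := exists_retraction_ker (r₀.coprod (-r₁)) hsurj
  obtain ⟨G₀, hG₀, hb₀⟩ := exists_fg_bound X₀ Y₁ X' Y' hXY r₀ r₁ hr₀ hr₁ hloc₀ hker₀ h₀ h₁
  obtain ⟨G₁, hG₁, hb₁⟩ := exists_fg_bound Y₁ X₀ Y' X' hYX r₁ r₀ hr₁ hr₀ hloc₁ hker₁ h₁ h₀
  have hle : LinearMap.ker (r₀.coprod (-r₁)) ≤ G₀.prod G₁ := by
    rintro ⟨a, b⟩ hz
    have hab : r₀ a = r₁ b := by
      have : r₀ a + -r₁ b = 0 := by simpa using hz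
      exact eq_neg_of_add_eq_zero_left this |>.trans (neg_neg _)
    exact ⟨hb₀ a b hab, hb₁ b a hab.symm⟩
  have heq : LinearMap.ker (r₀.coprod (-r₁)) = (G₀.prod G₁).map ρ :=
    le_antisymm (fun z hz => ⟨z, hle hz, hρid z hz⟩) (by rintro _ ⟨z, -, rfl⟩; exact hρker z)
  refine ⟨?_, ?_⟩
  · rw [heq]
    exact (hG₀.prod hG₁).map ρ
  · have := h₀.projective
    have := h₁.projective
    refine Module.Projective.of_split (LinearMap.ker (r₀.coprod (-r₁))).subtype
      (ρ.codRestrict _ hρker) (LinearMap.ext fun z => Subtype.ext ?_)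
    simpa using hρid z.1 z.2

/-- `Module.Finite` form of `ker_fg_and_projective`. -/
theorem ker_finite
    {M₀ M₁ N : Type*} [AddCommGroup M₀] [Module B M₀] [AddCommGroup M₁] [Module B M₁]
    [AddCommGroup N] [Module B N] [Module.Projective B N]
    (X₀ : Module.End B M₀) (Y₁ : Module.End B M₁) (X' Y' : Module.End B N)
    (hXY : ∀ z, X' (Y' z) = z) (hYX : ∀ z, Y' (X' z) = z)
    (r₀ : M₀ →ₗ[B] N) (r₁ : M₁ →ₗ[B] N)
    (hr₀ : ∀ m, r₀ (X₀ m) = X' (r₀ m)) (hr₁ : ∀ m, r₁ (Y₁ m) = Y' (r₁ m))
    (hloc₀ : ∀ z, ∃ (n : ℕ) (m : M₀), (X' ^ n) z = r₀ m)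
    (hker₀ : ∀ m, r₀ m = 0 → ∃ n : ℕ, (X₀ ^ n) m = 0)
    (hloc₁ : ∀ z, ∃ (n : ℕ) (m : M₁), (Y' ^ n) z = r₁ m)
    (hker₁ : ∀ m, r₁ m = 0 → ∃ n : ℕ, (Y₁ ^ n) m = 0)
    (h₀ : IsRetractOfFree X₀) (h₁ : IsRetractOfFree Y₁)
    (hsurj : Function.Surjective (r₀.coprod (-r₁))) :
    Module.Finite B (LinearMap.ker (r₀.coprod (-r₁))) :=
  Module.Finite.iff_fg.mpr
    (ker_fg_and_projective X₀ Y₁ X' Y' hXY hYX r₀ r₁ hr₀ hr₁ hloc₀ hker₀ hloc₁ hker₁ h₀ h₁ hsurj).1

end

end Fermat.Agent.S25.helper9607
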