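import Fermat.Agent.S25.helper2945_AlgDefs
import Fermat.Agent.S25.helper9607_SplitH0
import Fermat.Agent.S25.helper1167_UnitSections

/-!
# S25, layer C: bridge from `GlueDatum` to the endomorphism form (helper9607)

For `G : GlueDatum D B` (helper2945 AlgDefs) we provide the data and hypotheses of the
"endomorphism form" used by the Čech-cohomology bricks (helper239 #48, `helper9607_SplitH0`,
helper1103 ...):

* `X₀ G`, `Y₁ G`, `X₀₁ G`, `Y₀₁ G` : multiplication by `x`, `y` as `B`-linear endomorphisms;
* equivariance of the restriction maps and the two localization properties;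
* `isRetractOfFree_X₀`, `isRetractOfFree_Y₁` : the chart modules are equivariant retracts of
  finite free `B[X]`-modules (because `R₀` is finite free over `k[x]`, `R₁` over `k[y]`);
* `projective_M₀₁` : the overlap module is `B`-projective;
* `H0_fg_and_projective` : `H¹ = 0 ⟹ H⁰` finitely generated projective over `B`.
-/

set_option autoImplicit false
set_option linter.style.haveILetI false

open Polynomial TensorProduct

namespace Fermat.Agent.S25.helper9607

open Fermat.Agent.S25.helper1705 Fermat.Agent.S25.helper2945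

attribute [local instance] Polynomial.algebra

/-! ## Generalities -/

section General

/-- Transitivity of projectivity along a projective algebra. -/
theorem projective_of_tower (R S M : Type*) [CommRing R] [CommRing S] [Algebra R S]
    [AddCommGroup M] [Module S M] [Module R M] [IsScalarTower R S M] [Module.Projective R S]
    [Module.Projective S M] : Module.Projective R M := by
  obtain ⟨s, hs⟩ := Module.projective_def'.mp (inferInstance : Module.Projective S M)
  haveI : Module.Projective R (M →₀ S) := by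
    classical
    exact Module.Projective.of_equiv' (finsuppLequivDFinsupp (ι := M) (M := S) R).symm
  exact Module.Projective.of_split (s.restrictScalars R)
    ((Finsupp.linearCombination S (id : M → M)).restrictScalars R)
    (LinearMap.ext fun m => congrArg (fun h => h m) hs)

/-- A ring `A = R ⊗ B` (pushout of `R` and `B` over the field `k`), with `R` a domain finite
over `k[x]`, `x` transcendental, is a finite free `B[X]`-module, `X` acting as `x`. -/
theorem free_finite_of_isPushout {k R B A : Type*} [Field k] [CommRing R] [IsDomain R]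
    [CommRing B] [CommRing A] [Algebra k R] [Algebra k B] [Algebra k A] [Algebra R A]
    [Algebra B A] [IsScalarTower k R A] [IsScalarTower k B A] [Algebra.IsPushout k R B A]
    (x : R) (hfin : (aeval x : k[X] →ₐ[k] R).toRingHom.Finite) (htr : Transcendental k x)
    [Algebra B[X] A] [IsScalarTower B B[X] A] (hX : algebraMap B[X] A X = algebraMap R A x) :
    Module.Free B[X] A ∧ Module.Finite B[X] A := by
  letI a1 : Algebra k[X] R := (aeval x : k[X] →ₐ[k] R).toRingHom.toAlgebra
  letI a3 : Algebra k[X] A := ((algebraMap R A).comp (algebraMap k[X] R)).toAlgebra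
  have h_a1 : ∀ p : k[X], algebraMap k[X] R p = aeval x p := fun _ => rfl
  have h_a2 : ∀ p : B[X], algebraMap B[X] A p = aeval (algebraMap R A x) p := by
    intro p
    have : (IsScalarTower.toAlgHom B B[X] A) = aeval (algebraMap R A x) := by
      apply Polynomial.algHom_ext
      simp [hX]
    exact congrArg (fun f => f p) this
  haveI t0 : IsScalarTower k k[X] R := .of_algebraMap_eq fun c => by
    rw [h_a1, ← C_eq_algebraMap, aeval_C]
  haveI t1 : IsScalarTower k[X] R A := .of_algebraMap_eq fun _ => rfl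
  haveI t2 : IsScalarTower k[X] B[X] A := .of_algebraMap_eq fun p => by
    rw [h_a2, Polynomial.algebraMap_def, coe_mapRingHom, aeval_map_algebraMap,
      aeval_algebraMap_apply]
    rfl
  haveI t3 : IsScalarTower k B[X] A := .of_algebraMap_eq fun c => by
    rw [h_a2, IsScalarTower.algebraMap_apply k B B[X], ← C_eq_algebraMap, aeval_C,
      ← IsScalarTower.algebraMap_apply]
  have hP : Algebra.IsPushout k[X] R B[X] A :=
    (Algebra.IsPushout.comp_iff (R := k) (S := k[X]) (R' := B) (S' := B[X]) (T := R)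
      (T' := A)).mp inferInstance
  have hbc : IsBaseChange B[X] (IsScalarTower.toAlgHom k[X] R A).toLinearMap := hP.symm.out
  haveI : Module.Finite k[X] R := hfin
  haveI : Module.IsTorsionFree k[X] R := ⟨fun r hr m₁ m₂ h => by
    have hr0 : r ≠ 0 := hr.ne_zero
    have hinj : Function.Injective (algebraMap k[X] R) := transcendental_iff_injective.mp htr
    have h1 : algebraMap k[X] R r ≠ 0 := fun h0 => hr0 (hinj (by rw [h0, map_zero]))
    have h2 : algebraMap k[X] R r * m₁ = algebraMap k[X] R r * m₂ := by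
      simpa [Algebra.smul_def] using h
    exact mul_left_cancel₀ h1 h2⟩
  haveI : Module.Free k[X] R := inferInstance
  exact ⟨hbc.free, Module.Finite.of_basis (hbc.basis (Module.Free.chooseBasis k[X] R))⟩

end General

/-! ## The rings of a curve datum as `B[X]`-modules -/

section Rings

universe u

variable {k : Type u} [Field k] (D : CurveDatum k) (B : Type u) [CommRing B] [Algebra k B]

/-- `B[X]`-algebra structure on `D.A₀ B`, `X ↦ x`. Not an instance. -/
@[reducible] noncomputable def algPoly₀ : Algebra B[X] (D.A₀ B) :=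
  (aeval (xB D B) : B[X] →ₐ[B] D.A₀ B).toRingHom.toAlgebra

/-- `B[X]`-algebra structure on `D.A₁ B`, `X ↦ y`. Not an instance. -/
@[reducible] noncomputable def algPoly₁ : Algebra B[X] (D.A₁ B) :=
  (aeval (yB D B) : B[X] →ₐ[B] D.A₁ B).toRingHom.toAlgebra

theorem isScalarTower_algPoly₀ :
    letI := algPoly₀ D B
    IsScalarTower B B[X] (D.A₀ B) := by
  letI := algPoly₀ D B
  exact .of_algebraMap_eq fun b => by
    show algebraMap B (D.A₀ B) b = aeval (xB D B) (algebraMap B B[X] b)
    rw [← C_eq_algebraMap, aeval_C]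

theorem isScalarTower_algPoly₁ :
    letI := algPoly₁ D B
    IsScalarTower B B[X] (D.A₁ B) := by
  letI := algPoly₁ D B
  exact .of_algebraMap_eq fun b => by
    show algebraMap B (D.A₁ B) b = aeval (yB D B) (algebraMap B B[X] b)
    rw [← C_eq_algebraMap, aeval_C]

/-- The first chart ring of `C ×ₖ Spec B` is a finite free `B[x]`-module. -/
theorem free_finite_A₀ (hx : Transcendental k D.x) :
    letI := algPoly₀ D B
    Module.Free B[X] (D.A₀ B) ∧ Module.Finite B[X] (D.A₀ B) := by
  letI := algPoly₀ D B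
  haveI := isScalarTower_algPoly₀ D B
  exact free_finite_of_isPushout (k := k) (R := D.R₀) (B := B) (A := D.A₀ B) D.x D.finite₀ hx
    (by show aeval (xB D B) X = _; rw [aeval_X]; rfl)

/-- The second chart ring of `C ×ₖ Spec B` is a finite free `B[y]`-module. -/
theorem free_finite_A₁ (hy : Transcendental k D.y) :
    letI := algPoly₁ D B
    Module.Free B[X] (D.A₁ B) ∧ Module.Finite B[X] (D.A₁ B) := by
  letI := algPoly₁ D B
  haveI := isScalarTower_algPoly₁ D B
  exact free_finite_of_isPushout (k := k) (R := D.R₁) (B := B) (A := D.A₁ B) D.y D.finite₁ hy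
    (by show aeval (yB D B) X = _; rw [aeval_X]; rfl)

/-- The chart rings of `C ×ₖ Spec B` are free `B`-modules. -/
theorem free_A₀ : Module.Free B (D.A₀ B) :=
  (inferInstance : Algebra.IsPushout k B D.R₀ (D.A₀ B)).out.free

theorem free_A₁ : Module.Free B (D.A₁ B) :=
  (inferInstance : Algebra.IsPushout k B D.R₁ (D.A₁ B)).out.free

theorem free_A₀₁ : Module.Free B (D.A₀₁ B) :=
  (inferInstance : Algebra.IsPushout k B D.R₀₁ (D.A₀₁ B)).out.free

end Rings

/-! ## Endomorphism form of a glue datum -/

section Glue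

universe u

variable {k : Type u} [Field k] {D : CurveDatum k} {B : Type u} [CommRing B] [Algebra k B]
  (G : GlueDatum D B)

/-- Multiplication by `x` on the first chart, as a `B`-linear endomorphism. -/
noncomputable def X₀ : Module.End B G.M₀ :=
  (LinearMap.lsmul (D.A₀ B) G.M₀ (xB D B)).restrictScalars B

/-- Multiplication by `y` on the chart at infinity, as a `B`-linear endomorphism. -/
noncomputable def Y₁ : Module.End B G.M₁ :=
  (LinearMap.lsmul (D.A₁ B) G.M₁ (yB D B)).restrictScalars B

/-- Multiplication by `x` on the overlap, as a `B`-linear endomorphism. -/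
noncomputable def X₀₁ : Module.End B G.M₀₁ :=
  (LinearMap.lsmul (D.A₀ B) G.M₀₁ (xB D B)).restrictScalars B

/-- Multiplication by `y = 1/x` on the overlap, as a `B`-linear endomorphism. -/
noncomputable def Y₀₁ : Module.End B G.M₀₁ :=
  (LinearMap.lsmul (D.A₁ B) G.M₀₁ (yB D B)).restrictScalars B

@[simp] theorem X₀_apply (m : G.M₀) : X₀ G m = xB D B • m := rfl
@[simp] theorem Y₁_apply (m : G.M₁) : Y₁ G m = yB D B • m := rfl
@[simp] theorem X₀₁_apply (z : G.M₀₁) : X₀₁ G z = xB D B • z := rfl
@[simp] theorem Y₀₁_apply (z : G.M₀₁) : Y₀₁ G z = yB D B • z := rfl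

theorem X₀_pow_apply (n : ℕ) (m : G.M₀) : (X₀ G ^ n) m = xB D B ^ n • m := by
  induction n generalizing m with
  | zero => simp
  | succ n ih => rw [pow_succ, Module.End.mul_apply, ih, X₀_apply, pow_succ, mul_smul]

theorem Y₁_pow_apply (n : ℕ) (m : G.M₁) : (Y₁ G ^ n) m = yB D B ^ n • m := by
  induction n generalizing m with
  | zero => simp
  | succ n ih => rw [pow_succ, Module.End.mul_apply, ih, Y₁_apply, pow_succ, mul_smul]

theorem X₀₁_pow_apply (n : ℕ) (z : G.M₀₁) : (X₀₁ G ^ n) z = xB D B ^ n • z := by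
  induction n generalizing z with
  | zero => simp
  | succ n ih => rw [pow_succ, Module.End.mul_apply, ih, X₀₁_apply, pow_succ, mul_smul]

theorem Y₀₁_pow_apply (n : ℕ) (z : G.M₀₁) : (Y₀₁ G ^ n) z = yB D B ^ n • z := by
  induction n generalizing z with
  | zero => simp
  | succ n ih => rw [pow_succ, Module.End.mul_apply, ih, Y₀₁_apply, pow_succ, mul_smul]

theorem X₀₁_Y₀₁ (z : G.M₀₁) : X₀₁ G (Y₀₁ G z) = z := by
  show xB D B • (yB D B • z) = z
  rw [← algebraMap_smul (D.A₀₁ B) (xB D B), ← algebraMap_smul (D.A₀₁ B) (yB D B) z, ← mul_smul,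
    xB_mul_yB, one_smul]

theorem Y₀₁_X₀₁ (z : G.M₀₁) : Y₀₁ G (X₀₁ G z) = z := by
  show yB D B • (xB D B • z) = z
  rw [← algebraMap_smul (D.A₀₁ B) (yB D B), ← algebraMap_smul (D.A₀₁ B) (xB D B) z, ← mul_smul,
    mul_comm, xB_mul_yB, one_smul]

theorem ρ₀B_X₀ (m : G.M₀) : G.ρ₀B (X₀ G m) = X₀₁ G (G.ρ₀B m) := G.ρ₀.map_smul _ _

theorem ρ₁B_Y₁ (m : G.M₁) : G.ρ₁B (Y₁ G m) = Y₀₁ G (G.ρ₁B m) := G.ρ₁.map_smul _ _

/-- Every element of the overlap becomes a section of the first chart after multiplication by a
power of `x`. -/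
theorem exists_pow_X₀₁_eq (z : G.M₀₁) : ∃ (n : ℕ) (m : G.M₀), (X₀₁ G ^ n) z = G.ρ₀B m := by
  obtain ⟨⟨m, ⟨s, n, rfl⟩⟩, h⟩ := IsLocalizedModule.surj (Submonoid.powers (xB D B)) G.ρ₀ z
  exact ⟨n, m, by rw [X₀₁_pow_apply]; exact h⟩

theorem exists_pow_Y₀₁_eq (z : G.M₀₁) : ∃ (n : ℕ) (m : G.M₁), (Y₀₁ G ^ n) z = G.ρ₁B m := by
  obtain ⟨⟨m, ⟨s, n, rfl⟩⟩, h⟩ := IsLocalizedModule.surj (Submonoid.powers (yB D B)) G.ρ₁ z
  exact ⟨n, m, by rw [Y₀₁_pow_apply]; exact h⟩

/-- A section of the first chart that vanishes on the overlap is killed by a power of `x`. -/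
theorem exists_pow_X₀_eq_zero (m : G.M₀) (h : G.ρ₀B m = 0) : ∃ n : ℕ, (X₀ G ^ n) m = 0 := by
  obtain ⟨⟨s, n, rfl⟩, hc⟩ := IsLocalizedModule.exists_of_eq (S := Submonoid.powers (xB D B))
    (f := G.ρ₀) (x₁ := m) (x₂ := 0) (by simpa using h)
  rw [smul_zero] at hc
  exact ⟨n, by rw [X₀_pow_apply]; exact hc⟩

theorem exists_pow_Y₁_eq_zero (m : G.M₁) (h : G.ρ₁B m = 0) : ∃ n : ℕ, (Y₁ G ^ n) m = 0 := by
  obtain ⟨⟨s, n, rfl⟩, hc⟩ := IsLocalizedModule.exists_of_eq (S := Submonoid.powers (yB D B))
    (f := G.ρ₁) (x₁ := m) (x₂ := 0) (by simpa using h)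
  rw [smul_zero] at hc
  exact ⟨n, by rw [Y₁_pow_apply]; exact hc⟩

/-- The first chart module is an equivariant retract of a finite free `B[X]`-module. -/
theorem isRetractOfFree_X₀ (hx : Transcendental k D.x) : IsRetractOfFree (X₀ G) := by
  letI := algPoly₀ D B
  haveI := isScalarTower_algPoly₀ D B
  obtain ⟨hfree, hfin⟩ := free_finite_A₀ D B hx
  letI : Module B[X] G.M₀ := Module.compHom G.M₀ (algebraMap B[X] (D.A₀ B))
  haveI : IsScalarTower B[X] (D.A₀ B) G.M₀ := ⟨fun p a m => by
    show (p • a) • m = algebraMap B[X] (D.A₀ B) p • (a • m)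
    rw [Algebra.smul_def, mul_smul]⟩
  haveI : IsScalarTower B B[X] G.M₀ := ⟨fun b p m => by
    show algebraMap B[X] (D.A₀ B) (b • p) • m = b • (algebraMap B[X] (D.A₀ B) p • m)
    rw [Algebra.smul_def, map_mul, mul_smul, ← IsScalarTower.algebraMap_apply, algebraMap_smul]⟩
  haveI : Module.Finite B[X] G.M₀ := Module.Finite.trans (D.A₀ B) G.M₀
  haveI : Module.Projective B[X] G.M₀ := projective_of_tower B[X] (D.A₀ B) G.M₀
  exact isRetractOfFree_of_finite_projective (X₀ G) fun m => by
    show xB D B • m = algebraMap B[X] (D.A₀ B) X • m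
    congr 1
    exact (aeval_X (xB D B)).symm

/-- The module of the chart at infinity is an equivariant retract of a finite free
`B[X]`-module. -/
theorem isRetractOfFree_Y₁ (hy : Transcendental k D.y) : IsRetractOfFree (Y₁ G) := by
  letI := algPoly₁ D B
  haveI := isScalarTower_algPoly₁ D B
  obtain ⟨hfree, hfin⟩ := free_finite_A₁ D B hy
  letI : Module B[X] G.M₁ := Module.compHom G.M₁ (algebraMap B[X] (D.A₁ B))
  haveI : IsScalarTower B[X] (D.A₁ B) G.M₁ := ⟨fun p a m => by
    show (p • a) • m = algebraMap B[X] (D.A₁ B) p • (a • m)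
    rw [Algebra.smul_def, mul_smul]⟩
  haveI : IsScalarTower B B[X] G.M₁ := ⟨fun b p m => by
    show algebraMap B[X] (D.A₁ B) (b • p) • m = b • (algebraMap B[X] (D.A₁ B) p • m)
    rw [Algebra.smul_def, map_mul, mul_smul, ← IsScalarTower.algebraMap_apply, algebraMap_smul]⟩
  haveI : Module.Finite B[X] G.M₁ := Module.Finite.trans (D.A₁ B) G.M₁
  haveI : Module.Projective B[X] G.M₁ := projective_of_tower B[X] (D.A₁ B) G.M₁
  exact isRetractOfFree_of_finite_projective (Y₁ G) fun m => by
    show yB D B • m = algebraMap B[X] (D.A₁ B) X • m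
    congr 1
    exact (aeval_X (yB D B)).symm

/-- The overlap module is a finite projective module over the overlap ring. -/
theorem projective_M₀₁_A₀₁ : Module.Projective (D.A₀₁ B) G.M₀₁ :=
  Module.Projective.of_equiv'
    (IsLocalizedModule.isBaseChange (Submonoid.powers (xB D B)) (D.A₀₁ B) G.ρ₀).equiv

/-- The chart modules and the overlap module are projective `B`-modules. -/
theorem projective_M₀ : Module.Projective B G.M₀ :=
  haveI := free_A₀ D B
  projective_of_tower B (D.A₀ B) G.M₀

theorem projective_M₁ : Module.Projective B G.M₁ :=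
  haveI := free_A₁ D B
  projective_of_tower B (D.A₁ B) G.M₁

theorem projective_M₀₁ : Module.Projective B G.M₀₁ :=
  haveI := free_A₀₁ D B
  haveI := projective_M₀₁_A₀₁ G
  projective_of_tower B (D.A₀₁ B) G.M₀₁

/-- **`H¹ = 0 ⟹ H⁰` finitely generated projective over `B`**, for a glue datum over any
`k`-algebra `B` (hypothesis-passing form: `x`, `y` transcendental). -/
theorem H0_fg_and_projective_of_transcendental (hx : Transcendental k D.x)
    (hy : Transcendental k D.y) (h : Function.Surjective G.delta) :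
    G.H0.FG ∧ Module.Projective B G.H0 :=
  haveI := projective_M₀₁ G
  ker_fg_and_projective (X₀ G) (Y₁ G) (X₀₁ G) (Y₀₁ G) (X₀₁_Y₀₁ G) (Y₀₁_X₀₁ G) G.ρ₀B G.ρ₁B
    (ρ₀B_X₀ G) (ρ₁B_Y₁ G) (exists_pow_X₀₁_eq G) (exists_pow_X₀_eq_zero G) (exists_pow_Y₀₁_eq G)
    (exists_pow_Y₁_eq_zero G) (isRetractOfFree_X₀ G hx) (isRetractOfFree_Y₁ G hy) h

/-- **`H¹ = 0 ⟹ H⁰` finitely generated projective over `B`**, for a glue datum over any
`k`-algebra `B`, `k` algebraically closed. -/
theorem H0_fg_and_projective [IsAlgClosed k] (h : Function.Surjective G.delta) :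
    G.H0.FG ∧ Module.Projective B G.H0 :=
  H0_fg_and_projective_of_transcendental G (helper1167.x_transcendental D)
    (helper1167.y_transcendental D) h

theorem H0_finite [IsAlgClosed k] (h : Function.Surjective G.delta) : Module.Finite B G.H0 :=
  Module.Finite.iff_fg.mpr (H0_fg_and_projective G h).1

theorem H0_projective [IsAlgClosed k] (h : Function.Surjective G.delta) :
    Module.Projective B G.H0 :=
  (H0_fg_and_projective G h).2

end Glue

end Fermat.Agent.S25.helper9607
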