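import Fermat.Agent.S25.helper2945_AlgDefs
import Fermat.Agent.S25.helper9607_GlueBridge
import Fermat.Agent.S25.helper743_AlgApi
import Fermat.Agent.S25.helper6786_CurveBase
import Fermat.Agent.S25.helper8628_ChiLocConst

/-!
# S25, leaf U10 in `GlueDatum` form, unconditional (helper8628)

For a two-chart line bundle `G : GlueDatum D B` over an arbitrary `k`-algebra `B` (`k`
algebraically closed), the Euler characteristic of the fibres is a locally constant function on
`Spec B`: there is a locally constant `f : PrimeSpectrum B → ℤ` such that for every field valued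
point `φ : B →ₐ[k] K`, the cohomology of `G.baseChange φ` is finite-dimensional and
`(G.baseChange φ).chi = f (ker φ)`.

Corollaries: `χ` is invariant under extension of the base field, `χ` of the residue-field fibres
is locally constant, cohomology over a field is finite-dimensional.
-/

set_option autoImplicit false
set_option linter.style.haveILetI false

universe u

open Polynomial TensorProduct

namespace Fermat.Agent.S25.helper8628

open Fermat.Agent.S25.helper1705 Fermat.Agent.S25.helper2945 Fermat.Agent.S25.helper9607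

/-! ## A glue datum is a two-chart module in operator form -/

section Glue

variable {k : Type u} [Field k] {D : CurveDatum k} {B : Type u} [CommRing B] [Algebra k B]
  (G : GlueDatum D B)

/-- `B[X]`-module structure on `G.M₀`, with `X` acting as `x`. Not an instance. -/
@[reducible] noncomputable def modPoly₀ : Module B[X] G.M₀ :=
  Module.compHom G.M₀ (aeval (xB D B) : B[X] →ₐ[B] D.A₀ B).toRingHom

/-- `B[X]`-module structure on `G.M₁`, with `X` acting as `y`. Not an instance. -/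
@[reducible] noncomputable def modPoly₁ : Module B[X] G.M₁ :=
  Module.compHom G.M₁ (aeval (yB D B) : B[X] →ₐ[B] D.A₁ B).toRingHom

theorem modPoly₀_smul (p : B[X]) (m : G.M₀) :
    letI := modPoly₀ G
    p • m = aeval (xB D B) p • m := rfl

theorem modPoly₁_smul (p : B[X]) (m : G.M₁) :
    letI := modPoly₁ G
    p • m = aeval (yB D B) p • m := rfl

theorem isScalarTower_modPoly₀ :
    letI := modPoly₀ G
    IsScalarTower B B[X] G.M₀ := by
  letI := modPoly₀ G
  refine ⟨fun b p m => ?_⟩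
  rw [modPoly₀_smul, modPoly₀_smul, map_smul, smul_assoc]

theorem isScalarTower_modPoly₁ :
    letI := modPoly₁ G
    IsScalarTower B B[X] G.M₁ := by
  letI := modPoly₁ G
  refine ⟨fun b p m => ?_⟩
  rw [modPoly₁_smul, modPoly₁_smul, map_smul, smul_assoc]

theorem finite_projective_modPoly₀ (hx : Transcendental k D.x) :
    letI := modPoly₀ G
    Module.Finite B[X] G.M₀ ∧ Module.Projective B[X] G.M₀ := by
  letI := algPoly₀ D B
  haveI := isScalarTower_algPoly₀ D B
  obtain ⟨hfree, hfin⟩ := free_finite_A₀ D B hx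
  letI := modPoly₀ G
  haveI : IsScalarTower B[X] (D.A₀ B) G.M₀ := ⟨fun p a m => by
    show (p • a) • m = algebraMap B[X] (D.A₀ B) p • (a • m)
    rw [Algebra.smul_def, mul_smul]⟩
  exact ⟨Module.Finite.trans (D.A₀ B) G.M₀, projective_of_tower B[X] (D.A₀ B) G.M₀⟩

theorem finite_projective_modPoly₁ (hy : Transcendental k D.y) :
    letI := modPoly₁ G
    Module.Finite B[X] G.M₁ ∧ Module.Projective B[X] G.M₁ := by
  letI := algPoly₁ D B
  haveI := isScalarTower_algPoly₁ D B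
  obtain ⟨hfree, hfin⟩ := free_finite_A₁ D B hy
  letI := modPoly₁ G
  haveI : IsScalarTower B[X] (D.A₁ B) G.M₁ := ⟨fun p a m => by
    show (p • a) • m = algebraMap B[X] (D.A₁ B) p • (a • m)
    rw [Algebra.smul_def, mul_smul]⟩
  exact ⟨Module.Finite.trans (D.A₁ B) G.M₁, projective_of_tower B[X] (D.A₁ B) G.M₁⟩

/-- A glue datum is a two-chart module in operator form. -/
theorem twoChart :
    letI := modPoly₀ G
    letI := modPoly₁ G
    haveI := isScalarTower_modPoly₀ G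
    haveI := isScalarTower_modPoly₁ G
    TwoChart G.ρ₀B G.ρ₁B (X₀₁ G) (Y₀₁ G) := by
  letI := modPoly₀ G
  letI := modPoly₁ G
  haveI := isScalarTower_modPoly₀ G
  haveI := isScalarTower_modPoly₁ G
  refine ⟨X₀₁_Y₀₁ G, Y₀₁_X₀₁ G, fun a => ?_, fun b => ?_, fun n => ?_, fun n => ?_,
    fun a ha => ?_, fun b hb => ?_⟩
  · rw [modPoly₀_smul, aeval_X]
    exact ρ₀B_X₀ G a
  · rw [modPoly₁_smul, aeval_X]
    exact ρ₁B_Y₁ G b
  · obtain ⟨j, m, hm⟩ := exists_pow_X₀₁_eq G n
    exact ⟨j, m, hm.symm⟩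
  · obtain ⟨j, m, hm⟩ := exists_pow_Y₀₁_eq G n
    exact ⟨j, m, hm.symm⟩
  · obtain ⟨j, hj⟩ := exists_pow_X₀_eq_zero G a ha
    refine ⟨j, ?_⟩
    rw [modPoly₀_smul, map_pow, aeval_X, ← X₀_pow_apply]
    exact hj
  · obtain ⟨j, hj⟩ := exists_pow_Y₁_eq_zero G b hb
    refine ⟨j, ?_⟩
    rw [modPoly₁_smul, map_pow, aeval_X, ← Y₁_pow_apply]
    exact hj

end Glue

/-! ## Base change of the three modules along `φ : B → B'` is base change along `B → B'` -/

section BaseChange

variable {k : Type u} [Field k] {D : CurveDatum k} {B : Type u} [CommRing B] [Algebra k B]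
  (G : GlueDatum D B) {B' : Type u} [CommRing B'] [Algebra k B'] (φ : B →ₐ[k] B')

/-- `B`-module structure on the first chart module of `G.baseChange φ`, through `φ`.
Not an instance. -/
@[reducible] noncomputable def bcModule₀ : Module B (G.baseChange φ).M₀ :=
  Module.compHom (G.baseChange φ).M₀ φ.toRingHom

/-- `B`-module structure on the second chart module of `G.baseChange φ`, through `φ`.
Not an instance. -/
@[reducible] noncomputable def bcModule₁ : Module B (G.baseChange φ).M₁ :=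
  Module.compHom (G.baseChange φ).M₁ φ.toRingHom

/-- `B`-module structure on the overlap module of `G.baseChange φ`, through `φ`.
Not an instance. -/
@[reducible] noncomputable def bcModule₀₁ : Module B (G.baseChange φ).M₀₁ :=
  Module.compHom (G.baseChange φ).M₀₁ φ.toRingHom

theorem isScalarTower_bcModule₀ :
    letI : Algebra B B' := φ.toRingHom.toAlgebra
    letI := bcModule₀ G φ
    IsScalarTower B B' (G.baseChange φ).M₀ := by
  letI : Algebra B B' := φ.toRingHom.toAlgebra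
  letI := bcModule₀ G φ
  exact ⟨fun b c z => by
    show (φ b * c) • z = φ b • (c • z)
    rw [mul_smul]⟩

theorem isScalarTower_bcModule₁ :
    letI : Algebra B B' := φ.toRingHom.toAlgebra
    letI := bcModule₁ G φ
    IsScalarTower B B' (G.baseChange φ).M₁ := by
  letI : Algebra B B' := φ.toRingHom.toAlgebra
  letI := bcModule₁ G φ
  exact ⟨fun b c z => by
    show (φ b * c) • z = φ b • (c • z)
    rw [mul_smul]⟩

theorem isScalarTower_bcModule₀₁ :
    letI : Algebra B B' := φ.toRingHom.toAlgebra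
    letI := bcModule₀₁ G φ
    IsScalarTower B B' (G.baseChange φ).M₀₁ := by
  letI : Algebra B B' := φ.toRingHom.toAlgebra
  letI := bcModule₀₁ G φ
  exact ⟨fun b c z => by
    show (φ b * c) • z = φ b • (c • z)
    rw [mul_smul]⟩

/-- The canonical map `G.M₀ → (G.baseChange φ).M₀`, `m ↦ 1 ⊗ m`, is a base change along
`B → B'`. -/
theorem exists_isBaseChange₀ :
    letI : Algebra B B' := φ.toRingHom.toAlgebra
    letI := bcModule₀ G φ
    haveI := isScalarTower_bcModule₀ G φ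
    ∃ b₀ : G.M₀ →ₗ[B] (G.baseChange φ).M₀, IsBaseChange B' b₀ ∧
      ∀ m, b₀ m = letI := algA₀ D φ; ((1 : D.A₀ B') ⊗ₜ[D.A₀ B] m : D.A₀ B' ⊗[D.A₀ B] G.M₀) := by
  letI : Algebra B B' := φ.toRingHom.toAlgebra
  letI := bcModule₀ G φ
  haveI := isScalarTower_bcModule₀ G φ
  letI := algA₀ D φ
  letI : Algebra B (D.A₀ B') := ((algebraMap B' (D.A₀ B')).comp φ.toRingHom).toAlgebra
  haveI : IsScalarTower B (D.A₀ B) (D.A₀ B') := .of_algebraMap_eq fun b => rfl
  haveI : IsScalarTower B B' (D.A₀ B') := .of_algebraMap_eq fun b => rfl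
  haveI : IsScalarTower k B B' := .of_algebraMap_eq fun r => (φ.commutes r).symm
  haveI hP : Algebra.IsPushout B B' (D.A₀ B) (D.A₀ B') :=
    helper6786.CurveBase.isPushout_tensor B D.R₀ B'
  letI : Module (D.A₀ B) (G.baseChange φ).M₀ :=
    Module.compHom (G.baseChange φ).M₀ (D.map₀ φ).toRingHom
  haveI : IsScalarTower (D.A₀ B) (D.A₀ B') (G.baseChange φ).M₀ := ⟨fun a a' z => by
    show (D.map₀ φ a * a') • z = D.map₀ φ a • (a' • z)
    rw [mul_smul]⟩
  haveI : IsScalarTower B (D.A₀ B) (G.baseChange φ).M₀ := ⟨fun b a z => by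
    show D.map₀ φ (b • a) • z = algebraMap B' (D.A₀ B') (φ b) • (D.map₀ φ a • z)
    rw [Algebra.smul_def, map_mul, mul_smul]
    rfl⟩
  let f : G.M₀ →ₗ[D.A₀ B] (G.baseChange φ).M₀ :=
    { toFun := fun m => ((1 : D.A₀ B') ⊗ₜ[D.A₀ B] m : D.A₀ B' ⊗[D.A₀ B] G.M₀)
      map_add' := fun m m' => TensorProduct.tmul_add _ _ _
      map_smul' := fun a m => by
        show (1 : D.A₀ B') ⊗ₜ[D.A₀ B] (a • m) = D.map₀ φ a • ((1 : D.A₀ B') ⊗ₜ[D.A₀ B] m)
        rw [TensorProduct.smul_tmul', ← TensorProduct.smul_tmul]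
        congr 1 }
  have hf : IsBaseChange (D.A₀ B') f :=
    IsBaseChange.of_equiv (LinearEquiv.refl (D.A₀ B') _) (fun m => rfl)
  exact ⟨f.restrictScalars B,
    helper6786.CurveBase.isBaseChange_restrictScalars_of_isPushout B B' (D.A₀ B) (D.A₀ B') f hf,
    fun m => rfl⟩

/-- The canonical map `G.M₁ → (G.baseChange φ).M₁`, `m ↦ 1 ⊗ m`, is a base change along
`B → B'`. -/
theorem exists_isBaseChange₁ :
    letI : Algebra B B' := φ.toRingHom.toAlgebra
    letI := bcModule₁ G φ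
    haveI := isScalarTower_bcModule₁ G φ
    ∃ b₁ : G.M₁ →ₗ[B] (G.baseChange φ).M₁, IsBaseChange B' b₁ ∧
      ∀ m, b₁ m = letI := algA₁ D φ; ((1 : D.A₁ B') ⊗ₜ[D.A₁ B] m : D.A₁ B' ⊗[D.A₁ B] G.M₁) := by
  letI : Algebra B B' := φ.toRingHom.toAlgebra
  letI := bcModule₁ G φ
  haveI := isScalarTower_bcModule₁ G φ
  letI := algA₁ D φ
  letI : Algebra B (D.A₁ B') := ((algebraMap B' (D.A₁ B')).comp φ.toRingHom).toAlgebra
  haveI : IsScalarTower B (D.A₁ B) (D.A₁ B') := .of_algebraMap_eq fun b => rfl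
  haveI : IsScalarTower B B' (D.A₁ B') := .of_algebraMap_eq fun b => rfl
  haveI : IsScalarTower k B B' := .of_algebraMap_eq fun r => (φ.commutes r).symm
  haveI hP : Algebra.IsPushout B B' (D.A₁ B) (D.A₁ B') :=
    helper6786.CurveBase.isPushout_tensor B D.R₁ B'
  letI : Module (D.A₁ B) (G.baseChange φ).M₁ :=
    Module.compHom (G.baseChange φ).M₁ (D.map₁ φ).toRingHom
  haveI : IsScalarTower (D.A₁ B) (D.A₁ B') (G.baseChange φ).M₁ := ⟨fun a a' z => by
    show (D.map₁ φ a * a') • z = D.map₁ φ a • (a' • z)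
    rw [mul_smul]⟩
  haveI : IsScalarTower B (D.A₁ B) (G.baseChange φ).M₁ := ⟨fun b a z => by
    show D.map₁ φ (b • a) • z = algebraMap B' (D.A₁ B') (φ b) • (D.map₁ φ a • z)
    rw [Algebra.smul_def, map_mul, mul_smul]
    rfl⟩
  let f : G.M₁ →ₗ[D.A₁ B] (G.baseChange φ).M₁ :=
    { toFun := fun m => ((1 : D.A₁ B') ⊗ₜ[D.A₁ B] m : D.A₁ B' ⊗[D.A₁ B] G.M₁)
      map_add' := fun m m' => TensorProduct.tmul_add _ _ _
      map_smul' := fun a m => by
        show (1 : D.A₁ B') ⊗ₜ[D.A₁ B] (a • m) = D.map₁ φ a • ((1 : D.A₁ B') ⊗ₜ[D.A₁ B] m)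
        rw [TensorProduct.smul_tmul', ← TensorProduct.smul_tmul]
        congr 1 }
  have hf : IsBaseChange (D.A₁ B') f :=
    IsBaseChange.of_equiv (LinearEquiv.refl (D.A₁ B') _) (fun m => rfl)
  exact ⟨f.restrictScalars B,
    helper6786.CurveBase.isBaseChange_restrictScalars_of_isPushout B B' (D.A₁ B) (D.A₁ B') f hf,
    fun m => rfl⟩

/-- The canonical map `G.M₀₁ → (G.baseChange φ).M₀₁`, `m ↦ 1 ⊗ m`, is a base change along
`B → B'`. -/
theorem exists_isBaseChange₀₁ :
    letI : Algebra B B' := φ.toRingHom.toAlgebra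
    letI := bcModule₀₁ G φ
    haveI := isScalarTower_bcModule₀₁ G φ
    ∃ b₀₁ : G.M₀₁ →ₗ[B] (G.baseChange φ).M₀₁, IsBaseChange B' b₀₁ ∧
      ∀ m, b₀₁ m = letI := algA₀₁ D φ; ((1 : D.A₀₁ B') ⊗ₜ[D.A₀₁ B] m : D.A₀₁ B' ⊗[D.A₀₁ B] G.M₀₁) := by
  letI : Algebra B B' := φ.toRingHom.toAlgebra
  letI := bcModule₀₁ G φ
  haveI := isScalarTower_bcModule₀₁ G φ
  letI := algA₀₁ D φ
  letI : Algebra B (D.A₀₁ B') := ((algebraMap B' (D.A₀₁ B')).comp φ.toRingHom).toAlgebra
  haveI : IsScalarTower B (D.A₀₁ B) (D.A₀₁ B') := .of_algebraMap_eq fun b => rfl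
  haveI : IsScalarTower B B' (D.A₀₁ B') := .of_algebraMap_eq fun b => rfl
  haveI : IsScalarTower k B B' := .of_algebraMap_eq fun r => (φ.commutes r).symm
  haveI hP : Algebra.IsPushout B B' (D.A₀₁ B) (D.A₀₁ B') :=
    helper6786.CurveBase.isPushout_tensor B D.R₀₁ B'
  letI : Module (D.A₀₁ B) (G.baseChange φ).M₀₁ :=
    Module.compHom (G.baseChange φ).M₀₁ (D.map₀₁ φ).toRingHom
  haveI : IsScalarTower (D.A₀₁ B) (D.A₀₁ B') (G.baseChange φ).M₀₁ := ⟨fun a a' z => by
    show (D.map₀₁ φ a * a') • z = D.map₀₁ φ a • (a' • z)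
    rw [mul_smul]⟩
  haveI : IsScalarTower B (D.A₀₁ B) (G.baseChange φ).M₀₁ := ⟨fun b a z => by
    show D.map₀₁ φ (b • a) • z = algebraMap B' (D.A₀₁ B') (φ b) • (D.map₀₁ φ a • z)
    rw [Algebra.smul_def, map_mul, mul_smul]
    rfl⟩
  let f : G.M₀₁ →ₗ[D.A₀₁ B] (G.baseChange φ).M₀₁ :=
    { toFun := fun m => ((1 : D.A₀₁ B') ⊗ₜ[D.A₀₁ B] m : D.A₀₁ B' ⊗[D.A₀₁ B] G.M₀₁)
      map_add' := fun m m' => TensorProduct.tmul_add _ _ _
      map_smul' := fun a m => by
        show (1 : D.A₀₁ B') ⊗ₜ[D.A₀₁ B] (a • m) = D.map₀₁ φ a • ((1 : D.A₀₁ B') ⊗ₜ[D.A₀₁ B] m)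
        rw [TensorProduct.smul_tmul', ← TensorProduct.smul_tmul]
        congr 1 }
  have hf : IsBaseChange (D.A₀₁ B') f :=
    IsBaseChange.of_equiv (LinearEquiv.refl (D.A₀₁ B') _) (fun m => rfl)
  exact ⟨f.restrictScalars B,
    helper6786.CurveBase.isBaseChange_restrictScalars_of_isPushout B B' (D.A₀₁ B) (D.A₀₁ B') f hf,
    fun m => rfl⟩

end BaseChange

/-! ## Compatibility of the restriction maps with base change -/

section Compat

variable {k : Type u} [Field k] {D : CurveDatum k} {B : Type u} [CommRing B] [Algebra k B]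
  (G : GlueDatum D B) {B' : Type u} [CommRing B'] [Algebra k B'] (φ : B →ₐ[k] B')

theorem baseChange_ρ₀_one_tmul (m : G.M₀) :
    (G.baseChange φ).ρ₀
        (letI := algA₀ D φ; ((1 : D.A₀ B') ⊗ₜ[D.A₀ B] m : D.A₀ B' ⊗[D.A₀ B] G.M₀)) =
      (letI := algA₀₁ D φ;
        ((1 : D.A₀₁ B') ⊗ₜ[D.A₀₁ B] G.ρ₀ m : D.A₀₁ B' ⊗[D.A₀₁ B] G.M₀₁)) := by
  letI := algA₀ D φ
  letI := algA₁ D φ
  letI := algA₀₁ D φ
  letI := algA₀A₀₁ D φ
  letI := algA₁A₀₁ D φ
  haveI := tower_A₀_A₀₁_A₀₁' D φ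
  haveI := tower_A₀_A₀'_A₀₁' D φ
  haveI := tower_A₁_A₀₁_A₀₁' D φ
  haveI := tower_A₁_A₁'_A₀₁' D φ
  have h := sqBaseChange_tmul (S := D.A₀₁ B) (S' := D.A₀₁ B') G.ρ₀ (1 : D.A₀ B') m
  rw [map_one] at h
  exact h

theorem baseChange_ρ₁_one_tmul (m : G.M₁) :
    (G.baseChange φ).ρ₁
        (letI := algA₁ D φ; ((1 : D.A₁ B') ⊗ₜ[D.A₁ B] m : D.A₁ B' ⊗[D.A₁ B] G.M₁)) =
      (letI := algA₀₁ D φ;
        ((1 : D.A₀₁ B') ⊗ₜ[D.A₀₁ B] G.ρ₁ m : D.A₀₁ B' ⊗[D.A₀₁ B] G.M₀₁)) := by
  letI := algA₀ D φ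
  letI := algA₁ D φ
  letI := algA₀₁ D φ
  letI := algA₀A₀₁ D φ
  letI := algA₁A₀₁ D φ
  haveI := tower_A₀_A₀₁_A₀₁' D φ
  haveI := tower_A₀_A₀'_A₀₁' D φ
  haveI := tower_A₁_A₀₁_A₀₁' D φ
  haveI := tower_A₁_A₁'_A₀₁' D φ
  have h := sqBaseChange_tmul (S := D.A₀₁ B) (S' := D.A₀₁ B') G.ρ₁ (1 : D.A₁ B') m
  rw [map_one] at h
  exact h

end Compat

/-! ## The main theorem -/

section Main

variable {k : Type u} [Field k] [IsAlgClosed k] {D : CurveDatum k} {B : Type u} [CommRing B]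
  [Algebra k B]

/-- The Euler characteristic function of a glue datum on `Spec B`. -/
noncomputable def glueChi (G : GlueDatum D B) : PrimeSpectrum B → ℤ :=
  letI := modPoly₀ G
  letI := modPoly₁ G
  haveI := isScalarTower_modPoly₀ G
  haveI := isScalarTower_modPoly₁ G
  haveI := (finite_projective_modPoly₀ G (helper1167.x_transcendental D)).1
  (twoChart G).chi

/-- **U10.** The Euler characteristic function of a glue datum over an arbitrary `k`-algebra `B`
is locally constant on `Spec B`. -/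
theorem isLocallyConstant_glueChi (G : GlueDatum D B) : IsLocallyConstant (glueChi G) := by
  letI := modPoly₀ G
  letI := modPoly₁ G
  haveI := isScalarTower_modPoly₀ G
  haveI := isScalarTower_modPoly₁ G
  obtain ⟨hf0, hp0⟩ := finite_projective_modPoly₀ G (helper1167.x_transcendental D)
  obtain ⟨hf1, hp1⟩ := finite_projective_modPoly₁ G (helper1167.y_transcendental D)
  haveI := projective_M₀₁ G
  exact (twoChart G).isLocallyConstant_chi

/-- **U10.** At every field valued point `φ : B → K` the cohomology of the fibre `G.baseChange φ`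
is finite-dimensional and its Euler characteristic is the value of `glueChi G` at the point
`ker φ` of `Spec B`. -/
theorem baseChange_finite_and_chi (G : GlueDatum D B) (K : Type u) [Field K] [Algebra k K]
    (φ : B →ₐ[k] K) :
    Module.Finite K (G.baseChange φ).H0 ∧ Module.Finite K (G.baseChange φ).H1 ∧
      (G.baseChange φ).chi = glueChi G ⟨RingHom.ker φ.toRingHom, RingHom.ker_isPrime _⟩ := by
  letI := modPoly₀ G
  letI := modPoly₁ G
  haveI := isScalarTower_modPoly₀ G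
  haveI := isScalarTower_modPoly₁ G
  obtain ⟨hf0, hp0⟩ := finite_projective_modPoly₀ G (helper1167.x_transcendental D)
  obtain ⟨hf1, hp1⟩ := finite_projective_modPoly₁ G (helper1167.y_transcendental D)
  haveI := projective_M₀₁ G
  have h := twoChart G
  letI : Algebra B K := φ.toRingHom.toAlgebra
  letI := bcModule₀ G φ
  letI := bcModule₁ G φ
  letI := bcModule₀₁ G φ
  haveI := isScalarTower_bcModule₀ G φ
  haveI := isScalarTower_bcModule₁ G φ
  haveI := isScalarTower_bcModule₀₁ G φ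
  obtain ⟨b₀, hb₀, e₀⟩ := exists_isBaseChange₀ G φ
  obtain ⟨b₁, hb₁, e₁⟩ := exists_isBaseChange₁ G φ
  obtain ⟨b₀₁, hb₀₁, e₀₁⟩ := exists_isBaseChange₀₁ G φ
  have c0 : ∀ a, (G.baseChange φ).ρ₀B (b₀ a) = b₀₁ (G.ρ₀B a) := fun a => by
    rw [e₀, e₀₁]
    exact baseChange_ρ₀_one_tmul G φ a
  have c1 : ∀ a, (G.baseChange φ).ρ₁B (b₁ a) = b₀₁ (G.ρ₁B a) := fun a => by
    rw [e₁, e₀₁]
    exact baseChange_ρ₁_one_tmul G φ a
  obtain ⟨g1, g2, g3⟩ := h.index_eq_chi_of_isBaseChange K b₀ b₁ b₀₁ hb₀ hb₁ hb₀₁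
    (G.baseChange φ).ρ₀B (G.baseChange φ).ρ₁B c0 c1
  exact ⟨g1, g2, g3⟩

/-- **U10, existential form** (the statement of `helper1103.exists_isLocallyConstant_chi_of`
without hypotheses). -/
theorem exists_isLocallyConstant_chi (G : GlueDatum D B) :
    ∃ f : PrimeSpectrum B → ℤ, IsLocallyConstant f ∧
      ∀ (K : Type u) [Field K] [Algebra k K] (φ : B →ₐ[k] K),
        (G.baseChange φ).chi = f ⟨RingHom.ker φ.toRingHom, RingHom.ker_isPrime _⟩ :=
  ⟨glueChi G, isLocallyConstant_glueChi G,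
    fun K _ _ φ => (baseChange_finite_and_chi G K φ).2.2⟩

end Main

end Fermat.Agent.S25.helper8628
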