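import Fermat.Agent.S25.helper7810_FAEZ
import Fermat.Agent.S25.helper8628_ChiGlue

/-!
# S25 root `Stmt_ChiIndex` (captain helper505)

The chi-index root of the S25 frontier, closed by composing the unconditional theorem
`helper8628.exists_isLocallyConstant_chi` with the wiring of `helper7810_FAEZ`.
-/

set_option autoImplicit false

universe u

namespace Fermat.Agent.S25.helper505

/-- Root `Stmt_ChiIndexKer`, unconditionally. -/
theorem stmt_ChiIndexKer : helper7810.Stmt_ChiIndexKer.{u} :=
  fun _ _ _ _ _ _ _ G => helper8628.exists_isLocallyConstant_chi G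

/-- Root `Stmt_ChiIndex`, unconditionally. -/
theorem stmt_ChiIndex : helper7810.Stmt_ChiIndex.{u} :=
  helper7810.stmt_ChiIndex_of_ker stmt_ChiIndexKer

/-- `Stmt_FAEZ` from the single remaining input `Stmt_AlgBoundedFT`. -/
theorem stmt_FAEZ_of_boundedFT (hB : helper985.Stmt_AlgBoundedFT.{u}) :
    helper1705.Stmt_FAEZ.{u} :=
  helper7810.stmt_FAEZ_of_index_boundedFT stmt_ChiIndex hB

end Fermat.Agent.S25.helper505
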