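import Mathlib

/-!
# S25 / U1 (twist by `m·D∞`): operator-form core (helper4037)

Def-agnostic core of "Serre vanishing" and "negative vanishing" for two-chart data on `ℙ¹_B`,
in the operator form used by the LC layer: everything is a plain `B`-module, the functions
`x`, `y = 1/x` act through `B`-linear endomorphisms.

* `M₀`, `M₁` : sections on the two charts, `N` : sections on the overlap;
* `X₀ : End_B M₀` (multiplication by `x`), `Y₁ : End_B M₁` (multiplication by `y`),
  `T T' : End_B N` mutually inverse (multiplication by `x`, `y` on the overlap);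
* `r₀ : M₀ → N`, `r₁ : M₁ → N` the restriction maps, `r₀ ∘ X₀ = T ∘ r₀`, `r₁ ∘ Y₁ = T' ∘ r₁`.

Main results.
* `exists_twist_surjective` : `H¹(G(m)) = 0` for `m ≥ m₀`, i.e. `N = r₀ M₀ + T^m r₁ M₁`.
* `exists_polyPart` : a `B`-linear "polynomial part" retraction `N → M₀` of `r₀`, locally
  nilpotent along `T'`, from an equivariant `B`-linear retract of `M₀` into a polynomial-like
  module (`PolyLike`), e.g. `ι → B[X]`; `polyLike_pi_polynomial` gives the model.
* `exists_twist_leftInverse`, `exists_twist_retraction` : for `m ≥ m₀` the map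
  `(a, b) ↦ r₀ a - T'^m r₁ b` has a `B`-linear left inverse; hence `H⁰(G(-m)) = 0` after every
  base change (`twist_baseChange_injective`).
-/

set_option autoImplicit false

namespace Fermat.Agent.S25.helper4037

open scoped TensorProduct Polynomial

section Operators

variable {B : Type*} [CommRing B]

/-- Finite generation of `M` over `B[X]`, where `X` acts through the endomorphism `X₀`. -/
def FGUnder {M : Type*} [AddCommGroup M] [Module B M] (X₀ : Module.End B M) : Prop :=
  ∃ S : Finset M, Submodule.span B {z | ∃ s ∈ S, ∃ j : ℕ, z = (X₀ ^ j) s} = ⊤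

theorem pow_apply_pow_of_mul_eq_one {N : Type*} [AddCommGroup N] [Module B N]
    {T T' : Module.End B N} (h : T' * T = 1) (n : ℕ) (z : N) : (T' ^ n) ((T ^ n) z) = z := by
  induction n generalizing z with
  | zero => simp
  | succ n ih =>
    rw [pow_succ, pow_succ', Module.End.mul_apply, Module.End.mul_apply,
      ← Module.End.mul_apply T' T, h, Module.End.one_apply, ih]

theorem map_pow_apply_of_intertwine {M N : Type*} [AddCommGroup M] [Module B M]
    [AddCommGroup N] [Module B N] {X₀ : Module.End B M} {T : Module.End B N} {r : M →ₗ[B] N}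
    (h : ∀ a, r (X₀ a) = T (r a)) (n : ℕ) (a : M) : r ((X₀ ^ n) a) = (T ^ n) (r a) := by
  induction n generalizing a with
  | zero => simp
  | succ n ih =>
    rw [pow_succ, Module.End.mul_apply, ih, h, pow_succ, Module.End.mul_apply]

variable {M₀ M₁ N : Type*} [AddCommGroup M₀] [AddCommGroup M₁] [AddCommGroup N]
  [Module B M₀] [Module B M₁] [Module B N]

/-- **Serre vanishing** in operator form: if `M₀` is finitely generated over `B[x]` and the
two restriction maps are "localizations", then `N = r₀ M₀ + T^m r₁ M₁` for all `m ≥ m₀`. -/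
theorem exists_twist_surjective
    {X₀ : Module.End B M₀} {Y₁ : Module.End B M₁} {T T' : Module.End B N}
    (hTT' : T * T' = 1) (hT'T : T' * T = 1)
    {r₀ : M₀ →ₗ[B] N} {r₁ : M₁ →ₗ[B] N}
    (h₀ : ∀ a, r₀ (X₀ a) = T (r₀ a)) (h₁ : ∀ b, r₁ (Y₁ b) = T' (r₁ b))
    (hfg : FGUnder X₀)
    (hex₀ : ∀ z : N, ∃ (j : ℕ) (a : M₀), (T ^ j) z = r₀ a)
    (hex₁ : ∀ z : N, ∃ (j : ℕ) (b : M₁), (T' ^ j) z = r₁ b) :
    ∃ m₀ : ℕ, ∀ m : ℕ, m₀ ≤ m → ∀ z : N, ∃ (a : M₀) (b : M₁), z = r₀ a + (T ^ m) (r₁ b) := by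
  classical
  obtain ⟨S, hS⟩ := hfg
  choose J b₁ hb₁ using fun s : M₀ => hex₁ (r₀ s)
  refine ⟨S.sup J, fun m hm => ?_⟩
  let W : Submodule B N := LinearMap.range (r₀.coprod ((T ^ m) ∘ₗ r₁))
  have hW : ∀ z, z ∈ W ↔ ∃ (a : M₀) (b : M₁), z = r₀ a + (T ^ m) (r₁ b) := by
    intro z
    constructor
    · rintro ⟨⟨a, b⟩, rfl⟩
      exact ⟨a, b, by simp⟩
    · rintro ⟨a, b, rfl⟩
      exact ⟨(a, b), by simp⟩
  have key : ∀ i : ℕ, Submodule.map ((T' ^ i) ∘ₗ r₀) ⊤ ≤ W := by
    intro i
    rw [← hS, Submodule.map_span, Submodule.span_le]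
    rintro _ ⟨_, ⟨s, hs, e, rfl⟩, rfl⟩
    change (T' ^ i) (r₀ ((X₀ ^ e) s)) ∈ W
    rw [map_pow_apply_of_intertwine h₀]
    rcases le_or_gt i e with hie | hie
    · obtain ⟨c, rfl⟩ := Nat.exists_eq_add_of_le hie
      rw [pow_add, Module.End.mul_apply, pow_apply_pow_of_mul_eq_one hT'T,
        ← map_pow_apply_of_intertwine h₀]
      exact (hW _).2 ⟨(X₀ ^ c) s, 0, by simp⟩
    · obtain ⟨c, rfl⟩ := Nat.exists_eq_add_of_le hie.le
      have hJ : J s ≤ m := le_trans (Finset.le_sup hs) hm
      obtain ⟨c', rfl⟩ := Nat.exists_eq_add_of_le hJ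
      refine (hW _).2 ⟨0, (Y₁ ^ (c' + c)) (b₁ s), ?_⟩
      rw [map_pow_apply_of_intertwine h₁, ← hb₁ s, ← Module.End.mul_apply (T' ^ (c' + c)),
        ← pow_add, map_zero, zero_add]
      have e1 : c' + c + J s = (J s + c') + c := by omega
      rw [e1, pow_add (T') (J s + c') c, Module.End.mul_apply,
        pow_apply_pow_of_mul_eq_one hTT', add_comm e c, pow_add, Module.End.mul_apply,
        pow_apply_pow_of_mul_eq_one hT'T]
  intro z
  obtain ⟨j, a, hja⟩ := hex₀ z
  have hz : z = ((T' ^ j) ∘ₗ r₀) a := by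
    rw [LinearMap.comp_apply, ← hja, pow_apply_pow_of_mul_eq_one hT'T]
  exact (hW z).1 (key j (hz ▸ Submodule.mem_map_of_mem Submodule.mem_top))

/-- A polynomial-like `B`-module: an "up-shift" `U` (multiplication by `X`) with a
locally nilpotent left inverse `D` (division by `X`, dropping the constant term).
The model is `ι → B[X]` for a finite `ι`, see `polyLike_pi_polynomial`. -/
structure PolyLike {F : Type*} [AddCommGroup F] [Module B F] (U D : Module.End B F) : Prop where
  mul_eq_one : D * U = 1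
  nilpotent : ∀ v : F, ∃ d : ℕ, (D ^ d) v = 0

theorem pow_apply_eq_zero_of_le {F : Type*} [AddCommGroup F] [Module B F]
    {D : Module.End B F} {v : F} {d m : ℕ} (h : (D ^ d) v = 0) (hm : d ≤ m) :
    (D ^ m) v = 0 := by
  obtain ⟨c, rfl⟩ := Nat.exists_eq_add_of_le hm
  rw [add_comm, pow_add, Module.End.mul_apply, h, map_zero]

/-- **Polynomial part.** If `M₀` is an equivariant `B`-linear retract of a polynomial-like
module and `r₀ : M₀ → N` is a "localization at `x`", then `r₀` has a `B`-linear retraction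
`ρ₀ : N → M₀` that kills `T'^m z` for `m` large (depending on `z`). -/
theorem exists_polyPart
    {F : Type*} [AddCommGroup F] [Module B F] {U D : Module.End B F} (hF : PolyLike U D)
    {X₀ : Module.End B M₀} (i : M₀ →ₗ[B] F) (p : F →ₗ[B] M₀)
    (hpi : ∀ a, p (i a) = a) (hi : ∀ a, i (X₀ a) = U (i a))
    {T T' : Module.End B N} (hTT' : T * T' = 1)
    {r₀ : M₀ →ₗ[B] N} (h₀ : ∀ a, r₀ (X₀ a) = T (r₀ a))
    (hker : ∀ a, r₀ a = 0 → ∃ n : ℕ, (X₀ ^ n) a = 0)
    (hex₀ : ∀ z : N, ∃ (j : ℕ) (a : M₀), (T ^ j) z = r₀ a) :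
    ∃ ρ₀ : N →ₗ[B] M₀, (∀ a, ρ₀ (r₀ a) = a) ∧
      ∀ z : N, ∃ d : ℕ, ∀ m : ℕ, d ≤ m → ρ₀ ((T' ^ m) z) = 0 := by
  classical
  have hDU := hF.mul_eq_one
  have hXinj : ∀ (n : ℕ) (a : M₀), (X₀ ^ n) a = 0 → a = 0 := by
    intro n a ha
    have h1 : (U ^ n) (i a) = 0 := by rw [← map_pow_apply_of_intertwine hi, ha, map_zero]
    have h2 : i a = 0 := by
      rw [← pow_apply_pow_of_mul_eq_one hDU n (i a), h1, map_zero]
    rw [← hpi a, h2, map_zero]
  have hrinj : Function.Injective r₀ := by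
    rw [injective_iff_map_eq_zero]
    intro a ha
    obtain ⟨n, hn⟩ := hker a ha
    exact hXinj n a hn
  -- independence of the representation
  have wd : ∀ (z : N) (j : ℕ) (a : M₀) (j' : ℕ) (a' : M₀), (T ^ j) z = r₀ a →
      (T ^ j') z = r₀ a' → (D ^ j) (i a) = (D ^ j') (i a') := by
    intro z j a j' a' h h'
    have e1 : (X₀ ^ j') a = (X₀ ^ j) a' := by
      apply hrinj
      rw [map_pow_apply_of_intertwine h₀, map_pow_apply_of_intertwine h₀, ← h, ← h',
        ← Module.End.mul_apply, ← Module.End.mul_apply, ← pow_add, ← pow_add, add_comm]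
    have e2 : (U ^ j') (i a) = (U ^ j) (i a') := by
      rw [← map_pow_apply_of_intertwine hi, ← map_pow_apply_of_intertwine hi, e1]
    calc (D ^ j) (i a) = (D ^ j) ((D ^ j') ((U ^ j') (i a))) := by
          rw [pow_apply_pow_of_mul_eq_one hDU]
      _ = (D ^ j') ((D ^ j) ((U ^ j) (i a'))) := by
          rw [e2, ← Module.End.mul_apply, ← Module.End.mul_apply (D ^ j'), ← pow_add, ← pow_add,
            add_comm]
      _ = (D ^ j') (i a') := by rw [pow_apply_pow_of_mul_eq_one hDU]
  choose J A hJA using hex₀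
  have gdef : ∀ (z : N) (j : ℕ) (a : M₀), (T ^ j) z = r₀ a →
      p ((D ^ (J z)) (i (A z))) = p ((D ^ j) (i a)) := by
    intro z j a h
    rw [wd z (J z) (A z) j a (hJA z) h]
  let ρ₀ : N →ₗ[B] M₀ :=
    { toFun := fun z => p ((D ^ (J z)) (i (A z)))
      map_add' := by
        intro z₁ z₂
        have h12 : (T ^ (J z₁ + J z₂)) (z₁ + z₂) =
            r₀ ((X₀ ^ (J z₂)) (A z₁) + (X₀ ^ (J z₁)) (A z₂)) := by
          rw [map_add, map_add, map_pow_apply_of_intertwine h₀, map_pow_apply_of_intertwine h₀,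
            ← hJA z₁, ← hJA z₂, ← Module.End.mul_apply, ← Module.End.mul_apply, ← pow_add,
            ← pow_add, add_comm (J z₂) (J z₁)]
        rw [gdef _ _ _ h12, map_add, map_add, map_add]
        congr 1
        · rw [map_pow_apply_of_intertwine hi, pow_add, Module.End.mul_apply,
            pow_apply_pow_of_mul_eq_one hDU]
        · rw [map_pow_apply_of_intertwine hi, add_comm, pow_add, Module.End.mul_apply,
            pow_apply_pow_of_mul_eq_one hDU]
      map_smul' := by
        intro c z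
        have hc : (T ^ (J z)) (c • z) = r₀ (c • A z) := by
          rw [map_smul, map_smul, hJA z]
        rw [gdef _ _ _ hc, map_smul, map_smul, map_smul, RingHom.id_apply] }
  have hρ : ∀ (z : N) (j : ℕ) (a : M₀), (T ^ j) z = r₀ a → ρ₀ z = p ((D ^ j) (i a)) :=
    fun z j a h => gdef z j a h
  refine ⟨ρ₀, fun a => ?_, fun z => ?_⟩
  · rw [hρ (r₀ a) 0 a (by simp)]
    simp [hpi]
  · obtain ⟨d, hd⟩ := hF.nilpotent (i (A z))
    refine ⟨d, fun m hm => ?_⟩
    have h1 : (T ^ (J z + m)) ((T' ^ m) z) = r₀ (A z) := by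
      rw [pow_add, Module.End.mul_apply, pow_apply_pow_of_mul_eq_one hTT', hJA z]
    rw [hρ _ _ _ h1, pow_apply_eq_zero_of_le hd (le_trans hm (Nat.le_add_left _ _)), map_zero]

/-- **Negative vanishing**, retraction form: given retractions `ρ₀`, `ρ₁` of the restriction
maps with `ρ₀` locally nilpotent along `T'`, and `M₁` finitely generated over `B[y]`, the map
`(a, b) ↦ r₀ a - T'^m r₁ b` has a `B`-linear left inverse for all `m ≥ m₀`. -/
theorem exists_twist_leftInverse
    {Y₁ : Module.End B M₁} {T T' : Module.End B N} (hTT' : T * T' = 1)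
    {r₀ : M₀ →ₗ[B] N} {r₁ : M₁ →ₗ[B] N}
    (h₁ : ∀ b, r₁ (Y₁ b) = T' (r₁ b)) (hfg : FGUnder Y₁)
    (ρ₀ : N →ₗ[B] M₀) (ρ₁ : N →ₗ[B] M₁)
    (hρ₀ : ∀ a, ρ₀ (r₀ a) = a) (hρ₁ : ∀ b, ρ₁ (r₁ b) = b)
    (hnil : ∀ z : N, ∃ d : ℕ, ∀ m : ℕ, d ≤ m → ρ₀ ((T' ^ m) z) = 0) :
    ∃ m₀ : ℕ, ∀ m : ℕ, m₀ ≤ m → ∃ ρ : N →ₗ[B] M₀ × M₁,
      ∀ (a : M₀) (b : M₁), ρ (r₀ a - (T' ^ m) (r₁ b)) = (a, b) := by
  classical
  obtain ⟨S, hS⟩ := hfg
  choose d hd using fun s : M₁ => hnil (r₁ s)
  refine ⟨S.sup d, fun m hm => ?_⟩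
  have hz : ρ₀ ∘ₗ (T' ^ m) ∘ₗ r₁ = 0 := by
    apply LinearMap.ext_on hS
    rintro _ ⟨s, hs, j, rfl⟩
    change ρ₀ ((T' ^ m) (r₁ ((Y₁ ^ j) s))) = 0
    rw [map_pow_apply_of_intertwine h₁, ← Module.End.mul_apply, ← pow_add]
    exact hd s _ (le_trans (le_trans (Finset.le_sup hs) hm) (Nat.le_add_right _ _))
  have hz' : ∀ b, ρ₀ ((T' ^ m) (r₁ b)) = 0 := fun b => by
    simpa using LinearMap.congr_fun hz b
  refine ⟨ρ₀.prod (ρ₁ ∘ₗ (T ^ m) ∘ₗ (r₀ ∘ₗ ρ₀ - LinearMap.id)), fun a b => ?_⟩
  have e1 : ρ₀ (r₀ a - (T' ^ m) (r₁ b)) = a := by rw [map_sub, hρ₀, hz', sub_zero]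
  have e2 : (ρ₁ ∘ₗ (T ^ m) ∘ₗ (r₀ ∘ₗ ρ₀ - LinearMap.id)) (r₀ a - (T' ^ m) (r₁ b)) = b := by
    simp only [LinearMap.comp_apply, LinearMap.sub_apply, LinearMap.id_apply, e1,
      sub_sub_cancel, pow_apply_pow_of_mul_eq_one hTT', hρ₁]
  exact Prod.ext e1 e2

/-- **Negative vanishing** in operator form: both charts are equivariant retracts of
polynomial-like modules, `M₁` is finitely generated over `B[y]`, both restriction maps are
"localizations". Then `(a, b) ↦ r₀ a - T'^m r₁ b` has a `B`-linear left inverse for `m ≥ m₀`. -/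
theorem exists_twist_retraction
    {F₀ : Type*} [AddCommGroup F₀] [Module B F₀] {U₀ D₀ : Module.End B F₀} (hF₀ : PolyLike U₀ D₀)
    {F₁ : Type*} [AddCommGroup F₁] [Module B F₁] {U₁ D₁ : Module.End B F₁} (hF₁ : PolyLike U₁ D₁)
    {X₀ : Module.End B M₀} {Y₁ : Module.End B M₁} {T T' : Module.End B N}
    (hTT' : T * T' = 1) (hT'T : T' * T = 1)
    (i₀ : M₀ →ₗ[B] F₀) (p₀ : F₀ →ₗ[B] M₀) (hpi₀ : ∀ a, p₀ (i₀ a) = a)
    (hi₀ : ∀ a, i₀ (X₀ a) = U₀ (i₀ a))
    (i₁ : M₁ →ₗ[B] F₁) (p₁ : F₁ →ₗ[B] M₁) (hpi₁ : ∀ b, p₁ (i₁ b) = b)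
    (hi₁ : ∀ b, i₁ (Y₁ b) = U₁ (i₁ b))
    {r₀ : M₀ →ₗ[B] N} {r₁ : M₁ →ₗ[B] N}
    (h₀ : ∀ a, r₀ (X₀ a) = T (r₀ a)) (h₁ : ∀ b, r₁ (Y₁ b) = T' (r₁ b))
    (hfg : FGUnder Y₁)
    (hker₀ : ∀ a, r₀ a = 0 → ∃ n : ℕ, (X₀ ^ n) a = 0)
    (hker₁ : ∀ b, r₁ b = 0 → ∃ n : ℕ, (Y₁ ^ n) b = 0)
    (hex₀ : ∀ z : N, ∃ (j : ℕ) (a : M₀), (T ^ j) z = r₀ a)
    (hex₁ : ∀ z : N, ∃ (j : ℕ) (b : M₁), (T' ^ j) z = r₁ b) :
    ∃ m₀ : ℕ, ∀ m : ℕ, m₀ ≤ m → ∃ ρ : N →ₗ[B] M₀ × M₁,
      ∀ (a : M₀) (b : M₁), ρ (r₀ a - (T' ^ m) (r₁ b)) = (a, b) := by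
  obtain ⟨ρ₀, hρ₀, hnil⟩ := exists_polyPart hF₀ i₀ p₀ hpi₀ hi₀ hTT' h₀ hker₀ hex₀
  obtain ⟨ρ₁, hρ₁, -⟩ := exists_polyPart hF₁ i₁ p₁ hpi₁ hi₁ hT'T h₁ hker₁ hex₁
  exact exists_twist_leftInverse hTT' h₁ hfg ρ₀ ρ₁ hρ₀ hρ₁ hnil

/-- A `B`-linear map with a `B`-linear left inverse stays injective after every base change. -/
theorem baseChange_injective_of_leftInverse {E N : Type*} [AddCommGroup E] [Module B E]
    [AddCommGroup N] [Module B N] (Ψ : E →ₗ[B] N) (ρ : N →ₗ[B] E) (h : ∀ e, ρ (Ψ e) = e)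
    (A : Type*) [CommRing A] [Algebra B A] : Function.Injective (Ψ.baseChange A) := by
  have hc : ρ ∘ₗ Ψ = LinearMap.id := LinearMap.ext h
  have : (ρ.baseChange A) ∘ₗ (Ψ.baseChange A) = LinearMap.id := by
    rw [← LinearMap.baseChange_comp, hc, LinearMap.baseChange_id]
  exact LinearMap.injective_of_comp_eq_id _ _ this

end Operators

section Model

variable (B : Type*) [CommRing B] (ι : Type*)

/-- Division by `X` (dropping the constant term) as a `B`-linear map. -/
noncomputable def divXLin : B[X] →ₗ[B] B[X] where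
  toFun := Polynomial.divX
  map_add' _ _ := Polynomial.divX_add
  map_smul' c p := by
    simp only [RingHom.id_apply, Polynomial.smul_eq_C_mul, Polynomial.divX_C_mul]

/-- Multiplication by `X` on `ι → B[X]`, as a `B`-linear endomorphism. -/
noncomputable def piMulX : Module.End B (ι → B[X]) :=
  LinearMap.pi fun c => (LinearMap.mulLeft B (Polynomial.X : B[X])) ∘ₗ LinearMap.proj c

/-- Division by `X` on `ι → B[X]`, as a `B`-linear endomorphism. -/
noncomputable def piDivX : Module.End B (ι → B[X]) :=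
  LinearMap.pi fun c => (divXLin B) ∘ₗ LinearMap.proj c

@[simp] theorem piMulX_apply (v : ι → B[X]) (c : ι) : piMulX B ι v c = Polynomial.X * v c := rfl

@[simp] theorem piDivX_apply (v : ι → B[X]) (c : ι) : piDivX B ι v c = (v c).divX := rfl

theorem piMulX_eq_smul (v : ι → B[X]) : piMulX B ι v = (Polynomial.X : B[X]) • v := by
  ext c : 1
  simp

theorem coeff_piDivX_pow (d : ℕ) (v : ι → B[X]) (c : ι) (n : ℕ) :
    (((piDivX B ι) ^ d) v c).coeff n = (v c).coeff (n + d) := by
  induction d generalizing v n with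
  | zero => simp
  | succ d ih =>
    rw [pow_succ, Module.End.mul_apply, ih, piDivX_apply, Polynomial.coeff_divX]
    rfl

/-- `ι → B[X]` (`ι` finite) with multiplication and division by `X` is polynomial-like. -/
theorem polyLike_pi_polynomial [Finite ι] : PolyLike (piMulX B ι) (piDivX B ι) where
  mul_eq_one := by
    apply LinearMap.ext
    intro v
    ext c n
    simp [Polynomial.coeff_divX, Polynomial.coeff_X_mul]
  nilpotent := by
    classical
    intro v
    cases nonempty_fintype ι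
    refine ⟨(Finset.univ.sup fun c => (v c).natDegree) + 1, ?_⟩
    ext c n
    rw [coeff_piDivX_pow]
    simp only [Pi.zero_apply, Polynomial.coeff_zero]
    apply Polynomial.coeff_eq_zero_of_natDegree_lt
    have : (v c).natDegree ≤ Finset.univ.sup fun c => (v c).natDegree :=
      Finset.le_sup (f := fun c => (v c).natDegree) (Finset.mem_univ c)
    omega

end Model

section PolyLikeOps

variable {B : Type*} [CommRing B]

theorem compLeft_pow_apply {F : Type*} [AddCommGroup F] [Module B F] (D : Module.End B F)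
    (ι : Type*) (n : ℕ) (w : ι → F) (c : ι) :
    ((D.compLeft ι : Module.End B (ι → F)) ^ n) w c = (D ^ n) (w c) := by
  induction n generalizing w with
  | zero => simp
  | succ n ih =>
    rw [pow_succ, Module.End.mul_apply, ih, pow_succ, Module.End.mul_apply]
    rfl

/-- A finite product of copies of a polynomial-like module is polynomial-like. -/
theorem PolyLike.pi {F : Type*} [AddCommGroup F] [Module B F] {U D : Module.End B F}
    (h : PolyLike U D) (ι : Type*) [Finite ι] :
    PolyLike (U.compLeft ι : Module.End B (ι → F)) (D.compLeft ι) where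
  mul_eq_one := by
    apply LinearMap.ext
    intro v
    funext c
    change D (U (v c)) = v c
    rw [← Module.End.mul_apply, h.mul_eq_one, Module.End.one_apply]
  nilpotent := by
    classical
    intro v
    cases nonempty_fintype ι
    choose d hd using fun c => h.nilpotent (v c)
    refine ⟨Finset.univ.sup d, ?_⟩
    funext c
    rw [compLeft_pow_apply]
    exact pow_apply_eq_zero_of_le (hd c) (Finset.le_sup (Finset.mem_univ c))

/-- The base change of a polynomial-like module is polynomial-like. -/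
theorem PolyLike.baseChange {k : Type*} [CommRing k] [Algebra k B]
    {F : Type*} [AddCommGroup F] [Module k F] {U D : Module.End k F} (h : PolyLike U D) :
    PolyLike (U.baseChange B : Module.End B (B ⊗[k] F)) (D.baseChange B) where
  mul_eq_one := by
    rw [← LinearMap.baseChange_mul, h.mul_eq_one, LinearMap.baseChange_one]
  nilpotent := by
    intro v
    induction v using TensorProduct.induction_on with
    | zero => exact ⟨0, by simp⟩
    | tmul b f =>
      obtain ⟨d, hd⟩ := h.nilpotent f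
      exact ⟨d, by rw [← LinearMap.baseChange_pow, LinearMap.baseChange_tmul, hd,
        TensorProduct.tmul_zero]⟩
    | add v w hv hw =>
      obtain ⟨d₁, h₁⟩ := hv
      obtain ⟨d₂, h₂⟩ := hw
      exact ⟨max d₁ d₂, by rw [map_add, pow_apply_eq_zero_of_le h₁ (le_max_left _ _),
        pow_apply_eq_zero_of_le h₂ (le_max_right _ _), add_zero]⟩

end PolyLikeOps

section Generic

variable (B : Type*) [CommRing B] {A : Type*} [CommRing A] [Algebra B A] (x : A)
  (M : Type*) [AddCommGroup M] [Module A M] [Module B M] [IsScalarTower B A M]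

/-- Multiplication by `x : A` on an `A`-module, as a `B`-linear endomorphism. -/
noncomputable def smulEnd : Module.End B M := (LinearMap.lsmul A M x).restrictScalars B

@[simp] theorem smulEnd_apply (m : M) : smulEnd B x M m = x • m := rfl

theorem smulEnd_pow_apply (j : ℕ) (m : M) : (smulEnd B x M ^ j) m = x ^ j • m := by
  induction j generalizing m with
  | zero => simp
  | succ j ih => rw [pow_succ, Module.End.mul_apply, ih, smulEnd_apply, smul_smul, pow_succ]

/-- If `A` is finitely generated as a module over `B[x]` and `M` is a finite `A`-module, then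
`M` is finitely generated over `B[x]` (operator form). -/
theorem fgUnder_smulEnd_of_finite [Module.Finite A M] (hA : FGUnder (smulEnd B x A)) :
    FGUnder (smulEnd B x M) := by
  classical
  obtain ⟨S, hS⟩ := hA
  obtain ⟨G, hG⟩ := (Module.Finite.fg_top : (⊤ : Submodule A M).FG)
  refine ⟨Finset.image₂ (fun (s : A) (g : M) => s • g) S G, ?_⟩
  have key : ∀ g ∈ G, ∀ a : A, a • g ∈ Submodule.span B
      {z | ∃ s' ∈ Finset.image₂ (fun (s : A) (g : M) => s • g) S G,
        ∃ j : ℕ, z = (smulEnd B x M ^ j) s'} := by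
    intro g hg a
    have ha : a ∈ Submodule.span B {z | ∃ s ∈ S, ∃ j : ℕ, z = (smulEnd B x A ^ j) s} := by
      rw [hS]; trivial
    let φ : A →ₗ[B] M := (LinearMap.toSpanSingleton A M g).restrictScalars B
    have hφ : Submodule.map φ (Submodule.span B
        {z | ∃ s ∈ S, ∃ j : ℕ, z = (smulEnd B x A ^ j) s}) ≤ Submodule.span B
        {z | ∃ s' ∈ Finset.image₂ (fun (s : A) (g : M) => s • g) S G,
          ∃ j : ℕ, z = (smulEnd B x M ^ j) s'} := by
      rw [Submodule.map_span, Submodule.span_le]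
      rintro _ ⟨_, ⟨s, hs, j, rfl⟩, rfl⟩
      apply Submodule.subset_span
      refine ⟨s • g, Finset.mem_image₂_of_mem hs hg, j, ?_⟩
      change ((smulEnd B x A ^ j) s) • g = (smulEnd B x M ^ j) (s • g)
      rw [smulEnd_pow_apply, smulEnd_pow_apply, smul_assoc]
    exact hφ (Submodule.mem_map_of_mem ha)
  rw [eq_top_iff]
  intro m _
  have hm : m ∈ Submodule.span A (G : Set M) := by rw [hG]; trivial
  obtain ⟨f, -, rfl⟩ := Submodule.mem_span_finset.1 hm
  exact Submodule.sum_mem _ fun g hg => key g hg (f g)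

/-- If `A` is an equivariant `B`-linear retract of a polynomial-like module and `M` is a
finite projective `A`-module, then `M` is an equivariant `B`-linear retract of a
polynomial-like module. -/
theorem exists_polyRetract_of_projective [Module.Finite A M] [Module.Projective A M]
    {F : Type*} [AddCommGroup F] [Module B F] {U D : Module.End B F} (hF : PolyLike U D)
    (i : A →ₗ[B] F) (p : F →ₗ[B] A) (hpi : ∀ a, p (i a) = a) (hi : ∀ a, i (x * a) = U (i a)) :
    ∃ (n : ℕ) (iM : M →ₗ[B] (Fin n → F)) (pM : (Fin n → F) →ₗ[B] M),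
      PolyLike (U.compLeft (Fin n) : Module.End B (Fin n → F)) (D.compLeft (Fin n)) ∧
      (∀ m, pM (iM m) = m) ∧ ∀ m, iM (x • m) = U.compLeft (Fin n) (iM m) := by
  obtain ⟨n, f, g, -, -, hfg⟩ := Module.Finite.exists_comp_eq_id_of_projective A M
  refine ⟨n, (i.compLeft (Fin n)) ∘ₗ (g.restrictScalars B),
    (f.restrictScalars B) ∘ₗ (p.compLeft (Fin n)), hF.pi (Fin n), fun m => ?_, fun m => ?_⟩
  · have h1 : (p.compLeft (Fin n)) ((i.compLeft (Fin n)) (g m)) = g m := by
      funext c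
      exact hpi _
    change f ((p.compLeft (Fin n)) ((i.compLeft (Fin n)) (g m))) = m
    rw [h1]
    exact LinearMap.congr_fun hfg m
  · funext c
    change i (g (x • m) c) = U (i (g m c))
    rw [map_smul, Pi.smul_apply, smul_eq_mul, hi]

end Generic

section Tensor

universe u

attribute [local instance] Algebra.TensorProduct.rightAlgebra

/-- **Polynomial retract of a base-changed curve ring.** Let `R` be a domain, finite over
`k[x]` with `x` transcendental (so `R` is finite free over `k[x]`). Then for every `k`-algebra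
`B` the ring `R ⊗[k] B`, with multiplication by `x ⊗ 1`, is an equivariant `B`-linear retract
(in fact an isomorph) of a polynomial-like `B`-module. -/
theorem exists_polyRetract_tensor {k : Type u} [Field k] {R : Type u} [CommRing R] [Algebra k R]
    [IsDomain R] (x : R) (hx : Transcendental k x)
    (hfin : (Polynomial.aeval x : k[X] →ₐ[k] R).toRingHom.Finite)
    (B : Type u) [CommRing B] [Algebra k B] :
    ∃ (F : Type u) (_ : AddCommGroup F) (_ : Module B F) (U D : Module.End B F)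
      (i : R ⊗[k] B →ₗ[B] F) (p : F →ₗ[B] R ⊗[k] B),
      PolyLike U D ∧ (∀ a, p (i a) = a) ∧ ∀ a, i ((x ⊗ₜ[k] (1 : B)) * a) = U (i a) := by
  classical
  let : Algebra k[X] R := (Polynomial.aeval x : k[X] →ₐ[k] R).toRingHom.toAlgebra
  have halg : ∀ q : k[X], algebraMap k[X] R q = Polynomial.aeval x q := fun _ => rfl
  have : IsScalarTower k k[X] R := IsScalarTower.of_algebraMap_eq fun c => by
    rw [halg, Polynomial.algebraMap_apply, Algebra.algebraMap_self_apply, Polynomial.aeval_C]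
  have : Module.Finite k[X] R := hfin
  have hinj : Function.Injective (algebraMap k[X] R) := transcendental_iff_injective.1 hx
  have : FaithfulSMul k[X] R := (faithfulSMul_iff_algebraMap_injective k[X] R).2 hinj
  have : Module.Free k[X] R := inferInstance
  let ι := Module.Free.ChooseBasisIndex k[X] R
  let e : R ≃ₗ[k[X]] (ι → k[X]) := (Module.Free.chooseBasis k[X] R).equivFun
  let ek : R ≃ₗ[k] (ι → k[X]) := e.restrictScalars k
  let cB : R ⊗[k] B ≃ₗ[B] B ⊗[k] R := (Algebra.TensorProduct.commRight k B R).symm.toLinearEquiv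
  refine ⟨B ⊗[k] (ι → k[X]), inferInstance, inferInstance, (piMulX k ι).baseChange B,
    (piDivX k ι).baseChange B, (ek.toLinearMap.baseChange B) ∘ₗ cB.toLinearMap,
    cB.symm.toLinearMap ∘ₗ (ek.symm.toLinearMap.baseChange B),
    (polyLike_pi_polynomial k ι).baseChange, fun a => ?_, fun a => ?_⟩
  · have h1 : (ek.symm.toLinearMap.baseChange B) ∘ₗ (ek.toLinearMap.baseChange B) =
        LinearMap.id := by
      rw [← LinearMap.baseChange_comp, LinearEquiv.symm_comp, LinearMap.baseChange_id]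
    simp only [LinearMap.comp_apply, LinearEquiv.coe_coe]
    have h2 := LinearMap.congr_fun h1 (cB a)
    simp only [LinearMap.comp_apply, LinearMap.id_apply] at h2
    rw [h2, LinearEquiv.symm_apply_apply]
  · induction a using TensorProduct.induction_on with
    | zero => simp
    | tmul r b =>
      have hxr : e (x * r) = (Polynomial.X : k[X]) • e r := by
        rw [← map_smul, Algebra.smul_def, halg, Polynomial.aeval_X]
      simp only [Algebra.TensorProduct.tmul_mul_tmul, one_mul, LinearMap.comp_apply,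
        LinearEquiv.coe_coe]
      change (ek.toLinearMap.baseChange B) (b ⊗ₜ[k] (x * r)) =
        ((piMulX k ι).baseChange B) ((ek.toLinearMap.baseChange B) (b ⊗ₜ[k] r))
      rw [LinearMap.baseChange_tmul, LinearMap.baseChange_tmul, LinearMap.baseChange_tmul]
      change b ⊗ₜ[k] e (x * r) = b ⊗ₜ[k] (piMulX k ι (e r))
      rw [hxr, piMulX_eq_smul]
    | add a₁ a₂ h₁ h₂ => rw [mul_add, map_add, map_add, map_add, h₁, h₂]

end Tensor

end Fermat.Agent.S25.helper4037
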