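import Fermat.Agent.S25.helper743_AlgApi

/-!
# S25, leaf LC-BC: base change of the two-chart Cech complex (helper7186)

On top of `helper2945_AlgDefs` (and `helper743_AlgApi`).  For `G : GlueDatum D B` and
`φ : B →ₐ[k] B'` the three modules of `G.baseChange φ` are, `B'`-linearly, the naive base
changes `B' ⊗[B] G.M₀`, `B' ⊗[B] G.M₁`, `B' ⊗[B] G.M₀₁`, compatibly with the restriction maps
(`exists_baseChangeCmp`; this is `helper1103.BaseChangeCmp` for every `B'`).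

Generic ingredients: the square `B → B'`, `R ⊗[k] B → R ⊗[k] B'` is a pushout
(`isPushout_tensor_right`) and the resulting cancellation `exists_cancel`.
-/

set_option autoImplicit false
set_option linter.style.haveILetI false

open TensorProduct

namespace Fermat.Agent.S25.helper7186

universe u

/-! ## Generic layer 1: the pushout square `B → B'`, `R ⊗ B → R ⊗ B'` -/

section Pushout

variable {k R B B' : Type*} [CommRing k] [CommRing R] [CommRing B] [CommRing B']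
  [Algebra k R] [Algebra k B] [Algebra k B'] (φ : B →ₐ[k] B')

attribute [local instance] Algebra.TensorProduct.rightAlgebra

/-- The square `B → B'`, `R ⊗[k] B → R ⊗[k] B'` is a pushout. -/
theorem isPushout_tensor_right
    [Algebra B B'] (hφ : algebraMap B B' = φ.toRingHom)
    [Algebra (R ⊗[k] B) (R ⊗[k] B')]
    (hmap : algebraMap (R ⊗[k] B) (R ⊗[k] B') =
      (Algebra.TensorProduct.map (AlgHom.id k R) φ).toRingHom)
    [Algebra B (R ⊗[k] B')] [IsScalarTower B B' (R ⊗[k] B')]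
    [IsScalarTower B (R ⊗[k] B) (R ⊗[k] B')] :
    Algebra.IsPushout B B' (R ⊗[k] B) (R ⊗[k] B') := by
  have : IsScalarTower k B B' := IsScalarTower.of_algebraMap_eq fun c => by
    rw [hφ]; simp
  have : IsScalarTower k (R ⊗[k] B) (R ⊗[k] B') := IsScalarTower.of_algebraMap_eq fun c => by
    rw [hmap]; simp
  have : IsScalarTower R (R ⊗[k] B) (R ⊗[k] B') := IsScalarTower.of_algebraMap_eq fun c => by
    rw [hmap]; simp [Algebra.TensorProduct.algebraMap_apply]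
  exact (Algebra.IsPushout.comp_iff k B R (R ⊗[k] B) (T := B') (T' := R ⊗[k] B')).mp inferInstance

/-- **Cancellation.** For an `R ⊗[k] B`-module `M`, the module `(R ⊗[k] B') ⊗[R ⊗[k] B] M` is
the naive base change `B' ⊗[B] M`, `B'`-linearly (the `B'`-action on the left hand side is
through `B' → R ⊗[k] B'`). -/
theorem exists_cancel (M : Type*) [AddCommGroup M] [Module (R ⊗[k] B) M] [Module B M]
    [IsScalarTower B (R ⊗[k] B) M] :
    letI : Algebra B B' := φ.toRingHom.toAlgebra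
    letI : Algebra (R ⊗[k] B) (R ⊗[k] B') :=
      (Algebra.TensorProduct.map (AlgHom.id k R) φ).toRingHom.toAlgebra
    letI : Module B' ((R ⊗[k] B') ⊗[R ⊗[k] B] M) :=
      Module.compHom _ (algebraMap B' (R ⊗[k] B'))
    ∃ c : ((R ⊗[k] B') ⊗[R ⊗[k] B] M) ≃ₗ[B'] B' ⊗[B] M,
      (∀ (b' : B') (m : M), c.symm (b' ⊗ₜ m) = (algebraMap B' (R ⊗[k] B') b') ⊗ₜ m) ∧
      ∀ m : M, c (1 ⊗ₜ m) = 1 ⊗ₜ m := by
  let _ : Algebra B B' := φ.toRingHom.toAlgebra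
  let _ : Algebra (R ⊗[k] B) (R ⊗[k] B') :=
    (Algebra.TensorProduct.map (AlgHom.id k R) φ).toRingHom.toAlgebra
  let _ : Algebra B (R ⊗[k] B') := ((algebraMap B' (R ⊗[k] B')).comp φ.toRingHom).toAlgebra
  have : IsScalarTower B B' (R ⊗[k] B') := IsScalarTower.of_algebraMap_eq fun _ => rfl
  have : IsScalarTower B (R ⊗[k] B) (R ⊗[k] B') := IsScalarTower.of_algebraMap_eq fun _ => rfl
  have : Algebra.IsPushout B B' (R ⊗[k] B) (R ⊗[k] B') := isPushout_tensor_right φ rfl rfl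
  let e := Algebra.IsPushout.cancelBaseChange B B' (R ⊗[k] B) (R ⊗[k] B') M
  let _ : Module B' ((R ⊗[k] B') ⊗[R ⊗[k] B] M) :=
    Module.compHom _ (algebraMap B' (R ⊗[k] B'))
  refine ⟨{ toFun := e, map_add' := e.map_add, map_smul' := ?_, invFun := e.symm,
            left_inv := e.left_inv, right_inv := e.right_inv }, ?_, ?_⟩
  · intro b' z
    simp only [RingHom.id_apply]
    rw [← e.map_smul]
    rfl
  · intro b' m
    exact Algebra.IsPushout.cancelBaseChange_symm_tmul B B' (R ⊗[k] B) (R ⊗[k] B') M b' m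
  · intro m
    exact Algebra.IsPushout.cancelBaseChange_tmul B B' (R ⊗[k] B) (R ⊗[k] B') M m

end Pushout

/-! ## The two-chart comparison -/

section Glue

open Fermat.Agent.S25.helper1705 Fermat.Agent.S25.helper2945

variable {k : Type u} [Field k] {D : CurveDatum k} {B B' : Type u} [CommRing B] [Algebra k B]
  [CommRing B'] [Algebra k B']

theorem exists_cmp₀ (G : GlueDatum D B) (φ : B →ₐ[k] B') :
    letI : Algebra B B' := φ.toRingHom.toAlgebra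
    letI := algA₀ D φ
    ∃ c : (G.baseChange φ).M₀ ≃ₗ[B'] B' ⊗[B] G.M₀,
      (∀ (b' : B') (m : G.M₀), c.symm (b' ⊗ₜ m) =
        ((algebraMap B' (D.A₀ B') b') ⊗ₜ[D.A₀ B] m : D.A₀ B' ⊗[D.A₀ B] G.M₀)) ∧
      ∀ m : G.M₀, c ((1 : D.A₀ B') ⊗ₜ[D.A₀ B] m) = 1 ⊗ₜ m :=
  exists_cancel (R := D.R₀) φ G.M₀

theorem exists_cmp₁ (G : GlueDatum D B) (φ : B →ₐ[k] B') :
    letI : Algebra B B' := φ.toRingHom.toAlgebra
    letI := algA₁ D φ
    ∃ c : (G.baseChange φ).M₁ ≃ₗ[B'] B' ⊗[B] G.M₁,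
      (∀ (b' : B') (m : G.M₁), c.symm (b' ⊗ₜ m) =
        ((algebraMap B' (D.A₁ B') b') ⊗ₜ[D.A₁ B] m : D.A₁ B' ⊗[D.A₁ B] G.M₁)) ∧
      ∀ m : G.M₁, c ((1 : D.A₁ B') ⊗ₜ[D.A₁ B] m) = 1 ⊗ₜ m :=
  exists_cancel (R := D.R₁) φ G.M₁

theorem exists_cmp₀₁ (G : GlueDatum D B) (φ : B →ₐ[k] B') :
    letI : Algebra B B' := φ.toRingHom.toAlgebra
    letI := algA₀₁ D φ
    ∃ c : (G.baseChange φ).M₀₁ ≃ₗ[B'] B' ⊗[B] G.M₀₁,
      (∀ (b' : B') (m : G.M₀₁), c.symm (b' ⊗ₜ m) =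
        ((algebraMap B' (D.A₀₁ B') b') ⊗ₜ[D.A₀₁ B] m : D.A₀₁ B' ⊗[D.A₀₁ B] G.M₀₁)) ∧
      ∀ m : G.M₀₁, c ((1 : D.A₀₁ B') ⊗ₜ[D.A₀₁ B] m) = 1 ⊗ₜ m :=
  exists_cancel (R := D.R₀₁) φ G.M₀₁

/-- The restriction map `ρ₀` of a base change, on pure tensors. -/
theorem baseChange_ρ₀_tmul (G : GlueDatum D B) (φ : B →ₐ[k] B') (a' : D.A₀ B') (m : G.M₀) :
    letI := algA₀ D φ
    letI := algA₀₁ D φ
    (G.baseChange φ).ρ₀ (a' ⊗ₜ[D.A₀ B] m) =
      ((algebraMap (D.A₀ B') (D.A₀₁ B') a') ⊗ₜ[D.A₀₁ B] G.ρ₀ m : D.A₀₁ B' ⊗[D.A₀₁ B] G.M₀₁) := by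
  letI := algA₀ D φ
  letI := algA₀₁ D φ
  letI := algA₀A₀₁ D φ
  haveI := tower_A₀_A₀₁_A₀₁' D φ
  haveI := tower_A₀_A₀'_A₀₁' D φ
  exact sqBaseChange_tmul (S := D.A₀₁ B) (S' := D.A₀₁ B') G.ρ₀ a' m

/-- The restriction map `ρ₁` of a base change, on pure tensors. -/
theorem baseChange_ρ₁_tmul (G : GlueDatum D B) (φ : B →ₐ[k] B') (a' : D.A₁ B') (m : G.M₁) :
    letI := algA₁ D φ
    letI := algA₀₁ D φ
    (G.baseChange φ).ρ₁ (a' ⊗ₜ[D.A₁ B] m) =
      ((algebraMap (D.A₁ B') (D.A₀₁ B') a') ⊗ₜ[D.A₀₁ B] G.ρ₁ m : D.A₀₁ B' ⊗[D.A₀₁ B] G.M₀₁) := by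
  letI := algA₁ D φ
  letI := algA₀₁ D φ
  letI := algA₁A₀₁ D φ
  haveI := tower_A₁_A₀₁_A₀₁' D φ
  haveI := tower_A₁_A₁'_A₀₁' D φ
  exact sqBaseChange_tmul (S := D.A₀₁ B) (S' := D.A₀₁ B') G.ρ₁ a' m

/-- **LC-BC (comparison).** The base change `G.baseChange φ` is, chart by chart and `B'`-linearly,
the naive base change `B' ⊗[B] -` of `G`, compatibly with the restriction maps. -/
theorem exists_baseChangeCmp (G : GlueDatum D B) (φ : B →ₐ[k] B') :
    letI : Algebra B B' := φ.toRingHom.toAlgebra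
    ∃ (c₀ : (G.baseChange φ).M₀ ≃ₗ[B'] B' ⊗[B] G.M₀)
      (c₁ : (G.baseChange φ).M₁ ≃ₗ[B'] B' ⊗[B] G.M₁)
      (c₀₁ : (G.baseChange φ).M₀₁ ≃ₗ[B'] B' ⊗[B] G.M₀₁),
      (∀ z, c₀₁ ((G.baseChange φ).ρ₀ z) = G.ρ₀B.baseChange B' (c₀ z)) ∧
      (∀ z, c₀₁ ((G.baseChange φ).ρ₁ z) = G.ρ₁B.baseChange B' (c₁ z)) := by
  letI : Algebra B B' := φ.toRingHom.toAlgebra
  obtain ⟨c₀, h₀, -⟩ := exists_cmp₀ G φ
  obtain ⟨c₁, h₁, -⟩ := exists_cmp₁ G φ
  obtain ⟨c₀₁, h₀₁, -⟩ := exists_cmp₀₁ G φ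
  refine ⟨c₀, c₁, c₀₁, ?_, ?_⟩
  · intro z
    obtain ⟨w, rfl⟩ := c₀.symm.surjective z
    rw [LinearEquiv.apply_symm_apply]
    induction w using TensorProduct.induction_on with
    | zero => simp
    | tmul b' m =>
      rw [h₀, baseChange_ρ₀_tmul, LinearMap.baseChange_tmul, ← IsScalarTower.algebraMap_apply,
        ← h₀₁, LinearEquiv.apply_symm_apply]
      rfl
    | add x y hx hy => simp only [map_add, hx, hy]
  · intro z
    obtain ⟨w, rfl⟩ := c₁.symm.surjective z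
    rw [LinearEquiv.apply_symm_apply]
    induction w using TensorProduct.induction_on with
    | zero => simp
    | tmul b' m =>
      rw [h₁, baseChange_ρ₁_tmul, LinearMap.baseChange_tmul, ← IsScalarTower.algebraMap_apply,
        ← h₀₁, LinearEquiv.apply_symm_apply]
      rfl
    | add x y hx hy => simp only [map_add, hx, hy]

end Glue

end Fermat.Agent.S25.helper7186
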