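import Fermat.Agent.S25.helper1103_ChiGlue
import Fermat.Agent.S25.helper9607_GlueBridge
import Fermat.Agent.S25.helper4037_TwistCore
import Fermat.Agent.S25.helper743_AlgApi
import Fermat.Agent.S25.helper7186_CechBaseChange

/-!
# S25, leaf LC-CHI: the Euler characteristic of a glue datum (helper239)

Integration file for the `χ` API of `GlueDatum` (helper2945 AlgDefs).  It discharges the inputs
(I2) "twist package" and (I3) "flatness of the overlap module" of `helper1103_ChiGlue`:

* `exists_twRho_surjective` : Serre vanishing, `H¹(G(m D∞)) = 0` for `m ≥ m₀`;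
* `twist_ker_fg_and_projective` : `H⁰(G(m D∞))` is finite projective over `B` once
  `H¹(G(m D∞)) = 0`;
* `exists_twist_package` : the input (I2) of `helper1103.exists_isLocallyConstant_chi_of`;
* `exists_isLocallyConstant_chi` : `χ` of the fibres is a locally constant function on `Spec B`
  (the only remaining input is the base change comparison `helper1103.BaseChangeCmp G`, leaf
  LC-BC);
* `finite_H0_H1_baseChange` : `H⁰`, `H¹` of every fibre over a field are finite dimensional.
-/

set_option autoImplicit false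
set_option linter.style.haveILetI false

universe u

open scoped TensorProduct

open Polynomial

namespace Fermat.Agent.S25.helper239

open Fermat.Agent.S25.helper1705 Fermat.Agent.S25.helper2945

section Generic

variable {B : Type*} [CommRing B]

/-- An equivariant retract of a finite free `B[X]`-module is finitely generated under the
endomorphism. -/
theorem fgUnder_of_isRetractOfFree {M : Type*} [AddCommGroup M] [Module B M]
    {φ : Module.End B M} (h : helper9607.IsRetractOfFree φ) : helper4037.FGUnder φ := by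
  classical
  obtain ⟨n, i, p, hpi, -, hpX⟩ := h
  refine ⟨Finset.univ.image (fun j : Fin n => p (Pi.single j 1)), ?_⟩
  set W : Submodule B M := Submodule.span B
    {z | ∃ s ∈ Finset.univ.image (fun j : Fin n => p (Pi.single j 1)), ∃ l : ℕ, z = (φ ^ l) s}
    with hW
  have hpow : ∀ (l : ℕ) (v : Fin n → B[X]), p ((X : B[X]) ^ l • v) = (φ ^ l) (p v) := by
    intro l
    induction l with
    | zero => intro v; simp
    | succ l ih =>
      intro v
      rw [pow_succ', mul_smul, hpX, ih, pow_succ', Module.End.mul_apply]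
  have hmon : ∀ (j : Fin n) (l : ℕ) (c : B), p (Pi.single j (monomial l c)) ∈ W := by
    intro j l c
    have e : (Pi.single j (monomial l c) : Fin n → B[X]) =
        c • ((X : B[X]) ^ l • (Pi.single j 1 : Fin n → B[X])) := by
      ext1 j'
      by_cases hj : j' = j
      · subst hj
        simp only [Pi.single_eq_same, Pi.smul_apply, smul_eq_mul, mul_one]
        rw [← C_mul_X_pow_eq_monomial, smul_eq_C_mul]
      · simp [Pi.single_eq_of_ne hj]
    rw [e, map_smul, hpow]
    exact W.smul_mem c (Submodule.subset_span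
      ⟨_, Finset.mem_image_of_mem _ (Finset.mem_univ j), l, rfl⟩)
  have hsingle : ∀ (j : Fin n) (q : B[X]), p (Pi.single j q) ∈ W := by
    intro j q
    induction q using Polynomial.induction_on' with
    | add q r hq hr =>
      rw [Pi.single_add, map_add]
      exact W.add_mem hq hr
    | monomial l c => exact hmon j l c
  rw [eq_top_iff]
  intro m _
  rw [← hpi m, ← Finset.univ_sum_single (i m), map_sum]
  exact W.sum_mem fun j _ => hsingle j _

end Generic

section Glue

variable {k : Type u} [Field k] {D : CurveDatum k} {B : Type u} [CommRing B] [Algebra k B]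
  (G : GlueDatum D B)

open helper9607 helper1103

theorem twRho_eq_pow (m : ℕ) (b : G.M₁) : twRho G m b = (X₀₁ G ^ m) (G.ρ₁B b) := by
  rw [X₀₁_pow_apply]
  rfl

/-- The twisted restriction map is equivariant for multiplication by `y`. -/
theorem twRho_Y₁ (m : ℕ) (b : G.M₁) : twRho G m (Y₁ G b) = Y₀₁ G (twRho G m b) := by
  rw [twRho_eq_pow, twRho_eq_pow, ρ₁B_Y₁]
  induction m with
  | zero => simp
  | succ m ih =>
    rw [pow_succ', Module.End.mul_apply, ih, Module.End.mul_apply, X₀₁_Y₀₁, Y₀₁_X₀₁]

/-- **Serre vanishing** for a glue datum: `H¹(G(m D∞)) = 0` for all `m ≥ m₀`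
(hypothesis-passing form: `x` transcendental). -/
theorem exists_twRho_surjective_of_transcendental (hx : Transcendental k D.x) :
    ∃ m₀ : ℕ, ∀ m : ℕ, m₀ ≤ m → Function.Surjective (cechDiff G.ρ₀B (twRho G m)) := by
  obtain ⟨m₀, h⟩ := helper4037.exists_twist_surjective (X₀ := X₀ G) (Y₁ := Y₁ G)
    (T := X₀₁ G) (T' := Y₀₁ G) (LinearMap.ext (X₀₁_Y₀₁ G)) (LinearMap.ext (Y₀₁_X₀₁ G))
    (r₀ := G.ρ₀B) (r₁ := G.ρ₁B) (ρ₀B_X₀ G) (ρ₁B_Y₁ G)
    (fgUnder_of_isRetractOfFree (isRetractOfFree_X₀ G hx))
    (exists_pow_X₀₁_eq G) (exists_pow_Y₀₁_eq G)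
  refine ⟨m₀, fun m hm z => ?_⟩
  obtain ⟨a, b, rfl⟩ := h m hm z
  refine ⟨(a, -b), ?_⟩
  rw [cechDiff_apply, map_neg, sub_neg_eq_add, twRho_eq_pow]

/-- **`H¹(G(m D∞)) = 0 ⟹ H⁰(G(m D∞))` finitely generated projective over `B`**
(hypothesis-passing form: `x`, `y` transcendental). -/
theorem twist_ker_fg_and_projective_of_transcendental (hx : Transcendental k D.x)
    (hy : Transcendental k D.y) (m : ℕ)
    (h : Function.Surjective (cechDiff G.ρ₀B (twRho G m))) :
    (LinearMap.ker (cechDiff G.ρ₀B (twRho G m))).FG ∧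
      Module.Projective B (LinearMap.ker (cechDiff G.ρ₀B (twRho G m))) := by
  have := projective_M₀₁ G
  have hXY : X₀₁ G * Y₀₁ G = 1 := LinearMap.ext (X₀₁_Y₀₁ G)
  have hYX : Y₀₁ G * X₀₁ G = 1 := LinearMap.ext (Y₀₁_X₀₁ G)
  have hloc₁ : ∀ z : G.M₀₁, ∃ (n : ℕ) (b : G.M₁), (Y₀₁ G ^ n) z = twRho G m b := by
    intro z
    obtain ⟨n, b, hb⟩ := exists_pow_Y₀₁_eq G z
    refine ⟨m + n, (Y₁ G ^ (m + m)) b, ?_⟩
    rw [twRho_eq_pow, helper4037.map_pow_apply_of_intertwine (ρ₁B_Y₁ G), ← hb,
      pow_add (Y₀₁ G) m m, Module.End.mul_apply,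
      helper4037.pow_apply_pow_of_mul_eq_one hXY, pow_add, Module.End.mul_apply]
  have hker₁ : ∀ b : G.M₁, twRho G m b = 0 → ∃ n : ℕ, (Y₁ G ^ n) b = 0 := by
    intro b hb
    refine exists_pow_Y₁_eq_zero G b ?_
    rw [twRho_eq_pow] at hb
    rw [← helper4037.pow_apply_pow_of_mul_eq_one hYX m (G.ρ₁B b), hb, map_zero]
  exact ker_fg_and_projective (X₀ G) (Y₁ G) (X₀₁ G) (Y₀₁ G) (X₀₁_Y₀₁ G) (Y₀₁_X₀₁ G) G.ρ₀B
    (twRho G m) (ρ₀B_X₀ G) (twRho_Y₁ G m) (exists_pow_X₀₁_eq G) (exists_pow_X₀_eq_zero G)
    hloc₁ hker₁ (isRetractOfFree_X₀ G hx) (isRetractOfFree_Y₁ G hy) h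

/-- Input (I2) of `helper1103.exists_isLocallyConstant_chi_of`, hypothesis-passing form. -/
theorem exists_twist_package_of_transcendental (hx : Transcendental k D.x)
    (hy : Transcendental k D.y) :
    ∃ m : ℕ, Function.Surjective (cechDiff G.ρ₀B (twRho G m)) ∧
      Module.Finite B (LinearMap.ker (cechDiff G.ρ₀B (twRho G m))) ∧
      Module.Projective B (LinearMap.ker (cechDiff G.ρ₀B (twRho G m))) := by
  obtain ⟨m₀, h⟩ := exists_twRho_surjective_of_transcendental G hx
  obtain ⟨h1, h2⟩ := twist_ker_fg_and_projective_of_transcendental G hx hy m₀ (h m₀ le_rfl)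
  exact ⟨m₀, h m₀ le_rfl, Module.Finite.iff_fg.mpr h1, h2⟩

/-- Input (I3) of `helper1103.exists_isLocallyConstant_chi_of`: the overlap module is flat
over `B`. -/
theorem flat_M₀₁ : Module.Flat B G.M₀₁ :=
  have := projective_M₀₁ G
  inferInstance

/-- Finite dimensionality of the cohomology of the fibres, from a good twist (same inputs as
`helper1103.chi_baseChange_eq_chiFun`). -/
theorem finite_H0_H1_baseChange_of (m : ℕ)
    (hsurj : Function.Surjective (cechDiff G.ρ₀B (twRho G m)))
    (hfin : Module.Finite B (LinearMap.ker (cechDiff G.ρ₀B (twRho G m))))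
    (hproj : Module.Projective B (LinearMap.ker (cechDiff G.ρ₀B (twRho G m))))
    (hflat : Module.Flat B G.M₀₁) (hcmp : BaseChangeCmp G)
    (K : Type u) [Field K] [Algebra k K] (φ : B →ₐ[k] K) :
    Module.Finite K (G.baseChange φ).H0 ∧ Module.Finite K (G.baseChange φ).H1 := by
  letI : Algebra B K := φ.toRingHom.toAlgebra
  obtain ⟨c₀, c₁, c₀₁, h₀, h₁⟩ := hcmp K φ
  obtain ⟨hp1, hp2⟩ := polar_yB G m
  obtain ⟨f1, f2, -⟩ := index_twoChart G.ρ₀B G.ρ₁B (twRho G m) (smulEnd B G.M₁ (yB D B ^ m))
    (twRho_smulEnd G m) (smulEnd_yB_pow_injective G m) hsurj K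
  let eV : ((G.baseChange φ).M₀ × (G.baseChange φ).M₁) ≃ₗ[K] K ⊗[B] (G.M₀ × G.M₁) :=
    (c₀.prodCongr c₁) ≪≫ₗ (TensorProduct.prodRight B K K G.M₀ G.M₁).symm
  have hsq : ∀ v, ((cechDiff G.ρ₀B G.ρ₁B).baseChange K) (eV v) =
      c₀₁ ((G.baseChange φ).delta v) := by
    rintro ⟨a, b⟩
    rw [cechDiff_baseChange_apply, GlueDatum.delta_apply, map_sub, h₀, h₁]
    simp [eV]
  obtain ⟨⟨e1⟩, ⟨e2⟩⟩ := index_congr (G.baseChange φ).delta
    ((cechDiff G.ρ₀B G.ρ₁B).baseChange K) eV c₀₁ hsq
  exact ⟨Module.Finite.equiv e1.symm, Module.Finite.equiv e2.symm⟩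

/-- **LC-CHI, main theorem (hypothesis-passing in `x`, `y` transcendental).**  For a glue datum
`G` over ANY `k`-algebra `B` there is a locally constant function `f` on `Spec B` such that at
every field valued point `φ : B → K` the cohomology groups of the fibre are finite dimensional
and `χ (G ⊗ K) = f (ker φ)`. -/
theorem exists_isLocallyConstant_chi_of_transcendental (hx : Transcendental k D.x)
    (hy : Transcendental k D.y) (hcmp : BaseChangeCmp G) :
    ∃ f : PrimeSpectrum B → ℤ, IsLocallyConstant f ∧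
      ∀ (K : Type u) [Field K] [Algebra k K] (φ : B →ₐ[k] K),
        Module.Finite K (G.baseChange φ).H0 ∧ Module.Finite K (G.baseChange φ).H1 ∧
          (G.baseChange φ).chi = f ⟨RingHom.ker φ.toRingHom, RingHom.ker_isPrime _⟩ := by
  obtain ⟨m, hsurj, hfin, hproj⟩ := exists_twist_package_of_transcendental G hx hy
  refine ⟨chiFun G m, isLocallyConstant_chiFun G m hfin hproj, fun K _ _ φ => ?_⟩
  obtain ⟨h0, h1⟩ := finite_H0_H1_baseChange_of G m hsurj hfin hproj (flat_M₀₁ G) hcmp K φ
  exact ⟨h0, h1, chi_baseChange_eq_chiFun G m hsurj hfin hproj (flat_M₀₁ G) hcmp K φ⟩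

section AlgClosed

variable [IsAlgClosed k]

/-- **Serre vanishing** for a glue datum: `H¹(G(m D∞)) = 0` for all `m ≥ m₀`. -/
theorem exists_twRho_surjective :
    ∃ m₀ : ℕ, ∀ m : ℕ, m₀ ≤ m → Function.Surjective (cechDiff G.ρ₀B (twRho G m)) :=
  exists_twRho_surjective_of_transcendental G (helper1167.x_transcendental D)

/-- **`H¹(G(m D∞)) = 0 ⟹ H⁰(G(m D∞))` finitely generated projective over `B`.** -/
theorem twist_ker_fg_and_projective (m : ℕ)
    (h : Function.Surjective (cechDiff G.ρ₀B (twRho G m))) :
    (LinearMap.ker (cechDiff G.ρ₀B (twRho G m))).FG ∧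
      Module.Projective B (LinearMap.ker (cechDiff G.ρ₀B (twRho G m))) :=
  twist_ker_fg_and_projective_of_transcendental G (helper1167.x_transcendental D)
    (helper1167.y_transcendental D) m h

/-- **Input (I2)** of `helper1103.exists_isLocallyConstant_chi_of`: a twist `m` with
`H¹(G(m D∞)) = 0` and `H⁰(G(m D∞))` finite projective. -/
theorem exists_twist_package :
    ∃ m : ℕ, Function.Surjective (cechDiff G.ρ₀B (twRho G m)) ∧
      Module.Finite B (LinearMap.ker (cechDiff G.ρ₀B (twRho G m))) ∧
      Module.Projective B (LinearMap.ker (cechDiff G.ρ₀B (twRho G m))) :=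
  exists_twist_package_of_transcendental G (helper1167.x_transcendental D)
    (helper1167.y_transcendental D)

/-- **LC-CHI, main theorem.**  For a glue datum `G` over ANY `k`-algebra `B` (no noetherian
hypothesis) there is a locally constant function `f` on `Spec B` such that at every field valued
point `φ : B → K` the cohomology groups of the fibre are finite dimensional and
`χ (G ⊗ K) = f (ker φ)`.  The only input is the base change comparison (leaf LC-BC). -/
theorem exists_isLocallyConstant_chi (hcmp : BaseChangeCmp G) :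
    ∃ f : PrimeSpectrum B → ℤ, IsLocallyConstant f ∧
      ∀ (K : Type u) [Field K] [Algebra k K] (φ : B →ₐ[k] K),
        Module.Finite K (G.baseChange φ).H0 ∧ Module.Finite K (G.baseChange φ).H1 ∧
          (G.baseChange φ).chi = f ⟨RingHom.ker φ.toRingHom, RingHom.ker_isPrime _⟩ :=
  exists_isLocallyConstant_chi_of_transcendental G (helper1167.x_transcendental D)
    (helper1167.y_transcendental D) hcmp

/-- (fin) The cohomology of every fibre over a field is finite dimensional. -/
theorem finite_H0_H1_baseChange (hcmp : BaseChangeCmp G)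
    (K : Type u) [Field K] [Algebra k K] (φ : B →ₐ[k] K) :
    Module.Finite K (G.baseChange φ).H0 ∧ Module.Finite K (G.baseChange φ).H1 := by
  obtain ⟨f, -, hf⟩ := exists_isLocallyConstant_chi G hcmp
  exact ⟨(hf K φ).1, (hf K φ).2.1⟩

/-- `χ` of a fibre only depends on the point of `Spec B` below. -/
theorem chi_baseChange_eq_of_ker_eq (hcmp : BaseChangeCmp G)
    {K K' : Type u} [Field K] [Algebra k K] [Field K'] [Algebra k K']
    (φ : B →ₐ[k] K) (φ' : B →ₐ[k] K')
    (h : RingHom.ker φ.toRingHom = RingHom.ker φ'.toRingHom) :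
    (G.baseChange φ).chi = (G.baseChange φ').chi := by
  obtain ⟨f, -, hf⟩ := exists_isLocallyConstant_chi G hcmp
  rw [(hf K φ).2.2, (hf K' φ').2.2]
  congr 1
  exact PrimeSpectrum.ext h

/-- (ext) `χ` of a fibre is invariant under extension of the field. -/
theorem chi_baseChange_comp (hcmp : BaseChangeCmp G)
    {K K' : Type u} [Field K] [Algebra k K] [Field K'] [Algebra k K']
    (φ : B →ₐ[k] K) (ψ : K →ₐ[k] K') :
    (G.baseChange (ψ.comp φ)).chi = (G.baseChange φ).chi := by
  refine chi_baseChange_eq_of_ker_eq G hcmp _ _ ?_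
  ext b
  simp only [RingHom.mem_ker]
  constructor
  · intro hb
    exact ψ.toRingHom.injective (by simpa using hb)
  · intro hb
    have : φ b = 0 := hb
    show ψ (φ b) = 0
    rw [this, map_zero]

/-- (loc) `χ` of the fibres is locally constant: every point of `Spec B` has an open
neighbourhood on which all field valued points have the same `χ`. -/
theorem exists_open_chi_const (hcmp : BaseChangeCmp G) (p : PrimeSpectrum B) :
    ∃ U : Set (PrimeSpectrum B), IsOpen U ∧ p ∈ U ∧
      ∀ (K K' : Type u) [Field K] [Algebra k K] [Field K'] [Algebra k K']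
        (φ : B →ₐ[k] K) (φ' : B →ₐ[k] K'),
        (⟨RingHom.ker φ.toRingHom, RingHom.ker_isPrime _⟩ : PrimeSpectrum B) ∈ U →
        (⟨RingHom.ker φ'.toRingHom, RingHom.ker_isPrime _⟩ : PrimeSpectrum B) ∈ U →
        (G.baseChange φ).chi = (G.baseChange φ').chi := by
  obtain ⟨f, hloc, hf⟩ := exists_isLocallyConstant_chi G hcmp
  refine ⟨f ⁻¹' {f p}, hloc.isOpen_fiber (f p), rfl, fun K K' _ _ _ _ φ φ' h h' => ?_⟩
  rw [(hf K φ).2.2, (hf K' φ').2.2]
  exact h.trans h'.symm

end AlgClosed

end Glue

section Field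

variable {k : Type u} [Field k] [IsAlgClosed k] {D : CurveDatum k}
  {K : Type u} [Field K] [Algebra k K] (G : GlueDatum D K)

open helper1103

/-- (fin) over a field: the cohomology of a glue datum is finite dimensional. -/
theorem finite_H0_H1 (hcmp : BaseChangeCmp G) : Module.Finite K G.H0 ∧ Module.Finite K G.H1 := by
  obtain ⟨h0, h1⟩ := finite_H0_H1_baseChange G hcmp K (AlgHom.id k K)
  obtain ⟨f⟩ := helper743.baseChange_id G
  exact ⟨Module.Finite.equiv (helper743.isoH0Equiv f), Module.Finite.equiv (helper743.isoH1Equiv f)⟩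

/-- (ext) over a field: `χ` is invariant under extension of the base field. -/
theorem chi_baseChange_field (hcmp : BaseChangeCmp G) {K' : Type u} [Field K'] [Algebra k K']
    (ψ : K →ₐ[k] K') : (G.baseChange ψ).chi = G.chi := by
  have h1 := chi_baseChange_comp G hcmp (AlgHom.id k K) ψ
  rw [AlgHom.comp_id] at h1
  rw [h1]
  exact helper743.equiv_chi_eq (helper743.baseChange_id G)

end Field

/-! ## Unconditional forms

The base change comparison `helper1103.BaseChangeCmp G` is `helper7186.exists_baseChangeCmp`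
(leaf LC-BC); the statements below have no hypothesis left. -/

section Unconditional

variable {k : Type u} [Field k] {D : CurveDatum k} {B : Type u} [CommRing B] [Algebra k B]
  (G : GlueDatum D B)

open helper1103

/-- Input (I1) of `helper1103.exists_isLocallyConstant_chi_of` (leaf LC-BC, helper7186). -/
theorem baseChangeCmp : BaseChangeCmp G :=
  fun _ _ _ φ => helper7186.exists_baseChangeCmp G φ

variable [IsAlgClosed k]

/-- **The index theorem for `χ`.**  For a glue datum `G` over ANY `k`-algebra `B` there is a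
locally constant function `f` on `Spec B` such that at every field valued point `φ : B → K` the
cohomology groups of the fibre are finite dimensional and `χ (G ⊗ K) = f (ker φ)`. -/
theorem chi_index :
    ∃ f : PrimeSpectrum B → ℤ, IsLocallyConstant f ∧
      ∀ (K : Type u) [Field K] [Algebra k K] (φ : B →ₐ[k] K),
        Module.Finite K (G.baseChange φ).H0 ∧ Module.Finite K (G.baseChange φ).H1 ∧
          (G.baseChange φ).chi = f ⟨RingHom.ker φ.toRingHom, RingHom.ker_isPrime _⟩ :=
  exists_isLocallyConstant_chi G (baseChangeCmp G)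

/-- (fin) `H⁰` of every fibre over a field is finite dimensional. -/
theorem finite_H0_fibre {K : Type u} [Field K] [Algebra k K] (φ : B →ₐ[k] K) :
    Module.Finite K (G.baseChange φ).H0 :=
  (finite_H0_H1_baseChange G (baseChangeCmp G) K φ).1

/-- (fin) `H¹` of every fibre over a field is finite dimensional. -/
theorem finite_H1_fibre {K : Type u} [Field K] [Algebra k K] (φ : B →ₐ[k] K) :
    Module.Finite K (G.baseChange φ).H1 :=
  (finite_H0_H1_baseChange G (baseChangeCmp G) K φ).2

/-- `χ` of a fibre only depends on the point of `Spec B` below. -/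
theorem chi_fibre_eq_of_ker_eq {K K' : Type u} [Field K] [Algebra k K] [Field K'] [Algebra k K']
    (φ : B →ₐ[k] K) (φ' : B →ₐ[k] K')
    (h : RingHom.ker φ.toRingHom = RingHom.ker φ'.toRingHom) :
    (G.baseChange φ).chi = (G.baseChange φ').chi :=
  chi_baseChange_eq_of_ker_eq G (baseChangeCmp G) φ φ' h

/-- (ext) `χ` of a fibre is invariant under extension of the field. -/
theorem chi_fibre_comp {K K' : Type u} [Field K] [Algebra k K] [Field K'] [Algebra k K']
    (φ : B →ₐ[k] K) (ψ : K →ₐ[k] K') :
    (G.baseChange (ψ.comp φ)).chi = (G.baseChange φ).chi :=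
  chi_baseChange_comp G (baseChangeCmp G) φ ψ

/-- (loc) every point of `Spec B` has an open neighbourhood on which all field valued points
have the same `χ`. -/
theorem exists_open_chi_fibre_const (p : PrimeSpectrum B) :
    ∃ U : Set (PrimeSpectrum B), IsOpen U ∧ p ∈ U ∧
      ∀ (K K' : Type u) [Field K] [Algebra k K] [Field K'] [Algebra k K']
        (φ : B →ₐ[k] K) (φ' : B →ₐ[k] K'),
        (⟨RingHom.ker φ.toRingHom, RingHom.ker_isPrime _⟩ : PrimeSpectrum B) ∈ U →
        (⟨RingHom.ker φ'.toRingHom, RingHom.ker_isPrime _⟩ : PrimeSpectrum B) ∈ U →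
        (G.baseChange φ).chi = (G.baseChange φ').chi :=
  exists_open_chi_const G (baseChangeCmp G) p

end Unconditional

section UnconditionalField

variable {k : Type u} [Field k] [IsAlgClosed k] {D : CurveDatum k}
  {K : Type u} [Field K] [Algebra k K] (G : GlueDatum D K)

/-- (fin) `H⁰` of a glue datum over a field is finite dimensional. -/
theorem finite_H0_field : Module.Finite K G.H0 := (finite_H0_H1 G (baseChangeCmp G)).1

/-- (fin) `H¹` of a glue datum over a field is finite dimensional. -/
theorem finite_H1_field : Module.Finite K G.H1 := (finite_H0_H1 G (baseChangeCmp G)).2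

/-- (ext) `χ` of a glue datum over a field is invariant under extension of the field. -/
theorem chi_field_ext {K' : Type u} [Field K'] [Algebra k K'] (ψ : K →ₐ[k] K') :
    (G.baseChange ψ).chi = G.chi :=
  chi_baseChange_field G (baseChangeCmp G) ψ

end UnconditionalField

end Fermat.Agent.S25.helper239
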