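import Fermat.Agent.S25.helper8573_LCSpec

/-!
# S25 / U3: Euler characteristic of a sub-bundle supported on the first chart (helper4927)

The numerical adapter for divisor twists, stated for ANY twist construction in terms of
`helper8573.Mor` (morphisms of two-chart line bundles).

* Part A (linear algebra over a field, no curve): `index_cech_of_hom_chart0` — for an injective
  morphism of two-chart complexes `(ψ0, ψ1, ψ01) : (M0, M1, M01) → (N0, N1, N01)` which is
  saturated on chart 1 and satisfies excision (the quotient is supported on chart 0):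
  `index(M) = index(N) - dim (N0 / ψ0 M0)`, and the cohomology of `M` is finite-dimensional.
* Part B (`GlueDatum` level): for `σ : Mor G' G`
  - `excision_of_surjModY`, `saturated_of_surjModY`: a morphism which is surjective modulo `y`
    on the chart at infinity (`Mor.SurjModY`) is saturated on that chart and satisfies excision
    (over ANY base ring `B`);
  - `mem_H0_iff_of_mor`: description of `H⁰(G')` inside `H⁰(G)`;
  - `exists_sub_mem_range_delta`: `H¹(G') → H¹(G)` is onto;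
  - `chi_of_mor`, `chi_of_mor_surjModY`: over a field `K`,
    `χ(G') = χ(G) - dim_K (G.M₀ / σ.f₀ G'.M₀)`, with finite-dimensionality of `H⁰(G')`, `H¹(G')`.
-/

set_option autoImplicit false

namespace Fermat.Agent.S25.helper4927

open Module

/-! ## Part A: the index of a two-chart complex drops by the chart-0 colength -/

section IndexDrop

variable {K : Type*} [Field K]
  {M0 M1 M01 N0 N1 N01 : Type*}
  [AddCommGroup M0] [Module K M0] [AddCommGroup M1] [Module K M1]
  [AddCommGroup M01] [Module K M01]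
  [AddCommGroup N0] [Module K N0] [AddCommGroup N1] [Module K N1]
  [AddCommGroup N01] [Module K N01]

/-- The Čech differential `(a, b) ↦ l0 a - l1 b` of a two-chart complex. -/
def cech (l0 : M0 →ₗ[K] M01) (l1 : M1 →ₗ[K] M01) : M0 × M1 →ₗ[K] M01 :=
  l0.coprod (-l1)

@[simp] theorem cech_apply (l0 : M0 →ₗ[K] M01) (l1 : M1 →ₗ[K] M01) (p : M0 × M1) :
    cech l0 l1 p = l0 p.1 - l1 p.2 := by
  simp [cech, sub_eq_add_neg]

/-- **Index drop (morphism form).** Let `(ψ0, ψ1, ψ01) : (M0, M1, M01) → (N0, N1, N01)` be an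
injective morphism of two-chart complexes which is saturated on chart 1
(`l1' n ∈ ψ01 M01 → n ∈ ψ1 M1`) and satisfies excision (`N01 = ψ01 M01 + l1' N1`), i.e. the
quotient is supported on chart 0. If `N` has finite-dimensional cohomology and
`N0 / ψ0 M0` is finite-dimensional, then `M` has finite-dimensional cohomology and
`index M = index N - dim (N0 / ψ0 M0)`. -/
theorem index_cech_of_hom_chart0
    (l0 : M0 →ₗ[K] M01) (l1 : M1 →ₗ[K] M01) (l0' : N0 →ₗ[K] N01) (l1' : N1 →ₗ[K] N01)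
    (ψ0 : M0 →ₗ[K] N0) (ψ1 : M1 →ₗ[K] N1) (ψ01 : M01 →ₗ[K] N01)
    (h0 : ∀ m, ψ01 (l0 m) = l0' (ψ0 m)) (h1 : ∀ m, ψ01 (l1 m) = l1' (ψ1 m))
    (hψ0 : Function.Injective ψ0) (hψ1 : Function.Injective ψ1)
    (hψ01 : Function.Injective ψ01)
    (hsat : ∀ n : N1, l1' n ∈ LinearMap.range ψ01 → n ∈ LinearMap.range ψ1)
    (hex : ∀ z : N01, ∃ n : N1, z - l1' n ∈ LinearMap.range ψ01)
    [FiniteDimensional K (LinearMap.ker (cech l0' l1'))]
    [FiniteDimensional K (N01 ⧸ LinearMap.range (cech l0' l1'))]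
    [FiniteDimensional K (N0 ⧸ LinearMap.range ψ0)] :
    FiniteDimensional K (LinearMap.ker (cech l0 l1)) ∧
      FiniteDimensional K (M01 ⧸ LinearMap.range (cech l0 l1)) ∧
      (cech l0 l1).index = (cech l0' l1').index - finrank K (N0 ⧸ LinearMap.range ψ0) := by
  -- intermediate complex `M0 × N1 → N01`
  let j : M0 × N1 →ₗ[K] N0 × N1 := ψ0.prodMap LinearMap.id
  have hj : Function.Injective j := by
    intro a b hab
    have h1' := congrArg Prod.fst hab
    have h2' := congrArg Prod.snd hab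
    exact Prod.ext (hψ0 h1') h2'
  let δ₁ : M0 × N1 →ₗ[K] N01 := cech l0' l1' ∘ₗ j
  -- the cokernel of `j` is `N0 / ψ0 M0`
  let π : N0 × N1 →ₗ[K] N0 ⧸ LinearMap.range ψ0 :=
    (LinearMap.range ψ0).mkQ ∘ₗ LinearMap.fst K N0 N1
  have hπ : Function.Surjective π := by
    intro z
    obtain ⟨m, rfl⟩ := (LinearMap.range ψ0).mkQ_surjective z
    exact ⟨(m, 0), rfl⟩
  have hkerπ : LinearMap.ker π = LinearMap.range j := by
    ext p
    simp only [LinearMap.mem_ker, π, LinearMap.comp_apply, LinearMap.fst_apply,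
      Submodule.mkQ_apply, Submodule.Quotient.mk_eq_zero]
    constructor
    · rintro ⟨m, hm⟩
      exact ⟨(m, p.2), Prod.ext hm rfl⟩
    · rintro ⟨q, rfl⟩
      exact ⟨q.1, rfl⟩
  let eQ : ((N0 × N1) ⧸ LinearMap.range j) ≃ₗ[K] (N0 ⧸ LinearMap.range ψ0) :=
    (Submodule.quotEquivOfEq _ _ hkerπ.symm).trans (π.quotKerEquivOfSurjective hπ)
  have hfin : FiniteDimensional K ((N0 × N1) ⧸ LinearMap.range j) := Module.Finite.equiv eQ.symm
  have hkerj : FiniteDimensional K (LinearMap.ker j) := by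
    rw [LinearMap.ker_eq_bot.2 hj]; infer_instance
  have hidx1 : δ₁.index = (cech l0' l1').index - finrank K (N0 ⧸ LinearMap.range ψ0) := by
    have := LinearMap.index_comp (f := j) (cech l0' l1')
    rw [this, LinearMap.index_of_injective hj, eQ.finrank_eq]
    ring
  have hfinK₁ : FiniteDimensional K (LinearMap.ker δ₁) := by
    change FiniteDimensional K (LinearMap.ker (cech l0' l1' ∘ₗ j))
    rw [LinearMap.ker_comp]; infer_instance
  have hfinC₁ : FiniteDimensional K (N01 ⧸ LinearMap.range δ₁) := by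
    change FiniteDimensional K (N01 ⧸ LinearMap.range (cech l0' l1' ∘ₗ j))
    rw [LinearMap.range_comp]; infer_instance
  rw [← hidx1]
  -- now compare `M` with `δ₁`
  have hδ₁ : ∀ p : M0 × N1, δ₁ p = l0' (ψ0 p.1) - l1' p.2 := fun p => by simp [δ₁, j]
  let i : M0 × M1 →ₗ[K] M0 × N1 := LinearMap.id.prodMap ψ1
  have hi : Function.Injective i := by
    intro a b hab
    have h1' := congrArg Prod.fst hab
    have h2' := congrArg Prod.snd hab
    exact Prod.ext h1' (hψ1 h2')
  have hcomm : ∀ p : M0 × M1, δ₁ (i p) = ψ01 (cech l0 l1 p) := fun p => by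
    rw [hδ₁, cech_apply, map_sub, h0, h1]; rfl
  -- kernel equivalence
  let eK : LinearMap.ker (cech l0 l1) ≃ₗ[K] LinearMap.ker δ₁ :=
    LinearEquiv.ofBijective
      ((i.restrict (p := LinearMap.ker (cech l0 l1)) (q := LinearMap.ker δ₁) (fun p hp => by
        rw [LinearMap.mem_ker] at hp ⊢
        rw [hcomm, hp, map_zero])))
      ⟨fun a b hab => by
        have := congrArg Subtype.val hab
        exact Subtype.ext (hi this),
       fun ⟨p, hp⟩ => by
        rw [LinearMap.mem_ker, hδ₁] at hp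
        have hp1 : l1' p.2 ∈ LinearMap.range ψ01 := by
          have : l1' p.2 = l0' (ψ0 p.1) := (sub_eq_zero.mp hp).symm
          rw [this]; exact ⟨l0 p.1, h0 _⟩
        obtain ⟨m1, hm1⟩ := hsat _ hp1
        refine ⟨⟨(p.1, m1), ?_⟩, Subtype.ext (Prod.ext rfl hm1)⟩
        rw [LinearMap.mem_ker]
        apply hψ01
        rw [← hcomm, map_zero, hδ₁]
        change l0' (ψ0 p.1) - l1' (ψ1 m1) = 0
        rw [hm1]; exact hp⟩
  -- cokernel equivalence
  have hle : LinearMap.range (cech l0 l1) ≤ (LinearMap.range δ₁).comap ψ01 := by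
    rintro _ ⟨p, rfl⟩
    exact ⟨i p, hcomm p⟩
  let c : (M01 ⧸ LinearMap.range (cech l0 l1)) →ₗ[K] (N01 ⧸ LinearMap.range δ₁) :=
    Submodule.mapQ _ _ ψ01 hle
  have hc : Function.Bijective c := by
    constructor
    · rw [← LinearMap.ker_eq_bot, LinearMap.ker_eq_bot']
      intro z hz
      obtain ⟨n, rfl⟩ := Submodule.Quotient.mk_surjective _ z
      have hz' : ψ01 n ∈ LinearMap.range δ₁ := by
        simpa [c, Submodule.mapQ_apply, Submodule.Quotient.mk_eq_zero] using hz
      obtain ⟨p, hp⟩ := hz'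
      rw [hδ₁] at hp
      have hp1 : l1' p.2 ∈ LinearMap.range ψ01 := by
        have : l1' p.2 = l0' (ψ0 p.1) - ψ01 n := by rw [← hp]; abel
        rw [this, ← h0, ← map_sub]
        exact ⟨_, rfl⟩
      obtain ⟨m1, hm1⟩ := hsat _ hp1
      rw [Submodule.Quotient.mk_eq_zero]
      refine ⟨(p.1, m1), hψ01 ?_⟩
      rw [← hcomm, hδ₁, ← hp]
      change l0' (ψ0 p.1) - l1' (ψ1 m1) = _
      rw [hm1]
    · intro z
      obtain ⟨m, rfl⟩ := Submodule.Quotient.mk_surjective _ z
      obtain ⟨n1, w, hw⟩ := hex m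
      refine ⟨Submodule.Quotient.mk w, ?_⟩
      simp only [c, Submodule.mapQ_apply]
      rw [Submodule.Quotient.eq, hw]
      refine ⟨((0 : M0), n1), ?_⟩
      rw [hδ₁]
      simp
  let eC : (M01 ⧸ LinearMap.range (cech l0 l1)) ≃ₗ[K] (N01 ⧸ LinearMap.range δ₁) :=
    LinearEquiv.ofBijective c hc
  refine ⟨Module.Finite.equiv eK.symm, Module.Finite.equiv eC.symm, ?_⟩
  rw [LinearMap.index_eq_finrank_sub, LinearMap.index_eq_finrank_sub, eK.finrank_eq,
    eC.finrank_eq]

end IndexDrop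

/-! ## Part B: morphisms of two-chart line bundles supported on the first chart -/

section Glue

open Fermat.Agent.S25.helper1705 Fermat.Agent.S25.helper2945 Fermat.Agent.S25.helper8573

universe u

variable {k : Type u} [Field k] {D : CurveDatum k}

/-- The Euler characteristic of a two-chart bundle is the index of its Čech differential. -/
theorem chi_eq_index {B : Type u} [CommRing B] [Algebra k B] (G : GlueDatum D B) :
    G.chi = G.delta.index := by
  rw [LinearMap.index_eq_finrank_sub]; rfl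

variable {B : Type u} [CommRing B] [Algebra k B] {G' G : GlueDatum D B}

/-- Iterating `Mor.SurjModY`: modulo any power of `y`, `σ.f₁` is onto. -/
theorem surjModY_pow (σ : Mor G' G) (h : σ.SurjModY) (j : ℕ) (n : G.M₁) :
    ∃ (m : G'.M₁) (n' : G.M₁), n = σ.f₁ m + yB D B ^ j • n' := by
  induction j generalizing n with
  | zero => exact ⟨0, n, by simp⟩
  | succ j ih =>
    obtain ⟨m, n', rfl⟩ := ih n
    obtain ⟨m2, n2, rfl⟩ := h n'
    refine ⟨m + yB D B ^ j • m2, n2, ?_⟩
    rw [map_add, map_smul, smul_add, pow_succ, mul_smul, add_assoc]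

/-- **Excision.** If `σ : G' → G` is surjective modulo `y` on the chart at infinity, then every
section of `G` over the overlap is, modulo the image of `G'`, the restriction of a section over
the chart at infinity: the cokernel of `σ` is supported on the first chart. -/
theorem excision_of_surjModY (σ : Mor G' G) (h : σ.SurjModY) (z : G.M₀₁) :
    ∃ n : G.M₁, z - G.ρ₁ n ∈ LinearMap.range σ.f₀₁ := by
  obtain ⟨⟨n, ⟨_, j, rfl⟩⟩, hn⟩ := IsLocalizedModule.surj (Submonoid.powers (yB D B)) G.ρ₁ z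
  obtain ⟨m, n', rfl⟩ := surjModY_pow σ h j n
  refine ⟨n', ?_⟩
  have hu : IsUnit (algebraMap (D.A₁ B) (D.A₀₁ B) (yB D B ^ j)) := by
    rw [map_pow]
    exact (IsLocalization.Away.algebraMap_isUnit (yB D B)).pow j
  obtain ⟨u, hu⟩ := hu
  refine ⟨(↑u⁻¹ : D.A₀₁ B) • G'.ρ₁ m, ?_⟩
  rw [map_smul, σ.comm₁]
  have hn' : yB D B ^ j • z = G.ρ₁ (σ.f₁ m) + yB D B ^ j • G.ρ₁ n' := by
    rw [← map_smul, ← map_add]; exact hn
  have h2 : G.ρ₁ (σ.f₁ m) = (u : D.A₀₁ B) • (z - G.ρ₁ n') := by
    rw [hu, algebraMap_smul, smul_sub, hn']; abel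
  rw [h2, smul_smul, Units.inv_mul, one_smul]

/-- **Saturation.** If `σ : G' → G` is surjective modulo `y` on the chart at infinity, then a
section of `G` over the chart at infinity whose restriction to the overlap comes from `G'`
already comes from `G'` (no hypothesis on the base ring: `y` is onto on the finite module
`G.M₁ / σ.f₁ G'.M₁`, hence injective). -/
theorem saturated_of_surjModY (σ : Mor G' G) (h : σ.SurjModY) (n : G.M₁)
    (hn : G.ρ₁ n ∈ LinearMap.range σ.f₀₁) : n ∈ LinearMap.range σ.f₁ := by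
  obtain ⟨w, hw⟩ := hn
  obtain ⟨⟨m, ⟨_, j, rfl⟩⟩, hm⟩ := IsLocalizedModule.surj (Submonoid.powers (yB D B)) G'.ρ₁ w
  have hm' : yB D B ^ j • w = G'.ρ₁ m := hm
  have h1 : G.ρ₁ (yB D B ^ j • n) = G.ρ₁ (σ.f₁ m) := by
    rw [map_smul, ← hw, ← σ.comm₁, ← hm', ← algebraMap_smul (D.A₀₁ B) (yB D B ^ j) w, map_smul,
      algebraMap_smul]
  obtain ⟨⟨_, i, rfl⟩, hc⟩ := IsLocalizedModule.exists_of_eq (S := Submonoid.powers (yB D B)) h1
  have hc' : yB D B ^ (i + j) • n = σ.f₁ (yB D B ^ i • m) := by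
    rw [pow_add, mul_smul, map_smul]; exact hc
  -- multiplication by `y ^ (i + j)` on the cokernel
  let Q := G.M₁ ⧸ LinearMap.range σ.f₁
  let μ : Q →ₗ[D.A₁ B] Q := (yB D B ^ (i + j)) • (LinearMap.id : Q →ₗ[D.A₁ B] Q)
  have hμs : Function.Surjective μ := by
    intro q
    obtain ⟨n0, rfl⟩ := Submodule.Quotient.mk_surjective _ q
    obtain ⟨m0, n', rfl⟩ := surjModY_pow σ h (i + j) n0
    refine ⟨Submodule.Quotient.mk n', ?_⟩
    change yB D B ^ (i + j) • (Submodule.Quotient.mk n' : Q) = _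
    rw [← Submodule.Quotient.mk_smul, Submodule.Quotient.eq]
    exact ⟨-m0, by rw [map_neg]; abel⟩
  have hμi : Function.Injective μ := OrzechProperty.injective_of_surjective_endomorphism μ hμs
  have hz : μ (Submodule.Quotient.mk n) = 0 := by
    change yB D B ^ (i + j) • (Submodule.Quotient.mk n : Q) = 0
    rw [← Submodule.Quotient.mk_smul, Submodule.Quotient.mk_eq_zero, hc']
    exact ⟨_, rfl⟩
  have := hμi (hz.trans (map_zero μ).symm)
  exact (Submodule.Quotient.mk_eq_zero _).1 this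

/-- A morphism which is injective on the first chart is injective on the overlap (localization
is exact). -/
theorem injective_f₀₁_of_injective_f₀ (σ : Mor G' G) (h₀ : Function.Injective σ.f₀) :
    Function.Injective σ.f₀₁ := by
  rw [← LinearMap.ker_eq_bot, LinearMap.ker_eq_bot']
  intro w hw
  obtain ⟨⟨a, ⟨_, j, rfl⟩⟩, ha⟩ := IsLocalizedModule.surj (Submonoid.powers (xB D B)) G'.ρ₀ w
  have ha' : xB D B ^ j • w = G'.ρ₀ a := ha
  have hu : IsUnit (algebraMap (D.A₀ B) (D.A₀₁ B) (xB D B ^ j)) := by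
    rw [map_pow]
    exact (IsLocalization.Away.algebraMap_isUnit (xB D B)).pow j
  have h1 : G.ρ₀ (σ.f₀ a) = G.ρ₀ 0 := by
    rw [← σ.comm₀, ← ha', ← algebraMap_smul (D.A₀₁ B) (xB D B ^ j) w, map_smul, hw, smul_zero,
      map_zero]
  obtain ⟨⟨_, i, rfl⟩, hc⟩ := IsLocalizedModule.exists_of_eq (S := Submonoid.powers (xB D B)) h1
  have hc' : σ.f₀ (xB D B ^ i • a) = 0 := by
    rw [map_smul]; exact hc.trans (smul_zero _)
  have h2 : xB D B ^ i • a = 0 := h₀ (hc'.trans (map_zero _).symm)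
  have h3 : G'.ρ₀ a = 0 := by
    have hui : IsUnit (algebraMap (D.A₀ B) (D.A₀₁ B) (xB D B ^ i)) := by
      rw [map_pow]
      exact (IsLocalization.Away.algebraMap_isUnit (xB D B)).pow i
    have h4 : algebraMap (D.A₀ B) (D.A₀₁ B) (xB D B ^ i) • G'.ρ₀ a = 0 := by
      rw [algebraMap_smul, ← map_smul, h2, map_zero]
    exact (hui.smul_eq_zero).1 h4
  have h5 : algebraMap (D.A₀ B) (D.A₀₁ B) (xB D B ^ j) • w = 0 := by
    rw [algebraMap_smul, ha', h3]
  exact (hu.smul_eq_zero).1 h5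

/-- A morphism which is injective on the overlap is injective on the chart at infinity, as soon
as the source has no `y`-torsion there. -/
theorem injective_f₁_of_injective_f₀₁ (σ : Mor G' G) (h₀₁ : Function.Injective σ.f₀₁)
    (hρ : Function.Injective G'.ρ₁) : Function.Injective σ.f₁ := by
  intro a b hab
  apply hρ
  apply h₀₁
  rw [σ.comm₁, σ.comm₁, hab]

/-- A morphism maps `H⁰` to `H⁰`. -/
theorem mem_H0_of_mor (σ : Mor G' G) {q : G'.M₀ × G'.M₁} (hq : q ∈ G'.H0) :
    (σ.f₀ q.1, σ.f₁ q.2) ∈ G.H0 := by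
  rw [GlueDatum.mem_H0] at hq ⊢
  change G.ρ₀ (σ.f₀ q.1) = G.ρ₁ (σ.f₁ q.2)
  rw [← σ.comm₀, ← σ.comm₁, hq]

/-- **`H⁰` of a sub-bundle supported on the first chart.** For `σ : G' → G` injective on the
overlap and saturated on the chart at infinity, the global sections of `G'` are exactly the
global sections of `G` whose first-chart component lies in the image of `σ.f₀`
(for a divisor twist: the sections of `G` vanishing along the divisor). -/
theorem mem_H0_iff_of_mor (σ : Mor G' G) (h₀₁ : Function.Injective σ.f₀₁)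
    (hsat : ∀ n : G.M₁, G.ρ₁ n ∈ LinearMap.range σ.f₀₁ → n ∈ LinearMap.range σ.f₁)
    (p : G.M₀ × G.M₁) :
    (∃ q : G'.M₀ × G'.M₁, q ∈ G'.H0 ∧ σ.f₀ q.1 = p.1 ∧ σ.f₁ q.2 = p.2) ↔
      p ∈ G.H0 ∧ p.1 ∈ LinearMap.range σ.f₀ := by
  constructor
  · rintro ⟨q, hq, h1, h2⟩
    have := mem_H0_of_mor σ hq
    rw [h1, h2] at this
    exact ⟨this, ⟨q.1, h1⟩⟩
  · rintro ⟨hp, ⟨a, ha⟩⟩
    rw [GlueDatum.mem_H0] at hp
    have h1 : G.ρ₁ p.2 ∈ LinearMap.range σ.f₀₁ := ⟨G'.ρ₀ a, by rw [σ.comm₀, ha, hp]⟩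
    obtain ⟨b, hb⟩ := hsat _ h1
    refine ⟨(a, b), ?_, ha, hb⟩
    rw [GlueDatum.mem_H0]
    apply h₀₁
    rw [σ.comm₀, σ.comm₁, ha, hb, hp]

/-- **`H¹` of a sub-bundle supported on the first chart maps onto `H¹`.** Under excision every
class in `H¹(G)` comes from `G'`. -/
theorem exists_sub_mem_range_delta (σ : Mor G' G)
    (hex : ∀ z : G.M₀₁, ∃ n : G.M₁, z - G.ρ₁ n ∈ LinearMap.range σ.f₀₁) (z : G.M₀₁) :
    ∃ w : G'.M₀₁, z - σ.f₀₁ w ∈ LinearMap.range G.delta := by
  obtain ⟨n, w, hw⟩ := hex z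
  refine ⟨w, ⟨((0 : G.M₀), -n), ?_⟩⟩
  rw [GlueDatum.delta_apply, hw]
  simp

/-- Under excision, `H¹(G') = 0` implies `H¹(G) = 0`. -/
theorem delta_surjective_of_mor (σ : Mor G' G)
    (hex : ∀ z : G.M₀₁, ∃ n : G.M₁, z - G.ρ₁ n ∈ LinearMap.range σ.f₀₁)
    (h : Function.Surjective G'.delta) : Function.Surjective G.delta := by
  intro z
  obtain ⟨w, ⟨p, hp⟩⟩ := exists_sub_mem_range_delta σ hex z
  obtain ⟨q, rfl⟩ := h w
  refine ⟨p + (σ.f₀ q.1, σ.f₁ q.2), ?_⟩
  rw [map_add, hp, GlueDatum.delta_apply, GlueDatum.delta_apply]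
  change z - σ.f₀₁ (G'.ρ₀ q.1 - G'.ρ₁ q.2) + (G.ρ₀ (σ.f₀ q.1) - G.ρ₁ (σ.f₁ q.2)) = z
  rw [map_sub, σ.comm₀, σ.comm₁]
  abel

end Glue

/-! ## Part C: the Euler characteristic over a field -/

section Field

open Fermat.Agent.S25.helper1705 Fermat.Agent.S25.helper2945 Fermat.Agent.S25.helper8573

universe u

variable {k : Type u} [Field k] {D : CurveDatum k}
  {K : Type u} [Field K] [Algebra k K] {G' G : GlueDatum D K}

/-- **`χ` of a sub-bundle supported on the first chart** (explicit saturation / excision form).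
Let `σ : G' → G` be a morphism of two-chart line bundles over a field `K`, injective on the
three charts, saturated on the chart at infinity and satisfying excision, with image `N₀` on
the first chart. If `G` has finite-dimensional cohomology and `G.M₀ / N₀` is finite-dimensional
then `G'` has finite-dimensional cohomology and `χ(G') = χ(G) - dim_K (G.M₀ / N₀)`. -/
theorem chi_of_mor (σ : Mor G' G)
    (h₀ : Function.Injective σ.f₀) (h₁ : Function.Injective σ.f₁)
    (h₀₁ : Function.Injective σ.f₀₁)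
    (hsat : ∀ n : G.M₁, G.ρ₁ n ∈ LinearMap.range σ.f₀₁ → n ∈ LinearMap.range σ.f₁)
    (hex : ∀ z : G.M₀₁, ∃ n : G.M₁, z - G.ρ₁ n ∈ LinearMap.range σ.f₀₁)
    (N₀ : Submodule (D.A₀ K) G.M₀) (hN₀ : LinearMap.range σ.f₀ = N₀)
    [FiniteDimensional K G.H0] [FiniteDimensional K G.H1] [FiniteDimensional K (G.M₀ ⧸ N₀)] :
    FiniteDimensional K G'.H0 ∧ FiniteDimensional K G'.H1 ∧
      G'.chi = G.chi - (finrank K (G.M₀ ⧸ N₀) : ℤ) := by
  subst hN₀
  let ψ0 : G'.M₀ →ₗ[K] G.M₀ := σ.f₀.restrictScalars K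
  let ψ1 : G'.M₁ →ₗ[K] G.M₁ := σ.f₁.restrictScalars K
  let ψ01 : G'.M₀₁ →ₗ[K] G.M₀₁ := σ.f₀₁.restrictScalars K
  have hr : LinearMap.range ψ0 = (LinearMap.range σ.f₀).restrictScalars K := rfl
  let e : (G.M₀ ⧸ LinearMap.range ψ0) ≃ₗ[K] (G.M₀ ⧸ LinearMap.range σ.f₀) :=
    Submodule.Quotient.restrictScalarsEquiv K (LinearMap.range σ.f₀)
  have hfin : FiniteDimensional K (G.M₀ ⧸ LinearMap.range ψ0) := Module.Finite.equiv e.symm
  have hK : FiniteDimensional K (LinearMap.ker (cech G.ρ₀B G.ρ₁B)) :=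
    inferInstanceAs (FiniteDimensional K G.H0)
  have hC : FiniteDimensional K (G.M₀₁ ⧸ LinearMap.range (cech G.ρ₀B G.ρ₁B)) :=
    inferInstanceAs (FiniteDimensional K G.H1)
  obtain ⟨f1, f2, hidx⟩ := index_cech_of_hom_chart0 G'.ρ₀B G'.ρ₁B G.ρ₀B G.ρ₁B ψ0 ψ1 ψ01
    (fun m => σ.comm₀ m) (fun m => σ.comm₁ m) h₀ h₁ h₀₁
    (fun n hn => by
      obtain ⟨w, hw⟩ := hn
      obtain ⟨m, hm⟩ := hsat n ⟨w, hw⟩
      exact ⟨m, hm⟩)
    (fun z => by
      obtain ⟨n, w, hw⟩ := hex z
      exact ⟨n, w, hw⟩)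
  refine ⟨f1, f2, ?_⟩
  rw [chi_eq_index, chi_eq_index, ← e.finrank_eq]
  exact hidx

/-- **`χ` of a sub-bundle supported on the first chart** (`Mor.SurjModY` form). Let
`σ : G' → G` be a morphism of two-chart line bundles over a field `K`, injective on the first
chart and on the chart at infinity, and surjective modulo `y` on the chart at infinity (an
isomorphism along `V(y)`), with image `N₀` on the first chart. Then
`χ(G') = χ(G) - dim_K (G.M₀ / N₀)`, and `G'` has finite-dimensional cohomology if `G` has. -/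
theorem chi_of_mor_surjModY (σ : Mor G' G)
    (h₀ : Function.Injective σ.f₀) (h₁ : Function.Injective σ.f₁) (hY : σ.SurjModY)
    (N₀ : Submodule (D.A₀ K) G.M₀) (hN₀ : LinearMap.range σ.f₀ = N₀)
    [FiniteDimensional K G.H0] [FiniteDimensional K G.H1] [FiniteDimensional K (G.M₀ ⧸ N₀)] :
    FiniteDimensional K G'.H0 ∧ FiniteDimensional K G'.H1 ∧
      G'.chi = G.chi - (finrank K (G.M₀ ⧸ N₀) : ℤ) :=
  chi_of_mor σ h₀ h₁ (injective_f₀₁_of_injective_f₀ σ h₀)
    (saturated_of_surjModY σ hY) (excision_of_surjModY σ hY) N₀ hN₀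

/-- An invertible module `M` over a `K`-algebra `S` modulo an ideal `I` of finite codimension:
`M / I M` is finite-dimensional of the same dimension as `S / I`. -/
theorem finrank_quotient_smul_top (S : Type*) [CommRing S] [Algebra K S]
    (M : Type*) [AddCommGroup M] [Module S M] [Module K M] [IsScalarTower K S M]
    [Module.Invertible S M] (I : Ideal S) [Module.Finite K (S ⧸ I)] :
    Module.Finite K (M ⧸ (I • ⊤ : Submodule S M)) ∧
      finrank K (M ⧸ (I • ⊤ : Submodule S M)) = finrank K (S ⧸ I) := by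
  have hart : IsArtinianRing (S ⧸ I) := IsArtinianRing.of_finite K (S ⧸ I)
  have hfree : Module.Free (S ⧸ I) (TensorProduct S (S ⧸ I) M) := inferInstance
  obtain ⟨e₂⟩ := Module.Invertible.free_iff_linearEquiv.mp hfree
  have e₁ : (TensorProduct S (S ⧸ I) M) ≃ₗ[S] M ⧸ (I • ⊤ : Submodule S M) :=
    TensorProduct.quotTensorEquivQuotSMul M I
  let e : (M ⧸ (I • ⊤ : Submodule S M)) ≃ₗ[K] (S ⧸ I) :=
    (e₁.restrictScalars K).symm.trans (e₂.restrictScalars K)
  exact ⟨Module.Finite.equiv e.symm, e.finrank_eq⟩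

/-- **`χ` of a divisor twist supported on the first chart.** Let `σ : G' → G` be a morphism of
two-chart line bundles over a field `K`, injective on the first chart and on the chart at
infinity, surjective modulo `y` on the chart at infinity, whose image on the first chart is
`I • G.M₀` for an ideal `I` of `A₀ K = R₀ ⊗ K` of finite codimension. Then
`χ(G') = χ(G) - dim_K (A₀ K / I)`, and `G'` has finite-dimensional cohomology if `G` has.
(For `G' = G(-Z)` with the inclusion, `Z = V(I)` a finite subscheme of the first chart.) -/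
theorem chi_of_mor_ideal (σ : Mor G' G)
    (h₀ : Function.Injective σ.f₀) (h₁ : Function.Injective σ.f₁) (hY : σ.SurjModY)
    (I : Ideal (D.A₀ K)) (hI : LinearMap.range σ.f₀ = I • ⊤)
    [Module.Finite K (D.A₀ K ⧸ I)]
    [FiniteDimensional K G.H0] [FiniteDimensional K G.H1] :
    FiniteDimensional K G'.H0 ∧ FiniteDimensional K G'.H1 ∧
      G'.chi = G.chi - (finrank K (D.A₀ K ⧸ I) : ℤ) := by
  obtain ⟨hfin, hrk⟩ := finrank_quotient_smul_top (K := K) (D.A₀ K) G.M₀ I
  have := chi_of_mor_surjModY σ h₀ h₁ hY (I • ⊤) hI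
  rwa [hrk] at this

end Field

end Fermat.Agent.S25.helper4927
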