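/-
S25 (helper5597): divisor ideals are invertible, in the `CurveDatum` / `AlgDefs` vocabulary.

For `D : CurveDatum k` (`k` algebraically closed) and a `k`-algebra `B`:
an ideal `I` of `D.A₀ B` (or `D.A₁ B`) whose quotient is finitely generated projective over `B`
is an invertible module.  Also the `RingHom.ker` form for a surjection onto a `B`-algebra that is
finitely generated projective over `B` (e.g. the ideal of a `B`-point).
-/
import Fermat.Agent.S25.helper5597_DivisorIdeal
import Fermat.Agent.S25.helper2945_AlgDefs
import Fermat.Agent.S25.helper1351_DiagIdeal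
import Fermat.Agent.S25.helper1800_CurveDatumBasics
import Fermat.Agent.Lib.helper9007_TensorDomain

set_option autoImplicit false

namespace Fermat.Agent.S25.helper5597

open TensorProduct Fermat.Agent.S25.helper1705 Fermat.Agent.S25.helper2945

universe u

section Generic

variable {k R B A : Type*} [Field k] [CommRing R] [CommRing B] [CommRing A]
  [Algebra k R] [Algebra k B] [Algebra k A] [Algebra R A] [Algebra B A]
  [IsScalarTower k R A] [IsScalarTower k B A]

/-- Kernel form of `divisorIdeal_invertible`: the kernel of a surjective `B`-algebra map from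
the pushout `A` onto a `B`-algebra that is finitely generated projective as a `B`-module is an
invertible `A`-module. -/
theorem ker_invertible_of_surjective [IsDomain R] [Algebra.IsPushout k B R A]
    (hdiag : HasDiagBasis k R) (hR : ¬ Module.Finite k R) {O : Type*} [CommRing O] [Algebra B O]
    [Module.Finite B O] [Module.Projective B O] (q : A →ₐ[B] O) (hq : Function.Surjective q) :
    Module.Invertible A (RingHom.ker q) := by
  let e : (A ⧸ RingHom.ker q) ≃ₐ[B] O := Ideal.quotientKerAlgEquivOfSurjective hq
  have : Module.Finite B (A ⧸ RingHom.ker q) := Module.Finite.equiv e.symm.toLinearEquiv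
  have : Module.Projective B (A ⧸ RingHom.ker q) :=
    Module.Projective.of_equiv e.symm.toLinearEquiv
  exact divisorIdeal_invertible (k := k) (R := R) (B := B) hdiag hR (RingHom.ker q)

end Generic

section Datum

variable {k : Type u} [Field k] [IsAlgClosed k] (D : CurveDatum k)

/-- The diagonal ideal of the first chart ring has a dual basis. -/
theorem hasDiagBasis₀ : HasDiagBasis k D.R₀ := by
  have := helper1800.finiteType₀ D
  have := Fermat.Agent.Lib.helper9007.isDomain_tensorProduct k D.R₀ D.R₀
  have := helper1351.diag_invertible k D.R₀
  exact hasDiagBasis_of_projective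

/-- The diagonal ideal of the chart ring at infinity has a dual basis. -/
theorem hasDiagBasis₁ : HasDiagBasis k D.R₁ := by
  have := helper1800.finiteType₁ D
  have := Fermat.Agent.Lib.helper9007.isDomain_tensorProduct k D.R₁ D.R₁
  have := helper1351.diag_invertible k D.R₁
  exact hasDiagBasis_of_projective

/-- `R₀` is not finite over `k`. -/
theorem not_finite₀ : ¬ Module.Finite k D.R₀ := not_finite_of_invertible_kaehler k D.R₀

/-- `R₁` is not finite over `k`. -/
theorem not_finite₁ : ¬ Module.Finite k D.R₁ := not_finite_of_invertible_kaehler k D.R₁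

variable (B : Type u) [CommRing B] [Algebra k B]

/-- The diagonal ideal of `D.A₀ B` over `B` has a dual basis. -/
theorem hasDiagBasisA₀ : HasDiagBasis B (D.A₀ B) :=
  (hasDiagBasis₀ D).of_isPushout

/-- The diagonal ideal of `D.A₁ B` over `B` has a dual basis. -/
theorem hasDiagBasisA₁ : HasDiagBasis B (D.A₁ B) :=
  (hasDiagBasis₁ D).of_isPushout

variable {B}

/-- **Divisor ideals on the first chart are invertible.** -/
theorem ideal_invertible₀ (I : Ideal (D.A₀ B)) [Module.Finite B (D.A₀ B ⧸ I)]
    [Module.Projective B (D.A₀ B ⧸ I)] : Module.Invertible (D.A₀ B) I :=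
  divisorIdeal_invertible (k := k) (R := D.R₀) (B := B) (hasDiagBasis₀ D) (not_finite₀ D) I

/-- **Divisor ideals on the chart at infinity are invertible.** -/
theorem ideal_invertible₁ (I : Ideal (D.A₁ B)) [Module.Finite B (D.A₁ B ⧸ I)]
    [Module.Projective B (D.A₁ B ⧸ I)] : Module.Invertible (D.A₁ B) I :=
  divisorIdeal_invertible (k := k) (R := D.R₁) (B := B) (hasDiagBasis₁ D) (not_finite₁ D) I

/-- Kernel form on the first chart: the kernel of a surjection of `B`-algebras
`D.A₀ B → O` with `O` finitely generated projective over `B` is invertible. -/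
theorem ker_invertible₀ {O : Type*} [CommRing O] [Algebra B O] [Module.Finite B O]
    [Module.Projective B O] (q : D.A₀ B →ₐ[B] O) (hq : Function.Surjective q) :
    Module.Invertible (D.A₀ B) (RingHom.ker q) :=
  ker_invertible_of_surjective (k := k) (R := D.R₀) (hasDiagBasis₀ D) (not_finite₀ D) q hq

/-- Kernel form on the chart at infinity. -/
theorem ker_invertible₁ {O : Type*} [CommRing O] [Algebra B O] [Module.Finite B O]
    [Module.Projective B O] (q : D.A₁ B →ₐ[B] O) (hq : Function.Surjective q) :
    Module.Invertible (D.A₁ B) (RingHom.ker q) :=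
  ker_invertible_of_surjective (k := k) (R := D.R₁) (hasDiagBasis₁ D) (not_finite₁ D) q hq

/-- Any `D.A₀ B`-module that is finitely generated projective over `B` has projective
dimension at most one over `D.A₀ B`: kernels of surjections from finitely generated projective
modules are finitely generated projective. -/
theorem ker_finite_projective₀ {M : Type*} [AddCommGroup M] [Module B M] [Module (D.A₀ B) M]
    [IsScalarTower B (D.A₀ B) M] [Module.Finite B M] [Module.Projective B M]
    {P : Type*} [AddCommGroup P] [Module (D.A₀ B) P] [Module.Finite (D.A₀ B) P]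
    [Module.Projective (D.A₀ B) P] (f : P →ₗ[D.A₀ B] M) (hf : Function.Surjective f) :
    Module.Finite (D.A₀ B) (LinearMap.ker f) ∧ Module.Projective (D.A₀ B) (LinearMap.ker f) :=
  (hasDiagBasisA₀ D B).ker_finite_projective f hf

/-- The analogue of `ker_finite_projective₀` on the chart at infinity. -/
theorem ker_finite_projective₁ {M : Type*} [AddCommGroup M] [Module B M] [Module (D.A₁ B) M]
    [IsScalarTower B (D.A₁ B) M] [Module.Finite B M] [Module.Projective B M]
    {P : Type*} [AddCommGroup P] [Module (D.A₁ B) P] [Module.Finite (D.A₁ B) P]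
    [Module.Projective (D.A₁ B) P] (f : P →ₗ[D.A₁ B] M) (hf : Function.Surjective f) :
    Module.Finite (D.A₁ B) (LinearMap.ker f) ∧ Module.Projective (D.A₁ B) (LinearMap.ker f) :=
  (hasDiagBasisA₁ D B).ker_finite_projective f hf

end Datum

end Fermat.Agent.S25.helper5597
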