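import Fermat.Agent.S25.helper2945_AlgDefs

/-!
# S25, leaf LC-CONSTR: constructors into `helper2945.GlueDatum` (helper6121)

* `ofSubmodules G Λ₀ Λ₁ h` : the SUB-DATUM of `G` cut out by invertible submodules
  `Λ₀ ≤ G.M₀`, `Λ₁ ≤ G.M₁` having the same span in `G.M₀₁`;
* `twist G I₀ I₁ h` : `(I₀ • G.M₀, I₁ • G.M₁)` for invertible ideals with the same extension to
  the overlap ring;
* `ofIdeals I₀ I₁ h` : the sub-datum `(I₀, I₁)` of the trivial bundle.
-/

set_option autoImplicit false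

open TensorProduct

namespace Fermat.Agent.S25.helper6121

universe u

open Fermat.Agent.S25.helper1705 Fermat.Agent.S25.helper2945

noncomputable section

/-! ## General lemmas -/

section General

variable {R S M N : Type*} [CommRing R] [CommRing S] [AddCommGroup M] [AddCommGroup N]
  [Module R M] [Module R N] [Algebra R S] [Module S N] [IsScalarTower R S N]

/-- Restriction of an `R`-linear map `f : M → N` to a submodule `M'` of `M`, with values in an
`S`-submodule `N'` of `N`. -/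
def restrictLoc (f : M →ₗ[R] N) (M' : Submodule R M) (N' : Submodule S N)
    (hf : ∀ m ∈ M', f m ∈ N') : M' →ₗ[R] N' where
  toFun m := ⟨f m, hf m m.2⟩
  map_add' a b := Subtype.ext (by simp)
  map_smul' r a := Subtype.ext (by simp)

@[simp] theorem coe_restrictLoc (f : M →ₗ[R] N) (M' : Submodule R M) (N' : Submodule S N)
    (hf : ∀ m ∈ M', f m ∈ N') (m : M') : (restrictLoc f M' N' hf m : N) = f m := rfl

theorem map_mem_localized' (p : Submonoid R) [IsLocalization p S] (f : M →ₗ[R] N)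
    [IsLocalizedModule p f] (M' : Submodule R M) (m : M) (hm : m ∈ M') :
    f m ∈ M'.localized' S p f := ⟨m, hm, 1, by simp⟩

/-- The restriction of a localization map to a submodule, with values in the localized
submodule, is a localization map. -/
theorem isLocalizedModule_restrictLoc (p : Submonoid R) [IsLocalization p S] (f : M →ₗ[R] N)
    [IsLocalizedModule p f] (M' : Submodule R M) (N' : Submodule S N)
    (hN : N' = M'.localized' S p f) (hf : ∀ m ∈ M', f m ∈ N') :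
    IsLocalizedModule p (restrictLoc f M' N' hf) := by
  subst hN
  exact Submodule.isLocalizedModule S p f M'

end General

section LocMap

variable {R : Type*} [CommRing R]
  {M N M' N' : Type*} [AddCommGroup M] [AddCommGroup N] [AddCommGroup M'] [AddCommGroup N']
  [Module R M] [Module R N] [Module R M'] [Module R N']

/-- A map between localizations compatible with a map `j` between the modules is the
localization of `j`. -/
theorem eq_map_of_comm (p : Submonoid R) (f : M →ₗ[R] N) [IsLocalizedModule p f]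
    (f' : M' →ₗ[R] N') [IsLocalizedModule p f'] (j : M →ₗ[R] M') (g : N →ₗ[R] N')
    (hg : ∀ m, g (f m) = f' (j m)) : g = IsLocalizedModule.map p f f' j :=
  IsLocalizedModule.linearMap_ext p f f' (by ext m; simp [hg])

theorem injective_of_comm (p : Submonoid R) (f : M →ₗ[R] N) [IsLocalizedModule p f]
    (f' : M' →ₗ[R] N') [IsLocalizedModule p f'] (j : M →ₗ[R] M') (g : N →ₗ[R] N')
    (hg : ∀ m, g (f m) = f' (j m)) (hj : Function.Injective j) : Function.Injective g := by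
  rw [eq_map_of_comm p f f' j g hg]
  exact IsLocalizedModule.map_injective p f f' j hj

theorem surjective_of_comm (p : Submonoid R) (f : M →ₗ[R] N) [IsLocalizedModule p f]
    (f' : M' →ₗ[R] N') [IsLocalizedModule p f'] (j : M →ₗ[R] M') (g : N →ₗ[R] N')
    (hg : ∀ m, g (f m) = f' (j m)) (hj : Function.Surjective j) : Function.Surjective g := by
  rw [eq_map_of_comm p f f' j g hg]
  exact IsLocalizedModule.map_surjective p f f' j hj

theorem bijective_of_comm (p : Submonoid R) (f : M →ₗ[R] N) [IsLocalizedModule p f]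
    (f' : M' →ₗ[R] N') [IsLocalizedModule p f'] (j : M →ₗ[R] M') (g : N →ₗ[R] N')
    (hg : ∀ m, g (f m) = f' (j m)) (hj : Function.Bijective j) : Function.Bijective g :=
  ⟨injective_of_comm p f f' j g hg hj.1, surjective_of_comm p f f' j g hg hj.2⟩

end LocMap

section SpanRange

variable {R S M N : Type*} [CommRing R] [CommRing S] [AddCommGroup M] [AddCommGroup N]
  [Module R M] [Module R N] [Algebra R S] [Module S N] [IsScalarTower R S N]

/-- The image of a localization map spans the localized module. -/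
theorem span_range_eq_top (p : Submonoid R) [IsLocalization p S] (f : M →ₗ[R] N)
    [IsLocalizedModule p f] : Submodule.span S (Set.range f) = ⊤ := by
  have h := Submodule.localized'_eq_span S p f ⊤
  rw [Submodule.localized'_top] at h
  rw [h]
  simp

end SpanRange

section Misc

variable {R : Type*} [CommRing R] {M M' : Type*} [AddCommGroup M] [Module R M]
  [AddCommGroup M'] [Module R M']

/-- The range of an injective map from an invertible module is invertible. -/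
theorem invertible_range [Module.Invertible R M] (j : M →ₗ[R] M') (hj : Function.Injective j) :
    Module.Invertible R (LinearMap.range j) :=
  Module.Invertible.congr (LinearEquiv.ofInjective j hj)

/-- The top submodule of an invertible module is invertible. -/
instance invertible_top [Module.Invertible R M] : Module.Invertible R (⊤ : Submodule R M) :=
  Module.Invertible.congr (Submodule.topEquiv (R := R) (M := M)).symm

end Misc

section SmulTop

variable {R : Type*} [CommRing R] (I : Ideal R) (M : Type*) [AddCommGroup M] [Module R M]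

/-- The multiplication map `I ⊗ M → M`. -/
def idealTensorMap : I ⊗[R] M →ₗ[R] M :=
  (TensorProduct.lid R M).toLinearMap ∘ₗ I.subtype.rTensor M

@[simp] theorem idealTensorMap_tmul (i : I) (m : M) : idealTensorMap I M (i ⊗ₜ m) = (i : R) • m := by
  simp [idealTensorMap]

theorem range_idealTensorMap : LinearMap.range (idealTensorMap I M) = I • (⊤ : Submodule R M) := by
  apply le_antisymm
  · rintro _ ⟨t, rfl⟩
    induction t using TensorProduct.induction_on with
    | zero => simp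
    | tmul i m =>
      rw [idealTensorMap_tmul]
      exact Submodule.smul_mem_smul i.2 Submodule.mem_top
    | add a b ha hb => rw [map_add]; exact add_mem ha hb
  · rw [Submodule.smul_le]
    intro r hr n _
    exact ⟨(⟨r, hr⟩ : I) ⊗ₜ n, by simp⟩

theorem idealTensorMap_injective [Module.Flat R M] : Function.Injective (idealTensorMap I M) := by
  rw [idealTensorMap, LinearMap.coe_comp, LinearEquiv.coe_coe]
  exact (TensorProduct.lid R M).injective.comp
    (Module.Flat.rTensor_preserves_injective_linearMap _ Subtype.val_injective)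

/-- For `M` flat, `I ⊗ M ≃ I • M`. -/
def idealTensorEquiv [Module.Flat R M] : I ⊗[R] M ≃ₗ[R] ↥(I • (⊤ : Submodule R M)) :=
  (LinearEquiv.ofInjective (idealTensorMap I M) (idealTensorMap_injective I M)).trans
    (LinearEquiv.ofEq _ _ (range_idealTensorMap I M))

@[simp] theorem coe_idealTensorEquiv_tmul [Module.Flat R M] (i : I) (m : M) :
    (idealTensorEquiv I M (i ⊗ₜ m) : M) = (i : R) • m := by
  simp [idealTensorEquiv]

/-- `I • M` is invertible when `I` and `M` are. -/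
instance invertible_smul_top [Module.Invertible R I] [Module.Invertible R M] :
    Module.Invertible R ↥(I • (⊤ : Submodule R M)) :=
  Module.Invertible.congr (idealTensorEquiv I M)

end SmulTop

section LocIdeal

variable {R S : Type*} [CommRing R] [CommRing S] [Algebra R S]

/-- The localized submodule of an ideal is its extension. -/
theorem localized'_ideal (p : Submonoid R) [IsLocalization p S] (I : Ideal R) :
    Submodule.localized' S p (Algebra.linearMap R S) I = I.map (algebraMap R S) := by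
  rw [Submodule.localized'_eq_span]
  rfl

variable {M N : Type*} [AddCommGroup M] [AddCommGroup N]
  [Module R M] [Module R N] [Module S N] [IsScalarTower R S N]

/-- The localized submodule of `I • ⊤` is `(I S) • ⊤`. -/
theorem localized'_smul_top (p : Submonoid R) [IsLocalization p S] (f : M →ₗ[R] N)
    [IsLocalizedModule p f] (I : Ideal R) :
    Submodule.localized' S p f (I • (⊤ : Submodule R M)) =
      I.map (algebraMap R S) • (⊤ : Submodule S N) := by
  rw [Submodule.localized'_smul, Submodule.localized'_top, localized'_ideal]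

end LocIdeal

/-! ## Sub-data -/

namespace GlueDatum

variable {k : Type u} [Field k] {D : CurveDatum k} {B : Type u} [CommRing B] [Algebra k B]

/-- The `D.A₀₁ B`-span in `G.M₀₁` of a submodule of `G.M₀` (= its localization at `x`). -/
abbrev span₀ (G : GlueDatum D B) (Λ₀ : Submodule (D.A₀ B) G.M₀) : Submodule (D.A₀₁ B) G.M₀₁ :=
  Λ₀.localized' (D.A₀₁ B) (Submonoid.powers (xB D B)) G.ρ₀

/-- The `D.A₀₁ B`-span in `G.M₀₁` of a submodule of `G.M₁` (= its localization at `y`). -/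
abbrev span₁ (G : GlueDatum D B) (Λ₁ : Submodule (D.A₁ B) G.M₁) : Submodule (D.A₀₁ B) G.M₀₁ :=
  Λ₁.localized' (D.A₀₁ B) (Submonoid.powers (yB D B)) G.ρ₁

theorem span₀_eq_span (G : GlueDatum D B) (Λ₀ : Submodule (D.A₀ B) G.M₀) :
    span₀ G Λ₀ = Submodule.span (D.A₀₁ B) (G.ρ₀ '' Λ₀) :=
  Submodule.localized'_eq_span _ _ _ _

theorem span₁_eq_span (G : GlueDatum D B) (Λ₁ : Submodule (D.A₁ B) G.M₁) :
    span₁ G Λ₁ = Submodule.span (D.A₀₁ B) (G.ρ₁ '' Λ₁) :=
  Submodule.localized'_eq_span _ _ _ _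

theorem ρ₀_mem_span₀ (G : GlueDatum D B) (Λ₀ : Submodule (D.A₀ B) G.M₀) (m : G.M₀) (hm : m ∈ Λ₀) :
    G.ρ₀ m ∈ span₀ G Λ₀ := map_mem_localized' _ _ _ m hm

theorem ρ₁_mem_span₁ (G : GlueDatum D B) (Λ₁ : Submodule (D.A₁ B) G.M₁) (m : G.M₁) (hm : m ∈ Λ₁) :
    G.ρ₁ m ∈ span₁ G Λ₁ := map_mem_localized' _ _ _ m hm

/-- **Sub-datum.** Invertible submodules `Λ₀ ≤ G.M₀`, `Λ₁ ≤ G.M₁` with the same span in `G.M₀₁`
form a two-chart line bundle; its overlap module is that common span. -/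
noncomputable def ofSubmodules (G : GlueDatum D B) (Λ₀ : Submodule (D.A₀ B) G.M₀)
    (Λ₁ : Submodule (D.A₁ B) G.M₁) [Module.Invertible (D.A₀ B) Λ₀] [Module.Invertible (D.A₁ B) Λ₁]
    (h : span₀ G Λ₀ = span₁ G Λ₁) : GlueDatum D B where
  M₀ := Λ₀
  M₁ := Λ₁
  M₀₁ := span₀ G Λ₀
  ρ₀ := restrictLoc G.ρ₀ Λ₀ (span₀ G Λ₀) (ρ₀_mem_span₀ G Λ₀)
  ρ₁ := restrictLoc G.ρ₁ Λ₁ (span₀ G Λ₀) (fun m hm => h ▸ ρ₁_mem_span₁ G Λ₁ m hm)
  loc₀ := isLocalizedModule_restrictLoc _ G.ρ₀ Λ₀ _ rfl _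
  loc₁ := isLocalizedModule_restrictLoc _ G.ρ₁ Λ₁ _ h _

section API

variable (G : GlueDatum D B) (Λ₀ : Submodule (D.A₀ B) G.M₀) (Λ₁ : Submodule (D.A₁ B) G.M₁)
  [Module.Invertible (D.A₀ B) Λ₀] [Module.Invertible (D.A₁ B) Λ₁] (h : span₀ G Λ₀ = span₁ G Λ₁)

/-- Inclusion of the sub-datum, first chart. -/
def ofSubmodules.ι₀ : (ofSubmodules G Λ₀ Λ₁ h).M₀ →ₗ[D.A₀ B] G.M₀ := Λ₀.subtype

/-- Inclusion of the sub-datum, chart at infinity. -/
def ofSubmodules.ι₁ : (ofSubmodules G Λ₀ Λ₁ h).M₁ →ₗ[D.A₁ B] G.M₁ := Λ₁.subtype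

/-- Inclusion of the sub-datum, overlap. -/
def ofSubmodules.ι₀₁ : (ofSubmodules G Λ₀ Λ₁ h).M₀₁ →ₗ[D.A₀₁ B] G.M₀₁ := (span₀ G Λ₀).subtype

theorem ofSubmodules.ι₀_injective : Function.Injective (ofSubmodules.ι₀ G Λ₀ Λ₁ h) :=
  Subtype.val_injective

theorem ofSubmodules.ι₁_injective : Function.Injective (ofSubmodules.ι₁ G Λ₀ Λ₁ h) :=
  Subtype.val_injective

theorem ofSubmodules.ι₀₁_injective : Function.Injective (ofSubmodules.ι₀₁ G Λ₀ Λ₁ h) :=
  Subtype.val_injective

theorem ofSubmodules.range_ι₀ : LinearMap.range (ofSubmodules.ι₀ G Λ₀ Λ₁ h) = Λ₀ :=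
  Submodule.range_subtype _

theorem ofSubmodules.range_ι₁ : LinearMap.range (ofSubmodules.ι₁ G Λ₀ Λ₁ h) = Λ₁ :=
  Submodule.range_subtype _

theorem ofSubmodules.range_ι₀₁ : LinearMap.range (ofSubmodules.ι₀₁ G Λ₀ Λ₁ h) = span₀ G Λ₀ :=
  Submodule.range_subtype _

theorem ofSubmodules.range_ι₀₁' : LinearMap.range (ofSubmodules.ι₀₁ G Λ₀ Λ₁ h) = span₁ G Λ₁ :=
  (Submodule.range_subtype _).trans h

/-- The inclusions commute with the restriction maps (first chart). -/
theorem ofSubmodules.comm₀ (m : (ofSubmodules G Λ₀ Λ₁ h).M₀) :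
    ofSubmodules.ι₀₁ G Λ₀ Λ₁ h ((ofSubmodules G Λ₀ Λ₁ h).ρ₀ m) =
      G.ρ₀ (ofSubmodules.ι₀ G Λ₀ Λ₁ h m) := rfl

/-- The inclusions commute with the restriction maps (chart at infinity). -/
theorem ofSubmodules.comm₁ (m : (ofSubmodules G Λ₀ Λ₁ h).M₁) :
    ofSubmodules.ι₀₁ G Λ₀ Λ₁ h ((ofSubmodules G Λ₀ Λ₁ h).ρ₁ m) =
      G.ρ₁ (ofSubmodules.ι₁ G Λ₀ Λ₁ h m) := rfl

/-- The inclusions of the sub-datum into `G`, as underlying functions, are the coercions. -/
theorem ofSubmodules.ι₀_apply (m : Λ₀) : ofSubmodules.ι₀ G Λ₀ Λ₁ h m = (m : G.M₀) := rfl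

theorem ofSubmodules.ι₁_apply (m : Λ₁) : ofSubmodules.ι₁ G Λ₀ Λ₁ h m = (m : G.M₁) := rfl

theorem ofSubmodules.ι₀₁_apply (m : span₀ G Λ₀) : ofSubmodules.ι₀₁ G Λ₀ Λ₁ h m = (m : G.M₀₁) := rfl

end API

/-! ## Recognising sub-data -/

section Congr

variable (G : GlueDatum D B)

/-- The sub-datum only depends on the two submodules. -/
theorem ofSubmodules_equiv_of_eq (Λ₀ Λ₀' : Submodule (D.A₀ B) G.M₀)
    (Λ₁ Λ₁' : Submodule (D.A₁ B) G.M₁)
    [Module.Invertible (D.A₀ B) Λ₀] [Module.Invertible (D.A₁ B) Λ₁]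
    [Module.Invertible (D.A₀ B) Λ₀'] [Module.Invertible (D.A₁ B) Λ₁']
    (h : span₀ G Λ₀ = span₁ G Λ₁) (h' : span₀ G Λ₀' = span₁ G Λ₁') (e₀ : Λ₀ = Λ₀')
    (e₁ : Λ₁ = Λ₁') : (ofSubmodules G Λ₀ Λ₁ h).Equiv (ofSubmodules G Λ₀' Λ₁' h') := by
  subst e₀ e₁
  exact GlueDatum.Equiv.refl _

end Congr

section Range

variable {H G : GlueDatum D B} (j₀ : H.M₀ →ₗ[D.A₀ B] G.M₀) (j₁ : H.M₁ →ₗ[D.A₁ B] G.M₁)
  (j₀₁ : H.M₀₁ →ₗ[D.A₀₁ B] G.M₀₁)

theorem span₀_range (hc₀ : ∀ m, j₀₁ (H.ρ₀ m) = G.ρ₀ (j₀ m)) :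
    span₀ G (LinearMap.range j₀) = LinearMap.range j₀₁ := by
  rw [span₀_eq_span]
  have h1 : (G.ρ₀ '' (LinearMap.range j₀ : Set G.M₀)) = j₀₁ '' Set.range H.ρ₀ := by
    ext z
    constructor
    · rintro ⟨_, ⟨m, rfl⟩, rfl⟩
      exact ⟨_, ⟨m, rfl⟩, hc₀ m⟩
    · rintro ⟨_, ⟨m, rfl⟩, rfl⟩
      exact ⟨_, ⟨m, rfl⟩, (hc₀ m).symm⟩
  rw [h1, ← Submodule.map_span,
    span_range_eq_top (S := D.A₀₁ B) (Submonoid.powers (xB D B)) H.ρ₀, Submodule.map_top]

theorem span₁_range (hc₁ : ∀ m, j₀₁ (H.ρ₁ m) = G.ρ₁ (j₁ m)) :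
    span₁ G (LinearMap.range j₁) = LinearMap.range j₀₁ := by
  rw [span₁_eq_span]
  have h1 : (G.ρ₁ '' (LinearMap.range j₁ : Set G.M₁)) = j₀₁ '' Set.range H.ρ₁ := by
    ext z
    constructor
    · rintro ⟨_, ⟨m, rfl⟩, rfl⟩
      exact ⟨_, ⟨m, rfl⟩, hc₁ m⟩
    · rintro ⟨_, ⟨m, rfl⟩, rfl⟩
      exact ⟨_, ⟨m, rfl⟩, (hc₁ m).symm⟩
  rw [h1, ← Submodule.map_span,
    span_range_eq_top (S := D.A₀₁ B) (Submonoid.powers (yB D B)) H.ρ₁, Submodule.map_top]

/-- The images of a morphism of two-chart bundles have the same span in the overlap. -/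
theorem span₀_range_eq_span₁_range (hc₀ : ∀ m, j₀₁ (H.ρ₀ m) = G.ρ₀ (j₀ m))
    (hc₁ : ∀ m, j₀₁ (H.ρ₁ m) = G.ρ₁ (j₁ m)) :
    span₀ G (LinearMap.range j₀) = span₁ G (LinearMap.range j₁) :=
  (span₀_range j₀ j₀₁ hc₀).trans (span₁_range j₁ j₀₁ hc₁).symm

/-- The overlap component of a morphism of two-chart bundles is injective as soon as the
component on the first chart is. -/
theorem injective_overlap (hc₀ : ∀ m, j₀₁ (H.ρ₀ m) = G.ρ₀ (j₀ m))
    (hj₀ : Function.Injective j₀) : Function.Injective j₀₁ :=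
  injective_of_comm (Submonoid.powers (xB D B)) H.ρ₀ G.ρ₀ j₀ (j₀₁.restrictScalars (D.A₀ B)) hc₀ hj₀

/-- The overlap component of a morphism of two-chart bundles is bijective as soon as the
component on the first chart is. -/
theorem bijective_overlap (hc₀ : ∀ m, j₀₁ (H.ρ₀ m) = G.ρ₀ (j₀ m))
    (hj₀ : Function.Bijective j₀) : Function.Bijective j₀₁ :=
  bijective_of_comm (Submonoid.powers (xB D B)) H.ρ₀ G.ρ₀ j₀ (j₀₁.restrictScalars (D.A₀ B)) hc₀ hj₀

/-- **Isomorphisms from the two charts.** A morphism of two-chart bundles which is bijective on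
both charts is an isomorphism. -/
def isoOfBijective (hc₀ : ∀ m, j₀₁ (H.ρ₀ m) = G.ρ₀ (j₀ m))
    (hc₁ : ∀ m, j₀₁ (H.ρ₁ m) = G.ρ₁ (j₁ m)) (hj₀ : Function.Bijective j₀)
    (hj₁ : Function.Bijective j₁) : GlueDatum.Iso H G where
  e₀ := LinearEquiv.ofBijective j₀ hj₀
  e₁ := LinearEquiv.ofBijective j₁ hj₁
  e₀₁ := LinearEquiv.ofBijective j₀₁ (bijective_overlap j₀ j₀₁ hc₀ hj₀)
  comm₀ := hc₀
  comm₁ := hc₁

/-- **Image factorisation.** A morphism of two-chart bundles `H → G` which is injective on both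
charts identifies `H` with the sub-datum of `G` cut out by the two images. -/
theorem equiv_ofSubmodules_range (hc₀ : ∀ m, j₀₁ (H.ρ₀ m) = G.ρ₀ (j₀ m))
    (hc₁ : ∀ m, j₀₁ (H.ρ₁ m) = G.ρ₁ (j₁ m)) (hj₀ : Function.Injective j₀)
    (hj₁ : Function.Injective j₁)
    [Module.Invertible (D.A₀ B) (LinearMap.range j₀)]
    [Module.Invertible (D.A₁ B) (LinearMap.range j₁)]
    (h : span₀ G (LinearMap.range j₀) = span₁ G (LinearMap.range j₁)) :
    H.Equiv (ofSubmodules G (LinearMap.range j₀) (LinearMap.range j₁) h) := by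
  have hj₀₁ : Function.Injective j₀₁ := injective_overlap j₀ j₀₁ hc₀ hj₀
  exact ⟨{
    e₀ := LinearEquiv.ofInjective j₀ hj₀
    e₁ := LinearEquiv.ofInjective j₁ hj₁
    e₀₁ := (LinearEquiv.ofInjective j₀₁ hj₀₁).trans
      (LinearEquiv.ofEq _ _ (span₀_range j₀ j₀₁ hc₀).symm)
    comm₀ := fun m => Subtype.ext (hc₀ m)
    comm₁ := fun m => Subtype.ext (hc₁ m) }⟩

end Range

section Top

variable (G : GlueDatum D B)

/-- The sub-datum cut out by the two full modules is `G` itself. -/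
theorem equiv_ofSubmodules_top (h : span₀ G ⊤ = span₁ G ⊤) :
    G.Equiv (ofSubmodules G ⊤ ⊤ h) := by
  have hc₀ : ∀ m, (LinearMap.id : G.M₀₁ →ₗ[D.A₀₁ B] G.M₀₁) (G.ρ₀ m) =
      G.ρ₀ ((LinearMap.id : G.M₀ →ₗ[D.A₀ B] G.M₀) m) := fun _ => rfl
  have hc₁ : ∀ m, (LinearMap.id : G.M₀₁ →ₗ[D.A₀₁ B] G.M₀₁) (G.ρ₁ m) =
      G.ρ₁ ((LinearMap.id : G.M₁ →ₗ[D.A₁ B] G.M₁) m) := fun _ => rfl
  have := invertible_range (LinearMap.id : G.M₀ →ₗ[D.A₀ B] G.M₀) Function.injective_id
  have := invertible_range (LinearMap.id : G.M₁ →ₗ[D.A₁ B] G.M₁) Function.injective_id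
  refine (equiv_ofSubmodules_range LinearMap.id LinearMap.id LinearMap.id hc₀ hc₁
    Function.injective_id Function.injective_id
    (span₀_range_eq_span₁_range _ _ _ hc₀ hc₁)).trans ?_
  exact ofSubmodules_equiv_of_eq G _ _ _ _ _ _ LinearMap.range_id LinearMap.range_id

theorem span₀_top (G : GlueDatum D B) : span₀ G ⊤ = ⊤ := Submodule.localized'_top _ _ _
theorem span₁_top (G : GlueDatum D B) : span₁ G ⊤ = ⊤ := Submodule.localized'_top _ _ _

end Top

/-! ## Twists by invertible ideals -/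

section Twist

variable (G : GlueDatum D B) (I₀ : Ideal (D.A₀ B)) (I₁ : Ideal (D.A₁ B))

theorem span₀_smul_top :
    span₀ G (I₀ • ⊤) = I₀.map (algebraMap (D.A₀ B) (D.A₀₁ B)) • (⊤ : Submodule (D.A₀₁ B) G.M₀₁) :=
  localized'_smul_top _ _ _

theorem span₁_smul_top :
    span₁ G (I₁ • ⊤) = I₁.map (algebraMap (D.A₁ B) (D.A₀₁ B)) • (⊤ : Submodule (D.A₀₁ B) G.M₀₁) :=
  localized'_smul_top _ _ _

variable [Module.Invertible (D.A₀ B) I₀] [Module.Invertible (D.A₁ B) I₁]
  (h : I₀.map (algebraMap (D.A₀ B) (D.A₀₁ B)) = I₁.map (algebraMap (D.A₁ B) (D.A₀₁ B)))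

/-- **Twist.** For invertible ideals `I₀`, `I₁` of the two charts with the same extension to the
overlap, the datum `(I₀ • G.M₀, I₁ • G.M₁)`, i.e. `G(-D)` for the divisor `D = (V(I₀), V(I₁))`. -/
def twist : GlueDatum D B :=
  ofSubmodules G (I₀ • ⊤) (I₁ • ⊤) (by rw [span₀_smul_top, span₁_smul_top, h])

theorem twist_M₀ : (twist G I₀ I₁ h).M₀ = ↥(I₀ • (⊤ : Submodule (D.A₀ B) G.M₀)) := rfl
theorem twist_M₁ : (twist G I₀ I₁ h).M₁ = ↥(I₁ • (⊤ : Submodule (D.A₁ B) G.M₁)) := rfl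

end Twist

/-! ## Sub-data of the trivial bundle: ideals -/

section OfIdeals

variable (I₀ : Ideal (D.A₀ B)) (I₁ : Ideal (D.A₁ B))

theorem span₀_unit : span₀ (GlueDatum.unit D B) I₀ = I₀.map (algebraMap (D.A₀ B) (D.A₀₁ B)) :=
  localized'_ideal _ I₀

theorem span₁_unit : span₁ (GlueDatum.unit D B) I₁ = I₁.map (algebraMap (D.A₁ B) (D.A₀₁ B)) :=
  localized'_ideal _ I₁

variable [Module.Invertible (D.A₀ B) I₀] [Module.Invertible (D.A₁ B) I₁]
  (h : I₀.map (algebraMap (D.A₀ B) (D.A₀₁ B)) = I₁.map (algebraMap (D.A₁ B) (D.A₀₁ B)))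

/-- **Ideal datum.** Invertible ideals `I₀`, `I₁` of the two charts with the same extension to
the overlap ring, as a two-chart line bundle `𝒪(-D)` (sub-datum of the trivial bundle; the
modules are `I₀`, `I₁` and the extended ideal). -/
def ofIdeals : GlueDatum D B :=
  @ofSubmodules k _ D B _ _ (GlueDatum.unit D B) I₀ I₁ ‹Module.Invertible (D.A₀ B) I₀›
    ‹Module.Invertible (D.A₁ B) I₁› ((span₀_unit I₀).trans (h.trans (span₁_unit I₁).symm))

theorem ofIdeals_M₀ : (ofIdeals I₀ I₁ h).M₀ = I₀ := rfl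
theorem ofIdeals_M₁ : (ofIdeals I₀ I₁ h).M₁ = I₁ := rfl

/-- The twist of the trivial bundle is the ideal datum. -/
theorem twist_unit_equiv : (twist (GlueDatum.unit D B) I₀ I₁ h).Equiv (ofIdeals I₀ I₁ h) :=
  @ofSubmodules_equiv_of_eq k _ D B _ _ (GlueDatum.unit D B) _ I₀ _ I₁ _ _
    ‹Module.Invertible (D.A₀ B) I₀› ‹Module.Invertible (D.A₁ B) I₁› _ _
    (Ideal.mul_top I₀) (Ideal.mul_top I₁)

end OfIdeals

end GlueDatum

end

end Fermat.Agent.S25.helper6121
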