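import Mathlib
import Fermat.Agent.S25.helper2945_AlgDefs

/-!
# S25 / U18 (backup helper6871): ideals of points of the two charts

For a `k`-algebra `B` and a `B`-point `p : D.R₀ →ₐ[k] B` of the first chart, `pointIdeal₀ p` is the
kernel of the evaluation `D.A₀ B → B`, `r ⊗ b ↦ p r * b` (the ideal of the graph of `p`).
Same for the chart at infinity and for the overlap.

* description by generators, quotient `≃ B`;
* compatibility with base change `B → B'`;
* a point of the overlap has the same ideal pair when seen from chart `0` and from chart `1`.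
-/

set_option autoImplicit false

universe u

open TensorProduct

namespace Fermat.Agent.S25.helper6871

open Fermat.Agent.S25.helper1705 Fermat.Agent.S25.helper2945

section Generic

variable {k : Type u} [Field k] {R : Type u} [CommRing R] [Algebra k R]
  {B : Type u} [CommRing B] [Algebra k B]

/-- Evaluation at a `B`-point `p` of `Spec R`: `R ⊗[k] B → B`, `r ⊗ b ↦ p r * b`. -/
noncomputable def evPoint (p : R →ₐ[k] B) : R ⊗[k] B →ₐ[k] B :=
  Algebra.TensorProduct.lift p (AlgHom.id k B) (fun _ _ => Commute.all _ _)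

@[simp] theorem evPoint_tmul (p : R →ₐ[k] B) (r : R) (b : B) : evPoint p (r ⊗ₜ b) = p r * b := by
  simp [evPoint]

theorem evPoint_surjective (p : R →ₐ[k] B) : Function.Surjective (evPoint p) := fun b =>
  ⟨1 ⊗ₜ b, by simp⟩

/-- The ideal of the graph of a `B`-point `p` of `Spec R`. -/
noncomputable def graphIdeal (p : R →ₐ[k] B) : Ideal (R ⊗[k] B) := RingHom.ker (evPoint p)

theorem mem_graphIdeal (p : R →ₐ[k] B) (z : R ⊗[k] B) : z ∈ graphIdeal p ↔ evPoint p z = 0 :=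
  Iff.rfl

theorem tmul_sub_mem_graphIdeal (p : R →ₐ[k] B) (r : R) :
    r ⊗ₜ[k] (1 : B) - 1 ⊗ₜ[k] p r ∈ graphIdeal p := by
  rw [mem_graphIdeal, map_sub, evPoint_tmul, evPoint_tmul]
  simp

/-- Every element is congruent modulo the generators to `1 ⊗ (its value)`. -/
theorem sub_mem_span (p : R →ₐ[k] B) (z : R ⊗[k] B) :
    z - 1 ⊗ₜ[k] evPoint p z ∈
      Ideal.span (Set.range fun r : R => r ⊗ₜ[k] (1 : B) - 1 ⊗ₜ[k] p r) := by
  induction z using TensorProduct.induction_on with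
  | zero => simp
  | tmul r b =>
    have h : r ⊗ₜ[k] b - 1 ⊗ₜ[k] evPoint p (r ⊗ₜ b) =
        (1 ⊗ₜ[k] b) * (r ⊗ₜ[k] (1 : B) - 1 ⊗ₜ[k] p r) := by
      rw [evPoint_tmul, mul_sub, Algebra.TensorProduct.tmul_mul_tmul,
        Algebra.TensorProduct.tmul_mul_tmul]
      simp [mul_comm]
    rw [h]
    exact Ideal.mul_mem_left _ _ (Ideal.subset_span ⟨r, rfl⟩)
  | add a b ha hb =>
    have h : a + b - 1 ⊗ₜ[k] evPoint p (a + b) =
        (a - 1 ⊗ₜ[k] evPoint p a) + (b - 1 ⊗ₜ[k] evPoint p b) := by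
      rw [map_add, TensorProduct.tmul_add]
      ring
    rw [h]
    exact Ideal.add_mem _ ha hb

/-- Generators of the graph ideal. -/
theorem graphIdeal_eq_span (p : R →ₐ[k] B) :
    graphIdeal p = Ideal.span (Set.range fun r : R => r ⊗ₜ[k] (1 : B) - 1 ⊗ₜ[k] p r) := by
  apply le_antisymm
  · intro z hz
    have h := sub_mem_span p z
    rw [(mem_graphIdeal p z).mp hz, TensorProduct.tmul_zero, sub_zero] at h
    exact h
  · rw [Ideal.span_le]
    rintro _ ⟨r, rfl⟩
    exact tmul_sub_mem_graphIdeal p r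

/-- Base change of the graph ideal along `φ : B → B'`. -/
theorem graphIdeal_map {B' : Type u} [CommRing B'] [Algebra k B'] (p : R →ₐ[k] B)
    (φ : B →ₐ[k] B') :
    (graphIdeal p).map (Algebra.TensorProduct.map (AlgHom.id k R) φ) =
      graphIdeal (φ.comp p) := by
  rw [graphIdeal_eq_span, graphIdeal_eq_span, Ideal.map_span]
  congr 1
  ext z
  constructor
  · rintro ⟨_, ⟨r, rfl⟩, rfl⟩
    exact ⟨r, by simp⟩
  · rintro ⟨r, rfl⟩
    exact ⟨_, ⟨r, rfl⟩, by simp⟩

end Generic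

/-! ## Points of the charts of a curve datum -/

section Curve

variable {k : Type u} [Field k] (D : CurveDatum k) {B : Type u} [CommRing B] [Algebra k B]

/-- The ideal of a `B`-point of the first chart. -/
noncomputable abbrev pointIdeal₀ (p : D.R₀ →ₐ[k] B) : Ideal (D.A₀ B) := graphIdeal p

/-- The ideal of a `B`-point of the chart at infinity. -/
noncomputable abbrev pointIdeal₁ (q : D.R₁ →ₐ[k] B) : Ideal (D.A₁ B) := graphIdeal q

/-- The ideal of a `B`-point of the overlap. -/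
noncomputable abbrev pointIdeal₀₁ (r : D.R₀₁ →ₐ[k] B) : Ideal (D.A₀₁ B) := graphIdeal r

theorem evPoint_res₀ (r : D.R₀₁ →ₐ[k] B) (a : D.A₀ B) :
    evPoint r (algebraMap (D.A₀ B) (D.A₀₁ B) a) =
      evPoint (r.comp (IsScalarTower.toAlgHom k D.R₀ D.R₀₁)) a := by
  induction a using TensorProduct.induction_on with
  | zero => simp
  | tmul s b => simp
  | add a b ha hb => simp [ha, hb]

theorem evPoint_res₁ (r : D.R₀₁ →ₐ[k] B) (a : D.A₁ B) :
    evPoint r (algebraMap (D.A₁ B) (D.A₀₁ B) a) =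
      evPoint (r.comp (IsScalarTower.toAlgHom k D.R₁ D.R₀₁)) a := by
  induction a using TensorProduct.induction_on with
  | zero => simp
  | tmul s b => simp
  | add a b ha hb => simp [ha, hb]

/-- The trace on chart `0` of the ideal of a point of the overlap. -/
theorem pointIdeal₀₁_comap₀ (r : D.R₀₁ →ₐ[k] B) :
    (pointIdeal₀₁ D r).comap (algebraMap (D.A₀ B) (D.A₀₁ B)) =
      pointIdeal₀ D (r.comp (IsScalarTower.toAlgHom k D.R₀ D.R₀₁)) := by
  ext a
  rw [Ideal.mem_comap, mem_graphIdeal, mem_graphIdeal, evPoint_res₀]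

/-- The trace on chart `1` of the ideal of a point of the overlap. -/
theorem pointIdeal₀₁_comap₁ (r : D.R₀₁ →ₐ[k] B) :
    (pointIdeal₀₁ D r).comap (algebraMap (D.A₁ B) (D.A₀₁ B)) =
      pointIdeal₁ D (r.comp (IsScalarTower.toAlgHom k D.R₁ D.R₀₁)) := by
  ext a
  rw [Ideal.mem_comap, mem_graphIdeal, mem_graphIdeal, evPoint_res₁]

/-- The ideal of a point of the overlap is the extension of its chart-`0` ideal. -/
theorem pointIdeal₀_map (r : D.R₀₁ →ₐ[k] B) :
    (pointIdeal₀ D (r.comp (IsScalarTower.toAlgHom k D.R₀ D.R₀₁))).map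
      (algebraMap (D.A₀ B) (D.A₀₁ B)) = pointIdeal₀₁ D r := by
  apply le_antisymm
  · rw [Ideal.map_le_iff_le_comap, pointIdeal₀₁_comap₀]
  · intro z hz
    obtain ⟨n, a, ha⟩ := IsLocalization.Away.surj (xB D B) z
    have hu : IsUnit (algebraMap (D.A₀ B) (D.A₀₁ B) (xB D B) ^ n) :=
      (IsLocalization.Away.algebraMap_isUnit (xB D B)).pow n
    have ha0 : a ∈ pointIdeal₀ D (r.comp (IsScalarTower.toAlgHom k D.R₀ D.R₀₁)) := by
      rw [mem_graphIdeal, ← evPoint_res₀, ← ha, map_mul, (mem_graphIdeal r z).mp hz, zero_mul]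
    have hmem : z * algebraMap (D.A₀ B) (D.A₀₁ B) (xB D B) ^ n ∈
        (pointIdeal₀ D (r.comp (IsScalarTower.toAlgHom k D.R₀ D.R₀₁))).map
          (algebraMap (D.A₀ B) (D.A₀₁ B)) := by
      rw [ha]
      exact Ideal.mem_map_of_mem _ ha0
    obtain ⟨v, hv⟩ := hu
    have : z = (z * algebraMap (D.A₀ B) (D.A₀₁ B) (xB D B) ^ n) * (↑v⁻¹ : D.A₀₁ B) := by
      rw [← hv, mul_assoc, Units.mul_inv, mul_one]
    rw [this]
    exact Ideal.mul_mem_right _ _ hmem

/-- The ideal of a point of the overlap is the extension of its chart-`1` ideal. -/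
theorem pointIdeal₁_map (r : D.R₀₁ →ₐ[k] B) :
    (pointIdeal₁ D (r.comp (IsScalarTower.toAlgHom k D.R₁ D.R₀₁))).map
      (algebraMap (D.A₁ B) (D.A₀₁ B)) = pointIdeal₀₁ D r := by
  apply le_antisymm
  · rw [Ideal.map_le_iff_le_comap, pointIdeal₀₁_comap₁]
  · intro z hz
    obtain ⟨n, a, ha⟩ := IsLocalization.Away.surj (yB D B) z
    have hu : IsUnit (algebraMap (D.A₁ B) (D.A₀₁ B) (yB D B) ^ n) :=
      (IsLocalization.Away.algebraMap_isUnit (yB D B)).pow n
    have ha0 : a ∈ pointIdeal₁ D (r.comp (IsScalarTower.toAlgHom k D.R₁ D.R₀₁)) := by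
      rw [mem_graphIdeal, ← evPoint_res₁, ← ha, map_mul, (mem_graphIdeal r z).mp hz, zero_mul]
    have hmem : z * algebraMap (D.A₁ B) (D.A₀₁ B) (yB D B) ^ n ∈
        (pointIdeal₁ D (r.comp (IsScalarTower.toAlgHom k D.R₁ D.R₀₁))).map
          (algebraMap (D.A₁ B) (D.A₀₁ B)) := by
      rw [ha]
      exact Ideal.mem_map_of_mem _ ha0
    obtain ⟨v, hv⟩ := hu
    have : z = (z * algebraMap (D.A₁ B) (D.A₀₁ B) (yB D B) ^ n) * (↑v⁻¹ : D.A₀₁ B) := by
      rw [← hv, mul_assoc, Units.mul_inv, mul_one]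
    rw [this]
    exact Ideal.mul_mem_right _ _ hmem

/-- SAME POINT, seen from chart `0`: the chart-`1` member of the ideal pair of a point of the
overlap (contraction of the extension of its chart-`0` ideal) is its chart-`1` ideal. -/
theorem pointIdeal₀_map_comap₁ (r : D.R₀₁ →ₐ[k] B) :
    ((pointIdeal₀ D (r.comp (IsScalarTower.toAlgHom k D.R₀ D.R₀₁))).map
      (algebraMap (D.A₀ B) (D.A₀₁ B))).comap (algebraMap (D.A₁ B) (D.A₀₁ B)) =
      pointIdeal₁ D (r.comp (IsScalarTower.toAlgHom k D.R₁ D.R₀₁)) := by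
  rw [pointIdeal₀_map, pointIdeal₀₁_comap₁]

/-- SAME POINT, seen from chart `1`. -/
theorem pointIdeal₁_map_comap₀ (r : D.R₀₁ →ₐ[k] B) :
    ((pointIdeal₁ D (r.comp (IsScalarTower.toAlgHom k D.R₁ D.R₀₁))).map
      (algebraMap (D.A₁ B) (D.A₀₁ B))).comap (algebraMap (D.A₀ B) (D.A₀₁ B)) =
      pointIdeal₀ D (r.comp (IsScalarTower.toAlgHom k D.R₀ D.R₀₁)) := by
  rw [pointIdeal₁_map, pointIdeal₀₁_comap₀]

/-- Both charts give the same extension to the overlap. -/
theorem pointIdeal_map_eq (r : D.R₀₁ →ₐ[k] B) :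
    (pointIdeal₀ D (r.comp (IsScalarTower.toAlgHom k D.R₀ D.R₀₁))).map
      (algebraMap (D.A₀ B) (D.A₀₁ B)) =
    (pointIdeal₁ D (r.comp (IsScalarTower.toAlgHom k D.R₁ D.R₀₁))).map
      (algebraMap (D.A₁ B) (D.A₀₁ B)) := by
  rw [pointIdeal₀_map, pointIdeal₁_map]

/-- Base change of the ideal of a point of chart `0`. -/
theorem pointIdeal₀_baseChange {B' : Type u} [CommRing B'] [Algebra k B'] (p : D.R₀ →ₐ[k] B)
    (φ : B →ₐ[k] B') : (pointIdeal₀ D p).map (D.map₀ φ) = pointIdeal₀ D (φ.comp p) :=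
  graphIdeal_map p φ

/-- Base change of the ideal of a point of chart `1`. -/
theorem pointIdeal₁_baseChange {B' : Type u} [CommRing B'] [Algebra k B'] (q : D.R₁ →ₐ[k] B)
    (φ : B →ₐ[k] B') : (pointIdeal₁ D q).map (D.map₁ φ) = pointIdeal₁ D (φ.comp q) :=
  graphIdeal_map q φ

/-- Base change of the ideal of a point of the overlap. -/
theorem pointIdeal₀₁_baseChange {B' : Type u} [CommRing B'] [Algebra k B'] (r : D.R₀₁ →ₐ[k] B)
    (φ : B →ₐ[k] B') : (pointIdeal₀₁ D r).map (D.map₀₁ φ) = pointIdeal₀₁ D (φ.comp r) :=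
  graphIdeal_map r φ

/-! ### The quotient by the ideal of a point is `B` -/

/-- Evaluation at a point of chart `0`, as a `B`-algebra map. -/
noncomputable def evB₀ (p : D.R₀ →ₐ[k] B) : D.A₀ B →ₐ[B] B :=
  { (evPoint p : D.A₀ B →+* B) with
    commutes' := fun b => by
      change evPoint p (algebraMap B (D.A₀ B) b) = b
      rw [algebraMap_B_A₀, evPoint_tmul, map_one, one_mul] }

/-- Evaluation at a point of chart `1`, as a `B`-algebra map. -/
noncomputable def evB₁ (q : D.R₁ →ₐ[k] B) : D.A₁ B →ₐ[B] B :=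
  { (evPoint q : D.A₁ B →+* B) with
    commutes' := fun b => by
      change evPoint q (algebraMap B (D.A₁ B) b) = b
      rw [algebraMap_B_A₁, evPoint_tmul, map_one, one_mul] }

@[simp] theorem evB₀_apply (p : D.R₀ →ₐ[k] B) (z : D.A₀ B) : evB₀ D p z = evPoint p z := rfl
@[simp] theorem evB₁_apply (q : D.R₁ →ₐ[k] B) (z : D.A₁ B) : evB₁ D q z = evPoint q z := rfl

theorem ker_evB₀ (p : D.R₀ →ₐ[k] B) : RingHom.ker (evB₀ D p) = pointIdeal₀ D p := rfl
theorem ker_evB₁ (q : D.R₁ →ₐ[k] B) : RingHom.ker (evB₁ D q) = pointIdeal₁ D q := rfl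

/-- `(R₀ ⊗ B) ⧸ (ideal of a point) ≃ B` as `B`-algebras. -/
noncomputable def quotEquiv₀ (p : D.R₀ →ₐ[k] B) : (D.A₀ B ⧸ pointIdeal₀ D p) ≃ₐ[B] B :=
  Ideal.quotientKerAlgEquivOfSurjective (f := evB₀ D p) (evPoint_surjective p)

/-- `(R₁ ⊗ B) ⧸ (ideal of a point) ≃ B` as `B`-algebras. -/
noncomputable def quotEquiv₁ (q : D.R₁ →ₐ[k] B) : (D.A₁ B ⧸ pointIdeal₁ D q) ≃ₐ[B] B :=
  Ideal.quotientKerAlgEquivOfSurjective (f := evB₁ D q) (evPoint_surjective q)

instance finite_quot₀ (p : D.R₀ →ₐ[k] B) : Module.Finite B (D.A₀ B ⧸ pointIdeal₀ D p) :=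
  Module.Finite.equiv (quotEquiv₀ D p).symm.toLinearEquiv

instance finite_quot₁ (q : D.R₁ →ₐ[k] B) : Module.Finite B (D.A₁ B ⧸ pointIdeal₁ D q) :=
  Module.Finite.equiv (quotEquiv₁ D q).symm.toLinearEquiv

instance free_quot₀ (p : D.R₀ →ₐ[k] B) : Module.Free B (D.A₀ B ⧸ pointIdeal₀ D p) :=
  Module.Free.of_equiv (quotEquiv₀ D p).symm.toLinearEquiv

instance free_quot₁ (q : D.R₁ →ₐ[k] B) : Module.Free B (D.A₁ B ⧸ pointIdeal₁ D q) :=
  Module.Free.of_equiv (quotEquiv₁ D q).symm.toLinearEquiv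

end Curve

end Fermat.Agent.S25.helper6871
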