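import Fermat.Agent.S25.helper2945_AlgDefs

/-!
# S25, LC-REC / LC-API (helper9941): the universal property of `GlueDatum.baseChange`

`GlueDatum.baseChange G φ` is characterised up to `GlueDatum.Iso` by semilinear maps
`β₀, β₁, β₀₁` from the three modules of `G` to those of a datum `H` over `B'` which commute with
the restriction maps and whose images span `H.M₀`, `H.M₁`.  From this criterion:
`Iso.baseChange`, `Equiv.baseChange`, `baseChange_id`, `baseChange_comp`, `unit_baseChange`.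
-/

set_option autoImplicit false

open TensorProduct

namespace Fermat.Agent.S25.helper9941

open Fermat.Agent.S25.helper1705 Fermat.Agent.S25.helper2945

universe u

variable {k : Type u} [Field k] {D : CurveDatum k} {B B' : Type u} [CommRing B] [Algebra k B]
  [CommRing B'] [Algebra k B']

/-- The canonical linear map out of a base change along a ring hom, from a semilinear map. -/
noncomputable def liftSemilinear {A A' : Type*} [CommRing A] [CommRing A'] (σ : A →+* A')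
    {M N : Type*} [AddCommGroup M] [Module A M] [AddCommGroup N] [Module A' N]
    (β : M →+ N) (hβ : ∀ (a : A) (m : M), β (a • m) = σ a • β m) :
    letI := σ.toAlgebra
    A' ⊗[A] M →ₗ[A'] N :=
  letI := σ.toAlgebra
  letI : Module A N := Module.compHom N σ
  haveI : IsScalarTower A A' N := ⟨fun a b n => by
    change (σ a * b) • n = σ a • (b • n)
    rw [mul_smul]⟩
  LinearMap.liftBaseChange A' ({ toFun := β, map_add' := β.map_add, map_smul' := hβ } : M →ₗ[A] N)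

theorem liftSemilinear_tmul {A A' : Type*} [CommRing A] [CommRing A'] (σ : A →+* A')
    {M N : Type*} [AddCommGroup M] [Module A M] [AddCommGroup N] [Module A' N]
    (β : M →+ N) (hβ : ∀ (a : A) (m : M), β (a • m) = σ a • β m) (b : A') (m : M) :
    letI := σ.toAlgebra
    liftSemilinear σ β hβ (b ⊗ₜ[A] m) = b • β m := rfl

theorem liftSemilinear_surjective {A A' : Type*} [CommRing A] [CommRing A'] (σ : A →+* A')
    {M N : Type*} [AddCommGroup M] [Module A M] [AddCommGroup N] [Module A' N]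
    (β : M →+ N) (hβ : ∀ (a : A) (m : M), β (a • m) = σ a • β m)
    (hspan : Submodule.span A' (Set.range β) = ⊤) :
    Function.Surjective (liftSemilinear σ β hβ) := by
  letI := σ.toAlgebra
  rw [← LinearMap.range_eq_top, eq_top_iff, ← hspan, Submodule.span_le]
  rintro _ ⟨m, rfl⟩
  exact ⟨(1 : A') ⊗ₜ[A] m, by rw [liftSemilinear_tmul, one_smul]⟩

/-- Two ways around a base-changed square agree as soon as they agree on pure tensors. -/
theorem sqBaseChange_comm_aux {R S R' S' : Type*} [CommRing R] [CommRing S] [CommRing R']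
    [CommRing S'] [Algebra R S] [Algebra R R'] [Algebra R' S'] [Algebra S S'] [Algebra R S']
    [IsScalarTower R S S'] [IsScalarTower R R' S']
    {M N : Type*} [AddCommGroup M] [AddCommGroup N] [Module R M] [Module S N] [Module R N]
    [IsScalarTower R S N] (f : M →ₗ[R] N)
    {P Q : Type*} [AddCommGroup P] [AddCommGroup Q] [Module R' P] [Module S' Q] [Module R' Q]
    (g : P →ₗ[R'] Q) (lM : R' ⊗[R] M →ₗ[R'] P) (lN : S' ⊗[S] N →ₗ[S'] Q)
    (h : ∀ (r : R') (m : M), lN (algebraMap R' S' r ⊗ₜ[S] f m) = g (lM (r ⊗ₜ[R] m)))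
    (z : R' ⊗[R] M) : lN (sqBaseChange (S := S) (S' := S') f z) = g (lM z) := by
  induction z using TensorProduct.induction_on with
  | zero => simp
  | tmul r m => rw [sqBaseChange_tmul, h]
  | add v w hv hw => rw [map_add, map_add, hv, hw, map_add, map_add]

/-! ## The universal property of `GlueDatum.baseChange` -/

section Criterion

variable (G : GlueDatum D B) (φ : B →ₐ[k] B') (H : GlueDatum D B')

/-- Compatible semilinear maps from the modules of `G` to those of `H`. -/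
structure SemiMap where
  /-- on the first chart -/
  β₀ : G.M₀ →+ H.M₀
  /-- on the chart at infinity -/
  β₁ : G.M₁ →+ H.M₁
  /-- on the overlap -/
  β₀₁ : G.M₀₁ →+ H.M₀₁
  smul₀ : ∀ (a : D.A₀ B) (m : G.M₀), β₀ (a • m) = D.map₀ φ a • β₀ m
  smul₁ : ∀ (a : D.A₁ B) (m : G.M₁), β₁ (a • m) = D.map₁ φ a • β₁ m
  smul₀₁ : ∀ (a : D.A₀₁ B) (m : G.M₀₁), β₀₁ (a • m) = D.map₀₁ φ a • β₀₁ m
  comm₀ : ∀ m : G.M₀, H.ρ₀ (β₀ m) = β₀₁ (G.ρ₀ m)
  comm₁ : ∀ m : G.M₁, H.ρ₁ (β₁ m) = β₀₁ (G.ρ₁ m)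

variable {G φ H}

/-- The `D.A₀ B'`-linear map `(G.baseChange φ).M₀ → H.M₀` induced by a `SemiMap`. -/
noncomputable def SemiMap.lift₀ (β : SemiMap G φ H) : (G.baseChange φ).M₀ →ₗ[D.A₀ B'] H.M₀ :=
  liftSemilinear (D.map₀ φ).toRingHom β.β₀ β.smul₀

/-- The `D.A₁ B'`-linear map `(G.baseChange φ).M₁ → H.M₁` induced by a `SemiMap`. -/
noncomputable def SemiMap.lift₁ (β : SemiMap G φ H) : (G.baseChange φ).M₁ →ₗ[D.A₁ B'] H.M₁ :=
  liftSemilinear (D.map₁ φ).toRingHom β.β₁ β.smul₁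

/-- The `D.A₀₁ B'`-linear map `(G.baseChange φ).M₀₁ → H.M₀₁` induced by a `SemiMap`. -/
noncomputable def SemiMap.lift₀₁ (β : SemiMap G φ H) :
    (G.baseChange φ).M₀₁ →ₗ[D.A₀₁ B'] H.M₀₁ :=
  liftSemilinear (D.map₀₁ φ).toRingHom β.β₀₁ β.smul₀₁

theorem SemiMap.lift₀_tmul (β : SemiMap G φ H) (b : D.A₀ B') (m : G.M₀) :
    letI := algA₀ D φ
    β.lift₀ (b ⊗ₜ[D.A₀ B] m) = b • β.β₀ m := rfl

theorem SemiMap.lift₁_tmul (β : SemiMap G φ H) (b : D.A₁ B') (m : G.M₁) :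
    letI := algA₁ D φ
    β.lift₁ (b ⊗ₜ[D.A₁ B] m) = b • β.β₁ m := rfl

theorem SemiMap.lift₀₁_tmul (β : SemiMap G φ H) (b : D.A₀₁ B') (m : G.M₀₁) :
    letI := algA₀₁ D φ
    β.lift₀₁ (b ⊗ₜ[D.A₀₁ B] m) = b • β.β₀₁ m := rfl

theorem SemiMap.lift₀_surjective (β : SemiMap G φ H)
    (h₀ : Submodule.span (D.A₀ B') (Set.range β.β₀) = ⊤) : Function.Surjective β.lift₀ :=
  liftSemilinear_surjective (D.map₀ φ).toRingHom β.β₀ β.smul₀ h₀

theorem SemiMap.lift₁_surjective (β : SemiMap G φ H)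
    (h₁ : Submodule.span (D.A₁ B') (Set.range β.β₁) = ⊤) : Function.Surjective β.lift₁ :=
  liftSemilinear_surjective (D.map₁ φ).toRingHom β.β₁ β.smul₁ h₁

/-- `M₀₁` of a two-chart datum is invertible over the overlap ring. -/
theorem invertible₀₁ (H : GlueDatum D B') : Module.Invertible (D.A₀₁ B') H.M₀₁ :=
  Module.Invertible.of_isLocalization (Submonoid.powers (xB D B')) H.ρ₀

/-- The images of `M₀` span `M₀₁` over the overlap ring. -/
theorem span_range_ρ₀ (H : GlueDatum D B') :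
    Submodule.span (D.A₀₁ B') (Set.range H.ρ₀) = ⊤ := by
  rw [eq_top_iff]
  rintro z -
  obtain ⟨⟨m₀, s⟩, hs⟩ := IsLocalizedModule.surj (Submonoid.powers (xB D B')) H.ρ₀ z
  have hu : IsUnit (algebraMap (D.A₀ B') (D.A₀₁ B') (s : D.A₀ B')) :=
    IsLocalization.map_units (D.A₀₁ B') s
  obtain ⟨u, hu⟩ := hu
  have hz : z = (↑u⁻¹ : D.A₀₁ B') • H.ρ₀ m₀ := by
    have h1 : (s : D.A₀ B') • z = H.ρ₀ m₀ := hs
    rw [← h1, ← algebraMap_smul (D.A₀₁ B') (s : D.A₀ B') z, ← hu, smul_smul, Units.inv_mul,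
      one_smul]
  rw [hz]
  exact Submodule.smul_mem _ _ (Submodule.subset_span ⟨m₀, rfl⟩)

theorem SemiMap.span_range_β₀₁ (β : SemiMap G φ H)
    (h₀ : Submodule.span (D.A₀ B') (Set.range β.β₀) = ⊤) :
    Submodule.span (D.A₀₁ B') (Set.range β.β₀₁) = ⊤ := by
  rw [eq_top_iff, ← span_range_ρ₀ H, Submodule.span_le]
  rintro _ ⟨m₀, rfl⟩
  have hm : m₀ ∈ Submodule.span (D.A₀ B') (Set.range β.β₀) := by rw [h₀]; trivial
  induction hm using Submodule.span_induction with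
  | mem w hw =>
    obtain ⟨m, rfl⟩ := hw
    exact Submodule.subset_span ⟨G.ρ₀ m, (β.comm₀ m).symm⟩
  | zero => rw [map_zero]; exact Submodule.zero_mem _
  | add v w _ _ hv hw => rw [map_add]; exact Submodule.add_mem _ hv hw
  | smul a w _ hw =>
    rw [map_smul, ← algebraMap_smul (D.A₀₁ B') a (H.ρ₀ w)]
    exact Submodule.smul_mem _ _ hw

theorem SemiMap.lift₀₁_surjective (β : SemiMap G φ H)
    (h₀ : Submodule.span (D.A₀ B') (Set.range β.β₀) = ⊤) : Function.Surjective β.lift₀₁ :=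
  liftSemilinear_surjective (D.map₀₁ φ).toRingHom β.β₀₁ β.smul₀₁ (β.span_range_β₀₁ h₀)

theorem SemiMap.lift_comm₀ (β : SemiMap G φ H) (z : (G.baseChange φ).M₀) :
    β.lift₀₁ ((G.baseChange φ).ρ₀ z) = H.ρ₀ (β.lift₀ z) := by
  letI := algA₀ D φ
  letI := algA₀₁ D φ
  letI := algA₀A₀₁ D φ
  haveI := tower_A₀_A₀₁_A₀₁' D φ
  haveI := tower_A₀_A₀'_A₀₁' D φ
  refine sqBaseChange_comm_aux (S := D.A₀₁ B) (S' := D.A₀₁ B') G.ρ₀ H.ρ₀ β.lift₀ β.lift₀₁
    (fun b m => ?_) z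
  change algebraMap (D.A₀ B') (D.A₀₁ B') b • β.β₀₁ (G.ρ₀ m) = H.ρ₀ (b • β.β₀ m)
  rw [map_smul, β.comm₀, algebraMap_smul]

theorem SemiMap.lift_comm₁ (β : SemiMap G φ H) (z : (G.baseChange φ).M₁) :
    β.lift₀₁ ((G.baseChange φ).ρ₁ z) = H.ρ₁ (β.lift₁ z) := by
  letI := algA₁ D φ
  letI := algA₀₁ D φ
  letI := algA₁A₀₁ D φ
  haveI := tower_A₁_A₀₁_A₀₁' D φ
  haveI := tower_A₁_A₁'_A₀₁' D φ
  refine sqBaseChange_comm_aux (S := D.A₀₁ B) (S' := D.A₀₁ B') G.ρ₁ H.ρ₁ β.lift₁ β.lift₀₁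
    (fun b m => ?_) z
  change algebraMap (D.A₁ B') (D.A₀₁ B') b • β.β₀₁ (G.ρ₁ m) = H.ρ₁ (b • β.β₁ m)
  rw [map_smul, β.comm₁, algebraMap_smul]

/-- **Universal property of base change.** A `SemiMap` from `G` to `H` over `φ` whose images
span `H.M₀` and `H.M₁` induces an isomorphism `G.baseChange φ ≅ H`. -/
noncomputable def SemiMap.iso (β : SemiMap G φ H)
    (h₀ : Submodule.span (D.A₀ B') (Set.range β.β₀) = ⊤)
    (h₁ : Submodule.span (D.A₁ B') (Set.range β.β₁) = ⊤) : GlueDatum.Iso (G.baseChange φ) H where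
  e₀ := LinearEquiv.ofBijective β.lift₀
    (Module.Invertible.bijective_of_surjective (β.lift₀_surjective h₀))
  e₁ := LinearEquiv.ofBijective β.lift₁
    (Module.Invertible.bijective_of_surjective (β.lift₁_surjective h₁))
  e₀₁ := LinearEquiv.ofBijective β.lift₀₁
    (haveI := invertible₀₁ H
     haveI := invertible₀₁ (G.baseChange φ)
     Module.Invertible.bijective_of_surjective (β.lift₀₁_surjective h₀))
  comm₀ := β.lift_comm₀
  comm₁ := β.lift_comm₁

theorem SemiMap.equiv (β : SemiMap G φ H)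
    (h₀ : Submodule.span (D.A₀ B') (Set.range β.β₀) = ⊤)
    (h₁ : Submodule.span (D.A₁ B') (Set.range β.β₁) = ⊤) : (G.baseChange φ).Equiv H :=
  ⟨β.iso h₀ h₁⟩

end Criterion

/-! ## Recognition of isomorphisms over a fixed base -/

section SameBase

/-- **Isomorphism criterion.** Linear maps on the two charts and on the overlap which commute
with the restriction maps form an isomorphism of two-chart data as soon as the two chart maps are
surjective: the modules are invertible, and the overlap map is then automatically bijective. -/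
noncomputable def isoOfSurjective {G G' : GlueDatum D B}
    (f₀ : G.M₀ →ₗ[D.A₀ B] G'.M₀) (f₁ : G.M₁ →ₗ[D.A₁ B] G'.M₁)
    (f₀₁ : G.M₀₁ →ₗ[D.A₀₁ B] G'.M₀₁)
    (hc₀ : ∀ m, f₀₁ (G.ρ₀ m) = G'.ρ₀ (f₀ m)) (hc₁ : ∀ m, f₀₁ (G.ρ₁ m) = G'.ρ₁ (f₁ m))
    (h₀ : Function.Surjective f₀) (h₁ : Function.Surjective f₁) : GlueDatum.Iso G G' where
  e₀ := LinearEquiv.ofBijective f₀ (Module.Invertible.bijective_of_surjective h₀)
  e₁ := LinearEquiv.ofBijective f₁ (Module.Invertible.bijective_of_surjective h₁)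
  e₀₁ := LinearEquiv.ofBijective f₀₁
    (haveI := invertible₀₁ G
     haveI := invertible₀₁ G'
     Module.Invertible.bijective_of_surjective (by
      rw [← LinearMap.range_eq_top, eq_top_iff, ← span_range_ρ₀ G', Submodule.span_le]
      rintro _ ⟨m', rfl⟩
      obtain ⟨m, rfl⟩ := h₀ m'
      exact ⟨G.ρ₀ m, hc₀ m⟩))
  comm₀ := hc₀
  comm₁ := hc₁

theorem equiv_of_surjective {G G' : GlueDatum D B}
    (f₀ : G.M₀ →ₗ[D.A₀ B] G'.M₀) (f₁ : G.M₁ →ₗ[D.A₁ B] G'.M₁)
    (f₀₁ : G.M₀₁ →ₗ[D.A₀₁ B] G'.M₀₁)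
    (hc₀ : ∀ m, f₀₁ (G.ρ₀ m) = G'.ρ₀ (f₀ m)) (hc₁ : ∀ m, f₀₁ (G.ρ₁ m) = G'.ρ₁ (f₁ m))
    (h₀ : Function.Surjective f₀) (h₁ : Function.Surjective f₁) : G.Equiv G' :=
  ⟨isoOfSurjective f₀ f₁ f₀₁ hc₀ hc₁ h₀ h₁⟩

/-- The image of a base-change map spans the target. -/
theorem span_range_of_isBaseChange {R S : Type*} [CommRing R] [CommRing S] [Algebra R S]
    {M N : Type*} [AddCommGroup M] [AddCommGroup N] [Module R M] [Module R N] [Module S N]
    [IsScalarTower R S N] {f : M →ₗ[R] N} (h : IsBaseChange S f) :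
    Submodule.span S (Set.range f) = ⊤ := by
  rw [eq_top_iff]
  rintro n -
  exact h.inductionOn n (fun n => n ∈ Submodule.span S (Set.range f)) (Submodule.zero_mem _)
    (fun m => Submodule.subset_span ⟨m, rfl⟩) (fun s n hn => Submodule.smul_mem _ s hn)
    (fun n₁ n₂ h₁ h₂ => Submodule.add_mem _ h₁ h₂)

end SameBase

/-! ## Operations on `SemiMap`s -/

section Ops

variable {B'' : Type u} [CommRing B''] [Algebra k B'']

theorem map₀_id (a : D.A₀ B) : D.map₀ (AlgHom.id k B) a = a := by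
  simp [CurveDatum.map₀]

theorem map₁_id (a : D.A₁ B) : D.map₁ (AlgHom.id k B) a = a := by
  simp [CurveDatum.map₁]

theorem map₀₁_id (a : D.A₀₁ B) : D.map₀₁ (AlgHom.id k B) a = a := by
  simp [CurveDatum.map₀₁]

theorem map₀_comp (φ : B →ₐ[k] B') (ψ : B' →ₐ[k] B'') (a : D.A₀ B) :
    D.map₀ (ψ.comp φ) a = D.map₀ ψ (D.map₀ φ a) := by
  induction a using TensorProduct.induction_on with
  | zero => simp
  | tmul r b => rfl
  | add a b ha hb => simp [ha, hb]

theorem map₁_comp (φ : B →ₐ[k] B') (ψ : B' →ₐ[k] B'') (a : D.A₁ B) :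
    D.map₁ (ψ.comp φ) a = D.map₁ ψ (D.map₁ φ a) := by
  induction a using TensorProduct.induction_on with
  | zero => simp
  | tmul r b => rfl
  | add a b ha hb => simp [ha, hb]

theorem map₀₁_comp (φ : B →ₐ[k] B') (ψ : B' →ₐ[k] B'') (a : D.A₀₁ B) :
    D.map₀₁ (ψ.comp φ) a = D.map₀₁ ψ (D.map₀₁ φ a) := by
  induction a using TensorProduct.induction_on with
  | zero => simp
  | tmul r b => rfl
  | add a b ha hb => simp [ha, hb]

/-- The identity `SemiMap`. -/
def SemiMap.id (G : GlueDatum D B) : SemiMap G (AlgHom.id k B) G where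
  β₀ := AddMonoidHom.id _
  β₁ := AddMonoidHom.id _
  β₀₁ := AddMonoidHom.id _
  smul₀ a m := by rw [map₀_id]; rfl
  smul₁ a m := by rw [map₁_id]; rfl
  smul₀₁ a m := by rw [map₀₁_id]; rfl
  comm₀ _ := rfl
  comm₁ _ := rfl

/-- The canonical `SemiMap` from `G` to its base change. -/
noncomputable def SemiMap.canonical (G : GlueDatum D B) (φ : B →ₐ[k] B') :
    SemiMap G φ (G.baseChange φ) :=
  letI := algA₀ D φ
  letI := algA₁ D φ
  letI := algA₀₁ D φ
  letI := algA₀A₀₁ D φ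
  letI := algA₁A₀₁ D φ
  haveI := tower_A₀_A₀₁_A₀₁' D φ
  haveI := tower_A₀_A₀'_A₀₁' D φ
  haveI := tower_A₁_A₀₁_A₀₁' D φ
  haveI := tower_A₁_A₁'_A₀₁' D φ
  { β₀ := (TensorProduct.mk (D.A₀ B) (D.A₀ B') G.M₀ 1).toAddMonoidHom
    β₁ := (TensorProduct.mk (D.A₁ B) (D.A₁ B') G.M₁ 1).toAddMonoidHom
    β₀₁ := (TensorProduct.mk (D.A₀₁ B) (D.A₀₁ B') G.M₀₁ 1).toAddMonoidHom
    smul₀ := fun a m => by
      change (1 : D.A₀ B') ⊗ₜ[D.A₀ B] (a • m) = D.map₀ φ a • ((1 : D.A₀ B') ⊗ₜ[D.A₀ B] m)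
      rw [TensorProduct.tmul_smul, TensorProduct.smul_tmul', TensorProduct.smul_tmul',
        Algebra.smul_def, smul_eq_mul]
      rfl
    smul₁ := fun a m => by
      change (1 : D.A₁ B') ⊗ₜ[D.A₁ B] (a • m) = D.map₁ φ a • ((1 : D.A₁ B') ⊗ₜ[D.A₁ B] m)
      rw [TensorProduct.tmul_smul, TensorProduct.smul_tmul', TensorProduct.smul_tmul',
        Algebra.smul_def, smul_eq_mul]
      rfl
    smul₀₁ := fun a m => by
      change (1 : D.A₀₁ B') ⊗ₜ[D.A₀₁ B] (a • m) = D.map₀₁ φ a • ((1 : D.A₀₁ B') ⊗ₜ[D.A₀₁ B] m)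
      rw [TensorProduct.tmul_smul, TensorProduct.smul_tmul', TensorProduct.smul_tmul',
        Algebra.smul_def, smul_eq_mul]
      rfl
    comm₀ := fun m => by
      change sqBaseChange (S := D.A₀₁ B) (S' := D.A₀₁ B') G.ρ₀ ((1 : D.A₀ B') ⊗ₜ[D.A₀ B] m) =
        (1 : D.A₀₁ B') ⊗ₜ[D.A₀₁ B] G.ρ₀ m
      rw [sqBaseChange_tmul, map_one]
    comm₁ := fun m => by
      change sqBaseChange (S := D.A₀₁ B) (S' := D.A₀₁ B') G.ρ₁ ((1 : D.A₁ B') ⊗ₜ[D.A₁ B] m) =
        (1 : D.A₀₁ B') ⊗ₜ[D.A₀₁ B] G.ρ₁ m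
      rw [sqBaseChange_tmul, map_one] }

theorem span_range_mk_one {A A' : Type*} [CommRing A] [CommRing A'] [Algebra A A']
    (M : Type*) [AddCommGroup M] [Module A M] :
    Submodule.span A' (Set.range (TensorProduct.mk A A' M 1)) = ⊤ := by
  rw [eq_top_iff]
  rintro z -
  induction z using TensorProduct.induction_on with
  | zero => exact Submodule.zero_mem _
  | tmul b m =>
    have : b ⊗ₜ[A] m = b • ((1 : A') ⊗ₜ[A] m) := by
      rw [TensorProduct.smul_tmul', smul_eq_mul, mul_one]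
    rw [this]
    exact Submodule.smul_mem _ _ (Submodule.subset_span ⟨m, rfl⟩)
  | add v w hv hw => exact Submodule.add_mem _ hv hw

theorem SemiMap.canonical_span₀ (G : GlueDatum D B) (φ : B →ₐ[k] B') :
    Submodule.span (D.A₀ B') (Set.range (SemiMap.canonical G φ).β₀) = ⊤ :=
  letI := algA₀ D φ
  span_range_mk_one (A := D.A₀ B) (A' := D.A₀ B') G.M₀

theorem SemiMap.canonical_span₁ (G : GlueDatum D B) (φ : B →ₐ[k] B') :
    Submodule.span (D.A₁ B') (Set.range (SemiMap.canonical G φ).β₁) = ⊤ :=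
  letI := algA₁ D φ
  span_range_mk_one (A := D.A₁ B) (A' := D.A₁ B') G.M₁

/-- Precomposition of a `SemiMap` with an isomorphism of data over the source ring. -/
def SemiMap.precompIso {G G' : GlueDatum D B} {φ : B →ₐ[k] B'} {H : GlueDatum D B'}
    (f : GlueDatum.Iso G' G) (β : SemiMap G φ H) : SemiMap G' φ H where
  β₀ := β.β₀.comp f.e₀.toLinearMap.toAddMonoidHom
  β₁ := β.β₁.comp f.e₁.toLinearMap.toAddMonoidHom
  β₀₁ := β.β₀₁.comp f.e₀₁.toLinearMap.toAddMonoidHom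
  smul₀ a m := by
    change β.β₀ (f.e₀ (a • m)) = D.map₀ φ a • β.β₀ (f.e₀ m)
    rw [map_smul, β.smul₀]
  smul₁ a m := by
    change β.β₁ (f.e₁ (a • m)) = D.map₁ φ a • β.β₁ (f.e₁ m)
    rw [map_smul, β.smul₁]
  smul₀₁ a m := by
    change β.β₀₁ (f.e₀₁ (a • m)) = D.map₀₁ φ a • β.β₀₁ (f.e₀₁ m)
    rw [map_smul, β.smul₀₁]
  comm₀ m := by
    change H.ρ₀ (β.β₀ (f.e₀ m)) = β.β₀₁ (f.e₀₁ (G'.ρ₀ m))
    rw [β.comm₀, f.comm₀]
  comm₁ m := by
    change H.ρ₁ (β.β₁ (f.e₁ m)) = β.β₀₁ (f.e₀₁ (G'.ρ₁ m))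
    rw [β.comm₁, f.comm₁]

theorem SemiMap.precompIso_range₀ {G G' : GlueDatum D B} {φ : B →ₐ[k] B'} {H : GlueDatum D B'}
    (f : GlueDatum.Iso G' G) (β : SemiMap G φ H) :
    Set.range (β.precompIso f).β₀ = Set.range β.β₀ := by
  ext z
  constructor
  · rintro ⟨m, rfl⟩; exact ⟨f.e₀ m, rfl⟩
  · rintro ⟨m, rfl⟩; exact ⟨f.e₀.symm m, by
      change β.β₀ (f.e₀ (f.e₀.symm m)) = β.β₀ m
      rw [LinearEquiv.apply_symm_apply]⟩

theorem SemiMap.precompIso_range₁ {G G' : GlueDatum D B} {φ : B →ₐ[k] B'} {H : GlueDatum D B'}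
    (f : GlueDatum.Iso G' G) (β : SemiMap G φ H) :
    Set.range (β.precompIso f).β₁ = Set.range β.β₁ := by
  ext z
  constructor
  · rintro ⟨m, rfl⟩; exact ⟨f.e₁ m, rfl⟩
  · rintro ⟨m, rfl⟩; exact ⟨f.e₁.symm m, by
      change β.β₁ (f.e₁ (f.e₁.symm m)) = β.β₁ m
      rw [LinearEquiv.apply_symm_apply]⟩

/-- Composition of `SemiMap`s. -/
def SemiMap.comp {G : GlueDatum D B} {φ : B →ₐ[k] B'} {H : GlueDatum D B'} {ψ : B' →ₐ[k] B''}
    {K : GlueDatum D B''} (β : SemiMap G φ H) (γ : SemiMap H ψ K) : SemiMap G (ψ.comp φ) K where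
  β₀ := γ.β₀.comp β.β₀
  β₁ := γ.β₁.comp β.β₁
  β₀₁ := γ.β₀₁.comp β.β₀₁
  smul₀ a m := by
    change γ.β₀ (β.β₀ (a • m)) = D.map₀ (ψ.comp φ) a • γ.β₀ (β.β₀ m)
    rw [β.smul₀, γ.smul₀, map₀_comp]
  smul₁ a m := by
    change γ.β₁ (β.β₁ (a • m)) = D.map₁ (ψ.comp φ) a • γ.β₁ (β.β₁ m)
    rw [β.smul₁, γ.smul₁, map₁_comp]
  smul₀₁ a m := by
    change γ.β₀₁ (β.β₀₁ (a • m)) = D.map₀₁ (ψ.comp φ) a • γ.β₀₁ (β.β₀₁ m)
    rw [β.smul₀₁, γ.smul₀₁, map₀₁_comp]
  comm₀ m := by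
    change K.ρ₀ (γ.β₀ (β.β₀ m)) = γ.β₀₁ (β.β₀₁ (G.ρ₀ m))
    rw [γ.comm₀, β.comm₀]
  comm₁ m := by
    change K.ρ₁ (γ.β₁ (β.β₁ m)) = γ.β₀₁ (β.β₀₁ (G.ρ₁ m))
    rw [γ.comm₁, β.comm₁]

/-- Spans compose along semilinear maps. -/
theorem span_range_comp {A A' : Type*} [CommRing A] [CommRing A'] (σ : A →+* A')
    {M N : Type*} [AddCommGroup M] [Module A M] [AddCommGroup N] [Module A' N]
    {L : Type*} [AddCommGroup L] (β : L →+ M) (γ : M →+ N)
    (hγ : ∀ (a : A) (m : M), γ (a • m) = σ a • γ m)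
    (hβ : Submodule.span A (Set.range β) = ⊤) (hγs : Submodule.span A' (Set.range γ) = ⊤) :
    Submodule.span A' (Set.range (γ.comp β)) = ⊤ := by
  rw [eq_top_iff, ← hγs, Submodule.span_le]
  rintro _ ⟨m, rfl⟩
  have hm : m ∈ Submodule.span A (Set.range β) := by rw [hβ]; trivial
  induction hm using Submodule.span_induction with
  | mem w hw =>
    obtain ⟨l, rfl⟩ := hw
    exact Submodule.subset_span ⟨l, rfl⟩
  | zero => rw [map_zero]; exact Submodule.zero_mem _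
  | add v w _ _ hv hw => rw [map_add]; exact Submodule.add_mem _ hv hw
  | smul a w _ hw => rw [hγ]; exact Submodule.smul_mem _ _ hw

end Ops

/-! ## Consequences: functoriality of base change up to `Equiv` -/

section Functoriality

variable {B'' : Type u} [CommRing B''] [Algebra k B'']

/-- Base change along the identity does nothing. -/
theorem baseChange_id (G : GlueDatum D B) : (G.baseChange (AlgHom.id k B)).Equiv G :=
  (SemiMap.id G).equiv
    (by rw [eq_top_iff]; rintro z -; exact Submodule.subset_span ⟨z, rfl⟩)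
    (by rw [eq_top_iff]; rintro z -; exact Submodule.subset_span ⟨z, rfl⟩)

/-- Base change respects isomorphisms. -/
theorem Iso.baseChange {G G' : GlueDatum D B} (f : GlueDatum.Iso G G') (φ : B →ₐ[k] B') :
    (G.baseChange φ).Equiv (G'.baseChange φ) :=
  ((SemiMap.canonical G' φ).precompIso f).equiv
    (by rw [SemiMap.precompIso_range₀]; exact SemiMap.canonical_span₀ G' φ)
    (by rw [SemiMap.precompIso_range₁]; exact SemiMap.canonical_span₁ G' φ)

/-- Base change respects `Equiv`. -/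
theorem Equiv.baseChange {G G' : GlueDatum D B} (h : G.Equiv G') (φ : B →ₐ[k] B') :
    (G.baseChange φ).Equiv (G'.baseChange φ) :=
  h.elim fun f => Iso.baseChange f φ

/-- Base change is compatible with composition. -/
theorem baseChange_comp (G : GlueDatum D B) (φ : B →ₐ[k] B') (ψ : B' →ₐ[k] B'') :
    ((G.baseChange φ).baseChange ψ).Equiv (G.baseChange (ψ.comp φ)) :=
  GlueDatum.Equiv.symm
    (((SemiMap.canonical G φ).comp (SemiMap.canonical (G.baseChange φ) ψ)).equiv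
      (span_range_comp (D.map₀ ψ).toRingHom _ _
        (SemiMap.canonical (G.baseChange φ) ψ).smul₀ (SemiMap.canonical_span₀ G φ)
        (SemiMap.canonical_span₀ (G.baseChange φ) ψ))
      (span_range_comp (D.map₁ ψ).toRingHom _ _
        (SemiMap.canonical (G.baseChange φ) ψ).smul₁ (SemiMap.canonical_span₁ G φ)
        (SemiMap.canonical_span₁ (G.baseChange φ) ψ)))

/-- A subset of a ring containing `1` spans the ring as a module over itself. -/
theorem span_range_of_one_mem {A : Type*} [CommRing A] {L : Type*} [AddCommGroup L]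
    (β : L →+ A) (h : (1 : A) ∈ Set.range β) :
    Submodule.span A (Set.range β) = ⊤ := by
  rw [eq_top_iff]
  rintro z -
  have hz : z = z • (1 : A) := by rw [smul_eq_mul, mul_one]
  rw [hz]
  exact Submodule.smul_mem _ _ (Submodule.subset_span h)

/-- The `SemiMap` from the unit datum over `B` to the unit datum over `B'`. -/
noncomputable def SemiMap.unit (φ : B →ₐ[k] B') :
    SemiMap (GlueDatum.unit D B) φ (GlueDatum.unit D B') where
  β₀ := (D.map₀ φ).toRingHom.toAddMonoidHom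
  β₁ := (D.map₁ φ).toRingHom.toAddMonoidHom
  β₀₁ := (D.map₀₁ φ).toRingHom.toAddMonoidHom
  smul₀ a m := map_mul (D.map₀ φ) a m
  smul₁ a m := map_mul (D.map₁ φ) a m
  smul₀₁ a m := map_mul (D.map₀₁ φ) a m
  comm₀ m := res₀_map₀ D φ m
  comm₁ m := res₁_map₁ D φ m

/-- The unit datum is stable under base change. -/
theorem unit_baseChange (φ : B →ₐ[k] B') :
    ((GlueDatum.unit D B).baseChange φ).Equiv (GlueDatum.unit D B') :=
  (SemiMap.unit φ).equiv
    (by
      exact span_range_of_one_mem (D.map₀ φ).toRingHom.toAddMonoidHom ⟨1, map_one (D.map₀ φ)⟩)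
    (by
      exact span_range_of_one_mem (D.map₁ φ).toRingHom.toAddMonoidHom ⟨1, map_one (D.map₁ φ)⟩)

end Functoriality

end Fermat.Agent.S25.helper9941
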