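import Fermat.Agent.S25.helper622_DivisorOps
import Fermat.Agent.S25.helper6121_GlueConstr
import Fermat.Agent.S25.helper6871_PointIdeal
import Fermat.Agent.S25.helper5597_DivisorIdealCurve
import Fermat.Agent.S25.helper9941_BaseChangeApi
import Fermat.Agent.S25.helper7530_ValExistAlg
import Fermat.Agent.S25.helper4927_TwistChi
import Fermat.Agent.S25.helper239_GlueIndex

/-!
# S25, leaf U3: twists of two-chart line bundles by divisors and by points

On top of `helper6121.GlueDatum.twist` (the sub-datum `(I₀ • M₀, I₁ • M₁)` of a two-chart line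
bundle cut out by a pair of invertible ideals with the same extension to the overlap):

* generic laws of the twist: `twist_congr`, `twist_congr_ideal`, `twist_baseChange`,
  `isRig_twist`;
* the twist `twist₀ G I` by a relative divisor `V(I)` contained in chart `0` and finite over the
  base (the ideal on the chart at infinity is `atInfty I`), and its mirror `twist₁`;
* point twists `tw₀ G p`, `tw₁ G q` and the instance `pointTwist : helper7530.GluePointTwist D`;
* the inclusion `twist₀Incl G I : helper8573.Mor (twist₀ G I) G`, its universal property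
  `exists_mor_twist₀`, and the Euler characteristic `chi_twist₀`, `chi_tw₀`.
-/

set_option autoImplicit false

open TensorProduct

namespace Fermat.Agent.S25.helper622

universe u

open Fermat.Agent.S25.helper1705 Fermat.Agent.S25.helper2945

/-! ## A generic lemma on semilinear images of `I • ⊤` -/

section SemiSpan

variable {A A' : Type*} [CommRing A] [CommRing A'] (σ : A →+* A')
  {M M' : Type*} [AddCommGroup M] [Module A M] [AddCommGroup M'] [Module A' M']

/-- If a `σ`-semilinear map `β : M → M'` has image spanning `M'`, then the image of `I • M`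
spans `σ(I) • M'`. -/
theorem span_image_smul_top (β : M →+ M') (hβ : ∀ (a : A) (m : M), β (a • m) = σ a • β m)
    (hspan : Submodule.span A' (Set.range β) = ⊤) (I : Ideal A) :
    Submodule.span A' (β '' ((I • ⊤ : Submodule A M) : Set M)) =
      (I.map σ • ⊤ : Submodule A' M') := by
  refine le_antisymm ?_ ?_
  · rw [Submodule.span_le]
    rintro _ ⟨m, hm, rfl⟩
    refine Submodule.smul_induction_on hm ?_ ?_
    · intro a ha n _
      rw [hβ]
      exact Submodule.smul_mem_smul (Ideal.mem_map_of_mem σ ha) Submodule.mem_top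
    · intro x y hx hy
      rw [map_add]
      exact Submodule.add_mem _ hx hy
  · rw [Submodule.smul_le]
    intro a' ha' n hn'
    clear hn'
    have hn : n ∈ Submodule.span A' (Set.range β) := hspan ▸ Submodule.mem_top
    revert n hn
    refine Submodule.span_induction (p := fun a' _ => ∀ n : M', n ∈ Submodule.span A' (Set.range β) →
      a' • n ∈ Submodule.span A' (β '' ((I • ⊤ : Submodule A M) : Set M))) ?_ ?_ ?_ ?_ ha'
    · rintro _ ⟨i, hi, rfl⟩ n hn
      refine Submodule.span_induction (p := fun n _ =>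
        σ i • n ∈ Submodule.span A' (β '' ((I • ⊤ : Submodule A M) : Set M))) ?_ ?_ ?_ ?_ hn
      · rintro _ ⟨m, rfl⟩
        rw [← hβ]
        exact Submodule.subset_span ⟨_, Submodule.smul_mem_smul hi Submodule.mem_top, rfl⟩
      · rw [smul_zero]
        exact Submodule.zero_mem _
      · intro x y _ _ hx hy
        rw [smul_add]
        exact Submodule.add_mem _ hx hy
      · intro b x _ hx
        rw [smul_comm]
        exact Submodule.smul_mem _ _ hx
    · intro n _
      rw [zero_smul]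
      exact Submodule.zero_mem _
    · intro x y _ _ hx hy n hn
      rw [add_smul]
      exact Submodule.add_mem _ (hx n hn) (hy n hn)
    · intro c x _ hx n hn
      rw [smul_eq_mul, mul_smul]
      exact Submodule.smul_mem _ _ (hx n hn)

/-- A family of elements of a submodule `N` spans `N` (as a module) as soon as their
coercions span `N` (as a submodule). -/
theorem span_range_eq_top_of_coe {X : Type*} (N : Submodule A' M') (b : X → N)
    (hb : Submodule.span A' (Set.range fun x => (b x : M')) = N) :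
    Submodule.span A' (Set.range b) = ⊤ := by
  refine Submodule.map_injective_of_injective (f := N.subtype) Subtype.val_injective ?_
  rw [Submodule.map_span, Submodule.map_top, Submodule.range_subtype, ← Set.range_comp]
  exact hb

end SemiSpan

/-! ## Generic laws of the twist by a pair of invertible ideals -/

section TwistLaws

variable {k : Type u} [Field k] {D : CurveDatum k} {B : Type u} [CommRing B] [Algebra k B]

/-- The twist only depends on the two ideals. -/
theorem twist_congr_ideal (G : GlueDatum D B) {I₀ J₀ : Ideal (D.A₀ B)} {I₁ J₁ : Ideal (D.A₁ B)}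
    [Module.Invertible (D.A₀ B) I₀] [Module.Invertible (D.A₁ B) I₁]
    [Module.Invertible (D.A₀ B) J₀] [Module.Invertible (D.A₁ B) J₁]
    (h : I₀.map (algebraMap (D.A₀ B) (D.A₀₁ B)) = I₁.map (algebraMap (D.A₁ B) (D.A₀₁ B)))
    (h' : J₀.map (algebraMap (D.A₀ B) (D.A₀₁ B)) = J₁.map (algebraMap (D.A₁ B) (D.A₀₁ B)))
    (e₀ : I₀ = J₀) (e₁ : I₁ = J₁) :
    (helper6121.GlueDatum.twist G I₀ I₁ h).Equiv (helper6121.GlueDatum.twist G J₀ J₁ h') := by
  subst e₀ e₁
  exact GlueDatum.Equiv.refl _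

/-- Equivalent data have equivalent twists. -/
theorem twist_congr {G G' : GlueDatum D B} (I₀ : Ideal (D.A₀ B)) (I₁ : Ideal (D.A₁ B))
    [Module.Invertible (D.A₀ B) I₀] [Module.Invertible (D.A₁ B) I₁]
    (h : I₀.map (algebraMap (D.A₀ B) (D.A₀₁ B)) = I₁.map (algebraMap (D.A₁ B) (D.A₀₁ B)))
    (hG : G.Equiv G') :
    (helper6121.GlueDatum.twist G I₀ I₁ h).Equiv (helper6121.GlueDatum.twist G' I₀ I₁ h) := by
  obtain ⟨f⟩ := hG
  let j₀ : (helper6121.GlueDatum.twist G I₀ I₁ h).M₀ →ₗ[D.A₀ B] G'.M₀ :=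
    f.e₀.toLinearMap ∘ₗ (I₀ • ⊤ : Submodule (D.A₀ B) G.M₀).subtype
  let j₁ : (helper6121.GlueDatum.twist G I₀ I₁ h).M₁ →ₗ[D.A₁ B] G'.M₁ :=
    f.e₁.toLinearMap ∘ₗ (I₁ • ⊤ : Submodule (D.A₁ B) G.M₁).subtype
  let j₀₁ : (helper6121.GlueDatum.twist G I₀ I₁ h).M₀₁ →ₗ[D.A₀₁ B] G'.M₀₁ :=
    f.e₀₁.toLinearMap ∘ₗ (helper6121.GlueDatum.span₀ G (I₀ • ⊤)).subtype
  have hc₀ : ∀ m, j₀₁ ((helper6121.GlueDatum.twist G I₀ I₁ h).ρ₀ m) = G'.ρ₀ (j₀ m) :=
    fun m => f.comm₀ _
  have hc₁ : ∀ m, j₀₁ ((helper6121.GlueDatum.twist G I₀ I₁ h).ρ₁ m) = G'.ρ₁ (j₁ m) :=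
    fun m => f.comm₁ _
  have hj₀ : Function.Injective j₀ := f.e₀.injective.comp Subtype.val_injective
  have hj₁ : Function.Injective j₁ := f.e₁.injective.comp Subtype.val_injective
  have hr₀ : LinearMap.range j₀ = (I₀ • ⊤ : Submodule (D.A₀ B) G'.M₀) := by
    change LinearMap.range (f.e₀.toLinearMap ∘ₗ (I₀ • ⊤ : Submodule (D.A₀ B) G.M₀).subtype) = _
    rw [LinearMap.range_comp, Submodule.range_subtype, Submodule.map_smul'', Submodule.map_top,
      LinearEquiv.range]
  have hr₁ : LinearMap.range j₁ = (I₁ • ⊤ : Submodule (D.A₁ B) G'.M₁) := by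
    change LinearMap.range (f.e₁.toLinearMap ∘ₗ (I₁ • ⊤ : Submodule (D.A₁ B) G.M₁).subtype) = _
    rw [LinearMap.range_comp, Submodule.range_subtype, Submodule.map_smul'', Submodule.map_top,
      LinearEquiv.range]
  have := helper6121.invertible_range j₀ hj₀
  have := helper6121.invertible_range j₁ hj₁
  refine (helper6121.GlueDatum.equiv_ofSubmodules_range j₀ j₁ j₀₁ hc₀ hc₁ hj₀ hj₁
    (helper6121.GlueDatum.span₀_range_eq_span₁_range j₀ j₁ j₀₁ hc₀ hc₁)).trans ?_
  exact helper6121.GlueDatum.ofSubmodules_equiv_of_eq G' _ _ _ _ _ _ hr₀ hr₁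

section BaseChange

variable {B' : Type u} [CommRing B'] [Algebra k B'] (φ : B →ₐ[k] B')

/-- Extension to the overlap commutes with base change (chart `0`). -/
theorem map_map₀_algebraMap (I₀ : Ideal (D.A₀ B)) :
    (I₀.map (D.map₀ φ)).map (algebraMap (D.A₀ B') (D.A₀₁ B')) =
      (I₀.map (algebraMap (D.A₀ B) (D.A₀₁ B))).map (D.map₀₁ φ) := by
  change (I₀.map (D.map₀ φ).toRingHom).map (algebraMap (D.A₀ B') (D.A₀₁ B')) =
    (I₀.map (algebraMap (D.A₀ B) (D.A₀₁ B))).map (D.map₀₁ φ).toRingHom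
  rw [Ideal.map_map, Ideal.map_map]
  congr 1
  exact RingHom.ext fun a => res₀_map₀ D φ a

/-- Extension to the overlap commutes with base change (chart at infinity). -/
theorem map_map₁_algebraMap (I₁ : Ideal (D.A₁ B)) :
    (I₁.map (D.map₁ φ)).map (algebraMap (D.A₁ B') (D.A₀₁ B')) =
      (I₁.map (algebraMap (D.A₁ B) (D.A₀₁ B))).map (D.map₀₁ φ) := by
  change (I₁.map (D.map₁ φ).toRingHom).map (algebraMap (D.A₁ B') (D.A₀₁ B')) =
    (I₁.map (algebraMap (D.A₁ B) (D.A₀₁ B))).map (D.map₀₁ φ).toRingHom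
  rw [Ideal.map_map, Ideal.map_map]
  congr 1
  exact RingHom.ext fun a => res₁_map₁ D φ a

/-- A pair of ideals with the same extension to the overlap keeps this property after base
change. -/
theorem map_map_eq_of_eq {I₀ : Ideal (D.A₀ B)} {I₁ : Ideal (D.A₁ B)}
    (h : I₀.map (algebraMap (D.A₀ B) (D.A₀₁ B)) = I₁.map (algebraMap (D.A₁ B) (D.A₀₁ B))) :
    (I₀.map (D.map₀ φ)).map (algebraMap (D.A₀ B') (D.A₀₁ B')) =
      (I₁.map (D.map₁ φ)).map (algebraMap (D.A₁ B') (D.A₀₁ B')) := by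
  rw [map_map₀_algebraMap, map_map₁_algebraMap, h]

theorem canonical_span₀₁ (G : GlueDatum D B) :
    Submodule.span (D.A₀₁ B') (Set.range (helper9941.SemiMap.canonical G φ).β₀₁) = ⊤ :=
  letI := algA₀₁ D φ
  helper9941.span_range_mk_one (A := D.A₀₁ B) (A' := D.A₀₁ B') G.M₀₁

/-- **Base change of a twist.** The twist by a pair of invertible ideals commutes with base
change, as soon as the extended ideals are again invertible.  No flatness hypothesis. -/
theorem twist_baseChange (G : GlueDatum D B) (I₀ : Ideal (D.A₀ B)) (I₁ : Ideal (D.A₁ B))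
    [Module.Invertible (D.A₀ B) I₀] [Module.Invertible (D.A₁ B) I₁]
    [Module.Invertible (D.A₀ B') (I₀.map (D.map₀ φ))]
    [Module.Invertible (D.A₁ B') (I₁.map (D.map₁ φ))]
    (h : I₀.map (algebraMap (D.A₀ B) (D.A₀₁ B)) = I₁.map (algebraMap (D.A₁ B) (D.A₀₁ B)))
    (h' : (I₀.map (D.map₀ φ)).map (algebraMap (D.A₀ B') (D.A₀₁ B')) =
      (I₁.map (D.map₁ φ)).map (algebraMap (D.A₁ B') (D.A₀₁ B'))) :
    ((helper6121.GlueDatum.twist G I₀ I₁ h).baseChange φ).Equiv
      (helper6121.GlueDatum.twist (G.baseChange φ) (I₀.map (D.map₀ φ)) (I₁.map (D.map₁ φ))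
        h') := by
  let c := helper9941.SemiMap.canonical G φ
  have hs₀ := span_image_smul_top (D.map₀ φ).toRingHom c.β₀ c.smul₀
    (helper9941.SemiMap.canonical_span₀ G φ) I₀
  have hs₁ := span_image_smul_top (D.map₁ φ).toRingHom c.β₁ c.smul₁
    (helper9941.SemiMap.canonical_span₁ G φ) I₁
  have hs₀₁ := span_image_smul_top (D.map₀₁ φ).toRingHom c.β₀₁ c.smul₀₁
    (canonical_span₀₁ φ G) (I₀.map (algebraMap (D.A₀ B) (D.A₀₁ B)))
  have mem₀ : ∀ m ∈ (I₀ • ⊤ : Submodule (D.A₀ B) G.M₀),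
      c.β₀ m ∈ (I₀.map (D.map₀ φ) • ⊤ : Submodule (D.A₀ B') (G.baseChange φ).M₀) :=
    fun m hm => hs₀ ▸ Submodule.subset_span ⟨m, hm, rfl⟩
  have mem₁ : ∀ m ∈ (I₁ • ⊤ : Submodule (D.A₁ B) G.M₁),
      c.β₁ m ∈ (I₁.map (D.map₁ φ) • ⊤ : Submodule (D.A₁ B') (G.baseChange φ).M₁) :=
    fun m hm => hs₁ ▸ Submodule.subset_span ⟨m, hm, rfl⟩
  have mem₀₁ : ∀ z ∈ helper6121.GlueDatum.span₀ G (I₀ • ⊤),
      c.β₀₁ z ∈ helper6121.GlueDatum.span₀ (G.baseChange φ) (I₀.map (D.map₀ φ) • ⊤) := by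
    intro z hz
    rw [helper6121.GlueDatum.span₀_smul_top] at hz ⊢
    rw [map_map₀_algebraMap]
    exact hs₀₁ ▸ Submodule.subset_span ⟨z, hz, rfl⟩
  let β : helper9941.SemiMap (helper6121.GlueDatum.twist G I₀ I₁ h) φ
      (helper6121.GlueDatum.twist (G.baseChange φ) (I₀.map (D.map₀ φ)) (I₁.map (D.map₁ φ))
        h') :=
    { β₀ :=
        { toFun := fun m => ⟨c.β₀ m.1, mem₀ m.1 m.2⟩
          map_zero' := Subtype.ext (map_zero c.β₀)
          map_add' := fun a b => Subtype.ext (map_add c.β₀ a.1 b.1) }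
      β₁ :=
        { toFun := fun m => ⟨c.β₁ m.1, mem₁ m.1 m.2⟩
          map_zero' := Subtype.ext (map_zero c.β₁)
          map_add' := fun a b => Subtype.ext (map_add c.β₁ a.1 b.1) }
      β₀₁ :=
        { toFun := fun z => ⟨c.β₀₁ z.1, mem₀₁ z.1 z.2⟩
          map_zero' := Subtype.ext (map_zero c.β₀₁)
          map_add' := fun a b => Subtype.ext (map_add c.β₀₁ a.1 b.1) }
      smul₀ := fun a m => Subtype.ext (c.smul₀ a m.1)
      smul₁ := fun a m => Subtype.ext (c.smul₁ a m.1)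
      smul₀₁ := fun a m => Subtype.ext (c.smul₀₁ a m.1)
      comm₀ := fun m => Subtype.ext (c.comm₀ m.1)
      comm₁ := fun m => Subtype.ext (c.comm₁ m.1) }
  refine β.equiv ?_ ?_
  · refine span_range_eq_top_of_coe
      (I₀.map (D.map₀ φ) • ⊤ : Submodule (D.A₀ B') (G.baseChange φ).M₀)
      (fun m : (I₀ • ⊤ : Submodule (D.A₀ B) G.M₀) => ⟨c.β₀ m.1, mem₀ m.1 m.2⟩) ?_
    have himg : (Set.range fun m : (I₀ • ⊤ : Submodule (D.A₀ B) G.M₀) => c.β₀ m.1) =
        c.β₀ '' ((I₀ • ⊤ : Submodule (D.A₀ B) G.M₀) : Set G.M₀) := by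
      ext z
      constructor
      · rintro ⟨m, rfl⟩
        exact ⟨m.1, m.2, rfl⟩
      · rintro ⟨m, hm, rfl⟩
        exact ⟨⟨m, hm⟩, rfl⟩
    rw [himg]
    exact hs₀
  · refine span_range_eq_top_of_coe
      (I₁.map (D.map₁ φ) • ⊤ : Submodule (D.A₁ B') (G.baseChange φ).M₁)
      (fun m : (I₁ • ⊤ : Submodule (D.A₁ B) G.M₁) => ⟨c.β₁ m.1, mem₁ m.1 m.2⟩) ?_
    have himg : (Set.range fun m : (I₁ • ⊤ : Submodule (D.A₁ B) G.M₁) => c.β₁ m.1) =
        c.β₁ '' ((I₁ • ⊤ : Submodule (D.A₁ B) G.M₁) : Set G.M₁) := by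
      ext z
      constructor
      · rintro ⟨m, rfl⟩
        exact ⟨m.1, m.2, rfl⟩
      · rintro ⟨m, hm, rfl⟩
        exact ⟨⟨m, hm⟩, rfl⟩
    rw [himg]
    exact hs₁

end BaseChange

/-- **Rigidification of a twist.** If the ideal on the chart at infinity contains an element
`u` with `ε(u) = 1`, the twist of a rigidified datum is rigidified. -/
theorem isRig_twist (G : GlueDatum D B) (I₀ : Ideal (D.A₀ B)) (I₁ : Ideal (D.A₁ B))
    [Module.Invertible (D.A₀ B) I₀] [Module.Invertible (D.A₁ B) I₁]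
    (h : I₀.map (algebraMap (D.A₀ B) (D.A₀₁ B)) = I₁.map (algebraMap (D.A₁ B) (D.A₀₁ B)))
    (u : D.A₁ B) (hu : u ∈ I₁) (hu1 : D.eB B u = 1) (hG : G.IsRig) :
    (helper6121.GlueDatum.twist G I₀ I₁ h).IsRig := by
  let _ := algE D B
  obtain ⟨e⟩ := hG
  exact ⟨(tensorSMulTopEquiv (C := B) I₁ u hu hu1 G.M₁).trans e⟩

end TwistLaws

/-! ## Twists by a divisor contained in one chart and finite over the base -/

section ChartTwist

variable {k : Type u} [Field k] {D : CurveDatum k} {B : Type u} [CommRing B] [Algebra k B]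

/-- The ideal on the chart at infinity of a divisor given by an ideal of chart `0`. -/
noncomputable abbrev inf₀ (I : Ideal (D.A₀ B)) : Ideal (D.A₁ B) := atInfty (D.A₁ B) (D.A₀₁ B) I

/-- The ideal on chart `0` of a divisor given by an ideal of the chart at infinity. -/
noncomputable abbrev inf₁ (I : Ideal (D.A₁ B)) : Ideal (D.A₀ B) := atInfty (D.A₀ B) (D.A₀₁ B) I

theorem yB_mul_xB :
    algebraMap (D.A₁ B) (D.A₀₁ B) (yB D B) * algebraMap (D.A₀ B) (D.A₀₁ B) (xB D B) = 1 := by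
  rw [mul_comm]
  exact xB_mul_yB D B

theorem map_inf₀ (I : Ideal (D.A₀ B)) :
    I.map (algebraMap (D.A₀ B) (D.A₀₁ B)) = (inf₀ I).map (algebraMap (D.A₁ B) (D.A₀₁ B)) :=
  (map_atInfty (yB D B) I).symm

theorem map_inf₁ (I : Ideal (D.A₁ B)) :
    (inf₁ I).map (algebraMap (D.A₀ B) (D.A₀₁ B)) = I.map (algebraMap (D.A₁ B) (D.A₀₁ B)) :=
  map_atInfty (xB D B) I

theorem invertible_inf₀ (I : Ideal (D.A₀ B)) [Module.Finite B (D.A₀ B ⧸ I)]
    [Module.Invertible (D.A₀ B) I] : Module.Invertible (D.A₁ B) (inf₀ I) :=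
  invertible_atInfty (B := B) (xB D B) (yB D B) (xB_mul_yB D B) I

theorem invertible_inf₁ (I : Ideal (D.A₁ B)) [Module.Finite B (D.A₁ B ⧸ I)]
    [Module.Invertible (D.A₁ B) I] : Module.Invertible (D.A₀ B) (inf₁ I) :=
  invertible_atInfty (B := B) (yB D B) (xB D B) yB_mul_xB I

/-- The witness of closedness of a chart-`0` divisor: an element of the ideal at infinity which
is `1` along `V(y)`, in particular at the section `ε`. -/
theorem exists_mem_inf₀_eB_eq_one (I : Ideal (D.A₀ B)) [Module.Finite B (D.A₀ B ⧸ I)] :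
    ∃ u ∈ inf₀ I, u - 1 ∈ Ideal.span {yB D B} ∧ D.eB B u = 1 := by
  obtain ⟨u, hu, hu1⟩ := exists_mem_atInfty_sub_one_mem (B := B) (xB D B) (yB D B)
    (xB_mul_yB D B) I
  refine ⟨u, hu, hu1, ?_⟩
  obtain ⟨w, hw⟩ := Ideal.mem_span_singleton'.mp hu1
  have h1 : u = 1 + w * yB D B := by rw [hw]; ring
  rw [h1, map_add, map_one, map_mul, eB_yB, mul_zero, add_zero]

theorem exists_mem_inf₁_sub_one_mem (I : Ideal (D.A₁ B)) [Module.Finite B (D.A₁ B ⧸ I)] :
    ∃ u ∈ inf₁ I, u - 1 ∈ Ideal.span {xB D B} :=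
  exists_mem_atInfty_sub_one_mem (B := B) (yB D B) (xB D B) yB_mul_xB I

/-- **Twist by a divisor of chart `0`**: `G(-D)` for `D = V(I)`, `I` an invertible ideal of the
first chart with quotient finite over the base. -/
noncomputable def twist₀ (G : GlueDatum D B) (I : Ideal (D.A₀ B)) [Module.Finite B (D.A₀ B ⧸ I)]
    [Module.Invertible (D.A₀ B) I] : GlueDatum D B :=
  haveI := invertible_inf₀ I
  helper6121.GlueDatum.twist G I (inf₀ I) (map_inf₀ I)

/-- **Twist by a divisor of the chart at infinity**. -/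
noncomputable def twist₁ (G : GlueDatum D B) (I : Ideal (D.A₁ B)) [Module.Finite B (D.A₁ B ⧸ I)]
    [Module.Invertible (D.A₁ B) I] : GlueDatum D B :=
  haveI := invertible_inf₁ I
  helper6121.GlueDatum.twist G (inf₁ I) I (map_inf₁ I)

theorem twist₀_congr {G G' : GlueDatum D B} (I : Ideal (D.A₀ B)) [Module.Finite B (D.A₀ B ⧸ I)]
    [Module.Invertible (D.A₀ B) I] (hG : G.Equiv G') : (twist₀ G I).Equiv (twist₀ G' I) :=
  haveI := invertible_inf₀ I
  twist_congr I (inf₀ I) (map_inf₀ I) hG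

theorem twist₁_congr {G G' : GlueDatum D B} (I : Ideal (D.A₁ B)) [Module.Finite B (D.A₁ B ⧸ I)]
    [Module.Invertible (D.A₁ B) I] (hG : G.Equiv G') : (twist₁ G I).Equiv (twist₁ G' I) :=
  haveI := invertible_inf₁ I
  twist_congr (inf₁ I) I (map_inf₁ I) hG

theorem twist₀_congr_ideal (G : GlueDatum D B) {I J : Ideal (D.A₀ B)}
    [Module.Finite B (D.A₀ B ⧸ I)] [Module.Invertible (D.A₀ B) I]
    [Module.Finite B (D.A₀ B ⧸ J)] [Module.Invertible (D.A₀ B) J] (e : I = J) :
    (twist₀ G I).Equiv (twist₀ G J) := by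
  subst e
  exact GlueDatum.Equiv.refl _

theorem twist₁_congr_ideal (G : GlueDatum D B) {I J : Ideal (D.A₁ B)}
    [Module.Finite B (D.A₁ B ⧸ I)] [Module.Invertible (D.A₁ B) I]
    [Module.Finite B (D.A₁ B ⧸ J)] [Module.Invertible (D.A₁ B) J] (e : I = J) :
    (twist₁ G I).Equiv (twist₁ G J) := by
  subst e
  exact GlueDatum.Equiv.refl _

/-- The twist by a chart-`0` divisor of a rigidified datum is rigidified. -/
theorem isRig_twist₀ (G : GlueDatum D B) (I : Ideal (D.A₀ B)) [Module.Finite B (D.A₀ B ⧸ I)]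
    [Module.Invertible (D.A₀ B) I] (hG : G.IsRig) : (twist₀ G I).IsRig := by
  obtain ⟨u, hu, -, hu1⟩ := exists_mem_inf₀_eB_eq_one I
  have := invertible_inf₀ I
  exact isRig_twist G I (inf₀ I) (map_inf₀ I) u hu hu1 hG

section BaseChange

variable {B' : Type u} [CommRing B'] [Algebra k B'] (φ : B →ₐ[k] B')

/-- The ideal at infinity of a chart-`0` divisor commutes with base change. -/
theorem inf₀_map (I : Ideal (D.A₀ B)) [Module.Finite B (D.A₀ B ⧸ I)] :
    (inf₀ I).map (D.map₁ φ) = inf₀ (I.map (D.map₀ φ)) := by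
  obtain ⟨u, hu, hu1⟩ := exists_mem_atInfty_sub_one_mem (B := B) (xB D B) (yB D B)
    (xB_mul_yB D B) I
  have : IsLocalization.Away ((D.map₁ φ).toRingHom (yB D B)) (D.A₀₁ B') := by
    have h : (D.map₁ φ).toRingHom (yB D B) = yB D B' := map₁_yB D φ
    rw [h]
    infer_instance
  exact map_atInfty_eq_atInfty_map (yB D B) (D.map₀ φ).toRingHom (D.map₁ φ).toRingHom
    (D.map₀₁ φ).toRingHom (RingHom.ext fun a => (res₀_map₀ D φ a).symm)
    (RingHom.ext fun a => (res₁_map₁ D φ a).symm) I u hu hu1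

/-- The ideal on chart `0` of a chart-`1` divisor commutes with base change. -/
theorem inf₁_map (I : Ideal (D.A₁ B)) [Module.Finite B (D.A₁ B ⧸ I)] :
    (inf₁ I).map (D.map₀ φ) = inf₁ (I.map (D.map₁ φ)) := by
  obtain ⟨u, hu, hu1⟩ := exists_mem_inf₁_sub_one_mem I
  have : IsLocalization.Away ((D.map₀ φ).toRingHom (xB D B)) (D.A₀₁ B') := by
    have h : (D.map₀ φ).toRingHom (xB D B) = xB D B' := map₀_xB D φ
    rw [h]
    infer_instance
  exact map_atInfty_eq_atInfty_map (xB D B) (D.map₁ φ).toRingHom (D.map₀ φ).toRingHom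
    (D.map₀₁ φ).toRingHom (RingHom.ext fun a => (res₁_map₁ D φ a).symm)
    (RingHom.ext fun a => (res₀_map₀ D φ a).symm) I u hu hu1

/-- **Base change of the twist by a chart-`0` divisor.** -/
theorem twist₀_baseChange (G : GlueDatum D B) (I : Ideal (D.A₀ B)) [Module.Finite B (D.A₀ B ⧸ I)]
    [Module.Invertible (D.A₀ B) I] [Module.Finite B' (D.A₀ B' ⧸ I.map (D.map₀ φ))]
    [Module.Invertible (D.A₀ B') (I.map (D.map₀ φ))] :
    ((twist₀ G I).baseChange φ).Equiv (twist₀ (G.baseChange φ) (I.map (D.map₀ φ))) := by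
  have := invertible_inf₀ I
  have := invertible_inf₀ (I.map (D.map₀ φ))
  have hbc := inf₀_map φ I
  have : Module.Invertible (D.A₁ B') ((inf₀ I).map (D.map₁ φ)) := by
    rw [hbc]
    infer_instance
  exact (twist_baseChange φ G I (inf₀ I) (map_inf₀ I) (map_map_eq_of_eq φ (map_inf₀ I))).trans
    (twist_congr_ideal (G.baseChange φ) _ (map_inf₀ (I.map (D.map₀ φ))) rfl hbc)

/-- **Base change of the twist by a chart-`1` divisor.** -/
theorem twist₁_baseChange (G : GlueDatum D B) (I : Ideal (D.A₁ B)) [Module.Finite B (D.A₁ B ⧸ I)]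
    [Module.Invertible (D.A₁ B) I] [Module.Finite B' (D.A₁ B' ⧸ I.map (D.map₁ φ))]
    [Module.Invertible (D.A₁ B') (I.map (D.map₁ φ))] :
    ((twist₁ G I).baseChange φ).Equiv (twist₁ (G.baseChange φ) (I.map (D.map₁ φ))) := by
  have := invertible_inf₁ I
  have := invertible_inf₁ (I.map (D.map₁ φ))
  have hbc := inf₁_map φ I
  have : Module.Invertible (D.A₀ B') ((inf₁ I).map (D.map₀ φ)) := by
    rw [hbc]
    infer_instance
  exact (twist_baseChange φ G (inf₁ I) I (map_inf₁ I) (map_map_eq_of_eq φ (map_inf₁ I))).trans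
    (twist_congr_ideal (G.baseChange φ) _ (map_inf₁ (I.map (D.map₁ φ))) hbc rfl)

end BaseChange

end ChartTwist

/-! ## Point twists -/

section PointTwist

variable {k : Type u} [Field k] [IsAlgClosed k] {D : CurveDatum k} {B : Type u} [CommRing B]
  [Algebra k B]

theorem invertible_pointIdeal₀ (p : D.R₀ →ₐ[k] B) :
    Module.Invertible (D.A₀ B) (helper6871.pointIdeal₀ D p) :=
  helper5597.ideal_invertible₀ D _

theorem invertible_pointIdeal₁ (q : D.R₁ →ₐ[k] B) :
    Module.Invertible (D.A₁ B) (helper6871.pointIdeal₁ D q) :=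
  helper5597.ideal_invertible₁ D _

/-- **Twist by a point of chart `0`**: `G(-P)`. -/
noncomputable def tw₀ (G : GlueDatum D B) (p : D.R₀ →ₐ[k] B) : GlueDatum D B :=
  haveI := invertible_pointIdeal₀ p
  twist₀ G (helper6871.pointIdeal₀ D p)

/-- **Twist by a point of the chart at infinity**: `G(-Q)`. -/
noncomputable def tw₁ (G : GlueDatum D B) (q : D.R₁ →ₐ[k] B) : GlueDatum D B :=
  haveI := invertible_pointIdeal₁ q
  twist₁ G (helper6871.pointIdeal₁ D q)

theorem tw₀_congr {G G' : GlueDatum D B} (p : D.R₀ →ₐ[k] B) (hG : G.Equiv G') :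
    (tw₀ G p).Equiv (tw₀ G' p) :=
  haveI := invertible_pointIdeal₀ p
  twist₀_congr _ hG

theorem tw₁_congr {G G' : GlueDatum D B} (q : D.R₁ →ₐ[k] B) (hG : G.Equiv G') :
    (tw₁ G q).Equiv (tw₁ G' q) :=
  haveI := invertible_pointIdeal₁ q
  twist₁_congr _ hG

/-- The twist by a point of chart `0` of a rigidified datum is rigidified. -/
theorem isRig_tw₀ (G : GlueDatum D B) (p : D.R₀ →ₐ[k] B) (hG : G.IsRig) : (tw₀ G p).IsRig :=
  haveI := invertible_pointIdeal₀ p
  isRig_twist₀ G _ hG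

section BaseChange

variable {B' : Type u} [CommRing B'] [Algebra k B'] (φ : B →ₐ[k] B')

/-- **Base change of a point twist, chart `0`.** -/
theorem bc_tw₀ (G : GlueDatum D B) (p : D.R₀ →ₐ[k] B) :
    ((tw₀ G p).baseChange φ).Equiv (tw₀ (G.baseChange φ) (φ.comp p)) := by
  have := invertible_pointIdeal₀ p
  have := invertible_pointIdeal₀ (φ.comp p)
  have he := helper6871.pointIdeal₀_baseChange D p φ
  have : Module.Finite B' (D.A₀ B' ⧸ (helper6871.pointIdeal₀ D p).map (D.map₀ φ)) := by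
    rw [he]
    infer_instance
  have : Module.Invertible (D.A₀ B') ((helper6871.pointIdeal₀ D p).map (D.map₀ φ)) := by
    rw [he]
    infer_instance
  exact (twist₀_baseChange φ G (helper6871.pointIdeal₀ D p)).trans
    (twist₀_congr_ideal (G.baseChange φ) he)

/-- **Base change of a point twist, chart at infinity.** -/
theorem bc_tw₁ (G : GlueDatum D B) (q : D.R₁ →ₐ[k] B) :
    ((tw₁ G q).baseChange φ).Equiv (tw₁ (G.baseChange φ) (φ.comp q)) := by
  have := invertible_pointIdeal₁ q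
  have := invertible_pointIdeal₁ (φ.comp q)
  have he := helper6871.pointIdeal₁_baseChange D q φ
  have : Module.Finite B' (D.A₁ B' ⧸ (helper6871.pointIdeal₁ D q).map (D.map₁ φ)) := by
    rw [he]
    infer_instance
  have : Module.Invertible (D.A₁ B') ((helper6871.pointIdeal₁ D q).map (D.map₁ φ)) := by
    rw [he]
    infer_instance
  exact (twist₁_baseChange φ G (helper6871.pointIdeal₁ D q)).trans
    (twist₁_congr_ideal (G.baseChange φ) he)

end BaseChange

/-- **Same point.** A point of the overlap gives the same twist in both charts. -/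
theorem tw_same (G : GlueDatum D B) (r : D.R₀₁ →ₐ[k] B) :
    (tw₀ G (r.comp (IsScalarTower.toAlgHom k D.R₀ D.R₀₁))).Equiv
      (tw₁ G (r.comp (IsScalarTower.toAlgHom k D.R₁ D.R₀₁))) := by
  have := invertible_pointIdeal₀ (r.comp (IsScalarTower.toAlgHom k D.R₀ D.R₀₁))
  have := invertible_pointIdeal₁ (r.comp (IsScalarTower.toAlgHom k D.R₁ D.R₀₁))
  have := invertible_inf₀ (helper6871.pointIdeal₀ D (r.comp (IsScalarTower.toAlgHom k D.R₀ D.R₀₁)))
  have := invertible_inf₁ (helper6871.pointIdeal₁ D (r.comp (IsScalarTower.toAlgHom k D.R₁ D.R₀₁)))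
  exact twist_congr_ideal G (map_inf₀ _) (map_inf₁ _)
    (helper6871.pointIdeal₁_map_comap₀ D r).symm (helper6871.pointIdeal₀_map_comap₁ D r)

/-- **The point-twist structure** consumed by `helper7530_ValExistAlg` (valuative existence) and
`helper5047` (bounded family). -/
noncomputable def pointTwist (D : CurveDatum k) : helper7530.GluePointTwist D where
  tw₀ := fun G p => tw₀ G p
  tw₁ := fun G q => tw₁ G q
  tw₀_congr := fun p hG => tw₀_congr p hG
  bc_tw₀ := fun φ G p => bc_tw₀ φ G p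
  bc_tw₁ := fun φ G q => bc_tw₁ φ G q
  tw_same := fun G r => tw_same G r

@[simp] theorem pointTwist_tw₀ (G : GlueDatum D B) (p : D.R₀ →ₐ[k] B) :
    (pointTwist D).tw₀ G p = tw₀ G p := rfl

@[simp] theorem pointTwist_tw₁ (G : GlueDatum D B) (q : D.R₁ →ₐ[k] B) :
    (pointTwist D).tw₁ G q = tw₁ G q := rfl

end PointTwist

/-! ## The inclusion of a twist, its universal property, and the Euler characteristic -/

section Incl

variable {k : Type u} [Field k] {D : CurveDatum k} {B : Type u} [CommRing B] [Algebra k B]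

/-- The inclusion of the twist by a pair of ideals into the original datum. -/
noncomputable def twistIncl (G : GlueDatum D B) (I₀ : Ideal (D.A₀ B)) (I₁ : Ideal (D.A₁ B))
    [Module.Invertible (D.A₀ B) I₀] [Module.Invertible (D.A₁ B) I₁]
    (h : I₀.map (algebraMap (D.A₀ B) (D.A₀₁ B)) = I₁.map (algebraMap (D.A₁ B) (D.A₀₁ B))) :
    helper8573.Mor (helper6121.GlueDatum.twist G I₀ I₁ h) G where
  f₀ := (I₀ • ⊤ : Submodule (D.A₀ B) G.M₀).subtype
  f₁ := (I₁ • ⊤ : Submodule (D.A₁ B) G.M₁).subtype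
  f₀₁ := (helper6121.GlueDatum.span₀ G (I₀ • ⊤)).subtype
  comm₀ := fun _ => rfl
  comm₁ := fun _ => rfl

/-- The inclusion `G(-D) → G` for a divisor of chart `0`. -/
noncomputable def twist₀Incl (G : GlueDatum D B) (I : Ideal (D.A₀ B))
    [Module.Finite B (D.A₀ B ⧸ I)] [Module.Invertible (D.A₀ B) I] :
    helper8573.Mor (twist₀ G I) G :=
  haveI := invertible_inf₀ I
  twistIncl G I (inf₀ I) (map_inf₀ I)

variable (G : GlueDatum D B) (I : Ideal (D.A₀ B)) [Module.Finite B (D.A₀ B ⧸ I)]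
  [Module.Invertible (D.A₀ B) I]

theorem twist₀Incl_f₀_injective : Function.Injective (twist₀Incl G I).f₀ :=
  Subtype.val_injective

theorem twist₀Incl_f₁_injective : Function.Injective (twist₀Incl G I).f₁ :=
  Subtype.val_injective

theorem twist₀Incl_f₀₁_injective : Function.Injective (twist₀Incl G I).f₀₁ :=
  Subtype.val_injective

theorem range_twist₀Incl_f₀ :
    LinearMap.range (twist₀Incl G I).f₀ = (I • ⊤ : Submodule (D.A₀ B) G.M₀) :=
  Submodule.range_subtype _

theorem range_twist₀Incl_f₁ :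
    LinearMap.range (twist₀Incl G I).f₁ = (inf₀ I • ⊤ : Submodule (D.A₁ B) G.M₁) :=
  Submodule.range_subtype _

theorem twist₀Incl_f₀_mem (m : (twist₀ G I).M₀) :
    (twist₀Incl G I).f₀ m ∈ (I • ⊤ : Submodule (D.A₀ B) G.M₀) :=
  Subtype.property m

theorem twist₀Incl_f₁_mem (m : (twist₀ G I).M₁) :
    (twist₀Incl G I).f₁ m ∈ (inf₀ I • ⊤ : Submodule (D.A₁ B) G.M₁) :=
  Subtype.property m

/-- The inclusion `G(-D) → G` of a chart-`0` divisor is an isomorphism along `V(y)`. -/
theorem surjModY_twist₀Incl : (twist₀Incl G I).SurjModY := by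
  intro n
  obtain ⟨u, hu, hu1, -⟩ := exists_mem_inf₀_eB_eq_one I
  obtain ⟨w, hw⟩ := Ideal.mem_span_singleton'.mp hu1
  refine ⟨⟨u • n, Submodule.smul_mem_smul hu Submodule.mem_top⟩, -(w • n), ?_⟩
  change n = u • n + yB D B • -(w • n)
  have h1 : u = 1 + w * yB D B := by rw [hw]; ring
  rw [h1, add_smul, one_smul, smul_neg, smul_smul, mul_comm]
  abel

/-- **Universal property of the twist by a chart-`0` divisor.** A morphism `τ : H → G` whose
first-chart component lands in `I • G.M₀` factors through `G(-D) → G`. -/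
theorem exists_mor_twist₀ {H : GlueDatum D B} (τ : helper8573.Mor H G)
    (hτ : ∀ m, τ.f₀ m ∈ (I • ⊤ : Submodule (D.A₀ B) G.M₀)) :
    ∃ τ' : helper8573.Mor H (twist₀ G I),
      (∀ m, (twist₀Incl G I).f₀ (τ'.f₀ m) = τ.f₀ m) ∧
        (∀ m, (twist₀Incl G I).f₁ (τ'.f₁ m) = τ.f₁ m) ∧
        (∀ z, (twist₀Incl G I).f₀₁ (τ'.f₀₁ z) = τ.f₀₁ z) := by
  have h01 : ∀ z : H.M₀₁, τ.f₀₁ z ∈ helper6121.GlueDatum.span₀ G (I • ⊤) := by
    intro z
    have hz : z ∈ Submodule.span (D.A₀₁ B) (Set.range H.ρ₀) := by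
      rw [helper6121.span_range_eq_top (S := D.A₀₁ B) (Submonoid.powers (xB D B)) H.ρ₀]
      exact Submodule.mem_top
    refine Submodule.span_induction (p := fun z _ =>
      τ.f₀₁ z ∈ helper6121.GlueDatum.span₀ G (I • ⊤)) ?_ ?_ ?_ ?_ hz
    · rintro _ ⟨m, rfl⟩
      rw [τ.comm₀]
      exact helper6121.GlueDatum.ρ₀_mem_span₀ G _ _ (hτ m)
    · rw [map_zero]
      exact Submodule.zero_mem _
    · intro x y _ _ hx hy
      rw [map_add]
      exact Submodule.add_mem _ hx hy
    · intro a x _ hx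
      rw [map_smul]
      exact Submodule.smul_mem _ _ hx
  have h1 : ∀ m : H.M₁, τ.f₁ m ∈ (inf₀ I • ⊤ : Submodule (D.A₁ B) G.M₁) := by
    intro m
    obtain ⟨u, hu, hu1, -⟩ := exists_mem_inf₀_eB_eq_one I
    rw [mem_atInfty_smul_top_iff (yB D B) I G.ρ₁ u hu hu1, ← τ.comm₁,
      ← helper6121.GlueDatum.span₀_smul_top]
    exact h01 _
  refine ⟨{ f₀ := τ.f₀.codRestrict _ hτ
            f₁ := τ.f₁.codRestrict _ h1
            f₀₁ := τ.f₀₁.codRestrict _ h01
            comm₀ := fun m => Subtype.ext (τ.comm₀ m)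
            comm₁ := fun m => Subtype.ext (τ.comm₁ m) }, fun _ => rfl, fun _ => rfl, fun _ => rfl⟩

/-- **Universal property of a sub-datum** (generic form): a morphism `τ : H → G` whose two
chart components land in `Λ₀`, `Λ₁` factors through `helper6121.GlueDatum.ofSubmodules`. -/
theorem exists_mor_ofSubmodules {H : GlueDatum D B} (G : GlueDatum D B)
    (Λ₀ : Submodule (D.A₀ B) G.M₀) (Λ₁ : Submodule (D.A₁ B) G.M₁)
    [Module.Invertible (D.A₀ B) Λ₀] [Module.Invertible (D.A₁ B) Λ₁]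
    (h : helper6121.GlueDatum.span₀ G Λ₀ = helper6121.GlueDatum.span₁ G Λ₁)
    (τ : helper8573.Mor H G) (h₀ : ∀ m, τ.f₀ m ∈ Λ₀) (h₁ : ∀ m, τ.f₁ m ∈ Λ₁) :
    ∃ τ' : helper8573.Mor H (helper6121.GlueDatum.ofSubmodules G Λ₀ Λ₁ h),
      (∀ m, helper6121.GlueDatum.ofSubmodules.ι₀ G Λ₀ Λ₁ h (τ'.f₀ m) = τ.f₀ m) ∧
        (∀ m, helper6121.GlueDatum.ofSubmodules.ι₁ G Λ₀ Λ₁ h (τ'.f₁ m) = τ.f₁ m) ∧
        (∀ z, helper6121.GlueDatum.ofSubmodules.ι₀₁ G Λ₀ Λ₁ h (τ'.f₀₁ z) = τ.f₀₁ z) := by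
  have h01 : ∀ z : H.M₀₁, τ.f₀₁ z ∈ helper6121.GlueDatum.span₀ G Λ₀ := by
    intro z
    have hz : z ∈ Submodule.span (D.A₀₁ B) (Set.range H.ρ₀) := by
      rw [helper6121.span_range_eq_top (S := D.A₀₁ B) (Submonoid.powers (xB D B)) H.ρ₀]
      exact Submodule.mem_top
    refine Submodule.span_induction (p := fun z _ =>
      τ.f₀₁ z ∈ helper6121.GlueDatum.span₀ G Λ₀) ?_ ?_ ?_ ?_ hz
    · rintro _ ⟨m, rfl⟩
      rw [τ.comm₀]
      exact helper6121.GlueDatum.ρ₀_mem_span₀ G _ _ (h₀ m)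
    · rw [map_zero]
      exact Submodule.zero_mem _
    · intro x y _ _ hx hy
      rw [map_add]
      exact Submodule.add_mem _ hx hy
    · intro a x _ hx
      rw [map_smul]
      exact Submodule.smul_mem _ _ hx
  exact ⟨{ f₀ := τ.f₀.codRestrict _ h₀
           f₁ := τ.f₁.codRestrict _ h₁
           f₀₁ := τ.f₀₁.codRestrict _ h01
           comm₀ := fun m => Subtype.ext (τ.comm₀ m)
           comm₁ := fun m => Subtype.ext (τ.comm₁ m) }, fun _ => rfl, fun _ => rfl, fun _ => rfl⟩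

end Incl

section InclPoint

variable {k : Type u} [Field k] [IsAlgClosed k] {D : CurveDatum k} {B : Type u} [CommRing B]
  [Algebra k B]

/-- The inclusion `G(-P) → G` of the twist by a `B`-point of chart `0`. -/
noncomputable def tw₀Incl (G : GlueDatum D B) (p : D.R₀ →ₐ[k] B) : helper8573.Mor (tw₀ G p) G :=
  haveI := invertible_pointIdeal₀ p
  twist₀Incl G (helper6871.pointIdeal₀ D p)

variable (G : GlueDatum D B) (p : D.R₀ →ₐ[k] B)

theorem tw₀Incl_f₀_injective : Function.Injective (tw₀Incl G p).f₀ :=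
  Subtype.val_injective

theorem tw₀Incl_f₁_injective : Function.Injective (tw₀Incl G p).f₁ :=
  Subtype.val_injective

theorem range_tw₀Incl_f₀ :
    LinearMap.range (tw₀Incl G p).f₀ =
      (helper6871.pointIdeal₀ D p • ⊤ : Submodule (D.A₀ B) G.M₀) :=
  Submodule.range_subtype _

theorem tw₀Incl_f₀_mem (m : (tw₀ G p).M₀) :
    (tw₀Incl G p).f₀ m ∈ (helper6871.pointIdeal₀ D p • ⊤ : Submodule (D.A₀ B) G.M₀) :=
  Subtype.property m

theorem surjModY_tw₀Incl : (tw₀Incl G p).SurjModY :=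
  haveI := invertible_pointIdeal₀ p
  surjModY_twist₀Incl G (helper6871.pointIdeal₀ D p)

/-- **Universal property of a point twist**: a morphism `τ : H → G` whose first-chart component
vanishes at the point `p` (lands in `𝔪_p • G.M₀`) factors through `G(-P) → G`. -/
theorem exists_mor_tw₀ {H : GlueDatum D B} (τ : helper8573.Mor H G)
    (hτ : ∀ m, τ.f₀ m ∈ (helper6871.pointIdeal₀ D p • ⊤ : Submodule (D.A₀ B) G.M₀)) :
    ∃ τ' : helper8573.Mor H (tw₀ G p),
      (∀ m, (tw₀Incl G p).f₀ (τ'.f₀ m) = τ.f₀ m) ∧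
        (∀ m, (tw₀Incl G p).f₁ (τ'.f₁ m) = τ.f₁ m) ∧
        (∀ z, (tw₀Incl G p).f₀₁ (τ'.f₀₁ z) = τ.f₀₁ z) :=
  haveI := invertible_pointIdeal₀ p
  exists_mor_twist₀ G (helper6871.pointIdeal₀ D p) τ hτ

end InclPoint

section Chi

variable {k : Type u} [Field k] {D : CurveDatum k} {K : Type u} [Field K] [Algebra k K]

/-- **Euler characteristic of the twist by a chart-`0` divisor** over a field:
`χ(G(-D)) = χ(G) - deg D`. -/
theorem chi_twist₀_of_finite (G : GlueDatum D K) (I : Ideal (D.A₀ K))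
    [Module.Finite K (D.A₀ K ⧸ I)] [Module.Invertible (D.A₀ K) I]
    [FiniteDimensional K G.H0] [FiniteDimensional K G.H1] :
    FiniteDimensional K (twist₀ G I).H0 ∧ FiniteDimensional K (twist₀ G I).H1 ∧
      (twist₀ G I).chi = G.chi - (Module.finrank K (D.A₀ K ⧸ I) : ℤ) :=
  helper4927.chi_of_mor_ideal (twist₀Incl G I) (twist₀Incl_f₀_injective G I)
    (twist₀Incl_f₁_injective G I) (surjModY_twist₀Incl G I) I (range_twist₀Incl_f₀ G I)

theorem finrank_quotient_pointIdeal₀ (p : D.R₀ →ₐ[k] K) :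
    Module.finrank K (D.A₀ K ⧸ helper6871.pointIdeal₀ D p) = 1 := by
  rw [(helper6871.quotEquiv₀ D p).toLinearEquiv.finrank_eq, Module.finrank_self]

variable [IsAlgClosed k]

/-- `χ(G(-D)) = χ(G) - deg D` over a field, unconditionally. -/
theorem chi_twist₀ (G : GlueDatum D K) (I : Ideal (D.A₀ K))
    [Module.Finite K (D.A₀ K ⧸ I)] [Module.Invertible (D.A₀ K) I] :
    (twist₀ G I).chi = G.chi - (Module.finrank K (D.A₀ K ⧸ I) : ℤ) :=
  haveI := helper239.finite_H0_field G
  haveI := helper239.finite_H1_field G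
  (chi_twist₀_of_finite G I).2.2

/-- **Euler characteristic of a point twist**: `χ(G(-P)) = χ(G) - 1`. -/
theorem chi_tw₀ (G : GlueDatum D K) (p : D.R₀ →ₐ[k] K) : (tw₀ G p).chi = G.chi - 1 := by
  have := invertible_pointIdeal₀ p
  have h := chi_twist₀ G (helper6871.pointIdeal₀ D p)
  rw [finrank_quotient_pointIdeal₀] at h
  exact_mod_cast h

/-- The Euler characteristic of an iterated point twist. -/
theorem chi_twList (G : GlueDatum D K) (L : List (D.R₀ →ₐ[k] K)) :
    ((pointTwist D).twList G L).chi = G.chi - L.length := by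
  induction L generalizing G with
  | nil => simp
  | cons p L ih =>
    rw [helper7530.GluePointTwist.twList_cons, ih, pointTwist_tw₀, chi_tw₀, List.length_cons]
    push_cast
    ring

end Chi

end Fermat.Agent.S25.helper622
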