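import Fermat.Agent.S25.helper7196_BoundedAssembly
import Fermat.Agent.S25.helper622_PointTwist
import Fermat.Agent.S25.helper239_ChiApi
import Fermat.Agent.S25.helper239_ChiIndex
import Fermat.Agent.S25.helper3115_TwistGlue
import Fermat.Agent.S25.helper505_ChiRoot

/-!
# S25: the roots `Stmt_AlgBoundedFT`, `Stmt_AlgValExistAC` and `Stmt_FAEZ` from two leaves
(captain helper505)

With the point twist `helper622.pointTwist` (on main), the three roots

* `helper985.Stmt_AlgBoundedFT` (LC5),
* `helper985.Stmt_AlgValExistAC` (LC4),
* `helper1705.Stmt_FAEZ`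

are reduced here to exactly two leaf statements about a curve datum `D` over an algebraically
closed field `k`:

* `Stmt_ChiDrop`  : the point twists `tw₀`, `tw₁` drop the Euler characteristic by one over
  every field;
* `Stmt_UniformDecomp` (leaf U9a, uniform counting form): there are `m : ℤ` and `d : ℕ` with
  `d = m * degInf D` such that every rigidified degree-zero two-chart line bundle over an
  algebraically closed field `K` is the twist of `𝒪(m·D∞)` by `d` points of chart 0.

Everything else is composed from modules on main: the universal point family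
(`helper5047_UnivFamily`), the bounded assembly (`helper7196_BoundedAssembly`), the valuative
existence reduction (`helper7530_ValExistAlg`), the Euler characteristic API (`helper239`).
-/

set_option autoImplicit false

universe u

namespace Fermat.Agent.S25.helper505

open Fermat.Agent.S25.helper1705 Fermat.Agent.S25.helper2945 Fermat.Agent.S25.helper7530

section Defs

variable {k : Type u} [Field k] (D : CurveDatum k)

/-- Leaf U9a, uniform counting form, for a point twist `T`: one `m` and one number of points
`d = m * degInf D` serve all rigidified degree-zero two-chart line bundles over all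
algebraically closed fields. -/
def UniformDecomp (T : GluePointTwist D) : Prop :=
  ∃ (m : ℤ) (d : ℕ), (d : ℤ) = m * (helper1153.degInf D : ℤ) ∧
    ∀ (K : Type u) [Field K] [IsAlgClosed K] [Algebra k K] (G : GlueDatum D K),
      G.IsRig → G.DegZero →
      ∃ P : Fin d → (D.R₀ →ₐ[k] K),
        (T.twList (helper3115.twist (GlueDatum.unit D K) m) (List.ofFn P)).Equiv G

end Defs

/-- CHI-DROP for the point twist on main: `χ(G(−P)) = χ(G) − 1` over every field. -/
def Stmt_ChiDrop : Prop :=
  ∀ (k : Type u) [Field k] [IsAlgClosed k] (D : CurveDatum k), (helper622.pointTwist D).ChiDrop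

/-- U9a in uniform counting form for the point twist on main. -/
def Stmt_UniformDecomp : Prop :=
  ∀ (k : Type u) [Field k] [IsAlgClosed k] (D : CurveDatum k),
    UniformDecomp D (helper622.pointTwist D)

section Wiring

variable {k : Type u} [Field k] [IsAlgClosed k] (D : CurveDatum k)

/-- The base family `𝒪(m·D∞)`. -/
noncomputable def twistFamily (m : ℤ) : BaseFamily D where
  obj B _ _ := helper3115.twist (GlueDatum.unit D B) m
  bc φ := (helper3115.baseChange_twist _ φ m).trans
    (helper3115.Equiv_twist (helper743.unit_baseChange φ) m)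

/-- The input of the bounded assembly `helper7196` from the two leaves. -/
noncomputable def boundingInput (hdrop : (helper622.pointTwist D).ChiDrop) (m : ℤ) (d : ℕ)
    (hd : (d : ℤ) = m * (helper1153.degInf D : ℤ))
    (hdec : ∀ (K : Type u) [Field K] [IsAlgClosed K] [Algebra k K] (G : GlueDatum D K),
      G.IsRig → G.DegZero →
      ∃ P : Fin d → (D.R₀ →ₐ[k] K),
        ((helper622.pointTwist D).twList (helper3115.twist (GlueDatum.unit D K) m)
          (List.ofFn P)).Equiv G) :
    helper7196.BoundingInput.{u, u + 1} D where
  T := (helper622.pointTwist D).toData hdrop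
  R :=
    { real := fun G => G
      rel := fun h => h
      bc := fun _ _ => GlueDatum.Equiv.refl _
      chi := fun _ => rfl
      rig_tw₀ := fun G p h => helper622.isRig_tw₀ G p h }
  O B _ _ := helper3115.twist (GlueDatum.unit D B) m
  d := d
  hO _ _ _ _ _ _ φ := (helper3115.baseChange_twist _ φ m).trans
    (helper3115.Equiv_twist (helper743.unit_baseChange φ) m)
  rigO _ _ _ := (helper3115.twist_isRig _ m).mpr helper743.isRig_unit
  chiO F _ _ := by
    change (helper3115.twist (GlueDatum.unit D F) m).chi = (GlueDatum.unit D F).chi + d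
    rw [helper239.chi_twist_unit D F m, helper239.chi_unit D F, hd]
  decomp K _ _ _ G hrig hdeg := hdec K G hrig hdeg

/-- The weak point decomposition consumed by the valuative existence reduction. -/
theorem pointDecomp_of_uniform (h : UniformDecomp D (helper622.pointTwist D)) :
    PointDecomp (helper622.pointTwist D) := by
  obtain ⟨m, d, -, hdec⟩ := h
  intro K _ _ _ G hG
  obtain ⟨P, hP⟩ := hdec K G (isRig_of_isLocalRing G) hG
  exact ⟨twistFamily D m, List.ofFn P, hP.symm⟩

end Wiring

/-- **Root LC5.** `helper985.Stmt_AlgBoundedFT` from the two leaves. -/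
theorem stmt_AlgBoundedFT_of_leaves (hdrop : Stmt_ChiDrop.{u}) (hdec : Stmt_UniformDecomp.{u}) :
    helper985.Stmt_AlgBoundedFT.{u} :=
  stmt_AlgBoundedFT_of_dom <| helper7196.stmt_AlgBoundedDom_of.{u, u + 1} fun k _ _ D => by
    obtain ⟨m, d, hd, h⟩ := hdec k D
    exact ⟨boundingInput D (hdrop k D) m d hd h⟩

/-- **Root LC4.** `helper985.Stmt_AlgValExistAC` from the uniform point decomposition. -/
theorem stmt_AlgValExistAC_of_leaves (hdec : Stmt_UniformDecomp.{u}) :
    helper985.Stmt_AlgValExistAC.{u} :=
  stmt_AlgValExistAC_of_chiConst fun k _ _ D =>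
    ⟨helper239.chiConst D, helper622.pointTwist D, pointDecomp_of_uniform D (hdec k D)⟩

/-- **Root `Stmt_FAEZ`** from the two leaves. -/
theorem stmt_FAEZ_of_leaves (hdrop : Stmt_ChiDrop.{u}) (hdec : Stmt_UniformDecomp.{u}) :
    helper1705.Stmt_FAEZ.{u} :=
  stmt_FAEZ_of_boundedFT (stmt_AlgBoundedFT_of_leaves hdrop hdec)

/-- `helper985.Stmt_AlgBounded` from the two leaves. -/
theorem stmt_AlgBounded_of_leaves (hdrop : Stmt_ChiDrop.{u}) (hdec : Stmt_UniformDecomp.{u}) :
    helper985.Stmt_AlgBounded.{u} :=
  helper985.stmt_AlgBounded_of_FT (stmt_AlgBoundedFT_of_leaves hdrop hdec)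

end Fermat.Agent.S25.helper505
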