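import Fermat.Agent.S25.helper985_LGAlg2
import Fermat.Agent.S25.helper239_ChiIndex
import Fermat.Agent.S25.helper5047_PointFamily
import Fermat.Agent.S25.helper622_PointTwist
import Fermat.Agent.S25.helper1800_CurveDatumBasics
import Fermat.Agent.S25.helper3115_TwistGlue
import Fermat.Agent.S25.helper505_LGWiring

/-!
# S25, layer G: the two last algebra roots from the uniform point decomposition (helper985)

`helper985.Stmt_AlgBoundedFT` (LC5) and `helper985.Stmt_AlgValExistAC` (LC4) are both derived
from ONE closed Prop, `Stmt_PointDecomp`: over every algebraically closed field `K ⊇ k`, every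
degree-zero two-chart line bundle is the twist of `𝒪(m·D∞)` by exactly `d` points of chart `0`,
with `m` and `d` depending only on the curve.

* `twistFamily D m` : the base family `B ↦ 𝒪_B(m·D∞)`;
* `PointDecompUniform T O d` : the uniform point decomposition for a point-twist structure `T`
  and a base family `O`;
* `univFamily T O d` : the universal family `O(−Γ_{ι 0} − ⋯ − Γ_{ι (d-1)})` over `R₀^{⊗d}`,
  with `bc_univFamily`, `isRig_univFamily`, `degZero_univFamily`;
* `stmt_AlgBoundedFT_of_decomp`, `stmt_AlgBoundedFT_of_pointDecomp`,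
  `stmt_AlgValExistAC_of_pointDecomp`.

The degree of the universal family is controlled by the constancy of the fibrewise Euler
characteristic over domains (`helper239.chiConst`), so no count of the Euler characteristic of
a point twist is needed.
-/

set_option autoImplicit false

universe u

namespace Fermat.Agent.S25.helper985

open Fermat.Agent.S25.helper1705 Fermat.Agent.S25.helper2945 Fermat.Agent.S25.helper7530
  Fermat.Agent.S25.helper5047

section Family

variable {k : Type u} [Field k]

/-- The base family `B ↦ 𝒪_B(m·D∞)`. -/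
noncomputable def twistFamily (D : CurveDatum k) (m : ℤ) : BaseFamily D where
  obj B _ _ := helper3115.twist (GlueDatum.unit D B) m
  bc φ := (helper3115.baseChange_twist _ φ m).trans
    (helper3115.Equiv_twist (helper743.unit_baseChange φ) m)

theorem twistFamily_obj (D : CurveDatum k) (m : ℤ) (B : Type u) [CommRing B] [Algebra k B] :
    (twistFamily D m).obj B = helper3115.twist (GlueDatum.unit D B) m := rfl

/-- The members of `twistFamily D m` are rigidified. -/
theorem isRig_twistFamily (D : CurveDatum k) (m : ℤ) (B : Type u) [CommRing B] [Algebra k B] :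
    ((twistFamily D m).obj B).IsRig :=
  (helper3115.twist_isRig _ m).mpr helper743.isRig_unit

variable {D : CurveDatum k}

/-- UNIFORM POINT DECOMPOSITION (leaf U9a, the form consumed by LC5 and LC4): over every
algebraically closed field, every degree-zero two-chart line bundle is the twist of the member
of ONE base family by exactly `d` points of chart `0`. -/
def PointDecompUniform (T : GluePointTwist D) (O : BaseFamily D) (d : ℕ) : Prop :=
  ∀ (K : Type u) [Field K] [IsAlgClosed K] [Algebra k K] (G : GlueDatum D K), G.DegZero →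
    ∃ L : List (D.R₀ →ₐ[k] K), L.length = d ∧ G.Equiv (T.twList (O.obj K) L)

theorem PointDecompUniform.pointDecomp {T : GluePointTwist D} {O : BaseFamily D} {d : ℕ}
    (h : PointDecompUniform T O d) : PointDecomp T := fun K _ _ _ G hG => by
  obtain ⟨L, -, hL⟩ := h K G hG
  exact ⟨O, L, hL⟩

variable (T : GluePointTwist D) (O : BaseFamily D) (d : ℕ)

/-- The universal family `O(−Γ_{ι 0} − ⋯ − Γ_{ι (d-1)})` over `R₀^{⊗d}`. -/
noncomputable def univFamily : GlueDatum D (Pow k D.R₀ d) :=
  T.twList (O.obj (Pow k D.R₀ d)) (List.ofFn (Pow.ι (k := k) (R := D.R₀) (d := d)))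

/-- **Universal property.** The base change of the universal family along the classifying map
of a `d`-tuple of points is the iterated twist by these points. -/
theorem bc_univFamily {B : Type u} [CommRing B] [Algebra k B] (P : Fin d → (D.R₀ →ₐ[k] B)) :
    ((univFamily T O d).baseChange (Pow.lift P)).Equiv (T.twList (O.obj B) (List.ofFn P)) := by
  have h1 := T.bc_twList (Pow.lift P) (List.ofFn (Pow.ι (k := k) (R := D.R₀) (d := d)))
    (O.obj (Pow k D.R₀ d))
  have h2 : (List.ofFn (Pow.ι (k := k) (R := D.R₀) (d := d))).map (Pow.lift P).comp =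
      List.ofFn P := by
    rw [List.map_ofFn]
    congr 1
    funext i
    exact Pow.lift_comp_ι P i
  rw [h2] at h1
  exact h1.trans (T.twList_congr _ (O.bc _))

/-- Iterated point twists of a rigidified datum are rigidified. -/
theorem isRig_twList
    (hT : ∀ (B : Type u) [CommRing B] [Algebra k B] (G : GlueDatum D B) (p : D.R₀ →ₐ[k] B),
      G.IsRig → (T.tw₀ G p).IsRig)
    {B : Type u} [CommRing B] [Algebra k B] (L : List (D.R₀ →ₐ[k] B)) (G : GlueDatum D B)
    (hG : G.IsRig) : (T.twList G L).IsRig := by
  induction L generalizing G with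
  | nil => exact hG
  | cons p L ih => exact ih _ (hT B G p hG)

/-- The universal family is rigidified. -/
theorem isRig_univFamily (hO : ∀ (B : Type u) [CommRing B] [Algebra k B], (O.obj B).IsRig)
    (hT : ∀ (B : Type u) [CommRing B] [Algebra k B] (G : GlueDatum D B) (p : D.R₀ →ₐ[k] B),
      G.IsRig → (T.tw₀ G p).IsRig) : (univFamily T O d).IsRig :=
  isRig_twList T hT _ _ (hO _)

/-- Every `d`-fold point twist of `O K` is a fibre of the universal family. -/
theorem exists_bc_univFamily {K : Type u} [CommRing K] [Algebra k K] (G : GlueDatum D K)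
    (L : List (D.R₀ →ₐ[k] K)) (hL : L.length = d) (hG : G.Equiv (T.twList (O.obj K) L)) :
    ∃ φ : Pow k D.R₀ d →ₐ[k] K, ((univFamily T O d).baseChange φ).Equiv G := by
  subst hL
  refine ⟨Pow.lift (fun i => L.get i), ?_⟩
  have h := bc_univFamily T O L.length (fun i => L.get i)
  rw [List.ofFn_get] at h
  exact h.trans hG.symm

/-- The universal family has degree zero, as soon as the unit datum over `k` is one of its
fibres (which the uniform point decomposition provides). -/
theorem degZero_univFamily [IsAlgClosed k] (h : PointDecompUniform T O d) :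
    (univFamily T O d).DegZero := by
  have : IsDomain (Pow k D.R₀ d) := Pow.isDomain k D.R₀ d
  have hunit : (GlueDatum.unit D k).DegZero := fun L _ _ φ => by
    rw [helper743.equiv_chi_eq (helper743.unit_baseChange φ)]
  obtain ⟨L, hL, hGL⟩ := h k (GlueDatum.unit D k) hunit
  obtain ⟨φ, hφ⟩ := exists_bc_univFamily T O d (GlueDatum.unit D k) L hL hGL
  exact degZero_of_chiConst (helper239.chiConst D) (univFamily T O d) φ
    (helper743.equiv_chi_eq hφ)

/-- **LC5 for one curve.** The universal family over `R₀^{⊗d}` is a bounding family. -/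
theorem exists_bounding_family [IsAlgClosed k]
    (hO : ∀ (B : Type u) [CommRing B] [Algebra k B], (O.obj B).IsRig)
    (hT : ∀ (B : Type u) [CommRing B] [Algebra k B] (G : GlueDatum D B) (p : D.R₀ →ₐ[k] B),
      G.IsRig → (T.tw₀ G p).IsRig)
    (h : PointDecompUniform T O d) :
    ∃ (B₀ : Type u) (_ : CommRing B₀) (_ : Algebra k B₀) (G₀ : GlueDatum D B₀),
      IsDomain B₀ ∧ Algebra.FiniteType k B₀ ∧ G₀.IsRig ∧ G₀.DegZero ∧
      ∀ (K : Type u) [Field K] [IsAlgClosed K] [Algebra k K] (G : GlueDatum D K),
        G.IsRig → G.DegZero → ∃ φ : B₀ →ₐ[k] K, (G₀.baseChange φ).Equiv G := by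
  have hft : Algebra.FiniteType k D.R₀ := helper1800.finiteType₀ D
  refine ⟨Pow k D.R₀ d, inferInstance, inferInstance, univFamily T O d, Pow.isDomain k D.R₀ d,
    Pow.finiteType k D.R₀ d, isRig_univFamily T O d hO hT, degZero_univFamily T O d h,
    fun K _ _ _ G _ hdeg => ?_⟩
  obtain ⟨L, hL, hGL⟩ := h K G hdeg
  exact exists_bc_univFamily T O d G L hL hGL

end Family

/-- **LC5, capstone.** `Stmt_AlgBoundedFT` from: a point-twist structure on `GlueDatum`
preserving rigidifiability, a rigidified base family and the uniform point decomposition. -/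
theorem stmt_AlgBoundedFT_of_decomp
    (h : ∀ (k : Type u) [Field k] [IsAlgClosed k] (D : CurveDatum k),
      ∃ (T : GluePointTwist D) (O : BaseFamily D) (d : ℕ),
        (∀ (B : Type u) [CommRing B] [Algebra k B], (O.obj B).IsRig) ∧
        (∀ (B : Type u) [CommRing B] [Algebra k B] (G : GlueDatum D B) (p : D.R₀ →ₐ[k] B),
          G.IsRig → (T.tw₀ G p).IsRig) ∧
        PointDecompUniform T O d) :
    Stmt_AlgBoundedFT.{u} := by
  intro k _ _ D
  obtain ⟨T, O, d, hO, hT, hd⟩ := h k D
  exact exists_bounding_family T O d hO hT hd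

/-- THE POINT DECOMPOSITION (leaves UV + U9a), the single remaining input of the two algebra
roots LC4 and LC5: for every curve datum over an algebraically closed field there are `m` and
`d` such that, over every algebraically closed extension `K`, every degree-zero two-chart line
bundle is the twist of `𝒪_K(m·D∞)` by exactly `d` points of chart `0`. -/
def Stmt_PointDecomp : Prop :=
  ∀ (k : Type u) [Field k] [IsAlgClosed k] (D : CurveDatum k),
    ∃ (m : ℤ) (d : ℕ), PointDecompUniform (helper622.pointTwist D) (twistFamily D m) d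

/-- **Root LC5** from the point decomposition. -/
theorem stmt_AlgBoundedFT_of_pointDecomp (h : Stmt_PointDecomp.{u}) : Stmt_AlgBoundedFT.{u} :=
  stmt_AlgBoundedFT_of_decomp fun k _ _ D => by
    obtain ⟨m, d, hd⟩ := h k D
    exact ⟨helper622.pointTwist D, twistFamily D m, d, fun B _ _ => isRig_twistFamily D m B,
      fun B _ _ G p hG => helper622.isRig_tw₀ G p hG, hd⟩

/-- **Root LC4** from the point decomposition. -/
theorem stmt_AlgValExistAC_of_pointDecomp (h : Stmt_PointDecomp.{u}) :
    Stmt_AlgValExistAC.{u} :=
  stmt_AlgValExistAC_of_chiConst fun k _ _ D => by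
    obtain ⟨m, d, hd⟩ := h k D
    exact ⟨helper239.chiConst D, helper622.pointTwist D, hd.pointDecomp⟩

end Fermat.Agent.S25.helper985

/-! ## Bridge to the captain's leaf `helper505.Stmt_UniformDecomp`

The leaf (L2) of `helper505_LGWiring` implies `Stmt_PointDecomp`; hence the three roots LC5,
LC4 and `Stmt_FAEZ` follow from (L2) ALONE: the leaf (L1) `helper505.Stmt_ChiDrop` is not
needed, because the degree of the universal family is read off from the constancy of the
fibrewise Euler characteristic (`helper239.chiConst`). -/

namespace Fermat.Agent.S25.helper985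

open Fermat.Agent.S25.helper1705 Fermat.Agent.S25.helper2945 Fermat.Agent.S25.helper7530

theorem stmt_PointDecomp_of_uniformDecomp (h : helper505.Stmt_UniformDecomp.{u}) :
    Stmt_PointDecomp.{u} := by
  intro k _ _ D
  obtain ⟨m, d, -, hdec⟩ := h k D
  refine ⟨m, d, fun K _ _ _ G hG => ?_⟩
  obtain ⟨P, hP⟩ := hdec K G (isRig_of_isLocalRing G) hG
  exact ⟨List.ofFn P, List.length_ofFn, hP.symm⟩

/-- **Root LC5** from the uniform decomposition alone (no `Stmt_ChiDrop`). -/
theorem stmt_AlgBoundedFT_of_uniformDecomp (h : helper505.Stmt_UniformDecomp.{u}) :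
    Stmt_AlgBoundedFT.{u} :=
  stmt_AlgBoundedFT_of_pointDecomp (stmt_PointDecomp_of_uniformDecomp h)

/-- **Root `Stmt_FAEZ`** from the uniform decomposition alone (no `Stmt_ChiDrop`). -/
theorem stmt_FAEZ_of_uniformDecomp (h : helper505.Stmt_UniformDecomp.{u}) :
    helper1705.Stmt_FAEZ.{u} :=
  helper505.stmt_FAEZ_of_boundedFT (stmt_AlgBoundedFT_of_uniformDecomp h)

/-- **Root `Stmt_FAEZ`** from the point decomposition. -/
theorem stmt_FAEZ_of_pointDecomp (h : Stmt_PointDecomp.{u}) : helper1705.Stmt_FAEZ.{u} :=
  helper505.stmt_FAEZ_of_boundedFT (stmt_AlgBoundedFT_of_pointDecomp h)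

end Fermat.Agent.S25.helper985
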