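import Fermat.Agent.S25.helper886_Section
import Fermat.Agent.S25.helper905_UniformH1
import Fermat.Agent.S25.helper985_LGPointDecomp

/-!
# S25, LC5 / LC4 (T1): uniform point decomposition of degree-zero bundles (helper886)

`k` algebraically closed, `D : CurveDatum k`, `n = degInf D`, `g = helper905.genusBound D`.

* `Stmt_Peel` : the peeling statement (S-PEEL) for the point twists `helper622.pointTwist D`:
  a nonzero morphism `τ : G ⟶ N` of two-chart line bundles over an algebraically closed field,
  surjective modulo `y`, exhibits `G` as `N(-P₁ - ⋯ - P_d)`, `d = dim_K (N₀ / τ₀ G₀)`.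
* `pointDecomp_of_peel` : given peeling, there are `m : ℤ` and `d : ℕ` such that every
  degree-zero two-chart line bundle `G` over every algebraically closed field `K` over `k` is
  `𝒪(m·D∞)(-P₁ - ⋯ - P_d)` for `d` points `P_i` of the first chart
  (`m = (g+1)·n - (g+1)`, `d = m·n`).
* `stmt_PointDecomp_of_peel`, and the three roots `stmt_AlgBoundedFT_of_peel`,
  `stmt_AlgValExistAC_of_peel`, `stmt_FAEZ_of_peel` (via the capstone `helper985_LGPointDecomp`).
-/

set_option autoImplicit false

namespace Fermat.Agent.S25.helper886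

open Fermat.Agent.S25.helper1705 Fermat.Agent.S25.helper2945

universe u

/-- **(S-PEEL)** for the point twists `helper622.pointTwist D`. -/
def Stmt_Peel : Prop :=
  ∀ (k : Type u) [Field k] [IsAlgClosed k] (D : CurveDatum k) (K : Type u) [Field K]
    [IsAlgClosed K] [Algebra k K] (G N : GlueDatum D K) (τ : helper8573.Mor G N),
    τ.f₀ ≠ 0 → τ.SurjModY →
    ∃ L : List (D.R₀ →ₐ[k] K), L.length = Module.finrank K (N.M₀ ⧸ LinearMap.range τ.f₀) ∧
      G.Equiv ((helper622.pointTwist D).twList N L)

variable {k : Type u} [Field k] [IsAlgClosed k]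

/-- **T1: uniform point decomposition from peeling.** -/
theorem pointDecomp_of_peel (D : CurveDatum k)
    (hpeel : ∀ (K : Type u) [Field K] [IsAlgClosed K] [Algebra k K] (G N : GlueDatum D K)
      (τ : helper8573.Mor G N), τ.f₀ ≠ 0 → τ.SurjModY →
      ∃ L : List (D.R₀ →ₐ[k] K), L.length = Module.finrank K (N.M₀ ⧸ LinearMap.range τ.f₀) ∧
        G.Equiv ((helper622.pointTwist D).twList N L)) :
    ∃ (m : ℤ) (d : ℕ), ∀ (K : Type u) [Field K] [IsAlgClosed K] [Algebra k K]
      (G : GlueDatum D K), G.DegZero →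
      ∃ L : List (D.R₀ →ₐ[k] K), L.length = d ∧
        G.Equiv ((helper622.pointTwist D).twList (helper3115.twist (GlueDatum.unit D K) m) L) := by
  refine ⟨((helper905.genusBound D : ℤ) + 1) * helper1153.degInf D -
      ((helper905.genusBound D : ℤ) + 1),
    ((((helper905.genusBound D : ℤ) + 1) * helper1153.degInf D -
      ((helper905.genusBound D : ℤ) + 1)) * helper1153.degInf D).toNat, fun K _ _ _ G hG => ?_⟩
  have hv : helper8622.H1TwistVanishes G (((helper905.genusBound D : ℤ) + 1) - 1) :=
    helper905.h1TwistVanishes_of_degZero G hG _ (by omega)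
  obtain ⟨τ, h0, hy, -, hfin⟩ := exists_mor_of_h1 G (helper905.chi_eq_of_degZero G hG) _ hv
  obtain ⟨L, hL, hE⟩ := hpeel K G _ τ h0 hy
  refine ⟨L, ?_, hE⟩
  rw [← hfin, Int.toNat_natCast, hL]

/-- The point decomposition (the single input of the roots LC4, LC5, FAEZ) from peeling. -/
theorem stmt_PointDecomp_of_peel (h : Stmt_Peel.{u}) : helper985.Stmt_PointDecomp.{u} := by
  intro k _ _ D
  obtain ⟨m, d, hd⟩ := pointDecomp_of_peel D (fun K _ _ _ => h k D K)
  exact ⟨m, d, fun K _ _ _ G hG => hd K G hG⟩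

/-- **Root LC5** from peeling. -/
theorem stmt_AlgBoundedFT_of_peel (h : Stmt_Peel.{u}) : helper985.Stmt_AlgBoundedFT.{u} :=
  helper985.stmt_AlgBoundedFT_of_pointDecomp (stmt_PointDecomp_of_peel h)

/-- **Root LC4** from peeling. -/
theorem stmt_AlgValExistAC_of_peel (h : Stmt_Peel.{u}) : helper985.Stmt_AlgValExistAC.{u} :=
  helper985.stmt_AlgValExistAC_of_pointDecomp (stmt_PointDecomp_of_peel h)

/-- **Root `Stmt_FAEZ`** from peeling. -/
theorem stmt_FAEZ_of_peel (h : Stmt_Peel.{u}) : helper1705.Stmt_FAEZ.{u} :=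
  helper985.stmt_FAEZ_of_pointDecomp (stmt_PointDecomp_of_peel h)

end Fermat.Agent.S25.helper886
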