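import Fermat.Agent.S25.helper2734_Peel
import Fermat.Agent.S25.helper886_PointDecomp

/-!
# S25: (S-PEEL) in closed form, and the three roots LC4, LC5, FAEZ as theorems

`helper2734.peel` is `helper886.Stmt_Peel`; the reductions of `helper886_PointDecomp` then give
the point decomposition and the roots `Stmt_AlgBoundedFT`, `Stmt_AlgValExistAC`, `Stmt_FAEZ`.
-/

set_option autoImplicit false

namespace Fermat.Agent.S25.helper2734

universe u

/-- **(S-PEEL)**, closed form. -/
theorem stmt_Peel : helper886.Stmt_Peel.{u} :=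
  fun _ _ _ _ _ _ _ _ G N τ h0 hy => peel G N τ h0 hy

/-- The uniform point decomposition. -/
theorem stmt_PointDecomp : helper985.Stmt_PointDecomp.{u} :=
  helper886.stmt_PointDecomp_of_peel stmt_Peel

/-- **Root LC5.** -/
theorem stmt_AlgBoundedFT : helper985.Stmt_AlgBoundedFT.{u} :=
  helper886.stmt_AlgBoundedFT_of_peel stmt_Peel

/-- **Root LC4.** -/
theorem stmt_AlgValExistAC : helper985.Stmt_AlgValExistAC.{u} :=
  helper886.stmt_AlgValExistAC_of_peel stmt_Peel

/-- **Root `Stmt_FAEZ`.** -/
theorem stmt_FAEZ : helper1705.Stmt_FAEZ.{u} :=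
  helper886.stmt_FAEZ_of_peel stmt_Peel

end Fermat.Agent.S25.helper2734
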