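import Mathlib

/-!
# Global sections of `C ×ₖ T` (generic brick P7 of the S25 project)

Mathlib-only, statement-agnostic.

* `bijective_appTop_of_isProper` : `Γ(C, O_C) = k` for `C` proper integral over an algebraically
  closed field `k`.
* `bijective_app_of_affine` : a morphism `π : Y ⟶ T` with `π.app V` bijective for all *affine*
  opens `V` has `π.app V` bijective for *all* opens `V` (sheaf property).
* `bijective_app_snd` : if `c : C ⟶ Spec k` is quasi-compact and quasi-separated with
  `Γ(Spec k) → Γ(C, ⊤)` bijective, then for every `t : T ⟶ Spec k` and every open `V` of `T`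
  the map `Γ(T, V) → Γ(C ×ₖ T, pr₂⁻¹ V)` is bijective (flat base change of sections).
* `bijective_app_snd_of_isProper` : the same for `C` proper integral over algebraically closed `k`.
-/

set_option autoImplicit false
universe u
open CategoryTheory CategoryTheory.Limits AlgebraicGeometry TopologicalSpace

namespace Fermat.Agent.S25.helper9610

/-- `Γ(C, O_C) = k` for `C` proper and integral over an algebraically closed field `k`. -/
theorem bijective_appTop_of_isProper (k : Type u) [Field k] [IsAlgClosed k] {C : Scheme.{u}}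
    (c : C ⟶ Spec (CommRingCat.of k)) [IsProper c] [IsIntegral C] :
    Function.Bijective c.appTop.hom := by
  have hfin := finite_appTop_of_universallyClosed k c
  have hfld := isField_of_universallyClosed k c
  let F : CommRingCat.of k ⟶ Γ(C, ⊤) := (Scheme.ΓSpecIso _).inv ≫ c.appTop
  have hF : F.hom.Finite := by
    apply RingHom.finite_respectsIso.2 (e := (Scheme.ΓSpecIso _).symm.commRingCatIsoToRingEquiv)
    exact hfin
  have hFb : Function.Bijective F.hom := by
    algebraize [F.hom]
    let := hfld.toField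
    have : Algebra.IsIntegral k Γ(C, ⊤) := Algebra.IsIntegral.of_finite k _
    exact IsAlgClosed.algebraMap_bijective_of_isIntegral
  have : c.appTop = (Scheme.ΓSpecIso _).hom ≫ F := by simp [F]
  rw [this]
  simp only [CommRingCat.hom_comp, RingHom.coe_comp]
  exact hFb.comp (ConcreteCategory.bijective_of_isIso (Scheme.ΓSpecIso (CommRingCat.of k)).hom)

/-- Naturality of `π.app` with respect to restriction, on elements. -/
theorem app_map_apply {Y T : Scheme.{u}} (π : Y ⟶ T) {V W : T.Opens} (hWV : W ≤ V)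
    (s : Γ(T, V)) :
    (π.app W).hom ((T.presheaf.map (homOfLE hWV).op).hom s) =
      (Y.presheaf.map (homOfLE (show π ⁻¹ᵁ W ≤ π ⁻¹ᵁ V from fun _ hx => hWV hx)).op).hom
        ((π.app V).hom s) := by
  have nat := congrArg (fun f => f.hom s) (π.naturality (homOfLE hWV).op)
  simp only [CommRingCat.hom_comp, RingHom.coe_comp, Function.comp_apply] at nat
  exact nat

/-- If `π.app V` is injective on affine opens, it is injective on all opens. -/
theorem injective_app_of_affine {Y T : Scheme.{u}} (π : Y ⟶ T)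
    (h : ∀ V : T.Opens, IsAffineOpen V → Function.Injective (π.app V).hom) (V : T.Opens) :
    Function.Injective (π.app V).hom := by
  intro s s' hss'
  let ι := {W : T.Opens // IsAffineOpen W ∧ W ≤ V}
  refine TopCat.Sheaf.eq_of_locally_eq' T.sheaf (fun i : ι => i.1) V (fun i => homOfLE i.2.2)
    ?_ s s' ?_
  · intro x hx
    obtain ⟨_, ⟨W, hW, rfl⟩, hxW, hWV⟩ :=
      T.isBasis_affineOpens.exists_subset_of_mem_open hx V.2
    exact Opens.mem_iSup.mpr ⟨⟨W, hW, hWV⟩, hxW⟩
  · intro i
    apply h i.1 i.2.1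
    have e1 := app_map_apply π i.2.2 s
    have e2 := app_map_apply π i.2.2 s'
    rw [hss'] at e1
    exact e1.trans e2.symm

/-- If `π.app V` is bijective on affine opens, it is bijective on all opens. -/
theorem bijective_app_of_affine {Y T : Scheme.{u}} (π : Y ⟶ T)
    (h : ∀ V : T.Opens, IsAffineOpen V → Function.Bijective (π.app V).hom) (V : T.Opens) :
    Function.Bijective (π.app V).hom := by
  have hinj : ∀ V : T.Opens, Function.Injective (π.app V).hom :=
    injective_app_of_affine π (fun V hV => (h V hV).1)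
  refine ⟨hinj V, fun s' => ?_⟩
  let ι := {W : T.Opens // IsAffineOpen W ∧ W ≤ V}
  have hcov : V ≤ ⨆ i : ι, i.1 := by
    intro x hx
    obtain ⟨_, ⟨W, hW, rfl⟩, hxW, hWV⟩ :=
      T.isBasis_affineOpens.exists_subset_of_mem_open hx V.2
    exact Opens.mem_iSup.mpr ⟨⟨W, hW, hWV⟩, hxW⟩
  have hle : ∀ i : ι, π ⁻¹ᵁ i.1 ≤ π ⁻¹ᵁ V := fun i _ hx => i.2.2 hx
  have hcov' : π ⁻¹ᵁ V ≤ ⨆ i : ι, π ⁻¹ᵁ i.1 := by
    intro y hy
    obtain ⟨i, hi⟩ := Opens.mem_iSup.mp (hcov hy)
    exact Opens.mem_iSup.mpr ⟨i, hi⟩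
  choose sf hsf using fun i : ι =>
    (h i.1 i.2.1).2 ((Y.presheaf.map (homOfLE (hle i)).op).hom s')
  have hcompat : TopCat.Presheaf.IsCompatible T.sheaf.obj (fun i : ι => i.1) sf := by
    intro i j
    apply hinj (i.1 ⊓ j.1)
    erw [app_map_apply π inf_le_left (sf i), app_map_apply π inf_le_right (sf j)]
    rw [hsf, hsf]
    simp only [← CommRingCat.comp_apply, ← Functor.map_comp]
    rfl
  obtain ⟨s, hs, -⟩ := TopCat.Sheaf.existsUnique_gluing' T.sheaf (fun i : ι => i.1) V
    (fun i => homOfLE i.2.2) hcov sf hcompat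
  refine ⟨s, ?_⟩
  refine TopCat.Sheaf.eq_of_locally_eq' Y.sheaf (fun i : ι => π ⁻¹ᵁ i.1) (π ⁻¹ᵁ V)
    (fun i => homOfLE (hle i)) hcov' _ _ ?_
  intro i
  have := app_map_apply π i.2.2 s
  erw [hs i] at this
  rw [hsf] at this
  exact this.symm

/-- Flat base change of global sections, affine case: if `c : C ⟶ Spec k` is qcqs with
`Γ(Spec k) → Γ(C, ⊤)` bijective, then `Γ(T, V) → Γ(C ×ₖ T, pr₂⁻¹ V)` is bijective for every
affine open `V` of any `k`-scheme `T`. -/
theorem bijective_app_snd_of_isAffineOpen {k : Type u} [Field k] {C T : Scheme.{u}}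
    (c : C ⟶ Spec (CommRingCat.of k)) [QuasiCompact c] [QuasiSeparated c]
    (hc : Function.Bijective c.appTop.hom) (t : T ⟶ Spec (CommRingCat.of k))
    {V : T.Opens} (hV : IsAffineOpen V) :
    Function.Bijective ((pullback.snd c t).app V).hom := by
  have H : IsPullback (pullback.fst c t) (pullback.snd c t) c t := IsPullback.of_hasPullback c t
  have hUST : V ≤ t ⁻¹ᵁ ⊤ := le_top
  have hUSX : (⊤ : C.Opens) ≤ c ⁻¹ᵁ ⊤ := le_top
  have hUY : (pullback.snd c t) ⁻¹ᵁ V = (pullback.fst c t) ⁻¹ᵁ ⊤ ⊓ (pullback.snd c t) ⁻¹ᵁ V := by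
    simp
  have : CompactSpace C := (quasiCompact_iff_compactSpace c).mp inferInstance
  have : QuasiSeparatedSpace C := (quasiSeparated_iff_quasiSeparatedSpace c).mp inferInstance
  have h1 : IsIso (pushoutSection H hUST hUSX hUY) :=
    isIso_pushoutSection_of_isQuasiSeparated_of_flat_right H hUST hUSX hUY
      (isAffineOpen_top _) hV isCompact_univ (isQuasiSeparated_univ)
  have h2 : IsIso (c.appLE ⊤ ⊤ hUSX) := by
    have : c.appLE ⊤ ⊤ hUSX = c.appTop := by simp [Scheme.Hom.appTop, Scheme.Hom.app_eq_appLE]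
    rw [this]
    exact (ConcreteCategory.isIso_iff_bijective _).mpr hc
  have h3 : IsIso (pushout.inr (c.appLE ⊤ ⊤ hUSX) (t.appLE ⊤ V hUST)) := inferInstance
  have h4 : (pullback.snd c t).app V =
      pushout.inr (c.appLE ⊤ ⊤ hUSX) (t.appLE ⊤ V hUST) ≫ pushoutSection H hUST hUSX hUY := by
    rw [pushout.inr_desc, Scheme.Hom.app_eq_appLE]
  rw [h4]
  exact ConcreteCategory.bijective_of_isIso _

/-- Global sections of `C ×ₖ T` over `pr₂⁻¹ V` are `Γ(T, V)`, for every open `V`: if
`c : C ⟶ Spec k` is qcqs with `Γ(Spec k) → Γ(C, ⊤)` bijective, then for every `k`-scheme `T` and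
every open `V ⊆ T` the map `Γ(T, V) → Γ(C ×ₖ T, pr₂⁻¹ V)` is bijective. -/
theorem bijective_app_snd {k : Type u} [Field k] {C T : Scheme.{u}}
    (c : C ⟶ Spec (CommRingCat.of k)) [QuasiCompact c] [QuasiSeparated c]
    (hc : Function.Bijective c.appTop.hom) (t : T ⟶ Spec (CommRingCat.of k)) (V : T.Opens) :
    Function.Bijective ((pullback.snd c t).app V).hom :=
  bijective_app_of_affine (pullback.snd c t)
    (fun _ hV => bijective_app_snd_of_isAffineOpen c hc t hV) V

/-- For `C` proper integral over an algebraically closed field `k`, every `k`-scheme `T` and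
every open `V ⊆ T`: `Γ(T, V) → Γ(C ×ₖ T, pr₂⁻¹ V)` is bijective. -/
theorem bijective_app_snd_of_isProper (k : Type u) [Field k] [IsAlgClosed k] {C T : Scheme.{u}}
    (c : C ⟶ Spec (CommRingCat.of k)) [IsProper c] [IsIntegral C]
    (t : T ⟶ Spec (CommRingCat.of k)) (V : T.Opens) :
    Function.Bijective ((pullback.snd c t).app V).hom :=
  bijective_app_snd c (bijective_appTop_of_isProper k c) t V

/-- Global-sections form: `Γ(T, ⊤) → Γ(C ×ₖ T, ⊤)` is bijective. -/
theorem bijective_appTop_snd_of_isProper (k : Type u) [Field k] [IsAlgClosed k] {C T : Scheme.{u}}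
    (c : C ⟶ Spec (CommRingCat.of k)) [IsProper c] [IsIntegral C]
    (t : T ⟶ Spec (CommRingCat.of k)) :
    Function.Bijective (pullback.snd c t).appTop.hom :=
  bijective_app_snd_of_isProper k c t ⊤

/-- `IsIso` form of `bijective_app_snd_of_isProper`. -/
theorem isIso_app_snd_of_isProper (k : Type u) [Field k] [IsAlgClosed k] {C T : Scheme.{u}}
    (c : C ⟶ Spec (CommRingCat.of k)) [IsProper c] [IsIntegral C]
    (t : T ⟶ Spec (CommRingCat.of k)) (V : T.Opens) :
    IsIso ((pullback.snd c t).app V) :=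
  (ConcreteCategory.isIso_iff_bijective _).mpr (bijective_app_snd_of_isProper k c t V)

end Fermat.Agent.S25.helper9610
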