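import Fermat.Agent.S25.helper2952_Sep
import Fermat.Agent.S25.helper9610_GammaProd
import Fermat.Agent.S25.helper1705_Spec2
set_option autoImplicit false

open CategoryTheory CategoryTheory.Limits Opposite TopologicalSpace AlgebraicGeometry
  AlgebraicGeometry.RelPicard NeronModelInfra

universe u

noncomputable section

namespace Fermat.Agent.S25.helper2952

/-! ### Restriction to an open immersion, sectionwise -/

section Restrict

variable {X Y : Scheme.{u}} (j : Y ⟶ X) [IsOpenImmersion j]

theorem le_image_preimage {W : X.Opens} (hW : W ≤ j.opensRange) : W ≤ j ''ᵁ j ⁻¹ᵁ W := by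
  rw [Scheme.Hom.image_preimage_eq_opensRange_inf]
  exact le_inf hW le_rfl

/-- A section of `M` over `j(U)`, as a section of the restriction over `U`. -/
def toR (M : X.Modules) {U : Y.Opens} (m : Γ(M, j ''ᵁ U)) : Γ(M.restrict j, U) := m

/-- A section of the restriction over `U`, as a section of `M` over `j(U)`. -/
def ofR (M : X.Modules) {U : Y.Opens} (m : Γ(M.restrict j, U)) : Γ(M, j ''ᵁ U) := m

theorem toR_ofR (M : X.Modules) {U : Y.Opens} (m : Γ(M.restrict j, U)) :
    toR j M (ofR j M m) = m := rfl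

theorem ofR_toR (M : X.Modules) {U : Y.Opens} (m : Γ(M, j ''ᵁ U)) :
    ofR j M (toR j M m) = m := rfl

theorem toR_add (M : X.Modules) {U : Y.Opens} (m m' : Γ(M, j ''ᵁ U)) :
    toR j M (m + m') = toR j M m + toR j M m' := rfl

theorem ofR_add (M : X.Modules) {U : Y.Opens} (m m' : Γ(M.restrict j, U)) :
    ofR j M (m + m') = ofR j M m + ofR j M m' := rfl

theorem res_toR (M : X.Modules) {U U' : Y.Opens} (h : U' ≤ U) (m : Γ(M, j ''ᵁ U)) :
    res (M.restrict j) h (toR j M m) = toR j M (res M (j.image_mono h) m) := rfl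

theorem smul_toR (M : X.Modules) {U : Y.Opens} (r : Γ(Y, U)) (m : Γ(M, j ''ᵁ U)) :
    r • toR j M m = toR j M ((j.appIso U).inv r • m) := rfl


variable {M N : X.Modules}

/-- Naturality of a morphism of modules with respect to restriction. -/
theorem hom_res {X : Scheme.{u}} {M N : X.Modules} (φ : M ⟶ N) {V V' : X.Opens} (h : V' ≤ V)
    (m : Γ(M, V)) : φ.app V' (res M h m) = res N h (φ.app V m) :=
  (SecHom.ofHom φ ⊤).map_res V V' le_top h m

/-- A morphism between the restrictions of two modules to an open subscheme, as a local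
homomorphism over the range. -/
def secHomOfRestrict (φ : M.restrict j ⟶ N.restrict j) : SecHom M N j.opensRange where
  toFun W hW := AddMonoidHom.mk'
    (fun m => res N (le_image_preimage j hW)
      (ofR j N (φ.app (j ⁻¹ᵁ W) (toR j M (res M (j.image_preimage_le W) m)))))
    (fun m m' => by rw [map_add, toR_add, map_add, ofR_add, map_add])
  map_res W W' hW h m := by
    simp only [AddMonoidHom.mk'_apply]
    have h' : j ⁻¹ᵁ W' ≤ j ⁻¹ᵁ W := preimage_mono j h
    have e1 : toR j M (res M (j.image_preimage_le W') (res M h m)) =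
        res (M.restrict j) h' (toR j M (res M (j.image_preimage_le W) m)) := by
      rw [res_toR, res_res, res_res]
    rw [e1, hom_res, res_res]
    have e2 : ∀ n : Γ(N.restrict j, j ⁻¹ᵁ W),
        ofR j N (res (N.restrict j) h' n) = res N (j.image_mono h') (ofR j N n) := fun _ => rfl
    rw [e2, res_res]
  map_smul W hW r m := by
    simp only [AddMonoidHom.mk'_apply]
    have hr : (j.appIso (j ⁻¹ᵁ W)).inv ((j.appIso (j ⁻¹ᵁ W)).hom
        (resO X (j.image_preimage_le W) r)) = resO X (j.image_preimage_le W) r :=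
      congr($((j.appIso (j ⁻¹ᵁ W)).hom_inv_id) (resO X (j.image_preimage_le W) r))
    have e1 : toR j M (res M (j.image_preimage_le W) (r • m)) =
        (j.appIso (j ⁻¹ᵁ W)).hom (resO X (j.image_preimage_le W) r) •
          toR j M (res M (j.image_preimage_le W) m) := by
      rw [smul_toR, hr, res_smul]
    rw [e1, Scheme.Modules.Hom.app_smul]
    have e2 : ∀ (s : Γ(Y, j ⁻¹ᵁ W)) (n : Γ(N.restrict j, j ⁻¹ᵁ W)),
        ofR j N (s • n) = (j.appIso (j ⁻¹ᵁ W)).inv s • ofR j N n := fun _ _ => rfl
    rw [e2, hr, res_smul, resO_resO, resO_self]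

theorem secHomOfRestrict_toFun (φ : M.restrict j ⟶ N.restrict j) (W : X.Opens)
    (hW : W ≤ j.opensRange) (m : Γ(M, W)) :
    (secHomOfRestrict j φ).toFun W hW m = res N (le_image_preimage j hW)
      (ofR j N (φ.app (j ⁻¹ᵁ W) (toR j M (res M (j.image_preimage_le W) m)))) := rfl

/-- The local homomorphisms attached to an isomorphism of restrictions are inverse to each
other. -/
theorem secHomOfRestrict_inv_hom (e : M.restrict j ≅ N.restrict j) (W : X.Opens)
    (hW : W ≤ j.opensRange) (m : Γ(M, W)) :
    (secHomOfRestrict j e.inv).toFun W hW ((secHomOfRestrict j e.hom).toFun W hW m) = m := by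
  rw [secHomOfRestrict_toFun, secHomOfRestrict_toFun, res_res, res_self, toR_ofR]
  have h1 : e.inv.app (j ⁻¹ᵁ W) (e.hom.app (j ⁻¹ᵁ W)
      (toR j M (res M (j.image_preimage_le W) m))) = toR j M (res M (j.image_preimage_le W) m) :=
    congrArg (fun f : M.restrict j ⟶ M.restrict j =>
      f.app (j ⁻¹ᵁ W) (toR j M (res M (j.image_preimage_le W) m))) e.hom_inv_id
  rw [h1, ofR_toR, res_res, res_self]

/-- Transport of an isomorphism of pullbacks along an open immersion to the restrictions. -/
def restrictIsoOfPullbackIso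
    (e : (Scheme.Modules.pullback j).obj M ≅ (Scheme.Modules.pullback j).obj N) :
    M.restrict j ≅ N.restrict j :=
  (Scheme.Modules.restrictFunctorIsoPullback j).app M ≪≫ e ≪≫
    ((Scheme.Modules.restrictFunctorIsoPullback j).app N).symm

end Restrict

/-- A module which is locally isomorphic to the structure sheaf is locally monogenic. -/
theorem locGen_of_trivializations {X : Scheme.{u}} (M : X.Modules)
    (h : ∀ x : X, ∃ U : X.Opens, x ∈ U ∧
      Nonempty ((Scheme.Modules.pullback U.ι).obj M ≅ OO U.toScheme)) : LocGen M ⊤ := by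
  intro x _
  obtain ⟨U, hxU, ⟨e⟩⟩ := h x
  let e2 : M.restrict U.ι ≅ (OO X).restrict U.ι :=
    (Scheme.Modules.restrictFunctorIsoPullback U.ι).app M ≪≫ e ≪≫
      (Scheme.Modules.restrictUnitIso U.ι).symm
  refine ⟨U.ι.opensRange, le_top, ?_, _,
    isGenerator_of_secIso (secHomOfRestrict U.ι e2.hom) (secHomOfRestrict U.ι e2.inv)
      (secHomOfRestrict_inv_hom U.ι e2) (secHomOfRestrict_inv_hom U.ι e2.symm)⟩
  rw [Scheme.Opens.opensRange_ι]
  exact hxU

/-! ### The frozen-vocabulary statement -/

section Wrapper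

variable {R : Type u} [CommRing R] {C : Scheme.{u}} (c : C ⟶ Spec (CommRingCat.of R))
  (ε : SchemeHomOver (𝟙 (Spec (CommRingCat.of R))) c)

instance isOpenImmersion_baseChangeSnd {T T' : Scheme.{u}} {t : T ⟶ Spec (CommRingCat.of R)}
    {t' : T' ⟶ Spec (CommRingCat.of R)} (s : SchemeHomOver t' t) [IsOpenImmersion s.1] :
    IsOpenImmersion (baseChangeSnd c s) := by
  unfold baseChangeSnd
  infer_instance

theorem opensRange_baseChangeSnd {T T' : Scheme.{u}} {t : T ⟶ Spec (CommRingCat.of R)}
    {t' : T' ⟶ Spec (CommRingCat.of R)} (s : SchemeHomOver t' t) [IsOpenImmersion s.1] :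
    (baseChangeSnd c s).opensRange = (pullback.snd c t) ⁻¹ᵁ s.1.opensRange := by
  apply TopologicalSpace.Opens.ext
  have h := Scheme.Pullback.range_map (f := c) (g := t') c t (𝟙 C) s.1 (𝟙 _)
    ((Category.comp_id c).trans (Category.id_comp c).symm) ((Category.comp_id t').trans s.2.symm)
  change Set.range (baseChangeSnd c s) = (pullback.snd c t) ⁻¹' Set.range s.1
  unfold baseChangeSnd
  rw [h]
  simp

/-- **Separatedness of the rigidified Picard functor**, general form: if all functions on
`pr₂⁻¹ V ⊆ C ×_R T` come from `V`, then rigidified line bundles on `C ×_R T` which are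
isomorphic locally on `T` are isomorphic. -/
theorem locIso_of_surjective
    (hΓ : ∀ {T : Scheme.{u}} (t : T ⟶ Spec (CommRingCat.of R)) (V : T.Opens),
      Function.Surjective ((pullback.snd c t).app V)) :
    helper1705.LocIso c ε := by
  intro T t M M' 𝒰 hloc
  obtain ⟨ρ⟩ := M.rigidified
  obtain ⟨ρ'⟩ := M'.rigidified
  have hσ : rigSection c t ε ≫ pullback.snd c t = 𝟙 T := pullback.lift_snd _ _ _
  have hM : LocGen M.L ⊤ := locGen_of_trivializations M.L M.isInvertible.exists_trivialization
  let V : 𝒰.I₀ → T.Opens := fun i => (𝒰.f i).opensRange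
  have hV : ⨆ i, V i = ⊤ := 𝒰.iSup_opensRange
  let s : ∀ i, SchemeHomOver (𝒰.f i ≫ t) t := fun i => ⟨𝒰.f i, rfl⟩
  have : ∀ i, IsOpenImmersion (s i).1 := fun i => inferInstanceAs (IsOpenImmersion (𝒰.f i))
  have hrange : ∀ i, (baseChangeSnd c (s i)).opensRange = (pullback.snd c t) ⁻¹ᵁ V i :=
    fun i => opensRange_baseChangeSnd c (s i)
  have he : ∀ i, Nonempty ((M.L).restrict (baseChangeSnd c (s i)) ≅
      (M'.L).restrict (baseChangeSnd c (s i))) := by
    intro i
    obtain ⟨e⟩ := hloc i
    exact ⟨restrictIsoOfPullbackIso (baseChangeSnd c (s i)) e⟩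
  choose e _ using fun i => exists_true_iff_nonempty.mpr (he i)
  exact sep_core (pullback.snd c t) (rigSection c t ε) hσ (hΓ t) hM ρ ρ' V hV
    (fun i => (secHomOfRestrict (baseChangeSnd c (s i)) (e i).hom).restrict (hrange i).ge)
    (fun i => (secHomOfRestrict (baseChangeSnd c (s i)) (e i).inv).restrict (hrange i).ge)
    (fun i W hW m => secHomOfRestrict_inv_hom (baseChangeSnd c (s i)) (e i) W
      (hW.trans (hrange i).ge) m)
    (fun i W hW n => secHomOfRestrict_inv_hom (baseChangeSnd c (s i)) (e i).symm W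
      (hW.trans (hrange i).ge) n)

end Wrapper

/-- **LOC-ISO for the curve** (leaf L0-LOCISO of the S25 specification). -/
theorem stmt_LocIso : helper1705.Stmt_LocIso.{u} := by
  intro k _ C c hc ε
  have := hc.algClosed
  have := hc.proper
  have := hc.integral
  exact @locIso_of_surjective k _ C c ε
    (fun t V => (helper9610.bijective_app_snd_of_isProper k c t V).2)

end Fermat.Agent.S25.helper2952
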