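/-
S25 generic brick P6, part 1 (helper2321): multiplication by a global function on an
`𝒪_X`-module, as a central endomorphism, and its compatibility with pushforward, pullback and
restriction.  Mathlib-only.  All declarations live in `Fermat.Agent.S25.helper2321`.

* `resTop X U : Γ(X, ⊤) →+* Γ(X, U)`  (restriction of global functions)
* `smulHom M r : M ⟶ M` for `M : X.Modules`, `r : Γ(X, ⊤)`;
  `smulHom_app_apply : (smulHom M r).app U m = resTop X U r • m`
* `smulHom_one/mul/add/zero`, `smulEnd M : Γ(X, ⊤) →+* End M`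
* `smulHom_comm : smulHom M r ≫ φ = φ ≫ smulHom N r`   (centrality)
* `pushforward_map_smulHom : (pushforward f).map (smulHom N (f.appTop r)) = smulHom (f_* N) r`
* `pullback_map_smulHom : (pullback f).map (smulHom M r) = smulHom (f^* M) (f.appTop r)`
* `restrict_map_smulHom : (restrictFunctor j).map (smulHom M r) = smulHom (M.restrict j) (j.appTop r)`
-/
import Mathlib

set_option autoImplicit false

universe u

open CategoryTheory AlgebraicGeometry TopologicalSpace Opposite

namespace Fermat.Agent.S25.helper2321

noncomputable section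

variable {X Y : Scheme.{u}}

/-- restriction of a global function to an open -/
def resTop (X : Scheme.{u}) (U : X.Opens) : Γ(X, ⊤) →+* Γ(X, U) :=
  (X.presheaf.map (homOfLE (le_top : U ≤ ⊤)).op).hom

lemma resTop_apply (U : X.Opens) (r : Γ(X, ⊤)) :
    resTop X U r = X.presheaf.map (homOfLE (le_top : U ≤ ⊤)).op r := rfl

lemma map_resTop {U V : X.Opens} (i : U ⟶ V) (r : Γ(X, ⊤)) :
    X.presheaf.map i.op (resTop X V r) = resTop X U r := by
  simp only [resTop_apply, ← ConcreteCategory.comp_apply, ← Functor.map_comp]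
  rfl

/-- Multiplication by a global function, as a morphism of abelian presheaves. -/
def smulPresheafHom (M : X.Modules) (r : Γ(X, ⊤)) : M.presheaf ⟶ M.presheaf where
  app U := M.smul (resTop X U.unop r)
  naturality U V i := by
    have := Scheme.Modules.map_comp_smul (M := M) i.unop (resTop X U.unop r)
    rw [map_resTop] at this
    exact this.symm

/-- Multiplication by a global function `r ∈ Γ(X, ⊤)` as an endomorphism of an `𝒪_X`-module. -/
def smulHom (M : X.Modules) (r : Γ(X, ⊤)) : M ⟶ M :=
  ⟨PresheafOfModules.homMk (smulPresheafHom M r) (by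
    intro U s m
    let s' : Γ(X, U.unop) := s
    let m' : Γ(M, U.unop) := m
    change resTop X U.unop r • (s' • m') = s' • (resTop X U.unop r • m')
    rw [smul_smul, smul_smul, mul_comm])⟩

@[simp]
lemma smulHom_app (M : X.Modules) (r : Γ(X, ⊤)) (U : X.Opens) :
    (smulHom M r).app U = M.smul (resTop X U r) := rfl

lemma smulHom_app_apply (M : X.Modules) (r : Γ(X, ⊤)) (U : X.Opens) (m : Γ(M, U)) :
    (smulHom M r).app U m = resTop X U r • m := rfl

lemma smulHom_one (M : X.Modules) : smulHom M 1 = 𝟙 M := by
  ext U m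
  change resTop X U 1 • m = m
  rw [map_one, one_smul]

lemma smulHom_mul (M : X.Modules) (r s : Γ(X, ⊤)) :
    smulHom M (r * s) = smulHom M s ≫ smulHom M r := by
  ext U m
  change resTop X U (r * s) • m = resTop X U r • (resTop X U s • m)
  rw [map_mul, mul_smul]

lemma smulHom_add (M : X.Modules) (r s : Γ(X, ⊤)) :
    smulHom M (r + s) = smulHom M r + smulHom M s := by
  ext U m
  change resTop X U (r + s) • m = resTop X U r • m + resTop X U s • m
  rw [map_add, add_smul]

lemma smulHom_zero (M : X.Modules) : smulHom M 0 = 0 := by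
  ext U m
  change resTop X U 0 • m = 0
  rw [map_zero, zero_smul]

/-- `smulHom` is central: it commutes with every morphism of modules. -/
@[reassoc]
lemma smulHom_comm {M N : X.Modules} (φ : M ⟶ N) (r : Γ(X, ⊤)) :
    smulHom M r ≫ φ = φ ≫ smulHom N r := by
  ext U m
  change φ.app U (resTop X U r • m) = resTop X U r • φ.app U m
  rw [Scheme.Modules.Hom.app_smul]

/-- The ring homomorphism `Γ(X, ⊤) →+* End M`. -/
def smulEnd (M : X.Modules) : Γ(X, ⊤) →+* End M where
  toFun r := smulHom M r
  map_one' := smulHom_one M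
  map_mul' r s := smulHom_mul M r s
  map_zero' := smulHom_zero M
  map_add' r s := smulHom_add M r s

@[simp] lemma smulEnd_apply (M : X.Modules) (r : Γ(X, ⊤)) : smulEnd M r = smulHom M r := rfl


/-- The module structure on sections of a pushforward is through `f.app`. -/
lemma pushforward_smul_eq (f : Y ⟶ X) (N : Y.Modules) (U : X.Opens) (r : Γ(X, U))
    (m : Γ((Scheme.Modules.pushforward f).obj N, U)) :
    r • m = (show Γ(N, f ⁻¹ᵁ U) from (f.app U r • (show Γ(N, f ⁻¹ᵁ U) from m))) := rfl

lemma app_resTop (f : Y ⟶ X) (U : X.Opens) (r : Γ(X, ⊤)) :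
    f.app U (resTop X U r) = resTop Y (f ⁻¹ᵁ U) (f.appTop r) := by
  have := f.naturality (homOfLE (le_top : U ≤ ⊤)).op
  exact congr($this r)

lemma pushforward_map_smulHom (f : Y ⟶ X) (N : Y.Modules) (r : Γ(X, ⊤)) :
    (Scheme.Modules.pushforward f).map (smulHom N (f.appTop r)) =
      smulHom ((Scheme.Modules.pushforward f).obj N) r := by
  ext U m
  change resTop Y (f ⁻¹ᵁ U) (f.appTop r) • (show Γ(N, f ⁻¹ᵁ U) from m) = resTop X U r • m
  rw [pushforward_smul_eq, app_resTop]

/-- Pullback of multiplication by `r` is multiplication by `f^♯ r`. -/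
lemma pullback_map_smulHom (f : Y ⟶ X) (M : X.Modules) (r : Γ(X, ⊤)) :
    (Scheme.Modules.pullback f).map (smulHom M r) =
      smulHom ((Scheme.Modules.pullback f).obj M) (f.appTop r) := by
  apply ((Scheme.Modules.pullbackPushforwardAdjunction f).homEquiv _ _).injective
  rw [Adjunction.homEquiv_unit, Adjunction.homEquiv_unit, pushforward_map_smulHom]
  have h1 := (Scheme.Modules.pullbackPushforwardAdjunction f).unit.naturality (smulHom M r)
  have h2 := smulHom_comm ((Scheme.Modules.pullbackPushforwardAdjunction f).unit.app M) r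
  exact h1.symm.trans h2


lemma appIso_inv_resTop {V : Scheme.{u}} (j : V ⟶ X) [IsOpenImmersion j] (U : V.Opens)
    (r : Γ(X, ⊤)) :
    (j.appIso U).inv (resTop V U (j.appTop r)) = resTop X (j ''ᵁ U) r := by
  have h := Scheme.Hom.appLE_appIso_inv j (U := ⊤) (V := U) le_top
  exact congr($h r)

lemma restrictFunctor_map_app {V : Scheme.{u}} (j : V ⟶ X) [IsOpenImmersion j] {M N : X.Modules}
    (φ : M ⟶ N) (U : V.Opens) :
    ((Scheme.Modules.restrictFunctor j).map φ).app U = φ.app (j ''ᵁ U) := rfl

lemma restrict_smul {V : Scheme.{u}} (j : V ⟶ X) [IsOpenImmersion j] (M : X.Modules)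
    (U : V.Opens) (r : Γ(V, U)) :
    (M.restrict j).smul r = M.smul ((j.appIso U).inv r) := rfl

/-- Restriction of multiplication by `r` is multiplication by `j^♯ r`. -/
lemma restrict_map_smulHom {V : Scheme.{u}} (j : V ⟶ X) [IsOpenImmersion j] (M : X.Modules)
    (r : Γ(X, ⊤)) :
    (Scheme.Modules.restrictFunctor j).map (smulHom M r) =
      smulHom (M.restrict j) (j.appTop r) := by
  apply Scheme.Modules.hom_ext
  intro U
  rw [restrictFunctor_map_app, smulHom_app, smulHom_app, restrict_smul, appIso_inv_resTop]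

end

end Fermat.Agent.S25.helper2321
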