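/-
S25 generic brick P6, part 2 (helper2321): `End L = Γ(X, 𝒪_X)` for an invertible `𝒪_X`-module.
Imports Mathlib, the Prelude definition module of `Scheme.Modules.IsInvertible`, and
`helper2321_SmulHom`.  All declarations live in `Fermat.Agent.S25.helper2321`.

* `IsGenOn M U g` : `g ∈ Γ(M, U)` restricts to a basis of `Γ(M, V)` over `Γ(X, V)` for all `V ≤ U`
* `exists_isGenOn_of_iso_unit M U (e : (pullback U.ι).obj M ≅ unit) : ∃ g, IsGenOn M U g`
* `IsGenOn.app_eq_smul` : an endomorphism acts on all `V ≤ U` by one scalar of `Γ(X, U)`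
* `smulHom_injective_of_gen`, `smulHom_surjective_of_gen`, `smulEnd_bijective_of_gen`
* `smulEnd_bijective_of_locally_trivial`, `smulEnd_bijective L (hL : IsInvertible L) :
    Function.Bijective (smulEnd L)`
* `existsUnique_smulHom`, `existsUnique_unit_smulHom` (automorphisms = global units),
  `existsUnique_unit_smulHom_comp` (two isos `L ≅ N` differ by a unique global unit), `smulIso`
* converse bridge: `unitToRestrict M U g : 𝒪_U ⟶ M|_U`, `isIso_unitToRestrict` (for `IsGenOn`),
  `restrictIsoUnitOfIsGenOn`, `pullbackIsoUnitOfIsGenOn`, `isInvertible_of_gen`,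
  `isInvertible_iff_gen : IsInvertible M ↔ ∀ x, ∃ U g, x ∈ U ∧ IsGenOn M U g`
* `IsGenOn.mono`, `IsGenOn.of_iso`, `isGenOn_unit`
-/
import Mathlib
import Fermat.Prelude.Def_AlgebraicGeometry_RelativePicardFunctor
import Fermat.Agent.S25.helper2321_SmulHom

set_option autoImplicit false

universe u

open CategoryTheory AlgebraicGeometry TopologicalSpace Opposite

namespace Fermat.Agent.S25.helper2321

noncomputable section

variable {X : Scheme.{u}}

/-- Elementwise naturality of a morphism of modules with respect to restriction. -/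
lemma app_map_apply {M N : X.Modules} (φ : M ⟶ N) {U V : X.Opens} (i : U ⟶ V) (m : Γ(M, V)) :
    φ.app U (M.presheaf.map i.op m) = N.presheaf.map i.op (φ.app V m) := by
  have := φ.mapPresheaf.naturality i.op
  exact congr($this m)

/-- `g ∈ Γ(M, U)` is a *generator of `M` on `U`* if for every open `V ≤ U` the restriction
`g|_V` is a basis of `Γ(M, V)` over `Γ(X, V)`. -/
def IsGenOn (M : X.Modules) (U : X.Opens) (g : Γ(M, U)) : Prop :=
  ∀ (V : X.Opens) (h : V ≤ U),
    Function.Bijective (fun t : Γ(X, V) => t • M.presheaf.map (homOfLE h).op g)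

lemma resTop_map {U V : X.Opens} (i : U ⟶ V) (r : Γ(X, ⊤)) :
    X.presheaf.map i.op (resTop X V r) = resTop X U r := map_resTop i r


/-- the sheaf of abelian groups underlying a module -/
def abSheaf (M : X.Modules) : TopCat.Sheaf Ab X := ⟨M.presheaf, M.isSheaf⟩

lemma IsGenOn.injective_self {M : X.Modules} {U : X.Opens} {g : Γ(M, U)} (hg : IsGenOn M U g)
    {t t' : Γ(X, U)} (h : t • g = t' • g) : t = t' := by
  have h0 : M.presheaf.map (homOfLE (le_refl U)).op g = g := by
    have : (homOfLE (le_refl U)).op = 𝟙 (op U) := rfl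
    rw [this, M.presheaf.map_id]; rfl
  have := (hg U le_rfl).1
  apply this
  simpa only [h0] using h

lemma IsGenOn.exists_self {M : X.Modules} {U : X.Opens} {g : Γ(M, U)} (hg : IsGenOn M U g)
    (m : Γ(M, U)) : ∃ t : Γ(X, U), t • g = m := by
  have h0 : M.presheaf.map (homOfLE (le_refl U)).op g = g := by
    have : (homOfLE (le_refl U)).op = 𝟙 (op U) := rfl
    rw [this, M.presheaf.map_id]; rfl
  obtain ⟨t, ht⟩ := (hg U le_rfl).2 m
  exact ⟨t, by simpa only [h0] using ht⟩

/-- An endomorphism acts on every `V ≤ U` by the scalar by which it acts on the generator. -/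
lemma IsGenOn.app_eq_smul {M : X.Modules} {U : X.Opens} {g : Γ(M, U)} (hg : IsGenOn M U g)
    (φ : M ⟶ M) (r : Γ(X, U)) (hr : r • g = φ.app U g) (V : X.Opens) (h : V ≤ U) (m : Γ(M, V)) :
    φ.app V m = X.presheaf.map (homOfLE h).op r • m := by
  obtain ⟨t, rfl⟩ := (hg V h).2 m
  dsimp only
  rw [Scheme.Modules.Hom.app_smul, app_map_apply, ← hr, Scheme.Modules.map_smul, smul_smul,
    smul_smul, mul_comm]


lemma map_homOfLE_comp_apply (M : X.Modules) {U V W : X.Opens} (h₁ : U ≤ V) (h₂ : V ≤ W)
    (m : Γ(M, W)) :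
    M.presheaf.map (homOfLE h₁).op (M.presheaf.map (homOfLE h₂).op m) =
      M.presheaf.map (homOfLE (h₁.trans h₂)).op m := by
  rw [← ConcreteCategory.comp_apply, ← Functor.map_comp]
  rfl

lemma presheaf_homOfLE_comp_apply {U V W : X.Opens} (h₁ : U ≤ V) (h₂ : V ≤ W)
    (r : Γ(X, W)) :
    X.presheaf.map (homOfLE h₁).op (X.presheaf.map (homOfLE h₂).op r) =
      X.presheaf.map (homOfLE (h₁.trans h₂)).op r := by
  rw [← ConcreteCategory.comp_apply, ← Functor.map_comp]
  rfl

/-- If `M` has local generators, `Γ(X, ⊤) → End M` is injective. -/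
theorem smulHom_injective_of_gen (M : X.Modules)
    (h : ∀ x : X, ∃ (U : X.Opens) (g : Γ(M, U)), x ∈ U ∧ IsGenOn M U g) :
    Function.Injective (smulHom M) := by
  choose U g hxU hg using h
  intro r r' hrr'
  have hcover : (⊤ : X.Opens) ≤ iSup U := fun x _ => Opens.mem_iSup.mpr ⟨x, hxU x⟩
  refine X.sheaf.eq_of_locally_eq' U ⊤ (fun x => homOfLE le_top) hcover r r' ?_
  intro x
  apply (hg x).injective_self
  have := congr(($hrr').app (U x) (g x))
  exact this


/-- If `M` has local generators, every endomorphism of `M` is multiplication by a global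
function. -/
theorem smulHom_surjective_of_gen (M : X.Modules)
    (h : ∀ x : X, ∃ (U : X.Opens) (g : Γ(M, U)), x ∈ U ∧ IsGenOn M U g) :
    Function.Surjective (smulHom M) := by
  choose U g hxU hg using h
  intro φ
  have hcover : (⊤ : X.Opens) ≤ iSup U := fun x _ => Opens.mem_iSup.mpr ⟨x, hxU x⟩
  -- local scalars
  have hex : ∀ x, ∃ t : Γ(X, U x), t • g x = φ.app (U x) (g x) := fun x =>
    (hg x).exists_self _
  choose rl hrl using hex
  have key : ∀ (x : X) (V : X.Opens) (hV : V ≤ U x) (m : Γ(M, V)),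
      φ.app V m = X.presheaf.map (homOfLE hV).op (rl x) • m :=
    fun x V hV m => (hg x).app_eq_smul φ (rl x) (hrl x) V hV m
  -- compatibility
  have hcomp : TopCat.Presheaf.IsCompatible X.presheaf U rl := by
    intro x y
    apply ((hg x) (U x ⊓ U y) inf_le_left).1
    dsimp only
    have h1 := key x (U x ⊓ U y) inf_le_left (M.presheaf.map (homOfLE inf_le_left).op (g x))
    have h2 := key y (U x ⊓ U y) inf_le_right (M.presheaf.map (homOfLE inf_le_left).op (g x))
    exact h1.symm.trans h2
  obtain ⟨r, hr, -⟩ := X.sheaf.existsUnique_gluing' U ⊤ (fun x => homOfLE le_top) hcover rl hcomp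
  refine ⟨r, ?_⟩
  apply Scheme.Modules.hom_ext
  intro V
  ext m
  rw [smulHom_app_apply]
  -- compare locally on the cover `V ⊓ U x`
  have hcoverV : V ≤ iSup (fun x => V ⊓ U x) := by
    intro y hy
    exact Opens.mem_iSup.mpr ⟨y, ⟨hy, hxU y⟩⟩
  refine (abSheaf M).eq_of_locally_eq' (fun x => V ⊓ U x) V (fun x => homOfLE inf_le_left)
    hcoverV _ _ ?_
  intro x
  change M.presheaf.map (homOfLE inf_le_left).op (resTop X V r • m) =
    M.presheaf.map (homOfLE inf_le_left).op (φ.app V m)
  rw [← app_map_apply, key x (V ⊓ U x) inf_le_right, Scheme.Modules.map_smul]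
  congr 1
  have hrx : X.presheaf.map (homOfLE (le_top : U x ≤ ⊤)).op r = rl x := hr x
  rw [← hrx, presheaf_homOfLE_comp_apply, resTop_apply, presheaf_homOfLE_comp_apply]


/-- The structure sheaf as a module. -/
abbrev OO (X : Scheme.{u}) : X.Modules := SheafOfModules.unit.{u} X.ringCatSheaf

/-- A trivialization of `M` over `U` (Prelude shape: `pullback U.ι`) gives a generator of `M`
on `U`. -/
theorem exists_isGenOn_of_iso_unit (M : X.Modules) (U : X.Opens)
    (e : (Scheme.Modules.pullback U.ι).obj M ≅ SheafOfModules.unit.{u} U.toScheme.ringCatSheaf) :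
    ∃ g : Γ(M, U), IsGenOn M U g := by
  let e' : M.restrict U.ι ≅ OO U.toScheme :=
    (Scheme.Modules.restrictFunctorIsoPullback U.ι).app M ≪≫ e
  -- the local generators
  let one : ∀ W : U.toScheme.Opens, Γ(OO U.toScheme, W) := fun W => (1 : Γ(U.toScheme, W))
  let gW : ∀ W : U.toScheme.Opens, Γ(M.restrict U.ι, W) := fun W => e'.inv.app W (one W)
  have hone : ∀ (W W' : U.toScheme.Opens) (h : W' ≤ W),
      (OO U.toScheme).presheaf.map (homOfLE h).op (one W) = one W' := by
    intro W W' h
    exact map_one (U.toScheme.presheaf.map (homOfLE h).op).hom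
  have hgW : ∀ (W W' : U.toScheme.Opens) (h : W' ≤ W),
      (M.restrict U.ι).presheaf.map (homOfLE h).op (gW W) = gW W' := by
    intro W W' h
    change (M.restrict U.ι).presheaf.map (homOfLE h).op (e'.inv.app W (one W)) =
      e'.inv.app W' (one W')
    rw [← hone W W' h]
    exact (app_map_apply e'.inv (homOfLE h) (one W)).symm
  have hbij : ∀ W : U.toScheme.Opens,
      Function.Bijective (fun t : Γ(U.toScheme, W) => t • gW W) := by
    intro W
    have h1 : (fun t : Γ(U.toScheme, W) => t • gW W) =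
        fun t : Γ(U.toScheme, W) => e'.inv.app W (show Γ(OO U.toScheme, W) from t) := by
      funext t
      have := Scheme.Modules.Hom.app_smul e'.inv t (one W)
      rw [← this]
      congr 1
      exact (mul_one t)
    rw [h1]
    have hiso : IsIso (e'.inv.app W) := inferInstance
    exact (ConcreteCategory.bijective_of_isIso (e'.inv.app W))
  -- transport to opens of `X`
  have main : ∀ (U₁ : X.Opens) (_ : U.ι ''ᵁ ⊤ = U₁), ∃ g : Γ(M, U₁), IsGenOn M U₁ g := by
    intro U₁ hU₁
    subst hU₁
    refine ⟨gW ⊤, ?_⟩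
    have sub : ∀ (V : X.Opens) (W : U.toScheme.Opens) (_ : U.ι ''ᵁ W = V) (h : V ≤ U.ι ''ᵁ ⊤),
        Function.Bijective (fun t : Γ(X, V) => t • M.presheaf.map (homOfLE h).op (gW ⊤)) := by
      intro V W hV
      subst hV
      intro h
      have h2 : M.presheaf.map (homOfLE h).op (gW ⊤) = gW W := hgW ⊤ W le_top
      have h3 : (fun t : Γ(X, U.ι ''ᵁ W) => t • M.presheaf.map (homOfLE h).op (gW ⊤)) =
          (fun t' : Γ(U.toScheme, W) => t' • gW W) ∘ (U.ι.appIso W).hom := by
        funext t
        rw [h2]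
        have h4 : (M.restrict U.ι).smul ((U.ι.appIso W).hom t) = M.smul t := by
          rw [restrict_smul]
          congr 1
          exact congr($((U.ι.appIso W).hom_inv_id) t)
        exact (congr(($h4).hom (gW W))).symm
      rw [h3]
      exact (hbij W).comp (ConcreteCategory.bijective_of_isIso (U.ι.appIso W).hom)
    intro V h
    refine sub V (U.ι ⁻¹ᵁ V) ?_ h
    rw [Scheme.Hom.image_preimage_eq_opensRange_inf, Scheme.Opens.opensRange_ι, inf_eq_right]
    exact h.trans U.ι_image_top.le
  exact main U U.ι_image_top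


/-- Local triviality in the Prelude shape gives local generators. -/
theorem exists_gen_of_locally_trivial (M : X.Modules)
    (h : ∀ x : X, ∃ U : X.Opens, x ∈ U ∧ Nonempty ((Scheme.Modules.pullback U.ι).obj M ≅
      SheafOfModules.unit.{u} U.toScheme.ringCatSheaf)) :
    ∀ x : X, ∃ (U : X.Opens) (g : Γ(M, U)), x ∈ U ∧ IsGenOn M U g := by
  intro x
  obtain ⟨U, hxU, ⟨e⟩⟩ := h x
  obtain ⟨g, hg⟩ := exists_isGenOn_of_iso_unit M U e
  exact ⟨U, g, hxU, hg⟩

/-- `End M = Γ(X, 𝒪_X)` for a module with local generators. -/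
theorem smulEnd_bijective_of_gen (M : X.Modules)
    (h : ∀ x : X, ∃ (U : X.Opens) (g : Γ(M, U)), x ∈ U ∧ IsGenOn M U g) :
    Function.Bijective (smulEnd M) :=
  ⟨smulHom_injective_of_gen M h, smulHom_surjective_of_gen M h⟩

/-- `End M = Γ(X, 𝒪_X)` for a locally trivial module (local triviality in the Prelude shape). -/
theorem smulEnd_bijective_of_locally_trivial (M : X.Modules)
    (h : ∀ x : X, ∃ U : X.Opens, x ∈ U ∧ Nonempty ((Scheme.Modules.pullback U.ι).obj M ≅
      SheafOfModules.unit.{u} U.toScheme.ringCatSheaf)) :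
    Function.Bijective (smulEnd M) :=
  smulEnd_bijective_of_gen M (exists_gen_of_locally_trivial M h)

/-- `End L = Γ(X, 𝒪_X)` for an invertible module (Prelude `Scheme.Modules.IsInvertible`). -/
theorem smulEnd_bijective (L : X.Modules) (hL : Scheme.Modules.IsInvertible L) :
    Function.Bijective (smulEnd L) :=
  smulEnd_bijective_of_locally_trivial L hL.exists_trivialization

/-- Every endomorphism of an invertible module is multiplication by a unique global function. -/
theorem existsUnique_smulHom (L : X.Modules) (hL : Scheme.Modules.IsInvertible L) (φ : L ⟶ L) :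
    ∃! r : Γ(X, ⊤), smulHom L r = φ :=
  (smulEnd_bijective L hL).existsUnique φ

/-- Every automorphism of an invertible module is multiplication by a unique global unit. -/
theorem existsUnique_unit_smulHom (L : X.Modules) (hL : Scheme.Modules.IsInvertible L)
    (e : L ≅ L) : ∃! r : (Γ(X, ⊤))ˣ, smulHom L (r : Γ(X, ⊤)) = e.hom := by
  have hb := smulEnd_bijective L hL
  obtain ⟨r, hr⟩ := hb.2 e.hom
  obtain ⟨r', hr'⟩ := hb.2 e.inv
  have hr1 : smulHom L r = e.hom := hr
  have hr2 : smulHom L r' = e.inv := hr'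
  have h1 : r * r' = 1 := by
    apply hb.1
    change smulHom L (r * r') = smulHom L 1
    rw [smulHom_mul, smulHom_one, hr1, hr2, e.inv_hom_id]
  refine ⟨Units.mkOfMulEqOne r r' h1, hr1, ?_⟩
  intro s hs
  apply Units.ext
  apply hb.1
  change smulHom L (s : Γ(X, ⊤)) = smulHom L r
  rw [hs, hr1]

/-- Two isomorphisms out of an invertible module differ by a unique global unit. -/
theorem existsUnique_unit_smulHom_comp (L N : X.Modules) (hL : Scheme.Modules.IsInvertible L)
    (e₁ e₂ : L ≅ N) : ∃! r : (Γ(X, ⊤))ˣ, smulHom L (r : Γ(X, ⊤)) ≫ e₁.hom = e₂.hom := by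
  obtain ⟨r, hr, hu⟩ := existsUnique_unit_smulHom L hL (e₂ ≪≫ e₁.symm)
  have hr' : smulHom L (r : Γ(X, ⊤)) = e₂.hom ≫ e₁.inv := hr
  refine ⟨r, ?_, ?_⟩
  · change smulHom L (r : Γ(X, ⊤)) ≫ e₁.hom = e₂.hom
    rw [hr', Category.assoc, e₁.inv_hom_id, Category.comp_id]
  · intro s hs
    have hs' : smulHom L (s : Γ(X, ⊤)) ≫ e₁.hom = e₂.hom := hs
    apply hu
    change smulHom L (s : Γ(X, ⊤)) = e₂.hom ≫ e₁.inv
    rw [← hs', Category.assoc, e₁.hom_inv_id, Category.comp_id]

/-- Multiplication by a global unit is an automorphism. -/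
def smulIso (M : X.Modules) (r : (Γ(X, ⊤))ˣ) : M ≅ M where
  hom := smulHom M (r : Γ(X, ⊤))
  inv := smulHom M ((r⁻¹ : (Γ(X, ⊤))ˣ) : Γ(X, ⊤))
  hom_inv_id := by rw [← smulHom_mul, Units.inv_mul, smulHom_one]
  inv_hom_id := by rw [← smulHom_mul, Units.mul_inv, smulHom_one]

/-! ### Converse bridge: local generators give trivializations -/

/-- The compatible family of restrictions of a section `g ∈ Γ(M, U)`, as a global section of the
restriction of `M` to `U`. -/
def restrictSections (M : X.Modules) (U : X.Opens) (g : Γ(M, U)) : (M.restrict U.ι).sections :=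
  PresheafOfModules.sectionsMk
    (fun W => (M.presheaf.map (homOfLE (U.ι_image_le W.unop)).op g : Γ(M, U.ι ''ᵁ W.unop)))
    (by
      intro W W' f
      change M.presheaf.map (homOfLE (Scheme.Hom.image_mono U.ι (leOfHom f.unop))).op
        (M.presheaf.map (homOfLE (U.ι_image_le W.unop)).op g) = _
      exact map_homOfLE_comp_apply M _ _ g)


/-- The morphism `𝒪_U ⟶ M|_U` attached to a section `g ∈ Γ(M, U)`. -/
def unitToRestrict (M : X.Modules) (U : X.Opens) (g : Γ(M, U)) :
    OO U.toScheme ⟶ M.restrict U.ι :=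
  (SheafOfModules.unitHomEquiv (M.restrict U.ι)).symm (restrictSections M U g)

lemma unitToRestrict_app_apply (M : X.Modules) (U : X.Opens) (g : Γ(M, U))
    (W : U.toScheme.Opens) (t : Γ(U.toScheme, W)) :
    (unitToRestrict M U g).app W (show Γ(OO U.toScheme, W) from t) =
      (show Γ(M, U.ι ''ᵁ W) from
        (U.ι.appIso W).inv t • M.presheaf.map (homOfLE (U.ι_image_le W)).op g) := by
  rfl


/-- If `g` generates `M` on `U`, then `𝒪_U ⟶ M|_U`, `1 ↦ g`, is an isomorphism. -/
theorem isIso_unitToRestrict (M : X.Modules) (U : X.Opens) (g : Γ(M, U)) (hg : IsGenOn M U g) :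
    IsIso (unitToRestrict M U g) := by
  rw [Scheme.Modules.Hom.isIso_iff_isIso_app]
  intro W
  rw [ConcreteCategory.isIso_iff_bijective]
  have h1 := hg (U.ι ''ᵁ W) (U.ι_image_le W)
  have h2 : Function.Bijective (U.ι.appIso W).inv := ConcreteCategory.bijective_of_isIso _
  exact h1.comp h2

/-- A generator of `M` on `U` gives a trivialization of `M` over `U` (restrict form). -/
def restrictIsoUnitOfIsGenOn (M : X.Modules) (U : X.Opens) (g : Γ(M, U)) (hg : IsGenOn M U g) :
    M.restrict U.ι ≅ OO U.toScheme :=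
  haveI := isIso_unitToRestrict M U g hg
  (asIso (unitToRestrict M U g)).symm

/-- A generator of `M` on `U` gives a trivialization of `M` over `U` (Prelude shape). -/
def pullbackIsoUnitOfIsGenOn (M : X.Modules) (U : X.Opens) (g : Γ(M, U)) (hg : IsGenOn M U g) :
    (Scheme.Modules.pullback U.ι).obj M ≅ SheafOfModules.unit.{u} U.toScheme.ringCatSheaf :=
  ((Scheme.Modules.restrictFunctorIsoPullback U.ι).app M).symm ≪≫
    restrictIsoUnitOfIsGenOn M U g hg

/-- A module with local generators is invertible (Prelude sense). -/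
theorem isInvertible_of_gen (M : X.Modules)
    (h : ∀ x : X, ∃ (U : X.Opens) (g : Γ(M, U)), x ∈ U ∧ IsGenOn M U g) :
    Scheme.Modules.IsInvertible M :=
  ⟨fun x => by
    obtain ⟨U, g, hxU, hg⟩ := h x
    exact ⟨U, hxU, ⟨pullbackIsoUnitOfIsGenOn M U g hg⟩⟩⟩

/-- Invertible (Prelude sense) ⟺ existence of local generators. -/
theorem isInvertible_iff_gen (M : X.Modules) :
    Scheme.Modules.IsInvertible M ↔
      ∀ x : X, ∃ (U : X.Opens) (g : Γ(M, U)), x ∈ U ∧ IsGenOn M U g :=
  ⟨fun h => exists_gen_of_locally_trivial M h.exists_trivialization, isInvertible_of_gen M⟩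

/-- A generator restricts to a generator on every smaller open. -/
lemma IsGenOn.mono {M : X.Modules} {U V : X.Opens} {g : Γ(M, U)} (hg : IsGenOn M U g)
    (h : V ≤ U) : IsGenOn M V (M.presheaf.map (homOfLE h).op g) := by
  intro W hW
  have := hg W (hW.trans h)
  simpa only [map_homOfLE_comp_apply] using this

/-- Transport of a generator along an isomorphism of modules. -/
lemma IsGenOn.of_iso {M N : X.Modules} (e : M ≅ N) {U : X.Opens} {g : Γ(M, U)}
    (hg : IsGenOn M U g) : IsGenOn N U (e.hom.app U g) := by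
  intro V h
  have h1 := hg V h
  have h2 : Function.Bijective (e.hom.app V) := ConcreteCategory.bijective_of_isIso _
  have h3 : (fun t : Γ(X, V) => t • N.presheaf.map (homOfLE h).op (e.hom.app U g)) =
      (e.hom.app V) ∘ (fun t : Γ(X, V) => t • M.presheaf.map (homOfLE h).op g) := by
    funext t
    simp only [Function.comp_apply]
    rw [Scheme.Modules.Hom.app_smul, app_map_apply]
  rw [h3]
  exact h2.comp h1

/-- `1` generates the structure sheaf on every open. -/
lemma isGenOn_unit (U : X.Opens) : IsGenOn (OO X) U (show Γ(OO X, U) from (1 : Γ(X, U))) := by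
  intro V h
  have h1 : (fun t : Γ(X, V) => t • (OO X).presheaf.map (homOfLE h).op
      (show Γ(OO X, U) from (1 : Γ(X, U)))) = fun t : Γ(X, V) => (show Γ(OO X, V) from t) := by
    funext t
    have : (OO X).presheaf.map (homOfLE h).op (show Γ(OO X, U) from (1 : Γ(X, U))) =
        (show Γ(OO X, V) from (1 : Γ(X, V))) :=
      map_one (X.presheaf.map (homOfLE h).op).hom
    rw [this]
    exact mul_one t
  rw [h1]
  exact Function.bijective_id

end

end Fermat.Agent.S25.helper2321
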