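import Fermat.Agent.S25.helper2952_Sep
set_option autoImplicit false

/-!
# From evaluations to rigidifications (S25, brick (R1) for `Stmt_GlueObj`)

Mathlib-only. Let `σ : T ⟶ X` and let `E : N ⟶ σ_* 𝒪_T` be a morphism of modules on `X`
(an "evaluation along `σ`"). If near every point of `σ(T)` the module `N` has a local generator
whose evaluation is a unit, then the adjoint `σ^* N ⟶ 𝒪_T` of `E` is an isomorphism
(`isIso_adjoint_of_isUnit`, `nonempty_iso_unit_of_isUnit`).
This is the converse of `isUnit_ev_of_isGenerator`.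
-/

open CategoryTheory Opposite TopologicalSpace AlgebraicGeometry

universe u

noncomputable section

namespace Fermat.Agent.S25.helper2952

variable {X T : Scheme.{u}}

/-- The morphism `𝒪_T ⟶ F` attached to a global section of `F`. -/
def homOfSection {F : T.Modules} (c : Γ(F, ⊤)) : OO T ⟶ F :=
  SecHom.toHom
    { toFun := fun V _ => AddMonoidHom.mk' (fun a => ofO a • res F le_top c)
        (fun a b => by rw [ofO_add, add_smul])
      map_res := fun V V' _ h a => by
        simp only [AddMonoidHom.mk'_apply]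
        rw [ofO_res, res_smul, res_res]
      map_smul := fun V _ r a => by
        simp only [AddMonoidHom.mk'_apply]
        rw [ofO_smul, mul_smul] }

theorem homOfSection_app {F : T.Modules} (c : Γ(F, ⊤)) (V : T.Opens) (a : Γ(T, V)) :
    (homOfSection c).app V (toO a) = a • res F le_top c := rfl

/-- A morphism out of the structure sheaf is determined by the image of `1`. -/
theorem hom_OO_ext {F : T.Modules} (s s' : OO T ⟶ F)
    (h : s.app ⊤ (toO 1) = s'.app ⊤ (toO 1)) : s = s' := by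
  apply Scheme.Modules.hom_ext
  intro V
  ext a
  have h1 := hom_OO_apply s V (ofO a)
  have h2 := hom_OO_apply s' V (ofO a)
  rw [toO_ofO] at h1 h2
  rw [h1, h2, h]

section Ev

variable (σ : T ⟶ X) {N : X.Modules} {F : T.Modules}

/-- Sections of a morphism `N ⟶ σ_* F`, as maps `Γ(N, W) → Γ(F, σ⁻¹ W)`. -/
def pfApp (g : N ⟶ (Scheme.Modules.pushforward σ).obj F) (W : X.Opens) :
    Γ(N, W) →+ Γ(F, σ ⁻¹ᵁ W) :=
  (g.app W).hom

theorem pfApp_apply (g : N ⟶ (Scheme.Modules.pushforward σ).obj F) (W : X.Opens) (m : Γ(N, W)) :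
    g.app W m = toPf σ (pfApp σ g W m) := rfl

theorem pfApp_res (g : N ⟶ (Scheme.Modules.pushforward σ).obj F) {W W' : X.Opens} (h : W' ≤ W)
    (m : Γ(N, W)) :
    pfApp σ g W' (res N h m) = res F (preimage_mono σ h) (pfApp σ g W m) :=
  (SecHom.ofHom g ⊤).map_res W W' le_top h m

theorem pfApp_smul (g : N ⟶ (Scheme.Modules.pushforward σ).obj F) (W : X.Opens) (r : Γ(X, W))
    (m : Γ(N, W)) : pfApp σ g W (r • m) = σ.app W r • pfApp σ g W m :=
  Scheme.Modules.Hom.app_smul g r m

theorem pfApp_comp_map (E : N ⟶ (Scheme.Modules.pushforward σ).obj (OO T)) (s : OO T ⟶ F)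
    (W : X.Opens) (m : Γ(N, W)) :
    pfApp σ (E ≫ (Scheme.Modules.pushforward σ).map s) W m =
      s.app (σ ⁻¹ᵁ W) (pfApp σ E W m) := rfl

/-- Two morphisms `N ⟶ σ_* F` which agree on small opens near `σ(T)` are equal. -/
theorem hom_pf_ext {ι : Type u} (W : ι → X.Opens) (hW : ⊤ ≤ ⨆ i, σ ⁻¹ᵁ (W i))
    (g g' : N ⟶ (Scheme.Modules.pushforward σ).obj F)
    (h : ∀ (i : ι) (W' : X.Opens) (_ : W' ≤ W i) (m : Γ(N, W')),
      pfApp σ g W' m = pfApp σ g' W' m) : g = g' := by
  apply Scheme.Modules.hom_ext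
  intro W''
  ext m
  change toPf σ (pfApp σ g W'' m) = toPf σ (pfApp σ g' W'' m)
  congr 1
  refine sec_ext' F (fun i => σ ⁻¹ᵁ (W'' ⊓ W i)) (σ ⁻¹ᵁ W'')
    (fun i => preimage_mono σ inf_le_left) ?_ _ _ ?_
  · intro y hy
    obtain ⟨i, hi⟩ := TopologicalSpace.Opens.mem_iSup.mp (hW (TopologicalSpace.Opens.mem_top y))
    exact TopologicalSpace.Opens.mem_iSup.mpr ⟨i, ⟨hy, hi⟩⟩
  · intro i
    rw [← pfApp_res σ g (inf_le_left : W'' ⊓ W i ≤ W'') m,
      ← pfApp_res σ g' (inf_le_left : W'' ⊓ W i ≤ W'') m]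
    exact h i _ inf_le_right _

end Ev

/-! ### The main theorem -/

section Main

variable (σ : T ⟶ X) {N : X.Modules}
  (E : N ⟶ (Scheme.Modules.pushforward σ).obj (OO T))

/-- Composition with `E` is a bijection `Hom(𝒪_T, F) → Hom(N, σ_* F)` when `E` takes unit
values on local generators near `σ(T)`. -/
theorem bijective_comp_of_isUnit
    (h : ∀ p : T, ∃ (W : X.Opens) (m₀ : Γ(N, W)), p ∈ σ ⁻¹ᵁ W ∧ IsGenerator N W m₀ ∧
      IsUnit (ofO (pfApp σ E W m₀)))
    (F : T.Modules) :
    Function.Bijective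
      (fun s : OO T ⟶ F => E ≫ (Scheme.Modules.pushforward σ).map s) := by
  classical
  choose W m₀ hpW hgen hunit using h
  have hinv : ∀ p : T, ∃ v : Γ(T, σ ⁻¹ᵁ W p), v * ofO (pfApp σ E (W p) (m₀ p)) = 1 :=
    fun p => (hunit p).exists_left_inv
  choose v hv using hinv
  have hv' : ∀ p : T, ofO (pfApp σ E (W p) (m₀ p)) * v p = 1 := fun p => by
    rw [mul_comm]; exact hv p
  have hcov : (⊤ : T.Opens) ≤ ⨆ p : T, σ ⁻¹ᵁ (W p) := fun y _ =>
    TopologicalSpace.Opens.mem_iSup.mpr ⟨y, hpW y⟩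
  -- evaluation of a general section near `p`
  have hE : ∀ (p : T) (W' : X.Opens) (hW' : W' ≤ W p) (m : Γ(N, W')),
      ofO (pfApp σ E W' m) = σ.app W' (coord (hgen p) W' hW' m) *
        resO T (preimage_mono σ hW') (ofO (pfApp σ E (W p) (m₀ p))) := by
    intro p W' hW' m
    conv_lhs => rw [← coord_spec (hgen p) W' hW' m]
    rw [pfApp_smul, pfApp_res]
    rfl
  constructor
  · -- injectivity
    intro s s' hss'
    apply hom_OO_ext
    refine sec_ext' F (fun p : T => σ ⁻¹ᵁ (W p)) ⊤ (fun _ => le_top) hcov _ _ ?_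
    intro p
    have h1 : pfApp σ (E ≫ (Scheme.Modules.pushforward σ).map s) (W p) (m₀ p) =
        pfApp σ (E ≫ (Scheme.Modules.pushforward σ).map s') (W p) (m₀ p) :=
      congrArg (fun g => pfApp σ g (W p) (m₀ p)) hss'
    rw [pfApp_comp_map, pfApp_comp_map] at h1
    have h2 := hom_OO_apply s (σ ⁻¹ᵁ (W p)) (ofO (pfApp σ E (W p) (m₀ p)))
    have h3 := hom_OO_apply s' (σ ⁻¹ᵁ (W p)) (ofO (pfApp σ E (W p) (m₀ p)))
    rw [toO_ofO] at h2 h3
    rw [h2, h3] at h1
    have h4 := congrArg (fun x => v p • x) h1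
    simp only [← mul_smul, hv p, one_smul] at h4
    exact h4
  · -- surjectivity
    intro g
    -- the local sections
    let cl : ∀ p : T, Γ(F, σ ⁻¹ᵁ (W p)) := fun p => v p • pfApp σ g (W p) (m₀ p)
    have hg : ∀ (p : T) (W' : X.Opens) (hW' : W' ≤ W p) (m : Γ(N, W')),
        pfApp σ g W' m = σ.app W' (coord (hgen p) W' hW' m) •
          res F (preimage_mono σ hW') (pfApp σ g (W p) (m₀ p)) := by
      intro p W' hW' m
      conv_lhs => rw [← coord_spec (hgen p) W' hW' m]
      rw [pfApp_smul, pfApp_res]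
    have hcl : ∀ (p : T) (W' : X.Opens) (hW' : W' ≤ W p) (m : Γ(N, W')),
        pfApp σ g W' m = ofO (pfApp σ E W' m) • res F (preimage_mono σ hW') (cl p) := by
      intro p W' hW' m
      simp only [cl]
      rw [hg p W' hW' m, hE p W' hW' m, res_smul, ← mul_smul, mul_assoc, ← map_mul, hv' p,
        map_one, mul_one]
    have hcompat : ∀ p q : T,
        res F (inf_le_left : σ ⁻¹ᵁ (W p) ⊓ σ ⁻¹ᵁ (W q) ≤ σ ⁻¹ᵁ (W p)) (cl p) =
          res F inf_le_right (cl q) := by
      intro p q
      have hp : W p ⊓ W q ≤ W p := inf_le_left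
      have hq : W p ⊓ W q ≤ W q := inf_le_right
      -- compare through the generator of `q` restricted to the overlap
      have e1 := hcl p (W p ⊓ W q) hp (res N hq (m₀ q))
      have e2 := hcl q (W p ⊓ W q) hq (res N hq (m₀ q))
      rw [e1] at e2
      have e3 : ofO (pfApp σ E (W p ⊓ W q) (res N hq (m₀ q))) *
          resO T (preimage_mono σ hq) (v q) = 1 := by
        rw [pfApp_res]
        change resO T (preimage_mono σ hq) (ofO (pfApp σ E (W q) (m₀ q))) *
          resO T (preimage_mono σ hq) (v q) = 1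
        rw [← map_mul, hv' q, map_one]
      have e4 := congrArg (fun x => resO T (preimage_mono σ hq) (v q) • x) e2
      simp only [← mul_smul] at e4
      rw [mul_comm, e3, one_smul, one_smul] at e4
      exact e4
    obtain ⟨c, hc, -⟩ := sec_glue F (fun p : T => σ ⁻¹ᵁ (W p)) ⊤ (fun _ => le_top) hcov cl hcompat
    refine ⟨homOfSection c, ?_⟩
    refine hom_pf_ext σ W hcov _ _ ?_
    intro p W' hW' m
    rw [pfApp_comp_map, hcl p W' hW' m]
    have h5 := homOfSection_app c (σ ⁻¹ᵁ W') (ofO (pfApp σ E W' m))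
    rw [toO_ofO] at h5
    rw [h5, ← hc p, res_res]

/-- **(R1).** If `E : N ⟶ σ_* 𝒪_T` takes unit values on local generators of `N` near every
point of `σ(T)`, then its adjoint `σ^* N ⟶ 𝒪_T` is an isomorphism. -/
theorem isIso_adjoint_of_isGenerator
    (h : ∀ p : T, ∃ (W : X.Opens) (m₀ : Γ(N, W)), p ∈ σ ⁻¹ᵁ W ∧ IsGenerator N W m₀ ∧
      IsUnit (ofO (pfApp σ E W m₀))) :
    IsIso (((Scheme.Modules.pullbackPushforwardAdjunction σ).homEquiv N (OO T)).symm E) := by
  apply isIso_of_coyoneda_map_bijective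
  intro F
  have hb := bijective_comp_of_isUnit σ E h F
  have e : (fun s : OO T ⟶ F => E ≫ (Scheme.Modules.pushforward σ).map s) =
      ((Scheme.Modules.pullbackPushforwardAdjunction σ).homEquiv N F) ∘
        (fun s : OO T ⟶ F =>
          ((Scheme.Modules.pullbackPushforwardAdjunction σ).homEquiv N (OO T)).symm E ≫ s) := by
    funext s
    simp only [Function.comp_apply]
    rw [Adjunction.homEquiv_naturality_right, Equiv.apply_symm_apply]
  rw [e] at hb
  exact (Function.Bijective.of_comp_iff'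
    ((Scheme.Modules.pullbackPushforwardAdjunction σ).homEquiv N F).bijective _).mp hb


/-- **(R1), vocabulary-neutral form.** The generator hypothesis is written out, so that it
is definitionally the `IsGen`/`IsGenOn`/`IsGenerator` of the various sectionwise libraries. -/
theorem isIso_adjoint_of_isUnit
    (E : N ⟶ (Scheme.Modules.pushforward σ).obj (SheafOfModules.unit T.ringCatSheaf))
    (h : ∀ p : T, ∃ (W : X.Opens) (m₀ : Γ(N, W)), σ.base p ∈ W ∧
      (∀ (V : X.Opens) (hV : V ≤ W),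
        Function.Bijective (fun r : Γ(X, V) => r • N.presheaf.map (homOfLE hV).op m₀)) ∧
      IsUnit (show Γ(T, σ ⁻¹ᵁ W) from E.app W m₀)) :
    IsIso (((Scheme.Modules.pullbackPushforwardAdjunction σ).homEquiv N
      (SheafOfModules.unit T.ringCatSheaf)).symm E) :=
  isIso_adjoint_of_isGenerator σ E h

/-- **(R1), existence form**: under the same hypotheses, `σ^* N ≅ 𝒪_T`. -/
theorem nonempty_iso_unit_of_isUnit
    (E : N ⟶ (Scheme.Modules.pushforward σ).obj (SheafOfModules.unit T.ringCatSheaf))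
    (h : ∀ p : T, ∃ (W : X.Opens) (m₀ : Γ(N, W)), σ.base p ∈ W ∧
      (∀ (V : X.Opens) (hV : V ≤ W),
        Function.Bijective (fun r : Γ(X, V) => r • N.presheaf.map (homOfLE hV).op m₀)) ∧
      IsUnit (show Γ(T, σ ⁻¹ᵁ W) from E.app W m₀)) :
    Nonempty ((Scheme.Modules.pullback σ).obj N ≅ SheafOfModules.unit T.ringCatSheaf) :=
  ⟨@asIso _ _ _ _ _ (isIso_adjoint_of_isUnit σ E h)⟩

/-- The adjoint of the rigidification obtained in `nonempty_iso_unit_of_isUnit` is `E`:
the evaluation attached to the isomorphism `asIso (adjoint of E)` is `E` itself. -/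
theorem homEquiv_symm_apply_eq
    (E : N ⟶ (Scheme.Modules.pushforward σ).obj (SheafOfModules.unit T.ringCatSheaf)) :
    evalHom σ (((Scheme.Modules.pullbackPushforwardAdjunction σ).homEquiv N
      (SheafOfModules.unit T.ringCatSheaf)).symm E) = E :=
  Equiv.apply_symm_apply _ _

end Main

end Fermat.Agent.S25.helper2952
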