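import Fermat.Agent.S25.helper5979_GlueModules

set_option autoImplicit false

open CategoryTheory TopologicalSpace Opposite AlgebraicGeometry

universe u

namespace Fermat.Agent.S25.helper5979

variable {X Y : Scheme.{u}}

/-- A sectionwise morphism of modules over the open `V`: additive maps on sections over all
opens `W ≤ V`, linear over the functions and compatible with restriction. -/
structure SecHom (M N : X.Modules) (V : X.Opens) where
  /-- the maps on sections -/
  app : ∀ W : X.Opens, W ≤ V → (Γ(M, W) →+ Γ(N, W))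
  app_smul : ∀ (W : X.Opens) (hW : W ≤ V) (r : Γ(X, W)) (s : Γ(M, W)),
    app W hW (r • s) = r • app W hW s
  app_res : ∀ (W W' : X.Opens) (hW : W ≤ V) (h : W' ≤ W) (s : Γ(M, W)),
    app W' (h.trans hW) (res M h s) = res N h (app W hW s)

namespace SecHom

variable {M N K : X.Modules} {V : X.Opens}

theorem image_le (g : Y ⟶ X) [IsOpenImmersion g] (hg : g.opensRange ≤ V) (W : Y.Opens) :
    g ''ᵁ W ≤ V :=
  (g.image_le_opensRange W).trans hg

/-- The sectionwise morphism over `V` underlying a morphism of modules. -/
noncomputable def ofHom (f : M ⟶ N) (V : X.Opens) : SecHom M N V where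
  app W _ := (f.app W).hom
  app_smul _ _ r s := Scheme.Modules.Hom.app_smul f r s
  app_res W W' _ h s := by
    have := f.mapPresheaf.naturality (homOfLE h).op
    exact congr($this s)

/-- The identity sectionwise morphism. -/
noncomputable def id (M : X.Modules) (V : X.Opens) : SecHom M M V where
  app _ _ := AddMonoidHom.id _
  app_smul _ _ _ _ := rfl
  app_res _ _ _ _ _ := rfl

/-- Composition of sectionwise morphisms. -/
noncomputable def comp (e : SecHom M N V) (e' : SecHom N K V) : SecHom M K V where
  app W hW := (e'.app W hW).comp (e.app W hW)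
  app_smul W hW r s := by
    simp only [AddMonoidHom.comp_apply, e.app_smul, e'.app_smul]
  app_res W W' hW h s := by
    change e'.app W' _ (e.app W' _ (res M h s)) = res K h (e'.app W hW (e.app W hW s))
    rw [e.app_res W W' hW h, e'.app_res W W' hW h]

/-- Restriction of a sectionwise morphism to a smaller open. -/
noncomputable def restrict (e : SecHom M N V) {V' : X.Opens} (h : V' ≤ V) : SecHom M N V' where
  app W hW := e.app W (hW.trans h)
  app_smul W _ r s := e.app_smul W _ r s
  app_res W W' _ h' s := e.app_res W W' _ h' s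

/-- A sectionwise morphism over `V` induces a morphism between the restrictions along any open
immersion with range inside `V`. -/
noncomputable def toRestrict (e : SecHom M N V) (g : Y ⟶ X) [IsOpenImmersion g]
    (hg : g.opensRange ≤ V) : M.restrict g ⟶ N.restrict g :=
  ⟨PresheafOfModules.homMk
    { app := fun W => AddCommGrpCat.ofHom (e.app (g ''ᵁ W.unop) (image_le g hg W.unop))
      naturality := fun W W' i => by
        ext x
        exact e.app_res (g ''ᵁ W.unop) (g ''ᵁ W'.unop) (image_le g hg W.unop)
          (g.image_mono (leOfHom i.unop)) x }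
    (fun W r m => e.app_smul (g ''ᵁ W.unop) (image_le g hg W.unop) ((g.appIso W.unop).inv r) m)⟩

theorem toRestrict_app_apply (e : SecHom M N V) (g : Y ⟶ X) [IsOpenImmersion g]
    (hg : g.opensRange ≤ V) (W : Y.Opens) (s : Γ(M, g ''ᵁ W)) :
    (e.toRestrict g hg).app W s = e.app (g ''ᵁ W) (image_le g hg W) s := rfl

theorem toRestrict_ofHom (f : M ⟶ N) (g : Y ⟶ X) [IsOpenImmersion g]
    (hg : g.opensRange ≤ V) :
    (ofHom f V).toRestrict g hg = (Scheme.Modules.restrictFunctor g).map f := rfl

theorem toRestrict_id (g : Y ⟶ X) [IsOpenImmersion g] (hg : g.opensRange ≤ V) :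
    (SecHom.id M V).toRestrict g hg = 𝟙 (M.restrict g) := rfl

theorem toRestrict_comp (e : SecHom M N V) (e' : SecHom N K V) (g : Y ⟶ X) [IsOpenImmersion g]
    (hg : g.opensRange ≤ V) :
    (e.comp e').toRestrict g hg = e.toRestrict g hg ≫ e'.toRestrict g hg := rfl

/-- Two mutually inverse sectionwise morphisms over `V` give an isomorphism between the
restrictions along any open immersion with range inside `V`. -/
noncomputable def toRestrictIso (e : SecHom M N V) (e' : SecHom N M V)
    (h₁ : ∀ (W : X.Opens) (hW : W ≤ V) (s : Γ(M, W)), e'.app W hW (e.app W hW s) = s)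
    (h₂ : ∀ (W : X.Opens) (hW : W ≤ V) (s : Γ(N, W)), e.app W hW (e'.app W hW s) = s)
    (g : Y ⟶ X) [IsOpenImmersion g] (hg : g.opensRange ≤ V) : M.restrict g ≅ N.restrict g where
  hom := e.toRestrict g hg
  inv := e'.toRestrict g hg
  hom_inv_id := by
    ext W s
    exact h₁ _ _ s
  inv_hom_id := by
    ext W s
    exact h₂ _ _ s

end SecHom

namespace GlueData

variable {ι : Type u} (D : GlueData X ι)

theorem glueEquiv_symm_smul (i : ι) (W : X.Opens) (hW : W ≤ D.U i) (r : Γ(X, W))
    (s : Γ(D.N i, W)) :
    (D.glueEquiv i W hW).symm (r • s) = r • (D.glueEquiv i W hW).symm s := by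
  apply (D.glueEquiv i W hW).injective
  rw [D.glueEquiv_smul, AddEquiv.apply_symm_apply, AddEquiv.apply_symm_apply]

theorem glueEquiv_symm_res (i : ι) (W W' : X.Opens) (hW : W ≤ D.U i) (h : W' ≤ W)
    (s : Γ(D.N i, W)) :
    (D.glueEquiv i W' (h.trans hW)).symm (res (D.N i) h s) =
      res D.glue h ((D.glueEquiv i W hW).symm s) := by
  apply (D.glueEquiv i W' (h.trans hW)).injective
  rw [D.glueEquiv_res i W W' hW h, AddEquiv.apply_symm_apply, AddEquiv.apply_symm_apply]

/-- The sectionwise chart morphism `glue → N i` over `U i`. -/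
noncomputable def toChart (i : ι) : SecHom D.glue (D.N i) (D.U i) where
  app W hW := (D.glueEquiv i W hW).toAddMonoidHom
  app_smul W hW r s := D.glueEquiv_smul i W hW r s
  app_res W W' hW h s := D.glueEquiv_res i W W' hW h s

/-- The sectionwise chart morphism `N i → glue` over `U i`. -/
noncomputable def ofChart (i : ι) : SecHom (D.N i) D.glue (D.U i) where
  app W hW := (D.glueEquiv i W hW).symm.toAddMonoidHom
  app_smul W hW r s := D.glueEquiv_symm_smul i W hW r s
  app_res W W' hW h s := D.glueEquiv_symm_res i W W' hW h s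

/-- The glued module restricts to `N i` on (any open subscheme of) `U i`. -/
noncomputable def glueRestrictIso (i : ι) (g : Y ⟶ X) [IsOpenImmersion g]
    (hg : g.opensRange ≤ D.U i) : D.glue.restrict g ≅ (D.N i).restrict g :=
  (D.toChart i).toRestrictIso (D.ofChart i)
    (fun W hW s => (D.glueEquiv i W hW).symm_apply_apply s)
    (fun W hW s => (D.glueEquiv i W hW).apply_symm_apply s) g hg

theorem glueRestrictIso_hom_app_apply (i : ι) (g : Y ⟶ X) [IsOpenImmersion g]
    (hg : g.opensRange ≤ D.U i) (W : Y.Opens) (s : Γ(D.glue, g ''ᵁ W)) :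
    (D.glueRestrictIso i g hg).hom.app W s =
      D.glueEquiv i (g ''ᵁ W) (SecHom.image_le g hg W) s := rfl

theorem glueRestrictIso_inv_app_apply (i : ι) (g : Y ⟶ X) [IsOpenImmersion g]
    (hg : g.opensRange ≤ D.U i) (W : Y.Opens) (s : Γ(D.N i, g ''ᵁ W)) :
    (D.glueRestrictIso i g hg).inv.app W s =
      (D.glueEquiv i (g ''ᵁ W) (SecHom.image_le g hg W)).symm s := rfl

/-- The transition maps of the gluing data as a sectionwise morphism over `U i ⊓ U j`. -/
noncomputable def transition (i j : ι) : SecHom (D.N i) (D.N j) (D.U i ⊓ D.U j) where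
  app W hW := D.φ i j W hW
  app_smul W hW r s := D.φ_smul i j W hW r s
  app_res W W' hW h s := D.φ_res i j W W' hW h s

/-- On overlaps, the chart isomorphisms differ by the transition maps. -/
theorem glueRestrictIso_hom_transition (i j : ι) (g : Y ⟶ X) [IsOpenImmersion g]
    (hg : g.opensRange ≤ D.U i ⊓ D.U j) :
    (D.glueRestrictIso i g (hg.trans inf_le_left)).hom ≫ (D.transition i j).toRestrict g hg =
      (D.glueRestrictIso j g (hg.trans inf_le_right)).hom := by
  ext W s
  exact D.glueEquiv_φ i j (g ''ᵁ W) (SecHom.image_le g hg W) s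

/-- The glued module pulls back to `N i` on (any open subscheme of) `U i`. -/
noncomputable def gluePullbackIso (i : ι) (g : Y ⟶ X) [IsOpenImmersion g]
    (hg : g.opensRange ≤ D.U i) :
    (Scheme.Modules.pullback g).obj D.glue ≅ (Scheme.Modules.pullback g).obj (D.N i) :=
  (Scheme.Modules.restrictFunctorIsoPullback g).symm.app D.glue ≪≫ D.glueRestrictIso i g hg ≪≫
    (Scheme.Modules.restrictFunctorIsoPullback g).app (D.N i)

/-- Chart form: if `N i` is (isomorphic to) the pushforward of a module `M` on the chart
`g : Y ⟶ X`, then the glued module pulls back to `M` on the chart. -/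
noncomputable def glueChartIso (i : ι) (g : Y ⟶ X) [IsOpenImmersion g]
    (hg : g.opensRange ≤ D.U i) (M : Y.Modules)
    (eN : D.N i ≅ (Scheme.Modules.pushforward g).obj M) :
    (Scheme.Modules.pullback g).obj D.glue ≅ M :=
  (Scheme.Modules.restrictFunctorIsoPullback g).symm.app D.glue ≪≫ D.glueRestrictIso i g hg ≪≫
    (Scheme.Modules.restrictFunctor g).mapIso eN ≪≫
    (Scheme.Modules.restrictFunctorAdjCounitIso g).app M

/-- Restrict form of `glueChartIso`. -/
noncomputable def glueChartRestrictIso (i : ι) (g : Y ⟶ X) [IsOpenImmersion g]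
    (hg : g.opensRange ≤ D.U i) (M : Y.Modules)
    (eN : D.N i ≅ (Scheme.Modules.pushforward g).obj M) :
    D.glue.restrict g ≅ M :=
  D.glueRestrictIso i g hg ≪≫ (Scheme.Modules.restrictFunctor g).mapIso eN ≪≫
    (Scheme.Modules.restrictFunctorAdjCounitIso g).app M

end GlueData

end Fermat.Agent.S25.helper5979
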