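/-
S25, layer L0: geometry kit for the frozen wrappers of `LocIso` / `GlueObj`.

For `ψ : SchemeHomOver t' t` the map `baseChangeSnd c ψ : pullback c t' ⟶ pullback c t` is the
base change of `ψ.1` along the second projection `π = pullback.snd c t`.  In particular, for an
open cover `𝒰` of `T` the maps `baseChangeSnd c (coverHom t 𝒰 i)` are open immersions with range
`π ⁻¹ᵁ (𝒰.f i).opensRange`, they cover `pullback c t`, and their pairwise fibre products are the
base changes of the overlaps `pullback (𝒰.f i) (𝒰.f j)`.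
-/
import Fermat.Agent.S25.helper7579_AffineReduction

set_option autoImplicit false

universe u

open CategoryTheory CategoryTheory.Limits AlgebraicGeometry AlgebraicGeometry.RelPicard
  NeronModelInfra

namespace Fermat.Agent.S25.helper7579

noncomputable section

variable {R : Type u} [CommRing R] {C : Scheme.{u}} (c : C ⟶ Spec (CommRingCat.of R))

section BaseChange

variable {T T' : Scheme.{u}} {t : T ⟶ Spec (CommRingCat.of R)} {t' : T' ⟶ Spec (CommRingCat.of R)}
  (ψ : SchemeHomOver t' t)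

@[reassoc]
theorem baseChangeSnd_fst :
    baseChangeSnd c ψ ≫ pullback.fst c t = pullback.fst c t' :=
  (pullback.lift_fst _ _ _).trans (Category.comp_id _)

@[reassoc]
theorem baseChangeSnd_snd :
    baseChangeSnd c ψ ≫ pullback.snd c t = pullback.snd c t' ≫ ψ.1 :=
  pullback.lift_snd _ _ _

/-- `baseChangeSnd c ψ` is the base change of `ψ.1` along the second projection. -/
theorem isPullback_baseChangeSnd :
    IsPullback (baseChangeSnd c ψ) (pullback.snd c t') (pullback.snd c t) ψ.1 := by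
  have h1 : IsPullback (pullback.fst c t') (pullback.snd c t') c t' :=
    IsPullback.of_hasPullback _ _
  have h2 : IsPullback (pullback.fst c t) (pullback.snd c t) c t := IsPullback.of_hasPullback _ _
  refine IsPullback.of_right ?_ (baseChangeSnd_snd c ψ) h2
  rw [baseChangeSnd_fst, ψ.2]
  exact h1

instance isOpenImmersion_baseChangeSnd [IsOpenImmersion ψ.1] :
    IsOpenImmersion (baseChangeSnd c ψ) :=
  MorphismProperty.of_isPullback (isPullback_baseChangeSnd c ψ).flip ‹IsOpenImmersion ψ.1›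

theorem range_baseChangeSnd :
    Set.range (baseChangeSnd c ψ) = pullback.snd c t ⁻¹' Set.range ψ.1 := by
  unfold baseChangeSnd
  rw [Scheme.Pullback.range_map]
  simp

theorem opensRange_baseChangeSnd [IsOpenImmersion ψ.1] :
    (baseChangeSnd c ψ).opensRange = pullback.snd c t ⁻¹ᵁ ψ.1.opensRange := by
  ext z
  exact Set.ext_iff.mp (range_baseChangeSnd c ψ) z

end BaseChange

section Section

variable {T : Scheme.{u}} (t : T ⟶ Spec (CommRingCat.of R))
  (ε : SchemeHomOver (𝟙 (Spec (CommRingCat.of R))) c)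

@[reassoc]
theorem rigSection_snd : rigSection c t ε ≫ pullback.snd c t = 𝟙 T :=
  pullback.lift_snd _ _ _

@[reassoc]
theorem rigSection_fst : rigSection c t ε ≫ pullback.fst c t = t ≫ ε.1 :=
  pullback.lift_fst _ _ _

theorem rigSection_preimage_snd_preimage (U : T.Opens) :
    rigSection c t ε ⁻¹ᵁ (pullback.snd c t ⁻¹ᵁ U) = U := by
  rw [← Scheme.Hom.comp_preimage, rigSection_snd]
  rfl

end Section

section Cover

variable {T : Scheme.{u}} (t : T ⟶ Spec (CommRingCat.of R)) (𝒰 : Scheme.OpenCover.{u} T)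

/-- The chart of `pullback c t` over the member `i` of an open cover of `T`. -/
abbrev coverChart (i : 𝒰.I₀) : pullback c (𝒰.f i ≫ t) ⟶ pullback c t :=
  baseChangeSnd c (coverHom t 𝒰 i)

instance isOpenImmersion_coverChart (i : 𝒰.I₀) : IsOpenImmersion (coverChart c t 𝒰 i) :=
  haveI : IsOpenImmersion (coverHom t 𝒰 i).1 := inferInstanceAs (IsOpenImmersion (𝒰.f i))
  isOpenImmersion_baseChangeSnd c (coverHom t 𝒰 i)

theorem opensRange_coverChart (i : 𝒰.I₀) :
    (coverChart c t 𝒰 i).opensRange = pullback.snd c t ⁻¹ᵁ (𝒰.f i).opensRange :=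
  haveI : IsOpenImmersion (coverHom t 𝒰 i).1 := inferInstanceAs (IsOpenImmersion (𝒰.f i))
  opensRange_baseChangeSnd c (coverHom t 𝒰 i)

theorem iSup_opensRange_cover : ⨆ i, (𝒰.f i).opensRange = ⊤ := by
  refine TopologicalSpace.Opens.ext (Set.eq_univ_of_forall fun p => ?_)
  obtain ⟨i, q, hq⟩ := 𝒰.exists_eq p
  simp only [TopologicalSpace.Opens.iSup_mk, TopologicalSpace.Opens.carrier_eq_coe,
    TopologicalSpace.Opens.coe_mk, Set.mem_iUnion]
  exact ⟨i, q, hq⟩

/-- The charts over an open cover of `T` cover `pullback c t`. -/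
theorem iSup_opensRange_coverChart : ⨆ i, (coverChart c t 𝒰 i).opensRange = ⊤ := by
  refine TopologicalSpace.Opens.ext (Set.eq_univ_of_forall fun p => ?_)
  obtain ⟨i, q, hq⟩ := 𝒰.exists_eq ((pullback.snd c t).base p)
  simp only [TopologicalSpace.Opens.iSup_mk, TopologicalSpace.Opens.carrier_eq_coe,
    TopologicalSpace.Opens.coe_mk, Set.mem_iUnion]
  refine ⟨i, ?_⟩
  rw [opensRange_coverChart]
  exact ⟨q, hq⟩

theorem exists_coverChart_eq (p : ↥(pullback c t)) :
    ∃ i, ∃ q : ↥(pullback c (𝒰.f i ≫ t)), (coverChart c t 𝒰 i).base q = p := by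
  obtain ⟨i, q, hq⟩ := 𝒰.exists_eq ((pullback.snd c t).base p)
  have hp : p ∈ (coverChart c t 𝒰 i).opensRange := by
    rw [opensRange_coverChart]
    exact ⟨q, hq⟩
  exact ⟨i, hp⟩

/-- The open cover of `pullback c t` by the charts over an open cover of `T`. -/
def coverChartCover : Scheme.OpenCover.{u} (pullback c t) :=
  Scheme.Cover.mkOfCovers 𝒰.I₀ (fun i => pullback c (𝒰.f i ≫ t)) (coverChart c t 𝒰)
    (exists_coverChart_eq c t 𝒰)

/-- First projection of the overlap `pullback (𝒰.f i) (𝒰.f j)`, over the base (the shape used in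
`helper1705.GlueObj`). -/
abbrev overlapHomFst (i j : 𝒰.I₀) :
    SchemeHomOver (pullback.fst (𝒰.f i) (𝒰.f j) ≫ 𝒰.f i ≫ t) (𝒰.f i ≫ t) :=
  ⟨pullback.fst (𝒰.f i) (𝒰.f j), rfl⟩

/-- Second projection of the overlap `pullback (𝒰.f i) (𝒰.f j)`, over the base (the shape used in
`helper1705.GlueObj`). -/
abbrev overlapHomSnd (i j : 𝒰.I₀) :
    SchemeHomOver (pullback.fst (𝒰.f i) (𝒰.f j) ≫ 𝒰.f i ≫ t) (𝒰.f j ≫ t) :=
  ⟨pullback.snd (𝒰.f i) (𝒰.f j), by
    rw [← Category.assoc, ← pullback.condition, Category.assoc]⟩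

/-- The overlap chart: `pullback c` of the overlap `pullback (𝒰.f i) (𝒰.f j)`, mapped to the chart
over `i`. -/
abbrev overlapChartFst (i j : 𝒰.I₀) :
    pullback c (pullback.fst (𝒰.f i) (𝒰.f j) ≫ 𝒰.f i ≫ t) ⟶ pullback c (𝒰.f i ≫ t) :=
  baseChangeSnd c (overlapHomFst t 𝒰 i j)

/-- The overlap chart, mapped to the chart over `j`. -/
abbrev overlapChartSnd (i j : 𝒰.I₀) :
    pullback c (pullback.fst (𝒰.f i) (𝒰.f j) ≫ 𝒰.f i ≫ t) ⟶ pullback c (𝒰.f j ≫ t) :=
  baseChangeSnd c (overlapHomSnd t 𝒰 i j)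

theorem overlapChart_comm (i j : 𝒰.I₀) :
    overlapChartFst c t 𝒰 i j ≫ coverChart c t 𝒰 i =
      overlapChartSnd c t 𝒰 i j ≫ coverChart c t 𝒰 j := by
  apply pullback.hom_ext
  · simp only [Category.assoc, baseChangeSnd_fst]
  · simp only [Category.assoc, baseChangeSnd_snd, baseChangeSnd_snd_assoc, pullback.condition]

/-- The charts over `i` and `j` intersect in the chart over the overlap. -/
theorem isPullback_overlapChart (i j : 𝒰.I₀) :
    IsPullback (overlapChartFst c t 𝒰 i j) (overlapChartSnd c t 𝒰 i j)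
      (coverChart c t 𝒰 i) (coverChart c t 𝒰 j) := by
  have hT : IsPullback (pullback.fst (𝒰.f i) (𝒰.f j)) (pullback.snd (𝒰.f i) (𝒰.f j))
      (𝒰.f i) (𝒰.f j) := IsPullback.of_hasPullback _ _
  -- the big square over `T`
  have h1 : IsPullback (overlapChartFst c t 𝒰 i j)
      (pullback.snd c (pullback.fst (𝒰.f i) (𝒰.f j) ≫ 𝒰.f i ≫ t) ≫ pullback.snd (𝒰.f i) (𝒰.f j))
      (pullback.snd c (𝒰.f i ≫ t) ≫ 𝒰.f i) (𝒰.f j) :=
    (isPullback_baseChangeSnd c (overlapHomFst t 𝒰 i j)).paste_vert hT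
  have e1 : pullback.snd c (pullback.fst (𝒰.f i) (𝒰.f j) ≫ 𝒰.f i ≫ t) ≫
      pullback.snd (𝒰.f i) (𝒰.f j) = overlapChartSnd c t 𝒰 i j ≫ pullback.snd c (𝒰.f j ≫ t) :=
    (baseChangeSnd_snd c (overlapHomSnd t 𝒰 i j)).symm
  have e2 : pullback.snd c (𝒰.f i ≫ t) ≫ 𝒰.f i = coverChart c t 𝒰 i ≫ pullback.snd c t :=
    (baseChangeSnd_snd c (coverHom t 𝒰 i)).symm
  rw [e1, e2] at h1
  exact IsPullback.of_bot h1 (overlapChart_comm c t 𝒰 i j)
    (isPullback_baseChangeSnd c (coverHom t 𝒰 j))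

end Cover

end

end Fermat.Agent.S25.helper7579
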