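import Fermat.Agent.S25.helper3151_GlueCore
import Fermat.Agent.S25.helper2952_LocIso
import Fermat.Agent.S25.helper2952_RigOfEv
import Fermat.Agent.S25.helper5979_GlueCharts
import Fermat.Agent.S25.helper2321_EndInvertible
import Fermat.Agent.S25.helper7579_CoverKit

/-!
# S25, leaf L0-GLUEOBJ, frozen wrapper layer (helper3151)

The sectionwise gluing core `glueCore` (work of helper9244, see `helper3151_GlueCore`) is
instantiated on `X = C ×_R T` with the
charts `b_i : C ×_R U_i ⟶ C ×_R T` of an open cover of `T`: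

* `isGen_pushSec`, `hasGens_pushforward` : local generators of a module on a chart give local generators of its
  pushforward to `X`;
* `evOnPush` : the evaluation attached to a rigidification on a chart, transported to `X`;
* `exists_homOn_of_pullbackIso` : an isomorphism on the overlap chart gives a sectionwise
  isomorphism of the pushforwards.
-/

set_option autoImplicit false

universe u

open CategoryTheory CategoryTheory.Limits TopologicalSpace Opposite AlgebraicGeometry

namespace Fermat.Agent.S25.helper3151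

open Fermat.Agent.S25.helper4193 (res res_res res_self res_smul res_apply)

noncomputable section

variable {X Y : Scheme.{u}}

/-! ## Open immersions: functions on opens inside the range -/

/-- For an open immersion `b` and an open `W` inside its range, `b^♯` is bijective on `W`. -/
lemma app_bijective (b : Y ⟶ X) [IsOpenImmersion b] {W : X.Opens} (hW : W ≤ b.opensRange) :
    Function.Bijective (b.app W).hom := by
  have := b.isIso_app W hW
  exact ConcreteCategory.bijective_of_isIso (b.app W)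

/-- The inverse of `b^♯` on an open inside the range of the open immersion `b`. -/
def appEquiv (b : Y ⟶ X) [IsOpenImmersion b] {W : X.Opens} (hW : W ≤ b.opensRange) :
    Γ(X, W) ≃+* Γ(Y, b ⁻¹ᵁ W) :=
  RingEquiv.ofBijective (b.app W).hom (app_bijective b hW)

lemma appEquiv_apply (b : Y ⟶ X) [IsOpenImmersion b] {W : X.Opens} (hW : W ≤ b.opensRange)
    (r : Γ(X, W)) : appEquiv b hW r = b.app W r := rfl

lemma app_appEquiv_symm (b : Y ⟶ X) [IsOpenImmersion b] {W : X.Opens} (hW : W ≤ b.opensRange)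
    (r : Γ(Y, b ⁻¹ᵁ W)) : b.app W ((appEquiv b hW).symm r) = r :=
  (appEquiv b hW).apply_symm_apply r

/-! ## Pushforward of generators along an open immersion -/

/-- Sections of a pushforward, as sections over the preimage. -/
def pfSec (b : Y ⟶ X) (L : Y.Modules) (W : X.Opens) :
    Γ((Scheme.Modules.pushforward b).obj L, W) ≃+ Γ(L, b ⁻¹ᵁ W) := AddEquiv.refl _

lemma pfSec_smul (b : Y ⟶ X) (L : Y.Modules) (W : X.Opens) (r : Γ(X, W))
    (s : Γ((Scheme.Modules.pushforward b).obj L, W)) :
    pfSec b L W (r • s) = (b.app W r : Γ(Y, b ⁻¹ᵁ W)) • pfSec b L W s := rfl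

lemma pfSec_res (b : Y ⟶ X) (L : Y.Modules) {W W' : X.Opens} (h : W' ≤ W)
    (s : Γ((Scheme.Modules.pushforward b).obj L, W)) :
    pfSec b L W' (res _ h s) = res L (b.preimage_mono h) (pfSec b L W s) := rfl

/-- A section of `L` over `W'`, as a section of the pushforward over the image of `W'`. -/
def pushSec (b : Y ⟶ X) [IsOpenImmersion b] (L : Y.Modules) {W' : Y.Opens} (m : Γ(L, W')) :
    Γ((Scheme.Modules.pushforward b).obj L, b ''ᵁ W') :=
  (pfSec b L (b ''ᵁ W')).symm (res L (b.preimage_image_eq W').le m)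

lemma pfSec_pushSec (b : Y ⟶ X) [IsOpenImmersion b] (L : Y.Modules) {W' : Y.Opens}
    (m : Γ(L, W')) :
    pfSec b L (b ''ᵁ W') (pushSec b L m) = res L (b.preimage_image_eq W').le m := rfl

/-- The pushforward of a local generator along an open immersion is a local generator. -/
theorem isGen_pushSec (b : Y ⟶ X) [IsOpenImmersion b] (L : Y.Modules) {W' : Y.Opens}
    {m : Γ(L, W')} (hm : IsGen L W' m) :
    IsGen ((Scheme.Modules.pushforward b).obj L) (b ''ᵁ W') (pushSec b L m) := by
  intro W h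
  have hW : W ≤ b.opensRange := h.trans (b.image_le_opensRange W')
  have h' : b ⁻¹ᵁ W ≤ W' := (b.preimage_mono h).trans (b.preimage_image_eq W').le
  have key : (fun a : Γ(X, W) => a • res ((Scheme.Modules.pushforward b).obj L) h (pushSec b L m))
      = (fun t : Γ(Y, b ⁻¹ᵁ W) => t • res L h' m) ∘ (b.app W).hom := by
    funext a
    change (b.app W a : Γ(Y, b ⁻¹ᵁ W)) •
      res L (b.preimage_mono h) (res L (b.preimage_image_eq W').le m) = _
    rw [res_res]
    rfl
  rw [key]
  exact (hm _ h').comp (app_bijective b hW)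

/-- The pushforward along an open immersion of a module with local generators has local
generators on the range. -/
theorem hasGens_pushforward (b : Y ⟶ X) [IsOpenImmersion b] (L : Y.Modules)
    (hL : ∀ y : Y, ∃ (W' : Y.Opens) (m : Γ(L, W')), y ∈ W' ∧ IsGen L W' m) :
    HasGens ((Scheme.Modules.pushforward b).obj L) b.opensRange := by
  intro x hx
  obtain ⟨y, rfl⟩ := hx
  obtain ⟨W', m, hy, hm⟩ := hL y
  exact ⟨b ''ᵁ W', b.image_le_opensRange W', pushSec b L m, ⟨y, hy, rfl⟩, isGen_pushSec b L hm⟩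

/-! ## Transport of an evaluation to the base -/

section Ev

variable {T U : Scheme.{u}} (b : Y ⟶ X) (f : U ⟶ T) (σ : T ⟶ X) (σ' : U ⟶ Y)
  (hcomm : σ' ≫ b = f ≫ σ) {L : Y.Modules}
  (ρ : (Scheme.Modules.pullback σ').obj L ⟶ OO U)

/-- The evaluation attached to `ρ : σ'^* L ⟶ 𝒪_U`, pushed forward to `X`: a morphism
`b_* L ⟶ σ_* f_* 𝒪_U`. -/
def evPush : (Scheme.Modules.pushforward b).obj L ⟶
    (Scheme.Modules.pushforward σ).obj ((Scheme.Modules.pushforward f).obj (OO U)) :=
  (Scheme.Modules.pushforward b).map (helper2952.evalHom σ' ρ) ≫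
    (Scheme.Modules.pushforwardComp σ' b).hom.app _ ≫
    (Scheme.Modules.pushforwardCongr hcomm).hom.app _ ≫
    (Scheme.Modules.pushforwardComp f σ).inv.app _

/-- The sections of `σ_* f_* 𝒪_U` are functions on `U`. -/
def ffSec (W : X.Opens) :
    Γ((Scheme.Modules.pushforward σ).obj ((Scheme.Modules.pushforward f).obj (OO U)), W) ≃+
      Γ(U, f ⁻¹ᵁ σ ⁻¹ᵁ W) := AddEquiv.refl _

include hcomm in
lemma preimage_eq_of_comm (W : X.Opens) : f ⁻¹ᵁ σ ⁻¹ᵁ W = σ' ⁻¹ᵁ b ⁻¹ᵁ W := by
  rw [← Scheme.Hom.comp_preimage, ← Scheme.Hom.comp_preimage, hcomm]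

lemma ffSec_evPush (W : X.Opens) (s : Γ((Scheme.Modules.pushforward b).obj L, W)) :
    ffSec f σ W ((evPush b f σ σ' hcomm ρ).app W s) =
      resO U (preimage_eq_of_comm b f σ σ' hcomm W).le
        (helper2952.ev σ' ρ (b ⁻¹ᵁ W) (pfSec b L W s)) := rfl

lemma ffSec_smul (W : X.Opens) (r : Γ(X, W))
    (s : Γ((Scheme.Modules.pushforward σ).obj ((Scheme.Modules.pushforward f).obj (OO U)), W)) :
    ffSec f σ W (r • s) = f.app (σ ⁻¹ᵁ W) (σ.app W r) * ffSec f σ W s := rfl

lemma ffSec_res {W W' : X.Opens} (h : W' ≤ W)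
    (s : Γ((Scheme.Modules.pushforward σ).obj ((Scheme.Modules.pushforward f).obj (OO U)), W)) :
    ffSec f σ W' (res _ h s) =
      resO U (f.preimage_mono (σ.preimage_mono h)) (ffSec f σ W s) := rfl

variable [IsOpenImmersion f]

/-- The evaluation along `σ` on the pushforward `b_* L`, over an open `W₀` of `X` such that
`σ⁻¹ W₀` lies in the range of `f`. -/
def evOnPush (W₀ : X.Opens) (h₀ : σ ⁻¹ᵁ W₀ ≤ f.opensRange) :
    EvOn σ ((Scheme.Modules.pushforward b).obj L) W₀ where
  ev W hW :=
    ((appEquiv f ((σ.preimage_mono hW).trans h₀)).symm :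
        Γ(U, f ⁻¹ᵁ σ ⁻¹ᵁ W) →+ Γ(T, σ ⁻¹ᵁ W)).comp
      (((ffSec f σ W : _ →+ Γ(U, f ⁻¹ᵁ σ ⁻¹ᵁ W))).comp
        ((evPush b f σ σ' hcomm ρ).app W).hom)
  ev_res W W' hW h s := by
    apply (appEquiv f ((σ.preimage_mono (h.trans hW)).trans h₀)).injective
    simp only [AddMonoidHom.comp_apply]
    erw [RingEquiv.apply_symm_apply]
    rw [appEquiv_apply, app_resO]
    erw [app_appEquiv_symm]
    erw [helper4193.hom_app_res (evPush b f σ σ' hcomm ρ) h s]
    rfl
  ev_smul W hW r s := by
    apply (appEquiv f ((σ.preimage_mono hW).trans h₀)).injective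
    simp only [AddMonoidHom.comp_apply]
    erw [RingEquiv.apply_symm_apply]
    rw [map_mul]
    erw [RingEquiv.apply_symm_apply]
    erw [Scheme.Modules.Hom.app_smul]
    rfl

lemma evOnPush_ev (W₀ : X.Opens) (h₀ : σ ⁻¹ᵁ W₀ ≤ f.opensRange) (W : X.Opens) (hW : W ≤ W₀)
    (s : Γ((Scheme.Modules.pushforward b).obj L, W)) :
    (evOnPush b f σ σ' hcomm ρ W₀ h₀).ev W hW s =
      (appEquiv f ((σ.preimage_mono hW).trans h₀)).symm
        (resO U (preimage_eq_of_comm b f σ σ' hcomm W).le
          (helper2952.ev σ' ρ (b ⁻¹ᵁ W) (pfSec b L W s))) := rfl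

/-- The transported evaluation of a rigidification is a unit on pushed-forward generators. -/
theorem evOnPush_good [IsOpenImmersion b] (ρ : (Scheme.Modules.pullback σ').obj L ≅ OO U)
    (hL : ∀ y : Y, ∃ (W' : Y.Opens) (m : Γ(L, W')), y ∈ W' ∧ IsGen L W' m)
    (W₀ : X.Opens) (h₀ : σ ⁻¹ᵁ W₀ ≤ f.opensRange) (hb : b.opensRange ≤ W₀) :
    (evOnPush b f σ σ' hcomm ρ.hom W₀ h₀).Good f.opensRange := by
  intro x hx
  obtain ⟨u, rfl⟩ := hx
  obtain ⟨W', m, hu, hm⟩ := hL (σ' u)
  have hσ : σ (f u) = b (σ' u) := by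
    rw [← Scheme.Hom.comp_apply, ← Scheme.Hom.comp_apply, hcomm]
  refine ⟨b ''ᵁ W', (b.image_le_opensRange W').trans hb, pushSec b L m, ?_,
    isGen_pushSec b L hm, ?_⟩
  · rw [hσ]
    exact ⟨σ' u, hu, rfl⟩
  · rw [evOnPush_ev, pfSec_pushSec]
    have h1 : IsUnit (helper2952.ev σ' ρ.hom W' m) :=
      helper2952.isUnit_ev_of_isGenerator σ' ρ hm
    have h2 := helper2952.ev_res σ' ρ.hom (b.preimage_image_eq W').le m
    have h3 : IsUnit (helper2952.ev σ' ρ.hom (b ⁻¹ᵁ b ''ᵁ W')
        (res L (b.preimage_image_eq W').le m)) := by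
      erw [h2]
      exact h1.map _
    exact (h3.map _).map _

end Ev

/-! ## Overlaps: from an isomorphism of pullbacks to a sectionwise isomorphism -/

section Overlap

/-- A sectionwise morphism in the vocabulary of `helper2952`, as a `HomOn`. -/
def homOnOfSecHom {M N : X.Modules} {W₀ : X.Opens} (ψ : helper2952.SecHom M N W₀) :
    HomOn M N W₀ where
  app := ψ.toFun
  app_res W W' hW h s := (ψ.map_res W W' hW h s).symm
  app_smul := ψ.map_smul

/-- A `HomOn`, as a sectionwise morphism in the vocabulary of `helper5979`. -/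
def secHomOfHomOn {M N : X.Modules} {W₀ : X.Opens} (g : HomOn M N W₀) :
    helper5979.SecHom M N W₀ where
  app := g.app
  app_smul := g.app_smul
  app_res W W' hW h s := (g.app_res W W' hW h s).symm

/-- The restriction of a pushforward `b_* L` to an open subscheme `a` of the chart is the
pullback of `L`. -/
def restrictPushIso {Z : Scheme.{u}} (b : Y ⟶ X) (a : Z ⟶ Y) [IsOpenImmersion b]
    [IsOpenImmersion a] (L : Y.Modules) :
    ((Scheme.Modules.pushforward b).obj L).restrict (a ≫ b) ≅
      (Scheme.Modules.pullback a).obj L :=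
  (Scheme.Modules.restrictFunctorComp a b).app _ ≪≫
    (Scheme.Modules.restrictFunctor a).mapIso
      ((Scheme.Modules.restrictFunctorAdjCounitIso b).app L) ≪≫
    (Scheme.Modules.restrictFunctorIsoPullback a).app L

variable {Yi Yj Z : Scheme.{u}} (bi : Yi ⟶ X) (bj : Yj ⟶ X) (a : Z ⟶ Yi) (a' : Z ⟶ Yj)
  [IsOpenImmersion bi] [IsOpenImmersion bj] [IsOpenImmersion a] [IsOpenImmersion a']
  (hcomm : a ≫ bi = a' ≫ bj) {Li : Yi.Modules} {Lj : Yj.Modules}

/-- An isomorphism between the pullbacks to the overlap chart, as an isomorphism between the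
restrictions of the two pushforwards. -/
def overlapRestrictIso
    (φ : (Scheme.Modules.pullback a).obj Li ≅ (Scheme.Modules.pullback a').obj Lj) :
    ((Scheme.Modules.pushforward bi).obj Li).restrict (a ≫ bi) ≅
      ((Scheme.Modules.pushforward bj).obj Lj).restrict (a ≫ bi) :=
  restrictPushIso bi a Li ≪≫ φ ≪≫ (restrictPushIso bj a' Lj).symm ≪≫
    ((Scheme.Modules.restrictFunctorCongr hcomm).app _).symm

include hcomm in
/-- An isomorphism between the pullbacks of `Li` and `Lj` to the overlap chart gives a sectionwise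
isomorphism between the pushforwards on the image of the overlap chart. -/
theorem exists_homOn_of_pullbackIso
    (φ : (Scheme.Modules.pullback a).obj Li ≅ (Scheme.Modules.pullback a').obj Lj) :
    ∃ g : HomOn ((Scheme.Modules.pushforward bi).obj Li) ((Scheme.Modules.pushforward bj).obj Lj)
      (a ≫ bi).opensRange, g.IsIso := by
  obtain ⟨e⟩ : Nonempty (((Scheme.Modules.pushforward bi).obj Li).restrict (a ≫ bi) ≅
      ((Scheme.Modules.pushforward bj).obj Lj).restrict (a ≫ bi)) :=
    ⟨overlapRestrictIso bi bj a a' hcomm φ⟩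
  refine ⟨homOnOfSecHom (helper2952.secHomOfRestrict (a ≫ bi) e.hom), fun W hW => ?_⟩
  refine Function.bijective_iff_has_inverse.2
    ⟨(helper2952.secHomOfRestrict (a ≫ bi) e.inv).toFun W hW, fun m => ?_, fun n => ?_⟩
  · exact helper2952.secHomOfRestrict_inv_hom (a ≫ bi) e W hW m
  · exact helper2952.secHomOfRestrict_inv_hom (a ≫ bi) e.symm W hW n

end Overlap

/-! ## The gluing brick P3 in the shape consumed by the core -/

/-- Brick P3 (`helper5979.GlueData.glue`) in the shape `GlueStmt`. -/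
theorem glueStmt : GlueStmt.{u} := by
  intro X ι U K g hself hcomp
  let D : helper5979.GlueData X ι :=
    { U := U
      N := K
      φ := fun i j W h => (g i j).app W h
      φ_smul := fun i j W h r s => (g i j).app_smul W h r s
      φ_res := fun i j W W' h h' s => ((g i j).app_res W W' h h' s).symm
      φ_self := fun i W h s => hself i W h s
      φ_comp := fun i j k W hij hjk hik s => hcomp i j k W hij hjk hik s }
  refine ⟨D.glue, fun i =>
    { app := fun W hW => (D.glueEquiv i W hW).toAddMonoidHom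
      app_res := fun W W' hW h s => (D.glueEquiv_res i W W' hW h s).symm
      app_smul := fun W hW r s => D.glueEquiv_smul i W hW r s }, ?_, ?_⟩
  · intro i W hW
    exact (D.glueEquiv i W hW).bijective
  · intro i j W hi hj s
    exact D.glueEquiv_φ i j W (le_inf hi hj) s

/-! ## The frozen statement -/

section Wrapper

open AlgebraicGeometry.RelPicard NeronModelInfra

variable {R : Type u} [CommRing R] {C : Scheme.{u}} (c : C ⟶ Spec (CommRingCat.of R))
  (ε : SchemeHomOver (𝟙 (Spec (CommRingCat.of R))) c)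

/-- The image of the overlap chart contains the preimage of the overlap. -/
lemma preimage_inf_le_opensRange {T : Scheme.{u}} (t : T ⟶ Spec (CommRingCat.of R))
    (𝒰 : Scheme.OpenCover.{u} T) (i j : 𝒰.I₀) :
    pullback.snd c t ⁻¹ᵁ ((𝒰.f i).opensRange ⊓ (𝒰.f j).opensRange) ≤
      (helper7579.overlapChartFst c t 𝒰 i j ≫ helper7579.coverChart c t 𝒰 i).opensRange := by
  intro z hz
  have hi : z ∈ (helper7579.coverChart c t 𝒰 i).opensRange := by
    rw [helper7579.opensRange_coverChart]; exact hz.1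
  have hj : z ∈ (helper7579.coverChart c t 𝒰 j).opensRange := by
    rw [helper7579.opensRange_coverChart]; exact hz.2
  obtain ⟨y, hy⟩ := hi
  obtain ⟨y', hy'⟩ := hj
  obtain ⟨w, hw, -⟩ := Scheme.exists_preimage_of_isPullback
    (helper7579.isPullback_overlapChart c t 𝒰 i j) y y' (hy.trans hy'.symm)
  refine ⟨w, ?_⟩
  rw [Scheme.Hom.comp_apply]
  exact (congrArg _ hw).trans hy

/-- **Effectivity of Zariski descent for rigidified line bundles**, general form: if all
functions on `pr₂⁻¹ V ⊆ C ×_R T` come from `V`, then rigidified line bundles given locally on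
`T`, whose classes agree on the overlaps, glue. -/
theorem glueObj_of_surjective
    (hΓ : ∀ {T : Scheme.{u}} (t : T ⟶ Spec (CommRingCat.of R)) (V : T.Opens),
      Function.Surjective ((pullback.snd c t).app V)) :
    helper1705.GlueObj c ε := by
  intro T t 𝒰 M hM
  have hσ : rigSection c t ε ≫ pullback.snd c t = 𝟙 T := helper7579.rigSection_snd c t ε
  have hV : ⨆ i, (𝒰.f i).opensRange = ⊤ := helper7579.iSup_opensRange_cover 𝒰
  have hb : ∀ i, (helper7579.coverChart c t 𝒰 i).opensRange =
      pullback.snd c t ⁻¹ᵁ (𝒰.f i).opensRange := helper7579.opensRange_coverChart c t 𝒰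
  -- local generators on the charts
  have hL : ∀ (i) (y : ↥(pullback c (𝒰.f i ≫ t))),
      ∃ (W' : (pullback c (𝒰.f i ≫ t)).Opens) (m : Γ((M i).L, W')), y ∈ W' ∧ IsGen (M i).L W' m := by
    intro i y
    obtain ⟨W', g, hy, hg⟩ := helper2321.exists_gen_of_locally_trivial (M i).L
      (M i).isInvertible.exists_trivialization y
    exact ⟨W', g, hy, hg⟩
  have hK : ∀ i, HasGens ((Scheme.Modules.pushforward (helper7579.coverChart c t 𝒰 i)).obj (M i).L)
      (pullback.snd c t ⁻¹ᵁ (𝒰.f i).opensRange) := by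
    intro i
    rw [← hb i]
    exact hasGens_pushforward _ _ (hL i)
  -- the evaluations
  have hcomm : ∀ i, rigSection c (𝒰.f i ≫ t) ε ≫ helper7579.coverChart c t 𝒰 i =
      𝒰.f i ≫ rigSection c t ε := fun i =>
    rigSection_baseChangeSnd c ε (helper7579.coverHom t 𝒰 i)
  have h₀ : ∀ i, rigSection c t ε ⁻¹ᵁ (pullback.snd c t ⁻¹ᵁ (𝒰.f i).opensRange) ≤
      (𝒰.f i).opensRange := fun i => preimage_sigma_le _ _ hσ le_rfl
  choose ρ _ using fun i => exists_true_iff_nonempty.mpr (M i).rigidified
  -- the overlaps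
  have hiso : ∀ i j, ∃ g : HomOn
      ((Scheme.Modules.pushforward (helper7579.coverChart c t 𝒰 i)).obj (M i).L)
      ((Scheme.Modules.pushforward (helper7579.coverChart c t 𝒰 j)).obj (M j).L)
      (pullback.snd c t ⁻¹ᵁ ((𝒰.f i).opensRange ⊓ (𝒰.f j).opensRange)), g.IsIso := by
    intro i j
    obtain ⟨φ⟩ := hM i j
    obtain ⟨g, hg⟩ := exists_homOn_of_pullbackIso (helper7579.coverChart c t 𝒰 i)
      (helper7579.coverChart c t 𝒰 j) (helper7579.overlapChartFst c t 𝒰 i j)
      (helper7579.overlapChartSnd c t 𝒰 i j) (helper7579.overlapChart_comm c t 𝒰 i j) φ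
    exact ⟨g.restrict (preimage_inf_le_opensRange c t 𝒰 i j),
      HomOn.restrict_isIso hg _⟩
  obtain ⟨E, hE⟩ : ∃ E : ∀ i, EvOn (rigSection c t ε)
      ((Scheme.Modules.pushforward (helper7579.coverChart c t 𝒰 i)).obj (M i).L)
      (pullback.snd c t ⁻¹ᵁ (𝒰.f i).opensRange), ∀ i, (E i).Good (𝒰.f i).opensRange :=
    ⟨fun i => evOnPush (helper7579.coverChart c t 𝒰 i) (𝒰.f i) (rigSection c t ε)
      (rigSection c (𝒰.f i ≫ t) ε) (hcomm i) (ρ i).hom _ (h₀ i),
     fun i => evOnPush_good (helper7579.coverChart c t 𝒰 i) (𝒰.f i) (rigSection c t ε)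
      (rigSection c (𝒰.f i ≫ t) ε) (hcomm i) (ρ i) (hL i) _ (h₀ i) (hb i).le⟩
  obtain ⟨N, EN, e, he, heE⟩ := glueCore glueStmt (pullback.snd c t)
    (rigSection c t ε) hσ (hΓ t) (fun i => (𝒰.f i).opensRange) hV
    (fun i => (Scheme.Modules.pushforward (helper7579.coverChart c t 𝒰 i)).obj (M i).L) hK
    E hE hiso
  -- every point of the base lies in some member of the cover
  have hcov : ∀ x : T, ∃ i, x ∈ (𝒰.f i).opensRange := by
    intro x
    have hx : x ∈ ⨆ i, (𝒰.f i).opensRange := by rw [hV]; trivial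
    exact Opens.mem_iSup.1 hx
  -- the glued module is invertible
  have hinv : Scheme.Modules.IsInvertible N := by
    refine helper2321.isInvertible_of_gen N fun x => ?_
    obtain ⟨i, hi⟩ := hcov (pullback.snd c t x)
    obtain ⟨W, hW, e₀, hxW, he₀⟩ :=
      HomOn.hasGens_of_isIso (HomOn.inv_isIso (e i) (he i)) (hK i) x hi
    exact ⟨W, e₀, hxW, he₀⟩
  -- the glued module is rigidified
  have hrig : Nonempty ((Scheme.Modules.pullback (rigSection c t ε)).obj N ≅
      SheafOfModules.unit T.ringCatSheaf) := by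
    refine helper2952.nonempty_iso_unit_of_isUnit (rigSection c t ε) EN fun x => ?_
    obtain ⟨i, hi⟩ := hcov x
    obtain ⟨W, hW, e₀, hxW, he₀, hu⟩ := hE i x hi
    refine ⟨W, ((e i).inv (he i)).app W hW e₀, hxW,
      HomOn.isGen_app (HomOn.inv_isIso (e i) (he i)) hW he₀, ?_⟩
    have h1 := heE i W hW (((e i).inv (he i)).app W hW e₀)
    rw [HomOn.app_inv_app] at h1
    rw [h1] at hu
    exact hu
  refine ⟨⟨N, hinv, hrig⟩, fun i => ⟨?_⟩⟩
  exact (Scheme.Modules.restrictFunctorIsoPullback (helper7579.coverChart c t 𝒰 i)).symm.app N ≪≫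
    helper5979.SecHom.toRestrictIso (secHomOfHomOn (e i)) (secHomOfHomOn ((e i).inv (he i)))
      (fun W hW s => HomOn.inv_app_app (e i) (he i) W hW s)
      (fun W hW s => HomOn.app_inv_app (e i) (he i) W hW s)
      (helper7579.coverChart c t 𝒰 i) (hb i).le ≪≫
    (Scheme.Modules.restrictFunctorAdjCounitIso (helper7579.coverChart c t 𝒰 i)).app (M i).L

end Wrapper

/-- **GLUE-OBJ for the curve** (leaf L0-GLUEOBJ of the S25 specification). -/
theorem stmt_GlueObj : helper1705.Stmt_GlueObj.{u} := by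
  intro k _ C c hc ε
  have := hc.algClosed
  have := hc.proper
  have := hc.integral
  exact @glueObj_of_surjective k _ C c ε
    (fun t V => (helper9610.bijective_app_snd_of_isProper k c t V).2)

end

end Fermat.Agent.S25.helper3151
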