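/-
S25, Spec part II, leaf `Stmt_AffRed` (helper6523).

The chart conditions of a `ChartFamily` (monomorphism, open, jointly covering) can be tested on
affine test schemes.  Purely formal, in the frozen vocabulary of the S25 statement.

Main result: `stmt_AffRed : helper1705.Stmt_AffRed`.
-/
import Fermat.Agent.S25.helper1705_Spec2
import Fermat.Agent.S25.helper7579_AffineReduction

set_option autoImplicit false

universe u

open CategoryTheory CategoryTheory.Limits AlgebraicGeometry AlgebraicGeometry.RelPicard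
  NeronModelInfra GoodReductionJacobian

namespace Fermat.Agent.S25.helper6523

open Fermat.Agent.S25.helper1705 Fermat.Agent.S25.helper7579

variable {R : Type u} [CommRing R] {C : Scheme.{u}} {c : C ⟶ Spec (CommRingCat.of R)}
  {ε : SchemeHomOver (𝟙 (Spec (CommRingCat.of R))) c} {Pc : SubPicCondition c ε}
  (F : ChartFamily Pc)

/-! ### Bricks on `InChart` -/

/-- `InChart` only depends on the isomorphism class of the bundle. -/
theorem inChart_congr (i : F.ι) {T : Scheme.{u}} {t : T ⟶ Spec (CommRingCat.of R)}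
    {M M' : RigidifiedLineBundle c ε t} (h : Nonempty (M.L ≅ M'.L)) (hM : F.InChart i t M) :
    F.InChart i t M' := by
  obtain ⟨g, ⟨e⟩⟩ := hM
  obtain ⟨e'⟩ := h
  exact ⟨g, ⟨e ≪≫ e'⟩⟩

/-- `InChart` is stable under pullback. -/
theorem inChart_pullback (i : F.ι) {T T' : Scheme.{u}} {t : T ⟶ Spec (CommRingCat.of R)}
    {t' : T' ⟶ Spec (CommRingCat.of R)} {M : RigidifiedLineBundle c ε t}
    (ψ : SchemeHomOver t' t) (hM : F.InChart i t M) : F.InChart i t' (M.pullbackAlong ψ) := by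
  obtain ⟨g, ⟨e⟩⟩ := hM
  exact ⟨postComp g ψ, ⟨(pullbackAlongCompIso (F.Q i) g ψ).symm ≪≫
    (Scheme.Modules.pullback (baseChangeSnd c ψ)).mapIso e⟩⟩

/-- `InChart` for a double pullback is `InChart` for the pullback along the composite. -/
theorem inChart_comp_iff (i : F.ι) {X X' T' : Scheme.{u}} {x : X ⟶ Spec (CommRingCat.of R)}
    {x' : X' ⟶ Spec (CommRingCat.of R)} {t' : T' ⟶ Spec (CommRingCat.of R)}
    (M : RigidifiedLineBundle c ε x') (φ : SchemeHomOver x x') (ψ : SchemeHomOver t' x) :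
    F.InChart i t' ((M.pullbackAlong φ).pullbackAlong ψ) ↔
      F.InChart i t' (M.pullbackAlong (postComp φ ψ)) :=
  ⟨inChart_congr F i ⟨pullbackAlongCompIso M φ ψ⟩,
    inChart_congr F i ⟨(pullbackAlongCompIso M φ ψ).symm⟩⟩

/-- `InChart` for pullbacks along morphisms with the same underlying map. -/
theorem inChart_congr_val (i : F.ι) {T T' : Scheme.{u}} {t : T ⟶ Spec (CommRingCat.of R)}
    {t' : T' ⟶ Spec (CommRingCat.of R)} (M : RigidifiedLineBundle c ε t)
    {ψ ψ' : SchemeHomOver t' t} (h : ψ.1 = ψ'.1) (hM : F.InChart i t' (M.pullbackAlong ψ)) :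
    F.InChart i t' (M.pullbackAlong ψ') :=
  inChart_congr F i (pullbackAlong_congr_val M h) hM

/-! ### Monomorphism -/

/-- `IsMonoAff` implies `IsMono`. -/
theorem isMono_of_isMonoAff (hF : F.IsMonoAff) : F.IsMono := by
  intro i T t g g' h
  obtain ⟨e⟩ := h
  apply Subtype.ext
  let 𝒜 := T.affineOpenCover
  refine 𝒜.openCover.hom_ext _ _ fun a => ?_
  let ψ : SchemeHomOver (𝒜.f a ≫ t) t := ⟨𝒜.f a, rfl⟩
  have key : postComp g ψ = postComp g' ψ :=
    hF i (𝒜.X a) (𝒜.f a ≫ t) (postComp g ψ) (postComp g' ψ)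
      ⟨(pullbackAlongCompIso (F.Q i) g ψ).symm ≪≫
        (Scheme.Modules.pullback (baseChangeSnd c ψ)).mapIso e ≪≫
        pullbackAlongCompIso (F.Q i) g' ψ⟩
  exact congrArg Subtype.val key

/-! ### Gluing membership in a chart -/

/-- If a rigidified bundle lies in the `i`-th chart locally on the base, it lies in the
`i`-th chart (uses that the chart is a monomorphism and `LocIso`). -/
theorem inChart_of_openCover (hL : LocIso c ε) (hMono : F.IsMono) (i : F.ι) {T : Scheme.{u}}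
    (t : T ⟶ Spec (CommRingCat.of R)) (N : RigidifiedLineBundle c ε t)
    (𝒱 : Scheme.OpenCover.{u} T)
    (h : ∀ b, F.InChart i (𝒱.f b ≫ t) (N.pullbackAlong (coverHom t 𝒱 b))) :
    F.InChart i t N := by
  choose g hg using h
  have hcompat : ∀ x y, pullback.fst (𝒱.f x) (𝒱.f y) ≫ (g x).1 =
      pullback.snd (𝒱.f x) (𝒱.f y) ≫ (g y).1 := by
    intro x y
    let s : pullback (𝒱.f x) (𝒱.f y) ⟶ Spec (CommRingCat.of R) :=
      pullback.fst _ _ ≫ 𝒱.f x ≫ t
    let a₁ : SchemeHomOver s (𝒱.f x ≫ t) := ⟨pullback.fst _ _, rfl⟩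
    let a₂ : SchemeHomOver s (𝒱.f y ≫ t) := ⟨pullback.snd _ _, by
      simp only [s, pullback.condition_assoc]⟩
    obtain ⟨e₁⟩ := hg x
    obtain ⟨e₂⟩ := hg y
    obtain ⟨i₀⟩ := pullbackAlong_congr_val N (ψ := postComp (coverHom t 𝒱 x) a₁)
      (ψ' := postComp (coverHom t 𝒱 y) a₂) pullback.condition
    have := hMono i s (postComp (g x) a₁) (postComp (g y) a₂)
      ⟨(pullbackAlongCompIso (F.Q i) (g x) a₁).symm ≪≫
        (Scheme.Modules.pullback (baseChangeSnd c a₁)).mapIso e₁ ≪≫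
        pullbackAlongCompIso N (coverHom t 𝒱 x) a₁ ≪≫ i₀ ≪≫
        (pullbackAlongCompIso N (coverHom t 𝒱 y) a₂).symm ≪≫
        (Scheme.Modules.pullback (baseChangeSnd c a₂)).mapIso e₂.symm ≪≫
        pullbackAlongCompIso (F.Q i) (g y) a₂⟩
    exact congrArg Subtype.val this
  let G : T ⟶ F.X i := 𝒱.glueMorphisms (fun b => (g b).1) hcompat
  have hG : ∀ b, 𝒱.f b ≫ G = (g b).1 := fun b => 𝒱.ι_glueMorphisms _ hcompat b
  have hGx : G ≫ F.x i = t := by
    refine 𝒱.hom_ext _ _ fun b => ?_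
    rw [← Category.assoc, hG, (g b).2]
  refine ⟨⟨G, hGx⟩, ?_⟩
  refine hL t _ N 𝒱 fun b => ?_
  obtain ⟨e₁⟩ := hg b
  obtain ⟨e₀⟩ := pullbackAlong_congr_val (F.Q i)
    (ψ := postComp (⟨G, hGx⟩ : SchemeHomOver t (F.x i)) (coverHom t 𝒱 b)) (ψ' := g b) (hG b)
  exact ⟨pullbackAlongCompIso (F.Q i) ⟨G, hGx⟩ (coverHom t 𝒱 b) ≪≫ e₀ ≪≫ e₁⟩

/-! ### Openness: affine base, arbitrary test scheme -/

/-- The chart loci over an affine base, for arbitrary test schemes. -/
theorem exists_opens_of_affine (hL : LocIso c ε) (hMono : F.IsMono) (hF : F.IsOpenCoverAff)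
    (B : CommRingCat.{u}) (t : Spec B ⟶ Spec (CommRingCat.of R))
    (M : RigidifiedLineBundle c ε t) (hM : Pc.P t M) :
    ∃ U : F.ι → (Spec B).Opens,
      (∀ (i : F.ι) {T' : Scheme.{u}} {t' : T' ⟶ Spec (CommRingCat.of R)}
        (ψ : SchemeHomOver t' t),
        (∀ p : T', ψ.1.base p ∈ U i) ↔ F.InChart i t' (M.pullbackAlong ψ)) ∧
      (⨆ i, U i) = ⊤ := by
  obtain ⟨U, hU, hcov⟩ := hF B t M hM
  refine ⟨U, fun i T' t' ψ => ?_, hcov⟩
  -- the affine statement, for test schemes given as objects over the base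
  have hU' : ∀ (B' : CommRingCat.{u}) (t'' : Spec B' ⟶ Spec (CommRingCat.of R))
      (χ : SchemeHomOver t'' t),
      (∀ p : Spec B', χ.1.base p ∈ U i) ↔ F.InChart i t'' (M.pullbackAlong χ) := by
    rintro B' t'' ⟨χ, rfl⟩
    exact hU i B' χ
  let 𝒜 := T'.affineOpenCover
  constructor
  · intro hψ
    refine inChart_of_openCover F hL hMono i t' (M.pullbackAlong ψ) 𝒜.openCover fun b => ?_
    rw [inChart_comp_iff]
    refine (hU' (𝒜.X b) _ (postComp ψ (coverHom t' 𝒜.openCover b))).mp fun q => ?_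
    exact hψ ((𝒜.f b).base q)
  · intro hψ p
    obtain ⟨b, q, hq⟩ : ∃ b, ∃ q : Spec (𝒜.X b), (𝒜.f b).base q = p :=
      ⟨𝒜.idx p, 𝒜.covers p⟩
    have h1 : F.InChart i (𝒜.f b ≫ t')
        (M.pullbackAlong (postComp ψ (coverHom t' 𝒜.openCover b))) :=
      (inChart_comp_iff F i M ψ _).mp (inChart_pullback F i _ hψ)
    have h2 := (hU' (𝒜.X b) _ _).mpr h1 q
    rw [← hq]
    exact h2

/-! ### Openness: arbitrary base -/

/-- `IsOpenCoverAff` implies `IsOpenCover` (given `LocIso` and `IsMono`). -/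
theorem isOpenCover_of_isOpenCoverAff (hL : LocIso c ε) (hMono : F.IsMono)
    (hF : F.IsOpenCoverAff) : F.IsOpenCover := by
  intro T t M hM
  let 𝒜 := T.affineOpenCover
  -- the chart loci on each affine chart of `T`
  have hloc : ∀ a : 𝒜.I₀, ∃ U : F.ι → (Spec (𝒜.X a)).Opens,
      (∀ (i : F.ι) {T' : Scheme.{u}} {t' : T' ⟶ Spec (CommRingCat.of R)}
        (ψ : SchemeHomOver t' (𝒜.f a ≫ t)),
        (∀ p : T', ψ.1.base p ∈ U i) ↔
          F.InChart i t' ((M.pullbackAlong (coverHom t 𝒜.openCover a)).pullbackAlong ψ)) ∧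
      (⨆ i, U i) = ⊤ := fun a =>
    exists_opens_of_affine F hL hMono hF (𝒜.X a) (𝒜.f a ≫ t) _
      (Pc.pullback_mem _ _ (coverHom t 𝒜.openCover a) M hM)
  choose Ua hUa hUacov using hloc
  -- the general statement, for test schemes given as objects over the base
  have key : ∀ (i : F.ι) {T' : Scheme.{u}} {t' : T' ⟶ Spec (CommRingCat.of R)}
      (ψ : SchemeHomOver t' t),
      (∀ p : T', ψ.1.base p ∈ ⨆ a, (𝒜.f a) ''ᵁ (Ua a i)) ↔
        F.InChart i t' (M.pullbackAlong ψ) := by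
    intro i T' t' ψ
    constructor
    · intro hψ
      -- cover `T'` by the pullbacks of the chart loci
      let W : 𝒜.I₀ → Scheme.{u} := fun a => pullback ψ.1 ((Ua a i).ι ≫ 𝒜.f a)
      let w : ∀ a, W a ⟶ T' := fun a => pullback.fst ψ.1 ((Ua a i).ι ≫ 𝒜.f a)
      have hw : ∀ p : T', ∃ a, ∃ z : W a, (w a).base z = p := by
        intro p
        obtain ⟨a, ha⟩ := TopologicalSpace.Opens.mem_iSup.mp (hψ p)
        obtain ⟨q, hq, hqp⟩ := ha
        obtain ⟨z, hz, -⟩ := Scheme.Pullback.exists_preimage_pullback (f := ψ.1)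
          (g := (Ua a i).ι ≫ 𝒜.f a) p ⟨q, hq⟩ hqp.symm
        exact ⟨a, z, hz⟩
      let 𝒱 : Scheme.OpenCover.{u} T' := Scheme.Cover.mkOfCovers 𝒜.I₀ W w hw
      refine inChart_of_openCover F hL hMono i t' (M.pullbackAlong ψ) 𝒱 fun a => ?_
      -- on the `a`-th member, factor through the `a`-th chart of `T`
      let β : SchemeHomOver (w a ≫ t') (𝒜.f a ≫ t) :=
        ⟨pullback.snd ψ.1 ((Ua a i).ι ≫ 𝒜.f a) ≫ (Ua a i).ι, by
          rw [Category.assoc, ← Category.assoc (Ua a i).ι, ← pullback.condition_assoc, ψ.2]⟩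
      have h1 : F.InChart i (w a ≫ t')
          ((M.pullbackAlong (coverHom t 𝒜.openCover a)).pullbackAlong β) :=
        (hUa a i β).mp fun z => by
          change ((Ua a i).ι.base (pullback.snd ψ.1 ((Ua a i).ι ≫ 𝒜.f a) z)) ∈ Ua a i
          exact (pullback.snd ψ.1 ((Ua a i).ι ≫ 𝒜.f a) z).2
      rw [inChart_comp_iff] at h1 ⊢
      refine inChart_congr_val F i M ?_ h1
      change (pullback.snd ψ.1 ((Ua a i).ι ≫ 𝒜.f a) ≫ (Ua a i).ι) ≫ 𝒜.f a = w a ≫ ψ.1
      rw [Category.assoc, ← pullback.condition]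
    · intro hψ p
      -- the chart of `T` containing the image of `p`
      obtain ⟨a, q₀, hq₀⟩ : ∃ a, ∃ q₀ : Spec (𝒜.X a), (𝒜.f a).base q₀ = ψ.1.base p :=
        ⟨𝒜.idx (ψ.1.base p), 𝒜.covers (ψ.1.base p)⟩
      obtain ⟨z, hz₁, hz₂⟩ := Scheme.Pullback.exists_preimage_pullback (f := ψ.1)
        (g := 𝒜.f a) p q₀ hq₀.symm
      let α : SchemeHomOver (pullback.fst ψ.1 (𝒜.f a) ≫ t') t' := ⟨pullback.fst ψ.1 (𝒜.f a), rfl⟩
      let β : SchemeHomOver (pullback.fst ψ.1 (𝒜.f a) ≫ t') (𝒜.f a ≫ t) :=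
        ⟨pullback.snd ψ.1 (𝒜.f a), by rw [← pullback.condition_assoc, ψ.2]⟩
      have h1 : F.InChart i (pullback.fst ψ.1 (𝒜.f a) ≫ t')
          (M.pullbackAlong (postComp ψ α)) :=
        (inChart_comp_iff F i M ψ α).mp (inChart_pullback F i α hψ)
      have h2 : F.InChart i (pullback.fst ψ.1 (𝒜.f a) ≫ t')
          ((M.pullbackAlong (coverHom t 𝒜.openCover a)).pullbackAlong β) := by
        rw [inChart_comp_iff]
        refine inChart_congr_val F i M ?_ h1
        exact pullback.condition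
      have h3 := (hUa a i β).mpr h2 z
      refine TopologicalSpace.Opens.mem_iSup.mpr ⟨a, q₀, ?_, hq₀⟩
      have : (pullback.snd ψ.1 (𝒜.f a)).base z = q₀ := hz₂
      rw [← this]
      exact h3
  refine ⟨fun i => ⨆ a, (𝒜.f a) ''ᵁ (Ua a i), fun i T' ψ => ?_, ?_⟩
  · exact key i (⟨ψ, rfl⟩ : SchemeHomOver (ψ ≫ t) t)
  · refine top_unique fun p _ => ?_
    obtain ⟨q, hq⟩ := 𝒜.covers p
    have hq' : q ∈ (⨆ i, Ua (𝒜.idx p) i) := by rw [hUacov]; trivial
    obtain ⟨i, hi⟩ := TopologicalSpace.Opens.mem_iSup.mp hq'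
    exact TopologicalSpace.Opens.mem_iSup.mpr
      ⟨i, TopologicalSpace.Opens.mem_iSup.mpr ⟨𝒜.idx p, q, hi, hq⟩⟩

/-! ### The statement -/

/-- **AFF-RED.** The chart conditions can be tested on affine schemes. -/
theorem stmt_AffRed : Stmt_AffRed.{u} := by
  intro R _ C c ε Pc hL F hmono hopen
  have hM : F.IsMono := isMono_of_isMonoAff F hmono
  exact ⟨hM, isOpenCover_of_isOpenCoverAff F hL hM hopen⟩

end Fermat.Agent.S25.helper6523
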