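import Mathlib

/-!
# S25, leaf U8, sub-leaf (CD): clearing denominators (helper653)

`V` is a commutative ring (a domain in the application), `K` its fraction field.  A module `N`
over a `V`-algebra `A` "over `K`" is presented as the localization `ι : M → N` of a module `M`
"over `V`" at the image of the nonzerodivisors of `V`.  A linear map (in particular an
isomorphism) between the localizations is, up to a scalar `a ≠ 0` of `V`, induced by a linear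
map between the modules over `V`.  The three-chart statement produces, from an isomorphism of
two-chart data over `K`, morphisms `f : G → G'` and `g : G' → G` over `V` with
`g ∘ f = a`, `f ∘ g = a`, compatible with the restriction maps.
-/

set_option autoImplicit false

namespace Fermat.Agent.S25.helper653

section Single

variable {V : Type*} [CommRing V] {A : Type*} [CommRing A] [Algebra V A]
  {M M' N N' : Type*} [AddCommGroup M] [Module A M] [AddCommGroup M'] [Module A M']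
  [AddCommGroup N] [Module A N] [AddCommGroup N'] [Module A N']

/-- **Clearing denominators, one chart.**  A linear map `φ` between localizations (at the
image of the nonzerodivisors of `V`) is `a⁻¹` times the localization of a linear map `f`
between the original modules, the source being finitely presented; moreover every multiple
`a * d` of the denominator `a` works as well. -/
theorem exists_lift_clear_denom (ι : M →ₗ[A] N) (ι' : M' →ₗ[A] N')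
    [IsLocalizedModule (Algebra.algebraMapSubmonoid A (nonZeroDivisors V)) ι']
    [Module.FinitePresentation A M] (φ : N →ₗ[A] N') :
    ∃ a ∈ nonZeroDivisors V, ∀ d : V, ∃ f : M →ₗ[A] M',
      ∀ m, ι' (f m) = algebraMap V A (a * d) • φ (ι m) := by
  obtain ⟨h, s, hs⟩ := Module.FinitePresentation.exists_lift_of_isLocalizedModule
    (Algebra.algebraMapSubmonoid A (nonZeroDivisors V)) ι' (φ ∘ₗ ι)
  obtain ⟨a, ha, has⟩ := s.2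
  refine ⟨a, ha, fun d => ⟨algebraMap V A d • h, fun m => ?_⟩⟩
  have h1 : ι' (h m) = algebraMap V A a • φ (ι m) := by
    have := LinearMap.congr_fun hs m
    simp only [LinearMap.comp_apply, LinearMap.smul_apply] at this
    rw [this, has]
    rfl
  rw [LinearMap.smul_apply, map_smul, h1, smul_smul, ← map_mul, mul_comm d a]

end Single

section Compat

variable {V : Type*} [CommRing V] {A B : Type*} [CommRing A] [CommRing B] [Algebra V A]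
  [Algebra V B]
  {M M' N N' : Type*} [AddCommGroup M] [Module A M] [AddCommGroup M'] [Module A M']
  [AddCommGroup N] [Module A N] [AddCommGroup N'] [Module A N']
  {P P' Q Q' : Type*} [AddCommGroup P] [Module B P] [AddCommGroup P'] [Module B P']
  [AddCommGroup Q] [Module B Q] [AddCommGroup Q'] [Module B Q']

/-- Composition of two cleared maps is multiplication by the square of the denominator. -/
theorem comp_eq_smul_of_clear_denom {ι : M →ₗ[A] N} {ι' : M' →ₗ[A] N'}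
    (hι : Function.Injective ι) (φ : N ≃ₗ[A] N') {c : V} {f : M →ₗ[A] M'} {g : M' →ₗ[A] M}
    (hf : ∀ m, ι' (f m) = algebraMap V A c • φ (ι m))
    (hg : ∀ m', ι (g m') = algebraMap V A c • φ.symm (ι' m')) (m : M) :
    g (f m) = algebraMap V A (c * c) • m := by
  apply hι
  rw [hg, hf, map_smul, LinearEquiv.symm_apply_apply, smul_smul, ← map_mul, map_smul]

/-- Cleared maps on a chart and on the overlap commute with the restriction maps. -/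
theorem restrict_compat_of_clear_denom {ι : M →ₗ[A] N} {ι' : M' →ₗ[A] N'}
    {j : P →ₗ[B] Q} {j' : P' →ₗ[B] Q'} (hj' : Function.Injective j')
    {φ : N → N'} {ψ : Q → Q'} {c : V} {f : M →ₗ[A] M'} {F : P →ₗ[B] P'}
    (hf : ∀ m, ι' (f m) = algebraMap V A c • φ (ι m))
    (hF : ∀ z, j' (F z) = algebraMap V B c • ψ (j z))
    {r : M → P} {r' : M' → P'} {R : N → Q} {R' : N' → Q'}
    (hr : ∀ m, j (r m) = R (ι m)) (hr' : ∀ m, j' (r' m) = R' (ι' m))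
    (hR' : ∀ (c : V) (n : N'), R' (algebraMap V A c • n) = algebraMap V B c • R' n)
    (hφ : ∀ n, ψ (R n) = R' (φ n)) (m : M) :
    F (r m) = r' (f m) := by
  apply hj'
  rw [hF, hr, hφ, hr', hf, hR']

end Compat

section ThreeCharts

variable {V : Type*} [CommRing V] [IsDomain V]
  {A₀ A₁ A₀₁ : Type*} [CommRing A₀] [CommRing A₁] [CommRing A₀₁]
  [Algebra V A₀] [Algebra V A₁] [Algebra V A₀₁]
  {M₀ M₀' N₀ N₀' : Type*} [AddCommGroup M₀] [Module A₀ M₀] [AddCommGroup M₀'] [Module A₀ M₀']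
  [AddCommGroup N₀] [Module A₀ N₀] [AddCommGroup N₀'] [Module A₀ N₀']
  {M₁ M₁' N₁ N₁' : Type*} [AddCommGroup M₁] [Module A₁ M₁] [AddCommGroup M₁'] [Module A₁ M₁']
  [AddCommGroup N₁] [Module A₁ N₁] [AddCommGroup N₁'] [Module A₁ N₁']
  {M₀₁ M₀₁' N₀₁ N₀₁' : Type*} [AddCommGroup M₀₁] [Module A₀₁ M₀₁] [AddCommGroup M₀₁']
  [Module A₀₁ M₀₁'] [AddCommGroup N₀₁] [Module A₀₁ N₀₁] [AddCommGroup N₀₁'] [Module A₀₁ N₀₁']

/-- **Clearing denominators for two-chart data.**  From an isomorphism `(φ₀, φ₁, φ₀₁)` of the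
localized data (over `K = Frac V`) one gets morphisms `f = (f₀, f₁, f₀₁)` and
`g = (g₀, g₁, g₀₁)` of the data over `V`, compatible with the restriction maps, with
`g ∘ f = a` and `f ∘ g = a` for one `a ≠ 0` in `V` (`a = c * c`, `f` localizes to `c • φ`,
`g` to `c • φ⁻¹`). -/
theorem exists_clear_denom_twoChart
    (ι₀ : M₀ →ₗ[A₀] N₀) (ι₀' : M₀' →ₗ[A₀] N₀') (ι₁ : M₁ →ₗ[A₁] N₁) (ι₁' : M₁' →ₗ[A₁] N₁')
    (ι₀₁ : M₀₁ →ₗ[A₀₁] N₀₁) (ι₀₁' : M₀₁' →ₗ[A₀₁] N₀₁')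
    [IsLocalizedModule (Algebra.algebraMapSubmonoid A₀ (nonZeroDivisors V)) ι₀]
    [IsLocalizedModule (Algebra.algebraMapSubmonoid A₀ (nonZeroDivisors V)) ι₀']
    [IsLocalizedModule (Algebra.algebraMapSubmonoid A₁ (nonZeroDivisors V)) ι₁]
    [IsLocalizedModule (Algebra.algebraMapSubmonoid A₁ (nonZeroDivisors V)) ι₁']
    [IsLocalizedModule (Algebra.algebraMapSubmonoid A₀₁ (nonZeroDivisors V)) ι₀₁]
    [IsLocalizedModule (Algebra.algebraMapSubmonoid A₀₁ (nonZeroDivisors V)) ι₀₁']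
    [Module.FinitePresentation A₀ M₀] [Module.FinitePresentation A₀ M₀']
    [Module.FinitePresentation A₁ M₁] [Module.FinitePresentation A₁ M₁']
    [Module.FinitePresentation A₀₁ M₀₁] [Module.FinitePresentation A₀₁ M₀₁']
    (hι₀ : Function.Injective ι₀) (hι₀' : Function.Injective ι₀')
    (hι₁ : Function.Injective ι₁) (hι₁' : Function.Injective ι₁')
    (hι₀₁ : Function.Injective ι₀₁) (hι₀₁' : Function.Injective ι₀₁')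
    (φ₀ : N₀ ≃ₗ[A₀] N₀') (φ₁ : N₁ ≃ₗ[A₁] N₁') (φ₀₁ : N₀₁ ≃ₗ[A₀₁] N₀₁')
    (r₀ : M₀ → M₀₁) (r₁ : M₁ → M₀₁) (r₀' : M₀' → M₀₁') (r₁' : M₁' → M₀₁')
    (R₀ : N₀ → N₀₁) (R₁ : N₁ → N₀₁) (R₀' : N₀' → N₀₁') (R₁' : N₁' → N₀₁')
    (hr₀ : ∀ m, ι₀₁ (r₀ m) = R₀ (ι₀ m)) (hr₁ : ∀ m, ι₀₁ (r₁ m) = R₁ (ι₁ m))
    (hr₀' : ∀ m, ι₀₁' (r₀' m) = R₀' (ι₀' m)) (hr₁' : ∀ m, ι₀₁' (r₁' m) = R₁' (ι₁' m))
    (hR₀ : ∀ (c : V) (n : N₀), R₀ (algebraMap V A₀ c • n) = algebraMap V A₀₁ c • R₀ n)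
    (hR₁ : ∀ (c : V) (n : N₁), R₁ (algebraMap V A₁ c • n) = algebraMap V A₀₁ c • R₁ n)
    (hR₀' : ∀ (c : V) (n : N₀'), R₀' (algebraMap V A₀ c • n) = algebraMap V A₀₁ c • R₀' n)
    (hR₁' : ∀ (c : V) (n : N₁'), R₁' (algebraMap V A₁ c • n) = algebraMap V A₀₁ c • R₁' n)
    (hφ₀ : ∀ n, φ₀₁ (R₀ n) = R₀' (φ₀ n)) (hφ₁ : ∀ n, φ₀₁ (R₁ n) = R₁' (φ₁ n)) :
    ∃ (c : V) (f₀ : M₀ →ₗ[A₀] M₀') (f₁ : M₁ →ₗ[A₁] M₁') (f₀₁ : M₀₁ →ₗ[A₀₁] M₀₁')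
      (g₀ : M₀' →ₗ[A₀] M₀) (g₁ : M₁' →ₗ[A₁] M₁) (g₀₁ : M₀₁' →ₗ[A₀₁] M₀₁),
      c ≠ 0 ∧
      ((∀ m, ι₀' (f₀ m) = algebraMap V A₀ c • φ₀ (ι₀ m)) ∧
        (∀ m, ι₁' (f₁ m) = algebraMap V A₁ c • φ₁ (ι₁ m)) ∧
        (∀ m, ι₀₁' (f₀₁ m) = algebraMap V A₀₁ c • φ₀₁ (ι₀₁ m))) ∧
      ((∀ m, ι₀ (g₀ m) = algebraMap V A₀ c • φ₀.symm (ι₀' m)) ∧
        (∀ m, ι₁ (g₁ m) = algebraMap V A₁ c • φ₁.symm (ι₁' m)) ∧
        (∀ m, ι₀₁ (g₀₁ m) = algebraMap V A₀₁ c • φ₀₁.symm (ι₀₁' m))) ∧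
      ((∀ m, f₀₁ (r₀ m) = r₀' (f₀ m)) ∧ (∀ m, f₀₁ (r₁ m) = r₁' (f₁ m))) ∧
      ((∀ m, g₀₁ (r₀' m) = r₀ (g₀ m)) ∧ (∀ m, g₀₁ (r₁' m) = r₁ (g₁ m))) ∧
      ((∀ m, g₀ (f₀ m) = algebraMap V A₀ (c * c) • m) ∧
        (∀ m, f₀ (g₀ m) = algebraMap V A₀ (c * c) • m)) ∧
      ((∀ m, g₁ (f₁ m) = algebraMap V A₁ (c * c) • m) ∧
        (∀ m, f₁ (g₁ m) = algebraMap V A₁ (c * c) • m)) ∧
      ((∀ m, g₀₁ (f₀₁ m) = algebraMap V A₀₁ (c * c) • m) ∧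
        (∀ m, f₀₁ (g₀₁ m) = algebraMap V A₀₁ (c * c) • m)) := by
  obtain ⟨a₀, ha₀, F₀⟩ := exists_lift_clear_denom (V := V) ι₀ ι₀' φ₀.toLinearMap
  obtain ⟨a₁, ha₁, F₁⟩ := exists_lift_clear_denom (V := V) ι₁ ι₁' φ₁.toLinearMap
  obtain ⟨a₀₁, ha₀₁, F₀₁⟩ := exists_lift_clear_denom (V := V) ι₀₁ ι₀₁' φ₀₁.toLinearMap
  obtain ⟨b₀, hb₀, G₀⟩ := exists_lift_clear_denom (V := V) ι₀' ι₀ φ₀.symm.toLinearMap
  obtain ⟨b₁, hb₁, G₁⟩ := exists_lift_clear_denom (V := V) ι₁' ι₁ φ₁.symm.toLinearMap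
  obtain ⟨b₀₁, hb₀₁, G₀₁⟩ := exists_lift_clear_denom (V := V) ι₀₁' ι₀₁ φ₀₁.symm.toLinearMap
  set c : V := a₀ * a₁ * a₀₁ * b₀ * b₁ * b₀₁ with hc
  have hc0 : c ≠ 0 := by
    have h := fun {x : V} (hx : x ∈ nonZeroDivisors V) => nonZeroDivisors.ne_zero hx
    simp only [hc, ne_eq, mul_eq_zero, not_or]
    exact ⟨⟨⟨⟨⟨h ha₀, h ha₁⟩, h ha₀₁⟩, h hb₀⟩, h hb₁⟩, h hb₀₁⟩
  obtain ⟨f₀, hf₀⟩ := F₀ (a₁ * a₀₁ * b₀ * b₁ * b₀₁)
  obtain ⟨f₁, hf₁⟩ := F₁ (a₀ * a₀₁ * b₀ * b₁ * b₀₁)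
  obtain ⟨f₀₁, hf₀₁⟩ := F₀₁ (a₀ * a₁ * b₀ * b₁ * b₀₁)
  obtain ⟨g₀, hg₀⟩ := G₀ (a₀ * a₁ * a₀₁ * b₁ * b₀₁)
  obtain ⟨g₁, hg₁⟩ := G₁ (a₀ * a₁ * a₀₁ * b₀ * b₀₁)
  obtain ⟨g₀₁, hg₀₁⟩ := G₀₁ (a₀ * a₁ * a₀₁ * b₀ * b₁)
  have e₀ : a₀ * (a₁ * a₀₁ * b₀ * b₁ * b₀₁) = c := by rw [hc]; ring
  have e₁ : a₁ * (a₀ * a₀₁ * b₀ * b₁ * b₀₁) = c := by rw [hc]; ring
  have e₀₁ : a₀₁ * (a₀ * a₁ * b₀ * b₁ * b₀₁) = c := by rw [hc]; ring
  have e₀' : b₀ * (a₀ * a₁ * a₀₁ * b₁ * b₀₁) = c := by rw [hc]; ring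
  have e₁' : b₁ * (a₀ * a₁ * a₀₁ * b₀ * b₀₁) = c := by rw [hc]; ring
  have e₀₁' : b₀₁ * (a₀ * a₁ * a₀₁ * b₀ * b₁) = c := by rw [hc]; ring
  rw [e₀] at hf₀
  rw [e₁] at hf₁
  rw [e₀₁] at hf₀₁
  rw [e₀'] at hg₀
  rw [e₁'] at hg₁
  rw [e₀₁'] at hg₀₁
  simp only [LinearEquiv.coe_coe] at hf₀ hf₁ hf₀₁ hg₀ hg₁ hg₀₁
  have hψ₀ : ∀ n, φ₀₁.symm (R₀' n) = R₀ (φ₀.symm n) := by
    intro n
    rw [LinearEquiv.symm_apply_eq, hφ₀, LinearEquiv.apply_symm_apply]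
  have hψ₁ : ∀ n, φ₀₁.symm (R₁' n) = R₁ (φ₁.symm n) := by
    intro n
    rw [LinearEquiv.symm_apply_eq, hφ₁, LinearEquiv.apply_symm_apply]
  refine ⟨c, f₀, f₁, f₀₁, g₀, g₁, g₀₁, hc0, ⟨hf₀, hf₁, hf₀₁⟩, ⟨hg₀, hg₁, hg₀₁⟩, ⟨?_, ?_⟩,
    ⟨?_, ?_⟩, ⟨?_, ?_⟩, ⟨?_, ?_⟩, ⟨?_, ?_⟩⟩
  · exact restrict_compat_of_clear_denom hι₀₁' hf₀ hf₀₁ hr₀ hr₀' hR₀' hφ₀
  · exact restrict_compat_of_clear_denom hι₀₁' hf₁ hf₀₁ hr₁ hr₁' hR₁' hφ₁
  · exact restrict_compat_of_clear_denom hι₀₁ hg₀ hg₀₁ hr₀' hr₀ hR₀ hψ₀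
  · exact restrict_compat_of_clear_denom hι₀₁ hg₁ hg₀₁ hr₁' hr₁ hR₁ hψ₁
  · exact comp_eq_smul_of_clear_denom hι₀ φ₀ hf₀ hg₀
  · exact comp_eq_smul_of_clear_denom hι₀' φ₀.symm hg₀ (by simpa using hf₀)
  · exact comp_eq_smul_of_clear_denom hι₁ φ₁ hf₁ hg₁
  · exact comp_eq_smul_of_clear_denom hι₁' φ₁.symm hg₁ (by simpa using hf₁)
  · exact comp_eq_smul_of_clear_denom hι₀₁ φ₀₁ hf₀₁ hg₀₁
  · exact comp_eq_smul_of_clear_denom hι₀₁' φ₀₁.symm hg₀₁ (by simpa using hf₀₁)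

end ThreeCharts

end Fermat.Agent.S25.helper653
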