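import Fermat.Agent.S25.helper4755_ValUniqAssembly
import Fermat.Agent.S25.helper653_ClearDenom

/-!
# S25, leaf U8 (LC3): valuation-ring uniqueness for two-chart line bundles — `GlueDatum` form

Integration of the cores `helper653.exists_clear_denom_twoChart` (clearing denominators) and
`helper4755.exists_linearEquiv_of_isTwoChart` (primitive parts over a valuation ring).
-/

set_option autoImplicit false

open TensorProduct

namespace Fermat.Agent.S25.helper6550

universe u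

open Fermat.Agent.S25.helper1705 Fermat.Agent.S25.helper2945

section RingLevel

variable (k : Type*) [CommRing k] (R : Type*) [CommRing R] [Algebra k R]
  {V : Type*} [CommRing V] [Algebra k V] (S : Submonoid V)
  (K : Type*) [CommRing K] [Algebra k K] [Algebra V K] [IsScalarTower k V K] [IsLocalization S K]

attribute [local instance] Algebra.TensorProduct.rightAlgebra in
/-- `R ⊗[k] K` is the localization of `R ⊗[k] V` at the image of `S ⊆ V` when `K = S⁻¹ V`. -/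
theorem isLocalization_tensor_right :
    @IsLocalization (R ⊗[k] V) _ (Algebra.algebraMapSubmonoid (R ⊗[k] V) S) (R ⊗[k] K) _
      (Algebra.TensorProduct.map (AlgHom.id k R) (IsScalarTower.toAlgHom k V K)).toRingHom.toAlgebra
      := by
  let _ : Algebra (R ⊗[k] V) (R ⊗[k] K) :=
    (Algebra.TensorProduct.map (AlgHom.id k R) (IsScalarTower.toAlgHom k V K)).toRingHom.toAlgebra
  have : IsScalarTower R (R ⊗[k] V) (R ⊗[k] K) :=
    IsScalarTower.of_algebraMap_eq fun r => by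
      simp [RingHom.algebraMap_toAlgebra, Algebra.TensorProduct.algebraMap_apply]
  have H : (algebraMap (R ⊗[k] V) (R ⊗[k] K)).comp
      (Algebra.TensorProduct.includeRight (R := k) (A := R) (B := V)).toRingHom =
      (Algebra.TensorProduct.includeRight (R := k) (A := R) (B := K)).toRingHom.comp
        (algebraMap V K) := by
    ext v
    simp [RingHom.algebraMap_toAlgebra]
  exact IsLocalization.tensorProduct_tensorProduct_right k R S K H

end RingLevel

section LocInj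

variable {V : Type*} [CommRing V] [Nontrivial V] {A : Type*} [CommRing A] [Algebra V A]
  {M N : Type*} [AddCommGroup M] [Module A M] [Module V M] [IsScalarTower V A M]
  [AddCommGroup N] [Module A N]

/-- The localization map of a `V`-torsion-free module at the nonzerodivisors of `V` is
injective. -/
theorem injective_of_isLocalizedModule_of_torsionFree (ι : M →ₗ[A] N)
    [IsLocalizedModule (Algebra.algebraMapSubmonoid A (nonZeroDivisors V)) ι]
    (tf : ∀ (e : V) (m : M), e ≠ 0 → e • m = 0 → m = 0) : Function.Injective ι := by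
  rw [injective_iff_map_eq_zero]
  intro m hm
  obtain ⟨⟨s, v, hv, rfl⟩, hs⟩ :=
    (IsLocalizedModule.eq_zero_iff (Algebra.algebraMapSubmonoid A (nonZeroDivisors V)) ι).mp hm
  refine tf v m (nonZeroDivisors.ne_zero hv) ?_
  rw [← algebraMap_smul A v m]
  exact hs

end LocInj

section Semilinear

variable {V A A' B B' : Type*} [CommRing V] [CommRing A] [CommRing A'] [CommRing B]
  [CommRing B'] [Algebra V A] [Algebra V B] [Algebra A A'] [Algebra B B'] [Algebra A' B']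
  {N Q : Type*} [AddCommGroup N] [Module A N] [Module A' N] [IsScalarTower A A' N]
  [AddCommGroup Q] [Module B Q] [Module B' Q] [IsScalarTower B B' Q] [Module A' Q]
  [IsScalarTower A' B' Q]

/-- A map which is linear over the big chart ring commutes with the scalars coming from the
base ring `V`, when the square of rings commutes on `V`. -/
theorem map_algebraMap_smul_of_square
    (hsq : ∀ c : V, algebraMap A' B' (algebraMap A A' (algebraMap V A c)) =
      algebraMap B B' (algebraMap V B c))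
    (R : N →ₗ[A'] Q) (c : V) (n : N) :
    R (algebraMap V A c • n) = algebraMap V B c • R n := by
  rw [← algebraMap_smul A' (algebraMap V A c) n, map_smul,
    ← algebraMap_smul B' (algebraMap A A' (algebraMap V A c)) (R n), hsq, algebraMap_smul]

end Semilinear

section Glue

variable {k : Type u} [Field k] {D : CurveDatum k} {V K : Type u} [CommRing V] [Algebra k V]
  [CommRing K] [Algebra k K] [Algebra V K] [IsScalarTower k V K]

theorem isLocalization_A₀ (S : Submonoid V) [IsLocalization S K] :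
    @IsLocalization (D.A₀ V) _ (Algebra.algebraMapSubmonoid (D.A₀ V) S) (D.A₀ K) _
      (algA₀ D (IsScalarTower.toAlgHom k V K)) :=
  isLocalization_tensor_right k D.R₀ S K

theorem isLocalization_A₁ (S : Submonoid V) [IsLocalization S K] :
    @IsLocalization (D.A₁ V) _ (Algebra.algebraMapSubmonoid (D.A₁ V) S) (D.A₁ K) _
      (algA₁ D (IsScalarTower.toAlgHom k V K)) :=
  isLocalization_tensor_right k D.R₁ S K

theorem isLocalization_A₀₁ (S : Submonoid V) [IsLocalization S K] :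
    @IsLocalization (D.A₀₁ V) _ (Algebra.algebraMapSubmonoid (D.A₀₁ V) S) (D.A₀₁ K) _
      (algA₀₁ D (IsScalarTower.toAlgHom k V K)) :=
  isLocalization_tensor_right k D.R₀₁ S K

/-- The overlap module of a two-chart line bundle is invertible over the overlap ring. -/
theorem invertible_M₀₁ {B : Type u} [CommRing B] [Algebra k B] (G : GlueDatum D B) :
    Module.Invertible (D.A₀₁ B) G.M₀₁ :=
  Module.Invertible.of_isLocalization (Submonoid.powers (xB D B)) G.ρ₀

section Main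

variable [IsDomain V] [ValuationRing V] [IsFractionRing V K]

/-- **Valuation-ring uniqueness, `GlueDatum` form, conditional on the special-fibre
hypotheses** (`𝔪 A₀`, `𝔪 A₁` prime and the `IsTwoChart` package for both data). -/
theorem equiv_of_equiv_baseChange_of_isTwoChart (G G' : GlueDatum D V)
    (hA₀ : (Ideal.map (algebraMap V (D.A₀ V)) (IsLocalRing.maximalIdeal V)).IsPrime)
    (hA₁ : (Ideal.map (algebraMap V (D.A₁ V)) (IsLocalRing.maximalIdeal V)).IsPrime)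
    (hG : helper4755.IsTwoChart V (D.A₀ V) (D.A₁ V) (D.A₀₁ V) G.ρ₀B G.ρ₁B)
    (hG' : helper4755.IsTwoChart V (D.A₀ V) (D.A₁ V) (D.A₀₁ V) G'.ρ₀B G'.ρ₁B)
    (h : (G.baseChange (IsScalarTower.toAlgHom k V K)).Equiv
      (G'.baseChange (IsScalarTower.toAlgHom k V K))) :
    G.Equiv G' := by
  obtain ⟨I⟩ := h
  let _ := algA₀ D (IsScalarTower.toAlgHom k V K)
  let _ := algA₁ D (IsScalarTower.toAlgHom k V K)
  let _ := algA₀₁ D (IsScalarTower.toAlgHom k V K)
  let _ := algA₀A₀₁ D (IsScalarTower.toAlgHom k V K)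
  let _ := algA₁A₀₁ D (IsScalarTower.toAlgHom k V K)
  have := tower_A₀_A₀₁_A₀₁' D (IsScalarTower.toAlgHom k V K)
  have := tower_A₀_A₀'_A₀₁' D (IsScalarTower.toAlgHom k V K)
  have := tower_A₁_A₀₁_A₀₁' D (IsScalarTower.toAlgHom k V K)
  have := tower_A₁_A₁'_A₀₁' D (IsScalarTower.toAlgHom k V K)
  have := isLocalization_A₀ (D := D) (K := K) (nonZeroDivisors V)
  have := isLocalization_A₁ (D := D) (K := K) (nonZeroDivisors V)
  have := isLocalization_A₀₁ (D := D) (K := K) (nonZeroDivisors V)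
  have := hG.proj₀
  have := hG.proj₁
  have := hG'.proj₀
  have := hG'.proj₁
  have := invertible_M₀₁ G
  have := invertible_M₀₁ G'
  have : Module.FinitePresentation (D.A₀ V) G.M₀ := Module.finitePresentation_of_projective _ _
  have : Module.FinitePresentation (D.A₀ V) G'.M₀ := Module.finitePresentation_of_projective _ _
  have : Module.FinitePresentation (D.A₁ V) G.M₁ := Module.finitePresentation_of_projective _ _
  have : Module.FinitePresentation (D.A₁ V) G'.M₁ := Module.finitePresentation_of_projective _ _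
  have : Module.FinitePresentation (D.A₀₁ V) G.M₀₁ :=
    Module.finitePresentation_of_projective _ _
  have : Module.FinitePresentation (D.A₀₁ V) G'.M₀₁ :=
    Module.finitePresentation_of_projective _ _
  -- injectivity of the six localization maps
  have hι₀ : Function.Injective (TensorProduct.mk (D.A₀ V) (D.A₀ K) G.M₀ 1) :=
    injective_of_isLocalizedModule_of_torsionFree (V := V) _
      fun e m he hm => helper4755.eq_zero_of_smul_eq_zero_of_projective he hm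
  have hι₀' : Function.Injective (TensorProduct.mk (D.A₀ V) (D.A₀ K) G'.M₀ 1) :=
    injective_of_isLocalizedModule_of_torsionFree (V := V) _
      fun e m he hm => helper4755.eq_zero_of_smul_eq_zero_of_projective he hm
  have hι₁ : Function.Injective (TensorProduct.mk (D.A₁ V) (D.A₁ K) G.M₁ 1) :=
    injective_of_isLocalizedModule_of_torsionFree (V := V) _
      fun e m he hm => helper4755.eq_zero_of_smul_eq_zero_of_projective he hm
  have hι₁' : Function.Injective (TensorProduct.mk (D.A₁ V) (D.A₁ K) G'.M₁ 1) :=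
    injective_of_isLocalizedModule_of_torsionFree (V := V) _
      fun e m he hm => helper4755.eq_zero_of_smul_eq_zero_of_projective he hm
  have hι₀₁ : Function.Injective (TensorProduct.mk (D.A₀₁ V) (D.A₀₁ K) G.M₀₁ 1) :=
    injective_of_isLocalizedModule_of_torsionFree (V := V) _ hG.tf
  have hι₀₁' : Function.Injective (TensorProduct.mk (D.A₀₁ V) (D.A₀₁ K) G'.M₀₁ 1) :=
    injective_of_isLocalizedModule_of_torsionFree (V := V) _ hG'.tf
  -- the restriction maps of the base-changed data, with their types spelled out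
  let R₀ : D.A₀ K ⊗[D.A₀ V] G.M₀ →ₗ[D.A₀ K] D.A₀₁ K ⊗[D.A₀₁ V] G.M₀₁ :=
    (G.baseChange (IsScalarTower.toAlgHom k V K)).ρ₀
  let R₁ : D.A₁ K ⊗[D.A₁ V] G.M₁ →ₗ[D.A₁ K] D.A₀₁ K ⊗[D.A₀₁ V] G.M₀₁ :=
    (G.baseChange (IsScalarTower.toAlgHom k V K)).ρ₁
  let R₀' : D.A₀ K ⊗[D.A₀ V] G'.M₀ →ₗ[D.A₀ K] D.A₀₁ K ⊗[D.A₀₁ V] G'.M₀₁ :=
    (G'.baseChange (IsScalarTower.toAlgHom k V K)).ρ₀
  let R₁' : D.A₁ K ⊗[D.A₁ V] G'.M₁ →ₗ[D.A₁ K] D.A₀₁ K ⊗[D.A₀₁ V] G'.M₀₁ :=
    (G'.baseChange (IsScalarTower.toAlgHom k V K)).ρ₁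
  -- compatibility of the localization maps with the restriction maps
  have hr₀ : ∀ m : G.M₀, (1 : D.A₀₁ K) ⊗ₜ[D.A₀₁ V] (G.ρ₀ m) = R₀ ((1 : D.A₀ K) ⊗ₜ[D.A₀ V] m) := by
    intro m
    have h1 := sqBaseChange_tmul (S := D.A₀₁ V) (S' := D.A₀₁ K) G.ρ₀ (1 : D.A₀ K) m
    rw [map_one] at h1
    exact h1.symm
  have hr₁ : ∀ m : G.M₁, (1 : D.A₀₁ K) ⊗ₜ[D.A₀₁ V] (G.ρ₁ m) = R₁ ((1 : D.A₁ K) ⊗ₜ[D.A₁ V] m) := by
    intro m
    have h1 := sqBaseChange_tmul (S := D.A₀₁ V) (S' := D.A₀₁ K) G.ρ₁ (1 : D.A₁ K) m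
    rw [map_one] at h1
    exact h1.symm
  have hr₀' : ∀ m : G'.M₀, (1 : D.A₀₁ K) ⊗ₜ[D.A₀₁ V] (G'.ρ₀ m) =
      R₀' ((1 : D.A₀ K) ⊗ₜ[D.A₀ V] m) := by
    intro m
    have h1 := sqBaseChange_tmul (S := D.A₀₁ V) (S' := D.A₀₁ K) G'.ρ₀ (1 : D.A₀ K) m
    rw [map_one] at h1
    exact h1.symm
  have hr₁' : ∀ m : G'.M₁, (1 : D.A₀₁ K) ⊗ₜ[D.A₀₁ V] (G'.ρ₁ m) =
      R₁' ((1 : D.A₁ K) ⊗ₜ[D.A₁ V] m) := by
    intro m
    have h1 := sqBaseChange_tmul (S := D.A₀₁ V) (S' := D.A₀₁ K) G'.ρ₁ (1 : D.A₁ K) m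
    rw [map_one] at h1
    exact h1.symm
  -- the squares of rings commute on `V`
  have key₀ : ∀ c : V, algebraMap (D.A₀ K) (D.A₀₁ K)
      (algebraMap (D.A₀ V) (D.A₀ K) (algebraMap V (D.A₀ V) c)) =
      algebraMap (D.A₀₁ V) (D.A₀₁ K) (algebraMap V (D.A₀₁ V) c) := by
    intro c
    simp [RingHom.algebraMap_toAlgebra]
  have key₁ : ∀ c : V, algebraMap (D.A₁ K) (D.A₀₁ K)
      (algebraMap (D.A₁ V) (D.A₁ K) (algebraMap V (D.A₁ V) c)) =
      algebraMap (D.A₀₁ V) (D.A₀₁ K) (algebraMap V (D.A₀₁ V) c) := by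
    intro c
    simp [RingHom.algebraMap_toAlgebra]
  have hR₀ : ∀ (c : V) (n : D.A₀ K ⊗[D.A₀ V] G.M₀),
      R₀ (algebraMap V (D.A₀ V) c • n) = algebraMap V (D.A₀₁ V) c • R₀ n :=
    map_algebraMap_smul_of_square key₀ R₀
  have hR₁ : ∀ (c : V) (n : D.A₁ K ⊗[D.A₁ V] G.M₁),
      R₁ (algebraMap V (D.A₁ V) c • n) = algebraMap V (D.A₀₁ V) c • R₁ n :=
    map_algebraMap_smul_of_square key₁ R₁
  have hR₀' : ∀ (c : V) (n : D.A₀ K ⊗[D.A₀ V] G'.M₀),
      R₀' (algebraMap V (D.A₀ V) c • n) = algebraMap V (D.A₀₁ V) c • R₀' n :=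
    map_algebraMap_smul_of_square key₀ R₀'
  have hR₁' : ∀ (c : V) (n : D.A₁ K ⊗[D.A₁ V] G'.M₁),
      R₁' (algebraMap V (D.A₁ V) c • n) = algebraMap V (D.A₀₁ V) c • R₁' n :=
    map_algebraMap_smul_of_square key₁ R₁'
  -- the generic isomorphisms, as linear maps over the chart rings over `V`
  let E₀ : D.A₀ K ⊗[D.A₀ V] G.M₀ ≃ₗ[D.A₀ K] D.A₀ K ⊗[D.A₀ V] G'.M₀ := I.e₀
  let E₁ : D.A₁ K ⊗[D.A₁ V] G.M₁ ≃ₗ[D.A₁ K] D.A₁ K ⊗[D.A₁ V] G'.M₁ := I.e₁
  let E₀₁ : D.A₀₁ K ⊗[D.A₀₁ V] G.M₀₁ ≃ₗ[D.A₀₁ K] D.A₀₁ K ⊗[D.A₀₁ V] G'.M₀₁ := I.e₀₁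
  have hφ₀ : ∀ n, (E₀₁.restrictScalars (D.A₀₁ V)) (R₀ n) = R₀' ((E₀.restrictScalars (D.A₀ V)) n) :=
    fun n => I.comm₀ n
  have hφ₁ : ∀ n, (E₀₁.restrictScalars (D.A₀₁ V)) (R₁ n) = R₁' ((E₁.restrictScalars (D.A₁ V)) n) :=
    fun n => I.comm₁ n
  -- clearing denominators
  obtain ⟨c, f₀, f₁, f₀₁, g₀, g₁, g₀₁, hc, -, -, ⟨hf₀, hf₁⟩, ⟨hg₀, hg₁⟩, ⟨hgf₀, hfg₀⟩,
    ⟨hgf₁, hfg₁⟩, -⟩ :=
    helper653.exists_clear_denom_twoChart (V := V)
      (TensorProduct.mk (D.A₀ V) (D.A₀ K) G.M₀ 1) (TensorProduct.mk (D.A₀ V) (D.A₀ K) G'.M₀ 1)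
      (TensorProduct.mk (D.A₁ V) (D.A₁ K) G.M₁ 1) (TensorProduct.mk (D.A₁ V) (D.A₁ K) G'.M₁ 1)
      (TensorProduct.mk (D.A₀₁ V) (D.A₀₁ K) G.M₀₁ 1)
      (TensorProduct.mk (D.A₀₁ V) (D.A₀₁ K) G'.M₀₁ 1)
      hι₀ hι₀' hι₁ hι₁' hι₀₁ hι₀₁'
      (E₀.restrictScalars (D.A₀ V)) (E₁.restrictScalars (D.A₁ V))
      (E₀₁.restrictScalars (D.A₀₁ V))
      G.ρ₀ G.ρ₁ G'.ρ₀ G'.ρ₁ R₀ R₁ R₀' R₁' hr₀ hr₁ hr₀' hr₁' hR₀ hR₁ hR₀' hR₁' hφ₀ hφ₁
  -- primitive parts over the valuation ring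
  obtain ⟨e₀, e₁, e₀₁, h₀, h₁⟩ :=
    helper4755.exists_linearEquiv_of_isTwoChart hA₀ hA₁ hG hG' f₀ f₁ f₀₁
      (fun m => (hf₀ m).symm) (fun m => (hf₁ m).symm) g₀ g₁ g₀₁
      (fun m => (hg₀ m).symm) (fun m => (hg₁ m).symm) (c * c) (mul_ne_zero hc hc)
      hgf₀ hfg₀ hgf₁ hfg₁
  exact ⟨⟨e₀, e₁, e₀₁, fun m => (h₀ m).symm, fun m => (h₁ m).symm⟩⟩

end Main

end Glue

/-- **Leaf U8 / root LC3: valuation-ring uniqueness for two-chart line bundles.**
Two-chart line bundles over a valuation ring `V` (a `k`-algebra, any rank) which become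
isomorphic over the fraction field of `V` are isomorphic. -/
theorem stmt_AlgValUniq : Fermat.Agent.S25.helper985.Stmt_AlgValUniq.{u} := by
  intro k _ _ D V _ _ _ _ K _ _ _ _ _ G G' _ _ hK
  exact equiv_of_equiv_baseChange_of_isTwoChart G G'
    (helper4755.isPrime_map_maximalIdeal₀ D V) (helper4755.isPrime_map_maximalIdeal₁ D V)
    (helper4755.isTwoChart G) (helper4755.isTwoChart G') hK

end Fermat.Agent.S25.helper6550
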