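/-
S25, layer L0: the frozen wrapper of local representability.

`stmt_GlueRep_of_LRGen : Stmt_LRGen.{u+1, u} → helper1705.Stmt_GlueRep.{u}`:
the formal gluing statement of the Spec (charts carrying rigidified line bundles, everything
phrased with `Nonempty` isomorphisms) follows from the generic local representability statement
for presheaves on `Over S`, applied to the subfunctor of `relPicardPresheaf c ε` cut out by the
cut `Pc`.
-/
import Fermat.Agent.S25.helper1705_Spec2
import Fermat.Agent.S25.helper7579_LRSpec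

set_option autoImplicit false

universe u

open CategoryTheory CategoryTheory.Limits AlgebraicGeometry AlgebraicGeometry.RelPicard
  NeronModelInfra GoodReductionJacobian Opposite

namespace Fermat.Agent.S25.helper7579

noncomputable section

variable {R : Type u} [CommRing R] {C : Scheme.{u}} {c : C ⟶ Spec (CommRingCat.of R)}
  {ε : SchemeHomOver (𝟙 (Spec (CommRingCat.of R))) c}

/-- The subfunctor of the rigidified Picard presheaf cut out by a cut. -/
def cutSub (Pc : SubPicCondition c ε) : Subfunctor (relPicardPresheaf c ε) where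
  obj X := {q | ∃ M : RigidifiedLineBundle c ε X.unop.hom,
    (Quotient.mk _ M : RigidifiedLineBundle.Classes c ε X.unop.hom) = q ∧ Pc.P X.unop.hom M}
  map {X X'} φ := by
    rintro q ⟨M, rfl, hM⟩
    exact ⟨M.pullbackAlong ⟨φ.unop.left, Over.w φ.unop⟩, rfl, Pc.pullback_mem _ _ _ M hM⟩

/-- The cut-out rigidified Picard presheaf. -/
abbrev cutPresheaf (Pc : SubPicCondition c ε) :
    (Over (Spec (CommRingCat.of R)))ᵒᵖ ⥤ Type (u + 1) :=
  (cutSub Pc).toFunctor

variable {Pc : SubPicCondition c ε}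

/-- The section of the cut-out presheaf given by a bundle in the cut. -/
def mkSec (T : Over (Spec (CommRingCat.of R))) (M : RigidifiedLineBundle c ε T.hom)
    (hM : Pc.P T.hom M) : (cutPresheaf Pc).obj (op T) :=
  ⟨Quotient.mk _ M, M, rfl, hM⟩

theorem mkSec_eq_iff (T : Over (Spec (CommRingCat.of R))) (M M' : RigidifiedLineBundle c ε T.hom)
    (hM : Pc.P T.hom M) (hM' : Pc.P T.hom M') :
    mkSec T M hM = mkSec T M' hM' ↔ Nonempty (M.L ≅ M'.L) := by
  constructor
  · intro h
    exact Quotient.exact (congrArg Subtype.val h)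
  · intro h
    exact Subtype.ext (Quotient.sound h)

theorem exists_mkSec (T : Over (Spec (CommRingCat.of R))) (s : (cutPresheaf Pc).obj (op T)) :
    ∃ (M : RigidifiedLineBundle c ε T.hom) (hM : Pc.P T.hom M), s = mkSec T M hM := by
  obtain ⟨q, M, rfl, hM⟩ := s
  exact ⟨M, hM, rfl⟩

theorem map_mkSec {T T' : Over (Spec (CommRingCat.of R))} (g : T' ⟶ T)
    (M : RigidifiedLineBundle c ε T.hom) (hM : Pc.P T.hom M) :
    (cutPresheaf Pc).map g.op (mkSec T M hM) =
      mkSec T' (M.pullbackAlong ⟨g.left, Over.w g⟩) (Pc.pullback_mem _ _ _ M hM) :=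
  rfl

theorem presheafSep_cutPresheaf (hL : helper1705.LocIso c ε) :
    PresheafSep (cutPresheaf Pc) := by
  intro T 𝒰 s s' h
  obtain ⟨M, hM, rfl⟩ := exists_mkSec T s
  obtain ⟨M', hM', rfl⟩ := exists_mkSec T s'
  rw [mkSec_eq_iff]
  refine hL T.hom M M' 𝒰 fun i => ?_
  have := h i
  rw [map_mkSec, map_mkSec, mkSec_eq_iff] at this
  exact this

theorem presheafGlue_cutPresheaf (hG : helper1705.GlueObj c ε) (hP : helper1705.IsLocalCut Pc) :
    PresheafGlue (cutPresheaf Pc) := by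
  intro T 𝒰 s hs
  choose M hM hsM using fun i => exists_mkSec (Over.mk (𝒰.f i ≫ T.hom)) (s i)
  obtain ⟨N, hN⟩ := hG T.hom 𝒰 M (fun i j => by
    have := hs i j
    rw [hsM i, hsM j, map_mkSec, map_mkSec, mkSec_eq_iff] at this
    exact this)
  have hNP : Pc.P T.hom N :=
    hP T.hom N 𝒰 fun i => Pc.congr _ _ _ ⟨(hN i).some.symm⟩ (hM i)
  refine ⟨mkSec T N hNP, fun i => ?_⟩
  rw [hsM i, map_mkSec, mkSec_eq_iff]
  exact hN i

end

/-- **GlueRep from generic local representability.** -/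
theorem stmt_GlueRep_of_LRGen (hLR : Stmt_LRGen.{u + 1, u}) : helper1705.Stmt_GlueRep.{u} := by
  intro R _ C c ε Pc hL hG hP 𝔉 hmono hopen
  let X' : 𝔉.ι → Over (Spec (CommRingCat.of R)) := fun i => Over.mk (𝔉.x i)
  let ξ : ∀ i, (cutPresheaf Pc).obj (op (X' i)) := fun i => mkSec (X' i) (𝔉.Q i) (𝔉.mem i)
  have h1 : ChartsMono (cutPresheaf Pc) X' ξ := by
    intro i T a b h
    rw [map_mkSec, map_mkSec, mkSec_eq_iff] at h
    have := hmono i T.hom ⟨a.left, Over.w a⟩ ⟨b.left, Over.w b⟩ h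
    exact Over.OverMorphism.ext (congrArg Subtype.val this)
  have h2 : ChartsOpenCover (cutPresheaf Pc) X' ξ := by
    intro T η
    obtain ⟨M, hM, rfl⟩ := exists_mkSec T η
    obtain ⟨U, hU, hcov⟩ := hopen T.hom M hM
    refine ⟨U, fun i T' ψ => ?_, hcov⟩
    rw [hU i ψ]
    constructor
    · rintro ⟨g, hg⟩
      refine ⟨Over.homMk g.1 g.2, ?_⟩
      rw [map_mkSec, map_mkSec, mkSec_eq_iff]
      exact hg
    · rintro ⟨a, ha⟩
      rw [map_mkSec, map_mkSec, mkSec_eq_iff] at ha
      exact ⟨⟨a.left, Over.w a⟩, ha⟩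
  obtain ⟨J, ξJ, huniv, v, hv, -, hcov⟩ := hLR (Spec (CommRingCat.of R)) (cutPresheaf Pc)
    (presheafSep_cutPresheaf hL) (presheafGlue_cutPresheaf hG hP) 𝔉.ι X' ξ h1 h2
  obtain ⟨Pcb, hPcb, rfl⟩ := exists_mkSec J ξJ
  have univ' : ∀ {T : Scheme.{u}} (t : T ⟶ Spec (CommRingCat.of R))
      (M : RigidifiedLineBundle c ε t), Pc.P t M →
      ∃! g : SchemeHomOver t J.hom, Nonempty ((Pcb.pullbackAlong g).L ≅ M.L) := by
    intro T t M hM
    obtain ⟨g, hg, hguniq⟩ := huniv (Over.mk t) (mkSec (Over.mk t) M hM)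
    rw [map_mkSec, mkSec_eq_iff] at hg
    refine ⟨⟨g.left, Over.w g⟩, hg, fun g' hg' => ?_⟩
    have := hguniq (Over.homMk g'.1 g'.2) (by
      beta_reduce
      rw [map_mkSec, mkSec_eq_iff]
      exact hg')
    exact Subtype.ext (congrArg CommaMorphism.left this)
  obtain ⟨z, hz, -⟩ := univ' (𝟙 (Spec (CommRingCat.of R)))
    (RigidifiedLineBundle.unit (c := c) (ε := ε) (𝟙 _)) (Pc.unit_mem _)
  refine ⟨⟨J.left, J.hom, z.1, z.2⟩, ⟨{
    poincare := Pcb
    poincare_mem := hPcb
    univ := fun t M hM => univ' t M hM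
    zero := hz }⟩, fun i => (v i).left, hv, fun i => Over.w (v i), hcov⟩

end Fermat.Agent.S25.helper7579
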