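import Fermat.Agent.S25.helper7727_LiftSqZero
import Fermat.Agent.S25.helper985_LGAlg

/-!
# S25, leaf U7 (LC2): `Stmt_AlgLiftSqZero` of the LG algebra spec

The closed Prop `helper985.Stmt_AlgLiftSqZero` is `helper7727.algLiftSqZero`
(which needs neither `IsAlgClosed k` nor any degree hypothesis).
-/

set_option autoImplicit false

universe u

namespace Fermat.Agent.S25.helper7727

/-- **Leaf U7 / LC2.** Rigidified two-chart line bundles lift along square-zero thickenings. -/
theorem stmt_AlgLiftSqZero : helper985.Stmt_AlgLiftSqZero.{u} :=
  fun _ _ _ D B _ _ I hI G hG => algLiftSqZero D B I hI G hG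

end Fermat.Agent.S25.helper7727
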