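import Fermat.Agent.S25.helper1800_OmegaInv

/-!
# S25 brick (helper1800): `Ω` is invertible on an affine chart, open-immersion form

The shape needed to fill the fields `omega₀`, `omega₁` of `helper1705.CurveDatum` from a
`helper1705.Realization`: an open immersion `j : Spec R ⟶ C` over `Spec k` into a scheme that is
smooth of relative dimension one over `k` forces `Ω[R⁄k]` to be an invertible `R`-module.
-/

set_option autoImplicit false

open CategoryTheory AlgebraicGeometry

namespace Fermat.Agent.S25.helper1800

universe u

/-- Ring-hom form: if `Spec.map φ` is smooth of relative dimension one, then `φ` is locally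
standard smooth of relative dimension one. -/
theorem locally_isStandardSmoothOfRelativeDimension_of_spec {k R : CommRingCat.{u}} (φ : k ⟶ R)
    [SmoothOfRelativeDimension 1 (Spec.map φ)] :
    RingHom.Locally (RingHom.IsStandardSmoothOfRelativeDimension 1) φ.hom :=
  (HasRingHomProperty.Spec_iff (P := @SmoothOfRelativeDimension 1)).mp inferInstance

/-- If `Spec R ⟶ Spec k` is smooth of relative dimension one then `Ω[R⁄k]` is invertible. -/
theorem invertible_kaehlerDifferential_of_spec {k R : Type u} [CommRing k] [CommRing R]
    [Algebra k R]
    [SmoothOfRelativeDimension 1 (Spec.map (CommRingCat.ofHom (algebraMap k R)))] :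
    Module.Invertible R Ω[R⁄k] :=
  invertible_kaehlerDifferential_of_locally
    (locally_isStandardSmoothOfRelativeDimension_of_spec (CommRingCat.ofHom (algebraMap k R)))

/-- **Open-immersion form.** `c : C ⟶ Spec k` smooth of relative dimension one,
`j : Spec R ⟶ C` an open immersion with `j ≫ c = Spec.map (algebraMap k R)`:
then `Ω[R⁄k]` is an invertible `R`-module. -/
theorem invertible_kaehlerDifferential_of_isOpenImmersion {k : Type u} [CommRing k]
    {C : Scheme.{u}} (c : C ⟶ Spec (CommRingCat.of k)) [SmoothOfRelativeDimension 1 c]
    {R : Type u} [CommRing R] [Algebra k R] (j : Spec (CommRingCat.of R) ⟶ C)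
    [IsOpenImmersion j] (fac : j ≫ c = Spec.map (CommRingCat.ofHom (algebraMap k R))) :
    Module.Invertible R Ω[R⁄k] := by
  have h : SmoothOfRelativeDimension 1 (j ≫ c) :=
    IsZariskiLocalAtSource.comp (P := @SmoothOfRelativeDimension 1) inferInstance j
  rw [fac] at h
  exact invertible_kaehlerDifferential_of_spec

end Fermat.Agent.S25.helper1800
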