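import Mathlib

/-!
# S25, layer A: the domain of regularity of a rational function on an integral scheme

Owner: helper7755.  Only Mathlib is imported.
-/

set_option autoImplicit false

universe u

open CategoryTheory AlgebraicGeometry TopologicalSpace Opposite

namespace Fermat.Agent.S25.helper7755

section RegOpen

variable {X : Scheme.{u}} [IsIntegral X]

/-- The generic point lies in every open containing some point. -/
lemma genericPoint_mem_of_mem {U : X.Opens} {p : X} (hp : p ∈ U) : genericPoint X ∈ U :=
  ((genericPoint_spec X).mem_open_set_iff U.isOpen).mpr ⟨p, Set.mem_univ _, hp⟩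

lemma algebraMap_germ_eq (U : X.Opens) (p : X) (hp : p ∈ U) (s : Γ(X, U)) :
    algebraMap (X.presheaf.stalk p) X.functionField (X.presheaf.germ U p hp s) =
      X.presheaf.germ U (genericPoint X) (genericPoint_mem_of_mem hp) s := by
  have : Nonempty U := ⟨⟨p, hp⟩⟩
  exact Scheme.algebraMap_germ_eq_germToFunctionField X hp s

/-- The rational function `f` is regular at the point `p`. -/
def IsRegAt (f : X.functionField) (p : X) : Prop :=
  f ∈ Set.range (algebraMap (X.presheaf.stalk p) X.functionField)

lemma isRegAt_iff_exists_germ (f : X.functionField) (p : X) :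
    IsRegAt f p ↔ ∃ (U : X.Opens) (hp : p ∈ U) (s : Γ(X, U)),
      X.presheaf.germ U (genericPoint X) (genericPoint_mem_of_mem hp) s = f := by
  constructor
  · rintro ⟨t, rfl⟩
    obtain ⟨U, hp, s, rfl⟩ := X.presheaf.exists_germ_eq t
    exact ⟨U, hp, s, (algebraMap_germ_eq U p hp s).symm⟩
  · rintro ⟨U, hp, s, rfl⟩
    exact ⟨_, algebraMap_germ_eq U p hp s⟩

lemma isRegAt_of_mem {f : X.functionField} {U : X.Opens} {p : X} (hp : p ∈ U) (s : Γ(X, U))
    (hs : X.presheaf.germ U (genericPoint X) (genericPoint_mem_of_mem hp) s = f) : IsRegAt f p :=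
  (isRegAt_iff_exists_germ f p).mpr ⟨U, hp, s, hs⟩

lemma isOpen_setOf_isRegAt (f : X.functionField) : IsOpen {p : X | IsRegAt f p} := by
  rw [isOpen_iff_forall_mem_open]
  intro p hp
  obtain ⟨U, hpU, s, hs⟩ := (isRegAt_iff_exists_germ f p).mp hp
  exact ⟨U, fun q hq => isRegAt_of_mem hq s hs, U.isOpen, hpU⟩

/-- The domain of regularity of a rational function. -/
def regOpen (f : X.functionField) : X.Opens := ⟨{p : X | IsRegAt f p}, isOpen_setOf_isRegAt f⟩

lemma mem_regOpen_iff {f : X.functionField} {p : X} : p ∈ regOpen f ↔ IsRegAt f p := Iff.rfl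

lemma genericPoint_mem_regOpen (f : X.functionField) : genericPoint X ∈ regOpen f := by
  refine ⟨f, ?_⟩
  simp [RingHom.algebraMap_toAlgebra]

/-- A rational function is a regular function on its domain of regularity. -/
theorem exists_regSection (f : X.functionField) :
    ∃ s : Γ(X, regOpen f),
      X.presheaf.germ (regOpen f) (genericPoint X) (genericPoint_mem_regOpen f) s = f := by
  classical
  let ι := {p : X // IsRegAt f p}
  choose U hpU s hs using fun i : ι => (isRegAt_iff_exists_germ f i.1).mp i.2
  have hUle : ∀ i, U i ≤ regOpen f := fun i q hq => isRegAt_of_mem hq (s i) (hs i)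
  have hcover : regOpen f ≤ iSup U := by
    intro p hp
    exact Opens.mem_iSup.mpr ⟨⟨p, hp⟩, hpU ⟨p, hp⟩⟩
  have hcompat : TopCat.Presheaf.IsCompatible X.presheaf U s := by
    intro i j
    have hη : genericPoint X ∈ U i ⊓ U j :=
      ⟨genericPoint_mem_of_mem (hpU i), genericPoint_mem_of_mem (hpU j)⟩
    apply germ_injective_of_isIntegral X (genericPoint X) hη
    rw [TopCat.Presheaf.germ_res_apply, TopCat.Presheaf.germ_res_apply, hs i, hs j]
  obtain ⟨t, ht, -⟩ := X.sheaf.existsUnique_gluing' U (regOpen f) (fun i => homOfLE (hUle i))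
    hcover s hcompat
  refine ⟨t, ?_⟩
  have i₀ : ι := ⟨genericPoint X, genericPoint_mem_regOpen f⟩
  refine Eq.trans ?_ (hs i₀)
  have h1 : X.presheaf.map (homOfLE (hUle i₀)).op t = s i₀ := ht i₀
  rw [← h1]
  exact (TopCat.Presheaf.germ_res_apply X.presheaf (homOfLE (hUle i₀)) (genericPoint X)
    (genericPoint_mem_of_mem (hpU i₀)) t).symm

/-- The regular function on `regOpen f` defined by the rational function `f`. -/
noncomputable def regSection (f : X.functionField) : Γ(X, regOpen f) :=
  (exists_regSection f).choose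

lemma germ_regSection (f : X.functionField) :
    X.presheaf.germ (regOpen f) (genericPoint X) (genericPoint_mem_regOpen f) (regSection f) = f :=
  (exists_regSection f).choose_spec

lemma algebraMap_germ_regSection (f : X.functionField) (p : X) (hp : p ∈ regOpen f) :
    algebraMap (X.presheaf.stalk p) X.functionField
      (X.presheaf.germ (regOpen f) p hp (regSection f)) = f := by
  rw [algebraMap_germ_eq]
  exact germ_regSection f

/-- `D(x) = U₀ ∩ U₁` for `x = f` on `U₀ = regOpen f` and `U₁ = regOpen f'`, `f * f' = 1`. -/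
theorem basicOpen_regSection {f f' : X.functionField} (h : f * f' = 1) :
    X.basicOpen (regSection f) = regOpen f ⊓ regOpen f' := by
  ext p
  constructor
  · intro hp
    have hpU : p ∈ regOpen f := X.basicOpen_le _ hp
    refine ⟨hpU, ?_⟩
    have hu : IsUnit (X.presheaf.germ (regOpen f) p hpU (regSection f)) :=
      (X.mem_basicOpen _ p hpU).mp hp
    obtain ⟨u, hu⟩ := hu
    refine ⟨((u⁻¹ : (X.presheaf.stalk p)ˣ) : X.presheaf.stalk p), ?_⟩
    have h1 := algebraMap_germ_regSection f p hpU
    rw [← hu] at h1
    have h2 : algebraMap (X.presheaf.stalk p) X.functionField ((u⁻¹ : (X.presheaf.stalk p)ˣ) :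
        X.presheaf.stalk p) * f = 1 := by
      rw [← h1, ← map_mul, Units.inv_mul, map_one]
    calc algebraMap (X.presheaf.stalk p) X.functionField ((u⁻¹ : (X.presheaf.stalk p)ˣ) :
        X.presheaf.stalk p) = algebraMap (X.presheaf.stalk p) X.functionField
          ((u⁻¹ : (X.presheaf.stalk p)ˣ) : X.presheaf.stalk p) * (f * f') := by rw [h, mul_one]
      _ = f' := by rw [← mul_assoc, h2, one_mul]
  · rintro ⟨hp0, hp1⟩
    refine (X.mem_basicOpen _ p hp0).mpr ?_
    have hinj := IsFractionRing.injective (X.presheaf.stalk p) X.functionField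
    refine IsUnit.of_mul_eq_one (X.presheaf.germ (regOpen f') p hp1 (regSection f')) (hinj ?_)
    rw [map_mul, algebraMap_germ_regSection, algebraMap_germ_regSection, map_one, h]

/-- `x * y = 1` on `U₀ ∩ U₁`. -/
theorem regSection_mul_regSection {f f' : X.functionField} (h : f * f' = 1) :
    X.presheaf.map (homOfLE (inf_le_left : regOpen f ⊓ regOpen f' ≤ regOpen f)).op
        (regSection f) *
      X.presheaf.map (homOfLE (inf_le_right : regOpen f ⊓ regOpen f' ≤ regOpen f')).op
        (regSection f') = 1 := by
  have hη : genericPoint X ∈ regOpen f ⊓ regOpen f' :=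
    ⟨genericPoint_mem_regOpen _, genericPoint_mem_regOpen _⟩
  apply germ_injective_of_isIntegral X (genericPoint X) hη
  rw [map_mul, map_one, TopCat.Presheaf.germ_res_apply, TopCat.Presheaf.germ_res_apply,
    germ_regSection, germ_regSection, h]

/-- At a point whose local ring is a valuation ring, `f` or `f⁻¹` is regular. -/
lemma isRegAt_or_isRegAt_inv (f : X.functionField) (p : X)
    [ValuationRing (X.presheaf.stalk p)] : IsRegAt f p ∨ IsRegAt f⁻¹ p :=
  ValuationRing.isInteger_or_isInteger (X.presheaf.stalk p) f

/-- `U₀ ∪ U₁ = C` when all local rings are valuation rings. -/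
theorem regOpen_sup_regOpen_inv (f : X.functionField)
    (h : ∀ p : X, ValuationRing (X.presheaf.stalk p)) : regOpen f ⊔ regOpen f⁻¹ = ⊤ := by
  rw [eq_top_iff]
  intro p _
  have := h p
  rcases isRegAt_or_isRegAt_inv f p with h | h
  · exact Or.inl h
  · exact Or.inr h

omit [IsIntegral X] in
/-- If the local ring at `p` is not a field, its maximal ideal contains a nonzero element. -/
lemma exists_ne_zero_mem_maximalIdeal (p : X) (hp : ¬ IsField (X.presheaf.stalk p)) :
    ∃ t : X.presheaf.stalk p, t ≠ 0 ∧ t ∈ IsLocalRing.maximalIdeal (X.presheaf.stalk p) := by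
  rw [IsLocalRing.isField_iff_maximalIdeal_eq] at hp
  obtain ⟨t, ht, ht0⟩ := Submodule.exists_mem_ne_zero_of_ne_bot hp
  exact ⟨t, ht0, ht⟩

/-- The germ at a regular point of the regular function `regSection f`. -/
lemma germ_regSection_eq (f : X.functionField) (p : X) (t : X.presheaf.stalk p)
    (ht : algebraMap (X.presheaf.stalk p) X.functionField t = f) :
    X.presheaf.germ (regOpen f) p ⟨t, ht⟩ (regSection f) = t := by
  apply IsFractionRing.injective (X.presheaf.stalk p) X.functionField
  rw [algebraMap_germ_regSection, ht]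

end RegOpen

end Fermat.Agent.S25.helper7755
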