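import Mathlib
import Fermat.Agent.S25.helper7755_RegOpen

/-!
# S25, layer A (LA-CHARTS): the two-chart atlas of a smooth proper curve, in terms of opens of `C`

Owner: helper7755.  Only Mathlib is imported.

* `toΓ c U : k →+* Γ(C, U)`: the structure map of the `k`-scheme `C` on sections over `U`;
* `polyToΓ c U s : k[X] →+* Γ(C, U)`: the `k`-algebra map `X ↦ s`;
* `TwoChart c e`: the structure consumed by LA-REAL (packaging into `Realization c ε D`).
-/

set_option autoImplicit false

universe u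

open CategoryTheory AlgebraicGeometry

namespace Fermat.Agent.S25.helper7755

variable {k : Type u} [Field k] {C : Scheme.{u}}

/-- The structure map `k → Γ(C, U)` of a `k`-scheme `c : C ⟶ Spec k`. -/
noncomputable def toΓ (c : C ⟶ Spec (CommRingCat.of k)) (U : C.Opens) : k →+* Γ(C, U) :=
  ((Scheme.ΓSpecIso (CommRingCat.of k)).inv ≫ c.appTop ≫ C.presheaf.map (homOfLE le_top).op).hom

/-- The `k`-algebra map `k[X] → Γ(C, U)` sending `X` to the section `s`. -/
noncomputable def polyToΓ (c : C ⟶ Spec (CommRingCat.of k)) (U : C.Opens) (s : Γ(C, U)) :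
    Polynomial k →+* Γ(C, U) :=
  Polynomial.eval₂RingHom (toΓ c U) s

/-- A two-chart atlas of the `k`-curve `c : C ⟶ Spec k` with marked `k`-point `e`:
`C = U₀ ∪ U₁` with `U₀`, `U₁` affine, `x` regular on `U₀`, `y` regular on `U₁`,
`U₀ ∩ U₁ = D(x) = D(y)`, `x * y = 1` on the overlap, `Γ(C, U₀)` finite over `k[x]`,
`Γ(C, U₁)` finite over `k[y]`, and `e` is a point of `U₁` at which `y` vanishes. -/
structure TwoChart (c : C ⟶ Spec (CommRingCat.of k)) (e : Spec (CommRingCat.of k) ⟶ C) where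
  /-- the chart where `x` is regular -/
  U₀ : C.Opens
  /-- the chart at infinity, where `y = 1/x` is regular -/
  U₁ : C.Opens
  /-- the coordinate function -/
  x : Γ(C, U₀)
  /-- its inverse -/
  y : Γ(C, U₁)
  affine₀ : IsAffineOpen U₀
  affine₁ : IsAffineOpen U₁
  nonempty₀ : Nonempty U₀
  nonempty₁ : Nonempty U₁
  cover : U₀ ⊔ U₁ = ⊤
  basicOpen_x : C.basicOpen x = U₀ ⊓ U₁
  basicOpen_y : C.basicOpen y = U₀ ⊓ U₁
  xy : C.presheaf.map (homOfLE (inf_le_left : U₀ ⊓ U₁ ≤ U₀)).op x *
    C.presheaf.map (homOfLE (inf_le_right : U₀ ⊓ U₁ ≤ U₁)).op y = 1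
  finite₀ : (polyToΓ c U₀ x).Finite
  finite₁ : (polyToΓ c U₁ y).Finite
  /-- evaluation at the marked point -/
  ev : Γ(C, U₁) →+* k
  ev_toΓ : ev.comp (toΓ c U₁) = RingHom.id k
  ev_y : ev y = 0
  eps : e = Spec.map (CommRingCat.ofHom ev) ≫ affine₁.fromSpec

/-! ## The chart morphism and its properness -/

section Chart

variable (c : C ⟶ Spec (CommRingCat.of k))

lemma toΓ_eq (U : C.Opens) : CommRingCat.ofHom (toΓ c U) =
    (Scheme.ΓSpecIso (CommRingCat.of k)).inv ≫ c.appTop ≫ C.presheaf.map (homOfLE le_top).op :=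
  rfl

lemma toSpecΓ_toΓ (U : C.Opens) :
    U.toSpecΓ ≫ Spec.map (CommRingCat.ofHom (toΓ c U)) = U.ι ≫ c := by
  rw [toΓ_eq, Spec.map_comp, Spec.map_comp, Category.assoc,
    Scheme.Opens.toSpecΓ_SpecMap_presheaf_map_top_assoc,
    ← Scheme.toSpecΓ_naturality_assoc, toSpecΓ_SpecMap_ΓSpecIso_inv, Category.comp_id]

lemma fromSpec_comp {U : C.Opens} (hU : IsAffineOpen U) :
    hU.fromSpec ≫ c = Spec.map (CommRingCat.ofHom (toΓ c U)) := by
  have h := toSpecΓ_toΓ c U
  rw [← hU.toSpecΓ_fromSpec, Category.assoc] at h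
  have h2 : hU.isoSpec.inv ≫ U.toSpecΓ ≫ Spec.map (CommRingCat.ofHom (toΓ c U)) =
      hU.isoSpec.inv ≫ U.toSpecΓ ≫ hU.fromSpec ≫ c := by rw [h]
  rw [hU.isoSpec_inv_toSpecΓ_assoc, hU.isoSpec_inv_toSpecΓ_assoc] at h2
  exact h2.symm

lemma polyToΓ_comp_C (U : C.Opens) (s : Γ(C, U)) :
    (polyToΓ c U s).comp Polynomial.C = toΓ c U := by
  ext a
  simp [polyToΓ]

lemma polyToΓ_X (U : C.Opens) (s : Γ(C, U)) : polyToΓ c U s Polynomial.X = s := by
  simp [polyToΓ]

/-- The chart morphism `U ⟶ 𝔸¹ = Spec k[X]` defined by a section `s` over `U`. -/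
noncomputable def chartMap (U : C.Opens) (s : Γ(C, U)) :
    U.toScheme ⟶ Spec (CommRingCat.of (Polynomial k)) :=
  U.toSpecΓ ≫ Spec.map (CommRingCat.ofHom (polyToΓ c U s))

lemma chartMap_comp (U : C.Opens) (s : Γ(C, U)) :
    chartMap c U s ≫ Spec.map (CommRingCat.ofHom (Polynomial.C : k →+* Polynomial k)) =
      U.ι ≫ c := by
  rw [chartMap, Category.assoc, ← Spec.map_comp, ← CommRingCat.ofHom_comp, polyToΓ_comp_C,
    toSpecΓ_toΓ]

/-- The global-section map of `Spec.map (algebraMap R K)` is injective for a domain `R` with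
fraction field `K`. -/
lemma appTop_SpecMap_injective {R K : Type u} [CommRing R] [CommRing K] (φ : R →+* K)
    (hφ : Function.Injective φ) :
    Function.Injective (Spec.map (CommRingCat.ofHom φ)).appTop := by
  have h := Scheme.ΓSpecIso_naturality (CommRingCat.ofHom φ)
  have h2 : (Spec.map (CommRingCat.ofHom φ)).appTop =
      (Scheme.ΓSpecIso (CommRingCat.of R)).hom ≫ CommRingCat.ofHom φ ≫
        (Scheme.ΓSpecIso (CommRingCat.of K)).inv := by
    rw [← Category.assoc, ← h, Category.assoc, Iso.hom_inv_id, Category.comp_id]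
  rw [h2]
  intro a b hab
  simp only [CommRingCat.hom_comp, RingHom.coe_comp, Function.comp_apply] at hab
  have h3 := (ConcreteCategory.bijective_of_isIso (Scheme.ΓSpecIso (CommRingCat.of K)).inv).1 hab
  have h4 := hφ h3
  exact (ConcreteCategory.bijective_of_isIso (Scheme.ΓSpecIso (CommRingCat.of R)).hom).1 h4

lemma chartMap_appTop_X (U : C.Opens) (s : Γ(C, U)) :
    (chartMap c U s).appTop
        ((Scheme.ΓSpecIso (CommRingCat.of (Polynomial k))).inv Polynomial.X) =
      U.topIso.inv s := by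
  have h1 : (Scheme.ΓSpecIso (CommRingCat.of (Polynomial k))).inv ≫ (chartMap c U s).appTop =
      CommRingCat.ofHom (polyToΓ c U s) ≫ U.topIso.inv := by
    rw [chartMap, Scheme.Hom.comp_appTop, ← Scheme.ΓSpecIso_inv_naturality_assoc,
      Scheme.Opens.toSpecΓ_appTop, Iso.inv_hom_id_assoc]
  have h2 := congrArg (fun φ => φ.hom Polynomial.X) h1
  simpa [polyToΓ_X] using h2

/-- Pulling back the coordinate of `𝔸¹` along `g ≫ chartMap` is pulling back the section. -/
lemma comp_chartMap_appTop_X {T : Scheme.{u}} (U : C.Opens) (s : Γ(C, U)) (g : T ⟶ U.toScheme)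
    (h : (⊤ : T.Opens) ≤ (g ≫ U.ι) ⁻¹ᵁ U) :
    (g ≫ chartMap c U s).appTop
        ((Scheme.ΓSpecIso (CommRingCat.of (Polynomial k))).inv Polynomial.X) =
      (g ≫ U.ι).appLE U ⊤ h s := by
  rw [Scheme.Hom.comp_appTop, CommRingCat.comp_apply, chartMap_appTop_X]
  have h1 : U.ι.appLE U ⊤ U.ι_preimage_self.ge = U.topIso.inv := by
    rw [Scheme.Opens.ι_appLE, Scheme.Opens.topIso_inv]
    rfl
  have h2 : g.appTop = g.appLE ⊤ ⊤ le_top := by
    rw [Scheme.Hom.appTop, Scheme.Hom.app_eq_appLE]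
    rfl
  have h3 : (g ≫ U.ι).appLE U ⊤ h = U.topIso.inv ≫ g.appTop := by
    rw [← h1, h2, Scheme.Hom.appLE_comp_appLE]
  rw [h3, CommRingCat.comp_apply]

theorem chartMap_existence [IsProper c] (U₀ U₁ : C.Opens) (x : Γ(C, U₀)) (y : Γ(C, U₁))
    (hcover : U₀ ⊔ U₁ = ⊤) (hy : C.basicOpen y ≤ U₀)
    (hxy : C.presheaf.map (homOfLE (inf_le_left : U₀ ⊓ U₁ ≤ U₀)).op x *
      C.presheaf.map (homOfLE (inf_le_right : U₀ ⊓ U₁ ≤ U₁)).op y = 1) :
    ValuativeCriterion.Existence (chartMap c U₀ x) := by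
  intro S
  have hc : ValuativeCriterion.Existence c :=
    (UniversallyClosed.eq_valuativeCriterion ▸ (inferInstance : UniversallyClosed c)).1
  have hsq : CommSq (S.i₁ ≫ U₀.ι) (Spec.map (CommRingCat.ofHom (algebraMap S.R S.K))) c
      (S.i₂ ≫ Spec.map (CommRingCat.ofHom (Polynomial.C : k →+* Polynomial k))) := ⟨by
    rw [Category.assoc, ← chartMap_comp c U₀ x, ← Category.assoc, S.commSq.w, Category.assoc]⟩
  obtain ⟨⟨l, hl₁, hl₂⟩⟩ := hc ⟨S.R, S.K, S.i₁ ≫ U₀.ι, _, hsq⟩
  dsimp only at hl₁ hl₂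
  -- the closed point of `Spec R` lands in `U₀`
  have key : l ⁻¹ᵁ U₀ = ⊤ := by
    have hz : (IsLocalRing.closedPoint S.R : Spec (CommRingCat.of S.R)) ∈ l ⁻¹ᵁ U₀ := by
      have hmem : l (IsLocalRing.closedPoint S.R : Spec (CommRingCat.of S.R)) ∈ U₀ ⊔ U₁ := by
        rw [hcover]; trivial
      rcases hmem with h0 | h1
      · exact h0
      · have hU₁ : l ⁻¹ᵁ U₁ = ⊤ := IsLocalRing.closed_point_mem_iff.mp h1
        have hle : (⊤ : (Spec (CommRingCat.of S.R)).Opens) ≤ l ⁻¹ᵁ U₁ := hU₁.ge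
        have hbu : IsUnit (l.appLE U₁ ⊤ hle y) := by
          have hinj := appTop_SpecMap_injective (algebraMap S.R S.K)
            (IsFractionRing.injective S.R S.K)
          refine IsUnit.of_mul_eq_one (S.i₂.appTop
            ((Scheme.ΓSpecIso (CommRingCat.of (Polynomial k))).inv Polynomial.X)) (hinj ?_)
          rw [map_mul, map_one]
          have hj₀ : (⊤ : (Spec (CommRingCat.of S.K)).Opens) ≤ (S.i₁ ≫ U₀.ι) ⁻¹ᵁ U₀ := by
            intro z _
            exact (S.i₁ z).2
          have hj₁ : (⊤ : (Spec (CommRingCat.of S.K)).Opens) ≤ (S.i₁ ≫ U₀.ι) ⁻¹ᵁ U₁ := by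
            rw [← hl₁]
            intro z _
            have : (Spec.map (CommRingCat.ofHom (algebraMap S.R S.K))) z ∈ l ⁻¹ᵁ U₁ := by
              rw [hU₁]; trivial
            exact this
          have e1 : ∀ (j : Spec (CommRingCat.of S.K) ⟶ C)
              (_ : Spec.map (CommRingCat.ofHom (algebraMap S.R S.K)) ≫ l = j)
              (h' : (⊤ : (Spec (CommRingCat.of S.K)).Opens) ≤ j ⁻¹ᵁ U₁),
              (Spec.map (CommRingCat.ofHom (algebraMap S.R S.K))).appTop (l.appLE U₁ ⊤ hle y) =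
                j.appLE U₁ ⊤ h' y := by
            rintro j rfl h'
            have h2 : (Spec.map (CommRingCat.ofHom (algebraMap S.R S.K))).appTop =
                (Spec.map (CommRingCat.ofHom (algebraMap S.R S.K))).appLE ⊤ ⊤ le_top := by
              rw [Scheme.Hom.appTop, Scheme.Hom.app_eq_appLE]
              rfl
            rw [h2, ← CommRingCat.comp_apply, Scheme.Hom.appLE_comp_appLE]
          have e2 : (Spec.map (CommRingCat.ofHom (algebraMap S.R S.K))).appTop (S.i₂.appTop
              ((Scheme.ΓSpecIso (CommRingCat.of (Polynomial k))).inv Polynomial.X)) =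
              (S.i₁ ≫ U₀.ι).appLE U₀ ⊤ hj₀ x := by
            rw [← comp_chartMap_appTop_X c U₀ x S.i₁ hj₀, S.commSq.w, Scheme.Hom.comp_appTop,
              CommRingCat.comp_apply]
          rw [e1 _ hl₁ hj₁, e2]
          have hj : (⊤ : (Spec (CommRingCat.of S.K)).Opens) ≤ (S.i₁ ≫ U₀.ι) ⁻¹ᵁ (U₀ ⊓ U₁) :=
            fun z hz => ⟨hj₀ hz, hj₁ hz⟩
          have e3 : (S.i₁ ≫ U₀.ι).appLE U₁ ⊤ hj₁ =
              C.presheaf.map (homOfLE (inf_le_right : U₀ ⊓ U₁ ≤ U₁)).op ≫
                (S.i₁ ≫ U₀.ι).appLE (U₀ ⊓ U₁) ⊤ hj :=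
            (Scheme.Hom.map_appLE _ hj _).symm
          have e4 : (S.i₁ ≫ U₀.ι).appLE U₀ ⊤ hj₀ =
              C.presheaf.map (homOfLE (inf_le_left : U₀ ⊓ U₁ ≤ U₀)).op ≫
                (S.i₁ ≫ U₀.ι).appLE (U₀ ⊓ U₁) ⊤ hj :=
            (Scheme.Hom.map_appLE _ hj _).symm
          rw [e3, e4, CommRingCat.comp_apply, CommRingCat.comp_apply, ← map_mul, mul_comm, hxy,
            map_one]
        have h3 := Scheme.basicOpen_appLE l ⊤ U₁ hle y
        rw [Scheme.basicOpen_of_isUnit _ hbu] at h3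
        have h4 : (IsLocalRing.closedPoint S.R : Spec (CommRingCat.of S.R)) ∈
            (⊤ : (Spec (CommRingCat.of S.R)).Opens) ⊓ l ⁻¹ᵁ C.basicOpen y := by
          rw [← h3]; trivial
        exact hy h4.2
    exact IsLocalRing.closed_point_mem_iff.mp hz
  have hrange : Set.range l ⊆ Set.range U₀.ι := by
    rintro _ ⟨z, rfl⟩
    have hz : z ∈ l ⁻¹ᵁ U₀ := by rw [key]; trivial
    rw [Scheme.Opens.range_ι]
    exact hz
  have hl' : IsOpenImmersion.lift U₀.ι l hrange ≫ U₀.ι = l := IsOpenImmersion.lift_fac _ _ _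
  have hfac : Spec.map (CommRingCat.ofHom (algebraMap S.R S.K)) ≫
      IsOpenImmersion.lift U₀.ι l hrange = S.i₁ := by
    rw [← cancel_mono U₀.ι, Category.assoc, hl', hl₁]
  refine ⟨⟨IsOpenImmersion.lift U₀.ι l hrange, hfac, ?_⟩⟩
  obtain ⟨φ₁, hφ₁⟩ := Spec.map_surjective (IsOpenImmersion.lift U₀.ι l hrange ≫ chartMap c U₀ x)
  obtain ⟨φ₂, hφ₂⟩ := Spec.map_surjective S.i₂
  have h5 : Spec.map (φ₁ ≫ CommRingCat.ofHom (algebraMap S.R S.K)) =
      Spec.map (φ₂ ≫ CommRingCat.ofHom (algebraMap S.R S.K)) := by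
    rw [Spec.map_comp, Spec.map_comp, hφ₁, hφ₂, ← Category.assoc, hfac, S.commSq.w]
  have h6 := Spec.map_injective h5
  have h7 : φ₁ = φ₂ := by
    refine CommRingCat.hom_ext (RingHom.ext fun a => ?_)
    apply IsFractionRing.injective S.R S.K
    exact congrArg (fun φ => φ.hom a) h6
  exact hφ₁.symm.trans ((congrArg Spec.map h7).trans hφ₂)

/-- A `k`-scheme of finite type is a noetherian scheme. -/
lemma isNoetherian_of_proper [IsProper c] : IsNoetherian C := by
  have : IsLocallyNoetherian C := LocallyOfFiniteType.isLocallyNoetherian c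
  have : CompactSpace C := QuasiCompact.compactSpace_of_compactSpace c
  exact {}

lemma isNoetherian_opens [IsProper c] (U : C.Opens) : IsNoetherian U.toScheme := by
  have := isNoetherian_of_proper c
  have : CompactSpace U := isCompact_iff_compactSpace.mp
    (TopologicalSpace.NoetherianSpace.isCompact (U : Set C))
  exact {}

theorem isProper_chartMap [IsProper c] (U₀ U₁ : C.Opens) (x : Γ(C, U₀)) (y : Γ(C, U₁))
    (hcover : U₀ ⊔ U₁ = ⊤) (hy : C.basicOpen y ≤ U₀)
    (hxy : C.presheaf.map (homOfLE (inf_le_left : U₀ ⊓ U₁ ≤ U₀)).op x *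
      C.presheaf.map (homOfLE (inf_le_right : U₀ ⊓ U₁ ≤ U₁)).op y = 1) :
    IsProper (chartMap c U₀ x) := by
  have h1 : IsSeparated (chartMap c U₀ x ≫
      Spec.map (CommRingCat.ofHom (Polynomial.C : k →+* Polynomial k))) := by
    rw [chartMap_comp]; infer_instance
  have h2 : LocallyOfFiniteType (chartMap c U₀ x ≫
      Spec.map (CommRingCat.ofHom (Polynomial.C : k →+* Polynomial k))) := by
    rw [chartMap_comp]; infer_instance
  have : IsSeparated (chartMap c U₀ x) := IsSeparated.of_comp _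
    (Spec.map (CommRingCat.ofHom (Polynomial.C : k →+* Polynomial k)))
  have : LocallyOfFiniteType (chartMap c U₀ x) := locallyOfFiniteType_of_comp _
    (Spec.map (CommRingCat.ofHom (Polynomial.C : k →+* Polynomial k)))
  have := isNoetherian_opens c U₀
  have : UniversallyClosed (chartMap c U₀ x) :=
    UniversallyClosed.of_valuativeCriterion _ (chartMap_existence c U₀ U₁ x y hcover hy hxy)
  exact {}

/-! ## Finite fibres -/

/-- A closed point of `𝔸¹_k` (`k` algebraically closed) lies on `V(X - a)` for some `a`. -/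
lemma exists_sub_C_mem_of_isClosed [IsAlgClosed k] (t : Spec (CommRingCat.of (Polynomial k)))
    (ht : IsClosed ({t} : Set (Spec (CommRingCat.of (Polynomial k))))) :
    ∃ a : k, (Polynomial.X - Polynomial.C a : Polynomial k) ∈ t.asIdeal := by
  let π : Spec (CommRingCat.of (Polynomial k)) ⟶ Spec (CommRingCat.of k) :=
    Spec.map (CommRingCat.ofHom (Polynomial.C : k →+* Polynomial k))
  have hπ : LocallyOfFiniteType π := by
    rw [HasRingHomProperty.Spec_iff (P := @LocallyOfFiniteType)]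
    exact (RingHom.finiteType_algebraMap (A := k) (B := Polynomial k)).mpr inferInstance
  obtain ⟨ψ, hψ⟩ := Spec.map_surjective (pointOfClosedPoint π t ht)
  have h1 : CommRingCat.ofHom (Polynomial.C : k →+* Polynomial k) ≫ ψ = 𝟙 _ := by
    apply Spec.map_injective
    rw [Spec.map_comp, hψ, Spec.map_id]
    exact pointOfClosedPoint_comp π t ht
  refine ⟨ψ.hom Polynomial.X, ?_⟩
  have h2 : ψ.hom (Polynomial.X - Polynomial.C (ψ.hom Polynomial.X)) = 0 := by
    have h3 : ψ.hom (Polynomial.C (ψ.hom Polynomial.X)) = ψ.hom Polynomial.X :=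
      congrArg (fun φ => φ.hom (ψ.hom Polynomial.X)) h1
    rw [map_sub, h3, sub_self]
  have h4 := pointOfClosedPoint_apply π t ht (IsLocalRing.closedPoint k)
  rw [← hψ] at h4
  rw [← h4]
  change ψ.hom (Polynomial.X - Polynomial.C (ψ.hom Polynomial.X)) ∈
    (IsLocalRing.closedPoint k).asIdeal
  rw [h2]
  exact zero_mem _

lemma chartMap_preimage_basicOpen (U : C.Opens) (x : Γ(C, U)) (r : Polynomial k) :
    (chartMap c U x) ⁻¹ᵁ (PrimeSpectrum.basicOpen r) =
      U.ι ⁻¹ᵁ C.basicOpen (polyToΓ c U x r) := by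
  rw [chartMap, Scheme.Hom.comp_preimage, SpecMap_preimage_basicOpen,
    Scheme.Opens.toSpecΓ_preimage_basicOpen]
  rfl

/-- If the chart map sends the generic point to a closed point, the coordinate is constant. -/
lemma eq_toΓ_of_isClosed_chartMap_genericPoint [IsAlgClosed k] [IsIntegral C] (U : C.Opens)
    (x : Γ(C, U)) (q : U.toScheme) (hq : U.ι q = genericPoint C)
    (ht : IsClosed ({chartMap c U x q} : Set (Spec (CommRingCat.of (Polynomial k))))) :
    ∃ a : k, x = toΓ c U a := by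
  obtain ⟨a, ha⟩ := exists_sub_C_mem_of_isClosed _ ht
  refine ⟨a, ?_⟩
  have h1 : q ∉ (chartMap c U x) ⁻¹ᵁ
      (PrimeSpectrum.basicOpen (Polynomial.X - Polynomial.C a)) := fun h => h ha
  rw [chartMap_preimage_basicOpen] at h1
  have h2 : polyToΓ c U x (Polynomial.X - Polynomial.C a) = x - toΓ c U a := by
    simp [polyToΓ]
  rw [h2] at h1
  have hη : genericPoint C ∈ U := by rw [← hq]; exact q.2
  have h3 : genericPoint C ∉ C.basicOpen (x - toΓ c U a) := by rw [← hq]; exact h1
  rw [C.mem_basicOpen _ _ hη] at h3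
  have h4 : C.presheaf.germ U (genericPoint C) hη (x - toΓ c U a) = 0 := by
    by_contra h
    exact h3 (isUnit_iff_ne_zero.mpr h)
  have h5 := germ_injective_of_isIntegral C (genericPoint C) hη (h4.trans (map_zero _).symm)
  exact sub_eq_zero.mp h5

lemma locallyOfFiniteType_chartMap [LocallyOfFiniteType c] (U : C.Opens) (x : Γ(C, U)) :
    LocallyOfFiniteType (chartMap c U x) := by
  have h2 : LocallyOfFiniteType (chartMap c U x ≫
      Spec.map (CommRingCat.ofHom (Polynomial.C : k →+* Polynomial k))) := by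
    rw [chartMap_comp]; infer_instance
  exact locallyOfFiniteType_of_comp _
    (Spec.map (CommRingCat.ofHom (Polynomial.C : k →+* Polynomial k)))

/-- The fibres of the chart map are finite, on a curve. -/
theorem finite_preimage_chartMap [IsAlgClosed k] [IsIntegral C] [LocallyOfFiniteType c]
    (U : C.Opens) (x : Γ(C, U))
    (hA : ∀ p : C, p ≠ genericPoint C → IsClosed ({p} : Set C))
    (hC : ∀ Z : Set C, IsClosed Z → Z ≠ Set.univ → Z.Finite)
    (hT : ∀ a : k, x ≠ toΓ c U a)
    (t : Spec (CommRingCat.of (Polynomial k))) : ((chartMap c U x) ⁻¹' {t}).Finite := by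
  have hLFT := locallyOfFiniteType_chartMap c U x
  by_cases ht : IsClosed ({t} : Set (Spec (CommRingCat.of (Polynomial k))))
  · have hne : ∀ q ∈ (chartMap c U x) ⁻¹' {t}, U.ι q ≠ genericPoint C := by
      intro q hq hqη
      have hq' : chartMap c U x q = t := hq
      obtain ⟨a, ha⟩ := eq_toΓ_of_isClosed_chartMap_genericPoint c U x q hqη
        (by rw [hq']; exact ht)
      exact hT a ha
    have hF : IsClosed ((chartMap c U x) ⁻¹' {t}) := ht.preimage (chartMap c U x).continuous
    have hV : IsOpen (U.ι '' ((chartMap c U x) ⁻¹' {t})ᶜ) :=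
      U.ι.isOpenEmbedding.isOpenMap _ hF.isOpen_compl
    by_cases hU : (U : Set C).Nonempty
    · obtain ⟨p, hp⟩ := hU
      have hη : genericPoint C ∈ U := genericPoint_mem_of_mem hp
      have hZ : (U.ι '' ((chartMap c U x) ⁻¹' {t})ᶜ)ᶜ ≠ Set.univ := by
        intro h
        have h' : genericPoint C ∈ (U.ι '' ((chartMap c U x) ⁻¹' {t})ᶜ)ᶜ := by rw [h]; trivial
        apply h'
        refine ⟨⟨genericPoint C, hη⟩, ?_, rfl⟩
        intro hmem
        exact hne _ hmem rfl
      have hfin := hC _ hV.isClosed_compl hZ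
      refine Set.Finite.of_finite_image (hfin.subset ?_) (U.ι.isOpenEmbedding.injective.injOn)
      rintro _ ⟨q, hq, rfl⟩ ⟨q', hq', hqq'⟩
      exact hq' (U.ι.isOpenEmbedding.injective hqq' ▸ hq)
    · have : IsEmpty U.toScheme := ⟨fun q => hU ⟨q.1, q.2⟩⟩
      exact Set.toFinite _
  · have hsub : (chartMap c U x) ⁻¹' {t} ⊆ U.ι ⁻¹' {genericPoint C} := by
      intro q hq
      by_contra hne
      have hcl : IsClosed ({U.ι q} : Set C) := hA _ hne
      have hq_cl : IsClosed ({q} : Set U.toScheme) := by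
        have := hcl.preimage U.ι.continuous
        rwa [← Set.image_singleton, Set.preimage_image_eq _ U.ι.isOpenEmbedding.injective] at this
      have h6 := Scheme.Hom.closePoints_subset_preimage_closedPoints (chartMap c U x) hq_cl
      apply ht
      have hq' : chartMap c U x q = t := hq
      rw [← hq']; exact h6
    exact (Set.subsingleton_singleton.preimage U.ι.isOpenEmbedding.injective).finite.subset hsub

/-! ## Finiteness -/

theorem isFinite_chartMap [IsAlgClosed k] [IsIntegral C] [IsProper c] (U₀ U₁ : C.Opens)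
    (x : Γ(C, U₀)) (y : Γ(C, U₁)) (hcover : U₀ ⊔ U₁ = ⊤) (hy : C.basicOpen y ≤ U₀)
    (hxy : C.presheaf.map (homOfLE (inf_le_left : U₀ ⊓ U₁ ≤ U₀)).op x *
      C.presheaf.map (homOfLE (inf_le_right : U₀ ⊓ U₁ ≤ U₁)).op y = 1)
    (hA : ∀ p : C, p ≠ genericPoint C → IsClosed ({p} : Set C))
    (hC : ∀ Z : Set C, IsClosed Z → Z ≠ Set.univ → Z.Finite)
    (hT : ∀ a : k, x ≠ toΓ c U₀ a) : IsFinite (chartMap c U₀ x) := by
  have := isProper_chartMap c U₀ U₁ x y hcover hy hxy
  have := locallyOfFiniteType_chartMap c U₀ x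
  have : LocallyQuasiFinite (chartMap c U₀ x) :=
    LocallyQuasiFinite.of_finite_preimage_singleton _ (finite_preimage_chartMap c U₀ x hA hC hT)
  exact IsFinite.of_isProper_of_locallyQuasiFinite _

theorem isAffineOpen_of_isFinite_chartMap (U : C.Opens) (x : Γ(C, U))
    [IsFinite (chartMap c U x)] : IsAffineOpen U :=
  isAffine_of_isAffineHom (chartMap c U x)

theorem finite_polyToΓ_of_isFinite_chartMap (U : C.Opens) (x : Γ(C, U))
    [h : IsFinite (chartMap c U x)] : (polyToΓ c U x).Finite := by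
  have hU : IsAffineOpen U := isAffineOpen_of_isFinite_chartMap c U x
  have h0 : chartMap c U x = hU.isoSpec.hom ≫ Spec.map (CommRingCat.ofHom (polyToΓ c U x)) :=
    rfl
  rw [h0] at h
  have h1 : IsFinite (Spec.map (CommRingCat.ofHom (polyToΓ c U x))) :=
    (MorphismProperty.cancel_left_of_respectsIso @IsFinite hU.isoSpec.hom _).mp h
  exact (IsFinite.SpecMap_iff _).mp h1

end Chart

/-! ## The two-chart atlas -/

section Main

variable (c : C ⟶ Spec (CommRingCat.of k))

lemma toΓ_res (U V : C.Opens) (h : U ≤ V) (a : k) :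
    C.presheaf.map (homOfLE h).op (toΓ c V a) = toΓ c U a := by
  simp only [toΓ, CommRingCat.hom_comp, RingHom.coe_comp, Function.comp_apply]
  rw [← CommRingCat.comp_apply, ← Functor.map_comp]
  rfl

lemma germ_toΓ (U : C.Opens) (p : C) (hp : p ∈ U) (a : k) :
    C.presheaf.germ U p hp (toΓ c U a) = C.presheaf.germ ⊤ p trivial (toΓ c ⊤ a) := by
  rw [← toΓ_res c U ⊤ le_top a, TopCat.Presheaf.germ_res_apply]

/-- The constant rational functions. -/
noncomputable def constFF [IsIntegral C] : k →+* C.functionField :=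
  (C.presheaf.germ ⊤ (genericPoint C) trivial).hom.comp (toΓ c ⊤)

lemma germ_genericPoint_toΓ [IsIntegral C] (U : C.Opens) (hη : genericPoint C ∈ U) (a : k) :
    C.presheaf.germ U (genericPoint C) hη (toΓ c U a) = constFF c a :=
  germ_toΓ c U _ hη a

/-- **LA-CHARTS**, with the local structure of the curve (LA-LOCAL) as hypotheses. -/
theorem nonempty_twoChart_of_local [IsAlgClosed k] [IsProper c] [IsIntegral C]
    (hA : ∀ p : C, p ≠ genericPoint C → IsClosed ({p} : Set C))
    (hB : ∀ p : C, IsClosed ({p} : Set C) → IsDiscreteValuationRing (C.presheaf.stalk p))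
    (hC : ∀ Z : Set C, IsClosed Z → Z ≠ Set.univ → Z.Finite)
    (e : Spec (CommRingCat.of k) ⟶ C) (he : e ≫ c = 𝟙 _) : Nonempty (TwoChart c e) := by
  classical
  -- the marked point
  have hp : IsClosed ({e (IsLocalRing.closedPoint k)} : Set C) :=
    (pointEquivClosedPoint c ⟨e, he⟩).2
  generalize hp_def : e (IsLocalRing.closedPoint k) = p at hp
  have hdvr := hB p hp
  obtain ⟨t, ht0, htm⟩ := exists_ne_zero_mem_maximalIdeal p
    (IsDiscreteValuationRing.not_isField _)
  have hinj := IsFractionRing.injective (C.presheaf.stalk p) C.functionField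
  obtain ⟨g, hg⟩ : ∃ g : C.functionField,
      algebraMap (C.presheaf.stalk p) C.functionField t = g := ⟨_, rfl⟩
  have hg0 : g ≠ 0 := by
    intro h
    exact ht0 (hinj ((hg.trans h).trans (map_zero _).symm))
  have hfg : g⁻¹ * g = 1 := inv_mul_cancel₀ hg0
  have hgf : g * g⁻¹ = 1 := mul_inv_cancel₀ hg0
  have hpU₁ : p ∈ regOpen g := ⟨t, hg⟩
  have hgerm : C.presheaf.germ (regOpen g) p hpU₁ (regSection g) = t :=
    germ_regSection_eq g p t hg
  have hcover : regOpen g⁻¹ ⊔ regOpen g = ⊤ := by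
    rw [eq_top_iff]
    intro q _
    by_cases hq : q = genericPoint C
    · rw [hq]
      exact Or.inl (genericPoint_mem_regOpen _)
    · have := hB q (hA q hq)
      rcases isRegAt_or_isRegAt_inv g q with h | h
      · exact Or.inr h
      · exact Or.inl h
  have hcover' : regOpen g ⊔ regOpen g⁻¹ = ⊤ := by rw [sup_comm]; exact hcover
  have hbx := basicOpen_regSection hfg
  have hby := basicOpen_regSection hgf
  have hxy := regSection_mul_regSection hfg
  have hyx := regSection_mul_regSection hgf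
  -- `g` is not constant
  have hconst : ∀ b : k, g ≠ constFF c b := by
    intro b hb
    have h1 : t = C.presheaf.germ ⊤ p trivial (toΓ c ⊤ b) := by
      apply hinj
      rw [algebraMap_germ_eq, hg]
      exact hb
    have hb0 : b ≠ 0 := by
      rintro rfl
      apply ht0
      rw [h1, map_zero, map_zero]
    have hu : IsUnit t := by
      rw [h1]
      exact ((isUnit_iff_ne_zero.mpr hb0).map (toΓ c ⊤)).map _
    exact (IsLocalRing.mem_maximalIdeal _).mp htm hu
  have hTx : ∀ a : k, regSection g⁻¹ ≠ toΓ c (regOpen g⁻¹) a := by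
    intro a ha
    have h1 : g⁻¹ = constFF c a := by
      rw [← germ_regSection g⁻¹, ha, germ_genericPoint_toΓ]
    apply hconst a⁻¹
    rw [map_inv₀, ← h1, inv_inv]
  have hTy : ∀ a : k, regSection g ≠ toΓ c (regOpen g) a := by
    intro a ha
    apply hconst a
    rw [← germ_regSection g, ha, germ_genericPoint_toΓ]
  -- finiteness of the two charts
  have hfin₀ := isFinite_chartMap c (regOpen g⁻¹) (regOpen g) (regSection g⁻¹) (regSection g)
    hcover (hby.le.trans inf_le_right) hxy hA hC hTx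
  have hfin₁ := isFinite_chartMap c (regOpen g) (regOpen g⁻¹) (regSection g) (regSection g⁻¹)
    hcover' (hbx.le.trans inf_le_right) hyx hA hC hTy
  have haff₀ := isAffineOpen_of_isFinite_chartMap c (regOpen g⁻¹) (regSection g⁻¹)
  have haff₁ := isAffineOpen_of_isFinite_chartMap c (regOpen g) (regSection g)
  -- evaluation at the marked point
  have hle : (⊤ : (Spec (CommRingCat.of k)).Opens) ≤ e ⁻¹ᵁ regOpen g := by
    intro z _
    have hz : z = IsLocalRing.closedPoint k := Subsingleton.elim _ _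
    rw [hz]
    change e (IsLocalRing.closedPoint k) ∈ regOpen g
    rw [hp_def]
    exact hpU₁
  refine ⟨{ U₀ := regOpen g⁻¹, U₁ := regOpen g, x := regSection g⁻¹, y := regSection g,
            affine₀ := haff₀, affine₁ := haff₁,
            nonempty₀ := ⟨⟨_, genericPoint_mem_regOpen _⟩⟩, nonempty₁ := ⟨⟨_, hpU₁⟩⟩,
            cover := hcover, basicOpen_x := hbx, basicOpen_y := hby.trans (inf_comm _ _),
            xy := hxy,
            finite₀ := finite_polyToΓ_of_isFinite_chartMap c _ _,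
            finite₁ := finite_polyToΓ_of_isFinite_chartMap c _ _,
            ev := (e.appLE (regOpen g) ⊤ hle ≫ (Scheme.ΓSpecIso (CommRingCat.of k)).hom).hom,
            ev_toΓ := ?_, ev_y := ?_, eps := ?_ }⟩
  · have h2 : c.appTop ≫ e.appLE ⊤ ⊤ le_top = (e ≫ c).appTop := by
      rw [Scheme.Hom.comp_appTop]
      rfl
    have h1 : CommRingCat.ofHom (toΓ c (regOpen g)) ≫ e.appLE (regOpen g) ⊤ hle ≫
        (Scheme.ΓSpecIso (CommRingCat.of k)).hom = 𝟙 _ := by
      rw [toΓ_eq, Category.assoc, Category.assoc, Scheme.Hom.map_appLE_assoc, reassoc_of% h2, he,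
        Scheme.Hom.id_appTop, Category.id_comp, Iso.inv_hom_id]
    exact congrArg CommRingCat.Hom.hom h1
  · by_contra hne
    have hu : IsUnit (e.appLE (regOpen g) ⊤ hle (regSection g)) := by
      have h1 : IsUnit ((Scheme.ΓSpecIso (CommRingCat.of k)).hom
          (e.appLE (regOpen g) ⊤ hle (regSection g))) := isUnit_iff_ne_zero.mpr hne
      have h2 := h1.map (Scheme.ΓSpecIso (CommRingCat.of k)).inv.hom
      simpa using h2
    have h3 := Scheme.basicOpen_appLE e ⊤ (regOpen g) hle (regSection g)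
    rw [Scheme.basicOpen_of_isUnit _ hu] at h3
    have h4 : (IsLocalRing.closedPoint k : Spec (CommRingCat.of k)) ∈
        (⊤ : (Spec (CommRingCat.of k)).Opens) ⊓ e ⁻¹ᵁ C.basicOpen (regSection g) := by
      rw [← h3]; trivial
    have h5 : p ∈ C.basicOpen (regSection g) := by rw [← hp_def]; exact h4.2
    rw [C.mem_basicOpen _ _ hpU₁, hgerm] at h5
    exact (IsLocalRing.mem_maximalIdeal _).mp htm h5
  · have h1 := IsAffineOpen.SpecMap_appLE_fromSpec e haff₁ (isAffineOpen_top _) hle
    rw [IsAffineOpen.fromSpec_top, Scheme.isoSpec_Spec_inv] at h1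
    change e = Spec.map (e.appLE (regOpen g) ⊤ hle ≫ (Scheme.ΓSpecIso (CommRingCat.of k)).hom) ≫
      haff₁.fromSpec
    rw [Spec.map_comp, Category.assoc, h1, ← Spec.map_comp_assoc, Iso.inv_hom_id, Spec.map_id,
      Category.id_comp]

end Main

end Fermat.Agent.S25.helper7755
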