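import Fermat.Agent.S25.helper1705_Spec2
import Fermat.Agent.S25.helper7755_TwoChart
import Fermat.Agent.S25.helper1800_OmegaSpec

/-!
# S25, layer A, leaf LA-REAL: packaging a two-chart atlas into a `CurveDatum` + `Realization`

Owner: helper9007.

Input: a `helper7755.TwoChart c e` (two affine opens `U₀`, `U₁` of the curve covering it,
functions `x` on `U₀`, `y` on `U₁` with `U₀ ⊓ U₁ = D(x) = D(y)`, `x * y = 1` on the overlap, the
point `e` in `U₁` with `y(e) = 0`, finiteness over `k[x]`, `k[y]`).

Output: a `helper1705.CurveDatum k` together with a `helper1705.Realization c ε D`, i.e.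
`helper1705.Stmt_Chart` (theorem `stmt_Chart_of`), in hypothesis-passing style: the only hypothesis
is the existence of a `helper7755.TwoChart` for every curve (the target `nonempty_twoChart` of leaf
LA-CHARTS, verbatim).  Invertibility of the Kähler differentials is discharged here from
`helper1800.invertible_kaehlerDifferential_of_isOpenImmersion` (leaf LA-OMEGA).
-/

set_option autoImplicit false

universe u

open CategoryTheory CategoryTheory.Limits AlgebraicGeometry AlgebraicGeometry.RelPicard
  NeronModelInfra GoodReductionJacobian Opposite TopologicalSpace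

namespace Fermat.Agent.S25.helper9007

open Fermat.Agent.S25.helper1705 Fermat.Agent.S25.helper7755

section General

variable {k : Type u} [Field k] {C : Scheme.{u}} (c : C ⟶ Spec (CommRingCat.of k))

theorem le_preimage_top {X Y : Scheme.{u}} (f : X ⟶ Y) (U : X.Opens) : U ≤ f ⁻¹ᵁ ⊤ := by
  simp

/-- `helper7755.toΓ` in terms of `Scheme.Hom.appLE`. -/
theorem toΓ_eq_appLE (U : C.Opens) :
    toΓ c U = (c.appLE ⊤ U (le_preimage_top c U)).hom.comp
      (Scheme.ΓSpecIso (CommRingCat.of k)).inv.hom :=
  rfl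

/-- The structure maps are compatible with restriction. -/
theorem restrict_comp_toΓ {U V : C.Opens} (h : V ≤ U) :
    (C.presheaf.map (homOfLE h).op).hom.comp (toΓ c U) = toΓ c V := by
  rw [toΓ_eq_appLE, toΓ_eq_appLE, ← RingHom.comp_assoc, ← CommRingCat.hom_comp,
    Scheme.Hom.appLE_map]

/-- The `k`-algebra structure on sections of the `k`-scheme `C`. -/
noncomputable abbrev sectionsAlgebra (U : C.Opens) : Algebra k Γ(C, U) :=
  (toΓ c U).toAlgebra

/-- Restriction of sections as an algebra structure. -/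
noncomputable abbrev restrictAlgebra {U V : C.Opens} (h : V ≤ U) : Algebra Γ(C, U) Γ(C, V) :=
  (C.presheaf.map (homOfLE h).op).hom.toAlgebra

/-- An affine open chart of a `k`-scheme is a `k`-morphism for the structure map `toΓ`. -/
theorem fromSpec_comp_toΓ {U : C.Opens} (hU : IsAffineOpen U) :
    hU.fromSpec ≫ c = Spec.map (CommRingCat.ofHom (toΓ c U)) := by
  have h := IsAffineOpen.SpecMap_appLE_fromSpec c
    (isAffineOpen_top (Spec (CommRingCat.of k))) hU (le_preimage_top c U)
  rw [← h, IsAffineOpen.fromSpec_top, Scheme.isoSpec_Spec_inv, ← Spec.map_comp]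
  rfl

/-- Invertibility of the Kähler differentials of the coordinate ring of an affine open of a
scheme smooth of relative dimension one over `k` (from leaf LA-OMEGA). -/
theorem invertible_omega_sections [SmoothOfRelativeDimension 1 c] {U : C.Opens}
    (hU : IsAffineOpen U) :
    letI := sectionsAlgebra c U
    Module.Invertible Γ(C, U) (Ω[Γ(C, U)⁄k]) := by
  let _ := sectionsAlgebra c U
  have := hU.isOpenImmersion_fromSpec
  exact helper1800.invertible_kaehlerDifferential_of_isOpenImmersion c (R := Γ(C, U))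
    hU.fromSpec (fromSpec_comp_toΓ c hU)

end General

section Datum

variable {k : Type u} [Field k] {C : Scheme.{u}} {c : C ⟶ Spec (CommRingCat.of k)}
  {e : Spec (CommRingCat.of k) ⟶ C} (T : TwoChart c e)

/-- The `CurveDatum` of a two-chart atlas of a smooth integral curve. -/
noncomputable def curveDatum [SmoothOfRelativeDimension 1 c] [IsIntegral C] : CurveDatum k :=
  letI a₀ : Algebra k Γ(C, T.U₀) := sectionsAlgebra c T.U₀
  letI a₁ : Algebra k Γ(C, T.U₁) := sectionsAlgebra c T.U₁
  letI a₀₁ : Algebra k Γ(C, T.U₀ ⊓ T.U₁) := sectionsAlgebra c (T.U₀ ⊓ T.U₁)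
  letI b₀ : Algebra Γ(C, T.U₀) Γ(C, T.U₀ ⊓ T.U₁) := restrictAlgebra inf_le_left
  letI b₁ : Algebra Γ(C, T.U₁) Γ(C, T.U₀ ⊓ T.U₁) := restrictAlgebra inf_le_right
  haveI : Nonempty T.U₀ := T.nonempty₀
  haveI : Nonempty T.U₁ := T.nonempty₁
  { R₀ := Γ(C, T.U₀)
    R₁ := Γ(C, T.U₁)
    R₀₁ := Γ(C, T.U₀ ⊓ T.U₁)
    commRing₀ := inferInstance
    commRing₁ := inferInstance
    commRing₀₁ := inferInstance
    algebra₀ := a₀
    algebra₁ := a₁
    algebra₀₁ := a₀₁
    algebra₀₀₁ := b₀
    algebra₁₀₁ := b₁
    tower₀ := IsScalarTower.of_algebraMap_eq' (restrict_comp_toΓ c inf_le_left).symm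
    tower₁ := IsScalarTower.of_algebraMap_eq' (restrict_comp_toΓ c inf_le_right).symm
    x := T.x
    y := T.y
    away₀ := T.affine₀.isLocalization_of_eq_basicOpen T.x (homOfLE inf_le_left) T.basicOpen_x.symm
    away₁ := T.affine₁.isLocalization_of_eq_basicOpen T.y (homOfLE inf_le_right) T.basicOpen_y.symm
    xy := T.xy
    e := { T.ev with
      commutes' := fun r => RingHom.congr_fun T.ev_toΓ r }
    ey := T.ev_y
    isDomain₀ := inferInstance
    isDomain₁ := inferInstance
    finite₀ := T.finite₀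
    finite₁ := T.finite₁
    omega₀ := invertible_omega_sections c T.affine₀
    omega₁ := invertible_omega_sections c T.affine₁ }

theorem affine₀₁ : IsAffineOpen (T.U₀ ⊓ T.U₁) := by
  rw [← T.basicOpen_x]; exact T.affine₀.basicOpen T.x

/-- The overlap square of a two-chart atlas is a pullback square. -/
theorem isPullback_twoChart :
    IsPullback (Spec.map (C.presheaf.map (homOfLE (inf_le_left : T.U₀ ⊓ T.U₁ ≤ T.U₀)).op))
      (Spec.map (C.presheaf.map (homOfLE (inf_le_right : T.U₀ ⊓ T.U₁ ≤ T.U₁)).op))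
      T.affine₀.fromSpec T.affine₁.fromSpec := by
  have hloc := T.affine₁.isLocalization_of_eq_basicOpen T.y (homOfLE inf_le_right)
    T.basicOpen_y.symm
  let _ : Algebra Γ(C, T.U₁) Γ(C, T.U₀ ⊓ T.U₁) := restrictAlgebra inf_le_right
  have : IsOpenImmersion
      (Spec.map (C.presheaf.map (homOfLE (inf_le_right : T.U₀ ⊓ T.U₁ ≤ T.U₁)).op)) :=
    IsOpenImmersion.of_isLocalization (R := Γ(C, T.U₁)) (S := Γ(C, T.U₀ ⊓ T.U₁)) T.y
  have := T.affine₀.isOpenImmersion_fromSpec
  have := T.affine₁.isOpenImmersion_fromSpec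
  refine IsOpenImmersion.isPullback _ _ _ _ ?_ ?_
  · rw [IsAffineOpen.map_fromSpec _ (affine₀₁ T), IsAffineOpen.map_fromSpec _ (affine₀₁ T)]
  · rw [IsAffineOpen.opensRange_fromSpec]
    ext q
    have hr := PrimeSpectrum.localization_away_comap_range Γ(C, T.U₀ ⊓ T.U₁) T.y
    have hq : q ∈ T.affine₁.fromSpec ⁻¹ᵁ T.U₁ := by
      rw [T.affine₁.fromSpec_preimage_self]; trivial
    have h2 : q ∈ T.affine₁.fromSpec ⁻¹ᵁ T.U₀ ↔
        q ∈ T.affine₁.fromSpec ⁻¹ᵁ (C.basicOpen T.y) := by
      rw [T.basicOpen_y]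
      exact ⟨fun h => ⟨h, hq⟩, fun h => h.1⟩
    rw [SetLike.mem_coe, h2, T.affine₁.fromSpec_preimage_basicOpen]
    exact (Set.ext_iff.mp hr q).symm

/-- The `Realization` of the curve by the `CurveDatum` of a two-chart atlas. -/
noncomputable def realization [SmoothOfRelativeDimension 1 c] [IsIntegral C]
    (ε : SchemeHomOver (𝟙 (Spec (CommRingCat.of k))) c) (T : TwoChart c ε.1) :
    Realization c ε (curveDatum T) where
  j₀ := T.affine₀.fromSpec
  j₁ := T.affine₁.fromSpec
  isOpenImmersion₀ := T.affine₀.isOpenImmersion_fromSpec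
  isOpenImmersion₁ := T.affine₁.isOpenImmersion_fromSpec
  fac₀ := fromSpec_comp_toΓ c T.affine₀
  fac₁ := fromSpec_comp_toΓ c T.affine₁
  cover := fun p => by
    have hp : p ∈ T.U₀ ⊔ T.U₁ := by rw [T.cover]; trivial
    rcases hp with hp | hp
    · left
      have : p ∈ Set.range T.affine₀.fromSpec := by rw [T.affine₀.range_fromSpec]; exact hp
      exact this
    · right
      have : p ∈ Set.range T.affine₁.fromSpec := by rw [T.affine₁.range_fromSpec]; exact hp
      exact this
  isPullback := isPullback_twoChart T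
  eps := T.eps

end Datum

/-- **Leaf LA-REAL.** `Stmt_Chart` of the Spec from the existence of a two-chart atlas of every
curve (the target statement `nonempty_twoChart` of leaf LA-CHARTS, verbatim). -/
theorem stmt_Chart_of
    (hTwo : ∀ (k : Type u) [Field k] [IsAlgClosed k] {C : Scheme.{u}}
      (c : C ⟶ Spec (CommRingCat.of k)) [IsProper c] [SmoothOfRelativeDimension 1 c]
      [IsIntegral C] (e : Spec (CommRingCat.of k) ⟶ C), e ≫ c = 𝟙 _ →
      Nonempty (TwoChart c e)) :
    Stmt_Chart.{u} := by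
  intro k _ C c hc ε
  have := hc.algClosed
  have := hc.proper
  have := hc.smooth
  have := hc.integral
  obtain ⟨T⟩ := hTwo k c ε.1 ε.2
  exact ⟨curveDatum T, ⟨realization ε T⟩⟩

end Fermat.Agent.S25.helper9007
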