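/-
S25 (existence of the Jacobian), layer A (curve datum from the abstract scheme), brick A1.

Local structure of a smooth integral curve `c : C ⟶ Spec k` over an algebraically closed
field: the local ring at every non-generic point is a discrete valuation ring, non-generic
points are closed, closed subsets not containing the generic point are finite, sections over
affine opens are Dedekind domains.

Mathlib only.  Author: helper9237.
-/
import Mathlib

set_option autoImplicit false

namespace Fermat.Agent.S25.helper9237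

open AlgebraicGeometry CategoryTheory KaehlerDifferential TensorProduct

universe u

section Algebra

variable (k : Type*) [Field k] (A : Type*) [CommRing A] [Algebra k A]

/-- If `k → A/m` is bijective then `m/m² → A/m ⊗ Ω[A/k]` is injective. -/
theorem kerCotangentToTensor_injective_of_bijective (m : Ideal A)
    (h : Function.Bijective (algebraMap k (A ⧸ m))) :
    Function.Injective (kerCotangentToTensor k A (A ⧸ m)) := by
  have hf : Function.Surjective (algebraMap A (A ⧸ m)) := Ideal.Quotient.mk_surjective
  let e : k ≃ₐ[k] (A ⧸ m) := AlgEquiv.ofBijective (Algebra.ofId k (A ⧸ m)) h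
  let g : (A ⧸ m) →ₐ[k] A ⧸ (RingHom.ker (algebraMap A (A ⧸ m)) ^ 2) :=
    (Algebra.ofId k _).comp e.symm.toAlgHom
  have hg : (IsScalarTower.toAlgHom k A (A ⧸ m)).kerSquareLift.comp g = AlgHom.id k (A ⧸ m) := by
    ext x
    obtain ⟨c, rfl⟩ := h.2 x
    rw [AlgHom.commutes, AlgHom.commutes]
  obtain ⟨l, hl⟩ := (retractionKerCotangentToTensorEquivSection (R := k) hf).symm ⟨g, hg⟩
  exact Function.LeftInverse.injective (g := l) (fun x => LinearMap.congr_fun hl x)

theorem kerCotangentToTensor_surjective_of_bijective (m : Ideal A)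
    (h : Function.Bijective (algebraMap k (A ⧸ m))) :
    Function.Surjective (kerCotangentToTensor k A (A ⧸ m)) := by
  have hf : Function.Surjective (algebraMap A (A ⧸ m)) := Ideal.Quotient.mk_surjective
  have : Subsingleton (Ω[(A ⧸ m)⁄k]) := KaehlerDifferential.subsingleton_of_surjective k (A ⧸ m) h.2
  intro x
  exact (KaehlerDifferential.exact_kerCotangentToTensor_mapBaseChange k A (A ⧸ m) hf x).mp
    (Subsingleton.elim _ _)

/-- If `Ω[A/k]` is generated by one element and `k → A/m` is bijective, then `m = (t) + m²`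
for some `t ∈ m`. -/
theorem exists_le_span_singleton_sup_sq (ω : Ω[A⁄k]) (hω : Submodule.span A {ω} = ⊤)
    (m : Ideal A) (h : Function.Bijective (algebraMap k (A ⧸ m))) :
    ∃ t ∈ m, m ≤ Ideal.span {t} ⊔ m ^ 2 := by
  have hker : RingHom.ker (algebraMap A (A ⧸ m)) = m := Ideal.mk_ker
  obtain ⟨c, hc⟩ := kerCotangentToTensor_surjective_of_bijective k A m h ((1 : A ⧸ m) ⊗ₜ[A] ω)
  obtain ⟨t, rfl⟩ := Ideal.toCotangent_surjective _ c
  have htm : t.1 ∈ m := hker.le t.2
  refine ⟨t.1, htm, fun s hs => ?_⟩
  let s' : RingHom.ker (algebraMap A (A ⧸ m)) := ⟨s, hker.ge hs⟩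
  obtain ⟨a, ha⟩ : ∃ a : A, a • ω = D k A s := by
    have : D k A s ∈ Submodule.span A {ω} := hω ▸ Submodule.mem_top
    exact Submodule.mem_span_singleton.mp this
  have key : kerCotangentToTensor k A (A ⧸ m) (Ideal.toCotangent _ s') =
      kerCotangentToTensor k A (A ⧸ m) (Ideal.toCotangent _ (a • t)) := by
    rw [map_smul, map_smul, hc, kerCotangentToTensor_toCotangent, ← ha, TensorProduct.tmul_smul]
  have := kerCotangentToTensor_injective_of_bijective k A m h key
  rw [Ideal.toCotangent_eq] at this
  have this' : s - a * t.1 ∈ m ^ 2 := by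
    have h3 : RingHom.ker (algebraMap A (A ⧸ m)) ^ 2 = m ^ 2 := by rw [hker]
    rw [← h3]; exact this
  have h2 : s = a * t.1 + (s - a * t.1) := by ring
  rw [h2]
  refine Ideal.add_mem _ (Ideal.mem_sup_left ?_) (Ideal.mem_sup_right ?_)
  · exact Ideal.mul_mem_left _ _ (Ideal.subset_span rfl)
  · exact this'

/-- A noetherian `k`-domain with `Ω[A/k]` free of rank one is a discrete valuation ring
at every maximal ideal with residue field `k`. -/
theorem isDiscreteValuationRing_of_rank_kaehler_eq_one [IsDomain A] [IsNoetherianRing A]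
    [Module.Free A Ω[A⁄k]] (hr : Module.rank A Ω[A⁄k] = 1)
    (m : Ideal A) [m.IsMaximal] (h : Function.Bijective (algebraMap k (A ⧸ m)))
    (R : Type*) [CommRing R] [IsDomain R] [Algebra A R] [IsLocalization.AtPrime R m] :
    IsDiscreteValuationRing R := by
  have : IsLocalRing R := IsLocalization.AtPrime.isLocalRing R m
  have : IsNoetherianRing R := IsLocalization.isNoetherianRing m.primeCompl R inferInstance
  -- a generator of `Ω`
  obtain ⟨ω, hω⟩ : ∃ ω : Ω[A⁄k], Submodule.span A {ω} = ⊤ := by
    have hfin : Module.finrank A Ω[A⁄k] = 1 := by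
      simp [Module.finrank, hr]
    have : Module.Finite A Ω[A⁄k] := Module.finite_of_finrank_pos (by omega)
    let b := Module.finBasisOfFinrankEq A Ω[A⁄k] hfin
    refine ⟨b 0, ?_⟩
    have := b.span_eq
    rwa [show Set.range b = {b 0} from by
      ext x; constructor
      · rintro ⟨i, rfl⟩; fin_cases i; rfl
      · rintro rfl; exact ⟨0, rfl⟩] at this
  -- `m ≠ ⊥`
  have hm : m ≠ ⊥ := by
    rintro rfl
    have hsurj : Function.Surjective (algebraMap k A) := by
      intro a
      obtain ⟨c, hc⟩ := h.2 (Ideal.Quotient.mk ⊥ a)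
      refine ⟨c, ?_⟩
      have : Ideal.Quotient.mk (⊥ : Ideal A) (algebraMap k A c) = Ideal.Quotient.mk ⊥ a := hc
      rw [Ideal.Quotient.eq, Ideal.mem_bot, sub_eq_zero] at this
      exact this
    have : Subsingleton (Ω[A⁄k]) := KaehlerDifferential.subsingleton_of_surjective k A hsurj
    have : Module.rank A Ω[A⁄k] = 0 := rank_subsingleton' A _
    rw [hr] at this
    exact one_ne_zero this
  obtain ⟨t, htm, hle⟩ := exists_le_span_singleton_sup_sq k A ω hω m h
  have hmax : m.map (algebraMap A R) = IsLocalRing.maximalIdeal R :=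
    IsLocalization.AtPrime.map_eq_maximalIdeal m R
  have hprin : IsLocalRing.maximalIdeal R = Ideal.span {algebraMap A R t} := by
    apply le_antisymm
    · apply Submodule.le_of_le_smul_of_le_jacobson_bot (I := IsLocalRing.maximalIdeal R)
        (IsNoetherian.noetherian _) (IsLocalRing.maximalIdeal_le_jacobson _)
      rw [← hmax]
      refine (Ideal.map_mono hle).trans ?_
      rw [Ideal.map_sup, Ideal.map_span, Set.image_singleton, Ideal.map_pow, pow_two]
      exact le_rfl
    · rw [Ideal.span_le, Set.singleton_subset_iff, ← hmax]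
      exact Ideal.mem_map_of_mem _ htm
  have hnf : ¬ IsField R := IsLocalization.AtPrime.not_isField A hm R
  exact ((IsDiscreteValuationRing.TFAE R hnf).out 4 0).mp
    (⟨⟨algebraMap A R t, hprin⟩⟩ : (IsLocalRing.maximalIdeal R).IsPrincipal)

end Algebra

/-- A prime contained in a prime `m` at which the localization is a DVR is `⊥` or `m`. -/
theorem eq_bot_or_eq_of_le_of_isDiscreteValuationRing {A : Type*} [CommRing A] [IsDomain A]
    (m : Ideal A) [m.IsPrime] (R : Type*) [CommRing R] [IsDomain R] [Algebra A R]
    [IsLocalization.AtPrime R m] [IsDiscreteValuationRing R] (p : Ideal A) [hp : p.IsPrime]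
    (hpm : p ≤ m) : p = ⊥ ∨ p = m := by
  have hd : Disjoint (m.primeCompl : Set A) p :=
    Set.disjoint_left.mpr (fun a ha hap => ha (hpm hap))
  have hq : (p.map (algebraMap A R)).IsPrime :=
    IsLocalization.isPrime_of_isPrime_disjoint m.primeCompl R p hp hd
  have hqu : (p.map (algebraMap A R)).under A = p :=
    IsLocalization.under_map_of_isPrime_disjoint m.primeCompl R hp hd
  have hinj : Function.Injective (algebraMap A R) :=
    IsLocalization.injective R (M := m.primeCompl) m.primeCompl_le_nonZeroDivisors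
  by_cases hq0 : p.map (algebraMap A R) = ⊥
  · left
    rw [← hqu, hq0]
    exact Ideal.comap_bot_of_injective _ hinj
  · right
    have h1 : (p.map (algebraMap A R)).IsMaximal := hq.isMaximal hq0
    have h2 := IsLocalRing.eq_maximalIdeal h1
    rw [← hqu, h2]
    exact IsLocalization.AtPrime.under_maximalIdeal R m

section Scheme

variable (k : Type u) [Field k] {C : Scheme.{u}} (c : C ⟶ Spec (CommRingCat.of k))

/-- The structure ring homomorphism `k → Γ(C, V)` of a `k`-scheme. -/
noncomputable def sectionsRingHom (V : C.Opens) : k →+* Γ(C, V) :=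
  (c.appLE ⊤ V le_top).hom.comp (Scheme.ΓSpecIso (CommRingCat.of k)).inv.hom

theorem exists_isStandardSmooth_chart [SmoothOfRelativeDimension 1 c] (x : C) :
    ∃ V : C.Opens, IsAffineOpen V ∧ x ∈ V ∧
      (sectionsRingHom k c V).IsStandardSmoothOfRelativeDimension 1 := by
  obtain ⟨U, hU, V, hV, hxV, e, h⟩ :=
    SmoothOfRelativeDimension.exists_isStandardSmoothOfRelativeDimension (n := 1) (f := c) x
  have hU' : U = ⊤ := by
    refine top_le_iff.mp fun y _ => ?_
    have : Subsingleton (PrimeSpectrum k) := inferInstance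
    have hy : y = c x := Subsingleton.elim (α := PrimeSpectrum k) _ _
    rw [hy]
    exact e hxV
  subst hU'
  refine ⟨V, hV, hxV, ?_⟩
  have h0 : (Scheme.ΓSpecIso (CommRingCat.of k)).inv.hom.IsStandardSmoothOfRelativeDimension 0 :=
    RingHom.IsStandardSmoothOfRelativeDimension.equiv
      (Scheme.ΓSpecIso (CommRingCat.of k)).symm.commRingCatIsoToRingEquiv
  exact h.comp h0

variable [IsAlgClosed k] [IsIntegral C]

theorem primeIdealOf_asIdeal_ne_bot {V : C.Opens} (hV : IsAffineOpen V) (x : C) (hxV : x ∈ V)
    (hx : x ≠ genericPoint C) : (hV.primeIdealOf ⟨x, hxV⟩).asIdeal ≠ ⊥ := by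
  intro h0
  have : Nonempty V := ⟨⟨x, hxV⟩⟩
  apply hx
  have h1 : hV.primeIdealOf ⟨x, hxV⟩ = genericPoint (Spec Γ(C, V)) := by
    rw [genericPoint_eq_bot_of_affine]
    exact PrimeSpectrum.ext h0
  rw [← hV.primeIdealOf_genericPoint] at h1
  have h2 := congrArg hV.fromSpec h1
  rw [hV.fromSpec_primeIdealOf, hV.fromSpec_primeIdealOf] at h2
  exact h2

/-- On a smooth integral curve over an algebraically closed field, the local ring at every
point other than the generic point is a discrete valuation ring. -/
theorem isDiscreteValuationRing_stalk [SmoothOfRelativeDimension 1 c]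
    (x : C) (hx : x ≠ genericPoint C) :
    IsDiscreteValuationRing (C.presheaf.stalk x) := by
  obtain ⟨V, hV, hxV, hstd⟩ := exists_isStandardSmooth_chart k c x
  have : Nonempty V := ⟨⟨x, hxV⟩⟩
  let _ : Algebra k Γ(C, V) := (sectionsRingHom k c V).toAlgebra
  have hstd' : Algebra.IsStandardSmoothOfRelativeDimension 1 k Γ(C, V) := hstd
  have : Algebra.IsStandardSmooth k Γ(C, V) :=
    Algebra.IsStandardSmoothOfRelativeDimension.isStandardSmooth 1
  have : Algebra.FiniteType k Γ(C, V) := inferInstance
  have : IsNoetherianRing Γ(C, V) := Algebra.FiniteType.isNoetherianRing k _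
  have hr : Module.rank Γ(C, V) Ω[Γ(C, V)⁄k] = 1 := by
    simpa using Algebra.IsStandardSmoothOfRelativeDimension.rank_kaehlerDifferential
      (R := k) (S := Γ(C, V)) 1
  have hp0 := primeIdealOf_asIdeal_ne_bot hV x hxV hx
  obtain ⟨m, hm, hpm⟩ := Ideal.exists_le_maximal (hV.primeIdealOf ⟨x, hxV⟩).asIdeal
    (hV.primeIdealOf ⟨x, hxV⟩).2.ne_top
  have hbij : Function.Bijective (algebraMap k (Γ(C, V) ⧸ m)) := by
    let _ : Field (Γ(C, V) ⧸ m) := Ideal.Quotient.field m
    have : Algebra.FiniteType k (Γ(C, V) ⧸ m) := inferInstance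
    have : Module.Finite k (Γ(C, V) ⧸ m) := finite_of_finite_type_of_isJacobsonRing k _
    exact IsAlgClosed.algebraMap_bijective_of_isIntegral
  have hdvr : IsDiscreteValuationRing (Localization.AtPrime m) :=
    isDiscreteValuationRing_of_rank_kaehler_eq_one k _ hr m hbij _
  have hpm' : m = (hV.primeIdealOf ⟨x, hxV⟩).asIdeal :=
    ((eq_bot_or_eq_of_le_of_isDiscreteValuationRing m (Localization.AtPrime m)
      (hV.primeIdealOf ⟨x, hxV⟩).asIdeal hpm).resolve_left hp0).symm
  subst hpm'
  let _ : Algebra Γ(C, V) (C.presheaf.stalk x) :=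
    TopCat.Presheaf.algebra_section_stalk C.presheaf (⟨x, hxV⟩ : V)
  have := hV.isLocalization_stalk ⟨x, hxV⟩
  exact isDiscreteValuationRing_of_rank_kaehler_eq_one k _ hr _ hbij _

/-- On a smooth integral curve over an algebraically closed field, a point other than the
generic point has no proper specialization. -/
theorem eq_of_specializes [SmoothOfRelativeDimension 1 c]
    (x : C) (hx : x ≠ genericPoint C) (z : C) (h : x ⤳ z) : x = z := by
  have hz : z ≠ genericPoint C := by
    rintro rfl
    exact hx (((genericPoint_spec C).specializes (Set.mem_univ x)).antisymm h).eq.symm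
  have := isDiscreteValuationRing_stalk k c z hz
  obtain ⟨V, hV, hzV, -⟩ := exists_isAffineOpen_mem_and_subset (x := z) (U := ⊤) trivial
  have hxV : x ∈ V := h.mem_open V.isOpen hzV
  have : Nonempty V := ⟨⟨z, hzV⟩⟩
  have hle : hV.primeIdealOf ⟨x, hxV⟩ ≤ hV.primeIdealOf ⟨z, hzV⟩ := by
    rw [PrimeSpectrum.le_iff_specializes]
    have h' : (⟨x, hxV⟩ : V) ⤳ ⟨z, hzV⟩ := (subtype_specializes_iff _ _).mpr h
    exact h'.map hV.isoSpec.hom.continuous
  let _ : Algebra Γ(C, V) (C.presheaf.stalk z) :=
    TopCat.Presheaf.algebra_section_stalk C.presheaf (⟨z, hzV⟩ : V)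
  have := hV.isLocalization_stalk ⟨z, hzV⟩
  have h2 := (eq_bot_or_eq_of_le_of_isDiscreteValuationRing (hV.primeIdealOf ⟨z, hzV⟩).asIdeal
    (C.presheaf.stalk z) (hV.primeIdealOf ⟨x, hxV⟩).asIdeal hle).resolve_left
    (primeIdealOf_asIdeal_ne_bot hV x hxV hx)
  have h3 : hV.primeIdealOf ⟨x, hxV⟩ = hV.primeIdealOf ⟨z, hzV⟩ := PrimeSpectrum.ext h2
  have h4 := congrArg hV.fromSpec h3
  rwa [hV.fromSpec_primeIdealOf, hV.fromSpec_primeIdealOf] at h4

/-- On a smooth integral curve over an algebraically closed field, every point other than the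
generic point is closed. -/
theorem isClosed_singleton_of_ne_genericPoint [SmoothOfRelativeDimension 1 c]
    (x : C) (hx : x ≠ genericPoint C) : IsClosed ({x} : Set C) := by
  rw [← closure_subset_iff_isClosed]
  intro z hz
  exact (eq_of_specializes k c x hx z (specializes_iff_mem_closure.mpr hz)).symm

/-- On a smooth integral curve over an algebraically closed field with noetherian underlying
space, every closed subset not containing the generic point is finite. -/
theorem finite_of_isClosed_of_genericPoint_notMem [SmoothOfRelativeDimension 1 c]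
    [TopologicalSpace.NoetherianSpace C] (Z : Set C) (hZ : IsClosed Z)
    (hη : genericPoint C ∉ Z) : Z.Finite := by
  obtain ⟨S, hSf, hSc, hSi, rfl⟩ :=
    TopologicalSpace.NoetherianSpace.exists_finite_set_isClosed_irreducible hZ
  refine Set.Finite.sUnion hSf fun t ht => ?_
  obtain ⟨z, hz⟩ := QuasiSober.sober (hSi t ht) (hSc t ht)
  have hzt : z ∈ t := hz.mem
  have hzη : z ≠ genericPoint C := by
    rintro rfl
    exact hη ⟨t, ht, hzt⟩
  have := isClosed_singleton_of_ne_genericPoint k c z hzη
  have ht' : t = {z} := by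
    rw [← hz.def, this.closure_eq]
  rw [ht']
  exact Set.finite_singleton z

/-- Sections of a smooth integral curve over an algebraically closed field over an affine
open form a Dedekind domain. -/
theorem isDedekindDomain_of_isAffineOpen [SmoothOfRelativeDimension 1 c]
    {U : C.Opens} (hU : IsAffineOpen U) [Nonempty U] : IsDedekindDomain Γ(C, U) := by
  have : Smooth c := SmoothOfRelativeDimension.smooth 1 c
  have : IsLocallyNoetherian C := LocallyOfFiniteType.isLocallyNoetherian c
  have : IsNoetherianRing Γ(C, U) := IsLocallyNoetherian.component_noetherian ⟨U, hU⟩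
  have : IsDedekindDomainDvr Γ(C, U) := by
    refine ⟨fun P hP0 hP => ?_⟩
    let y : PrimeSpectrum Γ(C, U) := ⟨P, hP⟩
    have hyU : hU.fromSpec y ∈ U := by
      have : hU.fromSpec y ∈ Set.range hU.fromSpec := Set.mem_range_self y
      rwa [hU.range_fromSpec] at this
    have hyη : hU.fromSpec y ≠ genericPoint C := by
      intro h
      apply hP0
      have hgU : genericPoint C ∈ U := h ▸ hyU
      have h1 : hU.fromSpec y = hU.fromSpec (hU.primeIdealOf ⟨genericPoint C, hgU⟩) := by
        rw [hU.fromSpec_primeIdealOf]; exact h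
      have h2 : y = hU.primeIdealOf ⟨genericPoint C, hgU⟩ :=
        hU.fromSpec.injective h1
      rw [hU.primeIdealOf_genericPoint, genericPoint_eq_bot_of_affine] at h2
      exact congrArg PrimeSpectrum.asIdeal h2
    have := isDiscreteValuationRing_stalk k c _ hyη
    let _ : Algebra Γ(C, U) (C.presheaf.stalk (hU.fromSpec y)) :=
      TopCat.Presheaf.algebra_section_stalk C.presheaf (⟨hU.fromSpec y, hyU⟩ : U)
    have hloc : IsLocalization.AtPrime (C.presheaf.stalk (hU.fromSpec y)) P :=
      hU.isLocalization_stalk' y hyU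
    exact IsDiscreteValuationRing.RingEquivClass.isDiscreteValuationRing
      (IsLocalization.algEquiv P.primeCompl (C.presheaf.stalk (hU.fromSpec y))
        (Localization.AtPrime P))
  infer_instance

end Scheme

end Fermat.Agent.S25.helper9237
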