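import Fermat.Agent.S25.helper7755_TwoChart
import Fermat.Agent.S25.helper9237_CurveLocal
import Fermat.Agent.S25.helper9007_Realization

/-!
# S25, layer A (LA-CHARTS): the two-chart atlas of a smooth proper curve, final statement

Owner: helper7755.  Wires the local structure of the curve (LA-LOCAL, `helper9237_CurveLocal`)
into `nonempty_twoChart_of_local`.
-/

set_option autoImplicit false

universe u

open CategoryTheory AlgebraicGeometry

namespace Fermat.Agent.S25.helper7755

/-- The generic point of a smooth integral curve over an algebraically closed field is not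
closed (the curve is not a point). -/
theorem not_isClosed_genericPoint {k : Type u} [Field k] [IsAlgClosed k] {C : Scheme.{u}}
    (c : C ⟶ Spec (CommRingCat.of k)) [SmoothOfRelativeDimension 1 c] [IsIntegral C] :
    ¬ IsClosed ({genericPoint C} : Set C) := by
  intro hcl
  obtain ⟨V, hV, hηV, hstd⟩ := helper9237.exists_isStandardSmooth_chart k c (genericPoint C)
  have : Nonempty V := ⟨⟨_, hηV⟩⟩
  let _ : Algebra k Γ(C, V) := (helper9237.sectionsRingHom k c V).toAlgebra
  have hstd' : Algebra.IsStandardSmoothOfRelativeDimension 1 k Γ(C, V) := hstd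
  have : Algebra.IsStandardSmooth k Γ(C, V) :=
    Algebra.IsStandardSmoothOfRelativeDimension.isStandardSmooth 1
  have : Algebra.FiniteType k Γ(C, V) := inferInstance
  have hr : Module.rank Γ(C, V) Ω[Γ(C, V)⁄k] = 1 := by
    simpa using Algebra.IsStandardSmoothOfRelativeDimension.rank_kaehlerDifferential
      (R := k) (S := Γ(C, V)) 1
  have hmax : (hV.primeIdealOf ⟨genericPoint C, hηV⟩).asIdeal.IsMaximal :=
    hV.primeIdealOf_isMaximal_of_isClosed ⟨_, hηV⟩ hcl
  have hbot : (hV.primeIdealOf ⟨genericPoint C, hηV⟩).asIdeal = ⊥ := by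
    rw [hV.primeIdealOf_genericPoint, genericPoint_eq_bot_of_affine]
    rfl
  rw [hbot] at hmax
  have hbij : Function.Bijective (algebraMap k (Γ(C, V) ⧸ (⊥ : Ideal Γ(C, V)))) := by
    let _ : Field (Γ(C, V) ⧸ (⊥ : Ideal Γ(C, V))) := Ideal.Quotient.field ⊥
    have : Algebra.FiniteType k (Γ(C, V) ⧸ (⊥ : Ideal Γ(C, V))) := inferInstance
    have : Module.Finite k (Γ(C, V) ⧸ (⊥ : Ideal Γ(C, V))) :=
      finite_of_finite_type_of_isJacobsonRing k _
    exact IsAlgClosed.algebraMap_bijective_of_isIntegral
  have hsurj : Function.Surjective (algebraMap k Γ(C, V)) := by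
    intro a
    obtain ⟨b, hb⟩ := hbij.2 (Ideal.Quotient.mk ⊥ a)
    refine ⟨b, ?_⟩
    have h1 : Ideal.Quotient.mk (⊥ : Ideal Γ(C, V)) (algebraMap k Γ(C, V) b) =
        Ideal.Quotient.mk ⊥ a := hb
    rw [Ideal.Quotient.eq, Ideal.mem_bot, sub_eq_zero] at h1
    exact h1
  have : Subsingleton Ω[Γ(C, V)⁄k] := KaehlerDifferential.subsingleton_of_surjective k _ hsurj
  rw [rank_subsingleton'] at hr
  exact zero_ne_one hr

/-- **LA-CHARTS.** A smooth proper integral curve over an algebraically closed field, with a
rational point, has a two-chart atlas. -/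
theorem nonempty_twoChart {k : Type u} [Field k] [IsAlgClosed k] {C : Scheme.{u}}
    (c : C ⟶ Spec (CommRingCat.of k)) [IsProper c] [SmoothOfRelativeDimension 1 c]
    [IsIntegral C] (e : Spec (CommRingCat.of k) ⟶ C) (he : e ≫ c = 𝟙 _) :
    Nonempty (TwoChart c e) := by
  have := isNoetherian_of_proper c
  have hη : ∀ p : C, IsClosed ({p} : Set C) → p ≠ genericPoint C := by
    rintro p hp rfl
    exact not_isClosed_genericPoint c hp
  refine nonempty_twoChart_of_local c
    (fun p hp => helper9237.isClosed_singleton_of_ne_genericPoint k c p hp)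
    (fun p hp => helper9237.isDiscreteValuationRing_stalk k c p (hη p hp))
    (fun Z hZ hZu => helper9237.finite_of_isClosed_of_genericPoint_notMem k c Z hZ ?_) e he
  intro hmem
  apply hZu
  rw [← Set.univ_subset_iff, ← (genericPoint_spec C).def]
  exact hZ.closure_subset_iff.mpr (Set.singleton_subset_iff.mpr hmem)

/-- **Layer A of S25, hypothesis-free**: `Stmt_Chart` of the Spec (LA-CHARTS + LA-LOCAL +
LA-OMEGA + LA-REAL). -/
theorem stmt_Chart : helper1705.Stmt_Chart.{u} :=
  helper9007.stmt_Chart_of (fun _ _ _ _ c _ _ _ e he => nonempty_twoChart c e he)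

end Fermat.Agent.S25.helper7755
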