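import Fermat.Agent.S25.helper1705_Spec

/-!
# S25, statement GC: geometric connectedness straight from the cut (helper8183)

Any designation `D` representing the functor of rigidified line bundles that are fibrewise
algebraically equivalent to zero has geometrically connected structure morphism. No
construction of `D` is used, only `poincare_mem`, `univ` (existence and uniqueness) and `zero`.

Idea. Fix a field `K`, a point `y : Spec K ⟶ Spec R` and a point `z` of `D.P ×_R Spec K`.
Pick a geometric point `σ : Spec Ω ⟶ D.P ×_R Spec K` above `z` and put `s = σ ≫ fst`.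
`poincare_mem` at `s` gives a geometrically integral `T'` over `Ω` and an invertible module on
`(C × D.P)_s ×_Ω T'`, trivial at `t₀` and the Poincaré fibre at `t₁`. Transport it to
`C ×_R T'`; Zariski-locally on `T'` it can be rigidified and is in the cut
(`fibrewiseAlgEquivZero_of_family`), so `univ` gives local classifying maps which glue by
uniqueness (`exists_classifying_of_family`). The glued map `T' ⟶ D.P` sends `t₁` to `s` and
`t₀` to the zero point, and `T'` is irreducible, so `z` lies in the connected component of the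
zero point.

Main results:
* `fibrewiseAlgEquivZero_of_family`
* `exists_classifying_of_family`, `comp_eq_of_classifiesLocally`
* `connectedSpace_pullback_of_represents`, `geometricallyConnected_of_represents`
* `stmt_GC : helper1705.Stmt_GC`
-/

set_option autoImplicit false

universe u

open CategoryTheory CategoryTheory.Limits AlgebraicGeometry AlgebraicGeometry.RelPicard
  NeronModelInfra GoodReductionJacobian

namespace Fermat.Agent.S25.helper8183

noncomputable section

/-- pullback of a module along a morphism (object level) -/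
abbrev pb {X Y : Scheme.{u}} (f : X ⟶ Y) (N : Y.Modules) : X.Modules :=
  (Scheme.Modules.pullback f).obj N

/-- two-step pullback is pullback along the composite -/
def pbComp {X Y Z : Scheme.{u}} (f : X ⟶ Y) (g : Y ⟶ Z) (N : Z.Modules) :
    pb f (pb g N) ≅ pb (f ≫ g) N :=
  (Scheme.Modules.pullbackComp f g).app N

def pbCongr {X Y : Scheme.{u}} {f g : X ⟶ Y} (h : f = g) (N : Y.Modules) : pb f N ≅ pb g N :=
  (Scheme.Modules.pullbackCongr h).app N

def pbMap {X Y : Scheme.{u}} (f : X ⟶ Y) {N N' : Y.Modules} (e : N ≅ N') : pb f N ≅ pb f N' :=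
  (Scheme.Modules.pullback f).mapIso e

/-- pullbacks along the two sides of a commutative square agree -/
def pbSquare {X Y Y' Z : Scheme.{u}} (f : X ⟶ Y) (g : Y ⟶ Z) (f' : X ⟶ Y') (g' : Y' ⟶ Z)
    (w : f ≫ g = f' ≫ g') (N : Z.Modules) : pb f (pb g N) ≅ pb f' (pb g' N) :=
  pbComp f g N ≪≫ pbCongr w N ≪≫ (pbComp f' g' N).symm

def pbUnit {X Y : Scheme.{u}} (f : X ⟶ Y) :
    pb f (SheafOfModules.unit Y.ringCatSheaf) ≅ SheafOfModules.unit X.ringCatSheaf :=
  Scheme.Modules.pullbackUnitIso f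

variable {R : Type u} [CommRing R] {C : Scheme.{u}} {c : C ⟶ Spec (CommRingCat.of R)}
  {ε : SchemeHomOver (𝟙 (Spec (CommRingCat.of R))) c}

@[reassoc (attr := simp)]
theorem baseChangeSnd_fst {T T' : Scheme.{u}} {t : T ⟶ Spec (CommRingCat.of R)}
    {t' : T' ⟶ Spec (CommRingCat.of R)} (ψ : SchemeHomOver t' t) :
    baseChangeSnd c ψ ≫ pullback.fst c t = pullback.fst c t' := by
  simp only [baseChangeSnd, pullback.lift_fst, Category.comp_id]

@[reassoc (attr := simp)]
theorem baseChangeSnd_snd {T T' : Scheme.{u}} {t : T ⟶ Spec (CommRingCat.of R)}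
    {t' : T' ⟶ Spec (CommRingCat.of R)} (ψ : SchemeHomOver t' t) :
    baseChangeSnd c ψ ≫ pullback.snd c t = pullback.snd c t' ≫ ψ.1 := by
  simp only [baseChangeSnd, pullback.lift_snd]

/-- Two morphisms to the representing object agree as soon as the pullbacks of the
Poincaré bundle along them are isomorphic. -/
theorem comp_eq_of_iso {P : SubPicCondition c ε} {D : RelativePic0Designation R c}
    (h : RepresentsRelSubPic c ε P D)
    {S T₁ T₂ : Scheme.{u}} {s : S ⟶ Spec (CommRingCat.of R)}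
    {t₁ : T₁ ⟶ Spec (CommRingCat.of R)} {t₂ : T₂ ⟶ Spec (CommRingCat.of R)}
    (a₁ : SchemeHomOver s t₁) (a₂ : SchemeHomOver s t₂)
    (g₁ : SchemeHomOver t₁ D.toBase) (g₂ : SchemeHomOver t₂ D.toBase)
    (e : Nonempty (pb (baseChangeSnd c a₁) (h.poincare.pullbackAlong g₁).L ≅
      pb (baseChangeSnd c a₂) (h.poincare.pullbackAlong g₂).L)) :
    a₁.1 ≫ g₁.1 = a₂.1 ≫ g₂.1 := by
  obtain ⟨e⟩ := e
  have key : postComp g₁ a₁ = postComp g₂ a₂ := by
    refine h.ext_of_iso s _ _ ⟨?_⟩
    exact (pbCongr (baseChangeSnd_comp c g₁ a₁).symm h.poincare.L) ≪≫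
      (pbComp _ _ _).symm ≪≫ e ≪≫ pbComp _ _ _ ≪≫
      pbCongr (baseChangeSnd_comp c g₂ a₂) h.poincare.L
  exact congrArg Subtype.val key


/-- A family of invertible modules on `C × T'`, parametrised by a geometrically integral
`T'` over a field `Ω` and trivial over one `Ω`-point `t₀`, is fibrewise algebraically
equivalent to zero over every test scheme mapping to `T'`. -/
theorem fibrewiseAlgEquivZero_of_family
    {T' : Scheme.{u}} {t' : T' ⟶ Spec (CommRingCat.of R)} (M' : (pullback c t').Modules)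
    (hM' : Scheme.Modules.IsInvertible M')
    {Ω : Type u} [Field Ω] (hT : T' ⟶ Spec (CommRingCat.of Ω)) [LocallyOfFiniteType hT]
    [GeometricallyIntegral hT] (ω : Spec (CommRingCat.of Ω) ⟶ Spec (CommRingCat.of R))
    (hω : hT ≫ ω = t') (t₀ : SchemeHomOver ω t') (ht₀ : t₀.1 ≫ hT = 𝟙 _)
    (e₀ : Nonempty (pb (baseChangeSnd c t₀) M' ≅
      SheafOfModules.unit (pullback c ω).ringCatSheaf))
    {V : Scheme.{u}} {v : V ⟶ Spec (CommRingCat.of R)} (ι : SchemeHomOver v t')
    (N : RigidifiedLineBundle c ε v) (eN : Nonempty (N.L ≅ pb (baseChangeSnd c ι) M')) :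
    FibrewiseAlgEquivZero N := by
  intro K _ _ u
  obtain ⟨e₀⟩ := e₀
  obtain ⟨eN⟩ := eN
  let a'' : pullback (pullback.snd c v) u ⟶ Spec (CommRingCat.of K) := fibreAt c v u
  let vΩ : Spec (CommRingCat.of K) ⟶ Spec (CommRingCat.of Ω) := u ≫ ι.1 ≫ hT
  let h'' : pullback hT vΩ ⟶ Spec (CommRingCat.of K) := pullback.snd hT vΩ
  have hcondT : pullback.fst hT vΩ ≫ hT = h'' ≫ vΩ := pullback.condition
  have hcondA : pullback.fst (pullback.snd c v) u ≫ pullback.snd c v = a'' ≫ u :=
    pullback.condition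
  have hcondC : pullback.fst c v ≫ c = pullback.snd c v ≫ v := pullback.condition
  have hv : u ≫ v = vΩ ≫ ω := by
    simp only [vΩ, Category.assoc, hω, ι.2]
  have hkey : pullback.fst (pullback.snd c v) u ≫ pullback.fst c v ≫ c = a'' ≫ vΩ ≫ ω := by
    rw [hcondC, reassoc_of% hcondA, hv]
  let ζ : pullback a'' h'' ⟶ pullback c t' :=
    pullback.lift (pullback.fst a'' h'' ≫ pullback.fst (pullback.snd c v) u ≫ pullback.fst c v)
      (pullback.snd a'' h'' ≫ pullback.fst hT vΩ) (by
        have h1 : pullback.fst a'' h'' ≫ a'' = pullback.snd a'' h'' ≫ h'' := pullback.condition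
        simp only [Category.assoc, hkey, ← hω]
        rw [reassoc_of% h1, reassoc_of% hcondT])
  have hζ₁ : ζ ≫ pullback.fst c t' =
      pullback.fst a'' h'' ≫ pullback.fst (pullback.snd c v) u ≫ pullback.fst c v :=
    pullback.lift_fst _ _ _
  have hζ₂ : ζ ≫ pullback.snd c t' = pullback.snd a'' h'' ≫ pullback.fst hT vΩ :=
    pullback.lift_snd _ _ _
  let t₀'' : SchemeHomOver (𝟙 (Spec (CommRingCat.of K))) h'' :=
    ⟨pullback.lift (vΩ ≫ t₀.1) (𝟙 _) (by rw [Category.assoc, ht₀, Category.comp_id,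
      Category.id_comp]), pullback.lift_snd _ _ _⟩
  let t₁'' : SchemeHomOver (𝟙 (Spec (CommRingCat.of K))) h'' :=
    ⟨pullback.lift (u ≫ ι.1) (𝟙 _) (by simp only [vΩ, Category.assoc, Category.id_comp]),
      pullback.lift_snd _ _ _⟩
  have hid : pullback.fst a'' (𝟙 (Spec (CommRingCat.of K))) ≫ a'' =
      pullback.snd a'' (𝟙 (Spec (CommRingCat.of K))) := by
    rw [pullback.condition, Category.comp_id]
  refine ⟨pullback hT vΩ, h'', inferInstance, inferInstance, pb ζ M', hM'.pullback ζ, t₀'', t₁'',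
    ⟨?_⟩, ⟨?_⟩⟩
  · let ξ₀ : pullback a'' (𝟙 (Spec (CommRingCat.of K))) ⟶ pullback c ω :=
      pullback.lift (pullback.fst a'' (𝟙 _) ≫ pullback.fst (pullback.snd c v) u ≫ pullback.fst c v)
        (pullback.snd a'' (𝟙 _) ≫ vΩ) (by
          simp only [Category.assoc, hkey]
          rw [reassoc_of% hid])
    have hsq : baseChangeSnd a'' t₀'' ≫ ζ = ξ₀ ≫ baseChangeSnd c t₀ := by
      apply pullback.hom_ext
      · simp only [Category.assoc, hζ₁, baseChangeSnd_fst, baseChangeSnd_fst_assoc, ξ₀,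
          pullback.lift_fst]
      · simp only [Category.assoc, hζ₂, baseChangeSnd_snd, baseChangeSnd_snd_assoc, ξ₀,
          pullback.lift_snd_assoc, t₀'', pullback.lift_fst]
    exact pbSquare _ _ _ _ hsq M' ≪≫ pbMap ξ₀ e₀ ≪≫ pbUnit ξ₀
  · have hsq : baseChangeSnd a'' t₁'' ≫ ζ =
        pullback.fst a'' (𝟙 _) ≫ (pullback.fst (pullback.snd c v) u ≫ baseChangeSnd c ι) := by
      apply pullback.hom_ext
      · simp only [Category.assoc, hζ₁, baseChangeSnd_fst, baseChangeSnd_fst_assoc]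
      · simp only [Category.assoc, hζ₂, baseChangeSnd_snd, baseChangeSnd_snd_assoc, t₁'',
          pullback.lift_fst]
        rw [reassoc_of% hcondA, reassoc_of% hid]
    exact pbSquare _ _ _ _ hsq M' ≪≫ pbMap _ (pbComp _ _ M').symm ≪≫
      pbMap _ (pbMap _ eN.symm)


theorem baseChangeSnd_comp_eq {S T₁ T₂ T : Scheme.{u}} {s : S ⟶ Spec (CommRingCat.of R)}
    {t₁ : T₁ ⟶ Spec (CommRingCat.of R)} {t₂ : T₂ ⟶ Spec (CommRingCat.of R)}
    {t : T ⟶ Spec (CommRingCat.of R)}
    (a₁ : SchemeHomOver s t₁) (p₁ : SchemeHomOver t₁ t) (a₂ : SchemeHomOver s t₂)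
    (p₂ : SchemeHomOver t₂ t) (hp : a₁.1 ≫ p₁.1 = a₂.1 ≫ p₂.1) :
    baseChangeSnd c a₁ ≫ baseChangeSnd c p₁ = baseChangeSnd c a₂ ≫ baseChangeSnd c p₂ := by
  apply pullback.hom_ext
  · simp only [Category.assoc, baseChangeSnd_fst]
  · simp only [Category.assoc, baseChangeSnd_snd, baseChangeSnd_snd_assoc, hp]

theorem baseChangeSnd_comp_eq' {S T₁ T : Scheme.{u}} {s : S ⟶ Spec (CommRingCat.of R)}
    {t₁ : T₁ ⟶ Spec (CommRingCat.of R)} {t : T ⟶ Spec (CommRingCat.of R)}
    (a₁ : SchemeHomOver s t₁) (p₁ : SchemeHomOver t₁ t) (q : SchemeHomOver s t)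
    (hp : a₁.1 ≫ p₁.1 = q.1) :
    baseChangeSnd c a₁ ≫ baseChangeSnd c p₁ = baseChangeSnd c q := by
  apply pullback.hom_ext
  · simp only [Category.assoc, baseChangeSnd_fst]
  · simp only [Category.assoc, baseChangeSnd_snd, baseChangeSnd_snd_assoc, hp]

/-- The inclusion of an open subscheme, as a morphism over the base. -/
abbrev opensHom {T : Scheme.{u}} (t : T ⟶ Spec (CommRingCat.of R)) (U : T.Opens) :
    SchemeHomOver (U.ι ≫ t) t :=
  ⟨U.ι, rfl⟩

/-- `G` classifies the (not necessarily rigidified) invertible module `M'` locally on `T'`. -/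
def ClassifiesLocally {P : SubPicCondition c ε} {D : RelativePic0Designation R c}
    (h : RepresentsRelSubPic c ε P D) {T' : Scheme.{u}} {t' : T' ⟶ Spec (CommRingCat.of R)}
    (M' : (pullback c t').Modules) (G : SchemeHomOver t' D.toBase) : Prop :=
  ∀ x : T', ∃ U : T'.Opens, x ∈ U ∧
    Nonempty (pb (baseChangeSnd c (opensHom t' U)) (h.poincare.pullbackAlong G).L ≅
      pb (baseChangeSnd c (opensHom t' U)) M')

/-- A family as in `fibrewiseAlgEquivZero_of_family` has a classifying morphism to the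
representing object (it classifies the family Zariski-locally on the parameter scheme). -/
theorem exists_classifying_of_family {D : RelativePic0Designation R c}
    (h : RepresentsRelSubPic c ε (algEquivZeroCut c ε) D)
    {T' : Scheme.{u}} {t' : T' ⟶ Spec (CommRingCat.of R)} (M' : (pullback c t').Modules)
    (hM' : Scheme.Modules.IsInvertible M')
    {Ω : Type u} [Field Ω] (hT : T' ⟶ Spec (CommRingCat.of Ω)) [LocallyOfFiniteType hT]
    [GeometricallyIntegral hT] (ω : Spec (CommRingCat.of Ω) ⟶ Spec (CommRingCat.of R))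
    (hω : hT ≫ ω = t') (t₀ : SchemeHomOver ω t') (ht₀ : t₀.1 ≫ hT = 𝟙 _)
    (e₀ : Nonempty (pb (baseChangeSnd c t₀) M' ≅
      SheafOfModules.unit (pullback c ω).ringCatSheaf)) :
    ∃ G : SchemeHomOver t' D.toBase, ClassifiesLocally h M' G := by
  have hN0 := (hM'.pullback (rigSection c t' ε)).exists_trivialization
  choose U hxU hU using hN0
  let N : ∀ x : T', RigidifiedLineBundle c ε ((U x).ι ≫ t') := fun x =>
    { L := pb (baseChangeSnd c (opensHom t' (U x))) M'
      isInvertible := hM'.pullback _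
      rigidified := ⟨pbSquare _ _ _ _ (rigSection_baseChangeSnd c ε (opensHom t' (U x))) M' ≪≫
        (hU x).some⟩ }
  have hNmem : ∀ x, FibrewiseAlgEquivZero (N x) := fun x =>
    fibrewiseAlgEquivZero_of_family M' hM' hT ω hω t₀ ht₀ e₀ (opensHom t' (U x)) (N x)
      ⟨Iso.refl _⟩
  have hg := fun x => h.univ ((U x).ι ≫ t') (N x) (hNmem x)
  choose g hg hguniq using hg
  let 𝒰 : T'.OpenCover := {
    I₀ := T', X i := (U i), f i := (U i).ι,
    mem₀ := by
      rw [Scheme.presieve₀_mem_precoverage_iff]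
      refine ⟨fun x ↦ ⟨x, by simpa using hxU x⟩, inferInstance⟩ }
  have hcompat : ∀ x y, pullback.fst (𝒰.f x) (𝒰.f y) ≫ (g x).1 =
      pullback.snd (𝒰.f x) (𝒰.f y) ≫ (g y).1 := by
    intro x y
    let a₁ : SchemeHomOver (pullback.fst (𝒰.f x) (𝒰.f y) ≫ (U x).ι ≫ t') ((U x).ι ≫ t') :=
      ⟨pullback.fst (𝒰.f x) (𝒰.f y), rfl⟩
    let a₂ : SchemeHomOver (pullback.fst (𝒰.f x) (𝒰.f y) ≫ (U x).ι ≫ t') ((U y).ι ≫ t') :=
      ⟨pullback.snd (𝒰.f x) (𝒰.f y), by
        rw [← Category.assoc, ← Category.assoc]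
        congr 1
        exact pullback.condition.symm⟩
    have hw : baseChangeSnd c a₁ ≫ baseChangeSnd c (opensHom t' (U x)) =
        baseChangeSnd c a₂ ≫ baseChangeSnd c (opensHom t' (U y)) :=
      baseChangeSnd_comp_eq _ _ _ _ pullback.condition
    exact comp_eq_of_iso h a₁ a₂ (g x) (g y)
      ⟨pbMap _ (hg x).some ≪≫ pbSquare _ _ _ _ hw M' ≪≫ pbMap _ (hg y).some.symm⟩
  let G : T' ⟶ D.P := 𝒰.glueMorphisms (fun x => (g x).1) hcompat
  have hG : ∀ x, (U x).ι ≫ G = (g x).1 := fun x => 𝒰.ι_glueMorphisms _ hcompat x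
  have hGj : G ≫ D.toBase = t' := by
    refine 𝒰.hom_ext _ _ fun x => ?_
    change (U x).ι ≫ G ≫ D.toBase = (U x).ι ≫ t'
    rw [← Category.assoc, hG, (g x).2]
  refine ⟨⟨G, hGj⟩, fun x => ⟨U x, hxU x, ⟨?_⟩⟩⟩
  have hw : baseChangeSnd c (opensHom t' (U x)) ≫
      baseChangeSnd c (⟨G, hGj⟩ : SchemeHomOver t' D.toBase) = baseChangeSnd c (g x) :=
    baseChangeSnd_comp_eq' _ _ _ (hG x)
  exact pbComp _ _ _ ≪≫ pbCongr hw _ ≪≫ (hg x).some

/-- A morphism classifying `M'` locally is determined on every test scheme. -/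
theorem comp_eq_of_classifiesLocally {P : SubPicCondition c ε}
    {D : RelativePic0Designation R c} (h : RepresentsRelSubPic c ε P D)
    {T' : Scheme.{u}} {t' : T' ⟶ Spec (CommRingCat.of R)} (M' : (pullback c t').Modules)
    (G : SchemeHomOver t' D.toBase) (hG : ClassifiesLocally h M' G)
    {Y : Scheme.{u}} {y : Y ⟶ Spec (CommRingCat.of R)} (τ : SchemeHomOver y t')
    (g' : SchemeHomOver y D.toBase)
    (e : Nonempty ((h.poincare.pullbackAlong g').L ≅ pb (baseChangeSnd c τ) M')) :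
    τ.1 ≫ G.1 = g'.1 := by
  obtain ⟨e⟩ := e
  refine Scheme.hom_ext_of_forall _ _ fun p => ?_
  obtain ⟨U, hxU, ⟨eU⟩⟩ := hG (τ.1 p)
  refine ⟨τ.1 ⁻¹ᵁ U, hxU, ?_⟩
  have hres : (τ.1 ⁻¹ᵁ U).ι ≫ τ.1 = (τ.1 ∣_ U) ≫ U.ι := (morphismRestrict_ι τ.1 U).symm
  let a₁ : SchemeHomOver ((τ.1 ⁻¹ᵁ U).ι ≫ y) (U.ι ≫ t') := ⟨τ.1 ∣_ U, by
    rw [← Category.assoc, ← hres, Category.assoc, τ.2]⟩
  let a₂ : SchemeHomOver ((τ.1 ⁻¹ᵁ U).ι ≫ y) y := ⟨(τ.1 ⁻¹ᵁ U).ι, rfl⟩
  have hw : baseChangeSnd c a₁ ≫ baseChangeSnd c (opensHom t' U) =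
      baseChangeSnd c a₂ ≫ baseChangeSnd c τ :=
    baseChangeSnd_comp_eq _ _ _ _ hres.symm
  have key := comp_eq_of_iso h a₁ a₂ (postComp G (opensHom t' U)) g'
    ⟨pbMap _ ((pbCongr (baseChangeSnd_comp c G (opensHom t' U)).symm _) ≪≫
        (pbComp _ _ _).symm ≪≫ eU) ≪≫
      pbSquare _ _ _ _ hw M' ≪≫ pbMap _ e.symm⟩
  rw [← Category.assoc, hres, Category.assoc]
  exact key


/-- **Geometric connectedness from the cut.** If `D` represents the functor of rigidified
line bundles fibrewise algebraically equivalent to zero, then every base change of `D.P` to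
a field is connected: every point is joined to the zero point by the image of a geometrically
integral parameter scheme, supplied by the definition of algebraic equivalence applied to the
Poincaré bundle. -/
theorem connectedSpace_pullback_of_represents {D : RelativePic0Designation R c}
    (h : RepresentsRelSubPic c ε (algEquivZeroCut c ε) D)
    (K : Type u) [Field K] (y : Spec (CommRingCat.of K) ⟶ Spec (CommRingCat.of R)) :
    ConnectedSpace ↥(pullback D.toBase y) := by
  let z0 : Spec (CommRingCat.of K) ⟶ pullback D.toBase y :=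
    pullback.lift (y ≫ D.zeroSection) (𝟙 _) (by
      rw [Category.assoc, D.zeroSection_toBase, Category.comp_id, Category.id_comp])
  have hz0₁ : z0 ≫ pullback.fst D.toBase y = y ≫ D.zeroSection := pullback.lift_fst _ _ _
  have hz0₂ : z0 ≫ pullback.snd D.toBase y = 𝟙 _ := pullback.lift_snd _ _ _
  let pt0 : ↥(pullback D.toBase y) := z0 default
  refine @ConnectedSpace.mk _ _ ⟨?_⟩ ⟨pt0⟩
  refine isPreconnected_of_forall pt0 fun z _ => ?_
  -- a geometric point over `z`
  let Z : Scheme.{u} := pullback D.toBase y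
  let Ω : Type u := AlgebraicClosure (Z.residueField z)
  obtain ⟨σ, hσ⟩ : ∃ σ : Spec (CommRingCat.of Ω) ⟶ Z, ∀ p, σ p = z :=
    ⟨Spec.map (CommRingCat.ofHom (algebraMap (Z.residueField z) Ω)) ≫ Z.fromSpecResidueField z,
      fun p => by
        simp only [Scheme.Hom.comp_apply]
        exact Scheme.fromSpecResidueField_apply _ _⟩
  let s : Spec (CommRingCat.of Ω) ⟶ D.P := σ ≫ pullback.fst D.toBase y
  let ω : Spec (CommRingCat.of Ω) ⟶ Spec (CommRingCat.of R) := s ≫ D.toBase
  have hωy : ω = (σ ≫ pullback.snd D.toBase y) ≫ y := by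
    simp only [ω, s, Category.assoc, pullback.condition]
  have hωy' : ω = σ ≫ pullback.snd D.toBase y ≫ y := by
    rw [hωy, Category.assoc]
  obtain ⟨T', hT, hft, hgi, M, hM, t₀, t₁, ⟨e₀⟩, ⟨e₁⟩⟩ :=
    (show FibrewiseAlgEquivZero h.poincare from h.poincare_mem) Ω s
  have := hft
  have := hgi
  -- transport the family to `C ×_R T'`
  let a : pullback (pullback.snd c D.toBase) s ⟶ Spec (CommRingCat.of Ω) := fibreAt c D.toBase s
  let t' : T' ⟶ Spec (CommRingCat.of R) := hT ≫ ω
  have hcondCt : pullback.fst c t' ≫ c = pullback.snd c t' ≫ hT ≫ s ≫ D.toBase :=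
    pullback.condition
  let toCs : pullback c t' ⟶ pullback (pullback.snd c D.toBase) s :=
    pullback.lift (pullback.lift (pullback.fst c t') (pullback.snd c t' ≫ hT ≫ s)
      (by simpa only [Category.assoc] using hcondCt)) (pullback.snd c t' ≫ hT)
      (by rw [pullback.lift_snd, Category.assoc])
  let θ : pullback c t' ⟶ pullback a hT :=
    pullback.lift toCs (pullback.snd c t') (pullback.lift_snd _ _ _)
  have hθ₁ : θ ≫ pullback.fst a hT = toCs := pullback.lift_fst _ _ _
  have hθ₂ : θ ≫ pullback.snd a hT = pullback.snd c t' := pullback.lift_snd _ _ _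
  have htoCs₁ : toCs ≫ pullback.fst (pullback.snd c D.toBase) s ≫ pullback.fst c D.toBase =
      pullback.fst c t' := by
    simp only [toCs, pullback.lift_fst_assoc, pullback.lift_fst]
  have htoCs₂ : toCs ≫ pullback.fst (pullback.snd c D.toBase) s ≫ pullback.snd c D.toBase =
      pullback.snd c t' ≫ hT ≫ s := by
    simp only [toCs, pullback.lift_fst_assoc, pullback.lift_snd]
  have htoCs₃ : toCs ≫ pullback.snd (pullback.snd c D.toBase) s = pullback.snd c t' ≫ hT :=
    pullback.lift_snd _ _ _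
  let M' : (pullback c t').Modules := pb θ M
  have hM' : Scheme.Modules.IsInvertible M' := hM.pullback θ
  let τ₀ : SchemeHomOver ω t' := ⟨t₀.1, by
    simp only [t', ← Category.assoc, t₀.2, Category.id_comp]⟩
  let τ₁ : SchemeHomOver ω t' := ⟨t₁.1, by
    simp only [t', ← Category.assoc, t₁.2, Category.id_comp]⟩
  -- the comparison map on the fibre over a section
  have hcondCω : pullback.fst c ω ≫ c = pullback.snd c ω ≫ s ≫ D.toBase := pullback.condition
  let toCs' : pullback c ω ⟶ pullback (pullback.snd c D.toBase) s :=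
    pullback.lift (pullback.lift (pullback.fst c ω) (pullback.snd c ω ≫ s)
      (by simpa only [Category.assoc] using hcondCω)) (pullback.snd c ω)
      (by rw [pullback.lift_snd])
  let ρ : pullback c ω ⟶ pullback a (𝟙 (Spec (CommRingCat.of Ω))) :=
    pullback.lift toCs' (pullback.snd c ω) (by
      rw [Category.comp_id]; exact pullback.lift_snd _ _ _)
  have hρ₁ : ρ ≫ pullback.fst a (𝟙 _) = toCs' := pullback.lift_fst _ _ _
  have hρ₂ : ρ ≫ pullback.snd a (𝟙 _) = pullback.snd c ω := pullback.lift_snd _ _ _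
  have htoCs'₁ : toCs' ≫ pullback.fst (pullback.snd c D.toBase) s ≫ pullback.fst c D.toBase =
      pullback.fst c ω := by
    simp only [toCs', pullback.lift_fst_assoc, pullback.lift_fst]
  have htoCs'₂ : toCs' ≫ pullback.fst (pullback.snd c D.toBase) s ≫ pullback.snd c D.toBase =
      pullback.snd c ω ≫ s := by
    simp only [toCs', pullback.lift_fst_assoc, pullback.lift_snd]
  have htoCs'₃ : toCs' ≫ pullback.snd (pullback.snd c D.toBase) s = pullback.snd c ω :=
    pullback.lift_snd _ _ _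
  have hsq : ∀ (τ : SchemeHomOver ω t') (tt : SchemeHomOver (𝟙 (Spec (CommRingCat.of Ω))) hT),
      τ.1 = tt.1 → baseChangeSnd c τ ≫ θ = ρ ≫ baseChangeSnd a tt := by
    intro τ tt hτ
    apply pullback.hom_ext
    · rw [Category.assoc, hθ₁, Category.assoc, baseChangeSnd_fst, hρ₁]
      apply pullback.hom_ext
      · apply pullback.hom_ext
        · simp only [Category.assoc]
          rw [htoCs₁, htoCs'₁, baseChangeSnd_fst]
        · simp only [Category.assoc]
          rw [htoCs₂, htoCs'₂, baseChangeSnd_snd_assoc, hτ, reassoc_of% tt.2]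
      · simp only [Category.assoc]
        rw [htoCs₃, htoCs'₃, baseChangeSnd_snd_assoc, hτ, tt.2, Category.comp_id]
    · simp only [Category.assoc]
      rw [hθ₂, baseChangeSnd_snd, baseChangeSnd_snd, reassoc_of% hρ₂, hτ]
  have e₀' : pb (baseChangeSnd c τ₀) M' ≅ SheafOfModules.unit (pullback c ω).ringCatSheaf :=
    pbSquare _ _ _ _ (hsq τ₀ t₀ rfl) M ≪≫ pbMap ρ e₀ ≪≫ pbUnit ρ
  obtain ⟨G, hG⟩ := exists_classifying_of_family h M' hM' hT ω rfl τ₀ t₀.2 ⟨e₀'⟩
  -- the classifying map sends `t₁` to the chosen geometric point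
  let gs : SchemeHomOver ω D.toBase := ⟨s, rfl⟩
  have hcomp : (ρ ≫ pullback.fst a (𝟙 _)) ≫ pullback.fst (pullback.snd c D.toBase) s =
      baseChangeSnd c gs := by
    rw [hρ₁]
    apply pullback.hom_ext
    · simp only [Category.assoc]
      rw [htoCs'₁, baseChangeSnd_fst]
    · simp only [Category.assoc]
      rw [htoCs'₂, baseChangeSnd_snd]
  have h1 : τ₁.1 ≫ G.1 = s :=
    comp_eq_of_classifiesLocally h M' G hG τ₁ gs
      ⟨(pbSquare _ _ _ _ (hsq τ₁ t₁ rfl) M ≪≫ pbMap ρ e₁ ≪≫ pbComp _ _ _ ≪≫ pbComp _ _ _ ≪≫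
        pbCongr hcomp _).symm⟩
  -- ... and `t₀` to the zero point
  let g0 : SchemeHomOver ω D.toBase := ⟨ω ≫ D.zeroSection, by
    rw [Category.assoc, D.zeroSection_toBase, Category.comp_id]⟩
  let zs : SchemeHomOver (𝟙 (Spec (CommRingCat.of R))) D.toBase :=
    ⟨D.zeroSection, D.zeroSection_toBase⟩
  let ωh : SchemeHomOver ω (𝟙 (Spec (CommRingCat.of R))) := ⟨ω, Category.comp_id _⟩
  have hg0 : baseChangeSnd c ωh ≫ baseChangeSnd c zs = baseChangeSnd c g0 :=
    baseChangeSnd_comp_eq' ωh zs g0 rfl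
  have h0 : τ₀.1 ≫ G.1 = ω ≫ D.zeroSection :=
    comp_eq_of_classifiesLocally h M' G hG τ₀ g0
      ⟨(pbCongr hg0 _).symm ≪≫ (pbComp _ _ _).symm ≪≫ pbMap _ h.zero.some ≪≫ pbUnit _ ≪≫
        e₀'.symm⟩
  -- lift to the fibre over `y`
  let GZ : T' ⟶ Z := pullback.lift G.1 (hT ≫ σ ≫ pullback.snd D.toBase y) (by
    rw [G.2, Category.assoc, Category.assoc, ← hωy'])
  have hGZ₁ : GZ ≫ pullback.fst D.toBase y = G.1 := pullback.lift_fst _ _ _
  have hGZ₂ : GZ ≫ pullback.snd D.toBase y = hT ≫ σ ≫ pullback.snd D.toBase y :=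
    pullback.lift_snd _ _ _
  have hGZσ : t₁.1 ≫ GZ = σ := by
    apply pullback.hom_ext
    · rw [Category.assoc, hGZ₁]
      exact h1
    · have e1 : t₁.1 ≫ hT = 𝟙 _ := t₁.2
      calc (t₁.1 ≫ GZ) ≫ pullback.snd D.toBase y
          = (t₁.1 ≫ hT) ≫ σ ≫ pullback.snd D.toBase y := by
            rw [Category.assoc, hGZ₂, Category.assoc]
        _ = σ ≫ pullback.snd D.toBase y := by rw [e1, Category.id_comp]
  have hGZ0 : t₀.1 ≫ GZ = (σ ≫ pullback.snd D.toBase y) ≫ z0 := by
    apply pullback.hom_ext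
    · rw [Category.assoc, hGZ₁, Category.assoc, hz0₁, ← Category.assoc, ← hωy]
      exact h0
    · have e1 : t₀.1 ≫ hT = 𝟙 _ := t₀.2
      calc (t₀.1 ≫ GZ) ≫ pullback.snd D.toBase y
          = (t₀.1 ≫ hT) ≫ σ ≫ pullback.snd D.toBase y := by
            rw [Category.assoc, hGZ₂, Category.assoc]
        _ = σ ≫ pullback.snd D.toBase y := by rw [e1, Category.id_comp]
        _ = ((σ ≫ pullback.snd D.toBase y) ≫ z0) ≫ pullback.snd D.toBase y := by
            rw [Category.assoc, hz0₂, Category.comp_id]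
  have : IrreducibleSpace T' := GeometricallyIrreducible.irreducibleSpace_of_subsingleton hT
  refine ⟨Set.range GZ, Set.subset_univ _, ⟨t₀.1 default, ?_⟩, ⟨t₁.1 default, ?_⟩,
    isPreconnected_range GZ.continuous⟩
  · rw [← Scheme.Hom.comp_apply, hGZ0, Scheme.Hom.comp_apply]
    exact congrArg _ (Subsingleton.elim _ _)
  · rw [← Scheme.Hom.comp_apply, hGZσ]
    exact hσ _

/-- **Geometric connectedness from the cut.** -/
theorem geometricallyConnected_of_represents {D : RelativePic0Designation R c}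
    (h : RepresentsRelSubPic c ε (algEquivZeroCut c ε) D) :
    GeometricallyConnected D.toBase := by
  refine ⟨?_⟩
  rw [geometrically_iff_of_isClosedUnderIsomorphisms]
  intro K _ y
  exact connectedSpace_pullback_of_represents h K y

/-- Statement GC of the S25 specification. -/
theorem stmt_GC : Fermat.Agent.S25.helper1705.Stmt_GC.{u} :=
  fun _ _ _ _ _ _ _ hD _ => geometricallyConnected_of_represents hD.some

end

end Fermat.Agent.S25.helper8183
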