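import Fermat.Agent.S25.helper2531_FieldCover
import Fermat.Agent.S25.helper3115_TwistGlue
import Fermat.Agent.S25.helper9607_GlueBridge

/-!
# S25, root `Stmt_CoverAC`, F-side item (i): the section spaces `secSub E n` (helper2303)

Setting: `k` algebraically closed, `D : CurveDatum k`, `K` a field over `k`,
`E : GlueDatum D K` (helper2945's two-chart line bundles).  In helper2531's vocabulary
(`helper2531_FieldCover`): `tw E n b = xⁿ • ρ₁ b` and
`secSub E n = range ρ₀ ⊓ range (tw E n)` is the space of global sections of `E(n · D∞)`.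

This file discharges the three hypotheses of `helper2531.exists_section_general_position`
for EVERY `E` (no degree hypothesis):

* `exists_hserre`           : Serre vanishing in the `xⁿ • ρ₁` form, for all `n ≥ n₀`;
* `finiteDimensional_secSub`: `secSub E n` is finite dimensional, for all `n`;
* `finrank_secSub`          : if `H¹(E(n · D∞)) = 0` (in the `hserre` form), then
  `dim secSub E n = χ(E) + n · degInf D`;
* `chi_le_finrank_secSub`   : Riemann's inequality `χ(E) + n · degInf D ≤ dim secSub E n`;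
* `secSub_ne_bot`           : `secSub E n ≠ ⊥` as soon as `0 < χ(E) + n · degInf D`;
* `exists_forall_hserre_finrank` : the package, for all `n ≥ n₀`;
* `exists_section_general_position` : `helper2531.exists_section_general_position` with all
  three hypotheses discharged and the count `|S| + 1 = χ(E) + (n+1) · degInf D`.

Inputs: `helper3115` (twist, `χ`-shift, Serre vanishing) and `helper9607.H0_finite`
(`H¹ = 0 ⟹ H⁰` finite).
-/

set_option autoImplicit false
set_option linter.unusedSectionVars false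
set_option linter.style.haveILetI false

open Module

namespace Fermat.Agent.S25.helper2303

open Fermat.Agent.S25.helper1705 Fermat.Agent.S25.helper2945

universe u

variable {k : Type u} [Field k] [IsAlgClosed k] {D : CurveDatum k}
  {K : Type u} [Field K] [Algebra k K] (E : GlueDatum D K)

/-- The cohomology of a two-chart line bundle over a field is finite dimensional. -/
theorem finCoh_delta : helper3115.FinCoh E.delta :=
  helper3115.finCoh_delta_of_forall E fun G' h =>
    helper9607.H0_finite G' (LinearMap.range_eq_top.mp h)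

/-- The differential of the twist `E(n · D∞)` in the `xⁿ • ρ₁` form. -/
theorem dtw_apply_natCast (n : ℕ) (p : E.M₀ × E.M₁) :
    helper3115.dtw E (n : ℤ) p = E.ρ₀ p.1 - xB D K ^ n • E.ρ₁ p.2 := by
  rw [helper3115.dtw_apply, helper3115.TB_natCast]

/-- The cohomology of every twist is finite dimensional, and the index of the twisted
differential is `χ(E) + n · degInf D`. -/
theorem finCoh_dtw_and_index (n : ℕ) :
    helper3115.FinCoh (helper3115.dtw E (n : ℤ)) ∧
      helper3115.index (helper3115.dtw E (n : ℤ)) = E.chi + (n : ℤ) * helper1153.degInf D := by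
  have h := helper3115.chi_twist_degInf E (finCoh_delta E) (n : ℤ)
  have hd : (helper3115.twist E (n : ℤ)).delta = helper3115.dtw E (n : ℤ) :=
    helper3115.twist_delta E (n : ℤ)
  exact ⟨hd ▸ h.1, (congrArg helper3115.index hd).symm.trans h.2⟩

/-- The kernel of the twisted differential, mapped to the overlap module. -/
noncomputable def kerToSecSub (n : ℕ) :
    ↥(LinearMap.ker (helper3115.dtw E (n : ℤ))) →ₗ[K] ↥(helper2531.secSub E n) :=
  LinearMap.codRestrict (helper2531.secSub E n)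
    ((E.ρ₀B.comp (LinearMap.fst K E.M₀ E.M₁)).comp
      (LinearMap.ker (helper3115.dtw E (n : ℤ))).subtype)
    (by
      rintro ⟨⟨a, b⟩, hp⟩
      have h : E.ρ₀ a - xB D K ^ n • E.ρ₁ b = 0 := by
        have := LinearMap.mem_ker.mp hp
        rwa [dtw_apply_natCast] at this
      exact (helper2531.mem_secSub E n _).mpr ⟨⟨a, rfl⟩, ⟨b, (sub_eq_zero.mp h).symm⟩⟩)

@[simp] theorem kerToSecSub_apply (n : ℕ) (p : ↥(LinearMap.ker (helper3115.dtw E (n : ℤ)))) :
    ((kerToSecSub E n p : ↥(helper2531.secSub E n)) : E.M₀₁) = E.ρ₀ p.1.1 := rfl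

theorem kerToSecSub_bijective (n : ℕ) : Function.Bijective (kerToSecSub E n) := by
  constructor
  · rintro ⟨⟨a, b⟩, hp⟩ ⟨⟨a', b'⟩, hp'⟩ h
    have h0 : E.ρ₀ a = E.ρ₀ a' := congrArg Subtype.val h
    have ha : a = a' := helper2531.ρ₀_injective E h0
    have h1 : E.ρ₀ a - xB D K ^ n • E.ρ₁ b = 0 := by
      have := LinearMap.mem_ker.mp hp
      rwa [dtw_apply_natCast] at this
    have h2 : E.ρ₀ a' - xB D K ^ n • E.ρ₁ b' = 0 := by
      have := LinearMap.mem_ker.mp hp'
      rwa [dtw_apply_natCast] at this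
    have hb : helper2531.tw E n b = helper2531.tw E n b' := by
      rw [helper2531.tw_apply, helper2531.tw_apply, ← sub_eq_zero.mp h1, ← sub_eq_zero.mp h2, h0]
    have hb' : b = b' := helper2531.tw_injective E n hb
    subst ha hb'
    rfl
  · rintro ⟨z, hz⟩
    obtain ⟨⟨a, ha⟩, ⟨b, hb⟩⟩ := (helper2531.mem_secSub E n z).mp hz
    refine ⟨⟨(a, b), ?_⟩, Subtype.ext ha⟩
    rw [LinearMap.mem_ker, dtw_apply_natCast, ha, hb, sub_self]

/-- `H⁰(E(n · D∞))`, as the kernel of the twisted differential, is `secSub E n`. -/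
noncomputable def kerEquivSecSub (n : ℕ) :
    ↥(LinearMap.ker (helper3115.dtw E (n : ℤ))) ≃ₗ[K] ↥(helper2531.secSub E n) :=
  LinearEquiv.ofBijective (kerToSecSub E n) (kerToSecSub_bijective E n)

/-- (S2) The space of global sections of every twist is finite dimensional.
(A theorem, not a global instance: use `haveI := finiteDimensional_secSub E n`.) -/
theorem finiteDimensional_secSub (n : ℕ) : FiniteDimensional K ↥(helper2531.secSub E n) :=
  haveI : FiniteDimensional K ↥(LinearMap.ker (helper3115.dtw E (n : ℤ))) :=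
    (finCoh_dtw_and_index E n).1.1
  Module.Finite.equiv (kerEquivSecSub E n)

theorem finrank_ker_dtw (n : ℕ) :
    finrank K ↥(LinearMap.ker (helper3115.dtw E (n : ℤ))) = finrank K ↥(helper2531.secSub E n) :=
  (kerEquivSecSub E n).finrank_eq

/-- The range of the twisted differential is everything iff `hserre` holds. -/
theorem range_dtw_eq_top_iff (n : ℕ) :
    LinearMap.range (helper3115.dtw E (n : ℤ)) = ⊤ ↔
      ∀ z : E.M₀₁, ∃ (a : E.M₀) (b : E.M₁), z = E.ρ₀ a + xB D K ^ n • E.ρ₁ b := by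
  rw [LinearMap.range_eq_top]
  constructor
  · intro h z
    obtain ⟨⟨a, b⟩, hab⟩ := h z
    rw [dtw_apply_natCast] at hab
    exact ⟨a, -b, by rw [← hab, map_neg, smul_neg, sub_eq_add_neg]⟩
  · intro h z
    obtain ⟨a, b, hab⟩ := h z
    exact ⟨(a, -b), by rw [dtw_apply_natCast, hab, map_neg, smul_neg, sub_neg_eq_add]⟩

/-- (S1) SERRE VANISHING in the `xⁿ • ρ₁` form: `H¹(E(n · D∞)) = 0` for all `n ≥ n₀`. -/
theorem exists_hserre :
    ∃ n₀ : ℕ, ∀ n : ℕ, n₀ ≤ n →
      ∀ z : E.M₀₁, ∃ (a : E.M₀) (b : E.M₁), z = E.ρ₀ a + xB D K ^ n • E.ρ₁ b := by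
  obtain ⟨n₀, h⟩ := helper3115.exists_range_delta_twist_eq_top E
  refine ⟨n₀, fun n hn => (range_dtw_eq_top_iff E n).mp ?_⟩
  have hd : (helper3115.twist E (n : ℤ)).delta = helper3115.dtw E (n : ℤ) :=
    helper3115.twist_delta E (n : ℤ)
  rw [← hd]
  exact h (n : ℤ) (by exact_mod_cast hn)

/-- RIEMANN'S INEQUALITY for the twists: `χ(E) + n · degInf D ≤ dim H⁰(E(n · D∞))`. -/
theorem chi_le_finrank_secSub (n : ℕ) :
    E.chi + (n : ℤ) * helper1153.degInf D ≤ (finrank K ↥(helper2531.secSub E n) : ℤ) := by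
  have h := (finCoh_dtw_and_index E n).2
  rw [helper3115.index, finrank_ker_dtw] at h
  have h0 : (0 : ℤ) ≤ (finrank K (E.M₀₁ ⧸ LinearMap.range (helper3115.dtw E (n : ℤ))) : ℤ) :=
    Int.natCast_nonneg _
  linarith

/-- (S3) If `H¹(E(n · D∞)) = 0` then `dim H⁰(E(n · D∞)) = χ(E) + n · degInf D`. -/
theorem finrank_secSub (n : ℕ)
    (hserre : ∀ z : E.M₀₁, ∃ (a : E.M₀) (b : E.M₁), z = E.ρ₀ a + xB D K ^ n • E.ρ₁ b) :
    (finrank K ↥(helper2531.secSub E n) : ℤ) = E.chi + (n : ℤ) * helper1153.degInf D := by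
  have h := (finCoh_dtw_and_index E n).2
  rw [helper3115.index, finrank_ker_dtw] at h
  have htop : LinearMap.range (helper3115.dtw E (n : ℤ)) = ⊤ := (range_dtw_eq_top_iff E n).mpr hserre
  have h0 : finrank K (E.M₀₁ ⧸ LinearMap.range (helper3115.dtw E (n : ℤ))) = 0 := by
    rw [htop]
    exact finrank_zero_of_subsingleton
  rw [h0] at h
  simpa using h

/-- `secSub E n ≠ ⊥` as soon as `0 < χ(E) + n · degInf D`. -/
theorem secSub_ne_bot (n : ℕ) (hpos : 0 < E.chi + (n : ℤ) * helper1153.degInf D) :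
    helper2531.secSub E n ≠ ⊥ := by
  intro h
  have h1 := chi_le_finrank_secSub E n
  have h2 : finrank K ↥(helper2531.secSub E n) = 0 := by
    rw [h]
    exact finrank_bot K E.M₀₁
  rw [h2] at h1
  simp only [Nat.cast_zero] at h1
  linarith

/-- (S4) THE PACKAGE consumed by `helper2531.exists_section_general_position`:
there is `n₀` such that for all `n ≥ n₀`: `H¹(E(n · D∞)) = 0` (in the `hserre` form) and
`dim H⁰(E((n+1) · D∞)) = χ(E) + (n+1) · degInf D`.  (Finite dimensionality of `secSub E (n+1)`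
is the instance `finiteDimensional_secSub`.) -/
theorem exists_forall_hserre_finrank :
    ∃ n₀ : ℕ, ∀ n : ℕ, n₀ ≤ n →
      (∀ z : E.M₀₁, ∃ (a : E.M₀) (b : E.M₁), z = E.ρ₀ a + xB D K ^ n • E.ρ₁ b) ∧
      (finrank K ↥(helper2531.secSub E (n + 1)) : ℤ) =
        E.chi + ((n + 1 : ℕ) : ℤ) * helper1153.degInf D := by
  obtain ⟨n₀, h⟩ := exists_hserre E
  exact ⟨n₀, fun n hn => ⟨h n hn, finrank_secSub E (n + 1) (h (n + 1) (Nat.le_succ_of_le hn))⟩⟩

/-- Same package with positivity: if `χ(E) ≥ c` for an integer `c` then for all `n ≥ n₀` with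
`0 < c + (n+1) · degInf D` the hypotheses `hserre`, `hpos` of
`helper2531.exists_section_general_position` hold at `n`. -/
theorem exists_forall_hserre_ne_bot :
    ∃ n₀ : ℕ, ∀ n : ℕ, n₀ ≤ n →
      (∀ z : E.M₀₁, ∃ (a : E.M₀) (b : E.M₁), z = E.ρ₀ a + xB D K ^ n • E.ρ₁ b) ∧
      helper2531.secSub E (n + 1) ≠ ⊥ ∧
      (finrank K ↥(helper2531.secSub E (n + 1)) : ℤ) =
        E.chi + ((n + 1 : ℕ) : ℤ) * helper1153.degInf D := by
  obtain ⟨n₀, h⟩ := exists_forall_hserre_finrank E
  -- make `n` large enough for positivity of `χ(E) + (n+1) · degInf D`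
  refine ⟨max n₀ (-E.chi).toNat, fun n hn => ?_⟩
  obtain ⟨h1, h2⟩ := h n (le_trans (le_max_left _ _) hn)
  refine ⟨h1, secSub_ne_bot E (n + 1) ?_, h2⟩
  have hn' : (-E.chi).toNat ≤ n := le_trans (le_max_right _ _) hn
  have hd : (1 : ℤ) ≤ (helper1153.degInf D : ℤ) := by exact_mod_cast helper1153.degInf_pos D
  have h3 : -E.chi ≤ (n : ℤ) := by
    have := Int.self_le_toNat (-E.chi)
    exact le_trans this (by exact_mod_cast hn')
  have h4 : ((n + 1 : ℕ) : ℤ) ≤ ((n + 1 : ℕ) : ℤ) * helper1153.degInf D := by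
    have h5 : (0 : ℤ) ≤ ((n + 1 : ℕ) : ℤ) := Int.natCast_nonneg _
    nlinarith
  push_cast at h4 ⊢
  linarith

/-- **General position, unconditional form.**  `helper2531.exists_section_general_position`
with its three hypotheses discharged: for every two-chart line bundle `E` over a field `K ⊇ k`
there is `n₀` such that for all `n ≥ n₀` there are a finite set `S` of `k`-rational points of
the first chart with `|S| + 1 = χ(E) + (n+1) · degInf D` and a section `(m₀, m₁)` of
`E((n+1) · D∞)` vanishing on `S`, unique up to a scalar, generating along `y = 0`, with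
`H¹(E((n+1) · D∞ - S)) = 0`. -/
theorem exists_section_general_position :
    ∃ n₀ : ℕ, ∀ n : ℕ, n₀ ≤ n →
      ∃ (S : Finset (D.R₀ →ₐ[k] k)) (m₀ : E.M₀) (m₁ : E.M₁),
        ((S.card : ℤ) + 1 = E.chi + ((n + 1 : ℕ) : ℤ) * helper1153.degInf D) ∧
        m₀ ≠ 0 ∧
        E.ρ₀ m₀ = xB D K ^ (n + 1) • E.ρ₁ m₁ ∧
        (∀ Q ∈ S, m₀ ∈ helper2531.mQ D K Q • (⊤ : Submodule (D.A₀ K) E.M₀)) ∧
        (∀ (m₀' : E.M₀) (m₁' : E.M₁), E.ρ₀ m₀' = xB D K ^ (n + 1) • E.ρ₁ m₁' →
          (∀ Q ∈ S, m₀' ∈ helper2531.mQ D K Q • (⊤ : Submodule (D.A₀ K) E.M₀)) →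
          ∃ c : K, m₀' = c • m₀ ∧ m₁' = c • m₁) ∧
        Submodule.span (D.A₁ K) {m₁} ⊔
          Ideal.span {yB D K} • (⊤ : Submodule (D.A₁ K) E.M₁) = ⊤ ∧
        (∀ z : E.M₀₁, ∃ (a : E.M₀) (b : E.M₁),
          (∀ Q ∈ S, a ∈ helper2531.mQ D K Q • (⊤ : Submodule (D.A₀ K) E.M₀)) ∧
          z = E.ρ₀ a + xB D K ^ (n + 1) • E.ρ₁ b) := by
  obtain ⟨n₀, h⟩ := exists_forall_hserre_ne_bot E
  refine ⟨n₀, fun n hn => ?_⟩
  obtain ⟨hserre, hpos, hcount⟩ := h n hn
  haveI : FiniteDimensional K ↥(helper2531.secSub E (n + 1)) := finiteDimensional_secSub E (n + 1)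
  obtain ⟨S, m₀, m₁, hS, h1, h2, h3, h4, h5, h6⟩ :=
    helper2531.exists_section_general_position E n hserre hpos
  refine ⟨S, m₀, m₁, ?_, h1, h2, h3, h4, h5, h6⟩
  rw [← hcount, ← hS]
  push_cast
  ring

end Fermat.Agent.S25.helper2303
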