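import Mathlib
import Fermat.Agent.S25.helper1705_Curve
import Fermat.Agent.Lib.helper9007_TensorDomain

/-!
# S25, leaf U5b (cover by charts): general position and its curve inputs (helper2531)

* `exists_finset_inf_iInf_finrank_eq_one`: the linear algebra of general position. Hyperplanes
  `H i` indexed by an infinite set, every nonzero vector in only finitely many of them, cut a
  subspace `W` down to a line avoiding finitely many prescribed subspaces.
* `x_ne_algebraMap`, `aeval_x_injective`: the coordinate `x` of a `CurveDatum` over an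
  algebraically closed field is not constant, hence transcendental.
* `exists_point_x_eq`, `infinite_points`: the first chart has a `k`-point over every value of
  `x`; in particular infinitely many `k`-points.
* `finite_points_x_eq`, `finite_zeros`, `finite_zeros_tensor`: a nonzero function on the first
  chart of `C_K` (`K` any field over `k`) vanishes at only finitely many `k`-rational points.
* `evB`: the `B`-point of the first chart of `C ×ₖ Spec B` induced by a `k`-point.
-/

set_option autoImplicit false
set_option linter.style.haveILetI false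

open Module Polynomial TensorProduct
open Fermat.Agent.S25.helper1705

namespace Fermat.Agent.S25.helper2531

section GeneralPosition

variable {K V ι : Type*} [Field K] [AddCommGroup V] [Module K V] [FiniteDimensional K V]

/-- A subspace that is the kernel of a functional meets `W` in a hyperplane of `W`
as soon as it does not contain `W`. -/
theorem finrank_inf_ker_of_not_le (W : Submodule K V) (f : V →ₗ[K] K)
    (h : ¬ W ≤ LinearMap.ker f) :
    finrank K (W ⊓ LinearMap.ker f : Submodule K V) + 1 = finrank K W := by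
  classical
  -- restrict `f` to `W`
  set g : W →ₗ[K] K := f.comp W.subtype with hg
  have hsurj : Function.Surjective g := by
    have : g ≠ 0 := by
      intro h0
      apply h
      intro w hw
      have := LinearMap.congr_fun h0 ⟨w, hw⟩
      simpa [hg] using this
    exact LinearMap.surjective_of_ne_zero this
  have hrank := LinearMap.finrank_range_add_finrank_ker g
  have hrange : finrank K (LinearMap.range g) = 1 := by
    rw [LinearMap.range_eq_top.mpr hsurj, finrank_top, finrank_self]
  have hker : finrank K (LinearMap.ker g) = finrank K (W ⊓ LinearMap.ker f : Submodule K V) := by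
    have e : (LinearMap.ker g).map W.subtype = W ⊓ LinearMap.ker f := by
      ext v
      simp only [Submodule.mem_map, LinearMap.mem_ker, Submodule.subtype_apply, Subtype.exists,
        exists_and_right, exists_eq_right, Submodule.mem_inf, hg, LinearMap.comp_apply]
      exact ⟨fun ⟨a, b⟩ => ⟨a, b⟩, fun ⟨a, b⟩ => ⟨a, b⟩⟩
    rw [← e]
    exact (LinearEquiv.finrank_eq (Submodule.equivMapOfInjective W.subtype
      (Submodule.injective_subtype W) (LinearMap.ker g)))
  omega

/-- **General position.** `H i` (`i` in an infinite index set) are subspaces of codimension at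
most one of a finite-dimensional space `V`, every nonzero vector lies in only finitely many of
them, and `P` is a finite set of subspaces. If a subspace `W` of dimension `d + 1` is contained
in no member of `P`, then `d` of the `H i` (with distinct indices avoiding a given finite set `T`)
cut `W` down to a line which is still contained in no member of `P`. -/
theorem exists_finset_inf_iInf_finrank_eq_one [Infinite ι] (H : ι → Submodule K V)
    (hcodim : ∀ i, ∃ f : V →ₗ[K] K, H i = LinearMap.ker f)
    (hfin : ∀ v : V, v ≠ 0 → {i | v ∈ H i}.Finite)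
    (P : Finset (Submodule K V)) :
    ∀ (d : ℕ) (W : Submodule K V) (T : Finset ι), finrank K W = d + 1 → (∀ p ∈ P, ¬ W ≤ p) →
      ∃ S : Finset ι, Disjoint S T ∧ S.card = d ∧
        finrank K (W ⊓ ⨅ i ∈ S, H i : Submodule K V) = 1 ∧
        ∀ p ∈ P, ¬ (W ⊓ ⨅ i ∈ S, H i) ≤ p := by
  classical
  intro d
  induction d with
  | zero =>
    intro W T hW hP
    have hemp : (⨅ i ∈ (∅ : Finset ι), H i : Submodule K V) = ⊤ := by simp
    refine ⟨∅, Finset.disjoint_empty_left _, rfl, ?_, ?_⟩
    · rw [hemp, inf_top_eq]; simpa using hW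
    · rw [hemp, inf_top_eq]; exact hP
  | succ d ih =>
    intro W T hW hP
    -- a nonzero vector of `W`
    have hWne : W ≠ ⊥ := by
      intro h
      rw [h, finrank_bot] at hW
      omega
    obtain ⟨w0, hw0W, hw0⟩ := (Submodule.ne_bot_iff W).mp hWne
    -- for every `p ∈ P` a nonzero vector of `W`, chosen in `W ⊓ p` whenever possible
    have hv : ∀ p : Submodule K V, ∃ v : V, v ∈ W ∧ v ≠ 0 ∧ (W ⊓ p ≠ ⊥ → v ∈ p) := by
      intro p
      by_cases hp : W ⊓ p = ⊥
      · exact ⟨w0, hw0W, hw0, fun h => absurd hp h⟩
      · obtain ⟨v, hv, hv0⟩ := (Submodule.ne_bot_iff _).mp hp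
        exact ⟨v, hv.1, hv0, fun _ => hv.2⟩
    choose v hvW hv0 hvp using hv
    -- the finite set of indices to avoid
    have hbad : (↑T ∪ {i | w0 ∈ H i} ∪ ⋃ p ∈ P, {i | v p ∈ H i} : Set ι).Finite := by
      refine Set.Finite.union (Set.Finite.union T.finite_toSet (hfin w0 hw0)) ?_
      exact Set.Finite.biUnion P.finite_toSet (fun p _ => hfin (v p) (hv0 p))
    obtain ⟨i, hi⟩ := hbad.exists_notMem
    simp only [Set.mem_union, Finset.mem_coe, Set.mem_ofPred_eq, Set.mem_iUnion, exists_prop,
      not_or, not_exists, not_and] at hi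
    obtain ⟨⟨hiT, hiw0⟩, hiv⟩ := hi
    obtain ⟨f, hf⟩ := hcodim i
    have hnotle : ¬ W ≤ LinearMap.ker f := fun h => hiw0 (hf ▸ h hw0W)
    have hdim : finrank K (W ⊓ H i : Submodule K V) = d + 1 := by
      have := finrank_inf_ker_of_not_le W f hnotle
      rw [hf]; omega
    -- the new subspace is still in general position with respect to `P`
    have hP' : ∀ p ∈ P, ¬ (W ⊓ H i) ≤ p := by
      intro p hp hle
      have hle' : W ⊓ H i ≤ W ⊓ p := le_inf inf_le_left hle
      by_cases hbot : W ⊓ p = ⊥
      · have : finrank K (W ⊓ H i : Submodule K V) = 0 := by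
          have h0 : W ⊓ H i = ⊥ := eq_bot_iff.mpr (hbot ▸ hle')
          rw [h0, finrank_bot]
        omega
      · have hlt : W ⊓ p < W := lt_of_le_of_ne inf_le_left (fun h => hP p hp (h ▸ inf_le_right))
        have h1 : finrank K (W ⊓ p : Submodule K V) < finrank K W :=
          Submodule.finrank_lt_finrank_of_lt hlt
        have h2 : finrank K (W ⊓ H i : Submodule K V) ≤ finrank K (W ⊓ p : Submodule K V) :=
          Submodule.finrank_mono hle'
        have heq : W ⊓ H i = W ⊓ p :=
          Submodule.eq_of_le_of_finrank_eq hle' (by omega)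
        have : v p ∈ W ⊓ H i := heq ▸ ⟨hvW p, hvp p hbot⟩
        exact hiv p hp this.2
    obtain ⟨S, hST, hScard, hSdim, hSP⟩ := ih (W ⊓ H i) (insert i T) hdim hP'
    have hiS : i ∉ S := fun h => (Finset.disjoint_left.mp hST h) (Finset.mem_insert_self i T)
    have hinf : (W ⊓ ⨅ j ∈ insert i S, H j : Submodule K V) = W ⊓ H i ⊓ ⨅ j ∈ S, H j := by
      rw [Finset.iInf_insert, inf_assoc]
    refine ⟨insert i S, ?_, ?_, ?_, ?_⟩
    · rw [Finset.disjoint_insert_left]
      exact ⟨hiT, Finset.disjoint_of_subset_right (Finset.subset_insert i T) hST⟩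
    · rw [Finset.card_insert_of_notMem hiS, hScard]
    · rw [hinf]; exact hSdim
    · intro p hp
      rw [hinf]; exact hSP p hp

end GeneralPosition

section Curve

universe u

variable {k : Type u} [Field k] (D : CurveDatum k)

/-- The function `x` of a curve datum is not a constant. -/
theorem x_ne_algebraMap [IsAlgClosed k] (c : k) : D.x ≠ algebraMap k D.R₀ c := by
  intro hx
  -- `aeval x` factors through evaluation at `c`
  have hφ : (Polynomial.aeval D.x : k[X] →ₐ[k] D.R₀).toRingHom =
      (algebraMap k D.R₀).comp (Polynomial.evalRingHom c) := by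
    apply Polynomial.ringHom_ext
    · intro a; simp
    · simp [hx]
  have hint : (algebraMap k D.R₀).IsIntegral := by
    have h1 : (Polynomial.aeval D.x : k[X] →ₐ[k] D.R₀).toRingHom.IsIntegral :=
      RingHom.IsIntegral.of_finite D.finite₀
    rw [hφ] at h1
    exact RingHom.IsIntegral.tower_top _ _ h1
  haveI : Algebra.IsIntegral k D.R₀ := algebraMap_isIntegral_iff.mp hint
  have hsurj : Function.Surjective (algebraMap k D.R₀) :=
    (IsAlgClosed.algebraMap_bijective_of_isIntegral (k := k) (K := D.R₀)).2
  haveI : Subsingleton (Ω[D.R₀⁄k]) := KaehlerDifferential.subsingleton_of_surjective k D.R₀ hsurj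
  have h10 : (1 : D.R₀) = 0 := by
    apply FaithfulSMul.eq_of_smul_eq_smul (α := Ω[D.R₀⁄k])
    intro m
    exact Subsingleton.elim _ _
  exact one_ne_zero h10

/-- The function `x` of a curve datum is transcendental over `k`. -/
theorem aeval_x_injective [IsAlgClosed k] :
    Function.Injective (Polynomial.aeval D.x : k[X] →ₐ[k] D.R₀) := by
  rw [injective_iff_map_eq_zero]
  intro p hp
  by_contra hp0
  have hint : IsIntegral k D.x := isAlgebraic_iff_isIntegral.mp ⟨p, hp0, hp⟩
  have hdeg : (minpoly k D.x).degree = 1 :=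
    IsAlgClosed.degree_eq_one_of_irreducible k (minpoly.irreducible hint)
  obtain ⟨c, hc⟩ := minpoly.mem_range_of_degree_eq_one k D.x hdeg
  exact x_ne_algebraMap D c hc.symm

/-- Over an algebraically closed field, the first chart has a `k`-point with any prescribed
`x`-coordinate. -/
theorem exists_point_x_eq [IsAlgClosed k] (c : k) : ∃ Q : D.R₀ →ₐ[k] k, Q D.x = c := by
  classical
  letI algR : Algebra k[X] D.R₀ := (Polynomial.aeval D.x : k[X] →ₐ[k] D.R₀).toRingHom.toAlgebra
  haveI : Module.Finite k[X] D.R₀ := D.finite₀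
  have hinj : Function.Injective (algebraMap k[X] D.R₀) := aeval_x_injective D
  -- the maximal ideal `(X - c)` of `k[X]`
  let ev : k[X] →+* k := (Polynomial.aeval c : k[X] →ₐ[k] k).toRingHom
  have hev : Function.Surjective ev := fun a => ⟨Polynomial.C a, by simp [ev]⟩
  haveI hP : (RingHom.ker ev).IsMaximal := RingHom.ker_isMaximal_of_surjective ev hev
  obtain ⟨m, hm, hmP⟩ := Ideal.exists_ideal_over_maximal_of_isIntegral (S := D.R₀) (RingHom.ker ev)
    (by rw [(RingHom.injective_iff_ker_eq_bot _).mp hinj]; exact bot_le)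
  haveI := hm
  let _ : Field (D.R₀ ⧸ m) := Ideal.Quotient.field m
  haveI : Algebra.FiniteType k D.R₀ := by
    have h1 : Algebra.FiniteType k[X] D.R₀ := inferInstance
    exact Algebra.FiniteType.trans (S := k[X]) inferInstance h1
  haveI : Algebra.FiniteType k (D.R₀ ⧸ m) :=
    Algebra.FiniteType.of_surjective (Ideal.Quotient.mkₐ k m) (Ideal.Quotient.mkₐ_surjective k m)
  haveI : Module.Finite k (D.R₀ ⧸ m) := finite_of_finite_type_of_isJacobsonRing k (D.R₀ ⧸ m)
  have hbij : Function.Bijective (algebraMap k (D.R₀ ⧸ m)) :=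
    IsAlgClosed.algebraMap_bijective_of_isIntegral
  let e : k ≃ₐ[k] (D.R₀ ⧸ m) := AlgEquiv.ofBijective (Algebra.ofId k (D.R₀ ⧸ m)) hbij
  refine ⟨(e.symm : (D.R₀ ⧸ m) →ₐ[k] k).comp (Ideal.Quotient.mkₐ k m), ?_⟩
  -- `x - c ∈ m`
  have hmem : (Polynomial.X - Polynomial.C c : k[X]) ∈ RingHom.ker ev := by
    simp [ev, RingHom.mem_ker]
  rw [← hmP, Ideal.mem_comap] at hmem
  have hx : algebraMap k[X] D.R₀ (Polynomial.X - Polynomial.C c) = D.x - algebraMap k D.R₀ c := by
    show Polynomial.aeval D.x (Polynomial.X - Polynomial.C c) = _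
    simp
  rw [hx] at hmem
  have h1 : Ideal.Quotient.mk m D.x = algebraMap k (D.R₀ ⧸ m) c := by
    have := Ideal.Quotient.eq.mpr hmem
    simpa using this
  show e.symm (Ideal.Quotient.mk m D.x) = c
  rw [h1]
  have : algebraMap k (D.R₀ ⧸ m) c = e c := rfl
  rw [this, AlgEquiv.symm_apply_apply]

/-- Over an algebraically closed field the first chart has infinitely many `k`-points. -/
theorem infinite_points [IsAlgClosed k] : Infinite (D.R₀ →ₐ[k] k) := by
  haveI : Infinite k := IsAlgClosed.instInfinite
  exact Infinite.of_surjective (fun Q : D.R₀ →ₐ[k] k => Q D.x) (exists_point_x_eq D)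

/-- Only finitely many `k`-points of the first chart have a given `x`-coordinate. -/
theorem finite_points_x_eq (c : k) : {Q : D.R₀ →ₐ[k] k | Q D.x = c}.Finite := by
  classical
  letI algR : Algebra k[X] D.R₀ := (Polynomial.aeval D.x : k[X] →ₐ[k] D.R₀).toRingHom.toAlgebra
  letI algk : Algebra k[X] k := (Polynomial.aeval c : k[X] →ₐ[k] k).toRingHom.toAlgebra
  haveI : Module.Finite k[X] D.R₀ := D.finite₀
  haveI : Finite (D.R₀ →ₐ[k[X]] k) := inferInstance
  let F : {Q : D.R₀ →ₐ[k] k | Q D.x = c} → (D.R₀ →ₐ[k[X]] k) := fun Q =>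
    { toRingHom := (Q.1 : D.R₀ →+* k)
      commutes' := fun p => by
        show Q.1 (Polynomial.aeval D.x p) = Polynomial.aeval c p
        rw [← Polynomial.aeval_algHom_apply, Q.2] }
  have hF : Function.Injective F := by
    intro Q Q' h
    apply Subtype.ext
    apply AlgHom.ext
    intro a
    exact congrArg (fun f : D.R₀ →ₐ[k[X]] k => f a) h
  exact Set.finite_coe_iff.mp (Finite.of_injective F hF)

/-- A nonzero function on the first chart has only finitely many zeros among the `k`-points. -/
theorem finite_zeros (r : D.R₀) (hr : r ≠ 0) : {Q : D.R₀ →ₐ[k] k | Q r = 0}.Finite := by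
  classical
  letI algR : Algebra k[X] D.R₀ := (Polynomial.aeval D.x : k[X] →ₐ[k] D.R₀).toRingHom.toAlgebra
  haveI : Module.Finite k[X] D.R₀ := D.finite₀
  have halg : IsAlgebraic k[X] r := (Algebra.IsIntegral.isIntegral r).isAlgebraic
  obtain ⟨q, hq0, s, hs⟩ := halg.exists_nonzero_dvd (mem_nonZeroDivisors_of_ne_zero hr)
  have hsub : {Q : D.R₀ →ₐ[k] k | Q r = 0} ⊆
      ⋃ c ∈ q.roots.toFinset, {Q : D.R₀ →ₐ[k] k | Q D.x = c} := by
    intro Q hQ
    have hQ' : Q r = 0 := hQ
    have h1 : Q (Polynomial.aeval D.x q) = 0 := by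
      have h2 : algebraMap k[X] D.R₀ q = Polynomial.aeval D.x q := rfl
      rw [← h2, hs, map_mul, hQ', zero_mul]
    rw [← Polynomial.aeval_algHom_apply] at h1
    simp only [Set.mem_iUnion, exists_prop]
    refine ⟨Q D.x, ?_, rfl⟩
    rw [Multiset.mem_toFinset, Polynomial.mem_roots hq0, Polynomial.IsRoot,
      ← Polynomial.coe_aeval_eq_eval]
    exact h1
  exact Set.Finite.subset
    (Set.Finite.biUnion (Finset.finite_toSet _) (fun c _ => finite_points_x_eq D c)) hsub

/-- The `B`-point of the first chart of `C ×ₖ Spec B` induced by a `k`-point of `C`. -/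
noncomputable def evB (B : Type u) [CommRing B] [Algebra k B] (Q : D.R₀ →ₐ[k] k) :
    D.A₀ B →ₐ[k] B :=
  Algebra.TensorProduct.lift ((Algebra.ofId k B).comp Q) (AlgHom.id k B) (fun _ _ => .all _ _)

@[simp]
theorem evB_tmul (B : Type u) [CommRing B] [Algebra k B] (Q : D.R₀ →ₐ[k] k) (r : D.R₀) (b : B) :
    evB D B Q (r ⊗ₜ[k] b) = algebraMap k B (Q r) * b := by
  simp [evB, Algebra.ofId_apply]

theorem evB_eq_lid_map (B : Type u) [CommRing B] [Algebra k B] (Q : D.R₀ →ₐ[k] k)
    (a : D.A₀ B) :
    evB D B Q a = Algebra.TensorProduct.lid k B (Algebra.TensorProduct.map Q (AlgHom.id k B) a) := by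
  induction a using TensorProduct.induction_on with
  | zero => simp
  | tmul r b => simp [Algebra.smul_def]
  | add x y hx hy => simp only [map_add, hx, hy]

/-- A nonzero function on the first chart of `C_K` has only finitely many zeros among the
`k`-rational points. -/
theorem finite_zeros_tensor (K : Type u) [Field K] [Algebra k K] (a : D.A₀ K) (ha : a ≠ 0) :
    {Q : D.R₀ →ₐ[k] k | evB D K Q a = 0}.Finite := by
  classical
  let b := Module.Basis.ofVectorSpace k K
  let bA := Algebra.TensorProduct.basis D.R₀ b
  obtain ⟨i, hi⟩ : ∃ i, bA.repr a i ≠ 0 := by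
    by_contra h
    push Not at h
    apply ha
    apply bA.repr.injective
    ext i
    simpa using h i
  refine Set.Finite.subset (finite_zeros D (bA.repr a i) hi) ?_
  intro Q hQ
  have hQ' : evB D K Q a = 0 := hQ
  have h := Fermat.Agent.Lib.helper9007.repr_lid_map b Q a i
  rw [← evB_eq_lid_map, hQ'] at h
  simpa using h.symm

end Curve

end Fermat.Agent.S25.helper2531
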