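import Mathlib

/-!
# S25, leaf U5 (COVER): general position, def-agnostic cores (helper6401)

Mathlib only.

* `exists_cut` : the linear-algebra core of general position (cut a space of sections down to a
  line by point conditions, staying outside finitely many bad subspaces).
* `finite_zeros_of_ne_zero` : a nonzero element of an invertible module over a domain whose proper
  principal quotients are finite-dimensional lies in `𝔪 • ⊤` for only finitely many maximal `𝔪`.
* `finite_quotient_span_of_finite_polynomial` : a domain that is module-finite over `K[X]` has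
  finite-dimensional proper principal quotients.

`exists_cut`: in a finite-dimensional space of sections `V`, with an infinite family of
"point conditions" `H q` (subspaces of codimension at most one, every nonzero section lying in
only finitely many of them) and finitely many "bad" subspaces `P ∈ S`, any subspace `W` of
dimension `m + 1` not contained in a bad subspace can be cut down by exactly `m` point conditions
(avoiding a prescribed finite set `F` of points) to a line that is still not contained in any bad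
subspace.
-/

set_option autoImplicit false

open Module

namespace Fermat.Agent.S25.helper6401

section LinearAlgebra

variable {K V ι : Type*} [Field K] [AddCommGroup V] [Module K V] [FiniteDimensional K V]

/-- A subspace of codimension at most one cuts the dimension of a subspace not contained in it
by exactly one. -/
theorem finrank_inf_add_one {H W : Submodule K V} (hH : finrank K (V ⧸ H) ≤ 1) (hW : ¬ W ≤ H) :
    finrank K ↥(W ⊓ H) + 1 = finrank K W := by
  have h1 := Submodule.finrank_sup_add_finrank_inf_eq W H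
  have h2 : finrank K (V ⧸ H) + finrank K H = finrank K V := Submodule.finrank_quotient_add_finrank H
  have h3 : finrank K ↥(W ⊔ H) ≤ finrank K V := Submodule.finrank_le _
  have h4 : finrank K H < finrank K ↥(W ⊔ H) := by
    apply Submodule.finrank_lt_finrank_of_lt
    refine lt_of_le_of_ne le_sup_right ?_
    intro h
    exact hW (h ▸ le_sup_left)
  omega

/-- **General position, linear-algebra core.** -/
theorem exists_cut [Infinite ι] (H : ι → Submodule K V)
    (hH : ∀ q, finrank K (V ⧸ H q) ≤ 1)
    (hfin : ∀ v : V, v ≠ 0 → {q | v ∈ H q}.Finite)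
    (S : Finset (Submodule K V)) :
    ∀ (m : ℕ) (W : Submodule K V), finrank K W = m + 1 → (∀ P ∈ S, ¬ W ≤ P) →
      ∀ F : Finset ι, ∃ qs : Finset ι, Disjoint qs F ∧ qs.card = m ∧
        finrank K ↥(W ⊓ ⨅ q ∈ qs, H q) = 1 ∧ ∀ P ∈ S, ¬ (W ⊓ ⨅ q ∈ qs, H q) ≤ P := by
  classical
  intro m
  induction m with
  | zero =>
    intro W hW hS F
    have h0 : W ⊓ ⨅ q ∈ (∅ : Finset ι), H q = W := by simp
    refine ⟨∅, Finset.disjoint_empty_left _, rfl, ?_, ?_⟩
    · rw [h0]; exact hW
    · rw [h0]; exact hS
  | succ m ih =>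
    intro W hW hS F
    -- a nonzero vector of `W`
    have hWpos : 0 < finrank K W := by omega
    obtain ⟨w, hw0⟩ : ∃ w : W, w ≠ 0 := by
      have : Nontrivial W := Module.finrank_pos_iff.mp hWpos
      exact exists_ne 0
    have hwV : (w : V) ≠ 0 := fun h => hw0 (Subtype.ext h)
    -- for each bad `P`, a nonzero vector of `W ⊓ P`
    have hbad : ∀ P ∈ S, {q | ¬ W ≤ H q ∧ W ⊓ H q ≤ P}.Finite := by
      intro P hP
      have hPW : finrank K ↥(W ⊓ P) < finrank K W := by
        apply Submodule.finrank_lt_finrank_of_lt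
        refine lt_of_le_of_ne inf_le_left ?_
        intro h
        exact hS P hP (h ▸ inf_le_right)
      by_cases hne : ∃ q, ¬ W ≤ H q ∧ W ⊓ H q ≤ P
      · obtain ⟨q₀, hq₀, hq₀P⟩ := hne
        have hdim := finrank_inf_add_one (hH q₀) hq₀
        -- `W ⊓ P` has dimension `m + 1 ≥ 1`
        have hle : finrank K ↥(W ⊓ H q₀) ≤ finrank K ↥(W ⊓ P) :=
          Submodule.finrank_mono (le_inf inf_le_left hq₀P)
        have hpos : 0 < finrank K ↥(W ⊓ P) := by omega
        obtain ⟨u, hu0⟩ : ∃ u : ↥(W ⊓ P), u ≠ 0 := by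
          have : Nontrivial ↥(W ⊓ P) := Module.finrank_pos_iff.mp hpos
          exact exists_ne 0
        have huV : (u : V) ≠ 0 := fun h => hu0 (Subtype.ext h)
        refine (hfin _ huV).subset ?_
        rintro q ⟨hq, hqP⟩
        have hdimq := finrank_inf_add_one (hH q) hq
        have hle' : W ⊓ H q ≤ W ⊓ P := le_inf inf_le_left hqP
        have heq : W ⊓ H q = W ⊓ P := by
          apply Submodule.eq_of_le_of_finrank_le hle'
          omega
        have : (u : V) ∈ W ⊓ H q := by rw [heq]; exact u.2
        exact this.2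
      · refine Set.Finite.subset Set.finite_empty ?_
        intro q hq
        exact (hne ⟨q, hq⟩).elim
    have hbadAll : {q | W ≤ H q ∨ ∃ P ∈ S, ¬ W ≤ H q ∧ W ⊓ H q ≤ P}.Finite := by
      have h1 : {q | W ≤ H q}.Finite := (hfin _ hwV).subset fun q hq => hq w.2
      have h2 : (⋃ P ∈ S, {q | ¬ W ≤ H q ∧ W ⊓ H q ≤ P}).Finite :=
        Set.Finite.biUnion S.finite_toSet hbad
      refine (h1.union h2).subset ?_
      rintro q (hq | ⟨P, hP, hq⟩)
      · exact Or.inl hq
      · exact Or.inr (Set.mem_biUnion hP hq)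
    obtain ⟨q, hq⟩ := ((hbadAll.union F.finite_toSet).infinite_compl).nonempty
    simp only [Set.mem_compl_iff, Set.mem_union, Set.mem_ofPred_eq, Finset.mem_coe, not_or,
      not_exists, not_and] at hq
    obtain ⟨⟨hq1, hq2⟩, hqF⟩ := hq
    have hdim := finrank_inf_add_one (hH q) hq1
    obtain ⟨qs, hdisj, hcard, hrank, hS'⟩ := ih (W ⊓ H q) (by omega)
      (fun P hP => hq2 P hP hq1) (insert q F)
    have hqqs : q ∉ qs := fun h =>
      (Finset.disjoint_left.mp hdisj h) (Finset.mem_insert_self q F)
    have hinf : W ⊓ ⨅ q' ∈ insert q qs, H q' = (W ⊓ H q) ⊓ ⨅ q' ∈ qs, H q' := by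
      rw [Finset.iInf_insert, inf_assoc]
    refine ⟨insert q qs, ?_, ?_, ?_, ?_⟩
    · rw [Finset.disjoint_insert_left]
      exact ⟨hqF, hdisj.mono_right (Finset.subset_insert q F)⟩
    · rw [Finset.card_insert_of_notMem hqqs, hcard]
    · rw [hinf]; exact hrank
    · rw [hinf]; exact hS'

end LinearAlgebra

section Zeros

/-! ## Zeros of a nonzero section of an invertible module -/

theorem exists_ne_zero_smul_mem_span {A M : Type*} [CommRing A] [IsDomain A]
    [AddCommGroup M] [Module A M] [Module.Invertible A M] {s : M} (hs : s ≠ 0) :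
    ∃ a : A, a ≠ 0 ∧ ∀ m : M, a • m ∈ Submodule.span A {s} := by
  -- a functional not vanishing at `s`
  obtain ⟨f, hf⟩ : ∃ f : Module.Dual A M, f s ≠ 0 := by
    by_contra h
    push Not at h
    apply hs
    apply (Module.bijective_dual_eval A M).injective
    ext f
    simpa using h f
  obtain ⟨r, hr⟩ := (Module.Invertible.toModuleEnd_bijective A M).surjective (f.smulRight s)
  have hr' : ∀ m : M, r • m = f m • s := fun m => by
    have := LinearMap.congr_fun hr m
    simpa using this
  have hrs : r = f s := by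
    have h1 : (r - f s) • s = 0 := by rw [sub_smul, hr' s, sub_self]
    rcases smul_eq_zero.mp h1 with h | h
    · exact sub_eq_zero.mp h
    · exact (hs h).elim
  refine ⟨f s, hf, fun m => ?_⟩
  rw [← hrs, hr' m]
  exact Submodule.smul_mem _ _ (Submodule.mem_span_singleton_self s)

theorem not_mem_smul_top_of_not_mem {A M : Type*} [CommRing A] [IsDomain A]
    [AddCommGroup M] [Module A M] [Module.Invertible A M] {s : M} {a : A}
    (ha : ∀ m : M, a • m ∈ Submodule.span A {s}) (𝔪 : Ideal A) [h𝔪 : 𝔪.IsMaximal]
    (hs : s ∈ 𝔪 • (⊤ : Submodule A M)) : a ∈ 𝔪 := by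
  by_contra ha𝔪
  -- `a` is a unit modulo `𝔪`
  obtain ⟨b, c, hc, hbc⟩ : ∃ b : A, ∃ c ∈ 𝔪, b * a + c = 1 := by
    have := h𝔪.exists_inv ha𝔪
    obtain ⟨b, c, hc, h⟩ := this
    exact ⟨b, c, hc, h⟩
  have htop : (⊤ : Submodule A M) ≤ 𝔪 • (⊤ : Submodule A M) := by
    intro m _
    have hm : m = b • (a • m) + c • m := by
      rw [smul_smul, ← add_smul, hbc, one_smul]
    rw [hm]
    refine Submodule.add_mem _ (Submodule.smul_mem _ _ ?_) (Submodule.smul_mem_smul hc trivial)
    have := ha m
    obtain ⟨t, ht⟩ := Submodule.mem_span_singleton.mp this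
    rw [← ht]
    exact Submodule.smul_mem _ _ hs
  obtain ⟨r, hr1, hr0⟩ := Submodule.exists_sub_one_mem_and_smul_eq_zero_of_fg_of_le_smul 𝔪
    (⊤ : Submodule A M) (Module.finite_def.mp inferInstance) htop
  have hr : r = 0 := by
    have : ∀ m : M, r • m = (0 : A) • m := fun m => by rw [zero_smul]; exact hr0 m trivial
    exact FaithfulSMul.eq_of_smul_eq_smul this
  rw [hr, zero_sub] at hr1
  exact h𝔪.ne_top ((Ideal.eq_top_iff_one _).mpr (by simpa using 𝔪.neg_mem hr1))

theorem finite_zeros_of_ne_zero {K A M : Type*} [Field K] [CommRing A] [IsDomain A] [Algebra K A]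
    [AddCommGroup M] [Module A M] [Module.Invertible A M]
    (hfin : ∀ a : A, a ≠ 0 → Module.Finite K (A ⧸ Ideal.span {a}))
    {s : M} (hs : s ≠ 0) :
    {𝔪 : Ideal A | 𝔪.IsMaximal ∧ s ∈ 𝔪 • (⊤ : Submodule A M)}.Finite := by
  obtain ⟨a, ha0, ha⟩ := exists_ne_zero_smul_mem_span (A := A) hs
  have := hfin a ha0
  have : IsArtinianRing (A ⧸ Ideal.span {a}) := IsArtinianRing.of_finite K _
  have hfinQ := IsArtinianRing.setOfPred_isMaximal_finite (A ⧸ Ideal.span {a})
  have hsurj : Function.Surjective (Ideal.Quotient.mk (Ideal.span {a})) :=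
    Ideal.Quotient.mk_surjective
  have hcm : ∀ 𝔪 : Ideal A, a ∈ 𝔪 →
      (𝔪.map (Ideal.Quotient.mk (Ideal.span {a}))).comap (Ideal.Quotient.mk (Ideal.span {a}))
        = 𝔪 := by
    intro 𝔪 ha𝔪
    rw [Ideal.comap_map_of_surjective' _ hsurj, Ideal.mk_ker, sup_eq_left,
      Ideal.span_singleton_le_iff_mem]
    exact ha𝔪
  refine (hfinQ.image (Ideal.comap (Ideal.Quotient.mk (Ideal.span {a})))).subset ?_
  rintro 𝔪 ⟨h𝔪, hs𝔪⟩
  have := h𝔪
  have ha𝔪 : a ∈ 𝔪 := not_mem_smul_top_of_not_mem ha 𝔪 hs𝔪
  refine ⟨𝔪.map (Ideal.Quotient.mk (Ideal.span {a})), ?_, hcm 𝔪 ha𝔪⟩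
  rcases Ideal.map_eq_top_or_isMaximal_of_surjective _ hsurj h𝔪 with h | h
  · exfalso
    have := hcm 𝔪 ha𝔪
    rw [h, Ideal.comap_top] at this
    exact h𝔪.ne_top this.symm
  · exact h

end Zeros

section FiniteQuotient

/-! ## Principal quotients of a domain finite over `K[X]` are finite-dimensional -/

open Polynomial

/-- In a domain, a nonzero element that is a root of a monic polynomial over `R` divides the image
of some element of `R` whose image is nonzero. -/
theorem exists_algebraMap_mem_span_of_monic {R A : Type*} [CommRing R] [CommRing A] [IsDomain A]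
    [Algebra R A] {a : A} (ha : a ≠ 0) :
    ∀ (n : ℕ) (p : R[X]), p.natDegree = n → p.Monic → aeval a p = 0 →
      ∃ c : R, algebraMap R A c ≠ 0 ∧ algebraMap R A c ∈ Ideal.span {a} := by
  intro n
  induction n with
  | zero =>
    intro p hn hp h0
    have : p = 1 := hp.natDegree_eq_zero.mp hn
    rw [this, map_one] at h0
    exact (one_ne_zero h0).elim
  | succ n ih =>
    intro p hn hp h0
    have hdecomp : aeval a p = a * aeval a p.divX + algebraMap R A (p.coeff 0) := by
      have h := congrArg (aeval a) (X_mul_divX_add p)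
      rw [map_add, map_mul, aeval_X, aeval_C] at h
      exact h.symm
    by_cases hc : algebraMap R A (p.coeff 0) = 0
    · rw [h0, hc, add_zero] at hdecomp
      have hq : aeval a p.divX = 0 := by
        rcases mul_eq_zero.mp hdecomp.symm with h | h
        · exact (ha h).elim
        · exact h
      have hqdeg : p.divX.natDegree = n := by
        rw [natDegree_divX_eq_natDegree_tsub_one, hn]; rfl
      have hqmonic : p.divX.Monic := by
        unfold Monic leadingCoeff
        rw [hqdeg, coeff_divX]
        have := hp.coeff_natDegree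
        rwa [hn] at this
      exact ih p.divX hqdeg hqmonic hq
    · refine ⟨p.coeff 0, hc, ?_⟩
      rw [h0] at hdecomp
      have : algebraMap R A (p.coeff 0) = a * (-(aeval a p.divX)) := by
        linear_combination -hdecomp
      rw [this]
      exact Ideal.mul_mem_right _ _ (Ideal.subset_span rfl)

theorem finite_quotient_span_of_finite_polynomial {K A : Type*} [Field K] [CommRing A]
    [IsDomain A] [Algebra K A] [Algebra K[X] A] [IsScalarTower K K[X] A] [Module.Finite K[X] A]
    {a : A} (ha : a ≠ 0) : Module.Finite K (A ⧸ Ideal.span {a}) := by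
  obtain ⟨p, hp, hp0⟩ := IsIntegral.of_finite K[X] a
  obtain ⟨c, hc0, hc⟩ := exists_algebraMap_mem_span_of_monic (R := K[X]) ha p.natDegree p rfl hp
    (by rwa [aeval_def])
  have hcne : c ≠ 0 := fun h => hc0 (by rw [h, map_zero])
  have hfinQ : Module.Finite K[X] (A ⧸ Ideal.span {a}) :=
    Module.Finite.of_surjective (Ideal.Quotient.mkₐ K[X] (Ideal.span {a})).toLinearMap
      Ideal.Quotient.mk_surjective
  -- `c` kills the quotient
  have hkill : ∀ q : A ⧸ Ideal.span {a}, c • q = 0 := by
    intro q
    obtain ⟨b, rfl⟩ := Ideal.Quotient.mk_surjective q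
    have h1 : algebraMap K[X] (A ⧸ Ideal.span {a}) c
        = Ideal.Quotient.mk (Ideal.span {a}) (algebraMap K[X] A c) := rfl
    rw [Algebra.smul_def, h1, ← map_mul, Ideal.Quotient.eq_zero_iff_mem]
    exact Ideal.mul_mem_right _ _ hc
  obtain ⟨r, g, hg⟩ := Module.Finite.exists_fin (R := K[X]) (M := A ⧸ Ideal.span {a})
  have hfinD : Module.Finite K (degreeLT K c.natDegree) :=
    Module.Finite.equiv (degreeLTEquiv K c.natDegree).symm
  let f : (Fin r → degreeLT K c.natDegree) →ₗ[K] (A ⧸ Ideal.span {a}) :=
    { toFun := fun v => ∑ i, (v i : K[X]) • g i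
      map_add' := fun v w => by simp [add_smul, Finset.sum_add_distrib]
      map_smul' := fun t v => by simp [Finset.smul_sum, smul_assoc] }
  refine Module.Finite.of_surjective f ?_
  intro q
  have hq : q ∈ Submodule.span K[X] (Set.range g) := by rw [hg]; trivial
  obtain ⟨cs, rfl⟩ := (Submodule.mem_span_range_iff_exists_fun K[X]).mp hq
  refine ⟨fun i => ⟨cs i % c, ?_⟩, ?_⟩
  · rw [mem_degreeLT]
    calc (cs i % c).degree < c.degree := degree_mod_lt _ hcne
      _ = c.natDegree := degree_eq_natDegree hcne
  · change ∑ i, (cs i % c) • g i = ∑ i, cs i • g i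
    refine Finset.sum_congr rfl fun i _ => ?_
    conv_rhs => rw [← EuclideanDomain.div_add_mod (cs i) c, add_smul, mul_smul, hkill, zero_add]

end FiniteQuotient

end Fermat.Agent.S25.helper6401
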