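import Mathlib

/-!
# S25, leaf U4 (chart theorem), part 1: definition-agnostic core (helper69)

Pure commutative algebra, Mathlib only.

## Section 1: invertible modules and colon ideals

For an invertible `A`-module `N`:
* `dual_apply_smul_comm` : `φ m • n = φ n • m` for `φ : Dual A N`;
* `exists_dual_partition` : `1 = ∑ φ j (e j)`;
* `colon_smul_top` : every submodule `N'` of `N` is `(N' : N) • N`;
* `colon_ideal_smul_top` : `(I • N : N) = I` for every ideal `I`;
  so `I ↦ I • N` is a bijection between ideals of `A` and submodules of `N`;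
* `quotient_finite_projective_of_quotient_smul` : if `A` is a `B`-algebra and `N ⧸ I • N` is a
  finite projective `B`-module then so is `A ⧸ I`.
-/

set_option autoImplicit false

open scoped TensorProduct

namespace Fermat.Agent.S25.helper69

section Invertible

variable {A : Type*} [CommRing A] {N : Type*} [AddCommGroup N] [Module A N]
  [Module.Invertible A N]

/-- In an invertible module, `φ m • n = φ n • m` for every linear functional `φ`. -/
theorem dual_apply_smul_comm (φ : Module.Dual A N) (m n : N) : φ m • n = φ n • m := by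
  have h : m ⊗ₜ[A] n = n ⊗ₜ[A] m := Module.Invertible.tmul_comm
  have := congrArg (TensorProduct.lift ((LinearMap.lsmul A N).comp φ)) h
  simpa using this

/-- A "partition of unity" for an invertible module: `1 = ∑ φ j (e j)`. -/
theorem exists_dual_partition :
    ∃ (n : ℕ) (φ : Fin n → Module.Dual A N) (e : Fin n → N), ∑ j, φ j (e j) = 1 := by
  classical
  obtain ⟨S, hS⟩ := ((Module.Invertible.linearEquiv A N).symm 1).exists_finset
  have h1 : ∑ i ∈ S, i.1 i.2 = (1 : A) := by
    have := congrArg (Module.Invertible.linearEquiv A N) hS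
    rw [LinearEquiv.apply_symm_apply, map_sum] at this
    rw [this]
    refine Finset.sum_congr rfl fun i _ => ?_
    simp [Module.Invertible.linearEquiv]
  refine ⟨S.card, fun j => (S.equivFin.symm j).1.1, fun j => (S.equivFin.symm j).1.2, ?_⟩
  rw [← h1, ← Finset.sum_coe_sort S]
  exact Fintype.sum_equiv S.equivFin.symm _ _ fun j => rfl

/-- Every submodule `N'` of an invertible module `N` is of the form `I • N`, with
`I = (N' : N)` the colon ideal. -/
theorem colon_smul_top (N' : Submodule A N) :
    N'.colon (Set.univ : Set N) • (⊤ : Submodule A N) = N' := by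
  apply le_antisymm
  · rw [Submodule.smul_le]
    intro r hr n _
    exact Submodule.mem_colon.mp hr n (Set.mem_univ n)
  · intro n' hn'
    obtain ⟨n, φ, e, h1⟩ := exists_dual_partition (A := A) (N := N)
    have : n' = ∑ j, φ j n' • e j := by
      calc n' = (1 : A) • n' := (one_smul A n').symm
        _ = ∑ j, φ j (e j) • n' := by rw [← h1, Finset.sum_smul]
        _ = ∑ j, φ j n' • e j := Finset.sum_congr rfl fun j _ => dual_apply_smul_comm _ _ _
    rw [this]
    refine Submodule.sum_mem _ fun j _ => Submodule.smul_mem_smul ?_ Submodule.mem_top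
    rw [Submodule.mem_colon]
    intro m _
    rw [dual_apply_smul_comm]
    exact N'.smul_mem _ hn'

/-- `(I • N : N) = I` for an invertible module `N`. -/
theorem colon_ideal_smul_top (I : Ideal A) :
    (I • (⊤ : Submodule A N)).colon (Set.univ : Set N) = I := by
  apply le_antisymm
  · intro a ha
    obtain ⟨n, φ, e, h1⟩ := exists_dual_partition (A := A) (N := N)
    have hφ : ∀ (ψ : Module.Dual A N) (z : N), z ∈ I • (⊤ : Submodule A N) → ψ z ∈ I := by
      intro ψ z hz
      refine Submodule.smul_induction_on hz (fun r hr m _ => ?_) (fun z₁ z₂ h₁ h₂ => ?_)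
      · simpa using I.mul_mem_right _ hr
      · simpa using I.add_mem h₁ h₂
    have : a = ∑ j, φ j (a • e j) := by
      simp only [map_smul, smul_eq_mul, ← Finset.mul_sum, h1, mul_one]
    rw [this]
    exact I.sum_mem fun j _ => hφ _ _ (Submodule.mem_colon.mp ha _ (Set.mem_univ _))
  · intro a ha
    rw [Submodule.mem_colon]
    intro m _
    exact Submodule.smul_mem_smul ha Submodule.mem_top

/-- `I ↦ I • N` is injective on ideals, for an invertible module `N`. -/
theorem ideal_smul_top_injective :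
    Function.Injective (fun I : Ideal A => I • (⊤ : Submodule A N)) := by
  intro I J h
  have := congrArg (fun P : Submodule A N => P.colon (Set.univ : Set N)) h
  simpa [colon_ideal_smul_top] using this

/-- The image of an injective map `t : M → N` of invertible modules is `I • N` for the
invertible ideal `I = (range t : N)`. -/
theorem invertible_colon_range {M : Type*} [AddCommGroup M] [Module A M] [Module.Invertible A M]
    (t : M →ₗ[A] N) (ht : Function.Injective t) :
    Module.Invertible A ((LinearMap.range t).colon (Set.univ : Set N)) := by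
  let f : M ⊗[A] Module.Dual A N →ₗ[A] A :=
    (contractLeft A N) ∘ₗ (t.lTensor (Module.Dual A N)) ∘ₗ
      (TensorProduct.comm A M (Module.Dual A N)).toLinearMap
  have hf_apply : ∀ (m : M) (φ : Module.Dual A N), f (m ⊗ₜ φ) = φ (t m) := by
    intro m φ
    simp [f]
  have hf : Function.Injective f := by
    have h1 : Function.Injective (contractLeft A N) := (Module.Invertible.bijective).1
    have h2 : Function.Injective (t.lTensor (Module.Dual A N)) :=
      Module.Flat.lTensor_preserves_injective_linearMap t ht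
    exact h1.comp (h2.comp (TensorProduct.comm A M (Module.Dual A N)).injective)
  have hrange : LinearMap.range f = (LinearMap.range t).colon (Set.univ : Set N) := by
    apply le_antisymm
    · rintro _ ⟨z, rfl⟩
      induction z using TensorProduct.induction_on with
      | zero => simp
      | tmul m φ =>
        rw [hf_apply, Submodule.mem_colon]
        intro n _
        rw [dual_apply_smul_comm]
        exact ⟨φ n • m, by simp⟩
      | add z₁ z₂ h₁ h₂ => rw [map_add]; exact Submodule.add_mem _ h₁ h₂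
    · intro a ha
      obtain ⟨n, φ, e, h1⟩ := exists_dual_partition (A := A) (N := N)
      have hmem : ∀ j, a • e j ∈ LinearMap.range t :=
        fun j => Submodule.mem_colon.mp ha _ (Set.mem_univ _)
      choose m hm using hmem
      refine ⟨∑ j, m j ⊗ₜ φ j, ?_⟩
      simp only [map_sum, hf_apply, hm, map_smul, smul_eq_mul, ← Finset.mul_sum, h1, mul_one]
  exact .congr ((LinearEquiv.ofInjective f hf).trans (LinearEquiv.ofEq _ _ hrange))

/-- If `A` is a `B`-algebra, `N` an invertible `A`-module, `I` an ideal of `A` and `N ⧸ I • N`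
is a finite projective `B`-module, then `A ⧸ I` is a finite projective `B`-module.
(`A ⧸ I` is a direct summand of a finite power of `N ⧸ I • N`.) -/
theorem quotient_finite_projective_of_quotient_smul {B : Type*} [CommRing B] [Algebra B A]
    [Module B N] [IsScalarTower B A N] (I : Ideal A)
    [Module.Finite B (N ⧸ I • (⊤ : Submodule A N))]
    [Module.Projective B (N ⧸ I • (⊤ : Submodule A N))] :
    Module.Finite B (A ⧸ I) ∧ Module.Projective B (A ⧸ I) := by
  classical
  obtain ⟨n, φ, e, h1⟩ := exists_dual_partition (A := A) (N := N)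
  have hφ : ∀ j, I • (⊤ : Submodule A N) ≤ Submodule.comap (φ j) I := by
    intro j
    rw [Submodule.smul_le]
    intro r hr m _
    simpa using I.mul_mem_right _ hr
  let i : (A ⧸ I) →ₗ[A] (Fin n → N ⧸ I • (⊤ : Submodule A N)) :=
    Submodule.liftQ I (LinearMap.pi fun j =>
      LinearMap.toSpanSingleton A _ (Submodule.Quotient.mk (e j))) (by
        intro a ha
        rw [LinearMap.mem_ker]
        funext j
        simp only [LinearMap.pi_apply, LinearMap.toSpanSingleton_apply, Pi.zero_apply,
          ← Submodule.Quotient.mk_smul]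
        rw [Submodule.Quotient.mk_eq_zero]
        exact Submodule.smul_mem_smul ha Submodule.mem_top)
  let s : (Fin n → N ⧸ I • (⊤ : Submodule A N)) →ₗ[A] (A ⧸ I) :=
    ∑ j, (Submodule.mapQ (I • (⊤ : Submodule A N)) I (φ j) (hφ j)) ∘ₗ LinearMap.proj j
  have hsi : ∀ a : A ⧸ I, s (i a) = a := by
    intro a
    obtain ⟨a, rfl⟩ := Submodule.Quotient.mk_surjective I a
    have hi : ∀ j, i (Submodule.Quotient.mk a) j =
        Submodule.Quotient.mk (p := I • (⊤ : Submodule A N)) (a • e j) := fun j => rfl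
    have hs : ∀ v : Fin n → N ⧸ I • (⊤ : Submodule A N),
        s v = ∑ j, Submodule.mapQ (I • (⊤ : Submodule A N)) I (φ j) (hφ j) (v j) := by
      intro v
      simp only [s, LinearMap.sum_apply, LinearMap.comp_apply, LinearMap.proj_apply]
    rw [hs]
    simp only [hi, Submodule.mapQ_apply, map_smul, smul_eq_mul]
    have hsum := map_sum (Submodule.mkQ I) (fun x => a * φ x (e x)) Finset.univ
    simp only [Submodule.mkQ_apply] at hsum
    rw [← hsum, ← Finset.mul_sum, h1, mul_one]
  let iB : (A ⧸ I) →ₗ[B] (Fin n → N ⧸ I • (⊤ : Submodule A N)) := i.restrictScalars B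
  let sB : (Fin n → N ⧸ I • (⊤ : Submodule A N)) →ₗ[B] (A ⧸ I) := s.restrictScalars B
  have hsi' : sB ∘ₗ iB = LinearMap.id := LinearMap.ext hsi
  have hsurj : Function.Surjective sB := fun a => ⟨i a, hsi a⟩
  have : Module.Projective B (Fin n → N ⧸ I • (⊤ : Submodule A N)) :=
    Module.Projective.of_equiv (DFinsupp.linearEquivFunOnFintype (R := B)
      (M := fun _ : Fin n => N ⧸ I • (⊤ : Submodule A N)))
  exact ⟨Module.Finite.of_surjective _ hsurj, Module.Projective.of_split _ _ hsi'⟩

end Invertible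

section Localization

variable {A A' : Type*} [CommRing A] [CommRing A'] [Algebra A A'] (S : Submonoid A)
  [IsLocalization S A']
  {N N' : Type*} [AddCommGroup N] [Module A N] [AddCommGroup N'] [Module A N'] [Module A' N']
  [IsScalarTower A A' N'] (ρ : N →ₗ[A] N') [IsLocalizedModule S ρ]

include S in
/-- Localization of `I • N`: the `A'`-span of the image of `I • N` is `(I A') • N'`. -/
theorem span_image_smul_top (I : Ideal A) :
    Submodule.span A' (ρ '' ((I • (⊤ : Submodule A N) : Submodule A N) : Set N)) =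
      I.map (algebraMap A A') • (⊤ : Submodule A' N') := by
  apply le_antisymm
  · rw [Submodule.span_le]
    rintro _ ⟨z, hz, rfl⟩
    refine Submodule.smul_induction_on hz (fun a ha n _ => ?_) (fun z₁ z₂ h₁ h₂ => ?_)
    · rw [SetLike.mem_coe, map_smul, ← algebraMap_smul A' a (ρ n)]
      exact Submodule.smul_mem_smul (Ideal.mem_map_of_mem _ ha) Submodule.mem_top
    · rw [SetLike.mem_coe, map_add]
      exact Submodule.add_mem _ h₁ h₂
  · rw [Submodule.smul_le]
    suffices H : ∀ r ∈ I.map (algebraMap A A'), ∀ n' : N', r • n' ∈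
        Submodule.span A' (ρ '' ((I • (⊤ : Submodule A N) : Submodule A N) : Set N)) from
      fun r hr n' _ => H r hr n'
    intro r hr
    have hr' : r ∈ Submodule.span A' (algebraMap A A' '' (I : Set A)) := hr
    refine Submodule.span_induction (p := fun r _ => ∀ n' : N', r • n' ∈
      Submodule.span A' (ρ '' ((I • (⊤ : Submodule A N) : Submodule A N) : Set N)))
      ?_ ?_ ?_ ?_ hr'
    · rintro _ ⟨a, ha, rfl⟩ n'
      obtain ⟨⟨n, s⟩, hs⟩ := IsLocalizedModule.surj S ρ n'
      obtain ⟨v, hv⟩ := (IsLocalization.map_units A' s).exists_left_inv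
      have key : algebraMap A A' a • n' = v • ρ (a • n) := by
        have h1 : ρ (a • n) = algebraMap A A' (s : A) • (algebraMap A A' a • n') := by
          rw [map_smul, ← hs, algebraMap_smul, algebraMap_smul, smul_comm]
          rfl
        rw [h1, ← mul_smul, hv, one_smul]
      rw [key]
      exact Submodule.smul_mem _ _ (Submodule.subset_span
        ⟨a • n, Submodule.smul_mem_smul ha Submodule.mem_top, rfl⟩)
    · intro n'
      simp
    · intro r₁ r₂ _ _ h₁ h₂ n'
      rw [add_smul]
      exact Submodule.add_mem _ (h₁ n') (h₂ n')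
    · intro c r₁ _ h₁ n'
      rw [smul_eq_mul, mul_smul]
      exact Submodule.smul_mem _ _ (h₁ n')

end Localization

/-! ## Section 2: the two-chart setting

`A₀₁ = A₀[1/x] = A₁[1/y]`.  The chart-at-infinity ideal of an ideal `I` of `A₀` is
`(I.map (algebraMap A₀ A₀₁)).comap (algebraMap A₁ A₀₁)` (`atInfty I` of leaf U3). -/

section TwoChart

variable {A₀ A₁ A₀₁ : Type*} [CommRing A₀] [CommRing A₁] [CommRing A₀₁]
  [Algebra A₀ A₀₁] [Algebra A₁ A₀₁]

/-- IDEAL CORE. If `I₁ ⊆ A₁` and `I₀ ⊆ A₀` have the same extension to the overlap and `I₁`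
contains an element `u ≡ 1 mod y`, then `I₁` is the chart-at-infinity ideal of `I₀`. -/
theorem eq_comap_map_of_map_eq (y : A₁) [IsLocalization.Away y A₀₁] (I₀ : Ideal A₀)
    (I₁ : Ideal A₁) (h : I₁.map (algebraMap A₁ A₀₁) = I₀.map (algebraMap A₀ A₀₁))
    (u : A₁) (hu : u ∈ I₁) (hu1 : u - 1 ∈ Ideal.span {y}) :
    I₁ = (I₀.map (algebraMap A₀ A₀₁)).comap (algebraMap A₁ A₀₁) := by
  apply le_antisymm
  · rw [← h]
    exact Ideal.le_comap_map
  · intro a ha
    rw [Ideal.mem_comap, ← h,
      IsLocalization.mem_map_algebraMap_iff (Submonoid.powers y) A₀₁] at ha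
    obtain ⟨⟨⟨i, hi⟩, ⟨_, n, rfl⟩⟩, hx⟩ := ha
    simp only at hx
    rw [← map_mul] at hx
    obtain ⟨⟨_, m, rfl⟩, hm⟩ := (IsLocalization.eq_iff_exists (Submonoid.powers y) A₀₁).mp hx
    simp only at hm
    -- `y ^ (m + n) * a ∈ I₁`
    have h1 : y ^ (m + n) * a ∈ I₁ := by
      have : y ^ (m + n) * a = y ^ m * i := by rw [← hm]; ring
      rw [this]
      exact I₁.mul_mem_left _ hi
    -- `y ^ (m + n)` and `u` are coprime
    obtain ⟨c, hc⟩ := Ideal.mem_span_singleton'.mp hu1
    have hcop : IsCoprime (y ^ (m + n)) u := by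
      apply IsCoprime.pow_left
      exact ⟨-c, 1, by rw [neg_mul, hc]; ring⟩
    obtain ⟨α, β, hαβ⟩ := hcop
    have : a = α * (y ^ (m + n) * a) + β * a * u := by
      calc a = (α * y ^ (m + n) + β * u) * a := by rw [hαβ, one_mul]
        _ = α * (y ^ (m + n) * a) + β * a * u := by ring
    rw [this]
    exact I₁.add_mem (I₁.mul_mem_left _ h1) (I₁.mul_mem_left _ hu)

variable (x : A₀) (y : A₁) [IsLocalization.Away x A₀₁] [IsLocalization.Away y A₀₁]
  {N₀ N₁ N₀₁ : Type*} [AddCommGroup N₀] [Module A₀ N₀] [AddCommGroup N₁] [Module A₁ N₁]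
  [AddCommGroup N₀₁] [Module A₀₁ N₀₁] [Module A₀ N₀₁] [Module A₁ N₀₁]
  [IsScalarTower A₀ A₀₁ N₀₁] [IsScalarTower A₁ A₀₁ N₀₁]
  [Module.Invertible A₀ N₀] [Module.Invertible A₁ N₁]
  (ρ₀ : N₀ →ₗ[A₀] N₀₁) (ρ₁ : N₁ →ₗ[A₁] N₀₁)
  [IsLocalizedModule (Submonoid.powers x) ρ₀] [IsLocalizedModule (Submonoid.powers y) ρ₁]

include x y in
/-- Two submodules `G₀ ⊆ N₀`, `G₁ ⊆ N₁` of the two charts of an invertible two-chart datum
that agree on the overlap have colon ideals with the same extension to the overlap. -/
theorem map_colon_eq_of_span_eq (G₀ : Submodule A₀ N₀) (G₁ : Submodule A₁ N₁)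
    (hG : Submodule.span A₀₁ (ρ₀ '' (G₀ : Set N₀)) = Submodule.span A₀₁ (ρ₁ '' (G₁ : Set N₁))) :
    (G₁.colon (Set.univ : Set N₁)).map (algebraMap A₁ A₀₁) =
      (G₀.colon (Set.univ : Set N₀)).map (algebraMap A₀ A₀₁) := by
  have : Module.Invertible A₀₁ N₀₁ := Module.Invertible.of_isLocalization (Submonoid.powers x) ρ₀
  have h0 := span_image_smul_top (A' := A₀₁) (Submonoid.powers x) ρ₀
    (G₀.colon (Set.univ : Set N₀))
  have h1 := span_image_smul_top (A' := A₀₁) (Submonoid.powers y) ρ₁
    (G₁.colon (Set.univ : Set N₁))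
  rw [colon_smul_top] at h0 h1
  exact ideal_smul_top_injective (N := N₀₁) (h1.symm.trans (hG.symm.trans h0))

include x y in
/-- CHART THEOREM, core (section ⟹ divisor, the chart at infinity).
Let `G₀ ⊆ N₀`, `G₁ ⊆ N₁` be submodules of the two charts of an invertible two-chart datum,
agreeing on the overlap, with `G₁ + y N₁ = N₁` ("the quotient is supported off `V(y)`").
Then `(G₁ : N₁)` contains some `u ≡ 1 mod y` and is the chart-at-infinity ideal of `(G₀ : N₀)`;
consequently `G₀ = I • N₀` and `G₁ = atInfty I • N₁` for `I = (G₀ : N₀)`. -/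
theorem colon_eq_comap_map_colon (G₀ : Submodule A₀ N₀) (G₁ : Submodule A₁ N₁)
    (hG : Submodule.span A₀₁ (ρ₀ '' (G₀ : Set N₀)) = Submodule.span A₀₁ (ρ₁ '' (G₁ : Set N₁)))
    (hy : G₁ ⊔ Ideal.span {y} • (⊤ : Submodule A₁ N₁) = ⊤) :
    (∃ u ∈ G₁.colon (Set.univ : Set N₁), u - 1 ∈ Ideal.span {y}) ∧
      G₁.colon (Set.univ : Set N₁) =
        ((G₀.colon (Set.univ : Set N₀)).map (algebraMap A₀ A₀₁)).comap (algebraMap A₁ A₀₁) := by
  have hu : ∃ u ∈ G₁.colon (Set.univ : Set N₁), u - 1 ∈ Ideal.span {y} := by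
    -- Nakayama on the finite module `N₁ ⧸ G₁`
    have hfg : (⊤ : Submodule A₁ (N₁ ⧸ G₁)).FG := Module.finite_def.mp inferInstance
    have hle : (⊤ : Submodule A₁ (N₁ ⧸ G₁)) ≤ Ideal.span {y} • ⊤ := by
      rintro z -
      obtain ⟨n, rfl⟩ := Submodule.Quotient.mk_surjective G₁ z
      have hn : n ∈ G₁ ⊔ Ideal.span {y} • (⊤ : Submodule A₁ N₁) := by
        rw [hy]; exact Submodule.mem_top
      obtain ⟨g, hg, w, hw, rfl⟩ := Submodule.mem_sup.mp hn
      have : (Submodule.Quotient.mk (g + w) : N₁ ⧸ G₁) = G₁.mkQ w := by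
        rw [Submodule.Quotient.mk_add, (Submodule.Quotient.mk_eq_zero G₁).mpr hg, zero_add]
        rfl
      rw [this]
      have := Submodule.mem_map_of_mem (f := G₁.mkQ) hw
      rw [Submodule.map_smul''] at this
      exact Submodule.smul_mono le_rfl le_top this
    obtain ⟨r, hr1, hr⟩ :=
      Submodule.exists_sub_one_mem_and_smul_eq_zero_of_fg_of_le_smul _ _ hfg hle
    refine ⟨r, ?_, hr1⟩
    rw [Submodule.mem_colon]
    intro n _
    have := hr (Submodule.Quotient.mk n) Submodule.mem_top
    rwa [← Submodule.Quotient.mk_smul, Submodule.Quotient.mk_eq_zero] at this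
  refine ⟨hu, ?_⟩
  obtain ⟨u, hu, hu1⟩ := hu
  exact eq_comap_map_of_map_eq y _ _ (map_colon_eq_of_span_eq x y ρ₀ ρ₁ G₀ G₁ hG) u hu hu1

omit [Module.Invertible A₀ N₀] [Module.Invertible A₁ N₁] in
include x y in
/-- CHART THEOREM, core (divisor ⟹ sub-pair). If `I₀ ⊆ A₀`, `I₁ ⊆ A₁` have the same extension
to the overlap, then `I₀ • N₀` and `I₁ • N₁` agree on the overlap. -/
theorem span_image_smul_top_eq (I₀ : Ideal A₀) (I₁ : Ideal A₁)
    (h : I₁.map (algebraMap A₁ A₀₁) = I₀.map (algebraMap A₀ A₀₁)) :
    Submodule.span A₀₁ (ρ₀ '' ((I₀ • (⊤ : Submodule A₀ N₀) : Submodule A₀ N₀) : Set N₀)) =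
      Submodule.span A₀₁ (ρ₁ '' ((I₁ • (⊤ : Submodule A₁ N₁) : Submodule A₁ N₁) : Set N₁)) := by
  rw [span_image_smul_top (A' := A₀₁) (Submonoid.powers x) ρ₀ I₀,
    span_image_smul_top (A' := A₀₁) (Submonoid.powers y) ρ₁ I₁, h]

omit [Module.Invertible A₁ N₁] in
/-- If `I₁` contains `u ≡ 1 mod y` then `I₁ • N₁ + y N₁ = N₁`. -/
theorem smul_top_sup_span_smul_top (I₁ : Ideal A₁) (u : A₁) (hu : u ∈ I₁)
    (hu1 : u - 1 ∈ Ideal.span {y}) :
    I₁ • (⊤ : Submodule A₁ N₁) ⊔ Ideal.span {y} • (⊤ : Submodule A₁ N₁) = ⊤ := by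
  rw [eq_top_iff]
  rintro n -
  have : n = u • n + (-(u - 1)) • n := by
    rw [neg_smul, sub_smul, one_smul]; abel
  rw [this]
  exact Submodule.add_mem_sup (Submodule.smul_mem_smul hu Submodule.mem_top)
    (Submodule.smul_mem_smul ((Ideal.span {y}).neg_mem hu1) Submodule.mem_top)

end TwoChart

section Projective

variable {A : Type*} [CommRing A] {N : Type*} [AddCommGroup N] [Module A N]
  [Module.Invertible A N]

/-- If `A` is a `B`-algebra, `N` an invertible `A`-module, `I` an ideal of `A` and `A ⧸ I`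
is a finite projective `B`-module, then `N ⧸ I • N` is a finite projective `B`-module.
(`N ⧸ I • N` is a direct summand of a finite power of `A ⧸ I`.) -/
theorem quotient_smul_finite_projective_of_quotient {B : Type*} [CommRing B] [Algebra B A]
    [Module B N] [IsScalarTower B A N] (I : Ideal A)
    [Module.Finite B (A ⧸ I)] [Module.Projective B (A ⧸ I)] :
    Module.Finite B (N ⧸ I • (⊤ : Submodule A N)) ∧
      Module.Projective B (N ⧸ I • (⊤ : Submodule A N)) := by
  classical
  obtain ⟨n, φ, e, h1⟩ := exists_dual_partition (A := A) (N := N)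
  have hφ : ∀ j, I • (⊤ : Submodule A N) ≤ Submodule.comap (φ j) I := by
    intro j
    rw [Submodule.smul_le]
    intro r hr m _
    simpa using I.mul_mem_right _ hr
  -- `i : N ⧸ I N → (A ⧸ I)^n`, `m ↦ (φ j m)_j`; `s : (A ⧸ I)^n → N ⧸ I N`, `(a_j) ↦ ∑ a_j e_j`
  let i : (N ⧸ I • (⊤ : Submodule A N)) →ₗ[A] (Fin n → A ⧸ I) :=
    LinearMap.pi fun j => Submodule.mapQ (I • (⊤ : Submodule A N)) I (φ j) (hφ j)
  let s : (Fin n → A ⧸ I) →ₗ[A] (N ⧸ I • (⊤ : Submodule A N)) :=
    ∑ j, (Submodule.liftQ I (LinearMap.toSpanSingleton A _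
      (Submodule.Quotient.mk (p := I • (⊤ : Submodule A N)) (e j))) (by
        intro a ha
        rw [LinearMap.mem_ker, LinearMap.toSpanSingleton_apply, ← Submodule.Quotient.mk_smul,
          Submodule.Quotient.mk_eq_zero]
        exact Submodule.smul_mem_smul ha Submodule.mem_top)) ∘ₗ LinearMap.proj j
  have hsi : ∀ z : N ⧸ I • (⊤ : Submodule A N), s (i z) = z := by
    intro z
    obtain ⟨m, rfl⟩ := Submodule.Quotient.mk_surjective _ z
    have hi : ∀ j, i (Submodule.Quotient.mk m) j = Submodule.Quotient.mk (p := I) (φ j m) :=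
      fun j => rfl
    have hs : ∀ v : Fin n → A ⧸ I,
        s v = ∑ j, (Submodule.liftQ I (LinearMap.toSpanSingleton A _
          (Submodule.Quotient.mk (p := I • (⊤ : Submodule A N)) (e j))) (by
            intro a ha
            rw [LinearMap.mem_ker, LinearMap.toSpanSingleton_apply, ← Submodule.Quotient.mk_smul,
              Submodule.Quotient.mk_eq_zero]
            exact Submodule.smul_mem_smul ha Submodule.mem_top)) (v j) := by
      intro v
      simp only [s, LinearMap.sum_apply, LinearMap.comp_apply, LinearMap.proj_apply]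
    rw [hs]
    simp only [hi, Submodule.liftQ_apply, LinearMap.toSpanSingleton_apply,
      ← Submodule.Quotient.mk_smul]
    have hsum := map_sum (Submodule.mkQ (I • (⊤ : Submodule A N))) (fun j => φ j m • e j)
      Finset.univ
    simp only [Submodule.mkQ_apply] at hsum
    rw [← hsum]
    congr 1
    calc ∑ j, φ j m • e j = ∑ j, φ j (e j) • m :=
          Finset.sum_congr rfl fun j _ => dual_apply_smul_comm _ _ _
      _ = m := by rw [← Finset.sum_smul, h1, one_smul]
  let iB : (N ⧸ I • (⊤ : Submodule A N)) →ₗ[B] (Fin n → A ⧸ I) := i.restrictScalars B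
  let sB : (Fin n → A ⧸ I) →ₗ[B] (N ⧸ I • (⊤ : Submodule A N)) := s.restrictScalars B
  have hsi' : sB ∘ₗ iB = LinearMap.id := LinearMap.ext hsi
  have hsurj : Function.Surjective sB := fun a => ⟨i a, hsi a⟩
  have : Module.Projective B (Fin n → A ⧸ I) :=
    Module.Projective.of_equiv (DFinsupp.linearEquivFunOnFintype (R := B)
      (M := fun _ : Fin n => A ⧸ I))
  exact ⟨Module.Finite.of_surjective _ hsurj, Module.Projective.of_split _ _ hsi'⟩

end Projective

end Fermat.Agent.S25.helper69
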