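import Mathlib
import Fermat.Agent.S25.helper2531_CoverCore
import Fermat.Agent.S25.helper2945_AlgDefs
import Fermat.Agent.S25.helper3115_Twist
import Fermat.Agent.S25.helper6401_Cover
import Fermat.Agent.S25.helper69_ChartThm

/-!
# S25, leaf U5b (cover by charts): the field-level cover theorem in section form (helper2531)

Setting: `k` algebraically closed, `D : CurveDatum k`, `K` a field over `k`, `E : GlueDatum D K`
(helper2945's two-chart line bundles). Twists by `n · D∞` are expressed inside `E.M₀₁`: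
sections of `E(n · D∞)` over the chart at infinity are the elements `xⁿ • ρ₁ b` (`tw E n`).

Main result `exists_section_general_position`: if `H¹(E(n · D∞)) = 0` and the space `secSub E (n+1)`
of global sections of `E((n+1) · D∞)` is finite-dimensional and nonzero, then there are
`dim - 1` distinct `k`-rational points `S` of the first chart and a section of
`E((n+1) · D∞)` vanishing on `S`, unique up to a scalar, not vanishing at any point of `y = 0`,
and such that `H¹(E((n+1) · D∞ - S)) = 0`.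

Applied to `E = Hom(G, 𝒪)` for a degree-zero bundle `G` this says that `G` lies in the chart
attached to the bundle `𝒪((n+1) · D∞ - S)` (which is defined over `k`, of degree `g`).

Auxiliary results: `exists_line_of_sup_eq_top` (the statement in abstract lattice form),
`ρ₀_injective`, `ρ₁_injective` (lattice view of a `GlueDatum` over a field), `mQ` (ideal of a
`k`-rational point of `C_K`), `finite_infPoints` (finitely many points at infinity),
`span_sup_y_smul_eq_top` (a section vanishing at no point of `y = 0` generates along `y = 0`).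
-/

set_option autoImplicit false
set_option linter.style.haveILetI false

open Module Polynomial TensorProduct
open Fermat.Agent.S25.helper1705 Fermat.Agent.S25.helper2945

namespace Fermat.Agent.S25.helper2531

section AbstractCover

variable {K N ι : Type*} [Field K] [AddCommGroup N] [Module K N]

/-- **Abstract cover lemma** (lattice form). `Λ₀`, `Λ₁' ≤ Λ₁` are subspaces of `N` with
`Λ₀ + Λ₁' = N` (vanishing of `H¹` one twist below), the space of sections `Λ₀ ⊓ Λ₁` is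
finite-dimensional and nonzero, `Z i` are point conditions (each cut out in `Λ₀` by one linear
functional, every nonzero section satisfying only finitely many of them), and `P` is a finite set
of subspaces containing `Λ₁'` but not `Λ₁` (the conditions "vanishing at a point at infinity").
Then `dim - 1` point conditions cut the sections down to a line `K ∙ s`, with `s` outside every
member of `P`, and `H¹` still vanishes after imposing these point conditions. -/
theorem exists_line_of_sup_eq_top [Infinite ι]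
    (Λ₀ Λ₁' Λ₁ : Submodule K N) (hle : Λ₁' ≤ Λ₁) (hsup : Λ₀ ⊔ Λ₁' = ⊤)
    [FiniteDimensional K ↥(Λ₀ ⊓ Λ₁)] (hpos : Λ₀ ⊓ Λ₁ ≠ ⊥)
    (Z : ι → Submodule K N)
    (hcodim : ∀ i, ∃ f : ↥Λ₀ →ₗ[K] K, ∀ v : ↥Λ₀, (v : N) ∈ Z i ↔ f v = 0)
    (hfin : ∀ v ∈ Λ₀ ⊓ Λ₁, v ≠ 0 → {i | v ∈ Z i}.Finite)
    (P : Finset (Submodule K N)) (hP : ∀ p ∈ P, Λ₁' ≤ p ∧ ¬ Λ₁ ≤ p) :
    ∃ (S : Finset ι) (s : N), S.card + 1 = finrank K ↥(Λ₀ ⊓ Λ₁) ∧ s ≠ 0 ∧
      Λ₀ ⊓ Λ₁ ⊓ ⨅ i ∈ S, Z i = K ∙ s ∧ (∀ p ∈ P, s ∉ p) ∧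
      (Λ₀ ⊓ ⨅ i ∈ S, Z i) ⊔ Λ₁ = ⊤ := by
  classical
  set V : Submodule K N := Λ₀ ⊓ Λ₁ with hV
  -- sections surject onto `Λ₁ / Λ₁'`, so `V` is contained in no member of `P`
  have hVP : ∀ p ∈ P, ¬ V ≤ p := by
    intro p hp hVp
    obtain ⟨h1, h2⟩ := hP p hp
    apply h2
    intro l hl
    have hl' : l ∈ Λ₀ ⊔ Λ₁' := by rw [hsup]; trivial
    obtain ⟨a, ha, b, hb, rfl⟩ := Submodule.mem_sup.mp hl'
    have haV : a ∈ V := ⟨ha, by
      have : a = (a + b) - b := by abel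
      rw [this]
      exact Λ₁.sub_mem hl (hle hb)⟩
    exact p.add_mem (hVp haV) (h1 hb)
  -- the functionals cutting out the point conditions
  choose f hf using hcodim
  -- point conditions inside `V`
  let ιV : ↥V →ₗ[K] ↥Λ₀ := Submodule.inclusion inf_le_left
  let H : ι → Submodule K ↥V := fun i => LinearMap.ker ((f i).comp ιV)
  have hH : ∀ i (v : ↥V), v ∈ H i ↔ (v : N) ∈ Z i := by
    intro i v
    simp only [H, LinearMap.mem_ker, LinearMap.comp_apply]
    exact (hf i (ιV v)).symm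
  have hfinV : ∀ v : ↥V, v ≠ 0 → {i | v ∈ H i}.Finite := by
    intro v hv
    have := hfin v.1 v.2 (fun h => hv (Subtype.ext h))
    refine this.subset ?_
    intro i hi
    exact (hH i v).mp hi
  let P' : Finset (Submodule K ↥V) := P.image (fun p => Submodule.comap V.subtype p)
  have hP' : ∀ p' ∈ P', ¬ (⊤ : Submodule K ↥V) ≤ p' := by
    intro p' hp' htop
    obtain ⟨p, hp, rfl⟩ := Finset.mem_image.mp hp'
    apply hVP p hp
    intro v hv
    have : (⟨v, hv⟩ : ↥V) ∈ Submodule.comap V.subtype p := htop trivial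
    exact this
  have hdimpos : 0 < finrank K ↥V := by
    rw [finrank_pos_iff_exists_ne_zero]
    obtain ⟨v, hv, hv0⟩ := (Submodule.ne_bot_iff V).mp hpos
    exact ⟨⟨v, hv⟩, fun h => hv0 (congrArg Subtype.val h)⟩
  obtain ⟨d, hd⟩ : ∃ d, finrank K ↥V = d + 1 := ⟨finrank K ↥V - 1, by omega⟩
  have htopdim : finrank K (⊤ : Submodule K ↥V) = d + 1 := by rw [finrank_top, hd]
  obtain ⟨S, -, hScard, hSdim, hSP⟩ :=
    exists_finset_inf_iInf_finrank_eq_one H (fun i => ⟨(f i).comp ιV, rfl⟩) hfinV P' d ⊤ ∅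
      htopdim hP'
  rw [top_inf_eq] at hSdim
  simp only [top_inf_eq] at hSP
  -- the line `L` inside `V`
  obtain ⟨L, hL⟩ : ∃ L : Submodule K ↥V, L = ⨅ i ∈ S, H i := ⟨_, rfl⟩
  rw [← hL] at hSdim hSP
  obtain ⟨s', hs'0, hs'⟩ := finrank_eq_one_iff'.mp hSdim
  obtain ⟨t, htL⟩ := s'
  have ht0 : t ≠ 0 := fun h => hs'0 (Subtype.ext h)
  have hLspan : L = K ∙ t := by
    apply le_antisymm
    · intro w hw
      obtain ⟨c, hc⟩ := hs' ⟨w, hw⟩
      rw [Submodule.mem_span_singleton]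
      exact ⟨c, congrArg Subtype.val hc⟩
    · rw [Submodule.span_singleton_le_iff_mem]
      exact htL
  have hLmem : ∀ v : ↥V, v ∈ L ↔ ∀ i ∈ S, (v : N) ∈ Z i := by
    intro v
    simp only [hL, Submodule.mem_iInf]
    exact forall₂_congr fun i _ => hH i v
  have hline : V ⊓ ⨅ i ∈ S, Z i = K ∙ (t : N) := by
    ext v
    simp only [Submodule.mem_inf, Submodule.mem_iInf, Submodule.mem_span_singleton]
    constructor
    · rintro ⟨hvV, hvZ⟩
      have : (⟨v, hvV⟩ : ↥V) ∈ L := (hLmem _).mpr hvZ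
      rw [hLspan, Submodule.mem_span_singleton] at this
      obtain ⟨c, hc⟩ := this
      exact ⟨c, by simpa using congrArg Subtype.val hc⟩
    · rintro ⟨c, rfl⟩
      have h1 : c • t ∈ L := L.smul_mem c htL
      have h2 := (hLmem (c • t)).mp h1
      exact ⟨(c • t).2, fun i hi => by simpa using h2 i hi⟩
  refine ⟨S, (t : N), by omega, ?_, hline, ?_, ?_⟩
  · intro h
    exact ht0 (Subtype.ext h)
  · intro p hp hsp
    apply hSP (Submodule.comap V.subtype p) (Finset.mem_image_of_mem _ hp)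
    rw [hLspan, Submodule.span_singleton_le_iff_mem]
    exact hsp
  · -- `H¹` vanishing: the sections surject onto `Λ₀ / (point conditions)`
    -- the evaluation map `Λ₀ → K^S`
    let F : ↥Λ₀ →ₗ[K] (↥S → K) := LinearMap.pi (fun i => f i.1)
    let FV : ↥V →ₗ[K] (↥S → K) := F.comp ιV
    have hkerFV : LinearMap.ker FV = L := by
      ext v
      simp only [FV, F, LinearMap.mem_ker, LinearMap.comp_apply, hL, Submodule.mem_iInf, H]
      constructor
      · intro h i hi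
        have := congrFun h ⟨i, hi⟩
        simpa using this
      · intro h
        funext i
        simpa using h i.1 i.2
    have hrank := LinearMap.finrank_range_add_finrank_ker FV
    rw [hkerFV, hSdim, hd] at hrank
    have hrange : LinearMap.range FV = ⊤ := by
      apply Submodule.eq_top_of_finrank_eq
      rw [Module.finrank_fintype_fun_eq_card, Fintype.card_coe]
      omega
    have hsurj : Function.Surjective FV := LinearMap.range_eq_top.mp hrange
    have hΛ₀ : Λ₀ ≤ (Λ₀ ⊓ ⨅ i ∈ S, Z i) ⊔ Λ₁ := by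
      intro v hv
      obtain ⟨w, hw⟩ := hsurj (F ⟨v, hv⟩)
      have hdiff : v - (w : N) ∈ Λ₀ ⊓ ⨅ i ∈ S, Z i := by
        refine Submodule.mem_inf.mpr ⟨Λ₀.sub_mem hv w.2.1, ?_⟩
        refine (Submodule.mem_iInf _).mpr fun i => (Submodule.mem_iInf _).mpr fun hi => ?_
        have h1 : f i (⟨v, hv⟩ - ιV w) = 0 := by
          have := congrFun hw ⟨i, hi⟩
          simp only [FV, F, LinearMap.comp_apply, LinearMap.pi_apply] at this
          rw [map_sub, this, sub_self]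
        exact (hf i (⟨v, hv⟩ - ιV w)).mpr h1
      have : v = (v - (w : N)) + (w : N) := by abel
      rw [this]
      exact Submodule.add_mem_sup hdiff w.2.2
    have h2 : Λ₀ ⊔ Λ₁' ≤ (Λ₀ ⊓ ⨅ i ∈ S, Z i) ⊔ Λ₁ :=
      sup_le hΛ₀ (le_trans hle le_sup_right)
    rw [hsup] at h2
    exact top_le_iff.mp h2

end AbstractCover

universe u

section Rings

variable {k : Type u} [Field k] (D : CurveDatum k) (K : Type u) [Field K] [Algebra k K]

instance isDomainA₀ [IsAlgClosed k] : IsDomain (D.A₀ K) :=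
  Fermat.Agent.Lib.helper9007.isDomain_tensorProduct_field k D.R₀ K

instance isDomainA₁ [IsAlgClosed k] : IsDomain (D.A₁ K) :=
  Fermat.Agent.Lib.helper9007.isDomain_tensorProduct_field k D.R₁ K

theorem x_ne_zero [IsAlgClosed k] : D.x ≠ 0 := by
  have := x_ne_algebraMap D (0 : k)
  simpa using this

theorem y_ne_zero [IsAlgClosed k] : D.y ≠ 0 := by
  intro hy
  have h := D.xy
  rw [hy, map_zero, mul_zero] at h
  -- `R₀₁` is a nontrivial ring: it is the localization of the domain `R₀` at `x ≠ 0`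
  have hinj : Function.Injective (algebraMap D.R₀ D.R₀₁) :=
    IsLocalization.injective D.R₀₁ (M := Submonoid.powers D.x)
      (powers_le_nonZeroDivisors_of_noZeroDivisors (x_ne_zero D))
  have : (algebraMap D.R₀ D.R₀₁) 0 = (algebraMap D.R₀ D.R₀₁) 1 := by
    rw [map_zero, map_one]; exact h
  exact zero_ne_one (hinj this)

theorem xB_ne_zero [IsAlgClosed k] : xB D K ≠ 0 := by
  intro h
  have hinj : Function.Injective (Algebra.TensorProduct.includeLeft : D.R₀ →ₐ[k] D.R₀ ⊗[k] K) :=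
    Algebra.TensorProduct.includeLeft_injective (FaithfulSMul.algebraMap_injective k K)
  apply x_ne_zero D
  apply hinj
  rw [map_zero]
  exact h

theorem yB_ne_zero [IsAlgClosed k] : yB D K ≠ 0 := by
  intro h
  have hinj : Function.Injective (Algebra.TensorProduct.includeLeft : D.R₁ →ₐ[k] D.R₁ ⊗[k] K) :=
    Algebra.TensorProduct.includeLeft_injective (FaithfulSMul.algebraMap_injective k K)
  apply y_ne_zero D
  apply hinj
  rw [map_zero]
  exact h

end Rings

section Datum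

variable {k : Type u} [Field k] {D : CurveDatum k} {K : Type u} [Field K] [Algebra k K]
  (E : GlueDatum D K)

/-- On the overlap, multiplication by `x` and by `y` are inverse to each other. -/
theorem x_smul_y_smul (z : E.M₀₁) : xB D K • (yB D K • z) = z := by
  rw [← IsScalarTower.algebraMap_smul (D.A₀₁ K) (xB D K),
    ← IsScalarTower.algebraMap_smul (D.A₀₁ K) (yB D K) z, smul_smul, xB_mul_yB, one_smul]

theorem ρ₀_injective [IsAlgClosed k] : Function.Injective E.ρ₀ := by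
  rw [injective_iff_map_eq_zero]
  intro m hm
  obtain ⟨⟨c, j, rfl⟩, hc⟩ := (IsLocalizedModule.eq_zero_iff (Submonoid.powers (xB D K)) E.ρ₀).mp hm
  have hreg : IsSMulRegular E.M₀ (xB D K ^ j) :=
    Module.Flat.isSMulRegular_of_nonZeroDivisors
      (mem_nonZeroDivisors_of_ne_zero (pow_ne_zero j (xB_ne_zero D K)))
  have h2 : xB D K ^ j • m = xB D K ^ j • (0 : E.M₀) := by rw [smul_zero]; exact hc
  exact hreg h2

theorem ρ₁_injective [IsAlgClosed k] : Function.Injective E.ρ₁ := by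
  rw [injective_iff_map_eq_zero]
  intro m hm
  obtain ⟨⟨c, j, rfl⟩, hc⟩ := (IsLocalizedModule.eq_zero_iff (Submonoid.powers (yB D K)) E.ρ₁).mp hm
  have hreg : IsSMulRegular E.M₁ (yB D K ^ j) :=
    Module.Flat.isSMulRegular_of_nonZeroDivisors
      (mem_nonZeroDivisors_of_ne_zero (pow_ne_zero j (yB_ne_zero D K)))
  have h2 : yB D K ^ j • m = yB D K ^ j • (0 : E.M₁) := by rw [smul_zero]; exact hc
  exact hreg h2


theorem xpow_smul_ypow_smul (n : ℕ) (z : E.M₀₁) : xB D K ^ n • (yB D K ^ n • z) = z := by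
  rw [← IsScalarTower.algebraMap_smul (D.A₀₁ K) (xB D K ^ n),
    ← IsScalarTower.algebraMap_smul (D.A₀₁ K) (yB D K ^ n) z, smul_smul, map_pow, map_pow,
    ← mul_pow, xB_mul_yB, one_pow, one_smul]

theorem ypow_smul_xpow_smul (n : ℕ) (z : E.M₀₁) : yB D K ^ n • (xB D K ^ n • z) = z := by
  rw [← IsScalarTower.algebraMap_smul (D.A₀₁ K) (xB D K ^ n),
    ← IsScalarTower.algebraMap_smul (D.A₀₁ K) (yB D K ^ n), smul_smul, map_pow, map_pow,
    ← mul_pow, mul_comm, xB_mul_yB, one_pow, one_smul]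

/-- Sections over the chart at infinity of the twist `E(n · D∞)`, inside `M₀₁`:
the `K`-linear map `b ↦ xⁿ • ρ₁ b`. -/
noncomputable def tw (n : ℕ) : E.M₁ →ₗ[K] E.M₀₁ :=
  ((LinearMap.lsmul (D.A₀ K) E.M₀₁ (xB D K ^ n)).restrictScalars K).comp E.ρ₁B

@[simp] theorem tw_apply (n : ℕ) (b : E.M₁) : tw E n b = xB D K ^ n • E.ρ₁ b := rfl

theorem tw_injective [IsAlgClosed k] (n : ℕ) : Function.Injective (tw E n) := by
  intro b b' h
  simp only [tw_apply] at h
  apply ρ₁_injective E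
  have := congrArg (fun z => yB D K ^ n • z) h
  simpa only [ypow_smul_xpow_smul] using this

theorem tw_succ_y_smul (n : ℕ) (b : E.M₁) : tw E (n + 1) (yB D K • b) = tw E n b := by
  simp only [tw_apply, map_smul, pow_succ, mul_smul, x_smul_y_smul]

/-- The space of global sections of the twist `E(n · D∞)`, as a `K`-subspace of `M₀₁`. -/
noncomputable def secSub (n : ℕ) : Submodule K E.M₀₁ :=
  LinearMap.range E.ρ₀B ⊓ LinearMap.range (tw E n)

theorem mem_secSub (n : ℕ) (z : E.M₀₁) :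
    z ∈ secSub E n ↔ (∃ a, E.ρ₀ a = z) ∧ ∃ b, xB D K ^ n • E.ρ₁ b = z := Iff.rfl

end Datum

section Points

variable {k : Type u} [Field k] (D : CurveDatum k) (K : Type u) [Field K] [Algebra k K]

/-- `evB D K Q` as a `K`-algebra map. -/
noncomputable def evK (Q : D.R₀ →ₐ[k] k) : D.A₀ K →ₐ[K] K :=
  { (evB D K Q : D.A₀ K →+* K) with
    commutes' := fun c => by
      show evB D K Q (algebraMap K (D.A₀ K) c) = c
      rw [algebraMap_B_A₀]; simp }

theorem evK_apply (Q : D.R₀ →ₐ[k] k) (a : D.A₀ K) : evK D K Q a = evB D K Q a := rfl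

theorem evK_surjective (Q : D.R₀ →ₐ[k] k) : Function.Surjective (evK D K Q) :=
  fun c => ⟨algebraMap K _ c, (evK D K Q).commutes c⟩

/-- The ideal of the `K`-point of the first chart of `C_K` induced by the `k`-point `Q`. -/
noncomputable def mQ (Q : D.R₀ →ₐ[k] k) : Ideal (D.A₀ K) := RingHom.ker (evK D K Q)

theorem mem_mQ (Q : D.R₀ →ₐ[k] k) (a : D.A₀ K) : a ∈ mQ D K Q ↔ evB D K Q a = 0 := Iff.rfl

theorem mQ_eq_ker (Q : D.R₀ →ₐ[k] k) : mQ D K Q = RingHom.ker (evB D K Q) := rfl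

instance mQ_isMaximal (Q : D.R₀ →ₐ[k] k) : (mQ D K Q).IsMaximal :=
  RingHom.ker_isMaximal_of_surjective (evK D K Q) (evK_surjective D K Q)

/-- The residue field of the point `Q` is `K`. -/
noncomputable def quotMQEquiv (Q : D.R₀ →ₐ[k] k) : (D.A₀ K ⧸ mQ D K Q) ≃ₐ[K] K :=
  Ideal.quotientKerAlgEquivOfSurjective (evK_surjective D K Q)

instance finite_quot_mQ (Q : D.R₀ →ₐ[k] k) : Module.Finite K (D.A₀ K ⧸ mQ D K Q) :=
  Module.Finite.equiv (quotMQEquiv D K Q).symm.toLinearEquiv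

theorem finrank_quot_mQ (Q : D.R₀ →ₐ[k] k) : finrank K (D.A₀ K ⧸ mQ D K Q) = 1 := by
  rw [(quotMQEquiv D K Q).toLinearEquiv.finrank_eq, finrank_self]

theorem mQ_injective : Function.Injective (mQ D K) := by
  intro Q Q' h
  apply AlgHom.ext
  intro r
  have h1 : (r ⊗ₜ[k] (1 : K) - algebraMap K (D.A₀ K) (algebraMap k K (Q r)) : D.A₀ K) ∈
      mQ D K Q := by
    rw [mem_mQ, map_sub, evB_tmul, algebraMap_B_A₀, evB_tmul]
    simp
  rw [h, mem_mQ, map_sub, evB_tmul, algebraMap_B_A₀, evB_tmul] at h1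
  have h2 : algebraMap k K (Q' r) = algebraMap k K (Q r) := by
    have := sub_eq_zero.mp h1
    simpa using this
  exact (FaithfulSMul.algebraMap_injective k K h2).symm

/-- `R₁ ⊗ K` is a finite module over `K[y]`. -/
theorem finite_polynomial_A₁ :
    letI : Algebra K[X] (D.A₁ K) :=
      (Polynomial.aeval (yB D K) : K[X] →ₐ[K] D.A₁ K).toRingHom.toAlgebra
    Module.Finite K[X] (D.A₁ K) := by
  classical
  letI algX : Algebra K[X] (D.A₁ K) :=
    (Polynomial.aeval (yB D K) : K[X] →ₐ[K] D.A₁ K).toRingHom.toAlgebra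
  letI algk : Algebra k[X] D.R₁ := (Polynomial.aeval D.y : k[X] →ₐ[k] D.R₁).toRingHom.toAlgebra
  have hfin : Module.Finite k[X] D.R₁ := D.finite₁
  obtain ⟨s, hs⟩ := hfin.fg_top
  refine ⟨⟨s.image (fun g => (g ⊗ₜ[k] (1 : K) : D.A₁ K)), ?_⟩⟩
  rw [eq_top_iff]
  rintro a -
  -- key identity: `p(y) ⊗ 1` is the action of the polynomial `p` with coefficients in `K`
  have key : ∀ p : k[X], algebraMap K[X] (D.A₁ K) (p.map (algebraMap k K)) =
      (Polynomial.aeval D.y p) ⊗ₜ[k] (1 : K) := by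
    intro p
    show Polynomial.aeval (yB D K) (p.map (algebraMap k K)) = _
    rw [Polynomial.aeval_map_algebraMap]
    have := Polynomial.aeval_algHom_apply
      (Algebra.TensorProduct.includeLeft : D.R₁ →ₐ[k] D.R₁ ⊗[k] K) D.y p
    simpa [yB] using this
  induction a using TensorProduct.induction_on with
  | zero => exact zero_mem _
  | add a b ha hb => exact add_mem ha hb
  | tmul r c =>
    have hr : r ∈ Submodule.span k[X] (s : Set D.R₁) := hs ▸ Submodule.mem_top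
    induction hr using Submodule.span_induction with
    | mem g hg =>
      have h1 : (g ⊗ₜ[k] c : D.A₁ K) = (Polynomial.C c : K[X]) • (g ⊗ₜ[k] (1 : K) : D.A₁ K) := by
        rw [Algebra.smul_def]
        show _ = Polynomial.aeval (yB D K) (Polynomial.C c) * _
        rw [Polynomial.aeval_C, algebraMap_B_A₁, Algebra.TensorProduct.tmul_mul_tmul]
        simp
      rw [h1]
      refine Submodule.smul_mem _ _ (Submodule.subset_span ?_)
      exact Finset.mem_coe.mpr (Finset.mem_image_of_mem _ hg)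
    | zero => rw [TensorProduct.zero_tmul]; exact zero_mem _
    | add r r' _ _ h h' => rw [TensorProduct.add_tmul]; exact add_mem h h'
    | smul p r _ h =>
      have h1 : ((p • r) ⊗ₜ[k] c : D.A₁ K) = (p.map (algebraMap k K)) • (r ⊗ₜ[k] c : D.A₁ K) := by
        rw [Algebra.smul_def, Algebra.smul_def, key]
        show (Polynomial.aeval D.y p * r) ⊗ₜ[k] c = _
        rw [Algebra.TensorProduct.tmul_mul_tmul, one_mul]
      rw [h1]
      exact Submodule.smul_mem _ _ h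

theorem finite_quot_span_A₁ [IsAlgClosed k] {a : D.A₁ K} (ha : a ≠ 0) :
    Module.Finite K (D.A₁ K ⧸ Ideal.span {a}) := by
  letI algX : Algebra K[X] (D.A₁ K) :=
    (Polynomial.aeval (yB D K) : K[X] →ₐ[K] D.A₁ K).toRingHom.toAlgebra
  haveI : IsScalarTower K K[X] (D.A₁ K) := IsScalarTower.of_algebraMap_eq fun c => by
    show _ = Polynomial.aeval (yB D K) (Polynomial.C c)
    rw [Polynomial.aeval_C]
  haveI : Module.Finite K[X] (D.A₁ K) := finite_polynomial_A₁ D K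
  exact Fermat.Agent.S25.helper6401.finite_quotient_span_of_finite_polynomial ha

/-- The chart at infinity of `C_K` has only finitely many closed points on `y = 0`. -/
theorem finite_infPoints [IsAlgClosed k] :
    {P : Ideal (D.A₁ K) | P.IsMaximal ∧ yB D K ∈ P}.Finite := by
  have h := Fermat.Agent.S25.helper6401.finite_zeros_of_ne_zero (K := K) (A := D.A₁ K)
    (M := D.A₁ K) (fun a ha => finite_quot_span_A₁ D K ha) (yB_ne_zero D K)
  refine h.subset ?_
  rintro P ⟨hP, hy⟩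
  refine ⟨hP, ?_⟩
  rw [smul_eq_mul, Ideal.mul_top]
  exact hy

end Points

section Cover

variable {k : Type u} [Field k] {D : CurveDatum k} {K : Type u} [Field K] [Algebra k K]
  (E : GlueDatum D K)

/-- Sections of `E` over the first chart vanishing at the `k`-rational point `Q`, as a
`K`-subspace of `M₀₁`. -/
noncomputable def vanSub (Q : D.R₀ →ₐ[k] k) : Submodule K E.M₀₁ :=
  ((mQ D K Q • (⊤ : Submodule (D.A₀ K) E.M₀)).restrictScalars K).map E.ρ₀B

theorem mem_vanSub [IsAlgClosed k] (Q : D.R₀ →ₐ[k] k) (a : E.M₀) :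
    E.ρ₀ a ∈ vanSub E Q ↔ a ∈ mQ D K Q • (⊤ : Submodule (D.A₀ K) E.M₀) := by
  constructor
  · rintro ⟨a', ha', h⟩
    have : a' = a := ρ₀_injective E h
    rw [← this]
    exact ha'
  · intro h
    exact ⟨a, h, rfl⟩

/-- Vanishing at `Q` is one linear condition on the sections over the first chart. -/
theorem exists_functional_vanSub [IsAlgClosed k] (Q : D.R₀ →ₐ[k] k) :
    ∃ f : ↥(LinearMap.range E.ρ₀B) →ₗ[K] K,
      ∀ v : ↥(LinearMap.range E.ρ₀B), (v : E.M₀₁) ∈ vanSub E Q ↔ f v = 0 := by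
  classical
  let e := LinearEquiv.ofInjective E.ρ₀B (ρ₀_injective E)
  let I : Submodule (D.A₀ K) E.M₀ := mQ D K Q • ⊤
  have h1 : finrank K (E.M₀ ⧸ I) = 1 := by
    rw [Fermat.Agent.S25.helper3115.finrank_quotient_smul_top_eq K (D.A₀ K) E.M₀ (mQ D K Q),
      finrank_quot_mQ]
  haveI : FiniteDimensional K (E.M₀ ⧸ I) := Module.finite_of_finrank_pos (by omega)
  let φ : (E.M₀ ⧸ I) ≃ₗ[K] K := LinearEquiv.ofFinrankEq _ _ (by rw [h1, finrank_self])
  refine ⟨φ.toLinearMap ∘ₗ (I.mkQ.restrictScalars K) ∘ₗ e.symm.toLinearMap, fun v => ?_⟩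
  have hv : E.ρ₀ (e.symm v) = v := congrArg Subtype.val (e.apply_symm_apply v)
  rw [← hv, mem_vanSub]
  simp only [LinearMap.comp_apply, LinearEquiv.coe_coe, LinearMap.restrictScalars_apply,
    Submodule.mkQ_apply, EmbeddingLike.map_eq_zero_iff, Submodule.Quotient.mk_eq_zero]
  rfl

/-- A nonzero section over the first chart vanishes at only finitely many `k`-rational points. -/
theorem finite_vanSub [IsAlgClosed k] (v : E.M₀₁) (hv : v ∈ LinearMap.range E.ρ₀B) (hv0 : v ≠ 0) :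
    {Q : D.R₀ →ₐ[k] k | v ∈ vanSub E Q}.Finite := by
  obtain ⟨m, rfl⟩ := hv
  have hm0 : m ≠ 0 := by
    rintro rfl
    exact hv0 (map_zero _)
  obtain ⟨a, ha0, ha⟩ := Fermat.Agent.S25.helper6401.exists_ne_zero_smul_mem_span
    (A := D.A₀ K) (M := E.M₀) hm0
  refine (finite_zeros_tensor D K a ha0).subset ?_
  intro Q hQ
  have h1 : m ∈ mQ D K Q • (⊤ : Submodule (D.A₀ K) E.M₀) := (mem_vanSub E Q m).mp hQ
  exact (mem_mQ D K Q a).mp
    (Fermat.Agent.S25.helper6401.not_mem_smul_top_of_not_mem ha (mQ D K Q) h1)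

/-- Sections of the twist `E(n · D∞)` over the chart at infinity vanishing at the closed point
`P` of `y = 0`, as a `K`-subspace of `M₀₁`. -/
noncomputable def infSub (n : ℕ) (P : Ideal (D.A₁ K)) : Submodule K E.M₀₁ :=
  ((P • (⊤ : Submodule (D.A₁ K) E.M₁)).restrictScalars K).map (tw E n)

theorem mem_infSub [IsAlgClosed k] (n : ℕ) (P : Ideal (D.A₁ K)) (b : E.M₁) :
    tw E n b ∈ infSub E n P ↔ b ∈ P • (⊤ : Submodule (D.A₁ K) E.M₁) := by
  constructor
  · rintro ⟨b', hb', h⟩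
    have : b' = b := tw_injective E n h
    rw [← this]
    exact hb'
  · intro h
    exact ⟨b, h, rfl⟩

theorem range_tw_le_infSub (n : ℕ) (P : Ideal (D.A₁ K)) (hy : yB D K ∈ P) :
    LinearMap.range (tw E n) ≤ infSub E (n + 1) P := by
  intro z hz
  obtain ⟨b, rfl⟩ := LinearMap.mem_range.mp hz
  have h := tw_succ_y_smul E n b
  rw [← h]
  have hmem0 : yB D K • b ∈ (P • (⊤ : Submodule (D.A₁ K) E.M₁)) :=
    Submodule.smul_mem_smul hy Submodule.mem_top
  have hmem : yB D K • b ∈ (P • (⊤ : Submodule (D.A₁ K) E.M₁)).restrictScalars K :=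
    (Submodule.restrictScalars_mem K _ _).mpr hmem0
  exact Submodule.mem_map_of_mem hmem

theorem not_range_tw_le_infSub [IsAlgClosed k] (n : ℕ) (P : Ideal (D.A₁ K)) (hP : P ≠ ⊤) :
    ¬ LinearMap.range (tw E n) ≤ infSub E n P := by
  intro h
  apply hP
  have htop : (P • (⊤ : Submodule (D.A₁ K) E.M₁)) = ⊤ := by
    rw [eq_top_iff]
    rintro b -
    exact (mem_infSub E n P b).mp (h ⟨b, rfl⟩)
  have h1 := Fermat.Agent.S25.helper69.colon_ideal_smul_top (N := E.M₁) P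
  rw [htop] at h1
  rw [← h1, eq_top_iff]
  rintro a -
  exact Submodule.mem_colon.mpr fun _ _ => Submodule.mem_top

/-- A section over the chart at infinity that vanishes at no closed point of `y = 0` generates
the bundle along `y = 0`. -/
theorem span_sup_y_smul_eq_top (m₁ : E.M₁)
    (h : ∀ P : Ideal (D.A₁ K), P.IsMaximal → yB D K ∈ P →
      m₁ ∉ P • (⊤ : Submodule (D.A₁ K) E.M₁)) :
    Submodule.span (D.A₁ K) {m₁} ⊔ Ideal.span {yB D K} • (⊤ : Submodule (D.A₁ K) E.M₁) = ⊤ := by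
  by_contra hne
  set U : Submodule (D.A₁ K) E.M₁ :=
    Submodule.span (D.A₁ K) {m₁} ⊔ Ideal.span {yB D K} • (⊤ : Submodule (D.A₁ K) E.M₁) with hU
  set I : Ideal (D.A₁ K) := U.colon (Set.univ : Set E.M₁) with hI
  have hIU : I • (⊤ : Submodule (D.A₁ K) E.M₁) = U :=
    Fermat.Agent.S25.helper69.colon_smul_top U
  have hItop : I ≠ ⊤ := by
    intro h1
    apply hne
    rw [← hIU, h1, Submodule.top_smul]
  obtain ⟨P, hPmax, hIP⟩ := Ideal.exists_le_maximal I hItop
  have hyI : yB D K ∈ I := by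
    rw [hI, Submodule.mem_colon]
    intro m _
    exact Submodule.mem_sup_right
      (Submodule.smul_mem_smul (Ideal.mem_span_singleton_self _) Submodule.mem_top)
  have hm₁ : m₁ ∈ P • (⊤ : Submodule (D.A₁ K) E.M₁) := by
    have h1 : m₁ ∈ U := Submodule.mem_sup_left (Submodule.mem_span_singleton_self m₁)
    rw [← hIU] at h1
    exact Submodule.smul_mono_left hIP h1
  exact h P hPmax (hIP hyI) hm₁

/-- **Field-level cover theorem, section form** (leaf U5b). Let `E` be a two-chart line bundle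
over a field `K ⊇ k` (`k` algebraically closed) such that `H¹(E(n · D∞)) = 0` and the space of
sections of `E((n+1) · D∞)` is finite-dimensional and nonzero, of dimension `h`. Then there are
`h - 1` distinct `k`-rational points `Q ∈ S` of the first chart and a section `(m₀, m₁)` of
`E((n+1) · D∞)` vanishing at all `Q ∈ S` such that
* every section of `E((n+1) · D∞)` vanishing on `S` is a `K`-multiple of `(m₀, m₁)`;
* `m₁` generates `E` along `y = 0` (the section vanishes at no point at infinity);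
* `H¹(E((n+1) · D∞ - S)) = 0`.
In other words `E((n+1) · D∞ - S) ≅ 𝒪(Z)` for an effective divisor `Z` contained in the first
chart, with `h⁰ = 1` and `h¹ = 0`: the class of `E` lies in the chart attached to
`𝒪((n+1) · D∞ - S)`. -/
theorem exists_section_general_position [IsAlgClosed k] (n : ℕ)
    (hserre : ∀ z : E.M₀₁, ∃ (a : E.M₀) (b : E.M₁), z = E.ρ₀ a + xB D K ^ n • E.ρ₁ b)
    [hfd : FiniteDimensional K ↥(secSub E (n + 1))] (hpos : secSub E (n + 1) ≠ ⊥) :
    ∃ (S : Finset (D.R₀ →ₐ[k] k)) (m₀ : E.M₀) (m₁ : E.M₁),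
      S.card + 1 = finrank K ↥(secSub E (n + 1)) ∧
      m₀ ≠ 0 ∧
      E.ρ₀ m₀ = xB D K ^ (n + 1) • E.ρ₁ m₁ ∧
      (∀ Q ∈ S, m₀ ∈ mQ D K Q • (⊤ : Submodule (D.A₀ K) E.M₀)) ∧
      (∀ (m₀' : E.M₀) (m₁' : E.M₁), E.ρ₀ m₀' = xB D K ^ (n + 1) • E.ρ₁ m₁' →
        (∀ Q ∈ S, m₀' ∈ mQ D K Q • (⊤ : Submodule (D.A₀ K) E.M₀)) →
        ∃ c : K, m₀' = c • m₀ ∧ m₁' = c • m₁) ∧
      Submodule.span (D.A₁ K) {m₁} ⊔
        Ideal.span {yB D K} • (⊤ : Submodule (D.A₁ K) E.M₁) = ⊤ ∧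
      (∀ z : E.M₀₁, ∃ (a : E.M₀) (b : E.M₁),
        (∀ Q ∈ S, a ∈ mQ D K Q • (⊤ : Submodule (D.A₀ K) E.M₀)) ∧
        z = E.ρ₀ a + xB D K ^ (n + 1) • E.ρ₁ b) := by
  classical
  haveI : Infinite (D.R₀ →ₐ[k] k) := infinite_points D
  obtain ⟨Λ₀, hΛ₀⟩ : ∃ Λ₀ : Submodule K E.M₀₁, Λ₀ = LinearMap.range E.ρ₀B := ⟨_, rfl⟩
  obtain ⟨Λ₁', hΛ₁'⟩ : ∃ Λ₁' : Submodule K E.M₀₁, Λ₁' = LinearMap.range (tw E n) := ⟨_, rfl⟩
  obtain ⟨Λ₁, hΛ₁⟩ : ∃ Λ₁ : Submodule K E.M₀₁, Λ₁ = LinearMap.range (tw E (n + 1)) := ⟨_, rfl⟩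
  have hsec : secSub E (n + 1) = Λ₀ ⊓ Λ₁ := by rw [hΛ₀, hΛ₁]; rfl
  have hmemΛ₀ : ∀ z, z ∈ Λ₀ ↔ ∃ a, E.ρ₀ a = z := fun z => by rw [hΛ₀]; exact LinearMap.mem_range
  have hmemΛ₁ : ∀ z, z ∈ Λ₁ ↔ ∃ b, tw E (n + 1) b = z := fun z => by
    rw [hΛ₁]; exact LinearMap.mem_range
  have hle : Λ₁' ≤ Λ₁ := by
    intro z hz
    rw [hΛ₁'] at hz
    obtain ⟨b, rfl⟩ := LinearMap.mem_range.mp hz
    exact (hmemΛ₁ _).mpr ⟨yB D K • b, tw_succ_y_smul E n b⟩
  have hsup : Λ₀ ⊔ Λ₁' = ⊤ := by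
    rw [eq_top_iff]
    intro z _
    obtain ⟨a, b, rfl⟩ := hserre z
    refine Submodule.add_mem_sup ((hmemΛ₀ _).mpr ⟨a, rfl⟩) ?_
    rw [hΛ₁']
    exact LinearMap.mem_range.mpr ⟨b, rfl⟩
  let Pset : Finset (Submodule K E.M₀₁) :=
    (finite_infPoints D K).toFinset.image (fun P => infSub E (n + 1) P)
  have hP : ∀ p ∈ Pset, Λ₁' ≤ p ∧ ¬ Λ₁ ≤ p := by
    intro p hp
    obtain ⟨P, hPmem, rfl⟩ := Finset.mem_image.mp hp
    obtain ⟨hPmax, hy⟩ := (Set.Finite.mem_toFinset _).mp hPmem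
    rw [hΛ₁', hΛ₁]
    exact ⟨range_tw_le_infSub E n P hy, not_range_tw_le_infSub E (n + 1) P hPmax.ne_top⟩
  haveI : FiniteDimensional K ↥(Λ₀ ⊓ Λ₁) := hsec ▸ hfd
  have hpos' : Λ₀ ⊓ Λ₁ ≠ ⊥ := hsec ▸ hpos
  have hcodim : ∀ Q : D.R₀ →ₐ[k] k, ∃ f : ↥Λ₀ →ₗ[K] K,
      ∀ v : ↥Λ₀, (v : E.M₀₁) ∈ vanSub E Q ↔ f v = 0 := by
    intro Q
    subst hΛ₀
    exact exists_functional_vanSub E Q
  have hfin : ∀ v ∈ Λ₀ ⊓ Λ₁, v ≠ 0 → {Q : D.R₀ →ₐ[k] k | v ∈ vanSub E Q}.Finite := by
    intro v hv hv0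
    exact finite_vanSub E v (hΛ₀ ▸ hv.1) hv0
  obtain ⟨S, s, hcard, hs0, hline, hsP, hH1⟩ :=
    exists_line_of_sup_eq_top Λ₀ Λ₁' Λ₁ hle hsup hpos' (fun Q => vanSub E Q) hcodim hfin Pset hP
  have hlinemem : ∀ z, z ∈ Λ₀ ⊓ Λ₁ ⊓ ⨅ Q ∈ S, vanSub E Q ↔ ∃ c : K, c • s = z := by
    intro z
    rw [hline, Submodule.mem_span_singleton]
  have hsmem : s ∈ Λ₀ ⊓ Λ₁ ⊓ ⨅ Q ∈ S, vanSub E Q := (hlinemem s).mpr ⟨1, one_smul _ _⟩
  have hsΛ₀ : s ∈ Λ₀ := hsmem.1.1
  have hsΛ₁ : s ∈ Λ₁ := hsmem.1.2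
  have hsZ : ∀ Q ∈ S, s ∈ vanSub E Q := fun Q hQ =>
    (Submodule.mem_iInf _).mp ((Submodule.mem_iInf _).mp hsmem.2 Q) hQ
  obtain ⟨m₀, hm₀⟩ := (hmemΛ₀ s).mp hsΛ₀
  obtain ⟨m₁, hm₁⟩ := (hmemΛ₁ s).mp hsΛ₁
  have hcard' : S.card + 1 = finrank K ↥(secSub E (n + 1)) := by rw [hsec]; exact hcard
  refine ⟨S, m₀, m₁, hcard', ?_, ?_, ?_, ?_, ?_, ?_⟩
  · rintro rfl
    apply hs0
    rw [← hm₀, map_zero]
  · rw [hm₀, ← hm₁, tw_apply]
  · intro Q hQ
    exact (mem_vanSub E Q m₀).mp (hm₀ ▸ hsZ Q hQ)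
  · intro m₀' m₁' h hvan
    have hs' : E.ρ₀ m₀' ∈ Λ₀ ⊓ Λ₁ ⊓ ⨅ Q ∈ S, vanSub E Q := by
      refine ⟨⟨(hmemΛ₀ _).mpr ⟨m₀', rfl⟩, (hmemΛ₁ _).mpr ⟨m₁', h.symm⟩⟩, ?_⟩
      refine (Submodule.mem_iInf _).mpr fun Q => (Submodule.mem_iInf _).mpr fun hQ => ?_
      exact (mem_vanSub E Q m₀').mpr (hvan Q hQ)
    obtain ⟨c, hc⟩ := (hlinemem _).mp hs'
    refine ⟨c, ?_, ?_⟩
    · apply ρ₀_injective E
      have h1 : E.ρ₀ (c • m₀) = c • E.ρ₀ m₀ := E.ρ₀B.map_smul c m₀
      rw [h1, hm₀, hc]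
    · apply tw_injective E (n + 1)
      rw [map_smul, hm₁, hc, tw_apply, h]
  · apply span_sup_y_smul_eq_top E m₁
    intro P hPmax hy hmem
    apply hsP (infSub E (n + 1) P)
      (Finset.mem_image_of_mem _ ((Set.Finite.mem_toFinset _).mpr ⟨hPmax, hy⟩))
    rw [← hm₁]
    exact (mem_infSub E (n + 1) P m₁).mpr hmem
  · intro z
    have hz : z ∈ (Λ₀ ⊓ ⨅ Q ∈ S, vanSub E Q) ⊔ Λ₁ := hH1 ▸ Submodule.mem_top
    obtain ⟨u, hu, w, hw, rfl⟩ := Submodule.mem_sup.mp hz
    obtain ⟨a, rfl⟩ := (hmemΛ₀ u).mp hu.1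
    obtain ⟨b, rfl⟩ := (hmemΛ₁ w).mp hw
    refine ⟨a, b, fun Q hQ => ?_, by rw [tw_apply]⟩
    exact (mem_vanSub E Q a).mp ((Submodule.mem_iInf _).mp ((Submodule.mem_iInf _).mp hu.2 Q) hQ)

end Cover

end Fermat.Agent.S25.helper2531
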