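import Fermat.Agent.S25.helper1397_HomBridge
import Fermat.Agent.S25.helper2531_FieldCover
import Fermat.Agent.S25.helper2303_SecSub

/-!
# S25, leaf LC-HOM / Cover F-side (ii): the field-level cover theorem in morphism form (helper1397)

The adapter of `helper2531.exists_section_general_position` (and of its unconditional form
`helper2303.exists_section_general_position`) applied to `E = Hom(G, 𝒪)`
(`helper1397.homDatum G (unit D K)`): pairs `(m₀, m₁)` of sections of `E(n · D∞)` are morphisms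
`G → 𝒪(n · D∞)` (`helper8573.Mor`, `helper3115.twist`), "`m₀ ∈ mQ • ⊤`" means "`σ.f₀` takes its
values in `mQ`", uniqueness up to a scalar is the line condition, and "`m₁` generates modulo `y`"
is `SurjModY`.

* `mor_of_section_general_position` : the translation of one output of the section form;
* `exists_mor_general_position`     : from helper2531's conditional theorem;
* `exists_mor_cover`                : unconditional, every `n ≥ n₀`, count in terms of
  `χ(Hom(G, 𝒪))`;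
* `exists_mor_cover_of_chi`         : the shape of the contract `Stmt_FieldCoverMor` of the Cover
  root (ruling R10), given `χ(Hom(G, 𝒪)) = χ(𝒪)` (leaf LC-DEGHOM for `G` of degree zero).
-/

set_option autoImplicit false
set_option linter.style.haveILetI false

open scoped TensorProduct Pointwise
open Module

namespace Fermat.Agent.S25.helper1397

open Fermat.Agent.S25.helper1705 Fermat.Agent.S25.helper2945 Fermat.Agent.S25.helper743
open Fermat.Agent.S25.helper3115 Fermat.Agent.S25.helper2531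

universe u

variable {k : Type u} [Field k] {D : CurveDatum k} {K : Type u} [Field K] [Algebra k K]

/-- Translation of one output of the section form of the cover theorem for `E = Hom(G, 𝒪)` into
a morphism `G → 𝒪(n · D∞)`. -/
theorem mor_of_section_general_position (G : GlueDatum D K) (n : ℕ)
    (S : Finset (D.R₀ →ₐ[k] k))
    (m₀ : (homDatum G (GlueDatum.unit D K)).M₀) (m₁ : (homDatum G (GlueDatum.unit D K)).M₁)
    (hsec : (homDatum G (GlueDatum.unit D K)).ρ₀ m₀ =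
      xB D K ^ n • (homDatum G (GlueDatum.unit D K)).ρ₁ m₁)
    (hS : ∀ Q ∈ S, m₀ ∈ mQ D K Q •
      (⊤ : Submodule (D.A₀ K) (homDatum G (GlueDatum.unit D K)).M₀))
    (huniq : ∀ (m₀' : (homDatum G (GlueDatum.unit D K)).M₀)
      (m₁' : (homDatum G (GlueDatum.unit D K)).M₁),
      (homDatum G (GlueDatum.unit D K)).ρ₀ m₀' =
        xB D K ^ n • (homDatum G (GlueDatum.unit D K)).ρ₁ m₁' →
      (∀ Q ∈ S, m₀' ∈ mQ D K Q •
        (⊤ : Submodule (D.A₀ K) (homDatum G (GlueDatum.unit D K)).M₀)) →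
      ∃ c : K, m₀' = c • m₀ ∧ m₁' = c • m₁)
    (hgen : Submodule.span (D.A₁ K) {m₁} ⊔ Ideal.span {yB D K} •
      (⊤ : Submodule (D.A₁ K) (homDatum G (GlueDatum.unit D K)).M₁) = ⊤) :
    ∃ σ : helper8573.Mor G (twist (GlueDatum.unit D K) (n : ℤ)),
      (∀ Q ∈ S, ∀ m : G.M₀, (show D.A₀ K from σ.f₀ m) ∈ mQ D K Q) ∧
      (∀ τ : helper8573.Mor G (twist (GlueDatum.unit D K) (n : ℤ)),
        (∀ Q ∈ S, ∀ m : G.M₀, (show D.A₀ K from τ.f₀ m) ∈ mQ D K Q) →
        ∃ c : K, (∀ m, τ.f₀ m = c • σ.f₀ m) ∧ (∀ m, τ.f₁ m = c • σ.f₁ m)) ∧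
      σ.SurjModY := by
  obtain ⟨σ, hσ₀, hσ₁⟩ := (exists_specMor_twist_iff (G := G) (H := GlueDatum.unit D K) n
    m₀ m₁).mpr hsec
  refine ⟨σ, ?_, ?_, ?_⟩
  · intro Q hQ m
    have := (mem_smul_top_homDatum_unit₀_iff (mQ D K Q) m₀).mp (hS Q hQ) m
    rw [← hσ₀] at this
    exact this
  · intro τ hτ
    obtain ⟨c, hc₀, hc₁⟩ := huniq τ.f₀ τ.f₁
      ((exists_specMor_twist_iff (G := G) (H := GlueDatum.unit D K) n τ.f₀ τ.f₁).mp
        ⟨τ, rfl, rfl⟩)
      (fun Q hQ => (mem_smul_top_homDatum_unit₀_iff (mQ D K Q) τ.f₀).mpr (hτ Q hQ))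
    refine ⟨c, fun m => ?_, fun m => ?_⟩
    · have h := congrArg (fun f : (homDatum G (GlueDatum.unit D K)).M₀ =>
        (show G.M₀ →ₗ[D.A₀ K] D.A₀ K from f) m) hc₀
      rw [hσ₀]
      exact h
    · have h := congrArg (fun f : (homDatum G (GlueDatum.unit D K)).M₁ =>
        (show G.M₁ →ₗ[D.A₁ K] D.A₁ K from f) m) hc₁
      rw [hσ₁]
      exact h
  · have hspan := (specMor_surjModY_iff_span (G := G)
      (H := twist (GlueDatum.unit D K) (n : ℤ)) σ).mpr
    apply hspan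
    rw [hσ₁]
    exact hgen

/-- Field-level cover theorem in morphism form: the adapter of
`helper2531.exists_section_general_position` to `E = Hom(G, 𝒪)`. -/
theorem exists_mor_general_position [IsAlgClosed k] (G : GlueDatum D K) (n : ℕ)
    (hserre : ∀ z : (homDatum G (GlueDatum.unit D K)).M₀₁,
      ∃ (a : (homDatum G (GlueDatum.unit D K)).M₀) (b : (homDatum G (GlueDatum.unit D K)).M₁),
        z = (homDatum G (GlueDatum.unit D K)).ρ₀ a +
          xB D K ^ n • (homDatum G (GlueDatum.unit D K)).ρ₁ b)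
    [hfd : FiniteDimensional K ↥(secSub (homDatum G (GlueDatum.unit D K)) (n + 1))]
    (hpos : secSub (homDatum G (GlueDatum.unit D K)) (n + 1) ≠ ⊥) :
    ∃ (S : Finset (D.R₀ →ₐ[k] k))
      (σ : helper8573.Mor G (twist (GlueDatum.unit D K) ((n + 1 : ℕ) : ℤ))),
      S.card + 1 = finrank K ↥(secSub (homDatum G (GlueDatum.unit D K)) (n + 1)) ∧
      (∀ Q ∈ S, ∀ m : G.M₀, (show D.A₀ K from σ.f₀ m) ∈ mQ D K Q) ∧
      (∀ τ : helper8573.Mor G (twist (GlueDatum.unit D K) ((n + 1 : ℕ) : ℤ)),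
        (∀ Q ∈ S, ∀ m : G.M₀, (show D.A₀ K from τ.f₀ m) ∈ mQ D K Q) →
        ∃ c : K, (∀ m, τ.f₀ m = c • σ.f₀ m) ∧ (∀ m, τ.f₁ m = c • σ.f₁ m)) ∧
      σ.SurjModY := by
  obtain ⟨S, m₀, m₁, hcard, -, hsec, hS, huniq, hgen, -⟩ :=
    helper2531.exists_section_general_position (homDatum G (GlueDatum.unit D K)) n hserre hpos
  obtain ⟨σ, h1, h2, h3⟩ := mor_of_section_general_position G (n + 1) S m₀ m₁ hsec hS huniq hgen
  exact ⟨S, σ, hcard, h1, h2, h3⟩

/-- Field-level cover theorem in morphism form, unconditional: for every two-chart line bundle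
`G` over a field `K ⊇ k` and every `n ≥ n₀(G)` there are a finite set `S` of `k`-rational points
of the first chart with `|S| + 1 = χ(Hom(G, 𝒪)) + (n+1) · degInf D` and a morphism
`σ : G → 𝒪((n+1) · D∞)` vanishing on `S`, unique up to a scalar among such, and surjective
modulo `y`. -/
theorem exists_mor_cover [IsAlgClosed k] (G : GlueDatum D K) :
    ∃ n₀ : ℕ, ∀ n : ℕ, n₀ ≤ n →
      ∃ (S : Finset (D.R₀ →ₐ[k] k))
        (σ : helper8573.Mor G (twist (GlueDatum.unit D K) ((n + 1 : ℕ) : ℤ))),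
        ((S.card : ℤ) + 1 = (homDatum G (GlueDatum.unit D K)).chi +
          ((n + 1 : ℕ) : ℤ) * helper1153.degInf D) ∧
        (∀ Q ∈ S, ∀ m : G.M₀, (show D.A₀ K from σ.f₀ m) ∈ mQ D K Q) ∧
        (∀ τ : helper8573.Mor G (twist (GlueDatum.unit D K) ((n + 1 : ℕ) : ℤ)),
          (∀ Q ∈ S, ∀ m : G.M₀, (show D.A₀ K from τ.f₀ m) ∈ mQ D K Q) →
          ∃ c : K, (∀ m, τ.f₀ m = c • σ.f₀ m) ∧ (∀ m, τ.f₁ m = c • σ.f₁ m)) ∧
        σ.SurjModY := by
  obtain ⟨n₀, h⟩ := helper2303.exists_section_general_position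
    (homDatum G (GlueDatum.unit D K))
  refine ⟨n₀, fun n hn => ?_⟩
  obtain ⟨S, m₀, m₁, hcard, -, hsec, hS, huniq, hgen, -⟩ := h n hn
  obtain ⟨σ, h1, h2, h3⟩ := mor_of_section_general_position G (n + 1) S m₀ m₁ hsec hS huniq hgen
  exact ⟨S, σ, hcard, h1, h2, h3⟩

/-- The contract of the Cover root (`Stmt_FieldCoverMor`, ruling R10) for one `G`, given
`χ(Hom(G, 𝒪)) = χ(𝒪)` (true for `G` of degree zero: leaf LC-DEGHOM). -/
theorem exists_mor_cover_of_chi [IsAlgClosed k] (G : GlueDatum D K)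
    (hchi : (homDatum G (GlueDatum.unit D K)).chi = (GlueDatum.unit D K).chi) :
    ∃ (n : ℕ) (S : Finset (D.R₀ →ₐ[k] k))
      (σ : helper8573.Mor G (twist (GlueDatum.unit D K) (n : ℤ))),
      ((S.card : ℤ) + 1 = (GlueDatum.unit D K).chi + (n : ℤ) * helper1153.degInf D) ∧
      (∀ Q ∈ S, ∀ m : G.M₀, (show D.A₀ K from σ.f₀ m) ∈ mQ D K Q) ∧
      (∀ τ : helper8573.Mor G (twist (GlueDatum.unit D K) (n : ℤ)),
        (∀ Q ∈ S, ∀ m : G.M₀, (show D.A₀ K from τ.f₀ m) ∈ mQ D K Q) →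
        ∃ c : K, (∀ m, τ.f₀ m = c • σ.f₀ m) ∧ (∀ m, τ.f₁ m = c • σ.f₁ m)) ∧
      (∀ b : D.A₁ K, ∃ (m : G.M₁) (b' : D.A₁ K),
        b = (show D.A₁ K from σ.f₁ m) + yB D K * b') := by
  obtain ⟨n₀, h⟩ := exists_mor_cover G
  obtain ⟨S, σ, hcard, h1, h2, h3⟩ := h n₀ le_rfl
  refine ⟨n₀ + 1, S, σ, ?_, h1, h2, fun b => ?_⟩
  · rw [← hchi]
    exact hcard
  · obtain ⟨m, b', hb⟩ := h3 b
    exact ⟨m, b', hb⟩

end Fermat.Agent.S25.helper1397
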