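import Mathlib

/-!
# S25, leaf U3 (relative divisor operations), def-agnostic core

Two-chart setting: commutative rings `A₀`, `A₁`, `A₀₁` with `A₀₁ = A₀[1/x] = A₁[1/y]` and
`x * y = 1` in `A₀₁`, everything over a base ring `B`.  For an ideal `I` of `A₀` whose quotient is a
finite `B`-module (a relative divisor `D` contained in the chart `Spec A₀` and finite over the
base) we study the ideal `atInfty I` of `A₁` cutting out `D ∩ Spec A₁` in the other chart.
-/

set_option autoImplicit false

namespace Fermat.Agent.S25.helper622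

open Polynomial TensorProduct

section Gluing

variable {R : Type*} [CommRing R] {M : Type*} [AddCommGroup M] [Module R M]

/-- An ideal containing a power of every element of a set spanning the unit ideal is the
unit ideal. -/
theorem ideal_eq_top_of_forall_pow_mem (s : Set R) (hs : Ideal.span s = ⊤) (J : Ideal R)
    (h : ∀ r ∈ s, ∃ n : ℕ, r ^ n ∈ J) : J = ⊤ := by
  by_contra hJ
  obtain ⟨m, hm, hJm⟩ := Ideal.exists_le_maximal J hJ
  have hsm : s ⊆ m := by
    intro r hr
    obtain ⟨n, hn⟩ := h r hr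
    exact hm.isPrime.mem_of_pow_mem n (hJm hn)
  exact hm.ne_top (top_le_iff.mp (hs ▸ Ideal.span_le.mpr hsm))

/-- If `M[1/r]` is an invertible module then an element of `R` killing `M` is killed by a power
of `r`. -/
theorem exists_pow_mul_eq_zero_of_smul_eq_zero (r : R)
    [h : Module.Invertible (Localization.Away r) (LocalizedModule.Away r M)]
    (a : R) (ha : ∀ m : M, a • m = 0) : ∃ n : ℕ, r ^ n * a = 0 := by
  have h0 : algebraMap R (Localization.Away r) a = 0 := by
    refine FaithfulSMul.eq_of_smul_eq_smul (α := LocalizedModule.Away r M) fun z => ?_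
    induction z using LocalizedModule.induction_on with
    | h m t =>
      rw [zero_smul, algebraMap_smul, LocalizedModule.smul'_mk, ha, LocalizedModule.zero_mk]
  obtain ⟨n, hn⟩ := IsLocalization.Away.exists_of_eq (S := Localization.Away r) r
    (a := a) (b := 0) (by rw [h0, map_zero])
  exact ⟨n, by rw [hn, mul_zero]⟩

/-- If `M` is finite and `M[1/r]` is an invertible module, then a power of `r` times any
endomorphism of `M` is a scalar. -/
theorem exists_pow_smul_eq_smul_id [Module.Finite R M] (r : R)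
    [h : Module.Invertible (Localization.Away r) (LocalizedModule.Away r M)]
    (φ : M →ₗ[R] M) : ∃ (n : ℕ) (a : R), r ^ n • φ = a • LinearMap.id := by
  classical
  set S := Submonoid.powers r with hS
  let L := Localization.Away r
  let M' := LocalizedModule.Away r M
  let f : M →ₗ[R] M' := LocalizedModule.mkLinearMap S M
  let φ' : M' →ₗ[L] M' := (IsLocalizedModule.map S f f φ).extendScalarsOfIsLocalization S L
  obtain ⟨a', ha'⟩ := (Module.Invertible.toModuleEnd_bijective L M').2 φ'
  obtain ⟨n, b, hb⟩ := IsLocalization.Away.surj r a'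
  have key : ∀ m : M, f (r ^ n • φ m - b • m) = 0 := by
    intro m
    have h1 : a' • f m = f (φ m) := by
      have := LinearMap.congr_fun ha' (f m)
      rw [Module.toModuleEnd_apply] at this
      exact this.trans (IsLocalizedModule.map_apply S f f φ m)
    rw [map_sub, map_smul, map_smul, ← h1, ← algebraMap_smul L (r ^ n) (a' • f m),
      ← algebraMap_smul L b (f m), smul_smul, map_pow, mul_comm, hb, sub_self]
  have key2 : ∀ m : M, ∃ k : ℕ, r ^ k • (r ^ n • φ m - b • m) = 0 := by
    intro m
    obtain ⟨⟨c, k, rfl⟩, hc⟩ := (IsLocalizedModule.eq_zero_iff S f).mp (key m)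
    exact ⟨k, hc⟩
  choose k hk using key2
  obtain ⟨t, ht⟩ := (Module.Finite.fg_top : (⊤ : Submodule R M).FG)
  refine ⟨t.sup k + n, r ^ t.sup k * b, ?_⟩
  refine LinearMap.ext_on ht fun m hm => ?_
  have hle : k m ≤ t.sup k := Finset.le_sup (f := k) hm
  have h2 : r ^ t.sup k • (r ^ n • φ m - b • m) = 0 := by
    obtain ⟨d, hd⟩ := Nat.exists_eq_add_of_le hle
    rw [hd, add_comm, pow_add, mul_smul, hk, smul_zero]
  rw [smul_sub, sub_eq_zero] at h2
  simp only [LinearMap.smul_apply, LinearMap.id_apply]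
  rw [pow_add, mul_smul, h2, mul_smul]

/-- (D0) Invertibility of a module is Zariski-local on the base: if `s` spans the unit ideal and
`M[1/r]` is an invertible `R[1/r]`-module for every `r ∈ s`, then `M` is invertible. -/
theorem invertible_of_localization_span (s : Set R) (hs : Ideal.span s = ⊤)
    (h : ∀ r : s, Module.Invertible (Localization.Away r.1) (LocalizedModule.Away r.1 M)) :
    Module.Invertible R M := by
  have hfp : Module.FinitePresentation R M :=
    Module.FinitePresentation.of_localizationSpan s hs fun g => by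
      have := h g
      exact Module.finitePresentation_of_projective _ _
  have hflat : Module.Flat R M := by
    refine Module.flat_of_localized_span R M s hs fun r => ?_
    have := h r
    exact Module.Flat.trans R (Localization.Away r.1) (LocalizedModule.Away r.1 M)
  have hproj : Module.Projective R M := Module.Flat.projective_of_finitePresentation
  have hfin : Module.Finite R M := inferInstance
  let ψ : R →ₗ[R] (M →ₗ[R] M) := LinearMap.toSpanSingleton R (M →ₗ[R] M) LinearMap.id
  have hψ : Function.Bijective ψ := by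
    constructor
    · rw [injective_iff_map_eq_zero]
      intro a ha
      have ha' : ∀ m : M, a • m = 0 := fun m => by
        have := LinearMap.congr_fun ha m
        simpa [ψ] using this
      have htop : LinearMap.ker (LinearMap.toSpanSingleton R R a) = ⊤ := by
        refine ideal_eq_top_of_forall_pow_mem s hs _ fun r hr => ?_
        have := h ⟨r, hr⟩
        obtain ⟨n, hn⟩ := exists_pow_mul_eq_zero_of_smul_eq_zero (M := M) r a ha'
        exact ⟨n, by simpa [LinearMap.mem_ker] using hn⟩
      have h1 : (1 : R) ∈ LinearMap.ker (LinearMap.toSpanSingleton R R a) := htop ▸ Submodule.mem_top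
      simpa [LinearMap.mem_ker] using h1
    · intro φ
      have htop : Submodule.comap (LinearMap.toSpanSingleton R (M →ₗ[R] M) φ) (LinearMap.range ψ)
          = ⊤ := by
        refine ideal_eq_top_of_forall_pow_mem s hs _ fun r hr => ?_
        have := h ⟨r, hr⟩
        obtain ⟨n, a, hna⟩ := exists_pow_smul_eq_smul_id r φ
        refine ⟨n, ?_⟩
        rw [Submodule.mem_comap, LinearMap.mem_range]
        exact ⟨a, by simpa [ψ] using hna.symm⟩
      have h1 : (1 : R) ∈ Submodule.comap (LinearMap.toSpanSingleton R (M →ₗ[R] M) φ)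
          (LinearMap.range ψ) := htop ▸ Submodule.mem_top
      rw [Submodule.mem_comap, LinearMap.mem_range] at h1
      obtain ⟨a, ha⟩ := h1
      exact ⟨a, by simpa using ha⟩
  exact Module.Invertible.left
    (TensorProduct.comm R M (Module.Dual R M) ≪≫ₗ
      LinearEquiv.ofBijective (dualTensorHom R M M) dualTensorHom_bijective ≪≫ₗ
      (LinearEquiv.ofBijective ψ hψ).symm)

/-- (T') Invertibility over an abstract localization transfers to the canonical one. -/
theorem invertible_localizedModule_of_isLocalizedModule (S : Submonoid R)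
    {A : Type*} [CommRing A] [Algebra R A] [IsLocalization S A]
    {N : Type*} [AddCommGroup N] [Module R N] [Module A N] [IsScalarTower R A N]
    (f : M →ₗ[R] N) [IsLocalizedModule S f] [Module.Invertible A N] :
    Module.Invertible (Localization S) (LocalizedModule S M) := by
  let e : A ≃ₐ[R] Localization S := IsLocalization.algEquiv S A (Localization S)
  let _ : Algebra A (Localization S) := e.toAlgHom.toRingHom.toAlgebra
  have : IsScalarTower R A (Localization S) :=
    IsScalarTower.of_algebraMap_eq fun r => (e.commutes r).symm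
  have h1 : Module.Invertible A (A ⊗[R] M) :=
    Module.Invertible.congr (IsLocalizedModule.isBaseChange S A f).equiv.symm
  have h2 : Module.Invertible (Localization S) (Localization S ⊗[R] M) :=
    Module.Invertible.congr
      (TensorProduct.AlgebraTensorModule.cancelBaseChange R A (Localization S) (Localization S) M)
  exact Module.Invertible.congr
    (IsLocalizedModule.isBaseChange S (Localization S) (LocalizedModule.mkLinearMap S M)).equiv

end Gluing

section Core

variable {B A₀ : Type*} (A₁ A₀₁ : Type*) [CommRing B] [CommRing A₀] [CommRing A₁] [CommRing A₀₁]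
  [Algebra B A₀] [Algebra B A₁] [Algebra B A₀₁] [Algebra A₀ A₀₁] [Algebra A₁ A₀₁]
  [IsScalarTower B A₀ A₀₁] [IsScalarTower B A₁ A₀₁]

/-- The ideal of the other chart `A₁` cut out by an ideal `I` of the chart `A₀`:
the preimage in `A₁` of the extension of `I` to the overlap `A₀₁`. -/
def atInfty (I : Ideal A₀) : Ideal A₁ :=
  (I.map (algebraMap A₀ A₀₁)).comap (algebraMap A₁ A₀₁)

variable {A₁ A₀₁}

theorem mem_atInfty {I : Ideal A₀} {a : A₁} :
    a ∈ atInfty A₁ A₀₁ I ↔ algebraMap A₁ A₀₁ a ∈ I.map (algebraMap A₀ A₀₁) :=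
  Iff.rfl

/-- (D2) The two ideals have the same extension to the overlap. -/
theorem map_atInfty (y : A₁) [IsLocalization.Away y A₀₁] (I : Ideal A₀) :
    (atInfty A₁ A₀₁ I).map (algebraMap A₁ A₀₁) = I.map (algebraMap A₀ A₀₁) :=
  IsLocalization.map_under (Submonoid.powers y) A₀₁ _

/-- The restriction map of the ideal `atInfty I` to the overlap `A₀₁`. Together with
`Algebra.idealMap A₀₁ I : I →ₗ[A₀] I.map (algebraMap A₀ A₀₁)` this exhibits
`(I, atInfty I, I·A₀₁)` as a two-chart datum (the ideal sheaf `O(-D)`). -/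
def atInftyToOverlap (I : Ideal A₀) :
    atInfty A₁ A₀₁ I →ₗ[A₁] I.map (algebraMap A₀ A₀₁) where
  toFun a := ⟨algebraMap A₁ A₀₁ a, a.2⟩
  map_add' a b := Subtype.ext (map_add _ _ _)
  map_smul' c a := Subtype.ext (by
    change algebraMap A₁ A₀₁ (c * a) = c • algebraMap A₁ A₀₁ a
    rw [map_mul, Algebra.smul_def])

@[simp] theorem coe_atInftyToOverlap (I : Ideal A₀) (a : atInfty A₁ A₀₁ I) :
    ((atInftyToOverlap I a : I.map (algebraMap A₀ A₀₁)) : A₀₁) = algebraMap A₁ A₀₁ a :=
  rfl

/-- (D2) `atInftyToOverlap` is a localization at the powers of `y`. -/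
theorem isLocalizedModule_atInftyToOverlap (y : A₁) [IsLocalization.Away y A₀₁] (I : Ideal A₀) :
    IsLocalizedModule (Submonoid.powers y)
      (atInftyToOverlap (A₁ := A₁) (A₀₁ := A₀₁) I) := by
  have h : atInftyToOverlap (A₁ := A₁) (A₀₁ := A₀₁) I =
      ((LinearEquiv.ofEq _ _ (map_atInfty y I)).restrictScalars A₁).toLinearMap ∘ₗ
        Algebra.idealMap A₀₁ (atInfty A₁ A₀₁ I) := by
    ext a
    rfl
  rw [h]
  infer_instance

variable (x : A₀) (y : A₁)

/-- A monic polynomial over the base killing `x` modulo `I`. -/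
theorem exists_monic_aeval_mem (I : Ideal A₀) [Module.Finite B (A₀ ⧸ I)] :
    ∃ P : B[X], P.Monic ∧ aeval x P ∈ I := by
  obtain ⟨P, hP, hP0⟩ := Algebra.IsIntegral.isIntegral (R := B) (Ideal.Quotient.mk I x)
  refine ⟨P, hP, ?_⟩
  rw [← Ideal.Quotient.eq_zero_iff_mem]
  have h := Polynomial.aeval_algHom_apply (Ideal.Quotient.mkₐ B I) x P
  rw [Ideal.Quotient.mkₐ_eq_mk] at h
  rw [← h]
  exact hP0

/-- (D1), explicit form: for a monic `P` with `P(x) ∈ I`, the element `u = y^deg P * P(1/y)`
(the reversed polynomial evaluated at `y`) lies in `atInfty I`. -/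
theorem aeval_reverse_mem_atInfty (hxy : algebraMap A₀ A₀₁ x * algebraMap A₁ A₀₁ y = 1)
    (I : Ideal A₀) (P : B[X]) (hP : aeval x P ∈ I) :
    aeval y P.reverse ∈ atInfty A₁ A₀₁ I := by
  rw [mem_atInfty, ← Polynomial.aeval_algebraMap_apply]
  let _ : Invertible (algebraMap A₀ A₀₁ x) := ⟨algebraMap A₁ A₀₁ y, by rw [mul_comm]; exact hxy, hxy⟩
  have h1 : eval₂ (algebraMap B A₀₁) (⅟(algebraMap A₀ A₀₁ x)) P.reverse *
      algebraMap A₀ A₀₁ x ^ P.natDegree = eval₂ (algebraMap B A₀₁) (algebraMap A₀ A₀₁ x) P :=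
    Polynomial.eval₂_reverse_mul_pow _ _ _
  have h2 : eval₂ (algebraMap B A₀₁) (algebraMap A₀ A₀₁ x) P ∈ I.map (algebraMap A₀ A₀₁) := by
    have : eval₂ (algebraMap B A₀₁) (algebraMap A₀ A₀₁ x) P = algebraMap A₀ A₀₁ (aeval x P) := by
      rw [← Polynomial.aeval_algebraMap_apply]; rfl
    rw [this]
    exact Ideal.mem_map_of_mem _ hP
  have h3 : aeval (algebraMap A₁ A₀₁ y) P.reverse =
      eval₂ (algebraMap B A₀₁) (algebraMap A₀ A₀₁ x) P * algebraMap A₁ A₀₁ y ^ P.natDegree := by
    rw [← h1, mul_assoc, ← mul_pow, hxy, one_pow, mul_one]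
    rfl
  rw [h3]
  exact Ideal.mul_mem_right _ _ h2

theorem aeval_reverse_sub_one_mem (P : B[X]) (hP : P.Monic) :
    aeval y P.reverse - 1 ∈ Ideal.span {y} := by
  have h0 : P.reverse.coeff 0 = 1 := by
    rw [Polynomial.coeff_zero_reverse, hP.leadingCoeff]
  obtain ⟨q, hq⟩ := Polynomial.X_dvd_sub_C (p := P.reverse)
  rw [h0] at hq
  have : aeval y P.reverse - 1 = y * aeval y q := by
    have := congrArg (aeval y) hq
    simpa using this
  rw [this]
  exact Ideal.mul_mem_right _ _ (Ideal.mem_span_singleton_self y)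

/-- (D1) There is an element `u` of `atInfty I` congruent to `1` modulo `y`. -/
theorem exists_mem_atInfty_sub_one_mem (hxy : algebraMap A₀ A₀₁ x * algebraMap A₁ A₀₁ y = 1)
    (I : Ideal A₀) [Module.Finite B (A₀ ⧸ I)] :
    ∃ u ∈ atInfty A₁ A₀₁ I, u - 1 ∈ Ideal.span {y} := by
  obtain ⟨P, hP, hPI⟩ := exists_monic_aeval_mem (B := B) x I
  exact ⟨aeval y P.reverse, aeval_reverse_mem_atInfty x y hxy I P hPI,
    aeval_reverse_sub_one_mem y P hP⟩

/-- (D1') `atInfty I` and `y` are comaximal. -/
theorem atInfty_sup_span_eq_top (hxy : algebraMap A₀ A₀₁ x * algebraMap A₁ A₀₁ y = 1)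
    (I : Ideal A₀) [Module.Finite B (A₀ ⧸ I)] :
    atInfty A₁ A₀₁ I ⊔ Ideal.span {y} = ⊤ := by
  obtain ⟨u, hu, hu1⟩ := exists_mem_atInfty_sub_one_mem (B := B) x y hxy I
  rw [Ideal.eq_top_iff_one]
  have : (1 : A₁) = u - (u - 1) := by ring
  rw [this]
  exact Ideal.sub_mem _ (Ideal.mem_sup_left hu) (Ideal.mem_sup_right hu1)

/-- (D1'') Any ring map killing `y` sends `atInfty I` onto the unit ideal: the fibre of `O(-D)`
along a section contained in `V(y)` is canonically trivial. -/
theorem map_atInfty_eq_top_of_map_eq_zero (hxy : algebraMap A₀ A₀₁ x * algebraMap A₁ A₀₁ y = 1)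
    (I : Ideal A₀) [Module.Finite B (A₀ ⧸ I)] {C : Type*} [CommRing C] (g : A₁ →+* C)
    (hg : g y = 0) : (atInfty A₁ A₀₁ I).map g = ⊤ := by
  obtain ⟨u, hu, hu1⟩ := exists_mem_atInfty_sub_one_mem (B := B) x y hxy I
  obtain ⟨w, hw⟩ := Ideal.mem_span_singleton'.mp hu1
  rw [Ideal.eq_top_iff_one]
  have h1 : g u = 1 := by
    have : u = 1 + w * y := by rw [hw]; ring
    rw [this, map_add, map_mul, hg, mul_zero, add_zero, map_one]
  rw [← h1]
  exact Ideal.mem_map_of_mem g hu

/-- (D3) `A₁ → A₀₁ ⧸ I·A₀₁` is surjective: the part of the divisor lying in the other chart is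
closed there, with coordinate ring `(A₀ ⧸ I)[1/x]`. -/
theorem surjective_mk_comp_algebraMap [IsLocalization.Away y A₀₁]
    (hxy : algebraMap A₀ A₀₁ x * algebraMap A₁ A₀₁ y = 1)
    (I : Ideal A₀) [Module.Finite B (A₀ ⧸ I)] :
    Function.Surjective
      ((Ideal.Quotient.mk (I.map (algebraMap A₀ A₀₁))).comp (algebraMap A₁ A₀₁)) := by
  obtain ⟨u, hu, hu1⟩ := exists_mem_atInfty_sub_one_mem (B := B) x y hxy I
  obtain ⟨w, hw⟩ := Ideal.mem_span_singleton'.mp hu1
  have h0 : Ideal.Quotient.mk (I.map (algebraMap A₀ A₀₁)) (algebraMap A₁ A₀₁ u) = 0 :=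
    Ideal.Quotient.eq_zero_iff_mem.mpr hu
  have hy : Ideal.Quotient.mk (I.map (algebraMap A₀ A₀₁)) (algebraMap A₁ A₀₁ y) *
      Ideal.Quotient.mk (I.map (algebraMap A₀ A₀₁)) (algebraMap A₁ A₀₁ (-w)) = 1 := by
    have : y * (-w) = 1 - u := by
      have : u = 1 + w * y := by rw [hw]; ring
      rw [this]; ring
    rw [← map_mul, ← map_mul, this, map_sub, map_sub, h0, map_one, map_one, sub_zero]
  intro z
  obtain ⟨z', rfl⟩ := Ideal.Quotient.mk_surjective z
  obtain ⟨n, a, ha⟩ := IsLocalization.Away.surj y z'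
  refine ⟨a * (-w) ^ n, ?_⟩
  rw [RingHom.comp_apply, map_mul, map_mul, map_pow, map_pow, ← ha, map_mul, map_pow,
    mul_assoc, ← mul_pow, hy, one_pow, mul_one]

theorem ker_mk_comp_algebraMap (I : Ideal A₀) :
    RingHom.ker ((Ideal.Quotient.mk (I.map (algebraMap A₀ A₀₁))).comp (algebraMap A₁ A₀₁)) =
      atInfty A₁ A₀₁ I := by
  ext a
  rw [RingHom.mem_ker, RingHom.comp_apply, Ideal.Quotient.eq_zero_iff_mem, mem_atInfty]

/-- (D3) The coordinate ring of the divisor in the other chart. -/
noncomputable def quotientAtInftyEquiv [IsLocalization.Away y A₀₁]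
    (hxy : algebraMap A₀ A₀₁ x * algebraMap A₁ A₀₁ y = 1)
    (I : Ideal A₀) [Module.Finite B (A₀ ⧸ I)] :
    (A₁ ⧸ atInfty A₁ A₀₁ I) ≃+* (A₀₁ ⧸ I.map (algebraMap A₀ A₀₁)) :=
  (Ideal.quotEquivOfEq (ker_mk_comp_algebraMap I).symm).trans
    (RingHom.quotientKerEquivOfSurjective (surjective_mk_comp_algebraMap (B := B) x y hxy I))

/-- (D4) If `I` is an invertible `A₀`-module, then `atInfty I` is an invertible `A₁`-module:
it is the unit ideal on `D(u)` and the invertible module `I·A₀₁` on `D(y)`, and `D(u) ∪ D(y)`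
covers `Spec A₁`. -/
theorem invertible_atInfty [IsLocalization.Away x A₀₁] [IsLocalization.Away y A₀₁]
    (hxy : algebraMap A₀ A₀₁ x * algebraMap A₁ A₀₁ y = 1)
    (I : Ideal A₀) [Module.Finite B (A₀ ⧸ I)] [Module.Invertible A₀ I] :
    Module.Invertible A₁ (atInfty A₁ A₀₁ I) := by
  obtain ⟨u, hu, hu1⟩ := exists_mem_atInfty_sub_one_mem (B := B) x y hxy I
  have hspan : Ideal.span ({u, y} : Set A₁) = ⊤ := by
    rw [Ideal.eq_top_iff_one]
    have h1 : (1 : A₁) = u - (u - 1) := by ring
    rw [h1]
    refine Ideal.sub_mem _ (Ideal.subset_span (by simp)) ?_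
    exact Ideal.span_mono (by simp) hu1
  refine invertible_of_localization_span ({u, y} : Set A₁) hspan ?_
  rintro ⟨r, hr⟩
  rcases hr with rfl | hr
  · have hmap : (atInfty A₁ A₀₁ I).map (algebraMap A₁ (Localization.Away r)) = ⊤ :=
      Ideal.eq_top_of_isUnit_mem _ (Ideal.mem_map_of_mem _ hu)
        (IsLocalization.Away.algebraMap_isUnit r)
    have hinv : Module.Invertible (Localization.Away r)
        ((atInfty A₁ A₀₁ I).map (algebraMap A₁ (Localization.Away r))) :=
      Module.Invertible.congr (R := Localization.Away r) (M := Localization.Away r)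
        ((LinearEquiv.ofEq _ _ hmap).trans Submodule.topEquiv).symm
    exact invertible_localizedModule_of_isLocalizedModule (A := Localization.Away r)
      (Submonoid.powers r) (Algebra.idealMap (Localization.Away r) (atInfty A₁ A₀₁ I))
  · rw [Set.mem_singleton_iff] at hr
    subst hr
    have h1 : Module.Invertible A₀₁ (I.map (algebraMap A₀ A₀₁)) :=
      Module.Invertible.of_isLocalization (Submonoid.powers x) (Algebra.idealMap A₀₁ I)
    have h2 : Module.Invertible A₀₁ ((atInfty A₁ A₀₁ I).map (algebraMap A₁ A₀₁)) :=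
      Module.Invertible.congr (R := A₀₁) (M := I.map (algebraMap A₀ A₀₁))
        (LinearEquiv.ofEq _ _ (map_atInfty r I).symm)
    exact invertible_localizedModule_of_isLocalizedModule (A := A₀₁) (Submonoid.powers r)
      (Algebra.idealMap A₀₁ (atInfty A₁ A₀₁ I))

end Core

end Fermat.Agent.S25.helper622
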