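import Fermat.Agent.S25.helper1705_Curve

/-!
# S25, support for leaves U18 / U3: ideals of the graph of a point in the two charts (helper7530)

`D : CurveDatum k`, `B` a `k`-algebra, `p : D.R₀ →ₐ[k] B` a `B`-point of chart 0.
* `ptIdeal p`   : the ideal of the graph of `p` in its own chart, `ker (R₀ ⊗ B → B)`;
* `ptIdealOpp p`: the ideal of the graph in the other chart (contraction of the extension to the
  overlap).
Everything is proved in an abstract two-chart setting (`R`, `R'`, overlap `S`, `x * y = 1`), so the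
statements for points of chart 1 are the same theorems with the charts swapped.

Main results (ideal level, no module structures):
* `ptIdeal_eq_span`, `map_ptIdeal`         : generators and base change of `ptIdeal`;
* `map_res_ptIdealOpp`                      : both ideals have the same extension to the overlap;
* `one_sub_mem_ptIdealOpp`                  : `1 - (y ⊗ 1) * (1 ⊗ p x) ∈ ptIdealOpp p`;
* `map_ptIdealOpp`                          : base change of `ptIdealOpp`;
* `ptIdealOpp_eq_ptIdeal_of_overlap`        : a point of the overlap defines the same pair of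
  ideals whether it is regarded as a point of chart 0 or of chart 1.
-/

set_option autoImplicit false

universe u

open scoped TensorProduct

namespace Fermat.Agent.S25.helper7530

/-! ### A localization lemma -/

/-- In a localization `A → A'` away from `s`, an ideal `J` of `A` containing an element
`1 - s * c` is contracted: `J = (J A') ∩ A`. -/
theorem comap_map_eq_self_of_one_sub_mem {A A' : Type*} [CommRing A] [CommRing A'] [Algebra A A']
    (s : A) [IsLocalization.Away s A'] (J : Ideal A) (c : A) (hu : 1 - s * c ∈ J) :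
    (J.map (algebraMap A A')).comap (algebraMap A A') = J := by
  refine le_antisymm ?_ Ideal.le_comap_map
  intro a ha
  rw [Ideal.mem_comap, IsLocalization.mem_map_algebraMap_iff (Submonoid.powers s)] at ha
  obtain ⟨⟨j, ⟨_, n, rfl⟩⟩, h⟩ := ha
  rw [← map_mul, IsLocalization.eq_iff_exists (Submonoid.powers s)] at h
  obtain ⟨⟨_, m, rfl⟩, h⟩ := h
  have h1 : s ^ (m + n) * a ∈ J := by
    have : s ^ (m + n) * a = s ^ m * j := by
      simp only at h
      rw [← h]; ring
    rw [this]; exact J.mul_mem_left _ j.2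
  have h2 : ∀ N : ℕ, 1 - (s * c) ^ N ∈ J := by
    intro N
    induction N with
    | zero => simp
    | succ N ih =>
      have : 1 - (s * c) ^ (N + 1) = (1 - (s * c) ^ N) + (s * c) ^ N * (1 - s * c) := by ring
      rw [this]; exact J.add_mem ih (J.mul_mem_left _ hu)
  have : a = (1 - (s * c) ^ (m + n)) * a + c ^ (m + n) * (s ^ (m + n) * a) := by ring
  rw [this]; exact J.add_mem (J.mul_mem_right _ (h2 _)) (J.mul_mem_left _ h1)

/-! ### The abstract two-chart setting -/

section Abstract

variable {k : Type*} [CommRing k] {R S : Type*} [CommRing R] [CommRing S]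
  [Algebra k R] [Algebra k S] [Algebra R S] [IsScalarTower k R S]
variable (B : Type*) [CommRing B] [Algebra k B]

/-- Restriction from a chart to the overlap, after base change to `B`. -/
noncomputable abbrev resT : R ⊗[k] B →ₐ[k] S ⊗[k] B :=
  Algebra.TensorProduct.map (IsScalarTower.toAlgHom k R S) (AlgHom.id k B)

/-- `S ⊗ B` is the localization of `R ⊗ B` away from `x ⊗ 1` when `S` is the localization of `R`
away from `x`. -/
theorem isLocalization_resT (x : R) [IsLocalization.Away x S] :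
    letI := (resT (k := k) (R := R) (S := S) B).toRingHom.toAlgebra
    IsLocalization.Away (x ⊗ₜ[k] (1 : B)) (S ⊗[k] B) := by
  let _ := (resT (k := k) (R := R) (S := S) B).toRingHom.toAlgebra
  have : IsScalarTower R (R ⊗[k] B) (S ⊗[k] B) := IsScalarTower.of_algebraMap_eq' (by
    ext r
    simp [RingHom.algebraMap_toAlgebra, Algebra.TensorProduct.algebraMap_apply])
  have h := IsLocalization.tensorProduct_tensorProduct k B (Submonoid.powers x) S (by
    ext b
    simp [RingHom.algebraMap_toAlgebra])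
  rw [Algebra.algebraMapSubmonoid_powers] at h
  exact h

/-- Base change commutes with restriction to the overlap. -/
theorem resT_comp_map {B' : Type*} [CommRing B'] [Algebra k B'] (φ : B →ₐ[k] B') :
    (resT (k := k) (R := R) (S := S) B').toRingHom.comp
        (Algebra.TensorProduct.map (AlgHom.id k R) φ).toRingHom =
      (Algebra.TensorProduct.map (AlgHom.id k S) φ).toRingHom.comp
        (resT (k := k) (R := R) (S := S) B).toRingHom := by
  have : (resT (k := k) (R := R) (S := S) B').comp (Algebra.TensorProduct.map (AlgHom.id k R) φ) =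
      (Algebra.TensorProduct.map (AlgHom.id k S) φ).comp (resT (k := k) (R := R) (S := S) B) := by
    apply Algebra.TensorProduct.ext'
    intro a b
    simp
  exact congrArg AlgHom.toRingHom this

end Abstract

/-! ### Ideals of the graph of a point -/

section Points

variable {k : Type*} [CommRing k] {R : Type*} [CommRing R] [Algebra k R]
variable {B : Type*} [CommRing B] [Algebra k B]

/-- Evaluation `R ⊗ B → B` at a `B`-point `p` of `Spec R`. -/
noncomputable def evT (p : R →ₐ[k] B) : R ⊗[k] B →ₐ[k] B :=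
  Algebra.TensorProduct.lift p (AlgHom.id k B) (fun _ _ => .all _ _)

@[simp] theorem evT_tmul (p : R →ₐ[k] B) (a : R) (b : B) : evT p (a ⊗ₜ[k] b) = p a * b := by
  simp [evT]

/-- The ideal of the graph of the `B`-point `p` in `Spec (R ⊗ B)`. -/
noncomputable def ptIdeal (p : R →ₐ[k] B) : Ideal (R ⊗[k] B) := RingHom.ker (evT p)

theorem mem_ptIdeal (p : R →ₐ[k] B) (z : R ⊗[k] B) : z ∈ ptIdeal p ↔ evT p z = 0 :=
  RingHom.mem_ker

theorem sub_mem_ptIdeal (p : R →ₐ[k] B) (a : R) :
    a ⊗ₜ[k] (1 : B) - 1 ⊗ₜ[k] p a ∈ ptIdeal p := by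
  rw [mem_ptIdeal]
  simp

/-- The graph ideal is generated by the elements `a ⊗ 1 - 1 ⊗ p a`. -/
theorem ptIdeal_eq_span (p : R →ₐ[k] B) :
    ptIdeal p = Ideal.span (Set.range fun a : R => a ⊗ₜ[k] (1 : B) - 1 ⊗ₜ[k] p a) := by
  refine le_antisymm ?_ (Ideal.span_le.mpr ?_)
  · intro z hz
    have key : ∀ z : R ⊗[k] B, z - 1 ⊗ₜ[k] evT p z ∈
        Ideal.span (Set.range fun a : R => a ⊗ₜ[k] (1 : B) - 1 ⊗ₜ[k] p a) := by
      intro z
      induction z using TensorProduct.induction_on with
      | zero => simp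
      | tmul a b =>
        have : a ⊗ₜ[k] b - 1 ⊗ₜ[k] evT p (a ⊗ₜ[k] b) =
            (a ⊗ₜ[k] (1 : B) - 1 ⊗ₜ[k] p a) * (1 ⊗ₜ[k] b) := by
          simp [sub_mul, Algebra.TensorProduct.tmul_mul_tmul]
        rw [this]
        exact Ideal.mul_mem_right _ _ (Ideal.subset_span ⟨a, rfl⟩)
      | add z₁ z₂ h₁ h₂ =>
        have : z₁ + z₂ - 1 ⊗ₜ[k] evT p (z₁ + z₂) =
            (z₁ - 1 ⊗ₜ[k] evT p z₁) + (z₂ - 1 ⊗ₜ[k] evT p z₂) := by
          rw [map_add, TensorProduct.tmul_add]; ring
        rw [this]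
        exact Ideal.add_mem _ h₁ h₂
    have h := key z
    rw [(mem_ptIdeal p z).mp hz, TensorProduct.tmul_zero, sub_zero] at h
    exact h
  · rintro _ ⟨a, rfl⟩
    exact sub_mem_ptIdeal p a

/-- Base change of the graph ideal. -/
theorem map_ptIdeal {B' : Type*} [CommRing B'] [Algebra k B'] (φ : B →ₐ[k] B') (p : R →ₐ[k] B) :
    (ptIdeal p).map (Algebra.TensorProduct.map (AlgHom.id k R) φ) = ptIdeal (φ.comp p) := by
  refine le_antisymm ?_ ?_
  · rw [Ideal.map_le_iff_le_comap]
    intro z hz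
    rw [Ideal.mem_comap, mem_ptIdeal]
    have hcomp : (evT (φ.comp p)).comp (Algebra.TensorProduct.map (AlgHom.id k R) φ) =
        φ.comp (evT p) := by
      apply Algebra.TensorProduct.ext'
      intro a b
      simp
    have := congrArg (fun f => f z) hcomp
    simp only [AlgHom.comp_apply] at this
    rw [this, (mem_ptIdeal p z).mp hz, map_zero]
  · rw [ptIdeal_eq_span (φ.comp p), Ideal.span_le]
    rintro _ ⟨a, rfl⟩
    have : a ⊗ₜ[k] (1 : B') - 1 ⊗ₜ[k] (φ.comp p) a =
        Algebra.TensorProduct.map (AlgHom.id k R) φ (a ⊗ₜ[k] (1 : B) - 1 ⊗ₜ[k] p a) := by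
      simp
    change a ⊗ₜ[k] (1 : B') - 1 ⊗ₜ[k] (φ.comp p) a ∈ _
    rw [this]
    exact Ideal.mem_map_of_mem _ (sub_mem_ptIdeal p a)

end Points

/-! ### The graph in the other chart -/

section Opp

variable {k : Type*} [CommRing k] {R : Type*} (R' S : Type*) [CommRing R] [CommRing R'] [CommRing S]
  [Algebra k R] [Algebra k R'] [Algebra k S] [Algebra R S] [Algebra R' S]
  [IsScalarTower k R S] [IsScalarTower k R' S]
variable {B : Type*} [CommRing B] [Algebra k B]

/-- The ideal, in the other chart `Spec (R' ⊗ B)`, of the graph of a `B`-point `p` of `Spec R`: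
the contraction of the extension of `ptIdeal p` to the overlap `Spec (S ⊗ B)`. -/
noncomputable def ptIdealOpp (p : R →ₐ[k] B) : Ideal (R' ⊗[k] B) :=
  ((ptIdeal p).map (resT (k := k) (R := R) (S := S) B)).comap (resT (k := k) (R := R') (S := S) B)

variable {R' S}

/-- Both ideals of the graph have the same extension to the overlap. -/
theorem map_res_ptIdealOpp (y : R') [IsLocalization.Away y S] (p : R →ₐ[k] B) :
    (ptIdealOpp R' S p).map (resT (k := k) (R := R') (S := S) B) =
      (ptIdeal p).map (resT (k := k) (R := R) (S := S) B) := by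
  let _ := (resT (k := k) (R := R') (S := S) B).toRingHom.toAlgebra
  have := isLocalization_resT (k := k) (R := R') (S := S) B y
  exact IsLocalization.map_under (Submonoid.powers (y ⊗ₜ[k] (1 : B))) (S ⊗[k] B)
    ((ptIdeal p).map (resT (k := k) (R := R) (S := S) B))

/-- The element `1 - (y ⊗ 1) * (1 ⊗ p x)` vanishes on the graph: the graph does not meet
`V(y)` in the other chart. -/
theorem one_sub_mem_ptIdealOpp (x : R) (y : R')
    (hxy : algebraMap R S x * algebraMap R' S y = 1) (p : R →ₐ[k] B) :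
    1 - (y ⊗ₜ[k] (1 : B)) * (1 ⊗ₜ[k] p x) ∈ ptIdealOpp R' S p := by
  rw [ptIdealOpp, Ideal.mem_comap]
  have h : resT (k := k) (R := R') (S := S) B (1 - (y ⊗ₜ[k] (1 : B)) * (1 ⊗ₜ[k] p x)) =
      (algebraMap R' S y ⊗ₜ[k] (1 : B)) *
        resT (k := k) (R := R) (S := S) B (x ⊗ₜ[k] (1 : B) - 1 ⊗ₜ[k] p x) := by
    simp only [map_sub, map_one, Algebra.TensorProduct.map_tmul, AlgHom.coe_id, id_eq,
      IsScalarTower.coe_toAlgHom', mul_sub, Algebra.TensorProduct.tmul_mul_tmul, mul_one, one_mul]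
    rw [mul_comm (algebraMap R' S y) (algebraMap R S x), hxy]
    rfl
  rw [h]
  exact Ideal.mul_mem_left _ _ (Ideal.mem_map_of_mem _ (sub_mem_ptIdeal p x))

/-- Base change of the graph ideal in the other chart. -/
theorem map_ptIdealOpp (x : R) (y : R') [IsLocalization.Away y S]
    (hxy : algebraMap R S x * algebraMap R' S y = 1)
    {B' : Type*} [CommRing B'] [Algebra k B'] (φ : B →ₐ[k] B') (p : R →ₐ[k] B) :
    (ptIdealOpp R' S p).map (Algebra.TensorProduct.map (AlgHom.id k R') φ) =
      ptIdealOpp R' S (φ.comp p) := by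
  -- the extension to the overlap of the base-changed ideal
  have hext : ((ptIdealOpp R' S p).map (Algebra.TensorProduct.map (AlgHom.id k R') φ)).map
        (resT (k := k) (R := R') (S := S) B') =
      (ptIdeal (φ.comp p)).map (resT (k := k) (R := R) (S := S) B') := by
    rw [← map_ptIdeal φ p]
    change Ideal.map (resT (k := k) (R := R') (S := S) B').toRingHom
        (Ideal.map (Algebra.TensorProduct.map (AlgHom.id k R') φ).toRingHom _) =
      Ideal.map (resT (k := k) (R := R) (S := S) B').toRingHom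
        (Ideal.map (Algebra.TensorProduct.map (AlgHom.id k R) φ).toRingHom _)
    rw [Ideal.map_map, Ideal.map_map, resT_comp_map (R := R') (S := S) B φ,
      resT_comp_map (R := R) (S := S) B φ, ← Ideal.map_map, ← Ideal.map_map]
    congr 1
    exact map_res_ptIdealOpp y p
  -- the base-changed ideal is contracted
  have hmem : 1 - (y ⊗ₜ[k] (1 : B')) * (1 ⊗ₜ[k] φ (p x)) ∈
      (ptIdealOpp R' S p).map (Algebra.TensorProduct.map (AlgHom.id k R') φ) := by
    have h := Ideal.mem_map_of_mem (Algebra.TensorProduct.map (AlgHom.id k R') φ)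
      (one_sub_mem_ptIdealOpp (B := B) x y hxy p)
    simpa using h
  let _ := (resT (k := k) (R := R') (S := S) B').toRingHom.toAlgebra
  have := isLocalization_resT (k := k) (R := R') (S := S) B' y
  have hcontr := comap_map_eq_self_of_one_sub_mem (A' := S ⊗[k] B') (y ⊗ₜ[k] (1 : B'))
    ((ptIdealOpp R' S p).map (Algebra.TensorProduct.map (AlgHom.id k R') φ))
    (1 ⊗ₜ[k] φ (p x)) hmem
  rw [← hcontr]
  change Ideal.comap (resT (k := k) (R := R') (S := S) B')
    (Ideal.map (resT (k := k) (R := R') (S := S) B') _) = _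
  rw [hext]
  rfl

end Opp

/-! ### Points of the overlap -/

section Overlap

variable {k : Type*} [CommRing k] {R : Type*} (R' : Type*) {S : Type*}
  [CommRing R] [CommRing R'] [CommRing S]
  [Algebra k R] [Algebra k R'] [Algebra k S] [Algebra R S] [Algebra R' S]
  [IsScalarTower k R S] [IsScalarTower k R' S]
variable {B : Type*} [CommRing B] [Algebra k B]

omit [CommRing R'] [Algebra k R'] [Algebra R' S] [IsScalarTower k R' S] in
theorem evT_comp_resT (r : S →ₐ[k] B) :
    (evT r).comp (resT (k := k) (R := R) (S := S) B) = evT (r.comp (IsScalarTower.toAlgHom k R S)) := by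
  apply Algebra.TensorProduct.ext'
  intro a b
  simp

omit [CommRing R'] [Algebra k R'] [Algebra R' S] [IsScalarTower k R' S] in
theorem evT_resT (r : S →ₐ[k] B) (z : R ⊗[k] B) :
    evT r (resT (k := k) (R := R) (S := S) B z) = evT (r.comp (IsScalarTower.toAlgHom k R S)) z := by
  rw [← evT_comp_resT r]
  rfl

omit [CommRing R'] [Algebra k R'] [Algebra R' S] [IsScalarTower k R' S] in
/-- For a point `r` of the overlap, the graph ideal of `r` is the extension of the graph ideal
of the corresponding point of the chart. -/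
theorem map_res_ptIdeal_of_overlap (x : R) [IsLocalization.Away x S] (r : S →ₐ[k] B) :
    (ptIdeal (r.comp (IsScalarTower.toAlgHom k R S))).map (resT (k := k) (R := R) (S := S) B) =
      ptIdeal r := by
  let _ := (resT (k := k) (R := R) (S := S) B).toRingHom.toAlgebra
  have := isLocalization_resT (k := k) (R := R) (S := S) B x
  refine le_antisymm ?_ ?_
  · rw [Ideal.map_le_iff_le_comap]
    intro z hz
    rw [Ideal.mem_comap, mem_ptIdeal, evT_resT]
    exact (mem_ptIdeal _ z).mp hz
  · intro z hz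
    change z ∈ Ideal.map (algebraMap (R ⊗[k] B) (S ⊗[k] B)) _
    rw [IsLocalization.mem_map_algebraMap_iff (Submonoid.powers (x ⊗ₜ[k] (1 : B)))]
    obtain ⟨⟨a, s⟩, h⟩ := IsLocalization.surj (Submonoid.powers (x ⊗ₜ[k] (1 : B))) z
    refine ⟨⟨⟨a, ?_⟩, s⟩, h⟩
    rw [mem_ptIdeal, ← evT_resT]
    change evT r (algebraMap (R ⊗[k] B) (S ⊗[k] B) a) = 0
    rw [← h, map_mul, (mem_ptIdeal r z).mp hz, zero_mul]

/-- **Same point, same ideals.**  A point `r` of the overlap defines the same ideal in the chart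
`Spec (R' ⊗ B)` whether it is regarded as a point of `Spec R` (and transported to the other
chart) or directly as a point of `Spec R'`. -/
theorem ptIdealOpp_eq_ptIdeal_of_overlap (x : R) [IsLocalization.Away x S] (r : S →ₐ[k] B) :
    ptIdealOpp R' S (r.comp (IsScalarTower.toAlgHom k R S)) =
      ptIdeal (r.comp (IsScalarTower.toAlgHom k R' S)) := by
  rw [ptIdealOpp, map_res_ptIdeal_of_overlap x r]
  ext z
  rw [Ideal.mem_comap, mem_ptIdeal, mem_ptIdeal, evT_resT]

end Overlap

/-! ### Specialisation to a curve datum -/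

section Curve

open Fermat.Agent.S25.helper1705

variable {k : Type u} [Field k] (D : CurveDatum k) {B : Type u} [CommRing B] [Algebra k B]

/-- Ideal in chart 0 of the graph of a `B`-point of chart 0. -/
noncomputable abbrev ptIdeal₀₀ (p : D.R₀ →ₐ[k] B) : Ideal (D.A₀ B) := ptIdeal p

/-- Ideal in chart 1 of the graph of a `B`-point of chart 0. -/
noncomputable abbrev ptIdeal₀₁ (p : D.R₀ →ₐ[k] B) : Ideal (D.A₁ B) := ptIdealOpp D.R₁ D.R₀₁ p

/-- Ideal in chart 1 of the graph of a `B`-point of chart 1. -/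
noncomputable abbrev ptIdeal₁₁ (q : D.R₁ →ₐ[k] B) : Ideal (D.A₁ B) := ptIdeal q

/-- Ideal in chart 0 of the graph of a `B`-point of chart 1. -/
noncomputable abbrev ptIdeal₁₀ (q : D.R₁ →ₐ[k] B) : Ideal (D.A₀ B) := ptIdealOpp D.R₀ D.R₀₁ q

/-- Chart-0 point: the two ideals have the same extension to the overlap. -/
theorem map_res₁_ptIdeal₀₁ (p : D.R₀ →ₐ[k] B) :
    (ptIdeal₀₁ D p).map (D.res₁ B) = (ptIdeal₀₀ D p).map (D.res₀ B) :=
  map_res_ptIdealOpp D.y p

/-- Chart-1 point: the two ideals have the same extension to the overlap. -/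
theorem map_res₀_ptIdeal₁₀ (q : D.R₁ →ₐ[k] B) :
    (ptIdeal₁₀ D q).map (D.res₀ B) = (ptIdeal₁₁ D q).map (D.res₁ B) :=
  map_res_ptIdealOpp D.x q

/-- Chart-0 point: the graph does not meet `V(y)`. -/
theorem one_sub_mem_ptIdeal₀₁ (p : D.R₀ →ₐ[k] B) :
    1 - (D.y ⊗ₜ[k] (1 : B)) * (1 ⊗ₜ[k] p D.x) ∈ ptIdeal₀₁ D p :=
  one_sub_mem_ptIdealOpp D.x D.y D.xy p

/-- Chart-1 point: the graph does not meet `V(x)`. -/
theorem one_sub_mem_ptIdeal₁₀ (q : D.R₁ →ₐ[k] B) :
    1 - (D.x ⊗ₜ[k] (1 : B)) * (1 ⊗ₜ[k] q D.y) ∈ ptIdeal₁₀ D q :=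
  one_sub_mem_ptIdealOpp D.y D.x ((mul_comm _ _).trans D.xy) q

variable {B' : Type u} [CommRing B'] [Algebra k B'] (φ : B →ₐ[k] B')

/-- Base change, chart-0 point, chart 0. -/
theorem map_map₀_ptIdeal₀₀ (p : D.R₀ →ₐ[k] B) :
    (ptIdeal₀₀ D p).map (D.map₀ φ) = ptIdeal₀₀ D (φ.comp p) :=
  map_ptIdeal φ p

/-- Base change, chart-0 point, chart 1. -/
theorem map_map₁_ptIdeal₀₁ (p : D.R₀ →ₐ[k] B) :
    (ptIdeal₀₁ D p).map (D.map₁ φ) = ptIdeal₀₁ D (φ.comp p) :=
  map_ptIdealOpp D.x D.y D.xy φ p

/-- Base change, chart-1 point, chart 1. -/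
theorem map_map₁_ptIdeal₁₁ (q : D.R₁ →ₐ[k] B) :
    (ptIdeal₁₁ D q).map (D.map₁ φ) = ptIdeal₁₁ D (φ.comp q) :=
  map_ptIdeal φ q

/-- Base change, chart-1 point, chart 0. -/
theorem map_map₀_ptIdeal₁₀ (q : D.R₁ →ₐ[k] B) :
    (ptIdeal₁₀ D q).map (D.map₀ φ) = ptIdeal₁₀ D (φ.comp q) :=
  map_ptIdealOpp D.y D.x ((mul_comm _ _).trans D.xy) φ q

/-- **Same point, same ideals (chart 1).**  For a point `r` of the overlap, the chart-1 ideal of
the chart-0 point `r ∘ (R₀ → R₀₁)` is the chart-1 ideal of the chart-1 point `r ∘ (R₁ → R₀₁)`. -/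
theorem ptIdeal₀₁_eq_ptIdeal₁₁ (r : D.R₀₁ →ₐ[k] B) :
    ptIdeal₀₁ D (r.comp (IsScalarTower.toAlgHom k D.R₀ D.R₀₁)) =
      ptIdeal₁₁ D (r.comp (IsScalarTower.toAlgHom k D.R₁ D.R₀₁)) :=
  ptIdealOpp_eq_ptIdeal_of_overlap D.R₁ D.x r

/-- **Same point, same ideals (chart 0).** -/
theorem ptIdeal₁₀_eq_ptIdeal₀₀ (r : D.R₀₁ →ₐ[k] B) :
    ptIdeal₁₀ D (r.comp (IsScalarTower.toAlgHom k D.R₁ D.R₀₁)) =
      ptIdeal₀₀ D (r.comp (IsScalarTower.toAlgHom k D.R₀ D.R₀₁)) :=
  ptIdealOpp_eq_ptIdeal_of_overlap D.R₀ D.y r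

end Curve

end Fermat.Agent.S25.helper7530
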