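import Fermat.Agent.S25.helper8663_PointDecomp
import Fermat.Agent.S25.helper5597_DivisorIdealCurve
import Fermat.Agent.S25.helper6871_PointIdeal
import Fermat.Agent.S25.helper7530_PointIdeals

/-!
# S25 (helper8663): point decomposition of ideals of the chart rings of a curve datum

`D : CurveDatum k`, `k` algebraically closed, `K/k` an algebraically closed field.  Every ideal `I`
of `D.A₀ K = D.R₀ ⊗[k] K` (or of `D.A₁ K`) with `D.A₀ K ⧸ I` finite-dimensional over `K` is the
product of exactly `finrank K (D.A₀ K ⧸ I)` ideals of `K`-points `p : D.R₀ →ₐ[k] K`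
(`helper6871.pointIdeal₀ D p = helper7530.ptIdeal p`).

* `point₀ D χ`, `ker_eq_pointIdeal₀` : a `K`-algebra map `χ : D.A₀ K →ₐ[K] K` is the evaluation at
  the `K`-point `point₀ D χ`;
* `exists_list_pointIdeal₀_prod_eq`, `exists_fin_pointIdeal₀_prod_eq` : the decomposition, list and
  `Fin d` forms; `₁` versions on the chart at infinity;
* `pointIdeal₀_isMaximal`, `exists_pointIdeal₀_ge` : points are maximal ideals, and every proper
  ideal of finite codimension is contained in the ideal of a point.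
-/

set_option autoImplicit false

universe u

open TensorProduct Module

namespace Fermat.Agent.S25.helper8663

open Fermat.Agent.S25.helper1705 Fermat.Agent.S25.helper2945 Fermat.Agent.S25.helper6871

section Points

variable {k : Type u} [Field k] (D : CurveDatum k) {K : Type u} [Field K] [Algebra k K]

/-- The `K`-point of the first chart underlying a `K`-algebra map `D.A₀ K → K`. -/
noncomputable def point₀ (χ : D.A₀ K →ₐ[K] K) : D.R₀ →ₐ[k] K :=
  (χ.restrictScalars k).comp (Algebra.TensorProduct.includeLeft : D.R₀ →ₐ[k] D.R₀ ⊗[k] K)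

/-- The `K`-point of the chart at infinity underlying a `K`-algebra map `D.A₁ K → K`. -/
noncomputable def point₁ (χ : D.A₁ K →ₐ[K] K) : D.R₁ →ₐ[k] K :=
  (χ.restrictScalars k).comp (Algebra.TensorProduct.includeLeft : D.R₁ →ₐ[k] D.R₁ ⊗[k] K)

@[simp] theorem point₀_apply (χ : D.A₀ K →ₐ[K] K) (r : D.R₀) : point₀ D χ r = χ (r ⊗ₜ 1) := rfl

@[simp] theorem point₁_apply (χ : D.A₁ K →ₐ[K] K) (r : D.R₁) : point₁ D χ r = χ (r ⊗ₜ 1) := rfl

theorem evPoint_point₀ (χ : D.A₀ K →ₐ[K] K) (z : D.A₀ K) : evPoint (point₀ D χ) z = χ z := by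
  induction z using TensorProduct.induction_on with
  | zero => simp
  | tmul r b =>
    rw [evPoint_tmul]
    have h : (r ⊗ₜ[k] b : D.A₀ K) = (r ⊗ₜ[k] (1 : K)) * algebraMap K (D.A₀ K) b := by
      rw [algebraMap_B_A₀, Algebra.TensorProduct.tmul_mul_tmul, mul_one, one_mul]
    rw [h, map_mul, AlgHom.commutes]
    rfl
  | add x y hx hy => rw [map_add, map_add, hx, hy]

theorem evPoint_point₁ (χ : D.A₁ K →ₐ[K] K) (z : D.A₁ K) : evPoint (point₁ D χ) z = χ z := by
  induction z using TensorProduct.induction_on with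
  | zero => simp
  | tmul r b =>
    rw [evPoint_tmul]
    have h : (r ⊗ₜ[k] b : D.A₁ K) = (r ⊗ₜ[k] (1 : K)) * algebraMap K (D.A₁ K) b := by
      rw [algebraMap_B_A₁, Algebra.TensorProduct.tmul_mul_tmul, mul_one, one_mul]
    rw [h, map_mul, AlgHom.commutes]
    rfl
  | add x y hx hy => rw [map_add, map_add, hx, hy]

/-- A `K`-algebra map `D.A₀ K → K` is the evaluation at its point. -/
theorem eq_evB₀ (χ : D.A₀ K →ₐ[K] K) : χ = evB₀ D (point₀ D χ) :=
  AlgHom.ext fun z => (evPoint_point₀ D χ z).symm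

/-- A `K`-algebra map `D.A₁ K → K` is the evaluation at its point. -/
theorem eq_evB₁ (χ : D.A₁ K →ₐ[K] K) : χ = evB₁ D (point₁ D χ) :=
  AlgHom.ext fun z => (evPoint_point₁ D χ z).symm

theorem ker_eq_pointIdeal₀ (χ : D.A₀ K →ₐ[K] K) :
    RingHom.ker χ = pointIdeal₀ D (point₀ D χ) := by
  ext z
  rw [RingHom.mem_ker, mem_graphIdeal, evPoint_point₀]

theorem ker_eq_pointIdeal₁ (χ : D.A₁ K →ₐ[K] K) :
    RingHom.ker χ = pointIdeal₁ D (point₁ D χ) := by
  ext z
  rw [RingHom.mem_ker, mem_graphIdeal, evPoint_point₁]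

/-- The two point-ideal vocabularies on main agree. -/
theorem pointIdeal₀_eq_ptIdeal (p : D.R₀ →ₐ[k] K) :
    pointIdeal₀ D p = helper7530.ptIdeal p := rfl

/-- The two point-ideal vocabularies on main agree. -/
theorem pointIdeal₁_eq_ptIdeal (q : D.R₁ →ₐ[k] K) :
    pointIdeal₁ D q = helper7530.ptIdeal q := rfl

/-- The ideal of a `K`-point of the first chart is maximal. -/
theorem pointIdeal₀_isMaximal (p : D.R₀ →ₐ[k] K) : (pointIdeal₀ D p).IsMaximal :=
  RingHom.ker_isMaximal_of_surjective (evB₀ D p) (evPoint_surjective p)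

/-- The ideal of a `K`-point of the chart at infinity is maximal. -/
theorem pointIdeal₁_isMaximal (q : D.R₁ →ₐ[k] K) : (pointIdeal₁ D q).IsMaximal :=
  RingHom.ker_isMaximal_of_surjective (evB₁ D q) (evPoint_surjective q)

end Points

section Decomposition

variable {k : Type u} [Field k] [IsAlgClosed k] (D : CurveDatum k)
  {K : Type u} [Field K] [Algebra k K] [IsAlgClosed K]

omit [IsAlgClosed K] in
theorem ker_invertible_A₀ (χ : D.A₀ K →ₐ[K] K) : Module.Invertible (D.A₀ K) (RingHom.ker χ) :=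
  helper5597.ker_invertible₀ D χ fun c => ⟨algebraMap K (D.A₀ K) c, χ.commutes c⟩

omit [IsAlgClosed K] in
theorem ker_invertible_A₁ (χ : D.A₁ K →ₐ[K] K) : Module.Invertible (D.A₁ K) (RingHom.ker χ) :=
  helper5597.ker_invertible₁ D χ fun c => ⟨algebraMap K (D.A₁ K) c, χ.commutes c⟩

/-- **Point decomposition on the first chart** (list form): an ideal of `D.A₀ K` of finite
codimension `d` is the product of the ideals of `d` `K`-points of the first chart. -/
theorem exists_list_pointIdeal₀_prod_eq (I : Ideal (D.A₀ K)) [Module.Finite K (D.A₀ K ⧸ I)] :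
    ∃ l : List (D.R₀ →ₐ[k] K), l.length = finrank K (D.A₀ K ⧸ I) ∧
      (l.map (pointIdeal₀ D)).prod = I := by
  obtain ⟨l, hl, hprod⟩ := exists_list_ker_prod_eq K (ker_invertible_A₀ D) I
  refine ⟨l.map (point₀ D), by rw [List.length_map, hl], ?_⟩
  rw [List.map_map, ← hprod]
  congr 1
  exact List.map_congr_left fun χ _ => (ker_eq_pointIdeal₀ D χ).symm

/-- **Point decomposition on the chart at infinity** (list form). -/
theorem exists_list_pointIdeal₁_prod_eq (I : Ideal (D.A₁ K)) [Module.Finite K (D.A₁ K ⧸ I)] :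
    ∃ l : List (D.R₁ →ₐ[k] K), l.length = finrank K (D.A₁ K ⧸ I) ∧
      (l.map (pointIdeal₁ D)).prod = I := by
  obtain ⟨l, hl, hprod⟩ := exists_list_ker_prod_eq K (ker_invertible_A₁ D) I
  refine ⟨l.map (point₁ D), by rw [List.length_map, hl], ?_⟩
  rw [List.map_map, ← hprod]
  congr 1
  exact List.map_congr_left fun χ _ => (ker_eq_pointIdeal₁ D χ).symm

/-- **Point decomposition on the first chart** (`Fin d` form). -/
theorem exists_fin_pointIdeal₀_prod_eq (I : Ideal (D.A₀ K)) [Module.Finite K (D.A₀ K ⧸ I)] :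
    ∃ p : Fin (finrank K (D.A₀ K ⧸ I)) → (D.R₀ →ₐ[k] K), ∏ i, pointIdeal₀ D (p i) = I := by
  obtain ⟨χ, hχ⟩ := exists_fin_ker_prod_eq K (ker_invertible_A₀ D) I
  refine ⟨fun i => point₀ D (χ i), Eq.trans ?_ hχ⟩
  exact Finset.prod_congr rfl fun i _ => (ker_eq_pointIdeal₀ D (χ i)).symm

/-- **Point decomposition on the chart at infinity** (`Fin d` form). -/
theorem exists_fin_pointIdeal₁_prod_eq (I : Ideal (D.A₁ K)) [Module.Finite K (D.A₁ K ⧸ I)] :
    ∃ q : Fin (finrank K (D.A₁ K ⧸ I)) → (D.R₁ →ₐ[k] K), ∏ i, pointIdeal₁ D (q i) = I := by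
  obtain ⟨χ, hχ⟩ := exists_fin_ker_prod_eq K (ker_invertible_A₁ D) I
  refine ⟨fun i => point₁ D (χ i), Eq.trans ?_ hχ⟩
  exact Finset.prod_congr rfl fun i _ => (ker_eq_pointIdeal₁ D (χ i)).symm

end Decomposition

end Fermat.Agent.S25.helper8663
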