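import Mathlib
import Fermat.Agent.S25.helper69_ChartThm
import Fermat.Agent.S25.helper622_DivisorAtInfinity

/-!
# S25, sub-leaf U9a-FACT: factorisation of an ideal into ideals of points (helper9692)

Pure commutative algebra (Mathlib + the dual-partition lemmas of `helper69_ChartThm`).

* `exists_eq_mul_of_le_invertible` : if `m` is an invertible ideal and `I ≤ m` then `I = m * J`
  for an ideal `J ≥ I` (no localisation: dual partition of `m`).
* `exists_generator_mod_point` : for an invertible ideal `J` and a `K`-point `q` of `A`,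
  `J = K ∙ j₀ + ker q * J` with `j₀ ∉ ker q * J`.
* `finrank_quotient_ker_mul` : `finrank K (A ⧸ ker q * J) = finrank K (A ⧸ J) + 1`.
* `exists_points_prod_eq` : over an algebraically closed field `K`, if every ideal of finite
  colength of `A` is invertible, then every ideal `I` with `A ⧸ I` finite over `K` is the product
  of exactly `finrank K (A ⧸ I)` kernels of `K`-points.
* `finrank_quotient_prod_ker` : conversely a product of `d` kernels of `K`-points has colength `d`.
* `atInfty_mul`, `atInfty_prod` : the chart-at-infinity ideal `helper622.atInfty` is multiplicative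
  on ideals whose `atInfty` contains an element `≡ 1 mod y` (divisors not meeting `V(y)`).
-/

set_option autoImplicit false

namespace Fermat.Agent.S25.helper9692

open Fermat.Agent.S25

section Mul

variable {A : Type*} [CommRing A]

/-- (F1) If `m` is an invertible ideal and `I ≤ m`, then `I = m * J` for an ideal `J` with
`I ≤ J`. -/
theorem exists_eq_mul_of_le_invertible (m I : Ideal A) [Module.Invertible A m] (h : I ≤ m) :
    ∃ J : Ideal A, I = m * J ∧ I ≤ J := by
  classical
  obtain ⟨n, φ, e, h1⟩ := helper69.exists_dual_partition (A := A) (N := m)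
  let J : Ideal A :=
    Ideal.span {b | ∃ (ψ : Module.Dual A m) (a : A) (ha : a ∈ I), b = ψ ⟨a, h ha⟩}
  have hkey : ∀ a (ha : a ∈ I), a = ∑ j, (e j : A) * φ j ⟨a, h ha⟩ := by
    intro a ha
    have h2 : (⟨a, h ha⟩ : m) = ∑ j, φ j ⟨a, h ha⟩ • e j := by
      calc (⟨a, h ha⟩ : m) = (1 : A) • (⟨a, h ha⟩ : m) := (one_smul A _).symm
        _ = ∑ j, φ j (e j) • (⟨a, h ha⟩ : m) := by rw [← h1, Finset.sum_smul]
        _ = ∑ j, φ j ⟨a, h ha⟩ • e j :=
          Finset.sum_congr rfl fun j _ => helper69.dual_apply_smul_comm _ _ _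
    have h3 := congrArg (Submodule.subtype m) h2
    simp only [Submodule.subtype_apply, map_sum, Submodule.coe_smul, smul_eq_mul] at h3
    exact h3.trans (Finset.sum_congr rfl fun j _ => mul_comm _ _)
  have hJ : ∀ (ψ : Module.Dual A m) a (ha : a ∈ I), ψ ⟨a, h ha⟩ ∈ J :=
    fun ψ a ha => Ideal.subset_span ⟨ψ, a, ha, rfl⟩
  refine ⟨J, le_antisymm ?_ ?_, ?_⟩
  · intro a ha
    rw [hkey a ha]
    exact Ideal.sum_mem _ fun j _ => Ideal.mul_mem_mul (e j).2 (hJ _ _ ha)
  · rw [Ideal.mul_le]
    intro t ht b hb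
    induction hb using Submodule.span_induction with
    | mem b hb =>
      obtain ⟨ψ, a, ha, rfl⟩ := hb
      have h2 := helper69.dual_apply_smul_comm ψ (⟨a, h ha⟩ : m) ⟨t, ht⟩
      have h3 := congrArg (Submodule.subtype m) h2
      simp only [Submodule.subtype_apply, Submodule.coe_smul, smul_eq_mul] at h3
      rw [mul_comm, h3]
      exact I.mul_mem_left _ ha
    | zero => simp
    | add x y _ _ hx hy => rw [mul_add]; exact I.add_mem hx hy
    | smul c x _ hx =>
      rw [smul_eq_mul, mul_left_comm]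
      exact I.mul_mem_left _ hx
  · intro a ha
    rw [hkey a ha]
    exact Ideal.sum_mem _ fun j _ => Ideal.mul_mem_left _ _ (hJ _ _ ha)

end Mul

section Point

variable {K : Type*} [Field K] {A : Type*} [CommRing A] [Algebra K A]

/-- For a `K`-point `q` of `A`, every element differs from a scalar by an element of `ker q`. -/
theorem sub_algebraMap_mem_ker (q : A →ₐ[K] K) (a : A) :
    a - algebraMap K A (q a) ∈ RingHom.ker q := by
  rw [RingHom.mem_ker, map_sub, AlgHom.commutes]
  simp

/-- (F2, generator form) For an invertible ideal `J` and a `K`-point `q` of `A`, the quotient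
`J / (ker q) J` is one-dimensional: there is `j₀ ∈ J`, not in `ker q * J`, such that every
element of `J` is a `K`-multiple of `j₀` modulo `ker q * J`. -/
theorem exists_generator_mod_point (q : A →ₐ[K] K) (J : Ideal A) [Module.Invertible A J] :
    ∃ j₀ ∈ J, j₀ ∉ RingHom.ker q * J ∧ ∀ j ∈ J, ∃ c : K, j - c • j₀ ∈ RingHom.ker q * J := by
  classical
  obtain ⟨n, ψ, f, h1⟩ := helper69.exists_dual_partition (A := A) (N := J)
  have hex : ∃ i, q (ψ i (f i)) ≠ 0 := by
    by_contra hcon
    simp only [not_exists, not_not] at hcon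
    have := congrArg q h1
    rw [map_sum, Finset.sum_eq_zero (fun i _ => hcon i), map_one] at this
    exact zero_ne_one this
  obtain ⟨i, hi⟩ := hex
  have hψm : ∀ z (hz : z ∈ RingHom.ker q * J), q (ψ i ⟨z, Ideal.mul_le_right hz⟩) = 0 := by
    intro z hz
    induction hz using Submodule.smul_induction_on' with
    | smul r hr n hn =>
      have h2 : (⟨r • n, Ideal.mul_le_right (Submodule.smul_mem_smul hr hn)⟩ : J) =
          r • (⟨n, hn⟩ : J) := rfl
      rw [h2, map_smul, smul_eq_mul, map_mul, RingHom.mem_ker.mp hr, zero_mul]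
    | add x hx y hy ihx ihy =>
      have h2 : (⟨x + y, Ideal.mul_le_right (Submodule.add_mem _ hx hy)⟩ : J) =
          ⟨x, Ideal.mul_le_right hx⟩ + ⟨y, Ideal.mul_le_right hy⟩ := rfl
      rw [h2, map_add, map_add, ihx, ihy, add_zero]
  refine ⟨f i, (f i).2, fun hmem => hi (hψm _ hmem), fun j hj => ?_⟩
  set a := ψ i (f i) with ha
  set b := ψ i ⟨j, hj⟩ with hb
  have hcomm : a * j = b * (f i : A) := by
    have h2 := helper69.dual_apply_smul_comm (ψ i) (f i) (⟨j, hj⟩ : J)
    have h3 := congrArg (Submodule.subtype J) h2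
    simpa only [Submodule.subtype_apply, Submodule.coe_smul, smul_eq_mul] using h3
  refine ⟨(q a)⁻¹ * q b, ?_⟩
  have ha' : a - algebraMap K A (q a) ∈ RingHom.ker q := sub_algebraMap_mem_ker q a
  have hb' : b - algebraMap K A (q b) ∈ RingHom.ker q := sub_algebraMap_mem_ker q b
  have hmem : algebraMap K A (q a) * j - algebraMap K A (q b) * (f i : A) ∈
      RingHom.ker q * J := by
    have : algebraMap K A (q a) * j - algebraMap K A (q b) * (f i : A) =
        (b - algebraMap K A (q b)) * (f i : A) - (a - algebraMap K A (q a)) * j := by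
      linear_combination hcomm
    rw [this]
    exact Ideal.sub_mem _ (Ideal.mul_mem_mul hb' (f i).2) (Ideal.mul_mem_mul ha' hj)
  have : j - ((q a)⁻¹ * q b) • (f i : A) =
      algebraMap K A (q a)⁻¹ *
        (algebraMap K A (q a) * j - algebraMap K A (q b) * (f i : A)) := by
    have h1' : algebraMap K A (q a)⁻¹ * algebraMap K A (q a) = 1 := by
      rw [← map_mul, inv_mul_cancel₀ hi, map_one]
    rw [Algebra.smul_def, map_mul]
    linear_combination (-j) * h1'
  rw [this]
  exact Ideal.mul_mem_left _ _ hmem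

/-- (F2) Multiplying an invertible ideal of finite colength by the ideal of a `K`-point raises
the colength by exactly one. -/
theorem finrank_quotient_ker_mul (q : A →ₐ[K] K) (J : Ideal A) [Module.Invertible A J]
    [Module.Finite K (A ⧸ J)] :
    Module.Finite K (A ⧸ RingHom.ker q * J) ∧
      Module.finrank K (A ⧸ RingHom.ker q * J) = Module.finrank K (A ⧸ J) + 1 := by
  obtain ⟨j₀, hj₀, hj₀', hgen⟩ := exists_generator_mod_point q J
  set I : Ideal A := RingHom.ker q * J with hI
  have hle : I ≤ J := Ideal.mul_le_right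
  let π : (A ⧸ I) →ₗ[K] (A ⧸ J) := (Ideal.Quotient.factorₐ K hle).toLinearMap
  have hπ : Function.Surjective π := Ideal.Quotient.factor_surjective hle
  have hker : LinearMap.ker π = K ∙ (Ideal.Quotient.mk I j₀) := by
    apply le_antisymm
    · intro z hz
      obtain ⟨a, rfl⟩ := Ideal.Quotient.mk_surjective z
      have haJ : a ∈ J := by
        have : π (Ideal.Quotient.mk I a) = Ideal.Quotient.mk J a := rfl
        rw [LinearMap.mem_ker, this] at hz
        exact Ideal.Quotient.eq_zero_iff_mem.mp hz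
      obtain ⟨c, hc⟩ := hgen a haJ
      rw [Submodule.mem_span_singleton]
      refine ⟨c, ?_⟩
      have h2 : Ideal.Quotient.mk I (a - c • j₀) = 0 := Ideal.Quotient.eq_zero_iff_mem.mpr hc
      rw [map_sub, sub_eq_zero] at h2
      rw [h2]
      rfl
    · rw [Submodule.span_singleton_le_iff_mem, LinearMap.mem_ker]
      have : π (Ideal.Quotient.mk I j₀) = Ideal.Quotient.mk J j₀ := rfl
      rw [this]
      exact Ideal.Quotient.eq_zero_iff_mem.mpr hj₀
  have hne : Ideal.Quotient.mk I j₀ ≠ 0 := fun h => hj₀' (Ideal.Quotient.eq_zero_iff_mem.mp h)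
  have hfinker : Module.Finite K (LinearMap.ker π) := by
    rw [hker]; infer_instance
  have hfin : Module.Finite K (A ⧸ I) := by
    have : Module.Finite K ((A ⧸ I) ⧸ LinearMap.ker π) :=
      Module.Finite.equiv (π.quotKerEquivOfSurjective hπ).symm
    exact Module.Finite.of_submodule_quotient (LinearMap.ker π)
  refine ⟨hfin, ?_⟩
  have h3 := LinearMap.finrank_range_add_finrank_ker π
  rw [LinearMap.range_eq_top.mpr hπ, finrank_top, hker, finrank_span_singleton hne] at h3
  exact h3.symm

end Point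

section Factor

variable {K : Type*} [Field K] [IsAlgClosed K] {A : Type*} [CommRing A] [Algebra K A]

/-- Over an algebraically closed field, a maximal ideal of finite colength is the kernel of a
`K`-point. -/
theorem exists_point_ker_eq (m : Ideal A) [m.IsMaximal] [Module.Finite K (A ⧸ m)] :
    ∃ q : A →ₐ[K] K, RingHom.ker q = m := by
  have hbij : Function.Bijective (algebraMap K (A ⧸ m)) :=
    IsAlgClosed.algebraMap_bijective_of_isIntegral
  let e : K ≃ₐ[K] (A ⧸ m) := AlgEquiv.ofBijective (Algebra.ofId K (A ⧸ m)) hbij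
  refine ⟨(e.symm : (A ⧸ m) →ₐ[K] K).comp (Ideal.Quotient.mkₐ K m), ?_⟩
  ext a
  rw [RingHom.mem_ker, AlgHom.comp_apply, Ideal.Quotient.mkₐ_eq_mk]
  change e.symm (Ideal.Quotient.mk m a) = 0 ↔ a ∈ m
  rw [map_eq_zero_iff e.symm e.symm.injective]
  exact Ideal.Quotient.eq_zero_iff_mem

theorem exists_points_prod_eq_aux
    (hinv : ∀ J : Ideal A, Module.Finite K (A ⧸ J) → Module.Invertible A J) :
    ∀ (d : ℕ) (I : Ideal A), Module.Finite K (A ⧸ I) → Module.finrank K (A ⧸ I) = d →
      ∃ P : Fin d → (A →ₐ[K] K), I = ∏ i, RingHom.ker (P i) := by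
  intro d
  induction d with
  | zero =>
    intro I hfin hd
    have : Subsingleton (A ⧸ I) := Module.finrank_zero_iff.mp hd
    refine ⟨Fin.elim0, ?_⟩
    rw [Finset.univ_eq_empty, Finset.prod_empty, Ideal.one_eq_top]
    exact Ideal.Quotient.subsingleton_iff.mp this
  | succ d ih =>
    intro I hfin hd
    have hI : I ≠ ⊤ := by
      rintro rfl
      have : Subsingleton (A ⧸ (⊤ : Ideal A)) := Ideal.Quotient.subsingleton_iff.mpr rfl
      rw [Module.finrank_zero_of_subsingleton] at hd
      exact absurd hd (Nat.succ_ne_zero d).symm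
    obtain ⟨m, hmax, hIm⟩ := Ideal.exists_le_maximal I hI
    have hfinm : Module.Finite K (A ⧸ m) :=
      Module.Finite.of_surjective (Ideal.Quotient.factorₐ K hIm).toLinearMap
        (Ideal.Quotient.factor_surjective hIm)
    obtain ⟨q, hq⟩ := exists_point_ker_eq (K := K) m
    subst hq
    have : Module.Invertible A (RingHom.ker q) := hinv _ hfinm
    obtain ⟨J, rfl, hIJ⟩ := exists_eq_mul_of_le_invertible (RingHom.ker q) I hIm
    have hfinJ : Module.Finite K (A ⧸ J) :=
      Module.Finite.of_surjective (Ideal.Quotient.factorₐ K hIJ).toLinearMap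
        (Ideal.Quotient.factor_surjective hIJ)
    have : Module.Invertible A J := hinv _ hfinJ
    have h2 := (finrank_quotient_ker_mul q J).2
    rw [hd] at h2
    obtain ⟨P, hP⟩ := ih J hfinJ (Nat.succ_injective h2).symm
    refine ⟨Fin.cons q P, ?_⟩
    rw [Fin.prod_univ_succ]
    simp only [Fin.cons_zero, Fin.cons_succ]
    rw [← hP]

/-- (F3) Over an algebraically closed field `K`: if every ideal of finite colength of the
`K`-algebra `A` is invertible, then every ideal `I` with `A ⧸ I` finite over `K` is the product of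
exactly `finrank K (A ⧸ I)` kernels of `K`-points of `A`. -/
theorem exists_points_prod_eq
    (hinv : ∀ J : Ideal A, Module.Finite K (A ⧸ J) → Module.Invertible A J)
    (I : Ideal A) [hfin : Module.Finite K (A ⧸ I)] :
    ∃ P : Fin (Module.finrank K (A ⧸ I)) → (A →ₐ[K] K), I = ∏ i, RingHom.ker (P i) :=
  exists_points_prod_eq_aux hinv _ I hfin rfl

end Factor

section Count

variable {K : Type*} [Field K] {A : Type*} [CommRing A] [Algebra K A]

/-- (F2, iterated) A product of `d` kernels of `K`-points has colength exactly `d`, if every ideal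
of finite colength is invertible. (No hypothesis on `K`.) -/
theorem finrank_quotient_prod_ker
    (hinv : ∀ J : Ideal A, Module.Finite K (A ⧸ J) → Module.Invertible A J) :
    ∀ (d : ℕ) (P : Fin d → (A →ₐ[K] K)),
      Module.Finite K (A ⧸ ∏ i, RingHom.ker (P i)) ∧
        Module.finrank K (A ⧸ ∏ i, RingHom.ker (P i)) = d := by
  intro d
  induction d with
  | zero =>
    intro P
    rw [Finset.univ_eq_empty, Finset.prod_empty, Ideal.one_eq_top]
    have : Subsingleton (A ⧸ (⊤ : Ideal A)) := Ideal.Quotient.subsingleton_iff.mpr rfl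
    exact ⟨inferInstance, Module.finrank_zero_of_subsingleton⟩
  | succ d ih =>
    intro P
    rw [Fin.prod_univ_succ]
    obtain ⟨hfin, hd⟩ := ih (fun i => P i.succ)
    have : Module.Invertible A (∏ i : Fin d, RingHom.ker (P i.succ) : Ideal A) := hinv _ hfin
    obtain ⟨h1, h2⟩ := finrank_quotient_ker_mul (P 0) (∏ i : Fin d, RingHom.ker (P i.succ))
    exact ⟨h1, by rw [h2, hd]⟩

end Count

section AtInfty

open helper622

variable {A₀ A₁ A₀₁ : Type*} [CommRing A₀] [CommRing A₁] [CommRing A₀₁]
  [Algebra A₀ A₀₁] [Algebra A₁ A₀₁]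

/-- (F5) `atInfty` is multiplicative on ideals whose chart-at-infinity ideal contains an element
congruent to `1` modulo `y` (e.g. ideals with `A₀ ⧸ I` finite over the base, by
`helper622.exists_mem_atInfty_sub_one_mem`); the product again has this property. -/
theorem atInfty_mul (y : A₁) [IsLocalization.Away y A₀₁] (I J : Ideal A₀)
    (hI : ∃ u ∈ atInfty A₁ A₀₁ I, u - 1 ∈ Ideal.span {y})
    (hJ : ∃ u ∈ atInfty A₁ A₀₁ J, u - 1 ∈ Ideal.span {y}) :
    atInfty A₁ A₀₁ (I * J) = atInfty A₁ A₀₁ I * atInfty A₁ A₀₁ J ∧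
      ∃ u ∈ atInfty A₁ A₀₁ (I * J), u - 1 ∈ Ideal.span {y} := by
  obtain ⟨u, hu, hu1⟩ := hI
  obtain ⟨v, hv, hv1⟩ := hJ
  have huv1 : u * v - 1 ∈ Ideal.span {y} := by
    have : u * v - 1 = u * (v - 1) + (u - 1) := by ring
    rw [this]
    exact Ideal.add_mem _ (Ideal.mul_mem_left _ _ hv1) hu1
  have h : atInfty A₁ A₀₁ I * atInfty A₁ A₀₁ J = atInfty A₁ A₀₁ (I * J) := by
    refine helper69.eq_comap_map_of_map_eq y (I * J) _ ?_ (u * v) (Ideal.mul_mem_mul hu hv) huv1
    rw [Ideal.map_mul, map_atInfty y, map_atInfty y, Ideal.map_mul]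
  exact ⟨h.symm, u * v, h ▸ Ideal.mul_mem_mul hu hv, huv1⟩

/-- (F5, finite products) `atInfty (∏ I i) = ∏ atInfty (I i)`. -/
theorem atInfty_prod (y : A₁) [IsLocalization.Away y A₀₁] {ι : Type*} (s : Finset ι)
    (I : ι → Ideal A₀) (hI : ∀ i ∈ s, ∃ u ∈ atInfty A₁ A₀₁ (I i), u - 1 ∈ Ideal.span {y}) :
    atInfty A₁ A₀₁ (∏ i ∈ s, I i) = ∏ i ∈ s, atInfty A₁ A₀₁ (I i) ∧
      ∃ u ∈ atInfty A₁ A₀₁ (∏ i ∈ s, I i), u - 1 ∈ Ideal.span {y} := by
  classical
  induction s using Finset.induction_on with
  | empty =>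
    have h : atInfty A₁ A₀₁ (1 : Ideal A₀) = 1 := by
      rw [Ideal.one_eq_top, Ideal.one_eq_top, atInfty, Ideal.map_top, Ideal.comap_top]
    simp only [Finset.prod_empty]
    exact ⟨h, 1, h ▸ Ideal.one_eq_top (R := A₁) ▸ Submodule.mem_top, by simp⟩
  | insert a s ha ih =>
    obtain ⟨h1, h2⟩ := ih fun i hi => hI i (Finset.mem_insert_of_mem hi)
    obtain ⟨h3, h4⟩ := atInfty_mul y (I a) (∏ i ∈ s, I i) (hI a (Finset.mem_insert_self a s)) h2
    rw [Finset.prod_insert ha, Finset.prod_insert ha, ← h1]
    exact ⟨h3, h4⟩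

end AtInfty

end Fermat.Agent.S25.helper9692
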