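import Fermat.Agent.S25.helper2531_FieldCover
import Fermat.Agent.S25.helper8663_PointDecompCurve
import Fermat.Agent.S25.helper9692_PointFactor
import Fermat.Agent.S25.helper622_DivisorAtInfinity
import Fermat.Agent.S25.helper6121_GlueConstr
import Fermat.Agent.S25.helper3115_TwistGlue
import Fermat.Agent.S25.helper4927_TwistChi
import Fermat.Agent.S25.helper239_GlueIndex
import Fermat.Agent.S25.helper622_PointTwist

/-!
# S25, root `Stmt_CoverAC`, N-side piece (a): the base bundles `𝒪(n · D∞ − S)` (helper25)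

`k` algebraically closed, `D : CurveDatum k`, `K` a field over `k`, `n : ℕ` and
`S : Finset (D.R₀ →ₐ[k] k)` a finite set of `k`-rational points of the first chart.

* `ptsIdeal D K S : Ideal (D.A₀ K)`  := `∏ Q ∈ S, helper2531.mQ D K Q` (`= ⨅`, `mem_ptsIdeal_iff`),
  invertible, of colength `S.card`; `ptsIdeal₁ D K S := helper622.atInfty _ _ (ptsIdeal D K S)`
  its companion on the chart at infinity (invertible, same extension to the overlap, coprime
  to `y`); `map_ptsIdeal` : compatibility with extension of the field.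
* `ptsBundle D K n S : GlueDatum D K` := the sub-datum `(I_S • ⊤, atInfty I_S • ⊤)` of
  `helper3115.twist (GlueDatum.unit D K) n` (via `helper6121.GlueDatum.twist`), i.e.
  `𝒪_{C_K}(n · D∞ − S)`; `ptsIncl` its inclusion into `𝒪(n · D∞)` as a `helper8573.Mor`
  (injective on the charts, `SurjModY`, image `I_S • ⊤` on the first chart).
* `chi_ptsBundle` : `χ(𝒪(n · D∞ − S)) = χ(𝒪) + n · degInf D − S.card`, with finite-dimensional
  cohomology.
* `baseBundle D n S : GlueDatum D k := ptsBundle D k n S`, `chi_baseBundle`,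
  `hasDegreeGenus_baseBundle_iff`.
-/

set_option autoImplicit false

open TensorProduct Module

namespace Fermat.Agent.S25.helper25

open Fermat.Agent.S25.helper1705 Fermat.Agent.S25.helper2945 Fermat.Agent.S25.helper8573

universe u

noncomputable section

/-! ## Products of invertible ideals -/

section Generic

variable {R : Type*} [CommRing R]

/-- The product of two invertible ideals is an invertible module. -/
theorem invertible_ideal_mul (I J : Ideal R) [Module.Invertible R I] [Module.Invertible R J] :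
    Module.Invertible R ↥(I * J) := by
  have h : LinearMap.range (J.subtype ∘ₗ (I • (⊤ : Submodule R J)).subtype) = I * J := by
    rw [LinearMap.range_comp, Submodule.range_subtype, Submodule.map_smul'', Submodule.map_top,
      Submodule.range_subtype]
    rfl
  have h2 := helper6121.invertible_range (J.subtype ∘ₗ (I • (⊤ : Submodule R J)).subtype)
    (Subtype.val_injective.comp Subtype.val_injective)
  exact h ▸ h2

/-- A finite product of invertible ideals is an invertible module. -/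
theorem invertible_ideal_prod {ι : Type*} (s : Finset ι) (I : ι → Ideal R)
    (h : ∀ i ∈ s, Module.Invertible R (I i)) : Module.Invertible R ↥(∏ i ∈ s, I i) := by
  classical
  induction s using Finset.induction_on with
  | empty =>
    rw [Finset.prod_empty, Ideal.one_eq_top]
    exact helper6121.invertible_top
  | insert a s ha ih =>
    rw [Finset.prod_insert ha]
    have := h a (Finset.mem_insert_self a s)
    have := ih fun i hi => h i (Finset.mem_insert_of_mem hi)
    exact invertible_ideal_mul _ _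

end Generic

variable {k : Type u} [Field k] (D : CurveDatum k) (K : Type u) [Field K] [Algebra k K]

/-! ## The ideal of a finite set of rational points -/

/-- The ideal of `D.A₀ K = D.R₀ ⊗[k] K` of a finite set `S` of `k`-rational points of the
first chart: the product of the maximal ideals `helper2531.mQ D K Q`, `Q ∈ S`. -/
def ptsIdeal (S : Finset (D.R₀ →ₐ[k] k)) : Ideal (D.A₀ K) := ∏ Q ∈ S, helper2531.mQ D K Q

theorem ptsIdeal_empty : ptsIdeal D K ∅ = ⊤ := by
  rw [ptsIdeal, Finset.prod_empty, Ideal.one_eq_top]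

theorem ptsIdeal_insert [DecidableEq (D.R₀ →ₐ[k] k)] (Q : D.R₀ →ₐ[k] k)
    (S : Finset (D.R₀ →ₐ[k] k)) (hQ : Q ∉ S) :
    ptsIdeal D K (insert Q S) = helper2531.mQ D K Q * ptsIdeal D K S := by
  rw [ptsIdeal, Finset.prod_insert hQ, ptsIdeal]

/-- The product of the point ideals is their intersection. -/
theorem ptsIdeal_eq_iInf (S : Finset (D.R₀ →ₐ[k] k)) :
    ptsIdeal D K S = ⨅ Q ∈ S, helper2531.mQ D K Q := by
  refine Ideal.prod_eq_iInf_of_pairwise_isCoprime fun Q _ Q' _ hne => ?_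
  exact Ideal.isCoprime_of_isMaximal fun h => hne (helper2531.mQ_injective D K h)

/-- An element lies in `ptsIdeal D K S` iff it vanishes at every point of `S`. -/
theorem mem_ptsIdeal_iff (S : Finset (D.R₀ →ₐ[k] k)) (a : D.A₀ K) :
    a ∈ ptsIdeal D K S ↔ ∀ Q ∈ S, a ∈ helper2531.mQ D K Q := by
  rw [ptsIdeal_eq_iInf]
  simp only [Ideal.mem_iInf]

theorem ptsIdeal_le_mQ (S : Finset (D.R₀ →ₐ[k] k)) (Q : D.R₀ →ₐ[k] k) (hQ : Q ∈ S) :
    ptsIdeal D K S ≤ helper2531.mQ D K Q :=
  fun a ha => (mem_ptsIdeal_iff D K S a).mp ha Q hQ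

/-- The ideal of a `k`-rational point in the vocabulary of `helper6871`. -/
theorem mQ_eq_pointIdeal₀ (Q : D.R₀ →ₐ[k] k) :
    helper2531.mQ D K Q = helper6871.pointIdeal₀ D ((Algebra.ofId k K).comp Q) := by
  ext a
  rw [helper2531.mem_mQ, helper6871.mem_graphIdeal]
  suffices h : helper2531.evB D K Q = helper6871.evPoint ((Algebra.ofId k K).comp Q) by rw [h]
  apply Algebra.TensorProduct.ext'
  intro r b
  rw [helper2531.evB_tmul, helper6871.evPoint_tmul]
  rfl

/-- Point ideals of `k`-rational points are compatible with base change. -/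
theorem map_mQ {B B' : Type u} [Field B] [Algebra k B] [Field B'] [Algebra k B']
    (φ : B →ₐ[k] B') (Q : D.R₀ →ₐ[k] k) :
    (helper2531.mQ D B Q).map (D.map₀ φ) = helper2531.mQ D B' Q := by
  rw [mQ_eq_pointIdeal₀, mQ_eq_pointIdeal₀, helper6871.pointIdeal₀_baseChange]
  congr 1
  ext r
  simp [Algebra.ofId_apply]

/-- `ptsIdeal` is compatible with extension of the field. -/
theorem map_ptsIdeal {B B' : Type u} [Field B] [Algebra k B] [Field B'] [Algebra k B']
    (φ : B →ₐ[k] B') (S : Finset (D.R₀ →ₐ[k] k)) :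
    (ptsIdeal D B S).map (D.map₀ φ) = ptsIdeal D B' S := by
  rw [ptsIdeal, ptsIdeal, ← Ideal.mapHom_apply, map_prod]
  exact Finset.prod_congr rfl fun Q _ => map_mQ D φ Q

section AlgClosed

variable [IsAlgClosed k]

instance invertible_mQ (Q : D.R₀ →ₐ[k] k) :
    Module.Invertible (D.A₀ K) (helper2531.mQ D K Q) :=
  helper8663.ker_invertible_A₀ D (helper2531.evK D K Q)

instance invertible_ptsIdeal (S : Finset (D.R₀ →ₐ[k] k)) :
    Module.Invertible (D.A₀ K) (ptsIdeal D K S) :=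
  invertible_ideal_prod S _ fun Q _ => invertible_mQ D K Q

/-- `ptsIdeal D K S` has colength `S.card`. -/
theorem finite_and_finrank_quot_ptsIdeal (S : Finset (D.R₀ →ₐ[k] k)) :
    Module.Finite K (D.A₀ K ⧸ ptsIdeal D K S) ∧
      finrank K (D.A₀ K ⧸ ptsIdeal D K S) = S.card := by
  classical
  induction S using Finset.induction_on with
  | empty =>
    rw [ptsIdeal_empty]
    have : Subsingleton (D.A₀ K ⧸ (⊤ : Ideal (D.A₀ K))) := Ideal.Quotient.subsingleton_iff.mpr rfl
    exact ⟨inferInstance, by rw [Finset.card_empty]; exact finrank_zero_of_subsingleton⟩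
  | insert Q S hQ ih =>
    obtain ⟨hfin, hrk⟩ := ih
    rw [ptsIdeal_insert D K Q S hQ, Finset.card_insert_of_notMem hQ, ← hrk]
    exact helper9692.finrank_quotient_ker_mul (helper2531.evK D K Q) (ptsIdeal D K S)

instance finite_quot_ptsIdeal (S : Finset (D.R₀ →ₐ[k] k)) :
    Module.Finite K (D.A₀ K ⧸ ptsIdeal D K S) :=
  (finite_and_finrank_quot_ptsIdeal D K S).1

theorem finrank_quot_ptsIdeal (S : Finset (D.R₀ →ₐ[k] k)) :
    finrank K (D.A₀ K ⧸ ptsIdeal D K S) = S.card :=
  (finite_and_finrank_quot_ptsIdeal D K S).2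

end AlgClosed

/-! ## The companion ideal on the chart at infinity -/

/-- The ideal of `S` on the chart at infinity (`helper622.atInfty` of `ptsIdeal`). -/
def ptsIdeal₁ (S : Finset (D.R₀ →ₐ[k] k)) : Ideal (D.A₁ K) :=
  helper622.atInfty (D.A₁ K) (D.A₀₁ K) (ptsIdeal D K S)

theorem mem_ptsIdeal₁_iff (S : Finset (D.R₀ →ₐ[k] k)) (b : D.A₁ K) :
    b ∈ ptsIdeal₁ D K S ↔
      algebraMap (D.A₁ K) (D.A₀₁ K) b ∈ (ptsIdeal D K S).map (algebraMap (D.A₀ K) (D.A₀₁ K)) :=
  Iff.rfl

/-- The two ideals have the same extension to the overlap. -/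
theorem map_ptsIdeal₁ (S : Finset (D.R₀ →ₐ[k] k)) :
    (ptsIdeal₁ D K S).map (algebraMap (D.A₁ K) (D.A₀₁ K)) =
      (ptsIdeal D K S).map (algebraMap (D.A₀ K) (D.A₀₁ K)) :=
  helper622.map_atInfty (yB D K) (ptsIdeal D K S)

section AlgClosed

variable [IsAlgClosed k]

instance invertible_ptsIdeal₁ (S : Finset (D.R₀ →ₐ[k] k)) :
    Module.Invertible (D.A₁ K) (ptsIdeal₁ D K S) :=
  helper622.invertible_atInfty (B := K) (xB D K) (yB D K) (xB_mul_yB D K) (ptsIdeal D K S)

/-- The points of `S` do not meet `V(y)`. -/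
theorem ptsIdeal₁_sup_span_y (S : Finset (D.R₀ →ₐ[k] k)) :
    ptsIdeal₁ D K S ⊔ Ideal.span {yB D K} = ⊤ :=
  helper622.atInfty_sup_span_eq_top (B := K) (xB D K) (yB D K) (xB_mul_yB D K) (ptsIdeal D K S)

/-- An element of `ptsIdeal₁` congruent to `1` modulo `y`. -/
theorem exists_mem_ptsIdeal₁ (S : Finset (D.R₀ →ₐ[k] k)) :
    ∃ u ∈ ptsIdeal₁ D K S, ∃ c : D.A₁ K, 1 = u + yB D K * c := by
  have h := ptsIdeal₁_sup_span_y D K S
  rw [Ideal.eq_top_iff_one, Submodule.mem_sup] at h
  obtain ⟨u, hu, v, hv, huv⟩ := h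
  obtain ⟨c, rfl⟩ := Ideal.mem_span_singleton'.mp hv
  exact ⟨u, hu, c, by rw [← huv, mul_comm]⟩

/-! ## The bundle `𝒪(n · D∞ − S)` -/

/-- `𝒪_{C_K}(n · D∞ − S)`: the sub-datum of `helper3115.twist (GlueDatum.unit D K) n` cut out by
`ptsIdeal D K S` on the first chart and `ptsIdeal₁ D K S` on the chart at infinity. -/
def ptsBundle (n : ℕ) (S : Finset (D.R₀ →ₐ[k] k)) : GlueDatum D K :=
  helper6121.GlueDatum.twist (helper3115.twist (GlueDatum.unit D K) n) (ptsIdeal D K S)
    (ptsIdeal₁ D K S) (map_ptsIdeal₁ D K S).symm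

/-- The ambient bundle `𝒪(n · D∞)` of `ptsBundle`. -/
abbrev ambient (n : ℕ) : GlueDatum D K := helper3115.twist (GlueDatum.unit D K) n

/-- The submodule of the first chart of `𝒪(n · D∞)` cut out by `S`. -/
abbrev ptsSub₀ (n : ℕ) (S : Finset (D.R₀ →ₐ[k] k)) : Submodule (D.A₀ K) (ambient D K n).M₀ :=
  ptsIdeal D K S • ⊤

/-- The submodule of the chart at infinity of `𝒪(n · D∞)` cut out by `S`. -/
abbrev ptsSub₁ (n : ℕ) (S : Finset (D.R₀ →ₐ[k] k)) : Submodule (D.A₁ K) (ambient D K n).M₁ :=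
  ptsIdeal₁ D K S • ⊤

omit [IsAlgClosed k] in
theorem ptsSub_span_eq (n : ℕ) (S : Finset (D.R₀ →ₐ[k] k)) :
    helper6121.GlueDatum.span₀ (ambient D K n) (ptsSub₀ D K n S) =
      helper6121.GlueDatum.span₁ (ambient D K n) (ptsSub₁ D K n S) := by
  rw [helper6121.GlueDatum.span₀_smul_top, helper6121.GlueDatum.span₁_smul_top, map_ptsIdeal₁]

/-- `ptsBundle` as a sub-datum (`helper6121.GlueDatum.ofSubmodules`) of `𝒪(n · D∞)`. -/
theorem ptsBundle_eq_ofSubmodules (n : ℕ) (S : Finset (D.R₀ →ₐ[k] k)) :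
    ptsBundle D K n S =
      helper6121.GlueDatum.ofSubmodules (ambient D K n) (ptsSub₀ D K n S) (ptsSub₁ D K n S)
        (ptsSub_span_eq D K n S) := rfl

theorem ptsBundle_M₀ (n : ℕ) (S : Finset (D.R₀ →ₐ[k] k)) :
    (ptsBundle D K n S).M₀ = ↥(ptsSub₀ D K n S) := rfl

theorem ptsBundle_M₁ (n : ℕ) (S : Finset (D.R₀ →ₐ[k] k)) :
    (ptsBundle D K n S).M₁ = ↥(ptsSub₁ D K n S) := rfl

/-- The inclusion `𝒪(n · D∞ − S) → 𝒪(n · D∞)`. -/
def ptsIncl (n : ℕ) (S : Finset (D.R₀ →ₐ[k] k)) : Mor (ptsBundle D K n S) (ambient D K n) where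
  f₀ := helper6121.GlueDatum.ofSubmodules.ι₀ (ambient D K n) (ptsSub₀ D K n S) (ptsSub₁ D K n S)
    (ptsSub_span_eq D K n S)
  f₁ := helper6121.GlueDatum.ofSubmodules.ι₁ (ambient D K n) (ptsSub₀ D K n S) (ptsSub₁ D K n S)
    (ptsSub_span_eq D K n S)
  f₀₁ := helper6121.GlueDatum.ofSubmodules.ι₀₁ (ambient D K n) (ptsSub₀ D K n S) (ptsSub₁ D K n S)
    (ptsSub_span_eq D K n S)
  comm₀ := helper6121.GlueDatum.ofSubmodules.comm₀ (ambient D K n) (ptsSub₀ D K n S)
    (ptsSub₁ D K n S) (ptsSub_span_eq D K n S)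
  comm₁ := helper6121.GlueDatum.ofSubmodules.comm₁ (ambient D K n) (ptsSub₀ D K n S)
    (ptsSub₁ D K n S) (ptsSub_span_eq D K n S)

/-- The inclusion is the coercion on the first chart. -/
theorem ptsIncl_f₀_apply (n : ℕ) (S : Finset (D.R₀ →ₐ[k] k)) (m : ptsSub₀ D K n S) :
    (ptsIncl D K n S).f₀ m = (m : (ambient D K n).M₀) := rfl

/-- The inclusion is the coercion on the chart at infinity. -/
theorem ptsIncl_f₁_apply (n : ℕ) (S : Finset (D.R₀ →ₐ[k] k)) (m : ptsSub₁ D K n S) :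
    (ptsIncl D K n S).f₁ m = (m : (ambient D K n).M₁) := rfl

theorem ptsIncl_f₀_injective (n : ℕ) (S : Finset (D.R₀ →ₐ[k] k)) :
    Function.Injective (ptsIncl D K n S).f₀ :=
  helper6121.GlueDatum.ofSubmodules.ι₀_injective (ambient D K n) (ptsSub₀ D K n S)
    (ptsSub₁ D K n S) (ptsSub_span_eq D K n S)

theorem ptsIncl_f₁_injective (n : ℕ) (S : Finset (D.R₀ →ₐ[k] k)) :
    Function.Injective (ptsIncl D K n S).f₁ :=
  helper6121.GlueDatum.ofSubmodules.ι₁_injective (ambient D K n) (ptsSub₀ D K n S)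
    (ptsSub₁ D K n S) (ptsSub_span_eq D K n S)

theorem ptsIncl_f₀₁_injective (n : ℕ) (S : Finset (D.R₀ →ₐ[k] k)) :
    Function.Injective (ptsIncl D K n S).f₀₁ :=
  helper6121.GlueDatum.ofSubmodules.ι₀₁_injective (ambient D K n) (ptsSub₀ D K n S)
    (ptsSub₁ D K n S) (ptsSub_span_eq D K n S)

/-- Image of the inclusion on the first chart, submodule form. -/
theorem range_ptsIncl_f₀ (n : ℕ) (S : Finset (D.R₀ →ₐ[k] k)) :
    LinearMap.range (ptsIncl D K n S).f₀ =
      ptsIdeal D K S • (⊤ : Submodule (D.A₀ K) (ambient D K n).M₀) :=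
  helper6121.GlueDatum.ofSubmodules.range_ι₀ (ambient D K n) (ptsSub₀ D K n S)
    (ptsSub₁ D K n S) (ptsSub_span_eq D K n S)

/-- Image of the inclusion on the chart at infinity, submodule form. -/
theorem range_ptsIncl_f₁ (n : ℕ) (S : Finset (D.R₀ →ₐ[k] k)) :
    LinearMap.range (ptsIncl D K n S).f₁ =
      ptsIdeal₁ D K S • (⊤ : Submodule (D.A₁ K) (ambient D K n).M₁) :=
  helper6121.GlueDatum.ofSubmodules.range_ι₁ (ambient D K n) (ptsSub₀ D K n S)
    (ptsSub₁ D K n S) (ptsSub_span_eq D K n S)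

/-- Image of the inclusion on the overlap. -/
theorem range_ptsIncl_f₀₁ (n : ℕ) (S : Finset (D.R₀ →ₐ[k] k)) :
    LinearMap.range (ptsIncl D K n S).f₀₁ =
      (ptsIdeal D K S).map (algebraMap (D.A₀ K) (D.A₀₁ K)) •
        (⊤ : Submodule (D.A₀₁ K) (ambient D K n).M₀₁) :=
  (helper6121.GlueDatum.ofSubmodules.range_ι₀₁ (ambient D K n) (ptsSub₀ D K n S)
    (ptsSub₁ D K n S) (ptsSub_span_eq D K n S)).trans
    (helper6121.GlueDatum.span₀_smul_top (ambient D K n) (ptsIdeal D K S))

/-- Image of the inclusion on the first chart: a function on the first chart (`= (ambient).M₀`)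
comes from `𝒪(n · D∞ − S)` iff it vanishes on `S`. -/
theorem mem_range_ptsIncl_f₀ (n : ℕ) (S : Finset (D.R₀ →ₐ[k] k)) (a : D.A₀ K) :
    a ∈ LinearMap.range (ptsIncl D K n S).f₀ ↔ a ∈ ptsIdeal D K S := by
  rw [range_ptsIncl_f₀]
  change a ∈ ptsIdeal D K S • (⊤ : Ideal (D.A₀ K)) ↔ _
  rw [smul_eq_mul, Ideal.mul_top]

/-- Image of the inclusion on the chart at infinity. -/
theorem mem_range_ptsIncl_f₁ (n : ℕ) (S : Finset (D.R₀ →ₐ[k] k)) (b : D.A₁ K) :
    b ∈ LinearMap.range (ptsIncl D K n S).f₁ ↔ b ∈ ptsIdeal₁ D K S := by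
  rw [range_ptsIncl_f₁]
  change b ∈ ptsIdeal₁ D K S • (⊤ : Ideal (D.A₁ K)) ↔ _
  rw [smul_eq_mul, Ideal.mul_top]

/-- The inclusion is an isomorphism along `V(y)`. -/
theorem ptsIncl_surjModY (n : ℕ) (S : Finset (D.R₀ →ₐ[k] k)) : (ptsIncl D K n S).SurjModY := by
  intro (b : D.A₁ K)
  obtain ⟨u, hu, c, huc⟩ := exists_mem_ptsIdeal₁ D K S
  have hb : b * u ∈ LinearMap.range (ptsIncl D K n S).f₁ :=
    (mem_range_ptsIncl_f₁ D K n S _).mpr (Ideal.mul_mem_left _ _ hu)
  obtain ⟨m, hm⟩ := hb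
  refine ⟨m, (c * b : D.A₁ K), ?_⟩
  rw [hm]
  change b = b * u + yB D K * (c * b)
  linear_combination b * huc

/-- **Euler characteristic of `𝒪(n · D∞ − S)`** over any field `K ⊇ k`:
`χ = χ(𝒪) + n · degInf D − S.card`, and the cohomology is finite-dimensional. -/
theorem chi_ptsBundle (n : ℕ) (S : Finset (D.R₀ →ₐ[k] k)) :
    Module.Finite K (ptsBundle D K n S).H0 ∧ Module.Finite K (ptsBundle D K n S).H1 ∧
      (ptsBundle D K n S).chi =
        (GlueDatum.unit D K).chi + (n : ℤ) * (helper1153.degInf D : ℤ) - (S.card : ℤ) := by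
  have hfc : helper3115.FinCoh (GlueDatum.unit D K).delta :=
    ⟨helper239.finite_H0_field (GlueDatum.unit D K), helper239.finite_H1_field (GlueDatum.unit D K)⟩
  obtain ⟨hfc', hchi⟩ := helper3115.chi_twist_degInf (GlueDatum.unit D K) hfc (n : ℤ)
  have h0 : FiniteDimensional K (ambient D K n).H0 := hfc'.1
  have h1 : FiniteDimensional K (ambient D K n).H1 := hfc'.2
  obtain ⟨hf0, hf1, h⟩ := helper4927.chi_of_mor_ideal (ptsIncl D K n S)
    (ptsIncl_f₀_injective D K n S) (ptsIncl_f₁_injective D K n S) (ptsIncl_surjModY D K n S)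
    (ptsIdeal D K S) (range_ptsIncl_f₀ D K n S)
  refine ⟨hf0, hf1, ?_⟩
  rw [h, finrank_quot_ptsIdeal, hchi]

/-- Bridge to `helper622.twist₀`: `ptsBundle` is the chart-`0` divisor twist of `𝒪(n · D∞)` by
`ptsIdeal`. -/
theorem ptsBundle_eq_twist₀ (n : ℕ) (S : Finset (D.R₀ →ₐ[k] k)) :
    ptsBundle D K n S = helper622.twist₀ (ambient D K n) (ptsIdeal D K S) := rfl

end AlgClosed

/-! ## Base change -/

section BaseChange

variable {B B' : Type u} [Field B] [Algebra k B] [Field B'] [Algebra k B'] (φ : B →ₐ[k] B')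

/-- `𝒪(n · D∞)` commutes with base change. -/
theorem ambient_baseChange (n : ℕ) : ((ambient D B n).baseChange φ).Equiv (ambient D B' n) :=
  (helper3115.baseChange_twist (GlueDatum.unit D B) φ (n : ℤ)).trans
    (helper3115.Equiv_twist (helper743.unit_baseChange φ) (n : ℤ))

variable [IsAlgClosed k]

/-- **`𝒪(n · D∞ − S)` commutes with extension of the field.** -/
theorem ptsBundle_baseChange (n : ℕ) (S : Finset (D.R₀ →ₐ[k] k)) :
    ((ptsBundle D B n S).baseChange φ).Equiv (ptsBundle D B' n S) := by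
  have hI : (ptsIdeal D B S).map (D.map₀ φ) = ptsIdeal D B' S := map_ptsIdeal D φ S
  have h1 : Module.Finite B' (D.A₀ B' ⧸ (ptsIdeal D B S).map (D.map₀ φ)) := by
    rw [hI]; infer_instance
  have h2 : Module.Invertible (D.A₀ B') ((ptsIdeal D B S).map (D.map₀ φ)) := by
    rw [hI]; infer_instance
  exact ((helper622.twist₀_baseChange φ (ambient D B n) (ptsIdeal D B S)).trans
    (helper622.twist₀_congr_ideal _ hI)).trans
    (helper622.twist₀_congr (ptsIdeal D B' S) (ambient_baseChange D φ n))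

end BaseChange

/-! ## The base bundles over `k` -/

section Base

variable [IsAlgClosed k]

/-- **The base bundle** `N(n, S) = 𝒪_C(n · D∞ − S)` over `k`, for a finite set `S` of
`k`-rational points of the first chart. -/
def baseBundle (n : ℕ) (S : Finset (D.R₀ →ₐ[k] k)) : GlueDatum D k := ptsBundle D k n S

theorem baseBundle_eq (n : ℕ) (S : Finset (D.R₀ →ₐ[k] k)) :
    baseBundle D n S = ptsBundle D k n S := rfl

/-- `χ(N(n, S)) = χ(𝒪) + n · degInf D − S.card`. -/
theorem chi_baseBundle (n : ℕ) (S : Finset (D.R₀ →ₐ[k] k)) :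
    (baseBundle D n S).chi =
      (GlueDatum.unit D k).chi + (n : ℤ) * (helper1153.degInf D : ℤ) - (S.card : ℤ) :=
  (chi_ptsBundle D k n S).2.2

/-- `N(n, S)` has degree `g` iff `n · degInf D = S.card + g`. -/
theorem hasDegreeGenus_baseBundle_iff (n : ℕ) (S : Finset (D.R₀ →ₐ[k] k)) :
    HasDegreeGenus (baseBundle D n S) ↔
      (n : ℤ) * (helper1153.degInf D : ℤ) = (S.card : ℤ) + (genus D : ℤ) := by
  rw [HasDegreeGenus, chi_baseBundle]
  constructor <;> intro h <;> linarith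

/-- **Piece (b).** The base bundle pulled back to `C_K` is `𝒪_{C_K}(n · D∞ − S)`. -/
theorem baseOver_baseBundle_equiv (n : ℕ) (S : Finset (D.R₀ →ₐ[k] k)) :
    (baseOver (baseBundle D n S) K).Equiv (ptsBundle D K n S) :=
  ptsBundle_baseChange D (Algebra.ofId k K) n S

end Base

end

end Fermat.Agent.S25.helper25
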