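import Mathlib

/-!
# S25, leaf LC-HOM: the Hom datum of two two-chart line bundles (helper1397)

Part A: generic commutative algebra about `M →ₗ[R] N` for finite projective / invertible `M`:
base change of `Hom`, invertibility, the evaluation isomorphism.

Part B: the zero ideal (content ideal) of an element `σ` of an invertible module `E`,
`zeroIdeal A σ = (A ∙ σ : E) = Ann (E ⧸ A ∙ σ) = {φ σ | φ ∈ Dual E}`; `A ∙ σ = I • E`;
`A ⧸ I` is a retract of a finite power of `E ⧸ A ∙ σ`; for a morphism `σ : M → N` of invertible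
modules, `range σ = I • N`, and `σ` is injective as soon as `I` is an invertible module.
-/

set_option autoImplicit false

open scoped TensorProduct

namespace Fermat.Agent.S25.helper1397

section BaseChangeHom

variable {R S M N P Q : Type*} [CommRing R] [CommRing S] [Algebra R S]
  [AddCommGroup M] [Module R M] [AddCommGroup N] [Module R N]
  [AddCommGroup P] [Module R P] [Module S P] [IsScalarTower R S P]
  [AddCommGroup Q] [Module R Q] [Module S Q] [IsScalarTower R S Q]

/-- Base change of `Hom`: if `M` is finite projective over `R`, `P` is the base change of `M` to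
`S` and `Q` the base change of `N`, then `P →ₗ[S] Q` is the base change of `M →ₗ[R] N`.
(Mathlib has this for `M` finite free: `IsBaseChange.linearMapLeftRight`.) -/
theorem isBaseChange_linearMapLeftRightHom [Module.Finite R M] [Module.Projective R M]
    {α : M →ₗ[R] P} (j : IsBaseChange S α) {β : N →ₗ[R] Q} (k : IsBaseChange S β) :
    IsBaseChange S (IsBaseChange.linearMapLeftRightHom j β) := by
  classical
  obtain ⟨n, p, i, -, -, hpi⟩ := Module.Finite.exists_comp_eq_id_of_projective R M
  have jF : IsBaseChange S (TensorProduct.mk R S (Fin n → R) 1) := TensorProduct.isBaseChange R _ S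
  have hF : IsBaseChange S (IsBaseChange.linearMapLeftRightHom jF β) :=
    IsBaseChange.linearMapLeftRight jF k
  set ΦM := IsBaseChange.linearMapLeftRightHom j β with hΦM
  set ΦF := IsBaseChange.linearMapLeftRightHom jF β with hΦF
  let pS : S ⊗[R] (Fin n → R) →ₗ[S] P := jF.lift (α ∘ₗ p)
  let iS : P →ₗ[S] S ⊗[R] (Fin n → R) := j.lift ((TensorProduct.mk R S (Fin n → R) 1) ∘ₗ i)
  have hpS : ∀ v, pS (1 ⊗ₜ[R] v) = α (p v) := fun v => jF.lift_eq (α ∘ₗ p) v
  have hiS : ∀ m, iS (α m) = 1 ⊗ₜ[R] i m := fun m => j.lift_eq _ m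
  have hpiS : pS ∘ₗ iS = LinearMap.id := by
    refine j.algHom_ext _ _ fun m => ?_
    have : p (i m) = m := LinearMap.congr_fun hpi m
    simp [hiS, hpS, this]
  have h1 : ∀ f : M →ₗ[R] N, ΦF (f ∘ₗ p) = ΦM f ∘ₗ pS := by
    intro f
    refine jF.algHom_ext _ _ fun v => ?_
    have e1 : ΦF (f ∘ₗ p) (1 ⊗ₜ[R] v) = β (f (p v)) :=
      IsBaseChange.linearMapLeftRightHom_comp_apply jF β (f ∘ₗ p) v
    have e2 : (ΦM f ∘ₗ pS) (1 ⊗ₜ[R] v) = β (f (p v)) := by
      rw [LinearMap.comp_apply, hpS]
      exact IsBaseChange.linearMapLeftRightHom_comp_apply j β f (p v)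
    exact e1.trans e2.symm
  have h2 : ∀ g : (Fin n → R) →ₗ[R] N, ΦM (g ∘ₗ i) = ΦF g ∘ₗ iS := by
    intro g
    refine j.algHom_ext _ _ fun m => ?_
    have e1 : ΦM (g ∘ₗ i) (α m) = β (g (i m)) :=
      IsBaseChange.linearMapLeftRightHom_comp_apply j β (g ∘ₗ i) m
    have e2 : (ΦF g ∘ₗ iS) (α m) = β (g (i m)) := by
      rw [LinearMap.comp_apply, hiS]
      exact IsBaseChange.linearMapLeftRightHom_comp_apply jF β g (i m)
    exact e1.trans e2.symm
  have H1 : ∀ z : S ⊗[R] (M →ₗ[R] N),
      ΦF.liftBaseChange S ((LinearMap.lcomp R N p).baseChange S z) = ΦM.liftBaseChange S z ∘ₗ pS := by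
    intro z
    induction z using TensorProduct.induction_on with
    | zero => simp
    | tmul s f =>
      simp only [LinearMap.baseChange_tmul, LinearMap.liftBaseChange_tmul]
      change s • ΦF (f ∘ₗ p) = _
      rw [h1, LinearMap.smul_comp]
    | add x y hx hy => simp only [map_add, hx, hy, LinearMap.add_comp]
  have H2 : ∀ w : S ⊗[R] ((Fin n → R) →ₗ[R] N),
      ΦM.liftBaseChange S ((LinearMap.lcomp R N i).baseChange S w) = ΦF.liftBaseChange S w ∘ₗ iS := by
    intro w
    induction w using TensorProduct.induction_on with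
    | zero => simp
    | tmul s g =>
      simp only [LinearMap.baseChange_tmul, LinearMap.liftBaseChange_tmul]
      change s • ΦM (g ∘ₗ i) = _
      rw [h2, LinearMap.smul_comp]
    | add x y hx hy => simp only [map_add, hx, hy, LinearMap.add_comp]
  have H3 : ∀ z : S ⊗[R] (M →ₗ[R] N),
      (LinearMap.lcomp R N i).baseChange S ((LinearMap.lcomp R N p).baseChange S z) = z := by
    intro z
    induction z using TensorProduct.induction_on with
    | zero => simp
    | tmul s f =>
      simp only [LinearMap.baseChange_tmul]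
      change s ⊗ₜ[R] ((f ∘ₗ p) ∘ₗ i) = _
      rw [LinearMap.comp_assoc, hpi, LinearMap.comp_id]
    | add x y hx hy => simp only [map_add, hx, hy]
  have hFbij : Function.Bijective (ΦF.liftBaseChange S) := by
    have : (ΦF.liftBaseChange S : S ⊗[R] _ → _) = hF.equiv := by
      funext z
      induction z using TensorProduct.induction_on with
      | zero => simp
      | tmul s f => simp [IsBaseChange.equiv_tmul]
      | add x y hx hy => simp only [map_add, hx, hy]
    rw [this]
    exact hF.equiv.bijective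
  have hinj : Function.Injective (ΦM.liftBaseChange S) := by
    rw [injective_iff_map_eq_zero]
    intro z hz
    have := H1 z
    rw [hz, LinearMap.zero_comp] at this
    have h0 : (LinearMap.lcomp R N p).baseChange S z = 0 :=
      hFbij.1 (this.trans (map_zero _).symm)
    rw [← H3 z, h0, map_zero]
  have hsurj : Function.Surjective (ΦM.liftBaseChange S) := by
    intro h
    obtain ⟨w, hw⟩ := hFbij.2 (h ∘ₗ pS)
    refine ⟨(LinearMap.lcomp R N i).baseChange S w, ?_⟩
    rw [H2, hw, LinearMap.comp_assoc, hpiS, LinearMap.comp_id]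
  have hbij : Function.Bijective (ΦM.liftBaseChange S) := ⟨hinj, hsurj⟩
  refine IsBaseChange.of_equiv (LinearEquiv.ofBijective (ΦM.liftBaseChange S) hbij) (fun f => ?_)
  rw [LinearEquiv.ofBijective_apply, LinearMap.liftBaseChange_tmul, one_smul]

end BaseChangeHom

section Inv
variable (R M N : Type*) [CommRing R] [AddCommGroup M] [Module R M] [AddCommGroup N] [Module R N]

/-- `Hom` of invertible modules is invertible. -/
theorem invertible_linearMap [Module.Invertible R M] [Module.Invertible R N] :
    Module.Invertible R (M →ₗ[R] N) :=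
  .congr (dualTensorHomEquiv R M N)

/-- The evaluation map `Hom(M, N) ⊗ M → N`. -/
noncomputable def evalHom : (M →ₗ[R] N) ⊗[R] M →ₗ[R] N :=
  TensorProduct.lift (LinearMap.id : (M →ₗ[R] N) →ₗ[R] (M →ₗ[R] N))

@[simp] theorem evalHom_tmul (f : M →ₗ[R] N) (m : M) : evalHom R M N (f ⊗ₜ m) = f m := rfl

theorem evalHom_bijective [Module.Invertible R M] : Function.Bijective (evalHom R M N) := by
  -- `(M* ⊗ N) ⊗ M ≃ N ⊗ (M* ⊗ M) ≃ N ⊗ R ≃ N`
  let e : (M →ₗ[R] N) ⊗[R] M ≃ₗ[R] N :=
    (dualTensorHomEquiv R M N).symm.rTensor M ≪≫ₗ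
      (TensorProduct.comm R _ _).rTensor M ≪≫ₗ TensorProduct.assoc R N (Module.Dual R M) M ≪≫ₗ
      (Module.Invertible.linearEquiv R M).lTensor N ≪≫ₗ TensorProduct.rid R N
  have : evalHom R M N = e.toLinearMap := by
    apply TensorProduct.ext'
    intro f m
    obtain ⟨z, rfl⟩ := (dualTensorHomEquiv R M N).surjective f
    induction z using TensorProduct.induction_on with
    | zero => simp [e]
    | tmul φ n =>
      simp [e, dualTensorHomEquiv, Module.Invertible.linearEquiv]
    | add x y hx hy =>
      simp only [map_add, TensorProduct.add_tmul, hx, hy]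
  rw [this]
  exact e.bijective

end Inv


section ZeroIdeal

variable {A E : Type*} [CommRing A] [AddCommGroup E] [Module A E]

/-- On an invertible module, `φ e • σ = φ σ • e`. -/
theorem dual_apply_smul_comm [Module.Invertible A E] (φ : Module.Dual A E) (e σ : E) :
    φ e • σ = φ σ • e := by
  have h : e ⊗ₜ[A] σ = σ ⊗ₜ[A] e := Module.Invertible.tmul_comm
  have := congrArg (TensorProduct.lift (LinearMap.lsmul A E ∘ₗ φ)) h
  simpa using this

variable (A) in
/-- The zero ideal (content ideal) of an element `σ` of a module `E`: the ideal of all `a` with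
`a • E ⊆ A ∙ σ`, i.e. the annihilator of `E ⧸ A ∙ σ`. -/
def zeroIdeal (σ : E) : Ideal A := (Submodule.span A {σ}).colon ⊤

theorem mem_zeroIdeal {σ : E} {a : A} : a ∈ zeroIdeal A σ ↔ ∀ e : E, ∃ b : A, a • e = b • σ := by
  unfold zeroIdeal
  rw [Submodule.mem_colon]
  constructor
  · intro h e
    obtain ⟨b, hb⟩ := Submodule.mem_span_singleton.mp (h e trivial)
    exact ⟨b, hb.symm⟩
  · intro h e _
    obtain ⟨b, hb⟩ := h e
    exact Submodule.mem_span_singleton.mpr ⟨b, hb.symm⟩

theorem dual_apply_mem_zeroIdeal [Module.Invertible A E] (φ : Module.Dual A E) (σ : E) :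
    φ σ ∈ zeroIdeal A σ :=
  mem_zeroIdeal.mpr fun e => ⟨φ e, (dual_apply_smul_comm φ e σ).symm⟩

/-- A "partition of unity" on an invertible module. -/
theorem exists_dual_sum_eq_one (A E : Type*) [CommRing A] [AddCommGroup E] [Module A E]
    [Module.Invertible A E] :
    ∃ (n : ℕ) (φ : Fin n → Module.Dual A E) (e : Fin n → E), ∑ i, φ i (e i) = 1 := by
  classical
  obtain ⟨S, hS⟩ := ((Module.Invertible.linearEquiv A E).symm 1).exists_finset
  have h1 : (Module.Invertible.linearEquiv A E) (∑ i ∈ S, i.1 ⊗ₜ[A] i.2) = 1 := by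
    rw [← hS, LinearEquiv.apply_symm_apply]
  rw [map_sum] at h1
  refine ⟨S.card, fun i => (S.equivFin.symm i).1.1, fun i => (S.equivFin.symm i).1.2, ?_⟩
  rw [← h1, ← Finset.sum_coe_sort S]
  exact Fintype.sum_equiv S.equivFin.symm _ _ (fun i => by simp [Module.Invertible.linearEquiv])

/-- Every element of an invertible module is `∑ φ i x • e i`. -/
theorem eq_sum_dual_smul [Module.Invertible A E] {n : ℕ} (φ : Fin n → Module.Dual A E)
    (e : Fin n → E) (h : ∑ i, φ i (e i) = 1) (x : E) : x = ∑ i, φ i x • e i := by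
  calc x = (∑ i, φ i (e i)) • x := by rw [h, one_smul]
    _ = ∑ i, φ i (e i) • x := Finset.sum_smul
    _ = ∑ i, φ i x • e i := Finset.sum_congr rfl fun i _ => dual_apply_smul_comm (φ i) (e i) x

/-- The zero ideal is the image of evaluation at `σ` on the dual. -/
theorem mem_zeroIdeal_iff_exists_dual [Module.Invertible A E] {σ : E} {a : A} :
    a ∈ zeroIdeal A σ ↔ ∃ φ : Module.Dual A E, φ σ = a := by
  constructor
  · intro ha
    obtain ⟨n, φ, e, h⟩ := exists_dual_sum_eq_one A E
    choose b hb using mem_zeroIdeal.mp ha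
    refine ⟨∑ i, b (e i) • φ i, ?_⟩
    calc (∑ i, b (e i) • φ i) σ = ∑ i, φ i (b (e i) • σ) := by
          simp [LinearMap.sum_apply]
      _ = ∑ i, φ i (a • e i) := Finset.sum_congr rfl fun i _ => by rw [hb (e i)]
      _ = a * ∑ i, φ i (e i) := by simp [Finset.mul_sum]
      _ = a := by rw [h, mul_one]
  · rintro ⟨φ, rfl⟩
    exact dual_apply_mem_zeroIdeal φ σ

/-- `A ∙ σ = I • E` for the zero ideal `I` of `σ` in an invertible module. -/
theorem span_singleton_eq_zeroIdeal_smul_top [Module.Invertible A E] (σ : E) :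
    Submodule.span A {σ} = zeroIdeal A σ • (⊤ : Submodule A E) := by
  apply le_antisymm
  · rw [Submodule.span_singleton_le_iff_mem]
    obtain ⟨n, φ, e, h⟩ := exists_dual_sum_eq_one A E
    have hσ := eq_sum_dual_smul φ e h σ
    have : ∑ i, φ i σ • e i ∈ zeroIdeal A σ • (⊤ : Submodule A E) :=
      Submodule.sum_mem _ fun i _ =>
        Submodule.smul_mem_smul (dual_apply_mem_zeroIdeal (φ i) σ) trivial
    rw [← hσ] at this
    exact this
  · rw [Submodule.smul_le]
    intro a ha e _
    exact (Submodule.mem_colon.mp ha) e trivial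

/-- `A ⧸ I` is a retract of a finite power of `E ⧸ A ∙ σ` (`I` the zero ideal of `σ`). -/
theorem exists_retract_quotient_zeroIdeal [Module.Invertible A E] (σ : E) :
    ∃ (n : ℕ) (u : (A ⧸ zeroIdeal A σ) →ₗ[A] (Fin n → E ⧸ Submodule.span A {σ}))
      (v : (Fin n → E ⧸ Submodule.span A {σ}) →ₗ[A] (A ⧸ zeroIdeal A σ)), v ∘ₗ u = LinearMap.id := by
  classical
  obtain ⟨n, φ, e, h⟩ := exists_dual_sum_eq_one A E
  -- `u : a ↦ (a • e i)`
  let u₀ : A →ₗ[A] (Fin n → E ⧸ Submodule.span A {σ}) :=
    LinearMap.pi fun i => (Submodule.mkQ _) ∘ₗ LinearMap.toSpanSingleton A E (e i)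
  have hu₀ : zeroIdeal A σ ≤ LinearMap.ker u₀ := by
    intro a ha
    rw [LinearMap.mem_ker]
    funext i
    simp only [u₀, LinearMap.pi_apply, LinearMap.comp_apply, LinearMap.toSpanSingleton_apply,
      Submodule.mkQ_apply, Pi.zero_apply, Submodule.Quotient.mk_eq_zero]
    exact (Submodule.mem_colon.mp ha) (e i) trivial
  let u : (A ⧸ zeroIdeal A σ) →ₗ[A] (Fin n → E ⧸ Submodule.span A {σ}) :=
    Submodule.liftQ (zeroIdeal A σ) u₀ hu₀
  -- `v : (x i) ↦ ∑ φ i (x i)`
  let v₁ : ∀ i : Fin n, (E ⧸ Submodule.span A {σ}) →ₗ[A] (A ⧸ zeroIdeal A σ) := fun i =>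
    Submodule.liftQ _ ((Submodule.mkQ (zeroIdeal A σ)) ∘ₗ φ i) (by
      rw [Submodule.span_singleton_le_iff_mem, LinearMap.mem_ker]
      simp only [LinearMap.comp_apply, Submodule.mkQ_apply, Submodule.Quotient.mk_eq_zero]
      exact dual_apply_mem_zeroIdeal (φ i) σ)
  let v : (Fin n → E ⧸ Submodule.span A {σ}) →ₗ[A] (A ⧸ zeroIdeal A σ) :=
    ∑ i, v₁ i ∘ₗ LinearMap.proj i
  refine ⟨n, u, v, ?_⟩
  have hu : ∀ a : A, u (Submodule.Quotient.mk a) = fun i => Submodule.Quotient.mk (a • e i) := by
    intro a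
    rfl
  have hv : ∀ x : Fin n → E, v (fun i => Submodule.Quotient.mk (x i)) =
      Submodule.Quotient.mk (∑ i, φ i (x i)) := by
    intro x
    simp only [v, LinearMap.sum_apply, LinearMap.comp_apply, LinearMap.proj_apply]
    rw [← Submodule.mkQ_apply, map_sum]
    rfl
  apply LinearMap.ext
  intro q
  obtain ⟨a, rfl⟩ := Submodule.Quotient.mk_surjective _ q
  rw [LinearMap.comp_apply, hu, hv, LinearMap.id_apply]
  congr 1
  calc ∑ i, φ i (a • e i) = a * ∑ i, φ i (e i) := by simp [Finset.mul_sum]
    _ = a := by rw [h, mul_one]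


section OverBase

variable (B : Type*) [CommRing B] [Algebra B A] [Module B E] [IsScalarTower B A E]

/-- If `E ⧸ A ∙ σ` is a finite `B`-module, so is `A ⧸ I` (`I` the zero ideal of `σ`). -/
theorem finite_quotient_zeroIdeal [Module.Invertible A E] (σ : E)
    [Module.Finite B (E ⧸ Submodule.span A {σ})] : Module.Finite B (A ⧸ zeroIdeal A σ) := by
  obtain ⟨n, u, v, h⟩ := exists_retract_quotient_zeroIdeal (A := A) σ
  have hs : Function.Surjective (v.restrictScalars B) := fun q =>
    ⟨u q, LinearMap.congr_fun h q⟩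
  exact Module.Finite.of_surjective (v.restrictScalars B) hs

/-- If `E ⧸ A ∙ σ` is a projective `B`-module, so is `A ⧸ I` (`I` the zero ideal of `σ`). -/
theorem projective_quotient_zeroIdeal [Module.Invertible A E] (σ : E)
    [Module.Projective B (E ⧸ Submodule.span A {σ})] : Module.Projective B (A ⧸ zeroIdeal A σ) := by
  obtain ⟨n, u, v, h⟩ := exists_retract_quotient_zeroIdeal (A := A) σ
  have : Module.Projective B (Fin n → E ⧸ Submodule.span A {σ}) :=
    Module.Projective.of_equiv'
      (DFinsupp.linearEquivFunOnFintype (R := B) (M := fun _ : Fin n => E ⧸ Submodule.span A {σ}))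
  exact Module.Projective.of_split (u.restrictScalars B) (v.restrictScalars B)
    (LinearMap.ext fun q => LinearMap.congr_fun h q)

end OverBase

end ZeroIdeal

section ZeroIdealHom

variable {A M N : Type*} [CommRing A] [AddCommGroup M] [Module A M] [AddCommGroup N] [Module A N]

/-- The image of a morphism `σ : M → N` of invertible modules is `I • N`, `I` the zero ideal of
`σ` (as an element of `Hom(M, N)`). -/
theorem range_eq_zeroIdeal_smul_top [Module.Invertible A M] [Module.Invertible A N]
    (σ : M →ₗ[A] N) : LinearMap.range σ = zeroIdeal A σ • (⊤ : Submodule A N) := by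
  have : Module.Invertible A (M →ₗ[A] N) := invertible_linearMap A M N
  apply le_antisymm
  · rintro _ ⟨m, rfl⟩
    have h1 : σ ∈ zeroIdeal A σ • (⊤ : Submodule A (M →ₗ[A] N)) := by
      rw [← span_singleton_eq_zeroIdeal_smul_top]
      exact Submodule.mem_span_singleton_self σ
    have h2 : (LinearMap.applyₗ m : (M →ₗ[A] N) →ₗ[A] N) σ ∈
        Submodule.map (LinearMap.applyₗ m) (zeroIdeal A σ • (⊤ : Submodule A (M →ₗ[A] N))) :=
      Submodule.mem_map_of_mem h1
    rw [Submodule.map_smul''] at h2
    exact Submodule.smul_mono le_rfl le_top h2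
  · rw [Submodule.smul_le]
    intro a ha n _
    have key : ∀ z : (M →ₗ[A] N) ⊗[A] M, a • evalHom A M N z ∈ LinearMap.range σ := by
      intro z
      induction z using TensorProduct.induction_on with
      | zero => simp
      | tmul τ m =>
        obtain ⟨b, hb⟩ := mem_zeroIdeal.mp ha τ
        refine ⟨b • m, ?_⟩
        rw [evalHom_tmul, map_smul, ← LinearMap.smul_apply, ← hb, LinearMap.smul_apply]
      | add x y hx hy =>
        rw [map_add, smul_add]
        exact Submodule.add_mem _ hx hy
    obtain ⟨z, rfl⟩ := (evalHom_bijective A M N).2 n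
    exact key z

/-- If the zero ideal of `σ : M → N` (invertible modules) is an invertible module, then `σ` is
injective. -/
theorem injective_of_invertible_zeroIdeal [Module.Invertible A M] [Module.Invertible A N]
    (σ : M →ₗ[A] N) [Module.Invertible A (zeroIdeal A σ)] : Function.Injective σ := by
  -- `I ⊗ N ≃ I • N`
  let f : (zeroIdeal A σ) ⊗[A] N →ₗ[A] N :=
    (TensorProduct.lid A N).toLinearMap ∘ₗ (Submodule.subtype (zeroIdeal A σ)).rTensor N
  have hf : Function.Injective f := by
    refine (TensorProduct.lid A N).injective.comp ?_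
    exact Module.Flat.rTensor_preserves_injective_linearMap _ Subtype.val_injective
  have hrange : LinearMap.range f = LinearMap.range σ := by
    rw [range_eq_zeroIdeal_smul_top σ]
    apply le_antisymm
    · have key : ∀ z : (zeroIdeal A σ) ⊗[A] N, f z ∈ zeroIdeal A σ • (⊤ : Submodule A N) := by
        intro z
        induction z using TensorProduct.induction_on with
        | zero => simp
        | tmul a n =>
          simp only [f, LinearMap.comp_apply, LinearMap.rTensor_tmul, Submodule.subtype_apply,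
            LinearEquiv.coe_coe, TensorProduct.lid_tmul]
          exact Submodule.smul_mem_smul a.2 trivial
        | add x y hx hy =>
          rw [map_add]
          exact Submodule.add_mem _ hx hy
      rintro _ ⟨z, rfl⟩
      exact key z
    · rw [Submodule.smul_le]
      intro a ha n _
      exact ⟨(⟨a, ha⟩ : zeroIdeal A σ) ⊗ₜ[A] n, by simp [f]⟩
  let e : (zeroIdeal A σ) ⊗[A] N ≃ₗ[A] LinearMap.range σ :=
    (LinearEquiv.ofInjective f hf).trans (LinearEquiv.ofEq _ _ hrange)
  have : Module.Invertible A (LinearMap.range σ) := Module.Invertible.congr e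
  have hbij : Function.Bijective σ.rangeRestrict :=
    Module.Invertible.bijective_of_surjective σ.surjective_rangeRestrict
  intro m₁ m₂ h
  exact hbij.1 (Subtype.ext h)

end ZeroIdealHom

section SmulTopHom

variable {A M N E : Type*} [CommRing A] [AddCommGroup M] [Module A M] [AddCommGroup N] [Module A N]
  [AddCommGroup E] [Module A E]

/-- A linear form maps `I • E` into `I`. -/
theorem dual_apply_mem_of_mem_smul_top (I : Ideal A) (φ : Module.Dual A E) {e : E}
    (he : e ∈ I • (⊤ : Submodule A E)) : φ e ∈ I := by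
  refine Submodule.smul_induction_on he (fun a ha e _ => ?_) (fun x y hx hy => ?_)
  · rw [map_smul]; exact I.mul_mem_right _ ha
  · rw [map_add]; exact I.add_mem hx hy

/-- For an invertible module `E`: `I • E = E` iff `I = ⊤`. -/
theorem smul_top_eq_top_iff [Module.Invertible A E] (I : Ideal A) :
    I • (⊤ : Submodule A E) = ⊤ ↔ I = ⊤ := by
  constructor
  · intro h
    obtain ⟨n, φ, e, h1⟩ := exists_dual_sum_eq_one A E
    rw [Ideal.eq_top_iff_one, ← h1]
    exact I.sum_mem fun i _ => dual_apply_mem_of_mem_smul_top I (φ i) (by rw [h]; trivial)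
  · rintro rfl
    exact Submodule.top_smul _

/-- Evaluation sends `I • Hom(M, N)` into `I • N`. -/
theorem apply_mem_smul_top_of_mem_smul_top (I : Ideal A) {f : M →ₗ[A] N}
    (hf : f ∈ I • (⊤ : Submodule A (M →ₗ[A] N))) (m : M) : f m ∈ I • (⊤ : Submodule A N) := by
  have h2 : (LinearMap.applyₗ m : (M →ₗ[A] N) →ₗ[A] N) f ∈
      Submodule.map (LinearMap.applyₗ m) (I • (⊤ : Submodule A (M →ₗ[A] N))) :=
    Submodule.mem_map_of_mem hf
  rw [Submodule.map_smul''] at h2
  exact Submodule.smul_mono le_rfl le_top h2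

/-- For `M` finite projective: `f ∈ I • Hom(M, N)` iff `f` takes its values in `I • N`. -/
theorem mem_smul_top_linearMap_iff [Module.Finite A M] [Module.Projective A M] (I : Ideal A)
    (f : M →ₗ[A] N) :
    f ∈ I • (⊤ : Submodule A (M →ₗ[A] N)) ↔ ∀ m, f m ∈ I • (⊤ : Submodule A N) := by
  classical
  refine ⟨fun hf m => apply_mem_smul_top_of_mem_smul_top I hf m, fun h => ?_⟩
  obtain ⟨n, s, i, -, -, hsi⟩ := Module.Finite.exists_comp_eq_id_of_projective A M
  have hf : f = ∑ j : Fin n, ((LinearMap.proj j : (Fin n → A) →ₗ[A] A) ∘ₗ i).smulRight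
      (f (s fun j' => if j = j' then 1 else 0)) := by
    ext m
    have hm : m = s (i m) := by rw [← LinearMap.comp_apply, hsi]; rfl
    have h1 : f m = (f ∘ₗ s) (i m) := by rw [LinearMap.comp_apply, ← hm]
    rw [h1, LinearMap.pi_apply_eq_sum_univ (f ∘ₗ s) (i m), LinearMap.sum_apply]
    rfl
  rw [hf]
  refine Submodule.sum_mem _ fun j _ => ?_
  have h2 := Submodule.mem_map_of_mem
    (f := (LinearMap.smulRightₗ ((LinearMap.proj j : (Fin n → A) →ₗ[A] A) ∘ₗ i) :
      N →ₗ[A] (M →ₗ[A] N))) (h (s fun j' => if j = j' then 1 else 0))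
  rw [Submodule.map_smul''] at h2
  exact Submodule.smul_mono le_rfl le_top h2

/-- For a linear map to the ring: `f ∈ I • Hom(M, A)` iff `f` takes its values in `I`. -/
theorem mem_smul_top_dual_iff [Module.Finite A M] [Module.Projective A M] (I : Ideal A)
    (f : M →ₗ[A] A) : f ∈ I • (⊤ : Submodule A (M →ₗ[A] A)) ↔ ∀ m, f m ∈ I := by
  rw [mem_smul_top_linearMap_iff]
  have : I • (⊤ : Submodule A A) = I := by
    rw [smul_eq_mul, Ideal.mul_top]
  rw [this]

/-- `A ∙ φ + J • Hom(M, N) = Hom(M, N)` iff the zero ideal of `φ` is comaximal with `J`. -/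
theorem span_sup_smul_top_eq_top_iff [Module.Invertible A M] [Module.Invertible A N]
    (J : Ideal A) (φ : M →ₗ[A] N) :
    Submodule.span A {φ} ⊔ J • (⊤ : Submodule A (M →ₗ[A] N)) = ⊤ ↔ zeroIdeal A φ ⊔ J = ⊤ := by
  have : Module.Invertible A (M →ₗ[A] N) := invertible_linearMap A M N
  rw [span_singleton_eq_zeroIdeal_smul_top, ← Submodule.sup_smul, smul_top_eq_top_iff]

/-- `range φ + J • N = N` iff the zero ideal of `φ` is comaximal with `J`. -/
theorem range_sup_smul_top_eq_top_iff [Module.Invertible A M] [Module.Invertible A N]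
    (J : Ideal A) (φ : M →ₗ[A] N) :
    LinearMap.range φ ⊔ J • (⊤ : Submodule A N) = ⊤ ↔ zeroIdeal A φ ⊔ J = ⊤ := by
  rw [range_eq_zeroIdeal_smul_top, ← Submodule.sup_smul, smul_top_eq_top_iff]

/-- `φ` generates `Hom(M, N)` modulo `J` iff `φ` is surjective modulo `J`. -/
theorem span_sup_smul_top_eq_top_iff_range [Module.Invertible A M] [Module.Invertible A N]
    (J : Ideal A) (φ : M →ₗ[A] N) :
    Submodule.span A {φ} ⊔ J • (⊤ : Submodule A (M →ₗ[A] N)) = ⊤ ↔
      LinearMap.range φ ⊔ J • (⊤ : Submodule A N) = ⊤ := by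
  rw [span_sup_smul_top_eq_top_iff, range_sup_smul_top_eq_top_iff]

/-- `φ` is surjective iff its zero ideal is the unit ideal. -/
theorem surjective_iff_zeroIdeal_eq_top [Module.Invertible A M] [Module.Invertible A N]
    (φ : M →ₗ[A] N) : Function.Surjective φ ↔ zeroIdeal A φ = ⊤ := by
  rw [← LinearMap.range_eq_top, range_eq_zeroIdeal_smul_top, smul_top_eq_top_iff]

end SmulTopHom

section EndInv

variable {A E : Type*} [CommRing A] [AddCommGroup E] [Module A E]

/-- Every endomorphism of an invertible module is a homothety. -/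
theorem exists_eq_smul_id [Module.Invertible A E] (θ : E →ₗ[A] E) :
    ∃ c : A, θ = c • LinearMap.id := by
  obtain ⟨n, φ, e, h⟩ := exists_dual_sum_eq_one A E
  refine ⟨∑ i, φ i (θ (e i)), LinearMap.ext fun x => ?_⟩
  have hx := eq_sum_dual_smul φ e h x
  calc θ x = θ (∑ i, φ i x • e i) := by rw [← hx]
    _ = ∑ i, φ i x • θ (e i) := by simp [map_sum]
    _ = ∑ i, φ i (θ (e i)) • x :=
        Finset.sum_congr rfl fun i _ => dual_apply_smul_comm (φ i) x (θ (e i))
    _ = (∑ i, φ i (θ (e i))) • x := Finset.sum_smul.symm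
    _ = ((∑ i, φ i (θ (e i))) • LinearMap.id) x := rfl

/-- The homothety map `A → End(E)` is surjective for an invertible module. -/
theorem toSpanSingleton_id_surjective [Module.Invertible A E] :
    Function.Surjective (LinearMap.toSpanSingleton A (E →ₗ[A] E) LinearMap.id) := fun θ => by
  obtain ⟨c, hc⟩ := exists_eq_smul_id θ
  exact ⟨c, by rw [LinearMap.toSpanSingleton_apply, hc]⟩

end EndInv

end Fermat.Agent.S25.helper1397
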