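import Fermat.Agent.S25.helper2945_AlgDefs
import Fermat.Agent.S25.helper743_AlgApi
import Fermat.Agent.S25.helper1397_HomDatum

/-!
# S25, leaf LC-HOM: the Hom datum `Hom(G, G')` of two two-chart line bundles (helper1397)

`GlueDatum` is helper2945's (`Fermat/Agent/S25/helper2945_AlgDefs.lean`); the recognition
principle for base changes is helper743's (`helper743_AlgApi.lean`).

* `homDatum G G' : GlueDatum D B`, `homRes₀`, `homRes₁`;
* `Mor G G'` (morphisms), `Mor.equivH0 : Mor G G' ≃ (homDatum G G').H0`,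
  `Mor.isoOfSurjective`;
* `homBaseChangeIso : Iso ((homDatum G H).baseChange φ) (homDatum (G.baseChange φ) (H.baseChange φ))`,
  `Mor.baseChange`;
* `homDatum_isRig`.
-/

set_option autoImplicit false
set_option linter.style.haveILetI false

open scoped TensorProduct

namespace Fermat.Agent.S25.helper1397

open Fermat.Agent.S25.helper1705 Fermat.Agent.S25.helper2945 Fermat.Agent.S25.helper743

universe u

variable {k : Type u} [Field k] {D : CurveDatum k} {B : Type u} [CommRing B] [Algebra k B]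

/-- Restriction of homomorphisms from the first chart to the overlap:
`(homRes₀ G G' f) (G.ρ₀ m) = G'.ρ₀ (f m)`. -/
noncomputable def homRes₀ (G G' : GlueDatum D B) :
    (G.M₀ →ₗ[D.A₀ B] G'.M₀) →ₗ[D.A₀ B] (G.M₀₁ →ₗ[D.A₀₁ B] G'.M₀₁) :=
  IsLocalizedModule.mapExtendScalars (Submonoid.powers (xB D B)) G.ρ₀ G'.ρ₀ (D.A₀₁ B)

/-- Restriction of homomorphisms from the chart at infinity to the overlap:
`(homRes₁ G G' f) (G.ρ₁ m) = G'.ρ₁ (f m)`. -/
noncomputable def homRes₁ (G G' : GlueDatum D B) :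
    (G.M₁ →ₗ[D.A₁ B] G'.M₁) →ₗ[D.A₁ B] (G.M₀₁ →ₗ[D.A₀₁ B] G'.M₀₁) :=
  IsLocalizedModule.mapExtendScalars (Submonoid.powers (yB D B)) G.ρ₁ G'.ρ₁ (D.A₀₁ B)

/-- The Hom datum `Hom(G, G')`: the two-chart line bundle whose sections are the morphisms
`G → G'`. -/
noncomputable def homDatum (G G' : GlueDatum D B) : GlueDatum D B where
  M₀ := G.M₀ →ₗ[D.A₀ B] G'.M₀
  M₁ := G.M₁ →ₗ[D.A₁ B] G'.M₁
  M₀₁ := G.M₀₁ →ₗ[D.A₀₁ B] G'.M₀₁
  ρ₀ := homRes₀ G G'
  ρ₁ := homRes₁ G G'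
  loc₀ :=
    haveI : Module.FinitePresentation (D.A₀ B) G.M₀ := Module.finitePresentation_of_projective _ _
    Module.FinitePresentation.isLocalizedModule_mapExtendScalars _ _ _ _
  loc₁ :=
    haveI : Module.FinitePresentation (D.A₁ B) G.M₁ := Module.finitePresentation_of_projective _ _
    Module.FinitePresentation.isLocalizedModule_mapExtendScalars _ _ _ _
  inv₀ := invertible_linearMap _ _ _
  inv₁ := invertible_linearMap _ _ _

section Apply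

variable (G G' : GlueDatum D B)

theorem homDatum_ρ₀ : (homDatum G G').ρ₀ = homRes₀ G G' := rfl
theorem homDatum_ρ₁ : (homDatum G G').ρ₁ = homRes₁ G G' := rfl

@[simp] theorem homRes₀_apply (f : G.M₀ →ₗ[D.A₀ B] G'.M₀) (m : G.M₀) :
    homRes₀ G G' f (G.ρ₀ m) = G'.ρ₀ (f m) :=
  IsLocalizedModule.map_apply (Submonoid.powers (xB D B)) G.ρ₀ G'.ρ₀ f m

@[simp] theorem homRes₁_apply (f : G.M₁ →ₗ[D.A₁ B] G'.M₁) (m : G.M₁) :
    homRes₁ G G' f (G.ρ₁ m) = G'.ρ₁ (f m) :=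
  IsLocalizedModule.map_apply (Submonoid.powers (yB D B)) G.ρ₁ G'.ρ₁ f m

/-- A linear map out of `M₀₁` is determined by its values on the image of `M₀`. -/
theorem ext_ρ₀ {g g' : G.M₀₁ →ₗ[D.A₀₁ B] G'.M₀₁} (h : ∀ m, g (G.ρ₀ m) = g' (G.ρ₀ m)) : g = g' := by
  apply LinearMap.restrictScalars_injective (D.A₀ B)
  apply IsLocalizedModule.linearMap_ext (Submonoid.powers (xB D B)) G.ρ₀ G'.ρ₀
  ext m
  exact h m

/-- A linear map out of `M₀₁` is determined by its values on the image of `M₁`. -/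
theorem ext_ρ₁ {g g' : G.M₀₁ →ₗ[D.A₀₁ B] G'.M₀₁} (h : ∀ m, g (G.ρ₁ m) = g' (G.ρ₁ m)) : g = g' := by
  apply LinearMap.restrictScalars_injective (D.A₁ B)
  apply IsLocalizedModule.linearMap_ext (Submonoid.powers (yB D B)) G.ρ₁ G'.ρ₁
  ext m
  exact h m

end Apply

/-- A morphism of two-chart line bundles. -/
structure Mor (G G' : GlueDatum D B) where
  /-- on the first chart -/
  f₀ : G.M₀ →ₗ[D.A₀ B] G'.M₀
  /-- on the chart at infinity -/
  f₁ : G.M₁ →ₗ[D.A₁ B] G'.M₁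
  /-- on the overlap -/
  f₀₁ : G.M₀₁ →ₗ[D.A₀₁ B] G'.M₀₁
  comm₀ : ∀ m, f₀₁ (G.ρ₀ m) = G'.ρ₀ (f₀ m)
  comm₁ : ∀ m, f₀₁ (G.ρ₁ m) = G'.ρ₁ (f₁ m)

namespace Mor

variable {G G' G'' : GlueDatum D B}

theorem f₀₁_eq₀ (σ : Mor G G') : σ.f₀₁ = homRes₀ G G' σ.f₀ :=
  ext_ρ₀ G G' fun m => by rw [σ.comm₀, homRes₀_apply]

theorem f₀₁_eq₁ (σ : Mor G G') : σ.f₀₁ = homRes₁ G G' σ.f₁ :=
  ext_ρ₁ G G' fun m => by rw [σ.comm₁, homRes₁_apply]

@[ext] theorem ext {σ τ : Mor G G'} (h₀ : σ.f₀ = τ.f₀) (h₁ : σ.f₁ = τ.f₁) : σ = τ := by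
  have h₀₁ : σ.f₀₁ = τ.f₀₁ := by rw [σ.f₀₁_eq₀, τ.f₀₁_eq₀, h₀]
  cases σ; cases τ
  simp only at h₀ h₁ h₀₁
  subst h₀ h₁ h₀₁
  rfl

/-- The identity morphism. -/
def id (G : GlueDatum D B) : Mor G G where
  f₀ := LinearMap.id
  f₁ := LinearMap.id
  f₀₁ := LinearMap.id
  comm₀ _ := rfl
  comm₁ _ := rfl

/-- Composition of morphisms. -/
def comp (τ : Mor G' G'') (σ : Mor G G') : Mor G G'' where
  f₀ := τ.f₀ ∘ₗ σ.f₀
  f₁ := τ.f₁ ∘ₗ σ.f₁
  f₀₁ := τ.f₀₁ ∘ₗ σ.f₀₁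
  comm₀ m := by simp [σ.comm₀, τ.comm₀]
  comm₁ m := by simp [σ.comm₁, τ.comm₁]

/-- The morphism underlying an isomorphism. -/
def ofIso (e : GlueDatum.Iso G G') : Mor G G' where
  f₀ := e.e₀.toLinearMap
  f₁ := e.e₁.toLinearMap
  f₀₁ := e.e₀₁.toLinearMap
  comm₀ := e.comm₀
  comm₁ := e.comm₁

/-- The section of the Hom datum defined by a morphism. -/
def toH0 (σ : Mor G G') : (homDatum G G').H0 :=
  ⟨(σ.f₀, σ.f₁), (GlueDatum.mem_H0 _ _).mpr
    ((homDatum_ρ₀ G G' ▸ homDatum_ρ₁ G G' ▸ (σ.f₀₁_eq₀.symm.trans σ.f₀₁_eq₁) :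
      (homDatum G G').ρ₀ σ.f₀ = (homDatum G G').ρ₁ σ.f₁))⟩

/-- The morphism defined by a section of the Hom datum. -/
noncomputable def ofH0 (p : (homDatum G G').H0) : Mor G G' where
  f₀ := p.1.1
  f₁ := p.1.2
  f₀₁ := homRes₀ G G' p.1.1
  comm₀ m := homRes₀_apply G G' _ m
  comm₁ m := by
    have h : homRes₀ G G' p.1.1 = homRes₁ G G' p.1.2 := (GlueDatum.mem_H0 _ _).mp p.2
    rw [h]
    exact homRes₁_apply G G' _ m

/-- Morphisms `G → G'` are the global sections of the Hom datum. -/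
noncomputable def equivH0 : Mor G G' ≃ (homDatum G G').H0 where
  toFun := toH0
  invFun := ofH0
  left_inv σ := by ext <;> rfl
  right_inv p := by ext <;> rfl

@[simp] theorem equivH0_apply_fst (σ : Mor G G') : (equivH0 σ).1.1 = σ.f₀ := rfl
@[simp] theorem equivH0_apply_snd (σ : Mor G G') : (equivH0 σ).1.2 = σ.f₁ := rfl
@[simp] theorem equivH0_symm_f₀ (p : (homDatum G G').H0) : (equivH0.symm p).f₀ = p.1.1 := rfl
@[simp] theorem equivH0_symm_f₁ (p : (homDatum G G').H0) : (equivH0.symm p).f₁ = p.1.2 := rfl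

theorem mem_H0_iff (p : (G.M₀ →ₗ[D.A₀ B] G'.M₀) × (G.M₁ →ₗ[D.A₁ B] G'.M₁)) :
    p ∈ (homDatum G G').H0 ↔ ∃ σ : Mor G G', σ.f₀ = p.1 ∧ σ.f₁ = p.2 :=
  ⟨fun h => ⟨ofH0 ⟨p, h⟩, rfl, rfl⟩, fun ⟨σ, h₀, h₁⟩ => by
    have := σ.toH0.2
    have hp : p = (σ.f₀, σ.f₁) := by ext <;> simp [h₀, h₁]
    rw [hp]; exact this⟩

/-- A morphism which is bijective on both charts is an isomorphism. -/
noncomputable def isoOfBijective (σ : Mor G G') (h₀ : Function.Bijective σ.f₀)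
    (h₁ : Function.Bijective σ.f₁) : GlueDatum.Iso G G' where
  e₀ := LinearEquiv.ofBijective σ.f₀ h₀
  e₁ := LinearEquiv.ofBijective σ.f₁ h₁
  e₀₁ := LinearEquiv.ofBijective σ.f₀₁ (by
    rw [σ.f₀₁_eq₀]
    exact ⟨IsLocalizedModule.map_injective (Submonoid.powers (xB D B)) G.ρ₀ G'.ρ₀ σ.f₀ h₀.1,
      IsLocalizedModule.map_surjective (Submonoid.powers (xB D B)) G.ρ₀ G'.ρ₀ σ.f₀ h₀.2⟩)
  comm₀ := σ.comm₀
  comm₁ := σ.comm₁

/-- A morphism which is surjective on both charts is an isomorphism (the modules are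
invertible). -/
noncomputable def isoOfSurjective (σ : Mor G G') (h₀ : Function.Surjective σ.f₀)
    (h₁ : Function.Surjective σ.f₁) : GlueDatum.Iso G G' :=
  σ.isoOfBijective (Module.Invertible.bijective_of_surjective h₀)
    (Module.Invertible.bijective_of_surjective h₁)

theorem equiv_of_surjective (σ : Mor G G') (h₀ : Function.Surjective σ.f₀)
    (h₁ : Function.Surjective σ.f₁) : G.Equiv G' := ⟨σ.isoOfSurjective h₀ h₁⟩

end Mor

section BaseChangeSL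

variable {R R' M N : Type*} [CommRing R] [CommRing R'] [Algebra R R'] [AddCommGroup M]
  [Module R M] [AddCommGroup N] [Module R N]

/-- `f ↦ f.baseChange R'`, semilinear along `R → R'`. -/
noncomputable def baseChangeSL :
    (M →ₗ[R] N) →ₛₗ[algebraMap R R'] (R' ⊗[R] M →ₗ[R'] R' ⊗[R] N) where
  toFun f := f.baseChange R'
  map_add' f g := LinearMap.baseChange_add f g
  map_smul' a f := by
    ext m
    simp [TensorProduct.smul_tmul', Algebra.smul_def]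

@[simp] theorem baseChangeSL_apply (f : M →ₗ[R] N) :
    baseChangeSL (R' := R') f = f.baseChange R' := rfl

theorem slLift_baseChangeSL_bijective [Module.Finite R M] [Module.Projective R M] :
    Function.Bijective (slLift (S := R) (S' := R') (M := M →ₗ[R] N)
      (M' := R' ⊗[R] M →ₗ[R'] R' ⊗[R] N) baseChangeSL) := by
  have j := TensorProduct.isBaseChange R M R'
  have k := TensorProduct.isBaseChange R N R'
  have h := isBaseChange_linearMapLeftRightHom j k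
  have key : ∀ f : M →ₗ[R] N,
      IsBaseChange.linearMapLeftRightHom j (TensorProduct.mk R R' N 1) f = f.baseChange R' := by
    intro f
    refine j.algHom_ext _ _ fun m => ?_
    rw [IsBaseChange.linearMapLeftRightHom_comp_apply]
    simp
  have : (slLift (S := R) (S' := R') (M := M →ₗ[R] N)
      (M' := R' ⊗[R] M →ₗ[R'] R' ⊗[R] N) baseChangeSL : R' ⊗[R] (M →ₗ[R] N) → _) =
      h.equiv := by
    funext w
    induction w using TensorProduct.induction_on with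
    | zero => simp
    | tmul a f => rw [slLift_tmul, IsBaseChange.equiv_tmul, key, baseChangeSL_apply]
    | add x y hx hy => simp only [map_add, hx, hy]
  rw [this]
  exact h.equiv.bijective

end BaseChangeSL

/-- The overlap module of a two-chart line bundle is invertible. -/
theorem invertible_M₀₁ (G : GlueDatum D B) : Module.Invertible (D.A₀₁ B) G.M₀₁ :=
  Module.Invertible.of_isLocalization (Submonoid.powers (xB D B)) G.ρ₀

section HomBaseChange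

variable {B' : Type u} [CommRing B'] [Algebra k B'] (G H : GlueDatum D B) (φ : B →ₐ[k] B')

theorem baseChange_ρ₀_tmul (a : D.A₀ B') (m : G.M₀) :
    letI := algA₀ D φ
    letI := algA₀₁ D φ
    (G.baseChange φ).ρ₀ (a ⊗ₜ[D.A₀ B] m) = (D.res₀ B' a) ⊗ₜ[D.A₀₁ B] (G.ρ₀ m) := by
  letI := algA₀ D φ
  letI := algA₁ D φ
  letI := algA₀₁ D φ
  letI := algA₀A₀₁ D φ
  letI := algA₁A₀₁ D φ
  haveI := tower_A₀_A₀₁_A₀₁' D φ
  haveI := tower_A₀_A₀'_A₀₁' D φ
  haveI := tower_A₁_A₀₁_A₀₁' D φ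
  haveI := tower_A₁_A₁'_A₀₁' D φ
  exact sqBaseChange_tmul (S := D.A₀₁ B) (S' := D.A₀₁ B') G.ρ₀ a m

theorem baseChange_ρ₁_tmul (a : D.A₁ B') (m : G.M₁) :
    letI := algA₁ D φ
    letI := algA₀₁ D φ
    (G.baseChange φ).ρ₁ (a ⊗ₜ[D.A₁ B] m) = (D.res₁ B' a) ⊗ₜ[D.A₀₁ B] (G.ρ₁ m) := by
  letI := algA₀ D φ
  letI := algA₁ D φ
  letI := algA₀₁ D φ
  letI := algA₀A₀₁ D φ
  letI := algA₁A₀₁ D φ
  haveI := tower_A₀_A₀₁_A₀₁' D φ
  haveI := tower_A₀_A₀'_A₀₁' D φ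
  haveI := tower_A₁_A₀₁_A₀₁' D φ
  haveI := tower_A₁_A₁'_A₀₁' D φ
  exact sqBaseChange_tmul (S := D.A₀₁ B) (S' := D.A₀₁ B') G.ρ₁ a m

theorem homRes₀_baseChange (f : G.M₀ →ₗ[D.A₀ B] H.M₀) :
    letI := algA₀ D φ
    letI := algA₀₁ D φ
    homRes₀ (G.baseChange φ) (H.baseChange φ) (f.baseChange (D.A₀ B')) =
      (homRes₀ G H f).baseChange (D.A₀₁ B') := by
  letI := algA₀ D φ
  letI := algA₁ D φ
  letI := algA₀₁ D φ
  letI := algA₀A₀₁ D φ
  letI := algA₁A₀₁ D φ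
  haveI := tower_A₀_A₀₁_A₀₁' D φ
  haveI := tower_A₀_A₀'_A₀₁' D φ
  haveI := tower_A₁_A₀₁_A₀₁' D φ
  haveI := tower_A₁_A₁'_A₀₁' D φ
  apply ext_ρ₀ (G.baseChange φ) (H.baseChange φ)
  have key : ∀ z : D.A₀ B' ⊗[D.A₀ B] G.M₀,
      sqBaseChange (S := D.A₀₁ B) (S' := D.A₀₁ B') H.ρ₀ (f.baseChange (D.A₀ B') z) =
        (homRes₀ G H f).baseChange (D.A₀₁ B')
          (sqBaseChange (S := D.A₀₁ B) (S' := D.A₀₁ B') G.ρ₀ z) := by
    intro z
    induction z using TensorProduct.induction_on with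
    | zero => simp
    | tmul a m =>
      rw [LinearMap.baseChange_tmul, sqBaseChange_tmul, sqBaseChange_tmul,
        LinearMap.baseChange_tmul, homRes₀_apply]
    | add x y hx hy => simp only [map_add, hx, hy]
  intro z
  exact (homRes₀_apply (G.baseChange φ) (H.baseChange φ) _ z).trans (key z)

theorem homRes₁_baseChange (f : G.M₁ →ₗ[D.A₁ B] H.M₁) :
    letI := algA₁ D φ
    letI := algA₀₁ D φ
    homRes₁ (G.baseChange φ) (H.baseChange φ) (f.baseChange (D.A₁ B')) =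
      (homRes₁ G H f).baseChange (D.A₀₁ B') := by
  letI := algA₀ D φ
  letI := algA₁ D φ
  letI := algA₀₁ D φ
  letI := algA₀A₀₁ D φ
  letI := algA₁A₀₁ D φ
  haveI := tower_A₀_A₀₁_A₀₁' D φ
  haveI := tower_A₀_A₀'_A₀₁' D φ
  haveI := tower_A₁_A₀₁_A₀₁' D φ
  haveI := tower_A₁_A₁'_A₀₁' D φ
  apply ext_ρ₁ (G.baseChange φ) (H.baseChange φ)
  have key : ∀ z : D.A₁ B' ⊗[D.A₁ B] G.M₁,
      sqBaseChange (S := D.A₀₁ B) (S' := D.A₀₁ B') H.ρ₁ (f.baseChange (D.A₁ B') z) =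
        (homRes₁ G H f).baseChange (D.A₀₁ B')
          (sqBaseChange (S := D.A₀₁ B) (S' := D.A₀₁ B') G.ρ₁ z) := by
    intro z
    induction z using TensorProduct.induction_on with
    | zero => simp
    | tmul a m =>
      rw [LinearMap.baseChange_tmul, sqBaseChange_tmul, sqBaseChange_tmul,
        LinearMap.baseChange_tmul, homRes₁_apply]
    | add x y hx hy => simp only [map_add, hx, hy]
  intro z
  exact (homRes₁_apply (G.baseChange φ) (H.baseChange φ) _ z).trans (key z)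

/-- Base change of the Hom datum: `Hom(G, H) ⊗_B B' ≅ Hom(G ⊗_B B', H ⊗_B B')`. -/
noncomputable def homBaseChangeIso :
    GlueDatum.Iso ((homDatum G H).baseChange φ) (homDatum (G.baseChange φ) (H.baseChange φ)) :=
  letI := algA₀ D φ
  letI := algA₁ D φ
  letI := algA₀₁ D φ
  letI := algA₀A₀₁ D φ
  letI := algA₁A₀₁ D φ
  haveI := tower_A₀_A₀₁_A₀₁' D φ
  haveI := tower_A₀_A₀'_A₀₁' D φ
  haveI := tower_A₁_A₀₁_A₀₁' D φ
  haveI := tower_A₁_A₁'_A₀₁' D φ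
  haveI := invertible_M₀₁ G
  isoOfBaseChange (homDatum G H) φ (homDatum (G.baseChange φ) (H.baseChange φ))
    (baseChangeSL (R := D.A₀ B) (R' := D.A₀ B') (M := G.M₀) (N := H.M₀))
    (baseChangeSL (R := D.A₁ B) (R' := D.A₁ B') (M := G.M₁) (N := H.M₁))
    (baseChangeSL (R := D.A₀₁ B) (R' := D.A₀₁ B') (M := G.M₀₁) (N := H.M₀₁))
    (fun f => homRes₀_baseChange G H φ f)
    (fun f => homRes₁_baseChange G H φ f)
    slLift_baseChangeSL_bijective
    slLift_baseChangeSL_bijective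
    slLift_baseChangeSL_bijective

theorem homDatum_baseChange_equiv :
    ((homDatum G H).baseChange φ).Equiv (homDatum (G.baseChange φ) (H.baseChange φ)) :=
  ⟨homBaseChangeIso G H φ⟩

@[simp] theorem homBaseChangeIso_e₀_tmul (a : D.A₀ B') (f : G.M₀ →ₗ[D.A₀ B] H.M₀) :
    letI := algA₀ D φ
    (homBaseChangeIso G H φ).e₀ (a ⊗ₜ[D.A₀ B] f) = a • f.baseChange (D.A₀ B') := rfl

@[simp] theorem homBaseChangeIso_e₁_tmul (a : D.A₁ B') (f : G.M₁ →ₗ[D.A₁ B] H.M₁) :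
    letI := algA₁ D φ
    (homBaseChangeIso G H φ).e₁ (a ⊗ₜ[D.A₁ B] f) = a • f.baseChange (D.A₁ B') := rfl

/-- Base change of a morphism of two-chart line bundles. -/
noncomputable def Mor.baseChange {G H : GlueDatum D B} (σ : Mor G H) (φ : B →ₐ[k] B') :
    Mor (G.baseChange φ) (H.baseChange φ) :=
  letI := algA₀ D φ
  letI := algA₁ D φ
  letI := algA₀₁ D φ
  { f₀ := σ.f₀.baseChange (D.A₀ B')
    f₁ := σ.f₁.baseChange (D.A₁ B')
    f₀₁ := σ.f₀₁.baseChange (D.A₀₁ B')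
    comm₀ := fun z => by
      have h := homRes₀_baseChange G H φ σ.f₀
      rw [← σ.f₀₁_eq₀] at h
      exact (congrArg (fun g => g ((G.baseChange φ).ρ₀ z)) h).symm.trans
        (homRes₀_apply (G.baseChange φ) (H.baseChange φ) _ z)
    comm₁ := fun z => by
      have h := homRes₁_baseChange G H φ σ.f₁
      rw [← σ.f₀₁_eq₁] at h
      exact (congrArg (fun g => g ((G.baseChange φ).ρ₁ z)) h).symm.trans
        (homRes₁_apply (G.baseChange φ) (H.baseChange φ) _ z) }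

theorem Mor.baseChange_f₀ {G H : GlueDatum D B} (σ : Mor G H) (φ : B →ₐ[k] B') :
    letI := algA₀ D φ
    (σ.baseChange φ).f₀ = σ.f₀.baseChange (D.A₀ B') := rfl

theorem Mor.baseChange_f₁ {G H : GlueDatum D B} (σ : Mor G H) (φ : B →ₐ[k] B') :
    letI := algA₁ D φ
    (σ.baseChange φ).f₁ = σ.f₁.baseChange (D.A₁ B') := rfl

end HomBaseChange

section Rig

variable (G H : GlueDatum D B)

/-- The Hom datum of two rigidified bundles is rigidified. -/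
theorem homDatum_isRig (hG : G.IsRig) (hH : H.IsRig) : (homDatum G H).IsRig := by
  letI := algE D B
  obtain ⟨rG⟩ := hG
  obtain ⟨rH⟩ := hH
  have hb : Function.Bijective (slLift (S := D.A₁ B) (S' := B) (M := G.M₁ →ₗ[D.A₁ B] H.M₁)
      (M' := B ⊗[D.A₁ B] G.M₁ →ₗ[B] B ⊗[D.A₁ B] H.M₁) baseChangeSL) :=
    slLift_baseChangeSL_bijective
  exact ⟨(LinearEquiv.ofBijective _ hb).trans
    ((LinearEquiv.arrowCongr rG rH).trans (LinearMap.ringLmapEquivSelf B B B))⟩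

end Rig

section Congr

variable {G G' H H' : GlueDatum D B}

/-- The Hom datum is functorial for isomorphisms in both variables. -/
noncomputable def homDatumCongr (e : GlueDatum.Iso G G') (e' : GlueDatum.Iso H H') :
    GlueDatum.Iso (homDatum G H) (homDatum G' H') where
  e₀ := LinearEquiv.arrowCongr e.e₀ e'.e₀
  e₁ := LinearEquiv.arrowCongr e.e₁ e'.e₁
  e₀₁ := LinearEquiv.arrowCongr e.e₀₁ e'.e₀₁
  comm₀ := fun (f : G.M₀ →ₗ[D.A₀ B] H.M₀) => by
    apply ext_ρ₀ G' H'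
    intro m
    have h1 : e.e₀₁.symm (G'.ρ₀ m) = G.ρ₀ (e.e₀.symm m) := e.symm.comm₀ m
    have h2 : homRes₀ G' H' (LinearEquiv.arrowCongr e.e₀ e'.e₀ f) (G'.ρ₀ m) =
        H'.ρ₀ (e'.e₀ (f (e.e₀.symm m))) := homRes₀_apply G' H' _ m
    refine Eq.trans ?_ h2.symm
    show e'.e₀₁ (homRes₀ G H f (e.e₀₁.symm (G'.ρ₀ m))) = _
    rw [h1, homRes₀_apply, e'.comm₀]
  comm₁ := fun (f : G.M₁ →ₗ[D.A₁ B] H.M₁) => by
    apply ext_ρ₁ G' H'
    intro m
    have h1 : e.e₀₁.symm (G'.ρ₁ m) = G.ρ₁ (e.e₁.symm m) := e.symm.comm₁ m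
    have h2 : homRes₁ G' H' (LinearEquiv.arrowCongr e.e₁ e'.e₁ f) (G'.ρ₁ m) =
        H'.ρ₁ (e'.e₁ (f (e.e₁.symm m))) := homRes₁_apply G' H' _ m
    refine Eq.trans ?_ h2.symm
    show e'.e₀₁ (homRes₁ G H f (e.e₀₁.symm (G'.ρ₁ m))) = _
    rw [h1, homRes₁_apply, e'.comm₁]

theorem homDatum_equiv_congr (h : G.Equiv G') (h' : H.Equiv H') :
    (homDatum G H).Equiv (homDatum G' H') :=
  h.elim fun e => h'.elim fun e' => ⟨homDatumCongr e e'⟩

@[simp] theorem homDatumCongr_e₀_apply (e : GlueDatum.Iso G G') (e' : GlueDatum.Iso H H')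
    (f : G.M₀ →ₗ[D.A₀ B] H.M₀) (m : G'.M₀) :
    (show G'.M₀ →ₗ[D.A₀ B] H'.M₀ from (homDatumCongr e e').e₀ f) m = e'.e₀ (f (e.e₀.symm m)) := rfl

@[simp] theorem homDatumCongr_e₁_apply (e : GlueDatum.Iso G G') (e' : GlueDatum.Iso H H')
    (f : G.M₁ →ₗ[D.A₁ B] H.M₁) (m : G'.M₁) :
    (show G'.M₁ →ₗ[D.A₁ B] H'.M₁ from (homDatumCongr e e').e₁ f) m = e'.e₁ (f (e.e₁.symm m)) := rfl

/-- Transport of a morphism along isomorphisms of source and target. -/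
noncomputable def Mor.congr (σ : Mor G H) (e : GlueDatum.Iso G G') (e' : GlueDatum.Iso H H') :
    Mor G' H' :=
  (Mor.ofIso e').comp (σ.comp (Mor.ofIso e.symm))

@[simp] theorem Mor.congr_f₀_apply (σ : Mor G H) (e : GlueDatum.Iso G G')
    (e' : GlueDatum.Iso H H') (m : G'.M₀) :
    (σ.congr e e').f₀ m = e'.e₀ (σ.f₀ (e.e₀.symm m)) := rfl

@[simp] theorem Mor.congr_f₁_apply (σ : Mor G H) (e : GlueDatum.Iso G G')
    (e' : GlueDatum.Iso H H') (m : G'.M₁) :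
    (σ.congr e e').f₁ m = e'.e₁ (σ.f₁ (e.e₁.symm m)) := rfl

end Congr

section UnitHom

variable (G : GlueDatum D B)

/-- `Hom(𝒪, G) ≅ G` (evaluation at `1`). -/
noncomputable def homUnitLeftIso : GlueDatum.Iso (homDatum (GlueDatum.unit D B) G) G where
  e₀ := LinearMap.ringLmapEquivSelf (D.A₀ B) (D.A₀ B) G.M₀
  e₁ := LinearMap.ringLmapEquivSelf (D.A₁ B) (D.A₁ B) G.M₁
  e₀₁ := LinearMap.ringLmapEquivSelf (D.A₀₁ B) (D.A₀₁ B) G.M₀₁
  comm₀ f := by
    have h := homRes₀_apply (GlueDatum.unit D B) G f (1 : D.A₀ B)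
    rw [GlueDatum.unit_ρ₀_apply, map_one] at h
    exact h
  comm₁ f := by
    have h := homRes₁_apply (GlueDatum.unit D B) G f (1 : D.A₁ B)
    rw [GlueDatum.unit_ρ₁_apply, map_one] at h
    exact h

theorem homDatum_unit_left_equiv : (homDatum (GlueDatum.unit D B) G).Equiv G :=
  ⟨homUnitLeftIso G⟩

@[simp] theorem homUnitLeftIso_e₀_apply (f : D.A₀ B →ₗ[D.A₀ B] G.M₀) :
    (homUnitLeftIso G).e₀ f = f 1 := rfl

@[simp] theorem homUnitLeftIso_e₁_apply (f : D.A₁ B →ₗ[D.A₁ B] G.M₁) :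
    (homUnitLeftIso G).e₁ f = f 1 := rfl

end UnitHom

section UnitEnd

variable (G : GlueDatum D B)

theorem homRes₀_id : homRes₀ G G LinearMap.id = LinearMap.id :=
  ext_ρ₀ G G fun m => homRes₀_apply G G _ m

theorem homRes₁_id : homRes₁ G G LinearMap.id = LinearMap.id :=
  ext_ρ₁ G G fun m => homRes₁_apply G G _ m

theorem toSpanSingleton_id_comm₀ (a : D.A₀ B) :
    LinearMap.toSpanSingleton (D.A₀₁ B) (G.M₀₁ →ₗ[D.A₀₁ B] G.M₀₁) LinearMap.id
        (algebraMap (D.A₀ B) (D.A₀₁ B) a) =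
      homRes₀ G G (LinearMap.toSpanSingleton (D.A₀ B) (G.M₀ →ₗ[D.A₀ B] G.M₀) LinearMap.id a) := by
  rw [LinearMap.toSpanSingleton_apply, LinearMap.toSpanSingleton_apply, map_smul, homRes₀_id,
    algebraMap_smul]

theorem toSpanSingleton_id_comm₁ (a : D.A₁ B) :
    LinearMap.toSpanSingleton (D.A₀₁ B) (G.M₀₁ →ₗ[D.A₀₁ B] G.M₀₁) LinearMap.id
        (algebraMap (D.A₁ B) (D.A₀₁ B) a) =
      homRes₁ G G (LinearMap.toSpanSingleton (D.A₁ B) (G.M₁ →ₗ[D.A₁ B] G.M₁) LinearMap.id a) := by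
  rw [LinearMap.toSpanSingleton_apply, LinearMap.toSpanSingleton_apply, map_smul, homRes₁_id,
    algebraMap_smul]

/-- The morphism `𝒪 → Hom(G, G)`, `a ↦ a • id`. -/
noncomputable def unitEndMor : Mor (GlueDatum.unit D B) (homDatum G G) where
  f₀ := LinearMap.toSpanSingleton (D.A₀ B) (G.M₀ →ₗ[D.A₀ B] G.M₀) LinearMap.id
  f₁ := LinearMap.toSpanSingleton (D.A₁ B) (G.M₁ →ₗ[D.A₁ B] G.M₁) LinearMap.id
  f₀₁ := LinearMap.toSpanSingleton (D.A₀₁ B) (G.M₀₁ →ₗ[D.A₀₁ B] G.M₀₁) LinearMap.id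
  comm₀ := toSpanSingleton_id_comm₀ G
  comm₁ := toSpanSingleton_id_comm₁ G

/-- `𝒪 ≅ Hom(G, G)`. -/
noncomputable def unitEndIso : GlueDatum.Iso (GlueDatum.unit D B) (homDatum G G) :=
  (unitEndMor G).isoOfSurjective toSpanSingleton_id_surjective toSpanSingleton_id_surjective

theorem homDatum_self_equiv : (homDatum G G).Equiv (GlueDatum.unit D B) :=
  ⟨(unitEndIso G).symm⟩

theorem unitEndIso_e₀_apply (a : D.A₀ B) (m : G.M₀) :
    (show G.M₀ →ₗ[D.A₀ B] G.M₀ from (unitEndIso G).e₀ a) m = a • m := rfl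

theorem unitEndIso_e₁_apply (a : D.A₁ B) (m : G.M₁) :
    (show G.M₁ →ₗ[D.A₁ B] G.M₁ from (unitEndIso G).e₁ a) m = a • m := rfl

end UnitEnd

end Fermat.Agent.S25.helper1397
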