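import Mathlib
import Fermat.Agent.S25.helper1705_Curve

/-!
# S25, leaf U2 (field case), part a/b: global sections of the unit datum (helper3610)

For a `CurveDatum k` over an algebraically closed field `k` (two affine charts `R₀`, `R₁` of a
smooth proper curve, glued along `R₀₁ = R₀[1/x] = R₁[1/y]`, `x * y = 1`):

* `inter_eq_bot`: `R₀ ∩ R₁ = k` inside `R₀₁`;
* `unit_sections`: universally, `(R₀ ⊗ B) ∩ (R₁ ⊗ B) = B` inside `R₀₁ ⊗ B` for every `k`-algebra `B`
  (`H⁰` of the unit gluing datum over `B` is `B`).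

The key lemma `isIntegral_of_isIntegralElem_aeval_of_mul_eq_one` is pure algebra: an element of a
domain `L ⊇ k` that is integral over `k[ξ]` and over `k[ξ⁻¹]` is integral over `k`
(valuation rings of `Frac L` containing `k` contain `ξ` or `ξ⁻¹`).
-/

set_option autoImplicit false

universe u

open scoped TensorProduct
open Polynomial

namespace Fermat.Agent.S25.helper3610

open Fermat.Agent.S25.helper1705

section Key

variable {k L : Type*} [Field k] [CommRing L] [IsDomain L] [Algebra k L]

/-- Auxiliary: if `ξ` lies in a valuation subring `V ⊇ k` of a field `K ⊇ k` and `f` is integral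
over `k[ξ]` (via `aeval ξ`), then `f ∈ V`. -/
theorem mem_valuationSubring_of_isIntegralElem_aeval {K : Type*} [Field K] [Algebra k K]
    (V : ValuationSubring K) (hk : ∀ c : k, algebraMap k K c ∈ V) (ξ f : K) (hξ : ξ ∈ V)
    (hf : (Polynomial.aeval ξ : k[X] →ₐ[k] K).toRingHom.IsIntegralElem f) : f ∈ V := by
  obtain ⟨p, hp, hpf⟩ := hf
  let c : k →+* V := (algebraMap k K).codRestrict V.toSubring hk
  let φ : k[X] →+* V := Polynomial.eval₂RingHom c ⟨ξ, hξ⟩
  have hφ : (algebraMap V K).comp φ = (Polynomial.aeval ξ : k[X] →ₐ[k] K).toRingHom := by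
    apply Polynomial.ringHom_ext
    · intro a
      simp [φ, c]
    · simp [φ]
  have hint : IsIntegral V f := by
    refine ⟨p.map φ, hp.map φ, ?_⟩
    rw [Polynomial.eval₂_map, hφ]
    exact hpf
  obtain ⟨y, hy⟩ := (IsIntegrallyClosed.isIntegral_iff (R := V) (K := K)).mp hint
  rw [← hy]
  exact y.2

/-- **Key lemma.** In a domain `L` containing a field `k`, an element that is integral over
`k[ξ]` and over `k[η]` with `ξ * η = 1` is integral over `k`. -/
theorem isIntegral_of_isIntegralElem_aeval_of_mul_eq_one (ξ η f : L) (h : ξ * η = 1)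
    (h0 : (Polynomial.aeval ξ : k[X] →ₐ[k] L).toRingHom.IsIntegralElem f)
    (h1 : (Polynomial.aeval η : k[X] →ₐ[k] L).toRingHom.IsIntegralElem f) : IsIntegral k f := by
  let K := FractionRing L
  let ι : L →ₐ[k] K := IsScalarTower.toAlgHom k L K
  have hι : Function.Injective ι := IsFractionRing.injective L K
  rw [← isIntegral_algHom_iff ι hι]
  by_contra hcon
  have hclosed : IsIntegrallyClosedIn (integralClosure k K).toSubring K :=
    inferInstanceAs (IsIntegrallyClosedIn (integralClosure k K) K)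
  have hnot : ι f ∉ (integralClosure k K).toSubring := hcon
  obtain ⟨V, hV, hfV⟩ := Subring.exists_le_valuationSubring_of_isIntegrallyClosedIn hnot
  have hk : ∀ c : k, algebraMap k K c ∈ V := fun c => hV (isIntegral_algebraMap (R := k) (A := K))
  have key : ∀ ζ : L, ι ζ ∈ V →
      (Polynomial.aeval ζ : k[X] →ₐ[k] L).toRingHom.IsIntegralElem f → ι f ∈ V := by
    intro ζ hζ hf
    refine mem_valuationSubring_of_isIntegralElem_aeval V hk (ι ζ) (ι f) hζ ?_
    obtain ⟨p, hp, hpf⟩ := hf
    refine ⟨p, hp, ?_⟩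
    have e : (Polynomial.aeval (ι ζ) : k[X] →ₐ[k] K).toRingHom
        = (ι : L →+* K).comp (Polynomial.aeval ζ : k[X] →ₐ[k] L).toRingHom := by
      apply Polynomial.ringHom_ext
      · intro a
        simp
      · simp
    rw [e]
    have := Polynomial.hom_eval₂ p (Polynomial.aeval ζ : k[X] →ₐ[k] L).toRingHom (ι : L →+* K) f
    rw [hpf, map_zero] at this
    exact this.symm
  have hinv : (ι ξ)⁻¹ = ι η := by
    have : ι ξ * ι η = 1 := by rw [← map_mul, h, map_one]
    exact inv_eq_of_mul_eq_one_right this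
  rcases V.mem_or_inv_mem (ι ξ) with hξ | hξ
  · exact hfV (key ξ hξ h0)
  · rw [hinv] at hξ
    exact hfV (key η hξ h1)

/-- Over an algebraically closed field, an integral element of a domain is a scalar. -/
theorem exists_algebraMap_eq_of_isIntegral [IsAlgClosed k] {f : L} (hf : IsIntegral k f) :
    ∃ c : k, algebraMap k L c = f := by
  have h : (minpoly k f).degree = 1 :=
    IsAlgClosed.degree_eq_one_of_irreducible k (minpoly.irreducible hf)
  exact minpoly.mem_range_of_degree_eq_one k f h

end Key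

section Datum

variable {k : Type u} [Field k] [IsAlgClosed k] (D : CurveDatum k)

/-- `x` is not a scalar: otherwise `R₀ = k` and `Ω[R₀⁄k] = 0` would not be invertible. -/
theorem x_not_mem_range : D.x ∉ Set.range (algebraMap k D.R₀) := by
  rintro ⟨c, hc⟩
  have e : (Polynomial.aeval D.x : k[X] →ₐ[k] D.R₀).toRingHom
      = (algebraMap k D.R₀).comp (Polynomial.evalRingHom c) := by
    apply Polynomial.ringHom_ext
    · intro a
      simp
    · simp [hc]
  have hint : ∀ r : D.R₀, IsIntegral k r := by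
    intro r
    obtain ⟨p, hp, hpr⟩ := D.finite₀.to_isIntegral r
    refine ⟨p.map (Polynomial.evalRingHom c), hp.map _, ?_⟩
    rw [Polynomial.eval₂_map, ← e]
    exact hpr
  have hsurj : ∀ r : D.R₀, ∃ c : k, algebraMap k D.R₀ c = r :=
    fun r => exists_algebraMap_eq_of_isIntegral (hint r)
  have hΩ : Subsingleton (Ω[D.R₀⁄k]) := by
    rw [← Submodule.subsingleton_iff D.R₀]
    apply subsingleton_of_bot_eq_top
    rw [← KaehlerDifferential.span_range_derivation k D.R₀, eq_comm, Submodule.span_eq_bot]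
    rintro _ ⟨r, rfl⟩
    obtain ⟨c, rfl⟩ := hsurj r
    exact Derivation.map_algebraMap _ c
  have h10 : (1 : D.R₀) = 0 :=
    FaithfulSMul.eq_of_smul_eq_smul (α := Ω[D.R₀⁄k]) (fun m => Subsingleton.elim _ _)
  exact one_ne_zero h10

theorem x_ne_zero : D.x ≠ 0 := fun h => x_not_mem_range D ⟨0, by rw [map_zero, h]⟩

theorem x_transcendental : Transcendental k D.x := by
  intro halg
  obtain ⟨c, hc⟩ := exists_algebraMap_eq_of_isIntegral halg.isIntegral
  exact x_not_mem_range D ⟨c, hc⟩

/-- The overlap ring is a domain. -/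
theorem isDomain₀₁ : IsDomain D.R₀₁ :=
  IsLocalization.isDomain_of_le_nonZeroDivisors D.R₀₁ (M := Submonoid.powers D.x)
    (powers_le_nonZeroDivisors_of_noZeroDivisors (x_ne_zero D))

theorem algebraMap₀_injective : Function.Injective (algebraMap D.R₀ D.R₀₁) :=
  IsLocalization.injective D.R₀₁ (M := Submonoid.powers D.x)
    (powers_le_nonZeroDivisors_of_noZeroDivisors (x_ne_zero D))

theorem y_ne_zero : D.y ≠ 0 := by
  intro hy
  have := isDomain₀₁ D
  have h := D.xy
  rw [hy, map_zero, mul_zero] at h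
  exact zero_ne_one h

theorem algebraMap₁_injective : Function.Injective (algebraMap D.R₁ D.R₀₁) :=
  IsLocalization.injective D.R₀₁ (M := Submonoid.powers D.y)
    (powers_le_nonZeroDivisors_of_noZeroDivisors (y_ne_zero D))

theorem y_not_mem_range : D.y ∉ Set.range (algebraMap k D.R₁) := by
  rintro ⟨c, hc⟩
  have hc0 : c ≠ 0 := by
    rintro rfl
    exact y_ne_zero D (by rw [← hc, map_zero])
  apply x_not_mem_range D
  refine ⟨c⁻¹, algebraMap₀_injective D ?_⟩
  have h := D.xy
  rw [← hc, ← IsScalarTower.algebraMap_apply k D.R₁ D.R₀₁] at h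
  rw [← IsScalarTower.algebraMap_apply k D.R₀ D.R₀₁]
  have h2 : algebraMap k D.R₀₁ c * algebraMap k D.R₀₁ c⁻¹ = 1 := by
    rw [← map_mul, mul_inv_cancel₀ hc0, map_one]
  calc algebraMap k D.R₀₁ c⁻¹
      = (algebraMap D.R₀ D.R₀₁ D.x * algebraMap k D.R₀₁ c) * algebraMap k D.R₀₁ c⁻¹ := by
        rw [h, one_mul]
    _ = algebraMap D.R₀ D.R₀₁ D.x := by rw [mul_assoc, h2, mul_one]

theorem y_transcendental : Transcendental k D.y := by
  intro halg
  obtain ⟨c, hc⟩ := exists_algebraMap_eq_of_isIntegral halg.isIntegral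
  exact y_not_mem_range D ⟨c, hc⟩

/-- **U2a.** Global sections of the curve: `R₀ ∩ R₁ = k` inside `R₀₁`. -/
theorem inter_eq_bot (f0 : D.R₀) (f1 : D.R₁)
    (h : algebraMap D.R₀ D.R₀₁ f0 = algebraMap D.R₁ D.R₀₁ f1) :
    ∃ c : k, f0 = algebraMap k D.R₀ c ∧ f1 = algebraMap k D.R₁ c := by
  have := isDomain₀₁ D
  have e0 : (Polynomial.aeval (algebraMap D.R₀ D.R₀₁ D.x) : k[X] →ₐ[k] D.R₀₁).toRingHom
      = (algebraMap D.R₀ D.R₀₁).comp (Polynomial.aeval D.x : k[X] →ₐ[k] D.R₀).toRingHom := by
    apply Polynomial.ringHom_ext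
    · intro a
      simp [← IsScalarTower.algebraMap_apply]
    · simp
  have e1 : (Polynomial.aeval (algebraMap D.R₁ D.R₀₁ D.y) : k[X] →ₐ[k] D.R₀₁).toRingHom
      = (algebraMap D.R₁ D.R₀₁).comp (Polynomial.aeval D.y : k[X] →ₐ[k] D.R₁).toRingHom := by
    apply Polynomial.ringHom_ext
    · intro a
      simp [← IsScalarTower.algebraMap_apply]
    · simp
  have h0 : (Polynomial.aeval (algebraMap D.R₀ D.R₀₁ D.x) : k[X] →ₐ[k] D.R₀₁).toRingHom.IsIntegralElem
      (algebraMap D.R₀ D.R₀₁ f0) := by
    obtain ⟨p, hp, hpr⟩ := D.finite₀.to_isIntegral f0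
    refine ⟨p, hp, ?_⟩
    rw [e0]
    have := Polynomial.hom_eval₂ p (Polynomial.aeval D.x : k[X] →ₐ[k] D.R₀).toRingHom
      (algebraMap D.R₀ D.R₀₁) f0
    rw [hpr, map_zero] at this
    exact this.symm
  have h1 : (Polynomial.aeval (algebraMap D.R₁ D.R₀₁ D.y) : k[X] →ₐ[k] D.R₀₁).toRingHom.IsIntegralElem
      (algebraMap D.R₀ D.R₀₁ f0) := by
    rw [h]
    obtain ⟨p, hp, hpr⟩ := D.finite₁.to_isIntegral f1
    refine ⟨p, hp, ?_⟩
    rw [e1]
    have := Polynomial.hom_eval₂ p (Polynomial.aeval D.y : k[X] →ₐ[k] D.R₁).toRingHom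
      (algebraMap D.R₁ D.R₀₁) f1
    rw [hpr, map_zero] at this
    exact this.symm
  obtain ⟨c, hc⟩ := exists_algebraMap_eq_of_isIntegral
    (isIntegral_of_isIntegralElem_aeval_of_mul_eq_one _ _ _ D.xy h0 h1)
  refine ⟨c, algebraMap₀_injective D ?_, algebraMap₁_injective D ?_⟩
  · rw [← IsScalarTower.algebraMap_apply]
    exact hc.symm
  · rw [← IsScalarTower.algebraMap_apply, ← h]
    exact hc.symm

end Datum

section Universal

variable {k : Type u} [Field k] (D : CurveDatum k)
variable (B : Type u) [CommRing B] [Algebra k B]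

/-- Coordinates (w.r.t. a `k`-basis of `B`) commute with restriction to the overlap. -/
theorem coeff_res₀ {ι : Type*} [DecidableEq ι] (ℬ : Module.Basis ι k B) (a : D.A₀ B) (i : ι) :
    TensorProduct.equivFinsuppOfBasisRight ℬ (D.res₀ B a) i
      = algebraMap D.R₀ D.R₀₁ (TensorProduct.equivFinsuppOfBasisRight ℬ a i) := by
  induction a using TensorProduct.induction_on with
  | zero => simp
  | tmul r b =>
    rw [Algebra.TensorProduct.map_tmul, TensorProduct.equivFinsuppOfBasisRight_apply_tmul_apply,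
      TensorProduct.equivFinsuppOfBasisRight_apply_tmul_apply,
      ← IsScalarTower.toAlgHom_apply k D.R₀ D.R₀₁ (_ • r), map_smul]
    rfl
  | add a b ha hb => simp only [map_add, Finsupp.add_apply, ha, hb]

theorem coeff_res₁ {ι : Type*} [DecidableEq ι] (ℬ : Module.Basis ι k B) (a : D.A₁ B) (i : ι) :
    TensorProduct.equivFinsuppOfBasisRight ℬ (D.res₁ B a) i
      = algebraMap D.R₁ D.R₀₁ (TensorProduct.equivFinsuppOfBasisRight ℬ a i) := by
  induction a using TensorProduct.induction_on with
  | zero => simp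
  | tmul r b =>
    rw [Algebra.TensorProduct.map_tmul, TensorProduct.equivFinsuppOfBasisRight_apply_tmul_apply,
      TensorProduct.equivFinsuppOfBasisRight_apply_tmul_apply,
      ← IsScalarTower.toAlgHom_apply k D.R₁ D.R₀₁ (_ • r), map_smul]
    rfl
  | add a b ha hb => simp only [map_add, Finsupp.add_apply, ha, hb]

theorem coeff_eB {ι : Type*} [DecidableEq ι] (ℬ : Module.Basis ι k B) (a : D.A₁ B) (i : ι) :
    ℬ.repr (D.eB B a) i = D.e (TensorProduct.equivFinsuppOfBasisRight ℬ a i) := by
  induction a using TensorProduct.induction_on with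
  | zero => simp
  | tmul r b =>
    rw [Algebra.TensorProduct.lift_tmul, TensorProduct.equivFinsuppOfBasisRight_apply_tmul_apply]
    simp only [AlgHom.coe_comp, Function.comp_apply, Algebra.ofId_apply, AlgHom.coe_id, id_eq,
      map_smul, smul_eq_mul]
    rw [← Algebra.smul_def, map_smul, Finsupp.smul_apply, smul_eq_mul, mul_comm]
  | add a b ha hb => simp only [map_add, Finsupp.add_apply, ha, hb]

/-- `b ↦ 1 ⊗ b` is injective into the first chart. -/
theorem one_tmul_injective₀ : Function.Injective (fun b : B => (1 : D.R₀) ⊗ₜ[k] b) := by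
  classical
  intro b b' h
  apply (Module.Free.chooseBasis k B).repr.injective
  ext i
  have := congrArg (fun z => TensorProduct.equivFinsuppOfBasisRight (Module.Free.chooseBasis k B) z i) h
  simp only [TensorProduct.equivFinsuppOfBasisRight_apply_tmul_apply, Algebra.smul_def, mul_one] at this
  exact (algebraMap k D.R₀).injective this

/-- `b ↦ 1 ⊗ b` is injective into the second chart. -/
theorem one_tmul_injective₁ : Function.Injective (fun b : B => (1 : D.R₁) ⊗ₜ[k] b) := by
  classical
  intro b b' h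
  apply (Module.Free.chooseBasis k B).repr.injective
  ext i
  have := congrArg (fun z => TensorProduct.equivFinsuppOfBasisRight (Module.Free.chooseBasis k B) z i) h
  simp only [TensorProduct.equivFinsuppOfBasisRight_apply_tmul_apply, Algebra.smul_def, mul_one] at this
  exact (algebraMap k D.R₁).injective this

variable [IsAlgClosed k]

/-- Restriction from the first chart to the overlap is injective, universally. -/
theorem res₀_injective : Function.Injective (D.res₀ B) := by
  classical
  intro a a' h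
  apply (TensorProduct.equivFinsuppOfBasisRight (Module.Free.chooseBasis k B)).injective
  ext i
  apply algebraMap₀_injective D
  rw [← coeff_res₀, ← coeff_res₀, h]

/-- Restriction from the second chart to the overlap is injective, universally. -/
theorem res₁_injective : Function.Injective (D.res₁ B) := by
  classical
  intro a a' h
  apply (TensorProduct.equivFinsuppOfBasisRight (Module.Free.chooseBasis k B)).injective
  ext i
  apply algebraMap₁_injective D
  rw [← coeff_res₁, ← coeff_res₁, h]

/-- **U2b.** `H⁰` of the unit datum over any `k`-algebra `B` is `B`: a pair of sections on the two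
charts of `C ×ₖ Spec B` agreeing on the overlap is the constant `b = ε^*(a1) ∈ B`. -/
theorem unit_sections_eB (a0 : D.A₀ B) (a1 : D.A₁ B) (h : D.res₀ B a0 = D.res₁ B a1) :
    a0 = 1 ⊗ₜ[k] (D.eB B a1) ∧ a1 = 1 ⊗ₜ[k] (D.eB B a1) := by
  classical
  let ℬ := Module.Free.chooseBasis k B
  have hcoef : ∀ i, ∃ c : k,
      TensorProduct.equivFinsuppOfBasisRight ℬ a0 i = algebraMap k D.R₀ c ∧
      TensorProduct.equivFinsuppOfBasisRight ℬ a1 i = algebraMap k D.R₁ c := fun i =>
    inter_eq_bot D _ _ (by rw [← coeff_res₀, ← coeff_res₁, h])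
  constructor
  · apply (TensorProduct.equivFinsuppOfBasisRight ℬ).injective
    ext i
    rw [TensorProduct.equivFinsuppOfBasisRight_apply_tmul_apply, coeff_eB]
    obtain ⟨c, h0, h1⟩ := hcoef i
    rw [h0, h1]
    simp [Algebra.smul_def]
  · apply (TensorProduct.equivFinsuppOfBasisRight ℬ).injective
    ext i
    rw [TensorProduct.equivFinsuppOfBasisRight_apply_tmul_apply, coeff_eB]
    obtain ⟨c, h0, h1⟩ := hcoef i
    rw [h1]
    simp [Algebra.smul_def]

/-- **U2b**, existential form. -/
theorem unit_sections (a0 : D.A₀ B) (a1 : D.A₁ B) (h : D.res₀ B a0 = D.res₁ B a1) :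
    ∃ b : B, a0 = 1 ⊗ₜ[k] b ∧ a1 = 1 ⊗ₜ[k] b :=
  ⟨_, unit_sections_eB D B a0 a1 h⟩

end Universal

end Fermat.Agent.S25.helper3610
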