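import Fermat.Agent.S25.helper2945_AlgDefs
import Fermat.Agent.S25.helper7215_FieldCase
import Fermat.Agent.Lib.helper9007_TensorDomain
import Fermat.Agent.S25.helper1800_CurveDatumBasics
import Fermat.Agent.S25.helper6786_CurveBase
import Fermat.Agent.S25.helper3610_UnitSections
import Fermat.Agent.S25.helper743_AlgApi
import Fermat.Agent.S25.helper8573_LCSpec

/-!
# S25, leaf U2b (field case of the degree theory) in `GlueDatum` vocabulary

Adapter of `helper7215_FieldCase` to `helper2945.GlueDatum D K` for a field `K` over an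
algebraically closed field `k`.

* `glue_hom_chi`: a nonzero morphism `(ψ₀, ψ₁, ψ₀₁) : G → G'` is injective, `G.chi ≤ G'.chi`,
  the chart cokernels have dimension `≤ G'.chi - G.chi`, and `G'.chi ≤ G.chi` makes all three
  maps bijective.
* `glue_equiv_of_hom`: ... hence `G.Equiv G'`.
* `glue_unit_equiv_of_section`: a nonzero section of `G` with `G.chi ≤ (unit D K).chi` gives
  `(unit D K).Equiv G`.
* `glue_H0_eq_bot_of_chi_lt`, `glue_finrank_H0_le_one`, `glue_chi_le_finrank_H0`.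

Finite-dimensionality of `H0`, `H1` enters as instance hypotheses.
-/

set_option autoImplicit false

open TensorProduct Module

namespace Fermat.Agent.S25.helper7215

open Fermat.Agent.S25.helper1705 Fermat.Agent.S25.helper2945

universe u

section FieldGlue

variable {k : Type u} [Field k] [IsAlgClosed k] (D : CurveDatum k)
  (K : Type u) [Field K] [Algebra k K]

/-- The first chart ring over a field is a domain. -/
theorem isDomain_A₀ : IsDomain (D.A₀ K) :=
  Fermat.Agent.Lib.helper9007.isDomain_tensorProduct_field k D.R₀ K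

/-- The second chart ring over a field is a domain. -/
theorem isDomain_A₁ : IsDomain (D.A₁ K) :=
  Fermat.Agent.Lib.helper9007.isDomain_tensorProduct_field k D.R₁ K

/-- The overlap ring over a field is a domain. -/
theorem isDomain_A₀₁ : IsDomain (D.A₀₁ K) :=
  haveI := helper1800.isDomain₀₁ D
  Fermat.Agent.Lib.helper9007.isDomain_tensorProduct_field k D.R₀₁ K

omit [IsAlgClosed k] in
/-- `D.A₀ K` is finite over `K[X]` via `X ↦ xB`. -/
theorem finite_aeval_xK :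
    (Polynomial.aeval (xB D K) : Polynomial K →ₐ[K] D.A₀ K).toRingHom.Finite :=
  helper6786.CurveBase.finite_aeval_tmul K D.x D.finite₀

omit [IsAlgClosed k] in
/-- `D.A₁ K` is finite over `K[X]` via `X ↦ yB`. -/
theorem finite_aeval_yK :
    (Polynomial.aeval (yB D K) : Polynomial K →ₐ[K] D.A₁ K).toRingHom.Finite :=
  helper6786.CurveBase.finite_aeval_tmul K D.y D.finite₁

variable {D K}

omit [IsAlgClosed k] in
/-- `GlueDatum.chi` is the `chi` of `helper7215_FieldCase`. -/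
theorem glue_chi_eq (G : GlueDatum D K) : G.chi = chi K G.ρ₀ G.ρ₁ := rfl

/-- **Morphisms of two-chart line bundles over a field.** A nonzero morphism
`(ψ₀, ψ₁, ψ₀₁) : G → G'` is injective with finite-dimensional chart cokernels of dimension
`≤ G'.chi - G.chi`; in particular `G.chi ≤ G'.chi`, and `G'.chi ≤ G.chi` forces the three maps
to be bijective. -/
theorem glue_hom_chi (G G' : GlueDatum D K)
    [hG0 : FiniteDimensional K G.H0] [hG1 : FiniteDimensional K G.H1]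
    [hG0' : FiniteDimensional K G'.H0] [hG1' : FiniteDimensional K G'.H1]
    (ψ₀ : G.M₀ →ₗ[D.A₀ K] G'.M₀) (ψ₁ : G.M₁ →ₗ[D.A₁ K] G'.M₁)
    (ψ₀₁ : G.M₀₁ →ₗ[D.A₀₁ K] G'.M₀₁)
    (h₀ : ∀ m, G'.ρ₀ (ψ₀ m) = ψ₀₁ (G.ρ₀ m)) (h₁ : ∀ m, G'.ρ₁ (ψ₁ m) = ψ₀₁ (G.ρ₁ m))
    (hψ : ψ₀ ≠ 0) :
    Function.Injective ψ₀ ∧ Function.Injective ψ₁ ∧ Function.Injective ψ₀₁ ∧
    Module.Finite K (G'.M₀ ⧸ LinearMap.range ψ₀) ∧
    Module.Finite K (G'.M₁ ⧸ LinearMap.range ψ₁) ∧
    (finrank K (G'.M₀ ⧸ LinearMap.range ψ₀) : ℤ) ≤ G'.chi - G.chi ∧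
    (finrank K (G'.M₁ ⧸ LinearMap.range ψ₁) : ℤ) ≤ G'.chi - G.chi ∧
    G.chi ≤ G'.chi ∧
    (G'.chi ≤ G.chi →
      Function.Bijective ψ₀ ∧ Function.Bijective ψ₁ ∧ Function.Bijective ψ₀₁) := by
  have := isDomain_A₀ D K
  have := isDomain_A₁ D K
  have := isDomain_A₀₁ D K
  have : FiniteDimensional K (LinearMap.ker
      (cechDiff (G.ρ₀.restrictScalars K) (G.ρ₁.restrictScalars K))) := hG0
  have : FiniteDimensional K (G.M₀₁ ⧸ LinearMap.range
      (cechDiff (G.ρ₀.restrictScalars K) (G.ρ₁.restrictScalars K))) := hG1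
  have : FiniteDimensional K (LinearMap.ker
      (cechDiff (G'.ρ₀.restrictScalars K) (G'.ρ₁.restrictScalars K))) := hG0'
  have : FiniteDimensional K (G'.M₀₁ ⧸ LinearMap.range
      (cechDiff (G'.ρ₀.restrictScalars K) (G'.ρ₁.restrictScalars K))) := hG1'
  exact hom_index (K := K) (xB D K) (yB D K) (finite_aeval_xK D K) (finite_aeval_yK D K)
    G.ρ₀ G.ρ₁ G'.ρ₀ G'.ρ₁ ψ₀ ψ₁ ψ₀₁ h₀ h₁ hψ

/-- A nonzero morphism `G → G'` with `G'.chi ≤ G.chi` is an isomorphism. -/
theorem glue_equiv_of_hom (G G' : GlueDatum D K)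
    [FiniteDimensional K G.H0] [FiniteDimensional K G.H1]
    [FiniteDimensional K G'.H0] [FiniteDimensional K G'.H1]
    (ψ₀ : G.M₀ →ₗ[D.A₀ K] G'.M₀) (ψ₁ : G.M₁ →ₗ[D.A₁ K] G'.M₁)
    (ψ₀₁ : G.M₀₁ →ₗ[D.A₀₁ K] G'.M₀₁)
    (h₀ : ∀ m, G'.ρ₀ (ψ₀ m) = ψ₀₁ (G.ρ₀ m)) (h₁ : ∀ m, G'.ρ₁ (ψ₁ m) = ψ₀₁ (G.ρ₁ m))
    (hψ : ψ₀ ≠ 0) (hchi : G'.chi ≤ G.chi) : G.Equiv G' := by
  obtain ⟨-, -, -, -, -, -, -, -, hbij⟩ := glue_hom_chi G G' ψ₀ ψ₁ ψ₀₁ h₀ h₁ hψ
  obtain ⟨b₀, b₁, b₀₁⟩ := hbij hchi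
  exact ⟨{ e₀ := LinearEquiv.ofBijective ψ₀ b₀
           e₁ := LinearEquiv.ofBijective ψ₁ b₁
           e₀₁ := LinearEquiv.ofBijective ψ₀₁ b₀₁
           comm₀ := fun m => (h₀ m).symm
           comm₁ := fun m => (h₁ m).symm }⟩

/-- `helper8573.Mor` form: a nonzero morphism does not decrease `χ`. -/
theorem glue_mor_chi_le (G G' : GlueDatum D K)
    [FiniteDimensional K G.H0] [FiniteDimensional K G.H1]
    [FiniteDimensional K G'.H0] [FiniteDimensional K G'.H1]
    (σ : helper8573.Mor G G') (hσ : σ.f₀ ≠ 0) : G.chi ≤ G'.chi :=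
  (glue_hom_chi G G' σ.f₀ σ.f₁ σ.f₀₁ (fun m => (σ.comm₀ m).symm) (fun m => (σ.comm₁ m).symm)
    hσ).2.2.2.2.2.2.2.1

/-- `helper8573.Mor` form: a nonzero morphism `G → G'` with `G'.chi ≤ G.chi` is an
isomorphism. -/
theorem glue_equiv_of_mor (G G' : GlueDatum D K)
    [FiniteDimensional K G.H0] [FiniteDimensional K G.H1]
    [FiniteDimensional K G'.H0] [FiniteDimensional K G'.H1]
    (σ : helper8573.Mor G G') (hσ : σ.f₀ ≠ 0) (hchi : G'.chi ≤ G.chi) : G.Equiv G' :=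
  glue_equiv_of_hom G G' σ.f₀ σ.f₁ σ.f₀₁ (fun m => (σ.comm₀ m).symm)
    (fun m => (σ.comm₁ m).symm) hσ hchi

omit [IsAlgClosed k] in
/-- Riemann's inequality `χ ≤ h⁰`. -/
theorem glue_chi_le_finrank_H0 (G : GlueDatum D K) : G.chi ≤ (finrank K G.H0 : ℤ) := by
  unfold GlueDatum.chi
  omega

/-! ### Sections -/

/-- The morphism `unit → G` given by a section `(a, b)` of `G`: chart `0`. -/
noncomputable def secMap₀ (G : GlueDatum D K) (a : G.M₀) :
    (GlueDatum.unit D K).M₀ →ₗ[D.A₀ K] G.M₀ :=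
  LinearMap.toSpanSingleton (D.A₀ K) G.M₀ a

/-- The morphism `unit → G` given by a section `(a, b)` of `G`: chart `1`. -/
noncomputable def secMap₁ (G : GlueDatum D K) (b : G.M₁) :
    (GlueDatum.unit D K).M₁ →ₗ[D.A₁ K] G.M₁ :=
  LinearMap.toSpanSingleton (D.A₁ K) G.M₁ b

/-- The morphism `unit → G` given by a section `(a, b)` of `G`: overlap. -/
noncomputable def secMap₀₁ (G : GlueDatum D K) (c : G.M₀₁) :
    (GlueDatum.unit D K).M₀₁ →ₗ[D.A₀₁ K] G.M₀₁ :=
  LinearMap.toSpanSingleton (D.A₀₁ K) G.M₀₁ c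

omit [IsAlgClosed k] in
@[simp] theorem secMap₀_apply (G : GlueDatum D K) (a : G.M₀) (r : D.A₀ K) :
    secMap₀ G a r = r • a := rfl

omit [IsAlgClosed k] in
@[simp] theorem secMap₁_apply (G : GlueDatum D K) (b : G.M₁) (r : D.A₁ K) :
    secMap₁ G b r = r • b := rfl

omit [IsAlgClosed k] in
@[simp] theorem secMap₀₁_apply (G : GlueDatum D K) (c : G.M₀₁) (r : D.A₀₁ K) :
    secMap₀₁ G c r = r • c := rfl

omit [IsAlgClosed k] in
theorem secMap_comm₀ (G : GlueDatum D K) (a : G.M₀) (r : D.A₀ K) :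
    G.ρ₀ (secMap₀ G a r) = secMap₀₁ G (G.ρ₀ a) ((GlueDatum.unit D K).ρ₀ r) := by
  change G.ρ₀ (r • a) = algebraMap (D.A₀ K) (D.A₀₁ K) r • G.ρ₀ a
  rw [map_smul, algebraMap_smul]

omit [IsAlgClosed k] in
theorem secMap_comm₁ (G : GlueDatum D K) (a : G.M₀) (b : G.M₁) (hab : G.ρ₀ a = G.ρ₁ b)
    (r : D.A₁ K) :
    G.ρ₁ (secMap₁ G b r) = secMap₀₁ G (G.ρ₀ a) ((GlueDatum.unit D K).ρ₁ r) := by
  change G.ρ₁ (r • b) = algebraMap (D.A₁ K) (D.A₀₁ K) r • G.ρ₀ a
  rw [map_smul, algebraMap_smul, hab]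

omit [IsAlgClosed k] in
theorem secMap₀_ne_zero (G : GlueDatum D K) (a : G.M₀) (ha : a ≠ 0) : secMap₀ G a ≠ 0 := by
  intro h
  apply ha
  have h1 : secMap₀ G a (1 : D.A₀ K) = 0 := by rw [h]; rfl
  rwa [secMap₀_apply, one_smul] at h1

/-- `H⁰` of the unit bundle is spanned by `(1, 1)`, over any base ring. -/
theorem glue_unit_H0_eq_span (D : CurveDatum k) (B : Type u) [CommRing B] [Algebra k B] :
    (GlueDatum.unit D B).H0 = Submodule.span B
      {(((1 : D.A₀ B), (1 : D.A₁ B)) : (GlueDatum.unit D B).M₀ × (GlueDatum.unit D B).M₁)} := by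
  apply le_antisymm
  · rintro ⟨a0, a1⟩ hp
    rw [GlueDatum.mem_H0] at hp
    obtain ⟨b, rfl, rfl⟩ := helper3610.unit_sections D B a0 a1 hp
    rw [Submodule.mem_span_singleton]
    refine ⟨b, Prod.ext ?_ ?_⟩
    · change algebraMap B (D.A₀ B) b • (1 : D.A₀ B) = 1 ⊗ₜ b
      rw [smul_eq_mul, mul_one]
      rfl
    · change algebraMap B (D.A₁ B) b • (1 : D.A₁ B) = 1 ⊗ₜ b
      rw [smul_eq_mul, mul_one]
      rfl
  · rw [Submodule.span_singleton_le_iff_mem, GlueDatum.mem_H0]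
    change algebraMap (D.A₀ B) (D.A₀₁ B) 1 = algebraMap (D.A₁ B) (D.A₀₁ B) 1
    rw [map_one, map_one]

/-- `H⁰` of the unit bundle over a field is finite-dimensional. -/
theorem glue_unit_H0_finite (D : CurveDatum k) (K : Type u) [Field K] [Algebra k K] :
    FiniteDimensional K (GlueDatum.unit D K).H0 := by
  rw [glue_unit_H0_eq_span]
  infer_instance

/-- `H⁰` of the unit bundle over a field is one-dimensional. -/
theorem glue_unit_finrank_H0 (D : CurveDatum k) (K : Type u) [Field K] [Algebra k K] :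
    finrank K (GlueDatum.unit D K).H0 = 1 := by
  have := isDomain_A₀ D K
  rw [glue_unit_H0_eq_span]
  apply finrank_span_singleton
  intro h
  exact one_ne_zero (α := D.A₀ K) (congrArg Prod.fst h)

/-- `χ(unit) = 1 - h¹(unit)`. -/
theorem glue_unit_chi (D : CurveDatum k) (K : Type u) [Field K] [Algebra k K] :
    (GlueDatum.unit D K).chi = 1 - (finrank K (GlueDatum.unit D K).H1 : ℤ) := by
  unfold GlueDatum.chi
  rw [glue_unit_finrank_H0]
  rfl

/-- **Sections of two-chart line bundles over a field.** If `G` has a nonzero section `(a, b)`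
then `χ(unit) ≤ χ(G)`, and if moreover `χ(G) ≤ χ(unit)` then `r ↦ r • a`, `r ↦ r • b`,
`r ↦ r • ρ₀ a` are bijective. -/
theorem glue_section_generates (G : GlueDatum D K)
    [FiniteDimensional K (GlueDatum.unit D K).H1]
    [FiniteDimensional K G.H0] [FiniteDimensional K G.H1]
    (a : G.M₀) (b : G.M₁) (hab : G.ρ₀ a = G.ρ₁ b) (ha : a ≠ 0) :
    (GlueDatum.unit D K).chi ≤ G.chi ∧
    (G.chi ≤ (GlueDatum.unit D K).chi →
      Function.Bijective (fun r : D.A₀ K => r • a) ∧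
      Function.Bijective (fun r : D.A₁ K => r • b) ∧
      Function.Bijective (fun r : D.A₀₁ K => r • G.ρ₀ a)) := by
  have hψ : secMap₀ G a ≠ 0 := secMap₀_ne_zero G a ha
  have := glue_unit_H0_finite D K
  obtain ⟨-, -, -, -, -, -, -, hle, hbij⟩ := glue_hom_chi (GlueDatum.unit D K) G
    (secMap₀ G a) (secMap₁ G b) (secMap₀₁ G (G.ρ₀ a)) (secMap_comm₀ G a)
    (secMap_comm₁ G a b hab) hψ
  exact ⟨hle, fun h => hbij h⟩

/-- A nonzero section of `G` with `χ(G) ≤ χ(unit)` trivialises `G`. -/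
theorem glue_unit_equiv_of_section (G : GlueDatum D K)
    [FiniteDimensional K (GlueDatum.unit D K).H1]
    [FiniteDimensional K G.H0] [FiniteDimensional K G.H1]
    (a : G.M₀) (b : G.M₁) (hab : G.ρ₀ a = G.ρ₁ b) (ha : a ≠ 0)
    (hchi : G.chi ≤ (GlueDatum.unit D K).chi) : (GlueDatum.unit D K).Equiv G := by
  have hψ : secMap₀ G a ≠ 0 := secMap₀_ne_zero G a ha
  have := glue_unit_H0_finite D K
  exact glue_equiv_of_hom (GlueDatum.unit D K) G
    (secMap₀ G a) (secMap₁ G b) (secMap₀₁ G (G.ρ₀ a)) (secMap_comm₀ G a)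
    (secMap_comm₁ G a b hab) hψ hchi

/-- Over a field, `ρ₀` is injective. -/
theorem glue_ρ₀_injective (G : GlueDatum D K) : Function.Injective G.ρ₀ := by
  have := isDomain_A₀ D K
  have := isDomain_A₀₁ D K
  exact injective_of_isLocalizedModule (A' := D.A₀₁ K) (xB D K) G.ρ₀

/-- Over a field, `ρ₁` is injective. -/
theorem glue_ρ₁_injective (G : GlueDatum D K) : Function.Injective G.ρ₁ := by
  have := isDomain_A₁ D K
  have := isDomain_A₀₁ D K
  exact injective_of_isLocalizedModule (A' := D.A₀₁ K) (yB D K) G.ρ₁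

/-- If `χ(G) < χ(unit)` then `G` has no nonzero section. -/
theorem glue_H0_eq_bot_of_chi_lt (G : GlueDatum D K)
    [FiniteDimensional K (GlueDatum.unit D K).H1]
    [FiniteDimensional K G.H0] [FiniteDimensional K G.H1]
    (hlt : G.chi < (GlueDatum.unit D K).chi) : G.H0 = ⊥ := by
  rw [eq_bot_iff]
  rintro ⟨a, b⟩ hp
  rw [GlueDatum.mem_H0] at hp
  have ha : a = 0 := by
    by_contra ha
    have h := (glue_section_generates G a b hp ha).1
    omega
  have hb : b = 0 := by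
    apply glue_ρ₁_injective G
    rw [← hp, ha, map_zero, map_zero]
  rw [Submodule.mem_bot, ha, hb]
  rfl

/-- If `χ(G) ≤ χ(unit)`, every section of `G` is a `K`-multiple of any given nonzero section. -/
theorem glue_H0_le_span (G : GlueDatum D K)
    [FiniteDimensional K (GlueDatum.unit D K).H1]
    [FiniteDimensional K G.H0] [FiniteDimensional K G.H1]
    (hchi : G.chi ≤ (GlueDatum.unit D K).chi)
    (a : G.M₀) (b : G.M₁) (hab : G.ρ₀ a = G.ρ₁ b) (ha : a ≠ 0) :
    G.H0 ≤ Submodule.span K {((a, b) : G.M₀ × G.M₁)} := by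
  obtain ⟨h₀, h₁, h₀₁⟩ := (glue_section_generates G a b hab ha).2 hchi
  rintro ⟨a', b'⟩ hq
  rw [GlueDatum.mem_H0] at hq
  obtain ⟨r, rfl⟩ := h₀.2 a'
  obtain ⟨s, rfl⟩ := h₁.2 b'
  have hrs : D.res₀ K r = D.res₁ K s := by
    apply h₀₁.1
    change algebraMap (D.A₀ K) (D.A₀₁ K) r • G.ρ₀ a = algebraMap (D.A₁ K) (D.A₀₁ K) s • G.ρ₀ a
    have e1 : G.ρ₀ (r • a) = algebraMap (D.A₀ K) (D.A₀₁ K) r • G.ρ₀ a := by
      rw [map_smul, algebraMap_smul]
    have e2 : G.ρ₁ (s • b) = algebraMap (D.A₁ K) (D.A₀₁ K) s • G.ρ₀ a := by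
      rw [map_smul, algebraMap_smul, hab]
    rw [← e1, ← e2]
    exact hq
  obtain ⟨c, rfl, rfl⟩ := helper3610.unit_sections D K r s hrs
  rw [Submodule.mem_span_singleton]
  exact ⟨c, rfl⟩

/-- **`h⁰ ≤ 1` in degree `≤ 0`.** -/
theorem glue_finrank_H0_le_one (G : GlueDatum D K)
    [FiniteDimensional K (GlueDatum.unit D K).H1]
    [FiniteDimensional K G.H0] [FiniteDimensional K G.H1]
    (hchi : G.chi ≤ (GlueDatum.unit D K).chi) : finrank K G.H0 ≤ 1 := by
  by_cases h : ∃ p : G.M₀ × G.M₁, p ∈ G.H0 ∧ p.1 ≠ 0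
  · obtain ⟨⟨a, b⟩, hp, ha⟩ := h
    rw [GlueDatum.mem_H0] at hp
    have hle := glue_H0_le_span G hchi a b hp ha
    calc finrank K G.H0 ≤ finrank K (Submodule.span K {((a, b) : G.M₀ × G.M₁)}) :=
          Submodule.finrank_mono hle
      _ ≤ 1 := (finrank_span_le_card ({((a, b) : G.M₀ × G.M₁)} : Set (G.M₀ × G.M₁))).trans
          (by simp)
  · push Not at h
    have hbot : G.H0 = ⊥ := by
      rw [eq_bot_iff]
      rintro ⟨a, b⟩ hp
      have ha : a = 0 := h _ hp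
      rw [GlueDatum.mem_H0] at hp
      have hb : b = 0 := by
        apply glue_ρ₁_injective G
        rw [← hp, ha, map_zero, map_zero]
      rw [Submodule.mem_bot, ha, hb]
      rfl
    rw [hbot, finrank_bot]
    exact Nat.zero_le 1

/-- `h¹(G) ≤ h¹(unit)` when `χ(G) = χ(unit)`. -/
theorem glue_finrank_H1_le (G : GlueDatum D K)
    [FiniteDimensional K (GlueDatum.unit D K).H1]
    [FiniteDimensional K G.H0] [FiniteDimensional K G.H1]
    (hchi : G.chi = (GlueDatum.unit D K).chi) :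
    finrank K G.H1 ≤ finrank K (GlueDatum.unit D K).H1 := by
  have h0 := glue_finrank_H0_le_one G hchi.le
  have hu := glue_unit_chi D K
  have hG : G.chi = (finrank K G.H0 : ℤ) - (finrank K G.H1 : ℤ) := rfl
  omega

/-! ### Degree zero -/

omit [IsAlgClosed k] in
/-- Over a field, `DegZero` gives `χ(G) = χ(unit)`. -/
theorem glue_chi_eq_of_degZero (G : GlueDatum D K) (hG : G.DegZero) :
    G.chi = (GlueDatum.unit D K).chi := by
  rw [← hG K (AlgHom.id k K)]
  exact (helper743.equiv_chi_eq (helper743.baseChange_id G)).symm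

/-- A degree-zero bundle over a field with a nonzero section is trivial. -/
theorem glue_unit_equiv_of_degZero (G : GlueDatum D K)
    [FiniteDimensional K (GlueDatum.unit D K).H1]
    [FiniteDimensional K G.H0] [FiniteDimensional K G.H1]
    (hG : G.DegZero) (a : G.M₀) (b : G.M₁) (hab : G.ρ₀ a = G.ρ₁ b) (ha : a ≠ 0) :
    (GlueDatum.unit D K).Equiv G :=
  glue_unit_equiv_of_section G a b hab ha (glue_chi_eq_of_degZero G hG).le

/-- A degree-zero bundle over a field has `h⁰ ≤ 1`. -/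
theorem glue_finrank_H0_le_one_of_degZero (G : GlueDatum D K)
    [FiniteDimensional K (GlueDatum.unit D K).H1]
    [FiniteDimensional K G.H0] [FiniteDimensional K G.H1]
    (hG : G.DegZero) : finrank K G.H0 ≤ 1 :=
  glue_finrank_H0_le_one G (glue_chi_eq_of_degZero G hG).le

/-- A degree-zero bundle over a field has `h¹ ≤ h¹(unit)`. -/
theorem glue_finrank_H1_le_of_degZero (G : GlueDatum D K)
    [FiniteDimensional K (GlueDatum.unit D K).H1]
    [FiniteDimensional K G.H0] [FiniteDimensional K G.H1]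
    (hG : G.DegZero) : finrank K G.H1 ≤ finrank K (GlueDatum.unit D K).H1 :=
  glue_finrank_H1_le G (glue_chi_eq_of_degZero G hG)

end FieldGlue

end Fermat.Agent.S25.helper7215
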