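import Fermat.Agent.S25.helper3045_HomDegree
import Fermat.Agent.S25.helper1397_HomGlue
import Fermat.Agent.S25.helper239_GlueIndex
import Fermat.Agent.S25.helper8703_FieldGlue
import Fermat.Agent.S25.helper7215_FieldGlue

/-!
# S25, leaf LC-DEGHOM: the Euler characteristic of the Hom datum, `GlueDatum` form (helper3045)

Adapter of the module-form theorem `helper3045.index_hom` (`helper3045_HomDegree.lean`) to
`helper2945.GlueDatum` and `helper1397.homDatum`.  For a field `K` over an algebraically closed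
field `k` and two-chart line bundles `G G' : GlueDatum D K`:

* `chi_homDatum G G' : (homDatum G G').chi = G'.chi - G.chi + (unit D K).chi`;
* `chi_homDatum_of_degZero`, `chi_homDatum_unit_of_degZero`: the special cases for `G` of
  degree zero, in particular `(homDatum G (unit D K)).chi = (unit D K).chi`.

`chi_homDatum_of` is the same statement with every field-case input as an explicit hypothesis
(no algebraic closedness).
-/

set_option autoImplicit false

namespace Fermat.Agent.S25.helper3045

open Module Function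
open Fermat.Agent.S25.helper1705 Fermat.Agent.S25.helper2945

universe u

section HomChi

variable {k : Type u} [Field k] {D : CurveDatum k} {K : Type u} [Field K] [Algebra k K]

/-- `χ` of a two-chart line bundle over a field is the index of its Čech differential. -/
theorem chi_eq_index_delta (G : GlueDatum D K) : G.chi = G.delta.index := by
  rw [LinearMap.index_eq_finrank_sub]
  rfl

theorem delta_eq_cechK (G : GlueDatum D K) : G.delta = cechK K G.ρ₀ G.ρ₁ := rfl

theorem isFred_delta (G : GlueDatum D K) (h0 : Module.Finite K G.H0) (h1 : Module.Finite K G.H1) :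
    IsFred G.delta := ⟨h0, h1⟩

/-! ### The structure sheaf -/

/-- The identity `(unit D K).M₀ → D.A₀ K` as a `K`-linear equivalence. -/
noncomputable def unitEquiv₀ (D : CurveDatum k) (K : Type u) [Field K] [Algebra k K] :
    (GlueDatum.unit D K).M₀ ≃ₗ[K] D.A₀ K where
  toFun a := a
  invFun a := a
  map_add' _ _ := rfl
  map_smul' c a := (@Algebra.smul_def K (D.A₀ K) _ _ _ c a).symm
  left_inv _ := rfl
  right_inv _ := rfl

/-- The identity `(unit D K).M₁ → D.A₁ K` as a `K`-linear equivalence. -/
noncomputable def unitEquiv₁ (D : CurveDatum k) (K : Type u) [Field K] [Algebra k K] :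
    (GlueDatum.unit D K).M₁ ≃ₗ[K] D.A₁ K where
  toFun a := a
  invFun a := a
  map_add' _ _ := rfl
  map_smul' c a := (@Algebra.smul_def K (D.A₁ K) _ _ _ c a).symm
  left_inv _ := rfl
  right_inv _ := rfl

/-- The identity `(unit D K).M₀₁ → D.A₀₁ K` as a `K`-linear equivalence. -/
noncomputable def unitEquiv₀₁ (D : CurveDatum k) (K : Type u) [Field K] [Algebra k K] :
    (GlueDatum.unit D K).M₀₁ ≃ₗ[K] D.A₀₁ K where
  toFun a := a
  invFun a := a
  map_add' _ _ := rfl
  map_smul' c a := (@Algebra.smul_def K (D.A₀₁ K) _ _ _ c a).symm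
  left_inv _ := rfl
  right_inv _ := rfl

theorem unit_square (D : CurveDatum k) (K : Type u) [Field K] [Algebra k K] :
    (unitEquiv₀₁ D K).toLinearMap ∘ₗ (GlueDatum.unit D K).delta =
      cechO K (D.A₀ K) (D.A₁ K) (D.A₀₁ K) ∘ₗ
        (unitEquiv₀ D K).toLinearMap.prodMap (unitEquiv₁ D K).toLinearMap := by
  refine LinearMap.ext fun p => ?_
  rw [LinearMap.comp_apply, LinearMap.comp_apply, GlueDatum.delta_apply, cechO, cechK, cech_apply]
  rfl

theorem isFred_cechO_iff (D : CurveDatum k) (K : Type u) [Field K] [Algebra k K] :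
    IsFred (GlueDatum.unit D K).delta ↔ IsFred (cechO K (D.A₀ K) (D.A₁ K) (D.A₀₁ K)) :=
  isFred_iff_of_iso_square (unit_square D K)
    ⟨prodMap_injective' (unitEquiv₀ D K).injective (unitEquiv₁ D K).injective,
      fun p => ⟨((unitEquiv₀ D K).symm p.1, (unitEquiv₁ D K).symm p.2), by simp⟩⟩
    (unitEquiv₀₁ D K).bijective

theorem index_cechO (D : CurveDatum k) (K : Type u) [Field K] [Algebra k K]
    (h : IsFred (GlueDatum.unit D K).delta) :
    (cechO K (D.A₀ K) (D.A₁ K) (D.A₀₁ K)).index = (GlueDatum.unit D K).delta.index :=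
  index_eq_of_iso_square (unit_square D K)
    ⟨prodMap_injective' (unitEquiv₀ D K).injective (unitEquiv₁ D K).injective,
      fun p => ⟨((unitEquiv₀ D K).symm p.1, (unitEquiv₁ D K).symm p.2), by simp⟩⟩
    (unitEquiv₀₁ D K).bijective h

/-! ### The Hom datum -/

/-- `helper1397.homRes₀` as a `K`-linear map for the pointwise `K`-structures. -/
noncomputable def homResK₀ (G G' : GlueDatum D K) :
    (G.M₀ →ₗ[D.A₀ K] G'.M₀) →ₗ[K] (G.M₀₁ →ₗ[D.A₀₁ K] G'.M₀₁) :=
  (helper1397.homRes₀ G G').restrictScalars K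

/-- `helper1397.homRes₁` as a `K`-linear map for the pointwise `K`-structures. -/
noncomputable def homResK₁ (G G' : GlueDatum D K) :
    (G.M₁ →ₗ[D.A₁ K] G'.M₁) →ₗ[K] (G.M₀₁ →ₗ[D.A₀₁ K] G'.M₀₁) :=
  (helper1397.homRes₁ G G').restrictScalars K

theorem homResK₀_apply (G G' : GlueDatum D K) (f : G.M₀ →ₗ[D.A₀ K] G'.M₀) (m : G.M₀) :
    homResK₀ G G' f (G.ρ₀ m) = G'.ρ₀ (f m) := helper1397.homRes₀_apply G G' f m

theorem homResK₁_apply (G G' : GlueDatum D K) (f : G.M₁ →ₗ[D.A₁ K] G'.M₁) (m : G.M₁) :
    homResK₁ G G' f (G.ρ₁ m) = G'.ρ₁ (f m) := helper1397.homRes₁_apply G G' f m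

/-- The identity `(homDatum G G').M₀ → Hom(G.M₀, G'.M₀)` as a `K`-linear equivalence. -/
noncomputable def homEquiv₀ (G G' : GlueDatum D K) :
    (helper1397.homDatum G G').M₀ ≃ₗ[K] (G.M₀ →ₗ[D.A₀ K] G'.M₀) where
  toFun f := f
  invFun f := f
  map_add' _ _ := rfl
  map_smul' c f := by
    have key : ∀ g : G.M₀ →ₗ[D.A₀ K] G'.M₀, algebraMap K (D.A₀ K) c • g = c • g := fun g =>
      LinearMap.ext fun m => algebraMap_smul (D.A₀ K) c (g m)
    exact key f
  left_inv _ := rfl
  right_inv _ := rfl

/-- The identity `(homDatum G G').M₁ → Hom(G.M₁, G'.M₁)` as a `K`-linear equivalence. -/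
noncomputable def homEquiv₁ (G G' : GlueDatum D K) :
    (helper1397.homDatum G G').M₁ ≃ₗ[K] (G.M₁ →ₗ[D.A₁ K] G'.M₁) where
  toFun f := f
  invFun f := f
  map_add' _ _ := rfl
  map_smul' c f := by
    have key : ∀ g : G.M₁ →ₗ[D.A₁ K] G'.M₁, algebraMap K (D.A₁ K) c • g = c • g := fun g =>
      LinearMap.ext fun m => algebraMap_smul (D.A₁ K) c (g m)
    exact key f
  left_inv _ := rfl
  right_inv _ := rfl

/-- The identity `(homDatum G G').M₀₁ → Hom(G.M₀₁, G'.M₀₁)` as a `K`-linear equivalence. -/
noncomputable def homEquiv₀₁ (G G' : GlueDatum D K) :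
    (helper1397.homDatum G G').M₀₁ ≃ₗ[K] (G.M₀₁ →ₗ[D.A₀₁ K] G'.M₀₁) where
  toFun f := f
  invFun f := f
  map_add' _ _ := rfl
  map_smul' c f := by
    have key : ∀ g : G.M₀₁ →ₗ[D.A₀₁ K] G'.M₀₁, algebraMap K (D.A₀₁ K) c • g = c • g := fun g =>
      LinearMap.ext fun m => algebraMap_smul (D.A₀₁ K) c (g m)
    exact key f
  left_inv _ := rfl
  right_inv _ := rfl

theorem hom_square (G G' : GlueDatum D K) :
    (homEquiv₀₁ G G').toLinearMap ∘ₗ (helper1397.homDatum G G').delta =
      cech (homResK₀ G G') (homResK₁ G G') ∘ₗ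
        (homEquiv₀ G G').toLinearMap.prodMap (homEquiv₁ G G').toLinearMap := by
  refine LinearMap.ext fun p => ?_
  rw [LinearMap.comp_apply, LinearMap.comp_apply, GlueDatum.delta_apply, cech_apply]
  rfl

theorem hom_square_bijective (G G' : GlueDatum D K) :
    Bijective ((homEquiv₀ G G').toLinearMap.prodMap (homEquiv₁ G G').toLinearMap) :=
  ⟨prodMap_injective' (homEquiv₀ G G').injective (homEquiv₁ G G').injective,
    fun p => ⟨((homEquiv₀ G G').symm p.1, (homEquiv₁ G G').symm p.2), by simp⟩⟩

/-- **Degree of the `Hom` datum over a field**, with every field-case input as a hypothesis: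
`χ(Hom(G, G')) = χ(G') - χ(G) + χ(𝒪)`, and the cohomology of `Hom(G, G')` is finite
dimensional. -/
theorem chi_homDatum_of (G G' : GlueDatum D K) [IsDomain (D.A₀ K)] [IsDomain (D.A₁ K)]
    [IsDomain (D.A₀₁ K)]
    (hA₀ : ∀ a : D.A₀ K, a ≠ 0 → Module.Finite K (D.A₀ K ⧸ Ideal.span {a}))
    (hA₁ : ∀ a : D.A₁ K, a ≠ 0 → Module.Finite K (D.A₁ K ⧸ Ideal.span {a}))
    (hG : IsFred G.delta) (hG' : IsFred G'.delta) (hO : IsFred (GlueDatum.unit D K).delta) :
    IsFred (helper1397.homDatum G G').delta ∧
      (helper1397.homDatum G G').chi = G'.chi - G.chi + (GlueDatum.unit D K).chi := by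
  have key := index_hom (xB D K) (yB D K) G.ρ₀ G.ρ₁ G'.ρ₀ G'.ρ₁ (xB_mul_yB D K) hA₀ hA₁
    (homResK₀ G G') (homResK₁ G G') (homResK₀_apply G G') (homResK₁_apply G G') hG hG'
    ((isFred_cechO_iff D K).mp hO)
  have hF : IsFred (helper1397.homDatum G G').delta :=
    (isFred_iff_of_iso_square (hom_square G G') (hom_square_bijective G G')
      (homEquiv₀₁ G G').bijective).mpr key.1
  refine ⟨hF, ?_⟩
  have e1 := index_eq_of_iso_square (hom_square G G') (hom_square_bijective G G')
    (homEquiv₀₁ G G').bijective hF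
  rw [chi_eq_index_delta, chi_eq_index_delta G', chi_eq_index_delta G,
    chi_eq_index_delta (GlueDatum.unit D K), ← e1, key.2, index_cechO D K hO]
  rfl

/-! ### Unconditional forms over an algebraically closed base field -/

variable [IsAlgClosed k]

/-- The Čech differential of a two-chart line bundle over a field is Fredholm. -/
theorem isFred_delta_field (G : GlueDatum D K) : IsFred G.delta :=
  ⟨helper239.finite_H0_field G, helper239.finite_H1_field G⟩

/-- **Degree of the `Hom` datum over a field**: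
`χ(Hom(G, G')) = χ(G') - χ(G) + χ(𝒪)`. -/
theorem chi_homDatum (G G' : GlueDatum D K) :
    (helper1397.homDatum G G').chi = G'.chi - G.chi + (GlueDatum.unit D K).chi := by
  have := helper8703.isDomain_A₀ D K
  have := helper8703.isDomain_A₁ D K
  have := helper7215.isDomain_A₀₁ D K
  exact (chi_homDatum_of G G' (helper8703.finQuot_A₀ D K) (helper8703.finQuot_A₁ D K)
    (isFred_delta_field G) (isFred_delta_field G') (isFred_delta_field _)).2

omit [IsAlgClosed k] in
/-- A degree zero bundle over a field has the Euler characteristic of the trivial bundle. -/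
theorem chi_eq_unit_of_degZero (G : GlueDatum D K) (hG : G.DegZero) :
    G.chi = (GlueDatum.unit D K).chi := by
  rw [← hG K (AlgHom.id k K)]
  exact (helper743.equiv_chi_eq (helper743.baseChange_id G)).symm

/-- `χ(Hom(G, G')) = χ(G')` for `G` of degree zero. -/
theorem chi_homDatum_of_degZero (G G' : GlueDatum D K) (hG : G.DegZero) :
    (helper1397.homDatum G G').chi = G'.chi := by
  rw [chi_homDatum, chi_eq_unit_of_degZero G hG]
  ring

/-- `χ(Hom(G, 𝒪)) = χ(𝒪)` for `G` of degree zero: the dual of a degree zero bundle has the Euler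
characteristic of the trivial bundle. -/
theorem chi_homDatum_unit_of_degZero (G : GlueDatum D K) (hG : G.DegZero) :
    (helper1397.homDatum G (GlueDatum.unit D K)).chi = (GlueDatum.unit D K).chi :=
  chi_homDatum_of_degZero G _ hG

end HomChi

section Fibre

variable {k : Type u} [Field k] [IsAlgClosed k] {D : CurveDatum k} {B : Type u} [CommRing B]
  [Algebra k B]

/-- Fibrewise degree of the `Hom` datum over any base: at every field valued point `φ : B → K`,
`χ(Hom(G, H)_φ) = χ(H_φ) - χ(G_φ) + χ(𝒪_K)`. -/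
theorem chi_homDatum_fibre (G H : GlueDatum D B) {K : Type u} [Field K] [Algebra k K]
    (φ : B →ₐ[k] K) :
    ((helper1397.homDatum G H).baseChange φ).chi =
      (H.baseChange φ).chi - (G.baseChange φ).chi + (GlueDatum.unit D K).chi := by
  rw [helper743.equiv_chi_eq (helper1397.homDatum_baseChange_equiv G H φ), chi_homDatum]

/-- The `Hom` datum of two degree zero bundles has degree zero. -/
theorem homDatum_degZero (G H : GlueDatum D B) (hG : G.DegZero) (hH : H.DegZero) :
    (helper1397.homDatum G H).DegZero := by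
  intro K _ _ φ
  rw [chi_homDatum_fibre, hG K φ, hH K φ]
  ring

end Fibre

end Fermat.Agent.S25.helper3045
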