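import Fermat.Agent.S25.helper8573_LCSpec
import Fermat.Agent.S25.helper1397_HomGlue
import Fermat.Agent.S25.helper6121_GlueConstr

/-!
# S25, leaf U5b (cover by charts): the target side of the cover, formal part (helper4743)

Vocabulary: `helper2945.GlueDatum`, `helper8573.Mor`, `Mor.SurjModY`, `Mor.Generates`,
`InChartOf`.

* `surjModY_comp_iso`, `generates_comp_iso`, `surjModY_comp_iso_source`,
  `generates_comp_iso_source` : the two conditions of the chart condition are stable under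
  isomorphisms of the target and of the source;
* `inChartOf_of_equiv`, `inChartOf_of_equiv_target` : hence `InChartOf` only depends on the
  isomorphism classes;
* `IsSubAwayFromY ι` : `ι : X' → X` is a sub-bundle which coincides with `X` along `V(y)`
  (the shape of a twist `X(-E)` by an effective divisor `E` disjoint from `V(y)`): injective on
  the two charts and `u • X.M₁ ⊆ X'.M₁` for some `u ≡ 1` modulo `y`; consequences: injective on
  the overlap (`inj₀₁`), saturated at infinity (`sat`); stable under composition (`comp`);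
* `IsSubAwayFromY.exists_lift`, `lift_unique` : a morphism `G → X` whose first-chart component
  lands in `X'` factors (uniquely) through `X'`: nothing to check on the chart at infinity;
* `IsSubAwayFromY.exists_surjModY_generates` : if moreover `σ` is an isomorphism along `V(y)`
  and spans the morphisms `G → X` landing in `X'`, the corestriction `G → X'` satisfies the two
  conditions of `InChartOf`; `IsSubAwayFromY.inChartOf` : the resulting chart condition;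
* `subMor`, `isSubAwayFromY_subMor`, `inChartOf_ofSubmodules` : the same for the sub-datum
  `helper6121.GlueDatum.ofSubmodules X Λ₀ Λ₁ h`.
-/

set_option autoImplicit false

open TensorProduct

namespace Fermat.Agent.S25.helper4743

open Fermat.Agent.S25.helper1705 Fermat.Agent.S25.helper2945 Fermat.Agent.S25.helper8573

universe u

variable {k : Type u} [Field k] {D : CurveDatum k} {B : Type u} [CommRing B] [Algebra k B]

section Scalars

variable {G X : GlueDatum D B}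

theorem map_smulB₀ (f : G.M₀ →ₗ[D.A₀ B] X.M₀) (c : B) (m : G.M₀) : f (c • m) = c • f m := by
  rw [GlueDatum.smul_def₀, GlueDatum.smul_def₀, map_smul]

theorem map_smulB₁ (f : G.M₁ →ₗ[D.A₁ B] X.M₁) (c : B) (m : G.M₁) : f (c • m) = c • f m := by
  rw [GlueDatum.smul_def₁, GlueDatum.smul_def₁, map_smul]

end Scalars

section Transport

variable {G G' X X' : GlueDatum D B}

theorem surjModY_comp_iso {σ : Mor G X} (h : σ.SurjModY) (e : GlueDatum.Iso X X') :
    ((Mor.ofIso e).comp σ).SurjModY := by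
  intro n
  obtain ⟨m, n', hn⟩ := h (e.e₁.symm n)
  refine ⟨m, e.e₁ n', ?_⟩
  have h2 := congrArg e.e₁ hn
  rw [LinearEquiv.apply_symm_apply, map_add, map_smul] at h2
  exact h2

theorem generates_comp_iso {σ : Mor G X} (h : σ.Generates) (e : GlueDatum.Iso X X') :
    ((Mor.ofIso e).comp σ).Generates := by
  intro τ
  obtain ⟨c, h₀, h₁⟩ := h ((Mor.ofIso e.symm).comp τ)
  refine ⟨c, fun m => ?_, fun m => ?_⟩
  · have h2 : e.e₀.symm (τ.f₀ m) = c • σ.f₀ m := h₀ m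
    have h3 := congrArg e.e₀ h2
    rw [LinearEquiv.apply_symm_apply] at h3
    rw [h3]
    exact map_smulB₀ (G := X) (X := X') e.e₀.toLinearMap c (σ.f₀ m)
  · have h2 : e.e₁.symm (τ.f₁ m) = c • σ.f₁ m := h₁ m
    have h3 := congrArg e.e₁ h2
    rw [LinearEquiv.apply_symm_apply] at h3
    rw [h3]
    exact map_smulB₁ (G := X) (X := X') e.e₁.toLinearMap c (σ.f₁ m)

theorem surjModY_comp_iso_source {σ : Mor G X} (h : σ.SurjModY) (e : GlueDatum.Iso G' G) :
    (σ.comp (Mor.ofIso e)).SurjModY := by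
  intro n
  obtain ⟨m, n', hn⟩ := h n
  refine ⟨e.e₁.symm m, n', ?_⟩
  rw [hn]
  change _ = σ.f₁ (e.e₁ (e.e₁.symm m)) + _
  rw [LinearEquiv.apply_symm_apply]

theorem generates_comp_iso_source {σ : Mor G X} (h : σ.Generates) (e : GlueDatum.Iso G' G) :
    (σ.comp (Mor.ofIso e)).Generates := by
  intro τ
  obtain ⟨c, h₀, h₁⟩ := h (τ.comp (Mor.ofIso e.symm))
  refine ⟨c, fun m => ?_, fun m => ?_⟩
  · have h2 : τ.f₀ (e.e₀.symm (e.e₀ m)) = c • σ.f₀ (e.e₀ m) := h₀ (e.e₀ m)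
    rw [LinearEquiv.symm_apply_apply] at h2
    exact h2
  · have h2 : τ.f₁ (e.e₁.symm (e.e₁ m)) = c • σ.f₁ (e.e₁ m) := h₁ (e.e₁ m)
    rw [LinearEquiv.symm_apply_apply] at h2
    exact h2

/-- The chart condition only depends on the isomorphism class of the bundle. -/
theorem inChartOf_of_equiv (N : GlueDatum D k) (h : G.Equiv G') (hG : InChartOf N G) :
    InChartOf N G' := by
  obtain ⟨e⟩ := h
  obtain ⟨σ, h1, h2⟩ := hG
  exact ⟨σ.comp (Mor.ofIso e.symm), surjModY_comp_iso_source h1 e.symm,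
    generates_comp_iso_source h2 e.symm⟩

/-- The chart condition can be checked on any model of the base bundle over `B`. -/
theorem inChartOf_of_equiv_target (N : GlueDatum D k) (h : X.Equiv (baseOver N B))
    (σ : Mor G X) (h1 : σ.SurjModY) (h2 : σ.Generates) : InChartOf N G := by
  obtain ⟨e⟩ := h
  exact ⟨(Mor.ofIso e).comp σ, surjModY_comp_iso h1 e, generates_comp_iso h2 e⟩

end Transport

/-! ### Sub-bundles which agree with the ambient bundle along `V(y)` -/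

section Sub

variable {G X X' X'' : GlueDatum D B}

/-- Two morphisms with the same chart components are equal. -/
theorem mor_ext {σ τ : Mor G X} (h₀ : σ.f₀ = τ.f₀) (h₁ : σ.f₁ = τ.f₁) : σ = τ := by
  have h₀₁ : σ.f₀₁ = τ.f₀₁ :=
    helper1397.ext_ρ₀ G X fun m => by rw [σ.comm₀, τ.comm₀, h₀]
  cases σ; cases τ
  simp only at h₀ h₁ h₀₁
  subst h₀ h₁ h₀₁
  rfl

/-- A morphism which is injective on the first chart is injective on the overlap. -/
theorem f₀₁_injective (ι : Mor X' X) (h : Function.Injective ι.f₀) :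
    Function.Injective ι.f₀₁ := by
  have h1 : ι.f₀₁ = helper1397.homRes₀ X' X ι.f₀ :=
    helper1397.ext_ρ₀ X' X fun m => by rw [ι.comm₀, helper1397.homRes₀_apply]
  rw [h1]
  exact IsLocalizedModule.map_injective (Submonoid.powers (xB D B)) X'.ρ₀ X.ρ₀ ι.f₀ h

/-- If `u ≡ 1` modulo `y`, then `u • n ∈ Λ` and `y ^ j • n ∈ Λ` imply `n ∈ Λ`. -/
theorem mem_of_unit_smul_mem_of_pow_smul_mem {A M : Type*} [CommRing A] [AddCommGroup M]
    [Module A M] (Λ : Submodule A M) (y u w : A) (hu : u = 1 - y * w) :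
    ∀ (j : ℕ) (n : M), u • n ∈ Λ → y ^ j • n ∈ Λ → n ∈ Λ := by
  intro j
  induction j with
  | zero => intro n _ h; simpa using h
  | succ j ih =>
    intro n hun hyn
    apply ih n hun
    -- `n' := y ^ j • n` satisfies `u • n' ∈ Λ` and `y • n' ∈ Λ`
    have h1 : u • (y ^ j • n) ∈ Λ := by
      rw [smul_comm]; exact Λ.smul_mem _ hun
    have h2 : y • (y ^ j • n) ∈ Λ := by
      rw [smul_smul, ← pow_succ']; exact hyn
    have h3 : y ^ j • n = u • (y ^ j • n) + w • (y • (y ^ j • n)) := by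
      rw [hu, smul_smul w y, ← add_smul]
      have : (1 - y * w + w * y : A) = 1 := by ring
      rw [this, one_smul]
    rw [h3]
    exact Λ.add_mem h1 (Λ.smul_mem _ h2)

/-- `ι : X' → X` exhibits `X'` as a sub-bundle of `X` which coincides with `X` along `V(y)`:
injective on the two charts and containing `u • X.M₁` for some `u ≡ 1` modulo `y`. (This is the
shape of the twist `X(-E)` by an effective divisor `E` contained in the first chart and disjoint
from `V(y)`.) -/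
structure IsSubAwayFromY (ι : Mor X' X) : Prop where
  inj₀ : Function.Injective ι.f₀
  inj₁ : Function.Injective ι.f₁
  unit : ∃ u w : D.A₁ B, u = 1 - yB D B * w ∧ ∀ n : X.M₁, u • n ∈ LinearMap.range ι.f₁

theorem IsSubAwayFromY.inj₀₁ {ι : Mor X' X} (h : IsSubAwayFromY ι) :
    Function.Injective ι.f₀₁ := f₀₁_injective ι h.inj₀

/-- A sub-bundle agreeing with `X` along `V(y)` is saturated on the chart at infinity: an
element of `X.M₁` whose restriction to the overlap lies in `X'` lies in `X'`. -/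
theorem IsSubAwayFromY.sat {ι : Mor X' X} (h : IsSubAwayFromY ι) (n : X.M₁)
    (hn : X.ρ₁ n ∈ LinearMap.range ι.f₀₁) : n ∈ LinearMap.range ι.f₁ := by
  obtain ⟨z, hz⟩ := hn
  obtain ⟨⟨n', s⟩, hs⟩ := IsLocalizedModule.surj (Submonoid.powers (yB D B)) X'.ρ₁ z
  have hs' : (s : D.A₁ B) • z = X'.ρ₁ n' := hs
  -- `s • n - ι n'` is killed by the restriction, hence by a power of `y`
  have h1 : X.ρ₁ ((s : D.A₁ B) • n) = X.ρ₁ (ι.f₁ n') := by
    rw [map_smul, ← hz, ← ι.comm₁, ← hs', ← algebraMap_smul (D.A₀₁ B) (s : D.A₁ B) z, map_smul,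
      algebraMap_smul]
  obtain ⟨t, ht⟩ := (IsLocalizedModule.eq_iff_exists (Submonoid.powers (yB D B)) X.ρ₁).mp h1
  have ht' : (t : D.A₁ B) • (s : D.A₁ B) • n = (t : D.A₁ B) • ι.f₁ n' := ht
  obtain ⟨j, hj⟩ := (t * s).2
  have hj' : yB D B ^ j = (t : D.A₁ B) * (s : D.A₁ B) := hj
  obtain ⟨u, w, hu, hun⟩ := h.unit
  refine mem_of_unit_smul_mem_of_pow_smul_mem _ (yB D B) u w hu j n (hun n) ?_
  rw [hj', mul_smul, ht']
  exact Submodule.smul_mem _ _ ⟨n', rfl⟩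

theorem IsSubAwayFromY.id (X : GlueDatum D B) :
    IsSubAwayFromY (⟨LinearMap.id, LinearMap.id, LinearMap.id, fun _ => rfl, fun _ => rfl⟩ :
      Mor X X) where
  inj₀ := fun _ _ h => h
  inj₁ := fun _ _ h => h
  unit := ⟨1, 0, by simp, fun n => ⟨(1 : D.A₁ B) • n, rfl⟩⟩

theorem IsSubAwayFromY.comp {ι : Mor X' X} {ι' : Mor X'' X'} (h : IsSubAwayFromY ι)
    (h' : IsSubAwayFromY ι') : IsSubAwayFromY (ι.comp ι') where
  inj₀ := h.inj₀.comp h'.inj₀
  inj₁ := h.inj₁.comp h'.inj₁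
  unit := by
    obtain ⟨u, w, hu, hun⟩ := h.unit
    obtain ⟨u', w', hu', hun'⟩ := h'.unit
    refine ⟨u' * u, w + w' - yB D B * w' * w, by rw [hu, hu']; ring, fun n => ?_⟩
    obtain ⟨n', hn'⟩ := hun n
    obtain ⟨n'', hn''⟩ := hun' n'
    refine ⟨n'', ?_⟩
    change ι.f₁ (ι'.f₁ n'') = _
    rw [hn'', map_smul, hn', mul_smul]

/-- Every element of the overlap module becomes a restricted element after multiplication by
a power of `x`. -/
theorem exists_smul_eq_ρ₀ (G : GlueDatum D B) (z : G.M₀₁) :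
    ∃ (n : ℕ) (m : G.M₀), algebraMap (D.A₀ B) (D.A₀₁ B) (xB D B) ^ n • z = G.ρ₀ m := by
  obtain ⟨⟨m, s⟩, hs⟩ := IsLocalizedModule.surj (Submonoid.powers (xB D B)) G.ρ₀ z
  obtain ⟨n, hn⟩ := s.2
  refine ⟨n, m, ?_⟩
  have h1 : (s : D.A₀ B) • z = G.ρ₀ m := hs
  rw [← hn] at h1
  rw [← h1, ← map_pow, algebraMap_smul]

/-- A morphism to `X` whose first-chart component lands in the sub-bundle `X'` lands in `X'`
on the overlap. -/
theorem IsSubAwayFromY.range₀₁ {ι : Mor X' X} (_h : IsSubAwayFromY ι) (σ : Mor G X)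
    (hσ : ∀ m, σ.f₀ m ∈ LinearMap.range ι.f₀) (z : G.M₀₁) : σ.f₀₁ z ∈ LinearMap.range ι.f₀₁ := by
  obtain ⟨n, m, hm⟩ := exists_smul_eq_ρ₀ G z
  obtain ⟨m', hm'⟩ := hσ m
  have hu : IsUnit (algebraMap (D.A₀ B) (D.A₀₁ B) (xB D B) ^ n) :=
    (IsLocalization.Away.algebraMap_isUnit (xB D B)).pow n
  obtain ⟨v, hv⟩ := hu
  have h1 : σ.f₀₁ z = (↑v⁻¹ : D.A₀₁ B) • σ.f₀₁ (G.ρ₀ m) := by
    rw [← hm, map_smul, ← hv, smul_smul, Units.inv_mul, one_smul]
  rw [h1, σ.comm₀, ← hm', ← ι.comm₀]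
  exact Submodule.smul_mem _ _ ⟨_, rfl⟩

/-- A morphism to `X` whose first-chart component lands in the sub-bundle `X'` lands in `X'`
on the chart at infinity. -/
theorem IsSubAwayFromY.range₁ {ι : Mor X' X} (h : IsSubAwayFromY ι) (σ : Mor G X)
    (hσ : ∀ m, σ.f₀ m ∈ LinearMap.range ι.f₀) (m : G.M₁) : σ.f₁ m ∈ LinearMap.range ι.f₁ := by
  apply h.sat
  rw [← σ.comm₁]
  exact h.range₀₁ σ hσ _

/-- **Factorisation.** A morphism to `X` whose first-chart component lands in the sub-bundle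
`X'` factors through `X'`. -/
theorem IsSubAwayFromY.exists_lift {ι : Mor X' X} (h : IsSubAwayFromY ι) (σ : Mor G X)
    (hσ : ∀ m, σ.f₀ m ∈ LinearMap.range ι.f₀) :
    ∃ σ' : Mor G X', (∀ m, ι.f₀ (σ'.f₀ m) = σ.f₀ m) ∧ (∀ m, ι.f₁ (σ'.f₁ m) = σ.f₁ m) := by
  classical
  have hσ₁ := h.range₁ σ hσ
  let e₀ := LinearEquiv.ofInjective ι.f₀ h.inj₀
  let e₁ := LinearEquiv.ofInjective ι.f₁ h.inj₁
  let g₀ : G.M₀ →ₗ[D.A₀ B] X'.M₀ := e₀.symm.toLinearMap ∘ₗ σ.f₀.codRestrict _ hσ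
  let g₁ : G.M₁ →ₗ[D.A₁ B] X'.M₁ := e₁.symm.toLinearMap ∘ₗ σ.f₁.codRestrict _ hσ₁
  have hg₀ : ∀ m, ι.f₀ (g₀ m) = σ.f₀ m := by
    intro m
    have : e₀ (g₀ m) = σ.f₀.codRestrict _ hσ m := LinearEquiv.apply_symm_apply _ _
    exact congrArg Subtype.val this
  have hg₁ : ∀ m, ι.f₁ (g₁ m) = σ.f₁ m := by
    intro m
    have : e₁ (g₁ m) = σ.f₁.codRestrict _ hσ₁ m := LinearEquiv.apply_symm_apply _ _
    exact congrArg Subtype.val this
  have hc₀ : ∀ m, ι.f₀₁ (helper1397.homRes₀ G X' g₀ (G.ρ₀ m)) = σ.f₀₁ (G.ρ₀ m) := by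
    intro m
    rw [helper1397.homRes₀_apply, ι.comm₀, hg₀, σ.comm₀]
  have hc : ι.f₀₁ ∘ₗ helper1397.homRes₀ G X' g₀ = σ.f₀₁ :=
    helper1397.ext_ρ₀ G X hc₀
  refine ⟨⟨g₀, g₁, helper1397.homRes₀ G X' g₀, fun m => helper1397.homRes₀_apply G X' g₀ m,
    fun m => ?_⟩, hg₀, hg₁⟩
  apply h.inj₀₁
  have := LinearMap.congr_fun hc (G.ρ₁ m)
  rw [LinearMap.comp_apply] at this
  rw [this, σ.comm₁, ι.comm₁, hg₁]

/-- The factorisation through a sub-bundle is unique. -/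
theorem IsSubAwayFromY.lift_unique {ι : Mor X' X} (h : IsSubAwayFromY ι) (σ' τ' : Mor G X')
    (h₀ : ∀ m, ι.f₀ (σ'.f₀ m) = ι.f₀ (τ'.f₀ m)) (h₁ : ∀ m, ι.f₁ (σ'.f₁ m) = ι.f₁ (τ'.f₁ m)) :
    σ' = τ' :=
  mor_ext (LinearMap.ext fun m => h.inj₀ (h₀ m)) (LinearMap.ext fun m => h.inj₁ (h₁ m))

/-- **Corestriction to a sub-bundle.** `ι : X' → X` a sub-bundle agreeing with `X` along `V(y)`
and `σ : G → X` landing in `X'` on the first chart. If `σ` is an isomorphism along `V(y)` and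
spans the morphisms `G → X` landing in `X'`, then the corestriction `G → X'` is an isomorphism
along `V(y)` and generates all morphisms `G → X'`. -/
theorem IsSubAwayFromY.exists_surjModY_generates {ι : Mor X' X} (h : IsSubAwayFromY ι)
    (σ : Mor G X) (hσ : ∀ m, σ.f₀ m ∈ LinearMap.range ι.f₀) (hy : σ.SurjModY)
    (hgen : ∀ τ : Mor G X, (∀ m, τ.f₀ m ∈ LinearMap.range ι.f₀) →
      ∃ c : B, (∀ m, τ.f₀ m = c • σ.f₀ m) ∧ (∀ m, τ.f₁ m = c • σ.f₁ m)) :
    ∃ σ' : Mor G X', (∀ m, ι.f₀ (σ'.f₀ m) = σ.f₀ m) ∧ (∀ m, ι.f₁ (σ'.f₁ m) = σ.f₁ m) ∧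
      σ'.SurjModY ∧ σ'.Generates := by
  obtain ⟨σ', h₀, h₁⟩ := h.exists_lift σ hσ
  refine ⟨σ', h₀, h₁, ?_, ?_⟩
  · intro n
    obtain ⟨m, n₁, hn⟩ := hy (ι.f₁ n)
    obtain ⟨u, w, hu, hun⟩ := h.unit
    -- `y • n₁` lies in `X'`, hence so does `n₁`
    have hy1 : yB D B • n₁ ∈ LinearMap.range ι.f₁ := by
      have : yB D B • n₁ = ι.f₁ n - ι.f₁ (σ'.f₁ m) := by rw [h₁, hn]; abel
      rw [this]
      exact Submodule.sub_mem _ ⟨_, rfl⟩ ⟨_, rfl⟩
    have hn1 : n₁ ∈ LinearMap.range ι.f₁ :=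
      mem_of_unit_smul_mem_of_pow_smul_mem _ (yB D B) u w hu 1 n₁ (hun n₁)
        (by rw [pow_one]; exact hy1)
    obtain ⟨n', hn'⟩ := hn1
    refine ⟨m, n', h.inj₁ ?_⟩
    rw [map_add, map_smul, h₁, hn', hn]
  · intro τ
    obtain ⟨c, hc₀, hc₁⟩ := hgen (ι.comp τ) (fun m => ⟨τ.f₀ m, rfl⟩)
    refine ⟨c, fun m => h.inj₀ ?_, fun m => h.inj₁ ?_⟩
    · have : ι.f₀ (τ.f₀ m) = c • σ.f₀ m := hc₀ m
      rw [this, map_smulB₀ (G := X') (X := X) ι.f₀, h₀]
    · have : ι.f₁ (τ.f₁ m) = c • σ.f₁ m := hc₁ m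
      rw [this, map_smulB₁ (G := X') (X := X) ι.f₁, h₁]

/-- **Chart condition through a sub-bundle.** If `X'` is a model over `B` of the base bundle
`N`, embedded in `X` as a sub-bundle agreeing with `X` along `V(y)`, and `σ : G → X` lands in
`X'` on the first chart, is an isomorphism along `V(y)` and spans the morphisms `G → X` landing
in `X'`, then `G` satisfies the chart condition of `N`. -/
theorem IsSubAwayFromY.inChartOf {ι : Mor X' X} (h : IsSubAwayFromY ι) (N : GlueDatum D k)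
    (hN : X'.Equiv (baseOver N B)) (σ : Mor G X)
    (hσ : ∀ m, σ.f₀ m ∈ LinearMap.range ι.f₀) (hy : σ.SurjModY)
    (hgen : ∀ τ : Mor G X, (∀ m, τ.f₀ m ∈ LinearMap.range ι.f₀) →
      ∃ c : B, (∀ m, τ.f₀ m = c • σ.f₀ m) ∧ (∀ m, τ.f₁ m = c • σ.f₁ m)) :
    InChartOf N G := by
  obtain ⟨σ', -, -, h1, h2⟩ := h.exists_surjModY_generates σ hσ hy hgen
  exact inChartOf_of_equiv_target N hN σ' h1 h2

end Sub

/-! ### The sub-datum `ofSubmodules` of helper6121 -/

section OfSubmodules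

open helper6121.GlueDatum

variable {G : GlueDatum D B} (X : GlueDatum D B) (Λ₀ : Submodule (D.A₀ B) X.M₀)
  (Λ₁ : Submodule (D.A₁ B) X.M₁) [Module.Invertible (D.A₀ B) Λ₀] [Module.Invertible (D.A₁ B) Λ₁]
  (h : span₀ X Λ₀ = span₁ X Λ₁)

/-- The inclusion of the sub-datum `ofSubmodules X Λ₀ Λ₁ h` into `X`, as a morphism. -/
noncomputable def subMor : Mor (ofSubmodules X Λ₀ Λ₁ h) X where
  f₀ := ofSubmodules.ι₀ X Λ₀ Λ₁ h
  f₁ := ofSubmodules.ι₁ X Λ₀ Λ₁ h
  f₀₁ := ofSubmodules.ι₀₁ X Λ₀ Λ₁ h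
  comm₀ := ofSubmodules.comm₀ X Λ₀ Λ₁ h
  comm₁ := ofSubmodules.comm₁ X Λ₀ Λ₁ h

theorem range_subMor_f₀ : LinearMap.range (subMor X Λ₀ Λ₁ h).f₀ = Λ₀ :=
  ofSubmodules.range_ι₀ X Λ₀ Λ₁ h

theorem range_subMor_f₁ : LinearMap.range (subMor X Λ₀ Λ₁ h).f₁ = Λ₁ :=
  ofSubmodules.range_ι₁ X Λ₀ Λ₁ h

/-- The sub-datum cut out by `Λ₀`, `Λ₁` agrees with `X` along `V(y)` as soon as
`u • X.M₁ ⊆ Λ₁` for some `u ≡ 1` modulo `y`. -/
theorem isSubAwayFromY_subMor (u w : D.A₁ B) (hu : u = 1 - yB D B * w)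
    (hΛ : ∀ n : X.M₁, u • n ∈ Λ₁) : IsSubAwayFromY (subMor X Λ₀ Λ₁ h) where
  inj₀ := ofSubmodules.ι₀_injective X Λ₀ Λ₁ h
  inj₁ := ofSubmodules.ι₁_injective X Λ₀ Λ₁ h
  unit := ⟨u, w, hu, fun n => by rw [range_subMor_f₁]; exact hΛ n⟩

/-- **Chart condition through `ofSubmodules`.** `σ : G → X` with `σ.f₀ (G.M₀) ⊆ Λ₀`, an
isomorphism along `V(y)`, spanning the morphisms `G → X` with first-chart image in `Λ₀`; the
sub-datum `(Λ₀, Λ₁)` of `X` contains `u • X.M₁`, `u ≡ 1` modulo `y`, and is a model of the base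
bundle `N`. Then `G` satisfies the chart condition of `N`. -/
theorem inChartOf_ofSubmodules (N : GlueDatum D k) (u w : D.A₁ B) (hu : u = 1 - yB D B * w)
    (hΛ : ∀ n : X.M₁, u • n ∈ Λ₁) (hN : (ofSubmodules X Λ₀ Λ₁ h).Equiv (baseOver N B))
    (σ : Mor G X) (hσ : ∀ m, σ.f₀ m ∈ Λ₀) (hy : σ.SurjModY)
    (hgen : ∀ τ : Mor G X, (∀ m, τ.f₀ m ∈ Λ₀) →
      ∃ c : B, (∀ m, τ.f₀ m = c • σ.f₀ m) ∧ (∀ m, τ.f₁ m = c • σ.f₁ m)) :
    InChartOf N G := by
  refine (isSubAwayFromY_subMor X Λ₀ Λ₁ h u w hu hΛ).inChartOf N hN σ ?_ hy ?_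
  · intro m; rw [range_subMor_f₀]; exact hσ m
  · intro τ hτ
    exact hgen τ fun m => by have := hτ m; rwa [range_subMor_f₀] at this

end OfSubmodules

end Fermat.Agent.S25.helper4743
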