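import Fermat.Agent.S25.helper1705_Spec3
import Fermat.Agent.S25.helper8573_LCSpec

/-!
# S25, layer C: assembly of `Stmt_AlgCharts` (helper8573)

`helper1705.Stmt_AlgCharts` (master Spec, part III) asks for an `AlgChartFamily`: finite type
chart algebras with rigidified degree-zero universal bundles, which are monomorphisms, whose
loci are cut out by ideals (compatibly with base change), and which cover all points with
values in algebraically closed fields.

This file proves it from the two statements of `helper8573_LCSpec`, in the weakest form that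
the assembly needs:

* `Stmt_ChartOfAC` : `Stmt_ChartOf` with the openness of the charts in ideal form
  (`ChartOpenIdeal`) and the image clause only over algebraically closed fields;
* `Stmt_CoverAC`   : `Stmt_Cover` only over algebraically closed fields.

`stmt_ChartOfAC_of`, `stmt_CoverAC_of` : the statements of `helper8573_LCSpec` imply these.
`stmt_AlgCharts_of` : `Stmt_ChartOfAC → Stmt_CoverAC → helper1705.Stmt_AlgCharts`.
-/

set_option autoImplicit false

open TensorProduct

namespace Fermat.Agent.S25.helper8573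

open Fermat.Agent.S25.helper1705 Fermat.Agent.S25.helper2945

universe u

section Defs

variable {k : Type u} [Field k] {D : CurveDatum k}

/-- The chart `(E, P)` is an open subfunctor, in ideal form: the locus of a rigidified
degree-zero bundle `G` over `B` where it is pulled back from the chart is the complement of
`V(𝔞)`, compatibly with base change. -/
def ChartOpenIdeal {E : Type u} [CommRing E] [Algebra k E] (P : GlueDatum D E) : Prop :=
  ∀ (B : Type u) [CommRing B] [Algebra k B] (G : GlueDatum D B), G.IsRig → G.DegZero →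
    ∃ 𝔞 : Ideal B, ∀ (B' : Type u) [CommRing B'] [Algebra k B'] (ψ : B →ₐ[k] B'),
      InChart P (G.baseChange ψ) ↔ 𝔞.map ψ = ⊤

/-- The open-set form of openness implies the ideal form. -/
theorem chartOpenIdeal_of_chartOpen {E : Type u} [CommRing E] [Algebra k E]
    {P : GlueDatum D E} (h : ChartOpen P) : ChartOpenIdeal P := by
  intro B _ _ G hG hG0
  obtain ⟨U, hU, hiff⟩ := h B G hG hG0
  refine ⟨PrimeSpectrum.vanishingIdeal Uᶜ, fun B' _ _ ψ => ?_⟩
  have hz : (PrimeSpectrum.zeroLocus (PrimeSpectrum.vanishingIdeal Uᶜ : Set B))ᶜ = U := by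
    rw [PrimeSpectrum.zeroLocus_vanishingIdeal_eq_closure, hU.isClosed_compl.closure_eq,
      compl_compl]
  have h1 := helper9473.forall_comap_mem_compl_zeroLocus_iff
    (PrimeSpectrum.vanishingIdeal Uᶜ) ψ.toRingHom
  rw [hz] at h1
  exact (hiff B' ψ).symm.trans h1

/-- The ideal form of openness implies the open-set form. -/
theorem chartOpen_of_chartOpenIdeal {E : Type u} [CommRing E] [Algebra k E]
    {P : GlueDatum D E} (h : ChartOpenIdeal P) : ChartOpen P := by
  intro B _ _ G hG hG0
  obtain ⟨𝔞, hiff⟩ := h B G hG hG0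
  refine ⟨(PrimeSpectrum.zeroLocus (𝔞 : Set B))ᶜ,
    (PrimeSpectrum.isClosed_zeroLocus _).isOpen_compl, fun B' _ _ ψ => ?_⟩
  rw [hiff B' ψ]
  exact helper9473.forall_comap_mem_compl_zeroLocus_iff 𝔞 ψ.toRingHom

theorem chartOpen_iff_chartOpenIdeal {E : Type u} [CommRing E] [Algebra k E]
    {P : GlueDatum D E} : ChartOpen P ↔ ChartOpenIdeal P :=
  ⟨chartOpenIdeal_of_chartOpen, chartOpen_of_chartOpenIdeal⟩

end Defs

/-- CHART-OF, weakest form needed by the assembly: for every base bundle `N` of degree `g`
there is a small family of charts (finite type, rigidified, degree zero, mono, open in ideal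
form) such that every rigidified degree-zero bundle over an ALGEBRAICALLY CLOSED field
satisfying `InChartOf N` is pulled back from one of them. -/
def Stmt_ChartOfAC : Prop :=
  ∀ (k : Type u) [Field k] [IsAlgClosed k] (D : CurveDatum k) (N : GlueDatum D k),
    HasDegreeGenus N →
    ∃ (ι : Type u) (E : ι → Type u) (_ : ∀ i, CommRing (E i)) (_ : ∀ i, Algebra k (E i))
      (P : ∀ i, GlueDatum D (E i)),
      (∀ i, Algebra.FiniteType k (E i)) ∧ (∀ i, (P i).IsRig) ∧ (∀ i, (P i).DegZero) ∧
      (∀ i, ChartMono (P i)) ∧ (∀ i, ChartOpenIdeal (P i)) ∧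
      ∀ (K : Type u) [Field K] [Algebra k K] [IsAlgClosed K] (G : GlueDatum D K),
        G.IsRig → G.DegZero → InChartOf N G → ∃ i, InChart (P i) G

/-- COVER, weakest form needed by the assembly: there is a small family of base bundles of
degree `g` over `k` such that every rigidified degree-zero bundle over an ALGEBRAICALLY CLOSED
field `K ⊇ k` satisfies the intrinsic chart condition for one of them. -/
def Stmt_CoverAC : Prop :=
  ∀ (k : Type u) [Field k] [IsAlgClosed k] (D : CurveDatum k),
    ∃ (ι₀ : Type u) (N : ι₀ → GlueDatum D k), (∀ j, HasDegreeGenus (N j)) ∧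
      ∀ (K : Type u) [Field K] [Algebra k K] [IsAlgClosed K] (G : GlueDatum D K),
        G.IsRig → G.DegZero → ∃ j, InChartOf (N j) G

theorem stmt_ChartOfAC_of (h : Stmt_ChartOf.{u}) : Stmt_ChartOfAC.{u} := by
  intro k _ _ D N hN
  obtain ⟨ι, E, iR, iA, P, hft, hrig, hdeg, hmono, hopen, himg⟩ := h k D N hN
  exact ⟨ι, E, iR, iA, P, hft, hrig, hdeg, hmono,
    fun i => chartOpenIdeal_of_chartOpen (hopen i), fun K _ _ _ G hG hG0 hN => himg K G hG hG0 hN⟩

theorem stmt_CoverAC_of (h : Stmt_Cover.{u}) : Stmt_CoverAC.{u} := by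
  intro k _ _ D
  obtain ⟨ι₀, N, hN, hcov⟩ := h k D
  exact ⟨ι₀, N, hN, fun K _ _ _ G hG hG0 => hcov K G hG hG0⟩

/-- **ALG-CHARTS, assembled.** The algebraic chart theorem of the master Spec (part III) from
the chart theorem for a fixed base bundle and the covering statement. -/
theorem stmt_AlgCharts_of (hChart : Stmt_ChartOfAC.{u}) (hCover : Stmt_CoverAC.{u}) :
    Stmt_AlgCharts.{u} := by
  intro k _ _ D
  classical
  obtain ⟨ι₀, N, hN, hcov⟩ := hCover k D
  choose ι' E' instR instA P' hft hrig hdeg hmono hopen himg using fun j => hChart k D (N j) (hN j)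
  exact ⟨{
    ι := Σ j, ι' j
    W := fun i => E' i.1 i.2
    commRing := fun i => instR i.1 i.2
    algebra := fun i => instA i.1 i.2
    finiteType := fun i => hft i.1 i.2
    Gu := fun i => P' i.1 i.2
    isRig := fun i => hrig i.1 i.2
    degZero := fun i => hdeg i.1 i.2
    mono := fun i B _ _ φ φ' h => hmono i.1 i.2 B φ φ' h
    open_locus := fun B _ _ G hG hG0 i => hopen i.1 i.2 B G hG hG0
    cover := fun K _ _ _ G hG hG0 => by
      obtain ⟨j, hj⟩ := hcov K G hG hG0
      obtain ⟨i, φ, hφ⟩ := himg j K G hG hG0 hj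
      exact ⟨⟨j, i⟩, φ, hφ⟩ }⟩

/-- ALG-CHARTS from the statements of `helper8573_LCSpec`. -/
theorem stmt_AlgCharts_of' (hChart : Stmt_ChartOf.{u}) (hCover : Stmt_Cover.{u}) :
    Stmt_AlgCharts.{u} :=
  stmt_AlgCharts_of (stmt_ChartOfAC_of hChart) (stmt_CoverAC_of hCover)

end Fermat.Agent.S25.helper8573
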