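import Fermat.Agent.S25.helper83_CoverContract
import Fermat.Agent.S25.helper25_BaseBundle
import Fermat.Agent.S25.helper4743_CoverAsm
import Fermat.Agent.S25.helper239_ChiApi
import Fermat.Agent.S25.helper7215_FieldGlue
import Fermat.Agent.S25.helper1397_HomCover
import Fermat.Agent.S25.helper3045_HomChi
import Fermat.Agent.S25.helper8573_LCAssembly

/-!
# S25, root `Stmt_Cover` / `Stmt_CoverAC`: final assembly (helper83)

The covering statement of the chart layer: there is a small family of base bundles of degree `g`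
over `k` such that every rigidified degree-zero two-chart bundle over a field `K ⊇ k` satisfies
the intrinsic chart condition `helper8573.InChartOf` for one of them.

* `exists_fieldCoverMor` : the field side for one degree-zero bundle `G` over any field
  `K ⊇ k` (`helper1397.exists_mor_cover` + `helper3045.chi_homDatum_unit_of_degZero`);
  `stmt_FieldCoverMor` : the contract `helper83.Stmt_FieldCoverMor` of ruling R10.
* `inChartOf_baseBundle` : the base-bundle side for one `G`: a morphism `σ : G → 𝒪_K(n · D∞)`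
  vanishing on `S`, spanning all such morphisms and surjective modulo `y`, factors through
  `𝒪_K(n · D∞ − S) ≃ (helper25.baseBundle D n S)_K` (`helper25.baseOver_baseBundle_equiv`) and
  witnesses `InChartOf` (`helper4743.inChartOf_ofSubmodules`).
* `hasDegreeGenus_of_card` : the count `S.card + 1 = χ(𝒪) + n · degInf D` and `h⁰(𝒪) = 1` force
  the base bundle to have degree `g`.
* `stmt_CoverAC_of : Stmt_FieldCoverMor → helper8573.Stmt_CoverAC` (the base-bundle side of R10),
  `stmt_Cover : helper8573.Stmt_Cover` and `stmt_CoverAC : helper8573.Stmt_CoverAC` (the root).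

The family of base bundles is `helper25.baseBundle D n S = 𝒪_C(n · D∞ − S)`, indexed by the
pairs `(n, S)` for which it has degree `g`.
-/

set_option autoImplicit false

namespace Fermat.Agent.S25.helper83

open Fermat.Agent.S25.helper1705 Fermat.Agent.S25.helper2945 Fermat.Agent.S25.helper8573

universe u

section

variable {k : Type u} [Field k] [IsAlgClosed k] (D : CurveDatum k)

/-- `χ(𝒪_C) = 1 − g`. -/
theorem chi_unit_eq : (GlueDatum.unit D k).chi = 1 - (genus D : ℤ) :=
  helper7215.glue_unit_chi D k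

/-- The count of the contract forces the base bundle to have degree `g`. -/
theorem hasDegreeGenus_of_card (K : Type u) [Field K] [Algebra k K] (n : ℕ)
    (S : Finset (D.R₀ →ₐ[k] k))
    (hcard : (S.card : ℤ) + 1 =
      (GlueDatum.unit D K).chi + (n : ℤ) * (helper1153.degInf D : ℤ)) :
    HasDegreeGenus (helper25.baseBundle D n S) := by
  rw [helper25.hasDegreeGenus_baseBundle_iff]
  have h1 : (GlueDatum.unit D K).chi = (GlueDatum.unit D k).chi := helper239.chi_unit D K
  have h2 := chi_unit_eq D
  linarith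

variable {D}

/-- **Field side of the cover theorem** for one degree-zero bundle over any field `K ⊇ k`:
there are `n`, a finite set `S` of `k`-rational points of the first chart with
`S.card + 1 = χ(𝒪) + n · degInf D` and a morphism `σ : G → 𝒪_K(n · D∞)` vanishing on `S`,
spanning all such morphisms, and surjective modulo `y` on the chart at infinity. -/
theorem exists_fieldCoverMor {K : Type u} [Field K] [Algebra k K] (G : GlueDatum D K)
    (hG0 : G.DegZero) :
    ∃ (n : ℕ) (S : Finset (D.R₀ →ₐ[k] k))
      (σ : Mor G (helper3115.twist (GlueDatum.unit D K) (n : ℤ))),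
      (S.card : ℤ) + 1 = (GlueDatum.unit D K).chi + (n : ℤ) * (helper1153.degInf D : ℤ) ∧
      (∀ Q ∈ S, ∀ m, σ.f₀ m ∈ helper2531.mQ D K Q) ∧
      (∀ τ : Mor G (helper3115.twist (GlueDatum.unit D K) (n : ℤ)),
        (∀ Q ∈ S, ∀ m, τ.f₀ m ∈ helper2531.mQ D K Q) →
        ∃ c : K, (∀ m, τ.f₀ m = c • σ.f₀ m) ∧ (∀ m, τ.f₁ m = c • σ.f₁ m)) ∧
      σ.SurjModY := by
  obtain ⟨n₀, h⟩ := helper1397.exists_mor_cover G
  obtain ⟨S, σ, hcard, h1, h2, h3⟩ := h n₀ le_rfl
  refine ⟨n₀ + 1, S, σ, ?_, h1, h2, h3⟩
  rw [← helper3045.chi_homDatum_unit_of_degZero G hG0]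
  exact hcard

/-- A function on the first chart comes from `𝒪(n · D∞ − S)` iff it vanishes at every point
of `S`. -/
theorem mem_range_ptsIncl_iff (K : Type u) [Field K] [Algebra k K] (n : ℕ)
    (S : Finset (D.R₀ →ₐ[k] k)) (a : D.A₀ K) :
    a ∈ LinearMap.range (helper25.ptsIncl D K n S).f₀ ↔ ∀ Q ∈ S, a ∈ helper2531.mQ D K Q :=
  (helper25.mem_range_ptsIncl_f₀ D K n S a).trans (helper25.mem_ptsIdeal_iff D K S a)

/-- **Base-bundle side of the cover theorem** for one bundle `G` over a field `K ⊇ k`: the
data of the contract give the chart condition for the base bundle `𝒪_C(n · D∞ − S)`. -/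
theorem inChartOf_baseBundle {K : Type u} [Field K] [Algebra k K] (G : GlueDatum D K) (n : ℕ)
    (S : Finset (D.R₀ →ₐ[k] k))
    (σ : Mor G (helper3115.twist (GlueDatum.unit D K) (n : ℤ)))
    (hvan : ∀ Q ∈ S, ∀ m, σ.f₀ m ∈ helper2531.mQ D K Q)
    (hline : ∀ τ : Mor G (helper3115.twist (GlueDatum.unit D K) (n : ℤ)),
      (∀ Q ∈ S, ∀ m, τ.f₀ m ∈ helper2531.mQ D K Q) →
      ∃ c : K, (∀ m, τ.f₀ m = c • σ.f₀ m) ∧ (∀ m, τ.f₁ m = c • σ.f₁ m))
    (hsurj : σ.SurjModY) :
    InChartOf (helper25.baseBundle D n S) G := by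
  obtain ⟨u, hu, c, huc⟩ := helper25.exists_mem_ptsIdeal₁ D K S
  obtain ⟨e⟩ := helper25.baseOver_baseBundle_equiv D K n S
  refine helper4743.inChartOf_ofSubmodules (helper25.ambient D K n) (helper25.ptsSub₀ D K n S)
    (helper25.ptsSub₁ D K n S) (helper25.ptsSub_span_eq D K n S) (helper25.baseBundle D n S)
    u c (by rw [huc]; ring) (fun m => Submodule.smul_mem_smul hu trivial) ⟨e.symm⟩ σ
    (fun m => ?_) hsurj ?_
  · have h := (mem_range_ptsIncl_iff K n S (σ.f₀ m)).mpr fun Q hQ => hvan Q hQ m
    rw [helper25.range_ptsIncl_f₀] at h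
    exact h
  · intro τ hτ
    refine hline τ fun Q hQ m => (mem_range_ptsIncl_iff K n S (τ.f₀ m)).mp ?_ Q hQ
    rw [helper25.range_ptsIncl_f₀]
    exact hτ m

end

/-- **The contract of ruling R10 holds** (field side of the root `Stmt_CoverAC`). -/
theorem stmt_FieldCoverMor : Stmt_FieldCoverMor.{u} := by
  intro k _ _ D K _ _ _ G _ hG0
  exact exists_fieldCoverMor G hG0

/-- **Base-bundle side of the root `Stmt_CoverAC`** (ruling R10): the contract of the field side
implies the covering statement over algebraically closed fields. -/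
theorem stmt_CoverAC_of (h : Stmt_FieldCoverMor.{u}) : Stmt_CoverAC.{u} := by
  intro k _ _ D
  refine ⟨{p : ℕ × Finset (D.R₀ →ₐ[k] k) // HasDegreeGenus (helper25.baseBundle D p.1 p.2)},
    fun p => helper25.baseBundle D p.1.1 p.1.2, fun p => p.2, ?_⟩
  intro K _ _ _ G hG hG0
  obtain ⟨n, S, σ, hcard, hvan, hline, hsurj⟩ := h k D K G hG hG0
  exact ⟨⟨(n, S), hasDegreeGenus_of_card D K n S hcard⟩,
    inChartOf_baseBundle G n S σ hvan hline hsurj⟩

/-- **ROOT `helper8573.Stmt_Cover`.** There is a small family of base bundles of degree `g` over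
`k` such that every rigidified degree-zero two-chart bundle over a field `K ⊇ k` satisfies the
intrinsic chart condition for one of them. -/
theorem stmt_Cover : Stmt_Cover.{u} := by
  intro k _ _ D
  refine ⟨{p : ℕ × Finset (D.R₀ →ₐ[k] k) // HasDegreeGenus (helper25.baseBundle D p.1 p.2)},
    fun p => helper25.baseBundle D p.1.1 p.1.2, fun p => p.2, ?_⟩
  intro K _ _ G _ hG0
  obtain ⟨n, S, σ, hcard, hvan, hline, hsurj⟩ := exists_fieldCoverMor G hG0
  exact ⟨⟨(n, S), hasDegreeGenus_of_card D K n S hcard⟩,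
    inChartOf_baseBundle G n S σ hvan hline hsurj⟩

/-- **ROOT `helper8573.Stmt_CoverAC`.** -/
theorem stmt_CoverAC : Stmt_CoverAC.{u} :=
  helper8573.stmt_CoverAC_of stmt_Cover

end Fermat.Agent.S25.helper83
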