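import Mathlib

/-!
# Local representability for presheaves on `Over S` (any universe of values)

Statement-agnostic brick for S25 (existence of the Jacobian): a separated presheaf
`F : (Over S)ᵒᵖ ⥤ Type w` which is covered by "open charts" `ξ i ∈ F (X i)` is
representable, provided the charts glue to a section over the scheme obtained by gluing
the `X i`.  Contrary to `AlgebraicGeometry.Scheme.LocalRepresentability` the presheaf lives
on `Over S`, takes values in an arbitrary universe and no smallness is needed.
-/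

open CategoryTheory CategoryTheory.Limits AlgebraicGeometry Opposite

universe w u

namespace Fermat.Agent.S25.helper8470

noncomputable section

variable {S : Scheme.{u}}

/-- The open subscheme `U` of `T`, as an object over `S`. -/
abbrev resObj (T : Over S) (U : T.left.Opens) : Over S := Over.mk (U.ι ≫ T.hom)

/-- The inclusion of the open subscheme `U` of `T`, as a morphism over `S`. -/
abbrev resHom (T : Over S) (U : T.left.Opens) : resObj T U ⟶ T := Over.homMk U.ι rfl

section Defs

variable (F : (Over S)ᵒᵖ ⥤ Type w) {ι : Type u} (X : ι → Over S) (ξ : ∀ i, F.obj (op (X i)))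

/-- (mono) every chart is a monomorphism of presheaves. -/
def ChartMono : Prop :=
  ∀ (i : ι) (T : Over S) (a b : T ⟶ X i), F.map a.op (ξ i) = F.map b.op (ξ i) → a = b

/-- (open) every chart is relatively representable by open immersions. -/
def ChartOpen : Prop :=
  ∀ (i : ι) (T : Over S) (η : F.obj (op T)), ∃ U : T.left.Opens, ∀ (T' : Over S) (g : T' ⟶ T),
    Set.range g.left ⊆ (U : Set T.left) ↔ ∃ a : T' ⟶ X i, F.map a.op (ξ i) = F.map g.op η

/-- (cover) the charts cover `F` Zariski-locally. -/
def ChartCover : Prop :=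
  ∀ (T : Over S) (η : F.obj (op T)) (x : T.left), ∃ (i : ι) (U : T.left.Opens), x ∈ U ∧
    ∃ a : resObj T U ⟶ X i, F.map a.op (ξ i) = F.map (resHom T U).op η

/-- (sep) `F` is a separated presheaf for the Zariski topology. -/
def IsSepPresheaf : Prop :=
  ∀ (T : Over S) (η η' : F.obj (op T)),
    (∀ x : T.left, ∃ U : T.left.Opens, x ∈ U ∧
      F.map (resHom T U).op η = F.map (resHom T U).op η') → η = η'

/-- (glue) the charts glue to a section over any scheme which is covered by the charts
in a compatible way. -/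
def ChartGlue : Prop :=
  ∀ (J : Over S) (e : ∀ i, X i ⟶ J), (∀ i, IsOpenImmersion (e i).left) →
    (∀ x : J.left, ∃ i, x ∈ Set.range (e i).left) →
    (∀ (i j : ι) (T : Over S) (a : T ⟶ X i) (b : T ⟶ X j), a ≫ e i = b ≫ e j →
      F.map a.op (ξ i) = F.map b.op (ξ j)) →
    ∃ ξJ : F.obj (op J), ∀ i, F.map (e i).op ξJ = ξ i

end Defs

section Construction

variable {F : (Over S)ᵒᵖ ⥤ Type w} {ι : Type u} {X : ι → Over S} {ξ : ∀ i, F.obj (op (X i))}

lemma map_comp_op {A B C : Over S} (a : A ⟶ B) (b : B ⟶ C) (η : F.obj (op C)) :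
    F.map (a ≫ b).op η = F.map a.op (F.map b.op η) := by
  rw [op_comp, Functor.map_comp]; rfl

variable (hopen : ChartOpen F X ξ)

/-- The open subset of `X i` where the chart `ξ i` lies in the chart `j`. -/
def ovl (i j : ι) : (X i).left.Opens := (hopen j (X i) (ξ i)).choose

lemma ovl_spec (i j : ι) (T' : Over S) (g : T' ⟶ X i) :
    Set.range g.left ⊆ (ovl hopen i j : Set (X i).left) ↔
      ∃ a : T' ⟶ X j, F.map a.op (ξ j) = F.map g.op (ξ i) :=
  (hopen j (X i) (ξ i)).choose_spec T' g

lemma exists_trans (i j : ι) : ∃ a : resObj (X i) (ovl hopen i j) ⟶ X j,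
    F.map a.op (ξ j) = F.map (resHom (X i) (ovl hopen i j)).op (ξ i) := by
  refine (ovl_spec hopen i j _ (resHom (X i) (ovl hopen i j))).mp ?_
  simp [resHom]

/-- The transition map from the overlap `ovl i j ⊆ X i` to `X j`. -/
def trans (i j : ι) : resObj (X i) (ovl hopen i j) ⟶ X j := (exists_trans hopen i j).choose

lemma trans_spec (i j : ι) :
    F.map (trans hopen i j).op (ξ j) = F.map (resHom (X i) (ovl hopen i j)).op (ξ i) :=
  (exists_trans hopen i j).choose_spec

lemma map_comp_trans (i j : ι) {T : Over S} (h : T ⟶ resObj (X i) (ovl hopen i j)) :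
    F.map (h ≫ trans hopen i j).op (ξ j) = F.map (h ≫ resHom (X i) (ovl hopen i j)).op (ξ i) := by
  rw [map_comp_op, map_comp_op, trans_spec]

lemma ovl_self (i : ι) : ovl hopen i i = ⊤ := by
  have h := (ovl_spec hopen i i (X i) (𝟙 _)).mpr ⟨𝟙 _, rfl⟩
  ext x
  simp only [TopologicalSpace.Opens.coe_top, Set.mem_univ, iff_true]
  exact h ⟨x, by simp⟩


lemma range_trans_subset (i j : ι) :
    Set.range (trans hopen i j).left ⊆ Set.range (ovl hopen j i).ι := by
  rw [Scheme.Opens.range_ι]
  exact (ovl_spec hopen j i _ (trans hopen i j)).mpr ⟨resHom _ _, (trans_spec hopen i j).symm⟩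

/-- The transition map `ovl i j ⟶ ovl j i`. -/
def tr (i j : ι) : (ovl hopen i j).toScheme ⟶ (ovl hopen j i).toScheme :=
  IsOpenImmersion.lift (ovl hopen j i).ι (trans hopen i j).left (range_trans_subset hopen i j)

@[reassoc]
lemma tr_ι (i j : ι) : tr hopen i j ≫ (ovl hopen j i).ι = (trans hopen i j).left :=
  IsOpenImmersion.lift_fac _ _ _

/-- The triple overlap inside `X i`, as an object over `S`. -/
abbrev tri (i j k : ι) : Over S :=
  Over.mk (pullback.fst (ovl hopen i j).ι (ovl hopen i k).ι ≫ (ovl hopen i j).ι ≫ (X i).hom)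

/-- First projection of the triple overlap. -/
abbrev tri₁ (i j k : ι) : tri hopen i j k ⟶ resObj (X i) (ovl hopen i j) :=
  Over.homMk (pullback.fst (ovl hopen i j).ι (ovl hopen i k).ι) rfl

/-- Second projection of the triple overlap. -/
abbrev tri₂ (i j k : ι) : tri hopen i j k ⟶ resObj (X i) (ovl hopen i k) :=
  Over.homMk (pullback.snd (ovl hopen i j).ι (ovl hopen i k).ι)
    (by simp [pullback.condition_assoc])

lemma tri_comm (i j k : ι) :
    tri₁ hopen i j k ≫ resHom (X i) (ovl hopen i j) =
      tri₂ hopen i j k ≫ resHom (X i) (ovl hopen i k) := by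
  ext
  simp [pullback.condition]

lemma range_tri_subset (i j k : ι) :
    Set.range (pullback.fst (ovl hopen i j).ι (ovl hopen i k).ι ≫ (trans hopen i j).left) ⊆
      Set.range (ovl hopen j k).ι := by
  rw [Scheme.Opens.range_ι]
  refine (ovl_spec hopen j k _ (tri₁ hopen i j k ≫ trans hopen i j)).mpr
    ⟨tri₂ hopen i j k ≫ trans hopen i k, ?_⟩
  rw [map_comp_trans, map_comp_trans, tri_comm]

/-- The cocycle map on triple overlaps. -/
def tr' (i j k : ι) :
    pullback (ovl hopen i j).ι (ovl hopen i k).ι ⟶ pullback (ovl hopen j k).ι (ovl hopen j i).ι :=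
  pullback.lift
    (IsOpenImmersion.lift (ovl hopen j k).ι
      (pullback.fst (ovl hopen i j).ι (ovl hopen i k).ι ≫ (trans hopen i j).left)
      (range_tri_subset hopen i j k))
    (pullback.fst (ovl hopen i j).ι (ovl hopen i k).ι ≫ tr hopen i j)
    (by rw [IsOpenImmersion.lift_fac, Category.assoc, tr_ι])

@[reassoc]
lemma tr'_fst_ι (i j k : ι) :
    tr' hopen i j k ≫ pullback.fst _ _ ≫ (ovl hopen j k).ι =
      pullback.fst _ _ ≫ (trans hopen i j).left := by
  rw [tr', pullback.lift_fst_assoc, IsOpenImmersion.lift_fac]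

lemma tr'_snd (i j k : ι) :
    tr' hopen i j k ≫ pullback.snd _ _ = pullback.fst _ _ ≫ tr hopen i j := by
  rw [tr', pullback.lift_snd]

/-- The cocycle map on triple overlaps, as a morphism over `S`. -/
def trO (i j k : ι) : tri hopen i j k ⟶ tri hopen j k i :=
  Over.homMk (tr' hopen i j k) (by
    have h := Over.w (trans hopen i j)
    dsimp at h ⊢
    rw [tr'_fst_ι_assoc, h])

lemma trO_comp (i j k : ι) :
    trO hopen i j k ≫ tri₁ hopen j k i ≫ resHom (X j) (ovl hopen j k) =
      tri₁ hopen i j k ≫ trans hopen i j := by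
  ext
  simp [trO, tr'_fst_ι]


variable (hmono : ChartMono F X ξ)

include hmono in
lemma trans_self (i : ι) : trans hopen i i = resHom (X i) (ovl hopen i i) :=
  hmono i _ _ _ (trans_spec hopen i i)

include hmono in
lemma tr_self (i : ι) : tr hopen i i = 𝟙 _ := by
  rw [← cancel_mono (ovl hopen i i).ι, tr_ι, trans_self hopen hmono]
  simp

include hmono in
lemma trO_cocycle (i j k : ι) :
    (trO hopen i j k ≫ trO hopen j k i ≫ trO hopen k i j) ≫
        tri₁ hopen i j k ≫ resHom (X i) (ovl hopen i j) =
      tri₁ hopen i j k ≫ resHom (X i) (ovl hopen i j) := by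
  apply hmono
  have e1 : (trO hopen i j k ≫ trO hopen j k i ≫ trO hopen k i j) ≫
        tri₁ hopen i j k ≫ resHom (X i) (ovl hopen i j) =
      (trO hopen i j k ≫ trO hopen j k i ≫ tri₁ hopen k i j) ≫ trans hopen k i := by
    simp only [Category.assoc, trO_comp]
  have e2 : (trO hopen i j k ≫ trO hopen j k i ≫ tri₁ hopen k i j) ≫
        resHom (X k) (ovl hopen k i) =
      (trO hopen i j k ≫ tri₁ hopen j k i) ≫ trans hopen j k := by
    simp only [Category.assoc, trO_comp]
  have e3 : (trO hopen i j k ≫ tri₁ hopen j k i) ≫ resHom (X j) (ovl hopen j k) =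
      tri₁ hopen i j k ≫ trans hopen i j := by
    simp only [Category.assoc, trO_comp]
  rw [e1, map_comp_trans, e2, map_comp_trans, e3, map_comp_trans]

include hmono in
lemma tr'_cocycle (i j k : ι) :
    tr' hopen i j k ≫ tr' hopen j k i ≫ tr' hopen k i j = 𝟙 _ := by
  have h := congrArg CommaMorphism.left (trO_cocycle hopen hmono i j k)
  simp only [trO, Over.comp_left, Over.homMk_left] at h
  have h1 : (tr' hopen i j k ≫ tr' hopen j k i ≫ tr' hopen k i j) ≫ pullback.fst _ _ =
      pullback.fst _ _ := by
    rw [← cancel_mono (ovl hopen i j).ι, Category.assoc, h]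
  apply pullback.hom_ext
  · rw [h1, Category.id_comp]
  · rw [← cancel_mono (ovl hopen i k).ι, Category.assoc, ← pullback.condition, ← Category.assoc,
      h1, Category.id_comp]
    exact pullback.condition

/-- The gluing data built from the charts. -/
abbrev glueData : Scheme.GlueData.{u} where
  J := ι
  U i := (X i).left
  V ij := (ovl hopen ij.1 ij.2).toScheme
  f i j := (ovl hopen i j).ι
  f_mono _ _ := inferInstance
  f_hasPullback _ _ _ := inferInstance
  f_id i := by
    have h := ovl_self hopen i
    rw [h]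
    exact (Scheme.topIso _).isIso_hom
  t i j := tr hopen i j
  t_id i := tr_self hopen hmono i
  t' i j k := tr' hopen i j k
  t_fac i j k := tr'_snd hopen i j k
  cocycle i j k := tr'_cocycle hopen hmono i j k
  f_open _ _ := inferInstance


@[reassoc]
lemma glueData_condition (i j : ι) :
    (trans hopen i j).left ≫ (glueData hopen hmono).ι j =
      (ovl hopen i j).ι ≫ (glueData hopen hmono).ι i := by
  rw [← tr_ι, Category.assoc]
  exact (glueData hopen hmono).glue_condition i j

/-- Two maps into charts which agree in the glued scheme factor through the overlap. -/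
lemma exists_lift_of_comp_ι_eq (i j : ι) {T : Scheme.{u}} (a : T ⟶ (X i).left)
    (b : T ⟶ (X j).left)
    (h : a ≫ (glueData hopen hmono).ι i = b ≫ (glueData hopen hmono).ι j) :
    ∃ c : T ⟶ (ovl hopen i j).toScheme, c ≫ (ovl hopen i j).ι = a ∧
      c ≫ (trans hopen i j).left = b := by
  refine ⟨PullbackCone.IsLimit.lift ((glueData hopen hmono).vPullbackConeIsLimit i j) a b h,
    ?_, ?_⟩
  · exact PullbackCone.IsLimit.lift_fst ((glueData hopen hmono).vPullbackConeIsLimit i j) a b h
  · rw [← tr_ι hopen i j]
    exact PullbackCone.IsLimit.lift_snd ((glueData hopen hmono).vPullbackConeIsLimit i j) a b h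

lemma hom_compat_aux (i j : ι) {T : Scheme.{u}} (a : T ⟶ (X i).left) (b : T ⟶ (X j).left)
    (h : a ≫ (glueData hopen hmono).ι i = b ≫ (glueData hopen hmono).ι j) :
    a ≫ (X i).hom = b ≫ (X j).hom := by
  obtain ⟨c, hc1, hc2⟩ := exists_lift_of_comp_ι_eq hopen hmono i j a b h
  have h := Over.w (trans hopen i j)
  dsimp at h
  rw [← hc1, ← hc2, Category.assoc, Category.assoc, h]

lemma glued_hom_compat (i j : ι) :
    pullback.fst ((glueData hopen hmono).openCover.f i) ((glueData hopen hmono).openCover.f j) ≫
        (X i).hom =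
      pullback.snd ((glueData hopen hmono).openCover.f i)
        ((glueData hopen hmono).openCover.f j) ≫ (X j).hom :=
  hom_compat_aux hopen hmono i j _ _ pullback.condition

/-- The structure morphism of the glued scheme. -/
def gluedHom : (glueData hopen hmono).glued ⟶ S :=
  (glueData hopen hmono).openCover.glueMorphisms (fun i => (X i).hom)
    (glued_hom_compat hopen hmono)

@[reassoc]
lemma ι_gluedHom (i : ι) : (glueData hopen hmono).ι i ≫ gluedHom hopen hmono = (X i).hom :=
  (glueData hopen hmono).openCover.ι_glueMorphisms _ _ i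

/-- The glued scheme, as an object over `S`. -/
def glued : Over S := Over.mk (gluedHom hopen hmono)

/-- The chart maps into the glued scheme. -/
def chart (i : ι) : X i ⟶ glued hopen hmono :=
  Over.homMk ((glueData hopen hmono).ι i) (ι_gluedHom hopen hmono i)

instance chart_isOpenImmersion (i : ι) : IsOpenImmersion (chart hopen hmono i).left :=
  Scheme.GlueData.ι_isOpenImmersion (glueData hopen hmono) i

lemma chart_jointly_surjective (x : (glued hopen hmono).left) :
    ∃ i, x ∈ Set.range (chart hopen hmono i).left := by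
  obtain ⟨i, y, hy⟩ := (glueData hopen hmono).ι_jointly_surjective x
  exact ⟨i, y, hy⟩

lemma chart_compat (i j : ι) (T : Over S) (a : T ⟶ X i) (b : T ⟶ X j)
    (h : a ≫ chart hopen hmono i = b ≫ chart hopen hmono j) :
    F.map a.op (ξ i) = F.map b.op (ξ j) := by
  have h' := congrArg CommaMorphism.left h
  simp only [chart, Over.comp_left] at h'
  obtain ⟨c, hc1, hc2⟩ := exists_lift_of_comp_ι_eq hopen hmono i j a.left b.left h'
  let cO : T ⟶ resObj (X i) (ovl hopen i j) := Over.homMk c (by
    have := Over.w a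
    dsimp at this ⊢
    rw [← Category.assoc, hc1, this])
  have ha : a = cO ≫ resHom (X i) (ovl hopen i j) := by
    ext
    simp [cO, hc1]
  have hb : b = cO ≫ trans hopen i j := by
    ext
    simp [cO, hc2]
  rw [ha, hb, map_comp_trans]


section Universal

variable (T : Over S) (η : F.obj (op T))

/-- The open subset of `T` where `η` lies in the chart `i`. -/
def dom (i : ι) : T.left.Opens := (hopen i T η).choose

lemma dom_spec (i : ι) (T' : Over S) (g : T' ⟶ T) :
    Set.range g.left ⊆ (dom hopen T η i : Set T.left) ↔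
      ∃ a : T' ⟶ X i, F.map a.op (ξ i) = F.map g.op η :=
  (hopen i T η).choose_spec T' g

lemma exists_loc (i : ι) : ∃ a : resObj T (dom hopen T η i) ⟶ X i,
    F.map a.op (ξ i) = F.map (resHom T (dom hopen T η i)).op η := by
  refine (dom_spec hopen T η i _ (resHom T (dom hopen T η i))).mp ?_
  simp [resHom]

/-- The local classifying map of `η` on `dom i`. -/
def loc (i : ι) : resObj T (dom hopen T η i) ⟶ X i := (exists_loc hopen T η i).choose

lemma loc_spec (i : ι) :
    F.map (loc hopen T η i).op (ξ i) = F.map (resHom T (dom hopen T η i)).op η :=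
  (exists_loc hopen T η i).choose_spec

lemma exists_mem_dom (hcover : ChartCover F X ξ) (x : T.left) : ∃ i, x ∈ dom hopen T η i := by
  obtain ⟨i, U, hxU, a, ha⟩ := hcover T η x
  refine ⟨i, ?_⟩
  have h := (dom_spec hopen T η i _ (resHom T U)).mpr ⟨a, ha⟩
  exact h ⟨⟨x, hxU⟩, rfl⟩

lemma dom_isOpenCover (hcover : ChartCover F X ξ) :
    TopologicalSpace.IsOpenCover (dom hopen T η) := by
  refine TopologicalSpace.IsOpenCover.mk ?_
  rw [eq_top_iff]
  intro x _
  obtain ⟨i, hi⟩ := exists_mem_dom hopen T η hcover x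
  exact TopologicalSpace.Opens.mem_iSup.mpr ⟨i, hi⟩

include hmono in
lemma loc_compat (i j : ι) {P : Scheme.{u}} (p₁ : P ⟶ (dom hopen T η i).toScheme)
    (p₂ : P ⟶ (dom hopen T η j).toScheme)
    (hp : p₁ ≫ (dom hopen T η i).ι = p₂ ≫ (dom hopen T η j).ι) :
    p₁ ≫ (loc hopen T η i).left ≫ (glueData hopen hmono).ι i =
      p₂ ≫ (loc hopen T η j).left ≫ (glueData hopen hmono).ι j := by
  let PO : Over S := Over.mk (p₁ ≫ (dom hopen T η i).ι ≫ T.hom)
  let q₁ : PO ⟶ resObj T (dom hopen T η i) := Over.homMk p₁ rfl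
  let q₂ : PO ⟶ resObj T (dom hopen T η j) := Over.homMk p₂ (by
    dsimp [PO]
    rw [← Category.assoc, ← hp, Category.assoc])
  have hq : q₁ ≫ resHom T (dom hopen T η i) = q₂ ≫ resHom T (dom hopen T η j) := by
    ext
    simpa [q₁, q₂] using hp
  have hs : F.map (q₁ ≫ loc hopen T η i).op (ξ i) = F.map (q₂ ≫ loc hopen T η j).op (ξ j) := by
    rw [map_comp_op, map_comp_op, loc_spec, loc_spec, ← map_comp_op, ← map_comp_op, hq]
  have hrange : Set.range (q₁ ≫ loc hopen T η i).left ⊆ Set.range (ovl hopen i j).ι := by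
    rw [Scheme.Opens.range_ι]
    exact (ovl_spec hopen i j PO (q₁ ≫ loc hopen T η i)).mpr ⟨q₂ ≫ loc hopen T η j, hs.symm⟩
  let c : P ⟶ (ovl hopen i j).toScheme :=
    IsOpenImmersion.lift (ovl hopen i j).ι (q₁ ≫ loc hopen T η i).left hrange
  have hc : c ≫ (ovl hopen i j).ι = (q₁ ≫ loc hopen T η i).left :=
    IsOpenImmersion.lift_fac _ _ _
  let cO : PO ⟶ resObj (X i) (ovl hopen i j) := Over.homMk c (by
    have h := Over.w (q₁ ≫ loc hopen T η i)
    dsimp at h ⊢
    rw [← Category.assoc, hc]
    exact h)
  have hcO : cO ≫ resHom (X i) (ovl hopen i j) = q₁ ≫ loc hopen T η i := by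
    ext
    exact hc
  have hcO2 : cO ≫ trans hopen i j = q₂ ≫ loc hopen T η j :=
    hmono j _ _ _ (by rw [map_comp_trans, hcO, hs])
  have h1 : p₁ ≫ (loc hopen T η i).left = c ≫ (ovl hopen i j).ι := hc.symm
  have h2 : p₂ ≫ (loc hopen T η j).left = c ≫ (trans hopen i j).left :=
    (congrArg CommaMorphism.left hcO2).symm
  rw [← Category.assoc, h1, ← Category.assoc, h2, Category.assoc, Category.assoc,
    glueData_condition]

/-- The classifying map of `η`, as a morphism of schemes. -/
def classify (hcover : ChartCover F X ξ) : T.left ⟶ (glueData hopen hmono).glued :=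
  (T.left.openCoverOfIsOpenCover (dom hopen T η) (dom_isOpenCover hopen T η hcover)).glueMorphisms
    (fun i => (loc hopen T η i).left ≫ (glueData hopen hmono).ι i)
    (fun i j => loc_compat hopen hmono T η i j _ _ pullback.condition)

@[reassoc]
lemma ι_classify (hcover : ChartCover F X ξ) (i : ι) :
    (dom hopen T η i).ι ≫ classify hopen hmono T η hcover =
      (loc hopen T η i).left ≫ (glueData hopen hmono).ι i :=
  (T.left.openCoverOfIsOpenCover (dom hopen T η)
    (dom_isOpenCover hopen T η hcover)).ι_glueMorphisms _ _ i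

lemma classify_hom (hcover : ChartCover F X ξ) :
    classify hopen hmono T η hcover ≫ gluedHom hopen hmono = T.hom := by
  apply Scheme.hom_ext_of_forall
  intro x
  obtain ⟨i, hi⟩ := exists_mem_dom hopen T η hcover x
  refine ⟨dom hopen T η i, hi, ?_⟩
  have h := Over.w (loc hopen T η i)
  dsimp at h
  rw [ι_classify_assoc, ι_gluedHom, h]

/-- The classifying map of `η`, as a morphism over `S`. -/
def classifyO (hcover : ChartCover F X ξ) : T ⟶ glued hopen hmono :=
  Over.homMk (classify hopen hmono T η hcover) (classify_hom hopen hmono T η hcover)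

lemma resHom_classifyO (hcover : ChartCover F X ξ) (i : ι) :
    resHom T (dom hopen T η i) ≫ classifyO hopen hmono T η hcover =
      loc hopen T η i ≫ chart hopen hmono i := by
  ext
  exact ι_classify hopen hmono T η hcover i

lemma classifyO_spec (hcover : ChartCover F X ξ) (hsep : IsSepPresheaf F)
    (ξJ : F.obj (op (glued hopen hmono))) (hξJ : ∀ i, F.map (chart hopen hmono i).op ξJ = ξ i) :
    F.map (classifyO hopen hmono T η hcover).op ξJ = η := by
  apply hsep
  intro x
  obtain ⟨i, hi⟩ := exists_mem_dom hopen T η hcover x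
  refine ⟨dom hopen T η i, hi, ?_⟩
  rw [← map_comp_op, resHom_classifyO, map_comp_op, hξJ, loc_spec]

lemma classifyO_unique (hcover : ChartCover F X ξ)
    (ξJ : F.obj (op (glued hopen hmono))) (hξJ : ∀ i, F.map (chart hopen hmono i).op ξJ = ξ i)
    (g' : T ⟶ glued hopen hmono) (hg' : F.map g'.op ξJ = η) :
    g' = classifyO hopen hmono T η hcover := by
  ext
  apply Scheme.hom_ext_of_forall
  intro x
  obtain ⟨i, hi⟩ := chart_jointly_surjective hopen hmono (g'.left x)
  let U' : T.left.Opens := g'.left ⁻¹ᵁ (chart hopen hmono i).left.opensRange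
  have hxU' : x ∈ U' := hi
  have hrange : Set.range (U'.ι ≫ g'.left) ⊆ Set.range (chart hopen hmono i).left := by
    rintro _ ⟨z, rfl⟩
    exact z.2
  let b : U'.toScheme ⟶ (X i).left :=
    IsOpenImmersion.lift (chart hopen hmono i).left (U'.ι ≫ g'.left) hrange
  have hb : b ≫ (chart hopen hmono i).left = U'.ι ≫ g'.left := IsOpenImmersion.lift_fac _ _ _
  let bO : resObj T U' ⟶ X i := Over.homMk b (by
    have h1 := Over.w (chart hopen hmono i)
    have h2 := Over.w g'
    dsimp at h1 h2 ⊢
    rw [← h1, ← Category.assoc, hb, Category.assoc, h2])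
  have hbO : bO ≫ chart hopen hmono i = resHom T U' ≫ g' := by
    ext
    exact hb
  have hs : F.map bO.op (ξ i) = F.map (resHom T U').op η := by
    rw [← hξJ i, ← map_comp_op, hbO, map_comp_op, hg']
  have hle : U' ≤ dom hopen T η i := by
    have h := (dom_spec hopen T η i _ (resHom T U')).mpr ⟨bO, hs⟩
    intro z hz
    exact h ⟨⟨z, hz⟩, rfl⟩
  let incl : resObj T U' ⟶ resObj T (dom hopen T η i) :=
    Over.homMk (T.left.homOfLE hle) (by
      dsimp
      rw [← Category.assoc, Scheme.homOfLE_ι])
  have hincl : incl ≫ resHom T (dom hopen T η i) = resHom T U' := by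
    ext
    exact Scheme.homOfLE_ι _ hle
  have hb' : incl ≫ loc hopen T η i = bO :=
    hmono i _ _ _ (by rw [map_comp_op, loc_spec, ← map_comp_op, hincl, hs])
  have key : resHom T U' ≫ g' = resHom T U' ≫ classifyO hopen hmono T η hcover := by
    rw [← hbO, ← hb', Category.assoc, ← resHom_classifyO, ← Category.assoc, hincl]
  exact ⟨U', hxU', congrArg CommaMorphism.left key⟩

end Universal


/-- **Local representability on `Over S`.**  A separated presheaf which is covered by open
charts is representable by the scheme glued from the charts, provided the universal sections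
of the charts glue. -/
theorem exists_universal (hopen : ChartOpen F X ξ) (hmono : ChartMono F X ξ)
    (hcover : ChartCover F X ξ) (hsep : IsSepPresheaf F) (hglue : ChartGlue F X ξ) :
    ∃ (J : Over S) (ξJ : F.obj (op J)) (e : ∀ i, X i ⟶ J),
      (∀ i, IsOpenImmersion (e i).left) ∧ (∀ x : J.left, ∃ i, x ∈ Set.range (e i).left) ∧
      (∀ i, F.map (e i).op ξJ = ξ i) ∧
      ∀ (T : Over S) (η : F.obj (op T)), ∃! g : T ⟶ J, F.map g.op ξJ = η := by
  obtain ⟨ξJ, hξJ⟩ := hglue (glued hopen hmono) (chart hopen hmono)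
    (fun i => chart_isOpenImmersion hopen hmono i) (chart_jointly_surjective hopen hmono)
    (chart_compat hopen hmono)
  refine ⟨glued hopen hmono, ξJ, chart hopen hmono, fun i => chart_isOpenImmersion hopen hmono i,
    chart_jointly_surjective hopen hmono, hξJ, fun T η => ?_⟩
  exact ⟨classifyO hopen hmono T η hcover, classifyO_spec hopen hmono T η hcover hsep ξJ hξJ,
    fun g' hg' => classifyO_unique hopen hmono T η hcover ξJ hξJ g' hg'⟩

end Construction

end

end Fermat.Agent.S25.helper8470
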