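import Fermat.Agent.S25.helper7579_LRSpec
import Fermat.Agent.S25.helper8470_LocalRep

/-!
# `helper7579.Stmt_LRGen` holds

Adapter from `helper8470.exists_universal` (local representability on `Over S`, proved by
gluing the charts with `Scheme.GlueData`) to the interface statement `helper7579.Stmt_LRGen`
of layer L0 of S25.
-/

open CategoryTheory CategoryTheory.Limits AlgebraicGeometry Opposite

universe w u

namespace Fermat.Agent.S25.helper8470

noncomputable section

open Fermat.Agent.S25.helper7579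

variable {S : Scheme.{u}} {F : (Over S)ᵒᵖ ⥤ Type w}

/-- The canonical morphism `T' ⟶ Over.mk (g.left ≫ T.hom)` (an isomorphism). -/
abbrev toMk {T T' : Over S} (g : T' ⟶ T) : T' ⟶ Over.mk (g.left ≫ T.hom) :=
  Over.homMk (𝟙 _) (by simp)

/-- The canonical morphism `Over.mk (g.left ≫ T.hom) ⟶ T'` (an isomorphism). -/
abbrev ofMk {T T' : Over S} (g : T' ⟶ T) : Over.mk (g.left ≫ T.hom) ⟶ T' :=
  Over.homMk (𝟙 _) (by simp)

lemma toMk_ofMk {T T' : Over S} (g : T' ⟶ T) : toMk g ≫ ofMk g = 𝟙 _ := by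
  ext
  simp

lemma ofMk_toMk {T T' : Over S} (g : T' ⟶ T) : ofMk g ≫ toMk g = 𝟙 _ := by
  ext
  simp

lemma toMk_overRestr {T T' : Over S} (g : T' ⟶ T) : toMk g ≫ overRestr T g.left = g := by
  ext
  simp

lemma ofMk_comp {T T' : Over S} (g : T' ⟶ T) : ofMk g ≫ g = overRestr T g.left := by
  ext
  simp

lemma map_id_op (T : Over S) (η : F.obj (op T)) : F.map (𝟙 T).op η = η := by
  rw [op_id, F.map_id]
  rfl

lemma isSepPresheaf_of_presheafSep (h : PresheafSep F) : IsSepPresheaf F := by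
  intro T η η' hloc
  choose U hxU hU using hloc
  have hcov : TopologicalSpace.IsOpenCover U := by
    refine TopologicalSpace.IsOpenCover.mk ?_
    rw [eq_top_iff]
    intro x _
    exact TopologicalSpace.Opens.mem_iSup.mpr ⟨x, hxU x⟩
  exact h T (T.left.openCoverOfIsOpenCover U hcov) η η' (fun i => hU i)

variable {ι : Type u} {X : ι → Over S} {ξ : ∀ i, F.obj (op (X i))}

lemma chartGlue_of_presheafGlue (h : PresheafGlue F) : ChartGlue F X ξ := by
  intro J e he hsurj hcompat
  let 𝒰 : Scheme.OpenCover.{u} J.left :=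
    { I₀ := ι
      X := fun i => (X i).left
      f := fun i => (e i).left
      mem₀ := by
        rw [Scheme.presieve₀_mem_precoverage_iff]
        exact ⟨fun x => hsurj x, he⟩ }
  obtain ⟨s₀, hs₀⟩ := h J 𝒰 (fun i => F.map (ofMk (e i)).op (ξ i)) (by
    intro i j
    rw [← map_comp_op, ← map_comp_op]
    apply hcompat
    ext
    simp [𝒰, pullback.condition])
  refine ⟨s₀, fun i => ?_⟩
  have h1 : e i = toMk (e i) ≫ overRestr J (e i).left := (toMk_overRestr (e i)).symm
  have h2 := hs₀ i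
  rw [h1, map_comp_op]
  erw [h2]
  rw [← map_comp_op, toMk_ofMk, map_id_op]

lemma chartOpen_of_chartsOpenCover (h : ChartsOpenCover F X ξ) : ChartOpen F X ξ := by
  intro i T η
  obtain ⟨U, hU, -⟩ := h T η
  refine ⟨U i, fun T' g => ?_⟩
  have h1 : Set.range g.left ⊆ (U i : Set T.left) ↔ ∀ p : T'.left, g.left.base p ∈ U i := by
    constructor
    · intro h p
      exact h ⟨p, rfl⟩
    · rintro h _ ⟨p, rfl⟩
      exact h p
  rw [h1, hU i g.left]
  constructor
  · rintro ⟨a, ha⟩
    refine ⟨toMk g ≫ a, ?_⟩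
    rw [map_comp_op, ha, ← map_comp_op, toMk_overRestr]
  · rintro ⟨a, ha⟩
    refine ⟨ofMk g ≫ a, ?_⟩
    rw [map_comp_op, ha, ← map_comp_op, ofMk_comp]

lemma chartCover_of_chartsOpenCover (h : ChartsOpenCover F X ξ) : ChartCover F X ξ := by
  intro T η x
  obtain ⟨U, hU, hcov⟩ := h T η
  have hx : x ∈ ⨆ i, U i := by
    rw [hcov]
    trivial
  obtain ⟨i, hi⟩ := TopologicalSpace.Opens.mem_iSup.mp hx
  refine ⟨i, U i, hi, ?_⟩
  exact (hU i (U i).ι).mp (fun p => p.2)

/-- **LR**: local representability over a base, in the interface shape of layer L0. -/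
theorem stmt_LRGen : Stmt_LRGen.{w, u} := by
  intro S F hsep hglue ι X ξ hmono hoc
  obtain ⟨J, ξJ, e, he, hsurj, hξ, huniv⟩ := exists_universal
    (chartOpen_of_chartsOpenCover hoc) hmono (chartCover_of_chartsOpenCover hoc)
    (isSepPresheaf_of_presheafSep hsep) (chartGlue_of_presheafGlue hglue)
  refine ⟨J, ξJ, huniv, e, he, hξ, fun p => ?_⟩
  obtain ⟨i, q, hq⟩ := hsurj p
  exact ⟨i, q, hq⟩

end

end Fermat.Agent.S25.helper8470
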