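import Fermat.Agent.S25.helper1705_Spec2

/-!
# S25, Spec part II leaf `Stmt_CutLocal` (helper8915)

Fibrewise algebraic equivalence to zero is Zariski-local on the base, in the frozen vocabulary.

Main results:
* `fibreBack` : the comparison morphism
  `pullback (pullback.snd c t) (s' ≫ ψ) ⟶ pullback (pullback.snd c t') s'` (both are `C ×_R Spec K`);
* `isAlgEquivZero_fibre_of_pullbackAlong` : the converse, on one fibre, of the Prelude lemma
  `FibrewiseAlgEquivZero.pullback`;
* `isLocalCut_algEquivZeroCut`, `stmt_CutLocal`.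
-/

set_option autoImplicit false

universe u

open CategoryTheory CategoryTheory.Limits AlgebraicGeometry AlgebraicGeometry.RelPicard
  NeronModelInfra GoodReductionJacobian

namespace Fermat.Agent.S25.helper8915

variable {R : Type u} [CommRing R] {C : Scheme.{u}} {c : C ⟶ Spec (CommRingCat.of R)}
  {ε : SchemeHomOver (𝟙 (Spec (CommRingCat.of R))) c}

/-- The comparison morphism from the fibre of `C ×_R T` at `s' ≫ ψ` to the fibre of `C ×_R T'`
at `s'`. It is inverse to the comparison map used in the Prelude lemma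
`FibrewiseAlgEquivZero.pullback`. -/
noncomputable def fibreBack {T T' : Scheme.{u}} {t : T ⟶ Spec (CommRingCat.of R)}
    {t' : T' ⟶ Spec (CommRingCat.of R)} (ψ : SchemeHomOver t' t) {K : Type u} [Field K]
    (s' : Spec (CommRingCat.of K) ⟶ T') :
    pullback (pullback.snd c t) (s' ≫ ψ.1) ⟶ pullback (pullback.snd c t') s' :=
  pullback.lift
    (pullback.lift (pullback.fst (pullback.snd c t) (s' ≫ ψ.1) ≫ pullback.fst c t)
      (pullback.snd (pullback.snd c t) (s' ≫ ψ.1) ≫ s')
      (by
        rw [Category.assoc, pullback.condition, ← Category.assoc, pullback.condition,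
          Category.assoc, Category.assoc, Category.assoc, ψ.2]))
    (pullback.snd (pullback.snd c t) (s' ≫ ψ.1))
    (by rw [pullback.lift_snd])

theorem fibreBack_fibreAt {T T' : Scheme.{u}} {t : T ⟶ Spec (CommRingCat.of R)}
    {t' : T' ⟶ Spec (CommRingCat.of R)} (ψ : SchemeHomOver t' t) {K : Type u} [Field K]
    (s' : Spec (CommRingCat.of K) ⟶ T') :
    fibreBack (c := c) ψ s' ≫ fibreAt c t' s' = fibreAt c t (s' ≫ ψ.1) := by
  simp only [fibreBack, fibreAt, pullback.lift_snd]

theorem fibreBack_fst {T T' : Scheme.{u}} {t : T ⟶ Spec (CommRingCat.of R)}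
    {t' : T' ⟶ Spec (CommRingCat.of R)} (ψ : SchemeHomOver t' t) {K : Type u} [Field K]
    (s' : Spec (CommRingCat.of K) ⟶ T') :
    (fibreBack (c := c) ψ s' ≫ pullback.fst (pullback.snd c t') s') ≫ baseChangeSnd c ψ =
      pullback.fst (pullback.snd c t) (s' ≫ ψ.1) := by
  apply pullback.hom_ext
  · simp only [fibreBack, baseChangeSnd, Category.assoc, pullback.lift_fst, Category.comp_id]
  · simp only [fibreBack, baseChangeSnd, Category.assoc, pullback.lift_snd, pullback.lift_fst_assoc,
      pullback.lift_snd_assoc, pullback.condition]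

/-- Converse, on a single fibre, of the Prelude lemma `FibrewiseAlgEquivZero.pullback`:
if the fibre of `M.pullbackAlong ψ` at `s'` is algebraically equivalent to zero, then so is the
fibre of `M` at `s' ≫ ψ`. -/
theorem isAlgEquivZero_fibre_of_pullbackAlong {T T' : Scheme.{u}}
    {t : T ⟶ Spec (CommRingCat.of R)} {t' : T' ⟶ Spec (CommRingCat.of R)}
    (ψ : SchemeHomOver t' t) (M : RigidifiedLineBundle c ε t) {K : Type u} [Field K]
    (s' : Spec (CommRingCat.of K) ⟶ T')
    (h : IsAlgEquivZero (fibreAt c t' s')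
      ((Scheme.Modules.pullback (pullback.fst (pullback.snd c t') s')).obj
        (M.pullbackAlong ψ).L)) :
    IsAlgEquivZero (fibreAt c t (s' ≫ ψ.1))
      ((Scheme.Modules.pullback (pullback.fst (pullback.snd c t) (s' ≫ ψ.1))).obj M.L) := by
  refine IsAlgEquivZero.of_iso ?_ (h.pullback (fibreBack (c := c) ψ s') (fibreBack_fibreAt ψ s'))
  exact (Scheme.Modules.pullbackComp _ _).app _ ≪≫
    (Scheme.Modules.pullbackComp _ _).app M.L ≪≫
    (Scheme.Modules.pullbackCongr (fibreBack_fst ψ s')).app M.L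

/-- A morphism from the spectrum of a field to a scheme factors through a member of any open
cover. -/
theorem exists_lift_openCover {T : Scheme.{u}} (𝒰 : Scheme.OpenCover.{u} T) {K : Type u} [Field K]
    (s : Spec (CommRingCat.of K) ⟶ T) :
    ∃ (i : 𝒰.I₀) (s' : Spec (CommRingCat.of K) ⟶ 𝒰.X i), s' ≫ 𝒰.f i = s := by
  let x : Spec (CommRingCat.of K) := default
  obtain ⟨i, y, hy⟩ := 𝒰.exists_eq (s.base x)
  refine ⟨i, IsOpenImmersion.lift (𝒰.f i) s ?_, IsOpenImmersion.lift_fac _ _ _⟩
  rintro _ ⟨z, rfl⟩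
  exact ⟨y, by rw [hy, Subsingleton.elim z x]⟩

/-- Fibrewise algebraic equivalence to zero is Zariski-local on the base. -/
theorem isLocalCut_algEquivZeroCut (c : C ⟶ Spec (CommRingCat.of R))
    (ε : SchemeHomOver (𝟙 (Spec (CommRingCat.of R))) c) :
    helper1705.IsLocalCut (algEquivZeroCut c ε) := by
  intro T t M 𝒰 h K _ _ s
  obtain ⟨i, s', rfl⟩ := exists_lift_openCover 𝒰 s
  exact isAlgEquivZero_fibre_of_pullbackAlong
    (⟨𝒰.f i, rfl⟩ : SchemeHomOver (𝒰.f i ≫ t) t) M s' (h i K s')

/-- The Spec leaf `Stmt_CutLocal`. -/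
theorem stmt_CutLocal : helper1705.Stmt_CutLocal.{u} :=
  fun _ _ _ c ε => isLocalCut_algEquivZeroCut c ε

end Fermat.Agent.S25.helper8915
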