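import Mathlib

/-!
# Quot charts (helper1002, S25 brick QC)

Pure commutative algebra, Mathlib only.  For a commutative ring `k`, a commutative `k`-algebra `R`,
a finite type `n` and a family `s : n → R`:

* `RepAlg k R n` represents `B ↦ (R →ₐ[k] Matrix n n B)` (`repEquiv`);
* `ChartAlg k R s` represents `B ↦ {I : Ideal (R ⊗[k] B) // IsChartIdeal s I}` (`chartEquiv`),
  the functor of ideals whose quotient has the classes of `s j ⊗ 1` as a `B`-basis.
-/

set_option autoImplicit false

universe u v w t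

namespace Fermat.Agent.S25.helper1002

open TensorProduct

section Presented

theorem quotLiftₐ_mk {k : Type*} [CommRing k] {A : Type*} [CommRing A] [Algebra k A]
    {B : Type*} [CommRing B] [Algebra k B] (I : Ideal A) (f : A →ₐ[k] B)
    (hI : ∀ a : A, a ∈ I → f a = 0) (a : A) :
    Ideal.Quotient.liftₐ I f hI (Ideal.Quotient.mk I a) = f a := by
  rfl

variable {k : Type u} [CommRing k] {σ : Type v}

/-- Algebra maps out of a quotient of a polynomial algebra by the span of a set of relations. -/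
noncomputable def presentedEquiv (S : Set (MvPolynomial σ k)) (B : Type w) [CommRing B]
    [Algebra k B] :
    ((MvPolynomial σ k ⧸ Ideal.span S) →ₐ[k] B) ≃
      {f : σ → B // ∀ p ∈ S, MvPolynomial.aeval f p = 0} where
  toFun φ := ⟨fun i => φ (Ideal.Quotient.mk _ (MvPolynomial.X i)), fun p hp => by
    have h : (φ.comp (Ideal.Quotient.mkₐ k (Ideal.span S))) =
        MvPolynomial.aeval (fun i => φ (Ideal.Quotient.mk _ (MvPolynomial.X i))) := by
      apply MvPolynomial.algHom_ext
      intro i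
      simp
    rw [← h]
    have h0 : Ideal.Quotient.mk (Ideal.span S) p = 0 :=
      Ideal.Quotient.eq_zero_iff_mem.mpr (Ideal.subset_span hp)
    simp [h0]⟩
  invFun f := Ideal.Quotient.liftₐ (Ideal.span S) (MvPolynomial.aeval f.1) (fun p hp => by
    have h : Ideal.span S ≤ RingHom.ker (MvPolynomial.aeval f.1 : MvPolynomial σ k →ₐ[k] B) :=
      Ideal.span_le.mpr (fun p hp => f.2 p hp)
    exact h hp)
  left_inv φ := by
    apply Ideal.Quotient.algHom_ext
    refine (Ideal.Quotient.liftₐ_comp _ _ _).trans ?_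
    apply MvPolynomial.algHom_ext
    intro i
    simp
  right_inv f := by
    ext i
    exact (quotLiftₐ_mk _ _ _ _).trans (by simp)

@[simp]
theorem presentedEquiv_apply_coe (S : Set (MvPolynomial σ k)) (B : Type w) [CommRing B]
    [Algebra k B] (φ : (MvPolynomial σ k ⧸ Ideal.span S) →ₐ[k] B) (i : σ) :
    (presentedEquiv S B φ).1 i = φ (Ideal.Quotient.mk _ (MvPolynomial.X i)) := rfl

theorem presentedEquiv_symm_apply_mk (S : Set (MvPolynomial σ k)) (B : Type w) [CommRing B]
    [Algebra k B] (f : {f : σ → B // ∀ p ∈ S, MvPolynomial.aeval f p = 0})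
    (p : MvPolynomial σ k) :
    (presentedEquiv S B).symm f (Ideal.Quotient.mk _ p) = MvPolynomial.aeval f.1 p :=
  quotLiftₐ_mk _ _ _ _

end Presented

section Rep

variable (k : Type u) [CommRing k] (R : Type v) [CommRing R] [Algebra k R]
  (n : Type w) [Fintype n] [DecidableEq n]

open MvPolynomial in
/-- The relations cutting out algebra maps `R →ₐ[k] Matrix n n B` among families of matrix
coefficients. -/
def repRel : Set (MvPolynomial (R × n × n) k) :=
  (Set.range fun p : k × R × R × n × n =>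
      X (p.1 • p.2.1 + p.2.2.1, p.2.2.2.1, p.2.2.2.2) -
        (C p.1 * X (p.2.1, p.2.2.2.1, p.2.2.2.2) + X (p.2.2.1, p.2.2.2.1, p.2.2.2.2))) ∪
  (Set.range fun p : R × R × n × n =>
      X (p.1 * p.2.1, p.2.2.1, p.2.2.2) - ∑ l, X (p.1, p.2.2.1, l) * X (p.2.1, l, p.2.2.2)) ∪
  (Set.range fun p : n × n => X (1, p.1, p.2) - if p.1 = p.2 then 1 else 0)

/-- The coordinate ring of the scheme of `n × n` matrix representations of `R`. -/
def RepAlg : Type (max u v w) := MvPolynomial (R × n × n) k ⧸ Ideal.span (repRel k R n)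

noncomputable instance : CommRing (RepAlg k R n) :=
  inferInstanceAs (CommRing (MvPolynomial (R × n × n) k ⧸ Ideal.span (repRel k R n)))

noncomputable instance : Algebra k (RepAlg k R n) :=
  inferInstanceAs (Algebra k (MvPolynomial (R × n × n) k ⧸ Ideal.span (repRel k R n)))

variable {k R n}

theorem repRel_iff {B : Type t} [CommRing B] [Algebra k B] (f : R × n × n → B) :
    (∀ p ∈ repRel k R n, MvPolynomial.aeval f p = 0) ↔
      ((∀ (c : k) (a b : R) (i j : n),
          f (c • a + b, i, j) = algebraMap k B c * f (a, i, j) + f (b, i, j)) ∧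
        (∀ (a b : R) (i j : n), f (a * b, i, j) = ∑ l, f (a, i, l) * f (b, l, j)) ∧
        (∀ i j : n, f (1, i, j) = if i = j then 1 else 0)) := by
  constructor
  · intro h
    refine ⟨fun c a b i j => ?_, fun a b i j => ?_, fun i j => ?_⟩
    · have := h _ (Or.inl (Or.inl ⟨(c, a, b, i, j), rfl⟩))
      simpa [sub_eq_zero] using this
    · have := h _ (Or.inl (Or.inr ⟨(a, b, i, j), rfl⟩))
      simpa [sub_eq_zero] using this
    · have := h _ (Or.inr ⟨(i, j), rfl⟩)
      by_cases hij : i = j
      · simpa [hij, sub_eq_zero] using this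
      · simpa [hij, sub_eq_zero] using this
  · rintro ⟨h1, h2, h3⟩ p ((⟨⟨c, a, b, i, j⟩, rfl⟩ | ⟨⟨a, b, i, j⟩, rfl⟩) | ⟨⟨i, j⟩, rfl⟩)
    · simp [h1]
    · simp [h2]
    · by_cases hij : i = j
      · simp [hij, h3]
      · simp [hij, h3]

/-- Families of matrix coefficients satisfying the relations are algebra maps into matrices. -/
noncomputable def coeffEquiv (B : Type t) [CommRing B] [Algebra k B] :
    {f : R × n × n → B // ∀ p ∈ repRel k R n, MvPolynomial.aeval f p = 0} ≃
      (R →ₐ[k] Matrix n n B) where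
  toFun f := AlgHom.ofLinearMap
    { toFun := fun a => Matrix.of fun i j => f.1 (a, i, j)
      map_add' := fun a b => by
        ext i j
        have := ((repRel_iff f.1).1 f.2).1 1 a b i j
        simpa using this
      map_smul' := fun c a => by
        ext i j
        have h0 := ((repRel_iff f.1).1 f.2).1 1 0 0 i j
        have h1 := ((repRel_iff f.1).1 f.2).1 c a 0 i j
        simp only [smul_zero, add_zero, map_one, one_mul] at h0
        have h0' : f.1 (0, i, j) = 0 := by
          have := congrArg (fun z => z - f.1 (0, i, j)) h0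
          simpa using this.symm
        simp only [add_zero] at h1
        show f.1 (c • a, i, j) = c • f.1 (a, i, j)
        rw [h1, h0', add_zero, Algebra.smul_def] }
    (by
      ext i j
      simpa [Matrix.one_apply] using ((repRel_iff f.1).1 f.2).2.2 i j)
    (fun a b => by
      ext i j
      simpa [Matrix.mul_apply] using ((repRel_iff f.1).1 f.2).2.1 a b i j)
  invFun ρ := ⟨fun p => ρ p.1 p.2.1 p.2.2, (repRel_iff _).2 ⟨fun c a b i j => by
      show ρ (c • a + b) i j = algebraMap k B c * ρ a i j + ρ b i j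
      rw [map_add, map_smul, Matrix.add_apply, Matrix.smul_apply, Algebra.smul_def],
      fun a b i j => by simp [Matrix.mul_apply],
      fun i j => by simp [Matrix.one_apply]⟩⟩
  left_inv f := by
    ext ⟨a, i, j⟩
    rfl
  right_inv ρ := by
    ext a i j
    rfl

/-- `RepAlg k R n` represents the functor `B ↦ (R →ₐ[k] Matrix n n B)`. -/
noncomputable def repEquiv (B : Type t) [CommRing B] [Algebra k B] :
    (RepAlg k R n →ₐ[k] B) ≃ (R →ₐ[k] Matrix n n B) :=
  (presentedEquiv (repRel k R n) B).trans (coeffEquiv B)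

variable (k R n) in
/-- The universal matrix representation. -/
noncomputable def repUniv : R →ₐ[k] Matrix n n (RepAlg k R n) :=
  repEquiv (RepAlg k R n) (AlgHom.id k _)

theorem repUniv_apply (a : R) (i j : n) :
    repUniv k R n a i j = Ideal.Quotient.mk _ (MvPolynomial.X (a, i, j)) := rfl

theorem repEquiv_apply {B : Type t} [CommRing B] [Algebra k B] (f : RepAlg k R n →ₐ[k] B) :
    repEquiv B f = f.mapMatrix.comp (repUniv k R n) := by
  ext a i j
  rfl

theorem repEquiv_comp {B : Type t} [CommRing B] [Algebra k B] {B' : Type*} [CommRing B']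
    [Algebra k B'] (φ : B →ₐ[k] B') (f : RepAlg k R n →ₐ[k] B) :
    repEquiv B' (φ.comp f) = φ.mapMatrix.comp (repEquiv B f) := by
  ext a i j
  rfl

end Rep

section RepFinite

variable {k : Type u} [CommRing k] {R : Type v} [CommRing R] [Algebra k R]
  {n : Type w} [Fintype n] [DecidableEq n]

theorem repUniv_mem_adjoin (Z : Finset R) (hZ : Algebra.adjoin k (Z : Set R) = ⊤) (a : R)
    (i j : n) :
    repUniv k R n a i j ∈ Algebra.adjoin k
      (Set.range fun p : {x // x ∈ Z} × n × n => repUniv k R n p.1.1 p.2.1 p.2.2) := by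
  have ha : a ∈ Algebra.adjoin k (Z : Set R) := hZ ▸ Algebra.mem_top
  induction ha using Algebra.adjoin_induction generalizing i j with
  | mem x hx => exact Algebra.subset_adjoin ⟨(⟨x, hx⟩, i, j), rfl⟩
  | algebraMap c =>
    rw [AlgHom.commutes, Matrix.algebraMap_matrix_apply]
    split_ifs
    · exact Subalgebra.algebraMap_mem _ _
    · exact Subalgebra.zero_mem _
  | add x y _ _ hx hy =>
    rw [map_add, Matrix.add_apply]
    exact Subalgebra.add_mem _ (hx i j) (hy i j)
  | mul x y _ _ hx hy =>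
    rw [map_mul, Matrix.mul_apply]
    exact Subalgebra.sum_mem _ (fun l _ => Subalgebra.mul_mem _ (hx i l) (hy l j))

theorem repAlg_adjoin_eq_top (Z : Finset R) (hZ : Algebra.adjoin k (Z : Set R) = ⊤) :
    Algebra.adjoin k
      (Set.range fun p : {x // x ∈ Z} × n × n => repUniv k R n p.1.1 p.2.1 p.2.2) = ⊤ := by
  rw [eq_top_iff]
  rintro x -
  obtain ⟨p, rfl⟩ := Ideal.Quotient.mk_surjective x
  induction p using MvPolynomial.induction_on with
  | C c => exact Subalgebra.algebraMap_mem _ c
  | add p q hp hq =>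
    rw [map_add]
    exact Subalgebra.add_mem _ hp hq
  | mul_X p i hp =>
    rw [map_mul]
    exact Subalgebra.mul_mem _ hp (repUniv_mem_adjoin Z hZ i.1 i.2.1 i.2.2)

instance repAlg_finiteType [Algebra.FiniteType k R] : Algebra.FiniteType k (RepAlg k R n) := by
  classical
  obtain ⟨Z, hZ⟩ := (Algebra.FiniteType.out : (⊤ : Subalgebra k R).FG)
  refine ⟨⟨Finset.image (fun p : {x // x ∈ Z} × n × n => repUniv k R n p.1.1 p.2.1 p.2.2)
    Finset.univ, ?_⟩⟩
  rw [Finset.coe_image, Finset.coe_univ, Set.image_univ]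
  exact repAlg_adjoin_eq_top Z hZ

end RepFinite

section PresentedTower

variable {k : Type u} [CommRing k] {A : Type v} [CommRing A] [Algebra k A] {σ : Type w}

theorem aevalTower_eq_zero_of_mem (S : Set (MvPolynomial σ A)) {B : Type t} [CommRing B]
    [Algebra k B] (p : (A →ₐ[k] B) × (σ → B))
    (hp : ∀ q ∈ S, MvPolynomial.aevalTower p.1 p.2 q = 0) :
    ∀ q ∈ Ideal.span S, MvPolynomial.aevalTower p.1 p.2 q = 0 := by
  intro q hq
  have h : Ideal.span S ≤ RingHom.ker
      (MvPolynomial.aevalTower p.1 p.2 : MvPolynomial σ A →ₐ[k] B) :=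
    Ideal.span_le.mpr (fun q hq => hp q hq)
  exact h hq

/-- `k`-algebra maps out of a quotient of a polynomial algebra over a `k`-algebra `A`. -/
noncomputable def presentedTowerEquiv (S : Set (MvPolynomial σ A)) (B : Type t) [CommRing B]
    [Algebra k B] :
    ((MvPolynomial σ A ⧸ Ideal.span S) →ₐ[k] B) ≃
      {p : (A →ₐ[k] B) × (σ → B) // ∀ q ∈ S, MvPolynomial.aevalTower p.1 p.2 q = 0} where
  toFun φ := ⟨(φ.comp ((Ideal.Quotient.mkₐ k (Ideal.span S)).comp
        (IsScalarTower.toAlgHom k A (MvPolynomial σ A))),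
      fun i => φ (Ideal.Quotient.mk _ (MvPolynomial.X i))), fun q hq => by
    have h : (φ.comp (Ideal.Quotient.mkₐ k (Ideal.span S))) =
        MvPolynomial.aevalTower (φ.comp ((Ideal.Quotient.mkₐ k (Ideal.span S)).comp
          (IsScalarTower.toAlgHom k A (MvPolynomial σ A))))
          (fun i => φ (Ideal.Quotient.mk _ (MvPolynomial.X i))) := by
      apply AlgHom.coe_ringHom_injective
      apply MvPolynomial.ringHom_ext
      · intro a
        simp [MvPolynomial.algebraMap_eq]
      · intro i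
        simp
    show MvPolynomial.aevalTower _ _ q = 0
    rw [← h]
    have h0 : Ideal.Quotient.mk (Ideal.span S) q = 0 :=
      Ideal.Quotient.eq_zero_iff_mem.mpr (Ideal.subset_span hq)
    simp [h0]⟩
  invFun p := Ideal.Quotient.liftₐ (Ideal.span S) (MvPolynomial.aevalTower p.1.1 p.1.2)
    (aevalTower_eq_zero_of_mem S p.1 p.2)
  left_inv φ := by
    apply Ideal.Quotient.algHom_ext
    refine (Ideal.Quotient.liftₐ_comp _ _ _).trans ?_
    apply AlgHom.coe_ringHom_injective
    apply MvPolynomial.ringHom_ext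
    · intro a
      simp [MvPolynomial.algebraMap_eq]
    · intro i
      simp
  right_inv p := by
    apply Subtype.ext
    apply Prod.ext
    · ext a
      exact (quotLiftₐ_mk (Ideal.span S) (MvPolynomial.aevalTower p.1.1 p.1.2)
        (aevalTower_eq_zero_of_mem S p.1 p.2) (MvPolynomial.C a)).trans
        (MvPolynomial.aevalTower_C _ _ _)
    · ext i
      exact (quotLiftₐ_mk (Ideal.span S) (MvPolynomial.aevalTower p.1.1 p.1.2)
        (aevalTower_eq_zero_of_mem S p.1 p.2) (MvPolynomial.X i)).trans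
        (MvPolynomial.aevalTower_X _ _ _)

theorem presentedTowerEquiv_apply_fst (S : Set (MvPolynomial σ A)) (B : Type t) [CommRing B]
    [Algebra k B] (φ : (MvPolynomial σ A ⧸ Ideal.span S) →ₐ[k] B) (a : A) :
    (presentedTowerEquiv S B φ).1.1 a = φ (Ideal.Quotient.mk _ (MvPolynomial.C a)) := rfl

theorem presentedTowerEquiv_apply_snd (S : Set (MvPolynomial σ A)) (B : Type t) [CommRing B]
    [Algebra k B] (φ : (MvPolynomial σ A ⧸ Ideal.span S) →ₐ[k] B) (i : σ) :
    (presentedTowerEquiv S B φ).1.2 i = φ (Ideal.Quotient.mk _ (MvPolynomial.X i)) := rfl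

end PresentedTower

section Chart

variable (k : Type u) [CommRing k] (R : Type v) [CommRing R] [Algebra k R]
  {n : Type w} [Fintype n] [DecidableEq n] (s : n → R)

open MvPolynomial in
/-- The relations `ρ (s j) *ᵥ v = e_j` on pairs (matrix representation, vector). -/
def chartRel : Set (MvPolynomial n (RepAlg k R n)) :=
  Set.range fun p : n × n =>
    ∑ l, C (repUniv k R n (s p.1) p.2 l) * X l - if p.2 = p.1 then 1 else 0

/-- The coordinate ring of the quot chart attached to the family `s`. -/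
def ChartAlg : Type (max u v w) := MvPolynomial n (RepAlg k R n) ⧸ Ideal.span (chartRel k R s)

noncomputable instance : CommRing (ChartAlg k R s) :=
  inferInstanceAs (CommRing (MvPolynomial n (RepAlg k R n) ⧸ Ideal.span (chartRel k R s)))

noncomputable instance : Algebra k (ChartAlg k R s) :=
  inferInstanceAs (Algebra k (MvPolynomial n (RepAlg k R n) ⧸ Ideal.span (chartRel k R s)))

instance chartAlg_finiteType [Algebra.FiniteType k R] : Algebra.FiniteType k (ChartAlg k R s) :=
  inferInstanceAs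
    (Algebra.FiniteType k (MvPolynomial n (RepAlg k R n) ⧸ Ideal.span (chartRel k R s)))

/-- Pairs (matrix representation `ρ` of `R` over `B`, vector `v`) with `ρ (s j) *ᵥ v = e_j`:
cyclic `R ⊗ B`-module structures on `B^n` with generator `v` in which `s j • v = e_j`. -/
def CycPair (B : Type t) [CommRing B] [Algebra k B] : Type (max v w t) :=
  {p : (R →ₐ[k] Matrix n n B) × (n → B) // ∀ j, (p.1 (s j)).mulVec p.2 = Pi.single j 1}

variable {k R s}

theorem chartRel_iff {B : Type t} [CommRing B] [Algebra k B] (f : RepAlg k R n →ₐ[k] B)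
    (v : n → B) :
    (∀ q ∈ chartRel k R s, MvPolynomial.aevalTower f v q = 0) ↔
      ∀ j, (repEquiv B f (s j)).mulVec v = Pi.single j 1 := by
  have key : ∀ i j : n, MvPolynomial.aevalTower f v
      (∑ l, MvPolynomial.C (repUniv k R n (s j) i l) * MvPolynomial.X l -
        if i = j then 1 else 0) =
      (repEquiv B f (s j)).mulVec v i - (Pi.single j 1 : n → B) i := by
    intro i j
    rw [repEquiv_apply]
    by_cases hij : i = j
    · subst hij
      simp [Matrix.mulVec, dotProduct]
    · simp [Matrix.mulVec, dotProduct, hij]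
  constructor
  · intro h j
    ext i
    have := h _ ⟨(j, i), rfl⟩
    rw [key, sub_eq_zero] at this
    exact this
  · rintro h q ⟨⟨j, i⟩, rfl⟩
    rw [key, h j, sub_self]

/-- `ChartAlg k R s` represents the functor of cyclic pairs. -/
noncomputable def chartPairEquiv (B : Type t) [CommRing B] [Algebra k B] :
    (ChartAlg k R s →ₐ[k] B) ≃ CycPair k R s B :=
  (presentedTowerEquiv (chartRel k R s) B).trans
    (Equiv.subtypeEquiv (Equiv.prodCongr (repEquiv B) (Equiv.refl _))
      (fun p => chartRel_iff p.1 p.2))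

theorem chartPairEquiv_comp {B : Type t} [CommRing B] [Algebra k B] {B' : Type*} [CommRing B']
    [Algebra k B'] (φ : B →ₐ[k] B') (f : ChartAlg k R s →ₐ[k] B) :
    (chartPairEquiv B' (φ.comp f)).1 =
      (φ.mapMatrix.comp (chartPairEquiv B f).1.1, fun i => φ ((chartPairEquiv B f).1.2 i)) := by
  apply Prod.ext
  · ext a i j
    rfl
  · ext i
    rfl

end Chart

section ChartIdeal

variable {k : Type u} [CommRing k] {R : Type v} [CommRing R] [Algebra k R]
  {n : Type w} [Fintype n] [DecidableEq n] {s : n → R}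
  {B : Type t} [CommRing B] [Algebra k B]

/-- `I` is a chart ideal for the family `s` if the classes of `s j ⊗ 1` form a `B`-basis of
`(R ⊗[k] B) ⧸ I` (for the `B`-module structure through the right tensor factor). -/
def IsChartIdeal (s : n → R) (I : Ideal (R ⊗[k] B)) : Prop :=
  Function.Bijective (fun v : n → B => Ideal.Quotient.mk I (∑ j, s j ⊗ₜ[k] v j))

/-- The algebra map `R ⊗[k] B → Matrix n n B`, `r ⊗ b ↦ b • ρ r`. -/
noncomputable def tensorRep (ρ : R →ₐ[k] Matrix n n B) : R ⊗[k] B →ₐ[k] Matrix n n B :=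
  Algebra.TensorProduct.lift ρ ((Algebra.ofId B (Matrix n n B)).restrictScalars k)
    (fun r b => (Algebra.commutes b (ρ r)).symm)

theorem tensorRep_tmul (ρ : R →ₐ[k] Matrix n n B) (r : R) (b : B) :
    tensorRep ρ (r ⊗ₜ[k] b) = b • ρ r := by
  have h : tensorRep ρ (r ⊗ₜ[k] b) = ρ r * algebraMap B (Matrix n n B) b :=
    Algebra.TensorProduct.lift_tmul _ _ _ r b
  rw [h, Algebra.algebraMap_eq_smul_one, mul_smul_comm, mul_one]

theorem tensorRep_tmul_mulVec (ρ : R →ₐ[k] Matrix n n B) (r : R) (b : B) (v : n → B) :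
    (tensorRep ρ (r ⊗ₜ[k] b)).mulVec v = b • (ρ r).mulVec v := by
  rw [tensorRep_tmul, Matrix.smul_mulVec]

theorem tensorRep_sum_mulVec (ρ : R →ₐ[k] Matrix n n B) (v : n → B)
    (h : ∀ j, (ρ (s j)).mulVec v = Pi.single j 1) (w : n → B) :
    (tensorRep ρ (∑ j, s j ⊗ₜ[k] w j)).mulVec v = w := by
  rw [map_sum, Matrix.sum_mulVec]
  simp_rw [tensorRep_tmul_mulVec, h]
  ext i
  simp [Finset.sum_apply, Pi.single_apply]

/-- The ideal of `R ⊗[k] B` attached to a pair `(ρ, v)`: the annihilator of `v`. -/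
noncomputable def pairIdeal (ρ : R →ₐ[k] Matrix n n B) (v : n → B) : Ideal (R ⊗[k] B) where
  carrier := {x | (tensorRep ρ x).mulVec v = 0}
  add_mem' := by
    intro a b (ha : (tensorRep ρ a).mulVec v = 0) (hb : (tensorRep ρ b).mulVec v = 0)
    show (tensorRep ρ (a + b)).mulVec v = 0
    rw [map_add, Matrix.add_mulVec, ha, hb, add_zero]
  zero_mem' := by
    show (tensorRep ρ 0).mulVec v = 0
    rw [map_zero, Matrix.zero_mulVec]
  smul_mem' := by
    intro c x (hx : (tensorRep ρ x).mulVec v = 0)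
    show (tensorRep ρ (c * x)).mulVec v = 0
    rw [map_mul, ← Matrix.mulVec_mulVec, hx, Matrix.mulVec_zero]

theorem mem_pairIdeal (ρ : R →ₐ[k] Matrix n n B) (v : n → B) (x : R ⊗[k] B) :
    x ∈ pairIdeal ρ v ↔ (tensorRep ρ x).mulVec v = 0 := Iff.rfl

theorem sub_sum_mem_pairIdeal (ρ : R →ₐ[k] Matrix n n B) (v : n → B)
    (h : ∀ j, (ρ (s j)).mulVec v = Pi.single j 1) (x : R ⊗[k] B) :
    x - ∑ j, s j ⊗ₜ[k] (tensorRep ρ x).mulVec v j ∈ pairIdeal ρ v := by
  rw [mem_pairIdeal, map_sub, Matrix.sub_mulVec, tensorRep_sum_mulVec ρ v h, sub_self]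

theorem isChartIdeal_pairIdeal (ρ : R →ₐ[k] Matrix n n B) (v : n → B)
    (h : ∀ j, (ρ (s j)).mulVec v = Pi.single j 1) : IsChartIdeal s (pairIdeal ρ v) := by
  constructor
  · intro w w' hww'
    have h1 : (∑ j, s j ⊗ₜ[k] w j) - (∑ j, s j ⊗ₜ[k] w' j) ∈ pairIdeal ρ v :=
      Ideal.Quotient.eq.mp hww'
    rw [mem_pairIdeal, map_sub, Matrix.sub_mulVec, tensorRep_sum_mulVec ρ v h,
      tensorRep_sum_mulVec ρ v h, sub_eq_zero] at h1
    exact h1
  · intro q
    obtain ⟨x, rfl⟩ := Ideal.Quotient.mk_surjective q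
    exact ⟨(tensorRep ρ x).mulVec v, (Ideal.Quotient.eq.mpr (sub_sum_mem_pairIdeal ρ v h x)).symm⟩

/-! ### From a chart ideal back to a pair -/

/-- Coordinates of an element of `R ⊗[k] B` modulo a chart ideal. -/
noncomputable def coord {I : Ideal (R ⊗[k] B)} (hI : IsChartIdeal s I) (x : R ⊗[k] B) : n → B :=
  (Equiv.ofBijective _ hI).symm (Ideal.Quotient.mk I x)

omit [DecidableEq n] in
theorem mk_sum_coord {I : Ideal (R ⊗[k] B)} (hI : IsChartIdeal s I) (x : R ⊗[k] B) :
    Ideal.Quotient.mk I (∑ j, s j ⊗ₜ[k] coord hI x j) = Ideal.Quotient.mk I x :=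
  (Equiv.ofBijective _ hI).apply_symm_apply (Ideal.Quotient.mk I x)

omit [DecidableEq n] in
theorem coord_eq_iff {I : Ideal (R ⊗[k] B)} (hI : IsChartIdeal s I) (x : R ⊗[k] B) (w : n → B) :
    coord hI x = w ↔ Ideal.Quotient.mk I x = Ideal.Quotient.mk I (∑ j, s j ⊗ₜ[k] w j) := by
  constructor
  · rintro rfl
    exact (mk_sum_coord hI x).symm
  · intro h
    apply hI.1
    show Ideal.Quotient.mk I (∑ j, s j ⊗ₜ[k] coord hI x j) = _
    rw [mk_sum_coord, h]

omit [DecidableEq n] in
theorem coord_sum {I : Ideal (R ⊗[k] B)} (hI : IsChartIdeal s I) (w : n → B) :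
    coord hI (∑ j, s j ⊗ₜ[k] w j) = w :=
  (coord_eq_iff hI _ _).2 rfl

omit [DecidableEq n] in
theorem coord_eq_zero_iff {I : Ideal (R ⊗[k] B)} (hI : IsChartIdeal s I) (x : R ⊗[k] B) :
    coord hI x = 0 ↔ x ∈ I := by
  rw [coord_eq_iff, ← Ideal.Quotient.eq_zero_iff_mem]
  simp

omit [DecidableEq n] in
theorem coord_add {I : Ideal (R ⊗[k] B)} (hI : IsChartIdeal s I) (x y : R ⊗[k] B) :
    coord hI (x + y) = coord hI x + coord hI y := by
  rw [coord_eq_iff, map_add, ← mk_sum_coord hI x, ← mk_sum_coord hI y, ← map_add,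
    ← Finset.sum_add_distrib]
  simp [TensorProduct.tmul_add]

theorem coord_single {I : Ideal (R ⊗[k] B)} (hI : IsChartIdeal s I) (l : n) (b : B) :
    coord hI (s l ⊗ₜ[k] b) = Pi.single l b := by
  rw [coord_eq_iff]
  congr 1
  rw [Finset.sum_eq_single l]
  · simp
  · intro j _ hj
    simp [hj]
  · intro hl
    exact absurd (Finset.mem_univ l) hl

/-- The matrix of multiplication by `u` in the basis given by `s`. -/
noncomputable def mulMat {I : Ideal (R ⊗[k] B)} (hI : IsChartIdeal s I) (u : R ⊗[k] B) :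
    Matrix n n B :=
  Matrix.of fun i l => coord hI (u * s l ⊗ₜ[k] 1) i

omit [DecidableEq n] in
theorem coord_mul {I : Ideal (R ⊗[k] B)} (hI : IsChartIdeal s I) (u x : R ⊗[k] B) :
    coord hI (u * x) = (mulMat hI u).mulVec (coord hI x) := by
  rw [coord_eq_iff, map_mul, ← mk_sum_coord hI x, ← map_mul, Finset.mul_sum]
  have h1 : ∀ l, Ideal.Quotient.mk I (u * s l ⊗ₜ[k] coord hI x l) =
      Ideal.Quotient.mk I (∑ i, s i ⊗ₜ[k] (mulMat hI u i l * coord hI x l)) := by
    intro l
    have h2 : u * s l ⊗ₜ[k] coord hI x l = ((1 : R) ⊗ₜ[k] coord hI x l) * (u * s l ⊗ₜ[k] 1) := by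
      rw [mul_left_comm, Algebra.TensorProduct.tmul_mul_tmul, one_mul, mul_one]
    rw [h2, map_mul, ← mk_sum_coord hI (u * s l ⊗ₜ[k] 1), ← map_mul, Finset.mul_sum]
    congr 1
    refine Finset.sum_congr rfl fun i _ => ?_
    rw [Algebra.TensorProduct.tmul_mul_tmul, one_mul, mul_comm]
    rfl
  rw [map_sum]
  simp_rw [h1]
  rw [← map_sum, Finset.sum_comm]
  congr 1
  refine Finset.sum_congr rfl fun i _ => ?_
  rw [← TensorProduct.tmul_sum]
  rfl

omit [DecidableEq n] in
theorem mulMat_mul {I : Ideal (R ⊗[k] B)} (hI : IsChartIdeal s I) (u u' : R ⊗[k] B) :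
    mulMat hI (u * u') = mulMat hI u * mulMat hI u' := by
  ext i l
  show coord hI (u * u' * s l ⊗ₜ[k] 1) i = _
  rw [mul_assoc, coord_mul, Matrix.mul_apply]
  rfl


theorem mulMat_one {I : Ideal (R ⊗[k] B)} (hI : IsChartIdeal s I) :
    mulMat hI (1 : R ⊗[k] B) = 1 := by
  ext i l
  show coord hI (1 * s l ⊗ₜ[k] 1) i = _
  rw [one_mul, coord_single, Matrix.one_apply, Pi.single_apply]

omit [DecidableEq n] in
theorem mulMat_add {I : Ideal (R ⊗[k] B)} (hI : IsChartIdeal s I) (u u' : R ⊗[k] B) :
    mulMat hI (u + u') = mulMat hI u + mulMat hI u' := by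
  ext i l
  show coord hI ((u + u') * s l ⊗ₜ[k] 1) i = _
  rw [add_mul, coord_add]
  rfl

theorem mulMat_one_tmul {I : Ideal (R ⊗[k] B)} (hI : IsChartIdeal s I) (b : B) :
    mulMat hI ((1 : R) ⊗ₜ[k] b) = algebraMap B (Matrix n n B) b := by
  ext i l
  show coord hI ((1 : R) ⊗ₜ[k] b * s l ⊗ₜ[k] 1) i = _
  rw [Algebra.TensorProduct.tmul_mul_tmul, one_mul, mul_one, coord_single,
    Matrix.algebraMap_matrix_apply, Pi.single_apply]
  simp

/-- The matrix representation of `R` on the quotient by a chart ideal, in the basis `s`. -/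
noncomputable def idealRep {I : Ideal (R ⊗[k] B)} (hI : IsChartIdeal s I) :
    R →ₐ[k] Matrix n n B where
  toFun r := mulMat hI (r ⊗ₜ[k] 1)
  map_one' := mulMat_one hI
  map_mul' r r' := by
    rw [← mulMat_mul, Algebra.TensorProduct.tmul_mul_tmul, mul_one]
  map_zero' := by
    have h := mulMat_add hI (0 : R ⊗[k] B) 0
    rw [add_zero] at h
    rw [TensorProduct.zero_tmul]
    exact left_eq_add.mp h
  map_add' r r' := by
    rw [TensorProduct.add_tmul, mulMat_add]
  commutes' c := by
    have h : algebraMap k R c ⊗ₜ[k] (1 : B) = (1 : R) ⊗ₜ[k] algebraMap k B c := by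
      rw [Algebra.algebraMap_eq_smul_one, Algebra.algebraMap_eq_smul_one, TensorProduct.smul_tmul]
    show mulMat hI (algebraMap k R c ⊗ₜ[k] 1) = _
    rw [h, mulMat_one_tmul]
    rfl

theorem idealRep_apply {I : Ideal (R ⊗[k] B)} (hI : IsChartIdeal s I) (r : R) :
    idealRep hI r = mulMat hI (r ⊗ₜ[k] 1) := rfl

/-- The cyclic vector attached to a chart ideal: the coordinates of `1`. -/
noncomputable def idealVec {I : Ideal (R ⊗[k] B)} (hI : IsChartIdeal s I) : n → B :=
  coord hI 1

theorem idealRep_mulVec_idealVec {I : Ideal (R ⊗[k] B)} (hI : IsChartIdeal s I) (j : n) :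
    (idealRep hI (s j)).mulVec (idealVec hI) = Pi.single j 1 := by
  rw [idealRep_apply, idealVec, ← coord_mul, mul_one, coord_single]

theorem tensorRep_idealRep_mulVec {I : Ideal (R ⊗[k] B)} (hI : IsChartIdeal s I)
    (x : R ⊗[k] B) : (tensorRep (idealRep hI) x).mulVec (idealVec hI) = coord hI x := by
  induction x using TensorProduct.induction_on with
  | zero =>
    rw [map_zero, Matrix.zero_mulVec]
    exact ((coord_eq_zero_iff hI 0).2 I.zero_mem).symm
  | tmul r b =>
    rw [tensorRep_tmul_mulVec, idealRep_apply, idealVec, ← coord_mul, mul_one]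
    have h : r ⊗ₜ[k] b = ((1 : R) ⊗ₜ[k] b) * (r ⊗ₜ[k] 1) := by
      rw [Algebra.TensorProduct.tmul_mul_tmul, one_mul, mul_one]
    rw [h, coord_mul, mulMat_one_tmul, Algebra.algebraMap_eq_smul_one, Matrix.smul_mulVec,
      Matrix.one_mulVec]
  | add x y hx hy =>
    rw [map_add, Matrix.add_mulVec, hx, hy, coord_add]

theorem pairIdeal_idealRep {I : Ideal (R ⊗[k] B)} (hI : IsChartIdeal s I) :
    pairIdeal (idealRep hI) (idealVec hI) = I := by
  ext x
  rw [mem_pairIdeal, tensorRep_idealRep_mulVec, coord_eq_zero_iff]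

theorem coord_pairIdeal (ρ : R →ₐ[k] Matrix n n B) (v : n → B)
    (h : ∀ j, (ρ (s j)).mulVec v = Pi.single j 1) (x : R ⊗[k] B) :
    coord (isChartIdeal_pairIdeal ρ v h) x = (tensorRep ρ x).mulVec v := by
  rw [coord_eq_iff]
  exact Ideal.Quotient.eq.mpr (sub_sum_mem_pairIdeal ρ v h x)

theorem idealRep_pairIdeal (ρ : R →ₐ[k] Matrix n n B) (v : n → B)
    (h : ∀ j, (ρ (s j)).mulVec v = Pi.single j 1) :
    idealRep (isChartIdeal_pairIdeal ρ v h) = ρ := by
  ext r i l
  show coord (isChartIdeal_pairIdeal ρ v h) (r ⊗ₜ[k] 1 * s l ⊗ₜ[k] 1) i = ρ r i l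
  rw [coord_pairIdeal ρ v h, Algebra.TensorProduct.tmul_mul_tmul, mul_one, tensorRep_tmul_mulVec,
    one_smul, map_mul, ← Matrix.mulVec_mulVec, h l]
  simp

theorem idealVec_pairIdeal (ρ : R →ₐ[k] Matrix n n B) (v : n → B)
    (h : ∀ j, (ρ (s j)).mulVec v = Pi.single j 1) :
    idealVec (isChartIdeal_pairIdeal ρ v h) = v := by
  rw [idealVec, coord_pairIdeal ρ v h, map_one, Matrix.one_mulVec]

/-- Cyclic pairs are the same as chart ideals. -/
noncomputable def cycPairEquivIdeal :
    CycPair k R s B ≃ {I : Ideal (R ⊗[k] B) // IsChartIdeal s I} where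
  toFun p := ⟨pairIdeal p.1.1 p.1.2, isChartIdeal_pairIdeal p.1.1 p.1.2 p.2⟩
  invFun I := ⟨(idealRep I.2, idealVec I.2), idealRep_mulVec_idealVec I.2⟩
  left_inv p := by
    apply Subtype.ext
    apply Prod.ext
    · exact idealRep_pairIdeal p.1.1 p.1.2 p.2
    · exact idealVec_pairIdeal p.1.1 p.1.2 p.2
  right_inv I := Subtype.ext (pairIdeal_idealRep I.2)

variable (k R s) in
/-- **Quot-chart representability.** `ChartAlg k R s` represents the functor sending a
`k`-algebra `B` to the set of ideals `I` of `R ⊗[k] B` such that the classes of the `s j ⊗ 1`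
form a `B`-basis of the quotient. -/
noncomputable def chartEquiv (B : Type t) [CommRing B] [Algebra k B] :
    (ChartAlg k R s →ₐ[k] B) ≃ {I : Ideal (R ⊗[k] B) // IsChartIdeal s I} :=
  (chartPairEquiv B).trans cycPairEquivIdeal

/-! ### Naturality in `B` -/

section Naturality

variable {B' : Type*} [CommRing B'] [Algebra k B']

theorem mapMatrix_mulVec (φ : B →ₐ[k] B') (M : Matrix n n B) (v : n → B) :
    (φ.mapMatrix M).mulVec (fun i => φ (v i)) = fun i => φ (M.mulVec v i) := by
  ext i
  exact (RingHom.map_mulVec (φ : B →+* B') M v i).symm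

theorem tensorRep_map (φ : B →ₐ[k] B') (ρ : R →ₐ[k] Matrix n n B) (x : R ⊗[k] B) :
    tensorRep (φ.mapMatrix.comp ρ) (Algebra.TensorProduct.map (AlgHom.id k R) φ x) =
      φ.mapMatrix (tensorRep ρ x) := by
  induction x using TensorProduct.induction_on with
  | zero => simp
  | tmul r b =>
    rw [Algebra.TensorProduct.map_tmul, tensorRep_tmul, tensorRep_tmul]
    ext i j
    simp
  | add x y hx hy => rw [map_add, map_add, hx, hy, map_add, map_add]

theorem pairIdeal_map (φ : B →ₐ[k] B') (ρ : R →ₐ[k] Matrix n n B) (v : n → B)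
    (h : ∀ j, (ρ (s j)).mulVec v = Pi.single j 1) :
    pairIdeal (φ.mapMatrix.comp ρ) (fun i => φ (v i)) =
      Ideal.map (Algebra.TensorProduct.map (AlgHom.id k R) φ) (pairIdeal ρ v) := by
  apply le_antisymm
  · intro x hx
    have key : ∀ x : R ⊗[k] B',
        x - ∑ j, s j ⊗ₜ[k] (tensorRep (φ.mapMatrix.comp ρ) x).mulVec (fun i => φ (v i)) j ∈
          Ideal.map (Algebra.TensorProduct.map (AlgHom.id k R) φ) (pairIdeal ρ v) := by
      intro x
      induction x using TensorProduct.induction_on with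
      | zero => simp
      | tmul r b =>
        have h1 : r ⊗ₜ[k] b - ∑ j, s j ⊗ₜ[k]
              (tensorRep (φ.mapMatrix.comp ρ) (r ⊗ₜ[k] b)).mulVec (fun i => φ (v i)) j =
            ((1 : R) ⊗ₜ[k] b) * Algebra.TensorProduct.map (AlgHom.id k R) φ
              (r ⊗ₜ[k] 1 - ∑ j, s j ⊗ₜ[k] (tensorRep ρ (r ⊗ₜ[k] 1)).mulVec v j) := by
          rw [map_sub, map_sum, mul_sub, Finset.mul_sum, Algebra.TensorProduct.map_tmul,
            Algebra.TensorProduct.tmul_mul_tmul]
          simp only [Algebra.TensorProduct.map_tmul, Algebra.TensorProduct.tmul_mul_tmul,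
            AlgHom.coe_id, id_eq, one_mul, map_one, mul_one]
          congr 1
          refine Finset.sum_congr rfl fun j _ => ?_
          rw [tensorRep_tmul_mulVec, tensorRep_tmul_mulVec, one_smul]
          have h2 := congrFun (mapMatrix_mulVec φ (ρ r) v) j
          rw [AlgHom.comp_apply, Pi.smul_apply, h2, smul_eq_mul]
        rw [h1]
        exact Ideal.mul_mem_left _ _ (Ideal.mem_map_of_mem _ (sub_sum_mem_pairIdeal ρ v h _))
      | add x y hx hy =>
        have h1 : (x + y) - ∑ j, s j ⊗ₜ[k]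
              (tensorRep (φ.mapMatrix.comp ρ) (x + y)).mulVec (fun i => φ (v i)) j =
            (x - ∑ j, s j ⊗ₜ[k]
              (tensorRep (φ.mapMatrix.comp ρ) x).mulVec (fun i => φ (v i)) j) +
            (y - ∑ j, s j ⊗ₜ[k]
              (tensorRep (φ.mapMatrix.comp ρ) y).mulVec (fun i => φ (v i)) j) := by
          rw [map_add, Matrix.add_mulVec]
          simp only [Pi.add_apply, TensorProduct.tmul_add, Finset.sum_add_distrib]
          abel
        rw [h1]
        exact Ideal.add_mem _ hx hy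
    have h3 := key x
    rw [(mem_pairIdeal _ _ _).1 hx] at h3
    simpa using h3
  · rw [Ideal.map_le_iff_le_comap]
    intro x hx
    rw [Ideal.mem_comap, mem_pairIdeal, tensorRep_map, mapMatrix_mulVec,
      (mem_pairIdeal _ _ _).1 hx]
    ext i
    simp

/-- Naturality of `chartEquiv` in the test algebra: composing the classifying map with
`φ : B →ₐ[k] B'` extends the ideal along `R ⊗[k] B → R ⊗[k] B'`. -/
theorem chartEquiv_comp (φ : B →ₐ[k] B') (f : ChartAlg k R s →ₐ[k] B) :
    (chartEquiv k R s B' (φ.comp f)).1 =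
      Ideal.map (Algebra.TensorProduct.map (AlgHom.id k R) φ) (chartEquiv k R s B f).1 := by
  show pairIdeal (chartPairEquiv B' (φ.comp f)).1.1 (chartPairEquiv B' (φ.comp f)).1.2 = _
  rw [chartPairEquiv_comp]
  exact pairIdeal_map φ _ _ (chartPairEquiv B f).2

/-- Chart ideals are stable under base change. -/
theorem IsChartIdeal.map {I : Ideal (R ⊗[k] B)} (hI : IsChartIdeal s I) (φ : B →ₐ[k] B') :
    IsChartIdeal s (Ideal.map (Algebra.TensorProduct.map (AlgHom.id k R) φ) I) := by
  have h1 := pairIdeal_map φ (idealRep hI) (idealVec hI) (idealRep_mulVec_idealVec hI)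
  rw [pairIdeal_idealRep hI] at h1
  rw [← h1]
  refine isChartIdeal_pairIdeal _ _ fun j => ?_
  rw [AlgHom.comp_apply, mapMatrix_mulVec, idealRep_mulVec_idealVec hI]
  ext i
  by_cases hij : i = j
  · simp [hij]
  · simp [hij]

end Naturality

variable (k R s) in
/-- The universal chart ideal, over `ChartAlg k R s`. -/
noncomputable def univIdeal : Ideal (R ⊗[k] ChartAlg k R s) :=
  (chartEquiv k R s (ChartAlg k R s) (AlgHom.id k _)).1

theorem isChartIdeal_univIdeal : IsChartIdeal s (univIdeal k R s) :=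
  (chartEquiv k R s (ChartAlg k R s) (AlgHom.id k _)).2

/-- The ideal classified by `f` is the extension of the universal ideal along `f`. -/
theorem chartEquiv_apply (f : ChartAlg k R s →ₐ[k] B) :
    (chartEquiv k R s B f).1 =
      Ideal.map (Algebra.TensorProduct.map (AlgHom.id k R) f) (univIdeal k R s) := by
  have h := chartEquiv_comp f (AlgHom.id k (ChartAlg k R s))
  rwa [AlgHom.comp_id] at h

/-- Every chart ideal is the extension of the universal one along a unique algebra map. -/
theorem existsUnique_chartMap {I : Ideal (R ⊗[k] B)} (hI : IsChartIdeal s I) :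
    ∃! f : ChartAlg k R s →ₐ[k] B,
      Ideal.map (Algebra.TensorProduct.map (AlgHom.id k R) f) (univIdeal k R s) = I := by
  refine ⟨(chartEquiv k R s B).symm ⟨I, hI⟩, ?_, ?_⟩
  · show Ideal.map _ _ = I
    rw [← chartEquiv_apply, Equiv.apply_symm_apply]
  · intro f hf
    apply (chartEquiv k R s B).injective
    apply Subtype.ext
    rw [Equiv.apply_symm_apply, chartEquiv_apply]
    exact hf

end ChartIdeal

end Fermat.Agent.S25.helper1002
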