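import Fermat.Agent.S25.helper1002_QuotCover

/-!
# Quot charts: module API, field points, principal opens (helper1002, S25 brick QC, additions)

Additive to `helper1002_QuotChart` / `helper1002_QuotCover`; Mathlib only on top of them.

* `chartMap s I : (n → B) →ₗ[B] (R ⊗[k] B) ⧸ I` (the `B`-module structure of the quotient is the
  one through the right tensor factor, `Algebra.TensorProduct.rightAlgebra`), and for a chart
  ideal: `IsChartIdeal.linearEquiv`, `IsChartIdeal.basis`, freeness, finiteness, projectivity,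
  flatness, `finrank = card n`, `rankAtStalk = card n`;
* `exists_isChartIdeal_of_finrank` : over a field `K`, every ideal `I` of `R ⊗[k] K` with
  `dim_K (R ⊗[k] K) ⧸ I = g` is a chart ideal for some `s : Fin g → R`;
* `awayAlgHomEquiv` : algebra maps out of `Localization.Away f` = algebra maps inverting `f`;
* `chartAwayEquiv` : `Localization.Away f (ChartAlg k R s)` represents the functor of chart ideals
  at which `f` is invertible; naturality (`chartAwayEquiv_comp`), the universal ideal
  (`univIdealAway`, `chartAwayEquiv_apply`) and finite type.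
-/

set_option autoImplicit false

universe u v w t

namespace Fermat.Agent.S25.helper1002

open TensorProduct

section ModuleFacts

attribute [local instance] Algebra.TensorProduct.rightAlgebra

variable {k : Type u} [CommRing k] {R : Type v} [CommRing R] [Algebra k R]
  {n : Type w} [Fintype n] [DecidableEq n] {s : n → R}
  {B : Type t} [CommRing B] [Algebra k B]

theorem rightAlgebra_smul_tmul (b c : B) (r : R) :
    b • (r ⊗ₜ[k] c : R ⊗[k] B) = r ⊗ₜ[k] (b * c) := by
  rw [Algebra.smul_def]
  show ((1 : R) ⊗ₜ[k] b) * (r ⊗ₜ[k] c) = _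
  rw [Algebra.TensorProduct.tmul_mul_tmul, one_mul]

variable (s) in
/-- The `B`-linear map `(n → B) → (R ⊗[k] B) ⧸ I`, `v ↦ ∑ j, v j • [s j ⊗ 1]`. -/
noncomputable def chartMap (I : Ideal (R ⊗[k] B)) : (n → B) →ₗ[B] (R ⊗[k] B) ⧸ I where
  toFun v := Ideal.Quotient.mk I (∑ j, s j ⊗ₜ[k] v j)
  map_add' v v' := by
    simp only [Pi.add_apply, TensorProduct.tmul_add, Finset.sum_add_distrib, map_add]
  map_smul' b v := by
    have h : (∑ j, s j ⊗ₜ[k] (b • v) j : R ⊗[k] B) = b • ∑ j, s j ⊗ₜ[k] v j := by
      rw [Finset.smul_sum]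
      refine Finset.sum_congr rfl fun j _ => ?_
      rw [rightAlgebra_smul_tmul]
      rfl
    rw [h]
    rfl

theorem chartMap_apply (I : Ideal (R ⊗[k] B)) (v : n → B) :
    chartMap s I v = Ideal.Quotient.mk I (∑ j, s j ⊗ₜ[k] v j) := rfl

theorem isChartIdeal_iff_bijective_chartMap (I : Ideal (R ⊗[k] B)) :
    IsChartIdeal s I ↔ Function.Bijective (chartMap s I) := Iff.rfl

/-- For a chart ideal, the quotient is free on the classes of the `s j ⊗ 1`. -/
noncomputable def IsChartIdeal.linearEquiv {I : Ideal (R ⊗[k] B)} (hI : IsChartIdeal s I) :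
    (n → B) ≃ₗ[B] (R ⊗[k] B) ⧸ I :=
  LinearEquiv.ofBijective (chartMap s I) hI

theorem IsChartIdeal.linearEquiv_apply {I : Ideal (R ⊗[k] B)} (hI : IsChartIdeal s I)
    (v : n → B) : hI.linearEquiv v = Ideal.Quotient.mk I (∑ j, s j ⊗ₜ[k] v j) := rfl

theorem IsChartIdeal.linearEquiv_symm_mk {I : Ideal (R ⊗[k] B)} (hI : IsChartIdeal s I)
    (x : R ⊗[k] B) : hI.linearEquiv.symm (Ideal.Quotient.mk I x) = coord hI x := by
  rw [LinearEquiv.symm_apply_eq, hI.linearEquiv_apply, mk_sum_coord]

/-- The basis of the quotient by a chart ideal given by the classes of the `s j ⊗ 1`. -/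
noncomputable def IsChartIdeal.basis {I : Ideal (R ⊗[k] B)} (hI : IsChartIdeal s I) :
    Module.Basis n B ((R ⊗[k] B) ⧸ I) :=
  Module.Basis.ofEquivFun hI.linearEquiv.symm

theorem IsChartIdeal.basis_apply {I : Ideal (R ⊗[k] B)} (hI : IsChartIdeal s I) (j : n) :
    hI.basis j = Ideal.Quotient.mk I (s j ⊗ₜ[k] (1 : B)) := by
  have h : hI.basis j = hI.linearEquiv (Pi.single j 1) := by
    simp [IsChartIdeal.basis, Module.Basis.ofEquivFun]
  rw [h, hI.linearEquiv_apply]
  congr 1
  rw [Finset.sum_eq_single j]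
  · simp
  · intro i _ hij
    simp [hij]
  · intro hj
    exact absurd (Finset.mem_univ j) hj

theorem IsChartIdeal.free {I : Ideal (R ⊗[k] B)} (hI : IsChartIdeal s I) :
    Module.Free B ((R ⊗[k] B) ⧸ I) :=
  Module.Free.of_basis hI.basis

theorem IsChartIdeal.finite {I : Ideal (R ⊗[k] B)} (hI : IsChartIdeal s I) :
    Module.Finite B ((R ⊗[k] B) ⧸ I) :=
  Module.Finite.of_basis hI.basis

theorem IsChartIdeal.projective {I : Ideal (R ⊗[k] B)} (hI : IsChartIdeal s I) :
    Module.Projective B ((R ⊗[k] B) ⧸ I) :=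
  haveI := hI.free
  inferInstance

theorem IsChartIdeal.flat {I : Ideal (R ⊗[k] B)} (hI : IsChartIdeal s I) :
    Module.Flat B ((R ⊗[k] B) ⧸ I) :=
  haveI := hI.free
  inferInstance

theorem IsChartIdeal.finrank_eq [Nontrivial B] {I : Ideal (R ⊗[k] B)} (hI : IsChartIdeal s I) :
    Module.finrank B ((R ⊗[k] B) ⧸ I) = Fintype.card n := by
  rw [Module.finrank_eq_card_basis hI.basis]

theorem IsChartIdeal.rankAtStalk_eq [Nontrivial B] {I : Ideal (R ⊗[k] B)}
    (hI : IsChartIdeal s I) (p : PrimeSpectrum B) :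
    Module.rankAtStalk ((R ⊗[k] B) ⧸ I) p = Fintype.card n := by
  have := hI.free
  rw [Module.rankAtStalk_eq_finrank_of_free, Pi.natCast_apply, hI.finrank_eq]
  rfl

/-- **Field form of the cover.** Over a field `K`, an ideal `I` of `R ⊗[k] K` whose quotient has
dimension `g` is a chart ideal for some family `s : Fin g → R`. -/
theorem exists_isChartIdeal_of_finrank {K : Type t} [Field K] [Algebra k K]
    (I : Ideal (R ⊗[k] K)) [Module.Finite K ((R ⊗[k] K) ⧸ I)] (g : ℕ)
    (hg : Module.finrank K ((R ⊗[k] K) ⧸ I) = g) :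
    ∃ s : Fin g → R, IsChartIdeal s I := by
  have hrank : Module.rankAtStalk ((R ⊗[k] K) ⧸ I) (⊥ : PrimeSpectrum K) = g := by
    rw [Module.rankAtStalk_eq_finrank_of_free, Pi.natCast_apply, hg]
    rfl
  obtain ⟨s, f, hf, h⟩ :=
    exists_isChartIdeal_cover_quotient.{u, v, t} I (⊥ : PrimeSpectrum K) g hrank
  have hf0 : f ≠ 0 := fun h0 => hf (by rw [h0]; exact Ideal.zero_mem _)
  have h1 := h K (AlgHom.id k K) (isUnit_iff_ne_zero.mpr hf0)
  have h2 : Ideal.map (Algebra.TensorProduct.map (AlgHom.id k R) (AlgHom.id k K)) I = I := by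
    rw [Algebra.TensorProduct.map_id]
    exact Ideal.map_id I
  rw [h2] at h1
  exact ⟨s, h1⟩

end ModuleFacts

section Away

variable {k : Type u} [CommRing k] {W : Type v} [CommRing W] [Algebra k W] (f : W)
  {B : Type t} [CommRing B] [Algebra k B]

variable (k) in
/-- The canonical `k`-algebra map `W → W[1/f]`. -/
noncomputable abbrev toAway : W →ₐ[k] Localization.Away f :=
  IsScalarTower.toAlgHom k W (Localization.Away f)

variable (k) in
theorem isUnit_toAway : IsUnit (toAway k f f) :=
  IsLocalization.Away.algebraMap_isUnit f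

theorem isUnit_of_mem_powers {γ : W →ₐ[k] B} (h : IsUnit (γ f)) (y : Submonoid.powers f) :
    IsUnit (γ y) := by
  obtain ⟨m, hm⟩ := y.2
  rw [← hm, map_pow]
  exact h.pow m

/-- The `k`-algebra map `W[1/f] → B` induced by a map `γ : W → B` inverting `f`. -/
noncomputable def awayLiftAlgHom (γ : W →ₐ[k] B) (h : IsUnit (γ f)) :
    Localization.Away f →ₐ[k] B :=
  IsLocalization.liftAlgHom (M := Submonoid.powers f) (f := γ) (isUnit_of_mem_powers f h)

theorem awayLiftAlgHom_comp (γ : W →ₐ[k] B) (h : IsUnit (γ f)) :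
    (awayLiftAlgHom f γ h).comp (toAway k f) = γ := by
  ext x
  exact IsLocalization.lift_eq (M := Submonoid.powers f) (isUnit_of_mem_powers f h) x

theorem awayLiftAlgHom_algebraMap (γ : W →ₐ[k] B) (h : IsUnit (γ f)) (x : W) :
    awayLiftAlgHom f γ h (algebraMap W (Localization.Away f) x) = γ x :=
  IsLocalization.lift_eq (M := Submonoid.powers f) (isUnit_of_mem_powers f h) x

theorem away_algHom_ext {ψ ψ' : Localization.Away f →ₐ[k] B}
    (h : ψ.comp (toAway k f) = ψ'.comp (toAway k f)) : ψ = ψ' := by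
  apply AlgHom.coe_ringHom_injective
  apply IsLocalization.ringHom_ext (Submonoid.powers f)
  ext x
  exact AlgHom.congr_fun h x

/-- Algebra maps out of `W[1/f]` are the algebra maps out of `W` which invert `f`. -/
noncomputable def awayAlgHomEquiv (B : Type t) [CommRing B] [Algebra k B] :
    (Localization.Away f →ₐ[k] B) ≃ {γ : W →ₐ[k] B // IsUnit (γ f)} where
  toFun ψ := ⟨ψ.comp (toAway k f), (isUnit_toAway k f).map ψ⟩
  invFun γ := awayLiftAlgHom f γ.1 γ.2
  left_inv _ := away_algHom_ext f (awayLiftAlgHom_comp f _ _)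
  right_inv γ := Subtype.ext (awayLiftAlgHom_comp f γ.1 γ.2)

theorem awayAlgHomEquiv_apply_coe (ψ : Localization.Away f →ₐ[k] B) :
    (awayAlgHomEquiv f B ψ).1 = ψ.comp (toAway k f) := rfl

theorem awayAlgHomEquiv_symm_comp (γ : {γ : W →ₐ[k] B // IsUnit (γ f)}) :
    ((awayAlgHomEquiv f B).symm γ).comp (toAway k f) = γ.1 :=
  awayLiftAlgHom_comp f γ.1 γ.2

end Away

section ChartAway

variable {k : Type u} [CommRing k] {R : Type v} [CommRing R] [Algebra k R]
  {n : Type w} [Fintype n] [DecidableEq n] {s : n → R}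
  {B : Type t} [CommRing B] [Algebra k B]

/-- The value at a chart ideal `I` of a function `f` on the chart: the image of `f` under the
classifying map of `I`. -/
noncomputable abbrev IsChartIdeal.eval {I : Ideal (R ⊗[k] B)} (hI : IsChartIdeal s I)
    (f : ChartAlg k R s) : B :=
  (chartEquiv k R s B).symm ⟨I, hI⟩ f

theorem chartEquiv_eval (γ : ChartAlg k R s →ₐ[k] B) (f : ChartAlg k R s) :
    (chartEquiv k R s B γ).2.eval f = γ f := by
  rw [IsChartIdeal.eval, Subtype.coe_eta, Equiv.symm_apply_apply]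

theorem IsChartIdeal.eval_congr {I I' : Ideal (R ⊗[k] B)} (hI : IsChartIdeal s I)
    (hI' : IsChartIdeal s I') (h : I = I') (f : ChartAlg k R s) : hI.eval f = hI'.eval f := by
  subst h
  rfl

/-- Naturality of the value of `f` at a chart ideal. -/
theorem IsChartIdeal.eval_map {B' : Type*} [CommRing B'] [Algebra k B']
    {I : Ideal (R ⊗[k] B)} (hI : IsChartIdeal s I) (φ : B →ₐ[k] B') (f : ChartAlg k R s) :
    (hI.map φ).eval f = φ (hI.eval f) := by
  have h : (chartEquiv k R s B').symm ⟨_, hI.map φ⟩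
      = φ.comp ((chartEquiv k R s B).symm ⟨I, hI⟩) := by
    rw [Equiv.symm_apply_eq]
    apply Subtype.ext
    rw [chartEquiv_comp, Equiv.apply_symm_apply]
  exact AlgHom.congr_fun h f

variable (k R s) in
/-- **Principal opens of the quot chart.** `ChartAlg k R s [1/f]` represents the functor sending
`B` to the set of chart ideals `I` of `R ⊗[k] B` at which `f` is invertible. -/
noncomputable def chartAwayEquiv (f : ChartAlg k R s) (B : Type t) [CommRing B] [Algebra k B] :
    (Localization.Away f →ₐ[k] B) ≃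
      {I : Ideal (R ⊗[k] B) // ∃ hI : IsChartIdeal s I, IsUnit (hI.eval f)} where
  toFun ψ := ⟨(chartEquiv k R s B (ψ.comp (toAway k f))).1,
    (chartEquiv k R s B (ψ.comp (toAway k f))).2, by
      rw [chartEquiv_eval]
      exact (isUnit_toAway k f).map ψ⟩
  invFun I := awayLiftAlgHom f ((chartEquiv k R s B).symm ⟨I.1, I.2.choose⟩) I.2.choose_spec
  left_inv ψ := by
    apply away_algHom_ext
    rw [awayLiftAlgHom_comp]
    exact (chartEquiv k R s B).symm_apply_apply _
  right_inv I := by
    apply Subtype.ext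
    show (chartEquiv k R s B ((awayLiftAlgHom f _ _).comp (toAway k f))).1 = I.1
    rw [awayLiftAlgHom_comp (k := k), Equiv.apply_symm_apply]

theorem chartAwayEquiv_apply_coe (f : ChartAlg k R s) (ψ : Localization.Away f →ₐ[k] B) :
    (chartAwayEquiv k R s f B ψ).1 = (chartEquiv k R s B (ψ.comp (toAway k f))).1 := rfl

theorem chartAwayEquiv_isChartIdeal (f : ChartAlg k R s) (ψ : Localization.Away f →ₐ[k] B) :
    IsChartIdeal s (chartAwayEquiv k R s f B ψ).1 :=
  (chartAwayEquiv k R s f B ψ).2.choose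

theorem chartAwayEquiv_eval (f : ChartAlg k R s) (ψ : Localization.Away f →ₐ[k] B)
    (a : ChartAlg k R s) :
    (chartAwayEquiv_isChartIdeal f ψ).eval a = ψ (algebraMap _ (Localization.Away f) a) :=
  chartEquiv_eval (ψ.comp (toAway k f)) a

/-- Naturality of `chartAwayEquiv` in the test algebra. -/
theorem chartAwayEquiv_comp {B' : Type*} [CommRing B'] [Algebra k B'] (f : ChartAlg k R s)
    (φ : B →ₐ[k] B') (ψ : Localization.Away f →ₐ[k] B) :
    (chartAwayEquiv k R s f B' (φ.comp ψ)).1 =
      Ideal.map (Algebra.TensorProduct.map (AlgHom.id k R) φ) (chartAwayEquiv k R s f B ψ).1 := by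
  rw [chartAwayEquiv_apply_coe, chartAwayEquiv_apply_coe, AlgHom.comp_assoc, chartEquiv_comp]

variable (k R s) in
/-- The universal chart ideal over `ChartAlg k R s [1/f]`. -/
noncomputable def univIdealAway (f : ChartAlg k R s) :
    Ideal (R ⊗[k] Localization.Away f) :=
  Ideal.map (Algebra.TensorProduct.map (AlgHom.id k R) (toAway k f)) (univIdeal k R s)

theorem isChartIdeal_univIdealAway (f : ChartAlg k R s) :
    IsChartIdeal s (univIdealAway k R s f) :=
  isChartIdeal_univIdeal.map (toAway k f)

theorem univIdealAway_eq (f : ChartAlg k R s) :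
    univIdealAway k R s f = (chartAwayEquiv k R s f _ (AlgHom.id k (Localization.Away f))).1 := by
  rw [chartAwayEquiv_apply_coe, AlgHom.id_comp, chartEquiv_apply]
  rfl

/-- The ideal classified by `ψ : ChartAlg k R s [1/f] → B` is the extension of the universal
ideal along `ψ`. -/
theorem chartAwayEquiv_apply (f : ChartAlg k R s) (ψ : Localization.Away f →ₐ[k] B) :
    (chartAwayEquiv k R s f B ψ).1 =
      Ideal.map (Algebra.TensorProduct.map (AlgHom.id k R) ψ) (univIdealAway k R s f) := by
  have h := chartAwayEquiv_comp f ψ (AlgHom.id k (Localization.Away f))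
  rw [AlgHom.comp_id] at h
  rw [h, univIdealAway_eq]

/-- `f` is invertible at the universal ideal over `ChartAlg k R s [1/f]`. -/
theorem isUnit_eval_univIdealAway (f : ChartAlg k R s) :
    IsUnit ((isChartIdeal_univIdealAway (k := k) (R := R) (s := s) f).eval f) := by
  have h := (isChartIdeal_univIdeal (k := k) (R := R) (s := s)).eval_map (toAway k f) f
  have h2 : (isChartIdeal_univIdeal (k := k) (R := R) (s := s)).eval f = f := by
    have := chartEquiv_eval (AlgHom.id k (ChartAlg k R s)) f
    exact this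
  rw [h2] at h
  have h3 : (isChartIdeal_univIdealAway (k := k) (R := R) (s := s) f).eval f = toAway k f f := h
  rw [h3]
  exact isUnit_toAway k f

/-- Two maps out of `ChartAlg k R s [1/f]` with the same chart ideal are equal. -/
theorem chartAway_hom_ext (f : ChartAlg k R s) {ψ ψ' : Localization.Away f →ₐ[k] B}
    (h : Ideal.map (Algebra.TensorProduct.map (AlgHom.id k R) ψ) (univIdealAway k R s f) =
      Ideal.map (Algebra.TensorProduct.map (AlgHom.id k R) ψ') (univIdealAway k R s f)) :
    ψ = ψ' := by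
  apply (chartAwayEquiv k R s f B).injective
  apply Subtype.ext
  rw [chartAwayEquiv_apply, chartAwayEquiv_apply, h]

/-- Every chart ideal at which `f` is invertible is classified by a map out of
`ChartAlg k R s [1/f]`. -/
theorem exists_chartAwayMap (f : ChartAlg k R s) {I : Ideal (R ⊗[k] B)} (hI : IsChartIdeal s I)
    (hf : IsUnit (hI.eval f)) :
    ∃ ψ : Localization.Away f →ₐ[k] B,
      Ideal.map (Algebra.TensorProduct.map (AlgHom.id k R) ψ) (univIdealAway k R s f) = I := by
  refine ⟨(chartAwayEquiv k R s f B).symm ⟨I, hI, hf⟩, ?_⟩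
  rw [← chartAwayEquiv_apply, Equiv.apply_symm_apply]

instance chartAlgAway_finiteType [Algebra.FiniteType k R] (f : ChartAlg k R s) :
    Algebra.FiniteType k (Localization.Away f) :=
  inferInstance

end ChartAway

end Fermat.Agent.S25.helper1002
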