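import Mathlib
import Fermat.Agent.S25.helper1002_QuotChart

/-!
# Quot charts cover (helper1002, S25 brick QC3)

If `I` is an ideal of `R ⊗[k] B` whose quotient is a finite projective `B`-module, then around
every prime `p` of `B` the ideal `I` becomes a chart ideal (in the sense of
`helper1002_QuotChart`) for a family `s : Fin g → R`, `g` the rank at `p`.
-/

set_option autoImplicit false

universe u v w t

namespace Fermat.Agent.S25.helper1002

open TensorProduct

section ModuleCover

variable {B : Type u} [CommRing B] {Q : Type v} [AddCommGroup Q] [Module B Q]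

/-- **Local basis with a global certificate.**  Let `Q` be a finite projective `B`-module
generated by a family `v : ι → Q`, and `p` a prime of `B`.  Then there are `m` members
`v (a j)` of the family, an element `f ∉ p` and a linear map `γ : Q → B^m` which is inverse to
`c ↦ ∑ j, c j • v (a j)` up to the factor `f`; moreover `m` is the rank of `Q` at `p`. -/
theorem exists_local_certificate [Module.Finite B Q] [Module.Projective B Q] {ι : Type w}
    (v : ι → Q) (hv : Submodule.span B (Set.range v) = ⊤) (p : Ideal B) [p.IsPrime] :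
    ∃ (m : ℕ) (a : Fin m → ι) (γ : Q →ₗ[B] (Fin m → B)) (f : B), f ∉ p ∧
      m = Module.finrank (Localization.AtPrime p) (LocalizedModule p.primeCompl Q) ∧
      (∀ q : Q, ∑ j, γ q j • v (a j) = f • q) ∧
      (∀ j, γ (v (a j)) = f • (Pi.single j 1 : Fin m → B)) := by
  classical
  let S := p.primeCompl
  let Bp := Localization.AtPrime p
  let Qp := LocalizedModule S Q
  let ℓ : Q →ₗ[B] Qp := LocalizedModule.mkLinearMap S Q
  have : Module.FinitePresentation B Q := Module.finitePresentation_of_projective B Q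
  -- the family spans the localization
  have hspan : Submodule.span Bp (Set.range (ℓ ∘ v)) = ⊤ := by
    rw [eq_top_iff]
    rintro x -
    induction x using LocalizedModule.induction_on with
    | h q s =>
      have hq : q ∈ Submodule.span B (Set.range v) := hv ▸ Submodule.mem_top
      have h1 : ℓ q ∈ Submodule.span Bp (Set.range (ℓ ∘ v)) := by
        induction hq using Submodule.span_induction with
        | mem x hx =>
          obtain ⟨i, rfl⟩ := hx
          exact Submodule.subset_span ⟨i, rfl⟩
        | zero => simp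
        | add x y _ _ hx hy =>
          rw [map_add]
          exact Submodule.add_mem _ hx hy
        | smul b x _ hx =>
          rw [map_smul, ← algebraMap_smul Bp b (ℓ x)]
          exact Submodule.smul_mem _ _ hx
      have h2 : (s : B) • (LocalizedModule.mk q s : Qp) = ℓ q := by
        rw [IsLocalizedModule.mk_eq_mk', ← Submonoid.smul_def]
        exact IsLocalizedModule.mk'_cancel' _ _ _
      have hu : IsUnit (algebraMap B Bp (s : B)) := IsLocalization.map_units Bp s
      have h3 : (LocalizedModule.mk q s : Qp) = (↑hu.unit⁻¹ : Bp) • ℓ q := by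
        rw [← h2, ← algebraMap_smul Bp (s : B) (LocalizedModule.mk q s : Qp), smul_smul,
          IsUnit.val_inv_mul, one_smul]
      rw [h3]
      exact Submodule.smul_mem _ _ h1
  obtain ⟨κ, a, b, hb⟩ := Module.exists_basis_of_span_of_flat (R := Bp) (M := Qp) (ℓ ∘ v) hspan
  have : Finite κ := Module.Finite.finite_basis b
  let _ : Fintype κ := Fintype.ofFinite κ
  let e : κ ≃ Fin (Fintype.card κ) := Fintype.equivFin κ
  let b' : Module.Basis (Fin (Fintype.card κ)) Bp Qp := b.reindex e
  have hb' : ∀ j, b' j = ℓ (v (a (e.symm j))) := by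
    intro j
    simp [b', hb]
  let g : (Fin (Fintype.card κ) →₀ B) →ₗ[B] (Fin (Fintype.card κ) →₀ Bp) :=
    Finsupp.mapRange.linearMap (Algebra.linearMap B Bp)
  let c : Q →ₗ[B] (Fin (Fintype.card κ) →₀ Bp) := (b'.repr.toLinearMap.restrictScalars B) ∘ₗ ℓ
  obtain ⟨γ₀, t, hγ₀⟩ := Module.FinitePresentation.exists_lift_of_isLocalizedModule S g c
  let β : (Fin (Fintype.card κ) →₀ B) →ₗ[B] Q :=
    Finsupp.linearCombination B (fun j => v (a (e.symm j)))
  have h1 : ∀ x : Fin (Fintype.card κ) →₀ B, ℓ (β x) = b'.repr.symm (g x) := by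
    intro x
    induction x using Finsupp.induction_linear with
    | zero => simp
    | add x y hx hy => simp only [map_add, hx, hy]
    | single j r =>
      simp only [β, g, Finsupp.linearCombination_single, map_smul, Finsupp.mapRange.linearMap_apply,
        Finsupp.mapRange_single, Algebra.linearMap_apply, Module.Basis.repr_symm_single, hb']
      rw [← algebraMap_smul Bp r (ℓ (v (a (e.symm j))))]
  have H₁ : ℓ ∘ₗ (β ∘ₗ γ₀) = ℓ ∘ₗ ((t : B) • LinearMap.id) := by
    ext q
    have h2 : g (γ₀ q) = (t : B) • c q := by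
      have := LinearMap.congr_fun hγ₀ q
      simpa [Submonoid.smul_def] using this
    simp only [LinearMap.comp_apply, LinearMap.smul_apply, LinearMap.id_apply]
    rw [h1, h2, ← algebraMap_smul Bp (t : B) (c q), map_smul,
      show c q = b'.repr (ℓ q) from rfl, LinearEquiv.symm_apply_apply, algebraMap_smul]
    exact (map_smul ℓ _ _).symm
  obtain ⟨s₁, hs₁⟩ := Module.Finite.exists_smul_of_comp_eq_of_isLocalizedModule S ℓ _ _ H₁
  have H₂ : g ∘ₗ (γ₀ ∘ₗ β) = g ∘ₗ ((t : B) • LinearMap.id) := by
    apply Finsupp.lhom_ext'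
    intro j
    apply LinearMap.ext_ring
    have h2 : g (γ₀ (v (a (e.symm j)))) = (t : B) • c (v (a (e.symm j))) := by
      have := LinearMap.congr_fun hγ₀ (v (a (e.symm j)))
      simpa [Submonoid.smul_def] using this
    have h3 : c (v (a (e.symm j))) = Finsupp.single j 1 := by
      show b'.repr (ℓ (v (a (e.symm j)))) = _
      rw [← hb', Module.Basis.repr_self]
    simp only [LinearMap.comp_apply, Finsupp.lsingle_apply, LinearMap.smul_apply,
      LinearMap.id_apply, β, Finsupp.linearCombination_single, one_smul]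
    rw [h2, h3, map_smul]
    simp [g]
  obtain ⟨s₂, hs₂⟩ := Module.Finite.exists_smul_of_comp_eq_of_isLocalizedModule S g _ _ H₂
  have hs₁' : ∀ q, (s₁ : B) • β (γ₀ q) = (s₁ : B) • (t : B) • q := by
    intro q
    have := LinearMap.congr_fun hs₁ q
    simpa [Submonoid.smul_def] using this
  have hs₂' : ∀ x, (s₂ : B) • γ₀ (β x) = (s₂ : B) • (t : B) • x := by
    intro x
    have := LinearMap.congr_fun hs₂ x
    simpa [Submonoid.smul_def] using this
  refine ⟨Fintype.card κ, fun j => a (e.symm j),
    ((s₁ : B) * (s₂ : B)) •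
      ((Finsupp.linearEquivFunOnFinite B B (Fin (Fintype.card κ))).toLinearMap ∘ₗ γ₀),
    (s₁ : B) * (s₂ : B) * (t : B), ?_, ?_, ?_, ?_⟩
  · exact (S.mul_mem (S.mul_mem s₁.2 s₂.2) t.2)
  · exact (Module.finrank_eq_card_basis b').trans (Fintype.card_fin _) |>.symm
  · intro q
    have h4 : ∑ j, (γ₀ q) j • v (a (e.symm j)) = β (γ₀ q) := by
      simp only [β]
      rw [Finsupp.linearCombination_apply, Finsupp.sum_fintype]
      intro i
      simp
    simp only [LinearMap.smul_apply, LinearMap.comp_apply, LinearEquiv.coe_coe, Pi.smul_apply,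
      Finsupp.linearEquivFunOnFinite_apply, smul_eq_mul]
    calc ∑ j, ((s₁ : B) * (s₂ : B) * (γ₀ q) j) • v (a (e.symm j))
        = (s₂ : B) • ((s₁ : B) • ∑ j, (γ₀ q) j • v (a (e.symm j))) := by
          rw [Finset.smul_sum, Finset.smul_sum]
          refine Finset.sum_congr rfl fun j _ => ?_
          rw [smul_smul, smul_smul]
          congr 1
          ring
      _ = (s₂ : B) • ((s₁ : B) • (t : B) • q) := by rw [h4, hs₁']
      _ = ((s₁ : B) * (s₂ : B) * (t : B)) • q := by
          rw [smul_smul, smul_smul]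
          congr 1
          ring
  · intro j
    have h5 : γ₀ (β (Finsupp.single j 1)) = γ₀ (v (a (e.symm j))) := by
      simp [β]
    have h6 := hs₂' (Finsupp.single j 1)
    rw [h5] at h6
    ext i
    have h7 := DFunLike.congr_fun h6 i
    simp only [Finsupp.smul_apply, smul_eq_mul] at h7
    simp only [LinearMap.smul_apply, LinearMap.comp_apply, LinearEquiv.coe_coe, Pi.smul_apply,
      Finsupp.linearEquivFunOnFinite_apply, smul_eq_mul]
    rw [mul_assoc, h7]
    by_cases hij : i = j
    · subst hij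
      simp
      ring
    · simp [hij]

end ModuleCover

section IdealCover

variable {k : Type u} [CommRing k] {R : Type v} [CommRing R] [Algebra k R]
  {B : Type w} [CommRing B] [Algebra k B]

/-- **Certificate lemma.**  Let `I` be an ideal of `R ⊗[k] B` and `π : R ⊗[k] B → Q` an additive
map onto a `B`-module with kernel `I`, semilinear for the action of `B` through the right factor.
If `γ : Q → B^n` is inverse, up to the factor `f`, to `c ↦ ∑ j, c j • π (s j ⊗ 1)`, then after
every base change `φ : B → B'` making `f` invertible, `I` becomes a chart ideal for `s`. -/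
theorem isChartIdeal_map_of_certificate {n : Type*} [Fintype n] [DecidableEq n]
    (I : Ideal (R ⊗[k] B)) {Q : Type*} [AddCommGroup Q] [Module B Q]
    (π : R ⊗[k] B →+ Q) (hker : ∀ x, π x = 0 ↔ x ∈ I)
    (hlin : ∀ (b : B) (x : R ⊗[k] B), π ((1 : R) ⊗ₜ[k] b * x) = b • π x)
    (s : n → R) (γ : Q →ₗ[B] (n → B)) (f : B)
    (h1 : ∀ q : Q, ∑ j, γ q j • π (s j ⊗ₜ[k] 1) = f • q)
    (h2 : ∀ j, γ (π (s j ⊗ₜ[k] 1)) = f • (Pi.single j 1 : n → B))
    {B' : Type*} [CommRing B'] [Algebra k B'] (φ : B →ₐ[k] B') (hf : IsUnit (φ f)) :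
    IsChartIdeal s (I.map (Algebra.TensorProduct.map (AlgHom.id k R) φ)) := by
  obtain ⟨u, hu⟩ : ∃ u : B', u * φ f = 1 := ⟨↑hf.unit⁻¹, hf.val_inv_mul⟩
  have hπadd : ∀ r r' : R, π ((r + r') ⊗ₜ[k] 1) = π (r ⊗ₜ[k] 1) + π (r' ⊗ₜ[k] 1) := by
    intro r r'
    rw [TensorProduct.add_tmul, map_add]
  have hπtmul : ∀ (r : R) (b : B), π (r ⊗ₜ[k] b) = b • π (r ⊗ₜ[k] 1) := by
    intro r b
    rw [← hlin, Algebra.TensorProduct.tmul_mul_tmul, one_mul, mul_one]
  have hπsmul : ∀ (c : k) (r : R), π ((c • r) ⊗ₜ[k] 1) = algebraMap k B c • π (r ⊗ₜ[k] 1) := by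
    intro c r
    rw [← hπtmul, TensorProduct.smul_tmul, Algebra.algebraMap_eq_smul_one]
  -- the coordinate map over `B'`
  let c' : R ⊗[k] B' →ₗ[k] (n → B') := TensorProduct.lift (LinearMap.mk₂ k
      (fun (r : R) (b' : B') => (b' * u) • (fun j => φ (γ (π (r ⊗ₜ[k] 1)) j)))
      (by
        intro r r' b'
        ext j
        simp [hπadd, mul_add])
      (by
        intro c r b'
        ext j
        show b' * u * φ (γ (π ((c • r) ⊗ₜ[k] 1)) j) = c • (b' * u * φ (γ (π (r ⊗ₜ[k] 1)) j))
        rw [hπsmul, map_smul, Pi.smul_apply, smul_eq_mul, map_mul, AlgHom.commutes,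
          Algebra.smul_def]
        ring)
      (by
        intro r b1 b2
        ext j
        simp [add_mul])
      (by
        intro c r b'
        ext j
        show (c • b') * u * φ (γ (π (r ⊗ₜ[k] 1)) j) = c • (b' * u * φ (γ (π (r ⊗ₜ[k] 1)) j))
        rw [Algebra.smul_def, Algebra.smul_def]
        ring))
  have hc' : ∀ (r : R) (b' : B'),
      c' (r ⊗ₜ[k] b') = (b' * u) • (fun j => φ (γ (π (r ⊗ₜ[k] 1)) j)) := fun r b' => rfl
  set F := Algebra.TensorProduct.map (AlgHom.id k R) φ with hF
  have hFt : ∀ (r : R) (b : B), F (r ⊗ₜ[k] b) = r ⊗ₜ[k] φ b := fun r b => by simp [hF]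
  -- (iii)
  have hsum : ∀ w : n → B', c' (∑ j, s j ⊗ₜ[k] w j) = w := by
    intro w
    rw [map_sum]
    ext i
    simp only [hc', h2, Finset.sum_apply, Pi.smul_apply, smul_eq_mul, Pi.single_apply]
    rw [Finset.sum_eq_single i]
    · simp only [if_true, mul_one]
      rw [mul_assoc, hu, mul_one]
    · intro j _ hj
      simp [Ne.symm hj]
    · intro hi
      exact absurd (Finset.mem_univ i) hi
  -- key formula
  have hkey : ∀ (r' : R) (b' : B') (x : R ⊗[k] B),
      c' (r' ⊗ₜ[k] b' * F x) = (b' * u) • (fun j => φ (γ (π (r' ⊗ₜ[k] 1 * x)) j)) := by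
    intro r' b' x
    induction x using TensorProduct.induction_on with
    | zero =>
      rw [map_zero, mul_zero, map_zero, mul_zero, map_zero, map_zero]
      ext j
      simp
    | tmul r b =>
      rw [hFt, Algebra.TensorProduct.tmul_mul_tmul, hc', Algebra.TensorProduct.tmul_mul_tmul,
        one_mul, hπtmul (r' * r) b]
      ext j
      simp only [map_smul, Pi.smul_apply, smul_eq_mul, map_mul]
      ring
    | add x y hx hy =>
      rw [map_add, mul_add, map_add, hx, hy, mul_add, map_add, map_add]
      ext j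
      simp [mul_add]
  -- (i)
  have hkill : ∀ x ∈ I.map F, c' x = 0 := by
    let K : Ideal (R ⊗[k] B') :=
      { carrier := {x | ∀ a, c' (a * x) = 0}
        add_mem' := by
          intro x y hx hy a
          rw [mul_add, map_add, hx a, hy a, add_zero]
        zero_mem' := by
          intro a
          rw [mul_zero, map_zero]
        smul_mem' := by
          intro b x hx a
          rw [smul_eq_mul, ← mul_assoc]
          exact hx (a * b) }
    have hK : I.map F ≤ K := by
      rw [Ideal.map_le_iff_le_comap]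
      intro x hx
      show ∀ a, c' (a * F x) = 0
      intro a
      induction a using TensorProduct.induction_on with
      | zero => simp
      | tmul r' b' =>
        rw [hkey, (hker _).2 (I.mul_mem_left _ hx)]
        ext j
        simp
      | add a a' ha ha' => rw [add_mul, map_add, ha, ha', add_zero]
    intro x hx
    have := hK hx 1
    rwa [one_mul] at this
  -- (ii)
  have hmem : ∀ x : R ⊗[k] B', x - ∑ j, s j ⊗ₜ[k] c' x j ∈ I.map F := by
    intro x
    induction x using TensorProduct.induction_on with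
    | zero =>
      rw [map_zero]
      simp only [Pi.zero_apply, TensorProduct.tmul_zero, Finset.sum_const_zero, sub_zero]
      exact Ideal.zero_mem _
    | tmul r b' =>
      have h3 : r ⊗ₜ[k] f - ∑ j, s j ⊗ₜ[k] γ (π (r ⊗ₜ[k] 1)) j ∈ I := by
        rw [← hker, map_sub, map_sum, hπtmul r f,
          Finset.sum_congr rfl (fun j _ => hπtmul (s j) (γ (π (r ⊗ₜ[k] 1)) j)), h1, sub_self]
      have h4 : r ⊗ₜ[k] b' - ∑ j, s j ⊗ₜ[k] c' (r ⊗ₜ[k] b') j =
          ((1 : R) ⊗ₜ[k] (b' * u)) * F (r ⊗ₜ[k] f - ∑ j, s j ⊗ₜ[k] γ (π (r ⊗ₜ[k] 1)) j) := by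
        rw [map_sub, map_sum, mul_sub, Finset.mul_sum, hFt, Algebra.TensorProduct.tmul_mul_tmul,
          one_mul, mul_assoc, hu, mul_one]
        congr 1
        refine Finset.sum_congr rfl fun j _ => ?_
        rw [hFt, Algebra.TensorProduct.tmul_mul_tmul, one_mul, hc']
        rfl
      rw [h4]
      exact Ideal.mul_mem_left _ _ (Ideal.mem_map_of_mem _ h3)
    | add x y hx hy =>
      have h5 : (x + y) - ∑ j, s j ⊗ₜ[k] c' (x + y) j =
          (x - ∑ j, s j ⊗ₜ[k] c' x j) + (y - ∑ j, s j ⊗ₜ[k] c' y j) := by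
        rw [map_add]
        simp only [Pi.add_apply, TensorProduct.tmul_add, Finset.sum_add_distrib]
        abel
      rw [h5]
      exact Ideal.add_mem _ hx hy
  constructor
  · intro w w' hww'
    have h6 : (∑ j, s j ⊗ₜ[k] w j) - (∑ j, s j ⊗ₜ[k] w' j) ∈ I.map F :=
      Ideal.Quotient.eq.mp hww'
    have h7 := hkill _ h6
    rw [map_sub, hsum, hsum, sub_eq_zero] at h7
    exact h7
  · intro q
    obtain ⟨x, rfl⟩ := Ideal.Quotient.mk_surjective q
    exact ⟨c' x, (Ideal.Quotient.eq.mpr (hmem x)).symm⟩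

theorem isChartIdeal_iff_bijective {n : Type*} [Fintype n] (s : n → R) (I : Ideal (R ⊗[k] B)) :
    IsChartIdeal s I ↔
      Function.Bijective (fun v : n → B => Ideal.Quotient.mk I (∑ j, s j ⊗ₜ[k] v j)) :=
  Iff.rfl

/-- **QC3, cover (abstract quotient form).**  Let `I` be an ideal of `R ⊗[k] B` and
`π : R ⊗[k] B → Q` an additive surjection onto a finite projective `B`-module with kernel `I`,
semilinear for the action of `B` through the right factor (e.g. `Q = (R ⊗[k] B) ⧸ I`).  Let `p`
be a prime of `B` at which `Q` has rank `g`.  Then there are `s : Fin g → R` and `f ∉ p` such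
that for every `k`-algebra map `φ : B → B'` with `φ f` invertible, the extension of `I` to
`R ⊗[k] B'` is a chart ideal for `s`. -/
theorem exists_isChartIdeal_cover (I : Ideal (R ⊗[k] B)) {Q : Type*} [AddCommGroup Q]
    [Module B Q] [Module.Finite B Q] [Module.Projective B Q]
    (π : R ⊗[k] B →+ Q) (hsurj : Function.Surjective π) (hker : ∀ x, π x = 0 ↔ x ∈ I)
    (hlin : ∀ (b : B) (x : R ⊗[k] B), π ((1 : R) ⊗ₜ[k] b * x) = b • π x)
    (p : PrimeSpectrum B) (g : ℕ) (hg : Module.rankAtStalk Q p = g) :
    ∃ (s : Fin g → R) (f : B), f ∉ p.asIdeal ∧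
      ∀ (B' : Type t) [CommRing B'] [Algebra k B'] (φ : B →ₐ[k] B'), IsUnit (φ f) →
        IsChartIdeal s (I.map (Algebra.TensorProduct.map (AlgHom.id k R) φ)) := by
  have hπtmul : ∀ (r : R) (b : B), π (r ⊗ₜ[k] b) = b • π (r ⊗ₜ[k] 1) := by
    intro r b
    rw [← hlin, Algebra.TensorProduct.tmul_mul_tmul, one_mul, mul_one]
  have hv : Submodule.span B (Set.range fun r : R => π (r ⊗ₜ[k] 1)) = ⊤ := by
    rw [eq_top_iff]
    rintro q -
    obtain ⟨x, rfl⟩ := hsurj q
    induction x using TensorProduct.induction_on with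
    | zero =>
      rw [map_zero]
      exact Submodule.zero_mem _
    | tmul r b =>
      rw [hπtmul]
      exact Submodule.smul_mem _ _ (Submodule.subset_span ⟨r, rfl⟩)
    | add x y hx hy =>
      rw [map_add]
      exact Submodule.add_mem _ hx hy
  obtain ⟨m, a, γ, f, hfp, hm, h1, h2⟩ :=
    exists_local_certificate (fun r : R => π (r ⊗ₜ[k] 1)) hv p.asIdeal
  have hmg : m = g := hm.trans hg
  subst hmg
  exact ⟨a, f, hfp, fun B' _ _ φ hφ =>
    isChartIdeal_map_of_certificate I π hker hlin a γ f h1 h2 φ hφ⟩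

/-- **QC3, cover, on a basic open.**  Same as `exists_isChartIdeal_cover`, for the base change
to `Localization.Away f`. -/
theorem exists_isChartIdeal_away (I : Ideal (R ⊗[k] B)) {Q : Type*} [AddCommGroup Q]
    [Module B Q] [Module.Finite B Q] [Module.Projective B Q]
    (π : R ⊗[k] B →+ Q) (hsurj : Function.Surjective π) (hker : ∀ x, π x = 0 ↔ x ∈ I)
    (hlin : ∀ (b : B) (x : R ⊗[k] B), π ((1 : R) ⊗ₜ[k] b * x) = b • π x)
    (p : PrimeSpectrum B) (g : ℕ) (hg : Module.rankAtStalk Q p = g) :
    ∃ (s : Fin g → R) (f : B), f ∉ p.asIdeal ∧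
      IsChartIdeal s (I.map (Algebra.TensorProduct.map (AlgHom.id k R)
        (IsScalarTower.toAlgHom k B (Localization.Away f)))) := by
  obtain ⟨s, f, hf, h⟩ := exists_isChartIdeal_cover.{u, v, w, w} I π hsurj hker hlin p g hg
  refine ⟨s, f, hf, h (Localization.Away f) (IsScalarTower.toAlgHom k B (Localization.Away f)) ?_⟩
  exact IsLocalization.Away.algebraMap_isUnit f

section RightAlgebra

attribute [local instance] Algebra.TensorProduct.rightAlgebra

/-- **QC3, cover, for the quotient itself**, with its `B`-module structure through the right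
tensor factor (`Algebra.TensorProduct.rightAlgebra`). -/
theorem exists_isChartIdeal_cover_quotient (I : Ideal (R ⊗[k] B))
    [Module.Finite B ((R ⊗[k] B) ⧸ I)] [Module.Projective B ((R ⊗[k] B) ⧸ I)]
    (p : PrimeSpectrum B) (g : ℕ) (hg : Module.rankAtStalk ((R ⊗[k] B) ⧸ I) p = g) :
    ∃ (s : Fin g → R) (f : B), f ∉ p.asIdeal ∧
      ∀ (B' : Type t) [CommRing B'] [Algebra k B'] (φ : B →ₐ[k] B'), IsUnit (φ f) →
        IsChartIdeal s (I.map (Algebra.TensorProduct.map (AlgHom.id k R) φ)) := by
  refine exists_isChartIdeal_cover I (Ideal.Quotient.mk I).toAddMonoidHom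
    Ideal.Quotient.mk_surjective (fun x => Ideal.Quotient.eq_zero_iff_mem) ?_ p g hg
  intro b x
  show Ideal.Quotient.mk I ((1 : R) ⊗ₜ[k] b * x) = Ideal.Quotient.mk I (b • x)
  rw [Algebra.smul_def]
  rfl

end RightAlgebra

end IdealCover

end Fermat.Agent.S25.helper1002
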