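import Fermat.Agent.S25.helper743_AlgApi
import Fermat.Agent.S25.helper3115_Twist

/-!
# S25, leaf U3-PT (backup copy, helper1035): twist of a two-chart line bundle by a divisor datum

`G : helper2945.GlueDatum D B`, `E : DivDatum D B` a pair of invertible ideals `(I₀, I₁)` of the
two chart rings with the same extension `I₀₁` to the overlap.  The twist `G(−E)` has modules `I₀ • M₀`, `I₁ • M₁`,
`I₀₁ • M₀₁` and the restricted maps.

* §1 generic linear algebra: index of a two-term complex under a sub-complex (both terms shrink);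
* §2 `chi_of_sub`: Euler characteristic of a sub-datum over a field (any definition of the twist
  whose three modules embed into those of `G` can use it);
* §3 generic commutative algebra: `I • ⊤` is invertible, restriction of a localization map to
  `I • ⊤` is a localization map;
* §4 `DivDatum`, `twist G E`, `isoTwist`, `equiv_twist`;
* §5 `twist_baseChange` (no flatness: a surjection of invertible modules is bijective);
* §6 `chi_twist`.
-/

set_option autoImplicit false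

open TensorProduct Module LinearMap

namespace Fermat.Agent.S25.helper1035

open Fermat.Agent.S25.helper1705 Fermat.Agent.S25.helper2945
open Fermat.Agent.S25.helper3115 (FinCoh)

universe u

/-! ## §1 Generic linear algebra -/

section Generic

variable {K : Type*} [Field K]
variable {E E' F F' : Type*} [AddCommGroup E] [Module K E] [AddCommGroup E'] [Module K E']
  [AddCommGroup F] [Module K F] [AddCommGroup F'] [Module K F']

/-- Dual `χ`-shift engine: post-composition with an injective map `j` of finite-dimensional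
cokernel.  `j ∘ d` and `d` have finite-dimensional cohomology simultaneously and
`index (j ∘ d) = index d - dim coker j`. -/
theorem index_injective_comp (d : E →ₗ[K] F') (j : F' →ₗ[K] F) (hj : Function.Injective j)
    (hc : FiniteDimensional K (F ⧸ range j)) :
    (FinCoh (j ∘ₗ d) ↔ FinCoh d) ∧
      (FinCoh d →
        helper3115.index (j ∘ₗ d) = helper3115.index d - finrank K (F ⧸ range j)) := by
  have hker : ker (j ∘ₗ d) = ker d :=
    LinearMap.ker_comp_of_ker_eq_bot d (LinearMap.ker_eq_bot.mpr hj)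
  have hle : range d ≤ (range (j ∘ₗ d)).comap j := by
    rintro _ ⟨e, rfl⟩; exact ⟨e, rfl⟩
  let g : F' ⧸ range d →ₗ[K] F ⧸ range (j ∘ₗ d) := Submodule.mapQ _ _ j hle
  have gmk : ∀ f' : F', g (Submodule.Quotient.mk f') = Submodule.Quotient.mk (j f') :=
    fun _ => rfl
  have hg : Function.Injective g := by
    rw [injective_iff_map_eq_zero]
    intro z hz
    obtain ⟨f', rfl⟩ := Submodule.Quotient.mk_surjective _ z
    rw [gmk, Submodule.Quotient.mk_eq_zero] at hz
    obtain ⟨e, he⟩ := hz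
    rw [Submodule.Quotient.mk_eq_zero]
    exact ⟨e, hj he⟩
  have hle' : range (j ∘ₗ d) ≤ range j := by
    rintro _ ⟨e, rfl⟩; exact ⟨d e, rfl⟩
  let h : F ⧸ range (j ∘ₗ d) →ₗ[K] F ⧸ range j := Submodule.factor hle'
  have hmk : ∀ f : F, h (Submodule.Quotient.mk f) = Submodule.Quotient.mk f := fun _ => rfl
  have hsurj : Function.Surjective h := Submodule.factor_surjective hle'
  have hhg : ker h = range g := by
    ext z
    obtain ⟨f, rfl⟩ := Submodule.Quotient.mk_surjective _ z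
    simp only [mem_ker, hmk, Submodule.Quotient.mk_eq_zero, mem_range]
    constructor
    · rintro ⟨f', rfl⟩
      exact ⟨Submodule.Quotient.mk f', gmk f'⟩
    · rintro ⟨w, hw⟩
      obtain ⟨f', rfl⟩ := Submodule.Quotient.mk_surjective _ w
      rw [gmk, Submodule.Quotient.eq] at hw
      obtain ⟨e, he⟩ := hw
      refine ⟨f' - d e, ?_⟩
      rw [map_sub]
      have : j (d e) = j f' - f := he
      rw [this]
      abel
  have e1 : (F' ⧸ range d) ≃ₗ[K] range g := LinearEquiv.ofInjective g hg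
  have hrh : FiniteDimensional K (range h) := inferInstance
  have e3 : range h ≃ₗ[K] F ⧸ range j :=
    (LinearEquiv.ofEq _ _ (range_eq_top.mpr hsurj)).trans Submodule.topEquiv
  have key : FiniteDimensional K (F' ⧸ range d) → FiniteDimensional K (F ⧸ range (j ∘ₗ d)) ∧
      finrank K (F ⧸ range (j ∘ₗ d)) = finrank K (F' ⧸ range d) + finrank K (F ⧸ range j) := by
    intro hfd
    have hkh : FiniteDimensional K (ker h) := by
      rw [hhg]; exact Module.Finite.equiv e1
    have := helper3115.finrank_of_ker_range h hkh hrh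
    rw [e3.finrank_eq, hhg, ← e1.finrank_eq] at this
    exact this
  have hiff : FinCoh (j ∘ₗ d) ↔ FinCoh d := by
    constructor
    · rintro ⟨h1, h2⟩
      refine ⟨by rw [← hker]; exact h1, ?_⟩
      exact Module.Finite.of_injective g hg
    · rintro ⟨h1, h2⟩
      exact ⟨by rw [hker]; exact h1, (key h2).1⟩
  refine ⟨hiff, fun hd => ?_⟩
  have k2 := (key hd.2).2
  unfold helper3115.index
  rw [k2, hker]
  push_cast
  ring

/-- Index of a sub-complex: if `d' : E' → F'` embeds into `d : E → F` through injective maps of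
finite-dimensional cokernels, then `index d = index d' + dim (E/E') - dim (F/F')`. -/
theorem index_of_comm (d' : E' →ₗ[K] F') (d : E →ₗ[K] F) (ιE : E' →ₗ[K] E) (ιF : F' →ₗ[K] F)
    (hE : Function.Injective ιE) (hF : Function.Injective ιF) (hcomm : d ∘ₗ ιE = ιF ∘ₗ d')
    (hcE : FiniteDimensional K (E ⧸ range ιE)) (hcF : FiniteDimensional K (F ⧸ range ιF))
    (hd : FinCoh d) :
    FinCoh d' ∧
      helper3115.index d =
        helper3115.index d' + finrank K (E ⧸ range ιE) - finrank K (F ⧸ range ιF) := by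
  obtain ⟨h1, h2⟩ := helper3115.index_comp_injective ιE hE d hcE
  obtain ⟨h3, h4⟩ := index_injective_comp d' ιF hF hcF
  have hd1 : FinCoh (d ∘ₗ ιE) := h1.mpr hd
  rw [hcomm] at hd1
  have hd' : FinCoh d' := h3.mp hd1
  refine ⟨hd', ?_⟩
  rw [h2 hd, hcomm, h4 hd']
  ring

end Generic

section QuotProd

variable {R : Type*} [CommRing R] {A A' B B' : Type*} [AddCommGroup A] [Module R A]
  [AddCommGroup A'] [Module R A'] [AddCommGroup B] [Module R B] [AddCommGroup B'] [Module R B']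

/-- The cokernel of a product map is the product of the cokernels. -/
noncomputable def quotProdMapEquiv (f : A →ₗ[R] B) (g : A' →ₗ[R] B') :
    ((B × B') ⧸ range (f.prodMap g)) ≃ₗ[R] (B ⧸ range f) × (B' ⧸ range g) :=
  (Submodule.quotEquivOfEq _ _ (by
    rw [LinearMap.range_prodMap, LinearMap.ker_prodMap, Submodule.ker_mkQ,
      Submodule.ker_mkQ])).trans
    (((range f).mkQ.prodMap (range g).mkQ).quotKerEquivOfSurjective
      (Function.Surjective.prodMap (Submodule.mkQ_surjective _) (Submodule.mkQ_surjective _)))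

end QuotProd

/-! ## §2 Euler characteristic of a sub-datum over a field -/

section SubDatum

variable {k : Type u} [Field k] {D : CurveDatum k} {F : Type u} [Field F] [Algebra k F]

theorem chi_eq_index (G : GlueDatum D F) : G.chi = helper3115.index G.delta := rfl

/-- **Euler characteristic of a sub-datum.**  Let `G'`, `G` be two-chart data over a field `F`
and `ι₀, ι₁, ι₀₁` injective `F`-linear maps from the modules of `G'` to those of `G`, compatible
with the restriction maps, with finite-dimensional cokernels.  If `G` has finite-dimensional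
cohomology then so has `G'`, and
`χ(G) = χ(G') + dim coker ι₀ + dim coker ι₁ - dim coker ι₀₁`. -/
theorem chi_of_sub (G' G : GlueDatum D F) (ι₀ : G'.M₀ →ₗ[F] G.M₀) (ι₁ : G'.M₁ →ₗ[F] G.M₁)
    (ι₀₁ : G'.M₀₁ →ₗ[F] G.M₀₁) (h₀ : Function.Injective ι₀) (h₁ : Function.Injective ι₁)
    (h₀₁ : Function.Injective ι₀₁) (hc₀ : ∀ m, G.ρ₀ (ι₀ m) = ι₀₁ (G'.ρ₀ m))
    (hc₁ : ∀ m, G.ρ₁ (ι₁ m) = ι₀₁ (G'.ρ₁ m))
    [FiniteDimensional F (G.M₀ ⧸ range ι₀)] [FiniteDimensional F (G.M₁ ⧸ range ι₁)]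
    [FiniteDimensional F (G.M₀₁ ⧸ range ι₀₁)] (hG : FinCoh G.delta) :
    FinCoh G'.delta ∧
      G.chi = G'.chi + finrank F (G.M₀ ⧸ range ι₀) + finrank F (G.M₁ ⧸ range ι₁)
        - finrank F (G.M₀₁ ⧸ range ι₀₁) := by
  have hcomm : G.delta ∘ₗ (ι₀.prodMap ι₁) = ι₀₁ ∘ₗ G'.delta := by
    ext p <;> simp [GlueDatum.delta_apply, hc₀, hc₁]
  have hE : Function.Injective (ι₀.prodMap ι₁) := Function.Injective.prodMap h₀ h₁
  have e := quotProdMapEquiv ι₀ ι₁
  have hfd : FiniteDimensional F ((G.M₀ × G.M₁) ⧸ range (ι₀.prodMap ι₁)) :=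
    Module.Finite.equiv e.symm
  obtain ⟨hf, hi⟩ := index_of_comm G'.delta G.delta (ι₀.prodMap ι₁) ι₀₁ hE h₀₁ hcomm hfd
    inferInstance hG
  refine ⟨hf, ?_⟩
  rw [chi_eq_index, chi_eq_index, hi, e.finrank_eq, Module.finrank_prod]
  push_cast
  ring

end SubDatum

/-! ## §3 Generic commutative algebra -/

section Ring

variable {R : Type*} [CommRing R]

/-- `I • ⊤ ⊆ M` is an invertible module when the ideal `I` and the module `M` are invertible. -/
theorem invertible_smul_top (I : Ideal R) [Module.Invertible R I] (M : Type*) [AddCommGroup M]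
    [Module R M] [Module.Invertible R M] : Module.Invertible R ↥(I • ⊤ : Submodule R M) := by
  let f : I ⊗[R] M →ₗ[R] M := (TensorProduct.lid R M).toLinearMap ∘ₗ (I.subtype.rTensor M)
  have hf : Function.Injective f := (TensorProduct.lid R M).injective.comp
    (Module.Flat.rTensor_preserves_injective_linearMap I.subtype I.subtype_injective)
  have hr : LinearMap.range f = I • ⊤ := Ideal.subtype_rTensor_range M I
  exact Module.Invertible.congr ((LinearEquiv.ofInjective f hf).trans (LinearEquiv.ofEq _ _ hr))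

variable {A : Type*} [CommRing A] [Algebra R A]
  {M N : Type*} [AddCommGroup M] [Module R M] [AddCommGroup N] [Module R N] [Module A N]
  [IsScalarTower R A N]

/-- A linear map sends `I • ⊤` into `(I A) • ⊤`. -/
theorem map_mem_smul_top (f : M →ₗ[R] N) (I : Ideal R) {m : M}
    (hm : m ∈ (I • ⊤ : Submodule R M)) :
    f m ∈ (I.map (algebraMap R A) • ⊤ : Submodule A N) := by
  refine Submodule.smul_induction_on hm (fun r hr n _ => ?_) (fun x y hx hy => ?_)
  · rw [map_smul, ← algebraMap_smul A r (f n)]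
    exact Submodule.smul_mem_smul (Ideal.mem_map_of_mem _ hr) Submodule.mem_top
  · rw [map_add]; exact add_mem hx hy

/-- The restriction of a localization map `f : M → N` to `I • ⊤ → (I A) • ⊤` is a localization
map. -/
theorem isLocalizedModule_smul_top (S : Submonoid R) [IsLocalization S A] (f : M →ₗ[R] N)
    [IsLocalizedModule S f] (I : Ideal R) (J : Ideal A) (hJ : I.map (algebraMap R A) = J)
    (g : ↥(I • ⊤ : Submodule R M) →ₗ[R] ↥(J • ⊤ : Submodule A N))
    (hg : ∀ m, (g m : N) = f m) : IsLocalizedModule S g := by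
  have h : (I • ⊤ : Submodule R M).localized' A S f = J • ⊤ := by
    rw [Submodule.localized'_smul, Submodule.localized'_top, Submodule.localized'_eq_span, ← hJ]
    rfl
  have key := IsLocalizedModule.of_linearEquiv S (Submodule.toLocalized' A S f (I • ⊤))
    ((LinearEquiv.ofEq _ _ h).restrictScalars R)
  have hgeq : g = ((LinearEquiv.ofEq _ _ h).restrictScalars R).toLinearMap ∘ₗ
      Submodule.toLocalized' A S f (I • ⊤) := by
    ext m
    exact hg m
  rw [hgeq]
  exact key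

/-- A linear equivalence restricts to `I • ⊤`. -/
noncomputable def smulTopEquiv {M' : Type*} [AddCommGroup M'] [Module R M'] (e : M ≃ₗ[R] M')
    (I : Ideal R) : ↥(I • ⊤ : Submodule R M) ≃ₗ[R] ↥(I • ⊤ : Submodule R M') :=
  (e.submoduleMap (I • ⊤)).trans (LinearEquiv.ofEq _ _ (by
    rw [Submodule.map_smul'', Submodule.map_top, LinearEquiv.range]))

@[simp] theorem smulTopEquiv_coe {M' : Type*} [AddCommGroup M'] [Module R M'] (e : M ≃ₗ[R] M')
    (I : Ideal R) (m : ↥(I • ⊤ : Submodule R M)) : (smulTopEquiv e I m : M') = e m := rfl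

end Ring

/-! ## §4 Divisor pairs and the twist -/

section Twist

variable {k : Type u} [Field k] {D : CurveDatum k} {B : Type u} [CommRing B] [Algebra k B]

/-- A pair of invertible ideals of the two chart rings of `C ×ₖ Spec B` with the same extension
to the overlap: an effective relative Cartier divisor in two-chart form. -/
structure DivDatum (D : CurveDatum k) (B : Type u) [CommRing B] [Algebra k B] where
  /-- the ideal on the first chart -/
  I₀ : Ideal (D.A₀ B)
  /-- the ideal on the chart at infinity -/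
  I₁ : Ideal (D.A₁ B)
  /-- the ideal on the overlap -/
  I₀₁ : Ideal (D.A₀₁ B)
  map₀ : I₀.map (algebraMap (D.A₀ B) (D.A₀₁ B)) = I₀₁
  map₁ : I₁.map (algebraMap (D.A₁ B) (D.A₀₁ B)) = I₀₁
  inv₀ : Module.Invertible (D.A₀ B) I₀
  inv₁ : Module.Invertible (D.A₁ B) I₁

namespace DivDatum

/-- A divisor datum is determined by its two chart ideals. -/
theorem ext_ideals {E E' : DivDatum D B} (h₀ : E.I₀ = E'.I₀) (h₁ : E.I₁ = E'.I₁) : E = E' := by
  obtain ⟨I₀, I₁, I₀₁, m₀, m₁, i₀, i₁⟩ := E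
  obtain ⟨I₀', I₁', I₀₁', m₀', m₁', i₀', i₁'⟩ := E'
  simp only at h₀ h₁
  subst h₀ h₁
  have : I₀₁ = I₀₁' := m₀.symm.trans m₀'
  subst this
  rfl

/-- Constructor from two invertible ideals with the same extension to the overlap. -/
noncomputable def ofIdeals (I₀ : Ideal (D.A₀ B)) (I₁ : Ideal (D.A₁ B))
    (h : I₁.map (algebraMap (D.A₁ B) (D.A₀₁ B)) = I₀.map (algebraMap (D.A₀ B) (D.A₀₁ B)))
    (i₀ : Module.Invertible (D.A₀ B) I₀) (i₁ : Module.Invertible (D.A₁ B) I₁) : DivDatum D B where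
  I₀ := I₀
  I₁ := I₁
  I₀₁ := I₀.map (algebraMap (D.A₀ B) (D.A₀₁ B))
  map₀ := rfl
  map₁ := h
  inv₀ := i₀
  inv₁ := i₁

end DivDatum

variable (G : GlueDatum D B) (E : DivDatum D B)

/-- Restriction map of the twist, first chart. -/
noncomputable def twistρ₀ : ↥(E.I₀ • ⊤ : Submodule (D.A₀ B) G.M₀) →ₗ[D.A₀ B]
    ↥(E.I₀₁ • ⊤ : Submodule (D.A₀₁ B) G.M₀₁) where
  toFun m := ⟨G.ρ₀ m.1, E.map₀ ▸ map_mem_smul_top G.ρ₀ E.I₀ m.2⟩
  map_add' a b := Subtype.ext (map_add G.ρ₀ a.1 b.1)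
  map_smul' c a := Subtype.ext (map_smul G.ρ₀ c a.1)

/-- Restriction map of the twist, chart at infinity. -/
noncomputable def twistρ₁ : ↥(E.I₁ • ⊤ : Submodule (D.A₁ B) G.M₁) →ₗ[D.A₁ B]
    ↥(E.I₀₁ • ⊤ : Submodule (D.A₀₁ B) G.M₀₁) where
  toFun m := ⟨G.ρ₁ m.1, E.map₁ ▸ map_mem_smul_top G.ρ₁ E.I₁ m.2⟩
  map_add' a b := Subtype.ext (map_add G.ρ₁ a.1 b.1)
  map_smul' c a := Subtype.ext (map_smul G.ρ₁ c a.1)

/-- **The twist `G(−E)`** of a two-chart line bundle by a divisor datum: the sub-datum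
`(I₀ • M₀, I₁ • M₁, I₀₁ • M₀₁)` of `G`. -/
noncomputable def twist : GlueDatum D B :=
  haveI := E.inv₀
  haveI := E.inv₁
  { M₀ := ↥(E.I₀ • ⊤ : Submodule (D.A₀ B) G.M₀)
    M₁ := ↥(E.I₁ • ⊤ : Submodule (D.A₁ B) G.M₁)
    M₀₁ := ↥(E.I₀₁ • ⊤ : Submodule (D.A₀₁ B) G.M₀₁)
    ρ₀ := twistρ₀ G E
    ρ₁ := twistρ₁ G E
    loc₀ := isLocalizedModule_smul_top (Submonoid.powers (xB D B)) G.ρ₀ E.I₀ E.I₀₁ E.map₀ _
      (fun _ => rfl)
    loc₁ := isLocalizedModule_smul_top (Submonoid.powers (yB D B)) G.ρ₁ E.I₁ E.I₀₁ E.map₁ _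
      (fun _ => rfl)
    inv₀ := invertible_smul_top E.I₀ G.M₀
    inv₁ := invertible_smul_top E.I₁ G.M₁ }

/-- The inclusion of the twist into `G`, first chart. -/
noncomputable def incl₀ : (twist G E).M₀ →ₗ[D.A₀ B] G.M₀ :=
  (E.I₀ • ⊤ : Submodule (D.A₀ B) G.M₀).subtype

/-- The inclusion of the twist into `G`, chart at infinity. -/
noncomputable def incl₁ : (twist G E).M₁ →ₗ[D.A₁ B] G.M₁ :=
  (E.I₁ • ⊤ : Submodule (D.A₁ B) G.M₁).subtype

/-- The inclusion of the twist into `G`, overlap. -/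
noncomputable def incl₀₁ : (twist G E).M₀₁ →ₗ[D.A₀₁ B] G.M₀₁ :=
  (E.I₀₁ • ⊤ : Submodule (D.A₀₁ B) G.M₀₁).subtype

theorem incl₀_injective : Function.Injective (incl₀ G E) := Subtype.val_injective
theorem incl₁_injective : Function.Injective (incl₁ G E) := Subtype.val_injective
theorem incl₀₁_injective : Function.Injective (incl₀₁ G E) := Subtype.val_injective

theorem range_incl₀ : LinearMap.range (incl₀ G E) = E.I₀ • ⊤ := Submodule.range_subtype _
theorem range_incl₁ : LinearMap.range (incl₁ G E) = E.I₁ • ⊤ := Submodule.range_subtype _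
theorem range_incl₀₁ : LinearMap.range (incl₀₁ G E) = E.I₀₁ • ⊤ := Submodule.range_subtype _

theorem incl₀_mem (m : (twist G E).M₀) : incl₀ G E m ∈ (E.I₀ • ⊤ : Submodule (D.A₀ B) G.M₀) :=
  m.2

theorem incl₁_mem (m : (twist G E).M₁) : incl₁ G E m ∈ (E.I₁ • ⊤ : Submodule (D.A₁ B) G.M₁) :=
  m.2

theorem incl₀₁_mem (m : (twist G E).M₀₁) :
    incl₀₁ G E m ∈ (E.I₀₁ • ⊤ : Submodule (D.A₀₁ B) G.M₀₁) := m.2

theorem ρ₀_incl₀ (m : (twist G E).M₀) :
    G.ρ₀ (incl₀ G E m) = incl₀₁ G E ((twist G E).ρ₀ m) := rfl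

theorem ρ₁_incl₁ (m : (twist G E).M₁) :
    G.ρ₁ (incl₁ G E m) = incl₀₁ G E ((twist G E).ρ₁ m) := rfl

/-- Elements of `I₀ • M₀` as elements of the twist. -/
noncomputable def mk₀ (m : G.M₀) (hm : m ∈ (E.I₀ • ⊤ : Submodule (D.A₀ B) G.M₀)) :
    (twist G E).M₀ := ⟨m, hm⟩

/-- Elements of `I₁ • M₁` as elements of the twist. -/
noncomputable def mk₁ (m : G.M₁) (hm : m ∈ (E.I₁ • ⊤ : Submodule (D.A₁ B) G.M₁)) :
    (twist G E).M₁ := ⟨m, hm⟩

/-- Elements of `I₀₁ • M₀₁` as elements of the twist. -/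
noncomputable def mk₀₁ (m : G.M₀₁) (hm : m ∈ (E.I₀₁ • ⊤ : Submodule (D.A₀₁ B) G.M₀₁)) :
    (twist G E).M₀₁ := ⟨m, hm⟩

@[simp] theorem incl₀_mk₀ (m : G.M₀) (hm) : incl₀ G E (mk₀ G E m hm) = m := rfl
@[simp] theorem incl₁_mk₁ (m : G.M₁) (hm) : incl₁ G E (mk₁ G E m hm) = m := rfl
@[simp] theorem incl₀₁_mk₀₁ (m : G.M₀₁) (hm) : incl₀₁ G E (mk₀₁ G E m hm) = m := rfl

variable {G} in
/-- The twist of an isomorphism. -/
noncomputable def isoTwist {G' : GlueDatum D B} (f : GlueDatum.Iso G G') (E : DivDatum D B) :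
    GlueDatum.Iso (twist G E) (twist G' E) where
  e₀ := smulTopEquiv f.e₀ E.I₀
  e₁ := smulTopEquiv f.e₁ E.I₁
  e₀₁ := smulTopEquiv f.e₀₁ E.I₀₁
  comm₀ m := Subtype.ext (f.comm₀ m.1)
  comm₁ m := Subtype.ext (f.comm₁ m.1)

variable {G} in
/-- Twisting respects isomorphism classes. -/
theorem equiv_twist {G' : GlueDatum D B} (h : G.Equiv G') (E : DivDatum D B) :
    (twist G E).Equiv (twist G' E) :=
  h.elim fun f => ⟨isoTwist f E⟩

end Twist

/-! ## §5 Base change of the twist -/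

section BCGeneric

variable {S S' : Type*} [CommRing S] [CommRing S'] [Algebra S S'] {M : Type*} [AddCommGroup M]
  [Module S M]

/-- The canonical semilinear map `I • M → (I S') • (S' ⊗ M)`, `m ↦ 1 ⊗ m`. -/
noncomputable def smulTopTmul (I : Ideal S) (J : Ideal S') (hJ : I.map (algebraMap S S') = J) :
    ↥(I • ⊤ : Submodule S M) →ₛₗ[algebraMap S S'] ↥(J • ⊤ : Submodule S' (S' ⊗[S] M)) where
  toFun m := ⟨(1 : S') ⊗ₜ[S] (m : M), hJ ▸ map_mem_smul_top (TensorProduct.mk S S' M 1) I m.2⟩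
  map_add' a b := Subtype.ext (TensorProduct.tmul_add _ _ _)
  map_smul' c a := Subtype.ext (by
    change (1 : S') ⊗ₜ[S] (c • (a : M)) = algebraMap S S' c • ((1 : S') ⊗ₜ[S] (a : M))
    rw [algebraMap_smul, TensorProduct.tmul_smul])

@[simp] theorem smulTopTmul_coe (I : Ideal S) (J : Ideal S') (hJ : I.map (algebraMap S S') = J)
    (m : ↥(I • ⊤ : Submodule S M)) :
    ((smulTopTmul I J hJ m : ↥(J • ⊤ : Submodule S' (S' ⊗[S] M))) : S' ⊗[S] M) =
      (1 : S') ⊗ₜ[S] (m : M) := rfl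

theorem slLift_smulTopTmul_surjective (I : Ideal S) (J : Ideal S')
    (hJ : I.map (algebraMap S S') = J) :
    Function.Surjective (helper743.slLift (M := ↥(I • ⊤ : Submodule S M))
      (M' := ↥(J • ⊤ : Submodule S' (S' ⊗[S] M))) (smulTopTmul I J hJ)) := by
  subst hJ
  let P : Submodule S' (S' ⊗[S] M) := Submodule.map (Submodule.subtype _)
    (LinearMap.range (helper743.slLift (M := ↥(I • ⊤ : Submodule S M))
      (M' := ↥(I.map (algebraMap S S') • ⊤ : Submodule S' (S' ⊗[S] M)))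
      (smulTopTmul I (I.map (algebraMap S S')) rfl)))
  have key : ∀ a ∈ I.map (algebraMap S S'), ∀ n : S' ⊗[S] M, a • n ∈ P := by
    intro a ha
    refine Submodule.span_induction ?_ ?_ ?_ ?_ ha
    · rintro _ ⟨i, hi, rfl⟩ n
      induction n using TensorProduct.induction_on with
      | zero => simp
      | tmul s' m =>
        refine ⟨helper743.slLift (M := ↥(I • ⊤ : Submodule S M))
          (M' := ↥(I.map (algebraMap S S') • ⊤ : Submodule S' (S' ⊗[S] M)))
          (smulTopTmul I (I.map (algebraMap S S')) rfl)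
          (s' ⊗ₜ ⟨i • m, Submodule.smul_mem_smul hi Submodule.mem_top⟩), ⟨_, rfl⟩, ?_⟩
        rw [helper743.slLift_tmul]
        change s' • ((1 : S') ⊗ₜ[S] (i • m)) = algebraMap S S' i • (s' ⊗ₜ[S] m)
        rw [TensorProduct.smul_tmul', smul_eq_mul, mul_one, algebraMap_smul,
          TensorProduct.tmul_smul]
      | add x y hx hy => rw [smul_add]; exact add_mem hx hy
    · intro n; simp
    · intro x y _ _ hx hy n; rw [add_smul]; exact add_mem (hx n) (hy n)
    · intro c x _ hx n; rw [smul_eq_mul, mul_smul]; exact P.smul_mem c (hx n)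
  intro z
  have hz : (z : S' ⊗[S] M) ∈ P := (Submodule.smul_le.mpr (fun a ha n _ => key a ha n)) z.2
  obtain ⟨w, ⟨t, rfl⟩, hw⟩ := hz
  exact ⟨t, Subtype.ext hw⟩

/-- The base change of `I • M` is `(I S') • (S' ⊗ M)` as soon as both are invertible modules:
a surjection of invertible modules is bijective, so no flatness hypothesis is needed. -/
theorem slLift_smulTopTmul_bijective (I : Ideal S) (J : Ideal S')
    (hJ : I.map (algebraMap S S') = J)
    (h1 : Module.Invertible S ↥(I • ⊤ : Submodule S M))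
    (h2 : Module.Invertible S' ↥(J • ⊤ : Submodule S' (S' ⊗[S] M))) :
    Function.Bijective (helper743.slLift (M := ↥(I • ⊤ : Submodule S M))
      (M' := ↥(J • ⊤ : Submodule S' (S' ⊗[S] M))) (smulTopTmul I J hJ)) :=
  Module.Invertible.bijective_of_surjective (slLift_smulTopTmul_surjective I J hJ)

end BCGeneric

section BaseChange

variable {k : Type u} [Field k] {D : CurveDatum k} {B : Type u} [CommRing B] [Algebra k B]
  {B' : Type u} [CommRing B'] [Algebra k B']

/-- The overlap module of a two-chart line bundle is invertible. -/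
theorem invertible₀₁ (G : GlueDatum D B) : Module.Invertible (D.A₀₁ B) G.M₀₁ :=
  Module.Invertible.of_isLocalization (Submonoid.powers (xB D B)) G.ρ₀

/-- **Base change of the twist.**  If the ideals of `E'` are the extensions of the ideals of `E`
along `φ : B → B'`, then `G(−E) ⊗ B' ≅ (G ⊗ B')(−E')`. -/
theorem twist_baseChange (G : GlueDatum D B) (E : DivDatum D B) (φ : B →ₐ[k] B')
    (E' : DivDatum D B') (h₀ : E.I₀.map (D.map₀ φ) = E'.I₀) (h₁ : E.I₁.map (D.map₁ φ) = E'.I₁) :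
    ((twist G E).baseChange φ).Equiv (twist (G.baseChange φ) E') := by
  let _ := algA₀ D φ
  let _ := algA₁ D φ
  let _ := algA₀₁ D φ
  let _ := algA₀A₀₁ D φ
  let _ := algA₁A₀₁ D φ
  have := tower_A₀_A₀₁_A₀₁' D φ
  have := tower_A₀_A₀'_A₀₁' D φ
  have := tower_A₁_A₀₁_A₀₁' D φ
  have := tower_A₁_A₁'_A₀₁' D φ
  have h₀' : E.I₀.map (algebraMap (D.A₀ B) (D.A₀ B')) = E'.I₀ := h₀
  have h₁' : E.I₁.map (algebraMap (D.A₁ B) (D.A₁ B')) = E'.I₁ := h₁
  have h₀₁' : E.I₀₁.map (algebraMap (D.A₀₁ B) (D.A₀₁ B')) = E'.I₀₁ := by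
    have hc : (algebraMap (D.A₀₁ B) (D.A₀₁ B')).comp (algebraMap (D.A₀ B) (D.A₀₁ B)) =
        (algebraMap (D.A₀ B') (D.A₀₁ B')).comp (algebraMap (D.A₀ B) (D.A₀ B')) :=
      RingHom.ext fun a => (res₀_map₀ D φ a).symm
    rw [← E.map₀, ← E'.map₀, ← h₀', Ideal.map_map, Ideal.map_map, hc]
  exact helper743.equiv_of_baseChange (twist G E) φ (twist (G.baseChange φ) E')
    (smulTopTmul (S := D.A₀ B) (S' := D.A₀ B') (M := G.M₀) E.I₀ E'.I₀ h₀')
    (smulTopTmul (S := D.A₁ B) (S' := D.A₁ B') (M := G.M₁) E.I₁ E'.I₁ h₁')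
    (smulTopTmul (S := D.A₀₁ B) (S' := D.A₀₁ B') (M := G.M₀₁) E.I₀₁ E'.I₀₁ h₀₁')
    (fun m => Subtype.ext (by
      change (G.baseChange φ).ρ₀ ((1 : D.A₀ B') ⊗ₜ[D.A₀ B] (incl₀ G E m)) =
        (1 : D.A₀₁ B') ⊗ₜ[D.A₀₁ B] G.ρ₀ (incl₀ G E m)
      exact (sqBaseChange_tmul (S := D.A₀₁ B) (S' := D.A₀₁ B') G.ρ₀ 1 _).trans
        (by rw [map_one])))
    (fun m => Subtype.ext (by
      change (G.baseChange φ).ρ₁ ((1 : D.A₁ B') ⊗ₜ[D.A₁ B] (incl₁ G E m)) =
        (1 : D.A₀₁ B') ⊗ₜ[D.A₀₁ B] G.ρ₁ (incl₁ G E m)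
      exact (sqBaseChange_tmul (S := D.A₀₁ B) (S' := D.A₀₁ B') G.ρ₁ 1 _).trans
        (by rw [map_one])))
    (slLift_smulTopTmul_bijective (S := D.A₀ B) (S' := D.A₀ B') (M := G.M₀) E.I₀ E'.I₀ h₀'
      (twist G E).inv₀ (twist (G.baseChange φ) E').inv₀)
    (slLift_smulTopTmul_bijective (S := D.A₁ B) (S' := D.A₁ B') (M := G.M₁) E.I₁ E'.I₁ h₁'
      (twist G E).inv₁ (twist (G.baseChange φ) E').inv₁)
    (slLift_smulTopTmul_bijective (S := D.A₀₁ B) (S' := D.A₀₁ B') (M := G.M₀₁) E.I₀₁ E'.I₀₁ h₀₁'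
      (invertible₀₁ (twist G E)) (invertible₀₁ (twist (G.baseChange φ) E')))

end BaseChange

/-! ## §6 Euler characteristic of the twist over a field -/

section ChiTwist

variable {k : Type u} [Field k] {D : CurveDatum k} {F : Type u} [Field F] [Algebra k F]

/-- **Euler characteristic of a twist.**  Over a field `F`, for a datum `G` with
finite-dimensional cohomology and a divisor datum `E` such that the three quotients
`M₀ / I₀ M₀`, `M₁ / I₁ M₁`, `M₀₁ / I₀₁ M₀₁` are finite-dimensional: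
`χ(G) = χ(G(−E)) + dim M₀/I₀M₀ + dim M₁/I₁M₁ − dim M₀₁/I₀₁M₀₁`. -/
theorem chi_twist (G : GlueDatum D F) (E : DivDatum D F)
    [FiniteDimensional F (G.M₀ ⧸ (E.I₀ • ⊤ : Submodule (D.A₀ F) G.M₀))]
    [FiniteDimensional F (G.M₁ ⧸ (E.I₁ • ⊤ : Submodule (D.A₁ F) G.M₁))]
    [FiniteDimensional F (G.M₀₁ ⧸ (E.I₀₁ • ⊤ : Submodule (D.A₀₁ F) G.M₀₁))]
    (hG : FinCoh G.delta) :
    FinCoh (twist G E).delta ∧
      G.chi = (twist G E).chi + finrank F (G.M₀ ⧸ (E.I₀ • ⊤ : Submodule (D.A₀ F) G.M₀))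
        + finrank F (G.M₁ ⧸ (E.I₁ • ⊤ : Submodule (D.A₁ F) G.M₁))
        - finrank F (G.M₀₁ ⧸ (E.I₀₁ • ⊤ : Submodule (D.A₀₁ F) G.M₀₁)) := by
  let ι₀ : (twist G E).M₀ →ₗ[F] G.M₀ := (incl₀ G E).restrictScalars F
  let ι₁ : (twist G E).M₁ →ₗ[F] G.M₁ := (incl₁ G E).restrictScalars F
  let ι₀₁ : (twist G E).M₀₁ →ₗ[F] G.M₀₁ := (incl₀₁ G E).restrictScalars F
  have hr₀ : LinearMap.range ι₀ = (E.I₀ • ⊤ : Submodule (D.A₀ F) G.M₀).restrictScalars F := by
    ext z
    rw [Submodule.restrictScalars_mem, ← range_incl₀ G E]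
    rfl
  have hr₁ : LinearMap.range ι₁ = (E.I₁ • ⊤ : Submodule (D.A₁ F) G.M₁).restrictScalars F := by
    ext z
    rw [Submodule.restrictScalars_mem, ← range_incl₁ G E]
    rfl
  have hr₀₁ : LinearMap.range ι₀₁ =
      (E.I₀₁ • ⊤ : Submodule (D.A₀₁ F) G.M₀₁).restrictScalars F := by
    ext z
    rw [Submodule.restrictScalars_mem, ← range_incl₀₁ G E]
    rfl
  let e₀ : (G.M₀ ⧸ LinearMap.range ι₀) ≃ₗ[F] G.M₀ ⧸ (E.I₀ • ⊤ : Submodule (D.A₀ F) G.M₀) :=
    (Submodule.quotEquivOfEq _ _ hr₀).trans (Submodule.Quotient.restrictScalarsEquiv F _)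
  let e₁ : (G.M₁ ⧸ LinearMap.range ι₁) ≃ₗ[F] G.M₁ ⧸ (E.I₁ • ⊤ : Submodule (D.A₁ F) G.M₁) :=
    (Submodule.quotEquivOfEq _ _ hr₁).trans (Submodule.Quotient.restrictScalarsEquiv F _)
  let e₀₁ : (G.M₀₁ ⧸ LinearMap.range ι₀₁) ≃ₗ[F]
      G.M₀₁ ⧸ (E.I₀₁ • ⊤ : Submodule (D.A₀₁ F) G.M₀₁) :=
    (Submodule.quotEquivOfEq _ _ hr₀₁).trans (Submodule.Quotient.restrictScalarsEquiv F _)
  have : FiniteDimensional F (G.M₀ ⧸ LinearMap.range ι₀) := Module.Finite.equiv e₀.symm
  have : FiniteDimensional F (G.M₁ ⧸ LinearMap.range ι₁) := Module.Finite.equiv e₁.symm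
  have : FiniteDimensional F (G.M₀₁ ⧸ LinearMap.range ι₀₁) := Module.Finite.equiv e₀₁.symm
  obtain ⟨hf, hchi⟩ := chi_of_sub (twist G E) G ι₀ ι₁ ι₀₁ (incl₀_injective G E)
    (incl₁_injective G E) (incl₀₁_injective G E) (fun m => ρ₀_incl₀ G E m)
    (fun m => ρ₁_incl₁ G E m) hG
  refine ⟨hf, ?_⟩
  rw [hchi, e₀.finrank_eq, e₁.finrank_eq, e₀₁.finrank_eq]

end ChiTwist

end Fermat.Agent.S25.helper1035
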