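import Fermat.Agent.S25.helper8573_LCAssembly
import Fermat.Agent.S25.helper1002_QuotChartApi
import Fermat.Agent.S25.helper1035_PointTwist
import Fermat.Agent.S25.helper1397_HomGlue
import Fermat.Agent.S25.helper5597_DivisorIdealCurve
import Fermat.Agent.S25.helper622_DivisorAtInfinity
import Fermat.Agent.S25.helper1800_CurveDatumBasics
import Fermat.Agent.S25.helper622_PointTwist

/-!
# S25, root `Stmt_ChartOfAC`: THE chart family and the assembly skeleton (helper3173)

Captain's ruling R12. For a base bundle `N` over `k` (a `GlueDatum D k` of degree `g = genus D`)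
the charts are indexed by pairs `(s, f)`:

* `s : Fin g → D.R₀` a family of functions on the first chart of the curve;
* `f` an element of the quot-chart algebra `helper1002.ChartAlg k D.R₀ s` (which represents ideals
  `I` of `D.A₀ B` such that the classes of the `s j ⊗ 1` are a `B`-basis of `D.A₀ B ⧸ I`);
* chart algebra `W s f := Localization.Away f`, with the universal chart ideal
  `chartIdeal s f = helper1002.univIdealAway k D.R₀ s f` of `D.A₀ (W s f)`;
* universal bundle `P N s f := N_W(−D_univ)`, i.e. `helper1035.twist (baseOver N W) (divOf I)` for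
  `I = chartIdeal s f` (`divOf I = (I, atInfty I)`, the chart-0 divisor datum);
* the index set is cut down by `Good N s f`: `H¹(Hom(P, N_W)) = 0`, in the form
  "`(helper1397.homDatum (P N s f) (baseOver N W)).delta` is surjective".

The file states the five clause Props about THIS family and proves
`stmt_ChartOfAC_of : clauses → helper8573.Stmt_ChartOfAC`.
-/

set_option autoImplicit false

open TensorProduct

namespace Fermat.Agent.S25.helper3173

open Fermat.Agent.S25.helper1705 Fermat.Agent.S25.helper2945

universe u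

section Defs

variable {k : Type u} [Field k] [IsAlgClosed k] {D : CurveDatum k}

/-- The divisor datum `(I, atInfty I)` of a relative effective divisor contained in the first
chart: `I` an ideal of `D.A₀ B` with quotient finite projective over `B`.
(Same body as `helper1035.ofIdeal₀`; a `DivDatum` is determined by its two ideals,
`helper1035.DivDatum.ext_ideals`.) -/
noncomputable def divOf {B : Type u} [CommRing B] [Algebra k B] (I : Ideal (D.A₀ B))
    [Module.Finite B (D.A₀ B ⧸ I)] [Module.Projective B (D.A₀ B ⧸ I)] :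
    helper1035.DivDatum D B :=
  haveI := helper5597.ideal_invertible₀ D I
  helper1035.DivDatum.ofIdeals I (helper622.atInfty (D.A₁ B) (D.A₀₁ B) I)
    (helper622.map_atInfty (yB D B) I) (helper5597.ideal_invertible₀ D I)
    (helper622.invertible_atInfty (B := B) (xB D B) (yB D B) (xB_mul_yB D B) I)

@[simp] theorem divOf_I₀ {B : Type u} [CommRing B] [Algebra k B] (I : Ideal (D.A₀ B))
    [Module.Finite B (D.A₀ B ⧸ I)] [Module.Projective B (D.A₀ B ⧸ I)] :
    (divOf I).I₀ = I := rfl

@[simp] theorem divOf_I₁ {B : Type u} [CommRing B] [Algebra k B] (I : Ideal (D.A₀ B))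
    [Module.Finite B (D.A₀ B ⧸ I)] [Module.Projective B (D.A₀ B ⧸ I)] :
    (divOf I).I₁ = helper622.atInfty (D.A₁ B) (D.A₀₁ B) I := rfl

/-- `N_B(−D_I)`: the base bundle `N`, pulled back to `B`, twisted by the chart-0 divisor `I`. -/
noncomputable def twistOf (N : GlueDatum D k) {B : Type u} [CommRing B] [Algebra k B]
    (I : Ideal (D.A₀ B)) [Module.Finite B (D.A₀ B ⧸ I)] [Module.Projective B (D.A₀ B ⧸ I)] :
    GlueDatum D B :=
  helper1035.twist (helper8573.baseOver N B) (divOf I)

variable (D) in
/-- The chart algebra of the index `(s, f)`. -/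
abbrev W (s : Fin (helper8573.genus D) → D.R₀) (f : helper1002.ChartAlg k D.R₀ s) : Type u :=
  Localization.Away f

/-- The universal chart ideal over `W D s f`. -/
noncomputable def chartIdeal (s : Fin (helper8573.genus D) → D.R₀)
    (f : helper1002.ChartAlg k D.R₀ s) : Ideal (D.A₀ (W D s f)) :=
  helper1002.univIdealAway k D.R₀ s f

omit [IsAlgClosed k] in
theorem isChartIdeal_chartIdeal (s : Fin (helper8573.genus D) → D.R₀)
    (f : helper1002.ChartAlg k D.R₀ s) : helper1002.IsChartIdeal s (chartIdeal s f) :=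
  helper1002.isChartIdeal_univIdealAway f

omit [IsAlgClosed k] in
theorem finite_of_isChartIdeal {B : Type u} [CommRing B] [Algebra k B]
    {s : Fin (helper8573.genus D) → D.R₀} {I : Ideal (D.A₀ B)}
    (hI : helper1002.IsChartIdeal s I) : Module.Finite B (D.A₀ B ⧸ I) :=
  hI.finite

omit [IsAlgClosed k] in
theorem projective_of_isChartIdeal {B : Type u} [CommRing B] [Algebra k B]
    {s : Fin (helper8573.genus D) → D.R₀} {I : Ideal (D.A₀ B)}
    (hI : helper1002.IsChartIdeal s I) : Module.Projective B (D.A₀ B ⧸ I) :=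
  hI.projective

/-- THE universal bundle of the chart `(s, f)`: `N_W(−D_univ)` over `W D s f`. -/
noncomputable def P (N : GlueDatum D k) (s : Fin (helper8573.genus D) → D.R₀)
    (f : helper1002.ChartAlg k D.R₀ s) : GlueDatum D (W D s f) :=
  haveI := finite_of_isChartIdeal (isChartIdeal_chartIdeal s f)
  haveI := projective_of_isChartIdeal (isChartIdeal_chartIdeal s f)
  twistOf N (chartIdeal s f)

/-- `P N s f` is `twistOf N (chartIdeal s f)`, for any choice of the two instance arguments. -/
theorem P_eq (N : GlueDatum D k) (s : Fin (helper8573.genus D) → D.R₀)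
    (f : helper1002.ChartAlg k D.R₀ s)
    [Module.Finite (W D s f) (D.A₀ (W D s f) ⧸ chartIdeal s f)]
    [Module.Projective (W D s f) (D.A₀ (W D s f) ⧸ chartIdeal s f)] :
    P N s f = twistOf N (chartIdeal s f) := rfl

/-- The index condition of the chart `(s, f)`: `H¹(Hom(P, N_W)) = 0`. -/
def Good (N : GlueDatum D k) (s : Fin (helper8573.genus D) → D.R₀)
    (f : helper1002.ChartAlg k D.R₀ s) : Prop :=
  Function.Surjective (helper1397.homDatum (P N s f) (helper8573.baseOver N (W D s f))).delta

/-- The index type of the chart family of the base bundle `N`. -/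
def Idx (N : GlueDatum D k) : Type u :=
  Σ s : Fin (helper8573.genus D) → D.R₀, {f : helper1002.ChartAlg k D.R₀ s // Good N s f}

end Defs

/-! ## The clause Props (about THE family `P N s f`) -/

/-- RIG: the universal bundles are rigidified. -/
def Stmt_UnivRig : Prop :=
  ∀ (k : Type u) [Field k] [IsAlgClosed k] (D : CurveDatum k) (N : GlueDatum D k)
    (s : Fin (helper8573.genus D) → D.R₀) (f : helper1002.ChartAlg k D.R₀ s),
    (P N s f).IsRig

/-- DEG: the universal bundles have degree zero (when `N` has degree `g`). -/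
def Stmt_UnivDeg : Prop :=
  ∀ (k : Type u) [Field k] [IsAlgClosed k] (D : CurveDatum k) (N : GlueDatum D k),
    helper8573.HasDegreeGenus N →
    ∀ (s : Fin (helper8573.genus D) → D.R₀) (f : helper1002.ChartAlg k D.R₀ s),
      (P N s f).DegZero

/-- POINT (LC-UNIV): the pull-back of the universal bundle along `γ : W s f → B` is the twist
of `N_B` by the extended ideal (which is the chart ideal classified by `γ`,
`helper1002.chartAwayEquiv_apply`). -/
def Stmt_UnivPoint : Prop :=
  ∀ (k : Type u) [Field k] [IsAlgClosed k] (D : CurveDatum k) (N : GlueDatum D k)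
    (s : Fin (helper8573.genus D) → D.R₀) (f : helper1002.ChartAlg k D.R₀ s)
    (B : Type u) [CommRing B] [Algebra k B] (γ : W D s f →ₐ[k] B)
    [Module.Finite B (D.A₀ B ⧸ (chartIdeal s f).map (D.map₀ γ))]
    [Module.Projective B (D.A₀ B ⧸ (chartIdeal s f).map (D.map₀ γ))],
    ((P N s f).baseChange γ).Equiv (twistOf N ((chartIdeal s f).map (D.map₀ γ)))

/-- MONO: on a good chart the classifying map is determined by the isomorphism class of the
pulled-back bundle. -/
def Stmt_UnivMono : Prop :=
  ∀ (k : Type u) [Field k] [IsAlgClosed k] (D : CurveDatum k) (N : GlueDatum D k),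
    helper8573.HasDegreeGenus N →
    ∀ (s : Fin (helper8573.genus D) → D.R₀) (f : helper1002.ChartAlg k D.R₀ s),
      Good N s f → helper8573.ChartMono (P N s f)

/-- OPEN: a good chart is an open subfunctor (ideal form). -/
def Stmt_UnivOpen : Prop :=
  ∀ (k : Type u) [Field k] [IsAlgClosed k] (D : CurveDatum k) (N : GlueDatum D k),
    helper8573.HasDegreeGenus N →
    ∀ (s : Fin (helper8573.genus D) → D.R₀) (f : helper1002.ChartAlg k D.R₀ s),
      Good N s f → helper8573.ChartOpenIdeal (P N s f)

/-- IMAGE: every rigidified degree-zero bundle over an algebraically closed field which satisfies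
the intrinsic chart condition `InChartOf N` is pulled back from a good chart. -/
def Stmt_UnivImage : Prop :=
  ∀ (k : Type u) [Field k] [IsAlgClosed k] (D : CurveDatum k) (N : GlueDatum D k),
    helper8573.HasDegreeGenus N →
    ∀ (K : Type u) [Field K] [Algebra k K] [IsAlgClosed K] (G : GlueDatum D K),
      G.IsRig → G.DegZero → helper8573.InChartOf N G →
      ∃ (s : Fin (helper8573.genus D) → D.R₀) (f : helper1002.ChartAlg k D.R₀ s),
        Good N s f ∧ helper8573.InChart (P N s f) G

/-! ## The assembly -/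

/-- **CHART-OF, assembled** from the five clauses about the chart family `P N s f`. -/
theorem stmt_ChartOfAC_of (hRig : Stmt_UnivRig.{u}) (hDeg : Stmt_UnivDeg.{u})
    (hMono : Stmt_UnivMono.{u}) (hOpen : Stmt_UnivOpen.{u}) (hImage : Stmt_UnivImage.{u}) :
    helper8573.Stmt_ChartOfAC.{u} := by
  intro k _ _ D N hN
  have := helper1800.finiteType₀ D
  refine ⟨Idx N, fun i => W D i.1 i.2.1, fun i => inferInstance, fun i => inferInstance,
    fun i => P N i.1 i.2.1, fun i => inferInstance, fun i => hRig k D N i.1 i.2.1,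
    fun i => hDeg k D N hN i.1 i.2.1, fun i => hMono k D N hN i.1 i.2.1 i.2.2,
    fun i => hOpen k D N hN i.1 i.2.1 i.2.2, ?_⟩
  intro K _ _ _ G hG hG0 hin
  obtain ⟨s, f, hf, h⟩ := hImage k D N hN K G hG hG0 hin
  exact ⟨⟨s, ⟨f, hf⟩⟩, h⟩

/-- **ALG-CHARTS** from the five clauses and the covering statement. -/
theorem stmt_AlgCharts_of_univ (hRig : Stmt_UnivRig.{u}) (hDeg : Stmt_UnivDeg.{u})
    (hMono : Stmt_UnivMono.{u}) (hOpen : Stmt_UnivOpen.{u}) (hImage : Stmt_UnivImage.{u})
    (hCover : helper8573.Stmt_CoverAC.{u}) : helper1705.Stmt_AlgCharts.{u} :=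
  helper8573.stmt_AlgCharts_of (stmt_ChartOfAC_of hRig hDeg hMono hOpen hImage) hCover

/-! ## The clauses RIG and POINT (proved), and the inclusion `N_B(−D_I) → N_B` -/

section Generic

variable {k : Type u} [Field k] {D : CurveDatum k} {B : Type u} [CommRing B] [Algebra k B]

/-- The inclusion `G(−E) → G` as a morphism of two-chart bundles. -/
noncomputable def inclMor (G : GlueDatum D B) (E : helper1035.DivDatum D B) :
    helper8573.Mor (helper1035.twist G E) G where
  f₀ := helper1035.incl₀ G E
  f₁ := helper1035.incl₁ G E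
  f₀₁ := helper1035.incl₀₁ G E
  comm₀ m := (helper1035.ρ₀_incl₀ G E m).symm
  comm₁ m := (helper1035.ρ₁_incl₁ G E m).symm

@[simp] theorem inclMor_f₀ (G : GlueDatum D B) (E : helper1035.DivDatum D B) :
    (inclMor G E).f₀ = helper1035.incl₀ G E := rfl

@[simp] theorem inclMor_f₁ (G : GlueDatum D B) (E : helper1035.DivDatum D B) :
    (inclMor G E).f₁ = helper1035.incl₁ G E := rfl

theorem range_inclMor_f₀ (G : GlueDatum D B) (E : helper1035.DivDatum D B) :
    LinearMap.range (inclMor G E).f₀ = E.I₀ • ⊤ := helper1035.range_incl₀ G E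

theorem range_inclMor_f₁ (G : GlueDatum D B) (E : helper1035.DivDatum D B) :
    LinearMap.range (inclMor G E).f₁ = E.I₁ • ⊤ := helper1035.range_incl₁ G E

/-- The inclusion of a twist by a divisor which does not meet `V(y)` is an isomorphism along
`V(y)`. -/
theorem inclMor_surjModY (G : GlueDatum D B) (E : helper1035.DivDatum D B)
    (hu : ∃ u ∈ E.I₁, u - 1 ∈ Ideal.span {yB D B}) : (inclMor G E).SurjModY := by
  obtain ⟨u, hu, hu1⟩ := hu
  obtain ⟨w, hw⟩ := Ideal.mem_span_singleton'.mp hu1
  intro n
  refine ⟨helper1035.mk₁ G E (u • n) (Submodule.smul_mem_smul hu Submodule.mem_top), -(w • n), ?_⟩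
  show n = u • n + yB D B • -(w • n)
  have h1 : u = 1 + w * yB D B := by rw [hw]; ring
  rw [h1, add_smul, one_smul, smul_neg, mul_comm, mul_smul]
  abel

/-- The twist of a rigidified bundle by a divisor not meeting the section `ε` is rigidified. -/
theorem isRig_twist (G : GlueDatum D B) (E : helper1035.DivDatum D B)
    (hu : ∃ u ∈ E.I₁, D.eB B u = 1) (hG : G.IsRig) : (helper1035.twist G E).IsRig := by
  obtain ⟨u, hu, hu1⟩ := hu
  let _ := algE D B
  obtain ⟨e⟩ := hG
  exact ⟨(helper622.tensorSMulTopEquiv (C := B) E.I₁ u hu hu1 G.M₁).trans e⟩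

/-- The base bundle over `B`, pulled back along `B → B'`, is the base bundle over `B'`. -/
theorem baseOver_baseChange (N : GlueDatum D k) {B' : Type u} [CommRing B'] [Algebra k B']
    (φ : B →ₐ[k] B') :
    ((helper8573.baseOver N B).baseChange φ).Equiv (helper8573.baseOver N B') := by
  have h := helper743.baseChange_comp N (Algebra.ofId k B) φ
  have e : φ.comp (Algebra.ofId k B) = Algebra.ofId k B' := by
    ext
  rwa [e] at h

end Generic

section TwistOf

variable {k : Type u} [Field k] [IsAlgClosed k] {D : CurveDatum k}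
  {B : Type u} [CommRing B] [Algebra k B]

/-- The witness that a chart-0 divisor does not meet `V(y)`. -/
theorem exists_mem_divOf_I₁ (I : Ideal (D.A₀ B)) [Module.Finite B (D.A₀ B ⧸ I)]
    [Module.Projective B (D.A₀ B ⧸ I)] :
    ∃ u ∈ (divOf I).I₁, u - 1 ∈ Ideal.span {yB D B} ∧ D.eB B u = 1 :=
  helper622.exists_mem_inf₀_eB_eq_one I

/-- The inclusion `N_B(−D_I) → N_B`. -/
noncomputable def twistOfIncl (N : GlueDatum D k) (I : Ideal (D.A₀ B))
    [Module.Finite B (D.A₀ B ⧸ I)] [Module.Projective B (D.A₀ B ⧸ I)] :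
    helper8573.Mor (twistOf N I) (helper8573.baseOver N B) :=
  inclMor (helper8573.baseOver N B) (divOf I)

theorem twistOfIncl_surjModY (N : GlueDatum D k) (I : Ideal (D.A₀ B))
    [Module.Finite B (D.A₀ B ⧸ I)] [Module.Projective B (D.A₀ B ⧸ I)] :
    (twistOfIncl N I).SurjModY := by
  obtain ⟨u, hu, hu1, -⟩ := exists_mem_divOf_I₁ I
  exact inclMor_surjModY _ _ ⟨u, hu, hu1⟩

theorem range_twistOfIncl_f₀ (N : GlueDatum D k) (I : Ideal (D.A₀ B))
    [Module.Finite B (D.A₀ B ⧸ I)] [Module.Projective B (D.A₀ B ⧸ I)] :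
    LinearMap.range (twistOfIncl N I).f₀ = I • ⊤ :=
  range_inclMor_f₀ _ _

theorem twistOfIncl_f₀_injective (N : GlueDatum D k) (I : Ideal (D.A₀ B))
    [Module.Finite B (D.A₀ B ⧸ I)] [Module.Projective B (D.A₀ B ⧸ I)] :
    Function.Injective (twistOfIncl N I).f₀ :=
  helper1035.incl₀_injective _ _

theorem twistOfIncl_f₁_injective (N : GlueDatum D k) (I : Ideal (D.A₀ B))
    [Module.Finite B (D.A₀ B ⧸ I)] [Module.Projective B (D.A₀ B ⧸ I)] :
    Function.Injective (twistOfIncl N I).f₁ :=
  helper1035.incl₁_injective _ _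

/-- **RIG, generic form**: `N_B(−D_I)` is rigidified. -/
theorem isRig_twistOf (N : GlueDatum D k) (I : Ideal (D.A₀ B))
    [Module.Finite B (D.A₀ B ⧸ I)] [Module.Projective B (D.A₀ B ⧸ I)] :
    (twistOf N I).IsRig := by
  obtain ⟨u, hu, -, hu1⟩ := exists_mem_divOf_I₁ I
  exact isRig_twist _ _ ⟨u, hu, hu1⟩
    (helper743.isRig_baseChange (helper743.isRig_of_field N) (Algebra.ofId k B))

/-- **POINT, generic form**: `N_B(−D_I) ⊗ B' ≅ N_B'(−D_{I B'})`. -/
theorem twistOf_baseChange (N : GlueDatum D k) {B' : Type u} [CommRing B'] [Algebra k B']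
    (φ : B →ₐ[k] B') (I : Ideal (D.A₀ B))
    [Module.Finite B (D.A₀ B ⧸ I)] [Module.Projective B (D.A₀ B ⧸ I)]
    [Module.Finite B' (D.A₀ B' ⧸ I.map (D.map₀ φ))]
    [Module.Projective B' (D.A₀ B' ⧸ I.map (D.map₀ φ))] :
    ((twistOf N I).baseChange φ).Equiv (twistOf N (I.map (D.map₀ φ))) :=
  (helper1035.twist_baseChange (helper8573.baseOver N B) (divOf I) φ
      (divOf (I.map (D.map₀ φ))) rfl (helper622.inf₀_map φ I)).trans
    (helper1035.equiv_twist (baseOver_baseChange N φ) _)

end TwistOf

theorem stmt_UnivRig : Stmt_UnivRig.{u} := by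
  intro k _ _ D N s f
  have := finite_of_isChartIdeal (isChartIdeal_chartIdeal s f)
  have := projective_of_isChartIdeal (isChartIdeal_chartIdeal s f)
  exact isRig_twistOf N (chartIdeal s f)

theorem stmt_UnivPoint : Stmt_UnivPoint.{u} := by
  intro k _ _ D N s f B _ _ γ _ _
  have := finite_of_isChartIdeal (isChartIdeal_chartIdeal s f)
  have := projective_of_isChartIdeal (isChartIdeal_chartIdeal s f)
  exact twistOf_baseChange N γ (chartIdeal s f)

end Fermat.Agent.S25.helper3173
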