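/-
S25 (Jacobian moonshot), leaf LC-RED, MORPHISM / SUB-DATUM form (helper1567).

The chart layer (helper8573_LCSpec: `InChartOf`, `Mor.SurjModY`) works with a morphism
`σ : G → N` of two-chart line bundles rather than with a section.  This file gives RED in that
form:

* submodule form (unbundled): if `N₁ ⊆ M₁` satisfies `N₁ + y M₁ = M₁`, and `N₀ ⊆ M₀` contains
  `N₁` on the overlap up to powers of `x`, then `G(x) M₀ ⊆ N₀` for a MONIC `G ∈ B[X]` and
  `M₀ ⧸ N₀` is finite over `B`;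
* morphism form (unbundled): `t₀ : L₀ → M₀`, `t₁ : L₁ → M₁` compatible on the overlap, `t₁` onto
  modulo `y`, `t₀` fibrewise injective  ⟹  `t₀` injective and `M₀ ⧸ range t₀` finite projective
  over `B`;
* GlueDatum form: for `σ : Mor G N` with `σ.SurjModY` and `σ.f₀` nonzero on every closed fibre
  (`k` algebraically closed): `σ.f₀` is injective (universally), and `N.M₀ ⧸ range σ.f₀` is a
  finite projective `B`-module.
-/
import Fermat.Agent.S25.helper1567_RelDivisorGlue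
import Fermat.Agent.S25.helper8573_LCSpec

set_option autoImplicit false
set_option linter.style.haveILetI false

open scoped TensorProduct
open Polynomial

namespace Fermat.Agent.S25.helper1567

open Fermat.Agent.S25.helper1705 Fermat.Agent.S25.helper2945

universe u

section SubmoduleForm

variable {B A₀ A₁ A₀₁ : Type*} [CommRing B] [CommRing A₀] [CommRing A₁] [CommRing A₀₁]
  [Algebra B A₀] [Algebra B A₁] [Algebra B A₀₁] [Algebra A₀ A₀₁] [Algebra A₁ A₀₁]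
  [IsScalarTower B A₀ A₀₁] [IsScalarTower B A₁ A₀₁]
  {M₀ M₁ M₀₁ : Type*} [AddCommGroup M₀] [AddCommGroup M₁] [AddCommGroup M₀₁]
  [Module A₀ M₀] [Module A₁ M₁] [Module A₀₁ M₀₁] [Module A₀ M₀₁] [Module A₁ M₀₁]
  [IsScalarTower A₀ A₀₁ M₀₁] [IsScalarTower A₁ A₀₁ M₀₁]

omit [Algebra B A₀] [CommRing A₀] [CommRing A₀₁] [Algebra B A₀₁] [Algebra A₀ A₀₁]
  [Algebra A₁ A₀₁] [IsScalarTower B A₀ A₀₁] [IsScalarTower B A₁ A₀₁]
  [AddCommGroup M₀] [AddCommGroup M₀₁] [Module A₀ M₀] [Module A₀₁ M₀₁] [Module A₀ M₀₁]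
  [Module A₁ M₀₁] [IsScalarTower A₀ A₀₁ M₀₁] [IsScalarTower A₁ A₀₁ M₀₁] in
/-- Nakayama step, submodule form: if `N₁ + y M₁ = M₁` and `M₁` is finite over `B[y]`, then
some `u ∈ B[X]` with constant coefficient `1` satisfies `u(y) M₁ ⊆ N₁`. -/
theorem exists_poly_smul_mem_at_infinity [Module.Finite A₁ M₁] (y : A₁)
    (hfin₁ : (aeval y : B[X] →ₐ[B] A₁).toRingHom.Finite) (N₁ : Submodule A₁ M₁)
    (hgen : ∀ m : M₁, ∃ n ∈ N₁, ∃ m' : M₁, m = n + y • m') :
    ∃ u : B[X], u.coeff 0 = 1 ∧ ∀ m : M₁, aeval y u • m ∈ N₁ := by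
  classical
  letI : Algebra B[X] A₁ := (aeval y : B[X] →ₐ[B] A₁).toRingHom.toAlgebra
  letI : Module B[X] (M₁ ⧸ N₁) := Module.compHom (M₁ ⧸ N₁) (algebraMap B[X] A₁)
  have hsm : ∀ (p : B[X]) (q : M₁ ⧸ N₁), p • q = aeval y p • q := fun _ _ => rfl
  haveI : IsScalarTower B[X] A₁ (M₁ ⧸ N₁) := ⟨fun p a q => by
    rw [hsm, Algebra.smul_def, mul_smul]
    rfl⟩
  haveI : Module.Finite B[X] A₁ := hfin₁
  haveI : Module.Finite B[X] (M₁ ⧸ N₁) := Module.Finite.trans A₁ (M₁ ⧸ N₁)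
  have hin : (⊤ : Submodule B[X] (M₁ ⧸ N₁))
      ≤ (Ideal.span {(X : B[X])}) • (⊤ : Submodule B[X] (M₁ ⧸ N₁)) := by
    intro z _
    obtain ⟨m, rfl⟩ := Submodule.mkQ_surjective N₁ z
    obtain ⟨n, hn, m', rfl⟩ := hgen m
    have hn0 : N₁.mkQ n = 0 := by
      rw [Submodule.mkQ_apply, Submodule.Quotient.mk_eq_zero]
      exact hn
    have h1 : N₁.mkQ (n + y • m') = (X : B[X]) • N₁.mkQ m' := by
      rw [hsm, aeval_X, map_add, map_smul, hn0, zero_add]
    rw [h1]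
    exact Submodule.smul_mem_smul (Ideal.mem_span_singleton_self X) Submodule.mem_top
  obtain ⟨r, hr1, hr⟩ := Submodule.exists_sub_one_mem_and_smul_eq_zero_of_fg_of_le_smul
    (Ideal.span {(X : B[X])}) (⊤ : Submodule B[X] (M₁ ⧸ N₁)) Module.Finite.fg_top hin
  refine ⟨r, ?_, fun m => ?_⟩
  · rw [Ideal.mem_span_singleton, Polynomial.X_dvd_iff] at hr1
    simpa [sub_eq_zero] using hr1
  · have h := hr (N₁.mkQ m) Submodule.mem_top
    rw [hsm, ← map_smul, Submodule.mkQ_apply, Submodule.Quotient.mk_eq_zero] at h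
    exact h

/-- Transport to the first chart, submodule form: if `N₀` contains `N₁` on the overlap up to
powers of `x`, then every element of `M₀` is sent into `N₀` by `x ^ n * u.reverse(x)` for
some `n`. -/
theorem exists_pow_mul_reverse_smul_mem
    (x : A₀) (y : A₁) (hxy : algebraMap A₀ A₀₁ x * algebraMap A₁ A₀₁ y = 1)
    (ρ₀ : M₀ →ₗ[A₀] M₀₁) (ρ₁ : M₁ →ₗ[A₁] M₀₁)
    [IsLocalizedModule (Submonoid.powers x) ρ₀] [IsLocalizedModule (Submonoid.powers y) ρ₁]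
    (N₀ : Submodule A₀ M₀) (N₁ : Submodule A₁ M₁)
    (hov : ∀ n₁ ∈ N₁, ∃ (j : ℕ), ∃ n₀ ∈ N₀, x ^ j • ρ₁ n₁ = ρ₀ n₀)
    (u : B[X]) (hu : ∀ m : M₁, aeval y u • m ∈ N₁) (m₀ : M₀) :
    ∃ n : ℕ, (x ^ n * aeval x u.reverse) • m₀ ∈ N₀ := by
  obtain ⟨⟨m₁, ⟨_, N, rfl⟩⟩, h1⟩ := IsLocalizedModule.surj (Submonoid.powers y) ρ₁ (ρ₀ m₀)
  have h1' : (algebraMap A₁ A₀₁ y) ^ N • ρ₀ m₀ = ρ₁ m₁ := by
    rw [← map_pow, algebraMap_smul]
    exact h1
  obtain ⟨j, n₀, hn₀, hj⟩ := hov _ (hu m₁)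
  set X' := algebraMap A₀ A₀₁ x with hX'
  set Y' := algebraMap A₁ A₀₁ y with hY'
  have hP := aeval_reverse_of_mul_eq_one (B := B) X' Y' hxy u
  have key : ρ₀ (aeval x u.reverse • m₀) = X' ^ (N + u.natDegree) • ρ₁ (aeval y u • m₁) := by
    have e1 : ρ₀ (aeval x u.reverse • m₀) = (aeval X' u.reverse) • ρ₀ m₀ := by
      rw [map_smul, hX', aeval_algebraMap_apply, algebraMap_smul]
    have e2 : (aeval X' u.reverse) • ρ₀ m₀
        = (X' ^ (N + u.natDegree) * aeval Y' u) • (Y' ^ N • ρ₀ m₀) := by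
      rw [smul_smul, hP]
      congr 1
      have : X' ^ N * Y' ^ N = 1 := by rw [← mul_pow, hxy, one_pow]
      calc aeval Y' u * X' ^ u.natDegree
          = aeval Y' u * X' ^ u.natDegree * (X' ^ N * Y' ^ N) := by rw [this, mul_one]
        _ = X' ^ (N + u.natDegree) * aeval Y' u * Y' ^ N := by ring
    have e3 : (aeval Y' u) • ρ₁ m₁ = ρ₁ (aeval y u • m₁) := by
      rw [hY', aeval_algebraMap_apply, algebraMap_smul, map_smul]
    rw [e1, e2, h1', mul_smul, e3]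
  have h3 : ρ₀ ((x ^ j * aeval x u.reverse) • m₀) = ρ₀ (x ^ (N + u.natDegree) • n₀) := by
    calc ρ₀ ((x ^ j * aeval x u.reverse) • m₀)
        = x ^ j • ρ₀ (aeval x u.reverse • m₀) := by rw [mul_smul, map_smul]
      _ = x ^ j • (X' ^ (N + u.natDegree) • ρ₁ (aeval y u • m₁)) := by rw [key]
      _ = X' ^ (N + u.natDegree) • (x ^ j • ρ₁ (aeval y u • m₁)) := by rw [smul_comm]
      _ = X' ^ (N + u.natDegree) • ρ₀ n₀ := by rw [hj]
      _ = x ^ (N + u.natDegree) • ρ₀ n₀ := by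
          rw [hX', ← map_pow, algebraMap_smul]
      _ = ρ₀ (x ^ (N + u.natDegree) • n₀) := by rw [map_smul]
  obtain ⟨⟨_, j', rfl⟩, h4⟩ :=
    IsLocalizedModule.exists_of_eq (S := Submonoid.powers x) (f := ρ₀) h3
  refine ⟨j' + j, ?_⟩
  have h5 : (x ^ (j' + j) * aeval x u.reverse) • m₀ = x ^ j' • (x ^ (N + u.natDegree) • n₀) := by
    rw [pow_add, mul_assoc, mul_smul]
    exact h4
  rw [h5]
  exact N₀.smul_mem _ (N₀.smul_mem _ hn₀)

/-- (RED1), submodule form: there is a MONIC `G ∈ B[X]` with `G(x) M₀ ⊆ N₀`. -/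
theorem exists_monic_smul_mem
    (x : A₀) (y : A₁) (hxy : algebraMap A₀ A₀₁ x * algebraMap A₁ A₀₁ y = 1)
    (ρ₀ : M₀ →ₗ[A₀] M₀₁) (ρ₁ : M₁ →ₗ[A₁] M₀₁)
    [IsLocalizedModule (Submonoid.powers x) ρ₀] [IsLocalizedModule (Submonoid.powers y) ρ₁]
    [Module.Finite A₀ M₀] [Module.Finite A₁ M₁]
    (hfin₁ : (aeval y : B[X] →ₐ[B] A₁).toRingHom.Finite)
    (N₀ : Submodule A₀ M₀) (N₁ : Submodule A₁ M₁)
    (hov : ∀ n₁ ∈ N₁, ∃ (j : ℕ), ∃ n₀ ∈ N₀, x ^ j • ρ₁ n₁ = ρ₀ n₀)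
    (hgen : ∀ m : M₁, ∃ n ∈ N₁, ∃ m' : M₁, m = n + y • m') :
    ∃ G : B[X], G.Monic ∧ ∀ m : M₀, aeval x G • m ∈ N₀ := by
  classical
  obtain ⟨u, hu0, hu⟩ := exists_poly_smul_mem_at_infinity y hfin₁ N₁ hgen
  have hP : u.reverse.Monic := monic_reverse_of_coeff_zero u hu0
  have h3 := fun m₀ => exists_pow_mul_reverse_smul_mem x y hxy ρ₀ ρ₁ N₀ N₁ hov u hu m₀
  obtain ⟨S, hS⟩ := (Module.Finite.fg_top : (⊤ : Submodule A₀ M₀).FG)
  choose n hn using h3
  refine ⟨X ^ (S.sup n) * u.reverse, (monic_X_pow _).mul hP, fun m => ?_⟩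
  have hm : m ∈ Submodule.span A₀ (S : Set M₀) := hS ▸ Submodule.mem_top
  induction hm using Submodule.span_induction with
  | mem g hg =>
    have hle : n g ≤ S.sup n := Finset.le_sup (Finset.mem_coe.mp hg)
    have h4 : aeval x (X ^ (S.sup n) * u.reverse)
        = x ^ (S.sup n - n g) * (x ^ n g * aeval x u.reverse) := by
      rw [map_mul, map_pow, aeval_X, ← mul_assoc, ← pow_add, Nat.sub_add_cancel hle]
    rw [h4, mul_smul]
    exact N₀.smul_mem _ (hn g)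
  | zero => simp
  | add a b _ _ ha hb =>
    rw [smul_add]
    exact N₀.add_mem ha hb
  | smul c a _ ha =>
    rw [smul_comm]
    exact N₀.smul_mem _ ha

/-- (RED1), submodule form: `M₀ ⧸ N₀` is a finite `B`-module. -/
theorem finite_quotient_of_generates_at_infinity
    (x : A₀) (y : A₁) (hxy : algebraMap A₀ A₀₁ x * algebraMap A₁ A₀₁ y = 1)
    (ρ₀ : M₀ →ₗ[A₀] M₀₁) (ρ₁ : M₁ →ₗ[A₁] M₀₁)
    [IsLocalizedModule (Submonoid.powers x) ρ₀] [IsLocalizedModule (Submonoid.powers y) ρ₁]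
    [Module.Finite A₀ M₀] [Module.Finite A₁ M₁]
    [Module B M₀] [IsScalarTower B A₀ M₀]
    (hfin₀ : (aeval x : B[X] →ₐ[B] A₀).toRingHom.Finite)
    (hfin₁ : (aeval y : B[X] →ₐ[B] A₁).toRingHom.Finite)
    (N₀ : Submodule A₀ M₀) (N₁ : Submodule A₁ M₁)
    (hov : ∀ n₁ ∈ N₁, ∃ (j : ℕ), ∃ n₀ ∈ N₀, x ^ j • ρ₁ n₁ = ρ₀ n₀)
    (hgen : ∀ m : M₁, ∃ n ∈ N₁, ∃ m' : M₁, m = n + y • m') :
    Module.Finite B (M₀ ⧸ N₀) := by
  obtain ⟨G, hG, hGk⟩ := exists_monic_smul_mem x y hxy ρ₀ ρ₁ hfin₁ N₀ N₁ hov hgen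
  refine finite_of_aeval_finite x hfin₀ G hG ?_
  intro q
  obtain ⟨m, rfl⟩ := Submodule.mkQ_surjective _ q
  rw [← map_smul, Submodule.mkQ_apply, Submodule.Quotient.mk_eq_zero]
  exact hGk m

/-- (RED), morphism form (unbundled): `t = (t₀, t₁)` a morphism of two-chart modules,
compatible on the overlap (`hov`), onto modulo `y` at infinity (`hgen`), and fibrewise injective
on the first chart (`hfib`).  Then `t₀` is injective and `M₀ ⧸ range t₀` is a finite projective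
`B`-module. -/
theorem finite_projective_quotient_range
    (x : A₀) (y : A₁) (hxy : algebraMap A₀ A₀₁ x * algebraMap A₁ A₀₁ y = 1)
    (ρ₀ : M₀ →ₗ[A₀] M₀₁) (ρ₁ : M₁ →ₗ[A₁] M₀₁)
    [IsLocalizedModule (Submonoid.powers x) ρ₀] [IsLocalizedModule (Submonoid.powers y) ρ₁]
    {L₀ L₁ : Type*} [AddCommGroup L₀] [Module A₀ L₀] [AddCommGroup L₁] [Module A₁ L₁]
    (t₀ : L₀ →ₗ[A₀] M₀) (t₁ : L₁ →ₗ[A₁] M₁)
    (hov : ∀ l₁ : L₁, ∃ (j : ℕ) (l₀ : L₀), x ^ j • ρ₁ (t₁ l₁) = ρ₀ (t₀ l₀))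
    [Module B M₀] [IsScalarTower B A₀ M₀] [Module B L₀] [IsScalarTower B A₀ L₀]
    [Algebra.FinitePresentation B A₀] [Module.FinitePresentation A₀ M₀] [Module.Finite A₀ L₀]
    [Module.Finite A₁ M₁] [Module.Projective B L₀] [Module.Projective B M₀]
    (hfin₀ : (aeval x : B[X] →ₐ[B] A₀).toRingHom.Finite)
    (hfin₁ : (aeval y : B[X] →ₐ[B] A₁).toRingHom.Finite)
    (hgen : ∀ m : M₁, ∃ (l : L₁) (m' : M₁), m = t₁ l + y • m')
    (hfib : FibInj (t₀.restrictScalars B)) :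
    Function.Injective t₀ ∧ Module.Finite B (M₀ ⧸ LinearMap.range t₀) ∧
      Module.Projective B (M₀ ⧸ LinearMap.range t₀) := by
  have hinj : Function.Injective (t₀.restrictScalars B) := hfib.injective
  haveI hfinQ : Module.Finite B (M₀ ⧸ LinearMap.range t₀) :=
    finite_quotient_of_generates_at_infinity x y hxy ρ₀ ρ₁ hfin₀ hfin₁
      (LinearMap.range t₀) (LinearMap.range t₁)
      (by
        rintro _ ⟨l₁, rfl⟩
        obtain ⟨j, l₀, h⟩ := hov l₁
        exact ⟨j, t₀ l₀, ⟨l₀, rfl⟩, h⟩)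
      (fun m => by
        obtain ⟨l, m', h⟩ := hgen m
        exact ⟨t₁ l, ⟨l, rfl⟩, m', h⟩)
  haveI : Module.Flat B (M₀ ⧸ LinearMap.range (t₀.restrictScalars B)) := hfib.flat_coker
  have hrange : LinearMap.range (t₀.restrictScalars B)
      = (LinearMap.range t₀).restrictScalars B := by
    ext m
    simp
  let e : (M₀ ⧸ LinearMap.range (t₀.restrictScalars B)) ≃ₗ[B] (M₀ ⧸ LinearMap.range t₀) :=
    (Submodule.quotEquivOfEq _ _ hrange).trans (Submodule.Quotient.restrictScalarsEquiv B _)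
  haveI : Module.Flat B (M₀ ⧸ LinearMap.range t₀) := Module.Flat.of_linearEquiv e.symm
  haveI : Module.FinitePresentation A₀ (M₀ ⧸ LinearMap.range t₀) := by
    refine Module.finitePresentation_of_surjective (LinearMap.range t₀).mkQ
      (Submodule.mkQ_surjective _) ?_
    rw [Submodule.ker_mkQ]
    exact Submodule.fg_range t₀
  exact ⟨hinj, hfinQ, projective_of_flat_of_finite_of_finitePresentation B A₀ _⟩

end SubmoduleForm

section RankOne

/-- In an invertible module, `ψ l • l' = ψ l' • l` for every linear functional `ψ`. -/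
theorem dual_smul_comm_of_invertible {A L : Type*} [CommRing A] [AddCommGroup L] [Module A L]
    [Module.Invertible A L] (ψ : Module.Dual A L) (l l' : L) : ψ l • l' = ψ l' • l := by
  have h : l ⊗ₜ[A] l' = l' ⊗ₜ[A] l := Module.Invertible.tmul_comm
  have := congrArg (TensorProduct.lift ((LinearMap.lsmul A L).comp ψ)) h
  simpa using this

/-- A linear map from an invertible module to a projective module which is nonzero modulo a
prime ideal `P` is injective modulo `P`. -/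
theorem mem_smul_top_of_map_mem_of_isPrime {A L M : Type*} [CommRing A] [AddCommGroup L]
    [Module A L] [Module.Invertible A L] [AddCommGroup M] [Module A M] [Module.Projective A M]
    (P : Ideal A) [P.IsPrime] (t : L →ₗ[A] M) {l' : L}
    (hl' : t l' ∉ P • (⊤ : Submodule A M)) {l : L} (hl : t l ∈ P • (⊤ : Submodule A M)) :
    l ∈ P • (⊤ : Submodule A L) := by
  obtain ⟨σ, hσ⟩ := Module.projective_def'.mp (inferInstance : Module.Projective A L)
  have hl'' : l = Finsupp.linearCombination A id (σ l) := by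
    have := LinearMap.congr_fun hσ l
    simpa using this.symm
  rw [hl'', Finsupp.linearCombination_apply, Finsupp.sum]
  refine Submodule.sum_mem _ fun p _ => Submodule.smul_mem_smul ?_ Submodule.mem_top
  have h1 : (((Finsupp.lapply p : (L →₀ A) →ₗ[A] A) ∘ₗ σ) l) • t l'
      ∈ P • (⊤ : Submodule A M) := by
    rw [← map_smul, dual_smul_comm_of_invertible ((Finsupp.lapply p : (L →₀ A) →ₗ[A] A) ∘ₗ σ) l l',
      map_smul]
    exact Submodule.smul_mem _ _ hl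
  exact mem_of_smul_mem_smul_top_of_isPrime P hl' h1

end RankOne

section GlueMor

variable {k : Type u} [Field k] {D : CurveDatum k} {B : Type u} [CommRing B] [Algebra k B]

/-- A morphism of two-chart line bundles which is nonzero on every closed fibre of `Spec B` is
fibrewise injective on the first chart (`k` algebraically closed). -/
theorem fibInj_mor [IsAlgClosed k] {G N : GlueDatum D B} (σ : helper8573.Mor G N)
    (hfib : ∀ 𝔪 : Ideal B, 𝔪.IsMaximal →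
      ∃ m : G.M₀, σ.f₀ m ∉ 𝔪 • (⊤ : Submodule B N.M₀)) :
    FibInj (σ.f₀.restrictScalars B) := by
  intro 𝔪 h𝔪 l hl
  haveI := h𝔪
  haveI : (𝔪.map (algebraMap B (D.A₀ B))).IsPrime := isPrime_map_algebraMap_tensor B D.R₀ 𝔪
  obtain ⟨l', hl'⟩ := hfib 𝔪 h𝔪
  have hl₂ : σ.f₀ l ∈ (𝔪.map (algebraMap B (D.A₀ B))) • (⊤ : Submodule (D.A₀ B) N.M₀) :=
    (mem_smul_top_iff_mem_map_smul_top 𝔪 _).mp hl
  rw [mem_smul_top_iff_mem_map_smul_top (A := D.A₀ B)]
  exact mem_smul_top_of_map_mem_of_isPrime _ σ.f₀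
    (fun h => hl' ((mem_smul_top_iff_mem_map_smul_top 𝔪 _).mpr h)) hl₂

/-- Compatibility on the overlap of a morphism of two-chart line bundles, in the form used by
the finiteness argument. -/
theorem mor_overlap {G N : GlueDatum D B} (σ : helper8573.Mor G N) (l₁ : G.M₁) :
    ∃ (j : ℕ) (l₀ : G.M₀), xB D B ^ j • N.ρ₁ (σ.f₁ l₁) = N.ρ₀ (σ.f₀ l₀) := by
  obtain ⟨⟨l₀, ⟨_, j, rfl⟩⟩, h⟩ :=
    IsLocalizedModule.surj (Submonoid.powers (xB D B)) G.ρ₀ (G.ρ₁ l₁)
  refine ⟨j, l₀, ?_⟩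
  have h' : xB D B ^ j • G.ρ₁ l₁ = G.ρ₀ l₀ := h
  rw [← σ.comm₁, ← σ.comm₀, ← h', ← algebraMap_smul (D.A₀₁ B) (xB D B ^ j) (G.ρ₁ l₁),
    map_smul, algebraMap_smul]

/-- (RED), GlueDatum morphism form: for a morphism `σ : G → N` of two-chart line bundles over
`B` which is onto modulo `y` at infinity and nonzero on every closed fibre, `σ.f₀` is injective
and its cokernel `N.M₀ ⧸ range σ.f₀` (the divisor of `σ`) is a finite projective `B`-module. -/
theorem relDivisor_mor_finite_projective [IsAlgClosed k] {G N : GlueDatum D B}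
    (σ : helper8573.Mor G N) (hgen : σ.SurjModY)
    (hfib : ∀ 𝔪 : Ideal B, 𝔪.IsMaximal →
      ∃ m : G.M₀, σ.f₀ m ∉ 𝔪 • (⊤ : Submodule B N.M₀)) :
    Function.Injective σ.f₀ ∧ Module.Finite B (N.M₀ ⧸ LinearMap.range σ.f₀) ∧
      Module.Projective B (N.M₀ ⧸ LinearMap.range σ.f₀) := by
  haveI : Algebra.FinitePresentation B (D.A₀ B) := finitePresentation_A₀ D B
  haveI : Module.Projective B G.M₀ := helper9607.projective_M₀ G
  haveI : Module.Projective B N.M₀ := helper9607.projective_M₀ N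
  haveI : Module.FinitePresentation (D.A₀ B) N.M₀ := Module.finitePresentation_of_projective _ _
  exact finite_projective_quotient_range (xB D B) (yB D B) (xB_mul_yB D B) N.ρ₀ N.ρ₁
    σ.f₀ σ.f₁ (mor_overlap σ)
    (helper6786.CurveBase.finite_aeval_xB D B) (helper6786.CurveBase.finite_aeval_yB D B)
    hgen (fibInj_mor σ hfib)

/-- (RED1), GlueDatum morphism form: the divisor of a morphism which is onto modulo `y` at
infinity is killed by a monic polynomial in `x` (no hypothesis on `k`, no fibre condition). -/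
theorem relDivisor_mor_exists_monic {G N : GlueDatum D B} (σ : helper8573.Mor G N)
    (hgen : σ.SurjModY) :
    ∃ P : B[X], P.Monic ∧ ∀ n : N.M₀, aeval (xB D B) P • n ∈ LinearMap.range σ.f₀ :=
  exists_monic_smul_mem (xB D B) (yB D B) (xB_mul_yB D B) N.ρ₀ N.ρ₁
    (helper6786.CurveBase.finite_aeval_yB D B) (LinearMap.range σ.f₀) (LinearMap.range σ.f₁)
    (by
      rintro _ ⟨l₁, rfl⟩
      obtain ⟨j, l₀, h⟩ := mor_overlap σ l₁
      exact ⟨j, σ.f₀ l₀, ⟨l₀, rfl⟩, h⟩)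
    (fun n => by
      obtain ⟨l, n', h⟩ := hgen n
      exact ⟨σ.f₁ l, ⟨l, rfl⟩, n', h⟩)

/-- (RED1), GlueDatum morphism form, chart at infinity: some `u ∈ B[X]` with `u(0) = 1`
satisfies `u(y) N.M₁ ⊆ range σ.f₁` (the divisor of `σ` does not meet `V(y)`). -/
theorem relDivisor_mor_exists_poly_at_infinity {G N : GlueDatum D B} (σ : helper8573.Mor G N)
    (hgen : σ.SurjModY) :
    ∃ u : B[X], u.coeff 0 = 1 ∧ ∀ n : N.M₁, aeval (yB D B) u • n ∈ LinearMap.range σ.f₁ :=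
  exists_poly_smul_mem_at_infinity (yB D B) (helper6786.CurveBase.finite_aeval_yB D B)
    (LinearMap.range σ.f₁) (fun n => by
      obtain ⟨l, n', h⟩ := hgen n
      exact ⟨σ.f₁ l, ⟨l, rfl⟩, n', h⟩)

end GlueMor

end Fermat.Agent.S25.helper1567
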