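import Fermat.Agent.S25.helper69_ChartFinite
import Fermat.Agent.S25.helper1567_RelDivisorMor
import Fermat.Agent.S25.helper6121_GlueConstr
import Fermat.Agent.S25.helper622_DivisorAtInfinity
import Fermat.Agent.S25.helper1804_AlgApi

/-!
# S25, leaf U4: the CHART THEOREM in `GlueDatum` form (helper69)

Vocabulary: `helper2945.GlueDatum`, `helper8573.Mor` / `Mor.SurjModY`, the sub-datum twist
`helper6121.GlueDatum.twist N I₀ I₁ h` (`= N(-D)`), `helper622.atInfty`.

For `k` algebraically closed, `B` any `k`-algebra, `G N : GlueDatum D B`: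

* `exists_notMem_smul_top_of_surjModY` : a morphism `σ : G → N` which is surjective modulo `y`
  on the chart at infinity is nonzero on every closed fibre of `Spec B` (on the first chart).
* `chart_of_mor` (CT1, section ⟹ divisor) : such a `σ` is injective, its image is the sub-datum
  `(I • N₀, atInfty I • N₁)` for the invertible ideal `I = (range σ.f₀ : N₀)`, `A₀ ⧸ I` is finite
  projective over `B`, and `G ≈ N(-D_I) = twist N I (atInfty I)`.
* `twistIncl` (CT2, divisor ⟹ section) : the inclusion `N(-D) → N` as a `Mor`; it is surjective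
  modulo `y` as soon as `I₁` contains some `u ≡ 1 mod y`, and its colon ideal is `I₀`.
* `equiv_twist_iff` (CT3) : `G ≈ twist N I (atInfty I)` iff there is `σ : Mor G N`, surjective
  modulo `y`, with colon ideal `I`.
-/

set_option autoImplicit false

open scoped TensorProduct
open Polynomial

namespace Fermat.Agent.S25.helper69

open Fermat.Agent.S25.helper1705 Fermat.Agent.S25.helper2945

universe u

variable {k : Type u} [Field k] {D : CurveDatum k} {B : Type u} [CommRing B] [Algebra k B]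

section Fibre

/-- `y ⊗ 1` does not lie in `𝔪 (R₁ ⊗ B)` for a proper ideal `𝔪` of `B`. -/
theorem yB_notMem_map [IsAlgClosed k] (𝔪 : Ideal B) (h𝔪 : 𝔪 ≠ ⊤) :
    yB D B ∉ 𝔪.map (algebraMap B (D.A₁ B)) := by
  intro h
  let π : B →ₐ[k] B ⧸ 𝔪 := Ideal.Quotient.mkₐ k 𝔪
  have hle : 𝔪.map (algebraMap B (D.A₁ B)) ≤ RingHom.ker (D.map₁ π).toRingHom := by
    rw [Ideal.map_le_iff_le_comap]
    intro b hb
    rw [Ideal.mem_comap, RingHom.mem_ker]
    change D.map₁ π (algebraMap B (D.A₁ B) b) = 0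
    rw [helper6786.CurveBase.map₁_algebraMap]
    have hb0 : π b = 0 := Ideal.Quotient.eq_zero_iff_mem.mpr hb
    rw [hb0, map_zero]
  have h0 : yB D (B ⧸ 𝔪) = 0 := by
    have h1 := hle h
    rw [RingHom.mem_ker] at h1
    rw [← map₁_yB D π]
    exact h1
  have : Nontrivial (B ⧸ 𝔪) := Ideal.Quotient.nontrivial_iff.mpr h𝔪
  have : Nontrivial (D.A₁ (B ⧸ 𝔪)) := (D.eB (B ⧸ 𝔪)).toRingHom.domain_nontrivial
  exact (helper1804.isRegular_yB D (B ⧸ 𝔪) (helper1800.y_ne_zero D)).ne_zero h0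

/-- FIBRE NON-VANISHING. A morphism of two-chart line bundles which is surjective modulo `y`
on the chart at infinity is nonzero on the first chart of every closed fibre of `Spec B`. -/
theorem exists_notMem_smul_top_of_surjModY [IsAlgClosed k] {G N : GlueDatum D B}
    (σ : helper8573.Mor G N) (hY : σ.SurjModY) (𝔪 : Ideal B) (h𝔪 : 𝔪.IsMaximal) :
    ∃ m : G.M₀, σ.f₀ m ∉ 𝔪 • (⊤ : Submodule B N.M₀) := by
  by_contra hcon
  push Not at hcon
  have := h𝔪
  have hprime₁ : (𝔪.map (algebraMap B (D.A₁ B))).IsPrime :=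
    helper1567.isPrime_map_algebraMap_tensor B D.R₁ 𝔪
  -- (i) some value of `σ.f₁` is nonzero modulo `𝔪`
  have hi : ∃ m₁ : G.M₁,
      σ.f₁ m₁ ∉ 𝔪.map (algebraMap B (D.A₁ B)) • (⊤ : Submodule (D.A₁ B) N.M₁) := by
    by_contra h1
    push Not at h1
    have htop : (𝔪.map (algebraMap B (D.A₁ B)) ⊔ Ideal.span {yB D B}) •
        (⊤ : Submodule (D.A₁ B) N.M₁) = ⊤ := by
      rw [eq_top_iff]
      rintro n -
      obtain ⟨m, n', rfl⟩ := hY n
      rw [Submodule.sup_smul]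
      exact Submodule.add_mem_sup (h1 m)
        (Submodule.smul_mem_smul (Ideal.mem_span_singleton_self _) Submodule.mem_top)
    have h2 : 𝔪.map (algebraMap B (D.A₁ B)) ⊔ Ideal.span {yB D B} = ⊤ := by
      apply ideal_smul_top_injective (A := D.A₁ B) (N := N.M₁)
      change (𝔪.map (algebraMap B (D.A₁ B)) ⊔ Ideal.span {yB D B}) •
        (⊤ : Submodule (D.A₁ B) N.M₁) = (⊤ : Ideal (D.A₁ B)) • (⊤ : Submodule (D.A₁ B) N.M₁)
      rw [htop, Submodule.top_smul]
    have h3 : (1 : D.A₁ B) ∈ 𝔪.map (algebraMap B (D.A₁ B)) ⊔ Ideal.span {yB D B} := by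
      rw [h2]; exact Submodule.mem_top
    obtain ⟨p, hp, q, hq, hpq⟩ := Submodule.mem_sup.mp h3
    obtain ⟨a, rfl⟩ := Ideal.mem_span_singleton'.mp hq
    have hle : 𝔪.map (algebraMap B (D.A₁ B)) ≤ 𝔪.comap (D.eB B).toRingHom := by
      rw [Ideal.map_le_iff_le_comap]
      intro b hb
      rw [Ideal.mem_comap, Ideal.mem_comap]
      change D.eB B (algebraMap B (D.A₁ B) b) ∈ 𝔪
      rw [eB_algebraMap]
      exact hb
    have h4 := congrArg (D.eB B) hpq
    rw [map_add, map_mul, eB_yB, mul_zero, add_zero, map_one] at h4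
    have h5 : D.eB B p ∈ 𝔪 := hle hp
    rw [h4] at h5
    exact h𝔪.ne_top ((Ideal.eq_top_iff_one _).mpr h5)
  obtain ⟨m₁, hm₁⟩ := hi
  -- (ii) transfer to the first chart through the overlap
  obtain ⟨j, m₀, hj⟩ := helper1567.mor_overlap σ m₁
  have hm₀ : σ.f₀ m₀ ∈ 𝔪.map (algebraMap B (D.A₀ B)) • (⊤ : Submodule (D.A₀ B) N.M₀) :=
    (mem_smul_top_iff_mem_map_smul_top (A := D.A₀ B) 𝔪 _).mp (hcon m₀)
  have hT₀ : N.ρ₀ (σ.f₀ m₀) ∈ helper6121.GlueDatum.span₀ N
      (𝔪.map (algebraMap B (D.A₀ B)) • (⊤ : Submodule (D.A₀ B) N.M₀)) :=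
    helper6121.GlueDatum.ρ₀_mem_span₀ N _ _ hm₀
  have hspan : helper6121.GlueDatum.span₀ N
      (𝔪.map (algebraMap B (D.A₀ B)) • (⊤ : Submodule (D.A₀ B) N.M₀)) =
      helper6121.GlueDatum.span₁ N
        (𝔪.map (algebraMap B (D.A₁ B)) • (⊤ : Submodule (D.A₁ B) N.M₁)) := by
    rw [helper6121.GlueDatum.span₀_smul_top, helper6121.GlueDatum.span₁_smul_top,
      Ideal.map_map, Ideal.map_map, ← IsScalarTower.algebraMap_eq, ← IsScalarTower.algebraMap_eq]
  have hT₁ : N.ρ₁ (σ.f₁ m₁) ∈ helper6121.GlueDatum.span₁ N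
      (𝔪.map (algebraMap B (D.A₁ B)) • (⊤ : Submodule (D.A₁ B) N.M₁)) := by
    rw [← hspan]
    have h5 : N.ρ₁ (σ.f₁ m₁) = (algebraMap (D.A₁ B) (D.A₀₁ B) (yB D B)) ^ j •
        (xB D B ^ j • N.ρ₁ (σ.f₁ m₁)) := by
      rw [← algebraMap_smul (D.A₀₁ B) (xB D B ^ j), smul_smul, map_pow, ← mul_pow, mul_comm,
        xB_mul_yB, one_pow, one_smul]
    rw [h5, hj]
    exact Submodule.smul_mem _ _ hT₀
  -- (iii) back to the chart at infinity
  obtain ⟨n', hn', ⟨_, i, rfl⟩, hs⟩ := (Submodule.mem_localized' _ _ _ _ _).mp hT₁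
  rw [IsLocalizedModule.mk'_eq_iff] at hs
  have hs' : n' = yB D B ^ i • σ.f₁ m₁ := by
    apply helper1804.Lattice.ρ₁_injective N
    rw [hs, map_smul]
    rfl
  rw [hs'] at hn'
  have hy : yB D B ^ i ∈ 𝔪.map (algebraMap B (D.A₁ B)) :=
    mem_of_smul_mem_smul_top _ hm₁ hn'
  exact yB_notMem_map 𝔪 h𝔪.ne_top (hprime₁.mem_of_pow_mem i hy)

end Fibre

section ChartOfMor

/-- CHART THEOREM (CT1, section ⟹ divisor), `GlueDatum` form. A morphism `σ : G → N` of two-chart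
line bundles over `B` which is surjective modulo `y` on the chart at infinity is injective, with
image the sub-datum `N(-D_I) = (I • N₀, atInfty I • N₁)` of the invertible ideal
`I = (range σ.f₀ : N₀)`; `A₀ ⧸ I` is finite projective over `B` and `G ≈ N(-D_I)`. -/
theorem chart_of_mor [IsAlgClosed k] {G N : GlueDatum D B} (σ : helper8573.Mor G N)
    (hY : σ.SurjModY) :
    ∃ (I : Ideal (D.A₀ B)) (_ : Module.Invertible (D.A₀ B) I)
      (_ : Module.Invertible (D.A₁ B) (helper622.atInfty (D.A₁ B) (D.A₀₁ B) I))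
      (h : I.map (algebraMap (D.A₀ B) (D.A₀₁ B)) =
        (helper622.atInfty (D.A₁ B) (D.A₀₁ B) I).map (algebraMap (D.A₁ B) (D.A₀₁ B))),
      I = (LinearMap.range σ.f₀).colon (Set.univ : Set N.M₀) ∧
      Module.Finite B (D.A₀ B ⧸ I) ∧ Module.Projective B (D.A₀ B ⧸ I) ∧
      Function.Injective σ.f₀ ∧ Function.Injective σ.f₁ ∧
      LinearMap.range σ.f₀ = I • (⊤ : Submodule (D.A₀ B) N.M₀) ∧
      LinearMap.range σ.f₁ =
        helper622.atInfty (D.A₁ B) (D.A₀₁ B) I • (⊤ : Submodule (D.A₁ B) N.M₁) ∧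
      (∃ u ∈ helper622.atInfty (D.A₁ B) (D.A₀₁ B) I, u - 1 ∈ Ideal.span {yB D B}) ∧
      G.Equiv (helper6121.GlueDatum.twist N I (helper622.atInfty (D.A₁ B) (D.A₀₁ B) I) h) := by
  have hAfp : Algebra.FinitePresentation B (D.A₀ B) := helper1567.finitePresentation_A₀ D B
  have hPG : Module.Projective B G.M₀ := helper9607.projective_M₀ G
  have hPN : Module.Projective B N.M₀ := helper9607.projective_M₀ N
  obtain ⟨hinj, hflat⟩ := flat_quotient_range_of_fibrewise (B := B) σ.f₀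
    (fun 𝔪 h𝔪 => by
      have := h𝔪
      exact helper1567.isPrime_map_algebraMap_tensor B D.R₀ 𝔪)
    (fun 𝔪 h𝔪 => exists_notMem_smul_top_of_surjModY σ hY 𝔪 h𝔪)
  have ht : Submodule.span (D.A₀₁ B) (N.ρ₀ '' (LinearMap.range σ.f₀ : Set N.M₀)) =
      Submodule.span (D.A₀₁ B) (N.ρ₁ '' (LinearMap.range σ.f₁ : Set N.M₁)) :=
    span_image_range_eq_of_comm (xB D B) (yB D B) N.ρ₀ N.ρ₁ G.ρ₀ G.ρ₁ σ.f₀ σ.f₁ σ.f₀₁
      σ.comm₀ σ.comm₁
  obtain ⟨I, hI, hIinv, hIfin, hIproj, -, -, h₀, h₁, hu⟩ :=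
    chart_of_morphism (B := B) (xB D B) (yB D B) (xB_mul_yB D B) N.ρ₀ N.ρ₁
      (helper6786.CurveBase.finite_aeval_xB D B) (helper6786.CurveBase.finite_aeval_yB D B)
      σ.f₀ σ.f₁ ht hY hinj
  have hI₁inv : Module.Invertible (D.A₁ B) (helper622.atInfty (D.A₁ B) (D.A₀₁ B) I) :=
    helper622.invertible_atInfty (B := B) (xB D B) (yB D B) (xB_mul_yB D B) I
  have hmap : I.map (algebraMap (D.A₀ B) (D.A₀₁ B)) =
      (helper622.atInfty (D.A₁ B) (D.A₀₁ B) I).map (algebraMap (D.A₁ B) (D.A₀₁ B)) :=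
    (helper622.map_atInfty (yB D B) I).symm
  have hinj₀₁ : Function.Injective σ.f₀₁ :=
    helper6121.GlueDatum.injective_overlap σ.f₀ σ.f₀₁ σ.comm₀ hinj
  have hinj₁ : Function.Injective σ.f₁ := by
    intro a b hab
    apply helper1804.Lattice.ρ₁_injective G
    apply hinj₀₁
    rw [σ.comm₁, σ.comm₁, hab]
  refine ⟨I, hIinv, hI₁inv, hmap, hI, hIfin, hIproj, hinj, hinj₁, h₀, h₁, hu, ?_⟩
  have hr₀ : Module.Invertible (D.A₀ B) (LinearMap.range σ.f₀) :=
    helper6121.invertible_range σ.f₀ hinj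
  have hr₁ : Module.Invertible (D.A₁ B) (LinearMap.range σ.f₁) :=
    helper6121.invertible_range σ.f₁ hinj₁
  have hspan := helper6121.GlueDatum.span₀_range_eq_span₁_range σ.f₀ σ.f₁ σ.f₀₁ σ.comm₀ σ.comm₁
  refine (helper6121.GlueDatum.equiv_ofSubmodules_range σ.f₀ σ.f₁ σ.f₀₁ σ.comm₀ σ.comm₁ hinj
    hinj₁ hspan).trans ?_
  exact helper6121.GlueDatum.ofSubmodules_equiv_of_eq N _ _ _ _ _ _ h₀ h₁

end ChartOfMor

section Incl

variable (N : GlueDatum D B) (I₀ : Ideal (D.A₀ B)) (I₁ : Ideal (D.A₁ B))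
  [Module.Invertible (D.A₀ B) I₀] [Module.Invertible (D.A₁ B) I₁]
  (h : I₀.map (algebraMap (D.A₀ B) (D.A₀₁ B)) = I₁.map (algebraMap (D.A₁ B) (D.A₀₁ B)))

/-- (CT2) The inclusion `N(-D) → N` of the twist, as a morphism of two-chart line bundles. -/
noncomputable def twistIncl : helper8573.Mor (helper6121.GlueDatum.twist N I₀ I₁ h) N where
  f₀ := (I₀ • (⊤ : Submodule (D.A₀ B) N.M₀)).subtype
  f₁ := (I₁ • (⊤ : Submodule (D.A₁ B) N.M₁)).subtype
  f₀₁ := (helper6121.GlueDatum.span₀ N (I₀ • (⊤ : Submodule (D.A₀ B) N.M₀))).subtype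
  comm₀ := fun _ => rfl
  comm₁ := fun _ => rfl

theorem twistIncl_f₀ :
    (twistIncl N I₀ I₁ h).f₀ = (I₀ • (⊤ : Submodule (D.A₀ B) N.M₀)).subtype := rfl

theorem twistIncl_f₁ :
    (twistIncl N I₀ I₁ h).f₁ = (I₁ • (⊤ : Submodule (D.A₁ B) N.M₁)).subtype := rfl

theorem twistIncl_f₀_injective : Function.Injective (twistIncl N I₀ I₁ h).f₀ :=
  Subtype.val_injective

theorem twistIncl_f₁_injective : Function.Injective (twistIncl N I₀ I₁ h).f₁ :=
  Subtype.val_injective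

theorem range_twistIncl_f₀ :
    LinearMap.range (twistIncl N I₀ I₁ h).f₀ = I₀ • (⊤ : Submodule (D.A₀ B) N.M₀) :=
  Submodule.range_subtype _

theorem range_twistIncl_f₁ :
    LinearMap.range (twistIncl N I₀ I₁ h).f₁ = I₁ • (⊤ : Submodule (D.A₁ B) N.M₁) :=
  Submodule.range_subtype _

/-- The colon ideal of the inclusion `N(-D) → N` is `I₀`. -/
theorem colon_range_twistIncl :
    (LinearMap.range (twistIncl N I₀ I₁ h).f₀).colon (Set.univ : Set N.M₀) = I₀ := by
  rw [range_twistIncl_f₀, colon_ideal_smul_top]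

/-- (CT2) The inclusion `N(-D) → N` is surjective modulo `y` on the chart at infinity as soon as
`I₁` contains some `u ≡ 1 mod y` (the divisor does not meet `V(y)`). -/
theorem twistIncl_surjModY (hu : ∃ u ∈ I₁, u - 1 ∈ Ideal.span {yB D B}) :
    (twistIncl N I₀ I₁ h).SurjModY := by
  intro n
  obtain ⟨u, hu, hu1⟩ := hu
  obtain ⟨w, hw⟩ := Ideal.mem_span_singleton'.mp hu1
  refine ⟨⟨u • n, Submodule.smul_mem_smul hu Submodule.mem_top⟩, (-w) • n, ?_⟩
  change n = u • n + yB D B • ((-w) • n)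
  rw [smul_smul, ← add_smul]
  have h1 : u + yB D B * -w = 1 := by
    rw [mul_neg, mul_comm, hw]; ring
  rw [h1, one_smul]

end Incl

section Iff

/-- CHART THEOREM (CT3), `GlueDatum` form: for an ideal `I` of the first chart whose ideal at
infinity contains some `u ≡ 1 mod y`, a bundle `G` is isomorphic to `N(-D_I)` if and only if
there is a morphism `σ : G → N`, surjective modulo `y` on the chart at infinity, with colon
ideal `(range σ.f₀ : N₀) = I`. -/
theorem equiv_twist_iff [IsAlgClosed k] (G N : GlueDatum D B) (I : Ideal (D.A₀ B))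
    [Module.Invertible (D.A₀ B) I]
    [Module.Invertible (D.A₁ B) (helper622.atInfty (D.A₁ B) (D.A₀₁ B) I)]
    (h : I.map (algebraMap (D.A₀ B) (D.A₀₁ B)) =
      (helper622.atInfty (D.A₁ B) (D.A₀₁ B) I).map (algebraMap (D.A₁ B) (D.A₀₁ B)))
    (hu : ∃ u ∈ helper622.atInfty (D.A₁ B) (D.A₀₁ B) I, u - 1 ∈ Ideal.span {yB D B}) :
    G.Equiv (helper6121.GlueDatum.twist N I (helper622.atInfty (D.A₁ B) (D.A₀₁ B) I) h) ↔
      ∃ σ : helper8573.Mor G N, σ.SurjModY ∧
        (LinearMap.range σ.f₀).colon (Set.univ : Set N.M₀) = I := by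
  constructor
  · rintro ⟨e⟩
    refine ⟨(twistIncl N I _ h).comp (helper8573.Mor.ofIso e), ?_, ?_⟩
    · intro n
      obtain ⟨m', n', hn⟩ := twistIncl_surjModY N I _ h hu n
      refine ⟨e.e₁.symm m', n', ?_⟩
      rw [hn]
      change _ = (twistIncl N I _ h).f₁ (e.e₁ (e.e₁.symm m')) + _
      rw [LinearEquiv.apply_symm_apply]
    · have hr : LinearMap.range ((twistIncl N I _ h).comp (helper8573.Mor.ofIso e)).f₀ =
          LinearMap.range (twistIncl N I _ h).f₀ := by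
        change LinearMap.range ((twistIncl N I _ h).f₀ ∘ₗ e.e₀.toLinearMap) = _
        rw [LinearMap.range_comp, LinearEquiv.range, Submodule.map_top]
      rw [hr, colon_range_twistIncl]
  · rintro ⟨σ, hY, hσ⟩
    obtain ⟨I', hI'inv, hI'₁inv, h', hI', -, -, -, -, -, -, -, he⟩ := chart_of_mor σ hY
    rw [hσ] at hI'
    subst hI'
    exact he

end Iff

end Fermat.Agent.S25.helper69
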