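import Fermat.Agent.S25.helper1002_QuotChartApi
import Fermat.Agent.S25.helper622_PointTwist
import Fermat.Agent.S25.helper69_ChartGlue
import Fermat.Agent.S25.helper5597_DivisorIdealCurve
import Fermat.Agent.S25.helper239_GlueIndex
import Fermat.Agent.S25.helper4927_TwistChi
import Fermat.Agent.S25.helper8573_LCSpec
import Fermat.Agent.S25.helper743_AlgApi
import Fermat.Agent.S25.helper3173_ChartOfAsm

/-!
# S25, LC-UNIV (datum level): the chart bundles `N_B(-D_I)` and the universal one (helper1002)

Setting: `k` algebraically closed, `D : CurveDatum k`, `N : GlueDatum D k` a base bundle, `B` any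
`k`-algebra.  For an ideal `I` of the first chart `D.A₀ B = D.R₀ ⊗[k] B` with `A₀ B ⧸ I` finite
projective over `B` (a relative effective divisor contained in the first chart):

* `chartDatum N I : GlueDatum D B` is `N_B(-D_I)`, i.e. `helper622.twist₀ (baseOver N B) I`,
  which unfolds to `helper6121.GlueDatum.twist (baseOver N B) I (atInfty I) _`
  (`chartDatum_eq_twist`, by `rfl`);
* `chartIncl N I : helper8573.Mor (chartDatum N I) (baseOver N B)`, the inclusion; it is
  injective on the charts, surjective modulo `y`, `range f₀ = I • ⊤`, colon ideal `I`;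
* `isRig_chartDatum`, `chartDatum_baseChange`, `chi_chartDatum` (over a field),
  `degZero_chartDatum_of_isChartIdeal`.

For `s : Fin (genus D) → D.R₀` and `f : ChartAlg k D.R₀ s` (my `QuotChart` files):

* `univDatum N s f : GlueDatum D (Localization.Away f)` is the chart bundle of the universal
  chart ideal `univIdealAway k D.R₀ s f`;
* `isRig_univDatum`, `degZero_univDatum`;
* `univDatum_baseChange` : its pull-back along `ψ : Localization.Away f →ₐ[k] B` is the chart
  bundle of the chart ideal classified by `ψ`;
* `inChart_univDatum_iff` : `helper8573.InChart (univDatum N s f) G` iff `G ≈ N_B(-D_I)` for a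
  chart ideal `I` (for `s`) at which `f` is invertible;
* `chartMono_univDatum_of` : the formal part of the mono clause.

Image clause: `exists_chartDatumOf_of_mor` (over a field, a morphism `G → N_K` surjective modulo
`y` from a bundle with `χ(G) = χ(𝒪)` has a chart ideal as divisor).

Bridge to the chart family `helper3173.P N s f` (built on the `helper1035` twist):
`twist_equiv_twist`, `twistOf_equiv_chartDatum`, `P_equiv_univDatum`, hence `inChart_P_iff`,
`P_baseChange`, `chartMono_P_of`, `isRig_P`, `degZero_P`, `chi_twistOf`.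
-/

set_option autoImplicit false

open TensorProduct

namespace Fermat.Agent.S25.helper1002

open Fermat.Agent.S25.helper1705 Fermat.Agent.S25.helper2945

universe u

section ChartDatum

variable {k : Type u} [Field k] [IsAlgClosed k] {D : CurveDatum k}
  {B : Type u} [CommRing B] [Algebra k B]

/-- The chart bundle `N_B(-D_I)`: the base bundle `N` pulled back to `B` and twisted by the
relative effective divisor `V(I)` of the first chart. -/
noncomputable def chartDatum (N : GlueDatum D k) (I : Ideal (D.A₀ B))
    [Module.Finite B (D.A₀ B ⧸ I)] [Module.Projective B (D.A₀ B ⧸ I)] : GlueDatum D B :=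
  haveI := helper5597.ideal_invertible₀ (D := D) I
  helper622.twist₀ (helper8573.baseOver N B) I

/-- `chartDatum N I` is the sub-datum twist of `helper6121` by the pair `(I, atInfty I)`. -/
theorem chartDatum_eq_twist (N : GlueDatum D k) (I : Ideal (D.A₀ B))
    [Module.Finite B (D.A₀ B ⧸ I)] [Module.Projective B (D.A₀ B ⧸ I)]
    [Module.Invertible (D.A₀ B) I] [Module.Invertible (D.A₁ B) (helper622.inf₀ I)] :
    chartDatum N I = helper6121.GlueDatum.twist (helper8573.baseOver N B) I (helper622.inf₀ I)
      (helper622.map_inf₀ I) := rfl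

/-- `chartDatum N I` is `helper622.twist₀ (baseOver N B) I`. -/
theorem chartDatum_eq_twist₀ (N : GlueDatum D k) (I : Ideal (D.A₀ B))
    [Module.Finite B (D.A₀ B ⧸ I)] [Module.Projective B (D.A₀ B ⧸ I)]
    [Module.Invertible (D.A₀ B) I] :
    chartDatum N I = helper622.twist₀ (helper8573.baseOver N B) I := rfl

/-- The chart bundle only depends on the ideal (not on the instances). -/
theorem chartDatum_congr (N : GlueDatum D k) {I J : Ideal (D.A₀ B)}
    [Module.Finite B (D.A₀ B ⧸ I)] [Module.Projective B (D.A₀ B ⧸ I)]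
    [Module.Finite B (D.A₀ B ⧸ J)] [Module.Projective B (D.A₀ B ⧸ J)] (h : I = J) :
    (chartDatum N I).Equiv (chartDatum N J) := by
  subst h
  exact GlueDatum.Equiv.refl _

omit [IsAlgClosed k] in
/-- The witness that `V(I)` does not meet `V(y)`: an element of the ideal at infinity which is
`1` modulo `y`. -/
theorem exists_mem_atInfty_sub_one (I : Ideal (D.A₀ B)) [Module.Finite B (D.A₀ B ⧸ I)] :
    ∃ u ∈ helper622.atInfty (D.A₁ B) (D.A₀₁ B) I, u - 1 ∈ Ideal.span {yB D B} := by
  obtain ⟨u, hu, hu1, -⟩ := helper622.exists_mem_inf₀_eB_eq_one (D := D) I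
  exact ⟨u, hu, hu1⟩

section Incl

variable (N : GlueDatum D k) (I : Ideal (D.A₀ B))
  [Module.Finite B (D.A₀ B ⧸ I)] [Module.Projective B (D.A₀ B ⧸ I)]

/-- The inclusion `N_B(-D_I) → N_B`. -/
noncomputable def chartIncl : helper8573.Mor (chartDatum N I) (helper8573.baseOver N B) :=
  haveI := helper5597.ideal_invertible₀ (D := D) I
  haveI := helper622.invertible_inf₀ I
  helper69.twistIncl (helper8573.baseOver N B) I (helper622.inf₀ I) (helper622.map_inf₀ I)

theorem chartIncl_f₀_injective : Function.Injective (chartIncl N I).f₀ :=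
  Subtype.val_injective

theorem chartIncl_f₁_injective : Function.Injective (chartIncl N I).f₁ :=
  Subtype.val_injective

theorem chartIncl_f₀₁_injective : Function.Injective (chartIncl N I).f₀₁ :=
  Subtype.val_injective

theorem range_chartIncl_f₀ :
    LinearMap.range (chartIncl N I).f₀ =
      I • (⊤ : Submodule (D.A₀ B) (helper8573.baseOver N B).M₀) :=
  Submodule.range_subtype _

theorem range_chartIncl_f₁ :
    LinearMap.range (chartIncl N I).f₁ =
      helper622.atInfty (D.A₁ B) (D.A₀₁ B) I •
        (⊤ : Submodule (D.A₁ B) (helper8573.baseOver N B).M₁) :=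
  Submodule.range_subtype _

/-- The colon ideal of the inclusion is `I`. -/
theorem colon_range_chartIncl :
    (LinearMap.range (chartIncl N I).f₀).colon
      (Set.univ : Set (helper8573.baseOver N B).M₀) = I :=
  haveI := helper5597.ideal_invertible₀ (D := D) I
  haveI := helper622.invertible_inf₀ I
  helper69.colon_range_twistIncl (helper8573.baseOver N B) I (helper622.inf₀ I)
    (helper622.map_inf₀ I)

/-- The inclusion `N_B(-D_I) → N_B` is an isomorphism along `V(y)`. -/
theorem chartIncl_surjModY : (chartIncl N I).SurjModY :=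
  haveI := helper5597.ideal_invertible₀ (D := D) I
  haveI := helper622.invertible_inf₀ I
  helper69.twistIncl_surjModY (helper8573.baseOver N B) I (helper622.inf₀ I)
    (helper622.map_inf₀ I) (exists_mem_atInfty_sub_one I)

end Incl

omit [IsAlgClosed k] in
/-- The base bundle pulled back to any `k`-algebra is rigidified. -/
theorem isRig_baseOver (N : GlueDatum D k) (B : Type u) [CommRing B] [Algebra k B] :
    (helper8573.baseOver N B).IsRig :=
  helper743.isRig_baseChange (helper743.isRig_of_field N) (Algebra.ofId k B)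

/-- The chart bundles are rigidified. -/
theorem isRig_chartDatum (N : GlueDatum D k) (I : Ideal (D.A₀ B))
    [Module.Finite B (D.A₀ B ⧸ I)] [Module.Projective B (D.A₀ B ⧸ I)] :
    (chartDatum N I).IsRig :=
  haveI := helper5597.ideal_invertible₀ (D := D) I
  helper622.isRig_twist₀ (helper8573.baseOver N B) I (isRig_baseOver N B)

/-- **Base change of the chart bundles**: `N_B(-D_I) ⊗ B' ≈ N_{B'}(-D_{I B'})`. -/
theorem chartDatum_baseChange (N : GlueDatum D k) (I : Ideal (D.A₀ B))
    [Module.Finite B (D.A₀ B ⧸ I)] [Module.Projective B (D.A₀ B ⧸ I)]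
    {B' : Type u} [CommRing B'] [Algebra k B'] (φ : B →ₐ[k] B') (I' : Ideal (D.A₀ B'))
    [Module.Finite B' (D.A₀ B' ⧸ I')] [Module.Projective B' (D.A₀ B' ⧸ I')]
    (h : I.map (D.map₀ φ) = I') :
    ((chartDatum N I).baseChange φ).Equiv (chartDatum N I') := by
  subst h
  have := helper5597.ideal_invertible₀ (D := D) I
  have := helper5597.ideal_invertible₀ (D := D) (I.map (D.map₀ φ))
  exact (helper622.twist₀_baseChange φ (helper8573.baseOver N B) I).trans
    (helper622.twist₀_congr (I.map (D.map₀ φ)) (helper3173.baseOver_baseChange N φ))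

end ChartDatum

/-! ## Euler characteristic and degree -/

section Chi

variable {k : Type u} [Field k] [IsAlgClosed k] {D : CurveDatum k}

/-- `χ` of the base bundle does not change under extension of the base field. -/
theorem chi_baseOver (N : GlueDatum D k) (K : Type u) [Field K] [Algebra k K] :
    (helper8573.baseOver N K).chi = N.chi :=
  helper239.chi_field_ext N (Algebra.ofId k K)

/-- `χ(𝒪)` does not depend on the field. -/
theorem chi_unit_field (K : Type u) [Field K] [Algebra k K] :
    (GlueDatum.unit D K).chi = (GlueDatum.unit D k).chi := by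
  rw [← helper743.equiv_chi_eq (helper743.unit_baseChange (D := D) (Algebra.ofId k K))]
  exact helper239.chi_field_ext (GlueDatum.unit D k) (Algebra.ofId k K)

/-- Over a field: `χ(N_K(-D_I)) = χ(N) - dim_K (A₀ K ⧸ I)`. -/
theorem chi_chartDatum (N : GlueDatum D k) {K : Type u} [Field K] [Algebra k K]
    (I : Ideal (D.A₀ K)) [Module.Finite K (D.A₀ K ⧸ I)] [Module.Projective K (D.A₀ K ⧸ I)] :
    (chartDatum N I).chi = N.chi - (Module.finrank K (D.A₀ K ⧸ I) : ℤ) := by
  have := helper239.finite_H0_field (helper8573.baseOver N K)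
  have := helper239.finite_H1_field (helper8573.baseOver N K)
  have h := (helper4927.chi_of_mor_ideal (chartIncl N I) (chartIncl_f₀_injective N I)
    (chartIncl_f₁_injective N I) (chartIncl_surjModY N I) I (range_chartIncl_f₀ N I)).2.2
  rw [h, chi_baseOver]

/-- Over a field: if `N` has degree `g` and `dim_K (A₀ K ⧸ I) = g`, then `N_K(-D_I)` has the
Euler characteristic of the trivial bundle. -/
theorem chi_chartDatum_of_finrank (N : GlueDatum D k) (hN : helper8573.HasDegreeGenus N)
    {K : Type u} [Field K] [Algebra k K]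
    (I : Ideal (D.A₀ K)) [Module.Finite K (D.A₀ K ⧸ I)] [Module.Projective K (D.A₀ K ⧸ I)]
    (hI : Module.finrank K (D.A₀ K ⧸ I) = helper8573.genus D) :
    (chartDatum N I).chi = (GlueDatum.unit D K).chi := by
  rw [chi_chartDatum, hI, chi_unit_field, hN]
  ring

/-- Conversely, over a field, a chart bundle of Euler characteristic `χ(𝒪)` has
`dim_K (A₀ K ⧸ I) = g`. -/
theorem finrank_of_chi_chartDatum (N : GlueDatum D k) (hN : helper8573.HasDegreeGenus N)
    {K : Type u} [Field K] [Algebra k K]
    (I : Ideal (D.A₀ K)) [Module.Finite K (D.A₀ K ⧸ I)] [Module.Projective K (D.A₀ K ⧸ I)]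
    (h : (chartDatum N I).chi = (GlueDatum.unit D K).chi) :
    Module.finrank K (D.A₀ K ⧸ I) = helper8573.genus D := by
  rw [chi_chartDatum, chi_unit_field, hN] at h
  have h2 : (Module.finrank K (D.A₀ K ⧸ I) : ℤ) = (helper8573.genus D : ℤ) := by linarith
  exact_mod_cast h2

end Chi

/-! ## Chart bundles of chart ideals -/

section ChartIdeal

variable {k : Type u} [Field k] [IsAlgClosed k] {D : CurveDatum k}
  {B : Type u} [CommRing B] [Algebra k B] {n : Type} [Fintype n] [DecidableEq n] {s : n → D.R₀}

/-- The chart bundle `N_B(-D_I)` of a chart ideal `I` (for the family `s`). -/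
noncomputable def chartDatumOf (N : GlueDatum D k) {I : Ideal (D.A₀ B)}
    (hI : IsChartIdeal s I) : GlueDatum D B :=
  haveI := hI.finite
  haveI := hI.projective
  chartDatum N I

theorem chartDatumOf_eq (N : GlueDatum D k) {I : Ideal (D.A₀ B)} (hI : IsChartIdeal s I)
    [Module.Finite B (D.A₀ B ⧸ I)] [Module.Projective B (D.A₀ B ⧸ I)] :
    chartDatumOf N hI = chartDatum N I := rfl

theorem isRig_chartDatumOf (N : GlueDatum D k) {I : Ideal (D.A₀ B)} (hI : IsChartIdeal s I) :
    (chartDatumOf N hI).IsRig :=
  haveI := hI.finite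
  haveI := hI.projective
  isRig_chartDatum N I

theorem chartDatumOf_congr (N : GlueDatum D k) {I J : Ideal (D.A₀ B)} (hI : IsChartIdeal s I)
    (hJ : IsChartIdeal s J) (h : I = J) : (chartDatumOf N hI).Equiv (chartDatumOf N hJ) := by
  subst h
  exact GlueDatum.Equiv.refl _

/-- Base change of the chart bundle of a chart ideal. -/
theorem chartDatumOf_baseChange (N : GlueDatum D k) {I : Ideal (D.A₀ B)} (hI : IsChartIdeal s I)
    {B' : Type u} [CommRing B'] [Algebra k B'] (φ : B →ₐ[k] B') :
    ((chartDatumOf N hI).baseChange φ).Equiv (chartDatumOf N (hI.map φ)) :=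
  haveI := hI.finite
  haveI := hI.projective
  haveI := (hI.map φ).finite
  haveI := (hI.map φ).projective
  chartDatum_baseChange N I φ _ rfl

/-- Base change of the chart bundle of a chart ideal, with the target ideal named. -/
theorem chartDatumOf_baseChange_of_eq (N : GlueDatum D k) {I : Ideal (D.A₀ B)}
    (hI : IsChartIdeal s I) {B' : Type u} [CommRing B'] [Algebra k B'] (φ : B →ₐ[k] B')
    {I' : Ideal (D.A₀ B')} (hI' : IsChartIdeal s I') (h : I.map (D.map₀ φ) = I') :
    ((chartDatumOf N hI).baseChange φ).Equiv (chartDatumOf N hI') :=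
  (chartDatumOf_baseChange N hI φ).trans (chartDatumOf_congr N (hI.map φ) hI' h)

/-- If `N` has degree `g` and `s` has `g` members, the chart bundle of a chart ideal for `s`
has degree zero. -/
theorem degZero_chartDatumOf (N : GlueDatum D k) (hN : helper8573.HasDegreeGenus N)
    (hcard : Fintype.card n = helper8573.genus D) {I : Ideal (D.A₀ B)} (hI : IsChartIdeal s I) :
    (chartDatumOf N hI).DegZero := by
  intro K _ _ φ
  rw [helper743.equiv_chi_eq (chartDatumOf_baseChange N hI φ)]
  have := (hI.map φ).finite
  have := (hI.map φ).projective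
  exact chi_chartDatum_of_finrank N hN _ ((hI.map φ).finrank_eq.trans hcard)

end ChartIdeal

/-! ## The universal chart bundle -/

section Univ

variable {k : Type u} [Field k] [IsAlgClosed k] {D : CurveDatum k}
  {B : Type u} [CommRing B] [Algebra k B] {n : Type} [Fintype n] [DecidableEq n]

/-- **The universal chart bundle** over `W(s, f) = ChartAlg k D.R₀ s [1/f]`: the chart bundle of
the universal chart ideal. -/
noncomputable def univDatum (N : GlueDatum D k) (s : n → D.R₀) (f : ChartAlg k D.R₀ s) :
    GlueDatum D (Localization.Away f) :=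
  chartDatumOf N (isChartIdeal_univIdealAway (k := k) (R := D.R₀) (s := s) f)

theorem univDatum_eq (N : GlueDatum D k) (s : n → D.R₀) (f : ChartAlg k D.R₀ s) :
    univDatum N s f =
      chartDatumOf N (isChartIdeal_univIdealAway (k := k) (R := D.R₀) (s := s) f) := rfl

theorem isRig_univDatum (N : GlueDatum D k) (s : n → D.R₀) (f : ChartAlg k D.R₀ s) :
    (univDatum N s f).IsRig :=
  isRig_chartDatumOf N _

theorem degZero_univDatum (N : GlueDatum D k) (hN : helper8573.HasDegreeGenus N)
    (s : n → D.R₀) (hcard : Fintype.card n = helper8573.genus D) (f : ChartAlg k D.R₀ s) :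
    (univDatum N s f).DegZero :=
  degZero_chartDatumOf N hN hcard _

/-- The inclusion of the universal chart bundle into the base bundle. -/
noncomputable def univIncl (N : GlueDatum D k) (s : n → D.R₀) (f : ChartAlg k D.R₀ s) :
    helper8573.Mor (univDatum N s f) (helper8573.baseOver N (Localization.Away f)) :=
  haveI := (isChartIdeal_univIdealAway (k := k) (R := D.R₀) (s := s) f).finite
  haveI := (isChartIdeal_univIdealAway (k := k) (R := D.R₀) (s := s) f).projective
  chartIncl N (univIdealAway k D.R₀ s f)

theorem univIncl_surjModY (N : GlueDatum D k) (s : n → D.R₀) (f : ChartAlg k D.R₀ s) :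
    (univIncl N s f).SurjModY :=
  haveI := (isChartIdeal_univIdealAway (k := k) (R := D.R₀) (s := s) f).finite
  haveI := (isChartIdeal_univIdealAway (k := k) (R := D.R₀) (s := s) f).projective
  chartIncl_surjModY N (univIdealAway k D.R₀ s f)

/-- **Universal property, datum level (1).** The pull-back of the universal chart bundle along
`ψ : W(s, f) → B` is the chart bundle of the chart ideal classified by `ψ`. -/
theorem univDatum_baseChange (N : GlueDatum D k) (s : n → D.R₀) (f : ChartAlg k D.R₀ s)
    (ψ : Localization.Away f →ₐ[k] B) :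
    ((univDatum N s f).baseChange ψ).Equiv
      (chartDatumOf N (chartAwayEquiv_isChartIdeal (k := k) (R := D.R₀) (s := s) f ψ)) :=
  chartDatumOf_baseChange_of_eq N _ ψ _ (chartAwayEquiv_apply f ψ).symm

/-- Pull-back of the universal chart bundle, with the target chart ideal named. -/
theorem univDatum_baseChange_of_eq (N : GlueDatum D k) (s : n → D.R₀) (f : ChartAlg k D.R₀ s)
    (ψ : Localization.Away f →ₐ[k] B) {I : Ideal (D.A₀ B)} (hI : IsChartIdeal s I)
    (h : (univIdealAway k D.R₀ s f).map (D.map₀ ψ) = I) :
    ((univDatum N s f).baseChange ψ).Equiv (chartDatumOf N hI) :=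
  chartDatumOf_baseChange_of_eq N _ ψ hI h

/-- **Universal property, datum level (2).** Every chart bundle of a chart ideal (for `s`) at
which `f` is invertible is a pull-back of the universal one. -/
theorem exists_univDatum_baseChange (N : GlueDatum D k) (s : n → D.R₀) (f : ChartAlg k D.R₀ s)
    {I : Ideal (D.A₀ B)} (hI : IsChartIdeal s I) (hf : IsUnit (hI.eval f)) :
    ∃ ψ : Localization.Away f →ₐ[k] B,
      (univIdealAway k D.R₀ s f).map (D.map₀ ψ) = I ∧
        ((univDatum N s f).baseChange ψ).Equiv (chartDatumOf N hI) := by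
  obtain ⟨ψ, hψ⟩ := exists_chartAwayMap f hI hf
  exact ⟨ψ, hψ, univDatum_baseChange_of_eq N s f ψ hI hψ⟩

/-- **The functor of points of the universal chart**: `G` is pulled back from
`(W(s, f), univDatum N s f)` iff `G ≈ N_B(-D_I)` for a chart ideal `I` (for `s`) at which `f` is
invertible. -/
theorem inChart_univDatum_iff (N : GlueDatum D k) (s : n → D.R₀) (f : ChartAlg k D.R₀ s)
    (G : GlueDatum D B) :
    helper8573.InChart (univDatum N s f) G ↔
      ∃ (I : Ideal (D.A₀ B)) (hI : IsChartIdeal s I),
        IsUnit (hI.eval f) ∧ (chartDatumOf N hI).Equiv G := by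
  constructor
  · rintro ⟨ψ, hψ⟩
    refine ⟨(chartAwayEquiv k D.R₀ s f B ψ).1, chartAwayEquiv_isChartIdeal f ψ, ?_,
      (univDatum_baseChange N s f ψ).symm.trans hψ⟩
    exact (chartAwayEquiv k D.R₀ s f B ψ).2.choose_spec
  · rintro ⟨I, hI, hf, hG⟩
    obtain ⟨ψ, -, hψ⟩ := exists_univDatum_baseChange N s f hI hf
    exact ⟨ψ, hψ.trans hG⟩

/-- **Mono clause, formal part.** If a chart ideal (for `s`, with `f` invertible) is determined
by the isomorphism class of its chart bundle, then the universal chart is a monomorphism. -/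
theorem chartMono_univDatum_of (N : GlueDatum D k) (s : n → D.R₀) (f : ChartAlg k D.R₀ s)
    (hmono : ∀ (B : Type u) [CommRing B] [Algebra k B] (I I' : Ideal (D.A₀ B))
      (hI : IsChartIdeal s I) (hI' : IsChartIdeal s I'), IsUnit (hI.eval f) →
      IsUnit (hI'.eval f) → (chartDatumOf N hI).Equiv (chartDatumOf N hI') → I = I') :
    helper8573.ChartMono (univDatum N s f) := by
  intro B _ _ φ φ' h
  have h1 := (univDatum_baseChange N s f φ).symm.trans (h.trans (univDatum_baseChange N s f φ'))
  have h2 := hmono B _ _ (chartAwayEquiv_isChartIdeal f φ) (chartAwayEquiv_isChartIdeal f φ')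
    (chartAwayEquiv k D.R₀ s f B φ).2.choose_spec (chartAwayEquiv k D.R₀ s f B φ').2.choose_spec
    h1
  exact (chartAwayEquiv k D.R₀ s f B).injective (Subtype.ext h2)

end Univ

/-! ## Image clause: the divisor of a morphism over a field is a chart ideal -/

section Image

variable {k : Type u} [Field k] [IsAlgClosed k] {D : CurveDatum k}
  {K : Type u} [Field K] [Algebra k K]

omit [IsAlgClosed k] in
/-- A degree zero bundle over a field has the Euler characteristic of the trivial bundle. -/
theorem chi_eq_of_degZero {G : GlueDatum D K} (hG : G.DegZero) :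
    G.chi = (GlueDatum.unit D K).chi := by
  rw [← hG K (AlgHom.id k K)]
  exact (helper743.equiv_chi_eq (helper743.baseChange_id G)).symm

/-- **Image clause, divisor part.** Over a field `K`, let `N` have degree `g` and let `G` have
the Euler characteristic of the trivial bundle. If `σ : G → N_K` is surjective modulo `y`, then
`G ≈ N_K(-D_I)` where `I = (range σ.f₀ : N₀)` is a chart ideal for some family `s` of `g`
elements of `D.R₀`. -/
theorem exists_chartDatumOf_of_mor (N : GlueDatum D k) (hN : helper8573.HasDegreeGenus N)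
    (G : GlueDatum D K) (hG : G.chi = (GlueDatum.unit D K).chi)
    (σ : helper8573.Mor G (helper8573.baseOver N K)) (hY : σ.SurjModY) :
    ∃ (s : Fin (helper8573.genus D) → D.R₀) (I : Ideal (D.A₀ K)) (hI : IsChartIdeal s I),
      I = (LinearMap.range σ.f₀).colon (Set.univ : Set (helper8573.baseOver N K).M₀) ∧
        G.Equiv (chartDatumOf N hI) := by
  obtain ⟨I, hinv, hinv₁, h, hcolon, hfin, hproj, -, -, -, -, -, he⟩ := helper69.chart_of_mor σ hY
  have he' : G.Equiv (chartDatum N I) := he
  have hchi : (chartDatum N I).chi = (GlueDatum.unit D K).chi := by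
    rw [← helper743.equiv_chi_eq he', hG]
  have hfr := finrank_of_chi_chartDatum N hN I hchi
  obtain ⟨s, hs⟩ := exists_isChartIdeal_of_finrank (k := k) (R := D.R₀) I (helper8573.genus D) hfr
  exact ⟨s, I, hs, hcolon, he'⟩

/-- **Image clause, chart form.** In the situation of `exists_chartDatumOf_of_mor`, `G` is pulled
back from the universal chart `(W(s, f), univDatum N s f)` for every `f` which is invertible at
the chart ideal of `σ`. -/
theorem exists_inChart_univDatum_of_mor (N : GlueDatum D k) (hN : helper8573.HasDegreeGenus N)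
    (G : GlueDatum D K) (hG : G.chi = (GlueDatum.unit D K).chi)
    (σ : helper8573.Mor G (helper8573.baseOver N K)) (hY : σ.SurjModY) :
    ∃ (s : Fin (helper8573.genus D) → D.R₀) (I : Ideal (D.A₀ K)) (hI : IsChartIdeal s I),
      I = (LinearMap.range σ.f₀).colon (Set.univ : Set (helper8573.baseOver N K).M₀) ∧
        G.Equiv (chartDatumOf N hI) ∧
        ∀ f : ChartAlg k D.R₀ s, hI.eval f ≠ 0 → helper8573.InChart (univDatum N s f) G := by
  obtain ⟨s, I, hI, hcolon, he⟩ := exists_chartDatumOf_of_mor N hN G hG σ hY
  refine ⟨s, I, hI, hcolon, he, fun f hf => ?_⟩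
  exact (inChart_univDatum_iff N s f G).mpr ⟨I, hI, isUnit_iff_ne_zero.mpr hf, he.symm⟩

end Image

/-! ## Bridge to the chart family of `helper3173_ChartOfAsm` (the `helper1035` twist) -/

section Bridge

variable {k : Type u} [Field k] [IsAlgClosed k] {D : CurveDatum k}
  {B : Type u} [CommRing B] [Algebra k B]

/-- **Bridge between the two twists.** For a divisor datum `E = (I, atInfty I)` of the first
chart, the `helper1035` twist is isomorphic to the `helper6121` twist. -/
theorem twist_equiv_twist (G : GlueDatum D B) (E : helper1035.DivDatum D B)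
    (I : Ideal (D.A₀ B)) [Module.Invertible (D.A₀ B) I]
    [Module.Invertible (D.A₁ B) (helper622.atInfty (D.A₁ B) (D.A₀₁ B) I)]
    (h₀ : E.I₀ = I) (h₁ : E.I₁ = helper622.atInfty (D.A₁ B) (D.A₀₁ B) I)
    (h : I.map (algebraMap (D.A₀ B) (D.A₀₁ B)) =
      (helper622.atInfty (D.A₁ B) (D.A₀₁ B) I).map (algebraMap (D.A₁ B) (D.A₀₁ B)))
    (hu : ∃ u ∈ helper622.atInfty (D.A₁ B) (D.A₀₁ B) I, u - 1 ∈ Ideal.span {yB D B}) :
    (helper1035.twist G E).Equiv
      (helper6121.GlueDatum.twist G I (helper622.atInfty (D.A₁ B) (D.A₀₁ B) I) h) := by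
  refine (helper69.equiv_twist_iff _ G I h hu).mpr ⟨helper3173.inclMor G E, ?_, ?_⟩
  · exact helper3173.inclMor_surjModY G E (h₁ ▸ hu)
  · rw [helper3173.range_inclMor_f₀, helper69.colon_ideal_smul_top, h₀]

/-- `helper3173.twistOf N I ≈ chartDatum N I`. -/
theorem twistOf_equiv_chartDatum (N : GlueDatum D k) (I : Ideal (D.A₀ B))
    [Module.Finite B (D.A₀ B ⧸ I)] [Module.Projective B (D.A₀ B ⧸ I)] :
    (helper3173.twistOf N I).Equiv (chartDatum N I) :=
  haveI := helper5597.ideal_invertible₀ (D := D) I
  haveI := helper622.invertible_inf₀ I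
  twist_equiv_twist (helper8573.baseOver N B) (helper3173.divOf I) I rfl rfl
    (helper622.map_inf₀ I) (exists_mem_atInfty_sub_one I)

/-- `helper3173.twistOf N I ≈ chartDatumOf N hI` for a chart ideal. -/
theorem twistOf_equiv_chartDatumOf (N : GlueDatum D k) {n : Type} [Fintype n] [DecidableEq n]
    {s : n → D.R₀} {I : Ideal (D.A₀ B)} (hI : IsChartIdeal s I)
    [Module.Finite B (D.A₀ B ⧸ I)] [Module.Projective B (D.A₀ B ⧸ I)] :
    (helper3173.twistOf N I).Equiv (chartDatumOf N hI) :=
  twistOf_equiv_chartDatum N I

/-- The universal bundle of the chart family is the universal chart bundle. -/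
theorem P_equiv_univDatum (N : GlueDatum D k) (s : Fin (helper8573.genus D) → D.R₀)
    (f : ChartAlg k D.R₀ s) : (helper3173.P N s f).Equiv (univDatum N s f) :=
  haveI := (isChartIdeal_univIdealAway (k := k) (R := D.R₀) (s := s) f).finite
  haveI := (isChartIdeal_univIdealAway (k := k) (R := D.R₀) (s := s) f).projective
  twistOf_equiv_chartDatum N (univIdealAway k D.R₀ s f)

/-- Over a field: `χ(twistOf N I) = χ(N) - dim_K (A₀ K ⧸ I)`. -/
theorem chi_twistOf (N : GlueDatum D k) {K : Type u} [Field K] [Algebra k K]
    (I : Ideal (D.A₀ K)) [Module.Finite K (D.A₀ K ⧸ I)] [Module.Projective K (D.A₀ K ⧸ I)] :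
    (helper3173.twistOf N I).chi = N.chi - (Module.finrank K (D.A₀ K ⧸ I) : ℤ) := by
  rw [helper743.equiv_chi_eq (twistOf_equiv_chartDatum N I), chi_chartDatum]

/-- RIG for the chart family. -/
theorem isRig_P (N : GlueDatum D k) (s : Fin (helper8573.genus D) → D.R₀)
    (f : ChartAlg k D.R₀ s) : (helper3173.P N s f).IsRig :=
  helper743.isRig_of_equiv (P_equiv_univDatum N s f).symm (isRig_univDatum N s f)

/-- DEG for the chart family. -/
theorem degZero_P (N : GlueDatum D k) (hN : helper8573.HasDegreeGenus N)
    (s : Fin (helper8573.genus D) → D.R₀) (f : ChartAlg k D.R₀ s) :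
    (helper3173.P N s f).DegZero :=
  helper743.degZero_of_equiv (P_equiv_univDatum N s f).symm
    (degZero_univDatum N hN s (Fintype.card_fin _) f)

/-- POINT for the chart family, with the classified chart ideal named. -/
theorem P_baseChange (N : GlueDatum D k) (s : Fin (helper8573.genus D) → D.R₀)
    (f : ChartAlg k D.R₀ s) (γ : Localization.Away f →ₐ[k] B) {I : Ideal (D.A₀ B)}
    (hI : IsChartIdeal s I) (h : (univIdealAway k D.R₀ s f).map (D.map₀ γ) = I) :
    ((helper3173.P N s f).baseChange γ).Equiv (chartDatumOf N hI) :=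
  (helper743.equiv_baseChange (P_equiv_univDatum N s f) γ).trans
    (univDatum_baseChange_of_eq N s f γ hI h)

/-- POINT for the chart family: `InChart (P N s f)` and `InChart (univDatum N s f)` agree. -/
theorem inChart_P_iff_univDatum (N : GlueDatum D k) (s : Fin (helper8573.genus D) → D.R₀)
    (f : ChartAlg k D.R₀ s) (G : GlueDatum D B) :
    helper8573.InChart (helper3173.P N s f) G ↔ helper8573.InChart (univDatum N s f) G := by
  constructor
  · rintro ⟨γ, hγ⟩
    exact ⟨γ, (helper743.equiv_baseChange (P_equiv_univDatum N s f) γ).symm.trans hγ⟩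
  · rintro ⟨γ, hγ⟩
    exact ⟨γ, (helper743.equiv_baseChange (P_equiv_univDatum N s f) γ).trans hγ⟩

/-- **The functor of points of the chart `(s, f)`**: `G` is pulled back from
`(W D s f, P N s f)` iff `G ≈ N_B(-D_I)` for a chart ideal `I` (for `s`) at which `f` is
invertible. -/
theorem inChart_P_iff (N : GlueDatum D k) (s : Fin (helper8573.genus D) → D.R₀)
    (f : ChartAlg k D.R₀ s) (G : GlueDatum D B) :
    helper8573.InChart (helper3173.P N s f) G ↔
      ∃ (I : Ideal (D.A₀ B)) (hI : IsChartIdeal s I),
        IsUnit (hI.eval f) ∧ (chartDatumOf N hI).Equiv G :=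
  (inChart_P_iff_univDatum N s f G).trans (inChart_univDatum_iff N s f G)

/-- MONO for the chart family, formal part. -/
theorem chartMono_P_of (N : GlueDatum D k) (s : Fin (helper8573.genus D) → D.R₀)
    (f : ChartAlg k D.R₀ s)
    (hmono : ∀ (B : Type u) [CommRing B] [Algebra k B] (I I' : Ideal (D.A₀ B))
      (hI : IsChartIdeal s I) (hI' : IsChartIdeal s I'), IsUnit (hI.eval f) →
      IsUnit (hI'.eval f) → (chartDatumOf N hI).Equiv (chartDatumOf N hI') → I = I') :
    helper8573.ChartMono (helper3173.P N s f) := by
  intro B _ _ φ φ' h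
  refine chartMono_univDatum_of N s f hmono B φ φ' ?_
  exact (helper743.equiv_baseChange (P_equiv_univDatum N s f) φ).symm.trans
    (h.trans (helper743.equiv_baseChange (P_equiv_univDatum N s f) φ'))

end Bridge

end Fermat.Agent.S25.helper1002
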