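import Fermat.Agent.S25.helper622_DivisorAtInfinity

/-!
# S25, leaf U3 (relative divisor operations): module-level bridge lemmas

Same two-chart setting as `helper622_DivisorAtInfinity`.  For an ideal `I` of `A₀` with the
"closedness" witness `u ∈ atInfty I`, `u ≡ 1 mod y`, and a module `M₁` over `A₁` with localization
`ρ₁ : M₁ → M₀₁` at `y`:

* `mem_atInfty_smul_top_iff` : `atInfty I • M₁` is the preimage of `(I·A₀₁) • M₀₁` under `ρ₁`
  (the two descriptions of the chart-at-infinity module of the twist `G(-D)` agree);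
* `exists_sub_mem_map_smul_top`, `quotAtInftySMulTopEquiv` : excision
  `M₁ ⧸ atInfty I • M₁ ≃ M₀₁ ⧸ (I·A₀₁) • M₀₁`;
* `tensorSMulTopEquiv` : an ideal `J` containing `u` with `u ↦ 1` in `C` does not change the
  base change to `C`: `C ⊗ (J • M) ≃ C ⊗ M` (rigidification of the twist along a section
  inside `V(y)`);
* `comap_map_eq_self_of_sub_one_mem`, `map_atInfty_eq_atInfty_map` : `atInfty` commutes with
  base change (no flatness);
* `flat_quotient_map`, `quotientAtInftyLinearEquiv`, `flat_quotient_atInfty` : the coordinate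
  ring of the divisor in the chart at infinity is flat over the base.
-/

set_option autoImplicit false

namespace Fermat.Agent.S25.helper622

open TensorProduct

section Generic

variable {A : Type*} [CommRing A] {M : Type*} [AddCommGroup M] [Module A M]

/-- If `u ≡ 1 mod y` and both `u • m` and `y ^ n • m` lie in a submodule, then so does `m`. -/
theorem mem_of_smul_mem_of_pow_smul_mem (u y : A) (hu : u - 1 ∈ Ideal.span {y})
    (N : Submodule A M) (m : M) (hum : u • m ∈ N) (n : ℕ) (hy : y ^ n • m ∈ N) : m ∈ N := by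
  have hJ : (N.colon {m} : Ideal A) = ⊤ := by
    refine ideal_eq_top_of_forall_pow_mem {u, y} ?_ _ ?_
    · rw [Ideal.eq_top_iff_one]
      have h1 : (1 : A) = u - (u - 1) := by ring
      rw [h1]
      refine Ideal.sub_mem _ (Ideal.subset_span (by simp)) ?_
      exact Ideal.span_mono (by simp) hu
    · intro r hr
      rcases hr with h | h
      · refine ⟨1, ?_⟩
        rw [pow_one, Submodule.mem_colon_singleton, h]
        exact hum
      · rw [Set.mem_singleton_iff] at h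
        exact ⟨n, Submodule.mem_colon_singleton.mpr (h ▸ hy)⟩
  have h1 : (1 : A) ∈ N.colon {m} := hJ ▸ Submodule.mem_top
  simpa using Submodule.mem_colon_singleton.mp h1

variable {C : Type*} [CommRing C] [Algebra A C]

/-- **Rigidification of a twist.** If the ideal `J` contains an element `u` that becomes `1` in
the `A`-algebra `C`, then `J • M` and `M` have the same base change to `C`. -/
noncomputable def tensorSMulTopEquiv (J : Ideal A) (u : A) (hu : u ∈ J)
    (hu1 : algebraMap A C u = 1) (M : Type*) [AddCommGroup M] [Module A M] :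
    C ⊗[A] (J • ⊤ : Submodule A M) ≃ₗ[C] C ⊗[A] M :=
  let incl : (J • ⊤ : Submodule A M) →ₗ[A] M := (J • ⊤ : Submodule A M).subtype
  let mulU : M →ₗ[A] (J • ⊤ : Submodule A M) :=
    (LinearMap.lsmul A M u).codRestrict _ fun m => Submodule.smul_mem_smul hu Submodule.mem_top
  LinearEquiv.ofLinearMap (incl.baseChange C) (mulU.baseChange C)
    (by
      ext m
      simp only [TensorProduct.AlgebraTensorModule.curry_apply, TensorProduct.curry_apply,
        LinearMap.coe_restrictScalars, LinearMap.coe_comp, Function.comp_apply,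
        LinearMap.baseChange_tmul, LinearMap.id_coe, id_eq]
      change (1 : C) ⊗ₜ[A] (u • m) = 1 ⊗ₜ[A] m
      rw [← TensorProduct.smul_tmul, Algebra.smul_def, hu1, mul_one])
    (by
      ext m
      simp only [TensorProduct.AlgebraTensorModule.curry_apply, TensorProduct.curry_apply,
        LinearMap.coe_restrictScalars, LinearMap.coe_comp, Function.comp_apply,
        LinearMap.baseChange_tmul, LinearMap.id_coe, id_eq]
      have h : mulU (incl m) = u • m := Subtype.ext rfl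
      rw [h, ← TensorProduct.smul_tmul, Algebra.smul_def, hu1, mul_one])

@[simp] theorem tensorSMulTopEquiv_tmul (J : Ideal A) (u : A) (hu : u ∈ J)
    (hu1 : algebraMap A C u = 1) (M : Type*) [AddCommGroup M] [Module A M] (c : C)
    (m : (J • ⊤ : Submodule A M)) :
    tensorSMulTopEquiv J u hu hu1 M (c ⊗ₜ m) = c ⊗ₜ (m : M) := rfl

end Generic

section Bridge

variable {B A₀ A₁ A₀₁ : Type*} [CommRing B] [CommRing A₀] [CommRing A₁] [CommRing A₀₁]
  [Algebra B A₀] [Algebra B A₁] [Algebra B A₀₁] [Algebra A₀ A₀₁] [Algebra A₁ A₀₁]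
  [IsScalarTower B A₀ A₀₁] [IsScalarTower B A₁ A₀₁]
  {M₁ M₀₁ : Type*} [AddCommGroup M₁] [Module A₁ M₁] [AddCommGroup M₀₁] [Module A₀₁ M₀₁]
  [Module A₁ M₀₁] [IsScalarTower A₁ A₀₁ M₀₁]

/-- The extension of `atInfty I • M₁` to the overlap is `(I·A₀₁) • M₀₁`. -/
theorem localized'_atInfty_smul_top (y : A₁) [IsLocalization.Away y A₀₁] (I : Ideal A₀)
    (ρ₁ : M₁ →ₗ[A₁] M₀₁) [IsLocalizedModule (Submonoid.powers y) ρ₁] :
    (atInfty A₁ A₀₁ I • ⊤ : Submodule A₁ M₁).localized' A₀₁ (Submonoid.powers y) ρ₁ =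
      (I.map (algebraMap A₀ A₀₁) • ⊤ : Submodule A₀₁ M₀₁) := by
  rw [Submodule.localized'_smul, Submodule.localized'_top, Ideal.localized'_eq_map,
    map_atInfty y I]

/-- **Bridge.** The chart-at-infinity module of the twist `G(-D)` in its two descriptions:
`atInfty I • M₁` is the preimage of `(I·A₀₁) • M₀₁` under the localization map `ρ₁`.
Here `u` is the witness of (D1): `u ∈ atInfty I`, `u ≡ 1 mod y`. -/
theorem mem_atInfty_smul_top_iff (y : A₁) [IsLocalization.Away y A₀₁] (I : Ideal A₀)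
    (ρ₁ : M₁ →ₗ[A₁] M₀₁) [IsLocalizedModule (Submonoid.powers y) ρ₁]
    (u : A₁) (hu : u ∈ atInfty A₁ A₀₁ I) (hu1 : u - 1 ∈ Ideal.span {y}) (m : M₁) :
    m ∈ (atInfty A₁ A₀₁ I • ⊤ : Submodule A₁ M₁) ↔
      ρ₁ m ∈ (I.map (algebraMap A₀ A₀₁) • ⊤ : Submodule A₀₁ M₀₁) := by
  rw [← localized'_atInfty_smul_top y I ρ₁]
  constructor
  · intro hm
    exact ⟨m, hm, 1, by simp⟩
  · rintro ⟨m', hm', s, hs⟩
    obtain ⟨⟨_, n, rfl⟩, hn⟩ : ∃ c : Submonoid.powers y, c • m' = c • (s • m) := by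
      refine IsLocalizedModule.exists_of_eq (S := Submonoid.powers y) (f := ρ₁) ?_
      rw [Submonoid.smul_def, map_smul, ← Submonoid.smul_def, ← hs,
        IsLocalizedModule.mk'_cancel']
    obtain ⟨_, k, rfl⟩ := s
    refine mem_of_smul_mem_of_pow_smul_mem u y hu1 _ m
      (Submodule.smul_mem_smul hu Submodule.mem_top) (n + k) ?_
    have h2 : y ^ (n + k) • m = y ^ n • m' := by
      rw [pow_add, mul_smul]
      exact hn.symm
    rw [h2]
    exact Submodule.smul_mem _ _ hm'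

/-- **Excision**: every element of `M₀₁` is congruent modulo `(I·A₀₁) • M₀₁` to an element
coming from the chart at infinity. -/
theorem exists_sub_mem_map_smul_top (x : A₀) (y : A₁) [IsLocalization.Away y A₀₁]
    (hxy : algebraMap A₀ A₀₁ x * algebraMap A₁ A₀₁ y = 1) (I : Ideal A₀)
    [Module.Finite B (A₀ ⧸ I)]
    (ρ₁ : M₁ →ₗ[A₁] M₀₁) [IsLocalizedModule (Submonoid.powers y) ρ₁] (z : M₀₁) :
    ∃ m : M₁, z - ρ₁ m ∈ (I.map (algebraMap A₀ A₀₁) • ⊤ : Submodule A₀₁ M₀₁) := by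
  obtain ⟨⟨m, ⟨_, n, rfl⟩⟩, hm⟩ := IsLocalizedModule.surj (Submonoid.powers y) ρ₁ z
  obtain ⟨a, ha⟩ := surjective_mk_comp_algebraMap (B := B) x y hxy I
    (Ideal.Quotient.mk _ (algebraMap A₀ A₀₁ x ^ n))
  have ha' : algebraMap A₀ A₀₁ x ^ n - algebraMap A₁ A₀₁ a ∈ I.map (algebraMap A₀ A₀₁) := by
    rw [← Ideal.Quotient.eq]
    exact ha.symm
  refine ⟨a • m, ?_⟩
  have hz : z = algebraMap A₀ A₀₁ x ^ n • ρ₁ m := by
    have h1 : ρ₁ m = algebraMap A₁ A₀₁ y ^ n • z := by
      rw [← hm, Submonoid.smul_def, ← map_pow, algebraMap_smul]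
    rw [h1, smul_smul, ← mul_pow, hxy, one_pow, one_smul]
  have h3 : z - ρ₁ (a • m) = (algebraMap A₀ A₀₁ x ^ n - algebraMap A₁ A₀₁ a) • ρ₁ m := by
    rw [sub_smul, ← hz, map_smul, algebraMap_smul]
  rw [h3]
  exact Submodule.smul_mem_smul ha' Submodule.mem_top

/-- **Excision as an isomorphism**: `M₁ ⧸ atInfty I • M₁ ≃ M₀₁ ⧸ (I·A₀₁) • M₀₁`. -/
noncomputable def quotAtInftySMulTopEquiv (x : A₀) (y : A₁) [IsLocalization.Away y A₀₁]
    (hxy : algebraMap A₀ A₀₁ x * algebraMap A₁ A₀₁ y = 1) (I : Ideal A₀)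
    [Module.Finite B (A₀ ⧸ I)]
    (ρ₁ : M₁ →ₗ[A₁] M₀₁) [IsLocalizedModule (Submonoid.powers y) ρ₁] :
    (M₁ ⧸ (atInfty A₁ A₀₁ I • ⊤ : Submodule A₁ M₁)) ≃ₗ[A₁]
      (M₀₁ ⧸ ((I.map (algebraMap A₀ A₀₁) • ⊤ : Submodule A₀₁ M₀₁).restrictScalars A₁)) :=
  let N₀₁ : Submodule A₁ M₀₁ :=
    (I.map (algebraMap A₀ A₀₁) • ⊤ : Submodule A₀₁ M₀₁).restrictScalars A₁
  have hiff : ∀ m : M₁, m ∈ (atInfty A₁ A₀₁ I • ⊤ : Submodule A₁ M₁) ↔ ρ₁ m ∈ N₀₁ := by
    obtain ⟨u, hu, hu1⟩ := exists_mem_atInfty_sub_one_mem (B := B) x y hxy I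
    exact fun m => mem_atInfty_smul_top_iff y I ρ₁ u hu hu1 m
  LinearEquiv.ofBijective
    (Submodule.mapQ _ N₀₁ ρ₁ fun m hm => (hiff m).mp hm)
    ⟨by
      rw [← LinearMap.ker_eq_bot, LinearMap.ker_eq_bot']
      intro q hq
      induction q using Submodule.Quotient.induction_on with
      | H m =>
        rw [Submodule.mapQ_apply, Submodule.Quotient.mk_eq_zero] at hq
        exact (Submodule.Quotient.mk_eq_zero _).mpr ((hiff m).mpr hq),
     by
      intro q
      induction q using Submodule.Quotient.induction_on with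
      | H z =>
        obtain ⟨m, hm⟩ := exists_sub_mem_map_smul_top (B := B) x y hxy I ρ₁ z
        refine ⟨Submodule.Quotient.mk m, ?_⟩
        rw [Submodule.mapQ_apply, eq_comm, Submodule.Quotient.eq]
        exact hm⟩

@[simp] theorem quotAtInftySMulTopEquiv_mk (x : A₀) (y : A₁) [IsLocalization.Away y A₀₁]
    (hxy : algebraMap A₀ A₀₁ x * algebraMap A₁ A₀₁ y = 1) (I : Ideal A₀)
    [Module.Finite B (A₀ ⧸ I)]
    (ρ₁ : M₁ →ₗ[A₁] M₀₁) [IsLocalizedModule (Submonoid.powers y) ρ₁] (m : M₁) :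
    quotAtInftySMulTopEquiv (B := B) x y hxy I ρ₁ (Submodule.Quotient.mk m) =
      Submodule.Quotient.mk (ρ₁ m) := rfl

end Bridge

section Contract

variable {A A' : Type*} [CommRing A] [CommRing A'] [Algebra A A']

/-- An ideal of `A` containing an element `u ≡ 1 mod s` is contracted from `A[1/s]`. -/
theorem comap_map_eq_self_of_sub_one_mem (s : A) [IsLocalization.Away s A'] (J : Ideal A)
    (u : A) (hu : u ∈ J) (hu1 : u - 1 ∈ Ideal.span {s}) :
    (J.map (algebraMap A A')).comap (algebraMap A A') = J := by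
  refine le_antisymm (fun a ha => ?_) Ideal.le_comap_map
  rw [Ideal.mem_comap, IsLocalization.mem_map_algebraMap_iff (Submonoid.powers s)] at ha
  obtain ⟨⟨⟨j, hj⟩, ⟨_, n, rfl⟩⟩, h⟩ := ha
  simp only at h
  rw [← map_mul] at h
  obtain ⟨⟨_, m, rfl⟩, hm⟩ := (IsLocalization.eq_iff_exists (Submonoid.powers s) A').mp h
  simp only at hm
  refine mem_of_smul_mem_of_pow_smul_mem u s hu1 (J : Submodule A A) a
    (J.mul_mem_right _ hu) (m + n) ?_
  have h2 : s ^ (m + n) • a = s ^ m * j := by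
    rw [smul_eq_mul, pow_add, mul_assoc, mul_comm (s ^ n) a, hm]
  rw [h2]
  exact J.mul_mem_left _ hj

end Contract

section BaseChange

variable {A₀ A₁ A₀₁ A₀' A₁' A₀₁' : Type*} [CommRing A₀] [CommRing A₁] [CommRing A₀₁]
  [CommRing A₀'] [CommRing A₁'] [CommRing A₀₁']
  [Algebra A₀ A₀₁] [Algebra A₁ A₀₁] [Algebra A₀' A₀₁'] [Algebra A₁' A₀₁']

/-- **Base change of the divisor at infinity.** For compatible ring maps `f₀, f₁, f₀₁` between
two two-chart settings, `atInfty` commutes with extension of ideals, provided the closedness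
witness `u ∈ atInfty I`, `u ≡ 1 mod y` exists.  No flatness is needed. -/
theorem map_atInfty_eq_atInfty_map (y : A₁) [IsLocalization.Away y A₀₁]
    (f₀ : A₀ →+* A₀') (f₁ : A₁ →+* A₁') (f₀₁ : A₀₁ →+* A₀₁')
    [IsLocalization.Away (f₁ y) A₀₁']
    (h₀ : f₀₁.comp (algebraMap A₀ A₀₁) = (algebraMap A₀' A₀₁').comp f₀)
    (h₁ : f₀₁.comp (algebraMap A₁ A₀₁) = (algebraMap A₁' A₀₁').comp f₁)
    (I : Ideal A₀) (u : A₁) (hu : u ∈ atInfty A₁ A₀₁ I) (hu1 : u - 1 ∈ Ideal.span {y}) :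
    (atInfty A₁ A₀₁ I).map f₁ = atInfty A₁' A₀₁' (I.map f₀) := by
  have key : ((atInfty A₁ A₀₁ I).map f₁).map (algebraMap A₁' A₀₁') =
      (I.map f₀).map (algebraMap A₀' A₀₁') := by
    rw [Ideal.map_map, ← h₁, ← Ideal.map_map, map_atInfty y I, Ideal.map_map, h₀,
      ← Ideal.map_map]
  have hu' : f₁ u - 1 ∈ Ideal.span {f₁ y} := by
    obtain ⟨w, hw⟩ := Ideal.mem_span_singleton'.mp hu1
    refine Ideal.mem_span_singleton'.mpr ⟨f₁ w, ?_⟩
    rw [← map_mul, hw, map_sub, map_one]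
  have h2 : atInfty A₁' A₀₁' (I.map f₀) =
      (((atInfty A₁ A₀₁ I).map f₁).map (algebraMap A₁' A₀₁')).comap (algebraMap A₁' A₀₁') := by
    rw [key]
    rfl
  rw [h2]
  exact (comap_map_eq_self_of_sub_one_mem (f₁ y) _ (f₁ u) (Ideal.mem_map_of_mem f₁ hu) hu').symm

end BaseChange

section Flat

variable {B A₀ A₁ A₀₁ : Type*} [CommRing B] [CommRing A₀] [CommRing A₁] [CommRing A₀₁]
  [Algebra B A₀] [Algebra B A₁] [Algebra B A₀₁] [Algebra A₀ A₀₁] [Algebra A₁ A₀₁]
  [IsScalarTower B A₀ A₀₁] [IsScalarTower B A₁ A₀₁]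

/-- The coordinate ring `(A₀ ⧸ I)[1/x]` of the divisor in the overlap is flat over the base
when `A₀ ⧸ I` is. -/
theorem flat_quotient_map (x : A₀) [IsLocalization.Away x A₀₁] (I : Ideal A₀)
    [Module.Flat B (A₀ ⧸ I)] : Module.Flat B (A₀₁ ⧸ I.map (algebraMap A₀ A₀₁)) := by
  have h1 : Module.Flat (A₀ ⧸ I) (A₀₁ ⧸ I.map (algebraMap A₀ A₀₁)) :=
    IsLocalization.flat _ (Algebra.algebraMapSubmonoid (A₀ ⧸ I) (Submonoid.powers x))
  have h2 : IsScalarTower B (A₀ ⧸ I) (A₀₁ ⧸ I.map (algebraMap A₀ A₀₁)) :=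
    IsScalarTower.of_algebraMap_eq fun b => by
      change Ideal.Quotient.mk _ (algebraMap B A₀₁ b) =
        Ideal.Quotient.mk _ (algebraMap A₀ A₀₁ (algebraMap B A₀ b))
      rw [← IsScalarTower.algebraMap_apply B A₀ A₀₁]
  exact Module.Flat.trans B (A₀ ⧸ I) (A₀₁ ⧸ I.map (algebraMap A₀ A₀₁))

/-- `quotientAtInftyEquiv` as a `B`-linear equivalence. -/
noncomputable def quotientAtInftyLinearEquiv (x : A₀) (y : A₁) [IsLocalization.Away y A₀₁]
    (hxy : algebraMap A₀ A₀₁ x * algebraMap A₁ A₀₁ y = 1)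
    (I : Ideal A₀) [Module.Finite B (A₀ ⧸ I)] :
    (A₁ ⧸ atInfty A₁ A₀₁ I) ≃ₗ[B] (A₀₁ ⧸ I.map (algebraMap A₀ A₀₁)) :=
  { quotientAtInftyEquiv (B := B) x y hxy I with
    map_smul' := fun b q => by
      induction q using Submodule.Quotient.induction_on with
      | H a =>
        change quotientAtInftyEquiv (B := B) x y hxy I (Ideal.Quotient.mk _ (b • a)) =
          b • quotientAtInftyEquiv (B := B) x y hxy I (Ideal.Quotient.mk _ a)
        change Ideal.Quotient.mk _ (algebraMap A₁ A₀₁ (b • a)) =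
          b • Ideal.Quotient.mk _ (algebraMap A₁ A₀₁ a)
        rw [Algebra.smul_def, map_mul, ← IsScalarTower.algebraMap_apply B A₁ A₀₁, map_mul,
          Algebra.smul_def]
        rfl }

/-- The coordinate ring of the divisor in the chart at infinity is flat over the base. -/
theorem flat_quotient_atInfty (x : A₀) (y : A₁) [IsLocalization.Away x A₀₁]
    [IsLocalization.Away y A₀₁] (hxy : algebraMap A₀ A₀₁ x * algebraMap A₁ A₀₁ y = 1)
    (I : Ideal A₀) [Module.Finite B (A₀ ⧸ I)] [Module.Flat B (A₀ ⧸ I)] :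
    Module.Flat B (A₁ ⧸ atInfty A₁ A₀₁ I) :=
  have : Module.Flat B (A₀₁ ⧸ I.map (algebraMap A₀ A₀₁)) := flat_quotient_map (B := B) x I
  Module.Flat.of_linearEquiv (quotientAtInftyLinearEquiv (B := B) x y hxy I)

end Flat

end Fermat.Agent.S25.helper622
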