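import Fermat.Agent.S25.helper1035_PointTwist
import Fermat.Agent.S25.helper622_DivisorOps
import Fermat.Agent.S25.helper5597_DivisorIdealCurve
import Fermat.Agent.S25.helper6871_PointIdeal
import Fermat.Agent.S25.helper8573_LCSpec

/-!
# S25, leaf U3-PT (helper1035): divisor data of chart ideals and of points

On top of the reference twist `helper1035.twist G E` (`helper1035_PointTwist.lean`):

* `ofIdeal₀ I`: the divisor datum `(I, atInfty I)` of a relative effective divisor contained in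
  the first chart (`A₀ ⧸ I` finite projective over the base);
* `ofIdeal₁ J`: the mirror datum `(atInfty J, J)`;
* `pt₀ p`, `pt₁ q`: the divisor data of a `B`-point of the first chart / of the chart at infinity.
-/

set_option autoImplicit false

open TensorProduct Module LinearMap

namespace Fermat.Agent.S25.helper1035

open Fermat.Agent.S25.helper1705 Fermat.Agent.S25.helper2945

universe u

section Defs

variable {k : Type u} [Field k] [IsAlgClosed k] {D : CurveDatum k} {B : Type u} [CommRing B]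
  [Algebra k B]

/-- The divisor datum `(I, atInfty I)` of a relative effective Cartier divisor contained in the
first chart. -/
noncomputable def ofIdeal₀ (I : Ideal (D.A₀ B)) [Module.Finite B (D.A₀ B ⧸ I)]
    [Module.Projective B (D.A₀ B ⧸ I)] : DivDatum D B :=
  DivDatum.ofIdeals I (helper622.atInfty (D.A₁ B) (D.A₀₁ B) I)
    (helper622.map_atInfty (yB D B) I) (helper5597.ideal_invertible₀ D I)
    (haveI := helper5597.ideal_invertible₀ D I
     helper622.invertible_atInfty (B := B) (xB D B) (yB D B) (xB_mul_yB D B) I)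

/-- The divisor datum `(atInfty J, J)` of a relative effective Cartier divisor contained in the
chart at infinity. -/
noncomputable def ofIdeal₁ (J : Ideal (D.A₁ B)) [Module.Finite B (D.A₁ B ⧸ J)]
    [Module.Projective B (D.A₁ B ⧸ J)] : DivDatum D B :=
  DivDatum.ofIdeals (helper622.atInfty (D.A₀ B) (D.A₀₁ B) J) J
    (helper622.map_atInfty (xB D B) J).symm
    (haveI := helper5597.ideal_invertible₁ D J
     helper622.invertible_atInfty (B := B) (yB D B) (xB D B)
       (by rw [mul_comm]; exact xB_mul_yB D B) J)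
    (helper5597.ideal_invertible₁ D J)

@[simp] theorem ofIdeal₀_I₀ (I : Ideal (D.A₀ B)) [Module.Finite B (D.A₀ B ⧸ I)]
    [Module.Projective B (D.A₀ B ⧸ I)] : (ofIdeal₀ I).I₀ = I := rfl

@[simp] theorem ofIdeal₀_I₁ (I : Ideal (D.A₀ B)) [Module.Finite B (D.A₀ B ⧸ I)]
    [Module.Projective B (D.A₀ B ⧸ I)] :
    (ofIdeal₀ I).I₁ = helper622.atInfty (D.A₁ B) (D.A₀₁ B) I := rfl

@[simp] theorem ofIdeal₀_I₀₁ (I : Ideal (D.A₀ B)) [Module.Finite B (D.A₀ B ⧸ I)]
    [Module.Projective B (D.A₀ B ⧸ I)] :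
    (ofIdeal₀ I).I₀₁ = I.map (algebraMap (D.A₀ B) (D.A₀₁ B)) := rfl

@[simp] theorem ofIdeal₁_I₀ (J : Ideal (D.A₁ B)) [Module.Finite B (D.A₁ B ⧸ J)]
    [Module.Projective B (D.A₁ B ⧸ J)] :
    (ofIdeal₁ J).I₀ = helper622.atInfty (D.A₀ B) (D.A₀₁ B) J := rfl

@[simp] theorem ofIdeal₁_I₁ (J : Ideal (D.A₁ B)) [Module.Finite B (D.A₁ B ⧸ J)]
    [Module.Projective B (D.A₁ B ⧸ J)] : (ofIdeal₁ J).I₁ = J := rfl

theorem ofIdeal₁_I₀₁ (J : Ideal (D.A₁ B)) [Module.Finite B (D.A₁ B ⧸ J)]
    [Module.Projective B (D.A₁ B ⧸ J)] :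
    (ofIdeal₁ J).I₀₁ = J.map (algebraMap (D.A₁ B) (D.A₀₁ B)) :=
  (ofIdeal₁ J).map₁.symm

/-- Two chart-`0` divisor data with the same ideal are equal (the instance arguments do not
matter). -/
theorem ofIdeal₀_congr {I I' : Ideal (D.A₀ B)} [Module.Finite B (D.A₀ B ⧸ I)]
    [Module.Projective B (D.A₀ B ⧸ I)] [Module.Finite B (D.A₀ B ⧸ I')]
    [Module.Projective B (D.A₀ B ⧸ I')] (h : I = I') : ofIdeal₀ I = ofIdeal₀ I' := by
  subst h; rfl

/-- Two chart-`1` divisor data with the same ideal are equal. -/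
theorem ofIdeal₁_congr {J J' : Ideal (D.A₁ B)} [Module.Finite B (D.A₁ B ⧸ J)]
    [Module.Projective B (D.A₁ B ⧸ J)] [Module.Finite B (D.A₁ B ⧸ J')]
    [Module.Projective B (D.A₁ B ⧸ J')] (h : J = J') : ofIdeal₁ J = ofIdeal₁ J' := by
  subst h; rfl

/-- The divisor datum of a `B`-point of the first chart. -/
noncomputable def pt₀ (p : D.R₀ →ₐ[k] B) : DivDatum D B := ofIdeal₀ (helper6871.pointIdeal₀ D p)

/-- The divisor datum of a `B`-point of the chart at infinity. -/
noncomputable def pt₁ (q : D.R₁ →ₐ[k] B) : DivDatum D B := ofIdeal₁ (helper6871.pointIdeal₁ D q)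

@[simp] theorem pt₀_I₀ (p : D.R₀ →ₐ[k] B) : (pt₀ p).I₀ = helper6871.pointIdeal₀ D p := rfl

@[simp] theorem pt₀_I₁ (p : D.R₀ →ₐ[k] B) :
    (pt₀ p).I₁ = helper622.atInfty (D.A₁ B) (D.A₀₁ B) (helper6871.pointIdeal₀ D p) := rfl

@[simp] theorem pt₁_I₀ (q : D.R₁ →ₐ[k] B) :
    (pt₁ q).I₀ = helper622.atInfty (D.A₀ B) (D.A₀₁ B) (helper6871.pointIdeal₁ D q) := rfl

@[simp] theorem pt₁_I₁ (q : D.R₁ →ₐ[k] B) : (pt₁ q).I₁ = helper6871.pointIdeal₁ D q := rfl

end Defs

/-! ## Base change and the same-point identity -/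

section BaseChangeData

variable {k : Type u} [Field k] [IsAlgClosed k] {D : CurveDatum k} {B : Type u} [CommRing B]
  [Algebra k B] {B' : Type u} [CommRing B'] [Algebra k B']

omit [IsAlgClosed k] in
/-- Base change of `atInfty` of a chart-`0` divisor ideal (no flatness). -/
theorem atInfty_map₀ (I : Ideal (D.A₀ B)) [Module.Finite B (D.A₀ B ⧸ I)] (φ : B →ₐ[k] B') :
    (helper622.atInfty (D.A₁ B) (D.A₀₁ B) I).map (D.map₁ φ) =
      helper622.atInfty (D.A₁ B') (D.A₀₁ B') (I.map (D.map₀ φ)) := by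
  obtain ⟨u, hu, hu1⟩ := helper622.exists_mem_atInfty_sub_one_mem (B := B) (xB D B) (yB D B)
    (xB_mul_yB D B) I
  have : IsLocalization.Away ((D.map₁ φ).toRingHom (yB D B)) (D.A₀₁ B') := by
    change IsLocalization.Away (D.map₁ φ (yB D B)) (D.A₀₁ B')
    rw [map₁_yB]; infer_instance
  exact helper622.map_atInfty_eq_atInfty_map (yB D B) (D.map₀ φ).toRingHom (D.map₁ φ).toRingHom
    (D.map₀₁ φ).toRingHom (RingHom.ext fun a => (res₀_map₀ D φ a).symm)
    (RingHom.ext fun a => (res₁_map₁ D φ a).symm) I u hu hu1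

omit [IsAlgClosed k] in
/-- Base change of `atInfty` of a chart-`1` divisor ideal (no flatness). -/
theorem atInfty_map₁ (J : Ideal (D.A₁ B)) [Module.Finite B (D.A₁ B ⧸ J)] (φ : B →ₐ[k] B') :
    (helper622.atInfty (D.A₀ B) (D.A₀₁ B) J).map (D.map₀ φ) =
      helper622.atInfty (D.A₀ B') (D.A₀₁ B') (J.map (D.map₁ φ)) := by
  obtain ⟨u, hu, hu1⟩ := helper622.exists_mem_atInfty_sub_one_mem (B := B) (A₁ := D.A₀ B)
    (A₀₁ := D.A₀₁ B) (yB D B) (xB D B) ((mul_comm _ _).trans (xB_mul_yB D B)) J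
  have : IsLocalization.Away ((D.map₀ φ).toRingHom (xB D B)) (D.A₀₁ B') := by
    change IsLocalization.Away (D.map₀ φ (xB D B)) (D.A₀₁ B')
    rw [map₀_xB]; infer_instance
  exact helper622.map_atInfty_eq_atInfty_map (xB D B) (D.map₁ φ).toRingHom (D.map₀ φ).toRingHom
    (D.map₀₁ φ).toRingHom (RingHom.ext fun a => (res₁_map₁ D φ a).symm)
    (RingHom.ext fun a => (res₀_map₀ D φ a).symm) J u hu hu1

/-- **Base change of the twist by a chart-`0` divisor.** -/
theorem twist_baseChange_ofIdeal₀ (G : GlueDatum D B) (I : Ideal (D.A₀ B))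
    [Module.Finite B (D.A₀ B ⧸ I)] [Module.Projective B (D.A₀ B ⧸ I)] (φ : B →ₐ[k] B')
    (I' : Ideal (D.A₀ B')) [Module.Finite B' (D.A₀ B' ⧸ I')] [Module.Projective B' (D.A₀ B' ⧸ I')]
    (h : I.map (D.map₀ φ) = I') :
    ((twist G (ofIdeal₀ I)).baseChange φ).Equiv (twist (G.baseChange φ) (ofIdeal₀ I')) :=
  twist_baseChange G (ofIdeal₀ I) φ (ofIdeal₀ I') h (by subst h; exact atInfty_map₀ I φ)

/-- **Base change of the twist by a chart-`1` divisor.** -/
theorem twist_baseChange_ofIdeal₁ (G : GlueDatum D B) (J : Ideal (D.A₁ B))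
    [Module.Finite B (D.A₁ B ⧸ J)] [Module.Projective B (D.A₁ B ⧸ J)] (φ : B →ₐ[k] B')
    (J' : Ideal (D.A₁ B')) [Module.Finite B' (D.A₁ B' ⧸ J')] [Module.Projective B' (D.A₁ B' ⧸ J')]
    (h : J.map (D.map₁ φ) = J') :
    ((twist G (ofIdeal₁ J)).baseChange φ).Equiv (twist (G.baseChange φ) (ofIdeal₁ J')) :=
  twist_baseChange G (ofIdeal₁ J) φ (ofIdeal₁ J') (by subst h; exact atInfty_map₁ J φ) h

/-- Base change of the twist at a point of the first chart. -/
theorem twist_baseChange_pt₀ (G : GlueDatum D B) (p : D.R₀ →ₐ[k] B) (φ : B →ₐ[k] B') :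
    ((twist G (pt₀ p)).baseChange φ).Equiv (twist (G.baseChange φ) (pt₀ (φ.comp p))) :=
  twist_baseChange_ofIdeal₀ G _ φ _ (helper6871.pointIdeal₀_baseChange D p φ)

/-- Base change of the twist at a point of the chart at infinity. -/
theorem twist_baseChange_pt₁ (G : GlueDatum D B) (q : D.R₁ →ₐ[k] B) (φ : B →ₐ[k] B') :
    ((twist G (pt₁ q)).baseChange φ).Equiv (twist (G.baseChange φ) (pt₁ (φ.comp q))) :=
  twist_baseChange_ofIdeal₁ G _ φ _ (helper6871.pointIdeal₁_baseChange D q φ)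

/-- SAME POINT: a point of the overlap gives the same divisor datum from both charts. -/
theorem pt₀_eq_pt₁ (r : D.R₀₁ →ₐ[k] B) :
    (pt₀ (r.comp (IsScalarTower.toAlgHom k D.R₀ D.R₀₁)) : DivDatum D B) =
      pt₁ (r.comp (IsScalarTower.toAlgHom k D.R₁ D.R₀₁)) :=
  DivDatum.ext_ideals (helper6871.pointIdeal₁_map_comap₀ D r).symm
    (helper6871.pointIdeal₀_map_comap₁ D r)

end BaseChangeData

/-! ## The inclusion of the twist as a morphism -/

section InclMor

variable {k : Type u} [Field k] {D : CurveDatum k} {B : Type u} [CommRing B] [Algebra k B]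

/-- The inclusion of the twist `G(−E)` into `G`, as a morphism of two-chart line bundles. -/
noncomputable def inclMor (G : GlueDatum D B) (E : DivDatum D B) :
    helper8573.Mor (twist G E) G where
  f₀ := incl₀ G E
  f₁ := incl₁ G E
  f₀₁ := incl₀₁ G E
  comm₀ m := (ρ₀_incl₀ G E m).symm
  comm₁ m := (ρ₁_incl₁ G E m).symm

@[simp] theorem inclMor_f₀ (G : GlueDatum D B) (E : DivDatum D B) :
    (inclMor G E).f₀ = incl₀ G E := rfl
@[simp] theorem inclMor_f₁ (G : GlueDatum D B) (E : DivDatum D B) :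
    (inclMor G E).f₁ = incl₁ G E := rfl
@[simp] theorem inclMor_f₀₁ (G : GlueDatum D B) (E : DivDatum D B) :
    (inclMor G E).f₀₁ = incl₀₁ G E := rfl

/-- If the chart-at-infinity ideal contains an element congruent to `1` modulo `y` (the divisor
misses `V(y)`), the inclusion of the twist is an isomorphism along `V(y)`. -/
theorem inclMor_surjModY (G : GlueDatum D B) (E : DivDatum D B) (u : D.A₁ B) (hu : u ∈ E.I₁)
    (hu1 : u - 1 ∈ Ideal.span {yB D B}) : (inclMor G E).SurjModY := by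
  intro n
  obtain ⟨w, hw⟩ := Ideal.mem_span_singleton'.mp hu1
  refine ⟨mk₁ G E (u • n) (Submodule.smul_mem_smul hu Submodule.mem_top), -(w • n), ?_⟩
  change n = u • n + yB D B • -(w • n)
  have h : u = 1 + w * yB D B := by rw [hw]; ring
  rw [smul_neg, ← mul_smul, mul_comm, ← sub_eq_add_neg, ← sub_smul, h]
  simp

end InclMor

section InclOfIdeal

variable {k : Type u} [Field k] [IsAlgClosed k] {D : CurveDatum k}

/-- The inclusion `G(−D_I) → G` of the twist by a divisor of the first chart is an isomorphism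
along `V(y)`. -/
theorem inclMor_ofIdeal₀_surjModY {B : Type u} [CommRing B] [Algebra k B] (G : GlueDatum D B)
    (I : Ideal (D.A₀ B)) [Module.Finite B (D.A₀ B ⧸ I)] [Module.Projective B (D.A₀ B ⧸ I)] :
    (inclMor G (ofIdeal₀ I)).SurjModY := by
  obtain ⟨u, hu, hu1⟩ := helper622.exists_mem_atInfty_sub_one_mem (B := B) (xB D B) (yB D B)
    (xB_mul_yB D B) I
  exact inclMor_surjModY G _ u hu hu1

end InclOfIdeal

end Fermat.Agent.S25.helper1035
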