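import Fermat.Agent.S25.helper1035_PointTwistData
import Fermat.Agent.S25.helper7530_ValExistAlg
import Fermat.Agent.S25.helper4927_TwistChi
import Fermat.Agent.S25.helper239_GlueIndex

/-!
# S25, leaf U3-PT (helper1035): the point-twist package for the valuative existence argument

* `gluePointTwist D : helper7530.GluePointTwist D`: the point twists `tw₀ G p = twist G (pt₀ p)`,
  `tw₁ G q = twist G (pt₁ q)` on `GlueDatum`, with their laws (congruence, base change, agreement
  on the overlap);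
* `chi_twist_ofIdeal₀`, `chi_twist_ofIdeal₁`: over a field, the twist by a finite subscheme of
  one chart drops `χ` by its length (unconditional: finiteness of cohomology from
  `helper239_GlueIndex`);
* `chi_twist_pt₀`, `chi_twist_pt₁`: point twists drop `χ` by one;
* `chiDrop D : (gluePointTwist D).ChiDrop` and `pointTwistData D : helper7530.PointTwistData D`.
-/

set_option autoImplicit false

open TensorProduct Module LinearMap

namespace Fermat.Agent.S25.helper1035

open Fermat.Agent.S25.helper1705 Fermat.Agent.S25.helper2945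

universe u

section Package

variable {k : Type u} [Field k] [IsAlgClosed k]

/-- **The point twists on `GlueDatum`** (leaf U3-PT): `tw₀ G p = G(−p)`, `tw₁ G q = G(−q)`, as
the reference twist by the divisor data of the points. -/
noncomputable def gluePointTwist (D : CurveDatum k) : helper7530.GluePointTwist D where
  tw₀ G p := twist G (pt₀ p)
  tw₁ G q := twist G (pt₁ q)
  tw₀_congr p h := equiv_twist h (pt₀ p)
  bc_tw₀ φ G p := twist_baseChange_pt₀ G p φ
  bc_tw₁ φ G q := twist_baseChange_pt₁ G q φ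
  tw_same G r := by rw [pt₀_eq_pt₁]; exact GlueDatum.Equiv.refl _

@[simp] theorem gluePointTwist_tw₀ (D : CurveDatum k) {B : Type u} [CommRing B] [Algebra k B]
    (G : GlueDatum D B) (p : D.R₀ →ₐ[k] B) : (gluePointTwist D).tw₀ G p = twist G (pt₀ p) := rfl

@[simp] theorem gluePointTwist_tw₁ (D : CurveDatum k) {B : Type u} [CommRing B] [Algebra k B]
    (G : GlueDatum D B) (q : D.R₁ →ₐ[k] B) : (gluePointTwist D).tw₁ G q = twist G (pt₁ q) := rfl

end Package

/-! ## The Euler characteristic of divisor and point twists over a field -/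

section ChiChart0

variable {k : Type u} [Field k] [IsAlgClosed k] {D : CurveDatum k}

variable {K : Type u} [Field K] [Algebra k K]

/-- **`χ` of the twist by a divisor of the first chart**, over a field:
`χ(G(−D_I)) = χ(G) − dim_K (A₀ ⧸ I)`. -/
theorem chi_twist_ofIdeal₀ (G : GlueDatum D K) (I : Ideal (D.A₀ K))
    [Module.Finite K (D.A₀ K ⧸ I)] [Module.Projective K (D.A₀ K ⧸ I)] :
    (twist G (ofIdeal₀ I)).chi = G.chi - (finrank K (D.A₀ K ⧸ I) : ℤ) := by
  have := helper239.finite_H0_field G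
  have := helper239.finite_H1_field G
  exact (helper4927.chi_of_mor_ideal (inclMor G (ofIdeal₀ I)) (incl₀_injective _ _)
    (incl₁_injective _ _) (inclMor_ofIdeal₀_surjModY G I) I (range_incl₀ _ _)).2.2

/-- **The twist by a point of the first chart drops `χ` by one.** -/
theorem chi_twist_pt₀ (G : GlueDatum D K) (p : D.R₀ →ₐ[k] K) :
    (twist G (pt₀ p)).chi = G.chi - 1 := by
  have h := chi_twist_ofIdeal₀ G (helper6871.pointIdeal₀ D p)
  have h1 : finrank K (D.A₀ K ⧸ helper6871.pointIdeal₀ D p) = 1 := by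
    rw [(helper6871.quotEquiv₀ D p).toLinearEquiv.finrank_eq, finrank_self]
  rw [h1] at h
  exact_mod_cast h

end ChiChart0

section ChiChart1

variable {k : Type u} [Field k] {D : CurveDatum k} {K : Type u} [Field K] [Algebra k K]

/-- A finite subscheme of the chart at infinity has a finite trace on the overlap (localizing an
Artinian ring is a quotient map). -/
theorem finite_quot₀₁_of_finite₁ (J : Ideal (D.A₁ K)) [Module.Finite K (D.A₁ K ⧸ J)] :
    Module.Finite K (D.A₀₁ K ⧸ J.map (algebraMap (D.A₁ K) (D.A₀₁ K))) := by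
  have hart : IsArtinianRing (D.A₁ K ⧸ J) := IsArtinianRing.of_finite K (D.A₁ K ⧸ J)
  have hsurj : Function.Surjective
      (algebraMap (D.A₁ K ⧸ J) (D.A₀₁ K ⧸ J.map (algebraMap (D.A₁ K) (D.A₀₁ K)))) :=
    IsArtinianRing.localization_surjective
      (Algebra.algebraMapSubmonoid (D.A₁ K ⧸ J) (Submonoid.powers (yB D K))) _
  let g : (D.A₁ K ⧸ J) →ₗ[K] (D.A₀₁ K ⧸ J.map (algebraMap (D.A₁ K) (D.A₀₁ K))) :=
    { toFun := algebraMap (D.A₁ K ⧸ J) (D.A₀₁ K ⧸ J.map (algebraMap (D.A₁ K) (D.A₀₁ K)))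
      map_add' := map_add _
      map_smul' := fun b q => by
        induction q using Submodule.Quotient.induction_on with
        | H a =>
          change Ideal.Quotient.mk (J.map (algebraMap (D.A₁ K) (D.A₀₁ K)))
              (algebraMap (D.A₁ K) (D.A₀₁ K) (b • a)) =
            b • Ideal.Quotient.mk (J.map (algebraMap (D.A₁ K) (D.A₀₁ K)))
              (algebraMap (D.A₁ K) (D.A₀₁ K) a)
          rw [Algebra.smul_def, map_mul, ← IsScalarTower.algebraMap_apply K (D.A₁ K) (D.A₀₁ K),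
            ← Algebra.smul_def]
          rfl }
  exact Module.Finite.of_surjective g hsurj

variable [IsAlgClosed k]

/-- **`χ` of the twist by a divisor of the chart at infinity**, over a field, in terms of a
divisor datum whose first-chart ideal is `atInfty` of its ideal at infinity:
`χ(G(−E)) = χ(G) − dim_K (A₁ ⧸ I₁)`. -/
theorem chi_twist_of_atInfty₁ (G : GlueDatum D K) (E : DivDatum D K)
    [Module.Finite K (D.A₁ K ⧸ E.I₁)]
    (hE : E.I₀ = helper622.atInfty (D.A₀ K) (D.A₀₁ K) E.I₁) :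
    (twist G E).chi = G.chi - (finrank K (D.A₁ K ⧸ E.I₁) : ℤ) := by
  have hI₀₁ : E.I₁.map (algebraMap (D.A₁ K) (D.A₀₁ K)) = E.I₀₁ := E.map₁
  obtain ⟨hfin₁, hrk₁⟩ := helper4927.finrank_quotient_smul_top (K := K) (D.A₁ K) G.M₁ E.I₁
  have hfinA : Module.Finite K (D.A₀₁ K ⧸ E.I₀₁) := by
    rw [← hI₀₁]; exact finite_quot₀₁_of_finite₁ E.I₁
  have hinv := invertible₀₁ G
  obtain ⟨hfin₀₁, -⟩ := helper4927.finrank_quotient_smul_top (K := K) (D.A₀₁ K) G.M₀₁ E.I₀₁
  have hyx : algebraMap (D.A₁ K) (D.A₀₁ K) (yB D K) * algebraMap (D.A₀ K) (D.A₀₁ K) (xB D K) = 1 :=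
    (mul_comm _ _).trans (xB_mul_yB D K)
  obtain ⟨u, hu, hu1⟩ := helper622.exists_mem_atInfty_sub_one_mem (B := K) (A₁ := D.A₀ K)
    (A₀₁ := D.A₀₁ K) (yB D K) (xB D K) hyx E.I₁
  have hiff : ∀ m : G.M₀, m ∈ (E.I₀ • ⊤ : Submodule (D.A₀ K) G.M₀) ↔
      G.ρ₀ m ∈ (E.I₀₁ • ⊤ : Submodule (D.A₀₁ K) G.M₀₁) := by
    intro m
    rw [hE, ← hI₀₁]
    exact helper622.mem_atInfty_smul_top_iff (xB D K) E.I₁ G.ρ₀ u hu hu1 m
  have hex : ∀ z : G.M₀₁, ∃ m : G.M₀,
      z - G.ρ₀ m ∈ (E.I₀₁ • ⊤ : Submodule (D.A₀₁ K) G.M₀₁) := by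
    intro z
    rw [← hI₀₁]
    exact helper622.exists_sub_mem_map_smul_top (B := K) (yB D K) (xB D K) hyx E.I₁ G.ρ₀ z
  let N₀ : Submodule K G.M₀ := (E.I₀ • ⊤ : Submodule (D.A₀ K) G.M₀).restrictScalars K
  let N₀₁ : Submodule K G.M₀₁ := (E.I₀₁ • ⊤ : Submodule (D.A₀₁ K) G.M₀₁).restrictScalars K
  let f : (G.M₀ ⧸ N₀) →ₗ[K] (G.M₀₁ ⧸ N₀₁) :=
    Submodule.mapQ N₀ N₀₁ G.ρ₀B (fun m hm => (hiff m).mp hm)
  have hfm : ∀ m : G.M₀, f (Submodule.Quotient.mk m) = Submodule.Quotient.mk (G.ρ₀ m) :=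
    fun _ => rfl
  have hf : Function.Bijective f := by
    constructor
    · rw [← LinearMap.ker_eq_bot, LinearMap.ker_eq_bot']
      intro q hq
      induction q using Submodule.Quotient.induction_on with
      | H m =>
        rw [hfm, Submodule.Quotient.mk_eq_zero] at hq
        exact (Submodule.Quotient.mk_eq_zero _).mpr ((hiff m).mpr hq)
    · intro q
      induction q using Submodule.Quotient.induction_on with
      | H z =>
        obtain ⟨m, hm⟩ := hex z
        refine ⟨Submodule.Quotient.mk m, ?_⟩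
        rw [hfm, eq_comm, Submodule.Quotient.eq]
        exact hm
  let e : (G.M₀ ⧸ (E.I₀ • ⊤ : Submodule (D.A₀ K) G.M₀)) ≃ₗ[K]
      (G.M₀₁ ⧸ (E.I₀₁ • ⊤ : Submodule (D.A₀₁ K) G.M₀₁)) :=
    (Submodule.Quotient.restrictScalarsEquiv K (E.I₀ • ⊤ : Submodule (D.A₀ K) G.M₀)).symm ≪≫ₗ
      LinearEquiv.ofBijective f hf ≪≫ₗ
      Submodule.Quotient.restrictScalarsEquiv K (E.I₀₁ • ⊤ : Submodule (D.A₀₁ K) G.M₀₁)
  have hfin₀ : FiniteDimensional K (G.M₀ ⧸ (E.I₀ • ⊤ : Submodule (D.A₀ K) G.M₀)) :=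
    Module.Finite.equiv e.symm
  obtain ⟨-, hchi⟩ := chi_twist G E ⟨helper239.finite_H0_field G, helper239.finite_H1_field G⟩
  rw [e.finrank_eq, hrk₁] at hchi
  linarith

/-- **`χ` of the twist by a divisor of the chart at infinity**, over a field:
`χ(G(−D_J)) = χ(G) − dim_K (A₁ ⧸ J)`. -/
theorem chi_twist_ofIdeal₁ (G : GlueDatum D K) (J : Ideal (D.A₁ K))
    [Module.Finite K (D.A₁ K ⧸ J)] [Module.Projective K (D.A₁ K ⧸ J)] :
    (twist G (ofIdeal₁ J)).chi = G.chi - (finrank K (D.A₁ K ⧸ J) : ℤ) :=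
  haveI : Module.Finite K (D.A₁ K ⧸ (ofIdeal₁ J).I₁) := ‹Module.Finite K (D.A₁ K ⧸ J)›
  chi_twist_of_atInfty₁ G (ofIdeal₁ J) rfl

/-- **The twist by a point of the chart at infinity drops `χ` by one.** -/
theorem chi_twist_pt₁ (G : GlueDatum D K) (q : D.R₁ →ₐ[k] K) :
    (twist G (pt₁ q)).chi = G.chi - 1 := by
  have h := chi_twist_ofIdeal₁ G (helper6871.pointIdeal₁ D q)
  have h1 : finrank K (D.A₁ K ⧸ helper6871.pointIdeal₁ D q) = 1 := by
    rw [(helper6871.quotEquiv₁ D q).toLinearEquiv.finrank_eq, finrank_self]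
  rw [h1] at h
  exact_mod_cast h

end ChiChart1

/-! ## The packaged values -/

section Values

variable {k : Type u} [Field k] [IsAlgClosed k]

/-- **The point twists drop the Euler characteristic by one** over every field. -/
theorem chiDrop (D : CurveDatum k) : (gluePointTwist D).ChiDrop where
  chi_tw₀ G p := chi_twist_pt₀ G p
  chi_tw₁ G q := chi_twist_pt₁ G q

/-- **Leaf U3-PT**: the abstract point-twist interface of the valuative existence argument,
instantiated with the reference twist. -/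
noncomputable def pointTwistData (D : CurveDatum k) : helper7530.PointTwistData.{u, u + 1} D :=
  (gluePointTwist D).toData (chiDrop D)

end Values

end Fermat.Agent.S25.helper1035
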