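import Fermat.Agent.S25.helper1035_PointTwistPkg
import Fermat.Agent.S25.helper622_PointTwist

/-!
# S25, leaf U3-PT (helper1035): bridge between the two twists, and the `χ`-drop leaf (L1)

The reference twist `helper1035.twist G E` (divisor data) and `helper6121.GlueDatum.twist`
(pairs of ideals; the point layer `helper622.tw₀ / tw₁ / twist₀ / twist₁` is built on it) are the
same triple of submodules.  This file records the `GlueDatum.Equiv` between them, its point and
list versions, and deduces the `χ`-drop for `helper622.pointTwist D`.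
-/

set_option autoImplicit false

open TensorProduct Module LinearMap

namespace Fermat.Agent.S25.helper1035

open Fermat.Agent.S25.helper1705 Fermat.Agent.S25.helper2945

universe u

section Bridge

variable {k : Type u} [Field k] {D : CurveDatum k} {B : Type u} [CommRing B] [Algebra k B]

/-- **Bridge.** The twist by a divisor datum is the pair-of-ideals twist of `helper6121`. -/
theorem twist_equiv_twist6121 (G : GlueDatum D B) (E : DivDatum D B) (I₀ : Ideal (D.A₀ B))
    (I₁ : Ideal (D.A₁ B)) [Module.Invertible (D.A₀ B) I₀] [Module.Invertible (D.A₁ B) I₁]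
    (h : I₀.map (algebraMap (D.A₀ B) (D.A₀₁ B)) = I₁.map (algebraMap (D.A₁ B) (D.A₀₁ B)))
    (h₀ : E.I₀ = I₀) (h₁ : E.I₁ = I₁) :
    (twist G E).Equiv (helper6121.GlueDatum.twist G I₀ I₁ h) := by
  have hc₀ : ∀ m, incl₀₁ G E ((twist G E).ρ₀ m) = G.ρ₀ (incl₀ G E m) :=
    fun m => (ρ₀_incl₀ G E m).symm
  have hc₁ : ∀ m, incl₀₁ G E ((twist G E).ρ₁ m) = G.ρ₁ (incl₁ G E m) :=
    fun m => (ρ₁_incl₁ G E m).symm
  have i₀ := helper6121.invertible_range (incl₀ G E) (incl₀_injective G E)
  have i₁ := helper6121.invertible_range (incl₁ G E) (incl₁_injective G E)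
  have i₀' : Module.Invertible (D.A₀ B) ↥(I₀ • ⊤ : Submodule (D.A₀ B) G.M₀) := inferInstance
  have i₁' : Module.Invertible (D.A₁ B) ↥(I₁ • ⊤ : Submodule (D.A₁ B) G.M₁) := inferInstance
  refine (helper6121.GlueDatum.equiv_ofSubmodules_range (incl₀ G E) (incl₁ G E) (incl₀₁ G E)
    hc₀ hc₁ (incl₀_injective G E) (incl₁_injective G E)
    (helper6121.GlueDatum.span₀_range_eq_span₁_range _ _ _ hc₀ hc₁)).trans ?_
  exact helper6121.GlueDatum.ofSubmodules_equiv_of_eq G _ _ _ _ _ _
    ((range_incl₀ G E).trans (by rw [h₀])) ((range_incl₁ G E).trans (by rw [h₁]))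

end Bridge

section BridgePoint

variable {k : Type u} [Field k] [IsAlgClosed k] {D : CurveDatum k} {B : Type u} [CommRing B]
  [Algebra k B]

/-- The twist by the chart-`0` divisor datum is `helper622.twist₀`. -/
theorem twist_ofIdeal₀_equiv (G : GlueDatum D B) (I : Ideal (D.A₀ B))
    [Module.Finite B (D.A₀ B ⧸ I)] [Module.Projective B (D.A₀ B ⧸ I)]
    [Module.Invertible (D.A₀ B) I] : (twist G (ofIdeal₀ I)).Equiv (helper622.twist₀ G I) :=
  haveI := helper622.invertible_inf₀ I
  twist_equiv_twist6121 G (ofIdeal₀ I) I (helper622.inf₀ I) (helper622.map_inf₀ I) rfl rfl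

/-- The twist by the chart-`1` divisor datum is `helper622.twist₁`. -/
theorem twist_ofIdeal₁_equiv (G : GlueDatum D B) (J : Ideal (D.A₁ B))
    [Module.Finite B (D.A₁ B ⧸ J)] [Module.Projective B (D.A₁ B ⧸ J)]
    [Module.Invertible (D.A₁ B) J] : (twist G (ofIdeal₁ J)).Equiv (helper622.twist₁ G J) :=
  haveI := helper622.invertible_inf₁ J
  twist_equiv_twist6121 G (ofIdeal₁ J) (helper622.inf₁ J) J (helper622.map_inf₁ J) rfl rfl

/-- **Bridge at a point of the first chart**: `twist G (pt₀ p) ≈ helper622.tw₀ G p`. -/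
theorem twist_pt₀_equiv_tw₀ (G : GlueDatum D B) (p : D.R₀ →ₐ[k] B) :
    (twist G (pt₀ p)).Equiv (helper622.tw₀ G p) :=
  haveI := helper622.invertible_pointIdeal₀ p
  twist_ofIdeal₀_equiv G (helper6871.pointIdeal₀ D p)

/-- **Bridge at a point of the chart at infinity**: `twist G (pt₁ q) ≈ helper622.tw₁ G q`. -/
theorem twist_pt₁_equiv_tw₁ (G : GlueDatum D B) (q : D.R₁ →ₐ[k] B) :
    (twist G (pt₁ q)).Equiv (helper622.tw₁ G q) :=
  haveI := helper622.invertible_pointIdeal₁ q
  twist_ofIdeal₁_equiv G (helper6871.pointIdeal₁ D q)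

/-- **Bridge for iterated point twists**: the two point-twist structures agree up to `Equiv`
on every list of points. -/
theorem twList_equiv_twList (G : GlueDatum D B) (L : List (D.R₀ →ₐ[k] B)) :
    ((gluePointTwist D).twList G L).Equiv ((helper622.pointTwist D).twList G L) := by
  induction L generalizing G with
  | nil => exact GlueDatum.Equiv.refl G
  | cons p L ih =>
    exact (ih ((gluePointTwist D).tw₀ G p)).trans
      ((helper622.pointTwist D).twList_congr L (twist_pt₀_equiv_tw₀ G p))

/-- The iterated reference twist, as a `foldl`, is the iterated `helper622.tw₀`. -/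
theorem foldl_twist_pt₀_equiv (G : GlueDatum D B) (L : List (D.R₀ →ₐ[k] B)) :
    (L.foldl (fun N p => twist N (pt₀ p)) G).Equiv ((helper622.pointTwist D).twList G L) :=
  twList_equiv_twList G L

end BridgePoint

section ChiDrop

variable {k : Type u} [Field k] [IsAlgClosed k] {D : CurveDatum k}
  {K : Type u} [Field K] [Algebra k K]

/-- `χ`-drop for `helper622.tw₀` (from the reference twist; also `helper622.chi_tw₀`). -/
theorem chi_tw₀_622 (G : GlueDatum D K) (p : D.R₀ →ₐ[k] K) :
    (helper622.tw₀ G p).chi = G.chi - 1 := by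
  rw [← helper743.equiv_chi_eq (twist_pt₀_equiv_tw₀ G p)]
  exact chi_twist_pt₀ G p

/-- `χ`-drop for `helper622.tw₁`: the twist by a point of the chart at infinity. -/
theorem chi_tw₁_622 (G : GlueDatum D K) (q : D.R₁ →ₐ[k] K) :
    (helper622.tw₁ G q).chi = G.chi - 1 := by
  rw [← helper743.equiv_chi_eq (twist_pt₁_equiv_tw₁ G q)]
  exact chi_twist_pt₁ G q

/-- `χ` of `helper622.twist₁` over a field. -/
theorem chi_twist₁_622 (G : GlueDatum D K) (J : Ideal (D.A₁ K)) [Module.Finite K (D.A₁ K ⧸ J)]
    [Module.Invertible (D.A₁ K) J] :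
    (helper622.twist₁ G J).chi = G.chi - (finrank K (D.A₁ K ⧸ J) : ℤ) := by
  rw [← helper743.equiv_chi_eq (twist_ofIdeal₁_equiv G J)]
  exact chi_twist_ofIdeal₁ G J

end ChiDrop

/-- **Leaf (L1)**: the point twists of `helper622.pointTwist D` drop the Euler characteristic by
one over every field. -/
theorem chiDrop_pointTwist {k : Type u} [Field k] [IsAlgClosed k] (D : CurveDatum k) :
    (helper622.pointTwist D).ChiDrop where
  chi_tw₀ G p := chi_tw₀_622 G p
  chi_tw₁ G q := chi_tw₁_622 G q

/-- **Leaf (L1)** in closed form (the body of `helper505.Stmt_ChiDrop`). -/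
theorem stmt_ChiDrop : ∀ (k : Type u) [Field k] [IsAlgClosed k] (D : CurveDatum k),
    (helper622.pointTwist D).ChiDrop :=
  fun _ _ _ D => chiDrop_pointTwist D

end Fermat.Agent.S25.helper1035
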