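import Mathlib

/-!
# S25, leaf U10: the Euler characteristic is locally constant (helper1103)

Abstract index theorem in "complex form".

* `finrank_inf_sub_finrank_quotient_sup` : lattice index lemma over a field.
* `index_comp` : for `ι` injective and `δ` surjective over a field,
  `dim ker (δ ∘ ι) - dim coker (δ ∘ ι) = dim ker δ - dim coker ι`.
* `index_baseChange` : the universal two term complex.  Over any commutative ring `B`, if
  `ι : E → E⁺` is injective with finite projective cokernel and `d⁺ : E⁺ → F` is surjective with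
  finite projective kernel and `F` is flat, then for every field `L` over `B` the base change of
  `d⁺ ∘ ι` has finite dimensional kernel and cokernel, and its index is
  `rankAtStalk (ker d⁺) p - rankAtStalk (coker ι) p`, where `p` is the point of `Spec B` under `L`.
* `index_of_isBaseChange` : the same for an arbitrary model of the base change.
* `isLocallyConstant_twoTermIndex` : this integer is a locally constant function of `p`.
* `index_twoChart`, `index_twoChart_of_isBaseChange` : the instance for a two-chart datum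
  `(M0, M1, M01, r0, r1)` and a twist `(r1', T)` with `r1' ∘ T = r1`.
* `polar_finite_projective` : `M ⧸ t M` is finite projective over `B` when `M` is finite
  projective over `A` and `A ⧸ (t)` is finite projective over `B`.
-/

set_option autoImplicit false

open scoped TensorProduct DirectSum

namespace Fermat.Agent.S25.helper1103

section FieldIndex

variable {L : Type*} [Field L] {V V' W : Type*} [AddCommGroup V] [Module L V]
  [AddCommGroup V'] [Module L V'] [AddCommGroup W] [Module L W]

/-- Lattice index lemma: for subspaces `U`, `K` of `V'` with `K` and `V' ⧸ U` finite dimensional,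
`dim (U ⊓ K) - dim (V' ⧸ (U ⊔ K)) = dim K - dim (V' ⧸ U)`. -/
theorem finrank_inf_sub_finrank_quotient_sup (U K : Submodule L V') [FiniteDimensional L K]
    [FiniteDimensional L (V' ⧸ U)] :
    ((Module.finrank L (U ⊓ K : Submodule L V') : ℤ) - Module.finrank L (V' ⧸ (U ⊔ K))
      = Module.finrank L K - Module.finrank L (V' ⧸ U)) := by
  set g : K →ₗ[L] V' ⧸ U := U.mkQ ∘ₗ K.subtype with hg
  have h1 := LinearMap.finrank_range_add_finrank_ker g
  have hker : LinearMap.ker g = Submodule.comap K.subtype U := by
    rw [hg, LinearMap.ker_comp, Submodule.ker_mkQ]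
  have h2 : Module.finrank L (LinearMap.ker g) = Module.finrank L (U ⊓ K : Submodule L V') := by
    rw [hker, ← Submodule.finrank_map_subtype_eq K (Submodule.comap K.subtype U),
      Submodule.map_comap_subtype, inf_comm]
  have hrange : LinearMap.range g = Submodule.map U.mkQ K := by
    rw [hg, LinearMap.range_comp, Submodule.range_subtype]
  have h3 := Submodule.finrank_quotient_add_finrank (LinearMap.range g)
  have h4 : Module.finrank L ((V' ⧸ U) ⧸ LinearMap.range g) =
      Module.finrank L (V' ⧸ (U ⊔ K)) := by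
    rw [hrange]
    exact (Submodule.quotientQuotientEquivQuotientSup U K).finrank_eq
  omega

/-- Index of a composite `δ ∘ ι` with `ι` injective and `δ` surjective over a field:
kernel and cokernel are finite dimensional as soon as `ker δ` and `coker ι` are, and
`dim ker (δ ∘ ι) - dim coker (δ ∘ ι) = dim ker δ - dim coker ι`. -/
theorem index_comp (ι : V →ₗ[L] V') (δ : V' →ₗ[L] W) (hι : Function.Injective ι)
    (hδ : Function.Surjective δ) [FiniteDimensional L (LinearMap.ker δ)]
    [FiniteDimensional L (V' ⧸ LinearMap.range ι)] :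
    FiniteDimensional L (LinearMap.ker (δ ∘ₗ ι)) ∧
    FiniteDimensional L (W ⧸ LinearMap.range (δ ∘ₗ ι)) ∧
    ((Module.finrank L (LinearMap.ker (δ ∘ₗ ι)) : ℤ) -
        Module.finrank L (W ⧸ LinearMap.range (δ ∘ₗ ι))
      = Module.finrank L (LinearMap.ker δ) - Module.finrank L (V' ⧸ LinearMap.range ι)) := by
  set U := LinearMap.range ι with hU
  set K := LinearMap.ker δ with hK
  -- the kernel
  have hkerc : LinearMap.ker (δ ∘ₗ ι) = Submodule.comap ι K := by
    rw [LinearMap.ker_comp]
  let e1 : LinearMap.ker (δ ∘ₗ ι) ≃ₗ[L] (U ⊓ K : Submodule L V') :=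
    (LinearEquiv.ofEq _ _ hkerc) ≪≫ₗ
      (Submodule.equivMapOfInjective ι hι (Submodule.comap ι K)) ≪≫ₗ
      (LinearEquiv.ofEq _ _ (Submodule.map_comap_eq ι K))
  -- the cokernel
  have hrange : LinearMap.range (δ ∘ₗ ι) = Submodule.map δ U := by
    rw [LinearMap.range_comp]
  set q : V' →ₗ[L] W ⧸ LinearMap.range (δ ∘ₗ ι) := (LinearMap.range (δ ∘ₗ ι)).mkQ ∘ₗ δ with hq
  have hqs : Function.Surjective q := (Submodule.mkQ_surjective _).comp hδ
  have hqk : LinearMap.ker q = U ⊔ K := by
    rw [hq, LinearMap.ker_comp, Submodule.ker_mkQ, hrange, Submodule.comap_map_eq]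
  let e2 : (V' ⧸ (U ⊔ K)) ≃ₗ[L] W ⧸ LinearMap.range (δ ∘ₗ ι) :=
    (Submodule.quotEquivOfEq _ _ hqk.symm) ≪≫ₗ q.quotKerEquivOfSurjective hqs
  have hfin1 : FiniteDimensional L (U ⊓ K : Submodule L V') :=
    Submodule.finiteDimensional_of_le (inf_le_right : U ⊓ K ≤ K)
  have hfin2 : FiniteDimensional L (V' ⧸ (U ⊔ K)) :=
    Module.Finite.of_surjective (Submodule.mapQ U (U ⊔ K) LinearMap.id (by simp))
      (by
        intro x
        obtain ⟨v, rfl⟩ := Submodule.mkQ_surjective _ x
        exact ⟨U.mkQ v, by simp⟩)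
  refine ⟨Module.Finite.equiv e1.symm, Module.Finite.equiv e2, ?_⟩
  rw [e1.finrank_eq, ← e2.finrank_eq]
  exact finrank_inf_sub_finrank_quotient_sup U K

/-- Transport of kernel, cokernel and index along a commutative square of linear equivalences. -/
theorem index_congr {V₂ W₂ : Type*} [AddCommGroup V₂] [Module L V₂] [AddCommGroup W₂]
    [Module L W₂] (g : V →ₗ[L] W) (g₂ : V₂ →ₗ[L] W₂) (eV : V ≃ₗ[L] V₂) (eW : W ≃ₗ[L] W₂)
    (h : ∀ v, g₂ (eV v) = eW (g v)) :
    Nonempty (LinearMap.ker g ≃ₗ[L] LinearMap.ker g₂) ∧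
    Nonempty ((W ⧸ LinearMap.range g) ≃ₗ[L] (W₂ ⧸ LinearMap.range g₂)) := by
  have h' : g₂ ∘ₗ eV.toLinearMap = eW.toLinearMap ∘ₗ g := LinearMap.ext h
  have hk : Submodule.map eV.toLinearMap (LinearMap.ker g) = LinearMap.ker g₂ := by
    ext x
    constructor
    · rintro ⟨v, hv, rfl⟩
      have hv' : g v = 0 := hv
      change g₂ (eV v) = 0
      rw [h, hv', map_zero]
    · intro hx
      have hx' : g₂ x = 0 := hx
      refine ⟨eV.symm x, ?_, by simp⟩
      change g (eV.symm x) = 0
      apply eW.injective
      rw [← h, map_zero]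
      simpa using hx'
  have hr : Submodule.map eW.toLinearMap (LinearMap.range g) = LinearMap.range g₂ := by
    rw [← LinearMap.range_comp, ← h', LinearMap.range_comp, LinearEquiv.range,
      Submodule.map_top]
  exact ⟨⟨(eV.submoduleMap (LinearMap.ker g)) ≪≫ₗ LinearEquiv.ofEq _ _ hk⟩,
    ⟨Submodule.Quotient.equiv _ _ eW hr⟩⟩

end FieldIndex

section BaseChange

variable {B : Type*} [CommRing B] {E E' F : Type*} [AddCommGroup E] [Module B E]
  [AddCommGroup E'] [Module B E'] [AddCommGroup F] [Module B F]

/-- The point of `Spec B` lying under a field valued point `B → L`. -/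
noncomputable def pointOf (B : Type*) [CommRing B] (L : Type*) [Field L] [Algebra B L] :
    PrimeSpectrum B :=
  ⟨RingHom.ker (algebraMap B L), RingHom.ker_isPrime _⟩

theorem pointOf_asIdeal (B : Type*) [CommRing B] (L : Type*) [Field L] [Algebra B L] :
    (pointOf B L).asIdeal = RingHom.ker (algebraMap B L) := rfl

/-- The fibre dimension of a finite flat module at a field valued point is its rank at the
corresponding point of the spectrum. -/
theorem finrank_baseChange_eq_rankAtStalk (M : Type*) [AddCommGroup M] [Module B M]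
    [Module.Finite B M] [Module.Flat B M] (L : Type*) [Field L] [Algebra B L] :
    Module.finrank L (L ⊗[B] M) = Module.rankAtStalk M (pointOf B L) := by
  have h1 := Module.rankAtStalk_baseChange (R := B) (M := M) (S := L) ⟨⊥, Ideal.isPrime_bot⟩
  have h2 := congrFun (Module.rankAtStalk_eq_finrank_of_free (R := L) (M := L ⊗[B] M))
    ⟨⊥, Ideal.isPrime_bot⟩
  have h3 : Module.rankAtStalk (L ⊗[B] M) ⟨⊥, Ideal.isPrime_bot⟩ =
      Module.finrank L (L ⊗[B] M) := h2
  rw [← h3, h1]
  rfl

/-- **Universal two term complex.** Let `ι : E → E'` be injective with finite flat cokernel and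
`d : E' → F` surjective with finite flat kernel, `F` flat.  For every field `L` over `B`, the base
change of the composite `d ∘ ι` has finite dimensional kernel and cokernel and its index is the
difference of the ranks of `ker d` and `coker ι` at the point of `Spec B` under `L`. -/
theorem index_baseChange (ι : E →ₗ[B] E') (d : E' →ₗ[B] F) (hι : Function.Injective ι)
    (hd : Function.Surjective d) [Module.Flat B F]
    [Module.Finite B (LinearMap.ker d)] [Module.Flat B (LinearMap.ker d)]
    [Module.Finite B (E' ⧸ LinearMap.range ι)] [Module.Flat B (E' ⧸ LinearMap.range ι)]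
    (L : Type*) [Field L] [Algebra B L] :
    FiniteDimensional L (LinearMap.ker ((d ∘ₗ ι).baseChange L)) ∧
    FiniteDimensional L ((L ⊗[B] F) ⧸ LinearMap.range ((d ∘ₗ ι).baseChange L)) ∧
    ((Module.finrank L (LinearMap.ker ((d ∘ₗ ι).baseChange L)) : ℤ) -
        Module.finrank L ((L ⊗[B] F) ⧸ LinearMap.range ((d ∘ₗ ι).baseChange L))
      = Module.rankAtStalk (LinearMap.ker d) (pointOf B L) -
        Module.rankAtStalk (E' ⧸ LinearMap.range ι) (pointOf B L)) := by
  set ιL := ι.baseChange L with hιL
  set dL := d.baseChange L with hdL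
  have hexι : Function.Exact ι (LinearMap.range ι).mkQ := LinearMap.exact_map_mkQ_range ι
  have hexd : Function.Exact (LinearMap.ker d).subtype d := LinearMap.exact_subtype_ker_map d
  -- injectivity and surjectivity survive
  have hinjι : Function.Injective ιL := by
    have := LinearMap.lTensor_injective_of_exact_of_flat (LinearMap.range ι).mkQ
      (Submodule.mkQ_surjective _) ι hι hexι L
    rwa [hιL, LinearMap.baseChange_eq_ltensor]
  have hsurjd : Function.Surjective dL := by
    have := LinearMap.lTensor_surjective L hd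
    rwa [hdL, LinearMap.baseChange_eq_ltensor]
  -- the kernel of `dL`
  set kL := (LinearMap.ker d).subtype.baseChange L with hkL
  have hinjk : Function.Injective kL := by
    have := LinearMap.lTensor_injective_of_exact_of_flat d hd (LinearMap.ker d).subtype
      (LinearMap.ker d).subtype_injective hexd L
    rwa [hkL, LinearMap.baseChange_eq_ltensor]
  have hkerd : LinearMap.range kL = LinearMap.ker dL := by
    ext x
    have := lTensor_exact L hexd hd x
    rw [LinearMap.mem_range, LinearMap.mem_ker, hdL, hkL]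
    simp only [LinearMap.baseChange_eq_ltensor]
    rw [this]
    rfl
  let eK : (L ⊗[B] LinearMap.ker d) ≃ₗ[L] LinearMap.ker dL :=
    LinearEquiv.ofInjective kL hinjk ≪≫ₗ LinearEquiv.ofEq _ _ hkerd
  -- the cokernel of `ιL`
  set qL := (LinearMap.range ι).mkQ.baseChange L with hqL
  have hsurjq : Function.Surjective qL := by
    have := LinearMap.lTensor_surjective L (Submodule.mkQ_surjective (LinearMap.range ι))
    rwa [hqL, LinearMap.baseChange_eq_ltensor]
  have hkerq : LinearMap.range ιL = LinearMap.ker qL := by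
    ext x
    have := lTensor_exact L hexι (Submodule.mkQ_surjective _) x
    rw [LinearMap.mem_range, LinearMap.mem_ker, hqL, hιL]
    simp only [LinearMap.baseChange_eq_ltensor]
    rw [this]
    rfl
  let eQ : ((L ⊗[B] E') ⧸ LinearMap.range ιL) ≃ₗ[L] L ⊗[B] (E' ⧸ LinearMap.range ι) :=
    Submodule.quotEquivOfEq _ _ hkerq ≪≫ₗ qL.quotKerEquivOfSurjective hsurjq
  have : FiniteDimensional L (LinearMap.ker dL) := Module.Finite.equiv eK
  have : FiniteDimensional L ((L ⊗[B] E') ⧸ LinearMap.range ιL) := Module.Finite.equiv eQ.symm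
  have hcomp : (d ∘ₗ ι).baseChange L = dL ∘ₗ ιL := LinearMap.baseChange_comp _ _
  rw [hcomp]
  obtain ⟨h1, h2, h3⟩ := index_comp ιL dL hinjι hsurjd
  refine ⟨h1, h2, ?_⟩
  rw [h3, ← eK.finrank_eq, eQ.finrank_eq, finrank_baseChange_eq_rankAtStalk,
    finrank_baseChange_eq_rankAtStalk]

/-- `index_baseChange` for an arbitrary model of the base change: any `L`-linear map
`dL : EL → FL` together with base change maps `e : E → EL`, `f : F → FL` commuting with the
differentials. -/
theorem index_of_isBaseChange (ι : E →ₗ[B] E') (d : E' →ₗ[B] F) (hι : Function.Injective ι)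
    (hd : Function.Surjective d) [Module.Flat B F]
    [Module.Finite B (LinearMap.ker d)] [Module.Flat B (LinearMap.ker d)]
    [Module.Finite B (E' ⧸ LinearMap.range ι)] [Module.Flat B (E' ⧸ LinearMap.range ι)]
    (L : Type*) [Field L] [Algebra B L] {EL FL : Type*} [AddCommGroup EL] [Module B EL]
    [Module L EL] [IsScalarTower B L EL] [AddCommGroup FL] [Module B FL] [Module L FL]
    [IsScalarTower B L FL] (e : E →ₗ[B] EL) (f : F →ₗ[B] FL) (he : IsBaseChange L e)
    (hf : IsBaseChange L f) (dL : EL →ₗ[L] FL) (hcomm : ∀ v, dL (e v) = f (d (ι v))) :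
    FiniteDimensional L (LinearMap.ker dL) ∧
    FiniteDimensional L (FL ⧸ LinearMap.range dL) ∧
    ((Module.finrank L (LinearMap.ker dL) : ℤ) - Module.finrank L (FL ⧸ LinearMap.range dL)
      = Module.rankAtStalk (LinearMap.ker d) (pointOf B L) -
        Module.rankAtStalk (E' ⧸ LinearMap.range ι) (pointOf B L)) := by
  obtain ⟨h1, h2, h3⟩ := index_baseChange ι d hι hd L
  have hsq : ∀ v, dL (he.equiv v) = hf.equiv (((d ∘ₗ ι).baseChange L) v) := by
    intro v
    induction v using TensorProduct.induction_on with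
    | zero => simp
    | tmul l v =>
      rw [IsBaseChange.equiv_tmul, LinearMap.baseChange_tmul, IsBaseChange.equiv_tmul, map_smul,
        hcomm]
      rfl
    | add x y hx hy => simp only [map_add, hx, hy]
  obtain ⟨⟨e1⟩, ⟨e2⟩⟩ := index_congr ((d ∘ₗ ι).baseChange L) dL he.equiv hf.equiv hsq
  refine ⟨Module.Finite.equiv e1, Module.Finite.equiv e2, ?_⟩
  rw [← e1.finrank_eq, ← e2.finrank_eq]
  exact h3

/-- The index function of the universal two term complex is locally constant on `Spec B`. -/
theorem isLocallyConstant_twoTermIndex (K Q : Type*) [AddCommGroup K] [Module B K]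
    [AddCommGroup Q] [Module B Q] [Module.Finite B K] [Module.Projective B K]
    [Module.Finite B Q] [Module.Projective B Q] :
    IsLocallyConstant (fun p : PrimeSpectrum B =>
      ((Module.rankAtStalk K p : ℤ) - Module.rankAtStalk Q p)) := by
  have : Module.FinitePresentation B K := Module.finitePresentation_of_projective B K
  have : Module.FinitePresentation B Q := Module.finitePresentation_of_projective B Q
  have hK : IsLocallyConstant (Module.rankAtStalk (R := B) K) :=
    Module.isLocallyConstant_rankAtStalk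
  have hQ : IsLocallyConstant (Module.rankAtStalk (R := B) Q) :=
    Module.isLocallyConstant_rankAtStalk
  exact (hK.prodMk hQ).comp (fun x : ℕ × ℕ => ((x.1 : ℤ) - x.2))

end BaseChange


section TwoChart

variable {B : Type*} [CommRing B] {M0 M1 M01 : Type*} [AddCommGroup M0] [Module B M0]
  [AddCommGroup M1] [Module B M1] [AddCommGroup M01] [Module B M01]

/-- The Čech differential `(a, b) ↦ r0 a - r1 b` of a two-chart datum. -/
def cechDiff (r0 : M0 →ₗ[B] M01) (r1 : M1 →ₗ[B] M01) : M0 × M1 →ₗ[B] M01 :=
  r0.coprod (-r1)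

@[simp]
theorem cechDiff_apply (r0 : M0 →ₗ[B] M01) (r1 : M1 →ₗ[B] M01) (p : M0 × M1) :
    cechDiff r0 r1 p = r0 p.1 - r1 p.2 := by
  simp [cechDiff, sub_eq_add_neg]

/-- `(M0 × M1) ⧸ range (id × T) ≃ M1 ⧸ range T`. -/
noncomputable def quotProdMapEquiv (M0 : Type*) [AddCommGroup M0] [Module B M0]
    (T : M1 →ₗ[B] M1) :
    ((M0 × M1) ⧸ LinearMap.range (LinearMap.prodMap (LinearMap.id : M0 →ₗ[B] M0) T)) ≃ₗ[B]
      (M1 ⧸ LinearMap.range T) :=
  let q : M0 × M1 →ₗ[B] M1 ⧸ LinearMap.range T := (LinearMap.range T).mkQ ∘ₗ LinearMap.snd B M0 M1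
  have hq : Function.Surjective q :=
    (Submodule.mkQ_surjective _).comp LinearMap.snd_surjective
  have hk : LinearMap.range (LinearMap.prodMap (LinearMap.id : M0 →ₗ[B] M0) T) =
      LinearMap.ker q := by
    ext ⟨a, b⟩
    simp only [LinearMap.mem_range, LinearMap.prodMap_apply, LinearMap.id_coe, id_eq,
      Prod.mk.injEq, Prod.exists, LinearMap.mem_ker, LinearMap.coe_comp, Function.comp_apply,
      LinearMap.snd_apply, Submodule.mkQ_apply, Submodule.Quotient.mk_eq_zero, q]
    constructor
    · rintro ⟨a', b', -, rfl⟩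
      exact ⟨b', rfl⟩
    · rintro ⟨b', rfl⟩
      exact ⟨a, b', rfl, rfl⟩
  Submodule.quotEquivOfEq _ _ hk ≪≫ₗ q.quotKerEquivOfSurjective hq

/-- **Index of a two-chart datum via a twist.**  `r1'` is the second restriction map of a
twisted datum, `T` the comparison (`r1' ∘ T = r1`, e.g. `T = y ^ m`, `r1' = x ^ m • r1`).  If the
twisted differential is surjective with finite flat kernel, `T` is injective with finite flat
cokernel and `M01` is flat, then the index of the original differential over every field `L`
over `B` is a difference of two ranks at the point of `Spec B` under `L`. -/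
theorem index_twoChart (r0 : M0 →ₗ[B] M01) (r1 r1' : M1 →ₗ[B] M01) (T : M1 →ₗ[B] M1)
    (hT : ∀ b, r1' (T b) = r1 b) (hTinj : Function.Injective T)
    (hsurj : Function.Surjective (cechDiff r0 r1')) [Module.Flat B M01]
    [Module.Finite B (LinearMap.ker (cechDiff r0 r1'))]
    [Module.Flat B (LinearMap.ker (cechDiff r0 r1'))]
    [Module.Finite B (M1 ⧸ LinearMap.range T)] [Module.Flat B (M1 ⧸ LinearMap.range T)]
    (L : Type*) [Field L] [Algebra B L] :
    FiniteDimensional L (LinearMap.ker ((cechDiff r0 r1).baseChange L)) ∧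
    FiniteDimensional L ((L ⊗[B] M01) ⧸ LinearMap.range ((cechDiff r0 r1).baseChange L)) ∧
    ((Module.finrank L (LinearMap.ker ((cechDiff r0 r1).baseChange L)) : ℤ) -
        Module.finrank L ((L ⊗[B] M01) ⧸ LinearMap.range ((cechDiff r0 r1).baseChange L))
      = Module.rankAtStalk (LinearMap.ker (cechDiff r0 r1')) (pointOf B L) -
        Module.rankAtStalk (M1 ⧸ LinearMap.range T) (pointOf B L)) := by
  set ι : M0 × M1 →ₗ[B] M0 × M1 := LinearMap.prodMap LinearMap.id T with hι
  have hιinj : Function.Injective ι := by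
    rintro ⟨a, b⟩ ⟨a', b'⟩ h
    simp only [hι, LinearMap.prodMap_apply, LinearMap.id_coe, id_eq, Prod.mk.injEq] at h
    exact Prod.ext h.1 (hTinj h.2)
  have hcomp : cechDiff r0 r1' ∘ₗ ι = cechDiff r0 r1 := by
    apply LinearMap.ext
    rintro ⟨a, b⟩
    simp [hι, hT]
  have e := quotProdMapEquiv (B := B) M0 T
  have : Module.Finite B ((M0 × M1) ⧸ LinearMap.range ι) := Module.Finite.equiv e.symm
  have : Module.Flat B ((M0 × M1) ⧸ LinearMap.range ι) := Module.Flat.of_linearEquiv e
  have h := index_baseChange ι (cechDiff r0 r1') hιinj hsurj L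
  rw [hcomp, Module.rankAtStalk_eq_of_equiv e] at h
  exact h

/-- The product of two base change maps is a base change map. -/
theorem isBaseChange_prodMap {L : Type*} [CommRing L] [Algebra B L]
    {N0 N1 : Type*} [AddCommGroup N0] [Module B N0] [Module L N0] [IsScalarTower B L N0]
    [AddCommGroup N1] [Module B N1] [Module L N1] [IsScalarTower B L N1]
    {e0 : M0 →ₗ[B] N0} {e1 : M1 →ₗ[B] N1} (h0 : IsBaseChange L e0) (h1 : IsBaseChange L e1) :
    IsBaseChange L (LinearMap.prodMap e0 e1) := by
  refine IsBaseChange.of_equiv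
    ((TensorProduct.prodRight B L L M0 M1) ≪≫ₗ (h0.equiv.prodCongr h1.equiv)) ?_
  rintro ⟨a, b⟩
  simp [IsBaseChange.equiv_tmul]

/-- `index_twoChart` for an arbitrary model of the base-changed datum over the field `L`:
modules `N0`, `N1`, `N01` over `L` with base change maps `e0`, `e1`, `e01` from `M0`, `M1`, `M01`
and `L`-linear restriction maps `s0`, `s1` compatible with `r0`, `r1`. -/
theorem index_twoChart_of_isBaseChange (r0 : M0 →ₗ[B] M01) (r1 r1' : M1 →ₗ[B] M01)
    (T : M1 →ₗ[B] M1) (hT : ∀ b, r1' (T b) = r1 b) (hTinj : Function.Injective T)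
    (hsurj : Function.Surjective (cechDiff r0 r1')) [Module.Flat B M01]
    [Module.Finite B (LinearMap.ker (cechDiff r0 r1'))]
    [Module.Flat B (LinearMap.ker (cechDiff r0 r1'))]
    [Module.Finite B (M1 ⧸ LinearMap.range T)] [Module.Flat B (M1 ⧸ LinearMap.range T)]
    (L : Type*) [Field L] [Algebra B L]
    {N0 N1 N01 : Type*} [AddCommGroup N0] [Module B N0] [Module L N0] [IsScalarTower B L N0]
    [AddCommGroup N1] [Module B N1] [Module L N1] [IsScalarTower B L N1]
    [AddCommGroup N01] [Module B N01] [Module L N01] [IsScalarTower B L N01]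
    (e0 : M0 →ₗ[B] N0) (e1 : M1 →ₗ[B] N1) (e01 : M01 →ₗ[B] N01)
    (h0 : IsBaseChange L e0) (h1 : IsBaseChange L e1) (h01 : IsBaseChange L e01)
    (s0 : N0 →ₗ[L] N01) (s1 : N1 →ₗ[L] N01)
    (hs0 : ∀ a, s0 (e0 a) = e01 (r0 a)) (hs1 : ∀ b, s1 (e1 b) = e01 (r1 b)) :
    FiniteDimensional L (LinearMap.ker (cechDiff s0 s1)) ∧
    FiniteDimensional L (N01 ⧸ LinearMap.range (cechDiff s0 s1)) ∧
    ((Module.finrank L (LinearMap.ker (cechDiff s0 s1)) : ℤ) -
        Module.finrank L (N01 ⧸ LinearMap.range (cechDiff s0 s1))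
      = Module.rankAtStalk (LinearMap.ker (cechDiff r0 r1')) (pointOf B L) -
        Module.rankAtStalk (M1 ⧸ LinearMap.range T) (pointOf B L)) := by
  set ι : M0 × M1 →ₗ[B] M0 × M1 := LinearMap.prodMap LinearMap.id T with hι
  have hιinj : Function.Injective ι := by
    rintro ⟨a, b⟩ ⟨a', b'⟩ h
    simp only [hι, LinearMap.prodMap_apply, LinearMap.id_coe, id_eq, Prod.mk.injEq] at h
    exact Prod.ext h.1 (hTinj h.2)
  have e := quotProdMapEquiv (B := B) M0 T
  have : Module.Finite B ((M0 × M1) ⧸ LinearMap.range ι) := Module.Finite.equiv e.symm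
  have : Module.Flat B ((M0 × M1) ⧸ LinearMap.range ι) := Module.Flat.of_linearEquiv e
  have h := index_of_isBaseChange ι (cechDiff r0 r1') hιinj hsurj L
    (LinearMap.prodMap e0 e1) e01 (isBaseChange_prodMap h0 h1) h01 (cechDiff s0 s1) (by
      rintro ⟨a, b⟩
      simp [hι, hT, hs0, hs1])
  rw [Module.rankAtStalk_eq_of_equiv e] at h
  exact h

end TwoChart

section Polar

/-- Multiplication by `t : A` on an `A`-module, as a `B`-linear endomorphism. -/
noncomputable def smulEnd (B : Type*) {A : Type*} (M : Type*) [CommRing B] [CommRing A]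
    [Algebra B A] [AddCommGroup M] [Module A M] [Module B M] [IsScalarTower B A M] (t : A) :
    M →ₗ[B] M :=
  (LinearMap.lsmul A M t).restrictScalars B

variable {B A M : Type*} [CommRing B] [CommRing A] [Algebra B A] [AddCommGroup M] [Module A M]
  [Module B M] [IsScalarTower B A M]

@[simp] theorem smulEnd_apply (t : A) (m : M) : smulEnd B M t m = t • m := rfl

theorem projective_pi_fin {P : Type*} [AddCommGroup P] [Module B P] [Module.Projective B P]
    (n : ℕ) : Module.Projective B (Fin n → P) :=
  Module.Projective.of_equiv' (DirectSum.linearEquivFunOnFintype B (Fin n) (fun _ => P))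

/-- **Polar part.** If `M` is a finite projective `A`-module and `A ⧸ (t)` is finite projective
over `B`, then `M ⧸ t M` is finite projective over `B`. -/
theorem polar_finite_projective (t : A) [Module.Finite A M] [Module.Projective A M]
    [Module.Finite B (A ⧸ Ideal.span {t})] [Module.Projective B (A ⧸ Ideal.span {t})] :
    Module.Finite B (M ⧸ LinearMap.range (smulEnd B M t)) ∧
      Module.Projective B (M ⧸ LinearMap.range (smulEnd B M t)) := by
  classical
  obtain ⟨n, f, g, -, -, hfg⟩ := Module.Finite.exists_comp_eq_id_of_projective A M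
  set I : Ideal A := Ideal.span {t} with hI
  set N : Submodule A M := LinearMap.range (LinearMap.lsmul A M t) with hN
  let π : (Fin n → A) →ₗ[A] (Fin n → A ⧸ I) := (I.mkQ).compLeft (Fin n)
  have hg0 : N ≤ LinearMap.ker (π ∘ₗ g) := by
    rintro _ ⟨m, rfl⟩
    rw [LinearMap.mem_ker]
    ext i
    simp only [LinearMap.lsmul_apply, LinearMap.coe_comp, Function.comp_apply, map_smul,
      Pi.zero_apply, π, LinearMap.compLeft_apply, Pi.smul_apply, Submodule.mkQ_apply]
    rw [← Submodule.Quotient.mk_smul, Submodule.Quotient.mk_eq_zero, smul_eq_mul]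
    exact Ideal.mul_mem_right _ _ (Ideal.subset_span rfl)
  let g' : M ⧸ N →ₗ[A] (Fin n → A ⧸ I) := N.liftQ (π ∘ₗ g) hg0
  let e : Fin n → (Fin n → A) := fun i j => if i = j then 1 else 0
  have hφ : ∀ i, I ≤ LinearMap.ker (LinearMap.toSpanSingleton A (M ⧸ N) (N.mkQ (f (e i)))) := by
    intro i
    rw [hI, Ideal.span, Submodule.span_le]
    rintro _ rfl
    simp only [SetLike.mem_coe, LinearMap.mem_ker, LinearMap.toSpanSingleton_apply]
    rw [← map_smul, Submodule.mkQ_apply, Submodule.Quotient.mk_eq_zero]
    exact ⟨f (e i), rfl⟩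
  let f' : (Fin n → A ⧸ I) →ₗ[A] M ⧸ N :=
    ∑ i, (I.liftQ (LinearMap.toSpanSingleton A (M ⧸ N) (N.mkQ (f (e i)))) (hφ i)) ∘ₗ
      LinearMap.proj i
  have hfg' : f' ∘ₗ g' = LinearMap.id := by
    apply Submodule.linearMap_qext
    ext m
    simp only [LinearMap.coe_comp, Function.comp_apply, Submodule.mkQ_apply, LinearMap.id_comp,
      g', f', Submodule.liftQ_apply, LinearMap.sum_apply, LinearMap.proj_apply,
      π, LinearMap.compLeft_apply]
    simp only [LinearMap.toSpanSingleton_apply, ← Submodule.mkQ_apply, ← map_smul, ← map_sum]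
    have h2 : ∑ x, g m x • e x = g m := (pi_eq_sum_univ (g m)).symm
    have h3 : f (g m) = m := LinearMap.congr_fun hfg m
    rw [h2, h3]
  have hproj : Module.Projective B (Fin n → A ⧸ I) := projective_pi_fin n
  have hsplit : (f'.restrictScalars B) ∘ₗ (g'.restrictScalars B) = LinearMap.id :=
    LinearMap.ext fun x => LinearMap.congr_fun hfg' x
  have hP : Module.Projective B (M ⧸ N) :=
    Module.Projective.of_split (g'.restrictScalars B) (f'.restrictScalars B) hsplit
  have hF : Module.Finite B (M ⧸ N) :=
    Module.Finite.of_surjective (f'.restrictScalars B) (fun x => ⟨g' x, LinearMap.congr_fun hfg' x⟩)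
  have hNeq : N.restrictScalars B = LinearMap.range (smulEnd B M t) := by
    ext x
    simp [hN, smulEnd]
  let eq : (M ⧸ LinearMap.range (smulEnd B M t)) ≃ₗ[B] M ⧸ N :=
    Submodule.quotEquivOfEq _ _ hNeq.symm ≪≫ₗ Submodule.Quotient.restrictScalarsEquiv B N
  exact ⟨Module.Finite.equiv eq.symm, Module.Projective.of_equiv' eq.symm⟩

end Polar

end Fermat.Agent.S25.helper1103
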