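import Fermat.Agent.S25.helper2945_AlgDefs
import Fermat.Agent.S25.helper1153_TwistConst
import Fermat.Agent.S25.helper1103_ChiLocConst

/-!
# S25, leaf U10 in `GlueDatum` form: `χ` is locally constant (helper1103)

For a two-chart line bundle `G : GlueDatum D B` over an arbitrary `k`-algebra `B`, the Euler
characteristic of the fibres `p ↦ χ(G ⊗ κ(p))` is a locally constant function on `Spec B`; more
precisely there is a locally constant `f : PrimeSpectrum B → ℤ` such that for EVERY field valued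
point `φ : B →ₐ[k] K` one has `(G.baseChange φ).chi = f (ker φ)` (so `χ` is also invariant under
field extension).

This file proves the statement from three inputs, passed as hypotheses:
* a twist `m` with `H¹(G(m D∞)) = 0` and `H⁰(G(m D∞))` finite projective over `B`
  (`cechDiff G.ρ₀B (twRho G m)` surjective with finite projective kernel);
* `G.M₀₁` flat over `B`;
* the comparison `BaseChangeCmp G` of `G.baseChange φ` with the naive base change `K ⊗[B] -`.
-/

set_option autoImplicit false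

universe u

open scoped TensorProduct

namespace Fermat.Agent.S25.helper1103

open Fermat.Agent.S25.helper1705 Fermat.Agent.S25.helper2945

variable {k : Type u} [Field k] {D : CurveDatum k} {B : Type u} [CommRing B] [Algebra k B]

/-- The second restriction map of the twisted datum `G(m D∞)`: `b ↦ x ^ m • ρ₁ b`. -/
noncomputable def twRho (G : GlueDatum D B) (m : ℕ) : G.M₁ →ₗ[B] G.M₀₁ :=
  ((LinearMap.lsmul (D.A₀ B) G.M₀₁ (xB D B ^ m)).restrictScalars B) ∘ₗ G.ρ₁B

@[simp] theorem twRho_apply (G : GlueDatum D B) (m : ℕ) (b : G.M₁) :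
    twRho G m b = xB D B ^ m • G.ρ₁ b := rfl

theorem xB_pow_smul_yB_pow_smul (G : GlueDatum D B) (m : ℕ) (z : G.M₀₁) :
    xB D B ^ m • (yB D B ^ m • z) = z := by
  rw [← algebraMap_smul (D.A₀₁ B) (xB D B ^ m) (yB D B ^ m • z),
    ← algebraMap_smul (D.A₀₁ B) (yB D B ^ m) z, smul_smul, map_pow, map_pow, ← mul_pow,
    xB_mul_yB, one_pow, one_smul]

theorem twRho_smulEnd (G : GlueDatum D B) (m : ℕ) (b : G.M₁) :
    twRho G m (smulEnd B G.M₁ (yB D B ^ m) b) = G.ρ₁B b := by
  rw [twRho_apply, smulEnd_apply, map_smul, xB_pow_smul_yB_pow_smul]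
  rfl

/-- The base change of a Čech differential, computed through `TensorProduct.prodRight`. -/
theorem cechDiff_baseChange_apply {B : Type*} [CommRing B] {M0 M1 M01 : Type*} [AddCommGroup M0]
    [Module B M0] [AddCommGroup M1] [Module B M1] [AddCommGroup M01] [Module B M01]
    (r0 : M0 →ₗ[B] M01) (r1 : M1 →ₗ[B] M01) (L : Type*) [CommRing L] [Algebra B L]
    (w : L ⊗[B] (M0 × M1)) :
    (cechDiff r0 r1).baseChange L w =
      r0.baseChange L (TensorProduct.prodRight B L L M0 M1 w).1 -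
        r1.baseChange L (TensorProduct.prodRight B L L M0 M1 w).2 := by
  induction w using TensorProduct.induction_on with
  | zero => simp
  | tmul l p =>
    simp only [LinearMap.baseChange_tmul, cechDiff_apply, TensorProduct.prodRight_tmul,
      TensorProduct.tmul_sub]
  | add x y hx hy =>
    simp only [map_add, hx, hy, Prod.fst_add, Prod.snd_add]
    abel

/-- Comparison of `G.baseChange φ` with the naive base change `K ⊗[B] -`, for field valued
points `φ : B →ₐ[k] K` (this is leaf LC-BC). -/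
def BaseChangeCmp (G : GlueDatum D B) : Prop :=
  ∀ (K : Type u) [Field K] [Algebra k K] (φ : B →ₐ[k] K),
    letI : Algebra B K := φ.toRingHom.toAlgebra
    ∃ (c₀ : (G.baseChange φ).M₀ ≃ₗ[K] K ⊗[B] G.M₀)
      (c₁ : (G.baseChange φ).M₁ ≃ₗ[K] K ⊗[B] G.M₁)
      (c₀₁ : (G.baseChange φ).M₀₁ ≃ₗ[K] K ⊗[B] G.M₀₁),
      (∀ z, c₀₁ ((G.baseChange φ).ρ₀ z) = G.ρ₀B.baseChange K (c₀ z)) ∧
      (∀ z, c₀₁ ((G.baseChange φ).ρ₁ z) = G.ρ₁B.baseChange K (c₁ z))

/-- The index function attached to a twist `m`. -/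
noncomputable def chiFun (G : GlueDatum D B) (m : ℕ) (p : PrimeSpectrum B) : ℤ :=
  (Module.rankAtStalk (LinearMap.ker (cechDiff G.ρ₀B (twRho G m))) p : ℤ) -
    Module.rankAtStalk (G.M₁ ⧸ LinearMap.range (smulEnd B G.M₁ (yB D B ^ m))) p

theorem polar_yB (G : GlueDatum D B) (m : ℕ) :
    Module.Finite B (G.M₁ ⧸ LinearMap.range (smulEnd B G.M₁ (yB D B ^ m))) ∧
      Module.Projective B (G.M₁ ⧸ LinearMap.range (smulEnd B G.M₁ (yB D B ^ m))) := by
  have h1 : Module.Finite B (D.A₁ B ⧸ Ideal.span {yB D B ^ m}) :=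
    helper1153.finite_quot_yB_pow D B m
  have h2 : Module.Free B (D.A₁ B ⧸ Ideal.span {yB D B ^ m}) :=
    helper1153.free_quot_yB_pow D B m
  exact polar_finite_projective (B := B) (A := D.A₁ B) (M := G.M₁) (yB D B ^ m)

theorem smulEnd_yB_pow_injective (G : GlueDatum D B) (m : ℕ) :
    Function.Injective (smulEnd B G.M₁ (yB D B ^ m)) := by
  have h : IsSMulRegular G.M₁ (yB D B) := helper1153.yB_isSMulRegular D B G.M₁
  exact (h.pow m)

theorem isLocallyConstant_chiFun (G : GlueDatum D B) (m : ℕ)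
    (hfin : Module.Finite B (LinearMap.ker (cechDiff G.ρ₀B (twRho G m))))
    (hproj : Module.Projective B (LinearMap.ker (cechDiff G.ρ₀B (twRho G m)))) :
    IsLocallyConstant (chiFun G m) := by
  obtain ⟨h1, h2⟩ := polar_yB G m
  exact isLocallyConstant_twoTermIndex _ _

/-- **`χ` at a field valued point** is the value of `chiFun G m` at the point of `Spec B` below,
for any twist `m` with `H¹(G(m D∞)) = 0` and `H⁰(G(m D∞))` finite projective. -/
theorem chi_baseChange_eq_chiFun (G : GlueDatum D B) (m : ℕ)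
    (hsurj : Function.Surjective (cechDiff G.ρ₀B (twRho G m)))
    (hfin : Module.Finite B (LinearMap.ker (cechDiff G.ρ₀B (twRho G m))))
    (hproj : Module.Projective B (LinearMap.ker (cechDiff G.ρ₀B (twRho G m))))
    (hflat : Module.Flat B G.M₀₁) (hcmp : BaseChangeCmp G)
    (K : Type u) [Field K] [Algebra k K] (φ : B →ₐ[k] K) :
    (G.baseChange φ).chi = chiFun G m ⟨RingHom.ker φ.toRingHom, RingHom.ker_isPrime _⟩ := by
  letI : Algebra B K := φ.toRingHom.toAlgebra
  obtain ⟨c₀, c₁, c₀₁, h₀, h₁⟩ := hcmp K φ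
  obtain ⟨hp1, hp2⟩ := polar_yB G m
  obtain ⟨-, -, key⟩ := index_twoChart G.ρ₀B G.ρ₁B (twRho G m) (smulEnd B G.M₁ (yB D B ^ m))
    (twRho_smulEnd G m) (smulEnd_yB_pow_injective G m) hsurj K
  let eV : ((G.baseChange φ).M₀ × (G.baseChange φ).M₁) ≃ₗ[K] K ⊗[B] (G.M₀ × G.M₁) :=
    (c₀.prodCongr c₁) ≪≫ₗ (TensorProduct.prodRight B K K G.M₀ G.M₁).symm
  have hsq : ∀ v, ((cechDiff G.ρ₀B G.ρ₁B).baseChange K) (eV v) = c₀₁ ((G.baseChange φ).delta v) := by
    rintro ⟨a, b⟩
    rw [cechDiff_baseChange_apply, GlueDatum.delta_apply, map_sub, h₀, h₁]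
    simp [eV]
  obtain ⟨⟨e1⟩, ⟨e2⟩⟩ := index_congr (G.baseChange φ).delta
    ((cechDiff G.ρ₀B G.ρ₁B).baseChange K) eV c₀₁ hsq
  have hchi : (G.baseChange φ).chi =
      (Module.finrank K (LinearMap.ker (G.baseChange φ).delta) : ℤ) -
        Module.finrank K ((G.baseChange φ).M₀₁ ⧸ LinearMap.range (G.baseChange φ).delta) := rfl
  rw [hchi, e1.finrank_eq, e2.finrank_eq, key]
  rfl

/-- **U10, hypothesis-passing form.** `χ` of the fibres of `G` is given by a locally constant
function on `Spec B`. -/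
theorem exists_isLocallyConstant_chi_of (G : GlueDatum D B) (m : ℕ)
    (hsurj : Function.Surjective (cechDiff G.ρ₀B (twRho G m)))
    (hfin : Module.Finite B (LinearMap.ker (cechDiff G.ρ₀B (twRho G m))))
    (hproj : Module.Projective B (LinearMap.ker (cechDiff G.ρ₀B (twRho G m))))
    (hflat : Module.Flat B G.M₀₁) (hcmp : BaseChangeCmp G) :
    ∃ f : PrimeSpectrum B → ℤ, IsLocallyConstant f ∧
      ∀ (K : Type u) [Field K] [Algebra k K] (φ : B →ₐ[k] K),
        (G.baseChange φ).chi = f ⟨RingHom.ker φ.toRingHom, RingHom.ker_isPrime _⟩ :=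
  ⟨chiFun G m, isLocallyConstant_chiFun G m hfin hproj,
    fun K _ _ φ => chi_baseChange_eq_chiFun G m hsurj hfin hproj hflat hcmp K φ⟩

end Fermat.Agent.S25.helper1103
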