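import Mathlib

/-!
# S25 / U4 (E): the snake sequence of a sub-triple of two-chart triples (helper7849)

Def-agnostic core of the MONO part of the chart theorem.

* Part 1 (`SnakeHyp`): `B`-linear two-term complexes `O₀ × O₁ → O₀₁` and `E₀ × E₁ → E₀₁`, a
  morphism `μ = (μ₀, μ₁, μ₀₁)` between them with `μ₀₁` injective and `E₁/O₁ → E₀₁/O₀₁` bijective
  (so that the quotient complex has `H⁰ = E₀/O₀ =: T` and `H¹ = 0`).  We construct the connecting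
  map `δ : T → H¹(O) =: H` and prove the exactness of
  `H⁰(O) → H⁰(E) → T → H¹(O) → H¹(E) → 0` at every place, in elementwise form.
* Part 2: the hypotheses of Part 1 for `μ = (· • σ)`, `σ = (σ₀, σ₁)` a section of a two-chart
  triple of modules over `A₀, A₁, A₀₁ = A₀[1/x] = A₁[1/y]`, when `E₁/A₁σ₁` is killed by some
  `u ≡ 1 mod y`.
* Part 3: `H¹(E) = 0`, `E₀/A₀σ₀` and `H¹(O)` finite of the same rank  ⟹  every section of `E`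
  is `(a₀ • σ₀, a₁ • σ₁)` with `(a₀, a₁) ∈ H⁰(O)`; if `H⁰(O) = B` it is `b • σ`.
-/

set_option autoImplicit false

namespace Fermat.Agent.S25.helper7849

open Function

/-! ## A linear map from a total, functional, linear relation -/

section OfRel

variable {B : Type*} [Semiring B] {M N : Type*} [AddCommMonoid M] [AddCommMonoid N]
  [Module B M] [Module B N]

/-- The linear map whose graph is a total, functional, additive and homogeneous relation. -/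
noncomputable def linearMapOfRel (R : M → N → Prop) (tot : ∀ m, ∃ n, R m n)
    (uniq : ∀ m n n', R m n → R m n' → n = n')
    (add : ∀ m n m' n', R m n → R m' n' → R (m + m') (n + n'))
    (smul : ∀ (c : B) m n, R m n → R (c • m) (c • n)) : M →ₗ[B] N where
  toFun m := Classical.choose (tot m)
  map_add' m m' := uniq _ _ _ (Classical.choose_spec (tot (m + m')))
    (add _ _ _ _ (Classical.choose_spec (tot m)) (Classical.choose_spec (tot m')))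
  map_smul' c m := uniq _ _ _ (Classical.choose_spec (tot (c • m)))
    (smul c _ _ (Classical.choose_spec (tot m)))

theorem linearMapOfRel_apply (R : M → N → Prop) (tot : ∀ m, ∃ n, R m n)
    (uniq : ∀ m n n', R m n → R m n' → n = n')
    (add : ∀ m n m' n', R m n → R m' n' → R (m + m') (n + n'))
    (smul : ∀ (c : B) m n, R m n → R (c • m) (c • n)) {m : M} {n : N} (h : R m n) :
    linearMapOfRel R tot uniq add smul m = n :=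
  uniq _ _ _ (Classical.choose_spec (tot m)) h

end OfRel

/-! ## Part 1: the abstract snake sequence -/

section Abstract

variable {B : Type*} [CommRing B]
  {O₀ O₁ O₀₁ E₀ E₁ E₀₁ T H : Type*}
  [AddCommGroup O₀] [AddCommGroup O₁] [AddCommGroup O₀₁]
  [AddCommGroup E₀] [AddCommGroup E₁] [AddCommGroup E₀₁] [AddCommGroup T] [AddCommGroup H]
  [Module B O₀] [Module B O₁] [Module B O₀₁] [Module B E₀] [Module B E₁] [Module B E₀₁]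
  [Module B T] [Module B H]

/-- Hypotheses of the snake sequence.  `O = (O₀, O₁, O₀₁; ι₀, ι₁)` and `E = (E₀, E₁, E₀₁; ρ₀, ρ₁)`
are two-chart triples (Čech differential `(a, b) ↦ ι₀ a - ι₁ b`), `μ : O → E` is a morphism,
`π : E₀ → T` is a cokernel of `μ₀` and `κ : O₀₁ → H` is a cokernel of the Čech differential of
`O` (so `H = H¹(O)`).  `tau_inj`, `tau_surj` say that `E₁/O₁ → E₀₁/O₀₁` is bijective. -/
structure SnakeHyp (ι₀ : O₀ →ₗ[B] O₀₁) (ι₁ : O₁ →ₗ[B] O₀₁) (ρ₀ : E₀ →ₗ[B] E₀₁)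
    (ρ₁ : E₁ →ₗ[B] E₀₁) (μ₀ : O₀ →ₗ[B] E₀) (μ₁ : O₁ →ₗ[B] E₁) (μ₀₁ : O₀₁ →ₗ[B] E₀₁)
    (π : E₀ →ₗ[B] T) (κ : O₀₁ →ₗ[B] H) : Prop where
  comm₀ : ∀ a, ρ₀ (μ₀ a) = μ₀₁ (ι₀ a)
  comm₁ : ∀ a, ρ₁ (μ₁ a) = μ₀₁ (ι₁ a)
  inj₀₁ : Injective μ₀₁
  tau_inj : ∀ e₁ a, ρ₁ e₁ = μ₀₁ a → ∃ c, e₁ = μ₁ c
  tau_surj : ∀ e₀₁, ∃ e₁ a, e₀₁ = ρ₁ e₁ + μ₀₁ a
  π_surj : Surjective π
  π_ker : ∀ e, π e = 0 → ∃ c, e = μ₀ c
  π_μ₀ : ∀ c, π (μ₀ c) = 0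
  κ_surj : Surjective κ
  κ_ker : ∀ a, κ a = 0 → ∃ c₀ c₁, a = ι₀ c₀ - ι₁ c₁
  κ_ι₀ : ∀ c, κ (ι₀ c) = 0
  κ_ι₁ : ∀ c, κ (ι₁ c) = 0

namespace SnakeHyp

variable {ι₀ : O₀ →ₗ[B] O₀₁} {ι₁ : O₁ →ₗ[B] O₀₁} {ρ₀ : E₀ →ₗ[B] E₀₁}
  {ρ₁ : E₁ →ₗ[B] E₀₁} {μ₀ : O₀ →ₗ[B] E₀} {μ₁ : O₁ →ₗ[B] E₁} {μ₀₁ : O₀₁ →ₗ[B] E₀₁}
  {π : E₀ →ₗ[B] T} {κ : O₀₁ →ₗ[B] H}

/-- The relation defining the connecting map. -/
def Rel (_h : SnakeHyp ι₀ ι₁ ρ₀ ρ₁ μ₀ μ₁ μ₀₁ π κ) (t : T) (c : H) : Prop :=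
  ∃ e₀ e₁ a, π e₀ = t ∧ ρ₀ e₀ = ρ₁ e₁ + μ₀₁ a ∧ κ a = c

variable (h : SnakeHyp ι₀ ι₁ ρ₀ ρ₁ μ₀ μ₁ μ₀₁ π κ)

include h in
theorem rel_total (t : T) : ∃ c, h.Rel t c := by
  obtain ⟨e₀, rfl⟩ := h.π_surj t
  obtain ⟨e₁, a, ha⟩ := h.tau_surj (ρ₀ e₀)
  exact ⟨κ a, e₀, e₁, a, rfl, ha, rfl⟩

include h in
/-- Key computation: the class `κ a` only depends on the class of `e₀`. -/
theorem kappa_eq_zero_of (e₀ e₁ : _) (a : O₀₁) (hπ : π e₀ = 0) (heq : ρ₀ e₀ = ρ₁ e₁ + μ₀₁ a) :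
    κ a = 0 := by
  obtain ⟨c, rfl⟩ := h.π_ker e₀ hπ
  rw [h.comm₀] at heq
  have h1 : ρ₁ e₁ = μ₀₁ (ι₀ c - a) := by
    rw [map_sub, heq]; abel
  obtain ⟨c₁, rfl⟩ := h.tau_inj e₁ _ h1
  rw [h.comm₁] at h1
  have h2 : ι₁ c₁ = ι₀ c - a := h.inj₀₁ h1
  have h3 : a = ι₀ c - ι₁ c₁ := by rw [h2]; abel
  rw [h3, map_sub, h.κ_ι₀, h.κ_ι₁, sub_zero]

include h in
theorem rel_unique (t : T) (c c' : H) (hc : h.Rel t c) (hc' : h.Rel t c') : c = c' := by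
  obtain ⟨e₀, e₁, a, rfl, heq, rfl⟩ := hc
  obtain ⟨e₀', e₁', a', ht, heq', rfl⟩ := hc'
  have := h.kappa_eq_zero_of (e₀ - e₀') (e₁ - e₁') (a - a') (by rw [map_sub, ht, sub_self])
    (by rw [map_sub, map_sub, map_sub, heq, heq']; abel)
  rw [map_sub, sub_eq_zero] at this
  exact this

include h in
theorem rel_add (t : T) (c : H) (t' : T) (c' : H) (hc : h.Rel t c) (hc' : h.Rel t' c') :
    h.Rel (t + t') (c + c') := by
  obtain ⟨e₀, e₁, a, rfl, heq, rfl⟩ := hc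
  obtain ⟨e₀', e₁', a', rfl, heq', rfl⟩ := hc'
  exact ⟨e₀ + e₀', e₁ + e₁', a + a', map_add _ _ _,
    by rw [map_add, map_add, map_add, heq, heq']; abel, map_add _ _ _⟩

include h in
theorem rel_smul (b : B) (t : T) (c : H) (hc : h.Rel t c) : h.Rel (b • t) (b • c) := by
  obtain ⟨e₀, e₁, a, rfl, heq, rfl⟩ := hc
  exact ⟨b • e₀, b • e₁, b • a, map_smul _ _ _,
    by rw [map_smul, map_smul, map_smul, heq, smul_add], map_smul _ _ _⟩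

/-- The connecting map `δ : T = E₀/O₀ → H = H¹(O)` of the snake sequence. -/
noncomputable def delta : T →ₗ[B] H :=
  linearMapOfRel h.Rel h.rel_total h.rel_unique h.rel_add h.rel_smul

/-- Computation of `δ`: if `ρ₀ e₀ = ρ₁ e₁ + μ₀₁ a` then `δ [e₀] = [a]`. -/
theorem delta_apply (e₀ : E₀) (e₁ : E₁) (a : O₀₁) (heq : ρ₀ e₀ = ρ₁ e₁ + μ₀₁ a) :
    h.delta (π e₀) = κ a :=
  linearMapOfRel_apply _ _ _ _ _ ⟨e₀, e₁, a, rfl, heq, rfl⟩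

/-- Exactness at `T`: `δ [e₀] = 0` iff `[e₀]` lifts to a section of `E`. -/
theorem delta_eq_zero_iff (e₀ : E₀) :
    h.delta (π e₀) = 0 ↔ ∃ e₀' e₁', ρ₀ e₀' = ρ₁ e₁' ∧ π e₀' = π e₀ := by
  constructor
  · intro hd
    obtain ⟨e₁, a, ha⟩ := h.tau_surj (ρ₀ e₀)
    rw [h.delta_apply e₀ e₁ a ha] at hd
    obtain ⟨c₀, c₁, rfl⟩ := h.κ_ker a hd
    refine ⟨e₀ - μ₀ c₀, e₁ - μ₁ c₁, ?_, ?_⟩
    · rw [map_sub, map_sub, h.comm₀, h.comm₁, ha, map_sub]; abel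
    · rw [map_sub, h.π_μ₀, sub_zero]
  · rintro ⟨e₀', e₁', heq, hπ⟩
    rw [← hπ, h.delta_apply e₀' e₁' 0 (by rw [map_zero, add_zero, heq]), map_zero]

/-- Exactness at `H¹(O)`: `[a]` is in the image of `δ` iff `μ₀₁ a` is a Čech coboundary of
`E`. -/
theorem mem_range_delta_iff (a : O₀₁) :
    κ a ∈ LinearMap.range h.delta ↔ ∃ e₀ e₁, μ₀₁ a = ρ₀ e₀ - ρ₁ e₁ := by
  constructor
  · rintro ⟨t, ht⟩
    obtain ⟨e₀, rfl⟩ := h.π_surj t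
    obtain ⟨e₁, a', ha'⟩ := h.tau_surj (ρ₀ e₀)
    rw [h.delta_apply e₀ e₁ a' ha', ← sub_eq_zero, ← map_sub] at ht
    obtain ⟨c₀, c₁, hc⟩ := h.κ_ker _ ht
    refine ⟨e₀ - μ₀ c₀, e₁ - μ₁ c₁, ?_⟩
    have ha : a = a' - (ι₀ c₀ - ι₁ c₁) := by rw [← hc]; abel
    rw [map_sub, map_sub, h.comm₀, h.comm₁, ha', ha, map_sub, map_sub]; abel
  · rintro ⟨e₀, e₁, he⟩
    exact ⟨π e₀, h.delta_apply e₀ e₁ a (by rw [he]; abel)⟩

include h in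
/-- `H¹(O) → H¹(E)` is surjective. -/
theorem exists_eq_add_coboundary (e₀₁ : E₀₁) :
    ∃ a e₀ e₁, e₀₁ = μ₀₁ a + (ρ₀ e₀ - ρ₁ e₁) := by
  obtain ⟨e₁, a, ha⟩ := h.tau_surj e₀₁
  exact ⟨a, 0, -e₁, by rw [ha, map_zero, map_neg]; abel⟩

/-- `δ` is surjective iff `H¹(E) = 0`. -/
theorem delta_surjective_iff :
    Surjective h.delta ↔ ∀ e₀₁ : E₀₁, ∃ e₀ e₁, e₀₁ = ρ₀ e₀ - ρ₁ e₁ := by
  constructor
  · intro hs e₀₁
    obtain ⟨a, e₀, e₁, he⟩ := h.exists_eq_add_coboundary e₀₁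
    obtain ⟨e₀', e₁', he'⟩ := (h.mem_range_delta_iff a).1 (hs (κ a))
    exact ⟨e₀' + e₀, e₁' + e₁, by rw [he, he', map_add, map_add]; abel⟩
  · intro hE c
    obtain ⟨a, rfl⟩ := h.κ_surj c
    exact (h.mem_range_delta_iff a).2 (hE (μ₀₁ a))

include h in
/-- Exactness at `H⁰(E)`: a section of `E` whose first component dies in `T` comes from a
section of `O`. -/
theorem exists_of_π_eq_zero (e₀ : E₀) (e₁ : E₁) (heq : ρ₀ e₀ = ρ₁ e₁) (hπ : π e₀ = 0) :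
    ∃ c₀ c₁, ι₀ c₀ = ι₁ c₁ ∧ e₀ = μ₀ c₀ ∧ e₁ = μ₁ c₁ := by
  obtain ⟨c₀, rfl⟩ := h.π_ker e₀ hπ
  rw [h.comm₀] at heq
  obtain ⟨c₁, rfl⟩ := h.tau_inj e₁ _ heq.symm
  rw [h.comm₁] at heq
  exact ⟨c₀, c₁, h.inj₀₁ heq, rfl, rfl⟩

/-- If `δ` is injective, every section of `E` comes from a section of `O`. -/
theorem exists_of_delta_injective (hinj : Injective h.delta) (e₀ : E₀) (e₁ : E₁)
    (heq : ρ₀ e₀ = ρ₁ e₁) : ∃ c₀ c₁, ι₀ c₀ = ι₁ c₁ ∧ e₀ = μ₀ c₀ ∧ e₁ = μ₁ c₁ := by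
  have h0 : h.delta (π e₀) = 0 := (h.delta_eq_zero_iff e₀).2 ⟨e₀, e₁, heq, rfl⟩
  exact h.exists_of_π_eq_zero e₀ e₁ heq (hinj (h0.trans (map_zero _).symm))

/-- `H¹(E) = 0`, `H¹(O)` finite and `T` embeds `B`-linearly into `H¹(O)` (e.g. both are free of
the same finite rank) ⟹ `δ` is bijective. -/
theorem delta_bijective_of_injective [Module.Finite B H] (i : T →ₗ[B] H) (hi : Injective i)
    (hE : ∀ e₀₁ : E₀₁, ∃ e₀ e₁, e₀₁ = ρ₀ e₀ - ρ₁ e₁) : Bijective h.delta :=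
  OrzechProperty.bijective_of_surjective_of_injective i h.delta hi (h.delta_surjective_iff.2 hE)

/-- `H¹(E) = 0`, `T` and `H¹(O)` finite flat of the same rank at every maximal ideal ⟹ `δ` is
bijective. -/
theorem delta_bijective_of_rank [Module.Finite B T] [Module.Flat B T] [Module.Finite B H]
    [Module.Flat B H]
    (hr : ∀ (m : Ideal B) [m.IsMaximal],
      Module.rankAtStalk T ⟨m, inferInstance⟩ = Module.rankAtStalk H ⟨m, inferInstance⟩)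
    (hE : ∀ e₀₁ : E₀₁, ∃ e₀ e₁, e₀₁ = ρ₀ e₀ - ρ₁ e₁) : Bijective h.delta :=
  Module.bijective_of_surjective_of_rankAtStalk_eq (h.delta_surjective_iff.2 hE) hr

end SnakeHyp

/-- The snake hypotheses for the standard models `T = E₀ ⧸ range μ₀` and
`H = O₀₁ ⧸ range (ι₀.coprod (-ι₁))` of the two cokernels. -/
theorem snakeHyp_mkQ {ι₀ : O₀ →ₗ[B] O₀₁} {ι₁ : O₁ →ₗ[B] O₀₁} {ρ₀ : E₀ →ₗ[B] E₀₁}
    {ρ₁ : E₁ →ₗ[B] E₀₁} {μ₀ : O₀ →ₗ[B] E₀} {μ₁ : O₁ →ₗ[B] E₁} {μ₀₁ : O₀₁ →ₗ[B] E₀₁}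
    (comm₀ : ∀ a, ρ₀ (μ₀ a) = μ₀₁ (ι₀ a)) (comm₁ : ∀ a, ρ₁ (μ₁ a) = μ₀₁ (ι₁ a))
    (inj₀₁ : Injective μ₀₁) (tau_inj : ∀ e₁ a, ρ₁ e₁ = μ₀₁ a → ∃ c, e₁ = μ₁ c)
    (tau_surj : ∀ e₀₁, ∃ e₁ a, e₀₁ = ρ₁ e₁ + μ₀₁ a) :
    SnakeHyp ι₀ ι₁ ρ₀ ρ₁ μ₀ μ₁ μ₀₁ (LinearMap.range μ₀).mkQ
      (LinearMap.range (ι₀.coprod (-ι₁))).mkQ where
  comm₀ := comm₀
  comm₁ := comm₁
  inj₀₁ := inj₀₁
  tau_inj := tau_inj
  tau_surj := tau_surj
  π_surj := Submodule.mkQ_surjective _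
  π_ker e he := by
    rw [Submodule.mkQ_apply, Submodule.Quotient.mk_eq_zero] at he
    obtain ⟨c, rfl⟩ := he
    exact ⟨c, rfl⟩
  π_μ₀ c := by
    rw [Submodule.mkQ_apply, Submodule.Quotient.mk_eq_zero]
    exact ⟨c, rfl⟩
  κ_surj := Submodule.mkQ_surjective _
  κ_ker a ha := by
    rw [Submodule.mkQ_apply, Submodule.Quotient.mk_eq_zero] at ha
    obtain ⟨⟨c₀, c₁⟩, rfl⟩ := ha
    exact ⟨c₀, c₁, by simp [sub_eq_add_neg]⟩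
  κ_ι₀ c := by
    rw [Submodule.mkQ_apply, Submodule.Quotient.mk_eq_zero]
    exact ⟨(c, 0), by simp⟩
  κ_ι₁ c := by
    rw [Submodule.mkQ_apply, Submodule.Quotient.mk_eq_zero]
    exact ⟨(0, -c), by simp⟩

end Abstract

/-! ## Part 2: a section generating near `V(y)` -/

section Loc

variable {A A' : Type*} [CommRing A] [CommRing A'] [Algebra A A']
  {E E' : Type*} [AddCommGroup E] [AddCommGroup E'] [Module A E] [Module A' E'] [Module A E']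
  [IsScalarTower A A' E']

/-- If `u + y v = 1` and `u` maps `E` into `A σ`, then `E = (y v)ⁿ E + A σ` for all `n`. -/
theorem exists_eq_pow_smul_add {y u v : A} (huv : u + y * v = 1) {σ : E}
    (hu : ∀ e : E, ∃ a : A, u • e = a • σ) (n : ℕ) (e : E) :
    ∃ a : A, e = (y * v) ^ n • e + a • σ := by
  induction n with
  | zero => exact ⟨0, by simp⟩
  | succ n ih =>
    obtain ⟨a, ha⟩ := ih
    obtain ⟨a', ha'⟩ := hu e
    have h1 : e = a' • σ + (y * v) • e := by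
      rw [← ha', ← add_smul, huv, one_smul]
    refine ⟨(y * v) ^ n * a' + a, ?_⟩
    have h2 : (y * v) ^ n • e = ((y * v) ^ n * a') • σ + (y * v) ^ (n + 1) • e := by
      conv_lhs => rw [h1]
      rw [smul_add, smul_smul, smul_smul, ← pow_succ]
    rw [add_smul, ← add_assoc, add_comm ((y * v) ^ (n + 1) • e), ← h2]
    exact ha

variable (y : A) [IsLocalization.Away y A'] (ρ : E →ₗ[A] E')
  [IsLocalizedModule (Submonoid.powers y) ρ]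

include y in
/-- Faithfulness of a section passes to the localization: if `a ↦ a • σ` is injective on `A`
then `a ↦ a • ρ σ` is injective on `A' = A[1/y]`. -/
theorem smul_injective_localization {σ : E} (hσ : ∀ a : A, a • σ = 0 → a = 0) (a : A')
    (ha : a • ρ σ = 0) : a = 0 := by
  obtain ⟨⟨c, s⟩, hs⟩ := IsLocalization.surj (Submonoid.powers y) a
  simp only at hs
  have h1 : ρ (c • σ) = ρ 0 := by
    rw [map_smul, map_zero, ← algebraMap_smul A' c (ρ σ), ← hs, mul_comm, mul_smul, ha, smul_zero]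
  obtain ⟨t, ht⟩ := (IsLocalizedModule.eq_iff_exists (Submonoid.powers y) ρ).1 h1
  rw [smul_zero, Submonoid.smul_def, smul_smul] at ht
  have h2 := hσ _ ht
  have h3 : algebraMap A A' (t : A) * (a * algebraMap A A' (s : A)) = 0 := by
    rw [hs, ← map_mul, h2, map_zero]
  have hu : IsUnit (algebraMap A A' (t : A) * algebraMap A A' (s : A)) :=
    (IsLocalization.map_units A' t).mul (IsLocalization.map_units A' s)
  have h4 : a * (algebraMap A A' (t : A) * algebraMap A A' (s : A)) = 0 := by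
    rw [← h3]; ring
  exact (hu.mul_left_eq_zero).1 h4

include y in
/-- `E/Aσ → E'/A'σ` is surjective when `E/Aσ` is killed by some `u ≡ 1 mod y`. -/
theorem exists_eq_map_add_smul {u v : A} (huv : u + y * v = 1) {σ : E}
    (hu : ∀ e : E, ∃ a : A, u • e = a • σ) (e' : E') :
    ∃ (e : E) (a : A'), e' = ρ e + a • ρ σ := by
  obtain ⟨⟨e, s⟩, hs⟩ := IsLocalizedModule.surj (Submonoid.powers y) ρ e'
  obtain ⟨n, hn⟩ := s.2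
  have hn' : y ^ n = (s : A) := hn
  simp only at hs
  rw [Submonoid.smul_def, ← hn'] at hs
  obtain ⟨a, ha⟩ := exists_eq_pow_smul_add huv hu n e
  obtain ⟨w, hw⟩ := (IsLocalization.Away.algebraMap_pow_isUnit (S := A') y n).exists_left_inv
  refine ⟨v ^ n • e, w * algebraMap A A' a, ?_⟩
  have h1 : y ^ n • (e' - ρ (v ^ n • e)) = a • ρ σ := by
    rw [smul_sub, hs, ← map_smul, smul_smul, ← mul_pow, ← map_smul, ← map_sub]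
    congr 1
    rw [sub_eq_iff_eq_add']
    exact ha
  have h2 : e' - ρ (v ^ n • e) = (w * algebraMap A A' a) • ρ σ := by
    rw [mul_smul, algebraMap_smul, ← h1, ← algebraMap_smul A' (y ^ n), smul_smul, map_pow, hw,
      one_smul]
  rw [← h2]; abel

include y in
/-- `E/Aσ → E'/A'σ` is injective when `E/Aσ` is killed by some `u ≡ 1 mod y`. -/
theorem exists_eq_smul_of_map_eq_smul {u v : A} (huv : u + y * v = 1) {σ : E}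
    (hu : ∀ e : E, ∃ a : A, u • e = a • σ) (e : E) (a : A') (he : ρ e = a • ρ σ) :
    ∃ c : A, e = c • σ := by
  obtain ⟨⟨c, s⟩, hs⟩ := IsLocalization.surj (Submonoid.powers y) a
  obtain ⟨n, hn⟩ := s.2
  have hn' : y ^ n = (s : A) := hn
  simp only at hs
  rw [← hn'] at hs
  have h1 : ρ (y ^ n • e) = ρ (c • σ) := by
    rw [map_smul, map_smul, he, ← algebraMap_smul A' c (ρ σ), ← hs, mul_comm, mul_smul,
      algebraMap_smul]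
  obtain ⟨t, ht⟩ := (IsLocalizedModule.eq_iff_exists (Submonoid.powers y) ρ).1 h1
  obtain ⟨m, hm⟩ := t.2
  have hm' : y ^ m = (t : A) := hm
  rw [Submonoid.smul_def, Submonoid.smul_def, ← hm', smul_smul, smul_smul, ← pow_add] at ht
  obtain ⟨a', ha'⟩ := exists_eq_pow_smul_add huv hu (m + n) e
  refine ⟨v ^ (m + n) * (y ^ m * c) + a', ?_⟩
  rw [add_smul, mul_smul, ← ht, smul_smul, ← mul_pow, mul_comm v y]
  exact ha'

end Loc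

/-! ## Part 3: sections of a two-chart triple with a section generating near `V(y)` -/

section Section

variable {B A₀ A₁ A₀₁ : Type*} [CommRing B] [CommRing A₀] [CommRing A₁] [CommRing A₀₁]
  [Algebra B A₀] [Algebra B A₁] [Algebra B A₀₁] [Algebra A₀ A₀₁] [Algebra A₁ A₀₁]
  [IsScalarTower B A₀ A₀₁] [IsScalarTower B A₁ A₀₁]
  {E₀ E₁ E₀₁ : Type*} [AddCommGroup E₀] [AddCommGroup E₁] [AddCommGroup E₀₁]
  [Module A₀ E₀] [Module A₁ E₁] [Module A₀₁ E₀₁] [Module A₀ E₀₁] [Module A₁ E₀₁]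
  [IsScalarTower A₀ A₀₁ E₀₁] [IsScalarTower A₁ A₀₁ E₀₁]
  [Module B E₀] [Module B E₁] [Module B E₀₁]
  [IsScalarTower B A₀ E₀] [IsScalarTower B A₁ E₁] [IsScalarTower B A₀₁ E₀₁]
  [IsScalarTower B A₀ E₀₁] [IsScalarTower B A₁ E₀₁]
  {T H : Type*} [AddCommGroup T] [AddCommGroup H] [Module B T] [Module B H]

/-- The snake hypotheses for the sub-triple `O·σ ⊆ E` generated by a section `σ = (σ₀, σ₁)`,
`ρ₀ σ₀ = ρ₁ σ₁`, of a two-chart triple `E` over `A₀, A₁, A₀₁ = A₁[1/y]`, when `σ₀₁` is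
faithful and `E₁/A₁σ₁` is killed by some `u ≡ 1 mod y`.  `π : E₀ → T` is any cokernel of
`a ↦ a • σ₀` and `κ : A₀₁ → H` any cokernel of `(a₀, a₁) ↦ a₀ - a₁`. -/
theorem snakeHyp_of_section (y : A₁) [IsLocalization.Away y A₀₁]
    (ρ₀ : E₀ →ₗ[A₀] E₀₁) (ρ₁ : E₁ →ₗ[A₁] E₀₁) [IsLocalizedModule (Submonoid.powers y) ρ₁]
    (σ₀ : E₀) (σ₁ : E₁) (hσ : ρ₀ σ₀ = ρ₁ σ₁)
    (hinj : ∀ a : A₀₁, a • ρ₀ σ₀ = 0 → a = 0)
    (u v : A₁) (huv : u + y * v = 1) (hu : ∀ e : E₁, ∃ a : A₁, u • e = a • σ₁)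
    (π : E₀ →ₗ[B] T) (hπs : Surjective π) (hπ : ∀ e, π e = 0 ↔ ∃ a : A₀, e = a • σ₀)
    (κ : A₀₁ →ₗ[B] H) (hκs : Surjective κ)
    (hκ : ∀ a, κ a = 0 ↔ ∃ a₀ a₁, a = algebraMap A₀ A₀₁ a₀ - algebraMap A₁ A₀₁ a₁) :
    SnakeHyp ((Algebra.linearMap A₀ A₀₁).restrictScalars B)
      ((Algebra.linearMap A₁ A₀₁).restrictScalars B) (ρ₀.restrictScalars B)
      (ρ₁.restrictScalars B) ((LinearMap.toSpanSingleton A₀ E₀ σ₀).restrictScalars B)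
      ((LinearMap.toSpanSingleton A₁ E₁ σ₁).restrictScalars B)
      ((LinearMap.toSpanSingleton A₀₁ E₀₁ (ρ₀ σ₀)).restrictScalars B) π κ where
  comm₀ a := by
    simp only [LinearMap.restrictScalars_apply, LinearMap.toSpanSingleton_apply,
      Algebra.linearMap_apply, map_smul, algebraMap_smul]
  comm₁ a := by
    simp only [LinearMap.restrictScalars_apply, LinearMap.toSpanSingleton_apply,
      Algebra.linearMap_apply, map_smul, algebraMap_smul, hσ]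
  inj₀₁ := by
    intro a a' haa'
    simp only [LinearMap.restrictScalars_apply, LinearMap.toSpanSingleton_apply] at haa'
    rw [← sub_eq_zero, ← sub_smul] at haa'
    exact sub_eq_zero.1 (hinj _ haa')
  tau_inj e₁ a he := by
    simp only [LinearMap.restrictScalars_apply, LinearMap.toSpanSingleton_apply] at he ⊢
    rw [hσ] at he
    exact exists_eq_smul_of_map_eq_smul y ρ₁ huv hu e₁ a he
  tau_surj e₀₁ := by
    simp only [LinearMap.restrictScalars_apply, LinearMap.toSpanSingleton_apply]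
    rw [hσ]
    exact exists_eq_map_add_smul y ρ₁ huv hu e₀₁
  π_surj := hπs
  π_ker e he := (hπ e).1 he
  π_μ₀ c := (hπ _).2 ⟨c, rfl⟩
  κ_surj := hκs
  κ_ker a ha := (hκ a).1 ha
  κ_ι₀ c := (hκ _).2 ⟨c, 0, by simp⟩
  κ_ι₁ c := (hκ _).2 ⟨0, -c, by simp⟩

/-- MAIN (injective-comparison form).  `E` a two-chart triple over `A₀, A₁, A₀₁ = A₁[1/y]`,
all `B`-linear; `σ = (σ₀, σ₁)` a section with `σ₀₁` faithful and `E₁/A₁σ₁` killed by some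
`u ≡ 1 mod y`.  If `H¹(E) = 0`, `H = H¹(O) = A₀₁/(A₀ + A₁)` is a finite `B`-module and
`T = E₀/A₀σ₀` embeds `B`-linearly into `H` (e.g. both are free of the same finite rank), then
every section of `E` is `(a₀ • σ₀, a₁ • σ₁)` with `(a₀, a₁)` a section of `O`. -/
theorem section_generates_of_injective (y : A₁) [IsLocalization.Away y A₀₁]
    (ρ₀ : E₀ →ₗ[A₀] E₀₁) (ρ₁ : E₁ →ₗ[A₁] E₀₁) [IsLocalizedModule (Submonoid.powers y) ρ₁]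
    (σ₀ : E₀) (σ₁ : E₁) (hσ : ρ₀ σ₀ = ρ₁ σ₁)
    (hinj : ∀ a : A₀₁, a • ρ₀ σ₀ = 0 → a = 0)
    (u v : A₁) (huv : u + y * v = 1) (hu : ∀ e : E₁, ∃ a : A₁, u • e = a • σ₁)
    (hH1 : ∀ e₀₁ : E₀₁, ∃ e₀ e₁, e₀₁ = ρ₀ e₀ - ρ₁ e₁)
    (π : E₀ →ₗ[B] T) (hπs : Surjective π) (hπ : ∀ e, π e = 0 ↔ ∃ a : A₀, e = a • σ₀)
    (κ : A₀₁ →ₗ[B] H) (hκs : Surjective κ)
    (hκ : ∀ a, κ a = 0 ↔ ∃ a₀ a₁, a = algebraMap A₀ A₀₁ a₀ - algebraMap A₁ A₀₁ a₁)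
    [Module.Finite B H] (i : T →ₗ[B] H) (hi : Injective i)
    (e₀ : E₀) (e₁ : E₁) (he : ρ₀ e₀ = ρ₁ e₁) :
    ∃ a₀ a₁, algebraMap A₀ A₀₁ a₀ = algebraMap A₁ A₀₁ a₁ ∧ e₀ = a₀ • σ₀ ∧ e₁ = a₁ • σ₁ := by
  have h := snakeHyp_of_section (B := B) y ρ₀ ρ₁ σ₀ σ₁ hσ hinj u v huv hu π hπs hπ κ hκs hκ
  exact h.exists_of_delta_injective (h.delta_bijective_of_injective i hi hH1).1 e₀ e₁ he

/-- MAIN (rank form).  As `section_generates_of_injective`, with `T = E₀/A₀σ₀` and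
`H = H¹(O)` finite flat `B`-modules of the same rank at every maximal ideal. -/
theorem section_generates_of_rank (y : A₁) [IsLocalization.Away y A₀₁]
    (ρ₀ : E₀ →ₗ[A₀] E₀₁) (ρ₁ : E₁ →ₗ[A₁] E₀₁) [IsLocalizedModule (Submonoid.powers y) ρ₁]
    (σ₀ : E₀) (σ₁ : E₁) (hσ : ρ₀ σ₀ = ρ₁ σ₁)
    (hinj : ∀ a : A₀₁, a • ρ₀ σ₀ = 0 → a = 0)
    (u v : A₁) (huv : u + y * v = 1) (hu : ∀ e : E₁, ∃ a : A₁, u • e = a • σ₁)
    (hH1 : ∀ e₀₁ : E₀₁, ∃ e₀ e₁, e₀₁ = ρ₀ e₀ - ρ₁ e₁)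
    (π : E₀ →ₗ[B] T) (hπs : Surjective π) (hπ : ∀ e, π e = 0 ↔ ∃ a : A₀, e = a • σ₀)
    (κ : A₀₁ →ₗ[B] H) (hκs : Surjective κ)
    (hκ : ∀ a, κ a = 0 ↔ ∃ a₀ a₁, a = algebraMap A₀ A₀₁ a₀ - algebraMap A₁ A₀₁ a₁)
    [Module.Finite B T] [Module.Flat B T] [Module.Finite B H] [Module.Flat B H]
    (hr : ∀ (m : Ideal B) [m.IsMaximal],
      Module.rankAtStalk T ⟨m, inferInstance⟩ = Module.rankAtStalk H ⟨m, inferInstance⟩)
    (e₀ : E₀) (e₁ : E₁) (he : ρ₀ e₀ = ρ₁ e₁) :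
    ∃ a₀ a₁, algebraMap A₀ A₀₁ a₀ = algebraMap A₁ A₀₁ a₁ ∧ e₀ = a₀ • σ₀ ∧ e₁ = a₁ • σ₁ := by
  have h := snakeHyp_of_section (B := B) y ρ₀ ρ₁ σ₀ σ₁ hσ hinj u v huv hu π hπs hπ κ hκs hκ
  exact h.exists_of_delta_injective (h.delta_bijective_of_rank hr hH1).1 e₀ e₁ he

/-- COROLLARY (`H⁰(O) = B`): under the hypotheses of `section_generates_of_rank`, if moreover
the only sections of `O` are the constants, then `H⁰(E) = B • σ`. -/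
theorem section_eq_smul_of_rank (y : A₁) [IsLocalization.Away y A₀₁]
    (ρ₀ : E₀ →ₗ[A₀] E₀₁) (ρ₁ : E₁ →ₗ[A₁] E₀₁) [IsLocalizedModule (Submonoid.powers y) ρ₁]
    (σ₀ : E₀) (σ₁ : E₁) (hσ : ρ₀ σ₀ = ρ₁ σ₁)
    (hinj : ∀ a : A₀₁, a • ρ₀ σ₀ = 0 → a = 0)
    (u v : A₁) (huv : u + y * v = 1) (hu : ∀ e : E₁, ∃ a : A₁, u • e = a • σ₁)
    (hH1 : ∀ e₀₁ : E₀₁, ∃ e₀ e₁, e₀₁ = ρ₀ e₀ - ρ₁ e₁)
    (π : E₀ →ₗ[B] T) (hπs : Surjective π) (hπ : ∀ e, π e = 0 ↔ ∃ a : A₀, e = a • σ₀)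
    (κ : A₀₁ →ₗ[B] H) (hκs : Surjective κ)
    (hκ : ∀ a, κ a = 0 ↔ ∃ a₀ a₁, a = algebraMap A₀ A₀₁ a₀ - algebraMap A₁ A₀₁ a₁)
    [Module.Finite B T] [Module.Flat B T] [Module.Finite B H] [Module.Flat B H]
    (hr : ∀ (m : Ideal B) [m.IsMaximal],
      Module.rankAtStalk T ⟨m, inferInstance⟩ = Module.rankAtStalk H ⟨m, inferInstance⟩)
    (hH0 : ∀ (a₀ : A₀) (a₁ : A₁), algebraMap A₀ A₀₁ a₀ = algebraMap A₁ A₀₁ a₁ →
      ∃ b : B, a₀ = algebraMap B A₀ b ∧ a₁ = algebraMap B A₁ b)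
    (e₀ : E₀) (e₁ : E₁) (he : ρ₀ e₀ = ρ₁ e₁) : ∃ b : B, e₀ = b • σ₀ ∧ e₁ = b • σ₁ := by
  obtain ⟨a₀, a₁, ha, rfl, rfl⟩ := section_generates_of_rank (B := B) y ρ₀ ρ₁ σ₀ σ₁ hσ hinj u v
    huv hu hH1 π hπs hπ κ hκs hκ hr e₀ e₁ he
  obtain ⟨b, rfl, rfl⟩ := hH0 a₀ a₁ ha
  exact ⟨b, by rw [algebraMap_smul], by rw [algebraMap_smul]⟩

/-- COROLLARY (`H⁰(O) = B`), injective-comparison form. -/
theorem section_eq_smul_of_injective (y : A₁) [IsLocalization.Away y A₀₁]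
    (ρ₀ : E₀ →ₗ[A₀] E₀₁) (ρ₁ : E₁ →ₗ[A₁] E₀₁) [IsLocalizedModule (Submonoid.powers y) ρ₁]
    (σ₀ : E₀) (σ₁ : E₁) (hσ : ρ₀ σ₀ = ρ₁ σ₁)
    (hinj : ∀ a : A₀₁, a • ρ₀ σ₀ = 0 → a = 0)
    (u v : A₁) (huv : u + y * v = 1) (hu : ∀ e : E₁, ∃ a : A₁, u • e = a • σ₁)
    (hH1 : ∀ e₀₁ : E₀₁, ∃ e₀ e₁, e₀₁ = ρ₀ e₀ - ρ₁ e₁)
    (π : E₀ →ₗ[B] T) (hπs : Surjective π) (hπ : ∀ e, π e = 0 ↔ ∃ a : A₀, e = a • σ₀)
    (κ : A₀₁ →ₗ[B] H) (hκs : Surjective κ)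
    (hκ : ∀ a, κ a = 0 ↔ ∃ a₀ a₁, a = algebraMap A₀ A₀₁ a₀ - algebraMap A₁ A₀₁ a₁)
    [Module.Finite B H] (i : T →ₗ[B] H) (hi : Injective i)
    (hH0 : ∀ (a₀ : A₀) (a₁ : A₁), algebraMap A₀ A₀₁ a₀ = algebraMap A₁ A₀₁ a₁ →
      ∃ b : B, a₀ = algebraMap B A₀ b ∧ a₁ = algebraMap B A₁ b)
    (e₀ : E₀) (e₁ : E₁) (he : ρ₀ e₀ = ρ₁ e₁) : ∃ b : B, e₀ = b • σ₀ ∧ e₁ = b • σ₁ := by
  obtain ⟨a₀, a₁, ha, rfl, rfl⟩ := section_generates_of_injective (B := B) y ρ₀ ρ₁ σ₀ σ₁ hσ hinj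
    u v huv hu hH1 π hπs hπ κ hκs hκ i hi e₀ e₁ he
  obtain ⟨b, rfl, rfl⟩ := hH0 a₀ a₁ ha
  exact ⟨b, by rw [algebraMap_smul], by rw [algebraMap_smul]⟩

end Section

end Fermat.Agent.S25.helper7849
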