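import Fermat.Agent.S25.helper1397_HomGlue
import Fermat.Agent.S25.helper7849_ChartSnake
import Fermat.Agent.S25.helper3610_UnitSections
import Fermat.Agent.S25.helper8573_LCSpec
import Fermat.Agent.S25.helper69_ChartThm
import Fermat.Agent.S25.helper7186_CechBaseChange
import Fermat.Agent.S25.helper239_GlueIndex
import Fermat.Agent.S25.helper1804_AlgApi
import Fermat.Agent.S25.helper6121_GlueConstr
import Fermat.Agent.S25.helper3115_TwistGlue

/-!
# S25, root `Stmt_ChartOf`, the MONO clause (helper1227)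

Vocabulary: `helper2945_AlgDefs` (`GlueDatum`), `helper8573_LCSpec` (`Mor`, `Generates`,
`ChartMono`, `genus`), `helper1397_HomGlue` (`homDatum`).

* `rankAtStalk_eq_of_invertible` : an invertible module over a finite flat `B`-algebra `C` has
  the `B`-rank of `C` at every prime of `B`;
* `quotient_smul_top_finite_flat_rank` : for `L` invertible over `A` and `A ⧸ I` finite flat over
  `B`, the `B`-module `L ⧸ I • L` is finite flat of the same rank as `A ⧸ I`;
* `exists_smul_eq_smul_of_forall_smul_mem_range` : if `c • N ⊆ σ(M)` for an injective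
  `σ : M → N` into an invertible module, then `c • f ∈ A ∙ σ` for every `f : M → N`;
* `exists_H1_baseChange_equiv` : `H¹` of a two-chart bundle commutes with every base change;
* `unit_H1_finite_free` : `H¹(𝒪_B)` is a finite free `B`-module of rank `genus D`;
* `generates_of_range_eq` (**M1**) : a morphism `σ : G → N'` which identifies `G` with the
  sub-datum `(I • N'₀, …)` of `N'`, for an ideal `I` with `A₀ ⧸ I` finite flat of rank `genus D`
  over `B`, and whose image on the chart at infinity contains `u • N'₁` for some `u ≡ 1 mod y`,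
  generates all morphisms `G → N'` as soon as `H¹(Hom(G, N')) = 0`;
* `ideal_eq_of_equiv` (**M2**) : two such sub-data of `N'` which are isomorphic as two-chart
  bundles are cut out by the same ideal;
* `chartMono_of_subModel` (**M3**) : the `ChartMono` clause for a chart `(E, P)` all of whose
  base changes are such sub-data of the base bundle, with classifying ideals determining the
  point.
-/

set_option autoImplicit false

open scoped TensorProduct

namespace Fermat.Agent.S25.helper1227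

universe u

/-! ## Generic commutative algebra -/

section RankInvertible

attribute [local instance] Algebra.TensorProduct.rightAlgebra in
/-- **Rank of an invertible module over a finite flat algebra.** If `C` is a finite flat
`B`-algebra and `P` is an invertible `C`-module, then `P` has the same rank as `C` at every
prime of `B` (the fibres of `C` are artinian, hence have trivial Picard group). -/
theorem rankAtStalk_eq_of_invertible {B C P : Type*} [CommRing B] [CommRing C] [Algebra B C]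
    [Module.Finite B C] [Module.Flat B C] [AddCommGroup P] [Module C P] [Module B P]
    [IsScalarTower B C P] [Module.Invertible C P] (p : PrimeSpectrum B) :
    Module.rankAtStalk (R := B) P p = Module.rankAtStalk (R := B) C p := by
  have hfin : Module.Finite B P := Module.Finite.trans C P
  have hflat : Module.Flat B P := Module.Flat.trans B C P
  rw [Module.rankAtStalk_eq, Module.rankAtStalk_eq]
  let κ := p.asIdeal.ResidueField
  have hart : IsArtinianRing (κ ⊗[B] C) := IsArtinianRing.of_finite κ (κ ⊗[B] C)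
  have hfree : Module.Free (κ ⊗[B] C) ((κ ⊗[B] C) ⊗[C] P) := inferInstance
  obtain ⟨e⟩ := Module.Invertible.free_iff_linearEquiv.mp hfree
  have e1 : ((κ ⊗[B] C) ⊗[C] P) ≃ₗ[κ] κ ⊗[B] P :=
    Algebra.IsPushout.cancelBaseChange B κ C (κ ⊗[B] C) P
  have e2 : ((κ ⊗[B] C) ⊗[C] P) ≃ₗ[κ] (κ ⊗[B] C) := e.restrictScalars κ
  exact (e1.symm.trans e2).finrank_eq

/-- For an invertible `A`-module `L` and an ideal `I` of `A` with `A ⧸ I` finite flat over a
base ring `B`, the `B`-module `L ⧸ I • L` is finite flat, of the same rank as `A ⧸ I` at every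
prime of `B`. -/
theorem quotient_smul_top_finite_flat_rank {B A L : Type*} [CommRing B] [CommRing A]
    [Algebra B A] (I : Ideal A) [Module.Finite B (A ⧸ I)] [Module.Flat B (A ⧸ I)]
    [AddCommGroup L] [Module A L] [Module B L] [IsScalarTower B A L] [Module.Invertible A L] :
    Module.Finite B (L ⧸ I • (⊤ : Submodule A L)) ∧
      Module.Flat B (L ⧸ I • (⊤ : Submodule A L)) ∧
      ∀ p : PrimeSpectrum B, Module.rankAtStalk (R := B) (L ⧸ I • (⊤ : Submodule A L)) p =
        Module.rankAtStalk (R := B) (A ⧸ I) p := by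
  let e : ((A ⧸ I) ⊗[A] L) ≃ₗ[B] (L ⧸ I • (⊤ : Submodule A L)) :=
    (TensorProduct.quotTensorEquivQuotSMul L I).restrictScalars B
  have hfin : Module.Finite B ((A ⧸ I) ⊗[A] L) := Module.Finite.trans (A ⧸ I) _
  have hflat : Module.Flat B ((A ⧸ I) ⊗[A] L) := Module.Flat.trans B (A ⧸ I) _
  refine ⟨Module.Finite.equiv e, Module.Flat.of_linearEquiv e.symm, fun p => ?_⟩
  rw [← Module.rankAtStalk_eq_of_equiv e]
  exact rankAtStalk_eq_of_invertible (C := A ⧸ I) p

end RankInvertible

section EndTrick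

variable {A M N : Type*} [CommRing A] [AddCommGroup M] [Module A M] [AddCommGroup N]
  [Module A N]

/-- If `σ : M → N` is injective into an invertible module and `c • N ⊆ σ(M)`, then for every
`f : M → N` the map `c • f` is a multiple of `σ` (because `n ↦ f (σ⁻¹ (c • n))` is an
endomorphism of `N`, hence a homothety). -/
theorem exists_smul_eq_smul_of_forall_smul_mem_range [Module.Invertible A N] (σ : M →ₗ[A] N)
    (hσ : Function.Injective σ) (c : A) (hc : ∀ n : N, c • n ∈ LinearMap.range σ)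
    (f : M →ₗ[A] N) : ∃ a : A, c • f = a • σ := by
  let e : M ≃ₗ[A] LinearMap.range σ := LinearEquiv.ofInjective σ hσ
  let g : N →ₗ[A] LinearMap.range σ :=
    (c • (LinearMap.id : N →ₗ[A] N)).codRestrict (LinearMap.range σ) (fun n => by simpa using hc n)
  let ψ : N →ₗ[A] N := f ∘ₗ e.symm.toLinearMap ∘ₗ g
  obtain ⟨a, ha⟩ := (Module.Invertible.toModuleEnd_bijective (R := A) (M := N)).2 ψ
  refine ⟨a, LinearMap.ext fun m => ?_⟩
  have h1 : g (σ m) = e (c • m) := Subtype.ext (by simp [g, e])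
  have h2 : ψ (σ m) = f (c • m) := by
    simp only [ψ, LinearMap.comp_apply, LinearEquiv.coe_coe, h1, LinearEquiv.symm_apply_apply]
  have h3 : ψ (σ m) = a • σ m := by rw [← ha]; rfl
  rw [LinearMap.smul_apply, LinearMap.smul_apply, ← h3, h2, map_smul]

/-- For a morphism `σ : M → N` of invertible modules with image `I • N`, the submodule
`I • Hom(M, N)` of `Hom(M, N)` is the cyclic submodule generated by `σ`. -/
theorem mem_smul_top_iff_of_range_eq [Module.Invertible A M] [Module.Invertible A N]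
    (σ : M →ₗ[A] N) (I : Ideal A) (hI : LinearMap.range σ = I • (⊤ : Submodule A N))
    (e : M →ₗ[A] N) :
    e ∈ I • (⊤ : Submodule A (M →ₗ[A] N)) ↔ ∃ a : A, e = a • σ := by
  have : Module.Invertible A (M →ₗ[A] N) := helper1397.invertible_linearMap _ _ _
  have hzero : helper1397.zeroIdeal A σ = I := by
    apply helper69.ideal_smul_top_injective (A := A) (N := N)
    change helper1397.zeroIdeal A σ • (⊤ : Submodule A N) = I • ⊤
    rw [← helper1397.range_eq_zeroIdeal_smul_top σ, hI]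
  rw [← hzero, ← helper1397.span_singleton_eq_zeroIdeal_smul_top, Submodule.mem_span_singleton]
  exact ⟨fun ⟨a, ha⟩ => ⟨a, ha.symm⟩, fun ⟨a, ha⟩ => ⟨a, ha.symm⟩⟩

end EndTrick

/-! ## `H¹` and base change; `H¹` of the unit datum -/

open Fermat.Agent.S25.helper1705 Fermat.Agent.S25.helper2945

section H1BaseChange

variable {k : Type u} [Field k] {D : CurveDatum k} {B : Type u} [CommRing B] [Algebra k B]
  {B' : Type u} [CommRing B'] [Algebra k B']

/-- The Čech differential of a base change, computed through `TensorProduct.prodRight`. -/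
theorem delta_baseChange_apply (G : GlueDatum D B) (L : Type*) [CommRing L] [Algebra B L]
    (w : L ⊗[B] (G.M₀ × G.M₁)) :
    G.delta.baseChange L w =
      G.ρ₀B.baseChange L (TensorProduct.prodRight B L L G.M₀ G.M₁ w).1 -
        G.ρ₁B.baseChange L (TensorProduct.prodRight B L L G.M₀ G.M₁ w).2 := by
  induction w using TensorProduct.induction_on with
  | zero => simp
  | tmul l p =>
    simp only [LinearMap.baseChange_tmul, GlueDatum.delta_apply, TensorProduct.prodRight_tmul,
      TensorProduct.tmul_sub, GlueDatum.ρ₀B_apply, GlueDatum.ρ₁B_apply]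
  | add x y hx hy =>
    simp only [map_add, hx, hy, Prod.fst_add, Prod.snd_add]
    abel

/-- **`H¹` commutes with base change.** For a two-chart bundle `G` over `B` and `φ : B → B'`,
`H¹(G.baseChange φ) ≃ B' ⊗[B] H¹(G)`, `B'`-linearly (right exactness of the tensor product). -/
theorem exists_H1_baseChange_equiv (G : GlueDatum D B) (φ : B →ₐ[k] B') :
    letI : Algebra B B' := φ.toRingHom.toAlgebra
    Nonempty ((G.baseChange φ).H1 ≃ₗ[B'] B' ⊗[B] G.H1) := by
  let _ : Algebra B B' := φ.toRingHom.toAlgebra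
  obtain ⟨c₀, c₁, c₀₁, h₀, h₁⟩ := helper7186.exists_baseChangeCmp G φ
  let eV : ((G.baseChange φ).M₀ × (G.baseChange φ).M₁) ≃ₗ[B'] B' ⊗[B] (G.M₀ × G.M₁) :=
    (c₀.prodCongr c₁) ≪≫ₗ (TensorProduct.prodRight B B' B' G.M₀ G.M₁).symm
  have hsq : ∀ v, (G.delta.baseChange B') (eV v) = c₀₁ ((G.baseChange φ).delta v) := by
    rintro ⟨a, b⟩
    rw [delta_baseChange_apply, GlueDatum.delta_apply, map_sub, h₀, h₁]
    simp [eV]
  -- the cokernel of the base-changed differential
  let q : B' ⊗[B] G.M₀₁ →ₗ[B'] B' ⊗[B] G.H1 := (LinearMap.range G.delta).mkQ.baseChange B'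
  have hq : Function.Surjective q := by
    rw [LinearMap.baseChange_eq_ltensor]
    exact LinearMap.lTensor_surjective B' (Submodule.mkQ_surjective _)
  have hex : Function.Exact (G.delta.baseChange B') q := by
    rw [LinearMap.baseChange_eq_ltensor, LinearMap.baseChange_eq_ltensor]
    exact lTensor_exact B' (LinearMap.exact_map_mkQ_range G.delta) (Submodule.mkQ_surjective _)
  let Q : (G.baseChange φ).M₀₁ →ₗ[B'] B' ⊗[B] G.H1 := q ∘ₗ c₀₁.toLinearMap
  have hQs : Function.Surjective Q := hq.comp c₀₁.surjective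
  have hQker : LinearMap.ker Q = LinearMap.range (G.baseChange φ).delta := by
    ext z
    rw [LinearMap.mem_ker, LinearMap.comp_apply, LinearEquiv.coe_coe, hex (c₀₁ z)]
    constructor
    · rintro ⟨w, hw⟩
      obtain ⟨v, rfl⟩ := eV.surjective w
      rw [hsq] at hw
      exact ⟨v, c₀₁.injective hw⟩
    · rintro ⟨v, rfl⟩
      exact ⟨eV v, hsq v⟩
  exact ⟨(Submodule.quotEquivOfEq _ _ hQker.symm).trans (Q.quotKerEquivOfSurjective hQs)⟩

/-- A module which is a base change of a finite-dimensional vector space is finite free of the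
same rank (auxiliary, to keep the algebra structure on the base explicit). -/
theorem finite_free_rank_of_equiv_baseChange {k' B₁ V H : Type*} [Field k'] [CommRing B₁]
    [algk : Algebra k' B₁] [AddCommGroup V] [Module k' V] [Module.Finite k' V] [AddCommGroup H]
    [Module B₁ H] (e : H ≃ₗ[B₁] B₁ ⊗[k'] V) :
    Module.Finite B₁ H ∧ Module.Free B₁ H ∧
      ∀ p : PrimeSpectrum B₁, Module.rankAtStalk (R := B₁) H p = Module.finrank k' V := by
  have hfree : Module.Free B₁ H := Module.Free.of_equiv e.symm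
  refine ⟨Module.Finite.equiv e.symm, hfree, fun p => ?_⟩
  have : Nontrivial B₁ := p.nontrivial
  rw [Module.rankAtStalk_eq_finrank_of_free, e.finrank_eq, Module.finrank_baseChange]
  rfl

variable (D B) in
/-- **`H¹(𝒪_B)` is finite free of rank `g`.** For every `k`-algebra `B`, the `B`-module
`H¹` of the unit datum over `B` is finite and free, of rank `genus D = dim_k H¹(𝒪)` at every
prime. -/
theorem unit_H1_finite_free [IsAlgClosed k] :
    Module.Finite B (GlueDatum.unit D B).H1 ∧ Module.Free B (GlueDatum.unit D B).H1 ∧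
      ∀ p : PrimeSpectrum B,
        Module.rankAtStalk (R := B) (GlueDatum.unit D B).H1 p = helper8573.genus D := by
  have hfin : Module.Finite k (GlueDatum.unit D k).H1 :=
    helper239.finite_H1_field (GlueDatum.unit D k)
  obtain ⟨e⟩ := exists_H1_baseChange_equiv (GlueDatum.unit D k) (Algebra.ofId k B)
  obtain ⟨f⟩ := helper743.unit_baseChange (D := D) (Algebra.ofId k B)
  exact finite_free_rank_of_equiv_baseChange (algk := (Algebra.ofId k B).toRingHom.toAlgebra)
    ((helper743.isoH1Equiv f).symm.trans e)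

variable (D B) in
/-- The projection `A₀₁(B) → H¹(𝒪_B)`, as a `B`-linear map for the algebra structure of
`D.A₀₁ B`. -/
noncomputable def unitH1Proj : D.A₀₁ B →ₗ[B] (GlueDatum.unit D B).H1 where
  toFun a := (Submodule.Quotient.mk (a : (GlueDatum.unit D B).M₀₁) : (GlueDatum.unit D B).H1)
  map_add' _ _ := rfl
  map_smul' b a := by
    have h : (b • a : D.A₀₁ B) =
        (b • (a : (GlueDatum.unit D B).M₀₁) : (GlueDatum.unit D B).M₀₁) := Algebra.smul_def b a
    exact congrArg (Submodule.Quotient.mk (p := LinearMap.range (GlueDatum.unit D B).delta)) h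

theorem unitH1Proj_surjective : Function.Surjective (unitH1Proj D B) :=
  Submodule.mkQ_surjective (LinearMap.range (GlueDatum.unit D B).delta)

theorem unitH1Proj_eq_zero_iff (a : D.A₀₁ B) :
    unitH1Proj D B a = 0 ↔ ∃ (a₀ : D.A₀ B) (a₁ : D.A₁ B),
      a = algebraMap (D.A₀ B) (D.A₀₁ B) a₀ - algebraMap (D.A₁ B) (D.A₀₁ B) a₁ := by
  refine (Submodule.Quotient.mk_eq_zero (LinearMap.range (GlueDatum.unit D B).delta)
    (x := a)).trans ?_
  constructor
  · rintro ⟨⟨a₀, a₁⟩, h⟩
    exact ⟨a₀, a₁, h.symm.trans (GlueDatum.delta_apply (GlueDatum.unit D B) (a₀, a₁))⟩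
  · rintro ⟨a₀, a₁, rfl⟩
    exact ⟨(a₀, a₁), GlueDatum.delta_apply (GlueDatum.unit D B) (a₀, a₁)⟩

end H1BaseChange

/-! ## M1: a sub-datum inclusion generates all morphisms -/

section Generates

open Fermat.Agent.S25.helper1397 (homDatum homRes₀ homRes₁)

variable {k : Type u} [Field k] {D : CurveDatum k} {B : Type u} [CommRing B] [Algebra k B]

/-- A morphism of two-chart bundles is a global section of the Hom datum. -/
theorem homRes_eq {G N' : GlueDatum D B} (σ : helper8573.Mor G N') :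
    homRes₀ G N' σ.f₀ = homRes₁ G N' σ.f₁ := by
  have h0 : σ.f₀₁ = homRes₀ G N' σ.f₀ :=
    helper1397.ext_ρ₀ G N' fun m => by rw [σ.comm₀, helper1397.homRes₀_apply]
  have h1 : σ.f₀₁ = homRes₁ G N' σ.f₁ :=
    helper1397.ext_ρ₁ G N' fun m => by rw [σ.comm₁, helper1397.homRes₁_apply]
  exact h0.symm.trans h1

/-- The component at infinity of a morphism is injective as soon as the component on the first
chart is. -/
theorem injective_f₁_of_injective_f₀ [IsAlgClosed k] {G N' : GlueDatum D B}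
    (σ : helper8573.Mor G N') (h₀ : Function.Injective σ.f₀) : Function.Injective σ.f₁ := by
  have h₀₁ : Function.Injective σ.f₀₁ :=
    helper6121.GlueDatum.injective_overlap σ.f₀ σ.f₀₁ σ.comm₀ h₀
  intro m m' h
  apply helper1804.Lattice.ρ₁_injective G
  apply h₀₁
  rw [σ.comm₁, σ.comm₁, h]

/-- **Sections of a two-chart bundle with a section generating near `V(y)`.** Let `E` be a
two-chart bundle over `B` and `(s₀, s₁)` a global section such that `A₀ • s₀ = I • E₀` for an
ideal `I` with `A₀ ⧸ I` finite flat of rank `genus D` over `B`, `s₀` is faithful, and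
`u • E₁ ⊆ A₁ • s₁` for some `u ≡ 1 mod y`. If `H¹(E) = 0` then `H⁰(E) = B • s`. -/
theorem exists_smul_eq_of_section [IsAlgClosed k] (E : GlueDatum D B) (s₀ : E.M₀) (s₁ : E.M₁)
    (hs : E.ρ₀ s₀ = E.ρ₁ s₁) (hfaith : ∀ a : D.A₀ B, a • s₀ = 0 → a = 0)
    (I : Ideal (D.A₀ B))
    (hspan : ∀ e : E.M₀, e ∈ I • (⊤ : Submodule (D.A₀ B) E.M₀) ↔ ∃ a : D.A₀ B, e = a • s₀)
    [Module.Finite B (D.A₀ B ⧸ I)] [Module.Flat B (D.A₀ B ⧸ I)]
    (hrank : ∀ (𝔪 : Ideal B) [𝔪.IsMaximal],
      Module.rankAtStalk (R := B) (D.A₀ B ⧸ I) ⟨𝔪, inferInstance⟩ = helper8573.genus D)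
    (u v : D.A₁ B) (huv : u + yB D B * v = 1)
    (hu : ∀ e : E.M₁, ∃ a : D.A₁ B, u • e = a • s₁)
    (hH1 : LinearMap.range E.delta = ⊤)
    (e₀ : E.M₀) (e₁ : E.M₁) (he : E.ρ₀ e₀ = E.ρ₁ e₁) :
    ∃ b : B, e₀ = b • s₀ ∧ e₁ = b • s₁ := by
  classical
  -- the cokernel `T` of `a ↦ a • s₀`
  obtain ⟨hTfin, hTflat, hTrank⟩ := quotient_smul_top_finite_flat_rank (B := B) (A := D.A₀ B)
    (L := E.M₀) I
  let π : E.M₀ →ₗ[B] (E.M₀ ⧸ I • (⊤ : Submodule (D.A₀ B) E.M₀)) :=
    (Submodule.mkQ (I • (⊤ : Submodule (D.A₀ B) E.M₀))).restrictScalars B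
  have hπs : Function.Surjective π := fun q =>
    Submodule.Quotient.mk_surjective (I • (⊤ : Submodule (D.A₀ B) E.M₀)) q
  have hπ : ∀ e : E.M₀, π e = 0 ↔ ∃ a : D.A₀ B, e = a • s₀ := by
    intro e
    change Submodule.Quotient.mk e = 0 ↔ _
    rw [Submodule.Quotient.mk_eq_zero]
    exact hspan e
  -- the cokernel `H = H¹(𝒪_B)`
  obtain ⟨hHfin, hHfree, hHrank⟩ := unit_H1_finite_free D B
  have hinj : ∀ a : D.A₀₁ B, a • E.ρ₀ s₀ = 0 → a = 0 :=
    helper7849.smul_injective_localization (A := D.A₀ B) (A' := D.A₀₁ B) (xB D B) E.ρ₀ hfaith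
  have hH1' : ∀ e₀₁ : E.M₀₁, ∃ (e₀ : E.M₀) (e₁ : E.M₁), e₀₁ = E.ρ₀ e₀ - E.ρ₁ e₁ := by
    intro e₀₁
    obtain ⟨⟨a, b⟩, hab⟩ := LinearMap.range_eq_top.mp hH1 e₀₁
    exact ⟨a, b, by rw [← hab, GlueDatum.delta_apply]⟩
  have hr : ∀ (m : Ideal B) [m.IsMaximal],
      Module.rankAtStalk (R := B) (E.M₀ ⧸ I • (⊤ : Submodule (D.A₀ B) E.M₀)) ⟨m, inferInstance⟩ =
        Module.rankAtStalk (R := B) (GlueDatum.unit D B).H1 ⟨m, inferInstance⟩ := by
    intro m _
    rw [hTrank, hrank m, hHrank]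
  have hH0 : ∀ (a₀ : D.A₀ B) (a₁ : D.A₁ B),
      algebraMap (D.A₀ B) (D.A₀₁ B) a₀ = algebraMap (D.A₁ B) (D.A₀₁ B) a₁ →
      ∃ b : B, a₀ = algebraMap B (D.A₀ B) b ∧ a₁ = algebraMap B (D.A₁ B) b :=
    fun a₀ a₁ h => helper3610.unit_sections D B a₀ a₁ h
  have hHflat : Module.Flat B (GlueDatum.unit D B).H1 := inferInstance
  exact helper7849.section_eq_smul_of_rank (B := B) (yB D B) E.ρ₀ E.ρ₁
    s₀ s₁ hs hinj u v huv hu hH1' π hπs hπ (unitH1Proj D B) unitH1Proj_surjective
    unitH1Proj_eq_zero_iff hr hH0 e₀ e₁ he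

/-- **M1 (sections form).** Let `σ : G → N'` be a morphism of two-chart bundles over `B` such
that `σ₀` is injective with image `I • N'₀`, where `A₀ ⧸ I` is finite flat over `B` of rank
`genus D` at every closed point, and such that the image of `σ₁` contains `u • N'₁` for some
`u ≡ 1 mod y`. If `H¹(Hom(G, N')) = 0` then every pair `(e₀, e₁)` of chart maps `G → N'` which
agree on the overlap is `b • σ` for some `b : B`. -/
theorem exists_smul_eq_of_range_eq [IsAlgClosed k] {G N' : GlueDatum D B}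
    (σ : helper8573.Mor G N') (I : Ideal (D.A₀ B)) (h₀ : Function.Injective σ.f₀)
    (hI : LinearMap.range σ.f₀ = I • (⊤ : Submodule (D.A₀ B) N'.M₀))
    [Module.Finite B (D.A₀ B ⧸ I)] [Module.Flat B (D.A₀ B ⧸ I)]
    (hrank : ∀ (𝔪 : Ideal B) [𝔪.IsMaximal],
      Module.rankAtStalk (R := B) (D.A₀ B ⧸ I) ⟨𝔪, inferInstance⟩ = helper8573.genus D)
    (u v : D.A₁ B) (huv : u + yB D B * v = 1)
    (hu : ∀ n : N'.M₁, u • n ∈ LinearMap.range σ.f₁)
    (hH1 : LinearMap.range (homDatum G N').delta = ⊤)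
    (e₀ : G.M₀ →ₗ[D.A₀ B] N'.M₀) (e₁ : G.M₁ →ₗ[D.A₁ B] N'.M₁)
    (he : homRes₀ G N' e₀ = homRes₁ G N' e₁) :
    ∃ b : B, (∀ m, e₀ m = b • σ.f₀ m) ∧ (∀ m, e₁ m = b • σ.f₁ m) := by
  have h₁ : Function.Injective σ.f₁ := injective_f₁_of_injective_f₀ σ h₀
  have hfaith : ∀ a : D.A₀ B, a • σ.f₀ = 0 → a = 0 := by
    intro a ha
    have h2 : ∀ m : G.M₀, a • m = (0 : D.A₀ B) • m := by
      intro m
      apply h₀
      have h3 : (a • σ.f₀) m = 0 := LinearMap.congr_fun ha m
      rw [zero_smul, map_zero, map_smul]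
      exact h3
    exact FaithfulSMul.eq_of_smul_eq_smul h2
  obtain ⟨b, hb₀, hb₁⟩ := exists_smul_eq_of_section (homDatum G N') σ.f₀ σ.f₁ (homRes_eq σ)
    hfaith I (fun e => mem_smul_top_iff_of_range_eq σ.f₀ I hI e) hrank u v huv
    (fun e => exists_smul_eq_smul_of_forall_smul_mem_range σ.f₁ h₁ u hu e) hH1 e₀ e₁ he
  exact ⟨b, fun m => LinearMap.congr_fun hb₀ m, fun m => LinearMap.congr_fun hb₁ m⟩

/-- **M1.** A morphism `σ : G → N'` which identifies `G` with the sub-datum of `N'` cut out by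
an ideal `I` of the first chart (`A₀ ⧸ I` finite flat of rank `genus D` over `B`), and whose
image at infinity contains `u • N'₁` for some `u ≡ 1 mod y`, generates all morphisms `G → N'`
as soon as `H¹(Hom(G, N')) = 0`. -/
theorem generates_of_range_eq [IsAlgClosed k] {G N' : GlueDatum D B}
    (σ : helper8573.Mor G N') (I : Ideal (D.A₀ B)) (h₀ : Function.Injective σ.f₀)
    (hI : LinearMap.range σ.f₀ = I • (⊤ : Submodule (D.A₀ B) N'.M₀))
    [Module.Finite B (D.A₀ B ⧸ I)] [Module.Flat B (D.A₀ B ⧸ I)]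
    (hrank : ∀ (𝔪 : Ideal B) [𝔪.IsMaximal],
      Module.rankAtStalk (R := B) (D.A₀ B ⧸ I) ⟨𝔪, inferInstance⟩ = helper8573.genus D)
    (u v : D.A₁ B) (huv : u + yB D B * v = 1)
    (hu : ∀ n : N'.M₁, u • n ∈ LinearMap.range σ.f₁)
    (hH1 : LinearMap.range (homDatum G N').delta = ⊤) : σ.Generates := fun τ =>
  exists_smul_eq_of_range_eq σ I h₀ hI hrank u v huv hu hH1 τ.f₀ τ.f₁ (homRes_eq τ)

end Generates

/-! ## M2: isomorphic sub-data are equal -/

section Mono

open Fermat.Agent.S25.helper1397 (homDatum)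

variable {k : Type u} [Field k] {D : CurveDatum k} {B : Type u} [CommRing B] [Algebra k B]

/-- Ideals `I' ≤ I` of a `B`-algebra `A` whose quotients are finite flat `B`-modules of the
same rank at every closed point are equal. -/
theorem ideal_eq_of_le_of_rankAtStalk_eq {B A : Type*} [CommRing B] [CommRing A] [Algebra B A]
    (I I' : Ideal A) (hle : I' ≤ I) [Module.Finite B (A ⧸ I)] [Module.Flat B (A ⧸ I)]
    [Module.Finite B (A ⧸ I')] [Module.Flat B (A ⧸ I')]
    (hr : ∀ (𝔪 : Ideal B) [𝔪.IsMaximal],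
      Module.rankAtStalk (R := B) (A ⧸ I') ⟨𝔪, inferInstance⟩ =
        Module.rankAtStalk (R := B) (A ⧸ I) ⟨𝔪, inferInstance⟩) : I = I' := by
  let q : (A ⧸ I') →ₗ[B] (A ⧸ I) := (Submodule.mapQ I' I LinearMap.id hle).restrictScalars B
  have hq : Function.Surjective q := by
    intro z
    obtain ⟨a, rfl⟩ := Submodule.Quotient.mk_surjective I z
    exact ⟨Submodule.Quotient.mk a, rfl⟩
  have hbij := Module.bijective_of_surjective_of_rankAtStalk_eq hq hr
  refine le_antisymm (fun a ha => ?_) hle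
  have h1 : q (Submodule.Quotient.mk a) = q 0 := by
    rw [map_zero]
    exact (Submodule.Quotient.mk_eq_zero I).mpr ha
  exact (Submodule.Quotient.mk_eq_zero I').mp (hbij.1 h1)

/-- **M2.** Let `σ : G → N'` and `σ' : G' → N'` identify `G`, `G'` with the sub-data of `N'` cut
out by ideals `I`, `I'` of the first chart whose quotients are finite flat of rank `genus D`
over `B`. If `σ` satisfies the hypotheses of M1 (image at infinity contains `u • N'₁` with
`u ≡ 1 mod y`, and `H¹(Hom(G, N')) = 0`) and `G ≅ G'`, then `I = I'`. -/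
theorem ideal_eq_of_equiv [IsAlgClosed k] {G G' N' : GlueDatum D B}
    (σ : helper8573.Mor G N') (I : Ideal (D.A₀ B)) (h₀ : Function.Injective σ.f₀)
    (hI : LinearMap.range σ.f₀ = I • (⊤ : Submodule (D.A₀ B) N'.M₀))
    [Module.Finite B (D.A₀ B ⧸ I)] [Module.Flat B (D.A₀ B ⧸ I)]
    (hrank : ∀ (𝔪 : Ideal B) [𝔪.IsMaximal],
      Module.rankAtStalk (R := B) (D.A₀ B ⧸ I) ⟨𝔪, inferInstance⟩ = helper8573.genus D)
    (u v : D.A₁ B) (huv : u + yB D B * v = 1)
    (hu : ∀ n : N'.M₁, u • n ∈ LinearMap.range σ.f₁)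
    (hH1 : LinearMap.range (homDatum G N').delta = ⊤)
    (σ' : helper8573.Mor G' N') (I' : Ideal (D.A₀ B))
    (hI' : LinearMap.range σ'.f₀ = I' • (⊤ : Submodule (D.A₀ B) N'.M₀))
    [Module.Finite B (D.A₀ B ⧸ I')] [Module.Flat B (D.A₀ B ⧸ I')]
    (hrank' : ∀ (𝔪 : Ideal B) [𝔪.IsMaximal],
      Module.rankAtStalk (R := B) (D.A₀ B ⧸ I') ⟨𝔪, inferInstance⟩ = helper8573.genus D)
    (h : G.Equiv G') : I = I' := by
  obtain ⟨e⟩ := h
  -- `σ' ∘ e = b • σ`
  obtain ⟨b, hb₀, -⟩ := generates_of_range_eq σ I h₀ hI hrank u v huv hu hH1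
    (σ'.comp (helper8573.Mor.ofIso e))
  -- hence `I' • N'₀ ≤ I • N'₀`
  have hle : I' • (⊤ : Submodule (D.A₀ B) N'.M₀) ≤ I • (⊤ : Submodule (D.A₀ B) N'.M₀) := by
    rw [← hI', ← hI]
    rintro _ ⟨m', rfl⟩
    obtain ⟨m, rfl⟩ := e.e₀.surjective m'
    have h1 : σ'.f₀ (e.e₀ m) = b • σ.f₀ m := hb₀ m
    rw [h1]
    exact ⟨b • m, by rw [GlueDatum.smul_def₀ G b m, map_smul]; rfl⟩
  have hle' : I' ≤ I := by
    have h2 := Submodule.colon_mono hle (subset_refl (Set.univ : Set N'.M₀))
    rwa [helper69.colon_ideal_smul_top, helper69.colon_ideal_smul_top] at h2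
  exact ideal_eq_of_le_of_rankAtStalk_eq I I' hle' fun 𝔪 _ => by rw [hrank 𝔪, hrank' 𝔪]

/-! ### Sub-data of a bundle cut out by an ideal of the first chart -/

/-- `G` is, through some morphism `G → N'`, the sub-datum of `N'` cut out by the ideal `I` of
the first chart, and the divisor of `I` does not meet `V(y)`: the morphism is injective on the
first chart with image `I • N'₀`, and its image on the chart at infinity contains `u • N'₁` for
some `u ≡ 1 mod y`. -/
def IsSubDatum (G N' : GlueDatum D B) (I : Ideal (D.A₀ B)) : Prop :=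
  ∃ σ : helper8573.Mor G N', Function.Injective σ.f₀ ∧
    LinearMap.range σ.f₀ = I • (⊤ : Submodule (D.A₀ B) N'.M₀) ∧
    ∃ u v : D.A₁ B, u + yB D B * v = 1 ∧ ∀ n : N'.M₁, u • n ∈ LinearMap.range σ.f₁

/-- The property `IsSubDatum` only depends on the isomorphism class of `G`. -/
theorem IsSubDatum.of_equiv {G G' N' : GlueDatum D B} {I : Ideal (D.A₀ B)} (h : G.Equiv G')
    (hG' : IsSubDatum G' N' I) : IsSubDatum G N' I := by
  obtain ⟨e⟩ := h
  obtain ⟨σ, h₀, hI, u, v, huv, hu⟩ := hG'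
  refine ⟨σ.comp (helper8573.Mor.ofIso e), h₀.comp e.e₀.injective, ?_, u, v, huv, fun n => ?_⟩
  · rw [← hI]
    apply le_antisymm
    · rintro _ ⟨m, rfl⟩
      exact ⟨e.e₀ m, rfl⟩
    · rintro _ ⟨m, rfl⟩
      exact ⟨e.e₀.symm m, by
        change σ.f₀ (e.e₀ (e.e₀.symm m)) = σ.f₀ m
        rw [LinearEquiv.apply_symm_apply]⟩
  · obtain ⟨m, hm⟩ := hu n
    exact ⟨e.e₁.symm m, by
      change σ.f₁ (e.e₁ (e.e₁.symm m)) = u • n
      rw [LinearEquiv.apply_symm_apply, hm]⟩

/-- The twist `(I₀ • N'₀, I₁ • N'₁)` of helper6121 is a sub-datum in the sense of `IsSubDatum`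
as soon as `I₁` contains some `u ≡ 1 mod y`. -/
theorem isSubDatum_twist (N' : GlueDatum D B) (I₀ : Ideal (D.A₀ B)) (I₁ : Ideal (D.A₁ B))
    [Module.Invertible (D.A₀ B) I₀] [Module.Invertible (D.A₁ B) I₁]
    (h : I₀.map (algebraMap (D.A₀ B) (D.A₀₁ B)) = I₁.map (algebraMap (D.A₁ B) (D.A₀₁ B)))
    (u v : D.A₁ B) (huv : u + yB D B * v = 1) (hu : u ∈ I₁) :
    IsSubDatum (helper6121.GlueDatum.twist N' I₀ I₁ h) N' I₀ := by
  refine ⟨⟨helper6121.GlueDatum.ofSubmodules.ι₀ N' _ _ _, helper6121.GlueDatum.ofSubmodules.ι₁ N' _ _ _,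
    helper6121.GlueDatum.ofSubmodules.ι₀₁ N' _ _ _, fun m => rfl, fun m => rfl⟩,
    Subtype.val_injective, Submodule.range_subtype _, u, v, huv, fun n => ?_⟩
  exact ⟨⟨u • n, Submodule.smul_mem_smul hu Submodule.mem_top⟩, rfl⟩

/-- **M1** for `IsSubDatum`. -/
theorem IsSubDatum.exists_generates [IsAlgClosed k] {G N' : GlueDatum D B} {I : Ideal (D.A₀ B)}
    (hG : IsSubDatum G N' I) [Module.Finite B (D.A₀ B ⧸ I)] [Module.Flat B (D.A₀ B ⧸ I)]
    (hrank : ∀ (𝔪 : Ideal B) [𝔪.IsMaximal],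
      Module.rankAtStalk (R := B) (D.A₀ B ⧸ I) ⟨𝔪, inferInstance⟩ = helper8573.genus D)
    (hH1 : LinearMap.range (homDatum G N').delta = ⊤) :
    ∃ σ : helper8573.Mor G N', Function.Injective σ.f₀ ∧
      LinearMap.range σ.f₀ = I • (⊤ : Submodule (D.A₀ B) N'.M₀) ∧ σ.Generates := by
  obtain ⟨σ, h₀, hI, u, v, huv, hu⟩ := hG
  exact ⟨σ, h₀, hI, generates_of_range_eq σ I h₀ hI hrank u v huv hu hH1⟩

/-- **M2** for `IsSubDatum`: isomorphic sub-data of `N'` (ideals of the first chart with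
finite flat quotients of rank `genus D`, `H¹(Hom(G, N')) = 0`) are cut out by the same ideal. -/
theorem IsSubDatum.ideal_eq [IsAlgClosed k] {G G' N' : GlueDatum D B} {I I' : Ideal (D.A₀ B)}
    (hG : IsSubDatum G N' I) (hG' : IsSubDatum G' N' I')
    [Module.Finite B (D.A₀ B ⧸ I)] [Module.Flat B (D.A₀ B ⧸ I)]
    [Module.Finite B (D.A₀ B ⧸ I')] [Module.Flat B (D.A₀ B ⧸ I')]
    (hrank : ∀ (𝔪 : Ideal B) [𝔪.IsMaximal],
      Module.rankAtStalk (R := B) (D.A₀ B ⧸ I) ⟨𝔪, inferInstance⟩ = helper8573.genus D)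
    (hrank' : ∀ (𝔪 : Ideal B) [𝔪.IsMaximal],
      Module.rankAtStalk (R := B) (D.A₀ B ⧸ I') ⟨𝔪, inferInstance⟩ = helper8573.genus D)
    (hH1 : LinearMap.range (homDatum G N').delta = ⊤) (h : G.Equiv G') : I = I' := by
  obtain ⟨σ, h₀, hI, u, v, huv, hu⟩ := hG
  obtain ⟨σ', -, hI', -⟩ := hG'
  exact ideal_eq_of_equiv σ I h₀ hI hrank u v huv hu hH1 σ' I' hI' hrank' h

end Mono

/-! ## M3: the `ChartMono` clause -/

section ChartMono

open Fermat.Agent.S25.helper1397 (homDatum homRes₀ homRes₁)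

variable {k : Type u} [Field k] {D : CurveDatum k} {B : Type u} [CommRing B] [Algebra k B]

/-- `H¹(Hom(G, N')) = 0` in terms of linear maps. -/
theorem range_delta_homDatum_iff {G N' : GlueDatum D B} :
    LinearMap.range (homDatum G N').delta = ⊤ ↔
      ∀ z : G.M₀₁ →ₗ[D.A₀₁ B] N'.M₀₁, ∃ (a : G.M₀ →ₗ[D.A₀ B] N'.M₀)
        (b : G.M₁ →ₗ[D.A₁ B] N'.M₁), z = homRes₀ G N' a - homRes₁ G N' b := by
  rw [LinearMap.range_eq_top]
  constructor
  · intro h z
    obtain ⟨⟨a, b⟩, hab⟩ := h z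
    exact ⟨a, b, hab.symm.trans (GlueDatum.delta_apply (homDatum G N') (a, b))⟩
  · intro h z
    obtain ⟨a, b, hab⟩ := h z
    exact ⟨(a, b), (GlueDatum.delta_apply (homDatum G N') (a, b)).trans hab.symm⟩

/-- Vanishing of `H¹(Hom(G, -))` is invariant under isomorphisms of the target. -/
theorem range_delta_homDatum_of_iso {G N' N'' : GlueDatum D B} (f : GlueDatum.Iso N' N'')
    (h : LinearMap.range (homDatum G N').delta = ⊤) :
    LinearMap.range (homDatum G N'').delta = ⊤ := by
  rw [range_delta_homDatum_iff] at h ⊢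
  intro z
  obtain ⟨a, b, hab⟩ := h (f.e₀₁.symm.toLinearMap ∘ₗ z)
  refine ⟨f.e₀.toLinearMap ∘ₗ a, f.e₁.toLinearMap ∘ₗ b, ?_⟩
  have h0 : homRes₀ G N'' (f.e₀.toLinearMap ∘ₗ a) = f.e₀₁.toLinearMap ∘ₗ homRes₀ G N' a :=
    helper1397.ext_ρ₀ G N'' fun m => by
      rw [helper1397.homRes₀_apply, LinearMap.comp_apply, LinearMap.comp_apply,
        helper1397.homRes₀_apply]
      exact (f.comm₀ (a m)).symm
  have h1 : homRes₁ G N'' (f.e₁.toLinearMap ∘ₗ b) = f.e₀₁.toLinearMap ∘ₗ homRes₁ G N' b :=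
    helper1397.ext_ρ₁ G N'' fun m => by
      rw [helper1397.homRes₁_apply, LinearMap.comp_apply, LinearMap.comp_apply,
        helper1397.homRes₁_apply]
      exact (f.comm₁ (b m)).symm
  rw [h0, h1, ← LinearMap.comp_sub, ← hab]
  ext m
  simp

/-- The chart condition `H¹(Hom(P, N_E)) = 0` over the chart algebra `E` propagates to every
base change: `H¹(Hom(P.baseChange φ, N_B)) = 0` for every `φ : E → B`. -/
theorem range_delta_homDatum_baseChange {E : Type u} [CommRing E] [Algebra k E]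
    (P : GlueDatum D E) (N : GlueDatum D k)
    (hH1 : LinearMap.range (homDatum P (helper8573.baseOver N E)).delta = ⊤)
    (φ : E →ₐ[k] B) :
    LinearMap.range (homDatum (P.baseChange φ) (helper8573.baseOver N B)).delta = ⊤ := by
  have h1 := helper3115.range_delta_baseChange_eq_top _ φ hH1
  have h2 := helper3115.range_delta_eq_top_of_iso
    (helper1397.homBaseChangeIso P (helper8573.baseOver N E) φ) h1
  have hcomp : φ.comp (Algebra.ofId k E) = Algebra.ofId k B := Subsingleton.elim _ _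
  have h3 : ((helper8573.baseOver N E).baseChange φ).Equiv (helper8573.baseOver N B) := by
    have := helper743.baseChange_comp N (Algebra.ofId k E) φ
    rwa [hcomp] at this
  obtain ⟨f⟩ := h3
  exact range_delta_homDatum_of_iso f h2

/-- **M3: `ChartMono`.** Let `(E, P)` be a chart over the base bundle `N` such that every base
change `P.baseChange φ` (`φ : E → B`) is the sub-datum of `N_B` cut out by an ideal `Icl φ` of
the first chart with `A₀(B) ⧸ Icl φ` finite flat of rank `genus D` over `B`, such that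
`H¹(Hom(P, N_E)) = 0`, and such that `φ` is determined by `Icl φ`. Then `(E, P)` is a
monomorphism of functors. -/
theorem chartMono_of_isSubDatum [IsAlgClosed k] {E : Type u} [CommRing E] [Algebra k E]
    (P : GlueDatum D E) (N : GlueDatum D k)
    (Icl : ∀ (B : Type u) [CommRing B] [Algebra k B], (E →ₐ[k] B) → Ideal (D.A₀ B))
    (hcl : ∀ (B : Type u) [CommRing B] [Algebra k B] (φ φ' : E →ₐ[k] B),
      Icl B φ = Icl B φ' → φ = φ')
    (hmodel : ∀ (B : Type u) [CommRing B] [Algebra k B] (φ : E →ₐ[k] B),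
      IsSubDatum (P.baseChange φ) (helper8573.baseOver N B) (Icl B φ) ∧
        Module.Finite B (D.A₀ B ⧸ Icl B φ) ∧ Module.Flat B (D.A₀ B ⧸ Icl B φ) ∧
        ∀ (𝔪 : Ideal B) [𝔪.IsMaximal],
          Module.rankAtStalk (R := B) (D.A₀ B ⧸ Icl B φ) ⟨𝔪, inferInstance⟩ = helper8573.genus D)
    (hH1 : LinearMap.range (homDatum P (helper8573.baseOver N E)).delta = ⊤) :
    helper8573.ChartMono P := by
  intro B _ _ φ φ' h
  obtain ⟨hs, hfin, hflat, hrank⟩ := hmodel B φ
  obtain ⟨hs', hfin', hflat', hrank'⟩ := hmodel B φ'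
  exact hcl B φ φ' (IsSubDatum.ideal_eq hs hs' hrank hrank'
    (range_delta_homDatum_baseChange P N hH1 φ) h)

end ChartMono

end Fermat.Agent.S25.helper1227
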