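/-
S25 (Jacobian moonshot), generic algebra brick RED, Mathlib only.

"A relative effective divisor is finite projective over the base."

* (RED1) finiteness: operator form of "a module finite over `B[x]` whose part at infinity `Z`
  satisfies `Z = y Z` is finite over `B`" (Nakayama).
* (RED2) purity: a map of projective modules which is injective on every closed fibre is
  universally injective, and its cokernel is flat.
* (RED3) assembly: finitely presented over `B[X]`, killed by a monic polynomial and flat over `B`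
  implies finite projective over `B`.
-/
import Mathlib

set_option autoImplicit false

namespace Fermat.Agent.S25.helper1227

open Polynomial

section RED1

variable {B : Type*} [CommRing B]
variable {Q Z W : Type*} [AddCommGroup Q] [Module B Q] [AddCommGroup Z] [Module B Z]
  [AddCommGroup W] [Module B W]

/-- Operator form of "`Q` is a finitely generated `B[ξ]`-module": there is a finite set `S`
such that the elements `ξ ^ n s` (`n : ℕ`, `s ∈ S`) span `Q` over `B`. -/
def OpFG (ξ : Module.End B Q) : Prop :=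
  ∃ S : Finset Q, Submodule.span B {a | ∃ n : ℕ, ∃ s ∈ S, (ξ ^ n) s = a} = ⊤

/-- A linear map intertwining two endomorphisms intertwines all their polynomials. -/
theorem aeval_intertwine {M N : Type*} [AddCommGroup M] [Module B M] [AddCommGroup N]
    [Module B N] (f : M →ₗ[B] N) (φ : Module.End B M) (ψ : Module.End B N)
    (h : f ∘ₗ φ = ψ ∘ₗ f) (p : B[X]) (m : M) :
    f (aeval φ p m) = aeval ψ p (f m) := by
  have hpow : ∀ n : ℕ, ∀ m : M, f ((φ ^ n) m) = (ψ ^ n) (f m) := by
    intro n
    induction n with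
    | zero => intro m; simp
    | succ n ih =>
      intro m
      rw [pow_succ, pow_succ, Module.End.mul_apply, Module.End.mul_apply, ih]
      have := LinearMap.congr_fun h m
      simp only [LinearMap.comp_apply] at this
      rw [this]
  induction p using Polynomial.induction_on' with
  | add p q hp hq => simp only [map_add, LinearMap.add_apply, hp, hq]
  | monomial n a =>
    simp only [aeval_monomial, Module.algebraMap_end_eq_smul_id, LinearMap.smul_apply,
      Module.End.mul_apply, LinearMap.id_coe, id_eq, map_smul, hpow]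

/-- `OpFG ξ` implies that `Module.AEval' ξ` is a finite `B[X]`-module. -/
theorem OpFG.finite_aeval {ξ : Module.End B Q} (h : OpFG ξ) :
    Module.Finite B[X] (Module.AEval' ξ) := by
  obtain ⟨S, hS⟩ := h
  refine ⟨Submodule.fg_def.mpr ⟨(Module.AEval'.of ξ) '' (S : Set Q),
    S.finite_toSet.image _, ?_⟩⟩
  rw [eq_top_iff]
  intro m hm
  obtain ⟨a, rfl⟩ := (Module.AEval'.of ξ).surjective m
  clear hm
  have ha : a ∈ Submodule.span B {a | ∃ n : ℕ, ∃ s ∈ S, (ξ ^ n) s = a} := by
    rw [hS]; exact Submodule.mem_top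
  induction ha using Submodule.span_induction with
  | mem x hx =>
    obtain ⟨n, s, hs, rfl⟩ := hx
    have : Module.AEval'.of ξ ((ξ ^ n) s) = (X ^ n : B[X]) • Module.AEval'.of ξ s := by
      rw [Module.AEval'.X_pow_smul_of]; rfl
    rw [this]
    exact Submodule.smul_mem _ _ (Submodule.subset_span ⟨s, hs, rfl⟩)
  | zero => simp
  | add x y _ _ hx hy => rw [map_add]; exact Submodule.add_mem _ hx hy
  | smul b x _ hx =>
    rw [map_smul, ← Module.AEval.C_smul]
    exact Submodule.smul_mem _ _ hx

/-- Nakayama in operator form: if `Z` is finitely generated over `B[η]` and `η` is surjective,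
then some polynomial `r` with constant coefficient `1` kills `Z`: `r(η) = 0`. -/
theorem exists_aeval_eq_zero_of_surjective {η : Module.End B Z} (hfg : OpFG η)
    (hsurj : Function.Surjective η) :
    ∃ r : B[X], r.coeff 0 = 1 ∧ aeval η r = 0 := by
  have := hfg.finite_aeval
  have hle : (⊤ : Submodule B[X] (Module.AEval' η)) ≤
      (Ideal.span {(X : B[X])}) • (⊤ : Submodule B[X] (Module.AEval' η)) := by
    intro m _
    obtain ⟨z, rfl⟩ := (Module.AEval'.of η).surjective m
    obtain ⟨z', rfl⟩ := hsurj z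
    rw [← Module.AEval'.X_smul_of]
    exact Submodule.smul_mem_smul (Ideal.subset_span rfl) Submodule.mem_top
  obtain ⟨r, hr1, hr⟩ := Submodule.exists_sub_one_mem_and_smul_eq_zero_of_fg_of_le_smul
    (Ideal.span {(X : B[X])}) (⊤ : Submodule B[X] (Module.AEval' η)) Module.Finite.fg_top hle
  refine ⟨r, ?_, ?_⟩
  · rw [Ideal.mem_span_singleton, Polynomial.X_dvd_iff] at hr1
    simp only [coeff_sub, coeff_one_zero] at hr1
    exact sub_eq_zero.mp hr1
  · ext z
    have h1 := hr (Module.AEval'.of η z) Submodule.mem_top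
    rw [← Module.AEval.of_aeval_smul] at h1
    have h2 := (Module.AEval'.of η).injective (h1.trans (map_zero _).symm)
    simpa using h2

/-- The reversed polynomial of `r` with respect to the degree bound `e`, assuming the constant
coefficient of `r` is `1`: `X^e + ∑_{i<e} r_{i+1} X^{e-1-i}`. It is monic by construction. -/
noncomputable def revPoly (r : B[X]) (e : ℕ) : B[X] :=
  X ^ e + ∑ i ∈ Finset.range e, C (r.coeff (i + 1)) * X ^ (e - 1 - i)

theorem revPoly_monic (r : B[X]) (e : ℕ) : (revPoly r e).Monic := by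
  apply Polynomial.monic_X_pow_add
  refine lt_of_le_of_lt (Polynomial.degree_sum_le _ _) ?_
  refine (Finset.sup_lt_iff (WithBot.bot_lt_coe e)).mpr ?_
  intro i hi
  rw [Finset.mem_range] at hi
  refine lt_of_le_of_lt (Polynomial.degree_C_mul_X_pow_le _ _) ?_
  have h : e - 1 - i < e := by omega
  exact WithBot.coe_lt_coe.mpr h

/-- If `ξW` and `ηW` are mutually inverse, `r` has constant coefficient `1` and degree at most
`e`, then `revPoly r e` evaluated at `ξW` is `ξW ^ e * r(ηW)`. -/
theorem aeval_revPoly {ξW ηW : Module.End B W} (h1 : ξW * ηW = 1) (h2 : ηW * ξW = 1)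
    (r : B[X]) (hr0 : r.coeff 0 = 1) (e : ℕ) (he : r.natDegree ≤ e) :
    aeval ξW (revPoly r e) = ξW ^ e * aeval ηW r := by
  have hcomm : Commute ξW ηW := by
    change ξW * ηW = ηW * ξW
    rw [h1, h2]
  rw [Polynomial.aeval_eq_sum_range' (Nat.lt_succ_of_le he), Finset.sum_range_succ',
    mul_add, Finset.mul_sum, hr0, pow_zero, one_smul, mul_one, add_comm, revPoly]
  simp only [map_add, map_sum, map_mul, map_pow, aeval_X, aeval_C]
  congr 1
  refine Finset.sum_congr rfl fun i hi => ?_
  rw [Finset.mem_range] at hi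
  rw [Algebra.algebraMap_eq_smul_one, smul_mul_assoc, one_mul, mul_smul_comm]
  congr 1
  have he' : e = (e - 1 - i) + (i + 1) := by omega
  conv_rhs => rw [he', pow_add, mul_assoc, ← hcomm.mul_pow, h1, one_pow, mul_one]

/-- Integrality in operator form.  `Q` finitely generated over `B[ξ]`, `Z` finitely generated over
`B[η]`, both mapping to `W` on which `ξ` and `η` become mutually inverse; the kernel of `Q → W` is
`ξ`-power torsion and `W` is generated by `Z` up to powers of `η⁻¹`.  If `η` is surjective on `Z`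
(i.e. `Z = y Z`), then `ξ` is killed by a monic polynomial on `Q`. -/
theorem exists_monic_aeval_eq_zero
    (ξ : Module.End B Q) (η : Module.End B Z) (ξW ηW : Module.End B W)
    (p : Q →ₗ[B] W) (q : Z →ₗ[B] W)
    (hpξ : p ∘ₗ ξ = ξW ∘ₗ p) (hqη : q ∘ₗ η = ηW ∘ₗ q)
    (hξη : ξW * ηW = 1) (hηξ : ηW * ξW = 1)
    (hQ : OpFG ξ) (hZ : OpFG η)
    (hker : ∀ a : Q, p a = 0 → ∃ n : ℕ, (ξ ^ n) a = 0)
    (hgen : ∀ w : W, ∃ n : ℕ, ∃ z : Z, (ηW ^ n) w = q z)
    (hsurj : Function.Surjective η) :
    ∃ G : B[X], G.Monic ∧ aeval ξ G = 0 := by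
  obtain ⟨r, hr0, hr⟩ := exists_aeval_eq_zero_of_surjective hZ hsurj
  -- `r(ηW) = 0` on `W`
  have hrW : aeval ηW r = 0 := by
    ext w
    obtain ⟨n, z, hz⟩ := hgen w
    have h3 : (ξW ^ n) ((ηW ^ n) w) = w := by
      rw [← Module.End.mul_apply, ← (show Commute ξW ηW from by
        change ξW * ηW = ηW * ξW; rw [hξη, hηξ]).mul_pow, hξη, one_pow, Module.End.one_apply]
    have h4 : aeval ηW r ((ηW ^ n) w) = 0 := by
      rw [hz, ← aeval_intertwine q η ηW hqη, hr, LinearMap.zero_apply, map_zero]
    have h5 : aeval ηW r ((ηW ^ n) w) = (ηW ^ n) (aeval ηW r w) := by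
      have : Commute (aeval ηW r) (ηW ^ n) := by
        have h6 : (ηW ^ n) = aeval ηW (X ^ n : B[X]) := by simp
        rw [h6]
        exact (Commute.all r (X ^ n)).map (aeval ηW)
      have := congrArg (fun f : Module.End B W => f w) this.eq
      simpa [Module.End.mul_apply] using this
    rw [LinearMap.zero_apply]
    have h7 : (ξW ^ n) ((ηW ^ n) (aeval ηW r w)) = aeval ηW r w := by
      rw [← Module.End.mul_apply, ← (show Commute ξW ηW from by
        change ξW * ηW = ηW * ξW; rw [hξη, hηξ]).mul_pow, hξη, one_pow, Module.End.one_apply]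
    rw [← h7, ← h5, h4, map_zero]
  -- the reversed polynomial kills `W`
  set P := revPoly r r.natDegree with hP
  have hPW : aeval ξW P = 0 := by
    rw [hP, aeval_revPoly hξη hηξ r hr0 _ le_rfl, hrW, mul_zero]
  have hPmonic : P.Monic := revPoly_monic _ _
  obtain ⟨S, hS⟩ := hQ
  -- each generator is killed by `ξ ^ n ∘ P(ξ)`
  have hS' : ∀ s : Q, ∃ n : ℕ, (ξ ^ n) (aeval ξ P s) = 0 := by
    intro s
    apply hker
    rw [aeval_intertwine p ξ ξW hpξ, hPW, LinearMap.zero_apply]
  choose N hN using hS'
  refine ⟨X ^ (S.sup N) * P, (monic_X_pow _).mul hPmonic, ?_⟩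
  have hcomm : ∀ (f : B[X]) (n : ℕ) (a : Q), aeval ξ f ((ξ ^ n) a) = (ξ ^ n) (aeval ξ f a) := by
    intro f n a
    have : Commute (aeval ξ f) (ξ ^ n) := by
      have h6 : (ξ ^ n) = aeval ξ (X ^ n : B[X]) := by simp
      rw [h6]
      exact (Commute.all f (X ^ n)).map (aeval ξ)
    have := congrArg (fun g : Module.End B Q => g a) this.eq
    simpa [Module.End.mul_apply] using this
  refine LinearMap.ext_on hS ?_
  rintro a ⟨n, s, hs, rfl⟩
  rw [LinearMap.zero_apply, hcomm, map_mul, map_pow, aeval_X, Module.End.mul_apply]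
  have hle : N s ≤ S.sup N := Finset.le_sup hs
  obtain ⟨c, hc⟩ := Nat.exists_eq_add_of_le hle
  rw [hc, add_comm, pow_add, Module.End.mul_apply, hN, map_zero, map_zero]

/-- If `Q` is finitely generated over `B[ξ]` and `ξ` is killed by a monic polynomial, then `Q` is
a finite `B`-module. -/
theorem OpFG.finite_of_monic {ξ : Module.End B Q} (hQ : OpFG ξ) (G : B[X]) (hG : G.Monic)
    (hGξ : aeval ξ G = 0) : Module.Finite B Q := by
  classical
  obtain ⟨S, hS⟩ := hQ
  by_cases hG1 : G = 1
  · have : Subsingleton Q := by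
      refine ⟨fun a b => ?_⟩
      have h1 : aeval ξ G = 1 := by rw [hG1, map_one]
      have h2 : (1 : Module.End B Q) = 0 := h1.symm.trans hGξ
      have ha := congrArg (fun f : Module.End B Q => f a) h2
      have hb := congrArg (fun f : Module.End B Q => f b) h2
      simp only [Module.End.one_apply, LinearMap.zero_apply] at ha hb
      rw [ha, hb]
    infer_instance
  · refine ⟨Submodule.fg_def.mpr ⟨(fun x : ℕ × Q => (ξ ^ x.1) x.2) ''
      ((Finset.range G.natDegree ×ˢ S : Finset (ℕ × Q)) : Set (ℕ × Q)),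
      (Finset.finite_toSet _).image _, ?_⟩⟩
    rw [eq_top_iff, ← hS, Submodule.span_le]
    rintro a ⟨n, s, hs, rfl⟩
    have h1 : (ξ ^ n) s = aeval ξ ((X ^ n : B[X]) %ₘ G) s := by
      conv_lhs => rw [show (ξ ^ n) = aeval ξ (X ^ n : B[X]) from by simp,
        ← Polynomial.modByMonic_add_div (X ^ n : B[X]) G, map_add, map_mul, hGξ, zero_mul,
        add_zero]
    rw [h1, Polynomial.aeval_eq_sum_range' (Polynomial.natDegree_modByMonic_lt _ hG hG1),
      LinearMap.sum_apply]
    refine Submodule.sum_mem _ fun i hi => ?_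
    rw [LinearMap.smul_apply]
    refine Submodule.smul_mem _ _ (Submodule.subset_span ⟨(i, s), ?_, rfl⟩)
    simp only [Finset.coe_product, Set.mem_prod, Finset.mem_coe]
    exact ⟨hi, hs⟩

/-- (RED1) **Finiteness of a relative divisor**, operator form.  Under the hypotheses of
`exists_monic_aeval_eq_zero`, `Q` is a finite `B`-module. -/
theorem finite_of_surjective_at_infinity
    (ξ : Module.End B Q) (η : Module.End B Z) (ξW ηW : Module.End B W)
    (p : Q →ₗ[B] W) (q : Z →ₗ[B] W)
    (hpξ : p ∘ₗ ξ = ξW ∘ₗ p) (hqη : q ∘ₗ η = ηW ∘ₗ q)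
    (hξη : ξW * ηW = 1) (hηξ : ηW * ξW = 1)
    (hQ : OpFG ξ) (hZ : OpFG η)
    (hker : ∀ a : Q, p a = 0 → ∃ n : ℕ, (ξ ^ n) a = 0)
    (hgen : ∀ w : W, ∃ n : ℕ, ∃ z : Z, (ηW ^ n) w = q z)
    (hsurj : Function.Surjective η) :
    Module.Finite B Q := by
  obtain ⟨G, hG, hGξ⟩ := exists_monic_aeval_eq_zero ξ η ξW ηW p q hpξ hqη hξη hηξ hQ hZ hker hgen
    hsurj
  exact hQ.finite_of_monic G hG hGξ

/-- Under the hypotheses of (RED1), `η` is bijective on `Z`. -/
theorem bijective_of_surjective_of_opFG {η : Module.End B Z} (hZ : OpFG η)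
    (hsurj : Function.Surjective η) : Function.Bijective η := by
  refine ⟨?_, hsurj⟩
  obtain ⟨r, hr0, hr⟩ := exists_aeval_eq_zero_of_surjective hZ hsurj
  rw [injective_iff_map_eq_zero]
  intro z hz
  -- `r = 1 + X * v`
  have hX : (X : B[X]) ∣ r - 1 := by
    rw [Polynomial.X_dvd_iff]; simp [hr0]
  obtain ⟨v, hv⟩ := hX
  have hr' : r = 1 + v * X := by rw [mul_comm, ← hv]; ring
  have h1 := congrArg (fun f : Module.End B Z => f z) hr
  simp only [hr', map_add, map_one, map_mul, aeval_X, LinearMap.add_apply, Module.End.one_apply,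
    Module.End.mul_apply, hz, map_zero, add_zero, LinearMap.zero_apply] at h1
  exact h1

/-- Under the hypotheses of (RED1) and if moreover the kernel of `q : Z → W` is `η`-power
torsion, the map `q : Z → W` is bijective: the divisor does not meet the chart at infinity
outside the overlap. -/
theorem bijective_at_infinity
    (η : Module.End B Z) (ξW ηW : Module.End B W) (q : Z →ₗ[B] W)
    (hqη : q ∘ₗ η = ηW ∘ₗ q) (hξη : ξW * ηW = 1) (hηξ : ηW * ξW = 1)
    (hZ : OpFG η)
    (hkerq : ∀ z : Z, q z = 0 → ∃ n : ℕ, (η ^ n) z = 0)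
    (hgen : ∀ w : W, ∃ n : ℕ, ∃ z : Z, (ηW ^ n) w = q z)
    (hsurj : Function.Surjective η) :
    Function.Bijective q := by
  have hbij := bijective_of_surjective_of_opFG hZ hsurj
  have hpowinj : ∀ n : ℕ, Function.Injective (η ^ n) := by
    intro n
    induction n with
    | zero => intro a b h; simpa using h
    | succ n ih =>
      intro a b h
      rw [pow_succ, Module.End.mul_apply, Module.End.mul_apply] at h
      exact hbij.1 (ih h)
  have hpowsurj : ∀ n : ℕ, Function.Surjective (η ^ n) := by
    intro n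
    induction n with
    | zero => intro a; exact ⟨a, by simp⟩
    | succ n ih =>
      intro a
      obtain ⟨b, rfl⟩ := ih a
      obtain ⟨c, rfl⟩ := hbij.2 b
      exact ⟨c, by rw [pow_succ, Module.End.mul_apply]⟩
  have hqpow : ∀ (n : ℕ) (z : Z), q ((η ^ n) z) = (ηW ^ n) (q z) := by
    intro n z
    have := aeval_intertwine q η ηW hqη (X ^ n) z
    simpa using this
  constructor
  · rw [injective_iff_map_eq_zero]
    intro z hz
    obtain ⟨n, hn⟩ := hkerq z hz
    exact hpowinj n (hn.trans (map_zero _).symm)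
  · intro w
    obtain ⟨n, z, hz⟩ := hgen w
    obtain ⟨z', rfl⟩ := hpowsurj n z
    refine ⟨z', ?_⟩
    rw [hqpow] at hz
    have h3 : ∀ u : W, (ξW ^ n) ((ηW ^ n) u) = u := by
      intro u
      rw [← Module.End.mul_apply, ← (show Commute ξW ηW from by
        change ξW * ηW = ηW * ξW; rw [hξη, hηξ]).mul_pow, hξη, one_pow, Module.End.one_apply]
    rw [← h3 (q z'), ← hz, h3]

end RED1

section RED2

open TensorProduct

variable {B : Type*} [CommRing B]

/-- Nakayama over an arbitrary commutative ring: a nontrivial finite module `M` satisfies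
`𝔪 M ≠ M` for some maximal ideal `𝔪`. -/
theorem exists_maximal_smul_top_ne_top (M : Type*) [AddCommGroup M] [Module B M]
    [Module.Finite B M] [Nontrivial M] :
    ∃ 𝔪 : Ideal B, 𝔪.IsMaximal ∧ (𝔪 • (⊤ : Submodule B M)) ≠ ⊤ := by
  by_contra hcon
  push Not at hcon
  have hann : (⊤ : Submodule B M).annihilator = ⊤ := by
    by_contra hne
    obtain ⟨𝔪, h𝔪, hle⟩ := Ideal.exists_le_maximal _ hne
    obtain ⟨r, hr1, hr⟩ := Submodule.exists_sub_one_mem_and_smul_eq_zero_of_fg_of_le_smul 𝔪
      (⊤ : Submodule B M) Module.Finite.fg_top (hcon 𝔪 h𝔪).ge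
    have hr' : r ∈ 𝔪 := hle (Submodule.mem_annihilator.mpr hr)
    have h1 : (1 : B) ∈ 𝔪 := by
      have := 𝔪.sub_mem hr' hr1
      simpa using this
    exact h𝔪.ne_top ((Ideal.eq_top_iff_one _).mpr h1)
  obtain ⟨a, b, hab⟩ := exists_pair_ne M
  have h1 : (1 : B) ∈ (⊤ : Submodule B M).annihilator := by rw [hann]; exact Submodule.mem_top
  have ha := Submodule.mem_annihilator.mp h1 a Submodule.mem_top
  have hb := Submodule.mem_annihilator.mp h1 b Submodule.mem_top
  rw [one_smul] at ha hb
  exact hab (ha.trans hb.symm)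

/-- An element outside `𝔪 M` (`𝔪` maximal) is detected by a linear functional `M → B ⧸ 𝔪`. -/
theorem exists_functional_ne_zero (M : Type*) [AddCommGroup M] [Module B M] (𝔪 : Ideal B)
    [h𝔪 : 𝔪.IsMaximal] (m : M) (hm : m ∉ 𝔪 • (⊤ : Submodule B M)) :
    ∃ l : M →ₗ[B] B ⧸ 𝔪, l m ≠ 0 := by
  let _ : Field (B ⧸ 𝔪) := Ideal.Quotient.field 𝔪
  set V := M ⧸ 𝔪 • (⊤ : Submodule B M) with hV
  set v : V := Submodule.Quotient.mk m with hv
  have hv0 : v ≠ 0 := by
    rw [hv, Ne, Submodule.Quotient.mk_eq_zero]
    exact hm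
  obtain ⟨f, hf⟩ : ∃ f : Module.Dual (B ⧸ 𝔪) V, f v ≠ 0 := by
    by_contra hcon
    push Not at hcon
    exact hv0 ((Module.forall_dual_apply_eq_zero_iff (B ⧸ 𝔪) v).mp hcon)
  refine ⟨{ toFun := fun x => f (Submodule.Quotient.mk x)
            map_add' := fun x y => by rw [Submodule.Quotient.mk_add, map_add]
            map_smul' := fun b x => by
              rw [RingHom.id_apply, ← Module.Quotient.mk_smul_mk, map_smul]
              rfl }, hf⟩

variable {P F : Type*} [AddCommGroup P] [Module B P] [AddCommGroup F] [Module B F]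

/-- Coordinates of a tensor in `P ⊗ N` with respect to a "coordinate system" `s : P → (ι →₀ B)`. -/
noncomputable def coordMap {ι : Type*} [DecidableEq ι] (s : P →ₗ[B] (ι →₀ B)) (N : Type*)
    [AddCommGroup N] [Module B N] : P ⊗[B] N →ₗ[B] (ι →₀ N) :=
  (TensorProduct.finsuppScalarLeft B N ι).toLinearMap ∘ₗ s.rTensor N

theorem coordMap_tmul_apply {ι : Type*} [DecidableEq ι] (s : P →ₗ[B] (ι →₀ B)) (N : Type*)
    [AddCommGroup N] [Module B N] (p : P) (n : N) (i : ι) :
    coordMap s N (p ⊗ₜ[B] n) i = s p i • n := by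
  simp [coordMap, TensorProduct.finsuppScalarLeft_apply_tmul_apply]

theorem coordMap_injective {ι : Type*} [DecidableEq ι] (s : P →ₗ[B] (ι →₀ B))
    (π : (ι →₀ B) →ₗ[B] P)
    (h : π ∘ₗ s = LinearMap.id) (N : Type*) [AddCommGroup N] [Module B N] :
    Function.Injective (coordMap s N) := by
  have h1 : Function.Injective (s.rTensor N) := by
    apply Function.LeftInverse.injective (g := π.rTensor N)
    intro t
    rw [← LinearMap.comp_apply, ← LinearMap.rTensor_comp, h, LinearMap.rTensor_id,
      LinearMap.id_apply]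
  exact (TensorProduct.finsuppScalarLeft B N ι).injective.comp h1

theorem coordMap_lTensor {ι : Type*} [DecidableEq ι] (s : P →ₗ[B] (ι →₀ B)) {N N' : Type*}
    [AddCommGroup N] [Module B N] [AddCommGroup N'] [Module B N'] (l : N →ₗ[B] N')
    (z : P ⊗[B] N) :
    coordMap s N' (l.lTensor P z) = Finsupp.mapRange.linearMap l (coordMap s N z) := by
  induction z using TensorProduct.induction_on with
  | zero => simp
  | tmul p n =>
    ext i
    rw [LinearMap.lTensor_tmul, coordMap_tmul_apply, Finsupp.mapRange.linearMap_apply,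
      Finsupp.mapRange_apply, coordMap_tmul_apply, map_smul]
  | add x y hx hy => simp only [map_add, hx, hy]

/-- Core of (RED2): if `z₀ ∈ P ⊗ M` is killed by `φ ⊗ M`, `M` is finite and generated by the
coordinates of `z₀`, then `M = 0`. -/
theorem subsingleton_of_coord_span {ι : Type*} [DecidableEq ι] (s : P →ₗ[B] (ι →₀ B))
    (φ : P →ₗ[B] F)
    (h : ∀ 𝔪 : Ideal B, 𝔪.IsMaximal → Function.Injective (φ.rTensor (B ⧸ 𝔪)))
    (M : Type*) [AddCommGroup M] [Module B M] [Module.Finite B M] (z₀ : P ⊗[B] M)
    (hz₀ : φ.rTensor M z₀ = 0)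
    (hspan : Submodule.span B (Set.range (coordMap s M z₀)) = ⊤) : Subsingleton M := by
  by_contra hns
  rw [not_subsingleton_iff_nontrivial] at hns
  obtain ⟨𝔪, h𝔪, hne⟩ := exists_maximal_smul_top_ne_top (B := B) M
  obtain ⟨i₀, hi₀⟩ : ∃ i, coordMap s M z₀ i ∉ 𝔪 • (⊤ : Submodule B M) := by
    by_contra hcon
    push Not at hcon
    apply hne
    have hle : Submodule.span B (Set.range (coordMap s M z₀)) ≤ 𝔪 • (⊤ : Submodule B M) :=
      Submodule.span_le.mpr (by rintro _ ⟨i, rfl⟩; exact hcon i)
    rw [hspan] at hle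
    exact top_le_iff.mp hle
  obtain ⟨l, hl⟩ := exists_functional_ne_zero M 𝔪 _ hi₀
  have h1 : l.lTensor P z₀ = 0 := by
    apply h 𝔪 h𝔪
    rw [← LinearMap.comp_apply, LinearMap.rTensor_comp_lTensor, ← LinearMap.lTensor_comp_rTensor,
      LinearMap.comp_apply, hz₀, map_zero, map_zero]
  have h2 := congrArg (fun v => coordMap s (B ⧸ 𝔪) v i₀) h1
  simp only [coordMap_lTensor, Finsupp.mapRange.linearMap_apply, Finsupp.mapRange_apply, map_zero,
    Finsupp.coe_zero, Pi.zero_apply] at h2
  exact hl h2

/-- (RED2) **Purity.**  Let `φ : P → F` be a linear map from a projective module to a flat module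
(both of arbitrary rank).  If `φ ⊗ (B ⧸ 𝔪)` is injective for every maximal ideal `𝔪`, then
`φ ⊗ N` is injective for every `B`-module `N`. -/
theorem rTensor_injective_of_fibrewise [Module.Projective B P] [Module.Flat B F] (φ : P →ₗ[B] F)
    (h : ∀ 𝔪 : Ideal B, 𝔪.IsMaximal → Function.Injective (φ.rTensor (B ⧸ 𝔪)))
    (N : Type*) [AddCommGroup N] [Module B N] : Function.Injective (φ.rTensor N) := by
  classical
  obtain ⟨s, hs⟩ := Module.projective_def'.mp (inferInstance : Module.Projective B P)
  rw [injective_iff_map_eq_zero]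
  intro z hz
  set w := coordMap s N z with hw
  set N₀ : Submodule B N := Submodule.span B (Set.range w) with hN₀
  have hfin : Module.Finite B N₀ := Module.Finite.of_fg (Submodule.fg_span (Finsupp.finite_range w))
  -- descend `w` to `N₀`
  obtain ⟨w₀, hw₀⟩ : ∃ w₀ : P →₀ N₀, Finsupp.mapRange.linearMap N₀.subtype w₀ = w := by
    have : w ∈ Set.range (Finsupp.mapRange (α := P) N₀.subtype (map_zero _)) := by
      rw [Finsupp.range_mapRange]
      intro i
      exact ⟨⟨w i, Submodule.subset_span ⟨i, rfl⟩⟩, rfl⟩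
    obtain ⟨w₀, hw₀⟩ := this
    exact ⟨w₀, hw₀⟩
  -- descend `z` to `N₀`
  set t₀ := (TensorProduct.finsuppScalarLeft B N₀ P).symm w₀ with ht₀
  set z₀ := (Finsupp.linearCombination B (id : P → P)).rTensor N₀ t₀ with hz₀
  have hnat : ∀ t : (P →₀ B) ⊗[B] N₀, TensorProduct.finsuppScalarLeft B N P
      (N₀.subtype.lTensor (P →₀ B) t) =
      Finsupp.mapRange.linearMap N₀.subtype (TensorProduct.finsuppScalarLeft B N₀ P t) := by
    intro t
    induction t using TensorProduct.induction_on with
    | zero => simp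
    | tmul p n =>
      ext i
      rw [LinearMap.lTensor_tmul, TensorProduct.finsuppScalarLeft_apply_tmul_apply,
        Finsupp.mapRange.linearMap_apply, Finsupp.mapRange_apply,
        TensorProduct.finsuppScalarLeft_apply_tmul_apply, map_smul]
    | add x y hx hy => simp only [map_add, hx, hy]
  have ht : N₀.subtype.lTensor (P →₀ B) t₀ = s.rTensor N z := by
    apply (TensorProduct.finsuppScalarLeft B N P).injective
    rw [hnat, ht₀, LinearEquiv.apply_symm_apply, hw₀, hw]
    rfl
  have hzz₀ : N₀.subtype.lTensor P z₀ = z := by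
    rw [hz₀, ← LinearMap.comp_apply, LinearMap.lTensor_comp_rTensor,
      ← LinearMap.rTensor_comp_lTensor, LinearMap.comp_apply, ht, ← LinearMap.comp_apply,
      ← LinearMap.rTensor_comp, hs, LinearMap.rTensor_id, LinearMap.id_apply]
  have hφz₀ : φ.rTensor N₀ z₀ = 0 := by
    apply Module.Flat.lTensor_preserves_injective_linearMap (M := F) N₀.subtype
      Subtype.val_injective
    rw [← LinearMap.comp_apply, LinearMap.lTensor_comp_rTensor, ← LinearMap.rTensor_comp_lTensor,
      LinearMap.comp_apply, hzz₀, hz, map_zero]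
  have hcoord : Finsupp.mapRange.linearMap N₀.subtype (coordMap s N₀ z₀) = w := by
    rw [← coordMap_lTensor, hzz₀]
  have hspan : Submodule.span B (Set.range (coordMap s N₀ z₀)) = ⊤ := by
    apply Submodule.map_injective_of_injective (f := N₀.subtype) Subtype.val_injective
    rw [Submodule.map_span, Submodule.map_top, Submodule.range_subtype]
    have hset : N₀.subtype '' Set.range (coordMap s N₀ z₀) = Set.range w := by
      rw [← hcoord]
      ext x
      simp only [Set.mem_image, Set.mem_range, Finsupp.mapRange.linearMap_apply,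
        Finsupp.mapRange_apply, Submodule.subtype_apply]
      constructor
      · rintro ⟨_, ⟨i, rfl⟩, rfl⟩
        exact ⟨i, rfl⟩
      · rintro ⟨i, rfl⟩
        exact ⟨_, ⟨i, rfl⟩, rfl⟩
    rw [hset]
  have hsub := subsingleton_of_coord_span s φ h N₀ z₀ hφz₀ hspan
  rw [← hzz₀, Subsingleton.elim z₀ 0, map_zero]

/-- (RED2), flatness of the cokernel: under the hypotheses of
`rTensor_injective_of_fibrewise`, the cokernel of `φ` is flat. -/
theorem flat_coker_of_fibrewise [Module.Projective B P] [Module.Flat B F] (φ : P →ₗ[B] F)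
    (h : ∀ 𝔪 : Ideal B, 𝔪.IsMaximal → Function.Injective (φ.rTensor (B ⧸ 𝔪))) :
    Module.Flat B (F ⧸ LinearMap.range φ) := by
  rw [Module.Flat.iff_lTensor_injective']
  intro I
  exact lTensor_injective_of_exact_of_exact_of_rTensor_injective
    (f₁ := φ) (f₂ := (LinearMap.range φ).mkQ) (g₁ := I.subtype) (g₂ := I.mkQ)
    (LinearMap.exact_map_mkQ_range φ) (Submodule.mkQ_surjective _)
    (LinearMap.exact_subtype_mkQ I) (Submodule.mkQ_surjective _)
    (rTensor_injective_of_fibrewise φ h (B ⧸ I))
    (Module.Flat.lTensor_preserves_injective_linearMap _ Subtype.val_injective)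

/-- (RED2), injectivity: under the hypotheses of `rTensor_injective_of_fibrewise`, `φ` itself is
injective. -/
theorem injective_of_fibrewise [Module.Projective B P] [Module.Flat B F] (φ : P →ₗ[B] F)
    (h : ∀ 𝔪 : Ideal B, 𝔪.IsMaximal → Function.Injective (φ.rTensor (B ⧸ 𝔪))) :
    Function.Injective φ := by
  have h1 := rTensor_injective_of_fibrewise φ h B
  intro a b hab
  have h2 : φ.rTensor B (a ⊗ₜ[B] (1 : B)) = φ.rTensor B (b ⊗ₜ[B] (1 : B)) := by
    rw [LinearMap.rTensor_tmul, LinearMap.rTensor_tmul, hab]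
  have h3 := congrArg (TensorProduct.rid B P) (h1 h2)
  simpa using h3

end RED2

section RED3

open TensorProduct

variable {B : Type*} [CommRing B]

/-- (RED3) A finitely presented `B[X]`-module killed by a monic polynomial is finitely presented
as a `B`-module. -/
theorem finitePresentation_of_monic_smul_eq_zero {Q : Type*} [AddCommGroup Q] [Module B Q]
    [Module B[X] Q] [IsScalarTower B B[X] Q] [Module.FinitePresentation B[X] Q] (G : B[X])
    (hG : G.Monic) (h : ∀ q : Q, G • q = 0) : Module.FinitePresentation B Q := by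
  have hfin : Module.Finite B (B[X] ⧸ Ideal.span {G}) := hG.finite_adjoinRoot
  have hfree : Module.Free B (B[X] ⧸ Ideal.span {G}) := hG.free_adjoinRoot
  have hfp : Module.FinitePresentation B (B[X] ⧸ Ideal.span {G}) :=
    Module.finitePresentation_of_projective B _
  have h1 : Module.FinitePresentation B ((B[X] ⧸ Ideal.span {G}) ⊗[B[X]] Q) :=
    Module.FinitePresentation.trans B _ (B[X] ⧸ Ideal.span {G})
  have hI : ((Ideal.span {G} : Ideal B[X]) • (⊤ : Submodule B[X] Q)) = ⊥ := by
    rw [eq_bot_iff, Submodule.smul_le]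
    intro r hr n _
    obtain ⟨c, rfl⟩ := Ideal.mem_span_singleton'.mp hr
    rw [Submodule.mem_bot, mul_smul, h, smul_zero]
  let e : ((B[X] ⧸ Ideal.span {G}) ⊗[B[X]] Q) ≃ₗ[B[X]] Q :=
    (TensorProduct.quotTensorEquivQuotSMul Q (Ideal.span {G})).trans
      (Submodule.quotEquivOfEqBot _ hI)
  exact Module.FinitePresentation.of_equiv (e.restrictScalars B)

/-- (RED3) A `B[X]`-module which is finitely presented over `B[X]`, killed by a monic polynomial
and flat over `B` is a finite projective `B`-module. -/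
theorem finite_projective_of_monic_smul_eq_zero {Q : Type*} [AddCommGroup Q] [Module B Q]
    [Module B[X] Q] [IsScalarTower B B[X] Q] [Module.FinitePresentation B[X] Q] [Module.Flat B Q]
    (G : B[X]) (hG : G.Monic) (h : ∀ q : Q, G • q = 0) :
    Module.Finite B Q ∧ Module.Projective B Q := by
  have := finitePresentation_of_monic_smul_eq_zero G hG h
  exact ⟨inferInstance, Module.Flat.projective_of_finitePresentation⟩

variable {Q : Type*} [AddCommGroup Q] [Module B Q]

/-- Operator form of (RED3): finite presentation. -/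
theorem finitePresentation_of_aeval_eq_zero (ξ : Module.End B Q)
    [Module.FinitePresentation B[X] (Module.AEval' ξ)] (G : B[X]) (hG : G.Monic)
    (hGξ : aeval ξ G = 0) : Module.FinitePresentation B Q := by
  have h : ∀ m : Module.AEval' ξ, G • m = 0 := by
    intro m
    obtain ⟨a, rfl⟩ := (Module.AEval'.of ξ).surjective m
    rw [← Module.AEval.of_aeval_smul, hGξ, zero_smul, map_zero]
  have := finitePresentation_of_monic_smul_eq_zero (Q := Module.AEval' ξ) G hG h
  exact Module.FinitePresentation.of_equiv (Module.AEval'.of ξ).symm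

/-- Converse of `OpFG.finite_aeval`. -/
theorem OpFG.of_finite_aeval (ξ : Module.End B Q) [Module.Finite B[X] (Module.AEval' ξ)] :
    OpFG ξ := by
  classical
  obtain ⟨T, hT⟩ := (Module.Finite.fg_top : (⊤ : Submodule B[X] (Module.AEval' ξ)).FG)
  refine ⟨T.image (Module.AEval'.of ξ).symm, ?_⟩
  set U : Submodule B Q := Submodule.span B
    {a | ∃ n : ℕ, ∃ s ∈ T.image (Module.AEval'.of ξ).symm, (ξ ^ n) s = a} with hU
  -- `U` is stable under `ξ`
  have hξ : ∀ a ∈ U, ξ a ∈ U := by
    intro a ha
    induction ha using Submodule.span_induction with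
    | mem x hx =>
      obtain ⟨n, s, hs, rfl⟩ := hx
      refine Submodule.subset_span ⟨n + 1, s, hs, ?_⟩
      rw [pow_succ', Module.End.mul_apply]
    | zero => rw [map_zero]; exact Submodule.zero_mem _
    | add x y _ _ hx hy => rw [map_add]; exact Submodule.add_mem _ hx hy
    | smul b x _ hx => rw [map_smul]; exact Submodule.smul_mem _ _ hx
  have hpow : ∀ (n : ℕ), ∀ a ∈ U, (ξ ^ n) a ∈ U := by
    intro n
    induction n with
    | zero => intro a ha; simpa using ha
    | succ n ih =>
      intro a ha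
      rw [pow_succ', Module.End.mul_apply]
      exact hξ _ (ih a ha)
  have hpoly : ∀ (f : B[X]), ∀ a ∈ U, aeval ξ f a ∈ U := by
    intro f a ha
    induction f using Polynomial.induction_on' with
    | add p q hp hq => rw [map_add, LinearMap.add_apply]; exact Submodule.add_mem _ hp hq
    | monomial n c =>
      simp only [aeval_monomial, Module.algebraMap_end_eq_smul_id, LinearMap.smul_apply,
        Module.End.mul_apply, LinearMap.id_coe, id_eq]
      exact Submodule.smul_mem _ _ (hpow n a ha)
  rw [eq_top_iff]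
  intro a _
  have ha : Module.AEval'.of ξ a ∈ Submodule.span B[X] (T : Set (Module.AEval' ξ)) := by
    rw [hT]; exact Submodule.mem_top
  have key : ∀ m ∈ Submodule.span B[X] (T : Set (Module.AEval' ξ)),
      (Module.AEval'.of ξ).symm m ∈ U := by
    intro m hm
    induction hm using Submodule.span_induction with
    | mem x hx =>
      refine Submodule.subset_span ⟨0, (Module.AEval'.of ξ).symm x, ?_, by simp⟩
      exact Finset.mem_image_of_mem _ hx
    | zero => rw [map_zero]; exact Submodule.zero_mem _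
    | add x y _ _ hx hy => rw [map_add]; exact Submodule.add_mem _ hx hy
    | smul f x _ hx =>
      rw [Module.AEval.of_symm_smul]
      exact hpoly f _ hx
  simpa using key _ ha

variable {Z W : Type*} [AddCommGroup Z] [Module B Z] [AddCommGroup W] [Module B W]

/-- (RED) **A relative effective divisor is finite projective over the base**, operator form.

`Q` is the cokernel of the section on the finite chart (finitely presented over `B[ξ]`, `ξ` =
multiplication by `x`), `Z` the cokernel on the chart at infinity (finitely generated over `B[η]`,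
`η` = multiplication by `y = 1/x`), `W` the cokernel on the overlap, on which `ξ` and `η` are
mutually inverse.  If `Q → W` has `ξ`-power-torsion kernel, `W` is generated by `Z` up to powers
of `η⁻¹`, the section generates along `y = 0` (`η` is surjective on `Z`) and `Q` is flat over `B`
(see `flat_coker_of_fibrewise`), then `Q` is a finite projective `B`-module. -/
theorem relDivisor_finite_projective
    (ξ : Module.End B Q) (η : Module.End B Z) (ξW ηW : Module.End B W)
    (p : Q →ₗ[B] W) (q : Z →ₗ[B] W)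
    (hpξ : p ∘ₗ ξ = ξW ∘ₗ p) (hqη : q ∘ₗ η = ηW ∘ₗ q)
    (hξη : ξW * ηW = 1) (hηξ : ηW * ξW = 1)
    [Module.FinitePresentation B[X] (Module.AEval' ξ)] (hZ : OpFG η)
    (hker : ∀ a : Q, p a = 0 → ∃ n : ℕ, (ξ ^ n) a = 0)
    (hgen : ∀ w : W, ∃ n : ℕ, ∃ z : Z, (ηW ^ n) w = q z)
    (hsurj : Function.Surjective η) [Module.Flat B Q] :
    Module.Finite B Q ∧ Module.Projective B Q := by
  obtain ⟨G, hG, hGξ⟩ := exists_monic_aeval_eq_zero ξ η ξW ηW p q hpξ hqη hξη hηξ
    (OpFG.of_finite_aeval ξ) hZ hker hgen hsurj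
  have := finitePresentation_of_aeval_eq_zero ξ G hG hGξ
  exact ⟨inferInstance, Module.Flat.projective_of_finitePresentation⟩

end RED3

end Fermat.Agent.S25.helper1227
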