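/-
S25 (Jacobian moonshot): the relative effective divisor of a chart section, for two-chart data.

* an unbundled version of (RED) for plain rings `B → A₀, A₁ → A₀₁` with `x : A₀`, `y : A₁`,
  `x * y = 1` and two localization maps `M₀ → M₀₁ ← M₁`;
* the `GlueDatum` version against `helper2945_AlgDefs`.
-/
import Fermat.Agent.S25.helper1227_RelDivisor
import Fermat.Agent.S25.helper2945_AlgDefs
import Fermat.Agent.Lib.helper9007_TensorDomain

set_option autoImplicit false

namespace Fermat.Agent.S25.helper1227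

open Polynomial TensorProduct

/-! ## Modules over a `B`-algebra `A` as `B[X]`-modules through an element `a : A` -/

section AevalModule

variable {B A : Type*} [CommRing B] [CommRing A] [Algebra B A]

/-- `A` is finitely presented as a `B[X]`-module, `X` acting through `a : A`. -/
def AevalFP (B : Type*) {A : Type*} [CommRing B] [CommRing A] [Algebra B A] (a : A) : Prop :=
  letI := (aeval a : B[X] →ₐ[B] A).toRingHom.toAlgebra
  Module.FinitePresentation B[X] A

variable (a : A) (N : Type*) [AddCommGroup N] [Module A N] [Module B N] [IsScalarTower B A N]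

/-- Multiplication by `a : A` as a `B`-linear endomorphism of an `A`-module. -/
noncomputable abbrev mulEnd : Module.End B N := Algebra.lsmul B B N a

theorem mulEnd_apply (n : N) : mulEnd (B := B) a N n = a • n := rfl

theorem mulEnd_pow_apply (k : ℕ) (n : N) : (mulEnd (B := B) a N ^ k) n = a ^ k • n := by
  rw [mulEnd, ← map_pow]; rfl

theorem aeval_mulEnd_apply (f : B[X]) (n : N) :
    aeval (mulEnd (B := B) a N) f n = aeval a f • n := by
  rw [mulEnd, Polynomial.aeval_algHom_apply]; rfl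

/-- If `A` is finite over `B[X]` (through `a`) and `N` is a finite `A`-module, then `N` is
finitely generated over `B[a]` in the operator sense. -/
theorem finite_aeval'_mulEnd (hA : (aeval a : B[X] →ₐ[B] A).toRingHom.Finite)
    [Module.Finite A N] : Module.Finite B[X] (Module.AEval' (mulEnd (B := B) a N)) := by
  let _ : Algebra B[X] A := (aeval a : B[X] →ₐ[B] A).toRingHom.toAlgebra
  let _ : Module B[X] N := Module.compHom N (algebraMap B[X] A)
  have : IsScalarTower B[X] A N :=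
    ⟨fun f a' n => by
      change (algebraMap B[X] A f * a') • n = algebraMap B[X] A f • (a' • n)
      rw [mul_smul]⟩
  have : Module.Finite B[X] A := hA
  have : Module.Finite B[X] N := Module.Finite.trans A N
  let e : N →ₗ[B[X]] Module.AEval' (mulEnd (B := B) a N) :=
    { toFun := Module.AEval'.of (mulEnd (B := B) a N)
      map_add' := fun u v => map_add _ u v
      map_smul' := fun f n => by
        rw [RingHom.id_apply, ← Module.AEval.of_aeval_smul]
        congr 1
        exact (aeval_mulEnd_apply a N f n).symm }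
  exact Module.Finite.of_surjective e (Module.AEval'.of (mulEnd (B := B) a N)).surjective

/-- If `A` is finitely presented over `B[X]` (through `a`) and `N` is a finitely presented
`A`-module, then `N` is finitely presented over `B[a]` in the operator sense. -/
theorem finitePresentation_aeval'_mulEnd (hA : AevalFP B a) [Module.FinitePresentation A N] :
    Module.FinitePresentation B[X] (Module.AEval' (mulEnd (B := B) a N)) := by
  let _ : Algebra B[X] A := (aeval a : B[X] →ₐ[B] A).toRingHom.toAlgebra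
  let _ : Module B[X] N := Module.compHom N (algebraMap B[X] A)
  have : IsScalarTower B[X] A N :=
    ⟨fun f a' n => by
      change (algebraMap B[X] A f * a') • n = algebraMap B[X] A f • (a' • n)
      rw [mul_smul]⟩
  have : Module.FinitePresentation B[X] A := hA
  have : Module.FinitePresentation B[X] N := Module.FinitePresentation.trans B[X] N A
  let e : N →ₗ[B[X]] Module.AEval' (mulEnd (B := B) a N) :=
    { toFun := Module.AEval'.of (mulEnd (B := B) a N)
      map_add' := fun u v => map_add _ u v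
      map_smul' := fun f n => by
        rw [RingHom.id_apply, ← Module.AEval.of_aeval_smul]
        congr 1
        exact (aeval_mulEnd_apply a N f n).symm }
  exact Module.FinitePresentation.of_equiv (LinearEquiv.ofBijective e
    ⟨(Module.AEval'.of (mulEnd (B := B) a N)).injective,
      (Module.AEval'.of (mulEnd (B := B) a N)).surjective⟩)

end AevalModule

/-! ## Finite presentation over `B[X]` is stable under base change -/

section BaseChangeAeval

variable {k R : Type*} [CommRing k] [CommRing R] [Algebra k R]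

theorem AevalFP.finite {B A : Type*} [CommRing B] [CommRing A] [Algebra B A] {a : A}
    (h : AevalFP B a) : (aeval a : B[X] →ₐ[B] A).toRingHom.Finite := by
  let _ : Algebra B[X] A := (aeval a : B[X] →ₐ[B] A).toRingHom.toAlgebra
  have : Module.FinitePresentation B[X] A := h
  exact (inferInstance : Module.Finite B[X] A)

theorem aevalFP_of_finite [IsNoetherianRing k] (x : R)
    (h : (aeval x : k[X] →ₐ[k] R).toRingHom.Finite) : AevalFP k x := by
  let _ : Algebra k[X] R := (aeval x : k[X] →ₐ[k] R).toRingHom.toAlgebra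
  have : Module.Finite k[X] R := h
  exact Module.finitePresentation_of_finite k[X] R

attribute [local instance] Algebra.TensorProduct.rightAlgebra Polynomial.algebra

/-- If `R` is finitely presented over `k[X]` through `x`, then `R ⊗[k] B` is finitely presented
over `B[X]` through `x ⊗ 1`. -/
theorem aevalFP_tmul (B : Type*) [CommRing B] [Algebra k B] (x : R) (h : AevalFP k x) :
    AevalFP B (x ⊗ₜ[k] (1 : B) : R ⊗[k] B) := by
  let _ : Algebra k[X] R := (aeval x : k[X] →ₐ[k] R).toRingHom.toAlgebra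
  let _ : Algebra B[X] (R ⊗[k] B) :=
    (aeval (x ⊗ₜ[k] (1 : B)) : B[X] →ₐ[B] R ⊗[k] B).toRingHom.toAlgebra
  have hfp : Module.FinitePresentation k[X] R := h
  have t2 : IsScalarTower k k[X] R := IsScalarTower.of_algebraMap_eq fun c => by
    change algebraMap k R c = aeval x (algebraMap k k[X] c)
    simp
  have t1 : IsScalarTower k[X] R (R ⊗[k] B) := inferInstance
  have t3 : IsScalarTower k[X] B[X] (R ⊗[k] B) := IsScalarTower.of_algebraMap_eq fun f => by
    change algebraMap R (R ⊗[k] B) (aeval x f) =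
      aeval (x ⊗ₜ[k] (1 : B)) (Polynomial.map (algebraMap k B) f)
    induction f using Polynomial.induction_on' with
    | add p q hp hq => simp only [map_add, Polynomial.map_add, hp, hq]
    | monomial n c =>
      simp only [aeval_monomial, Polynomial.map_monomial, Algebra.TensorProduct.algebraMap_apply,
        Algebra.TensorProduct.tmul_pow, one_pow,
        Algebra.TensorProduct.right_algebraMap_apply, Algebra.TensorProduct.tmul_mul_tmul,
        one_mul, mul_one, Algebra.algebraMap_self, RingHom.id_apply]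
      rw [← Algebra.smul_def, TensorProduct.smul_tmul, Algebra.algebraMap_eq_smul_one]
  have t4 : IsScalarTower k B (R ⊗[k] B) := IsScalarTower.of_algebraMap_eq fun c => by
    simp [Algebra.algebraMap_eq_smul_one]
  have t5 : IsScalarTower B B[X] (R ⊗[k] B) := IsScalarTower.of_algebraMap_eq fun b => by
    change algebraMap B (R ⊗[k] B) b = aeval (x ⊗ₜ[k] (1 : B)) (algebraMap B B[X] b)
    simp
  have t6 : IsScalarTower k B[X] (R ⊗[k] B) := IsScalarTower.of_algebraMap_eq fun c => by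
    rw [IsScalarTower.algebraMap_apply k B (R ⊗[k] B), IsScalarTower.algebraMap_apply k B B[X],
      ← IsScalarTower.algebraMap_apply B B[X] (R ⊗[k] B)]
  have hbig : Algebra.IsPushout k R B (R ⊗[k] B) := inferInstance
  have hright : Algebra.IsPushout k[X] R B[X] (R ⊗[k] B) :=
    (Algebra.IsPushout.comp_iff k k[X] B B[X]).mp hbig
  exact _root_.FinitePresentation.of_isBaseChange _ hright.symm.out

end BaseChangeAeval

/-! ## Quotients by a section and localization -/

section LocQuot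

variable {A A' : Type*} [CommRing A] [CommRing A'] [Algebra A A']
variable {M M' : Type*} [AddCommGroup M] [AddCommGroup M'] [Module A M] [Module A' M']
  [Module A M'] [IsScalarTower A A' M']

/-- If `ρ : M → M'` is the localization away from `x` and `ρ m` lies in the `A'`-span of `ρ s`,
then some `x ^ n • m` lies in the `A`-span of `s`. -/
theorem exists_pow_smul_mem_span_of_map_mem_span (x : A) [IsLocalization.Away x A']
    (ρ : M →ₗ[A] M') [IsLocalizedModule (Submonoid.powers x) ρ] (s m : M)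
    (h : ρ m ∈ Submodule.span A' {ρ s}) : ∃ n : ℕ, x ^ n • m ∈ Submodule.span A {s} := by
  obtain ⟨c, hc⟩ := Submodule.mem_span_singleton.mp h
  obtain ⟨n, a, ha⟩ := IsLocalization.Away.surj x c
  have h1 : ρ (x ^ n • m - a • s) = 0 := by
    rw [map_sub, map_smul, map_smul, ← hc, ← algebraMap_smul A' (x ^ n), smul_smul, map_pow,
      mul_comm, ha, algebraMap_smul, sub_self]
  obtain ⟨⟨t, i, rfl⟩, ht⟩ := (IsLocalizedModule.eq_zero_iff (Submonoid.powers x) ρ).mp h1
  refine ⟨i + n, ?_⟩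
  have h2 : x ^ i • (x ^ n • m - a • s) = 0 := ht
  rw [smul_sub, sub_eq_zero] at h2
  rw [pow_add, mul_smul, h2, smul_smul]
  exact Submodule.smul_mem _ _ (Submodule.mem_span_singleton_self s)

/-- Every element of the localization `M'` is, up to a power of `x`, in the image of `M`. -/
theorem exists_pow_smul_eq_map (x : A) (ρ : M →ₗ[A] M') [IsLocalizedModule (Submonoid.powers x) ρ]
    (m' : M') : ∃ (n : ℕ) (m : M), x ^ n • m' = ρ m := by
  obtain ⟨⟨m, ⟨t, n, rfl⟩⟩, h⟩ := IsLocalizedModule.surj (Submonoid.powers x) ρ m'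
  exact ⟨n, m, h⟩

end LocQuot

/-! ## Fibrewise non-vanishing sections -/

section Fibrewise

variable {B A : Type*} [CommRing B] [CommRing A] [Algebra B A]
variable {M : Type*} [AddCommGroup M] [Module A M] [Module B M] [IsScalarTower B A M]

/-- Elementwise criterion for injectivity of `φ ⊗ (B ⧸ I)`. -/
theorem rTensor_quotient_injective_of_mem {P F : Type*} [AddCommGroup P] [Module B P]
    [AddCommGroup F] [Module B F] (φ : P →ₗ[B] F) (I : Ideal B)
    (h : ∀ a : P, φ a ∈ I • (⊤ : Submodule B F) → a ∈ I • (⊤ : Submodule B P)) :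
    Function.Injective (φ.rTensor (B ⧸ I)) := by
  rw [injective_iff_map_eq_zero]
  intro z hz
  obtain ⟨q, rfl⟩ := (TensorProduct.tensorQuotEquivQuotSMul P I).symm.surjective z
  obtain ⟨a, rfl⟩ := Submodule.Quotient.mk_surjective _ q
  rw [TensorProduct.tensorQuotEquivQuotSMul_symm_mk, LinearMap.rTensor_tmul] at hz
  have h1 := congrArg (TensorProduct.tensorQuotEquivQuotSMul F I) hz
  rw [← map_one (Ideal.Quotient.mk I), TensorProduct.tensorQuotEquivQuotSMul_tmul_mk, one_smul,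
    map_zero, Submodule.Quotient.mk_eq_zero] at h1
  have h2 := h a h1
  rw [← Submodule.Quotient.mk_eq_zero] at h2
  rw [h2, map_zero]

/-- Elements of the extended ideal `𝔪 A` multiply `M` into `𝔪 M`. -/
theorem smul_mem_smul_top_of_mem_map (𝔪 : Ideal B) {c : A} (hc : c ∈ 𝔪.map (algebraMap B A))
    (m : M) : c • m ∈ 𝔪 • (⊤ : Submodule B M) := by
  induction hc using Submodule.span_induction generalizing m with
  | mem c hc =>
    obtain ⟨b, hb, rfl⟩ := hc
    rw [algebraMap_smul]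
    exact Submodule.smul_mem_smul hb Submodule.mem_top
  | zero => rw [zero_smul]; exact Submodule.zero_mem _
  | add c d _ _ hc hd => rw [add_smul]; exact Submodule.add_mem _ (hc m) (hd m)
  | smul a c _ hc =>
    rw [smul_eq_mul, mul_comm, mul_smul]
    exact hc (a • m)

/-- `A`-linear functionals map `𝔪 M` into the extended ideal `𝔪 A`. -/
theorem map_mem_map_of_mem_smul_top (𝔪 : Ideal B) (ψ : M →ₗ[A] A) {m : M}
    (hm : m ∈ 𝔪 • (⊤ : Submodule B M)) : ψ m ∈ 𝔪.map (algebraMap B A) := by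
  refine Submodule.smul_induction_on hm (fun b hb n _ => ?_) (fun x y hx hy => ?_)
  · rw [← algebraMap_smul A b n, map_smul, smul_eq_mul]
    exact Ideal.mul_mem_right _ _ (Ideal.mem_map_of_mem _ hb)
  · rw [map_add]; exact Ideal.add_mem _ hx hy

/-- If `𝔪 A` is a prime ideal, `M` is a projective `A`-module and `s ∉ 𝔪 M`, then
`a • s ∈ 𝔪 M` implies `a ∈ 𝔪 A`. -/
theorem mem_map_of_smul_mem_smul_top [Module.Projective A M] (𝔪 : Ideal B)
    (hp : (𝔪.map (algebraMap B A)).IsPrime) (s : M) (hs : s ∉ 𝔪 • (⊤ : Submodule B M)) (a : A)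
    (ha : a • s ∈ 𝔪 • (⊤ : Submodule B M)) : a ∈ 𝔪.map (algebraMap B A) := by
  obtain ⟨σ, hσ⟩ := Module.projective_def'.mp (inferInstance : Module.Projective A M)
  by_contra hcon
  apply hs
  have h1 : ∀ j : M, σ s j ∈ 𝔪.map (algebraMap B A) := by
    intro j
    have h2 := map_mem_map_of_mem_smul_top 𝔪 ((Finsupp.lapply j) ∘ₗ σ) ha
    rw [LinearMap.comp_apply, map_smul, map_smul, smul_eq_mul] at h2
    exact (hp.mem_or_mem h2).resolve_left hcon
  have h3 : s = Finsupp.linearCombination A (id : M → M) (σ s) := by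
    have := LinearMap.congr_fun hσ s
    simpa using this.symm
  rw [h3, Finsupp.linearCombination_apply]
  refine Submodule.sum_mem _ fun j _ => ?_
  exact smul_mem_smul_top_of_mem_map 𝔪 (h1 j) _

variable [Module.Projective B A] [Module.Projective A M]

/-- **Flatness of the divisor of a fibrewise non-vanishing section.**  `A` a `B`-algebra which is
projective as a `B`-module and whose closed fibres `A ⧸ 𝔪 A` are domains, `M` a projective
`A`-module, `s : M` nonzero on every closed fibre.  Then `a ↦ a • s` is injective and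
`M ⧸ A s` is flat over `B`. -/
theorem injective_and_flat_of_fibrewise_ne_zero (s : M)
    (hp : ∀ 𝔪 : Ideal B, 𝔪.IsMaximal → (𝔪.map (algebraMap B A)).IsPrime)
    (hs : ∀ 𝔪 : Ideal B, 𝔪.IsMaximal → s ∉ 𝔪 • (⊤ : Submodule B M)) :
    Function.Injective (fun a : A => a • s) ∧ Module.Flat B (M ⧸ Submodule.span A {s}) := by
  have hflatM : Module.Flat B M := Module.Flat.trans B A M
  set φ : A →ₗ[B] M := (LinearMap.toSpanSingleton A M s).restrictScalars B with hφ
  have hfib : ∀ 𝔪 : Ideal B, 𝔪.IsMaximal → Function.Injective (φ.rTensor (B ⧸ 𝔪)) := by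
    intro 𝔪 h𝔪
    refine rTensor_quotient_injective_of_mem φ 𝔪 fun a ha => ?_
    have h1 := mem_map_of_smul_mem_smul_top 𝔪 (hp 𝔪 h𝔪) s (hs 𝔪 h𝔪) a ha
    rw [Ideal.smul_top_eq_map]
    exact h1
  refine ⟨injective_of_fibrewise φ hfib, ?_⟩
  have h1 : Module.Flat B (M ⧸ LinearMap.range φ) := flat_coker_of_fibrewise φ hfib
  have hrange : LinearMap.range φ = (Submodule.span A {s}).restrictScalars B := by
    ext m
    simp only [LinearMap.mem_range, Submodule.restrictScalars_mem, Submodule.mem_span_singleton,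
      hφ, LinearMap.restrictScalars_apply, LinearMap.toSpanSingleton_apply]
  exact Module.Flat.of_linearEquiv
    ((Submodule.Quotient.restrictScalarsEquiv B (Submodule.span A {s})).symm.trans
      (Submodule.quotEquivOfEq _ _ hrange.symm))

end Fibrewise

/-! ## The unbundled two-chart statement -/

section Unbundled

variable {B A₀ A₁ A₀₁ : Type*} [CommRing B] [CommRing A₀] [CommRing A₁] [CommRing A₀₁]
  [Algebra B A₀] [Algebra B A₁] [Algebra B A₀₁] [Algebra A₀ A₀₁] [Algebra A₁ A₀₁]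
variable {M₀ M₁ M₀₁ : Type*} [AddCommGroup M₀] [AddCommGroup M₁] [AddCommGroup M₀₁]
  [Module A₀ M₀] [Module A₁ M₁] [Module A₀₁ M₀₁] [Module A₀ M₀₁] [Module A₁ M₀₁]
  [IsScalarTower A₀ A₀₁ M₀₁] [IsScalarTower A₁ A₀₁ M₀₁]
  [Module B M₀] [Module B M₁] [Module B M₀₁]
  [IsScalarTower B A₀ M₀] [IsScalarTower B A₁ M₁] [IsScalarTower B A₀₁ M₀₁]
  [IsScalarTower B A₀ M₀₁] [IsScalarTower B A₁ M₀₁]

theorem span_le_ker_mkQ_comp (ρ₀ : M₀ →ₗ[A₀] M₀₁) (s₀ : M₀) (t : M₀₁) (ht : ρ₀ s₀ = t) :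
    Submodule.span A₀ {s₀} ≤
      LinearMap.ker (((Submodule.span A₀₁ {t}).mkQ.restrictScalars A₀) ∘ₗ ρ₀) := by
  rw [Submodule.span_le, Set.singleton_subset_iff, SetLike.mem_coe, LinearMap.mem_ker,
    LinearMap.comp_apply, LinearMap.restrictScalars_apply, Submodule.mkQ_apply,
    Submodule.Quotient.mk_eq_zero, ht]
  exact Submodule.mem_span_singleton_self t

/-- The map `M₀ ⧸ A₀ s₀ → M₀₁ ⧸ A₀₁ ρ₀ s₀` induced by a restriction map `ρ₀`, as a `B`-linear
map. -/
noncomputable def quotRes (B A₀₁ : Type*) {A₀ : Type*} [CommRing B] [CommRing A₀] [CommRing A₀₁]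
    [Algebra B A₀] [Algebra B A₀₁] [Algebra A₀ A₀₁] {M₀ M₀₁ : Type*} [AddCommGroup M₀]
    [AddCommGroup M₀₁] [Module A₀ M₀] [Module A₀₁ M₀₁] [Module A₀ M₀₁] [IsScalarTower A₀ A₀₁ M₀₁]
    [Module B M₀] [Module B M₀₁] [IsScalarTower B A₀ M₀] [IsScalarTower B A₀₁ M₀₁]
    [IsScalarTower B A₀ M₀₁] (ρ₀ : M₀ →ₗ[A₀] M₀₁) (s₀ : M₀) (t : M₀₁) (ht : ρ₀ s₀ = t) :
    (M₀ ⧸ Submodule.span A₀ {s₀}) →ₗ[B] (M₀₁ ⧸ Submodule.span A₀₁ {t}) :=
  (Submodule.liftQ (Submodule.span A₀ {s₀})
    (((Submodule.span A₀₁ {t}).mkQ.restrictScalars A₀) ∘ₗ ρ₀)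
    (span_le_ker_mkQ_comp ρ₀ s₀ t ht)).restrictScalars B

theorem quotRes_mk (ρ₀ : M₀ →ₗ[A₀] M₀₁) (s₀ : M₀) (t : M₀₁) (ht : ρ₀ s₀ = t) (m : M₀) :
    quotRes B A₀₁ ρ₀ s₀ t ht (Submodule.Quotient.mk m : M₀ ⧸ Submodule.span A₀ {s₀}) =
      (Submodule.Quotient.mk (ρ₀ m) : M₀₁ ⧸ Submodule.span A₀₁ {t}) := rfl

/-- **Relative divisor of a chart section, unbundled two-chart form.**

`B → A₀, A₁ → A₀₁` rings with `x : A₀`, `y : A₁`, `x * y = 1` in `A₀₁ = A₀[1/x] = A₁[1/y]`;
`ρ₀ : M₀ → M₀₁`, `ρ₁ : M₁ → M₀₁` localizations; `(s₀, s₁)` a section (`ρ₀ s₀ = ρ₁ s₁`) which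
generates `M₁` modulo `y`.  Assume `M₁` finite over `A₁`, `A₁` finite over `B[y]`, `M₀` finitely
presented over `A₀` and `A₀` finitely presented over `B[x]`.  Then the divisor
`Q = M₀ ⧸ A₀ s₀` is a finitely presented `B`-module, killed by a monic polynomial in `x`;
multiplication by `y` is bijective on `M₁ ⧸ A₁ s₁`, and `M₁ ⧸ A₁ s₁ → M₀₁ ⧸ A₀₁ s` is
bijective. -/
theorem relDivisor_unbundled
    (x : A₀) (y : A₁) (hxy : algebraMap A₀ A₀₁ x * algebraMap A₁ A₀₁ y = 1)
    [IsLocalization.Away x A₀₁] [IsLocalization.Away y A₀₁]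
    (ρ₀ : M₀ →ₗ[A₀] M₀₁) (ρ₁ : M₁ →ₗ[A₁] M₀₁)
    [IsLocalizedModule (Submonoid.powers x) ρ₀] [IsLocalizedModule (Submonoid.powers y) ρ₁]
    (s₀ : M₀) (s₁ : M₁) (hs : ρ₀ s₀ = ρ₁ s₁)
    (hgen : ∀ m : M₁, ∃ a : A₁, ∃ m' : M₁, m = a • s₁ + y • m')
    [Module.Finite A₁ M₁] (hfin₁ : (aeval y : B[X] →ₐ[B] A₁).toRingHom.Finite)
    [Module.FinitePresentation A₀ M₀] (hfp₀ : AevalFP B x) :
    Module.FinitePresentation B (M₀ ⧸ Submodule.span A₀ {s₀}) ∧
    (∃ G : B[X], G.Monic ∧ ∀ q : M₀ ⧸ Submodule.span A₀ {s₀}, aeval x G • q = 0) ∧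
    Function.Bijective (fun z : M₁ ⧸ Submodule.span A₁ {s₁} => y • z) ∧
    Function.Bijective (quotRes B A₀₁ ρ₁ s₁ (ρ₀ s₀) hs.symm) := by
  have hpξ : quotRes B A₀₁ ρ₀ s₀ (ρ₀ s₀) rfl ∘ₗ mulEnd (B := B) x (M₀ ⧸ Submodule.span A₀ {s₀})
      = mulEnd (B := B) (algebraMap A₀ A₀₁ x) (M₀₁ ⧸ Submodule.span A₀₁ {ρ₀ s₀}) ∘ₗ
        quotRes B A₀₁ ρ₀ s₀ (ρ₀ s₀) rfl := by
    refine LinearMap.ext fun a => ?_
    obtain ⟨m, rfl⟩ := Submodule.Quotient.mk_surjective _ a
    rw [LinearMap.comp_apply, LinearMap.comp_apply, mulEnd_apply, mulEnd_apply,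
      ← Submodule.Quotient.mk_smul, quotRes_mk, quotRes_mk, map_smul,
      ← algebraMap_smul A₀₁ x (ρ₀ m), Submodule.Quotient.mk_smul]
  have hqη : quotRes B A₀₁ ρ₁ s₁ (ρ₀ s₀) hs.symm ∘ₗ
      mulEnd (B := B) y (M₁ ⧸ Submodule.span A₁ {s₁})
      = mulEnd (B := B) (algebraMap A₁ A₀₁ y) (M₀₁ ⧸ Submodule.span A₀₁ {ρ₀ s₀}) ∘ₗ
        quotRes B A₀₁ ρ₁ s₁ (ρ₀ s₀) hs.symm := by
    refine LinearMap.ext fun a => ?_
    obtain ⟨m, rfl⟩ := Submodule.Quotient.mk_surjective _ a
    rw [LinearMap.comp_apply, LinearMap.comp_apply, mulEnd_apply, mulEnd_apply,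
      ← Submodule.Quotient.mk_smul, quotRes_mk, quotRes_mk, map_smul,
      ← algebraMap_smul A₀₁ y (ρ₁ m), Submodule.Quotient.mk_smul]
  have hξη : mulEnd (B := B) (algebraMap A₀ A₀₁ x) (M₀₁ ⧸ Submodule.span A₀₁ {ρ₀ s₀}) *
      mulEnd (B := B) (algebraMap A₁ A₀₁ y) (M₀₁ ⧸ Submodule.span A₀₁ {ρ₀ s₀}) = 1 := by
    rw [mulEnd, mulEnd, ← map_mul, hxy, map_one]
  have hηξ : mulEnd (B := B) (algebraMap A₁ A₀₁ y) (M₀₁ ⧸ Submodule.span A₀₁ {ρ₀ s₀}) *
      mulEnd (B := B) (algebraMap A₀ A₀₁ x) (M₀₁ ⧸ Submodule.span A₀₁ {ρ₀ s₀}) = 1 := by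
    rw [mulEnd, mulEnd, ← map_mul, mul_comm, hxy, map_one]
  have hZfin := finite_aeval'_mulEnd (B := B) y (M₁ ⧸ Submodule.span A₁ {s₁}) hfin₁
  have hZ : OpFG (mulEnd (B := B) y (M₁ ⧸ Submodule.span A₁ {s₁})) := OpFG.of_finite_aeval _
  have hQfp : Module.FinitePresentation A₀ (M₀ ⧸ Submodule.span A₀ {s₀}) :=
    Module.finitePresentation_of_surjective (Submodule.span A₀ {s₀}).mkQ
      (Submodule.mkQ_surjective _) (by
        rw [Submodule.ker_mkQ]; exact Submodule.fg_span_singleton s₀)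
  have hQfpX := finitePresentation_aeval'_mulEnd (B := B) x (M₀ ⧸ Submodule.span A₀ {s₀}) hfp₀
  have hker : ∀ a : M₀ ⧸ Submodule.span A₀ {s₀}, quotRes B A₀₁ ρ₀ s₀ (ρ₀ s₀) rfl a = 0 →
      ∃ n : ℕ, (mulEnd (B := B) x (M₀ ⧸ Submodule.span A₀ {s₀}) ^ n) a = 0 := by
    intro a ha
    obtain ⟨m, rfl⟩ := Submodule.Quotient.mk_surjective _ a
    rw [quotRes_mk, Submodule.Quotient.mk_eq_zero] at ha
    obtain ⟨n, hn⟩ := exists_pow_smul_mem_span_of_map_mem_span x ρ₀ s₀ m ha
    refine ⟨n, ?_⟩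
    rw [mulEnd_pow_apply, ← Submodule.Quotient.mk_smul, Submodule.Quotient.mk_eq_zero]
    exact hn
  have hkerq : ∀ z : M₁ ⧸ Submodule.span A₁ {s₁}, quotRes B A₀₁ ρ₁ s₁ (ρ₀ s₀) hs.symm z = 0 →
      ∃ n : ℕ, (mulEnd (B := B) y (M₁ ⧸ Submodule.span A₁ {s₁}) ^ n) z = 0 := by
    intro z hz
    obtain ⟨m, rfl⟩ := Submodule.Quotient.mk_surjective _ z
    rw [quotRes_mk, Submodule.Quotient.mk_eq_zero, hs] at hz
    obtain ⟨n, hn⟩ := exists_pow_smul_mem_span_of_map_mem_span y ρ₁ s₁ m hz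
    refine ⟨n, ?_⟩
    rw [mulEnd_pow_apply, ← Submodule.Quotient.mk_smul, Submodule.Quotient.mk_eq_zero]
    exact hn
  have hgenW : ∀ w : M₀₁ ⧸ Submodule.span A₀₁ {ρ₀ s₀}, ∃ n : ℕ,
      ∃ z : M₁ ⧸ Submodule.span A₁ {s₁},
      (mulEnd (B := B) (algebraMap A₁ A₀₁ y) (M₀₁ ⧸ Submodule.span A₀₁ {ρ₀ s₀}) ^ n) w =
        quotRes B A₀₁ ρ₁ s₁ (ρ₀ s₀) hs.symm z := by
    intro w
    obtain ⟨m', rfl⟩ := Submodule.Quotient.mk_surjective _ w
    obtain ⟨n, m, hm⟩ := exists_pow_smul_eq_map y ρ₁ m'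
    refine ⟨n, Submodule.Quotient.mk m, ?_⟩
    rw [mulEnd_pow_apply, quotRes_mk, ← hm, ← map_pow, ← Submodule.Quotient.mk_smul,
      algebraMap_smul]
  have hsurj : Function.Surjective (mulEnd (B := B) y (M₁ ⧸ Submodule.span A₁ {s₁})) := by
    intro z
    obtain ⟨m, rfl⟩ := Submodule.Quotient.mk_surjective _ z
    obtain ⟨a, m', rfl⟩ := hgen m
    refine ⟨Submodule.Quotient.mk m', ?_⟩
    rw [mulEnd_apply, ← Submodule.Quotient.mk_smul, eq_comm, ← sub_eq_zero,
      ← Submodule.Quotient.mk_sub, Submodule.Quotient.mk_eq_zero, add_sub_cancel_right]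
    exact Submodule.smul_mem _ _ (Submodule.mem_span_singleton_self _)
  obtain ⟨G, hG, hGξ⟩ := exists_monic_aeval_eq_zero _ _ _ _ _ _ hpξ hqη hξη hηξ
    (OpFG.of_finite_aeval _) hZ hker hgenW hsurj
  refine ⟨finitePresentation_of_aeval_eq_zero _ G hG hGξ, ⟨G, hG, fun q => ?_⟩,
    bijective_of_surjective_of_opFG hZ hsurj,
    bijective_at_infinity _ _ _ _ hqη hξη hηξ hZ hkerq hgenW hsurj⟩
  rw [← aeval_mulEnd_apply (B := B), hGξ, LinearMap.zero_apply]

end Unbundled

/-! ## The `GlueDatum` statement -/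

section TensorRight

attribute [local instance] Algebra.TensorProduct.rightAlgebra

/-- `R ⊗[k] B` is a projective `B`-module (for the right `B`-algebra structure) when `k` is a
field. -/
theorem projective_tensor_right (k R B : Type*) [Field k] [CommRing R] [Algebra k R] [CommRing B]
    [Algebra k B] : Module.Projective B (R ⊗[k] B) := by
  let e : (B ⊗[k] R) →ₗ[B] (R ⊗[k] B) :=
    { toFun := TensorProduct.comm k B R
      map_add' := fun u v => map_add _ u v
      map_smul' := fun b z => by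
        induction z using TensorProduct.induction_on with
        | zero => simp
        | tmul b' r =>
          simp [Algebra.smul_def, Algebra.TensorProduct.right_algebraMap_apply]
        | add u v hu hv => simp only [smul_add, map_add, hu, hv] }
  exact Module.Projective.of_equiv (LinearEquiv.ofBijective e
    ⟨(TensorProduct.comm k B R).injective, (TensorProduct.comm k B R).surjective⟩)

end TensorRight

section Glue

open Fermat.Agent.S25.helper1705 Fermat.Agent.S25.helper2945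

universe u

variable {k : Type u} [Field k] (D : CurveDatum k) (B : Type u) [CommRing B] [Algebra k B]

/-- `D.A₀ B` is finitely presented over `B[X]` through `x ⊗ 1`. -/
theorem aevalFP_xB : AevalFP B (xB D B) :=
  aevalFP_tmul B D.x (aevalFP_of_finite D.x D.finite₀)

/-- `D.A₁ B` is finitely presented over `B[X]` through `y ⊗ 1`. -/
theorem aevalFP_yB : AevalFP B (yB D B) :=
  aevalFP_tmul B D.y (aevalFP_of_finite D.y D.finite₁)

/-- `D.A₀ B` is finite over `B[X]` through `x ⊗ 1`. -/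
theorem finite_aeval_xB : (aeval (xB D B) : B[X] →ₐ[B] D.A₀ B).toRingHom.Finite :=
  (aevalFP_xB D B).finite

/-- `D.A₁ B` is finite over `B[X]` through `y ⊗ 1`. -/
theorem finite_aeval_yB : (aeval (yB D B) : B[X] →ₐ[B] D.A₁ B).toRingHom.Finite :=
  (aevalFP_yB D B).finite

instance projective_A₀ : Module.Projective B (D.A₀ B) := projective_tensor_right k D.R₀ B

instance projective_A₁ : Module.Projective B (D.A₁ B) := projective_tensor_right k D.R₁ B

/-- Over an algebraically closed field, the closed fibres of `D.A₀ B` over `B` are domains. -/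
theorem isPrime_map_A₀ [IsAlgClosed k] (𝔪 : Ideal B) (h𝔪 : 𝔪.IsMaximal) :
    (𝔪.map (algebraMap B (D.A₀ B))).IsPrime := by
  let _ : Field (B ⧸ 𝔪) := Ideal.Quotient.field 𝔪
  have hdom : IsDomain (D.R₀ ⊗[k] (B ⧸ 𝔪)) :=
    Fermat.Agent.Lib.helper9007.isDomain_tensorProduct k D.R₀ (B ⧸ 𝔪)
  have hker : RingHom.ker (D.map₀ (Ideal.Quotient.mkₐ k 𝔪)) = 𝔪.map (algebraMap B (D.A₀ B)) := by
    have := Algebra.TensorProduct.lTensor_ker (A := D.R₀) (Ideal.Quotient.mkₐ k 𝔪)
      (Ideal.Quotient.mkₐ_surjective k 𝔪)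
    have hk : RingHom.ker (Ideal.Quotient.mkₐ k 𝔪) = 𝔪 :=
      Ideal.ext fun b => by
        rw [RingHom.mem_ker]
        exact Ideal.Quotient.eq_zero_iff_mem
    rw [hk] at this
    exact this
  rw [← hker]
  exact RingHom.ker_isPrime _

/-- Over an algebraically closed field, the closed fibres of `D.A₁ B` over `B` are domains. -/
theorem isPrime_map_A₁ [IsAlgClosed k] (𝔪 : Ideal B) (h𝔪 : 𝔪.IsMaximal) :
    (𝔪.map (algebraMap B (D.A₁ B))).IsPrime := by
  let _ : Field (B ⧸ 𝔪) := Ideal.Quotient.field 𝔪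
  have hdom : IsDomain (D.R₁ ⊗[k] (B ⧸ 𝔪)) :=
    Fermat.Agent.Lib.helper9007.isDomain_tensorProduct k D.R₁ (B ⧸ 𝔪)
  have hker : RingHom.ker (D.map₁ (Ideal.Quotient.mkₐ k 𝔪)) = 𝔪.map (algebraMap B (D.A₁ B)) := by
    have := Algebra.TensorProduct.lTensor_ker (A := D.R₁) (Ideal.Quotient.mkₐ k 𝔪)
      (Ideal.Quotient.mkₐ_surjective k 𝔪)
    have hk : RingHom.ker (Ideal.Quotient.mkₐ k 𝔪) = 𝔪 :=
      Ideal.ext fun b => by
        rw [RingHom.mem_ker]
        exact Ideal.Quotient.eq_zero_iff_mem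
    rw [hk] at this
    exact this
  rw [← hker]
  exact RingHom.ker_isPrime _

variable {D B}

/-- **Relative divisor of a section of a two-chart line bundle, finiteness part** (any field
`k`).  If the section `(s₀, s₁)` of `G` generates `M₁` modulo `y`, then the divisor
`M₀ ⧸ A₀ s₀` is a finitely presented `B`-module killed by a monic polynomial in `x`,
multiplication by `y` is bijective on `M₁ ⧸ A₁ s₁` and `M₁ ⧸ A₁ s₁ → M₀₁ ⧸ A₀₁ s` is bijective
(the divisor lies in the first chart). -/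
theorem relDivisor_glue_fp (G : GlueDatum D B) (s₀ : G.M₀) (s₁ : G.M₁)
    (hs : G.ρ₀ s₀ = G.ρ₁ s₁)
    (hgen : ∀ m : G.M₁, ∃ a : D.A₁ B, ∃ m' : G.M₁, m = a • s₁ + yB D B • m') :
    Module.FinitePresentation B (G.M₀ ⧸ Submodule.span (D.A₀ B) {s₀}) ∧
    (∃ P : B[X], P.Monic ∧
      ∀ q : G.M₀ ⧸ Submodule.span (D.A₀ B) {s₀}, aeval (xB D B) P • q = 0) ∧
    Function.Bijective (fun z : G.M₁ ⧸ Submodule.span (D.A₁ B) {s₁} => yB D B • z) ∧
    Function.Bijective (quotRes B (D.A₀₁ B) G.ρ₁ s₁ (G.ρ₀ s₀) hs.symm) := by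
  have : Module.FinitePresentation (D.A₀ B) G.M₀ := Module.finitePresentation_of_projective _ _
  exact relDivisor_unbundled (xB D B) (yB D B) (xB_mul_yB D B) G.ρ₀ G.ρ₁ s₀ s₁ hs hgen
    (finite_aeval_yB D B) (aevalFP_xB D B)

/-- **Relative divisor of a section of a two-chart line bundle** (`k` algebraically closed).
If the section `(s₀, s₁)` of `G` generates `M₁` modulo `y` and is nonzero on every closed fibre
of `Spec B`, then `s₀` is a nonzerodivisor on `M₀` (`a ↦ a • s₀` is injective) and the divisor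
`M₀ ⧸ A₀ s₀` is a finite projective `B`-module. -/
theorem relDivisor_glue [IsAlgClosed k] (G : GlueDatum D B) (s₀ : G.M₀) (s₁ : G.M₁)
    (hs : G.ρ₀ s₀ = G.ρ₁ s₁)
    (hgen : ∀ m : G.M₁, ∃ a : D.A₁ B, ∃ m' : G.M₁, m = a • s₁ + yB D B • m')
    (hfib : ∀ 𝔪 : Ideal B, 𝔪.IsMaximal → s₀ ∉ 𝔪 • (⊤ : Submodule B G.M₀)) :
    Function.Injective (fun a : D.A₀ B => a • s₀) ∧
    Module.Finite B (G.M₀ ⧸ Submodule.span (D.A₀ B) {s₀}) ∧
    Module.Projective B (G.M₀ ⧸ Submodule.span (D.A₀ B) {s₀}) := by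
  obtain ⟨hinj, hflat⟩ := injective_and_flat_of_fibrewise_ne_zero (B := B) (A := D.A₀ B) s₀
    (isPrime_map_A₀ D B) hfib
  have hfp := (relDivisor_glue_fp G s₀ s₁ hs hgen).1
  exact ⟨hinj, inferInstance, Module.Flat.projective_of_finitePresentation⟩

/-- Symmetric version of `relDivisor_glue_fp` (divisor in the chart at infinity): if the section
generates `M₀` modulo `x`, then `M₁ ⧸ A₁ s₁` is a finitely presented `B`-module killed by a monic
polynomial in `y`. -/
theorem relDivisor_glue_fp' (G : GlueDatum D B) (s₀ : G.M₀) (s₁ : G.M₁)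
    (hs : G.ρ₀ s₀ = G.ρ₁ s₁)
    (hgen : ∀ m : G.M₀, ∃ a : D.A₀ B, ∃ m' : G.M₀, m = a • s₀ + xB D B • m') :
    Module.FinitePresentation B (G.M₁ ⧸ Submodule.span (D.A₁ B) {s₁}) ∧
    (∃ P : B[X], P.Monic ∧
      ∀ q : G.M₁ ⧸ Submodule.span (D.A₁ B) {s₁}, aeval (yB D B) P • q = 0) ∧
    Function.Bijective (fun z : G.M₀ ⧸ Submodule.span (D.A₀ B) {s₀} => xB D B • z) ∧
    Function.Bijective (quotRes B (D.A₀₁ B) G.ρ₀ s₀ (G.ρ₁ s₁) hs) := by
  have : Module.FinitePresentation (D.A₁ B) G.M₁ := Module.finitePresentation_of_projective _ _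
  exact relDivisor_unbundled (yB D B) (xB D B) ((mul_comm _ _).trans (xB_mul_yB D B)) G.ρ₁ G.ρ₀
    s₁ s₀ hs.symm hgen (finite_aeval_xB D B) (aevalFP_yB D B)

/-- Symmetric version of `relDivisor_glue` (divisor in the chart at infinity). -/
theorem relDivisor_glue' [IsAlgClosed k] (G : GlueDatum D B) (s₀ : G.M₀) (s₁ : G.M₁)
    (hs : G.ρ₀ s₀ = G.ρ₁ s₁)
    (hgen : ∀ m : G.M₀, ∃ a : D.A₀ B, ∃ m' : G.M₀, m = a • s₀ + xB D B • m')
    (hfib : ∀ 𝔪 : Ideal B, 𝔪.IsMaximal → s₁ ∉ 𝔪 • (⊤ : Submodule B G.M₁)) :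
    Function.Injective (fun a : D.A₁ B => a • s₁) ∧
    Module.Finite B (G.M₁ ⧸ Submodule.span (D.A₁ B) {s₁}) ∧
    Module.Projective B (G.M₁ ⧸ Submodule.span (D.A₁ B) {s₁}) := by
  obtain ⟨hinj, hflat⟩ := injective_and_flat_of_fibrewise_ne_zero (B := B) (A := D.A₁ B) s₁
    (isPrime_map_A₁ D B) hfib
  have hfp := (relDivisor_glue_fp' G s₀ s₁ hs hgen).1
  exact ⟨hinj, inferInstance, Module.Flat.projective_of_finitePresentation⟩

end Glue

end Fermat.Agent.S25.helper1227
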