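import Fermat.Agent.S25.helper1227_ChartMono
import Fermat.Agent.S25.helper3173_ChartOfAsm

/-!
# S25, root `Stmt_ChartOfAC`: the clause MONO for THE chart family (helper1227)

`stmt_UnivMono : helper3173.Stmt_UnivMono` — on a good chart `(s, f)` of the base bundle `N`
the classifying map `γ : W s f → B` is determined by the isomorphism class of the pulled-back
universal bundle `(P N s f).baseChange γ`.

Proof: instantiate `chartMono_of_isSubDatum` (M3 of `helper1227_ChartMono`) with
`Icl γ = (chartIdeal s f).map (D.map₀ γ)`: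

* `(P N s f).baseChange γ ≅ twistOf N (Icl γ)` (`helper3173.stmt_UnivPoint`), and `twistOf N I`
  is the sub-datum of `N_B` cut out by `I` (`isSubDatum_twistOf`);
* `Icl γ` is a chart ideal (`helper1002.IsChartIdeal.map`), so its quotient is free of rank
  `genus D`;
* `γ` is determined by `Icl γ` (`helper1002.chartAway_hom_ext`);
* `H¹(Hom(P, N_W)) = 0` is the hypothesis `Good N s f`.
-/

set_option autoImplicit false

open TensorProduct

namespace Fermat.Agent.S25.helper1227

open Fermat.Agent.S25.helper1705 Fermat.Agent.S25.helper2945 Fermat.Agent.S25.helper1397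

universe u

section UnivMono

variable {k : Type u} [Field k] [IsAlgClosed k] {D : CurveDatum k}
  {B : Type u} [CommRing B] [Algebra k B]

/-- `N_B(−D_I)` is the sub-datum of `N_B` cut out by the ideal `I` of the first chart. -/
theorem isSubDatum_twistOf (N : GlueDatum D k) (I : Ideal (D.A₀ B))
    [Module.Finite B (D.A₀ B ⧸ I)] [Module.Projective B (D.A₀ B ⧸ I)] :
    IsSubDatum (helper3173.twistOf N I) (helper8573.baseOver N B) I := by
  obtain ⟨u, hu, hu1, -⟩ := helper3173.exists_mem_divOf_I₁ I
  obtain ⟨w, hw⟩ := Ideal.mem_span_singleton'.mp hu1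
  refine ⟨helper3173.twistOfIncl N I, helper3173.twistOfIncl_f₀_injective N I,
    helper3173.range_twistOfIncl_f₀ N I, u, -w, ?_, fun n => ?_⟩
  · rw [mul_neg, mul_comm, hw]
    ring
  · have h : LinearMap.range (helper3173.twistOfIncl N I).f₁ =
        (helper3173.divOf I).I₁ • (⊤ : Submodule (D.A₁ B) (helper8573.baseOver N B).M₁) :=
      helper3173.range_inclMor_f₁ _ _
    rw [h]
    exact Submodule.smul_mem_smul hu Submodule.mem_top

end UnivMono

/-- **MONO** for the chart family `P N s f` of `helper3173_ChartOfAsm`. -/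
theorem stmt_UnivMono : helper3173.Stmt_UnivMono.{u} := by
  intro k _ _ D N _ s f hgood
  have hch := helper3173.isChartIdeal_chartIdeal (D := D) s f
  refine chartMono_of_isSubDatum (helper3173.P N s f) N
    (fun B _ _ γ => (helper3173.chartIdeal s f).map (D.map₀ γ)) ?_ ?_
    (LinearMap.range_eq_top.mpr hgood)
  · intro B _ _ φ φ' h
    exact helper1002.chartAway_hom_ext f h
  · intro B _ _ γ
    have hI : helper1002.IsChartIdeal s ((helper3173.chartIdeal s f).map (D.map₀ γ)) :=
      hch.map γ
    have hfin := hI.finite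
    have hproj := hI.projective
    refine ⟨IsSubDatum.of_equiv (helper3173.stmt_UnivPoint k D N s f B γ)
      (isSubDatum_twistOf N _), hI.finite, hI.flat, ?_⟩
    intro 𝔪 _
    have : Nontrivial B := (⟨𝔪, inferInstance⟩ : PrimeSpectrum B).nontrivial
    rw [hI.rankAtStalk_eq, Fintype.card_fin]

end Fermat.Agent.S25.helper1227
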