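import Mathlib

/-!
# S25, layer A (algebra): the diagonal ideal of a smooth curve algebra is invertible

Mathlib-only, statement-agnostic brick (owner helper1351).

* `invertible_of_locally_principal`: in a domain `S`, a nonzero ideal which is principal near every
  maximal ideal is an invertible `S`-module.
* `diag_invertible`: for a finite type algebra `R` over a field `k` with `Ω[R⁄k]` invertible and
  `R ⊗[k] R` a domain, the diagonal ideal `KaehlerDifferential.ideal k R = ker (R ⊗[k] R → R)` is an
  invertible `R ⊗[k] R`-module.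
-/

set_option autoImplicit false

open scoped TensorProduct

namespace Fermat.Agent.S25.helper1351

section LocallyPrincipal

variable {S : Type*} [CommRing S] [IsDomain S]

/-- In a domain, a nonzero ideal `J` that is "principal near every maximal ideal"
(for every maximal `m` there are `t ∈ J` and `s ∉ m` with `s • J ⊆ (t)`) is a unit in the monoid of
`S`-submodules of the fraction field. -/
theorem coeSubmodule_mul_one_div_eq_one (J : Ideal S) (hJ : J ≠ ⊥)
    (h : ∀ m : Ideal S, m.IsMaximal → ∃ t ∈ J, ∃ s, s ∉ m ∧ ∀ a ∈ J, ∃ b, s * a = b * t) :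
    IsLocalization.coeSubmodule (FractionRing S) J *
      (1 / IsLocalization.coeSubmodule (FractionRing S) J) = 1 := by
  set K := FractionRing S
  set P : Submodule S K := IsLocalization.coeSubmodule K J * (1 / IsLocalization.coeSubmodule K J)
    with hP
  refine le_antisymm Submodule.mul_one_div_le_one ?_
  rw [Submodule.one_le]
  -- the ideal of all `s` with `s ∈ P`
  let I0 : Ideal S := P.comap (Algebra.linearMap S K)
  suffices hI0 : I0 = ⊤ by
    have h1 : (1 : S) ∈ I0 := by rw [hI0]; trivial
    simpa [I0] using h1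
  by_contra hne
  obtain ⟨m, hm, hI0m⟩ := Ideal.exists_le_maximal I0 hne
  obtain ⟨t, htJ, s, hsm, hs⟩ := h m hm
  have hs0 : s ≠ 0 := fun h0 => hsm (h0 ▸ m.zero_mem)
  have ht0 : t ≠ 0 := by
    rintro rfl
    apply hJ
    rw [eq_bot_iff]
    intro a ha
    obtain ⟨b, hb⟩ := hs a ha
    rw [mul_zero] at hb
    rcases mul_eq_zero.mp hb with h' | h'
    · exact absurd h' hs0
    · simpa using h'
  have htK : algebraMap S K t ≠ 0 := by
    simpa using ht0
  apply hsm
  apply hI0m
  change algebraMap S K s ∈ P
  have hdiv : algebraMap S K s / algebraMap S K t ∈ 1 / IsLocalization.coeSubmodule K J := by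
    rw [Submodule.mem_div_iff_forall_mul_mem]
    intro y hy
    obtain ⟨a, ha, rfl⟩ := (IsLocalization.mem_coeSubmodule _ _).mp hy
    obtain ⟨b, hb⟩ := hs a ha
    rw [Submodule.mem_one]
    refine ⟨b, ?_⟩
    rw [div_mul_eq_mul_div, eq_div_iff htK, ← map_mul, ← map_mul, hb]
  have hmem : algebraMap S K t * (algebraMap S K s / algebraMap S K t) ∈ P :=
    Submodule.mul_mem_mul ((IsLocalization.mem_coeSubmodule _ _).mpr ⟨t, htJ, rfl⟩) hdiv
  rwa [mul_div_cancel₀ _ htK] at hmem

/-- In a domain, a nonzero ideal that is principal near every maximal ideal is an invertible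
module. -/
theorem invertible_of_locally_principal (J : Ideal S) (hJ : J ≠ ⊥)
    (h : ∀ m : Ideal S, m.IsMaximal → ∃ t ∈ J, ∃ s, s ∉ m ∧ ∀ a ∈ J, ∃ b, s * a = b * t) :
    Module.Invertible S J := by
  set K := FractionRing S
  let u : (Submodule S K)ˣ :=
    Units.mkOfMulEqOne (IsLocalization.coeSubmodule K J) (1 / IsLocalization.coeSubmodule K J)
      (coeSubmodule_mul_one_div_eq_one J hJ h)
  have hu : Module.Invertible S (u : Submodule S K) := inferInstance
  have : Module.Invertible S (IsLocalization.coeSubmodule K J) := hu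
  have e : J ≃ₗ[S] (IsLocalization.coeSubmodule K J) :=
    Submodule.equivMapOfInjective (Algebra.linearMap S K) (IsFractionRing.injective S K) J
  exact Module.Invertible.congr e.symm

end LocallyPrincipal

section Diag

variable (k : Type*) [Field k] (R : Type*) [CommRing R] [Algebra k R]

/-- `Ω[R⁄k]` is generated by one element near every maximal ideal of `R`. -/
def OmegaLocallyMonogenic : Prop :=
  ∀ p : Ideal R, p.IsMaximal →
    ∃ g, g ∉ p ∧ ∃ ω : Ω[R⁄k], ∀ ω' : Ω[R⁄k], ∃ r : R, g • ω' = r • ω

variable {k R}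

/-- If `Ω[R⁄k]` is locally monogenic, the diagonal ideal is principal near every maximal ideal of
`R ⊗[k] R`. -/
theorem diag_locally_principal [Algebra.EssFiniteType k R] [IsDomain (R ⊗[k] R)]
    (hΩ : OmegaLocallyMonogenic k R) (m : Ideal (R ⊗[k] R)) (hm : m.IsMaximal) :
    ∃ t ∈ KaehlerDifferential.ideal k R, ∃ s, s ∉ m ∧
      ∀ a ∈ KaehlerDifferential.ideal k R, ∃ b, s * a = b * t := by
  classical
  set S := R ⊗[k] R with hS
  set J : Ideal S := KaehlerDifferential.ideal k R with hJ
  by_cases hJm : J ≤ m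
  swap
  · obtain ⟨t, htJ, htm⟩ := Set.not_subset.mp hJm
    exact ⟨t, htJ, t, htm, fun a _ => ⟨a, mul_comm _ _⟩⟩
  have := hm.isPrime
  let μ : S →ₐ[k] R := Algebra.TensorProduct.lmul' k
  have hμ : Function.Surjective μ := fun r =>
    ⟨r ⊗ₜ 1, (Algebra.TensorProduct.lmul'_apply_tmul r 1).trans (mul_one r)⟩
  have hker : RingHom.ker (μ : S →+* R) = J := rfl
  have hp : (m.map (μ : S →+* R)).IsMaximal := by
    refine (Ideal.map_eq_top_or_isMaximal_of_surjective (μ : S →+* R) hμ hm).resolve_left ?_
    intro htop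
    have h1 := Ideal.comap_map_of_surjective (μ : S →+* R) hμ m
    rw [htop, Ideal.comap_top] at h1
    have h2 : m ⊔ Ideal.comap (μ : S →+* R) ⊥ = m := by
      rw [sup_eq_left]
      exact hJm
    rw [h2] at h1
    exact hm.ne_top h1.symm
  obtain ⟨g, hg, ω, hω⟩ := hΩ _ hp
  obtain ⟨t, rfl⟩ := KaehlerDifferential.fromIdeal_surjective k R ω
  set G : S := algebraMap R S g with hG
  have hGm : G ∉ m := by
    intro hGm
    apply hg
    have h1 := Ideal.mem_map_of_mem (μ : S →+* R) hGm
    have h2 : (μ : S →+* R) G = g := by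
      change Algebra.TensorProduct.lmul' k (algebraMap R (R ⊗[k] R) g) = g
      rw [Algebra.TensorProduct.algebraMap_apply, Algebra.TensorProduct.lmul'_apply_tmul]
      simp
    rwa [h2] at h1
  -- the key congruence modulo `J ^ 2`
  have key : ∀ a ∈ J, ∃ c : S, G * a - c * (t : S) ∈ J ^ 2 := by
    intro a ha
    obtain ⟨r, hr⟩ := hω (KaehlerDifferential.fromIdeal k R ⟨a, ha⟩)
    refine ⟨algebraMap R S r, ?_⟩
    have h0 : KaehlerDifferential.fromIdeal k R
        (G • (⟨a, ha⟩ : J) - algebraMap R S r • t) = 0 := by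
      rw [map_sub, map_smul, map_smul, algebraMap_smul, algebraMap_smul, hr, sub_self]
    have h1 := (Ideal.toCotangent_eq_zero J _).mp h0
    simpa [Algebra.smul_def] using h1
  -- localize at `m` and apply Nakayama
  let Sm := Localization.AtPrime m
  let φ : S →+* Sm := algebraMap S Sm
  have hle : J.map φ ≤ Ideal.span {φ (t : S)} ⊔ J.map φ • J.map φ := by
    rw [Ideal.map_le_iff_le_comap]
    intro a ha
    obtain ⟨c, hc⟩ := key a ha
    rw [Ideal.mem_comap]
    have hunit : IsUnit (φ G) := IsLocalization.map_units Sm (⟨G, hGm⟩ : m.primeCompl)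
    rw [← Ideal.unit_mul_mem_iff_mem _ hunit]
    have heq : φ G * φ a = φ c * φ (t : S) + φ (G * a - c * (t : S)) := by
      rw [← map_mul, ← map_mul, ← map_add]
      congr 1
      ring
    rw [heq]
    refine Submodule.add_mem_sup (Ideal.mul_mem_left _ _ (Ideal.subset_span rfl)) ?_
    rw [smul_eq_mul, ← Ideal.map_mul, ← pow_two]
    exact Ideal.mem_map_of_mem φ hc
  have hfg : (J.map φ).FG := (KaehlerDifferential.ideal_fg k R).map φ
  have hjac : J.map φ ≤ Ideal.jacobson ⊥ := by
    rw [IsLocalRing.jacobson_eq_maximalIdeal ⊥ bot_ne_top,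
      ← Localization.AtPrime.map_eq_maximalIdeal]
    exact Ideal.map_mono hJm
  have hNak : J.map φ ≤ Ideal.span {φ (t : S)} :=
    Submodule.le_of_le_smul_of_le_jacobson_bot hfg hjac hle
  have hinj : Function.Injective φ := by
    refine IsLocalization.injective Sm (M := m.primeCompl) ?_
    intro x hx
    exact mem_nonZeroDivisors_of_ne_zero (by rintro rfl; exact hx m.zero_mem)
  -- pull back to `S`, one element at a time
  have key2 : ∀ a : S, ∃ s, s ∉ m ∧ (a ∈ J → ∃ b, s * a = b * (t : S)) := by
    intro a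
    by_cases ha : a ∈ J
    · have h1 : φ a ∈ Ideal.span {φ (t : S)} := hNak (Ideal.mem_map_of_mem φ ha)
      obtain ⟨z, hz⟩ := Ideal.mem_span_singleton'.mp h1
      obtain ⟨b, s', rfl⟩ := IsLocalization.exists_mk'_eq m.primeCompl z
      refine ⟨s', s'.2, fun _ => ⟨b, ?_⟩⟩
      apply hinj
      rw [map_mul, map_mul, ← hz, ← mul_assoc, mul_comm (φ s'), IsLocalization.mk'_spec]
    · exact ⟨1, fun h1 => hm.ne_top ((Ideal.eq_top_iff_one m).mpr h1), fun h => absurd h ha⟩
  choose s hsm hs using key2
  obtain ⟨F, hF⟩ := KaehlerDifferential.ideal_fg k R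
  refine ⟨t, t.2, ∏ a ∈ F, s a, ?_, ?_⟩
  · intro hprod
    obtain ⟨a, _, ha⟩ := (hm.isPrime.prod_mem_iff).mp hprod
    exact hsm a ha
  · have hle2 : J ≤ Submodule.comap (LinearMap.mulLeft S (∏ a ∈ F, s a))
        (Ideal.span {(t : S)}) := by
      refine (hF.symm.le : J ≤ Ideal.span (F : Set S)).trans (Ideal.span_le.mpr ?_)
      intro a ha
      have haJ : a ∈ J := hF.le (Ideal.subset_span ha)
      obtain ⟨b, hb⟩ := hs a haJ
      change (∏ a ∈ F, s a) * a ∈ Ideal.span {(t : S)}
      rw [← Finset.prod_erase_mul F s ha, mul_assoc, hb, ← mul_assoc]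
      exact Ideal.mul_mem_left _ _ (Ideal.subset_span rfl)
    intro a ha
    obtain ⟨b, hb⟩ := Ideal.mem_span_singleton'.mp (hle2 ha)
    exact ⟨b, hb.symm⟩

/-- An invertible module is generated by one element near every maximal ideal (in the explicit
form used by `OmegaLocallyMonogenic`). -/
theorem exists_local_generator_of_invertible {A : Type*} [CommRing A] (M : Type*) [AddCommGroup M]
    [Module A M] [Module.Invertible A M] (p : Ideal A) (hp : p ≠ ⊤) :
    ∃ g, g ∉ p ∧ ∃ ω : M, ∀ ω' : M, ∃ r : A, g • ω' = r • ω := by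
  have hex : ∃ (f : Module.Dual A M) (x : M), f x ∉ p := by
    by_contra hcon
    push Not at hcon
    apply hp
    rw [Ideal.eq_top_iff_one]
    have hall : ∀ z : Module.Dual A M ⊗[A] M, contractLeft A M z ∈ p := by
      intro z
      induction z using TensorProduct.induction_on with
      | zero => simp
      | tmul f x => simpa using hcon f x
      | add a b ha hb => rw [map_add]; exact p.add_mem ha hb
    obtain ⟨z, hz⟩ := (Module.Invertible.bijective (R := A) (M := M)).2 1
    rw [← hz]
    exact hall z
  obtain ⟨f, x, hfx⟩ := hex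
  refine ⟨f x, hfx, x, fun ω' => ⟨f ω', ?_⟩⟩
  have h := congrArg (TensorProduct.lift ((LinearMap.lsmul A M).comp f))
    (Module.Invertible.tmul_comm (R := A) (m₁ := x) (m₂ := ω'))
  simpa using h

/-- If `Ω[R⁄k]` is an invertible `R`-module then it is locally monogenic. -/
theorem omegaLocallyMonogenic_of_invertible [Module.Invertible R Ω[R⁄k]] :
    OmegaLocallyMonogenic k R :=
  fun p hp => exists_local_generator_of_invertible Ω[R⁄k] p hp.ne_top

/-- If `Ω[R⁄k]` is nontrivial then the diagonal ideal is nonzero. -/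
theorem diag_ne_bot [Nontrivial Ω[R⁄k]] : KaehlerDifferential.ideal k R ≠ ⊥ := by
  intro h
  obtain ⟨x, y, hxy⟩ := exists_pair_ne Ω[R⁄k]
  apply hxy
  obtain ⟨a, rfl⟩ := KaehlerDifferential.fromIdeal_surjective k R x
  obtain ⟨b, rfl⟩ := KaehlerDifferential.fromIdeal_surjective k R y
  have hsub : ∀ c : KaehlerDifferential.ideal k R, c = 0 := by
    intro c
    ext
    have hc : (c : R ⊗[k] R) ∈ (⊥ : Ideal (R ⊗[k] R)) := h.le c.2
    simpa using hc
  rw [hsub a, hsub b]

/-- **The diagonal ideal is invertible** (general form): if `R ⊗[k] R` is a domain, `R` is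
(essentially) of finite type over `k`, `Ω[R⁄k]` is locally monogenic and the diagonal ideal is
nonzero, then the diagonal ideal is an invertible `R ⊗[k] R`-module. -/
theorem diag_invertible_of_locallyMonogenic [Algebra.EssFiniteType k R] [IsDomain (R ⊗[k] R)]
    (hΩ : OmegaLocallyMonogenic k R) (hne : KaehlerDifferential.ideal k R ≠ ⊥) :
    Module.Invertible (R ⊗[k] R) (KaehlerDifferential.ideal k R) :=
  invertible_of_locally_principal _ hne (fun m hm => diag_locally_principal hΩ m hm)

variable (k R)

/-- **The diagonal ideal of a smooth curve algebra is invertible**: if `R` is (essentially) of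
finite type over the field `k`, `Ω[R⁄k]` is an invertible `R`-module and `R ⊗[k] R` is a domain,
then the kernel of the multiplication map `R ⊗[k] R → R` is an invertible `R ⊗[k] R`-module. -/
theorem diag_invertible [Algebra.EssFiniteType k R] [IsDomain (R ⊗[k] R)]
    [Module.Invertible R Ω[R⁄k]] :
    Module.Invertible (R ⊗[k] R) (KaehlerDifferential.ideal k R) := by
  have : Nontrivial R := (algebraMap R (R ⊗[k] R)).domain_nontrivial
  have : Nontrivial Ω[R⁄k] := by
    by_contra hnt
    rw [not_nontrivial_iff_subsingleton] at hnt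
    have h01 : (1 : R) = 0 := by
      apply (inferInstance : FaithfulSMul R Ω[R⁄k]).eq_of_smul_eq_smul
      intro x
      exact Subsingleton.elim _ _
    exact one_ne_zero h01
  exact diag_invertible_of_locallyMonogenic omegaLocallyMonogenic_of_invertible diag_ne_bot

/-- The same statement with the diagonal ideal written as a kernel. -/
theorem ker_lmul'_invertible [Algebra.EssFiniteType k R] [IsDomain (R ⊗[k] R)]
    [Module.Invertible R Ω[R⁄k]] :
    Module.Invertible (R ⊗[k] R)
      (RingHom.ker (Algebra.TensorProduct.lmul' k : R ⊗[k] R →ₐ[k] R)) :=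
  diag_invertible k R

/-- Consequently the diagonal ideal is a finite projective module. -/
theorem diag_finite_projective [Algebra.EssFiniteType k R] [IsDomain (R ⊗[k] R)]
    [Module.Invertible R Ω[R⁄k]] :
    Module.Finite (R ⊗[k] R) (KaehlerDifferential.ideal k R) ∧
      Module.Projective (R ⊗[k] R) (KaehlerDifferential.ideal k R) := by
  have := diag_invertible k R
  exact ⟨inferInstance, inferInstance⟩

end Diag

end Fermat.Agent.S25.helper1351
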