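import Fermat.Agent.S25.helper1397_HomGlue
import Fermat.Agent.S25.helper8573_LCSpec
import Fermat.Agent.S25.helper3115_TwistGlue

/-!
# S25, leaf LC-HOM: bridges of the Hom datum to the chart-layer Spec and to twists (helper1397)

* `Mor.toSpec`, `Mor.ofSpec`, `Mor.equivSpec : Mor G G' ≃ helper8573.Mor G G'`;
* `specMorEquivH0 : helper8573.Mor G G' ≃ (homDatum G G').H0`, `specMor_ext`,
  `specMorOfSection`, `specMor_generates_iff`, `specMor_surjModY_iff`,
  `specMor_equiv_of_surjective`, `specMorBaseChange`;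
* `homTwistIso : Iso (homDatum G (twist H n)) (twist (homDatum G H) n)`,
  `homTwistLeftIso : Iso (homDatum (twist G n) H) (twist (homDatum G H) (-n))`,
  `specMorTwistOfSection`, `specMor_twist_comm`.
-/

set_option autoImplicit false
set_option linter.style.haveILetI false

open scoped TensorProduct Pointwise

namespace Fermat.Agent.S25.helper1397

open Fermat.Agent.S25.helper1705 Fermat.Agent.S25.helper2945 Fermat.Agent.S25.helper743
open Fermat.Agent.S25.helper3115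

universe u

variable {k : Type u} [Field k] {D : CurveDatum k} {B : Type u} [CommRing B] [Algebra k B]

section Spec

variable {G G' : GlueDatum D B}

/-- From the Hom-datum morphism type to the chart-layer Spec morphism type. -/
def Mor.toSpec (σ : Mor G G') : helper8573.Mor G G' where
  f₀ := σ.f₀
  f₁ := σ.f₁
  f₀₁ := σ.f₀₁
  comm₀ := σ.comm₀
  comm₁ := σ.comm₁

/-- From the chart-layer Spec morphism type to the Hom-datum morphism type. -/
def Mor.ofSpec (σ : helper8573.Mor G G') : Mor G G' where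
  f₀ := σ.f₀
  f₁ := σ.f₁
  f₀₁ := σ.f₀₁
  comm₀ := σ.comm₀
  comm₁ := σ.comm₁

/-- The two morphism types are the same. -/
def Mor.equivSpec : Mor G G' ≃ helper8573.Mor G G' where
  toFun := Mor.toSpec
  invFun := Mor.ofSpec
  left_inv _ := rfl
  right_inv _ := rfl

@[simp] theorem Mor.toSpec_f₀ (σ : Mor G G') : σ.toSpec.f₀ = σ.f₀ := rfl
@[simp] theorem Mor.toSpec_f₁ (σ : Mor G G') : σ.toSpec.f₁ = σ.f₁ := rfl
@[simp] theorem Mor.toSpec_f₀₁ (σ : Mor G G') : σ.toSpec.f₀₁ = σ.f₀₁ := rfl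
@[simp] theorem Mor.ofSpec_f₀ (σ : helper8573.Mor G G') : (Mor.ofSpec σ).f₀ = σ.f₀ := rfl
@[simp] theorem Mor.ofSpec_f₁ (σ : helper8573.Mor G G') : (Mor.ofSpec σ).f₁ = σ.f₁ := rfl
@[simp] theorem Mor.ofSpec_f₀₁ (σ : helper8573.Mor G G') : (Mor.ofSpec σ).f₀₁ = σ.f₀₁ := rfl

/-- A Spec morphism is determined by its two chart components. -/
theorem specMor_ext {σ τ : helper8573.Mor G G'} (h₀ : σ.f₀ = τ.f₀) (h₁ : σ.f₁ = τ.f₁) : σ = τ :=
  Mor.equivSpec.symm.injective (Mor.ext h₀ h₁)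

theorem specMor_f₀₁_eq₀ (σ : helper8573.Mor G G') : σ.f₀₁ = homRes₀ G G' σ.f₀ :=
  (Mor.ofSpec σ).f₀₁_eq₀

theorem specMor_f₀₁_eq₁ (σ : helper8573.Mor G G') : σ.f₀₁ = homRes₁ G G' σ.f₁ :=
  (Mor.ofSpec σ).f₀₁_eq₁

/-- Spec morphisms `G → G'` are the global sections of the Hom datum. -/
noncomputable def specMorEquivH0 : helper8573.Mor G G' ≃ (homDatum G G').H0 :=
  Mor.equivSpec.symm.trans Mor.equivH0

@[simp] theorem specMorEquivH0_apply_fst (σ : helper8573.Mor G G') :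
    (specMorEquivH0 σ).1.1 = σ.f₀ := rfl
@[simp] theorem specMorEquivH0_apply_snd (σ : helper8573.Mor G G') :
    (specMorEquivH0 σ).1.2 = σ.f₁ := rfl
@[simp] theorem specMorEquivH0_symm_f₀ (p : (homDatum G G').H0) :
    (specMorEquivH0.symm p).f₀ = p.1.1 := rfl
@[simp] theorem specMorEquivH0_symm_f₁ (p : (homDatum G G').H0) :
    (specMorEquivH0.symm p).f₁ = p.1.2 := rfl

/-- The Spec morphism with prescribed chart components, given their compatibility on the
overlap in the Hom datum. -/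
noncomputable def specMorOfSection (f₀ : G.M₀ →ₗ[D.A₀ B] G'.M₀) (f₁ : G.M₁ →ₗ[D.A₁ B] G'.M₁)
    (h : (homDatum G G').ρ₀ f₀ = (homDatum G G').ρ₁ f₁) : helper8573.Mor G G' :=
  specMorEquivH0.symm ⟨(f₀, f₁), (GlueDatum.mem_H0 _ _).mpr h⟩

@[simp] theorem specMorOfSection_f₀ (f₀ : G.M₀ →ₗ[D.A₀ B] G'.M₀) (f₁ : G.M₁ →ₗ[D.A₁ B] G'.M₁)
    (h : (homDatum G G').ρ₀ f₀ = (homDatum G G').ρ₁ f₁) :
    (specMorOfSection f₀ f₁ h).f₀ = f₀ := rfl

@[simp] theorem specMorOfSection_f₁ (f₀ : G.M₀ →ₗ[D.A₀ B] G'.M₀) (f₁ : G.M₁ →ₗ[D.A₁ B] G'.M₁)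
    (h : (homDatum G G').ρ₀ f₀ = (homDatum G G').ρ₁ f₁) :
    (specMorOfSection f₀ f₁ h).f₁ = f₁ := rfl

/-- The compatibility of the chart components of a Spec morphism, in the Hom datum. -/
theorem specMor_section (σ : helper8573.Mor G G') :
    (homDatum G G').ρ₀ σ.f₀ = (homDatum G G').ρ₁ σ.f₁ :=
  (GlueDatum.mem_H0 _ _).mp (specMorEquivH0 σ).2

theorem specMor_mem_H0 (σ : helper8573.Mor G G') : (σ.f₀, σ.f₁) ∈ (homDatum G G').H0 :=
  (specMorEquivH0 σ).2

/-- The section of the Hom datum defined by a Spec morphism, as a pair. -/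
def specMorPair (σ : helper8573.Mor G G') : (homDatum G G').M₀ × (homDatum G G').M₁ :=
  (σ.f₀, σ.f₁)

@[simp] theorem specMorPair_fst (σ : helper8573.Mor G G') : (specMorPair σ).1 = σ.f₀ := rfl
@[simp] theorem specMorPair_snd (σ : helper8573.Mor G G') : (specMorPair σ).2 = σ.f₁ := rfl

theorem specMorPair_mem_H0 (σ : helper8573.Mor G G') : specMorPair σ ∈ (homDatum G G').H0 :=
  (specMorEquivH0 σ).2

/-- First component of a pair of the Hom datum, as a linear map. -/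
def pairFst (p : (homDatum G G').M₀ × (homDatum G G').M₁) : G.M₀ →ₗ[D.A₀ B] G'.M₀ := p.1

/-- Second component of a pair of the Hom datum, as a linear map. -/
def pairSnd (p : (homDatum G G').M₀ × (homDatum G G').M₁) : G.M₁ →ₗ[D.A₁ B] G'.M₁ := p.2

@[simp] theorem pairFst_specMorPair (σ : helper8573.Mor G G') : pairFst (specMorPair σ) = σ.f₀ :=
  rfl
@[simp] theorem pairSnd_specMorPair (σ : helper8573.Mor G G') : pairSnd (specMorPair σ) = σ.f₁ :=
  rfl

theorem pairFst_smul_apply (c : B) (p : (homDatum G G').M₀ × (homDatum G G').M₁) (m : G.M₀) :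
    pairFst (c • p) m = c • pairFst p m := rfl

theorem pairSnd_smul_apply (c : B) (p : (homDatum G G').M₀ × (homDatum G G').M₁) (m : G.M₁) :
    pairSnd (c • p) m = c • pairSnd p m := rfl

theorem pair_ext {p q : (homDatum G G').M₀ × (homDatum G G').M₁}
    (h₀ : ∀ m, pairFst p m = pairFst q m) (h₁ : ∀ m, pairSnd p m = pairSnd q m) : p = q :=
  Prod.ext (LinearMap.ext h₀) (LinearMap.ext h₁)

/-- `σ` generates all morphisms iff every section of the Hom datum is a multiple of the section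
of `σ`. -/
theorem specMor_generates_iff_forall (σ : helper8573.Mor G G') :
    σ.Generates ↔ ∀ p ∈ (homDatum G G').H0, ∃ c : B, p = c • specMorPair σ := by
  constructor
  · intro h p hp
    obtain ⟨c, h₀, h₁⟩ := h (specMorEquivH0.symm ⟨p, hp⟩)
    exact ⟨c, pair_ext (fun m => (h₀ m).trans (pairFst_smul_apply c (specMorPair σ) m).symm)
      (fun m => (h₁ m).trans (pairSnd_smul_apply c (specMorPair σ) m).symm)⟩
  · intro h τ
    obtain ⟨c, hc⟩ := h _ (specMorPair_mem_H0 τ)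
    refine ⟨c, fun m => ?_, fun m => ?_⟩
    · have := congrArg (fun p => pairFst p m) hc
      exact this.trans (pairFst_smul_apply c (specMorPair σ) m)
    · have := congrArg (fun p => pairSnd p m) hc
      exact this.trans (pairSnd_smul_apply c (specMorPair σ) m)

/-- `σ` generates all morphisms iff `H⁰` of the Hom datum is spanned by the section of `σ`. -/
theorem specMor_generates_iff (σ : helper8573.Mor G G') :
    σ.Generates ↔ (homDatum G G').H0 = Submodule.span B {specMorPair σ} := by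
  rw [specMor_generates_iff_forall]
  constructor
  · intro h
    apply le_antisymm
    · intro p hp
      obtain ⟨c, hc⟩ := h p hp
      exact Submodule.mem_span_singleton.mpr ⟨c, hc.symm⟩
    · rw [Submodule.span_singleton_le_iff_mem]
      exact specMorPair_mem_H0 σ
  · intro h p hp
    rw [h] at hp
    obtain ⟨c, hc⟩ := Submodule.mem_span_singleton.mp hp
    exact ⟨c, hc.symm⟩

/-- `σ` is surjective modulo `y` iff `range σ.f₁ + y • M₁ = M₁`. -/
theorem specMor_surjModY_iff (σ : helper8573.Mor G G') :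
    σ.SurjModY ↔ LinearMap.range σ.f₁ ⊔ Ideal.span {yB D B} • (⊤ : Submodule (D.A₁ B) G'.M₁) = ⊤ := by
  rw [Submodule.ideal_span_singleton_smul]
  constructor
  · intro h
    refine eq_top_iff.mpr fun n _ => ?_
    obtain ⟨m, n', rfl⟩ := h n
    exact Submodule.add_mem_sup (LinearMap.mem_range_self _ m)
      (Submodule.smul_mem_pointwise_smul _ _ _ Submodule.mem_top)
  · intro h n
    have hn : n ∈ LinearMap.range σ.f₁ ⊔ yB D B • (⊤ : Submodule (D.A₁ B) G'.M₁) := by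
      rw [h]; exact Submodule.mem_top
    obtain ⟨a, ⟨m, rfl⟩, b, hb, rfl⟩ := Submodule.mem_sup.mp hn
    obtain ⟨n', -, rfl⟩ := (Submodule.mem_smul_pointwise_iff_exists _ _ _).mp hb
    exact ⟨m, n', rfl⟩

/-- A Spec morphism which is surjective on both charts is an isomorphism. -/
noncomputable def specMorIsoOfSurjective (σ : helper8573.Mor G G')
    (h₀ : Function.Surjective σ.f₀) (h₁ : Function.Surjective σ.f₁) : GlueDatum.Iso G G' :=
  (Mor.ofSpec σ).isoOfSurjective h₀ h₁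

theorem specMor_equiv_of_surjective (σ : helper8573.Mor G G')
    (h₀ : Function.Surjective σ.f₀) (h₁ : Function.Surjective σ.f₁) : G.Equiv G' :=
  ⟨specMorIsoOfSurjective σ h₀ h₁⟩

@[simp] theorem specMorIsoOfSurjective_e₀ (σ : helper8573.Mor G G')
    (h₀ : Function.Surjective σ.f₀) (h₁ : Function.Surjective σ.f₁) (m : G.M₀) :
    (specMorIsoOfSurjective σ h₀ h₁).e₀ m = σ.f₀ m := rfl

@[simp] theorem specMorIsoOfSurjective_e₁ (σ : helper8573.Mor G G')
    (h₀ : Function.Surjective σ.f₀) (h₁ : Function.Surjective σ.f₁) (m : G.M₁) :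
    (specMorIsoOfSurjective σ h₀ h₁).e₁ m = σ.f₁ m := rfl

variable {B' : Type u} [CommRing B'] [Algebra k B']

/-- Base change of a Spec morphism. -/
noncomputable def specMorBaseChange (σ : helper8573.Mor G G') (φ : B →ₐ[k] B') :
    helper8573.Mor (G.baseChange φ) (G'.baseChange φ) :=
  ((Mor.ofSpec σ).baseChange φ).toSpec

theorem specMorBaseChange_f₀ (σ : helper8573.Mor G G') (φ : B →ₐ[k] B') :
    letI := algA₀ D φ
    (specMorBaseChange σ φ).f₀ = σ.f₀.baseChange (D.A₀ B') := rfl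

theorem specMorBaseChange_f₁ (σ : helper8573.Mor G G') (φ : B →ₐ[k] B') :
    letI := algA₁ D φ
    (specMorBaseChange σ φ).f₁ = σ.f₁.baseChange (D.A₁ B') := rfl

end Spec

section Twist

variable (G H : GlueDatum D B)

/-- Restriction to the overlap for `Hom(G, H(n))` is `x ^ n` times that for `Hom(G, H)`. -/
theorem homRes₁_twist (n : ℤ) (f : G.M₁ →ₗ[D.A₁ B] H.M₁) :
    homRes₁ G (twist H n) f = ((xU D B ^ n : (D.A₀₁ B)ˣ) : D.A₀₁ B) • homRes₁ G H f := by
  apply ext_ρ₁ G (twist H n)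
  intro m
  have h1 : homRes₁ G (twist H n) f (G.ρ₁ m) = (twist H n).ρ₁ (f m) :=
    homRes₁_apply G (twist H n) f m
  have h2 : homRes₁ G H f (G.ρ₁ m) = H.ρ₁ (f m) := homRes₁_apply G H f m
  exact h1.trans ((twist_ρ₁_apply H n (f m)).trans
    (congrArg (fun z => ((xU D B ^ n : (D.A₀₁ B)ˣ) : D.A₀₁ B) • z) h2.symm))

theorem homRes₀_twist (n : ℤ) (f : G.M₀ →ₗ[D.A₀ B] H.M₀) :
    homRes₀ G (twist H n) f = homRes₀ G H f := by
  apply ext_ρ₀ G (twist H n)
  intro m
  have h1 : homRes₀ G (twist H n) f (G.ρ₀ m) = (twist H n).ρ₀ (f m) :=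
    homRes₀_apply G (twist H n) f m
  have h2 : homRes₀ G H f (G.ρ₀ m) = H.ρ₀ (f m) := homRes₀_apply G H f m
  exact h1.trans h2.symm

/-- `Hom(G, H(n)) = Hom(G, H)(n)` (identity on the three modules). -/
noncomputable def homTwistIso (n : ℤ) :
    GlueDatum.Iso (homDatum G (twist H n)) (twist (homDatum G H) n) where
  e₀ := LinearEquiv.refl _ _
  e₁ := LinearEquiv.refl _ _
  e₀₁ := LinearEquiv.refl _ _
  comm₀ f := homRes₀_twist G H n f
  comm₁ f := homRes₁_twist G H n f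

theorem homDatum_twist_equiv (n : ℤ) :
    (homDatum G (twist H n)).Equiv (twist (homDatum G H) n) := ⟨homTwistIso G H n⟩

/-- `x ^ n` in the overlap ring, for a natural exponent. -/
theorem xU_zpow_natCast (n : ℕ) :
    ((xU D B ^ (n : ℤ) : (D.A₀₁ B)ˣ) : D.A₀₁ B) = algebraMap (D.A₀ B) (D.A₀₁ B) (xB D B ^ n) := by
  rw [zpow_natCast, Units.val_pow_eq_pow_val, xU_val, ← map_pow]

variable {G H}

/-- The chart components of a morphism `G → H(n)` agree on the overlap up to `x ^ n`. -/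
theorem specMor_twist_section (n : ℤ) (σ : helper8573.Mor G (twist H n)) :
    (homDatum G H).ρ₀ σ.f₀ =
      ((xU D B ^ n : (D.A₀₁ B)ˣ) : D.A₀₁ B) • (homDatum G H).ρ₁ σ.f₁ :=
  (homRes₀_twist G H n σ.f₀).symm.trans
    ((specMor_f₀₁_eq₀ σ).symm.trans ((specMor_f₀₁_eq₁ σ).trans (homRes₁_twist G H n σ.f₁)))

/-- Morphisms `G → H(n)` from pairs of chart maps which agree on the overlap up to `x ^ n`. -/
noncomputable def specMorTwistOfSection (n : ℤ) (f₀ : G.M₀ →ₗ[D.A₀ B] H.M₀)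
    (f₁ : G.M₁ →ₗ[D.A₁ B] H.M₁)
    (h : (homDatum G H).ρ₀ f₀ =
      ((xU D B ^ n : (D.A₀₁ B)ˣ) : D.A₀₁ B) • (homDatum G H).ρ₁ f₁) :
    helper8573.Mor G (twist H n) :=
  specMorOfSection (G' := twist H n) f₀ f₁
    ((homRes₀_twist G H n f₀).trans (h.trans (homRes₁_twist G H n f₁).symm))

@[simp] theorem specMorTwistOfSection_f₀ (n : ℤ) (f₀ : G.M₀ →ₗ[D.A₀ B] H.M₀)
    (f₁ : G.M₁ →ₗ[D.A₁ B] H.M₁)
    (h : (homDatum G H).ρ₀ f₀ =
      ((xU D B ^ n : (D.A₀₁ B)ˣ) : D.A₀₁ B) • (homDatum G H).ρ₁ f₁) :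
    (specMorTwistOfSection n f₀ f₁ h).f₀ = f₀ := rfl

@[simp] theorem specMorTwistOfSection_f₁ (n : ℤ) (f₀ : G.M₀ →ₗ[D.A₀ B] H.M₀)
    (f₁ : G.M₁ →ₗ[D.A₁ B] H.M₁)
    (h : (homDatum G H).ρ₀ f₀ =
      ((xU D B ^ n : (D.A₀₁ B)ˣ) : D.A₀₁ B) • (homDatum G H).ρ₁ f₁) :
    (specMorTwistOfSection n f₀ f₁ h).f₁ = f₁ := rfl

/-- The twisted section condition with a natural exponent, `x ^ n` acting through the first
chart (the shape of `helper2531.secSub`), against the unit form. -/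
theorem natSection_iff (n : ℕ) (f₀ : G.M₀ →ₗ[D.A₀ B] H.M₀) (f₁ : G.M₁ →ₗ[D.A₁ B] H.M₁) :
    (homDatum G H).ρ₀ f₀ = xB D B ^ n • (homDatum G H).ρ₁ f₁ ↔
      (homDatum G H).ρ₀ f₀ =
        ((xU D B ^ (n : ℤ) : (D.A₀₁ B)ˣ) : D.A₀₁ B) • (homDatum G H).ρ₁ f₁ := by
  rw [xU_zpow_natCast, algebraMap_smul]

/-- Morphisms `G → H(n)` are exactly the pairs `(f₀, f₁)` of chart maps with
`ρ₀ f₀ = x ^ n • ρ₁ f₁` in the Hom datum `Hom(G, H)`. -/
theorem exists_specMor_twist_iff (n : ℕ) (f₀ : G.M₀ →ₗ[D.A₀ B] H.M₀)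
    (f₁ : G.M₁ →ₗ[D.A₁ B] H.M₁) :
    (∃ σ : helper8573.Mor G (twist H n), σ.f₀ = f₀ ∧ σ.f₁ = f₁) ↔
      (homDatum G H).ρ₀ f₀ = xB D B ^ n • (homDatum G H).ρ₁ f₁ := by
  rw [natSection_iff]
  constructor
  · rintro ⟨σ, rfl, rfl⟩
    exact specMor_twist_section n σ
  · intro h
    exact ⟨specMorTwistOfSection n f₀ f₁ h, rfl, rfl⟩

end Twist

section Translate

variable {G H : GlueDatum D B}

/-- Chart 0: a section of the Hom datum lies in `I • Hom(M₀, N₀)` iff the map takes its values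
in `I • N₀`. -/
theorem mem_smul_top_homDatum₀_iff (I : Ideal (D.A₀ B)) (f₀ : (homDatum G H).M₀) :
    f₀ ∈ I • (⊤ : Submodule (D.A₀ B) (homDatum G H).M₀) ↔
      ∀ m : G.M₀, (show G.M₀ →ₗ[D.A₀ B] H.M₀ from f₀) m ∈ I • (⊤ : Submodule (D.A₀ B) H.M₀) :=
  mem_smul_top_linearMap_iff I (show G.M₀ →ₗ[D.A₀ B] H.M₀ from f₀)

/-- Chart 1: a section of the Hom datum lies in `I • Hom(M₁, N₁)` iff the map takes its values
in `I • N₁`. -/
theorem mem_smul_top_homDatum₁_iff (I : Ideal (D.A₁ B)) (f₁ : (homDatum G H).M₁) :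
    f₁ ∈ I • (⊤ : Submodule (D.A₁ B) (homDatum G H).M₁) ↔
      ∀ m : G.M₁, (show G.M₁ →ₗ[D.A₁ B] H.M₁ from f₁) m ∈ I • (⊤ : Submodule (D.A₁ B) H.M₁) :=
  mem_smul_top_linearMap_iff I (show G.M₁ →ₗ[D.A₁ B] H.M₁ from f₁)

/-- Chart 0, target the trivial bundle: a section of the dual lies in `I • Hom(M₀, A₀)` iff the
linear form takes its values in `I`. -/
theorem mem_smul_top_homDatum_unit₀_iff (I : Ideal (D.A₀ B))
    (f₀ : (homDatum G (GlueDatum.unit D B)).M₀) :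
    f₀ ∈ I • (⊤ : Submodule (D.A₀ B) (homDatum G (GlueDatum.unit D B)).M₀) ↔
      ∀ m : G.M₀, (show G.M₀ →ₗ[D.A₀ B] D.A₀ B from f₀) m ∈ I :=
  mem_smul_top_dual_iff I (show G.M₀ →ₗ[D.A₀ B] D.A₀ B from f₀)

/-- Chart 1, target the trivial bundle. -/
theorem mem_smul_top_homDatum_unit₁_iff (I : Ideal (D.A₁ B))
    (f₁ : (homDatum G (GlueDatum.unit D B)).M₁) :
    f₁ ∈ I • (⊤ : Submodule (D.A₁ B) (homDatum G (GlueDatum.unit D B)).M₁) ↔
      ∀ m : G.M₁, (show G.M₁ →ₗ[D.A₁ B] D.A₁ B from f₁) m ∈ I :=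
  mem_smul_top_dual_iff I (show G.M₁ →ₗ[D.A₁ B] D.A₁ B from f₁)

/-- `σ` is surjective modulo `y` iff its chart-at-infinity component generates the Hom datum
modulo `y`. -/
theorem specMor_surjModY_iff_span (σ : helper8573.Mor G H) :
    σ.SurjModY ↔
      Submodule.span (D.A₁ B) {(show (homDatum G H).M₁ from σ.f₁)} ⊔
        Ideal.span {yB D B} • (⊤ : Submodule (D.A₁ B) (homDatum G H).M₁) = ⊤ := by
  rw [specMor_surjModY_iff]
  exact (span_sup_smul_top_eq_top_iff_range (Ideal.span {yB D B}) σ.f₁).symm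

/-- The `B`-module structure of the Hom datum on the first chart is pointwise. -/
theorem homDatum_smul₀_apply (c : B) (f₀ : (homDatum G H).M₀) (m : G.M₀) :
    (show G.M₀ →ₗ[D.A₀ B] H.M₀ from c • f₀) m = c • (show G.M₀ →ₗ[D.A₀ B] H.M₀ from f₀) m := rfl

/-- The `B`-module structure of the Hom datum on the chart at infinity is pointwise. -/
theorem homDatum_smul₁_apply (c : B) (f₁ : (homDatum G H).M₁) (m : G.M₁) :
    (show G.M₁ →ₗ[D.A₁ B] H.M₁ from c • f₁) m = c • (show G.M₁ →ₗ[D.A₁ B] H.M₁ from f₁) m := rfl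

end Translate

end Fermat.Agent.S25.helper1397
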