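/-
S25 (Jacobian moonshot), generic algebra bricks, Mathlib only.

(KP) "universal kernel => projective": a linear map `Ψ : F → F'` into a flat module whose kernel
     lifts along every quotient `B → B ⧸ J` has flat cokernel; for `F` finite and `F'` finite
     projective it then has a generalized inverse `σ` (`Ψ ∘ σ ∘ Ψ = Ψ`), so its kernel is a finite
     direct summand of `F` whose formation commutes with every base change.
-/
import Mathlib

set_option autoImplicit false

namespace Fermat.Agent.S25.helper6546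

open TensorProduct

section KP

variable {B : Type*} [CommRing B] {F F' : Type*} [AddCommGroup F] [Module B F]
  [AddCommGroup F'] [Module B F']

/-- (KP), finite-family form.  If every relation `Ψ u = ∑ cᵢ • yᵢ` can be realised inside the
range (`Ψ u = ∑ cᵢ • Ψ vᵢ`), and `F'` is flat, then the cokernel of `Ψ` is flat. -/
theorem flat_coker_of_family [Module.Flat B F'] (Ψ : F →ₗ[B] F')
    (h : ∀ (l : ℕ) (c : Fin l → B) (u : F) (y : Fin l → F'), Ψ u = ∑ i, c i • y i →
      ∃ v : Fin l → F, Ψ u = ∑ i, c i • Ψ (v i)) :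
    Module.Flat B (F' ⧸ LinearMap.range Ψ) := by
  refine Module.Flat.of_forall_isTrivialRelation ?_
  intro l f x hx
  choose y hy using fun i => Submodule.mkQ_surjective (LinearMap.range Ψ) (x i)
  have h1 : (LinearMap.range Ψ).mkQ (∑ i, f i • y i) = 0 := by
    simp only [map_sum, map_smul, hy, hx]
  rw [Submodule.mkQ_apply, Submodule.Quotient.mk_eq_zero] at h1
  obtain ⟨u, hu⟩ := h1
  obtain ⟨v, hv⟩ := h l f u y hu
  have h2 : ∑ i, f i • (y i - Ψ (v i)) = 0 := by
    simp only [smul_sub, Finset.sum_sub_distrib, ← hu, hv, sub_self]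
  obtain ⟨k, a, z, hz, ha⟩ := Module.Flat.isTrivialRelation_of_sum_smul_eq_zero h2
  refine ⟨k, a, fun j => (LinearMap.range Ψ).mkQ (z j), ?_, ha⟩
  intro i
  have h3 : (LinearMap.range Ψ).mkQ (y i) = (LinearMap.range Ψ).mkQ (y i - Ψ (v i)) := by
    rw [map_sub]
    have : (LinearMap.range Ψ).mkQ (Ψ (v i)) = 0 := by
      rw [Submodule.mkQ_apply, Submodule.Quotient.mk_eq_zero]
      exact LinearMap.mem_range_self Ψ (v i)
    rw [this, sub_zero]
  have hz' : y i - Ψ (v i) = ∑ j, a i j • z j := hz i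
  rw [← hy i, h3, hz']
  simp only [map_sum, map_smul]

/-- Elements of `(span (range c)) • ⊤` are combinations `∑ cᵢ • vᵢ`. -/
theorem exists_sum_of_mem_span_smul_top {l : ℕ} (c : Fin l → B) {x : F}
    (hx : x ∈ Ideal.span (Set.range c) • (⊤ : Submodule B F)) :
    ∃ v : Fin l → F, x = ∑ i, c i • v i := by
  refine Submodule.smul_induction_on hx ?_ ?_
  · intro r hr n _
    obtain ⟨a, rfl⟩ := (Ideal.mem_span_range_iff_exists_fun (R := B)).mp hr
    refine ⟨fun i => a i • n, ?_⟩
    rw [Finset.sum_smul]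
    refine Finset.sum_congr rfl fun i _ => ?_
    rw [smul_smul, mul_comm]
  · rintro x y ⟨v, rfl⟩ ⟨w, rfl⟩
    exact ⟨fun i => v i + w i, by simp only [smul_add, Finset.sum_add_distrib]⟩

/-- (KP), ideal form.  `F'` flat, and for every finitely generated ideal `J` every `u` with
`Ψ u ∈ J F'` is congruent mod `J F` to an element of `ker Ψ`.  Then `coker Ψ` is flat. -/
theorem flat_coker_of_ideal [Module.Flat B F'] (Ψ : F →ₗ[B] F')
    (h : ∀ J : Ideal B, J.FG → ∀ u : F, Ψ u ∈ J • (⊤ : Submodule B F') →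
      ∃ k ∈ LinearMap.ker Ψ, u - k ∈ J • (⊤ : Submodule B F)) :
    Module.Flat B (F' ⧸ LinearMap.range Ψ) := by
  refine flat_coker_of_family Ψ ?_
  intro l c u y hu
  have hJ : (Ideal.span (Set.range c)).FG := Submodule.fg_span (Set.finite_range c)
  have hmem : Ψ u ∈ Ideal.span (Set.range c) • (⊤ : Submodule B F') := by
    rw [hu]
    refine Submodule.sum_mem _ fun i _ => ?_
    exact Submodule.smul_mem_smul (Ideal.subset_span ⟨i, rfl⟩) Submodule.mem_top
  obtain ⟨k, hk, hk'⟩ := h _ hJ u hmem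
  obtain ⟨v, hv⟩ := exists_sum_of_mem_span_smul_top c hk'
  refine ⟨v, ?_⟩
  have : Ψ u = Ψ (u - k) := by
    rw [map_sub, LinearMap.mem_ker.mp hk, sub_zero]
  rw [this, hv, map_sum]
  simp only [map_smul]

/-- A generalized inverse of `Ψ` exists as soon as `coker Ψ` is projective and `F'` is
projective. -/
theorem exists_genInv_of_projective_coker [Module.Projective B F'] (Ψ : F →ₗ[B] F')
    [Module.Projective B (F' ⧸ LinearMap.range Ψ)] :
    ∃ σ : F' →ₗ[B] F, Ψ ∘ₗ σ ∘ₗ Ψ = Ψ := by
  obtain ⟨t, ht⟩ := Module.projective_lifting_property (LinearMap.range Ψ).mkQ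
    (LinearMap.id : (F' ⧸ LinearMap.range Ψ) →ₗ[B] _) (Submodule.mkQ_surjective _)
  -- `π = id - t ∘ mkQ` is a projection of `F'` onto `range Ψ`
  let π : F' →ₗ[B] F' := LinearMap.id - t ∘ₗ (LinearMap.range Ψ).mkQ
  have hπ : ∀ y, π y ∈ LinearMap.range Ψ := by
    intro y
    rw [← Submodule.Quotient.mk_eq_zero, ← Submodule.mkQ_apply]
    simp only [π, LinearMap.sub_apply, LinearMap.id_apply, LinearMap.comp_apply, map_sub]
    have := LinearMap.congr_fun ht ((LinearMap.range Ψ).mkQ y)
    simp only [LinearMap.comp_apply, LinearMap.id_apply] at this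
    rw [this, sub_self]
  obtain ⟨σ, hσ⟩ := Module.projective_lifting_property Ψ.rangeRestrict
    (π.codRestrict (LinearMap.range Ψ) hπ) Ψ.surjective_rangeRestrict
  refine ⟨σ, ?_⟩
  ext u
  have h1 := congrArg Subtype.val (LinearMap.congr_fun hσ (Ψ u))
  simp only [LinearMap.comp_apply, LinearMap.codRestrict_apply] at h1
  simp only [LinearMap.comp_apply]
  rw [h1]
  simp only [π, LinearMap.sub_apply, LinearMap.id_apply, LinearMap.comp_apply]
  have : (LinearMap.range Ψ).mkQ (Ψ u) = 0 := by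
    rw [Submodule.mkQ_apply, Submodule.Quotient.mk_eq_zero]
    exact LinearMap.mem_range_self Ψ u
  rw [this, map_zero, sub_zero]

/-- (KP), main existence statement: `F` finite, `F'` finite projective, and the kernel of `Ψ`
lifts along every quotient by a finitely generated ideal.  Then `Ψ` has a generalized inverse. -/
theorem exists_genInv [Module.Finite B F] [Module.Finite B F'] [Module.Projective B F']
    (Ψ : F →ₗ[B] F')
    (h : ∀ J : Ideal B, J.FG → ∀ u : F, Ψ u ∈ J • (⊤ : Submodule B F') →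
      ∃ k ∈ LinearMap.ker Ψ, u - k ∈ J • (⊤ : Submodule B F)) :
    ∃ σ : F' →ₗ[B] F, Ψ ∘ₗ σ ∘ₗ Ψ = Ψ := by
  have hflat : Module.Flat B (F' ⧸ LinearMap.range Ψ) := flat_coker_of_ideal Ψ h
  have hfp' : Module.FinitePresentation B F' := Module.finitePresentation_of_projective B F'
  have hfp : Module.FinitePresentation B (F' ⧸ LinearMap.range Ψ) := by
    refine Module.finitePresentation_of_surjective (LinearMap.range Ψ).mkQ
      (Submodule.mkQ_surjective _) ?_
    rw [Submodule.ker_mkQ]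
    exact Submodule.fg_range Ψ
  have hproj : Module.Projective B (F' ⧸ LinearMap.range Ψ) :=
    Module.Flat.projective_of_finitePresentation
  exact exists_genInv_of_projective_coker Ψ

/-! ### Consequences of a generalized inverse `Ψ ∘ σ ∘ Ψ = Ψ` -/

section GenInv

variable (Ψ : F →ₗ[B] F') (σ : F' →ₗ[B] F)

/-- The projection of `F` onto `ker Ψ` attached to a generalized inverse. -/
noncomputable def kerProj (hσ : Ψ ∘ₗ σ ∘ₗ Ψ = Ψ) : F →ₗ[B] LinearMap.ker Ψ :=
  (LinearMap.id - σ ∘ₗ Ψ).codRestrict (LinearMap.ker Ψ) (by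
    intro u
    have := LinearMap.congr_fun hσ u
    simp only [LinearMap.comp_apply] at this
    simp only [LinearMap.mem_ker, LinearMap.sub_apply, LinearMap.id_apply, LinearMap.comp_apply,
      map_sub, this, sub_self])

theorem kerProj_apply_coe (hσ : Ψ ∘ₗ σ ∘ₗ Ψ = Ψ) (u : F) :
    (kerProj Ψ σ hσ u : F) = u - σ (Ψ u) := rfl

theorem kerProj_comp_subtype (hσ : Ψ ∘ₗ σ ∘ₗ Ψ = Ψ) :
    kerProj Ψ σ hσ ∘ₗ (LinearMap.ker Ψ).subtype = LinearMap.id := by
  ext ⟨k, hk⟩
  simp only [LinearMap.comp_apply, Submodule.subtype_apply, kerProj_apply_coe,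
    LinearMap.id_apply, LinearMap.mem_ker.mp hk, map_zero, sub_zero]

theorem kerProj_surjective (hσ : Ψ ∘ₗ σ ∘ₗ Ψ = Ψ) : Function.Surjective (kerProj Ψ σ hσ) :=
  fun k => ⟨k, LinearMap.congr_fun (kerProj_comp_subtype Ψ σ hσ) k⟩

theorem subtype_comp_kerProj (hσ : Ψ ∘ₗ σ ∘ₗ Ψ = Ψ) :
    (LinearMap.ker Ψ).subtype ∘ₗ kerProj Ψ σ hσ = LinearMap.id - σ ∘ₗ Ψ := by
  ext u
  simp only [LinearMap.comp_apply, Submodule.subtype_apply, kerProj_apply_coe,
    LinearMap.sub_apply, LinearMap.id_apply]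

/-- With a generalized inverse, `ker Ψ` is a finite module when `F` is. -/
theorem finite_ker_of_genInv [Module.Finite B F] (hσ : Ψ ∘ₗ σ ∘ₗ Ψ = Ψ) :
    Module.Finite B (LinearMap.ker Ψ) :=
  Module.Finite.of_surjective (kerProj Ψ σ hσ) (kerProj_surjective Ψ σ hσ)

/-- With a generalized inverse, `ker Ψ` is projective when `F` is. -/
theorem projective_ker_of_genInv [Module.Projective B F] (hσ : Ψ ∘ₗ σ ∘ₗ Ψ = Ψ) :
    Module.Projective B (LinearMap.ker Ψ) :=
  Module.Projective.of_split (LinearMap.ker Ψ).subtype (kerProj Ψ σ hσ)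
    (kerProj_comp_subtype Ψ σ hσ)

/-- With a generalized inverse, `ker Ψ` has a complement in `F`. -/
theorem exists_isCompl_ker_of_genInv (hσ : Ψ ∘ₗ σ ∘ₗ Ψ = Ψ) :
    ∃ K : Submodule B F, IsCompl (LinearMap.ker Ψ) K := by
  refine ⟨LinearMap.ker (kerProj Ψ σ hσ), ?_⟩
  have hid := kerProj_comp_subtype Ψ σ hσ
  constructor
  · rw [Submodule.disjoint_def]
    intro x hx hx'
    have h1 := LinearMap.congr_fun hid ⟨x, hx⟩
    simp only [LinearMap.comp_apply, Submodule.subtype_apply, LinearMap.id_apply] at h1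
    rw [LinearMap.mem_ker.mp hx'] at h1
    exact (congrArg Subtype.val h1).symm
  · rw [codisjoint_iff, eq_top_iff]
    intro x _
    have hx : x = (kerProj Ψ σ hσ x : F) + (x - (kerProj Ψ σ hσ x : F)) := by abel
    rw [hx]
    refine Submodule.add_mem_sup (kerProj Ψ σ hσ x).2 ?_
    rw [LinearMap.mem_ker, map_sub]
    have h1 := LinearMap.congr_fun hid (kerProj Ψ σ hσ x)
    simp only [LinearMap.comp_apply, Submodule.subtype_apply, LinearMap.id_apply] at h1
    rw [h1, sub_self]

variable (A : Type*) [CommRing A] [Algebra B A]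

/-- With a generalized inverse, `A ⊗ ker Ψ → A ⊗ F` is injective for every `B`-algebra `A`. -/
theorem baseChange_subtype_ker_injective (hσ : Ψ ∘ₗ σ ∘ₗ Ψ = Ψ) :
    Function.Injective ((LinearMap.ker Ψ).subtype.baseChange A) := by
  have h1 : (kerProj Ψ σ hσ).baseChange A ∘ₗ (LinearMap.ker Ψ).subtype.baseChange A
      = LinearMap.id := by
    rw [← LinearMap.baseChange_comp, kerProj_comp_subtype, LinearMap.baseChange_id]
  exact Function.HasLeftInverse.injective ⟨_, LinearMap.congr_fun h1⟩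

/-- With a generalized inverse, the formation of `ker Ψ` commutes with every base change:
the image of `A ⊗ ker Ψ` in `A ⊗ F` is exactly `ker (A ⊗ Ψ)`. -/
theorem range_baseChange_subtype_ker (hσ : Ψ ∘ₗ σ ∘ₗ Ψ = Ψ) :
    LinearMap.range ((LinearMap.ker Ψ).subtype.baseChange A) =
      LinearMap.ker (Ψ.baseChange A) := by
  apply le_antisymm
  · rintro _ ⟨z, rfl⟩
    rw [LinearMap.mem_ker, ← LinearMap.comp_apply, ← LinearMap.baseChange_comp]
    have : Ψ ∘ₗ (LinearMap.ker Ψ).subtype = 0 := by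
      ext ⟨k, hk⟩
      simpa using hk
    rw [this, LinearMap.baseChange_zero, LinearMap.zero_apply]
  · intro z hz
    rw [LinearMap.mem_ker] at hz
    refine ⟨(kerProj Ψ σ hσ).baseChange A z, ?_⟩
    rw [← LinearMap.comp_apply, ← LinearMap.baseChange_comp, subtype_comp_kerProj,
      LinearMap.baseChange_sub, LinearMap.baseChange_id, LinearMap.baseChange_comp,
      LinearMap.sub_apply, LinearMap.id_apply, LinearMap.comp_apply, hz, map_zero, sub_zero]

/-- The base-changed kernel as an `A`-linear equivalence `A ⊗ ker Ψ ≃ ker (A ⊗ Ψ)`. -/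
theorem exists_baseChange_ker_equiv (hσ : Ψ ∘ₗ σ ∘ₗ Ψ = Ψ) :
    ∃ e : A ⊗[B] (LinearMap.ker Ψ) ≃ₗ[A] LinearMap.ker (Ψ.baseChange A),
      ∀ z, (e z : A ⊗[B] F) = (LinearMap.ker Ψ).subtype.baseChange A z := by
  have hinj := baseChange_subtype_ker_injective Ψ σ A hσ
  have hrange := range_baseChange_subtype_ker Ψ σ A hσ
  let e0 := LinearEquiv.ofInjective ((LinearMap.ker Ψ).subtype.baseChange A) hinj
  exact ⟨e0.trans (LinearEquiv.ofEq _ _ hrange), fun z => rfl⟩

end GenInv

/-- (KP), packaged.  `F`, `F'` finite projective and the kernel of `Ψ` lifts along every quotient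
by a finitely generated ideal.  Then `ker Ψ` is finite projective, a direct summand of `F`, and
its formation commutes with every base change. -/
theorem ker_finite_projective_universal [Module.Finite B F] [Module.Projective B F]
    [Module.Finite B F'] [Module.Projective B F'] (Ψ : F →ₗ[B] F')
    (h : ∀ J : Ideal B, J.FG → ∀ u : F, Ψ u ∈ J • (⊤ : Submodule B F') →
      ∃ k ∈ LinearMap.ker Ψ, u - k ∈ J • (⊤ : Submodule B F)) :
    Module.Finite B (LinearMap.ker Ψ) ∧ Module.Projective B (LinearMap.ker Ψ) ∧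
    (∃ K : Submodule B F, IsCompl (LinearMap.ker Ψ) K) ∧
    ∀ (A : Type*) [CommRing A] [Algebra B A],
      Function.Injective ((LinearMap.ker Ψ).subtype.baseChange A) ∧
      LinearMap.range ((LinearMap.ker Ψ).subtype.baseChange A) =
        LinearMap.ker (Ψ.baseChange A) := by
  obtain ⟨σ, hσ⟩ := exists_genInv Ψ h
  exact ⟨finite_ker_of_genInv Ψ σ hσ, projective_ker_of_genInv Ψ σ hσ,
    exists_isCompl_ker_of_genInv Ψ σ hσ, fun A _ _ =>
      ⟨baseChange_subtype_ker_injective Ψ σ A hσ, range_baseChange_subtype_ker Ψ σ A hσ⟩⟩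

end KP

end Fermat.Agent.S25.helper6546
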