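/-
S25 (Jacobian moonshot), leaf LC-RED (backup copy, independent proofs), generic algebra bricks.

(RED2) PURITY.  `P`, `F` projective modules of ANY rank over a commutative ring `B`,
`φ : P → F` linear and injective modulo every maximal ideal of `B` (elementwise form `FibInj`).
Then `φ` is "locally split": for every finite subset `S ⊆ P` there is a linear `ρ : F → P`
with `ρ (φ u) = u` for `u ∈ S`.  Consequences: `φ` is injective, stays injective after every
tensor product / base change, reflects membership in `J • ⊤` for every ideal `J`, and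
`coker φ` is flat.  (No localisation, no Kaplansky: induction on the number of basis vectors,
splitting off one vector at a time by a linear functional with value `1`.)

(RED3) ASSEMBLY.  A module finitely presented over a finitely presented `B`-algebra, finite and
flat over `B`, is finitely presented and projective over `B`.

(RED1) FINITENESS, two-chart form.  A section generating `M₁` modulo `y` has a divisor
`M₀ ⧸ A₀ s₀` which is killed by a monic polynomial in `x` and is finite over `B`.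

(RED) `finite_projective_quotient_span_singleton`: all three together.
-/
import Mathlib
import Fermat.Agent.S25.helper6546_KerProj

set_option autoImplicit false
set_option linter.style.haveILetI false

namespace Fermat.Agent.S25.helper1567

open scoped TensorProduct

section Purity

variable {B : Type*} [CommRing B]
variable {P F : Type*} [AddCommGroup P] [Module B P] [AddCommGroup F] [Module B F]

/-- Linear maps preserve `J • ⊤`. -/
theorem map_mem_smul_top {M N : Type*} [AddCommGroup M] [Module B M] [AddCommGroup N]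
    [Module B N] (f : M →ₗ[B] N) (J : Ideal B) {x : M} (hx : x ∈ J • (⊤ : Submodule B M)) :
    f x ∈ J • (⊤ : Submodule B N) := by
  have h1 : f x ∈ (J • (⊤ : Submodule B M)).map f := Submodule.mem_map_of_mem hx
  rw [Submodule.map_smul''] at h1
  exact Submodule.smul_mono le_rfl le_top h1

/-- Fibrewise injectivity at all maximal ideals, elementwise form:
`P ⧸ m P → F ⧸ m F` is injective for every maximal ideal `m` of `B`. -/
def FibInj (φ : P →ₗ[B] F) : Prop :=
  ∀ m : Ideal B, m.IsMaximal → ∀ a : P,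
    φ a ∈ m • (⊤ : Submodule B F) → a ∈ m • (⊤ : Submodule B P)

/-- An element of a projective module which is nonzero in every fibre is sent to `1` by some
linear functional. -/
theorem exists_dual_eq_one [Module.Projective B F] (f : F)
    (hf : ∀ m : Ideal B, m.IsMaximal → f ∉ m • (⊤ : Submodule B F)) :
    ∃ ψ : F →ₗ[B] B, ψ f = 1 := by
  classical
  let I : Ideal B := LinearMap.range (LinearMap.applyₗ f : (F →ₗ[B] B) →ₗ[B] B)
  by_cases hI : I = ⊤
  · have h1 : (1 : B) ∈ I := hI ▸ Submodule.mem_top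
    obtain ⟨ψ, hψ⟩ := h1
    exact ⟨ψ, hψ⟩
  · exfalso
    obtain ⟨m, hm, hIm⟩ := Ideal.exists_le_maximal I hI
    obtain ⟨s, hs⟩ := Module.projective_def'.mp ‹Module.Projective B F›
    apply hf m hm
    have hf' : f = Finsupp.linearCombination B id (s f) := by
      have := LinearMap.congr_fun hs f
      simpa using this.symm
    rw [hf', Finsupp.linearCombination_apply, Finsupp.sum]
    refine Submodule.sum_mem _ fun p _ => ?_
    refine Submodule.smul_mem_smul (hIm ?_) Submodule.mem_top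
    exact ⟨(Finsupp.lapply p) ∘ₗ s, rfl⟩

/-- A finite family of vectors of a projective module which is linearly independent modulo
every maximal ideal admits a dual family of linear functionals. -/
theorem exists_dual_family [Module.Projective B F] {ι : Type*} [DecidableEq ι] (T : Finset ι) :
    ∀ (v : ι → F),
      (∀ m : Ideal B, m.IsMaximal → ∀ c : ι → B,
        (∑ t ∈ T, c t • v t) ∈ m • (⊤ : Submodule B F) → ∀ t ∈ T, c t ∈ m) →
      ∃ ρ : ι → (F →ₗ[B] B), ∀ i ∈ T, ∀ j ∈ T, ρ i (v j) = if i = j then 1 else 0 := by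
  induction T using Finset.induction_on with
  | empty => intro v _; exact ⟨fun _ => 0, by simp⟩
  | insert a T ha ih =>
    intro v hv
    have hne : ∀ t ∈ T, t ≠ a := fun t ht h => ha (h ▸ ht)
    -- `v a` is nonzero in every fibre
    have hf : ∀ m : Ideal B, m.IsMaximal → v a ∉ m • (⊤ : Submodule B F) := by
      intro m hm hmem
      have hsum : (∑ t ∈ insert a T, (if t = a then (1 : B) else 0) • v t)
          ∈ m • (⊤ : Submodule B F) := by
        rw [Finset.sum_insert ha]
        have h0 : ∑ t ∈ T, (if t = a then (1 : B) else 0) • v t = 0 := by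
          apply Finset.sum_eq_zero
          intro t ht
          simp [hne t ht]
        rw [h0, add_zero]
        simpa using hmem
      have h1 := hv m hm (fun t => if t = a then 1 else 0) hsum a (Finset.mem_insert_self a T)
      simp only [if_true] at h1
      exact hm.ne_top ((Ideal.eq_top_iff_one m).mpr h1)
    obtain ⟨ψ, hψ⟩ := exists_dual_eq_one (v a) hf
    -- the family with `v a` split off
    let v' : ι → F := fun j => v j - ψ (v j) • v a
    have hv' : ∀ m : Ideal B, m.IsMaximal → ∀ c : ι → B,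
        (∑ t ∈ T, c t • v' t) ∈ m • (⊤ : Submodule B F) → ∀ t ∈ T, c t ∈ m := by
      intro m hm c hc t ht
      let c' : ι → B := Function.update c a (-∑ t ∈ T, c t * ψ (v t))
      have hc' : (∑ t ∈ insert a T, c' t • v t) ∈ m • (⊤ : Submodule B F) := by
        rw [Finset.sum_insert ha]
        have h1 : ∑ t ∈ T, c' t • v t = ∑ t ∈ T, c t • v t := by
          apply Finset.sum_congr rfl
          intro t ht
          simp [c', Function.update_of_ne (hne t ht)]
        have h2 : c' a = -∑ t ∈ T, c t * ψ (v t) := by simp [c']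
        rw [h1, h2]
        have h3 : (-∑ t ∈ T, c t * ψ (v t)) • v a + ∑ t ∈ T, c t • v t = ∑ t ∈ T, c t • v' t := by
          simp only [v', smul_sub, Finset.sum_sub_distrib, neg_smul, Finset.sum_smul, smul_smul]
          abel
        rw [h3]
        exact hc
      have h4 := hv m hm c' hc' t (Finset.mem_insert_of_mem ht)
      simpa [c', Function.update_of_ne (hne t ht)] using h4
    obtain ⟨ρ', hρ'⟩ := ih v' hv'
    have hψv' : ∀ j, ψ (v' j) = 0 := by
      intro j
      simp [v', hψ]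
    let ρ₁ : ι → (F →ₗ[B] B) := fun j => ρ' j - ρ' j (v a) • ψ
    have hρ₁a : ∀ j, ρ₁ j (v a) = 0 := by
      intro j
      simp [ρ₁, hψ]
    have hρ₁v' : ∀ j l, ρ₁ j (v' l) = ρ' j (v' l) := by
      intro j l
      simp [ρ₁, hψv']
    have hv_eq : ∀ l, v l = v' l + ψ (v l) • v a := by
      intro l
      simp [v']
    have hρ₁ : ∀ j ∈ T, ∀ l ∈ T, ρ₁ j (v l) = if j = l then 1 else 0 := by
      intro j hj l hl
      rw [hv_eq l, map_add, map_smul, hρ₁a, smul_zero, add_zero, hρ₁v', hρ' j hj l hl]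
    let ρ₀ : F →ₗ[B] B := ψ - ∑ l ∈ T, ψ (v l) • ρ₁ l
    have hρ₀a : ρ₀ (v a) = 1 := by
      simp [ρ₀, hψ, hρ₁a]
    have hρ₀ : ∀ j ∈ T, ρ₀ (v j) = 0 := by
      intro j hj
      simp only [ρ₀, LinearMap.sub_apply, LinearMap.sum_apply, LinearMap.smul_apply, smul_eq_mul]
      rw [Finset.sum_eq_single j]
      · rw [hρ₁ j hj j hj, if_pos rfl, mul_one, sub_self]
      · intro l hl hlj
        rw [hρ₁ l hl j hj, if_neg hlj, mul_zero]
      · intro h
        exact absurd hj h
    refine ⟨fun i => if i = a then ρ₀ else ρ₁ i, ?_⟩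
    intro i hi j hj
    rcases Finset.mem_insert.mp hi with rfl | hi
    · rcases Finset.mem_insert.mp hj with rfl | hj
      · simp [hρ₀a]
      · have : i ≠ j := fun h => ha (h ▸ hj)
        simp [hρ₀ j hj, this]
    · have hia : i ≠ a := hne i hi
      rcases Finset.mem_insert.mp hj with rfl | hj
      · simp [hia, hρ₁a]
      · simp only [if_neg hia]
        exact hρ₁ i hi j hj

/-- (RED2), main statement: a fibrewise injective map between projective modules is locally
split. -/
theorem FibInj.exists_retraction_on_finset [Module.Projective B P] [Module.Projective B F]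
    {φ : P →ₗ[B] F} (hφ : FibInj φ) (S : Finset P) :
    ∃ ρ : F →ₗ[B] P, ∀ u ∈ S, ρ (φ u) = u := by
  classical
  obtain ⟨s, hs⟩ := Module.projective_def'.mp ‹Module.Projective B P›
  let r : (P →₀ B) →ₗ[B] P := Finsupp.linearCombination B id
  have hrs : ∀ u, r (s u) = u := fun u => by simpa using LinearMap.congr_fun hs u
  -- the auxiliary fibrewise injective map on the free module `P →₀ B`
  let φ' : (P →₀ B) →ₗ[B] F × (P →₀ B) := (φ ∘ₗ r).prod (LinearMap.id - s ∘ₗ r)
  have hφ's : ∀ u, φ' (s u) = (φ u, 0) := by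
    intro u
    simp [φ', hrs]
  let T : Finset P := S.biUnion fun u => (s u).support
  let w : P → F × (P →₀ B) := fun t => φ' (Finsupp.single t 1)
  have hw : ∀ m : Ideal B, m.IsMaximal → ∀ c : P → B,
      (∑ t ∈ T, c t • w t) ∈ m • (⊤ : Submodule B (F × (P →₀ B))) → ∀ t ∈ T, c t ∈ m := by
    intro m hm c hc t ht
    let l : P →₀ B := ∑ t ∈ T, c t • Finsupp.single t 1
    have hl : φ' l = ∑ t ∈ T, c t • w t := by
      simp only [l, w, map_sum, map_smul]
    rw [← hl] at hc
    have h1 : φ (r l) ∈ m • (⊤ : Submodule B F) := by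
      simpa [φ'] using map_mem_smul_top (LinearMap.fst B F (P →₀ B)) m hc
    have h2 : l - s (r l) ∈ m • (⊤ : Submodule B (P →₀ B)) := by
      simpa [φ'] using map_mem_smul_top (LinearMap.snd B F (P →₀ B)) m hc
    have h3 : r l ∈ m • (⊤ : Submodule B P) := hφ m hm _ h1
    have h4 : s (r l) ∈ m • (⊤ : Submodule B (P →₀ B)) := map_mem_smul_top s m h3
    have h5 : l ∈ m • (⊤ : Submodule B (P →₀ B)) := by
      have := Submodule.add_mem _ h2 h4
      simpa using this
    have h6 : (Finsupp.lapply t : (P →₀ B) →ₗ[B] B) l ∈ m • (⊤ : Submodule B B) :=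
      map_mem_smul_top (Finsupp.lapply t : (P →₀ B) →ₗ[B] B) m h5
    have h7 : (Finsupp.lapply t : (P →₀ B) →ₗ[B] B) l = c t := by
      simp only [l, Finsupp.lapply_apply, Finsupp.coe_finsetSum, Finset.sum_apply,
        Finsupp.smul_apply, Finsupp.single_apply, smul_eq_mul, mul_ite, mul_one, mul_zero]
      rw [Finset.sum_ite_eq' T t]
      simp [ht]
    rw [h7, smul_eq_mul, Ideal.mul_top] at h6
    exact h6
  obtain ⟨ρ, hρ⟩ := exists_dual_family T w hw
  let ρ' : F × (P →₀ B) →ₗ[B] (P →₀ B) := ∑ t ∈ T, (ρ t).smulRight (Finsupp.single t (1 : B))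
  have hρ'w : ∀ t ∈ T, ρ' (w t) = Finsupp.single t 1 := by
    intro t ht
    simp only [ρ', LinearMap.sum_apply, LinearMap.smulRight_apply]
    rw [Finset.sum_eq_single t]
    · rw [hρ t ht t ht, if_pos rfl, one_smul]
    · intro t' ht' hne
      rw [hρ t' ht' t ht, if_neg hne, zero_smul]
    · intro h
      exact absurd ht h
  refine ⟨r ∘ₗ ρ' ∘ₗ LinearMap.inl B F (P →₀ B), ?_⟩
  intro u hu
  have hsupp : (s u).support ⊆ T :=
    Finset.subset_biUnion_of_mem (fun u => (s u).support) hu
  have hsu : s u = ∑ t ∈ T, (s u) t • Finsupp.single t (1 : B) := by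
    conv_lhs => rw [← Finsupp.sum_single (s u)]
    rw [Finsupp.sum, Finset.sum_subset hsupp]
    · apply Finset.sum_congr rfl
      intro t _
      rw [Finsupp.smul_single, smul_eq_mul, mul_one]
    · intro t _ ht
      rw [Finsupp.notMem_support_iff.mp ht, Finsupp.single_zero]
  have h1 : φ' (s u) = ∑ t ∈ T, (s u) t • w t := by
    conv_lhs => rw [hsu]
    simp only [w, map_sum, map_smul]
  have h2 : ρ' (φ' (s u)) = s u := by
    rw [h1, map_sum]
    conv_rhs => rw [hsu]
    apply Finset.sum_congr rfl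
    intro t ht
    rw [map_smul, hρ'w t ht]
  simp only [LinearMap.comp_apply, LinearMap.inl_apply]
  rw [← hφ's, h2, hrs]

section Consequences

variable [Module.Projective B P] [Module.Projective B F] {φ : P →ₗ[B] F}

/-- (RED2) a fibrewise injective map of projective modules is injective. -/
theorem FibInj.injective (hφ : FibInj φ) : Function.Injective φ := by
  rw [injective_iff_map_eq_zero]
  intro u hu
  obtain ⟨ρ, hρ⟩ := hφ.exists_retraction_on_finset {u}
  have h := hρ u (Finset.mem_singleton_self u)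
  rw [hu, map_zero] at h
  exact h.symm

/-- (RED2) a fibrewise injective map of projective modules reflects membership in `J • ⊤`
for EVERY ideal `J` (i.e. `P ⧸ J P → F ⧸ J F` is injective). -/
theorem FibInj.mem_smul_top (hφ : FibInj φ) (J : Ideal B) {u : P}
    (hu : φ u ∈ J • (⊤ : Submodule B F)) : u ∈ J • (⊤ : Submodule B P) := by
  obtain ⟨ρ, hρ⟩ := hφ.exists_retraction_on_finset {u}
  have h := map_mem_smul_top ρ J hu
  rwa [hρ u (Finset.mem_singleton_self u)] at h

/-- (RED2) universal injectivity, `rTensor` form. -/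
theorem FibInj.rTensor_injective (hφ : FibInj φ) (N : Type*) [AddCommGroup N] [Module B N] :
    Function.Injective (φ.rTensor N) := by
  classical
  have key : ∀ z : P ⊗[B] N, ∃ S : Finset P, ∀ ρ : F →ₗ[B] P, (∀ u ∈ S, ρ (φ u) = u) →
      (ρ.rTensor N) ((φ.rTensor N) z) = z := by
    intro z
    induction z using TensorProduct.induction_on with
    | zero => exact ⟨∅, fun ρ _ => by simp⟩
    | tmul p n =>
      refine ⟨{p}, fun ρ h => ?_⟩
      simp [h p (Finset.mem_singleton_self p)]
    | add z₁ z₂ h₁ h₂ =>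
      obtain ⟨S₁, hS₁⟩ := h₁
      obtain ⟨S₂, hS₂⟩ := h₂
      refine ⟨S₁ ∪ S₂, fun ρ h => ?_⟩
      rw [map_add, map_add, hS₁ ρ fun u hu => h u (Finset.mem_union_left _ hu),
        hS₂ ρ fun u hu => h u (Finset.mem_union_right _ hu)]
  rw [injective_iff_map_eq_zero]
  intro z hz
  obtain ⟨S, hS⟩ := key z
  obtain ⟨ρ, hρ⟩ := hφ.exists_retraction_on_finset S
  have h := hS ρ hρ
  rw [hz, map_zero] at h
  exact h.symm

/-- (RED2) universal injectivity, `lTensor` form. -/
theorem FibInj.lTensor_injective (hφ : FibInj φ) (N : Type*) [AddCommGroup N] [Module B N] :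
    Function.Injective (φ.lTensor N) :=
  (φ.lTensor_inj_iff_rTensor_inj N).mpr (hφ.rTensor_injective N)

/-- (RED2) universal injectivity, base change form. -/
theorem FibInj.baseChange_injective (hφ : FibInj φ) (A : Type*) [CommRing A] [Algebra B A] :
    Function.Injective (φ.baseChange A) :=
  hφ.lTensor_injective A

/-- (RED2) the cokernel of a fibrewise injective map of projective modules is flat. -/
theorem FibInj.flat_coker (hφ : FibInj φ) : Module.Flat B (F ⧸ LinearMap.range φ) :=
  Fermat.Agent.S25.helper6546.flat_coker_of_ideal φ fun J _ u hu =>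
    ⟨0, Submodule.zero_mem _, by simpa using hφ.mem_smul_top J hu⟩

end Consequences

/-- Adapter: the tensor form of fibrewise injectivity implies the elementwise form
(no projectivity needed). -/
theorem fibInj_of_lTensor_injective (φ : P →ₗ[B] F)
    (h : ∀ m : Ideal B, m.IsMaximal → Function.Injective (φ.lTensor (B ⧸ m))) : FibInj φ := by
  intro m hm a ha
  have h1 : (φ.lTensor (B ⧸ m)) ((1 : B ⧸ m) ⊗ₜ[B] a) = 0 := by
    rw [LinearMap.lTensor_tmul]
    apply (TensorProduct.quotTensorEquivQuotSMul F m).injective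
    rw [TensorProduct.quotTensorEquivQuotSMul_mk_one_tmul, map_zero,
      Submodule.Quotient.mk_eq_zero]
    exact ha
  have h2 : (1 : B ⧸ m) ⊗ₜ[B] a = 0 := h m hm (by rw [h1, map_zero])
  have h3 := congrArg (TensorProduct.quotTensorEquivQuotSMul P m) h2
  rw [TensorProduct.quotTensorEquivQuotSMul_mk_one_tmul, map_zero,
    Submodule.Quotient.mk_eq_zero] at h3
  exact h3

/-- Adapter: base change form of fibrewise injectivity implies the elementwise form. -/
theorem fibInj_of_baseChange_injective (φ : P →ₗ[B] F)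
    (h : ∀ m : Ideal B, m.IsMaximal → Function.Injective (φ.baseChange (B ⧸ m))) : FibInj φ :=
  fibInj_of_lTensor_injective φ h

/-- For projective modules the elementwise and the tensor form of fibrewise injectivity are
equivalent. -/
theorem fibInj_iff_lTensor_injective [Module.Projective B P] [Module.Projective B F]
    (φ : P →ₗ[B] F) :
    FibInj φ ↔ ∀ m : Ideal B, m.IsMaximal → Function.Injective (φ.lTensor (B ⧸ m)) :=
  ⟨fun hφ m _ => hφ.lTensor_injective (B ⧸ m), fibInj_of_lTensor_injective φ⟩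

end Purity

open Polynomial

section Assembly

/-- Core of (RED3): a module which is finitely presented over a finitely presented `B`-algebra
`A` and killed by a finitely generated ideal `I` with `A ⧸ I` finite over `B` is finitely
presented over `B`. -/
theorem finitePresentation_of_fg_ideal_kills
    {B A Q : Type*} [CommRing B] [CommRing A] [Algebra B A] [AddCommGroup Q] [Module A Q]
    [Module B Q] [IsScalarTower B A Q] [Algebra.FinitePresentation B A]
    [Module.FinitePresentation A Q] (I : Ideal A) (hI : I.FG)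
    (hIQ : ∀ a ∈ I, ∀ q : Q, a • q = 0) [Module.Finite B (A ⧸ I)] :
    Module.FinitePresentation B Q := by
  haveI : Algebra.FinitePresentation B (A ⧸ I) := Algebra.FinitePresentation.quotient hI
  haveI : Module.FinitePresentation B (A ⧸ I) :=
    Module.FinitePresentation.of_finite_of_finitePresentation B (A ⧸ I)
  haveI : Module.FinitePresentation B ((A ⧸ I) ⊗[A] Q) :=
    Module.FinitePresentation.trans B ((A ⧸ I) ⊗[A] Q) (A ⧸ I)
  have hbot : (I • (⊤ : Submodule A Q)) = ⊥ := by
    rw [eq_bot_iff]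
    intro z hz
    refine Submodule.smul_induction_on hz ?_ ?_
    · intro a ha q _
      simp [hIQ a ha q]
    · intro x y hx hy
      exact Submodule.add_mem _ hx hy
  let e : ((A ⧸ I) ⊗[A] Q) ≃ₗ[A] Q :=
    (TensorProduct.quotTensorEquivQuotSMul Q I).trans (Submodule.quotEquivOfEqBot _ hbot)
  exact Module.FinitePresentation.of_equiv (e.restrictScalars B)

/-- (RED3), finite presentation: a module which is finitely presented over a finitely
presented `B`-algebra and finite over `B` is finitely presented over `B`. -/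
theorem finitePresentation_of_finite_of_algebra_finitePresentation
    (B A Q : Type*) [CommRing B] [CommRing A] [Algebra B A] [AddCommGroup Q] [Module A Q]
    [Module B Q] [IsScalarTower B A Q] [Algebra.FinitePresentation B A]
    [Module.FinitePresentation A Q] [Module.Finite B Q] :
    Module.FinitePresentation B Q := by
  classical
  obtain ⟨s, hs⟩ := (Algebra.FiniteType.out : (⊤ : Subalgebra B A).FG)
  -- every element of `A` satisfies a monic polynomial on `Q` (Cayley–Hamilton)
  have hchi : ∀ a : A, ∃ p : B[X], p.Monic ∧ ∀ q : Q, (aeval a p) • q = 0 := by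
    intro a
    obtain ⟨p, hp, hp0⟩ := LinearMap.exists_monic_and_aeval_eq_zero B (Algebra.lsmul B B Q a)
    refine ⟨p, hp, fun q => ?_⟩
    have h1 : aeval (Algebra.lsmul B B Q a) p = Algebra.lsmul B B Q (aeval a p) :=
      Polynomial.aeval_algHom_apply (Algebra.lsmul B B Q) a p
    have h2 := LinearMap.congr_fun hp0 q
    rw [h1] at h2
    simpa using h2
  choose χ hχ hχ0 using hchi
  let I : Ideal A := Ideal.span ((fun a => aeval a (χ a)) '' (s : Set A))
  have hI : I.FG := ⟨s.image (fun a => aeval a (χ a)), by simp [I]⟩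
  have hIQ : ∀ a ∈ I, ∀ q : Q, a • q = 0 := by
    intro a ha q
    induction ha using Submodule.span_induction with
    | mem a ha =>
      obtain ⟨a', _, rfl⟩ := ha
      exact hχ0 a' q
    | zero => simp
    | add a b _ _ ha hb => rw [add_smul, ha, hb, add_zero]
    | smul c a _ ha => rw [smul_eq_mul, mul_smul, ha, smul_zero]
  haveI : Module.Finite B (A ⧸ I) := by
    have h1 : Algebra.adjoin B ((Ideal.Quotient.mkₐ B I) '' (s : Set A)) = ⊤ := by
      rw [← AlgHom.map_adjoin, hs, Algebra.map_top, AlgHom.range_eq_top]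
      exact Ideal.Quotient.mkₐ_surjective B I
    have h2 : (Algebra.adjoin B ((Ideal.Quotient.mkₐ B I) '' (s : Set A))).toSubmodule.FG := by
      refine fg_adjoin_of_finite (s.finite_toSet.image _) ?_
      rintro _ ⟨a, _, rfl⟩
      refine ⟨χ a, hχ a, ?_⟩
      rw [← Polynomial.aeval_def, Polynomial.aeval_algHom_apply]
      simp only [Ideal.Quotient.mkₐ_eq_mk]
      rw [Ideal.Quotient.eq_zero_iff_mem]
      exact Ideal.subset_span ⟨a, ‹_›, rfl⟩
    rw [h1] at h2
    exact ⟨by simpa using h2⟩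
  exact finitePresentation_of_fg_ideal_kills I hI hIQ

/-- (RED3), assembly: finitely presented over a finitely presented `B`-algebra, finite and
flat over `B`  ⟹  projective over `B`. -/
theorem projective_of_flat_of_finite_of_finitePresentation
    (B A Q : Type*) [CommRing B] [CommRing A] [Algebra B A] [AddCommGroup Q] [Module A Q]
    [Module B Q] [IsScalarTower B A Q] [Algebra.FinitePresentation B A]
    [Module.FinitePresentation A Q] [Module.Finite B Q] [Module.Flat B Q] :
    Module.Projective B Q := by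
  haveI := finitePresentation_of_finite_of_algebra_finitePresentation B A Q
  exact Module.Flat.projective_of_finitePresentation

end Assembly

section Finite

/-- A `B[X]`-finite module killed by a monic polynomial is finite over `B`. -/
theorem finite_of_monic_smul_eq_zero {B Q : Type*} [CommRing B] [AddCommGroup Q] [Module B Q]
    [Module B[X] Q] [IsScalarTower B B[X] Q] [Module.Finite B[X] Q]
    (G : B[X]) (hG : G.Monic) (h : ∀ q : Q, G • q = 0) : Module.Finite B Q := by
  classical
  by_cases hG1 : G = 1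
  · have : Subsingleton Q := ⟨fun a b => by
      have ha := h a
      have hb := h b
      rw [hG1, one_smul] at ha hb
      rw [ha, hb]⟩
    infer_instance
  obtain ⟨S, hS⟩ := (Module.Finite.fg_top : (⊤ : Submodule B[X] Q).FG)
  let T : Finset Q := (Finset.range G.natDegree ×ˢ S).image (fun p => (X ^ p.1 : B[X]) • p.2)
  refine ⟨⟨T, ?_⟩⟩
  rw [eq_top_iff]
  intro q _
  have hq : q ∈ Submodule.span B[X] (S : Set Q) := hS ▸ Submodule.mem_top
  obtain ⟨f, -, rfl⟩ := Submodule.mem_span_finset.mp hq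
  refine Submodule.sum_mem _ fun a ha => ?_
  have h1 : f a • a = (f a %ₘ G) • a := by
    conv_lhs => rw [← modByMonic_add_div (f a) G]
    rw [add_smul, mul_comm, mul_smul, h a, smul_zero, add_zero]
  have h2 : (f a %ₘ G) = ∑ i ∈ Finset.range G.natDegree, monomial i ((f a %ₘ G).coeff i) :=
    as_sum_range' _ _ (natDegree_modByMonic_lt _ hG hG1)
  rw [h1, h2, Finset.sum_smul]
  refine Submodule.sum_mem _ fun i hi => ?_
  have h3 : (monomial i ((f a %ₘ G).coeff i) : B[X]) • a
      = ((f a %ₘ G).coeff i) • ((X ^ i : B[X]) • a) := by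
    rw [← C_mul_X_pow_eq_monomial, mul_smul, C_eq_algebraMap, algebraMap_smul]
  rw [h3]
  refine Submodule.smul_mem _ _ (Submodule.subset_span ?_)
  exact Finset.mem_coe.mpr (Finset.mem_image.mpr ⟨(i, a), Finset.mem_product.mpr ⟨hi, ha⟩, rfl⟩)

/-- A finite module over an algebra `A` which is finite over `B[x]`, killed by a monic polynomial
in `x`, is finite over `B`. -/
theorem finite_of_aeval_finite {B A Q : Type*} [CommRing B] [CommRing A] [Algebra B A]
    [AddCommGroup Q] [Module A Q] [Module B Q] [IsScalarTower B A Q] [Module.Finite A Q]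
    (x : A) (hfin : (aeval x : B[X] →ₐ[B] A).toRingHom.Finite) (G : B[X]) (hG : G.Monic)
    (h : ∀ q : Q, aeval x G • q = 0) : Module.Finite B Q := by
  letI : Algebra B[X] A := (aeval x : B[X] →ₐ[B] A).toRingHom.toAlgebra
  letI : Module B[X] Q := Module.compHom Q (algebraMap B[X] A)
  have hsm : ∀ (p : B[X]) (q : Q), p • q = aeval x p • q := fun _ _ => rfl
  haveI : IsScalarTower B[X] A Q := ⟨fun p a q => by
    rw [hsm, Algebra.smul_def, mul_smul]
    rfl⟩
  haveI : Module.Finite B[X] A := hfin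
  haveI : Module.Finite B[X] Q := Module.Finite.trans A Q
  haveI : IsScalarTower B B[X] Q := ⟨fun b p q => by
    rw [hsm, hsm, map_smul, smul_assoc]⟩
  exact finite_of_monic_smul_eq_zero G hG (fun q => h q)

end Finite

section TwoChart

variable {B A₀ A₁ A₀₁ : Type*} [CommRing B] [CommRing A₀] [CommRing A₁] [CommRing A₀₁]
  [Algebra B A₀] [Algebra B A₁] [Algebra B A₀₁] [Algebra A₀ A₀₁] [Algebra A₁ A₀₁]
  [IsScalarTower B A₀ A₀₁] [IsScalarTower B A₁ A₀₁]
  {M₀ M₁ M₀₁ : Type*} [AddCommGroup M₀] [AddCommGroup M₁] [AddCommGroup M₀₁]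
  [Module A₀ M₀] [Module A₁ M₁] [Module A₀₁ M₀₁] [Module A₀ M₀₁] [Module A₁ M₀₁]
  [IsScalarTower A₀ A₀₁ M₀₁] [IsScalarTower A₁ A₀₁ M₀₁]

omit [Algebra B A₀] [CommRing A₀] [CommRing A₀₁] [Algebra B A₀₁] [Algebra A₀ A₀₁]
  [Algebra A₁ A₀₁] [IsScalarTower B A₀ A₀₁] [IsScalarTower B A₁ A₀₁]
  [AddCommGroup M₀] [AddCommGroup M₀₁] [Module A₀ M₀] [Module A₀₁ M₀₁] [Module A₀ M₀₁]
  [Module A₁ M₀₁] [IsScalarTower A₀ A₀₁ M₀₁] [IsScalarTower A₁ A₀₁ M₀₁] in
/-- (RED1), Nakayama step: if `s₁` generates `M₁` modulo `y` and `M₁` is finite over `B[y]`,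
then some `u ∈ B[X]` with constant coefficient `1` satisfies `u(y) M₁ ⊆ A₁ s₁`. -/
theorem exists_poly_kill_at_infinity [Module.Finite A₁ M₁] (y : A₁)
    (hfin₁ : (aeval y : B[X] →ₐ[B] A₁).toRingHom.Finite) (s₁ : M₁)
    (hgen : ∀ m : M₁, ∃ (a : A₁) (m' : M₁), m = a • s₁ + y • m') :
    ∃ u : B[X], u.coeff 0 = 1 ∧ ∀ m : M₁, ∃ a : A₁, aeval y u • m = a • s₁ := by
  classical
  let N : Submodule A₁ M₁ := Submodule.span A₁ {s₁}
  letI : Algebra B[X] A₁ := (aeval y : B[X] →ₐ[B] A₁).toRingHom.toAlgebra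
  letI : Module B[X] (M₁ ⧸ N) := Module.compHom (M₁ ⧸ N) (algebraMap B[X] A₁)
  have hsm : ∀ (p : B[X]) (q : M₁ ⧸ N), p • q = aeval y p • q := fun _ _ => rfl
  haveI : IsScalarTower B[X] A₁ (M₁ ⧸ N) := ⟨fun p a q => by
    rw [hsm, Algebra.smul_def, mul_smul]
    rfl⟩
  haveI : Module.Finite B[X] A₁ := hfin₁
  haveI : Module.Finite B[X] (M₁ ⧸ N) := Module.Finite.trans A₁ (M₁ ⧸ N)
  have hs₁ : N.mkQ s₁ = 0 := by
    rw [Submodule.mkQ_apply, Submodule.Quotient.mk_eq_zero]
    exact Submodule.mem_span_singleton_self s₁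
  have hin : (⊤ : Submodule B[X] (M₁ ⧸ N))
      ≤ (Ideal.span {(X : B[X])}) • (⊤ : Submodule B[X] (M₁ ⧸ N)) := by
    intro z _
    obtain ⟨m, rfl⟩ := Submodule.mkQ_surjective N z
    obtain ⟨a, m', rfl⟩ := hgen m
    have h1 : N.mkQ (a • s₁ + y • m') = (X : B[X]) • N.mkQ m' := by
      rw [hsm, aeval_X, map_add, map_smul, map_smul, hs₁, smul_zero, zero_add]
    rw [h1]
    exact Submodule.smul_mem_smul (Ideal.mem_span_singleton_self X) Submodule.mem_top
  obtain ⟨r, hr1, hr⟩ := Submodule.exists_sub_one_mem_and_smul_eq_zero_of_fg_of_le_smul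
    (Ideal.span {(X : B[X])}) (⊤ : Submodule B[X] (M₁ ⧸ N)) Module.Finite.fg_top hin
  refine ⟨r, ?_, fun m => ?_⟩
  · rw [Ideal.mem_span_singleton, Polynomial.X_dvd_iff] at hr1
    simpa [sub_eq_zero] using hr1
  · have h := hr (N.mkQ m) Submodule.mem_top
    rw [hsm, ← map_smul, Submodule.mkQ_apply, Submodule.Quotient.mk_eq_zero] at h
    obtain ⟨a, ha⟩ := Submodule.mem_span_singleton.mp h
    exact ⟨a, ha.symm⟩

/-- The reverse of a polynomial with constant coefficient `1` is monic. -/
theorem monic_reverse_of_coeff_zero {B : Type*} [CommRing B] (u : B[X]) (hu : u.coeff 0 = 1) :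
    u.reverse.Monic := by
  rcases subsingleton_or_nontrivial B with h | h
  · exact Subsingleton.elim _ _
  · have h0 : u.natTrailingDegree = 0 := by
      rw [natTrailingDegree_eq_zero]
      right
      rw [hu]
      exact one_ne_zero
    rw [Monic, reverse_leadingCoeff, trailingCoeff, h0, hu]

omit [Algebra B A₁] [IsScalarTower B A₁ A₀₁] [Module A₁ M₀₁] [IsScalarTower A₁ A₀₁ M₀₁] in
/-- Evaluation of the reverse polynomial: `u.reverse(x) = x ^ deg u * u(1/x)`. -/
theorem aeval_reverse_of_mul_eq_one (X' Y' : A₀₁) (hXY : X' * Y' = 1) (u : B[X]) :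
    aeval X' u.reverse = aeval Y' u * X' ^ u.natDegree := by
  letI : Invertible Y' := ⟨X', hXY, by rw [mul_comm]; exact hXY⟩
  have h := eval₂_reverse_mul_pow (algebraMap B A₀₁) Y' u
  have h1 : (⅟Y' : A₀₁) = X' := rfl
  rw [h1] at h
  rw [aeval_def, aeval_def, ← h, mul_assoc, ← mul_pow, mul_comm Y' X', hXY, one_pow, mul_one]

/-- (RED1), transport to the first chart: every element of `M₀` is sent into `A₀ s₀` by
`x ^ n * u.reverse(x)` for some `n`. -/
theorem exists_pow_mul_reverse_smul_eq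
    (x : A₀) (y : A₁) (hxy : algebraMap A₀ A₀₁ x * algebraMap A₁ A₀₁ y = 1)
    [IsLocalization.Away x A₀₁]
    (ρ₀ : M₀ →ₗ[A₀] M₀₁) (ρ₁ : M₁ →ₗ[A₁] M₀₁)
    [IsLocalizedModule (Submonoid.powers x) ρ₀] [IsLocalizedModule (Submonoid.powers y) ρ₁]
    (s₀ : M₀) (s₁ : M₁) (hs : ρ₀ s₀ = ρ₁ s₁)
    (u : B[X]) (hu : ∀ m : M₁, ∃ a : A₁, aeval y u • m = a • s₁) (m₀ : M₀) :
    ∃ (n : ℕ) (a : A₀), (x ^ n * aeval x u.reverse) • m₀ = a • s₀ := by
  obtain ⟨⟨m₁, ⟨_, N, rfl⟩⟩, h1⟩ := IsLocalizedModule.surj (Submonoid.powers y) ρ₁ (ρ₀ m₀)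
  have h1' : (algebraMap A₁ A₀₁ y) ^ N • ρ₀ m₀ = ρ₁ m₁ := by
    rw [← map_pow, algebraMap_smul]
    exact h1
  obtain ⟨a₁, ha₁⟩ := hu m₁
  set X' := algebraMap A₀ A₀₁ x with hX'
  set Y' := algebraMap A₁ A₀₁ y with hY'
  have hP := aeval_reverse_of_mul_eq_one (B := B) X' Y' hxy u
  have key : ρ₀ (aeval x u.reverse • m₀)
      = (X' ^ (N + u.natDegree) * algebraMap A₁ A₀₁ a₁) • ρ₀ s₀ := by
    have e1 : ρ₀ (aeval x u.reverse • m₀) = (aeval X' u.reverse) • ρ₀ m₀ := by
      rw [map_smul, hX', aeval_algebraMap_apply, algebraMap_smul]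
    have e2 : (aeval X' u.reverse) • ρ₀ m₀ = (X' ^ (N + u.natDegree) * aeval Y' u) • (Y' ^ N • ρ₀ m₀) := by
      rw [smul_smul, hP]
      congr 1
      have : X' ^ N * Y' ^ N = 1 := by rw [← mul_pow, hxy, one_pow]
      calc aeval Y' u * X' ^ u.natDegree = aeval Y' u * X' ^ u.natDegree * (X' ^ N * Y' ^ N) := by
            rw [this, mul_one]
        _ = X' ^ (N + u.natDegree) * aeval Y' u * Y' ^ N := by ring
    have e3 : (aeval Y' u) • ρ₁ m₁ = algebraMap A₁ A₀₁ a₁ • ρ₁ s₁ := by
      rw [hY', aeval_algebraMap_apply, algebraMap_smul, ← map_smul, ha₁, map_smul, algebraMap_smul]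
    rw [e1, e2, h1', mul_smul, e3, hs, mul_smul]
  obtain ⟨⟨a₀, ⟨_, N', rfl⟩⟩, h2⟩ := IsLocalization.surj (Submonoid.powers x)
    (X' ^ (N + u.natDegree) * algebraMap A₁ A₀₁ a₁)
  have h3 : ρ₀ ((x ^ N' * aeval x u.reverse) • m₀) = ρ₀ (a₀ • s₀) := by
    rw [mul_smul, map_smul, key, map_smul, ← algebraMap_smul A₀₁ (x ^ N'), smul_smul,
      ← algebraMap_smul A₀₁ a₀, ← h2, mul_comm]
  obtain ⟨⟨_, N'', rfl⟩, h4⟩ := IsLocalizedModule.exists_of_eq (S := Submonoid.powers x) (f := ρ₀) h3
  refine ⟨N'' + N', x ^ N'' * a₀, ?_⟩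
  rw [pow_add, mul_assoc, mul_smul, mul_smul (x ^ N'') a₀]
  exact h4

/-- (RED1)(b): a section `s = (s₀, s₁)` which generates `M₁` modulo `y` has divisor inside the
first chart and finite over `B`: there is a MONIC `G ∈ B[X]` with `G(x) M₀ ⊆ A₀ s₀`. -/
theorem exists_monic_smul_mem_span
    (x : A₀) (y : A₁) (hxy : algebraMap A₀ A₀₁ x * algebraMap A₁ A₀₁ y = 1)
    [IsLocalization.Away x A₀₁]
    (ρ₀ : M₀ →ₗ[A₀] M₀₁) (ρ₁ : M₁ →ₗ[A₁] M₀₁)
    [IsLocalizedModule (Submonoid.powers x) ρ₀] [IsLocalizedModule (Submonoid.powers y) ρ₁]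
    [Module.Finite A₀ M₀] [Module.Finite A₁ M₁]
    (hfin₁ : (aeval y : B[X] →ₐ[B] A₁).toRingHom.Finite)
    (s₀ : M₀) (s₁ : M₁) (hs : ρ₀ s₀ = ρ₁ s₁)
    (hgen : ∀ m : M₁, ∃ (a : A₁) (m' : M₁), m = a • s₁ + y • m') :
    ∃ G : B[X], G.Monic ∧ ∀ m : M₀, ∃ a : A₀, aeval x G • m = a • s₀ := by
  classical
  obtain ⟨u, hu0, hu⟩ := exists_poly_kill_at_infinity y hfin₁ s₁ hgen
  have hP : u.reverse.Monic := monic_reverse_of_coeff_zero u hu0
  have h3 := fun m₀ => exists_pow_mul_reverse_smul_eq x y hxy ρ₀ ρ₁ s₀ s₁ hs u hu m₀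
  obtain ⟨S, hS⟩ := (Module.Finite.fg_top : (⊤ : Submodule A₀ M₀).FG)
  choose n a hna using h3
  refine ⟨X ^ (S.sup n) * u.reverse, (monic_X_pow _).mul hP, fun m => ?_⟩
  have hm : m ∈ Submodule.span A₀ (S : Set M₀) := hS ▸ Submodule.mem_top
  have hmem : aeval x (X ^ (S.sup n) * u.reverse) • m ∈ Submodule.span A₀ {s₀} := by
    induction hm using Submodule.span_induction with
    | mem g hg =>
      have hle : n g ≤ S.sup n := Finset.le_sup (Finset.mem_coe.mp hg)
      have h4 : aeval x (X ^ (S.sup n) * u.reverse)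
          = x ^ (S.sup n - n g) * (x ^ n g * aeval x u.reverse) := by
        rw [map_mul, map_pow, aeval_X, ← mul_assoc, ← pow_add, Nat.sub_add_cancel hle]
      rw [h4, mul_smul, hna g]
      exact Submodule.smul_mem _ _ (Submodule.smul_mem _ _ (Submodule.mem_span_singleton_self s₀))
    | zero => simp
    | add a b _ _ ha hb =>
      rw [smul_add]
      exact Submodule.add_mem _ ha hb
    | smul c a _ ha =>
      rw [smul_comm]
      exact Submodule.smul_mem _ _ ha
  obtain ⟨a, ha⟩ := Submodule.mem_span_singleton.mp hmem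
  exact ⟨a, ha.symm⟩

/-- (RED1)(c): the divisor `M₀ ⧸ A₀ s₀` of a section generating `M₁` modulo `y` is a finite
`B`-module. -/
theorem finite_quotient_span_singleton
    (x : A₀) (y : A₁) (hxy : algebraMap A₀ A₀₁ x * algebraMap A₁ A₀₁ y = 1)
    [IsLocalization.Away x A₀₁]
    (ρ₀ : M₀ →ₗ[A₀] M₀₁) (ρ₁ : M₁ →ₗ[A₁] M₀₁)
    [IsLocalizedModule (Submonoid.powers x) ρ₀] [IsLocalizedModule (Submonoid.powers y) ρ₁]
    [Module.Finite A₀ M₀] [Module.Finite A₁ M₁]
    [Module B M₀] [IsScalarTower B A₀ M₀]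
    (hfin₀ : (aeval x : B[X] →ₐ[B] A₀).toRingHom.Finite)
    (hfin₁ : (aeval y : B[X] →ₐ[B] A₁).toRingHom.Finite)
    (s₀ : M₀) (s₁ : M₁) (hs : ρ₀ s₀ = ρ₁ s₁)
    (hgen : ∀ m : M₁, ∃ (a : A₁) (m' : M₁), m = a • s₁ + y • m') :
    Module.Finite B (M₀ ⧸ Submodule.span A₀ {s₀}) := by
  obtain ⟨G, hG, hGk⟩ := exists_monic_smul_mem_span x y hxy ρ₀ ρ₁ hfin₁ s₀ s₁ hs hgen
  refine finite_of_aeval_finite x hfin₀ G hG ?_
  intro q
  obtain ⟨m, rfl⟩ := Submodule.mkQ_surjective _ q
  rw [← map_smul, Submodule.mkQ_apply, Submodule.Quotient.mk_eq_zero]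
  obtain ⟨a, ha⟩ := hGk m
  rw [ha]
  exact Submodule.smul_mem _ _ (Submodule.mem_span_singleton_self s₀)

end TwoChart

section Main

variable {B A₀ A₁ A₀₁ : Type*} [CommRing B] [CommRing A₀] [CommRing A₁] [CommRing A₀₁]
  [Algebra B A₀] [Algebra B A₁] [Algebra B A₀₁] [Algebra A₀ A₀₁] [Algebra A₁ A₀₁]
  [IsScalarTower B A₀ A₀₁] [IsScalarTower B A₁ A₀₁]
  {M₀ M₁ M₀₁ : Type*} [AddCommGroup M₀] [AddCommGroup M₁] [AddCommGroup M₀₁]
  [Module A₀ M₀] [Module A₁ M₁] [Module A₀₁ M₀₁] [Module A₀ M₀₁] [Module A₁ M₀₁]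
  [IsScalarTower A₀ A₀₁ M₀₁] [IsScalarTower A₁ A₀₁ M₀₁]

/-- (RED), assembled: in a two-chart situation (`A₀₁ = A₀[1/x] = A₁[1/y]`, `x y = 1`,
`M₀₁ = M₀[1/x] = M₁[1/y]`), let `s = (s₀, s₁)` be a section which generates `M₁` modulo `y`
("nonvanishing along `V(y)`") and such that `a ↦ a • s₀` is injective modulo every maximal
ideal of `B` ("nonzero on every fibre").  Then `a ↦ a • s₀` is injective and the divisor
`M₀ ⧸ A₀ s₀` of `s` is a finite projective `B`-module. -/
theorem finite_projective_quotient_span_singleton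
    (x : A₀) (y : A₁) (hxy : algebraMap A₀ A₀₁ x * algebraMap A₁ A₀₁ y = 1)
    [IsLocalization.Away x A₀₁]
    (ρ₀ : M₀ →ₗ[A₀] M₀₁) (ρ₁ : M₁ →ₗ[A₁] M₀₁)
    [IsLocalizedModule (Submonoid.powers x) ρ₀] [IsLocalizedModule (Submonoid.powers y) ρ₁]
    [Module B M₀] [IsScalarTower B A₀ M₀]
    [Algebra.FinitePresentation B A₀] [Module.FinitePresentation A₀ M₀] [Module.Finite A₁ M₁]
    [Module.Projective B A₀] [Module.Projective B M₀]
    (hfin₀ : (aeval x : B[X] →ₐ[B] A₀).toRingHom.Finite)
    (hfin₁ : (aeval y : B[X] →ₐ[B] A₁).toRingHom.Finite)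
    (s₀ : M₀) (s₁ : M₁) (hs : ρ₀ s₀ = ρ₁ s₁)
    (hgen : ∀ m : M₁, ∃ (a : A₁) (m' : M₁), m = a • s₁ + y • m')
    (hfib : FibInj ((LinearMap.toSpanSingleton A₀ M₀ s₀).restrictScalars B)) :
    Function.Injective (fun a : A₀ => a • s₀) ∧
      Module.Finite B (M₀ ⧸ Submodule.span A₀ {s₀}) ∧
      Module.Projective B (M₀ ⧸ Submodule.span A₀ {s₀}) := by
  set φ : A₀ →ₗ[B] M₀ := (LinearMap.toSpanSingleton A₀ M₀ s₀).restrictScalars B with hφ
  have hinj : Function.Injective φ := hfib.injective
  haveI hfinQ : Module.Finite B (M₀ ⧸ Submodule.span A₀ {s₀}) :=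
    finite_quotient_span_singleton x y hxy ρ₀ ρ₁ hfin₀ hfin₁ s₀ s₁ hs hgen
  haveI : Module.Flat B (M₀ ⧸ LinearMap.range φ) := hfib.flat_coker
  have hrange : LinearMap.range φ = (Submodule.span A₀ {s₀}).restrictScalars B := by
    ext m
    simp only [LinearMap.mem_range, Submodule.restrictScalars_mem, Submodule.mem_span_singleton]
    rfl
  let e : (M₀ ⧸ LinearMap.range φ) ≃ₗ[B] (M₀ ⧸ Submodule.span A₀ {s₀}) :=
    (Submodule.quotEquivOfEq _ _ hrange).trans (Submodule.Quotient.restrictScalarsEquiv B _)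
  haveI : Module.Flat B (M₀ ⧸ Submodule.span A₀ {s₀}) := Module.Flat.of_linearEquiv e.symm
  haveI : Module.FinitePresentation A₀ (M₀ ⧸ Submodule.span A₀ {s₀}) := by
    refine Module.finitePresentation_of_surjective (Submodule.span A₀ {s₀}).mkQ
      (Submodule.mkQ_surjective _) ?_
    rw [Submodule.ker_mkQ]
    exact Submodule.fg_span_singleton s₀
  exact ⟨hinj, hfinQ, projective_of_flat_of_finite_of_finitePresentation B A₀ _⟩

end Main

end Fermat.Agent.S25.helper1567
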