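import Mathlib

/-!
# Tensor products of domains over an algebraically closed field (S25, brick T1)

`k` algebraically closed, `A`, `B` commutative `k`-algebras that are domains.  Then `A ⊗[k] B`
is a domain.  No finiteness hypotheses.

Main statements (namespace `Fermat.Agent.S25.helper7973`):

* `eq_zero_of_forall_algHom_eq_zero` : Nullstellensatz form, in a reduced finite type `k`-algebra
  an element killed by every `k`-point is zero.
* `isDomain_tensorProduct` : `IsDomain (A ⊗[k] B)`.
* `isDomain_tensorProduct_field`, `isDomain_tensorProduct₃` : corollaries.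
-/

set_option linter.style.haveILetI false
set_option linter.unusedSectionVars false

namespace Fermat.Agent.S25.helper7973

open TensorProduct

universe u v w

section Nullstellensatz

variable {k : Type u} [Field k] [IsAlgClosed k]

/-- A maximal ideal of a finite type algebra over an algebraically closed field is the kernel
of a `k`-point. -/
theorem exists_algHom_ker_eq_of_isMaximal {A : Type v} [CommRing A] [Algebra k A]
    [Algebra.FiniteType k A] (m : Ideal A) [hm : m.IsMaximal] :
    ∃ φ : A →ₐ[k] k, RingHom.ker (φ : A →+* k) = m := by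
  letI : Field (A ⧸ m) := Ideal.Quotient.field m
  haveI : Algebra.FiniteType k (A ⧸ m) :=
    Algebra.FiniteType.of_surjective (Ideal.Quotient.mkₐ k m) (Ideal.Quotient.mkₐ_surjective k m)
  haveI : Module.Finite k (A ⧸ m) := finite_of_finite_type_of_isJacobsonRing k (A ⧸ m)
  haveI : Algebra.IsIntegral k (A ⧸ m) := Algebra.IsIntegral.of_finite k (A ⧸ m)
  have hbij : Function.Bijective (algebraMap k (A ⧸ m)) :=
    IsAlgClosed.algebraMap_bijective_of_isIntegral
  let e : k ≃ₐ[k] (A ⧸ m) := AlgEquiv.ofBijective (Algebra.ofId k (A ⧸ m)) hbij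
  refine ⟨(e.symm : (A ⧸ m) →ₐ[k] k).comp (Ideal.Quotient.mkₐ k m), ?_⟩
  ext a
  rw [RingHom.mem_ker]
  change e.symm (Ideal.Quotient.mk m a) = 0 ↔ a ∈ m
  rw [map_eq_zero_iff e.symm e.symm.injective, Ideal.Quotient.eq_zero_iff_mem]

/-- Nullstellensatz form: in a reduced finite type algebra over an algebraically closed field,
an element killed by every `k`-point is zero. -/
theorem eq_zero_of_forall_algHom_eq_zero {A : Type v} [CommRing A] [Algebra k A]
    [Algebra.FiniteType k A] [IsReduced A] {a : A} (h : ∀ φ : A →ₐ[k] k, φ a = 0) : a = 0 := by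
  haveI : IsJacobsonRing A := isJacobsonRing_of_finiteType (A := k)
  have hrad : (⊥ : Ideal A).IsRadical := by
    rw [← Ideal.radical_eq_iff]
    exact (nilradical_eq_zero A)
  have hjac : (⊥ : Ideal A).jacobson = ⊥ := IsJacobsonRing.out' _ hrad
  have hmem : a ∈ (⊥ : Ideal A).jacobson := by
    rw [Ideal.jacobson, Ideal.mem_sInf]
    rintro m ⟨-, hm⟩
    haveI := hm
    obtain ⟨φ, hφ⟩ := exists_algHom_ker_eq_of_isMaximal (k := k) m
    rw [← hφ, RingHom.mem_ker]
    exact h φ
  rw [hjac] at hmem
  exact hmem

end Nullstellensatz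

section TensorDomain

variable {k : Type u} [Field k] [IsAlgClosed k]
variable {A : Type v} {B : Type w} [CommRing A] [CommRing B] [Algebra k A] [Algebra k B]

/-- Evaluation of the first tensor factor at a `k`-point. -/
noncomputable def evalLeft (φ : A →ₐ[k] k) : A ⊗[k] B →ₐ[k] B :=
  (Algebra.TensorProduct.lid k B : k ⊗[k] B →ₐ[k] B).comp
    (Algebra.TensorProduct.map φ (AlgHom.id k B))

@[simp]
theorem evalLeft_tmul (φ : A →ₐ[k] k) (a : A) (b : B) :
    evalLeft φ (a ⊗ₜ[k] b) = φ a • b := by
  simp [evalLeft]

/-- Coordinates of `evalLeft φ z` in a `k`-basis of `B` are the images under `φ` of the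
coordinates of `z` in the induced `A`-basis of `A ⊗[k] B`. -/
theorem repr_evalLeft {ι : Type*} (b : Module.Basis ι k B) (φ : A →ₐ[k] k) (z : A ⊗[k] B)
    (i : ι) :
    b.repr (evalLeft φ z) i = φ ((Algebra.TensorProduct.basis A b).repr z i) := by
  induction z using TensorProduct.induction_on with
  | zero => simp
  | tmul a m =>
    rw [evalLeft_tmul, Algebra.TensorProduct.basis_repr_tmul, map_smul]
    simp [Finsupp.smul_apply, Finsupp.mapRange_apply]
  | add x y hx hy =>
    simp only [map_add, Finsupp.coe_add, Pi.add_apply, hx, hy]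

omit [IsAlgClosed k] in
/-- The tensor product of two domains over a field is nontrivial. -/
theorem nontrivial_tensorProduct [IsDomain A] [IsDomain B] : Nontrivial (A ⊗[k] B) :=
  Algebra.TensorProduct.nontrivial_of_algebraMap_injective_of_isDomain k A B
    (algebraMap k A).injective (algebraMap k B).injective

/-- Finite type case of `isDomain_tensorProduct`. -/
theorem noZeroDivisors_tensorProduct_of_finiteType [Algebra.FiniteType k A] [IsDomain A]
    [IsDomain B] : NoZeroDivisors (A ⊗[k] B) := by
  refine ⟨fun {z w} hzw => ?_⟩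
  by_contra hne
  rw [not_or] at hne
  obtain ⟨hz, hw⟩ := hne
  let b := Module.Basis.ofVectorSpace k B
  let 𝔟 := Algebra.TensorProduct.basis A b
  have hz' : 𝔟.repr z ≠ 0 := fun h => hz (by simpa using h)
  have hw' : 𝔟.repr w ≠ 0 := fun h => hw (by simpa using h)
  obtain ⟨i, hi⟩ := Finsupp.ne_iff.mp hz'
  obtain ⟨j, hj⟩ := Finsupp.ne_iff.mp hw'
  simp only [Finsupp.coe_zero, Pi.zero_apply] at hi hj
  have key : 𝔟.repr z i * 𝔟.repr w j = 0 := by
    apply eq_zero_of_forall_algHom_eq_zero (k := k)
    intro φ
    have h0 : evalLeft φ z * evalLeft φ w = 0 := by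
      rw [← map_mul, hzw, map_zero]
    rw [map_mul]
    rcases mul_eq_zero.mp h0 with h | h
    · have := repr_evalLeft b φ z i
      rw [h] at this
      simp only [map_zero, Finsupp.coe_zero, Pi.zero_apply] at this
      rw [← this, zero_mul]
    · have := repr_evalLeft b φ w j
      rw [h] at this
      simp only [map_zero, Finsupp.coe_zero, Pi.zero_apply] at this
      rw [← this, mul_zero]
  rcases mul_eq_zero.mp key with h | h
  · exact hi h
  · exact hj h

/-- **Tensor product of domains over an algebraically closed field is a domain.** -/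
theorem isDomain_tensorProduct (k : Type u) [Field k] [IsAlgClosed k]
    (A : Type v) (B : Type w) [CommRing A] [CommRing B] [Algebra k A] [Algebra k B]
    [IsDomain A] [IsDomain B] : IsDomain (A ⊗[k] B) := by
  haveI : Nontrivial (A ⊗[k] B) := nontrivial_tensorProduct
  haveI : NoZeroDivisors (A ⊗[k] B) := by
    refine ⟨fun {z w} hzw => ?_⟩
    classical
    let b := Module.Basis.ofVectorSpace k B
    let 𝔟 := Algebra.TensorProduct.basis A b
    -- the finitely generated subalgebra generated by all coordinates of `z` and `w`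
    let S : Finset A := (𝔟.repr z).support.image (𝔟.repr z) ∪ (𝔟.repr w).support.image (𝔟.repr w)
    let A' : Subalgebra k A := Algebra.adjoin k (S : Set A)
    haveI : Algebra.FiniteType k A' :=
      (Subalgebra.fg_iff_finiteType A').mp (Subalgebra.fg_adjoin_finset S)
    have hzS : ∀ i ∈ (𝔟.repr z).support, 𝔟.repr z i ∈ A' := fun i hi =>
      Algebra.subset_adjoin (Finset.mem_union_left _ (Finset.mem_image_of_mem _ hi))
    have hwS : ∀ i ∈ (𝔟.repr w).support, 𝔟.repr w i ∈ A' := fun i hi =>
      Algebra.subset_adjoin (Finset.mem_union_right _ (Finset.mem_image_of_mem _ hi))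
    let ι : A' ⊗[k] B →ₐ[k] A ⊗[k] B := Algebra.TensorProduct.map A'.val (AlgHom.id k B)
    have hι : Function.Injective ι := by
      have h1 : Function.Injective (LinearMap.rTensor B (A'.val.toLinearMap)) :=
        Module.Flat.rTensor_preserves_injective_linearMap _ Subtype.val_injective
      have h2 : ⇑ι = ⇑(LinearMap.rTensor B (A'.val.toLinearMap)) := by
        ext x
        induction x using TensorProduct.induction_on with
        | zero => simp
        | tmul a m => simp [ι]
        | add x y hx hy => simp only [map_add, hx, hy]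
      rw [h2]
      exact h1
    -- lifts of `z` and `w`
    let z' : A' ⊗[k] B := ∑ i ∈ ((𝔟.repr z).support).attach,
      (⟨𝔟.repr z i, hzS i i.2⟩ : A') ⊗ₜ[k] b i
    let w' : A' ⊗[k] B := ∑ i ∈ ((𝔟.repr w).support).attach,
      (⟨𝔟.repr w i, hwS i i.2⟩ : A') ⊗ₜ[k] b i
    have hsum : ∀ x : A ⊗[k] B, ∑ i ∈ ((𝔟.repr x).support).attach,
        (𝔟.repr x i : A) ⊗ₜ[k] b i = x := by
      intro x
      rw [Finset.sum_attach ((𝔟.repr x).support) (fun i => (𝔟.repr x i : A) ⊗ₜ[k] b i)]
      conv_rhs => rw [← 𝔟.linearCombination_repr x]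
      rw [Finsupp.linearCombination_apply, Finsupp.sum]
      refine Finset.sum_congr rfl fun i _ => ?_
      rw [Algebra.TensorProduct.basis_repr_symm_apply']
    have hz' : ι z' = z := by
      simp only [z', map_sum, ι, Algebra.TensorProduct.map_tmul, Subalgebra.coe_val,
        AlgHom.coe_id, id_eq]
      exact hsum z
    have hw' : ι w' = w := by
      simp only [w', map_sum, ι, Algebra.TensorProduct.map_tmul, Subalgebra.coe_val,
        AlgHom.coe_id, id_eq]
      exact hsum w
    have h0 : z' * w' = 0 := by
      apply hι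
      rw [map_mul, hz', hw', hzw, map_zero]
    haveI : NoZeroDivisors (A' ⊗[k] B) := noZeroDivisors_tensorProduct_of_finiteType
    rcases mul_eq_zero.mp h0 with h | h
    · left; rw [← hz', h, map_zero]
    · right; rw [← hw', h, map_zero]
  exact NoZeroDivisors.to_isDomain _

/-- Geometric integrality input: a `k`-domain stays a domain after any field extension. -/
theorem isDomain_tensorProduct_field (k : Type u) [Field k] [IsAlgClosed k]
    (R : Type v) [CommRing R] [Algebra k R] [IsDomain R]
    (K : Type w) [Field K] [Algebra k K] : IsDomain (R ⊗[k] K) :=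
  isDomain_tensorProduct k R K

/-- Same with the field on the left. -/
theorem isDomain_field_tensorProduct (k : Type u) [Field k] [IsAlgClosed k]
    (K : Type w) [Field K] [Algebra k K]
    (R : Type v) [CommRing R] [Algebra k R] [IsDomain R] : IsDomain (K ⊗[k] R) :=
  isDomain_tensorProduct k K R

/-- Triple tensor products of domains are domains. -/
theorem isDomain_tensorProduct₃ (k : Type u) [Field k] [IsAlgClosed k]
    (A : Type v) (B : Type w) (C : Type*) [CommRing A] [CommRing B] [CommRing C]
    [Algebra k A] [Algebra k B] [Algebra k C] [IsDomain A] [IsDomain B] [IsDomain C] :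
    IsDomain ((A ⊗[k] B) ⊗[k] C) :=
  haveI := isDomain_tensorProduct k A B
  isDomain_tensorProduct k (A ⊗[k] B) C

end TensorDomain

end Fermat.Agent.S25.helper7973
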