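/-
S25 (Jacobian moonshot), leaf LC-RED, GlueDatum form (backup copy, helper1567).

For `G : GlueDatum D B` (helper2945 AlgDefs) over an algebraically closed field `k` and a
section `s = (s₀, s₁)` of `G` which generates `G.M₁` modulo `y` (nonvanishing along `V(y)`) and
is nonzero on every closed fibre of `Spec B`:

* `a ↦ a • s₀` is injective on `D.A₀ B`;
* the divisor `G.M₀ ⧸ (D.A₀ B) s₀` is a finite projective `B`-module;
* it is killed by `G(x)` for a monic `G ∈ B[X]`.

This is the unbundled `finite_projective_quotient_span_singleton` of `helper1567_RelDivisor`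
instantiated at the rings of a curve datum, plus the fibre argument (`𝔪 (R₀ ⊗ B)` is prime for
`𝔪` maximal, by the tensor-domain theorem; projective modules over a domain are torsion-free).
-/
import Fermat.Agent.S25.helper1567_RelDivisor
import Fermat.Agent.S25.helper9607_GlueBridge
import Fermat.Agent.S25.helper6786_CurveBase
import Fermat.Agent.S25.helper1800_CurveDatumBasics
import Fermat.Agent.S25.helper7973_TensorDomain

set_option autoImplicit false
set_option linter.style.haveILetI false

open scoped TensorProduct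
open Polynomial

namespace Fermat.Agent.S25.helper1567

open Fermat.Agent.S25.helper1705 Fermat.Agent.S25.helper2945

universe u

section Generic

/-- The `B`-submodule `J • ⊤` of an `A`-module and the `A`-submodule `(J A) • ⊤` have the same
elements. -/
theorem mem_smul_top_iff_mem_map_smul_top {B A M : Type*} [CommRing B] [CommRing A]
    [Algebra B A] [AddCommGroup M] [Module A M] [Module B M] [IsScalarTower B A M]
    (J : Ideal B) (m : M) :
    m ∈ J • (⊤ : Submodule B M) ↔ m ∈ (J.map (algebraMap B A)) • (⊤ : Submodule A M) := by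
  constructor
  · intro h
    refine Submodule.smul_induction_on h ?_ ?_
    · intro b hb n _
      rw [← algebraMap_smul A b n]
      exact Submodule.smul_mem_smul (Ideal.mem_map_of_mem _ hb) Submodule.mem_top
    · intro x y hx hy
      exact Submodule.add_mem _ hx hy
  · intro h
    refine Submodule.smul_induction_on h ?_ ?_
    · intro a ha n _
      have key : ∀ n : M, a • n ∈ J • (⊤ : Submodule B M) := by
        induction ha using Submodule.span_induction with
        | mem a ha =>
          obtain ⟨b, hb, rfl⟩ := ha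
          intro n
          rw [algebraMap_smul]
          exact Submodule.smul_mem_smul hb Submodule.mem_top
        | zero => intro n; simp
        | add a a' _ _ ha ha' =>
          intro n
          rw [add_smul]
          exact Submodule.add_mem _ (ha n) (ha' n)
        | smul c a _ ha =>
          intro n
          rw [smul_eq_mul, mul_comm, mul_smul]
          exact ha (c • n)
      exact key n
    · intro x y hx hy
      exact Submodule.add_mem _ hx hy

/-- Projective modules are torsion-free modulo a prime ideal: if `a • s ∈ P M` and `s ∉ P M`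
then `a ∈ P`. -/
theorem mem_of_smul_mem_smul_top_of_isPrime {A M : Type*} [CommRing A] [AddCommGroup M]
    [Module A M] [Module.Projective A M] (P : Ideal A) [hP : P.IsPrime] {a : A} {s : M}
    (hs : s ∉ P • (⊤ : Submodule A M)) (has : a • s ∈ P • (⊤ : Submodule A M)) : a ∈ P := by
  obtain ⟨σ, hσ⟩ := Module.projective_def'.mp ‹Module.Projective A M›
  by_contra ha
  apply hs
  have hs' : s = Finsupp.linearCombination A id (σ s) := by
    have := LinearMap.congr_fun hσ s
    simpa using this.symm
  rw [hs', Finsupp.linearCombination_apply, Finsupp.sum]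
  refine Submodule.sum_mem _ fun p _ => Submodule.smul_mem_smul ?_ Submodule.mem_top
  have h1 := map_mem_smul_top ((Finsupp.lapply p : (M →₀ A) →ₗ[A] A) ∘ₗ σ) P has
  rw [smul_eq_mul, Ideal.mul_top] at h1
  have h2 : ((Finsupp.lapply p : (M →₀ A) →ₗ[A] A) ∘ₗ σ) (a • s) = a * (σ s) p := by simp
  rw [h2] at h1
  exact (hP.mem_or_mem h1).resolve_left ha

end Generic

section Rings

variable {k : Type u} [Field k] (B : Type u) [CommRing B] [Algebra k B]

attribute [local instance] Algebra.TensorProduct.rightAlgebra in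
/-- For a `k`-algebra `R` of finite type, `R ⊗[k] B` is a finitely presented `B`-algebra
(`B` acting on the right factor). -/
theorem finitePresentation_tensor_right (R : Type u) [CommRing R] [Algebra k R]
    [Algebra.FiniteType k R] : Algebra.FinitePresentation B (R ⊗[k] B) := by
  haveI : Algebra.FinitePresentation k R := Algebra.FinitePresentation.of_finiteType.mp inferInstance
  haveI : Algebra.FinitePresentation B (B ⊗[k] R) := inferInstance
  let e : (B ⊗[k] R) ≃ₐ[B] (R ⊗[k] B) :=
    AlgEquiv.ofRingEquiv (f := (Algebra.TensorProduct.comm k B R).toRingEquiv) (fun b => by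
      simp [Algebra.TensorProduct.algebraMap_apply, Algebra.TensorProduct.right_algebraMap_apply])
  exact Algebra.FinitePresentation.equiv e

attribute [local instance] Algebra.TensorProduct.rightAlgebra in
/-- For `k` algebraically closed, a domain `R` over `k` and a maximal ideal `𝔪` of `B`, the
extension of `𝔪` to `R ⊗[k] B` is a prime ideal (the fibre `R ⊗[k] B ⧸ 𝔪` is a domain). -/
theorem isPrime_map_algebraMap_tensor [IsAlgClosed k] (R : Type u) [CommRing R] [Algebra k R]
    [IsDomain R] (𝔪 : Ideal B) [h𝔪 : 𝔪.IsMaximal] :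
    (𝔪.map (algebraMap B (R ⊗[k] B))).IsPrime := by
  haveI : IsDomain (B ⧸ 𝔪) := Ideal.Quotient.isDomain 𝔪
  haveI : IsDomain (R ⊗[k] (B ⧸ 𝔪)) := helper7973.isDomain_tensorProduct k R (B ⧸ 𝔪)
  have hsurj : Function.Surjective (Ideal.Quotient.mkₐ k 𝔪) := Ideal.Quotient.mkₐ_surjective k 𝔪
  have hker := Algebra.TensorProduct.lTensor_ker (R := k) (A := R) (Ideal.Quotient.mkₐ k 𝔪) hsurj
  have h1 : RingHom.ker (Ideal.Quotient.mkₐ k 𝔪) = 𝔪 := Ideal.Quotient.mkₐ_ker k 𝔪
  rw [h1] at hker
  have h2 : 𝔪.map (algebraMap B (R ⊗[k] B))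
      = RingHom.ker (Algebra.TensorProduct.map (AlgHom.id k R) (Ideal.Quotient.mkₐ k 𝔪)) := by
    rw [hker]
    rfl
  rw [h2]
  exact RingHom.ker_isPrime _

end Rings

section Glue

variable {k : Type u} [Field k] {D : CurveDatum k} {B : Type u} [CommRing B] [Algebra k B]

variable (D B) in
/-- The first chart ring of `C ×ₖ Spec B` is a finitely presented `B`-algebra. -/
theorem finitePresentation_A₀ : Algebra.FinitePresentation B (D.A₀ B) :=
  haveI := helper1800.finiteType₀ D
  finitePresentation_tensor_right B D.R₀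

variable (D B) in
/-- The second chart ring of `C ×ₖ Spec B` is a finitely presented `B`-algebra. -/
theorem finitePresentation_A₁ : Algebra.FinitePresentation B (D.A₁ B) :=
  haveI := helper1800.finiteType₁ D
  finitePresentation_tensor_right B D.R₁

/-- A section of a two-chart line bundle which is nonzero on every closed fibre of `Spec B` is
fibrewise injective as a map `D.A₀ B → G.M₀` (`k` algebraically closed). -/
theorem fibInj_toSpanSingleton_of_notMem [IsAlgClosed k] (G : GlueDatum D B) (s₀ : G.M₀)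
    (hfib : ∀ 𝔪 : Ideal B, 𝔪.IsMaximal → s₀ ∉ 𝔪 • (⊤ : Submodule B G.M₀)) :
    FibInj ((LinearMap.toSpanSingleton (D.A₀ B) G.M₀ s₀).restrictScalars B) := by
  intro 𝔪 h𝔪 a ha
  haveI := h𝔪
  haveI : (𝔪.map (algebraMap B (D.A₀ B))).IsPrime := isPrime_map_algebraMap_tensor B D.R₀ 𝔪
  have ha' : a • s₀ ∈ (𝔪.map (algebraMap B (D.A₀ B))) • (⊤ : Submodule (D.A₀ B) G.M₀) :=
    (mem_smul_top_iff_mem_map_smul_top 𝔪 _).mp ha
  have hs' : s₀ ∉ (𝔪.map (algebraMap B (D.A₀ B))) • (⊤ : Submodule (D.A₀ B) G.M₀) :=
    fun h => hfib 𝔪 h𝔪 ((mem_smul_top_iff_mem_map_smul_top 𝔪 _).mpr h)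
  have h1 : a ∈ 𝔪.map (algebraMap B (D.A₀ B)) :=
    mem_of_smul_mem_smul_top_of_isPrime _ hs' ha'
  rw [mem_smul_top_iff_mem_map_smul_top (A := D.A₀ B), smul_eq_mul, Ideal.mul_top]
  exact h1

/-- (RED), GlueDatum form: the divisor of a section generating `G.M₁` modulo `y` and nonzero on
every closed fibre is finite projective over `B`, and the section is a nonzerodivisor on the
first chart. -/
theorem relDivisor_finite_projective [IsAlgClosed k] (G : GlueDatum D B) (s₀ : G.M₀) (s₁ : G.M₁)
    (hs : G.ρ₀ s₀ = G.ρ₁ s₁)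
    (hgen : ∀ m : G.M₁, ∃ (a : D.A₁ B) (m' : G.M₁), m = a • s₁ + yB D B • m')
    (hfib : ∀ 𝔪 : Ideal B, 𝔪.IsMaximal → s₀ ∉ 𝔪 • (⊤ : Submodule B G.M₀)) :
    Function.Injective (fun a : D.A₀ B => a • s₀) ∧
      Module.Finite B (G.M₀ ⧸ Submodule.span (D.A₀ B) {s₀}) ∧
      Module.Projective B (G.M₀ ⧸ Submodule.span (D.A₀ B) {s₀}) := by
  haveI : Algebra.FinitePresentation B (D.A₀ B) := finitePresentation_A₀ D B
  haveI : Module.Free B (D.A₀ B) := helper9607.free_A₀ D B
  haveI : Module.Projective B G.M₀ := helper9607.projective_M₀ G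
  haveI : Module.FinitePresentation (D.A₀ B) G.M₀ := Module.finitePresentation_of_projective _ _
  exact finite_projective_quotient_span_singleton (xB D B) (yB D B) (xB_mul_yB D B) G.ρ₀ G.ρ₁
    (helper6786.CurveBase.finite_aeval_xB D B) (helper6786.CurveBase.finite_aeval_yB D B)
    s₀ s₁ hs hgen (fibInj_toSpanSingleton_of_notMem G s₀ hfib)

/-- (RED1), GlueDatum form: a section generating `G.M₁` modulo `y` is killed modulo `s₀` by a
monic polynomial in `x`: the divisor of `s` is finite over `Spec B` and lies in the first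
chart. (No hypothesis on `k`, no fibre condition.) -/
theorem relDivisor_exists_monic (G : GlueDatum D B) (s₀ : G.M₀) (s₁ : G.M₁)
    (hs : G.ρ₀ s₀ = G.ρ₁ s₁)
    (hgen : ∀ m : G.M₁, ∃ (a : D.A₁ B) (m' : G.M₁), m = a • s₁ + yB D B • m') :
    ∃ P : B[X], P.Monic ∧ ∀ m : G.M₀, ∃ a : D.A₀ B, aeval (xB D B) P • m = a • s₀ :=
  exists_monic_smul_mem_span (xB D B) (yB D B) (xB_mul_yB D B) G.ρ₀ G.ρ₁
    (helper6786.CurveBase.finite_aeval_yB D B) s₀ s₁ hs hgen

/-- (RED1), GlueDatum form, chart at infinity: some `u ∈ B[X]` with `u(0) = 1` satisfies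
`u(y) G.M₁ ⊆ (D.A₁ B) s₁` (the divisor of `s` does not meet `V(y)`). -/
theorem relDivisor_exists_poly_at_infinity (G : GlueDatum D B) (s₁ : G.M₁)
    (hgen : ∀ m : G.M₁, ∃ (a : D.A₁ B) (m' : G.M₁), m = a • s₁ + yB D B • m') :
    ∃ u : B[X], u.coeff 0 = 1 ∧ ∀ m : G.M₁, ∃ a : D.A₁ B, aeval (yB D B) u • m = a • s₁ :=
  exists_poly_kill_at_infinity (yB D B) (helper6786.CurveBase.finite_aeval_yB D B) s₁ hgen

/-- (RED1), GlueDatum form: the divisor of a section generating `G.M₁` modulo `y` is a finite
`B`-module. (No hypothesis on `k`, no fibre condition.) -/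
theorem relDivisor_finite (G : GlueDatum D B) (s₀ : G.M₀) (s₁ : G.M₁)
    (hs : G.ρ₀ s₀ = G.ρ₁ s₁)
    (hgen : ∀ m : G.M₁, ∃ (a : D.A₁ B) (m' : G.M₁), m = a • s₁ + yB D B • m') :
    Module.Finite B (G.M₀ ⧸ Submodule.span (D.A₀ B) {s₀}) :=
  finite_quotient_span_singleton (xB D B) (yB D B) (xB_mul_yB D B) G.ρ₀ G.ρ₁
    (helper6786.CurveBase.finite_aeval_xB D B) (helper6786.CurveBase.finite_aeval_yB D B)
    s₀ s₁ hs hgen

end Glue

end Fermat.Agent.S25.helper1567
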