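/-
helper1613 — S25 algebra bricks (Mathlib only).

G1  `isDomain_tensorProduct_of_isAlgClosed` : over an algebraically closed field `k`,
    the tensor product of two `k`-algebras that are domains is a domain.
-/
import Mathlib

set_option autoImplicit false

namespace Fermat.Agent.S25.helper1613

open TensorProduct

section Nullstellensatz

variable (k : Type*) [Field k] [IsAlgClosed k]

/-- Nullstellensatz: the residue field of a finitely generated algebra over an algebraically
closed field at a maximal ideal is the base field. -/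
theorem bijective_algebraMap_quotient_of_isAlgClosed (A : Type*) [CommRing A] [Algebra k A]
    [Algebra.FiniteType k A] (m : Ideal A) [m.IsMaximal] :
    Function.Bijective (algebraMap k (A ⧸ m)) := by
  let _ := Ideal.Quotient.field m
  have : Algebra.FiniteType k (A ⧸ m) :=
    Algebra.FiniteType.of_surjective (Ideal.Quotient.mkₐ k m) (Ideal.Quotient.mkₐ_surjective k m)
  have := finite_of_finite_type_of_isJacobsonRing k (A ⧸ m)
  have : Algebra.IsIntegral k (A ⧸ m) := inferInstance
  exact IsAlgClosed.algebraMap_bijective_of_isIntegral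

/-- The `k`-point of a finitely generated `k`-algebra attached to a maximal ideal. -/
noncomputable def pointOfMaximal (A : Type*) [CommRing A] [Algebra k A]
    [Algebra.FiniteType k A] (m : Ideal A) [m.IsMaximal] : A →ₐ[k] k :=
  ((AlgEquiv.ofBijective (Algebra.ofId k (A ⧸ m))
    (bijective_algebraMap_quotient_of_isAlgClosed k A m)).symm : (A ⧸ m) →ₐ[k] k).comp
    (Ideal.Quotient.mkₐ k m)

theorem pointOfMaximal_eq_zero_iff (A : Type*) [CommRing A] [Algebra k A]
    [Algebra.FiniteType k A] (m : Ideal A) [m.IsMaximal] (a : A) :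
    pointOfMaximal k A m a = 0 ↔ a ∈ m := by
  unfold pointOfMaximal
  rw [AlgHom.comp_apply, AlgEquiv.coe_toAlgHom, map_eq_zero_iff _ (AlgEquiv.injective _),
    Ideal.Quotient.mkₐ_eq_mk, Ideal.Quotient.eq_zero_iff_mem]

end Nullstellensatz

section Domain

variable {k : Type*} [Field k] [IsAlgClosed k]
variable {A B : Type*} [CommRing A] [Algebra k A] [CommRing B] [Algebra k B]

/-- Specialisation of `A ⊗[k] B` at a `k`-point of `A`. -/
noncomputable def specialize (χ : A →ₐ[k] k) : A ⊗[k] B →ₐ[k] B :=
  Algebra.TensorProduct.lift ((Algebra.ofId k B).comp χ) (AlgHom.id k B)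
    (fun _ _ => Commute.all _ _)

omit [IsAlgClosed k] in
@[simp]
theorem specialize_tmul (χ : A →ₐ[k] k) (a : A) (b : B) :
    specialize χ (a ⊗ₜ[k] b) = χ a • b := by
  simp [specialize, Algebra.ofId_apply, Algebra.smul_def]

omit [IsAlgClosed k] in
theorem specialize_eq_sum {κ : Type*} [DecidableEq κ] (𝒞 : Module.Basis κ k B) (χ : A →ₐ[k] k) (z : A ⊗[k] B) :
    specialize χ z =
      (TensorProduct.equivFinsuppOfBasisRight 𝒞 z).sum (fun i a => χ a • 𝒞 i) := by
  induction z using TensorProduct.induction_on with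
  | zero => simp
  | tmul a b =>
    rw [specialize_tmul, TensorProduct.equivFinsuppOfBasisRight_apply_tmul,
      Finsupp.sum_mapRange_index (by simp)]
    conv_lhs => rw [← 𝒞.linearCombination_repr b]
    rw [Finsupp.linearCombination_apply, Finsupp.smul_sum]
    refine Finsupp.sum_congr fun i _ => ?_
    rw [map_smul, smul_eq_mul, mul_comm, mul_smul]
  | add x y hx hy =>
    rw [map_add, map_add, hx, hy, Finsupp.sum_add_index' (by simp)]
    intro i a b
    rw [map_add, add_smul]

omit [IsAlgClosed k] in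
theorem specialize_eq_zero_iff {κ : Type*} [DecidableEq κ] (𝒞 : Module.Basis κ k B) (χ : A →ₐ[k] k)
    (z : A ⊗[k] B) :
    specialize χ z = 0 ↔ ∀ i, χ (TensorProduct.equivFinsuppOfBasisRight 𝒞 z i) = 0 := by
  rw [specialize_eq_sum 𝒞]
  set f := TensorProduct.equivFinsuppOfBasisRight 𝒞 z with hf
  have key : f.sum (fun i a => χ a • 𝒞 i) =
      Finsupp.linearCombination k 𝒞 (f.mapRange χ (map_zero χ)) := by
    rw [Finsupp.linearCombination_apply, Finsupp.sum_mapRange_index (by simp)]
  rw [key]
  constructor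
  · intro h i
    have h0 := (Module.Basis.linearIndependent 𝒞)
    rw [linearIndependent_iff] at h0
    have := h0 _ h
    have hi := DFunLike.congr_fun this i
    simpa using hi
  · intro h
    have : f.mapRange χ (map_zero χ) = 0 := by
      ext i
      simpa using h i
    rw [this, map_zero]

/-- G1, finite type case. -/
theorem mul_eq_zero_of_finiteType [Algebra.FiniteType k A] [IsDomain A] [IsDomain B]
    (x y : A ⊗[k] B) (hxy : x * y = 0) : x = 0 ∨ y = 0 := by
  classical
  let 𝒞 := Module.Basis.ofVectorSpace k B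
  let e := TensorProduct.equivFinsuppOfBasisRight (M := A) 𝒞
  have : IsJacobsonRing A := isJacobsonRing_of_finiteType (A := k)
  have hprod : ∀ i j, e x i * e y j = 0 := by
    intro i j
    have hjac : (⊥ : Ideal A).jacobson = ⊥ :=
      IsJacobsonRing.out inferInstance Ideal.isRadical_bot
    have hmem : e x i * e y j ∈ (⊥ : Ideal A).jacobson := by
      rw [Ideal.jacobson, Ideal.mem_sInf]
      rintro m ⟨-, hm⟩
      have := hm
      have h1 : specialize (B := B) (pointOfMaximal k A m) x *
          specialize (pointOfMaximal k A m) y = 0 := by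
        rw [← map_mul, hxy, map_zero]
      rcases mul_eq_zero.mp h1 with h | h
      · rw [specialize_eq_zero_iff 𝒞] at h
        exact m.mul_mem_right _ ((pointOfMaximal_eq_zero_iff k A m _).mp (h i))
      · rw [specialize_eq_zero_iff 𝒞] at h
        exact m.mul_mem_left _ ((pointOfMaximal_eq_zero_iff k A m _).mp (h j))
    rw [hjac] at hmem
    simpa using hmem
  by_cases hx : x = 0
  · exact Or.inl hx
  · right
    have hex : e x ≠ 0 := fun h => hx (by simpa using h)
    obtain ⟨i, hi⟩ : ∃ i, e x i ≠ 0 := by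
      by_contra hcon
      push Not at hcon
      exact hex (Finsupp.ext hcon)
    have hey : e y = 0 := by
      ext j
      rcases mul_eq_zero.mp (hprod i j) with h | h
      · exact absurd h hi
      · simpa using h
    simpa using hey

/-- G1: over an algebraically closed field, a product in `A ⊗[k] B` of two domains vanishes
only if a factor does. -/
theorem mul_eq_zero_tensorProduct [IsDomain A] [IsDomain B]
    (x y : A ⊗[k] B) (hxy : x * y = 0) : x = 0 ∨ y = 0 := by
  classical
  let 𝒞 := Module.Basis.ofVectorSpace k B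
  let e := TensorProduct.equivFinsuppOfBasisRight (M := A) 𝒞
  let s : Finset A := (e x).support.image (e x) ∪ (e y).support.image (e y)
  let A' : Subalgebra k A := Algebra.adjoin k (s : Set A)
  have : Algebra.FiniteType k A' :=
    ⟨(Subalgebra.fg_top A').mpr (Subalgebra.fg_adjoin_finset s)⟩
  let ι : A' ⊗[k] B →ₐ[k] A ⊗[k] B := Algebra.TensorProduct.map A'.val (AlgHom.id k B)
  have hι : Function.Injective ι :=
    Module.Flat.rTensor_preserves_injective_linearMap (M := B) A'.val.toLinearMap
      Subtype.val_injective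
  have hmem : ∀ z, (∀ i, e z i ∈ A') → ∃ z', ι z' = z := by
    intro z hz
    refine ⟨(e z).sum (fun i a => if h : a ∈ A' then (⟨a, h⟩ : A') ⊗ₜ[k] 𝒞 i else 0), ?_⟩
    rw [Finsupp.sum, map_sum]
    have hz' : z = e.symm (e z) := (e.symm_apply_apply z).symm
    conv_rhs => rw [hz', TensorProduct.equivFinsuppOfBasisRight_symm_apply, Finsupp.sum]
    refine Finset.sum_congr rfl fun i _ => ?_
    rw [dif_pos (hz i)]
    simp [ι]
  have hx' : ∀ i, e x i ∈ A' := by
    intro i
    by_cases h : e x i = 0
    · rw [h]; exact zero_mem _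
    · refine Algebra.subset_adjoin ?_
      simp only [s, Finset.coe_union, Finset.coe_image, Set.mem_union, Set.mem_image,
        Finset.mem_coe, Finsupp.mem_support_iff]
      exact Or.inl ⟨i, h, rfl⟩
  have hy' : ∀ i, e y i ∈ A' := by
    intro i
    by_cases h : e y i = 0
    · rw [h]; exact zero_mem _
    · refine Algebra.subset_adjoin ?_
      simp only [s, Finset.coe_union, Finset.coe_image, Set.mem_union, Set.mem_image,
        Finset.mem_coe, Finsupp.mem_support_iff]
      exact Or.inr ⟨i, h, rfl⟩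
  obtain ⟨x', hx''⟩ := hmem x hx'
  obtain ⟨y', hy''⟩ := hmem y hy'
  have h0 : x' * y' = 0 := by
    apply hι
    rw [map_mul, hx'', hy'', hxy, map_zero]
  rcases mul_eq_zero_of_finiteType x' y' h0 with h | h
  · left; rw [← hx'', h, map_zero]
  · right; rw [← hy'', h, map_zero]

/-- G1: over an algebraically closed field `k`, the tensor product of two `k`-algebras that
are domains is a domain. -/
theorem isDomain_tensorProduct_of_isAlgClosed [IsDomain A] [IsDomain B] :
    IsDomain (A ⊗[k] B) := by
  have : Nontrivial (A ⊗[k] B) :=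
    Algebra.TensorProduct.nontrivial_of_algebraMap_injective_of_isDomain k A B
      (algebraMap k A).injective (algebraMap k B).injective
  have : NoZeroDivisors (A ⊗[k] B) := ⟨fun {x y} h => mul_eq_zero_tensorProduct x y h⟩
  exact NoZeroDivisors.to_isDomain _

end Domain

section LocallyPrincipal

/-- An ideal of a domain that is locally (around every maximal ideal) contained, up to a
multiplier, in a principal subideal is finitely generated and projective. -/
theorem finite_projective_of_locally_principal {S : Type*} [CommRing S] [IsDomain S]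
    (I : Ideal S)
    (h : ∀ 𝔮 : Ideal S, 𝔮.IsMaximal → ∃ f, f ∉ 𝔮 ∧ ∃ t ∈ I, ∀ a ∈ I, f * a ∈ Ideal.span {t}) :
    Module.Finite S I ∧ Module.Projective S I := by
  classical
  by_cases hI : I = ⊥
  · subst hI
    exact ⟨inferInstance, Module.Projective.of_free⟩
  obtain ⟨a0, ha0I, ha0⟩ : ∃ a0 ∈ I, a0 ≠ 0 := Submodule.exists_mem_ne_zero_of_ne_bot hI
  let F : Set S := {f | f ≠ 0 ∧ ∃ t ∈ I, ∀ a ∈ I, f * a ∈ Ideal.span {t}}
  have hF : Ideal.span F = ⊤ := by
    by_contra hne
    obtain ⟨𝔮, h𝔮, hle⟩ := Ideal.exists_le_maximal _ hne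
    obtain ⟨f, hf, t, ht, hft⟩ := h 𝔮 h𝔮
    exact hf (hle (Ideal.subset_span ⟨fun h0 => hf (h0 ▸ 𝔮.zero_mem), t, ht, hft⟩))
  obtain ⟨s', hs', hs'top⟩ := (Ideal.span_eq_top_iff_finite F).mp hF
  have h1 : (1 : S) ∈ Ideal.span (s' : Set S) := by rw [hs'top]; trivial
  obtain ⟨c, hc⟩ := Submodule.mem_span_finset'.mp h1
  have hex : ∀ f : s', ∃ t, t ∈ I ∧ t ≠ 0 ∧ ∀ a : I, ∃ b : S, b * t = (f : S) * a := by
    intro f
    obtain ⟨hf0, t, htI, hft⟩ := hs' f.2
    refine ⟨t, htI, ?_, fun a => ?_⟩
    · rintro rfl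
      have := hft a0 ha0I
      rw [Ideal.span_singleton_eq_bot.mpr rfl, Ideal.mem_bot] at this
      exact (mul_ne_zero hf0 ha0) this
    · obtain ⟨b, hb⟩ := Ideal.mem_span_singleton'.mp (hft a a.2)
      exact ⟨b, hb⟩
  choose t htI ht0 hφ using hex
  choose φ hφ using hφ
  let φL : s' → (I →ₗ[S] S) := fun f =>
    { toFun := φ f
      map_add' := fun a b => by
        apply mul_right_cancel₀ (ht0 f)
        rw [add_mul, hφ, hφ, hφ, Submodule.coe_add, mul_add]
      map_smul' := fun r a => by
        apply mul_right_cancel₀ (ht0 f)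
        rw [RingHom.id_apply, smul_eq_mul, mul_assoc, hφ, hφ, Submodule.coe_smul, smul_eq_mul]
        ring }
  let i : I →ₗ[S] (s' → S) := LinearMap.pi fun f => c f • φL f
  let σ : (s' → S) →ₗ[S] I :=
    (Fintype.linearCombination S (fun f : s' => (⟨t f, htI f⟩ : I)))
  have hσi : σ.comp i = LinearMap.id := by
    ext a
    simp only [LinearMap.coe_comp, Function.comp_apply, LinearMap.id_coe, id_eq, σ, i,
      Fintype.linearCombination_apply, LinearMap.pi_apply, LinearMap.smul_apply]
    rw [Submodule.coe_sum]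
    simp only [Submodule.coe_smul, smul_eq_mul]
    have hsum : ∑ f : s', c f * φL f a * t f = ∑ f : s', (c f • (f : S)) * a := by
      refine Finset.sum_congr rfl fun f _ => ?_
      change c f * φ f a * t f = _
      rw [mul_assoc, hφ, smul_eq_mul, mul_assoc]
    rw [hsum, ← Finset.sum_mul, hc, one_mul]
  refine ⟨?_, Module.Projective.of_split i σ hσi⟩
  refine Module.Finite.of_surjective σ fun a => ⟨i a, ?_⟩
  exact LinearMap.congr_fun hσi a

end LocallyPrincipal

section Diagonal

variable (k : Type*) [Field k] [IsAlgClosed k]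
variable (R : Type*) [CommRing R] [Algebra k R]

omit [IsAlgClosed k] in
/-- Elements of the diagonal ideal act as zero on the module of differentials. -/
theorem smul_kaehler_eq_zero_of_mem (x : R ⊗[k] R) (hx : x ∈ KaehlerDifferential.ideal k R)
    (ω : Ω[R⁄k]) : x • ω = 0 := by
  obtain ⟨b, rfl⟩ := KaehlerDifferential.fromIdeal_surjective k R ω
  rw [← map_smul]
  change (KaehlerDifferential.ideal k R).toCotangent (x • b) = 0
  rw [Ideal.toCotangent_eq_zero, pow_two]
  exact Ideal.mul_mem_mul hx b.2

/-- G2: for a finitely generated domain `R` over an algebraically closed field `k` whose module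
of differentials is generated by one element modulo every maximal ideal (e.g. `R` smooth of
relative dimension one), the diagonal ideal of `R ⊗[k] R` is finitely generated projective. -/
theorem diagonal_ideal_finite_projective [Algebra.FiniteType k R] [IsDomain R]
    (hΩ : ∀ m : Ideal R, m.IsMaximal →
      ∃ ω : Ω[R⁄k], Submodule.span R {ω} ⊔ m • (⊤ : Submodule R Ω[R⁄k]) = ⊤) :
    Module.Finite (R ⊗[k] R) (KaehlerDifferential.ideal k R) ∧
      Module.Projective (R ⊗[k] R) (KaehlerDifferential.ideal k R) := by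
  have : IsDomain (R ⊗[k] R) := isDomain_tensorProduct_of_isAlgClosed
  set I := KaehlerDifferential.ideal k R with hIdef
  have hIfg : I.FG := KaehlerDifferential.ideal_fg k R
  let μ : R ⊗[k] R →ₐ[k] R := Algebra.TensorProduct.lmul' k
  have hμ : Function.Surjective μ := fun r => ⟨r ⊗ₜ 1, by simp [μ]⟩
  apply finite_projective_of_locally_principal
  intro 𝔮 h𝔮
  by_cases hle : I ≤ 𝔮
  · -- the interesting case: `𝔮` lies on the diagonal
    have hm : (𝔮.map μ).IsMaximal :=
      Ideal.IsMaximal.map_of_surjective_of_ker_le hμ hle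
    obtain ⟨ω, hω⟩ := hΩ _ hm
    obtain ⟨t, rfl⟩ := KaehlerDifferential.fromIdeal_surjective k R ω
    -- every element of `I` lies in `(t) + 𝔮 I`
    have key : ∀ a ∈ I, a ∈ Ideal.span {(t : R ⊗[k] R)} ⊔ 𝔮 * I := by
      intro a ha
      have hmemtop : KaehlerDifferential.fromIdeal k R ⟨a, ha⟩ ∈
          Submodule.span R {KaehlerDifferential.fromIdeal k R t} ⊔
            (𝔮.map μ) • (⊤ : Submodule R Ω[R⁄k]) := by rw [hω]; trivial
      obtain ⟨y, hy, z, hz, hyz⟩ := Submodule.mem_sup.mp hmemtop
      obtain ⟨r, rfl⟩ := Submodule.mem_span_singleton.mp hy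
      -- lift `z`
      have hzlift : ∃ b : I, (b : R ⊗[k] R) ∈ 𝔮 * I ∧ KaehlerDifferential.fromIdeal k R b = z := by
        refine Submodule.smul_induction_on hz ?_ ?_
        · intro x hx ω' _
          obtain ⟨q, hq, rfl⟩ := (Ideal.mem_map_iff_of_surjective μ hμ).mp hx
          obtain ⟨b, rfl⟩ := KaehlerDifferential.fromIdeal_surjective k R ω'
          refine ⟨q • b, Ideal.mul_mem_mul hq b.2, ?_⟩
          rw [map_smul]
          have h1 : μ q • KaehlerDifferential.fromIdeal k R b =
              (μ q ⊗ₜ[k] (1 : R)) • KaehlerDifferential.fromIdeal k R b := by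
            rw [← algebraMap_smul (R ⊗[k] R) (μ q) (KaehlerDifferential.fromIdeal k R b)]
            rfl
          rw [h1, ← sub_eq_zero, ← sub_smul]
          apply smul_kaehler_eq_zero_of_mem
          rw [RingHom.mem_ker, map_sub]
          simp [μ]
        · rintro _ _ ⟨b1, hb1, rfl⟩ ⟨b2, hb2, rfl⟩
          exact ⟨b1 + b2, Ideal.add_mem _ hb1 hb2, map_add _ _ _⟩
      obtain ⟨b, hb𝔮, rfl⟩ := hzlift
      have h2 : r • KaehlerDifferential.fromIdeal k R t =
          KaehlerDifferential.fromIdeal k R ((r ⊗ₜ[k] (1 : R)) • t) := by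
        rw [map_smul, ← algebraMap_smul (R ⊗[k] R) r (KaehlerDifferential.fromIdeal k R t)]
        rfl
      rw [h2, ← map_add] at hyz
      have h3 : ((r ⊗ₜ[k] (1 : R)) • t + b - ⟨a, ha⟩ : I).1 ∈ I ^ 2 := by
        have := (Ideal.toCotangent_eq (I := I)).mp hyz
        simpa using this
      have h4 : I ^ 2 ≤ 𝔮 * I := by
        rw [pow_two]; exact Ideal.mul_mono_left hle
      have h5 := h4 h3
      have ha_eq : a = (r ⊗ₜ[k] (1 : R)) * (t : R ⊗[k] R) + b -
          (((r ⊗ₜ[k] (1 : R)) • t + b - ⟨a, ha⟩ : I) : R ⊗[k] R) := by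
        simp
      rw [ha_eq]
      refine Ideal.sub_mem _ (Ideal.add_mem _ ?_ ?_) ?_
      · exact Ideal.mem_sup_left (Ideal.mul_mem_left _ _ (Ideal.mem_span_singleton_self _))
      · exact Ideal.mem_sup_right hb𝔮
      · exact Ideal.mem_sup_right h5
    -- Nakayama
    let T : Ideal (R ⊗[k] R) := Ideal.span {(t : R ⊗[k] R)}
    let N : Submodule (R ⊗[k] R) ((R ⊗[k] R) ⧸ T) := Submodule.map (Submodule.mkQ T) I
    have hNfg : N.FG := Submodule.FG.map _ hIfg
    have hN : N ≤ 𝔮 • N := by
      rintro _ ⟨a, ha, rfl⟩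
      obtain ⟨u, hu, v, hv, rfl⟩ := Submodule.mem_sup.mp (key a ha)
      rw [map_add]
      have hu0 : Submodule.mkQ T u = 0 := by
        rw [Submodule.mkQ_apply, Submodule.Quotient.mk_eq_zero]; exact hu
      rw [hu0, zero_add]
      have : Submodule.mkQ T v ∈ Submodule.map (Submodule.mkQ T) (𝔮 • (I : Submodule _ _)) :=
        ⟨v, hv, rfl⟩
      rwa [Submodule.map_smul''] at this
    obtain ⟨r, hr1, hr⟩ :=
      Submodule.exists_sub_one_mem_and_smul_eq_zero_of_fg_of_le_smul 𝔮 N hNfg hN
    refine ⟨r, fun hr𝔮 => ?_, t, t.2, fun a ha => ?_⟩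
    · have h1 : (1 : R ⊗[k] R) ∈ 𝔮 := by
        have := 𝔮.sub_mem hr𝔮 hr1
        simpa using this
      exact h𝔮.ne_top ((Ideal.eq_top_iff_one _).mpr h1)
    · have := hr (Submodule.mkQ T a) ⟨a, ha, rfl⟩
      rw [← map_smul, Submodule.mkQ_apply, Submodule.Quotient.mk_eq_zero] at this
      exact this
  · obtain ⟨f, hfI, hf𝔮⟩ := SetLike.not_le_iff_exists.mp hle
    exact ⟨f, hf𝔮, f, hfI, fun a _ => Ideal.mem_span_singleton'.mpr ⟨a, mul_comm _ _⟩⟩

end Diagonal

end Fermat.Agent.S25.helper1613
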