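/-
helper1613 — S25 algebra brick G3 (Mathlib only): "divisor ideals are projective".

Setting: `k` a commutative ring, `R` a `k`-algebra whose diagonal ideal
`KaehlerDifferential.ideal k R = ker (R ⊗[k] R → R)` is a finitely generated projective
`R ⊗[k] R`-module (e.g. the coordinate ring of a smooth affine curve), `B` any `k`-algebra and
`A` "the" base change of `R` to `B` (`Algebra.IsPushout k B R A`, e.g. `A = R ⊗[k] B`).
If `Q` is an `A`-module that is finitely generated projective over `B`, then the kernel of any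
surjection from a finitely generated projective `A`-module onto `Q` is finitely generated
projective over `A`.  In particular an ideal `I` of `A` with `A ⧸ I` finite projective over `B`
is a finitely generated projective `A`-module.
-/
import Mathlib

set_option autoImplicit false

namespace Fermat.Agent.S25.helper1613

open TensorProduct

section Divisor

variable {k R B A : Type*} [CommRing k] [CommRing R] [CommRing B] [CommRing A]
  [Algebra k R] [Algebra k B] [Algebra k A] [Algebra R A] [Algebra B A]
  [IsScalarTower k R A] [IsScalarTower k B A]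
variable {Q : Type*} [AddCommGroup Q] [Module A Q] [Module B Q] [IsScalarTower B A Q]

variable (B A Q) in
/-- Multiplication by `a` on the second factor of `A ⊗[B] Q`. -/
noncomputable def actSnd : A →ₐ[B] Module.End A (A ⊗[B] Q) :=
  (Module.End.baseChangeHom B A Q).comp (Algebra.lsmul B B Q)

@[simp]
theorem actSnd_tmul (a a' : A) (q : Q) :
    actSnd B A Q a (a' ⊗ₜ[B] q) = a' ⊗ₜ[B] (a • q) := by
  change (LinearMap.baseChange A (Algebra.lsmul B B Q a)) (a' ⊗ₜ[B] q) = _
  rw [LinearMap.baseChange_tmul]
  rfl

variable (k R B A Q) in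
/-- The action of `R ⊗[k] R` on `A ⊗[B] Q`: `(r ⊗ r') • (a ⊗ q) = (r a) ⊗ (r' q)`. -/
noncomputable def diagAct : R ⊗[k] R →ₐ[k] Module.End A (A ⊗[B] Q) :=
  Algebra.TensorProduct.lift
    (((Algebra.ofId A (Module.End A (A ⊗[B] Q))).restrictScalars k).comp
      (IsScalarTower.toAlgHom k R A))
    ({ toRingHom := (actSnd B A Q).toRingHom.comp (algebraMap R A)
       commutes' := fun c => by
        apply TensorProduct.AlgebraTensorModule.ext
        intro a q
        simp only [AlgHom.toRingHom_eq_coe, RingHom.toMonoidHom_eq_coe,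
          OneHom.toFun_eq_coe, MonoidHom.toOneHom_coe, MonoidHom.coe_coe, RingHom.coe_comp,
          RingHom.coe_coe, Function.comp_apply, actSnd_tmul]
        rw [← IsScalarTower.algebraMap_apply k R A, IsScalarTower.algebraMap_apply k B A,
          algebraMap_smul, Module.algebraMap_end_apply, TensorProduct.tmul_smul,
          ← algebraMap_smul B c (a ⊗ₜ[B] q)]
          } : R →ₐ[k] Module.End A (A ⊗[B] Q))
    (fun r r' => by
      apply TensorProduct.AlgebraTensorModule.ext
      intro a q
      simp [Module.algebraMap_end_apply, TensorProduct.smul_tmul'])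

@[simp]
theorem diagAct_tmul (r r' : R) (a : A) (q : Q) :
    diagAct k R B A Q (r ⊗ₜ[k] r') (a ⊗ₜ[B] q) =
      (algebraMap R A r * a) ⊗ₜ[B] (algebraMap R A r' • q) := by
  simp [diagAct, Module.algebraMap_end_apply, TensorProduct.smul_tmul', Algebra.smul_def]

variable (B A Q) in
/-- The multiplication map `A ⊗[B] Q → Q`. -/
noncomputable def mulMap : A ⊗[B] Q →ₗ[A] Q :=
  LinearMap.liftBaseChange A (LinearMap.id : Q →ₗ[B] Q)

@[simp]
theorem mulMap_tmul (a : A) (q : Q) : mulMap B A Q (a ⊗ₜ[B] q) = a • q := by
  simp [mulMap]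

theorem mulMap_surjective : Function.Surjective (mulMap B A Q) := fun q =>
  ⟨1 ⊗ₜ[B] q, by simp⟩

theorem mulMap_diagAct (x : R ⊗[k] R) (p : A ⊗[B] Q) :
    mulMap B A Q (diagAct k R B A Q x p) =
      algebraMap R A (Algebra.TensorProduct.lmul' k x) • mulMap B A Q p := by
  induction x using TensorProduct.induction_on with
  | zero => simp
  | tmul r r' =>
    induction p using TensorProduct.induction_on with
    | zero => simp
    | tmul a q =>
      simp only [diagAct_tmul, mulMap_tmul, Algebra.TensorProduct.lmul'_apply_tmul, map_mul]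
      rw [smul_smul, smul_smul]
      congr 1
      ring
    | add p₁ p₂ h₁ h₂ => simp only [map_add, h₁, h₂, smul_add]
  | add x y hx hy => simp only [map_add, LinearMap.add_apply, hx, hy, add_smul]

theorem mulMap_diagAct_of_mem (x : R ⊗[k] R) (hx : x ∈ KaehlerDifferential.ideal k R)
    (p : A ⊗[B] Q) : mulMap B A Q (diagAct k R B A Q x p) = 0 := by
  rw [mulMap_diagAct, RingHom.mem_ker.mp hx, map_zero, zero_smul]

variable (k R) in
/-- `r ↦ r ⊗ 1 - 1 ⊗ r`, as a `k`-linear map into the diagonal ideal. -/
noncomputable def diagD : R →ₗ[k] KaehlerDifferential.ideal k R where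
  toFun r := ⟨r ⊗ₜ[k] 1 - 1 ⊗ₜ[k] r, by simp [RingHom.mem_ker]⟩
  map_add' r r' := by
    apply Subtype.ext
    simp [TensorProduct.add_tmul, TensorProduct.tmul_add]
    abel
  map_smul' c r := by
    apply Subtype.ext
    simp [TensorProduct.smul_tmul', smul_sub]

@[simp]
theorem diagD_coe (r : R) : (diagD k R r : R ⊗[k] R) = r ⊗ₜ[k] 1 - 1 ⊗ₜ[k] r := rfl

theorem diagD_mul (r' r : R) :
    diagD k R (r' * r) = (r' ⊗ₜ[k] (1 : R)) • diagD k R r + ((1 : R) ⊗ₜ[k] r) • diagD k R r' := by
  apply Subtype.ext
  simp only [diagD_coe, Submodule.coe_add, Submodule.coe_smul, smul_eq_mul, mul_sub,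
    Algebra.TensorProduct.tmul_mul_tmul, mul_one, one_mul]
  rw [mul_comm r' r]
  abel

section Core

variable [Algebra.IsPushout k B R A]
variable {n : ℕ} (x : Fin n → R ⊗[k] R)
  (φ : Fin n → (KaehlerDifferential.ideal k R →ₗ[R ⊗[k] R] R ⊗[k] R))

/-- The coefficient maps `r ↦ φ j (d r)`. -/
noncomputable def coeffMap (j : Fin n) : R →ₗ[k] R ⊗[k] R :=
  ((φ j).restrictScalars k).comp (diagD k R)

theorem coeffMap_mul (j : Fin n) (r' r : R) :
    coeffMap φ j (r' * r) =
      (r' ⊗ₜ[k] (1 : R)) * coeffMap φ j r + coeffMap φ j r' * ((1 : R) ⊗ₜ[k] r) := by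
  simp only [coeffMap, LinearMap.coe_comp, LinearMap.coe_restrictScalars, Function.comp_apply,
    diagD_mul, map_add, map_smul, smul_eq_mul]
  ring

variable (B A Q) in
/-- The `B`-linear extension of `r ↦ diagAct (φ j (d r))` to `A`. -/
noncomputable def psiMap (j : Fin n) : A →ₗ[B] Module.End A (A ⊗[B] Q) :=
  (Algebra.IsPushout.out (R := k) (S := B) (R' := R) (S' := A)).lift
    ((diagAct k R B A Q).toLinearMap.comp (coeffMap φ j))

theorem psiMap_algebraMap (j : Fin n) (r : R) :
    psiMap B A Q φ j (algebraMap R A r) = diagAct k R B A Q (coeffMap φ j r) := by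
  have := (Algebra.IsPushout.out (R := k) (S := B) (R' := R) (S' := A)).lift_eq
    ((diagAct k R B A Q).toLinearMap.comp (coeffMap φ j)) r
  exact this

omit [Algebra.IsPushout k B R A] in
theorem diagAct_tmul_one (r : R) :
    diagAct k R B A Q (r ⊗ₜ[k] 1) = algebraMap A (Module.End A (A ⊗[B] Q)) (algebraMap R A r) := by
  apply TensorProduct.AlgebraTensorModule.ext
  intro a q
  simp [Module.algebraMap_end_apply, TensorProduct.smul_tmul', Algebra.smul_def]

omit [Algebra.IsPushout k B R A] in
theorem diagAct_one_tmul (r : R) :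
    diagAct k R B A Q (1 ⊗ₜ[k] r) = actSnd B A Q (algebraMap R A r) := by
  apply TensorProduct.AlgebraTensorModule.ext
  intro a q
  simp

theorem psiMap_mul (j : Fin n) (a' a : A) :
    psiMap B A Q φ j (a' * a) =
      a' • psiMap B A Q φ j a + psiMap B A Q φ j a' * actSnd B A Q a := by
  have h := Algebra.IsPushout.out (R := k) (S := B) (R' := R) (S' := A)
  revert a
  refine h.inductionOn a' _ ?_ ?_ ?_ ?_
  · intro a; simp
  · intro r' a
    refine h.inductionOn a _ ?_ ?_ ?_ ?_
    · simp
    · intro r
      simp only [AlgHom.toLinearMap_apply, IsScalarTower.coe_toAlgHom']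
      rw [← map_mul, psiMap_algebraMap, psiMap_algebraMap, psiMap_algebraMap, coeffMap_mul,
        map_add, map_mul, map_mul, diagAct_tmul_one, diagAct_one_tmul, ← Algebra.smul_def]
    · intro b a ih
      rw [mul_smul_comm, map_smul, ih, map_smul, map_smul, smul_add, smul_comm, mul_smul_comm]
    · intro a₁ a₂ ih₁ ih₂
      rw [mul_add, map_add, ih₁, ih₂, map_add, map_add, smul_add, mul_add]
      abel
  · intro b a' ih a
    rw [smul_mul_assoc, map_smul, ih, map_smul, smul_add, smul_assoc, smul_mul_assoc]
  · intro a₁ a₂ ih₁ ih₂ a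
    rw [add_mul, map_add, ih₁, ih₂, map_add, add_smul, add_mul]
    abel

variable (B A Q) in
/-- The maps `D_j : a ⊗ q ↦ ψ_j(a) (1 ⊗ q)`. -/
noncomputable def derMap (j : Fin n) : A ⊗[B] Q →ₗ[B] A ⊗[B] Q :=
  TensorProduct.lift
    (LinearMap.mk₂ B (fun (a : A) (q : Q) => psiMap B A Q φ j a (1 ⊗ₜ[B] q))
      (fun a a' q => by simp [map_add])
      (fun b a q => by simp [map_smul])
      (fun a q q' => by simp [TensorProduct.tmul_add])
      (fun b a q => by
        rw [TensorProduct.tmul_smul]
        exact LinearMap.map_smul_of_tower _ b _))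

@[simp]
theorem derMap_tmul (j : Fin n) (a : A) (q : Q) :
    derMap B A Q φ j (a ⊗ₜ[B] q) = psiMap B A Q φ j a (1 ⊗ₜ[B] q) := by
  simp [derMap]

theorem sum_diagAct_derMap
    (hφ : ∀ y : KaehlerDifferential.ideal k R, ∑ j, φ j y * x j = (y : R ⊗[k] R))
    (p : A ⊗[B] Q) :
    ∑ j, diagAct k R B A Q (x j) (derMap B A Q φ j p) =
      p - (1 : A) ⊗ₜ[B] mulMap B A Q p := by
  have h := Algebra.IsPushout.out (R := k) (S := B) (R' := R) (S' := A)
  induction p using TensorProduct.induction_on with
  | zero => simp
  | tmul a q =>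
    refine h.inductionOn a _ ?_ ?_ ?_ ?_
    · simp
    · intro r
      simp only [AlgHom.toLinearMap_apply, IsScalarTower.coe_toAlgHom', derMap_tmul,
        psiMap_algebraMap, mulMap_tmul]
      have h1 : ∑ j, diagAct k R B A Q (x j) (diagAct k R B A Q (coeffMap φ j r) (1 ⊗ₜ[B] q)) =
          diagAct k R B A Q (∑ j, coeffMap φ j r * x j) (1 ⊗ₜ[B] q) := by
        rw [map_sum, LinearMap.sum_apply]
        refine Finset.sum_congr rfl fun j _ => ?_
        rw [mul_comm, map_mul]
        rfl
      have h2 : ∑ j, coeffMap φ j r * x j = r ⊗ₜ[k] 1 - 1 ⊗ₜ[k] r := by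
        have := hφ (diagD k R r)
        simpa [coeffMap] using this
      rw [h1, h2, map_sub, LinearMap.sub_apply, diagAct_tmul, diagAct_tmul]
      simp
    · intro b a ih
      simp only [derMap_tmul, mulMap_tmul] at ih ⊢
      have h3 : ∀ j, diagAct k R B A Q (x j) (psiMap B A Q φ j (b • a) (1 ⊗ₜ[B] q)) =
          b • diagAct k R B A Q (x j) (psiMap B A Q φ j a (1 ⊗ₜ[B] q)) := by
        intro j
        rw [map_smul, LinearMap.smul_apply]
        exact LinearMap.map_smul_of_tower _ b _
      simp only [h3]
      have e1 : b • (a ⊗ₜ[B] q) = (b • a) ⊗ₜ[B] q := TensorProduct.smul_tmul' b a q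
      have e2 : b • ((1 : A) ⊗ₜ[B] (a • q)) = (1 : A) ⊗ₜ[B] ((b • a) • q) := by
        rw [smul_assoc b a q]
        exact (TensorProduct.tmul_smul b (1 : A) (a • q)).symm
      rw [← Finset.smul_sum, ih, smul_sub, e1, e2]
    · intro a₁ a₂ ih₁ ih₂
      simp only [derMap_tmul, mulMap_tmul] at ih₁ ih₂ ⊢
      simp only [map_add, LinearMap.add_apply, Finset.sum_add_distrib, ih₁, ih₂,
        TensorProduct.add_tmul, add_smul, TensorProduct.tmul_add]
      abel
  | add p₁ p₂ h₁ h₂ =>
    simp only [map_add, Finset.sum_add_distrib, h₁, h₂, TensorProduct.tmul_add]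
    abel

theorem derMap_smul (j : Fin n) (a' : A) (p : A ⊗[B] Q) :
    derMap B A Q φ j (a' • p) =
      a' • derMap B A Q φ j p + psiMap B A Q φ j a' ((1 : A) ⊗ₜ[B] mulMap B A Q p) := by
  induction p using TensorProduct.induction_on with
  | zero => simp
  | tmul a q =>
    rw [TensorProduct.smul_tmul', smul_eq_mul, derMap_tmul, derMap_tmul, psiMap_mul,
      LinearMap.add_apply, LinearMap.smul_apply, Module.End.mul_apply, actSnd_tmul, mulMap_tmul]
  | add p₁ p₂ h₁ h₂ =>
    simp only [smul_add, map_add, h₁, h₂, TensorProduct.tmul_add]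
    abel

variable (B A Q) in
/-- The section `ker μ → (A ⊗[B] Q)ⁿ`. -/
noncomputable def kerSection :
    LinearMap.ker (mulMap B A Q) →ₗ[A] (Fin n → A ⊗[B] Q) where
  toFun z j := derMap B A Q φ j z
  map_add' z z' := by
    ext j
    simp
  map_smul' a z := by
    ext j
    have hz : mulMap B A Q (z : A ⊗[B] Q) = 0 := z.2
    simp [derMap_smul, hz]

variable (B A Q) in
/-- The retraction `(A ⊗[B] Q)ⁿ → ker μ`. -/
noncomputable def kerRetraction (hx : ∀ j, x j ∈ KaehlerDifferential.ideal k R) :
    (Fin n → A ⊗[B] Q) →ₗ[A] LinearMap.ker (mulMap B A Q) :=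
  LinearMap.codRestrict _
    (∑ j, (diagAct k R B A Q (x j)).comp (LinearMap.proj j))
    (fun v => by
      rw [LinearMap.mem_ker, LinearMap.sum_apply, map_sum]
      refine Finset.sum_eq_zero fun j _ => ?_
      exact mulMap_diagAct_of_mem (x j) (hx j) _)

theorem kerRetraction_comp_kerSection (hx : ∀ j, x j ∈ KaehlerDifferential.ideal k R)
    (hφ : ∀ y : KaehlerDifferential.ideal k R, ∑ j, φ j y * x j = (y : R ⊗[k] R)) :
    (kerRetraction B A Q x hx).comp (kerSection B A Q φ) = LinearMap.id := by
  ext z
  have hz : mulMap B A Q (z : A ⊗[B] Q) = 0 := z.2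
  have := sum_diagAct_derMap (B := B) (A := A) (Q := Q) x φ hφ (z : A ⊗[B] Q)
  simp only [LinearMap.coe_comp, Function.comp_apply, LinearMap.id_coe, id_eq, kerRetraction,
    LinearMap.codRestrict_apply, LinearMap.sum_apply, kerSection, LinearMap.coe_mk,
    AddHom.coe_mk, LinearMap.proj_apply]
  rw [this, hz, TensorProduct.tmul_zero, sub_zero]

/-- The kernel of `A ⊗[B] Q → Q` is finitely generated projective, given a finite dual basis
of the diagonal ideal of `R`. -/
theorem ker_mulMap_finite_projective_aux [Module.Finite B Q] [Module.Projective B Q]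
    (hx : ∀ j, x j ∈ KaehlerDifferential.ideal k R)
    (hφ : ∀ y : KaehlerDifferential.ideal k R, ∑ j, φ j y * x j = (y : R ⊗[k] R)) :
    Module.Finite A (LinearMap.ker (mulMap B A Q)) ∧
      Module.Projective A (LinearMap.ker (mulMap B A Q)) := by
  have hcomp := kerRetraction_comp_kerSection (B := B) (A := A) (Q := Q) x φ hx hφ
  have hproj : Module.Projective A (Fin n → A ⊗[B] Q) :=
    Module.Projective.of_equiv'
      (DFinsupp.linearEquivFunOnFintype (R := A) (M := fun _ : Fin n => A ⊗[B] Q))
  refine ⟨?_, Module.Projective.of_split _ _ hcomp⟩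
  refine Module.Finite.of_surjective (kerRetraction B A Q x hx) fun z => ?_
  exact ⟨kerSection B A Q φ z, LinearMap.congr_fun hcomp z⟩

end Core

/-- A finitely generated projective module has a finite dual basis. -/
theorem exists_dual_basis_of_finite_projective (S M : Type*) [CommRing S] [AddCommGroup M]
    [Module S M] [Module.Finite S M] [Module.Projective S M] :
    ∃ (n : ℕ) (x : Fin n → M) (φ : Fin n → (M →ₗ[S] S)), ∀ y : M, ∑ j, φ j y • x j = y := by
  classical
  obtain ⟨n, s, hs⟩ := Module.Finite.exists_fin' S M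
  obtain ⟨i, hi⟩ := Module.projective_lifting_property s LinearMap.id hs
  refine ⟨n, fun j => s (fun j' => if j = j' then 1 else 0),
    fun j => (LinearMap.proj j).comp i, fun y => ?_⟩
  have := LinearMap.congr_fun hi y
  simp only [LinearMap.coe_comp, Function.comp_apply, LinearMap.id_coe, id_eq] at this
  conv_rhs => rw [← this]
  rw [LinearMap.pi_apply_eq_sum_univ s (i y)]
  rfl

section Main

variable [Algebra.IsPushout k B R A]

variable (B Q) in
/-- G3, kernel form: if the diagonal ideal of `R` over `k` is finitely generated projective and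
`Q` is an `A`-module which is finitely generated projective over `B`, then the kernel of the
multiplication map `A ⊗[B] Q → Q` is a finitely generated projective `A`-module. -/
theorem ker_mulMap_finite_projective [Module.Finite B Q] [Module.Projective B Q]
    (hΔ : Module.Finite (R ⊗[k] R) (KaehlerDifferential.ideal k R) ∧
      Module.Projective (R ⊗[k] R) (KaehlerDifferential.ideal k R)) :
    Module.Finite A (LinearMap.ker (mulMap B A Q)) ∧
      Module.Projective A (LinearMap.ker (mulMap B A Q)) := by
  obtain ⟨hfin, hproj⟩ := hΔ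
  obtain ⟨n, x, φ, h⟩ :=
    exists_dual_basis_of_finite_projective (R ⊗[k] R) (KaehlerDifferential.ideal k R)
  refine ker_mulMap_finite_projective_aux (fun j => (x j : R ⊗[k] R)) φ (fun j => (x j).2)
    (fun y => ?_)
  have := congrArg Subtype.val (h y)
  simpa [Submodule.coe_sum] using this

variable (B) in
/-- G3, Schanuel form: under the same hypotheses, the kernel of any surjection from a finitely
generated projective `A`-module onto `Q` is finitely generated projective. -/
theorem ker_finite_projective_of_surjective [Module.Finite B Q] [Module.Projective B Q]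
    (hΔ : Module.Finite (R ⊗[k] R) (KaehlerDifferential.ideal k R) ∧
      Module.Projective (R ⊗[k] R) (KaehlerDifferential.ideal k R))
    {F : Type*} [AddCommGroup F] [Module A F] [Module.Finite A F] [Module.Projective A F]
    (π : F →ₗ[A] Q) (hπ : Function.Surjective π) :
    Module.Finite A (LinearMap.ker π) ∧ Module.Projective A (LinearMap.ker π) := by
  obtain ⟨hKfin, hKproj⟩ := ker_mulMap_finite_projective (A := A) B Q hΔ
  obtain ⟨g, hg⟩ := Module.projective_lifting_property π (mulMap B A Q) hπ
  obtain ⟨h, hh⟩ := Module.projective_lifting_property (mulMap B A Q) π mulMap_surjective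
  have hg' : ∀ p, π (g p) = mulMap B A Q p := fun p => LinearMap.congr_fun hg p
  have hh' : ∀ f, mulMap B A Q (h f) = π f := fun f => LinearMap.congr_fun hh f
  let σ : LinearMap.ker π →ₗ[A] LinearMap.ker (mulMap B A Q) :=
    (h.comp (Submodule.subtype _)).codRestrict _ (fun y => by
      rw [LinearMap.mem_ker, LinearMap.comp_apply, hh']
      exact y.2)
  let τ : LinearMap.ker (mulMap B A Q) × F →ₗ[A] LinearMap.ker π :=
    LinearMap.codRestrict _
      ((g.comp (Submodule.subtype _)).coprod (LinearMap.id - g.comp h))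
      (fun zf => by
        rw [LinearMap.mem_ker, LinearMap.coprod_apply, map_add, LinearMap.comp_apply, hg',
          LinearMap.sub_apply, map_sub, LinearMap.comp_apply, hg', hh']
        have hz : mulMap B A Q (zf.1 : A ⊗[B] Q) = 0 := zf.1.2
        simp [hz])
  let ι : LinearMap.ker π →ₗ[A] LinearMap.ker (mulMap B A Q) × F :=
    σ.prod (Submodule.subtype _)
  have hτι : τ.comp ι = LinearMap.id := by
    ext y
    simp [τ, ι, σ]
  exact ⟨Module.Finite.of_surjective τ (fun y => ⟨ι y, LinearMap.congr_fun hτι y⟩),
    Module.Projective.of_split ι τ hτι⟩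

variable (B) in
/-- G3, ideal form ("divisor ideals are projective"): if the diagonal ideal of `R` over `k` is
finitely generated projective, `A` is the base change of `R` to `B`, and `I` is an ideal of `A`
whose quotient is finitely generated projective over `B`, then `I` is a finitely generated
projective `A`-module. -/
theorem ideal_finite_projective_of_quotient
    (hΔ : Module.Finite (R ⊗[k] R) (KaehlerDifferential.ideal k R) ∧
      Module.Projective (R ⊗[k] R) (KaehlerDifferential.ideal k R))
    (I : Ideal A) [Module.Finite B (A ⧸ I)] [Module.Projective B (A ⧸ I)] :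
    Module.Finite A I ∧ Module.Projective A I := by
  obtain ⟨h1, h2⟩ := ker_finite_projective_of_surjective B hΔ (Submodule.mkQ I)
    (Submodule.mkQ_surjective I)
  let e : LinearMap.ker (Submodule.mkQ I) ≃ₗ[A] I := LinearEquiv.ofEq _ _ (Submodule.ker_mkQ I)
  exact ⟨Module.Finite.equiv e, Module.Projective.of_equiv e⟩

end Main

end Divisor

section Tensor

attribute [local instance] Algebra.TensorProduct.rightAlgebra

/-- G3 for `A = R ⊗[k] B` with `B` acting on the right factor. -/
theorem ideal_finite_projective_of_quotient_tensor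
    {k R B : Type*} [CommRing k] [CommRing R] [CommRing B] [Algebra k R] [Algebra k B]
    (hΔ : Module.Finite (R ⊗[k] R) (KaehlerDifferential.ideal k R) ∧
      Module.Projective (R ⊗[k] R) (KaehlerDifferential.ideal k R))
    (I : Ideal (R ⊗[k] B)) [Module.Finite B ((R ⊗[k] B) ⧸ I)]
    [Module.Projective B ((R ⊗[k] B) ⧸ I)] :
    Module.Finite (R ⊗[k] B) I ∧ Module.Projective (R ⊗[k] B) I :=
  ideal_finite_projective_of_quotient B hΔ I

end Tensor

end Fermat.Agent.S25.helper1613
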