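import Fermat.Statements.S25

/-!
# S25 specification file, part I: top-level reduction (architect helper1705)

Existence of the Jacobian of a smooth proper integral curve `C` over an algebraically closed
field `k`, with a section `ε`, as the scheme representing rigidified line bundles on `C ×ₖ T`
that are fibrewise algebraically equivalent to zero.

Every intermediate result of the project is a `Prop`-valued definition `Stmt_*`.
Workers prove implications between them in hypothesis-passing style, each in a file of
their own, so that nothing waits for anything and the final assembly is a composition.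

Part I (this file) only uses the frozen Prelude definitions. It splits S25 into
* `Stmt_Rep`   : a representing designation exists and is locally of finite type;
* `Stmt_Smooth`, `Stmt_Sep`, `Stmt_UC`, `Stmt_GC` : properties of ANY representing designation
  (they only depend on the functor, so they can be proved without knowing the construction).
-/

set_option autoImplicit false

universe u

open CategoryTheory CategoryTheory.Limits AlgebraicGeometry AlgebraicGeometry.RelPicard
  NeronModelInfra GoodReductionJacobian

namespace Fermat.Agent.S25.helper1705

/-- The hypotheses of S25 on `(k, C, c)`, bundled as a `Prop` so that statements stay short. -/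
structure IsCurve (k : Type u) [Field k] {C : Scheme.{u}} (c : C ⟶ Spec (CommRingCat.of k)) :
    Prop where
  algClosed : IsAlgClosed k
  proper : IsProper c
  smooth : SmoothOfRelativeDimension 1 c
  integral : IsIntegral C

/-- `D` represents the functor of rigidified line bundles fibrewise algebraically equivalent
to zero. -/
abbrev Represents {k : Type u} [Field k] {C : Scheme.{u}} (c : C ⟶ Spec (CommRingCat.of k))
    (ε : SchemeHomOver (𝟙 (Spec (CommRingCat.of k))) c) (D : RelativePic0Designation k c) : Prop :=
  Nonempty (RepresentsRelSubPic c ε (algEquivZeroCut c ε) D)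

/-- REP. A representing designation exists, and it is locally of finite type over `k`. -/
def Stmt_Rep : Prop :=
  ∀ (k : Type u) [Field k] {C : Scheme.{u}} (c : C ⟶ Spec (CommRingCat.of k)) (_ : IsCurve k c)
    (ε : SchemeHomOver (𝟙 (Spec (CommRingCat.of k))) c),
    ∃ D : RelativePic0Designation k c, Represents c ε D ∧ LocallyOfFiniteType D.toBase

/-- SMOOTH. Any representing designation that is locally of finite type is smooth
(infinitesimal lifting of line bundles). -/
def Stmt_Smooth : Prop :=
  ∀ (k : Type u) [Field k] {C : Scheme.{u}} (c : C ⟶ Spec (CommRingCat.of k)) (_ : IsCurve k c)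
    (ε : SchemeHomOver (𝟙 (Spec (CommRingCat.of k))) c) (D : RelativePic0Designation k c),
    Represents c ε D → LocallyOfFiniteType D.toBase → Smooth D.toBase

/-- SEP. Any representing designation that is locally of finite type is separated. -/
def Stmt_Sep : Prop :=
  ∀ (k : Type u) [Field k] {C : Scheme.{u}} (c : C ⟶ Spec (CommRingCat.of k)) (_ : IsCurve k c)
    (ε : SchemeHomOver (𝟙 (Spec (CommRingCat.of k))) c) (D : RelativePic0Designation k c),
    Represents c ε D → LocallyOfFiniteType D.toBase → IsSeparated D.toBase

/-- UC. Any representing designation is universally closed (image of a power of `C`). -/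
def Stmt_UC : Prop :=
  ∀ (k : Type u) [Field k] {C : Scheme.{u}} (c : C ⟶ Spec (CommRingCat.of k)) (_ : IsCurve k c)
    (ε : SchemeHomOver (𝟙 (Spec (CommRingCat.of k))) c) (D : RelativePic0Designation k c),
    Represents c ε D → LocallyOfFiniteType D.toBase → UniversallyClosed D.toBase

/-- GC. Any representing designation is geometrically connected. -/
def Stmt_GC : Prop :=
  ∀ (k : Type u) [Field k] {C : Scheme.{u}} (c : C ⟶ Spec (CommRingCat.of k)) (_ : IsCurve k c)
    (ε : SchemeHomOver (𝟙 (Spec (CommRingCat.of k))) c) (D : RelativePic0Designation k c),
    Represents c ε D → LocallyOfFiniteType D.toBase → GeometricallyConnected D.toBase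

/-- The frozen statement S25, as a `Prop`. -/
def Stmt_S25 : Prop :=
  ∀ (k : Type u) [Field k] [IsAlgClosed k] {C : Scheme.{u}} (c : C ⟶ Spec (CommRingCat.of k))
    [IsProper c] [SmoothOfRelativeDimension 1 c] [IsIntegral C]
    (ε : SchemeHomOver (𝟙 (Spec (CommRingCat.of k))) c),
    ∃ D : RelativePic0Designation k c,
      Nonempty (RepresentsRelSubPic c ε (algEquivZeroCut c ε) D) ∧
        Smooth D.toBase ∧ IsProper D.toBase ∧ GeometricallyConnected D.toBase

/-- Top assembly: S25 from the five top-level statements. -/
theorem stmt_S25_of (hRep : Stmt_Rep.{u}) (hSmooth : Stmt_Smooth.{u}) (hSep : Stmt_Sep.{u})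
    (hUC : Stmt_UC.{u}) (hGC : Stmt_GC.{u}) : Stmt_S25.{u} := by
  intro k _ _ C c _ _ _ ε
  have hc : IsCurve k c := ⟨inferInstance, inferInstance, inferInstance, inferInstance⟩
  obtain ⟨D, hD, hft⟩ := hRep k c hc ε
  haveI := hSep k c hc ε D hD hft
  haveI := hUC k c hc ε D hD hft
  haveI := hft
  exact ⟨D, hD, hSmooth k c hc ε D hD hft, ⟨⟩, hGC k c hc ε D hD hft⟩

end Fermat.Agent.S25.helper1705
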