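import Mathlib

/-!
# S25 / U5a : the openness engine (helper9598)

Def-agnostic commutative algebra used to prove that chart loci are open in `Spec B`
and commute with every base change.  Mathlib only.

For a `B`-module `H` the *zero-fibre locus* `zeroFibreLocus H ⊆ PrimeSpectrum B` is the
complement of the support.  For a finite module it is
* open (`isOpen_zeroFibreLocus`);
* the set of primes `p` with `κ(p) ⊗ H = 0` (`mem_zeroFibreLocus_iff`);
* detected by ANY field-valued point (`subsingleton_field_tensor_iff`), hence insensitive to
  field extensions;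
* compatible with base change: `zeroFibreLocus (B' ⊗ H) = comap ⁻¹' zeroFibreLocus H`
  (`zeroFibreLocus_baseChange`) and `B' ⊗ H = 0` iff `Spec B' → Spec B` lands in the locus
  (`subsingleton_baseChange_iff`).

The same for the locus where a linear map is fibrewise surjective (`surjLocus`), and the
fact that a surjection of finite projective modules of the same rank is bijective.
Finally a local-to-global principle (`isOpen_of_forall_exists_away`) for loci that are only
described after inverting an element.
-/

set_option autoImplicit false

open scoped TensorProduct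

namespace Fermat.Agent.S25.helper9598

universe u v w

/-! ## Field-valued points -/

/-- The point of `Spec B` defined by a field-valued point `B → K`. -/
def fieldPoint (B : Type u) [CommRing B] (K : Type w) [Field K] [Algebra B K] : PrimeSpectrum B :=
  ⟨RingHom.ker (algebraMap B K), RingHom.ker_isPrime _⟩

theorem fieldPoint_asIdeal (B : Type u) [CommRing B] (K : Type w) [Field K] [Algebra B K] :
    (fieldPoint B K).asIdeal = RingHom.ker (algebraMap B K) := rfl

theorem mem_fieldPoint_iff {B : Type u} [CommRing B] {K : Type w} [Field K] [Algebra B K]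
    (b : B) : b ∈ (fieldPoint B K).asIdeal ↔ algebraMap B K b = 0 := Iff.rfl

/-- The point defined by the residue field at `p` is `p`. -/
theorem fieldPoint_residueField {B : Type u} [CommRing B] (p : PrimeSpectrum B) :
    fieldPoint B p.asIdeal.ResidueField = p := by
  ext b
  rw [mem_fieldPoint_iff, Ideal.algebraMap_residueField_eq_zero]

/-- Field-valued points compose with base change. -/
theorem fieldPoint_comp {B : Type u} [CommRing B] {B' : Type v} [CommRing B'] [Algebra B B']
    (K : Type w) [Field K] [Algebra B' K] [Algebra B K] [IsScalarTower B B' K] :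
    PrimeSpectrum.comap (algebraMap B B') (fieldPoint B' K) = fieldPoint B K := by
  ext b
  rw [PrimeSpectrum.comap_asIdeal, Ideal.mem_comap, mem_fieldPoint_iff, mem_fieldPoint_iff,
    ← IsScalarTower.algebraMap_apply]

/-- The point of a residue field of `B'`, seen in `Spec B`. -/
theorem fieldPoint_residueField_comap {B : Type u} [CommRing B] {B' : Type v} [CommRing B']
    [Algebra B B'] (q : PrimeSpectrum B') :
    fieldPoint B q.asIdeal.ResidueField = PrimeSpectrum.comap (algebraMap B B') q := by
  rw [← fieldPoint_comp (B' := B') q.asIdeal.ResidueField, fieldPoint_residueField]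

/-! ## The zero-fibre locus of a module -/

section Vanishing

variable {B : Type u} [CommRing B] (H : Type v) [AddCommGroup H] [Module B H]

/-- The locus of primes where the fibre of `H` vanishes: the complement of the support. -/
def zeroFibreLocus : Set (PrimeSpectrum B) := (Module.support B H)ᶜ

/-- (E1) The zero-fibre locus of a finite module is open. -/
theorem isOpen_zeroFibreLocus [Module.Finite B H] : IsOpen (zeroFibreLocus (B := B) H) :=
  (Module.isClosed_support (R := B) (M := H)).isOpen_compl

/-- (E1) Pointwise description of the zero-fibre locus. -/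
theorem mem_zeroFibreLocus_iff [Module.Finite B H] (p : PrimeSpectrum B) :
    p ∈ zeroFibreLocus (B := B) H ↔ Subsingleton (p.asIdeal.ResidueField ⊗[B] H) := by
  rw [zeroFibreLocus, Set.mem_compl_iff,
    Module.mem_support_iff_nontrivial_residueField_tensorProduct, not_nontrivial_iff_subsingleton]

/-- (E1) The zero-fibre locus is detected by any field-valued point: for a finite `B`-module `H`
and a field `K` over `B`, `K ⊗ H = 0` iff the point of `Spec B` defined by `K` lies in the
locus.  In particular the condition `K ⊗ H = 0` only depends on the kernel of `B → K`. -/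
theorem subsingleton_field_tensor_iff [Module.Finite B H] (K : Type w) [Field K] [Algebra B K] :
    Subsingleton (K ⊗[B] H) ↔ fieldPoint B K ∈ zeroFibreLocus (B := B) H := by
  set p := fieldPoint B K with hp
  constructor
  · intro hK
    rw [mem_zeroFibreLocus_iff]
    have hf₂ : p.asIdeal.primeCompl ≤ (IsUnit.submonoid K).comap (algebraMap B K) := by
      intro b hb
      rw [Submonoid.mem_comap, IsUnit.mem_submonoid_iff, isUnit_iff_ne_zero]
      exact fun h0 => hb ((mem_fieldPoint_iff b).mpr h0)
    let _ : Algebra p.asIdeal.ResidueField K :=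
      (Ideal.ResidueField.lift p.asIdeal (algebraMap B K) le_rfl hf₂).toAlgebra
    have : IsScalarTower B p.asIdeal.ResidueField K :=
      IsScalarTower.of_algebraMap_eq fun b =>
        (Ideal.ResidueField.lift_algebraMap p.asIdeal (algebraMap B K) le_rfl hf₂ b).symm
    let e := TensorProduct.AlgebraTensorModule.cancelBaseChange B p.asIdeal.ResidueField K K H
    have : Subsingleton (K ⊗[p.asIdeal.ResidueField] (p.asIdeal.ResidueField ⊗[B] H)) :=
      e.toEquiv.subsingleton
    exact Module.FaithfullyFlat.lTensor_reflects_triviality p.asIdeal.ResidueField K _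
  · intro hmem
    rw [zeroFibreLocus, Set.mem_compl_iff, Module.support_eq_zeroLocus,
      PrimeSpectrum.mem_zeroLocus, SetLike.coe_subset_coe] at hmem
    obtain ⟨a, haH, hap⟩ := SetLike.not_le_iff_exists.mp hmem
    have ha0 : algebraMap B K a ≠ 0 := fun h0 => hap ((mem_fieldPoint_iff a).mpr h0)
    have key : ∀ (c : K) (h : H), c ⊗ₜ[B] h = 0 := by
      intro c h
      have h2 : c = a • (c * (algebraMap B K a)⁻¹) := by
        rw [Algebra.smul_def]
        field_simp
      rw [h2, TensorProduct.smul_tmul, Module.mem_annihilator.mp haH h, TensorProduct.tmul_zero]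
    refine ⟨fun z z' => ?_⟩
    have hz : ∀ z : K ⊗[B] H, z = 0 := by
      intro z
      induction z using TensorProduct.induction_on with
      | zero => rfl
      | tmul c h => exact key c h
      | add z₁ z₂ h₁ h₂ => rw [h₁, h₂, add_zero]
    rw [hz z, hz z']

/-- (E2) The zero-fibre locus commutes with base change. -/
theorem zeroFibreLocus_baseChange [Module.Finite B H] (B' : Type w) [CommRing B'] [Algebra B B'] :
    zeroFibreLocus (B := B') (B' ⊗[B] H) =
      PrimeSpectrum.comap (algebraMap B B') ⁻¹' zeroFibreLocus (B := B) H := by
  ext q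
  rw [Set.mem_preimage, mem_zeroFibreLocus_iff, ← fieldPoint_residueField_comap,
    ← subsingleton_field_tensor_iff]
  exact (TensorProduct.AlgebraTensorModule.cancelBaseChange B B' q.asIdeal.ResidueField
    q.asIdeal.ResidueField H).toEquiv.subsingleton_congr

/-- (E2) `B' ⊗ H = 0` iff `Spec B' → Spec B` lands in the zero-fibre locus of `H`. -/
theorem subsingleton_baseChange_iff [Module.Finite B H] (B' : Type w) [CommRing B']
    [Algebra B B'] :
    Subsingleton (B' ⊗[B] H) ↔
      ∀ q : PrimeSpectrum B', PrimeSpectrum.comap (algebraMap B B') q ∈ zeroFibreLocus (B := B) H := by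
  rw [← Module.support_eq_empty_iff (R := B'), ← Set.compl_univ_iff]
  change zeroFibreLocus (B := B') (B' ⊗[B] H) = Set.univ ↔ _
  rw [zeroFibreLocus_baseChange, Set.eq_univ_iff_forall]
  rfl

/-- (E2) For a localization `Bf` of `B` away from `f`: `Bf ⊗ H = 0` iff `D(f)` is contained
in the zero-fibre locus. -/
theorem subsingleton_away_iff [Module.Finite B H] (f : B) (Bf : Type w) [CommRing Bf]
    [Algebra B Bf] [IsLocalization.Away f Bf] :
    Subsingleton (Bf ⊗[B] H) ↔
      (PrimeSpectrum.basicOpen f : Set (PrimeSpectrum B)) ⊆ zeroFibreLocus (B := B) H := by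
  rw [subsingleton_baseChange_iff, ← PrimeSpectrum.localization_away_comap_range Bf f]
  constructor
  · rintro h _ ⟨q, rfl⟩
    exact h q
  · intro h q
    exact h ⟨q, rfl⟩

end Vanishing

/-! ## The locus where a linear map is fibrewise surjective -/

section Maps

variable {B : Type u} [CommRing B] {P : Type v} [AddCommGroup P] [Module B P]
  {Q : Type v} [AddCommGroup Q] [Module B Q] (φ : P →ₗ[B] Q)

/-- The locus of primes where `φ` is surjective on fibres: the zero-fibre locus of the
cokernel. -/
def surjLocus : Set (PrimeSpectrum B) := zeroFibreLocus (B := B) (Q ⧸ LinearMap.range φ)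

/-- (E3) The fibrewise-surjectivity locus of a map to a finite module is open. -/
theorem isOpen_surjLocus [Module.Finite B Q] : IsOpen (surjLocus φ) :=
  isOpen_zeroFibreLocus _

/-- Right exactness: a base change of `φ` is surjective iff the base change of the cokernel
vanishes. -/
theorem baseChange_surjective_iff (A : Type w) [CommRing A] [Algebra B A] :
    Function.Surjective (φ.baseChange A) ↔ Subsingleton (A ⊗[B] (Q ⧸ LinearMap.range φ)) := by
  have hex : Function.Exact (LinearMap.lTensor A φ) (LinearMap.lTensor A (LinearMap.range φ).mkQ) :=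
    lTensor_exact A (LinearMap.exact_map_mkQ_range φ) (Submodule.mkQ_surjective _)
  have hsurj : Function.Surjective (LinearMap.lTensor A (LinearMap.range φ).mkQ) :=
    LinearMap.lTensor_surjective A (Submodule.mkQ_surjective _)
  rw [LinearMap.baseChange_eq_ltensor]
  constructor
  · intro h
    refine ⟨fun z z' => ?_⟩
    have hz : ∀ z : A ⊗[B] (Q ⧸ LinearMap.range φ), z = 0 := by
      intro z
      obtain ⟨w, rfl⟩ := hsurj z
      obtain ⟨v, rfl⟩ := h w
      exact (hex _).mpr ⟨v, rfl⟩
    rw [hz z, hz z']
  · intro h w
    exact (hex w).mp (Subsingleton.elim _ _)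

/-- (E3) Field-valued points: `K ⊗ φ` is surjective iff the point of `K` lies in `surjLocus φ`. -/
theorem baseChange_field_surjective_iff [Module.Finite B Q] (K : Type w) [Field K]
    [Algebra B K] :
    Function.Surjective (φ.baseChange K) ↔ fieldPoint B K ∈ surjLocus φ := by
  rw [baseChange_surjective_iff, subsingleton_field_tensor_iff]
  rfl

/-- (E3) Base change: `B' ⊗ φ` is surjective iff `Spec B' → Spec B` lands in `surjLocus φ`. -/
theorem baseChange_surjective_iff_forall_comap_mem [Module.Finite B Q] (B' : Type w)
    [CommRing B'] [Algebra B B'] :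
    Function.Surjective (φ.baseChange B') ↔
      ∀ q : PrimeSpectrum B', PrimeSpectrum.comap (algebraMap B B') q ∈ surjLocus φ := by
  rw [baseChange_surjective_iff, subsingleton_baseChange_iff]
  rfl

/-- (E3) `φ` itself is surjective iff `surjLocus φ` is everything. -/
theorem surjective_iff_surjLocus_eq_univ [Module.Finite B Q] :
    Function.Surjective φ ↔ surjLocus φ = Set.univ := by
  rw [surjLocus, zeroFibreLocus, Set.compl_univ_iff, Module.support_eq_empty_iff,
    Submodule.Quotient.subsingleton_iff, LinearMap.range_eq_top]

/-- (E3) A surjection between finite projective modules with the same rank function is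
bijective. -/
theorem bijective_of_surjective_of_rankAtStalk_eq [Module.Finite B P] [Module.Projective B P]
    [Module.Finite B Q] [Module.Projective B Q] (hφ : Function.Surjective φ)
    (hr : Module.rankAtStalk (R := B) P = Module.rankAtStalk (R := B) Q) :
    Function.Bijective φ := by
  refine ⟨?_, hφ⟩
  obtain ⟨σ, hσ⟩ := LinearMap.exists_rightInverse_of_surjective φ (LinearMap.range_eq_top.mpr hφ)
  have hσ' : ∀ y, φ (σ y) = y := fun y => by
    simpa using congrArg (fun g : Q →ₗ[B] Q => g y) hσ
  -- the projection of `P` onto `ker φ`
  let π : P →ₗ[B] LinearMap.ker φ :=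
    (LinearMap.id - σ ∘ₗ φ).codRestrict (LinearMap.ker φ) (fun x => by
      simp [LinearMap.mem_ker, hσ'])
  let e : P ≃ₗ[B] (LinearMap.ker φ × Q) :=
    LinearEquiv.ofLinearMap (π.prod φ)
      ((LinearMap.ker φ).subtype.coprod σ)
      (by
        apply LinearMap.ext
        rintro ⟨⟨z, hz⟩, y⟩
        rw [LinearMap.mem_ker] at hz
        apply Prod.ext
        · apply Subtype.ext
          simp [π, hz, hσ']
        · simp [hz, hσ'])
      (by
        apply LinearMap.ext
        intro x
        simp [π])
  have : Module.Finite B (LinearMap.ker φ) := Module.Finite.of_surjective π (fun z => by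
    refine ⟨z.1, Subtype.ext ?_⟩
    have hz : φ z.1 = 0 := z.2
    simp [π, hz])
  have : Module.Projective B (LinearMap.ker φ) :=
    Module.Projective.of_split (LinearMap.ker φ).subtype π (by
      apply LinearMap.ext
      intro z
      apply Subtype.ext
      have hz : φ z.1 = 0 := z.2
      simp [π, hz])
  have hrk : Module.rankAtStalk (R := B) P =
      Module.rankAtStalk (R := B) (LinearMap.ker φ) + Module.rankAtStalk (R := B) Q := by
    rw [Module.rankAtStalk_eq_of_equiv e, Module.rankAtStalk_prod]
  have h0 : Module.rankAtStalk (R := B) (LinearMap.ker φ) = 0 := by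
    rw [hr] at hrk
    funext p
    have := congrFun hrk p
    simp only [Pi.add_apply, Pi.zero_apply] at this ⊢
    omega
  have : Subsingleton (LinearMap.ker φ) := Module.rankAtStalk_eq_zero_iff_subsingleton.mp h0
  rw [← LinearMap.ker_eq_bot]
  exact (Submodule.eq_bot_iff _).mpr fun x hx => congrArg Subtype.val
    (Subsingleton.elim (⟨x, hx⟩ : LinearMap.ker φ) 0)

/-- (E3) For finite projective modules with the same rank function, every base change of `φ`
is bijective as soon as it is surjective. -/
theorem baseChange_bijective_iff_surjective [Module.Finite B P] [Module.Projective B P]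
    [Module.Finite B Q] [Module.Projective B Q]
    (hr : Module.rankAtStalk (R := B) P = Module.rankAtStalk (R := B) Q)
    (A : Type w) [CommRing A] [Algebra B A] :
    Function.Bijective (φ.baseChange A) ↔ Function.Surjective (φ.baseChange A) := by
  refine ⟨fun h => h.2, fun h => bijective_of_surjective_of_rankAtStalk_eq _ h ?_⟩
  funext q
  rw [Module.rankAtStalk_baseChange, Module.rankAtStalk_baseChange, hr]

/-- (E3) Bijectivity locus for finite projective modules of the same rank: `B' ⊗ φ` is
bijective iff `Spec B' → Spec B` lands in `surjLocus φ`. -/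
theorem baseChange_bijective_iff_forall_comap_mem [Module.Finite B P] [Module.Projective B P]
    [Module.Finite B Q] [Module.Projective B Q]
    (hr : Module.rankAtStalk (R := B) P = Module.rankAtStalk (R := B) Q)
    (B' : Type w) [CommRing B'] [Algebra B B'] :
    Function.Bijective (φ.baseChange B') ↔
      ∀ q : PrimeSpectrum B', PrimeSpectrum.comap (algebraMap B B') q ∈ surjLocus φ := by
  rw [baseChange_bijective_iff_surjective φ hr, baseChange_surjective_iff_forall_comap_mem]

/-- (E3) Bijectivity at field-valued points for finite projective modules of the same rank. -/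
theorem baseChange_field_bijective_iff [Module.Finite B P] [Module.Projective B P]
    [Module.Finite B Q] [Module.Projective B Q]
    (hr : Module.rankAtStalk (R := B) P = Module.rankAtStalk (R := B) Q)
    (K : Type w) [Field K] [Algebra B K] :
    Function.Bijective (φ.baseChange K) ↔ fieldPoint B K ∈ surjLocus φ := by
  rw [baseChange_bijective_iff_surjective φ hr, baseChange_field_surjective_iff]

end Maps

/-! ## Local-to-global principle for loci described after inverting an element -/

section Glue

variable {B : Type u} [CommRing B]

/-- A set that is open near each of its points (on a basic open) is open. -/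
theorem isOpen_of_forall_exists_basicOpen {U : Set (PrimeSpectrum B)}
    (h : ∀ p ∈ U, ∃ f : B, f ∉ p.asIdeal ∧
      IsOpen (U ∩ (PrimeSpectrum.basicOpen f : Set (PrimeSpectrum B)))) : IsOpen U := by
  rw [isOpen_iff_forall_mem_open]
  intro p hp
  obtain ⟨f, hf, hopen⟩ := h p hp
  exact ⟨_, Set.inter_subset_left, hopen, hp, hf⟩

/-- (E4) If, on the localization `Bf` away from `f`, the pullback of `U` is an open set `V`,
then `U ∩ D(f)` is open in `Spec B`. -/
theorem isOpen_inter_basicOpen_of_away (U : Set (PrimeSpectrum B)) (f : B) (Bf : Type w)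
    [CommRing Bf] [Algebra B Bf] [IsLocalization.Away f Bf] (V : Set (PrimeSpectrum Bf))
    (hV : IsOpen V) (hUV : ∀ q : PrimeSpectrum Bf,
      PrimeSpectrum.comap (algebraMap B Bf) q ∈ U ↔ q ∈ V) :
    IsOpen (U ∩ (PrimeSpectrum.basicOpen f : Set (PrimeSpectrum B))) := by
  have hemb := PrimeSpectrum.localization_away_isOpenEmbedding Bf f
  have himg : U ∩ (PrimeSpectrum.basicOpen f : Set (PrimeSpectrum B)) =
      PrimeSpectrum.comap (algebraMap B Bf) '' V := by
    ext p
    constructor
    · rintro ⟨hpU, hpf⟩
      rw [← PrimeSpectrum.localization_away_comap_range Bf f] at hpf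
      obtain ⟨q, rfl⟩ := hpf
      exact ⟨q, (hUV q).mp hpU, rfl⟩
    · rintro ⟨q, hq, rfl⟩
      refine ⟨(hUV q).mpr hq, ?_⟩
      rw [← PrimeSpectrum.localization_away_comap_range Bf f]
      exact ⟨q, rfl⟩
  rw [himg]
  exact hemb.isOpenMap V hV

/-- (E4) Local-to-global: a set `U ⊆ Spec B` such that every point of `U` has a basic open
neighbourhood `D(f)` on which `U` is the zero-fibre locus of a finite module over the
localization `Localization.Away f` is open. -/
theorem isOpen_of_forall_exists_away {U : Set (PrimeSpectrum B)}
    (h : ∀ p ∈ U, ∃ f : B, f ∉ p.asIdeal ∧ ∃ V : Set (PrimeSpectrum (Localization.Away f)),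
      IsOpen V ∧ ∀ q : PrimeSpectrum (Localization.Away f),
        PrimeSpectrum.comap (algebraMap B (Localization.Away f)) q ∈ U ↔ q ∈ V) : IsOpen U := by
  refine isOpen_of_forall_exists_basicOpen fun p hp => ?_
  obtain ⟨f, hf, V, hV, hUV⟩ := h p hp
  exact ⟨f, hf, isOpen_inter_basicOpen_of_away U f (Localization.Away f) V hV hUV⟩

end Glue

end Fermat.Agent.S25.helper9598
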