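import Fermat.Agent.S25.helper1002_QuotChartApi
import Fermat.Agent.S25.helper9598_OpenLocus

/-!
# Quot charts: base change of the quotient and fibre criteria (helper174, S25, root ChartOf)

Additive to `helper1002_QuotChart` / `helper1002_QuotChartApi`.  Everything is about an ideal
`I` of `R ⊗[k] B` and its quotient `(R ⊗[k] B) ⧸ I`, a `B`-module through the right tensor
factor (`Algebra.TensorProduct.rightAlgebra`, the structure used by `helper1002` and, for
`R = D.R₀`, by `helper2945_AlgDefs`).

* `quotMapEquiv` : for a `B`-algebra `B'`, `B' ⊗[B] (R ⊗[k] B) ⧸ I ≃ₗ[B'] (R ⊗[k] B') ⧸ I B'`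
  (no flatness: right exactness only);
* `finite_quotient_map`, `projective_quotient_map` : the quotient by the extended ideal is
  finite / projective over `B'` if the quotient by `I` is so over `B`;
* `finrank_quotient_map` : over a field-valued point `χ : B → K`, the dimension of the quotient
  by the extended ideal is the rank of `(R ⊗[k] B) ⧸ I` at the point `ker χ`;
* `isChartIdeal_of_fibrewise` : if `(R ⊗[k] B) ⧸ I` is finite projective over `B` and, above
  every maximal ideal of `B`, the extension of `I` to some field-valued point is a chart ideal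
  for `s`, then `I` is a chart ideal for `s`;
* `isUnit_eval_of_fibrewise` : a function `f` on the chart is invertible at the chart ideal `I`
  if it does not vanish at the extension of `I` to a field-valued point above every maximal
  ideal;
* `exists_chartAwayMap_of_fibrewise` : both together: `I` is classified by a map out of
  `Localization.Away f`.

Generic helpers: `surjective_of_fieldPoints`, `bijective_of_surjective_of_rank_le`,
`rankAtStalk_eq_finrank_fieldPoint`.
-/

set_option autoImplicit false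

universe u v w t t'

namespace Fermat.Agent.S25.helper174

open TensorProduct
open Fermat.Agent.S25.helper1002

/-! ## Generic fibre criteria -/

section Generic

variable {B : Type*} [CommRing B] {P : Type*} [AddCommGroup P] [Module B P]
  {Q : Type*} [AddCommGroup Q] [Module B Q]

/-- A linear map to a finite module is surjective as soon as, above every maximal ideal, its
base change to some field-valued point is surjective. -/
theorem surjective_of_fieldPoints [Module.Finite B Q] (u : P →ₗ[B] Q)
    (h : ∀ m : Ideal B, m.IsMaximal → ∃ (K : Type t) (_ : Field K) (_ : Algebra B K),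
      RingHom.ker (algebraMap B K) = m ∧ Function.Surjective (u.baseChange K)) :
    Function.Surjective u := by
  rw [← LinearMap.range_eq_top, ← Submodule.Quotient.subsingleton_iff,
    ← Module.support_eq_empty_iff (R := B)]
  by_contra hne
  obtain ⟨p, hp⟩ := Set.nonempty_iff_ne_empty.mpr hne
  obtain ⟨m, hm, hpm⟩ := Ideal.exists_le_maximal p.asIdeal p.2.ne_top
  have hmS : (⟨m, hm.isPrime⟩ : PrimeSpectrum B) ∈ Module.support B (Q ⧸ LinearMap.range u) :=
    Module.mem_support_mono (p := p) (q := ⟨m, hm.isPrime⟩) hpm hp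
  obtain ⟨K, _, _, hker, hsurj⟩ := h m hm
  have hsub : Subsingleton (K ⊗[B] (Q ⧸ LinearMap.range u)) := by
    have hz : ∀ z : K ⊗[B] (Q ⧸ LinearMap.range u), z = 0 := by
      intro z
      obtain ⟨w, rfl⟩ :=
        LinearMap.lTensor_surjective K (Submodule.mkQ_surjective (LinearMap.range u)) z
      obtain ⟨v, rfl⟩ := hsurj w
      have h0 : (LinearMap.range u).mkQ ∘ₗ u = 0 := by
        ext x
        simp
      rw [LinearMap.baseChange_eq_ltensor, ← LinearMap.comp_apply, ← LinearMap.lTensor_comp, h0,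
        LinearMap.lTensor_zero, LinearMap.zero_apply]
    exact ⟨fun z z' => by rw [hz z, hz z']⟩
  rw [helper9598.subsingleton_field_tensor_iff] at hsub
  apply hsub
  have hpt : helper9598.fieldPoint B K = ⟨m, hm.isPrime⟩ := PrimeSpectrum.ext hker
  rw [hpt]
  exact hmS

attribute [local instance] Module.free_of_flat_of_isLocalRing in
/-- A surjection of finite flat modules whose source has rank at most the rank of the target at
every closed point is bijective. -/
theorem bijective_of_surjective_of_rank_le [Module.Finite B P] [Module.Flat B P]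
    [Module.Finite B Q] [Module.Flat B Q] {φ : P →ₗ[B] Q} (hs : Function.Surjective φ)
    (h : ∀ (m : Ideal B) [m.IsMaximal],
      Module.rankAtStalk P ⟨m, inferInstance⟩ ≤ Module.rankAtStalk Q ⟨m, inferInstance⟩) :
    Function.Bijective φ :=
  bijective_of_localized_maximal φ fun m _ ↦
    OrzechProperty.bijective_of_surjective_of_finrank_le (LocalizedModule.map m.primeCompl φ)
      (LocalizedModule.map_surjective m.primeCompl φ hs) (h m)

/-- The rank at a point of a finite flat module is the dimension of the fibre at any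
field-valued point over it. -/
theorem rankAtStalk_eq_finrank_fieldPoint [Module.Finite B Q] [Module.Flat B Q]
    (K : Type*) [Field K] [Algebra B K] (p : PrimeSpectrum B)
    (hp : RingHom.ker (algebraMap B K) = p.asIdeal) :
    Module.rankAtStalk Q p = Module.finrank K (K ⊗[B] Q) := by
  have h1 := Module.rankAtStalk_baseChange (R := B) (M := Q) (S := K) ⟨⊥, Ideal.isPrime_bot⟩
  have h2 : (⟨⊥, Ideal.isPrime_bot⟩ : PrimeSpectrum K).comap (algebraMap B K) = p := by
    ext1
    rw [← hp]
    rfl
  rw [h2] at h1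
  rw [← h1, Module.rankAtStalk_eq_finrank_of_free]
  rfl

end Generic

/-! ## Base change of the quotient by an ideal of `R ⊗[k] B` -/

section QuotBC

attribute [local instance] Algebra.TensorProduct.rightAlgebra

variable {k : Type u} [CommRing k] {R : Type v} [CommRing R] [Algebra k R]
  {B : Type t} [CommRing B] [Algebra k B] {B' : Type t'} [CommRing B'] [Algebra k B']

section WithAlgebra

variable [Algebra B B'] [IsScalarTower k B B']

variable (k R B B') in
/-- The map `R ⊗[k] B → R ⊗[k] B'` induced by the structure map `B → B'`. -/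
noncomputable abbrev tmap : R ⊗[k] B →ₐ[k] R ⊗[k] B' :=
  Algebra.TensorProduct.map (AlgHom.id k R) (IsScalarTower.toAlgHom k B B')

theorem tmap_tmul (r : R) (b : B) :
    tmap k R B B' (r ⊗ₜ[k] b) = r ⊗ₜ[k] algebraMap B B' b := rfl

theorem smul_eq_tmul_mul (b : B) (x : R ⊗[k] B) : b • x = ((1 : R) ⊗ₜ[k] b) * x := by
  rw [Algebra.smul_def]
  rfl

theorem tmap_smul (b : B) (x : R ⊗[k] B) :
    tmap k R B B' (b • x) = algebraMap B B' b • tmap k R B B' x := by
  rw [smul_eq_tmul_mul, smul_eq_tmul_mul, map_mul, tmap_tmul]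

theorem tmul_mul_tmap (r : R) (b' : B') (x : R ⊗[k] B) :
    (r ⊗ₜ[k] b') * tmap k R B B' x = b' • tmap k R B B' ((r ⊗ₜ[k] (1 : B)) * x) := by
  rw [smul_eq_tmul_mul, map_mul, tmap_tmul, map_one, ← mul_assoc,
    Algebra.TensorProduct.tmul_mul_tmul, one_mul, mul_one]

variable (I : Ideal (R ⊗[k] B))

/-- The comparison map `B' ⊗[B] (R ⊗[k] B) ⧸ I → (R ⊗[k] B') ⧸ I B'`,
`b' ⊗ [x] ↦ b' • [x ⊗ 1]`. -/
noncomputable def quotMap :
    B' ⊗[B] ((R ⊗[k] B) ⧸ I) →ₗ[B'] (R ⊗[k] B') ⧸ I.map (tmap k R B B') :=
  letI : Module B ((R ⊗[k] B') ⧸ I.map (tmap k R B B')) :=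
    Module.compHom _ (algebraMap B B')
  haveI : IsScalarTower B B' ((R ⊗[k] B') ⧸ I.map (tmap k R B B')) :=
    ⟨fun b b' q => by
      show (b • b') • q = algebraMap B B' b • (b' • q)
      rw [Algebra.smul_def, mul_smul]⟩
  LinearMap.liftBaseChange B'
    { toFun := Ideal.Quotient.lift I
        ((Ideal.Quotient.mk (I.map (tmap k R B B'))).comp (tmap k R B B').toRingHom)
        (fun a ha => Ideal.Quotient.eq_zero_iff_mem.mpr (Ideal.mem_map_of_mem _ ha))
      map_add' := map_add _
      map_smul' := fun b q => by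
        obtain ⟨x, rfl⟩ := Ideal.Quotient.mk_surjective q
        show Ideal.Quotient.mk (I.map (tmap k R B B')) (tmap k R B B' (b • x)) =
          Ideal.Quotient.mk (I.map (tmap k R B B')) (algebraMap B B' b • tmap k R B B' x)
        rw [tmap_smul] }

theorem quotMap_tmul (b' : B') (x : R ⊗[k] B) :
    quotMap I (b' ⊗ₜ[B] Ideal.Quotient.mk I x) =
      Ideal.Quotient.mk (I.map (tmap k R B B')) (b' • tmap k R B B' x) := rfl

/-- Auxiliary inverse of `quotMap`, before passing to the quotient:
`r ⊗ b' ↦ b' ⊗ [r ⊗ 1]`. -/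
noncomputable def thetaAux : R ⊗[k] B' →+ B' ⊗[B] ((R ⊗[k] B) ⧸ I) :=
  TensorProduct.liftAddHom
    { toFun := fun r =>
        { toFun := fun b' => b' ⊗ₜ[B] Ideal.Quotient.mk I (r ⊗ₜ[k] (1 : B))
          map_zero' := TensorProduct.zero_tmul _ _
          map_add' := fun b₁ b₂ => TensorProduct.add_tmul _ _ _ }
      map_zero' := by
        ext b'
        simp
      map_add' := fun r₁ r₂ => by
        ext b'
        simp [TensorProduct.add_tmul, TensorProduct.tmul_add] }
    (fun c r b' => by
      show b' ⊗ₜ[B] Ideal.Quotient.mk I ((c • r) ⊗ₜ[k] (1 : B)) =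
        (c • b') ⊗ₜ[B] Ideal.Quotient.mk I (r ⊗ₜ[k] (1 : B))
      have h1 : ((c • r) ⊗ₜ[k] (1 : B) : R ⊗[k] B) =
          algebraMap k B c • (r ⊗ₜ[k] (1 : B)) := by
        rw [rightAlgebra_smul_tmul, mul_one, TensorProduct.smul_tmul,
          Algebra.algebraMap_eq_smul_one]
      have h2 : Ideal.Quotient.mk I (algebraMap k B c • (r ⊗ₜ[k] (1 : B))) =
          algebraMap k B c • Ideal.Quotient.mk I (r ⊗ₜ[k] (1 : B)) := rfl
      rw [h1, h2, ← TensorProduct.smul_tmul, Algebra.smul_def (algebraMap k B c) b',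
        ← IsScalarTower.algebraMap_apply, ← Algebra.smul_def])

theorem thetaAux_tmul (r : R) (b' : B') :
    thetaAux I (r ⊗ₜ[k] b') = b' ⊗ₜ[B] Ideal.Quotient.mk I (r ⊗ₜ[k] (1 : B)) := rfl

theorem thetaAux_smul (b'' : B') (z : R ⊗[k] B') :
    thetaAux (B := B) I (b'' • z) = b'' • thetaAux I z := by
  induction z using TensorProduct.induction_on with
  | zero => simp
  | tmul r b' =>
    rw [rightAlgebra_smul_tmul, thetaAux_tmul, thetaAux_tmul, TensorProduct.smul_tmul',
      smul_eq_mul]
  | add z z' hz hz' => rw [smul_add, map_add, map_add, hz, hz', smul_add]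

theorem thetaAux_tmap (x : R ⊗[k] B) :
    thetaAux I (tmap k R B B' x) = (1 : B') ⊗ₜ[B] Ideal.Quotient.mk I x := by
  induction x using TensorProduct.induction_on with
  | zero => simp
  | tmul r b =>
    rw [tmap_tmul, thetaAux_tmul]
    have h1 : (r ⊗ₜ[k] b : R ⊗[k] B) = b • (r ⊗ₜ[k] (1 : B)) := by
      rw [rightAlgebra_smul_tmul, mul_one]
    have h2 : Ideal.Quotient.mk I (b • (r ⊗ₜ[k] (1 : B))) =
        b • Ideal.Quotient.mk I (r ⊗ₜ[k] (1 : B)) := rfl
    rw [h1, h2, ← TensorProduct.smul_tmul, Algebra.smul_def, mul_one]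
  | add x y hx hy => rw [map_add, map_add, map_add, hx, hy, TensorProduct.tmul_add]

theorem thetaAux_eq_zero_of_mem {z : R ⊗[k] B'} (hz : z ∈ I.map (tmap k R B B')) :
    thetaAux I z = 0 := by
  have key : ∀ a : R ⊗[k] B', thetaAux I (a * z) = 0 := by
    refine Submodule.span_induction (p := fun z _ => ∀ a : R ⊗[k] B', thetaAux I (a * z) = 0)
      ?_ ?_ ?_ ?_ hz
    · rintro _ ⟨x, hx, rfl⟩ a
      induction a using TensorProduct.induction_on with
      | zero => simp
      | tmul r b' =>
        have hmem : (r ⊗ₜ[k] (1 : B)) * x ∈ I := I.mul_mem_left _ hx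
        have h0 : Ideal.Quotient.mk I ((r ⊗ₜ[k] (1 : B)) * x) = 0 :=
          Ideal.Quotient.eq_zero_iff_mem.mpr hmem
        have h1 : (r ⊗ₜ[k] b') * tmap k R B B' x =
            b' • tmap k R B B' ((r ⊗ₜ[k] (1 : B)) * x) := tmul_mul_tmap r b' x
        rw [h1, thetaAux_smul, thetaAux_tmap, h0, TensorProduct.tmul_zero, smul_zero]
      | add a a' ha ha' => rw [add_mul, map_add, ha, ha', add_zero]
    · intro a
      rw [mul_zero, map_zero]
    · intro z z' _ _ hz hz' a
      rw [mul_add, map_add, hz a, hz' a, add_zero]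
    · intro c z _ hz a
      rw [smul_eq_mul, ← mul_assoc]
      exact hz (a * c)
  have := key 1
  rwa [one_mul] at this

theorem quotMap_surjective : Function.Surjective (quotMap (B' := B') I) := by
  intro q
  obtain ⟨z, rfl⟩ := Ideal.Quotient.mk_surjective q
  induction z using TensorProduct.induction_on with
  | zero => exact ⟨0, by simp⟩
  | tmul r b' =>
    refine ⟨b' ⊗ₜ[B] Ideal.Quotient.mk I (r ⊗ₜ[k] (1 : B)), ?_⟩
    rw [quotMap_tmul, tmap_tmul, map_one, rightAlgebra_smul_tmul, mul_one]
  | add z z' hz hz' =>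
    obtain ⟨t, ht⟩ := hz
    obtain ⟨t', ht'⟩ := hz'
    exact ⟨t + t', by rw [map_add, ht, ht', map_add]⟩

theorem quotMap_eq_mk (t : B' ⊗[B] ((R ⊗[k] B) ⧸ I)) :
    ∃ z : R ⊗[k] B', quotMap I t = Ideal.Quotient.mk (I.map (tmap k R B B')) z ∧
      thetaAux I z = t := by
  induction t using TensorProduct.induction_on with
  | zero => exact ⟨0, by simp, by simp⟩
  | tmul b' q =>
    obtain ⟨x, rfl⟩ := Ideal.Quotient.mk_surjective q
    refine ⟨b' • tmap k R B B' x, quotMap_tmul I b' x, ?_⟩
    rw [thetaAux_smul, thetaAux_tmap, TensorProduct.smul_tmul', smul_eq_mul, mul_one]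
  | add t t' ht ht' =>
    obtain ⟨z, hz, hz'⟩ := ht
    obtain ⟨w, hw, hw'⟩ := ht'
    exact ⟨z + w, by rw [map_add, hz, hw, map_add], by rw [map_add, hz', hw']⟩

theorem quotMap_injective : Function.Injective (quotMap (B' := B') I) := by
  rw [injective_iff_map_eq_zero]
  intro t ht
  obtain ⟨z, hz, hzt⟩ := quotMap_eq_mk I t
  rw [hz, Ideal.Quotient.eq_zero_iff_mem] at ht
  rw [← hzt, thetaAux_eq_zero_of_mem I ht]

/-- **Base change of the quotient**: `B' ⊗[B] (R ⊗[k] B) ⧸ I ≃ (R ⊗[k] B') ⧸ I B'`. -/
noncomputable def quotMapEquiv :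
    B' ⊗[B] ((R ⊗[k] B) ⧸ I) ≃ₗ[B'] (R ⊗[k] B') ⧸ I.map (tmap k R B B') :=
  LinearEquiv.ofBijective (quotMap I) ⟨quotMap_injective I, quotMap_surjective I⟩

theorem quotMapEquiv_tmul (b' : B') (x : R ⊗[k] B) :
    quotMapEquiv I (b' ⊗ₜ[B] Ideal.Quotient.mk I x) =
      Ideal.Quotient.mk (I.map (tmap k R B B')) (b' • tmap k R B B' x) := rfl

theorem finite_quotient_tmap [Module.Finite B ((R ⊗[k] B) ⧸ I)] :
    Module.Finite B' ((R ⊗[k] B') ⧸ I.map (tmap k R B B')) :=
  Module.Finite.equiv (quotMapEquiv I)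

theorem projective_quotient_tmap [Module.Projective B ((R ⊗[k] B) ⧸ I)] :
    Module.Projective B' ((R ⊗[k] B') ⧸ I.map (tmap k R B B')) :=
  Module.Projective.of_equiv (quotMapEquiv I)

variable {n : Type w} [Fintype n] [DecidableEq n] (s : n → R)

/-- The chart map of the extended ideal is the base change of the chart map of `I`. -/
theorem quotMap_baseChange_chartMap (v : n → B') :
    quotMap I ((chartMap s I).baseChange B' (∑ j, v j ⊗ₜ[B] (Pi.single j (1 : B) : n → B))) =
      chartMap s (I.map (tmap k R B B')) v := by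
  rw [map_sum, map_sum, chartMap_apply, map_sum]
  refine Finset.sum_congr rfl fun j _ => ?_
  rw [LinearMap.baseChange_tmul, chartMap_apply]
  have h1 : (∑ i, s i ⊗ₜ[k] (Pi.single j (1 : B) : n → B) i : R ⊗[k] B) = s j ⊗ₜ[k] (1 : B) := by
    rw [Finset.sum_eq_single j]
    · rw [Pi.single_eq_same]
    · intro i _ hij
      rw [Pi.single_eq_of_ne hij, TensorProduct.tmul_zero]
    · intro hj
      exact absurd (Finset.mem_univ j) hj
  rw [h1, quotMap_tmul, tmap_tmul, map_one, rightAlgebra_smul_tmul, mul_one]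

/-- If the extended ideal is a chart ideal for `s`, the base change of the chart map of `I` is
surjective. -/
theorem surjective_baseChange_chartMap
    (h : Function.Surjective (chartMap s (I.map (tmap k R B B')))) :
    Function.Surjective ((chartMap s I).baseChange B') := by
  intro t
  obtain ⟨v, hv⟩ := h (quotMap I t)
  refine ⟨∑ j, v j ⊗ₜ[B] (Pi.single j (1 : B) : n → B), quotMap_injective I ?_⟩
  rw [quotMap_baseChange_chartMap, hv]

end WithAlgebra

/-! ### Statements for an algebra map `φ : B →ₐ[k] B'` -/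

/-- The quotient by the extended ideal is finite over `B'` if the quotient by `I` is finite
over `B`. -/
theorem finite_quotient_map (φ : B →ₐ[k] B') (I : Ideal (R ⊗[k] B))
    [Module.Finite B ((R ⊗[k] B) ⧸ I)] :
    Module.Finite B' ((R ⊗[k] B') ⧸ I.map (Algebra.TensorProduct.map (AlgHom.id k R) φ)) := by
  let _ : Algebra B B' := φ.toRingHom.toAlgebra
  have : IsScalarTower k B B' := IsScalarTower.of_algebraMap_eq fun c => (φ.commutes c).symm
  have hφ : IsScalarTower.toAlgHom k B B' = φ := AlgHom.ext fun _ => rfl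
  have h := finite_quotient_tmap (B' := B') I
  unfold tmap at h
  rwa [hφ] at h

/-- The quotient by the extended ideal is projective over `B'` if the quotient by `I` is
projective over `B`. -/
theorem projective_quotient_map (φ : B →ₐ[k] B') (I : Ideal (R ⊗[k] B))
    [Module.Projective B ((R ⊗[k] B) ⧸ I)] :
    Module.Projective B'
      ((R ⊗[k] B') ⧸ I.map (Algebra.TensorProduct.map (AlgHom.id k R) φ)) := by
  let _ : Algebra B B' := φ.toRingHom.toAlgebra
  have : IsScalarTower k B B' := IsScalarTower.of_algebraMap_eq fun c => (φ.commutes c).symm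
  have hφ : IsScalarTower.toAlgHom k B B' = φ := AlgHom.ext fun _ => rfl
  have h := projective_quotient_tmap (B' := B') I
  unfold tmap at h
  rwa [hφ] at h

/-- Over a field-valued point `χ : B → K`, the dimension of the quotient by the extended ideal
is the rank of `(R ⊗[k] B) ⧸ I` at the point `ker χ`. -/
theorem finrank_quotient_map {K : Type t'} [Field K] [Algebra k K] (χ : B →ₐ[k] K)
    (I : Ideal (R ⊗[k] B)) [Module.Finite B ((R ⊗[k] B) ⧸ I)]
    [Module.Projective B ((R ⊗[k] B) ⧸ I)] :
    Module.finrank K ((R ⊗[k] K) ⧸ I.map (Algebra.TensorProduct.map (AlgHom.id k R) χ)) =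
      Module.rankAtStalk ((R ⊗[k] B) ⧸ I)
        ⟨RingHom.ker χ.toRingHom, RingHom.ker_isPrime _⟩ := by
  let _ : Algebra B K := χ.toRingHom.toAlgebra
  have : IsScalarTower k B K := IsScalarTower.of_algebraMap_eq fun c => (χ.commutes c).symm
  have hχ : IsScalarTower.toAlgHom k B K = χ := AlgHom.ext fun _ => rfl
  rw [rankAtStalk_eq_finrank_fieldPoint K ⟨RingHom.ker χ.toRingHom, RingHom.ker_isPrime _⟩ rfl,
    ← hχ]
  exact (quotMapEquiv (B' := K) I).finrank_eq.symm

variable {n : Type w} [Fintype n] [DecidableEq n] {s : n → R}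

/-- **Fibre criterion for chart ideals.** If `(R ⊗[k] B) ⧸ I` is finite projective over `B`
and, above every maximal ideal of `B`, the extension of `I` to some field-valued point is a
chart ideal for `s`, then `I` is a chart ideal for `s`. -/
theorem isChartIdeal_of_fibrewise (I : Ideal (R ⊗[k] B))
    [Module.Finite B ((R ⊗[k] B) ⧸ I)] [Module.Projective B ((R ⊗[k] B) ⧸ I)]
    (h : ∀ m : Ideal B, m.IsMaximal → ∃ (K : Type t') (_ : Field K) (_ : Algebra k K)
      (χ : B →ₐ[k] K), RingHom.ker χ.toRingHom = m ∧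
        IsChartIdeal s (I.map (Algebra.TensorProduct.map (AlgHom.id k R) χ))) :
    IsChartIdeal s I := by
  rw [isChartIdeal_iff_bijective_chartMap]
  have hsurj : Function.Surjective (chartMap s I) := by
    refine surjective_of_fieldPoints.{t'} (chartMap s I) fun m hm => ?_
    obtain ⟨K, _, _, χ, hker, hK⟩ := h m hm
    let _ : Algebra B K := χ.toRingHom.toAlgebra
    have : IsScalarTower k B K := IsScalarTower.of_algebraMap_eq fun c => (χ.commutes c).symm
    have hχ : IsScalarTower.toAlgHom k B K = χ := AlgHom.ext fun _ => rfl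
    refine ⟨K, inferInstance, inferInstance, hker, surjective_baseChange_chartMap I s ?_⟩
    unfold tmap
    rw [hχ]
    exact hK.2
  refine bijective_of_surjective_of_rank_le hsurj fun m hm => ?_
  obtain ⟨K, _, _, χ, hker, hK⟩ := h m hm
  have : Nontrivial B := ⟨⟨0, 1, fun h01 => hm.ne_top ((Ideal.eq_top_iff_one _).mpr
    (h01 ▸ m.zero_mem))⟩⟩
  have h1 : Module.rankAtStalk (n → B) (⟨m, inferInstance⟩ : PrimeSpectrum B) =
      Fintype.card n := by
    rw [Module.rankAtStalk_eq_finrank_of_free, Pi.natCast_apply, Module.finrank_fintype_fun_eq_card]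
    rfl
  have h2 : Module.rankAtStalk ((R ⊗[k] B) ⧸ I) (⟨m, inferInstance⟩ : PrimeSpectrum B) =
      Fintype.card n := by
    have h3 := finrank_quotient_map χ I
    rw [hK.finrank_eq] at h3
    rw [h3]
    congr 1
    exact PrimeSpectrum.ext hker.symm
  rw [h1, h2]

/-- **Fibre criterion for the invertibility of a function at a chart ideal.** -/
theorem isUnit_eval_of_fibrewise {I : Ideal (R ⊗[k] B)} (hI : IsChartIdeal s I)
    (f : ChartAlg k R s)
    (h : ∀ m : Ideal B, m.IsMaximal → ∃ (K : Type t') (_ : Field K) (_ : Algebra k K)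
      (χ : B →ₐ[k] K), RingHom.ker χ.toRingHom = m ∧ (hI.map χ).eval f ≠ 0) :
    IsUnit (hI.eval f) := by
  by_contra hnu
  obtain ⟨m, hm, hfm⟩ := exists_max_ideal_of_mem_nonunits (mem_nonunits_iff.mpr hnu)
  obtain ⟨K, _, _, χ, hker, hne⟩ := h m hm
  apply hne
  rw [hI.eval_map χ f]
  have hmem : hI.eval f ∈ RingHom.ker χ.toRingHom := hker ▸ hfm
  exact hmem

/-- **Fibre criterion for points of a principal open of the quot chart.** If
`(R ⊗[k] B) ⧸ I` is finite projective over `B` and, above every maximal ideal of `B`, the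
extension of `I` to some field-valued point is a chart ideal for `s` at which `f` does not
vanish, then `I` is classified by a map out of `ChartAlg k R s [1/f]`. -/
theorem exists_chartAwayMap_of_fibrewise (I : Ideal (R ⊗[k] B))
    [Module.Finite B ((R ⊗[k] B) ⧸ I)] [Module.Projective B ((R ⊗[k] B) ⧸ I)]
    (f : ChartAlg k R s)
    (h : ∀ m : Ideal B, m.IsMaximal → ∃ (K : Type t') (_ : Field K) (_ : Algebra k K)
      (χ : B →ₐ[k] K), RingHom.ker χ.toRingHom = m ∧
        ∃ hK : IsChartIdeal s (I.map (Algebra.TensorProduct.map (AlgHom.id k R) χ)),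
          hK.eval f ≠ 0) :
    ∃ (hI : IsChartIdeal s I), IsUnit (hI.eval f) ∧
      ∃ ψ : Localization.Away f →ₐ[k] B,
        Ideal.map (Algebra.TensorProduct.map (AlgHom.id k R) ψ) (univIdealAway k R s f) = I := by
  have hI : IsChartIdeal s I := isChartIdeal_of_fibrewise I fun m hm => by
    obtain ⟨K, iF, iA, χ, hker, hK, _⟩ := h m hm
    exact ⟨K, iF, iA, χ, hker, hK⟩
  have hu : IsUnit (hI.eval f) := isUnit_eval_of_fibrewise hI f fun m hm => by
    obtain ⟨K, iF, iA, χ, hker, hK, hne⟩ := h m hm
    exact ⟨K, iF, iA, χ, hker, hne⟩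
  exact ⟨hI, hu, exists_chartAwayMap f hI hu⟩

/-- **Fibrewise points of `ChartAlg k R s [1/f]` glue.** If `(R ⊗[k] B) ⧸ I` is finite
projective over `B` and, above every maximal ideal of `B`, the extension of `I` to some
field-valued point `χ : B → K` is classified by a map `γ : ChartAlg k R s [1/f] → K`, then `I`
itself is classified by a unique map `ψ : ChartAlg k R s [1/f] → B`. -/
theorem existsUnique_chartAwayMap_of_fibrewise (I : Ideal (R ⊗[k] B))
    [Module.Finite B ((R ⊗[k] B) ⧸ I)] [Module.Projective B ((R ⊗[k] B) ⧸ I)]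
    (f : ChartAlg k R s)
    (h : ∀ m : Ideal B, m.IsMaximal → ∃ (K : Type t') (_ : Field K) (_ : Algebra k K)
      (χ : B →ₐ[k] K), RingHom.ker χ.toRingHom = m ∧
        ∃ γ : Localization.Away f →ₐ[k] K,
          I.map (Algebra.TensorProduct.map (AlgHom.id k R) χ) =
            Ideal.map (Algebra.TensorProduct.map (AlgHom.id k R) γ) (univIdealAway k R s f)) :
    ∃! ψ : Localization.Away f →ₐ[k] B,
      Ideal.map (Algebra.TensorProduct.map (AlgHom.id k R) ψ) (univIdealAway k R s f) = I := by
  obtain ⟨_, _, ψ, hψ⟩ := exists_chartAwayMap_of_fibrewise I f fun m hm => by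
    obtain ⟨K, iF, iA, χ, hker, γ, hγ⟩ := h m hm
    have hKγ : IsChartIdeal s
        (Ideal.map (Algebra.TensorProduct.map (AlgHom.id k R) γ) (univIdealAway k R s f)) :=
      (isChartIdeal_univIdealAway f).map γ
    have hK : IsChartIdeal s (I.map (Algebra.TensorProduct.map (AlgHom.id k R) χ)) :=
      hγ ▸ hKγ
    refine ⟨K, iF, iA, χ, hker, hK, ?_⟩
    rw [IsChartIdeal.eval_congr hK hKγ hγ f, (isChartIdeal_univIdealAway f).eval_map γ f]
    exact ((isUnit_eval_univIdealAway (k := k) (R := R) (s := s) f).map γ).ne_zero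
  exact ⟨ψ, hψ, fun ψ' hψ' => chartAway_hom_ext f (hψ'.trans hψ.symm)⟩

/-- Compatibility of the classifying map with a field-valued point: if the extension of `I` to
`χ : B → K` is classified by `γ`, and `I` is classified by `ψ`, then `χ ∘ ψ = γ`. -/
theorem comp_chartAwayMap_eq (f : ChartAlg k R s) {I : Ideal (R ⊗[k] B)}
    {ψ : Localization.Away f →ₐ[k] B}
    (hψ : Ideal.map (Algebra.TensorProduct.map (AlgHom.id k R) ψ) (univIdealAway k R s f) = I)
    (χ : B →ₐ[k] B') {γ : Localization.Away f →ₐ[k] B'}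
    (hγ : I.map (Algebra.TensorProduct.map (AlgHom.id k R) χ) =
      Ideal.map (Algebra.TensorProduct.map (AlgHom.id k R) γ) (univIdealAway k R s f)) :
    χ.comp ψ = γ := by
  apply chartAway_hom_ext f
  rw [← hγ, ← hψ]
  have e : Algebra.TensorProduct.map (AlgHom.id k R) (χ.comp ψ) =
      (Algebra.TensorProduct.map (AlgHom.id k R) χ).comp
        (Algebra.TensorProduct.map (AlgHom.id k R) ψ) := by
    ext x <;> simp
  rw [e]
  exact (Ideal.map_map (Algebra.TensorProduct.map (AlgHom.id k R) ψ).toRingHom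
    (Algebra.TensorProduct.map (AlgHom.id k R) χ).toRingHom).symm

end QuotBC

end Fermat.Agent.S25.helper174
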