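import Mathlib

/-!
# S25 brick (helper1800): `Ω` is invertible on a smooth curve

Mathlib-only, statement-agnostic.

* `invertible_of_contract_eq_one_of_smul_comm` : a criterion for `Module.Invertible`.
* `invertible_of_isLocalized_span` : invertibility of a module is local for the Zariski topology
  (Mathlib only has the converse direction).
* `invertible_kaehlerDifferential_of_locally` : if `k → R` is locally standard smooth of relative
  dimension one then `Ω[R⁄k]` is an invertible `R`-module.
* `invertible_kaehlerDifferential_of_isAffineOpen` : the scheme form, for an affine chart of a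
  scheme smooth of relative dimension one over `Spec k`.
-/

set_option autoImplicit false

open TensorProduct CategoryTheory AlgebraicGeometry

namespace Fermat.Agent.S25.helper1800

universe u

section Criterion

variable {R : Type*} [CommRing R] {M : Type*} [AddCommGroup M] [Module R M]

/-- In an invertible module any two elements are "proportional through every functional". -/
theorem dual_apply_smul_comm_of_invertible [Module.Invertible R M] (φ : Module.Dual R M)
    (m m' : M) : φ m • m' = φ m' • m := by
  have h : m ⊗ₜ[R] m' = m' ⊗ₜ[R] m := Module.Invertible.tmul_comm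
  have := congrArg (TensorProduct.lift (LinearMap.lsmul R M ∘ₗ φ)) h
  simpa using this

/-- A criterion for invertibility: the contraction hits `1` and the module has "rank at most
one" in the sense that `φ m • m' = φ m' • m` for every functional `φ`. -/
theorem invertible_of_contract_eq_one_of_smul_comm
    (h1 : ∃ s : Module.Dual R M ⊗[R] M, contractLeft R M s = 1)
    (h2 : ∀ (φ : Module.Dual R M) (m m' : M), φ m • m' = φ m' • m) :
    Module.Invertible R M := by
  obtain ⟨s, hs⟩ := h1
  have key : ∀ a b : Module.Dual R M ⊗[R] M,
      contractLeft R M a • b = contractLeft R M b • a := by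
    intro a b
    induction a using TensorProduct.induction_on with
    | zero => simp
    | add a a' ha ha' => rw [map_add, add_smul, ha, ha', smul_add]
    | tmul φ m =>
      induction b using TensorProduct.induction_on with
      | zero => simp
      | add b b' hb hb' => rw [smul_add, hb, hb', map_add, add_smul]
      | tmul ψ n =>
        simp only [contractLeft_apply]
        calc φ m • (ψ ⊗ₜ[R] n) = ψ ⊗ₜ[R] (φ m • n) := by rw [tmul_smul]
          _ = ψ ⊗ₜ[R] (φ n • m) := by rw [h2 φ m n]
          _ = (φ n • ψ) ⊗ₜ[R] m := by rw [tmul_smul, smul_tmul']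
          _ = (ψ n • φ) ⊗ₜ[R] m := by
            congr 1
            ext x
            have := congrArg φ (h2 ψ x n)
            simp only [map_smul, smul_eq_mul] at this
            simp only [LinearMap.smul_apply, smul_eq_mul]
            linear_combination this
          _ = ψ n • (φ ⊗ₜ[R] m) := by rw [smul_tmul']
  refine ⟨⟨?_, ?_⟩⟩
  · intro a b hab
    have ha := key s a
    have hb := key s b
    rw [hs, one_smul] at ha hb
    rw [ha, hb, hab]
  · intro r
    exact ⟨r • s, by simp [hs]⟩

end Criterion

section LocalToGlobal

variable {R : Type*} [CommRing R] {M : Type*} [AddCommGroup M] [Module R M]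

/-- Invertibility of a module is local: if `M` becomes invertible after inverting each
element of a set generating the unit ideal, then `M` is invertible. -/
theorem invertible_of_isLocalized_span (s : Set R) (hs : Ideal.span s = ⊤)
    (Rₚ : ∀ _ : s, Type*) [∀ g : s, CommRing (Rₚ g)] [∀ g : s, Algebra R (Rₚ g)]
    [∀ g : s, IsLocalization.Away g.val (Rₚ g)]
    (Mₚ : ∀ _ : s, Type*) [∀ g : s, AddCommGroup (Mₚ g)] [∀ g : s, Module R (Mₚ g)]
    [∀ g : s, Module (Rₚ g) (Mₚ g)] [∀ g : s, IsScalarTower R (Rₚ g) (Mₚ g)]
    (ϕ : ∀ g : s, M →ₗ[R] Mₚ g) [∀ g : s, IsLocalizedModule.Away g.val (ϕ g)]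
    (h : ∀ g : s, Module.Invertible (Rₚ g) (Mₚ g)) :
    Module.Invertible R M := by
  have : Module.FinitePresentation R M :=
    Module.FinitePresentation.of_localizationSpan' s hs (Rₚ := Rₚ) ϕ (fun g => by
      have := h g; exact Module.finitePresentation_of_projective _ _)
  apply invertible_of_contract_eq_one_of_smul_comm
  · let I : Submodule R R := LinearMap.range (contractLeft R M)
    have h1 : (1 : R) ∈ I := by
      refine Submodule.mem_of_isLocalized_span s hs (fun g => Rₚ g)
        (fun g => Algebra.linearMap R (Rₚ g)) (fun g => ?_)
      have := h g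
      have hall : ∀ t : Module.Dual (Rₚ g) (Mₚ g) ⊗[Rₚ g] Mₚ g,
          contractLeft (Rₚ g) (Mₚ g) t ∈
            I.localized' (Rₚ g) (.powers g.1) (Algebra.linearMap R (Rₚ g)) := by
        intro t
        induction t using TensorProduct.induction_on with
        | zero => simp
        | add a b ha hb => rw [map_add]; exact add_mem ha hb
        | tmul ψ μ =>
          obtain ⟨⟨n, u⟩, hu⟩ := IsLocalizedModule.surj (.powers g.1) (ϕ g) μ
          obtain ⟨hh, v, hv⟩ := Module.FinitePresentation.exists_lift_of_isLocalizedModule
            (.powers g.1) (Algebra.linearMap R (Rₚ g)) (ψ.restrictScalars R ∘ₗ ϕ g)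
          refine ⟨hh n, ⟨hh ⊗ₜ n, by simp⟩, v * u, ?_⟩
          rw [IsLocalizedModule.mk'_eq_iff]
          have h3 := congrArg (fun l => l n) hv
          simp only [LinearMap.coe_comp, Function.comp_apply, LinearMap.smul_apply,
            LinearMap.coe_restrictScalars] at h3
          rw [h3, ← hu, contractLeft_apply, mul_smul]
          simp only [Submonoid.smul_def, LinearMap.map_smul_of_tower]
      obtain ⟨t, ht⟩ := (Module.Invertible.bijective (R := Rₚ g) (M := Mₚ g)).2 1
      have h1' : (1 : Rₚ g) ∈ I.localized₀ (.powers g.1) (Algebra.linearMap R (Rₚ g)) := by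
        have := hall t
        rwa [ht] at this
      simpa using h1'
    exact h1
  · intro φ m m'
    refine Module.eq_of_isLocalized_span s hs Mₚ ϕ _ _ (fun g => ?_)
    have := h g
    let φg : Module.Dual (Rₚ g) (Mₚ g) :=
      .extendScalarsOfIsLocalization (.powers g.1) _ <| IsLocalizedModule.map
        (.powers g.1) (ϕ g) (Algebra.linearMap R (Rₚ g)) φ
    have hφ : ∀ x : M, φg (ϕ g x) = algebraMap R (Rₚ g) (φ x) := fun x =>
      IsLocalizedModule.map_apply ..
    have := dual_apply_smul_comm_of_invertible φg (ϕ g m) (ϕ g m')
    rw [hφ, hφ, algebraMap_smul, algebraMap_smul] at this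
    rw [map_smul, map_smul, this]

end LocalToGlobal

section Omega

/-- Over the zero ring every module is invertible. -/
theorem invertible_of_subsingleton_ring (S : Type*) [CommRing S] [Subsingleton S]
    (M : Type*) [AddCommGroup M] [Module S M] : Module.Invertible S M := by
  have : Subsingleton (Module.Dual S M ⊗[S] M) := Module.subsingleton S _
  refine ⟨⟨fun a b _ => Subsingleton.elim a b, fun r => ⟨0, Subsingleton.elim _ _⟩⟩⟩

/-- A free module of rank one is invertible. -/
theorem invertible_of_free_of_rank_eq_one (S : Type*) [CommRing S] [Nontrivial S]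
    (M : Type*) [AddCommGroup M] [Module S M] [Module.Free S M] (h : Module.rank S M = 1) :
    Module.Invertible S M := by
  obtain ⟨e⟩ := nonempty_linearEquiv_of_lift_rank_eq (R := S) (M := M) (M' := S)
    (by rw [h, Module.rank_self]; simp)
  exact Module.Invertible.congr e.symm

/-- For a standard smooth algebra of relative dimension one, the module of Kähler
differentials is invertible. -/
theorem invertible_kaehlerDifferential_of_isStandardSmoothOfRelativeDimension_one
    (k S : Type*) [CommRing k] [CommRing S] [Algebra k S]
    [Algebra.IsStandardSmoothOfRelativeDimension 1 k S] : Module.Invertible S Ω[S⁄k] := by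
  rcases subsingleton_or_nontrivial S with hS | hS
  · exact invertible_of_subsingleton_ring S _
  · have : Algebra.IsStandardSmooth k S :=
      Algebra.IsStandardSmoothOfRelativeDimension.isStandardSmooth 1
    have hr := Algebra.IsStandardSmoothOfRelativeDimension.rank_kaehlerDifferential
      (R := k) (S := S) 1
    exact invertible_of_free_of_rank_eq_one S _ (by simpa using hr)

/-- **Ω is invertible for a smooth algebra of relative dimension one.**
If `k → R` is locally (on `Spec R`) standard smooth of relative dimension one, then
`Ω[R⁄k]` is an invertible `R`-module. -/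
theorem invertible_kaehlerDifferential_of_locally {k R : Type u} [CommRing k] [CommRing R]
    [Algebra k R]
    (h : RingHom.Locally (RingHom.IsStandardSmoothOfRelativeDimension 1) (algebraMap k R)) :
    Module.Invertible R Ω[R⁄k] := by
  obtain ⟨s, hs, hP⟩ := h
  refine invertible_of_isLocalized_span s hs (fun g => Localization.Away g.1)
    (fun g => Ω[Localization.Away g.1⁄k])
    (fun g => KaehlerDifferential.map k k R (Localization.Away g.1)) (fun g => ?_)
  have h1 := hP g.1 g.2
  rw [← IsScalarTower.algebraMap_eq, RingHom.isStandardSmoothOfRelativeDimension_algebraMap] at h1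
  exact invertible_kaehlerDifferential_of_isStandardSmoothOfRelativeDimension_one k _

end Omega

section SchemeForm

/-- Scheme form: for a morphism `c : C ⟶ Spec k` that is smooth of relative dimension one and
an affine open `U` of `C`, the module of Kähler differentials of `Γ(C, U)` over `k` is
invertible, for every `k`-algebra structure on `Γ(C, U)` whose structure map is the canonical
one. -/
theorem invertible_kaehlerDifferential_of_isAffineOpen {k : Type u} [CommRing k]
    {C : Scheme.{u}} (c : C ⟶ Spec (CommRingCat.of k)) [SmoothOfRelativeDimension 1 c]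
    {U : C.Opens} (hU : IsAffineOpen U) [Algebra k Γ(C, U)]
    (halg : algebraMap k Γ(C, U) =
      ((Scheme.ΓSpecIso (CommRingCat.of k)).inv ≫ c.appLE ⊤ U le_top).hom) :
    Module.Invertible Γ(C, U) Ω[Γ(C, U)⁄k] := by
  apply invertible_kaehlerDifferential_of_locally
  have h1 : RingHom.Locally (RingHom.IsStandardSmoothOfRelativeDimension 1)
      (c.appLE ⊤ U le_top).hom :=
    HasRingHomProperty.appLE (P := @SmoothOfRelativeDimension 1) c inferInstance
      ⟨⊤, isAffineOpen_top _⟩ ⟨U, hU⟩ le_top
  rw [halg]
  have hiso : RingHom.RespectsIso
      (RingHom.Locally (RingHom.IsStandardSmoothOfRelativeDimension.{u, u} 1)) :=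
    RingHom.locally_respectsIso RingHom.isStandardSmoothOfRelativeDimension_respectsIso
  exact hiso.2 _ (Scheme.ΓSpecIso (CommRingCat.of k)).symm.commRingCatIsoToRingEquiv h1

end SchemeForm

end Fermat.Agent.S25.helper1800
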