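import Mathlib

/-!
# Deformation of finite projective modules along surjections with nil kernel

`S → S'` is a surjective ring map (given as `Algebra S S'` with surjective `algebraMap`) whose
kernel consists of nilpotent elements.

* `isBaseChange_of_surjective_of_ker_le` / `ker_le_of_isBaseChange` / `surjective_of_isBaseChange`:
  for a surjective ring map, `π : P → P'` is a base change iff it is surjective with kernel `N • P`.
* `exists_lift_linearMap`: maps out of a projective module lift.
* `bijective_of_lift`: a lift of a bijective map between finite projective modules is bijective.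
* `exists_linearEquiv_lift`: isomorphisms lift.
* `exists_projective_lift`: every finite projective `S'`-module is the base change of a finite
  projective `S`-module.
-/

namespace Fermat.Agent.S25.helper1803

open TensorProduct

section Basic

variable {S S' : Type*} [CommRing S] [CommRing S'] [Algebra S S']
variable {P P' : Type*} [AddCommGroup P] [Module S P] [AddCommGroup P'] [Module S P']
  [Module S' P'] [IsScalarTower S S' P']

/-- For a surjective ring map `S → S'` with kernel `N`, a surjective `S`-linear map `π : P → P'`
with kernel contained in `N • P` exhibits `P'` as the base change of `P`. -/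
theorem isBaseChange_of_surjective_of_ker_le
    (hS : Function.Surjective (algebraMap S S')) (π : P →ₗ[S] P') (hπ : Function.Surjective π)
    (hker : LinearMap.ker π ≤ (RingHom.ker (algebraMap S S')) • (⊤ : Submodule S P)) :
    IsBaseChange S' π := by
  -- every element of `S' ⊗ P` is a pure tensor `1 ⊗ p`
  have hpure : ∀ z : S' ⊗[S] P, ∃ p : P, z = 1 ⊗ₜ[S] p := by
    intro z
    induction z using TensorProduct.induction_on with
    | zero => exact ⟨0, by simp⟩
    | tmul a p =>
      obtain ⟨s, rfl⟩ := hS a
      refine ⟨s • p, ?_⟩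
      rw [TensorProduct.tmul_smul, TensorProduct.smul_tmul', Algebra.smul_def, mul_one]
    | add x y hx hy =>
      obtain ⟨p, rfl⟩ := hx
      obtain ⟨q, rfl⟩ := hy
      exact ⟨p + q, by rw [TensorProduct.tmul_add]⟩
  -- elements of `N • P` die in `S' ⊗ P`
  have hzero : ∀ p ∈ (RingHom.ker (algebraMap S S')) • (⊤ : Submodule S P),
      (1 : S') ⊗ₜ[S] p = 0 := by
    intro p hp
    refine Submodule.smul_induction_on hp (fun r hr n _ => ?_) (fun x y hx hy => ?_)
    · rw [TensorProduct.tmul_smul, TensorProduct.smul_tmul', Algebra.smul_def, mul_one,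
        (RingHom.mem_ker).1 hr, TensorProduct.zero_tmul]
    · rw [TensorProduct.tmul_add, hx, hy, add_zero]
  unfold IsBaseChange
  constructor
  · rw [injective_iff_map_eq_zero]
    intro z hz
    obtain ⟨p, rfl⟩ := hpure z
    have hp : π p = 0 := by simpa using hz
    exact hzero p (hker hp)
  · intro p'
    obtain ⟨p, rfl⟩ := hπ p'
    exact ⟨1 ⊗ₜ p, by simp⟩

/-- For a surjective ring map, a base change map is surjective. -/
theorem surjective_of_isBaseChange
    (hS : Function.Surjective (algebraMap S S')) {π : P →ₗ[S] P'} (h : IsBaseChange S' π) :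
    Function.Surjective π := by
  intro p'
  induction p' using h.inductionOn with
  | zero => exact ⟨0, map_zero _⟩
  | tmul m => exact ⟨m, rfl⟩
  | smul s n hn =>
    obtain ⟨p, rfl⟩ := hn
    obtain ⟨r, rfl⟩ := hS s
    exact ⟨r • p, by rw [map_smul, algebraMap_smul]⟩
  | add n₁ n₂ h₁ h₂ =>
    obtain ⟨p, rfl⟩ := h₁
    obtain ⟨q, rfl⟩ := h₂
    exact ⟨p + q, map_add _ _ _⟩

/-- For a surjective ring map with kernel `N`, the kernel of a base change map is `N • P`. -/
theorem ker_le_of_isBaseChange
    (hS : Function.Surjective (algebraMap S S')) {π : P →ₗ[S] P'} (h : IsBaseChange S' π) :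
    LinearMap.ker π ≤ (RingHom.ker (algebraMap S S')) • (⊤ : Submodule S P) := by
  intro p hp
  set N := RingHom.ker (algebraMap S S') with hN
  -- the `S`-linear map `S' ⊗ P → P ⧸ N • P`
  let e₁ : S' ≃ₐ[S] S ⧸ N :=
    (Ideal.quotientKerAlgEquivOfSurjective (f := Algebra.ofId S S') hS).symm
  let e : S' ⊗[S] P ≃ₗ[S] P ⧸ (N • (⊤ : Submodule S P)) :=
    (TensorProduct.congr e₁.toLinearEquiv (LinearEquiv.refl S P)) ≪≫ₗ
      TensorProduct.quotTensorEquivQuotSMul P N
  have h1 : (1 : S') ⊗ₜ[S] p = 0 := by
    have := h.equiv_symm_apply p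
    rw [(LinearMap.mem_ker).1 hp, map_zero] at this
    exact this.symm
  have h2 : e ((1 : S') ⊗ₜ[S] p) = Submodule.Quotient.mk p := by
    simp only [e, LinearEquiv.trans_apply, TensorProduct.congr_tmul, LinearEquiv.refl_apply]
    have : e₁.toLinearEquiv 1 = Ideal.Quotient.mk N 1 := by
      simp [e₁]
    rw [this, TensorProduct.quotTensorEquivQuotSMul_mk_tmul, one_smul]
  rw [h1, map_zero] at h2
  exact (Submodule.Quotient.mk_eq_zero _).1 h2.symm

end Basic

section Lift

variable {S S' : Type*} [CommRing S] [CommRing S'] [Algebra S S']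
variable {P P' Q Q' : Type*} [AddCommGroup P] [Module S P] [AddCommGroup P'] [Module S P']
  [Module S' P'] [IsScalarTower S S' P'] [AddCommGroup Q] [Module S Q] [AddCommGroup Q']
  [Module S Q'] [Module S' Q'] [IsScalarTower S S' Q']

/-- (L2a) Maps out of a projective module lift along a surjective ring map. -/
theorem exists_lift_linearMap [Module.Projective S P]
    (hS : Function.Surjective (algebraMap S S'))
    (πP : P →ₗ[S] P') {πQ : Q →ₗ[S] Q'} (hQ : IsBaseChange S' πQ) (f' : P' →ₗ[S'] Q') :
    ∃ f : P →ₗ[S] Q, ∀ p, πQ (f p) = f' (πP p) := by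
  obtain ⟨f, hf⟩ := Module.projective_lifting_property πQ ((f'.restrictScalars S).comp πP)
    (surjective_of_isBaseChange hS hQ)
  exact ⟨f, fun p => by simpa using LinearMap.congr_fun hf p⟩

/-- An endomorphism of a finite module which is the identity modulo a nil ideal is surjective. -/
theorem surjective_of_lift_id [Module.Finite S P]
    (hS : Function.Surjective (algebraMap S S'))
    (hnil : RingHom.ker (algebraMap S S') ≤ nilradical S)
    {πP : P →ₗ[S] P'} (hP : IsBaseChange S' πP) (h : P →ₗ[S] P) (hh : ∀ p, πP (h p) = πP p) :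
    Function.Surjective h := by
  refine LinearMap.surjective_of_surjective_comp_mkQ h (RingHom.ker (algebraMap S S')) ?_ ?_
  · exact hnil.trans (Ideal.radical_le_jacobson)
  · intro q
    obtain ⟨p, rfl⟩ := Submodule.mkQ_surjective _ q
    refine ⟨p, ?_⟩
    simp only [LinearMap.coe_comp, Function.comp_apply, Submodule.mkQ_apply]
    rw [Submodule.Quotient.eq]
    apply ker_le_of_isBaseChange hS hP
    rw [LinearMap.mem_ker, map_sub, hh, sub_self]

/-- (L2b) A lift of a bijective map between finite projective modules along a surjective ring map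
with nil kernel is bijective. -/
theorem bijective_of_lift [Module.Finite S P] [Module.Finite S Q] [Module.Projective S Q]
    (hS : Function.Surjective (algebraMap S S'))
    (hnil : RingHom.ker (algebraMap S S') ≤ nilradical S)
    {πP : P →ₗ[S] P'} (hP : IsBaseChange S' πP) {πQ : Q →ₗ[S] Q'} (hQ : IsBaseChange S' πQ)
    (f : P →ₗ[S] Q) (f' : P' ≃ₗ[S'] Q') (hf : ∀ p, πQ (f p) = f' (πP p)) :
    Function.Bijective f := by
  obtain ⟨g, hg⟩ := exists_lift_linearMap hS πQ hP f'.symm.toLinearMap
  have h1 : Function.Surjective (g ∘ₗ f) :=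
    surjective_of_lift_id hS hnil hP _ (fun p => by simp [hg, hf])
  have h2 : Function.Surjective (f ∘ₗ g) :=
    surjective_of_lift_id hS hnil hQ _ (fun q => by simp [hg, hf])
  have h1' : Function.Injective (g ∘ₗ f) :=
    OrzechProperty.injective_of_surjective_endomorphism _ h1
  refine ⟨fun a b hab => h1' ?_, fun q => ?_⟩
  · simp [hab]
  · obtain ⟨q0, hq0⟩ := h2 q
    exact ⟨g q0, hq0⟩

/-- (L2) Isomorphisms between base changes of finite projective modules lift along a surjective
ring map with nil kernel. -/
theorem exists_linearEquiv_lift [Module.Finite S P] [Module.Finite S Q] [Module.Projective S P]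
    [Module.Projective S Q]
    (hS : Function.Surjective (algebraMap S S'))
    (hnil : RingHom.ker (algebraMap S S') ≤ nilradical S)
    {πP : P →ₗ[S] P'} (hP : IsBaseChange S' πP) {πQ : Q →ₗ[S] Q'} (hQ : IsBaseChange S' πQ)
    (e' : P' ≃ₗ[S'] Q') :
    ∃ e : P ≃ₗ[S] Q, ∀ p, πQ (e p) = e' (πP p) := by
  obtain ⟨f, hf⟩ := exists_lift_linearMap hS πP hQ e'.toLinearMap
  exact ⟨LinearEquiv.ofBijective f (bijective_of_lift hS hnil hP hQ f e' hf), hf⟩

end Lift

section ProjLift

universe u v w

variable {S : Type u} {S' : Type v} [CommRing S] [CommRing S'] [Algebra S S']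

/-- A square matrix whose entries lie in a nil ideal is nilpotent. -/
theorem isNilpotent_of_map_algebraMap_eq_zero {n : Type*} [Fintype n] [DecidableEq n]
    (hnil : RingHom.ker (algebraMap S S') ≤ nilradical S)
    (A : Matrix n n S) (hA : A.map (algebraMap S S') = 0) : IsNilpotent A := by
  set I : Ideal S := Ideal.span (Set.range (fun ab : n × n => A ab.1 ab.2)) with hI
  have hmem : ∀ a b, A a b ∈ I := fun a b => Ideal.subset_span ⟨(a, b), rfl⟩
  have hfg : I.FG := Submodule.fg_span (Set.finite_range _)
  have hle : I ≤ nilradical S := by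
    refine Ideal.span_le.2 ?_
    rintro _ ⟨⟨a, b⟩, rfl⟩
    apply hnil
    show A a b ∈ RingHom.ker (algebraMap S S')
    rw [RingHom.mem_ker]
    have := congr_fun (congr_fun hA a) b
    simpa using this
  obtain ⟨m, hm⟩ := (Ideal.FG.isNilpotent_iff_le_nilradical hfg).2 hle
  have key : ∀ j : ℕ, ∀ a b, (A ^ j) a b ∈ I ^ j := by
    intro j
    induction j with
    | zero => intro a b; simp
    | succ j ih =>
      intro a b
      have hexp : (A ^ (j + 1)) a b = ∑ c, (A ^ j) a c * A c b := by
        rw [pow_succ, Matrix.mul_apply]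
      have hI' : I ^ (j + 1) = I ^ j * I := pow_succ I j
      rw [hexp, hI']
      exact Ideal.sum_mem _ (fun c _ => Ideal.mul_mem_mul (ih a c) (hmem c b))
  refine ⟨m, ?_⟩
  ext a b
  have := key m a b
  rw [hm] at this
  simpa using this

/-- (L1) Every finite projective module over `S'` is the base change of a finite projective
module over `S`, when `S → S'` is surjective with nil kernel. -/
theorem exists_projective_lift
    (hS : Function.Surjective (algebraMap S S'))
    (hnil : RingHom.ker (algebraMap S S') ≤ nilradical S)
    (P' : Type w) [AddCommGroup P'] [Module S P'] [Module S' P'] [IsScalarTower S S' P']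
    [Module.Finite S' P'] [Module.Projective S' P'] :
    ∃ (P : Type u) (_ : AddCommGroup P) (_ : Module S P) (_ : Module.Finite S P)
      (_ : Module.Projective S P) (π : P →ₗ[S] P'), IsBaseChange S' π := by
  classical
  obtain ⟨n, f', hf'⟩ := Module.Finite.exists_fin' S' P'
  obtain ⟨s', hs'⟩ := Module.projective_lifting_property f' LinearMap.id hf'
  have hfs : ∀ p', f' (s' p') = p' := fun p' => LinearMap.congr_fun hs' p'
  let E' : (Fin n → S') →ₗ[S'] (Fin n → S') := s' ∘ₗ f'
  have hE' : E' ∘ₗ E' = E' := by
    refine LinearMap.ext fun v => ?_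
    simp only [E', LinearMap.comp_apply, hfs]
  let ebar : Matrix (Fin n) (Fin n) S' := LinearMap.toMatrix' E'
  have hebar : IsIdempotentElem ebar := by
    unfold IsIdempotentElem
    rw [← LinearMap.toMatrix'_comp, hE']
  let F : Matrix (Fin n) (Fin n) S →+* Matrix (Fin n) (Fin n) S' :=
    RingHom.mapMatrix (algebraMap S S')
  have hFker : ∀ x ∈ RingHom.ker F, IsNilpotent x := by
    intro x hx
    exact isNilpotent_of_map_algebraMap_eq_zero hnil x (by simpa [F] using hx)
  have hFrange : ebar ∈ F.range := by
    refine ⟨Matrix.of (fun a b => (hS (ebar a b)).choose), ?_⟩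
    ext a b
    simp only [F, RingHom.mapMatrix_apply, Matrix.map_apply, Matrix.of_apply]
    exact (hS (ebar a b)).choose_spec
  obtain ⟨e, he, hee⟩ := exists_isIdempotentElem_eq_of_ker_isNilpotent F hFker ebar hFrange hebar
  have hee' : e.map (algebraMap S S') = ebar := by simpa [F] using hee
  let E : (Fin n → S) →ₗ[S] (Fin n → S) := Matrix.toLin' e
  have hE : ∀ v, E (E v) = E v := by
    intro v
    have : E ∘ₗ E = E := by
      simp only [E]
      rw [← Matrix.toLin'_mul, he.eq]
    exact LinearMap.congr_fun this v
  let φn : (Fin n → S) →ₗ[S] (Fin n → S') := (Algebra.linearMap S S').compLeft (Fin n)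
  have hφn : ∀ v i, φn v i = algebraMap S S' (v i) := fun v i => rfl
  -- compatibility of `E` and `E'`
  have hcompat : ∀ v, φn (E v) = E' (φn v) := by
    intro v
    ext i
    rw [hφn]
    simp only [E, Matrix.toLin'_apply]
    rw [RingHom.map_mulVec, hee']
    have h2 : E' (φn v) = ebar.mulVec (φn v) := by
      simp only [ebar]
      rw [LinearMap.toMatrix'_mulVec]
    rw [h2]
    rfl
  let P : Submodule S (Fin n → S) := LinearMap.range E
  have hPfix : ∀ p : P, E p.1 = p.1 := by
    rintro ⟨p, w, rfl⟩
    exact hE w
  let π : P →ₗ[S] P' := (f'.restrictScalars S) ∘ₗ φn ∘ₗ P.subtype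
  have hπ : ∀ p : P, π p = f' (φn p.1) := fun p => rfl
  have hproj : Module.Projective S P := by
    refine Module.Projective.of_split P.subtype E.rangeRestrict ?_
    ext p : 1
    apply Subtype.ext
    simp only [LinearMap.comp_apply, Submodule.subtype_apply, LinearMap.id_apply]
    exact hPfix p
  refine ⟨P, inferInstance, inferInstance, inferInstance, hproj, π, ?_⟩
  apply isBaseChange_of_surjective_of_ker_le hS π
  · intro p'
    obtain ⟨v', rfl⟩ := hf' p'
    let v : Fin n → S := fun i => (hS (v' i)).choose
    have hv : φn v = v' := by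
      ext i
      rw [hφn]
      exact (hS (v' i)).choose_spec
    refine ⟨⟨E v, LinearMap.mem_range_self E v⟩, ?_⟩
    rw [hπ]
    simp only
    rw [hcompat, hv]
    simp only [E', LinearMap.comp_apply, hfs]
  · intro p hp
    have hp0 : f' (φn p.1) = 0 := by
      have := (LinearMap.mem_ker).1 hp
      rwa [hπ] at this
    have h1 : φn p.1 = 0 := by
      have h2 : φn p.1 = E' (φn p.1) := by rw [← hcompat, hPfix]
      rw [h2]
      simp only [E', LinearMap.comp_apply, hp0, map_zero]
    have hcoord : ∀ i, p.1 i ∈ RingHom.ker (algebraMap S S') := by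
      intro i
      rw [RingHom.mem_ker, ← hφn, h1]
      rfl
    have hsum : p = ∑ i, p.1 i •
        (⟨E (fun j => if i = j then 1 else 0), LinearMap.mem_range_self E _⟩ : P) := by
      apply Subtype.ext
      rw [AddSubmonoidClass.coe_finsetSum]
      simp only [SetLike.val_smul]
      rw [← LinearMap.pi_apply_eq_sum_univ E p.1]
      exact (hPfix p).symm
    rw [hsum]
    exact Submodule.sum_mem _ (fun i _ => Submodule.smul_mem_smul (hcoord i) Submodule.mem_top)

end ProjLift

section Invertible

universe u v

variable {S : Type u} {S' : Type v} [CommRing S] [CommRing S'] [Algebra S S']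

/-- (L3, tensor form) A finite projective module whose base change along a surjective ring map
with nil kernel is invertible is itself invertible. -/
theorem invertible_of_invertible_tensor
    (hS : Function.Surjective (algebraMap S S'))
    (hnil : RingHom.ker (algebraMap S S') ≤ nilradical S)
    (P : Type*) [AddCommGroup P] [Module S P] [Module.Finite S P] [Module.Projective S P]
    [Module.Invertible S' (S' ⊗[S] P)] : Module.Invertible S P := by
  obtain ⟨Q, _, _, _, _, πQ, hQ⟩ := exists_projective_lift hS hnil
    (Module.Dual S' (S' ⊗[S] P))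
  let e' : S' ⊗[S] (Q ⊗[S] P) ≃ₗ[S'] S' ⊗[S] S :=
    (AlgebraTensorModule.distribBaseChange S S' Q P) ≪≫ₗ
      (TensorProduct.congr hQ.equiv (LinearEquiv.refl S' (S' ⊗[S] P))) ≪≫ₗ
      (Module.Invertible.linearEquiv S' (S' ⊗[S] P)) ≪≫ₗ
      (AlgebraTensorModule.rid S S' S').symm
  obtain ⟨e, -⟩ := exists_linearEquiv_lift hS hnil
    (TensorProduct.isBaseChange S (Q ⊗[S] P) S') (TensorProduct.isBaseChange S S S') e'
  exact Module.Invertible.right e

/-- (L3) If `P' ` is a base change of the finite projective module `P` along a surjective ring map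
with nil kernel and `P'` is invertible, then `P` is invertible. -/
theorem invertible_of_isBaseChange
    (hS : Function.Surjective (algebraMap S S'))
    (hnil : RingHom.ker (algebraMap S S') ≤ nilradical S)
    {P : Type*} [AddCommGroup P] [Module S P] [Module.Finite S P] [Module.Projective S P]
    {P' : Type*} [AddCommGroup P'] [Module S P'] [Module S' P'] [IsScalarTower S S' P']
    {π : P →ₗ[S] P'} (hπ : IsBaseChange S' π) [Module.Invertible S' P'] :
    Module.Invertible S P := by
  have : Module.Invertible S' (S' ⊗[S] P) := Module.Invertible.congr hπ.equiv.symm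
  exact invertible_of_invertible_tensor hS hnil P

/-- (L1 + L3) Every invertible module over `S'` is the base change of an invertible module over
`S`, when `S → S'` is surjective with nil kernel. -/
theorem exists_invertible_lift
    (hS : Function.Surjective (algebraMap S S'))
    (hnil : RingHom.ker (algebraMap S S') ≤ nilradical S)
    (P' : Type*) [AddCommGroup P'] [Module S P'] [Module S' P'] [IsScalarTower S S' P']
    [Module.Invertible S' P'] :
    ∃ (P : Type u) (_ : AddCommGroup P) (_ : Module S P) (_ : Module.Invertible S P)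
      (π : P →ₗ[S] P'), IsBaseChange S' π := by
  obtain ⟨P, _, _, _, _, π, hπ⟩ := exists_projective_lift hS hnil P'
  exact ⟨P, inferInstance, inferInstance, invertible_of_isBaseChange hS hnil hπ, π, hπ⟩

end Invertible

end Fermat.Agent.S25.helper1803
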