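import Fermat.Agent.S25.helper1803_NilLift

/-!
# Lifting a two-chart module datum along surjections with nil kernel

Abstract form of "a line bundle on `C ×ₖ Spec (B/I)` given by two-chart data lifts to
`C ×ₖ Spec B` when `I` is nil".

Upstairs rings `A₀ A₁ A₀₁` (with `A₀ → A₀₁ ← A₁`), downstairs rings `A₀' A₁' A₀₁'`
(with `A₀' → A₀₁' ← A₁'`), reduction maps `A₀ → A₀'`, `A₁ → A₁'`, `A₀₁ → A₀₁'`, surjective with nil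
kernel, all squares commuting.  A downstairs datum is a triple of modules `M₀' M₁' M₀₁'` with
maps `ρ₀' : M₀' → M₀₁'`, `ρ₁' : M₁' → M₀₁'` that are base changes (`M₀'`, `M₁'` finite projective).
The theorem produces an upstairs datum of the same shape together with reduction maps
`π₀ π₁ π₀₁` that are base changes and commute with the `ρ`'s.
-/

namespace Fermat.Agent.S25.helper1803

open TensorProduct

universe u v w₀ w₁ w₂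

section TwoChart

variable {A₀ A₁ A₀₁ : Type u} {A₀' A₁' A₀₁' : Type v}
  [CommRing A₀] [CommRing A₁] [CommRing A₀₁] [CommRing A₀'] [CommRing A₁'] [CommRing A₀₁']
  [Algebra A₀ A₀₁] [Algebra A₁ A₀₁] [Algebra A₀' A₀₁'] [Algebra A₁' A₀₁']
  [Algebra A₀ A₀'] [Algebra A₁ A₁'] [Algebra A₀₁ A₀₁']
  [Algebra A₀ A₀₁'] [IsScalarTower A₀ A₀₁ A₀₁'] [IsScalarTower A₀ A₀' A₀₁']
  [Algebra A₁ A₀₁'] [IsScalarTower A₁ A₀₁ A₀₁'] [IsScalarTower A₁ A₁' A₀₁']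

/-- Two-chart lifting, with every scalar action given as an instance.  See
`exists_twoChart_lift` for a version with fewer hypotheses. -/
theorem exists_twoChart_lift_aux
    (h₀ : Function.Surjective (algebraMap A₀ A₀'))
    (n₀ : RingHom.ker (algebraMap A₀ A₀') ≤ nilradical A₀)
    (h₁ : Function.Surjective (algebraMap A₁ A₁'))
    (n₁ : RingHom.ker (algebraMap A₁ A₁') ≤ nilradical A₁)
    (h₀₁ : Function.Surjective (algebraMap A₀₁ A₀₁'))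
    (n₀₁ : RingHom.ker (algebraMap A₀₁ A₀₁') ≤ nilradical A₀₁)
    {M₀' : Type w₀} [AddCommGroup M₀'] [Module A₀' M₀'] [Module A₀ M₀'] [IsScalarTower A₀ A₀' M₀']
    [Module.Finite A₀' M₀'] [Module.Projective A₀' M₀']
    {M₁' : Type w₁} [AddCommGroup M₁'] [Module A₁' M₁'] [Module A₁ M₁'] [IsScalarTower A₁ A₁' M₁']
    [Module.Finite A₁' M₁'] [Module.Projective A₁' M₁']
    {M₀₁' : Type w₂} [AddCommGroup M₀₁'] [Module A₀₁' M₀₁']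
    [Module A₀₁ M₀₁'] [IsScalarTower A₀₁ A₀₁' M₀₁']
    [Module A₀' M₀₁'] [IsScalarTower A₀' A₀₁' M₀₁']
    [Module A₁' M₀₁'] [IsScalarTower A₁' A₀₁' M₀₁']
    [Module A₀ M₀₁'] [IsScalarTower A₀ A₀' M₀₁'] [IsScalarTower A₀ A₀₁ M₀₁']
    [IsScalarTower A₀ A₀₁' M₀₁']
    [Module A₁ M₀₁'] [IsScalarTower A₁ A₁' M₀₁'] [IsScalarTower A₁ A₀₁ M₀₁']
    [IsScalarTower A₁ A₀₁' M₀₁']
    (ρ₀' : M₀' →ₗ[A₀'] M₀₁') (hρ₀' : IsBaseChange A₀₁' ρ₀')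
    (ρ₁' : M₁' →ₗ[A₁'] M₀₁') (hρ₁' : IsBaseChange A₀₁' ρ₁') :
    ∃ (M₀ : Type u) (_ : AddCommGroup M₀) (_ : Module A₀ M₀) (_ : Module.Finite A₀ M₀)
      (_ : Module.Projective A₀ M₀)
      (M₁ : Type u) (_ : AddCommGroup M₁) (_ : Module A₁ M₁) (_ : Module.Finite A₁ M₁)
      (_ : Module.Projective A₁ M₁)
      (M₀₁ : Type u) (_ : AddCommGroup M₀₁) (_ : Module A₀₁ M₀₁)
      (_ : Module A₀ M₀₁) (_ : IsScalarTower A₀ A₀₁ M₀₁)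
      (_ : Module A₁ M₀₁) (_ : IsScalarTower A₁ A₀₁ M₀₁)
      (ρ₀ : M₀ →ₗ[A₀] M₀₁) (ρ₁ : M₁ →ₗ[A₁] M₀₁)
      (π₀ : M₀ →ₗ[A₀] M₀') (π₁ : M₁ →ₗ[A₁] M₁') (π₀₁ : M₀₁ →ₗ[A₀₁] M₀₁'),
      IsBaseChange A₀₁ ρ₀ ∧ IsBaseChange A₀₁ ρ₁ ∧
      IsBaseChange A₀' π₀ ∧ IsBaseChange A₁' π₁ ∧ IsBaseChange A₀₁' π₀₁ ∧
      (∀ m, π₀₁ (ρ₀ m) = ρ₀' (π₀ m)) ∧ (∀ m, π₀₁ (ρ₁ m) = ρ₁' (π₁ m)) ∧
      (Module.Invertible A₀' M₀' → Module.Invertible A₀ M₀) ∧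
      (Module.Invertible A₁' M₁' → Module.Invertible A₁ M₁) := by
  obtain ⟨M₀, _, _, _, _, π₀, hπ₀⟩ := exists_projective_lift h₀ n₀ M₀'
  obtain ⟨M₁, _, _, _, _, π₁, hπ₁⟩ := exists_projective_lift h₁ n₁ M₁'
  -- the overlap module is `A₀₁ ⊗[A₀] M₀`; `A₁` acts on it through the left factor
  let ρ₀ : M₀ →ₗ[A₀] A₀₁ ⊗[A₀] M₀ := TensorProduct.mk A₀ A₀₁ M₀ 1
  have hρ₀ : IsBaseChange A₀₁ ρ₀ := TensorProduct.isBaseChange A₀ M₀ A₀₁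
  -- reduction of the overlap module
  let g₀ : M₀ →ₗ[A₀] M₀₁' := (ρ₀'.restrictScalars A₀).comp π₀
  have hg₀ : IsBaseChange A₀₁' g₀ := IsBaseChange.comp hπ₀ hρ₀'
  let π₀₁ : A₀₁ ⊗[A₀] M₀ →ₗ[A₀₁] M₀₁' := hρ₀.lift g₀
  have hπ₀₁ρ₀ : ∀ m, π₀₁ (ρ₀ m) = ρ₀' (π₀ m) := fun m => hρ₀.lift_eq g₀ m
  have hπ₀₁ : IsBaseChange A₀₁' π₀₁ := by
    refine IsBaseChange.of_comp hρ₀ ?_
    have : (π₀₁.restrictScalars A₀) ∘ₗ ρ₀ = g₀ := hρ₀.lift_comp g₀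
    rw [this]
    exact hg₀
  have hπ₀₁s : Function.Surjective π₀₁ := surjective_of_isBaseChange h₀₁ hπ₀₁
  -- the second restriction map
  let g₁ : M₁ →ₗ[A₁] M₀₁' := (ρ₁'.restrictScalars A₁).comp π₁
  have hg₁ : IsBaseChange A₀₁' g₁ := IsBaseChange.comp hπ₁ hρ₁'
  obtain ⟨ρ₁, hρ₁c⟩ := Module.projective_lifting_property (π₀₁.restrictScalars A₁) g₁ hπ₀₁s
  have hπ₀₁ρ₁ : ∀ m, π₀₁ (ρ₁ m) = ρ₁' (π₁ m) := fun m => LinearMap.congr_fun hρ₁c m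
  -- `ρ₁` is a base change
  let τ : M₁ →ₗ[A₁] A₀₁ ⊗[A₁] M₁ := TensorProduct.mk A₁ A₀₁ M₁ 1
  have hτ : IsBaseChange A₀₁ τ := TensorProduct.isBaseChange A₁ M₁ A₀₁
  let ρ₁t : A₀₁ ⊗[A₁] M₁ →ₗ[A₀₁] A₀₁ ⊗[A₀] M₀ := hτ.lift ρ₁
  let πT : A₀₁ ⊗[A₁] M₁ →ₗ[A₀₁] M₀₁' := hτ.lift g₁
  have hπT : IsBaseChange A₀₁' πT := by
    refine IsBaseChange.of_comp hτ ?_
    have : (πT.restrictScalars A₁) ∘ₗ τ = g₁ := hτ.lift_comp g₁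
    rw [this]
    exact hg₁
  have hcomp : ∀ t, π₀₁ (ρ₁t t) = πT t := by
    have : π₀₁ ∘ₗ ρ₁t = πT := by
      apply hτ.algHom_ext
      intro m
      simp only [LinearMap.comp_apply, ρ₁t, πT, hτ.lift_eq]
      exact hπ₀₁ρ₁ m
    exact fun t => LinearMap.congr_fun this t
  have hbij : Function.Bijective ρ₁t :=
    bijective_of_lift h₀₁ n₀₁ hπT hπ₀₁ ρ₁t (LinearEquiv.refl A₀₁' M₀₁') (fun t => hcomp t)
  have hρ₁ : IsBaseChange A₀₁ ρ₁ :=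
    IsBaseChange.of_equiv (LinearEquiv.ofBijective ρ₁t hbij) (fun m => hτ.lift_eq ρ₁ m)
  exact ⟨M₀, inferInstance, inferInstance, inferInstance, inferInstance,
    M₁, inferInstance, inferInstance, inferInstance, inferInstance,
    A₀₁ ⊗[A₀] M₀, inferInstance, inferInstance, inferInstance, inferInstance, inferInstance,
    inferInstance,
    ρ₀, ρ₁, π₀, π₁, π₀₁, hρ₀, hρ₁, hπ₀, hπ₁, hπ₀₁, hπ₀₁ρ₀, hπ₀₁ρ₁,
    fun _ => invertible_of_isBaseChange h₀ n₀ hπ₀, fun _ => invertible_of_isBaseChange h₁ n₁ hπ₁⟩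

end TwoChart

end Fermat.Agent.S25.helper1803
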