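import Fermat.Agent.S25.helper2945_AlgDefs

/-!
# S25, leaf LC-REC: recognising isomorphisms and base changes of two-chart line bundles

Shared adapter on top of `helper2945_AlgDefs` (owner helper8108).

* `isoOfBijective` : chart maps `f₀`, `f₁` that are bijective, together with ANY overlap map
  commuting with the restrictions, form an isomorphism of two-chart line bundles (the overlap
  map is automatically bijective, both restrictions being localizations).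
* `semiLift` : the linear map `A' ⊗[A] M → M'` induced by a semilinear map `M → M'`.
* `bcMap₀`, `bcMap₁`, `bcMap₀₁` : the canonical semilinear maps `G.M_i → (G.baseChange φ).M_i`.
* `equiv_baseChange_of_semilinear`, `equiv_baseChange_of_isBaseChange` : a two-chart line
  bundle `G'` over `B'` receiving semilinear maps from `G` (over `B`) that commute with the
  restrictions and are base changes on the two charts is equivalent to `G.baseChange φ`.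
-/

set_option autoImplicit false
set_option linter.style.haveILetI false

open TensorProduct

namespace Fermat.Agent.S25.helper8108

open Fermat.Agent.S25.helper1705 Fermat.Agent.S25.helper2945

universe u

/-! ## Isomorphisms from bijective chart maps -/

section IsoOfBijective

variable {k : Type u} [Field k] {D : CurveDatum k} {B : Type u} [CommRing B] [Algebra k B]
  {G G' : GlueDatum D B}

/-- An overlap map compatible with a chart-`0` map is the localization of that chart map. -/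
theorem restrictScalars_eq_map₀ (f₀ : G.M₀ →ₗ[D.A₀ B] G'.M₀) (f₀₁ : G.M₀₁ →ₗ[D.A₀₁ B] G'.M₀₁)
    (comm₀ : ∀ m, f₀₁ (G.ρ₀ m) = G'.ρ₀ (f₀ m)) :
    f₀₁.restrictScalars (D.A₀ B) =
      IsLocalizedModule.map (Submonoid.powers (xB D B)) G.ρ₀ G'.ρ₀ f₀ := by
  refine IsLocalizedModule.ext (Submonoid.powers (xB D B)) G.ρ₀
    (IsLocalizedModule.map_units G'.ρ₀) ?_
  ext m
  simp [comm₀]

/-- An overlap map compatible with a chart-`1` map is the localization of that chart map. -/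
theorem restrictScalars_eq_map₁ (f₁ : G.M₁ →ₗ[D.A₁ B] G'.M₁) (f₀₁ : G.M₀₁ →ₗ[D.A₀₁ B] G'.M₀₁)
    (comm₁ : ∀ m, f₀₁ (G.ρ₁ m) = G'.ρ₁ (f₁ m)) :
    f₀₁.restrictScalars (D.A₁ B) =
      IsLocalizedModule.map (Submonoid.powers (yB D B)) G.ρ₁ G'.ρ₁ f₁ := by
  refine IsLocalizedModule.ext (Submonoid.powers (yB D B)) G.ρ₁
    (IsLocalizedModule.map_units G'.ρ₁) ?_
  ext m
  simp [comm₁]

/-- The overlap map is bijective as soon as the chart-`0` map is. -/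
theorem bijective_overlap_of_chart₀ (f₀ : G.M₀ →ₗ[D.A₀ B] G'.M₀)
    (f₀₁ : G.M₀₁ →ₗ[D.A₀₁ B] G'.M₀₁) (comm₀ : ∀ m, f₀₁ (G.ρ₀ m) = G'.ρ₀ (f₀ m))
    (h₀ : Function.Bijective f₀) : Function.Bijective f₀₁ := by
  have h := restrictScalars_eq_map₀ f₀ f₀₁ comm₀
  have hfun : (f₀₁ : G.M₀₁ → G'.M₀₁) =
      IsLocalizedModule.map (Submonoid.powers (xB D B)) G.ρ₀ G'.ρ₀ f₀ := by
    rw [← h]; rfl
  rw [hfun]
  exact ⟨IsLocalizedModule.map_injective _ _ _ f₀ h₀.1,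
    IsLocalizedModule.map_surjective _ _ _ f₀ h₀.2⟩

/-- The overlap map is bijective as soon as the chart-`1` map is. -/
theorem bijective_overlap_of_chart₁ (f₁ : G.M₁ →ₗ[D.A₁ B] G'.M₁)
    (f₀₁ : G.M₀₁ →ₗ[D.A₀₁ B] G'.M₀₁) (comm₁ : ∀ m, f₀₁ (G.ρ₁ m) = G'.ρ₁ (f₁ m))
    (h₁ : Function.Bijective f₁) : Function.Bijective f₀₁ := by
  have h := restrictScalars_eq_map₁ f₁ f₀₁ comm₁
  have hfun : (f₀₁ : G.M₀₁ → G'.M₀₁) =
      IsLocalizedModule.map (Submonoid.powers (yB D B)) G.ρ₁ G'.ρ₁ f₁ := by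
    rw [← h]; rfl
  rw [hfun]
  exact ⟨IsLocalizedModule.map_injective _ _ _ f₁ h₁.1,
    IsLocalizedModule.map_surjective _ _ _ f₁ h₁.2⟩

/-- ISO FROM CHART MAPS. Linear maps on the two charts that are bijective, together with any
linear map on the overlap commuting with the restrictions, form an isomorphism. -/
noncomputable def isoOfBijective (f₀ : G.M₀ →ₗ[D.A₀ B] G'.M₀) (f₁ : G.M₁ →ₗ[D.A₁ B] G'.M₁)
    (f₀₁ : G.M₀₁ →ₗ[D.A₀₁ B] G'.M₀₁) (comm₀ : ∀ m, f₀₁ (G.ρ₀ m) = G'.ρ₀ (f₀ m))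
    (comm₁ : ∀ m, f₀₁ (G.ρ₁ m) = G'.ρ₁ (f₁ m)) (h₀ : Function.Bijective f₀)
    (h₁ : Function.Bijective f₁) : GlueDatum.Iso G G' where
  e₀ := LinearEquiv.ofBijective f₀ h₀
  e₁ := LinearEquiv.ofBijective f₁ h₁
  e₀₁ := LinearEquiv.ofBijective f₀₁ (bijective_overlap_of_chart₀ f₀ f₀₁ comm₀ h₀)
  comm₀ := comm₀
  comm₁ := comm₁

/-- `Equiv` form of `isoOfBijective`. -/
theorem equiv_of_bijective (f₀ : G.M₀ →ₗ[D.A₀ B] G'.M₀) (f₁ : G.M₁ →ₗ[D.A₁ B] G'.M₁)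
    (f₀₁ : G.M₀₁ →ₗ[D.A₀₁ B] G'.M₀₁) (comm₀ : ∀ m, f₀₁ (G.ρ₀ m) = G'.ρ₀ (f₀ m))
    (comm₁ : ∀ m, f₀₁ (G.ρ₁ m) = G'.ρ₁ (f₁ m)) (h₀ : Function.Bijective f₀)
    (h₁ : Function.Bijective f₁) : G.Equiv G' :=
  ⟨isoOfBijective f₀ f₁ f₀₁ comm₀ comm₁ h₀ h₁⟩

end IsoOfBijective

/-! ## The linear map induced by a semilinear map -/

section SemiLift

variable {A A' : Type*} [CommRing A] [CommRing A'] [Algebra A A']
  {M M' : Type*} [AddCommGroup M] [Module A M] [AddCommGroup M'] [Module A' M']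

/-- The `A'`-linear map `A' ⊗[A] M → M'`, `a ⊗ m ↦ a • f m`, induced by a map `f : M → M'`
that is semilinear along `σ = algebraMap A A'`. -/
noncomputable def semiLift (σ : A →+* A') (hσ : algebraMap A A' = σ) (f : M →ₛₗ[σ] M') :
    A' ⊗[A] M →ₗ[A'] M' where
  toFun := TensorProduct.liftAddHom
    { toFun := fun a =>
        { toFun := fun m => a • f m
          map_zero' := by simp
          map_add' := fun m n => by simp [smul_add] }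
      map_zero' := by ext m; simp
      map_add' := fun a b => by ext m; simp [add_smul] }
    (fun r a m => by
      subst hσ
      show (r • a) • f m = a • f (r • m)
      rw [map_smulₛₗ, Algebra.smul_def, smul_smul, mul_comm])
  map_add' := fun x y => map_add _ x y
  map_smul' := fun c t => by
    induction t using TensorProduct.induction_on with
    | zero => simp
    | tmul a m => simp [TensorProduct.smul_tmul', mul_smul]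
    | add x y hx hy => simp only [smul_add, map_add, hx, hy]

@[simp]
theorem semiLift_tmul (σ : A →+* A') (hσ : algebraMap A A' = σ) (f : M →ₛₗ[σ] M') (a : A')
    (m : M) : semiLift σ hσ f (a ⊗ₜ[A] m) = a • f m := rfl

/-- If the semilinear map `f` agrees with a linear map `π` that is a base change, then
`semiLift f` is bijective. -/
theorem semiLift_bijective_of_isBaseChange (σ : A →+* A') (hσ : algebraMap A A' = σ)
    (f : M →ₛₗ[σ] M') [Module A M'] [IsScalarTower A A' M'] (π : M →ₗ[A] M')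
    (hπ : IsBaseChange A' π) (hf : ∀ m, f m = π m) :
    Function.Bijective (semiLift σ hσ f) := by
  have h : (semiLift σ hσ f : A' ⊗[A] M → M') = hπ.equiv := by
    funext t
    induction t using TensorProduct.induction_on with
    | zero => simp
    | tmul a m => simp [hf, IsBaseChange.equiv_tmul]
    | add x y hx hy => simp only [map_add, hx, hy]
  rw [h]
  exact hπ.equiv.bijective

end SemiLift

/-! ## Recognising `GlueDatum.baseChange` -/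

section BaseChange

variable {k : Type u} [Field k] {D : CurveDatum k} {B B' : Type u} [CommRing B] [Algebra k B]
  [CommRing B'] [Algebra k B'] (G : GlueDatum D B) (φ : B →ₐ[k] B')

/-- The canonical map `G.M₀ → (G.baseChange φ).M₀`, `m ↦ 1 ⊗ m`, semilinear along `D.map₀ φ`. -/
noncomputable def bcMap₀ : G.M₀ →ₛₗ[(D.map₀ φ).toRingHom] (G.baseChange φ).M₀ :=
  letI := algA₀ D φ
  { toFun := fun m => ((1 : D.A₀ B') ⊗ₜ[D.A₀ B] m : D.A₀ B' ⊗[D.A₀ B] G.M₀)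
    map_add' := fun m n => TensorProduct.tmul_add _ _ _
    map_smul' := fun a m => by
      show ((1 : D.A₀ B') ⊗ₜ[D.A₀ B] (a • m) : D.A₀ B' ⊗[D.A₀ B] G.M₀) =
        (D.map₀ φ a) • ((1 : D.A₀ B') ⊗ₜ[D.A₀ B] m : D.A₀ B' ⊗[D.A₀ B] G.M₀)
      rw [← TensorProduct.smul_tmul, TensorProduct.smul_tmul', Algebra.smul_def, smul_eq_mul]
      rfl }

/-- The canonical map `G.M₁ → (G.baseChange φ).M₁`, `m ↦ 1 ⊗ m`, semilinear along `D.map₁ φ`. -/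
noncomputable def bcMap₁ : G.M₁ →ₛₗ[(D.map₁ φ).toRingHom] (G.baseChange φ).M₁ :=
  letI := algA₁ D φ
  { toFun := fun m => ((1 : D.A₁ B') ⊗ₜ[D.A₁ B] m : D.A₁ B' ⊗[D.A₁ B] G.M₁)
    map_add' := fun m n => TensorProduct.tmul_add _ _ _
    map_smul' := fun a m => by
      show ((1 : D.A₁ B') ⊗ₜ[D.A₁ B] (a • m) : D.A₁ B' ⊗[D.A₁ B] G.M₁) =
        (D.map₁ φ a) • ((1 : D.A₁ B') ⊗ₜ[D.A₁ B] m : D.A₁ B' ⊗[D.A₁ B] G.M₁)
      rw [← TensorProduct.smul_tmul, TensorProduct.smul_tmul', Algebra.smul_def, smul_eq_mul]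
      rfl }

/-- The canonical map `G.M₀₁ → (G.baseChange φ).M₀₁`, `m ↦ 1 ⊗ m`, semilinear along
`D.map₀₁ φ`. -/
noncomputable def bcMap₀₁ : G.M₀₁ →ₛₗ[(D.map₀₁ φ).toRingHom] (G.baseChange φ).M₀₁ :=
  letI := algA₀₁ D φ
  { toFun := fun m => ((1 : D.A₀₁ B') ⊗ₜ[D.A₀₁ B] m : D.A₀₁ B' ⊗[D.A₀₁ B] G.M₀₁)
    map_add' := fun m n => TensorProduct.tmul_add _ _ _
    map_smul' := fun a m => by
      show ((1 : D.A₀₁ B') ⊗ₜ[D.A₀₁ B] (a • m) : D.A₀₁ B' ⊗[D.A₀₁ B] G.M₀₁) =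
        (D.map₀₁ φ a) • ((1 : D.A₀₁ B') ⊗ₜ[D.A₀₁ B] m : D.A₀₁ B' ⊗[D.A₀₁ B] G.M₀₁)
      rw [← TensorProduct.smul_tmul, TensorProduct.smul_tmul', Algebra.smul_def, smul_eq_mul]
      rfl }

/-- The restriction `ρ₀` of `G.baseChange φ` on pure tensors. -/
theorem baseChange_ρ₀_tmul (a : D.A₀ B') (m : G.M₀) :
    letI := algA₀ D φ
    letI := algA₀₁ D φ
    (G.baseChange φ).ρ₀ ((a ⊗ₜ[D.A₀ B] m : D.A₀ B' ⊗[D.A₀ B] G.M₀)) =
      ((algebraMap (D.A₀ B') (D.A₀₁ B') a ⊗ₜ[D.A₀₁ B] G.ρ₀ m : D.A₀₁ B' ⊗[D.A₀₁ B] G.M₀₁)) := by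
  letI := algA₀ D φ
  letI := algA₀₁ D φ
  letI := algA₀A₀₁ D φ
  haveI := tower_A₀_A₀₁_A₀₁' D φ
  haveI := tower_A₀_A₀'_A₀₁' D φ
  exact sqBaseChange_tmul (S := D.A₀₁ B) (S' := D.A₀₁ B') G.ρ₀ a m

/-- The restriction `ρ₁` of `G.baseChange φ` on pure tensors. -/
theorem baseChange_ρ₁_tmul (a : D.A₁ B') (m : G.M₁) :
    letI := algA₁ D φ
    letI := algA₀₁ D φ
    (G.baseChange φ).ρ₁ ((a ⊗ₜ[D.A₁ B] m : D.A₁ B' ⊗[D.A₁ B] G.M₁)) =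
      ((algebraMap (D.A₁ B') (D.A₀₁ B') a ⊗ₜ[D.A₀₁ B] G.ρ₁ m : D.A₀₁ B' ⊗[D.A₀₁ B] G.M₀₁)) := by
  letI := algA₁ D φ
  letI := algA₀₁ D φ
  letI := algA₁A₀₁ D φ
  haveI := tower_A₁_A₀₁_A₀₁' D φ
  haveI := tower_A₁_A₁'_A₀₁' D φ
  exact sqBaseChange_tmul (S := D.A₀₁ B) (S' := D.A₀₁ B') G.ρ₁ a m

/-- `bcMap` commutes with `ρ₀`. -/
theorem baseChange_ρ₀_bcMap₀ (m : G.M₀) :
    (G.baseChange φ).ρ₀ (bcMap₀ G φ m) = bcMap₀₁ G φ (G.ρ₀ m) := by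
  have h := baseChange_ρ₀_tmul G φ 1 m
  simp only [map_one] at h
  exact h

/-- `bcMap` commutes with `ρ₁`. -/
theorem baseChange_ρ₁_bcMap₁ (m : G.M₁) :
    (G.baseChange φ).ρ₁ (bcMap₁ G φ m) = bcMap₀₁ G φ (G.ρ₁ m) := by
  have h := baseChange_ρ₁_tmul G φ 1 m
  simp only [map_one] at h
  exact h

variable (G' : GlueDatum D B')

/-- The `D.A₀ B'`-linear map `(G.baseChange φ).M₀ → G'.M₀` induced by a semilinear map. -/
noncomputable def lift₀ (f₀ : G.M₀ →ₛₗ[(D.map₀ φ).toRingHom] G'.M₀) :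
    (G.baseChange φ).M₀ →ₗ[D.A₀ B'] G'.M₀ :=
  letI := algA₀ D φ
  semiLift (D.map₀ φ).toRingHom rfl f₀

/-- The `D.A₁ B'`-linear map `(G.baseChange φ).M₁ → G'.M₁` induced by a semilinear map. -/
noncomputable def lift₁ (f₁ : G.M₁ →ₛₗ[(D.map₁ φ).toRingHom] G'.M₁) :
    (G.baseChange φ).M₁ →ₗ[D.A₁ B'] G'.M₁ :=
  letI := algA₁ D φ
  semiLift (D.map₁ φ).toRingHom rfl f₁

/-- The `D.A₀₁ B'`-linear map `(G.baseChange φ).M₀₁ → G'.M₀₁` induced by a semilinear map. -/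
noncomputable def lift₀₁ (f₀₁ : G.M₀₁ →ₛₗ[(D.map₀₁ φ).toRingHom] G'.M₀₁) :
    (G.baseChange φ).M₀₁ →ₗ[D.A₀₁ B'] G'.M₀₁ :=
  letI := algA₀₁ D φ
  semiLift (D.map₀₁ φ).toRingHom rfl f₀₁

variable {G'}

theorem lift₀_tmul (f₀ : G.M₀ →ₛₗ[(D.map₀ φ).toRingHom] G'.M₀) (a : D.A₀ B') (m : G.M₀) :
    letI := algA₀ D φ
    lift₀ G φ G' f₀ ((a ⊗ₜ[D.A₀ B] m : D.A₀ B' ⊗[D.A₀ B] G.M₀)) = a • f₀ m := rfl

theorem lift₁_tmul (f₁ : G.M₁ →ₛₗ[(D.map₁ φ).toRingHom] G'.M₁) (a : D.A₁ B') (m : G.M₁) :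
    letI := algA₁ D φ
    lift₁ G φ G' f₁ ((a ⊗ₜ[D.A₁ B] m : D.A₁ B' ⊗[D.A₁ B] G.M₁)) = a • f₁ m := rfl

theorem lift₀₁_tmul (f₀₁ : G.M₀₁ →ₛₗ[(D.map₀₁ φ).toRingHom] G'.M₀₁) (a : D.A₀₁ B')
    (m : G.M₀₁) :
    letI := algA₀₁ D φ
    lift₀₁ G φ G' f₀₁ ((a ⊗ₜ[D.A₀₁ B] m : D.A₀₁ B' ⊗[D.A₀₁ B] G.M₀₁)) = a • f₀₁ m := rfl

@[simp]
theorem lift₀_bcMap₀ (f₀ : G.M₀ →ₛₗ[(D.map₀ φ).toRingHom] G'.M₀) (m : G.M₀) :
    lift₀ G φ G' f₀ (bcMap₀ G φ m) = f₀ m :=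
  (lift₀_tmul G φ f₀ 1 m).trans (one_smul _ _)

@[simp]
theorem lift₁_bcMap₁ (f₁ : G.M₁ →ₛₗ[(D.map₁ φ).toRingHom] G'.M₁) (m : G.M₁) :
    lift₁ G φ G' f₁ (bcMap₁ G φ m) = f₁ m :=
  (lift₁_tmul G φ f₁ 1 m).trans (one_smul _ _)

@[simp]
theorem lift₀₁_bcMap₀₁ (f₀₁ : G.M₀₁ →ₛₗ[(D.map₀₁ φ).toRingHom] G'.M₀₁) (m : G.M₀₁) :
    lift₀₁ G φ G' f₀₁ (bcMap₀₁ G φ m) = f₀₁ m :=
  (lift₀₁_tmul G φ f₀₁ 1 m).trans (one_smul _ _)

/-- The lifts commute with `ρ₀`. -/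
theorem lift₀₁_ρ₀ (f₀ : G.M₀ →ₛₗ[(D.map₀ φ).toRingHom] G'.M₀)
    (f₀₁ : G.M₀₁ →ₛₗ[(D.map₀₁ φ).toRingHom] G'.M₀₁)
    (comm₀ : ∀ m, f₀₁ (G.ρ₀ m) = G'.ρ₀ (f₀ m)) (t : (G.baseChange φ).M₀) :
    lift₀₁ G φ G' f₀₁ ((G.baseChange φ).ρ₀ t) = G'.ρ₀ (lift₀ G φ G' f₀ t) := by
  have hzero : lift₀₁ G φ G' f₀₁ ((G.baseChange φ).ρ₀ 0) = G'.ρ₀ (lift₀ G φ G' f₀ 0) := by
    rw [map_zero, map_zero, map_zero, map_zero]
  have hadd : ∀ u v : (G.baseChange φ).M₀,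
      lift₀₁ G φ G' f₀₁ ((G.baseChange φ).ρ₀ u) = G'.ρ₀ (lift₀ G φ G' f₀ u) →
      lift₀₁ G φ G' f₀₁ ((G.baseChange φ).ρ₀ v) = G'.ρ₀ (lift₀ G φ G' f₀ v) →
      lift₀₁ G φ G' f₀₁ ((G.baseChange φ).ρ₀ (u + v)) = G'.ρ₀ (lift₀ G φ G' f₀ (u + v)) := by
    intro u v hu hv
    rw [map_add, map_add, map_add, map_add, hu, hv]
  letI := algA₀ D φ
  letI := algA₀₁ D φ
  change D.A₀ B' ⊗[D.A₀ B] G.M₀ at t
  induction t using TensorProduct.induction_on with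
  | zero => exact hzero
  | tmul a m =>
    rw [baseChange_ρ₀_tmul, lift₀₁_tmul, lift₀_tmul, comm₀, map_smul, algebraMap_smul]
  | add x y hx hy => exact hadd x y hx hy

/-- The lifts commute with `ρ₁`. -/
theorem lift₀₁_ρ₁ (f₁ : G.M₁ →ₛₗ[(D.map₁ φ).toRingHom] G'.M₁)
    (f₀₁ : G.M₀₁ →ₛₗ[(D.map₀₁ φ).toRingHom] G'.M₀₁)
    (comm₁ : ∀ m, f₀₁ (G.ρ₁ m) = G'.ρ₁ (f₁ m)) (t : (G.baseChange φ).M₁) :
    lift₀₁ G φ G' f₀₁ ((G.baseChange φ).ρ₁ t) = G'.ρ₁ (lift₁ G φ G' f₁ t) := by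
  have hzero : lift₀₁ G φ G' f₀₁ ((G.baseChange φ).ρ₁ 0) = G'.ρ₁ (lift₁ G φ G' f₁ 0) := by
    rw [map_zero, map_zero, map_zero, map_zero]
  have hadd : ∀ u v : (G.baseChange φ).M₁,
      lift₀₁ G φ G' f₀₁ ((G.baseChange φ).ρ₁ u) = G'.ρ₁ (lift₁ G φ G' f₁ u) →
      lift₀₁ G φ G' f₀₁ ((G.baseChange φ).ρ₁ v) = G'.ρ₁ (lift₁ G φ G' f₁ v) →
      lift₀₁ G φ G' f₀₁ ((G.baseChange φ).ρ₁ (u + v)) = G'.ρ₁ (lift₁ G φ G' f₁ (u + v)) := by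
    intro u v hu hv
    rw [map_add, map_add, map_add, map_add, hu, hv]
  letI := algA₁ D φ
  letI := algA₀₁ D φ
  change D.A₁ B' ⊗[D.A₁ B] G.M₁ at t
  induction t using TensorProduct.induction_on with
  | zero => exact hzero
  | tmul a m =>
    rw [baseChange_ρ₁_tmul, lift₀₁_tmul, lift₁_tmul, comm₁, map_smul, algebraMap_smul]
  | add x y hx hy => exact hadd x y hx hy

/-- RECOGNITION OF BASE CHANGE (semilinear form). Let `G` be a two-chart line bundle over `B`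
and `G'` one over `B'`. Semilinear maps `G.M_i → G'.M_i` (along `D.map_i φ`) that commute with
the restriction maps and whose linearisations on the two charts are bijective exhibit `G'` as
the base change of `G` along `φ`. -/
theorem equiv_baseChange_of_semilinear (f₀ : G.M₀ →ₛₗ[(D.map₀ φ).toRingHom] G'.M₀)
    (f₁ : G.M₁ →ₛₗ[(D.map₁ φ).toRingHom] G'.M₁)
    (f₀₁ : G.M₀₁ →ₛₗ[(D.map₀₁ φ).toRingHom] G'.M₀₁)
    (comm₀ : ∀ m, f₀₁ (G.ρ₀ m) = G'.ρ₀ (f₀ m)) (comm₁ : ∀ m, f₀₁ (G.ρ₁ m) = G'.ρ₁ (f₁ m))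
    (h₀ : Function.Bijective (lift₀ G φ G' f₀)) (h₁ : Function.Bijective (lift₁ G φ G' f₁)) :
    (G.baseChange φ).Equiv G' :=
  equiv_of_bijective (lift₀ G φ G' f₀) (lift₁ G φ G' f₁) (lift₀₁ G φ G' f₀₁)
    (lift₀₁_ρ₀ G φ f₀ f₀₁ comm₀) (lift₀₁_ρ₁ G φ f₁ f₀₁ comm₁) h₀ h₁

/-- RECOGNITION OF BASE CHANGE (`IsBaseChange` form; matches the output shape of
`helper1803.exists_twoChart_lift_aux`). Use it after `letI := algA₀ D φ`, `letI := algA₁ D φ`,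
`letI := algA₀₁ D φ` (the three `halg` arguments are then `rfl`), with any `D.A_i B`-module
structures on the modules of `G'` compatible with their `D.A_i B'`-module structures.
Linear maps `π_i : G.M_i → G'.M_i` commuting with the restriction maps, with `π₀`, `π₁`
base changes, exhibit `G'` as the base change of `G` along `φ`. -/
theorem equiv_baseChange_of_isBaseChange
    [alg₀ : Algebra (D.A₀ B) (D.A₀ B')] (halg₀ : alg₀ = algA₀ D φ)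
    [alg₁ : Algebra (D.A₁ B) (D.A₁ B')] (halg₁ : alg₁ = algA₁ D φ)
    [alg₀₁ : Algebra (D.A₀₁ B) (D.A₀₁ B')] (halg₀₁ : alg₀₁ = algA₀₁ D φ)
    [Module (D.A₀ B) G'.M₀] [IsScalarTower (D.A₀ B) (D.A₀ B') G'.M₀]
    [Module (D.A₁ B) G'.M₁] [IsScalarTower (D.A₁ B) (D.A₁ B') G'.M₁]
    [Module (D.A₀₁ B) G'.M₀₁] [IsScalarTower (D.A₀₁ B) (D.A₀₁ B') G'.M₀₁]
    (π₀ : G.M₀ →ₗ[D.A₀ B] G'.M₀) (π₁ : G.M₁ →ₗ[D.A₁ B] G'.M₁)
    (π₀₁ : G.M₀₁ →ₗ[D.A₀₁ B] G'.M₀₁)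
    (hπ₀ : IsBaseChange (D.A₀ B') π₀) (hπ₁ : IsBaseChange (D.A₁ B') π₁)
    (comm₀ : ∀ m, π₀₁ (G.ρ₀ m) = G'.ρ₀ (π₀ m)) (comm₁ : ∀ m, π₀₁ (G.ρ₁ m) = G'.ρ₁ (π₁ m)) :
    (G.baseChange φ).Equiv G' := by
  subst halg₀ halg₁ halg₀₁
  letI := algA₀ D φ
  letI := algA₁ D φ
  letI := algA₀₁ D φ
  let f₀ : G.M₀ →ₛₗ[(D.map₀ φ).toRingHom] G'.M₀ :=
    { toFun := π₀
      map_add' := π₀.map_add
      map_smul' := fun a m => by
        show π₀ (a • m) = (algebraMap (D.A₀ B) (D.A₀ B') a) • π₀ m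
        rw [π₀.map_smul, algebraMap_smul] }
  let f₁ : G.M₁ →ₛₗ[(D.map₁ φ).toRingHom] G'.M₁ :=
    { toFun := π₁
      map_add' := π₁.map_add
      map_smul' := fun a m => by
        show π₁ (a • m) = (algebraMap (D.A₁ B) (D.A₁ B') a) • π₁ m
        rw [π₁.map_smul, algebraMap_smul] }
  let f₀₁ : G.M₀₁ →ₛₗ[(D.map₀₁ φ).toRingHom] G'.M₀₁ :=
    { toFun := π₀₁
      map_add' := π₀₁.map_add
      map_smul' := fun a m => by
        show π₀₁ (a • m) = (algebraMap (D.A₀₁ B) (D.A₀₁ B') a) • π₀₁ m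
        rw [π₀₁.map_smul, algebraMap_smul] }
  exact equiv_baseChange_of_semilinear G φ f₀ f₁ f₀₁ comm₀ comm₁
    (semiLift_bijective_of_isBaseChange (D.map₀ φ).toRingHom rfl f₀ π₀ hπ₀ (fun _ => rfl))
    (semiLift_bijective_of_isBaseChange (D.map₁ φ).toRingHom rfl f₁ π₁ hπ₁ (fun _ => rfl))

/-- Sanity check of the intended usage pattern of `equiv_baseChange_of_isBaseChange`. -/
example
    (mod₀ : letI := algA₀ D φ; Module (D.A₀ B) G'.M₀)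
    (mod₁ : letI := algA₁ D φ; Module (D.A₁ B) G'.M₁)
    (mod₀₁ : letI := algA₀₁ D φ; Module (D.A₀₁ B) G'.M₀₁)
    (tow₀ : letI := algA₀ D φ; IsScalarTower (D.A₀ B) (D.A₀ B') G'.M₀)
    (tow₁ : letI := algA₁ D φ; IsScalarTower (D.A₁ B) (D.A₁ B') G'.M₁)
    (tow₀₁ : letI := algA₀₁ D φ; IsScalarTower (D.A₀₁ B) (D.A₀₁ B') G'.M₀₁)
    (π₀ : G.M₀ →ₗ[D.A₀ B] G'.M₀) (π₁ : G.M₁ →ₗ[D.A₁ B] G'.M₁)
    (π₀₁ : G.M₀₁ →ₗ[D.A₀₁ B] G'.M₀₁)
    (hπ₀ : letI := algA₀ D φ; IsBaseChange (D.A₀ B') π₀)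
    (hπ₁ : letI := algA₁ D φ; IsBaseChange (D.A₁ B') π₁)
    (comm₀ : ∀ m, π₀₁ (G.ρ₀ m) = G'.ρ₀ (π₀ m)) (comm₁ : ∀ m, π₀₁ (G.ρ₁ m) = G'.ρ₁ (π₁ m)) :
    (G.baseChange φ).Equiv G' := by
  letI := algA₀ D φ
  letI := algA₁ D φ
  letI := algA₀₁ D φ
  exact equiv_baseChange_of_isBaseChange G φ rfl rfl rfl π₀ π₁ π₀₁ hπ₀ hπ₁ comm₀ comm₁

end BaseChange

end Fermat.Agent.S25.helper8108
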