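import Fermat.Agent.S25.helper2945_AlgDefs
import Fermat.Agent.S25.helper8108_GlueRecog
import Fermat.Agent.S25.helper9607_GlueBridge

/-!
# S25, leaf LC-BC: cohomology and base change for two-chart line bundles (helper1985)

For `G : GlueDatum D B` and `φ : B →ₐ[k] B'` (with `B'` a `B`-algebra through `φ`) the three
modules of `G.baseChange φ` are the naive base changes `B' ⊗[B] -` of the modules of `G`,
compatibly with the restriction maps `ρ₀`, `ρ₁` and hence with the Čech differential.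
Consequently `H¹` commutes with EVERY base change, and `H⁰` commutes with base change when `B'`
is flat over `B`, or (for every `B'`) when `G.M₀₁` and `H¹(G)` are flat over `B`, e.g. `H¹(G) = 0`.

Main results (namespace `Fermat.Agent.S25.helper1985`):
* `isPushout_chart` : `R ⊗[k] B'` is the pushout of `R ⊗[k] B` along `B → B'`;
* `cmp₀`, `cmp₁`, `cmp₀₁`, `cmpPair` : the comparison equivalences, with `cmp₀_symm_tmul`, ...;
* `cmp₀₁_ρ₀`, `cmp₀₁_ρ₁`, `cmp₀₁_delta` : compatibility with the restriction maps and `delta`;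
* `exists_cmp` : the statement `helper1103.BaseChangeCmp` for an arbitrary `k`-algebra `B'`;
* `cokerBaseChange`, `tensorKer_bijective_of_flat`, `flat_of_flat_quotient` : the linear algebra
  (cokernels commute with base change; kernels do when the target and the cokernel are flat);
* `h1Cmp : (G.baseChange φ).H1 ≃ₗ[B'] B' ⊗[B] G.H1`, with `h1Cmp_mk_bcMap`, and the corollaries
  `subsingleton_H1_baseChange`, `finite_H1_baseChange`;
* `h0Map : B' ⊗[B] G.H0 →ₗ[B'] (G.baseChange φ).H0` with `h0Map_tmul_fst/snd`,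
  `h0Map_bijective_of_flat_base`, `h0Map_bijective_of_flat`, and the spanning corollaries
  `H0_baseChange_snd_mem_span`, `H0_baseChange_fst_mem_span`;
* unconditional forms (flatness of `G.M₀₁` from `helper9607.projective_M₀₁`): `flat_M₀₁`,
  `h0Map_bijective`, `h0Equiv`, `hspan_snd`, `hspan_fst` (the hypothesis `hspan` of
  `helper7244.exists_notMem_of_baseChange`), `h0Map_bijective_of_flat_H1`;
* `h0BcMap : G.H0 →ₗ[B] (G.baseChange φ).H0`, `isBaseChange_h0BcMap` (`IsBaseChange` form), and the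
  rank of `H⁰` at a field point: `rankAtStalk_H0_eq_finrank`, `rankAtStalk_H0_eq_finrank'`,
  `rankAtStalk_H0_le_one`.
-/

set_option autoImplicit false
set_option linter.style.haveILetI false
set_option linter.unusedSectionVars false

open TensorProduct
open Fermat.Agent.S25.helper1705 Fermat.Agent.S25.helper2945

namespace Fermat.Agent.S25.helper1985

universe u

/-! ## Ring level: `R ⊗[k] B'` is the base change of `R ⊗[k] B` along `B → B'` -/

section Ring

variable {k : Type u} [CommRing k] (R : Type u) [CommRing R] [Algebra k R]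
  {B B' : Type u} [CommRing B] [CommRing B'] [Algebra k B] [Algebra k B'] (φ : B →ₐ[k] B')

attribute [local instance] Algebra.TensorProduct.rightAlgebra

/-- `B'` as a `B`-algebra through `φ`. -/
@[reducible] noncomputable def algPhi : Algebra B B' := φ.toRingHom.toAlgebra

/-- `R ⊗[k] B'` as a `B`-algebra, through `B → B' → R ⊗[k] B'`. -/
@[reducible] noncomputable def algBase : Algebra B (R ⊗[k] B') :=
  ((algebraMap B' (R ⊗[k] B')).comp φ.toRingHom).toAlgebra

/-- `R ⊗[k] B'` as an algebra over `R ⊗[k] B`. -/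
@[reducible] noncomputable def algChart : Algebra (R ⊗[k] B) (R ⊗[k] B') :=
  (Algebra.TensorProduct.map (AlgHom.id k R) φ).toRingHom.toAlgebra

theorem tower_base_base' :
    @IsScalarTower B B' (R ⊗[k] B') (algPhi φ).toSMul _ (algBase R φ).toSMul :=
  letI := algPhi φ
  letI := algBase R φ
  IsScalarTower.of_algebraMap_eq fun _ => rfl

theorem tower_base_chart :
    @IsScalarTower B (R ⊗[k] B) (R ⊗[k] B') _ (algChart R φ).toSMul (algBase R φ).toSMul :=
  letI := algBase R φ
  letI := algChart R φ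
  IsScalarTower.of_algebraMap_eq fun b => by
    show (1 : R) ⊗ₜ[k] φ b = _
    rfl

theorem rightSMul_tmul (b : B) (r : R) (c : B) : b • (r ⊗ₜ[k] c) = r ⊗ₜ[k] (b * c) := by
  rw [Algebra.smul_def, Algebra.TensorProduct.right_algebraMap_apply,
    Algebra.TensorProduct.tmul_mul_tmul, one_mul]

/-- `R ⊗[k] B'` is the base change of `R ⊗[k] B` along `B → B'`. -/
theorem isPushout_chart :
    letI := algPhi φ
    letI := algBase R φ
    letI := algChart R φ
    haveI := tower_base_base' R φ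
    haveI := tower_base_chart R φ
    Algebra.IsPushout B B' (R ⊗[k] B) (R ⊗[k] B') := by
  letI := algPhi φ
  letI := algBase R φ
  letI := algChart R φ
  haveI := tower_base_base' R φ
  haveI := tower_base_chart R φ
  constructor
  let f : R ⊗[k] B →ₗ[B] R ⊗[k] B' := (IsScalarTower.toAlgHom B (R ⊗[k] B) (R ⊗[k] B')).toLinearMap
  have hf : ∀ (r : R) (b : B), f (r ⊗ₜ[k] b) = r ⊗ₜ[k] φ b := fun r b => rfl
  let F : B' ⊗[B] (R ⊗[k] B) →ₗ[B'] R ⊗[k] B' := LinearMap.liftBaseChange B' f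
  let g : R →+ B' →+ B' ⊗[B] (R ⊗[k] B) :=
    { toFun := fun r =>
        { toFun := fun b' => b' ⊗ₜ[B] (r ⊗ₜ[k] (1 : B))
          map_zero' := by simp
          map_add' := fun x y => by simp [add_tmul] }
      map_zero' := by ext b'; simp
      map_add' := fun x y => by ext b'; simp [add_tmul, tmul_add] }
  have hg : ∀ (c : k) (r : R) (b' : B'), g (c • r) b' = g r (c • b') := by
    intro c r b'
    show b' ⊗ₜ[B] ((c • r) ⊗ₜ[k] (1 : B)) = (c • b') ⊗ₜ[B] (r ⊗ₜ[k] (1 : B))
    have h1 : (c • r) ⊗ₜ[k] (1 : B) = algebraMap k B c • (r ⊗ₜ[k] (1 : B)) := by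
      rw [rightSMul_tmul, mul_one, TensorProduct.smul_tmul, Algebra.smul_def, mul_one]
    have h2 : c • b' = algebraMap k B c • b' := by
      show c • b' = φ (algebraMap k B c) * b'
      rw [AlgHom.commutes, ← Algebra.smul_def]
    rw [h1, h2, TensorProduct.smul_tmul]
  let Ψ : R ⊗[k] B' →+ B' ⊗[B] (R ⊗[k] B) := TensorProduct.liftAddHom g hg
  have hΨ : ∀ (r : R) (b' : B'), Ψ (r ⊗ₜ[k] b') = b' ⊗ₜ[B] (r ⊗ₜ[k] (1 : B)) := fun r b' => rfl
  have h1 : ∀ z, Ψ (F z) = z := by
    intro z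
    induction z with
    | zero => simp
    | add x y hx hy => simp only [map_add, hx, hy]
    | tmul b' x =>
      induction x with
      | zero => simp
      | add x y hx hy => simp only [tmul_add, map_add, hx, hy]
      | tmul r b =>
        rw [LinearMap.liftBaseChange_tmul, hf, rightSMul_tmul, hΨ]
        have h3 : b' * φ b = b • b' := by
          show b' * φ b = φ b * b'
          exact mul_comm _ _
        rw [h3, smul_tmul, rightSMul_tmul, mul_one]
  have h2 : ∀ w, F (Ψ w) = w := by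
    intro w
    induction w with
    | zero => simp
    | add x y hx hy => simp only [map_add, hx, hy]
    | tmul r b' =>
      rw [hΨ, LinearMap.liftBaseChange_tmul, hf, map_one, rightSMul_tmul, mul_one]
  let e : B' ⊗[B] (R ⊗[k] B) ≃ₗ[B'] R ⊗[k] B' :=
    { F with
      invFun := Ψ
      left_inv := h1
      right_inv := h2 }
  refine IsBaseChange.of_equiv e fun x => ?_
  show F (1 ⊗ₜ x) = f x
  rw [LinearMap.liftBaseChange_tmul, one_smul]

/-! ## Module level: cancelling the chart ring -/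

section ChartCmp

variable (M : Type u) [AddCommGroup M] [Module (R ⊗[k] B) M] [Module B M]
  [IsScalarTower B (R ⊗[k] B) M]

/-- Auxiliary comparison (linear for the standard `B'`-module structure on the tensor product). -/
noncomputable def chartCmpAux :
    letI := algPhi φ
    letI := algChart R φ
    ((R ⊗[k] B') ⊗[R ⊗[k] B] M) ≃ₗ[B'] B' ⊗[B] M :=
  letI := algPhi φ
  letI := algBase R φ
  letI := algChart R φ
  haveI := tower_base_base' R φ
  haveI := tower_base_chart R φ
  haveI := isPushout_chart R φ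
  Algebra.IsPushout.cancelBaseChange B B' (R ⊗[k] B) (R ⊗[k] B') M

theorem chartCmpAux_symm_tmul (s : B') (m : M) :
    letI := algPhi φ
    letI := algChart R φ
    (chartCmpAux R φ M).symm (s ⊗ₜ[B] m) = algebraMap B' (R ⊗[k] B') s ⊗ₜ[R ⊗[k] B] m :=
  letI := algPhi φ
  letI := algBase R φ
  letI := algChart R φ
  haveI := tower_base_base' R φ
  haveI := tower_base_chart R φ
  haveI := isPushout_chart R φ
  Algebra.IsPushout.cancelBaseChange_symm_tmul B B' (R ⊗[k] B) (R ⊗[k] B') M s m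

theorem chartCmpAux_algebraMap_smul (s : B')
    (z : letI := algChart R φ; (R ⊗[k] B') ⊗[R ⊗[k] B] M) :
    letI := algPhi φ
    letI := algChart R φ
    chartCmpAux R φ M (algebraMap B' (R ⊗[k] B') s • z) = s • chartCmpAux R φ M z := by
  letI := algPhi φ
  letI := algChart R φ
  rw [algebraMap_smul, map_smul]

/-- The comparison `(R ⊗[k] B') ⊗[R ⊗[k] B] M ≃ B' ⊗[B] M`, linear over `B'` acting on the
left-hand side through `B' → R ⊗[k] B'`. -/
noncomputable def chartCmp :
    letI := algPhi φ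
    letI := algChart R φ
    letI : Module B' ((R ⊗[k] B') ⊗[R ⊗[k] B] M) :=
      Module.compHom _ (algebraMap B' (R ⊗[k] B'))
    ((R ⊗[k] B') ⊗[R ⊗[k] B] M) ≃ₗ[B'] B' ⊗[B] M :=
  letI := algPhi φ
  letI := algChart R φ
  letI : Module B' ((R ⊗[k] B') ⊗[R ⊗[k] B] M) :=
    Module.compHom _ (algebraMap B' (R ⊗[k] B'))
  { toFun := chartCmpAux R φ M
    map_add' := (chartCmpAux R φ M).map_add
    map_smul' := fun s z => chartCmpAux_algebraMap_smul R φ M s z
    invFun := (chartCmpAux R φ M).symm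
    left_inv := (chartCmpAux R φ M).left_inv
    right_inv := (chartCmpAux R φ M).right_inv }

theorem chartCmp_symm_tmul (s : B') (m : M) :
    letI := algPhi φ
    letI := algChart R φ
    letI : Module B' ((R ⊗[k] B') ⊗[R ⊗[k] B] M) :=
      Module.compHom _ (algebraMap B' (R ⊗[k] B'))
    (chartCmp R φ M).symm (s ⊗ₜ[B] m) = algebraMap B' (R ⊗[k] B') s ⊗ₜ[R ⊗[k] B] m :=
  chartCmpAux_symm_tmul R φ M s m

end ChartCmp

end Ring

/-! ## Linear algebra: kernels, cokernels and base change -/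

section Linear

variable {R : Type*} [CommRing R] (S : Type*) [CommRing S] [Algebra R S]
  {P Q : Type*} [AddCommGroup P] [AddCommGroup Q] [Module R P] [Module R Q] (δ : P →ₗ[R] Q)

/-- Right exactness of `S ⊗[R] -`: the kernel of `S ⊗ Q → S ⊗ coker δ` is the range of
`S ⊗ δ`. -/
theorem ker_mkQ_baseChange :
    LinearMap.ker ((LinearMap.range δ).mkQ.baseChange S) = LinearMap.range (δ.baseChange S) := by
  ext z
  have h := lTensor_exact S (LinearMap.exact_map_mkQ_range δ) (Submodule.mkQ_surjective _)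
  exact h z

/-- The cokernel of a linear map commutes with base change. -/
noncomputable def cokerBaseChange :
    ((S ⊗[R] Q) ⧸ LinearMap.range (δ.baseChange S)) ≃ₗ[S] S ⊗[R] (Q ⧸ LinearMap.range δ) :=
  (Submodule.quotEquivOfEq _ _ (ker_mkQ_baseChange S δ).symm).trans
    (((LinearMap.range δ).mkQ.baseChange S).quotKerEquivOfSurjective
      (LinearMap.lTensor_surjective S (Submodule.mkQ_surjective _)))

theorem cokerBaseChange_mk (z : S ⊗[R] Q) :
    cokerBaseChange S δ (Submodule.Quotient.mk z) = (LinearMap.range δ).mkQ.baseChange S z :=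
  rfl

/-- A submodule of a flat module with flat quotient is flat. -/
theorem flat_of_flat_quotient (I : Submodule R Q) [Module.Flat R Q] [Module.Flat R (Q ⧸ I)] :
    Module.Flat R I := by
  rw [Module.Flat.iff_rTensor_injective]
  intro J _
  have h1 : Function.Injective (I.subtype.lTensor J) :=
    LinearMap.lTensor_injective_of_exact_of_flat I.mkQ (Submodule.mkQ_surjective _) I.subtype
      (Submodule.subtype_injective _) (LinearMap.exact_subtype_mkQ I) J
  have h2 : Function.Injective (J.subtype.rTensor Q) :=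
    Module.Flat.rTensor_preserves_injective_linearMap _ (Submodule.subtype_injective _)
  have h3 : (I.subtype.lTensor R).comp (J.subtype.rTensor I) =
      (J.subtype.rTensor Q).comp (I.subtype.lTensor J) := by
    rw [LinearMap.lTensor_comp_rTensor, LinearMap.rTensor_comp_lTensor]
  intro a b hab
  apply h1
  apply h2
  have := congrArg (I.subtype.lTensor R) hab
  rw [← LinearMap.comp_apply, ← LinearMap.comp_apply, h3] at this
  exact this

theorem exact_subtype_ker_rangeRestrict :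
    Function.Exact (LinearMap.ker δ).subtype δ.rangeRestrict := by
  intro x
  constructor
  · intro h
    refine ⟨⟨x, ?_⟩, rfl⟩
    have := congrArg Subtype.val h
    simpa using this
  · rintro ⟨y, rfl⟩
    exact Subtype.ext y.2

/-- **Cohomology and base change, abstract form.** If `Q` and the cokernel of `δ : P → Q` are
flat, then the kernel of `δ` commutes with every base change. -/
theorem tensorKer_bijective_of_flat [Module.Flat R Q] [Module.Flat R (Q ⧸ LinearMap.range δ)] :
    Function.Bijective (LinearMap.tensorKer S S δ) := by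
  have : Module.Flat R (LinearMap.range δ) := flat_of_flat_quotient _
  have hι : Function.Injective ((LinearMap.range δ).subtype.lTensor S) :=
    LinearMap.lTensor_injective_of_exact_of_flat (LinearMap.range δ).mkQ
      (Submodule.mkQ_surjective _) (LinearMap.range δ).subtype (Submodule.subtype_injective _)
      (LinearMap.exact_subtype_mkQ _) S
  have hκ : Function.Injective ((LinearMap.ker δ).subtype.lTensor S) :=
    LinearMap.lTensor_injective_of_exact_of_flat δ.rangeRestrict δ.surjective_rangeRestrict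
      (LinearMap.ker δ).subtype (Submodule.subtype_injective _)
      (exact_subtype_ker_rangeRestrict δ) S
  constructor
  · intro x y hxy
    apply hκ
    have := congrArg Subtype.val hxy
    rwa [LinearMap.tensorKer_coe, LinearMap.tensorKer_coe] at this
  · rintro ⟨z, hz⟩
    have h1 : (δ.rangeRestrict.lTensor S) z = 0 := by
      apply hι
      have h0 : (LinearMap.range δ).subtype.comp δ.rangeRestrict = δ := LinearMap.ext fun _ => rfl
      rw [map_zero, ← LinearMap.comp_apply, ← LinearMap.lTensor_comp, h0]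
      exact hz
    have hex := lTensor_exact S (exact_subtype_ker_rangeRestrict δ) δ.surjective_rangeRestrict
    obtain ⟨w, hw⟩ := (hex z).mp h1
    refine ⟨w, Subtype.ext ?_⟩
    rw [LinearMap.tensorKer_coe]
    exact hw

/-- If `S` is flat over `R`, the kernel of any linear map commutes with the base change to `S`. -/
theorem tensorKer_bijective_of_flat_base [Module.Flat R S] :
    Function.Bijective (LinearMap.tensorKer S S δ) :=
  (LinearMap.tensorKerEquiv S S δ).bijective

end Linear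

/-! ## Kernels and cokernels along a commutative square of linear equivalences -/

section Square

variable {S : Type*} [CommRing S] {V W V₂ W₂ : Type*} [AddCommGroup V] [Module S V]
  [AddCommGroup W] [Module S W] [AddCommGroup V₂] [Module S V₂] [AddCommGroup W₂] [Module S W₂]
  (g : V →ₗ[S] W) (g₂ : V₂ →ₗ[S] W₂) (eV : V ≃ₗ[S] V₂) (eW : W ≃ₗ[S] W₂)
  (h : ∀ v, eW (g v) = g₂ (eV v))

include h in
theorem map_range_of_square :
    Submodule.map eW.toLinearMap (LinearMap.range g) = LinearMap.range g₂ := by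
  have h' : eW.toLinearMap ∘ₗ g = g₂ ∘ₗ eV.toLinearMap := LinearMap.ext h
  rw [← LinearMap.range_comp, h', LinearMap.range_comp, LinearEquiv.range, Submodule.map_top]

/-- The induced equivalence of cokernels. -/
noncomputable def cokerCongr : (W ⧸ LinearMap.range g) ≃ₗ[S] (W₂ ⧸ LinearMap.range g₂) :=
  Submodule.Quotient.equiv _ _ eW (map_range_of_square g g₂ eV eW h)

theorem cokerCongr_mk (w : W) :
    cokerCongr g g₂ eV eW h (Submodule.Quotient.mk w) = Submodule.Quotient.mk (eW w) := rfl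

/-- The induced equivalence of kernels. -/
noncomputable def kerCongr : LinearMap.ker g ≃ₗ[S] LinearMap.ker g₂ where
  toFun x := ⟨eV x, by
    have hx : g x = 0 := x.2
    show g₂ (eV x) = 0
    rw [← h, hx, map_zero]⟩
  invFun y := ⟨eV.symm y, by
    have hy : g₂ y = 0 := y.2
    show g (eV.symm y) = 0
    apply eW.injective
    rw [h, LinearEquiv.apply_symm_apply, hy, map_zero]⟩
  map_add' x y := Subtype.ext (by simp)
  map_smul' c x := Subtype.ext (by simp)
  left_inv x := Subtype.ext (by simp)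
  right_inv y := Subtype.ext (by simp)

theorem kerCongr_coe (x : LinearMap.ker g) : (kerCongr g g₂ eV eW h x : V₂) = eV x := rfl

theorem kerCongr_symm_coe (y : LinearMap.ker g₂) :
    ((kerCongr g g₂ eV eW h).symm y : V) = eV.symm y := rfl

end Square

/-! ## The comparison for a two-chart line bundle -/

section Glue

variable {k : Type u} [Field k] {D : CurveDatum k} {B B' : Type u} [CommRing B] [CommRing B']
  [Algebra k B] [Algebra k B'] (G : GlueDatum D B) (φ : B →ₐ[k] B')

/-- Comparison on the first chart: `(G.baseChange φ).M₀ ≃ B' ⊗[B] G.M₀`. -/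
noncomputable def cmp₀ :
    letI := algPhi φ
    (G.baseChange φ).M₀ ≃ₗ[B'] B' ⊗[B] G.M₀ :=
  chartCmp D.R₀ φ G.M₀

/-- Comparison on the chart at infinity: `(G.baseChange φ).M₁ ≃ B' ⊗[B] G.M₁`. -/
noncomputable def cmp₁ :
    letI := algPhi φ
    (G.baseChange φ).M₁ ≃ₗ[B'] B' ⊗[B] G.M₁ :=
  chartCmp D.R₁ φ G.M₁

/-- Comparison on the overlap: `(G.baseChange φ).M₀₁ ≃ B' ⊗[B] G.M₀₁`. -/
noncomputable def cmp₀₁ :
    letI := algPhi φ
    (G.baseChange φ).M₀₁ ≃ₗ[B'] B' ⊗[B] G.M₀₁ :=
  chartCmp D.R₀₁ φ G.M₀₁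

theorem cmp₀_symm_tmul (s : B') (m : G.M₀) :
    letI := algPhi φ
    letI := algA₀ D φ
    (cmp₀ G φ).symm (s ⊗ₜ[B] m) = algebraMap B' (D.A₀ B') s ⊗ₜ[D.A₀ B] m :=
  chartCmp_symm_tmul D.R₀ φ G.M₀ s m

theorem cmp₁_symm_tmul (s : B') (m : G.M₁) :
    letI := algPhi φ
    letI := algA₁ D φ
    (cmp₁ G φ).symm (s ⊗ₜ[B] m) = algebraMap B' (D.A₁ B') s ⊗ₜ[D.A₁ B] m :=
  chartCmp_symm_tmul D.R₁ φ G.M₁ s m

theorem cmp₀₁_symm_tmul (s : B') (m : G.M₀₁) :
    letI := algPhi φ
    letI := algA₀₁ D φ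
    (cmp₀₁ G φ).symm (s ⊗ₜ[B] m) = algebraMap B' (D.A₀₁ B') s ⊗ₜ[D.A₀₁ B] m :=
  chartCmp_symm_tmul D.R₀₁ φ G.M₀₁ s m

theorem baseChange_ρ₀_tmul (a : D.A₀ B') (m : G.M₀) :
    letI := algA₀ D φ
    letI := algA₀₁ D φ
    (G.baseChange φ).ρ₀ (a ⊗ₜ[D.A₀ B] m) =
      algebraMap (D.A₀ B') (D.A₀₁ B') a ⊗ₜ[D.A₀₁ B] G.ρ₀ m := by
  letI := algA₀ D φ
  letI := algA₁ D φ
  letI := algA₀₁ D φ
  letI := algA₀A₀₁ D φ
  letI := algA₁A₀₁ D φ
  haveI := tower_A₀_A₀₁_A₀₁' D φ
  haveI := tower_A₀_A₀'_A₀₁' D φ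
  haveI := tower_A₁_A₀₁_A₀₁' D φ
  haveI := tower_A₁_A₁'_A₀₁' D φ
  exact sqBaseChange_tmul (S := D.A₀₁ B) (S' := D.A₀₁ B') G.ρ₀ a m

theorem baseChange_ρ₁_tmul (a : D.A₁ B') (m : G.M₁) :
    letI := algA₁ D φ
    letI := algA₀₁ D φ
    (G.baseChange φ).ρ₁ (a ⊗ₜ[D.A₁ B] m) =
      algebraMap (D.A₁ B') (D.A₀₁ B') a ⊗ₜ[D.A₀₁ B] G.ρ₁ m := by
  letI := algA₀ D φ
  letI := algA₁ D φ
  letI := algA₀₁ D φ
  letI := algA₀A₀₁ D φ
  letI := algA₁A₀₁ D φ
  haveI := tower_A₀_A₀₁_A₀₁' D φ
  haveI := tower_A₀_A₀'_A₀₁' D φ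
  haveI := tower_A₁_A₀₁_A₀₁' D φ
  haveI := tower_A₁_A₁'_A₀₁' D φ
  exact sqBaseChange_tmul (S := D.A₀₁ B) (S' := D.A₀₁ B') G.ρ₁ a m

/-- Compatibility of the comparison with the restriction map `ρ₀`. -/
theorem cmp₀₁_ρ₀ (z : (G.baseChange φ).M₀) :
    letI := algPhi φ
    cmp₀₁ G φ ((G.baseChange φ).ρ₀ z) = G.ρ₀B.baseChange B' (cmp₀ G φ z) := by
  letI := algPhi φ
  obtain ⟨w, rfl⟩ := (cmp₀ G φ).symm.surjective z
  rw [LinearEquiv.apply_symm_apply]
  induction w with
  | zero => simp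
  | add x y hx hy => simp only [map_add, hx, hy]
  | tmul s m =>
    rw [cmp₀_symm_tmul, LinearMap.baseChange_tmul, ← LinearEquiv.eq_symm_apply, cmp₀₁_symm_tmul,
      baseChange_ρ₀_tmul, ← IsScalarTower.algebraMap_apply]
    rfl

/-- Compatibility of the comparison with the restriction map `ρ₁`. -/
theorem cmp₀₁_ρ₁ (z : (G.baseChange φ).M₁) :
    letI := algPhi φ
    cmp₀₁ G φ ((G.baseChange φ).ρ₁ z) = G.ρ₁B.baseChange B' (cmp₁ G φ z) := by
  letI := algPhi φ
  obtain ⟨w, rfl⟩ := (cmp₁ G φ).symm.surjective z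
  rw [LinearEquiv.apply_symm_apply]
  induction w with
  | zero => simp
  | add x y hx hy => simp only [map_add, hx, hy]
  | tmul s m =>
    rw [cmp₁_symm_tmul, LinearMap.baseChange_tmul, ← LinearEquiv.eq_symm_apply, cmp₀₁_symm_tmul,
      baseChange_ρ₁_tmul, ← IsScalarTower.algebraMap_apply]
    rfl

/-- **LC-BC, comparison form.** For every `k`-algebra map `φ : B →ₐ[k] B'` the three modules of
`G.baseChange φ` are the naive base changes `B' ⊗[B] -` of those of `G`, compatibly with the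
restriction maps. (For `B'` a field this is literally the body of `helper1103.BaseChangeCmp`.) -/
theorem exists_cmp :
    letI : Algebra B B' := φ.toRingHom.toAlgebra
    ∃ (c₀ : (G.baseChange φ).M₀ ≃ₗ[B'] B' ⊗[B] G.M₀)
      (c₁ : (G.baseChange φ).M₁ ≃ₗ[B'] B' ⊗[B] G.M₁)
      (c₀₁ : (G.baseChange φ).M₀₁ ≃ₗ[B'] B' ⊗[B] G.M₀₁),
      (∀ z, c₀₁ ((G.baseChange φ).ρ₀ z) = G.ρ₀B.baseChange B' (c₀ z)) ∧
      (∀ z, c₀₁ ((G.baseChange φ).ρ₁ z) = G.ρ₁B.baseChange B' (c₁ z)) :=
  ⟨cmp₀ G φ, cmp₁ G φ, cmp₀₁ G φ, cmp₀₁_ρ₀ G φ, cmp₀₁_ρ₁ G φ⟩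

/-! ### The Čech differential -/

/-- Comparison on the source of the Čech differential. -/
noncomputable def cmpPair :
    letI := algPhi φ
    ((G.baseChange φ).M₀ × (G.baseChange φ).M₁) ≃ₗ[B'] B' ⊗[B] (G.M₀ × G.M₁) :=
  letI := algPhi φ
  ((cmp₀ G φ).prodCongr (cmp₁ G φ)).trans (TensorProduct.prodRight B B' B' G.M₀ G.M₁).symm

theorem prodRight_cmpPair (p : (G.baseChange φ).M₀ × (G.baseChange φ).M₁) :
    letI := algPhi φ
    TensorProduct.prodRight B B' B' G.M₀ G.M₁ (cmpPair G φ p) = (cmp₀ G φ p.1, cmp₁ G φ p.2) := by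
  letI := algPhi φ
  show TensorProduct.prodRight B B' B' G.M₀ G.M₁
    ((TensorProduct.prodRight B B' B' G.M₀ G.M₁).symm (cmp₀ G φ p.1, cmp₁ G φ p.2)) = _
  rw [LinearEquiv.apply_symm_apply]

theorem delta_baseChange_apply (w : letI := algPhi φ; B' ⊗[B] (G.M₀ × G.M₁)) :
    letI := algPhi φ
    G.delta.baseChange B' w =
      G.ρ₀B.baseChange B' (TensorProduct.prodRight B B' B' G.M₀ G.M₁ w).1 -
        G.ρ₁B.baseChange B' (TensorProduct.prodRight B B' B' G.M₀ G.M₁ w).2 := by
  letI := algPhi φ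
  induction w with
  | zero => simp
  | add x y hx hy =>
    simp only [map_add, hx, hy, Prod.fst_add, Prod.snd_add]
    abel
  | tmul s m =>
    rw [LinearMap.baseChange_tmul, TensorProduct.prodRight_tmul, LinearMap.baseChange_tmul,
      LinearMap.baseChange_tmul, GlueDatum.delta_apply, TensorProduct.tmul_sub]
    rfl

/-- Compatibility of the comparison with the Čech differential. -/
theorem cmp₀₁_delta (p : (G.baseChange φ).M₀ × (G.baseChange φ).M₁) :
    letI := algPhi φ
    cmp₀₁ G φ ((G.baseChange φ).delta p) = G.delta.baseChange B' (cmpPair G φ p) := by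
  letI := algPhi φ
  rw [delta_baseChange_apply, prodRight_cmpPair, GlueDatum.delta_apply, map_sub, cmp₀₁_ρ₀,
    cmp₀₁_ρ₁]

/-! ### `H¹` commutes with every base change -/

/-- **`H¹` commutes with base change**: `H¹(G_B') ≃ B' ⊗[B] H¹(G)` for every `φ : B → B'`. -/
noncomputable def h1Cmp :
    letI := algPhi φ
    (G.baseChange φ).H1 ≃ₗ[B'] B' ⊗[B] G.H1 :=
  letI := algPhi φ
  (cokerCongr (G.baseChange φ).delta (G.delta.baseChange B') (cmpPair G φ) (cmp₀₁ G φ)
    (cmp₀₁_delta G φ)).trans (cokerBaseChange B' G.delta)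

theorem h1Cmp_mk (z : (G.baseChange φ).M₀₁) :
    letI := algPhi φ
    h1Cmp G φ (Submodule.Quotient.mk z) =
      (LinearMap.range G.delta).mkQ.baseChange B' (cmp₀₁ G φ z) := rfl

theorem cmp₀₁_bcMap₀₁ (m : G.M₀₁) :
    letI := algPhi φ
    cmp₀₁ G φ (helper8108.bcMap₀₁ G φ m) = (1 : B') ⊗ₜ[B] m := by
  letI := algPhi φ
  rw [← LinearEquiv.eq_symm_apply, cmp₀₁_symm_tmul, map_one]
  rfl

theorem cmp₀_bcMap₀ (m : G.M₀) :
    letI := algPhi φ
    cmp₀ G φ (helper8108.bcMap₀ G φ m) = (1 : B') ⊗ₜ[B] m := by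
  letI := algPhi φ
  rw [← LinearEquiv.eq_symm_apply, cmp₀_symm_tmul, map_one]
  rfl

theorem cmp₁_bcMap₁ (m : G.M₁) :
    letI := algPhi φ
    cmp₁ G φ (helper8108.bcMap₁ G φ m) = (1 : B') ⊗ₜ[B] m := by
  letI := algPhi φ
  rw [← LinearEquiv.eq_symm_apply, cmp₁_symm_tmul, map_one]
  rfl

/-- The comparison sends the class of `1 ⊗ m` to `1 ⊗ [m]`. -/
theorem h1Cmp_mk_bcMap (m : G.M₀₁) :
    letI := algPhi φ
    h1Cmp G φ (Submodule.Quotient.mk (helper8108.bcMap₀₁ G φ m)) =
      (1 : B') ⊗ₜ[B] (Submodule.Quotient.mk m : G.H1) := by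
  letI := algPhi φ
  rw [h1Cmp_mk, cmp₀₁_bcMap₀₁, LinearMap.baseChange_tmul]
  rfl

/-- Vanishing of `H¹` is preserved by every base change. -/
theorem subsingleton_H1_baseChange (h : Subsingleton G.H1) :
    Subsingleton (G.baseChange φ).H1 :=
  letI := algPhi φ
  (h1Cmp G φ).toEquiv.subsingleton

/-- Finiteness of `H¹` is preserved by every base change. -/
theorem finite_H1_baseChange (h : Module.Finite B G.H1) :
    Module.Finite B' (G.baseChange φ).H1 :=
  letI := algPhi φ
  Module.Finite.equiv (h1Cmp G φ).symm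

/-- `H¹(G_B') = 0` iff `B' ⊗[B] H¹(G) = 0`. -/
theorem subsingleton_H1_baseChange_iff :
    letI := algPhi φ
    Subsingleton (G.baseChange φ).H1 ↔ Subsingleton (B' ⊗[B] G.H1) :=
  letI := algPhi φ
  (h1Cmp G φ).toEquiv.subsingleton_congr

/-- Surjectivity of the Čech differential is preserved by every base change. -/
theorem delta_baseChange_surjective (h : Function.Surjective G.delta) :
    Function.Surjective (G.baseChange φ).delta := by
  have h1 : Subsingleton G.H1 :=
    Submodule.Quotient.subsingleton_iff.mpr (LinearMap.range_eq_top.mpr h)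
  have h2 := subsingleton_H1_baseChange G φ h1
  exact LinearMap.range_eq_top.mp (Submodule.Quotient.subsingleton_iff.mp h2)

/-! ### `H⁰` and base change -/

theorem cmpPair_symm_tmul (s : B') (m : G.M₀ × G.M₁) :
    letI := algPhi φ
    (cmpPair G φ).symm (s ⊗ₜ[B] m) =
      ((cmp₀ G φ).symm (s ⊗ₜ[B] m.1), (cmp₁ G φ).symm (s ⊗ₜ[B] m.2)) := by
  letI := algPhi φ
  rw [LinearEquiv.symm_apply_eq]
  show s ⊗ₜ[B] m = (TensorProduct.prodRight B B' B' G.M₀ G.M₁).symm
    (cmp₀ G φ ((cmp₀ G φ).symm (s ⊗ₜ[B] m.1)), cmp₁ G φ ((cmp₁ G φ).symm (s ⊗ₜ[B] m.2)))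
  rw [LinearEquiv.apply_symm_apply, LinearEquiv.apply_symm_apply,
    TensorProduct.prodRight_symm_tmul]

/-- `H⁰(G_B')` is the kernel of the naive base change `B' ⊗[B] delta`. -/
noncomputable def h0CmpKer :
    letI := algPhi φ
    (G.baseChange φ).H0 ≃ₗ[B'] LinearMap.ker (G.delta.baseChange B') :=
  letI := algPhi φ
  kerCongr (G.baseChange φ).delta (G.delta.baseChange B') (cmpPair G φ) (cmp₀₁ G φ)
    (cmp₀₁_delta G φ)

/-- The natural map `B' ⊗[B] H⁰(G) → H⁰(G_B')`, `s ⊗ τ ↦ s • (1 ⊗ τ.1, 1 ⊗ τ.2)`. -/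
noncomputable def h0Map :
    letI := algPhi φ
    B' ⊗[B] G.H0 →ₗ[B'] (G.baseChange φ).H0 :=
  letI := algPhi φ
  (h0CmpKer G φ).symm.toLinearMap ∘ₗ LinearMap.tensorKer B' B' G.delta

theorem h0Map_tmul (s : B') (τ : G.H0) :
    letI := algPhi φ
    ((h0Map G φ (s ⊗ₜ[B] τ) : (G.baseChange φ).H0) :
        (G.baseChange φ).M₀ × (G.baseChange φ).M₁) =
      s • (helper8108.bcMap₀ G φ (τ : G.M₀ × G.M₁).1, helper8108.bcMap₁ G φ (τ : G.M₀ × G.M₁).2) := by
  letI := algPhi φ
  letI := algA₀ D φ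
  letI := algA₁ D φ
  show (cmpPair G φ).symm (s ⊗ₜ[B] (τ : G.M₀ × G.M₁)) = _
  rw [cmpPair_symm_tmul, cmp₀_symm_tmul, cmp₁_symm_tmul]
  refine Prod.ext ?_ ?_
  · show (algebraMap B' (D.A₀ B') s ⊗ₜ[D.A₀ B] (τ : G.M₀ × G.M₁).1 : D.A₀ B' ⊗[D.A₀ B] G.M₀) =
      algebraMap B' (D.A₀ B') s • ((1 : D.A₀ B') ⊗ₜ[D.A₀ B] (τ : G.M₀ × G.M₁).1 :
        D.A₀ B' ⊗[D.A₀ B] G.M₀)
    rw [TensorProduct.smul_tmul', smul_eq_mul, mul_one]
  · show (algebraMap B' (D.A₁ B') s ⊗ₜ[D.A₁ B] (τ : G.M₀ × G.M₁).2 : D.A₁ B' ⊗[D.A₁ B] G.M₁) =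
      algebraMap B' (D.A₁ B') s • ((1 : D.A₁ B') ⊗ₜ[D.A₁ B] (τ : G.M₀ × G.M₁).2 :
        D.A₁ B' ⊗[D.A₁ B] G.M₁)
    rw [TensorProduct.smul_tmul', smul_eq_mul, mul_one]

/-- **Flat base change for `H⁰`.** -/
theorem h0Map_bijective_of_flat_base (hφ : letI := algPhi φ; Module.Flat B B') :
    letI := algPhi φ
    Function.Bijective (h0Map G φ) := by
  letI := algPhi φ
  exact (h0CmpKer G φ).symm.bijective.comp (tensorKer_bijective_of_flat_base B' G.delta)

/-- **Cohomology and base change for `H⁰`.** If `G.M₀₁` and `H¹(G)` are flat over `B`, then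
`H⁰` commutes with EVERY base change. -/
theorem h0Map_bijective_of_flat [Module.Flat B G.M₀₁] [Module.Flat B G.H1] :
    letI := algPhi φ
    Function.Bijective (h0Map G φ) := by
  letI := algPhi φ
  exact (h0CmpKer G φ).symm.bijective.comp (tensorKer_bijective_of_flat B' G.delta)

/-- If `H¹(G) = 0` (and `G.M₀₁` is flat over `B`), then `H⁰` commutes with every base change. -/
theorem h0Map_bijective_of_subsingleton_H1 [Module.Flat B G.M₀₁] (h : Subsingleton G.H1) :
    letI := algPhi φ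
    Function.Bijective (h0Map G φ) :=
  haveI : Module.Flat B G.H1 := inferInstance
  h0Map_bijective_of_flat G φ

/-- Spanning form (chart at infinity): if `h0Map` is surjective, every global section of
`G.baseChange φ` is, on the chart at infinity, a combination of base changes of global sections
of `G`. -/
theorem H0_baseChange_snd_mem_span
    (hs : letI := algPhi φ; Function.Surjective (h0Map G φ))
    (τ' : (G.baseChange φ).M₀ × (G.baseChange φ).M₁) (hτ' : τ' ∈ (G.baseChange φ).H0) :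
    τ'.2 ∈ Submodule.span (D.A₁ B') {m' | ∃ τ ∈ G.H0, helper8108.bcMap₁ G φ τ.2 = m'} := by
  letI := algPhi φ
  obtain ⟨z, hz⟩ := hs ⟨τ', hτ'⟩
  have key : ∀ z : B' ⊗[B] G.H0,
      ((h0Map G φ z : (G.baseChange φ).H0) : (G.baseChange φ).M₀ × (G.baseChange φ).M₁).2 ∈
        Submodule.span (D.A₁ B') {m' | ∃ τ ∈ G.H0, helper8108.bcMap₁ G φ τ.2 = m'} := by
    intro z
    induction z with
    | zero => simp
    | add x y hx hy =>
      rw [map_add]
      exact Submodule.add_mem _ hx hy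
    | tmul s τ =>
      rw [h0Map_tmul]
      exact Submodule.smul_mem _ (algebraMap B' (D.A₁ B') s)
        (Submodule.subset_span ⟨τ.1, τ.2, rfl⟩)
  have := key z
  rwa [hz] at this

/-- Spanning form (first chart). -/
theorem H0_baseChange_fst_mem_span
    (hs : letI := algPhi φ; Function.Surjective (h0Map G φ))
    (τ' : (G.baseChange φ).M₀ × (G.baseChange φ).M₁) (hτ' : τ' ∈ (G.baseChange φ).H0) :
    τ'.1 ∈ Submodule.span (D.A₀ B') {m' | ∃ τ ∈ G.H0, helper8108.bcMap₀ G φ τ.1 = m'} := by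
  letI := algPhi φ
  obtain ⟨z, hz⟩ := hs ⟨τ', hτ'⟩
  have key : ∀ z : B' ⊗[B] G.H0,
      ((h0Map G φ z : (G.baseChange φ).H0) : (G.baseChange φ).M₀ × (G.baseChange φ).M₁).1 ∈
        Submodule.span (D.A₀ B') {m' | ∃ τ ∈ G.H0, helper8108.bcMap₀ G φ τ.1 = m'} := by
    intro z
    induction z with
    | zero => simp
    | add x y hx hy =>
      rw [map_add]
      exact Submodule.add_mem _ hx hy
    | tmul s τ =>
      rw [h0Map_tmul]
      exact Submodule.smul_mem _ (algebraMap B' (D.A₀ B') s)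
        (Submodule.subset_span ⟨τ.1, τ.2, rfl⟩)
  have := key z
  rwa [hz] at this

/-- **`hspan` of `helper7244.exists_notMem_of_baseChange`** when `H¹(G) = 0`. -/
theorem H0_baseChange_snd_mem_span_of_subsingleton_H1 [Module.Flat B G.M₀₁]
    (h : Subsingleton G.H1) :
    ∀ τ' ∈ (G.baseChange φ).H0,
      τ'.2 ∈ Submodule.span (D.A₁ B') {m' | ∃ τ ∈ G.H0, helper8108.bcMap₁ G φ τ.2 = m'} :=
  fun τ' hτ' => H0_baseChange_snd_mem_span G φ
    (h0Map_bijective_of_subsingleton_H1 G φ h).surjective τ' hτ'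

theorem H0_baseChange_fst_mem_span_of_subsingleton_H1 [Module.Flat B G.M₀₁]
    (h : Subsingleton G.H1) :
    ∀ τ' ∈ (G.baseChange φ).H0,
      τ'.1 ∈ Submodule.span (D.A₀ B') {m' | ∃ τ ∈ G.H0, helper8108.bcMap₀ G φ τ.1 = m'} :=
  fun τ' hτ' => H0_baseChange_fst_mem_span G φ
    (h0Map_bijective_of_subsingleton_H1 G φ h).surjective τ' hτ'

/-! ### Unconditional forms -/

/-- The overlap module is flat over the base (it is even projective, `helper9607`). -/
theorem flat_M₀₁ : Module.Flat B G.M₀₁ :=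
  haveI := helper9607.projective_M₀₁ G
  inferInstance

/-- **Cohomology and base change.** If `H¹(G)` is flat over `B`, then `H⁰` commutes with every
base change `φ : B → B'`. -/
theorem h0Map_bijective_of_flat_H1 [Module.Flat B G.H1] :
    letI := algPhi φ
    Function.Bijective (h0Map G φ) :=
  haveI := flat_M₀₁ G
  h0Map_bijective_of_flat G φ

/-- **Cohomology and base change.** If `H¹(G) = 0`, then `H⁰` commutes with every base change
`φ : B → B'`. -/
theorem h0Map_bijective (h : Subsingleton G.H1) :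
    letI := algPhi φ
    Function.Bijective (h0Map G φ) :=
  haveI := flat_M₀₁ G
  h0Map_bijective_of_subsingleton_H1 G φ h

/-- If `H¹(G) = 0`: `B' ⊗[B] H⁰(G) ≃ H⁰(G_B')` for every base change `φ : B → B'`. -/
noncomputable def h0Equiv (h : Subsingleton G.H1) :
    letI := algPhi φ
    B' ⊗[B] G.H0 ≃ₗ[B'] (G.baseChange φ).H0 :=
  letI := algPhi φ
  LinearEquiv.ofBijective (h0Map G φ) (h0Map_bijective G φ h)

theorem h0Equiv_apply (h : Subsingleton G.H1) (z : letI := algPhi φ; B' ⊗[B] G.H0) :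
    h0Equiv G φ h z = h0Map G φ z := rfl

/-- If `H¹(G) = 0`, every global section of `G.baseChange φ` is, on the chart at infinity, a
combination of base changes of global sections of `G` (the hypothesis `hspan` of
`helper7244.exists_notMem_of_baseChange`). -/
theorem hspan_snd (h : Subsingleton G.H1) :
    ∀ τ' ∈ (G.baseChange φ).H0,
      τ'.2 ∈ Submodule.span (D.A₁ B') {m' | ∃ τ ∈ G.H0, helper8108.bcMap₁ G φ τ.2 = m'} :=
  haveI := flat_M₀₁ G
  H0_baseChange_snd_mem_span_of_subsingleton_H1 G φ h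

/-- If `H¹(G) = 0`, every global section of `G.baseChange φ` is, on the first chart, a
combination of base changes of global sections of `G`. -/
theorem hspan_fst (h : Subsingleton G.H1) :
    ∀ τ' ∈ (G.baseChange φ).H0,
      τ'.1 ∈ Submodule.span (D.A₀ B') {m' | ∃ τ ∈ G.H0, helper8108.bcMap₀ G φ τ.1 = m'} :=
  haveI := flat_M₀₁ G
  H0_baseChange_fst_mem_span_of_subsingleton_H1 G φ h

/-- `H¹(G) = 0` in terms of the Čech differential. -/
theorem subsingleton_H1_iff : Subsingleton G.H1 ↔ Function.Surjective G.delta := by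
  rw [Submodule.Quotient.subsingleton_iff, LinearMap.range_eq_top]

/-! ### `IsBaseChange` form and the rank of `H⁰` at a field point -/

/-- `H⁰(G_B')` as a `B`-module through `φ` (NOT an instance). -/
@[reducible] noncomputable def moduleH0Phi : Module B (G.baseChange φ).H0 :=
  Module.compHom _ φ.toRingHom

theorem isScalarTower_H0Phi :
    @IsScalarTower B B' (G.baseChange φ).H0 (algPhi φ).toSMul _ (moduleH0Phi G φ).toSMul :=
  letI := algPhi φ
  letI := moduleH0Phi G φ
  ⟨fun b s z => by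
    show (b • s) • z = φ b • (s • z)
    rw [Algebra.smul_def, mul_smul]
    rfl⟩

/-- The natural `B`-linear map `H⁰(G) → H⁰(G_B')`, `τ ↦ (1 ⊗ τ.1, 1 ⊗ τ.2)` (`B` acting on the
target through `φ`). -/
noncomputable def h0BcMap :
    letI := moduleH0Phi G φ
    G.H0 →ₗ[B] (G.baseChange φ).H0 :=
  letI := algPhi φ
  letI := moduleH0Phi G φ
  haveI := isScalarTower_H0Phi G φ
  ((h0Map G φ).restrictScalars B) ∘ₗ (TensorProduct.mk B B' G.H0 1)

theorem h0BcMap_apply (τ : G.H0) :
    ((h0BcMap G φ τ : (G.baseChange φ).H0) : (G.baseChange φ).M₀ × (G.baseChange φ).M₁) =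
      (helper8108.bcMap₀ G φ (τ : G.M₀ × G.M₁).1, helper8108.bcMap₁ G φ (τ : G.M₀ × G.M₁).2) := by
  letI := algPhi φ
  show ((h0Map G φ ((1 : B') ⊗ₜ[B] τ) : (G.baseChange φ).H0) :
    (G.baseChange φ).M₀ × (G.baseChange φ).M₁) = _
  rw [h0Map_tmul, one_smul]

/-- **`IsBaseChange` form**: if `H¹(G) = 0`, then `H⁰(G) → H⁰(G_B')` is a base change, for every
`φ : B → B'`. -/
theorem isBaseChange_h0BcMap (h : Subsingleton G.H1) :
    letI := algPhi φ
    letI := moduleH0Phi G φ
    haveI := isScalarTower_H0Phi G φ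
    IsBaseChange B' (h0BcMap G φ) :=
  letI := algPhi φ
  letI := moduleH0Phi G φ
  haveI := isScalarTower_H0Phi G φ
  IsBaseChange.of_equiv (h0Equiv G φ h) (fun _ => rfl)

/-- The rank of `H⁰(G)` at a prime is the dimension of `H⁰` of ANY field-valued fibre at that
prime, when `H¹(G) = 0` (and `H⁰(G)` is finite flat). -/
theorem rankAtStalk_H0_eq_finrank {K : Type u} [Field K] [Algebra k K] (χ : B →ₐ[k] K)
    (h : Subsingleton G.H1) [Module.Finite B G.H0] [Module.Flat B G.H0] :
    Module.rankAtStalk G.H0 ⟨RingHom.ker χ.toRingHom, RingHom.ker_isPrime _⟩ =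
      Module.finrank K (G.baseChange χ).H0 := by
  letI := algPhi χ
  rw [← (h0Equiv G χ h).finrank_eq]
  have h1 := Module.rankAtStalk_baseChange (R := B) (M := G.H0) (S := K) ⟨⊥, Ideal.isPrime_bot⟩
  have h2 : (⟨⊥, Ideal.isPrime_bot⟩ : PrimeSpectrum K).comap (algebraMap B K) =
      ⟨RingHom.ker χ.toRingHom, RingHom.ker_isPrime _⟩ := by
    ext1
    rfl
  rw [h2] at h1
  rw [← h1, Module.rankAtStalk_eq_finrank_of_free]
  rfl

/-- The same, unconditionally for `k` algebraically closed (`H⁰(G)` is finite projective by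
`helper9607.H0_fg_and_projective`). -/
theorem rankAtStalk_H0_eq_finrank' [IsAlgClosed k] {K : Type u} [Field K] [Algebra k K]
    (χ : B →ₐ[k] K) (h : Subsingleton G.H1) :
    Module.rankAtStalk G.H0 ⟨RingHom.ker χ.toRingHom, RingHom.ker_isPrime _⟩ =
      Module.finrank K (G.baseChange χ).H0 :=
  haveI := helper9607.H0_finite G ((subsingleton_H1_iff G).mp h)
  haveI := helper9607.H0_projective G ((subsingleton_H1_iff G).mp h)
  rankAtStalk_H0_eq_finrank G χ h

/-- The hypothesis `hrank` of `helper7244.evEps_bijective` from the fibres: if `H¹(G) = 0` and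
every maximal ideal of `B` is the kernel of a field-valued point whose fibre has `h⁰ ≤ 1`, then
`H⁰(G)` has rank `≤ 1` at every maximal ideal. -/
theorem rankAtStalk_H0_le_one [IsAlgClosed k] (h : Subsingleton G.H1)
    (hfib : ∀ 𝔪 : Ideal B, 𝔪.IsMaximal → ∃ (K : Type u) (_ : Field K) (_ : Algebra k K)
      (χ : B →ₐ[k] K), RingHom.ker χ.toRingHom = 𝔪 ∧ Module.finrank K (G.baseChange χ).H0 ≤ 1) :
    ∀ (𝔪 : Ideal B) [𝔪.IsMaximal], Module.rankAtStalk G.H0 ⟨𝔪, inferInstance⟩ ≤ 1 := by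
  intro 𝔪 h𝔪
  obtain ⟨K, _, _, χ, hχ, hle⟩ := hfib 𝔪 h𝔪
  have h1 := rankAtStalk_H0_eq_finrank' G χ h
  have h2 : (⟨RingHom.ker χ.toRingHom, RingHom.ker_isPrime _⟩ : PrimeSpectrum B) =
      ⟨𝔪, inferInstance⟩ := PrimeSpectrum.ext hχ
  rw [h2] at h1
  rw [h1]
  exact hle

end Glue

end Fermat.Agent.S25.helper1985
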