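/-
S25 generic wiring (layer G): properties of a scheme `J` over an affine base deduced from its
functor of points.  Mathlib only, statement-agnostic.

* `SqZeroLifting j`, `smooth_of_sqZeroLifting` : locally of finite presentation + lifting of
  points along square-zero thickenings of affine schemes  ⟹  smooth.
* `isProper_of_surjective`, `geometricallyConnected_of_surjective` : properness and geometric
  connectedness descend along a surjection `q : X ⟶ J`.
* `isSeparated_of_valuative_uniqueness`, `isSeparated_of_isClosed_range_diagonal`,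
  `eqLocus`, `mem_range_diagonal_iff`, `isSeparated_of_isClosed_eqLocus` : separatedness
  criteria in points form.
* `fibrePower c n` (`C^n` over `S`) with projections, lifts, `isProper_fibrePower`,
  `universallyOpen_fibrePower`, `geometricallyConnected_fibrePower`.
* `smooth_isProper_geometricallyConnected_of_points` : the assembly over a field.
-/
import Mathlib

set_option autoImplicit false

universe u

open CategoryTheory CategoryTheory.Limits AlgebraicGeometry

namespace Fermat.Agent.S25.helper2317

/-- Square-zero lifting property of the functor of points of `j : J ⟶ Spec R`: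
every `R`-point of `J` with values in `B ⧸ I`, `I ^ 2 = 0`, lifts to a `B`-valued `R`-point. -/
def SqZeroLifting {J : Scheme.{u}} {R : CommRingCat.{u}} (j : J ⟶ Spec R) : Prop :=
  ∀ (B : Type u) [CommRing B] (I : Ideal B), I ^ 2 = ⊥ →
    ∀ (φ : R ⟶ CommRingCat.of B) (g : Spec (CommRingCat.of (B ⧸ I)) ⟶ J),
      g ≫ j = Spec.map (φ ≫ CommRingCat.ofHom (Ideal.Quotient.mk I)) →
      ∃ g' : Spec (CommRingCat.of B) ⟶ J, g' ≫ j = Spec.map φ ∧
        Spec.map (CommRingCat.ofHom (Ideal.Quotient.mk I)) ≫ g' = g

/-- The closed immersion of a square-zero thickening is surjective on points. -/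
theorem specMap_mk_surjective_of_sq_zero {B : Type u} [CommRing B] (I : Ideal B) (hI : I ^ 2 = ⊥) :
    Function.Surjective (Spec.map (CommRingCat.ofHom (Ideal.Quotient.mk I))).base := by
  have hle : I ≤ nilradical B := by
    intro x hx
    have : x ^ 2 ∈ I ^ 2 := Ideal.pow_mem_pow hx 2
    rw [hI] at this
    exact ⟨2, this⟩
  exact (PrimeSpectrum.comap_quotientMk_bijective_of_le_nilradical hle).2

/-- Formal smoothness of an affine chart of `J` from the square-zero lifting property. -/
theorem formallySmooth_of_sqZeroLifting {J : Scheme.{u}} {R : CommRingCat.{u}} (j : J ⟶ Spec R)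
    (h : SqZeroLifting j) {A : CommRingCat.{u}} (ι : Spec A ⟶ J) [IsOpenImmersion ι]
    (ψ : R ⟶ A) (hψ : Spec.map ψ = ι ≫ j) : ψ.hom.FormallySmooth := by
  algebraize [ψ.hom]
  show Algebra.FormallySmooth R A
  refine Algebra.FormallySmooth.of_comp_surjective ?_
  intro B _ _ I hI f
  -- the `B ⧸ I`-point of `J`
  let g : Spec (CommRingCat.of (B ⧸ I)) ⟶ J := Spec.map (CommRingCat.ofHom f.toRingHom) ≫ ι
  let φ : R ⟶ CommRingCat.of B := CommRingCat.ofHom (algebraMap R B)
  have hg : g ≫ j = Spec.map (φ ≫ CommRingCat.ofHom (Ideal.Quotient.mk I)) := by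
    simp only [g, Category.assoc, ← hψ, ← Spec.map_comp]
    congr 1
    ext r
    simp only [CommRingCat.hom_comp, CommRingCat.hom_ofHom, RingHom.comp_apply, φ]
    exact f.commutes r
  obtain ⟨g', hg'j, hg'⟩ := h B I hI φ g hg
  -- the lift lands in the affine chart
  have hrange : Set.range g'.base ⊆ Set.range ι.base := by
    rintro _ ⟨p, rfl⟩
    obtain ⟨q, rfl⟩ := specMap_mk_surjective_of_sq_zero I hI p
    have : g'.base ((Spec.map (CommRingCat.ofHom (Ideal.Quotient.mk I))).base q) = g.base q := by
      rw [← hg']; rfl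
    rw [this]
    exact ⟨_, rfl⟩
  let l : Spec (CommRingCat.of B) ⟶ Spec A := IsOpenImmersion.lift ι g' hrange
  have hl : l ≫ ι = g' := IsOpenImmersion.lift_fac ι g' hrange
  let χ : A ⟶ CommRingCat.of B := Spec.preimage l
  have hχ : Spec.map χ = l := Spec.map_preimage l
  have h1 : ψ ≫ χ = φ := by
    apply Spec.map_injective
    rw [Spec.map_comp, hχ, hψ, ← Category.assoc, hl, hg'j]
  have h2 : χ ≫ CommRingCat.ofHom (Ideal.Quotient.mk I) = CommRingCat.ofHom f.toRingHom := by
    apply Spec.map_injective
    rw [Spec.map_comp, hχ]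
    rw [← cancel_mono ι, Category.assoc, hl, hg']
  refine ⟨⟨χ.hom, fun r => ?_⟩, ?_⟩
  · have := congrArg (fun m => m.hom r) h1
    simp only [CommRingCat.hom_comp, RingHom.comp_apply, φ, CommRingCat.hom_ofHom] at this
    exact this
  · ext a
    have := congrArg (fun m => m.hom a) h2
    simpa using this

set_option backward.isDefEq.respectTransparency.types false in
/-- **Smoothness from the functor of points.** A morphism `j : J ⟶ Spec R` that is locally of
finite presentation and has the square-zero lifting property is smooth. -/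
theorem smooth_of_sqZeroLifting {J : Scheme.{u}} {R : CommRingCat.{u}} (j : J ⟶ Spec R)
    [LocallyOfFinitePresentation j] (h : SqZeroLifting j) : Smooth j := by
  refine IsZariskiLocalAtSource.of_openCover (P := @Smooth.{u}) J.affineOpenCover.openCover
    fun i => ?_
  have hfp : LocallyOfFinitePresentation (J.affineOpenCover.openCover.f i ≫ j) := inferInstance
  obtain ⟨ψ, hψ⟩ : ∃ ψ : R ⟶ J.affineOpenCover.X i,
      Spec.map ψ = J.affineOpenCover.f i ≫ j := ⟨Spec.preimage _, Spec.map_preimage _⟩
  change LocallyOfFinitePresentation (J.affineOpenCover.f i ≫ j) at hfp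
  change Smooth (J.affineOpenCover.f i ≫ j)
  rw [← hψ] at hfp ⊢
  rw [HasRingHomProperty.Spec_iff (P := @LocallyOfFinitePresentation.{u})] at hfp
  rw [HasRingHomProperty.Spec_iff (P := @Smooth.{u})]
  have hfs := formallySmooth_of_sqZeroLifting j h (J.affineOpenCover.f i) ψ hψ
  exact RingHom.smooth_def.mpr ⟨hfs, hfp⟩

/-! ### Proper and geometrically connected from a surjection -/

/-- **Properness from a surjection.** If `q : X ⟶ J` is surjective, `X` is proper over `S`
and `J` is separated and locally of finite type over `S`, then `J` is proper over `S`. -/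
theorem isProper_of_surjective {X J S : Scheme.{u}} (q : X ⟶ J) (j : J ⟶ S)
    [IsProper (q ≫ j)] [Surjective q] [IsSeparated j] [LocallyOfFiniteType j] : IsProper j :=
  { toIsSeparated := ‹_›
    toUniversallyClosed := UniversallyClosed.of_comp_surjective q j
    toLocallyOfFiniteType := ‹_› }

/-- **Geometric connectedness from a surjection.** -/
theorem geometricallyConnected_of_surjective {X J S : Scheme.{u}} (q : X ⟶ J) (j : J ⟶ S)
    [GeometricallyConnected (q ≫ j)] [Surjective q] : GeometricallyConnected j := by
  refine ⟨geometrically_iff_of_isClosedUnderIsomorphisms.mpr fun K _ y => ?_⟩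
  have hX : ConnectedSpace ↥(pullback (q ≫ j) y) :=
    pullback_of_geometrically (GeometricallyConnected.geometrically_connectedSpace (f := q ≫ j))
      K y
  -- the base change of `q`
  let e := pullbackRightPullbackFstIso j y q
  have hX' : ConnectedSpace ↥(pullback q (pullback.fst j y)) :=
    e.hom.homeomorph.connectedSpace_iff.mpr hX
  have hq' : Surjective (pullback.snd q (pullback.fst j y)) := inferInstance
  exact hq'.surj.connectedSpace (pullback.snd q (pullback.fst j y)).continuous

/-! ### Separatedness -/

/-- **Separatedness from uniqueness on valuation rings, points form.** -/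
theorem isSeparated_of_valuative_uniqueness {J S : Scheme.{u}} (j : J ⟶ S) [QuasiSeparated j]
    (h : ∀ (O : Type u) [CommRing O] [IsDomain O] [ValuationRing O] (K : Type u) [Field K]
      [Algebra O K] [IsFractionRing O K] (g₁ g₂ : Spec (CommRingCat.of O) ⟶ J),
      g₁ ≫ j = g₂ ≫ j →
      Spec.map (CommRingCat.ofHom (algebraMap O K)) ≫ g₁ =
        Spec.map (CommRingCat.ofHom (algebraMap O K)) ≫ g₂ → g₁ = g₂) :
    IsSeparated j := by
  refine IsSeparated.of_valuativeCriterion j fun S => ⟨fun l₁ l₂ => ?_⟩
  have := h S.R S.K l₁.l l₂.l (l₁.fac_right.trans l₂.fac_right.symm)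
    (l₁.fac_left.trans l₂.fac_left.symm)
  cases l₁; cases l₂; congr

/-- Separatedness from closedness of the range of the diagonal (the diagonal of any morphism of
schemes is an immersion). -/
theorem isSeparated_of_isClosed_range_diagonal {J S : Scheme.{u}} (j : J ⟶ S)
    (h : IsClosed (Set.range (pullback.diagonal j).base)) : IsSeparated j :=
  ⟨.of_isPreimmersion _ h⟩

/-- Morphisms out of the spectrum of a field can be tested after a field extension. -/
theorem specMap_field_cancel {K L : Type u} [Field K] [Field L]
    (φ : CommRingCat.of K ⟶ CommRingCat.of L) {X : Scheme.{u}}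
    (a b : Spec (CommRingCat.of K) ⟶ X) (h : Spec.map φ ≫ a = Spec.map φ ≫ b) : a = b := by
  have key : ∀ c : Spec (CommRingCat.of K) ⟶ X,
      Spec.map φ ≫ c = (Scheme.SpecToEquivOfField L X).symm
        ⟨(Scheme.SpecToEquivOfField K X c).1, (Scheme.SpecToEquivOfField K X c).2 ≫ φ⟩ := by
    intro c
    conv_lhs => rw [← (Scheme.SpecToEquivOfField K X).symm_apply_apply c]
    simp only [Scheme.SpecToEquivOfField, Equiv.coe_fn_symm_mk, Equiv.coe_fn_mk, Spec.map_comp,
      Category.assoc]
  rw [key a, key b] at h
  have h' := (Scheme.SpecToEquivOfField L X).symm.injective h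
  rw [Scheme.SpecToEquivOfField_eq_iff] at h'
  obtain ⟨e, he⟩ := h'
  apply (Scheme.SpecToEquivOfField K X).injective
  rw [Scheme.SpecToEquivOfField_eq_iff]
  refine ⟨e, ?_⟩
  have hφ : Function.Injective φ.hom := φ.hom.injective
  ext r
  have := congrArg (fun m => m.hom r) he
  simp only [CommRingCat.hom_comp, RingHom.comp_apply] at this
  exact hφ this

/-- The locus of `T` where two morphisms `g₁ g₂ : T ⟶ J` agree on residue fields. -/
def eqLocus {T J : Scheme.{u}} (g₁ g₂ : T ⟶ J) : Set T :=
  {t | T.fromSpecResidueField t ≫ g₁ = T.fromSpecResidueField t ≫ g₂}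

/-- A point of `J ×_S J` lies on the diagonal iff its two projections agree on its residue
field. -/
theorem mem_range_diagonal_iff {J S : Scheme.{u}} (j : J ⟶ S) (x : ↥(pullback j j)) :
    x ∈ Set.range (pullback.diagonal j).base ↔
      x ∈ eqLocus (pullback.fst j j) (pullback.snd j j) := by
  constructor
  · rintro ⟨z, rfl⟩
    show _ = _
    have hnat := Scheme.Hom.SpecMap_residueFieldMap_fromSpecResidueField (pullback.diagonal j) z
    have h1 : Spec.map ((pullback.diagonal j).residueFieldMap z) ≫
        ((pullback j j).fromSpecResidueField ((pullback.diagonal j).base z) ≫ pullback.fst j j) =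
        Spec.map ((pullback.diagonal j).residueFieldMap z) ≫
        ((pullback j j).fromSpecResidueField ((pullback.diagonal j).base z) ≫ pullback.snd j j) := by
      rw [← Category.assoc, ← Category.assoc, hnat]
      simp
    exact specMap_field_cancel (K := (pullback j j).residueField ((pullback.diagonal j).base z))
      (L := J.residueField z) ((pullback.diagonal j).residueFieldMap z) _ _ h1
  · intro hx
    have hx' : (pullback j j).fromSpecResidueField x ≫ pullback.fst j j =
        (pullback j j).fromSpecResidueField x ≫ pullback.snd j j := hx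
    have : (pullback j j).fromSpecResidueField x =
        ((pullback j j).fromSpecResidueField x ≫ pullback.fst j j) ≫ pullback.diagonal j := by
      apply pullback.hom_ext
      · simp
      · simp [hx']
    have hpt := (pullback j j).fromSpecResidueField_apply x default
    rw [this] at hpt
    exact ⟨_, hpt⟩

/-- **Separatedness from closed equalizer loci, points form**: if for every affine `Spec B` and
every pair of `S`-morphisms `g₁ g₂ : Spec B ⟶ J` the locus where they agree (on residue fields)
is closed, then `J` is separated over `S`. -/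
theorem isSeparated_of_isClosed_eqLocus {J S : Scheme.{u}} (j : J ⟶ S)
    (h : ∀ (B : CommRingCat.{u}) (g₁ g₂ : Spec B ⟶ J), g₁ ≫ j = g₂ ≫ j →
      IsClosed (eqLocus g₁ g₂)) : IsSeparated j := by
  refine ⟨.of_isPreimmersion _ ?_⟩
  rw [← isOpen_compl_iff, isOpen_iff_forall_mem_open]
  intro x hx
  let 𝒰 := (pullback j j).affineOpenCover
  obtain ⟨y, hy⟩ := 𝒰.covers x
  have hcl : IsClosed (eqLocus (𝒰.f (𝒰.idx x) ≫ pullback.fst j j)
      (𝒰.f (𝒰.idx x) ≫ pullback.snd j j)) :=
    h _ _ _ (by simp [pullback.condition])
  -- the preimage of the diagonal in the chart is the equalizer locus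
  have hpre : ∀ y' : Spec (𝒰.X (𝒰.idx x)),
      (𝒰.f (𝒰.idx x)).base y' ∈ Set.range (pullback.diagonal j).base ↔
        y' ∈ eqLocus (𝒰.f (𝒰.idx x) ≫ pullback.fst j j) (𝒰.f (𝒰.idx x) ≫ pullback.snd j j) := by
    intro y'
    rw [mem_range_diagonal_iff]
    show (_ = _) ↔ (_ = _)
    have hnat := Scheme.Hom.SpecMap_residueFieldMap_fromSpecResidueField (𝒰.f (𝒰.idx x)) y'
    constructor
    · intro h1
      rw [← Category.assoc, ← Category.assoc, ← hnat, Category.assoc, Category.assoc, h1]
    · intro h1
      have h2 : Spec.map ((𝒰.f (𝒰.idx x)).residueFieldMap y') ≫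
          ((pullback j j).fromSpecResidueField ((𝒰.f (𝒰.idx x)).base y') ≫ pullback.fst j j) =
          Spec.map ((𝒰.f (𝒰.idx x)).residueFieldMap y') ≫
          ((pullback j j).fromSpecResidueField ((𝒰.f (𝒰.idx x)).base y') ≫ pullback.snd j j) := by
        rw [← Category.assoc, ← Category.assoc, hnat, Category.assoc, Category.assoc, h1]
      exact specMap_field_cancel
        (K := (pullback j j).residueField ((𝒰.f (𝒰.idx x)).base y'))
        (L := (Spec (𝒰.X (𝒰.idx x))).residueField y')
        ((𝒰.f (𝒰.idx x)).residueFieldMap y') _ _ h2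
  refine ⟨(𝒰.f (𝒰.idx x)).base '' (eqLocus (𝒰.f (𝒰.idx x) ≫ pullback.fst j j)
      (𝒰.f (𝒰.idx x) ≫ pullback.snd j j))ᶜ, ?_, ?_, ?_⟩
  · rintro _ ⟨y', hy', rfl⟩ hmem
    exact hy' ((hpre y').mp hmem)
  · exact (𝒰.f (𝒰.idx x)).isOpenEmbedding.isOpenMap _ hcl.isOpen_compl
  · refine ⟨y, ?_, hy⟩
    intro hmem
    exact hx (hy ▸ (hpre y).mpr hmem)

/-! ### Fibre powers -/

/-- The `n`-fold fibre power of `c : C ⟶ S`, as an object over `S`:
`C^0 = S`, `C^(n+1) = C ×_S C^n`. -/
noncomputable def fibrePower {C S : Scheme.{u}} (c : C ⟶ S) : ℕ → Over S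
  | 0 => Over.mk (𝟙 S)
  | n + 1 => Over.mk (pullback.fst c (fibrePower c n).hom ≫ c)

/-- The first projection `C^(n+1) ⟶ C`. -/
noncomputable def fibrePowerFst {C S : Scheme.{u}} (c : C ⟶ S) (n : ℕ) :
    (fibrePower c (n + 1)).left ⟶ C :=
  pullback.fst c (fibrePower c n).hom

/-- The projection `C^(n+1) ⟶ C^n` forgetting the first factor. -/
noncomputable def fibrePowerSnd {C S : Scheme.{u}} (c : C ⟶ S) (n : ℕ) :
    (fibrePower c (n + 1)).left ⟶ (fibrePower c n).left :=
  pullback.snd c (fibrePower c n).hom

theorem fibrePower_succ_hom {C S : Scheme.{u}} (c : C ⟶ S) (n : ℕ) :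
    (fibrePower c (n + 1)).hom = fibrePowerFst c n ≫ c := rfl

theorem fibrePowerSnd_hom {C S : Scheme.{u}} (c : C ⟶ S) (n : ℕ) :
    fibrePowerSnd c n ≫ (fibrePower c n).hom = (fibrePower c (n + 1)).hom :=
  (pullback.condition (f := c) (g := (fibrePower c n).hom)).symm

/-- A point of `C^(n+1)` from a point of `C` and a point of `C^n`. -/
noncomputable def fibrePowerLift {C S T : Scheme.{u}} (c : C ⟶ S) (n : ℕ) (a : T ⟶ C)
    (b : T ⟶ (fibrePower c n).left) (h : a ≫ c = b ≫ (fibrePower c n).hom) :
    T ⟶ (fibrePower c (n + 1)).left :=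
  pullback.lift a b h

@[simp]
theorem fibrePowerLift_fst {C S T : Scheme.{u}} (c : C ⟶ S) (n : ℕ) (a : T ⟶ C)
    (b : T ⟶ (fibrePower c n).left) (h : a ≫ c = b ≫ (fibrePower c n).hom) :
    fibrePowerLift c n a b h ≫ fibrePowerFst c n = a :=
  pullback.lift_fst _ _ _

@[simp]
theorem fibrePowerLift_snd {C S T : Scheme.{u}} (c : C ⟶ S) (n : ℕ) (a : T ⟶ C)
    (b : T ⟶ (fibrePower c n).left) (h : a ≫ c = b ≫ (fibrePower c n).hom) :
    fibrePowerLift c n a b h ≫ fibrePowerSnd c n = b :=
  pullback.lift_snd _ _ _

theorem isProper_fibrePower {C S : Scheme.{u}} (c : C ⟶ S) [IsProper c] (n : ℕ) :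
    IsProper (fibrePower c n).hom := by
  induction n with
  | zero => exact (inferInstance : IsProper (𝟙 S))
  | succ n ih =>
    have := ih
    exact (inferInstance : IsProper (pullback.fst c (fibrePower c n).hom ≫ c))

theorem universallyOpen_fibrePower {C S : Scheme.{u}} (c : C ⟶ S) [UniversallyOpen c] (n : ℕ) :
    UniversallyOpen (fibrePower c n).hom := by
  induction n with
  | zero => exact (inferInstance : UniversallyOpen (𝟙 S))
  | succ n ih =>
    have := ih
    exact (inferInstance : UniversallyOpen (pullback.fst c (fibrePower c n).hom ≫ c))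

theorem geometricallyConnected_fibrePower {C S : Scheme.{u}} (c : C ⟶ S)
    [GeometricallyConnected c] [UniversallyOpen c] (n : ℕ) :
    GeometricallyConnected (fibrePower c n).hom := by
  have h0 : GeometricallyConnected (𝟙 S) := by
    refine ⟨geometrically_iff_of_isClosedUnderIsomorphisms.mpr fun K _ y => ?_⟩
    have : IsIso (pullback.snd (𝟙 S) y) := inferInstance
    exact (asIso (pullback.snd (𝟙 S) y)).hom.homeomorph.connectedSpace_iff.mpr inferInstance
  induction n with
  | zero => exact h0
  | succ n ih =>
    have := ih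
    have := universallyOpen_fibrePower c n
    exact GeometricallyConnected.comp (pullback.fst c (fibrePower c n).hom) c

/-! ### Assembly over a field -/

/-- Over a field, a locally finite type morphism is quasi-separated. -/
theorem quasiSeparated_of_locallyOfFiniteType_field {k : Type u} [Field k] {J : Scheme.{u}}
    (j : J ⟶ Spec (CommRingCat.of k)) [LocallyOfFiniteType j] : QuasiSeparated j := by
  have : IsLocallyNoetherian J := LocallyOfFiniteType.isLocallyNoetherian j
  infer_instance

/-- **Layer G assembly.** Let `j : J ⟶ Spec k` be locally of finite type and separated, with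
the square-zero lifting property, and let `q : X ⟶ J` be a surjection from a proper and
geometrically connected `k`-scheme. Then `j` is smooth, proper and geometrically connected. -/
theorem smooth_isProper_geometricallyConnected_of_points {k : Type u} [Field k]
    {J X : Scheme.{u}} (j : J ⟶ Spec (CommRingCat.of k)) [LocallyOfFiniteType j]
    (hlift : SqZeroLifting j) [IsSeparated j] (q : X ⟶ J) [Surjective q] [IsProper (q ≫ j)]
    [GeometricallyConnected (q ≫ j)] :
    Smooth j ∧ IsProper j ∧ GeometricallyConnected j :=
  ⟨smooth_of_sqZeroLifting j hlift, isProper_of_surjective q j,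
    geometricallyConnected_of_surjective q j⟩

end Fermat.Agent.S25.helper2317
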