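/-
S25, leaf LG-SMOOTH (helper2317): `Stmt_Smooth` from square-zero lifting of rigidified line
bundles.

* `LiftSqZero c ε P` : rigidified bundles in the cut `P` lift along square-zero thickenings of
  affine test schemes (any base ring `R`, any cut `P`, arbitrary structure morphisms).
* `sqZeroLifting_of_liftSqZero`, `smooth_of_liftSqZero` : a representing designation of a cut with
  `LiftSqZero` has the square-zero lifting property for points, hence is smooth as soon as it is
  locally of finite presentation.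
* `fibrewiseAlgEquivZero_of_sqZero` : for the cut `algEquivZeroCut` a lift is automatically in the
  cut (every field point of `Spec B` factors through `Spec (B ⧸ I)`).
* `liftSqZero_of_stmt`, `stmt_Smooth_of_liftSqZero` :
  `helper985.Stmt_LiftSqZero → helper1705.Stmt_Smooth`.
-/
import Fermat.Agent.S25.helper985_LGSpec
import Fermat.Agent.S25.helper8915_CutLocal
import Fermat.Agent.S25.helper7579_AffineReduction
import Fermat.Agent.S25.helper2317_PropsWiring

set_option autoImplicit false

universe u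

open CategoryTheory CategoryTheory.Limits AlgebraicGeometry AlgebraicGeometry.RelPicard
  NeronModelInfra GoodReductionJacobian

namespace Fermat.Agent.S25.helper2317

section General

variable {R : Type u} [CommRing R] {C : Scheme.{u}} (c : C ⟶ Spec (CommRingCat.of R))
  (ε : SchemeHomOver (𝟙 (Spec (CommRingCat.of R))) c)

/-- Rigidified line bundles in the cut `P` lift along square-zero thickenings of affine test
schemes, and the lift can be chosen in the cut. -/
def LiftSqZero (P : SubPicCondition c ε) : Prop :=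
  ∀ (B : Type u) [CommRing B] (I : Ideal B), I ^ 2 = ⊥ →
    ∀ (t : Spec (CommRingCat.of B) ⟶ Spec (CommRingCat.of R))
      (t' : Spec (CommRingCat.of (B ⧸ I)) ⟶ Spec (CommRingCat.of R))
      (ht : Spec.map (CommRingCat.ofHom (Ideal.Quotient.mk I)) ≫ t = t')
      (M : RigidifiedLineBundle c ε t'), P.P t' M →
      ∃ M' : RigidifiedLineBundle c ε t, P.P t M' ∧
        Nonempty ((M'.pullbackAlong
          (⟨Spec.map (CommRingCat.ofHom (Ideal.Quotient.mk I)), ht⟩ : SchemeHomOver t' t)).L ≅ M.L)

variable {c ε}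

/-- A representing designation of a cut with `LiftSqZero` has the square-zero lifting property
for points. -/
theorem sqZeroLifting_of_liftSqZero {P : SubPicCondition c ε} {D : RelativePic0Designation R c}
    (h : RepresentsRelSubPic c ε P D) (hL : LiftSqZero c ε P) : SqZeroLifting D.toBase := by
  intro B _ I hI φ g hg
  have ht : Spec.map (CommRingCat.ofHom (Ideal.Quotient.mk I)) ≫ Spec.map φ =
      Spec.map (φ ≫ CommRingCat.ofHom (Ideal.Quotient.mk I)) := (Spec.map_comp _ _).symm
  let gOver : SchemeHomOver (Spec.map (φ ≫ CommRingCat.ofHom (Ideal.Quotient.mk I))) D.toBase :=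
    ⟨g, hg⟩
  obtain ⟨M', hM', ⟨e⟩⟩ := hL B I hI (Spec.map φ) _ ht (h.poincare.pullbackAlong gOver)
    (P.pullback_mem _ _ gOver _ h.poincare_mem)
  let g' := h.classify (Spec.map φ) M' hM'
  refine ⟨g'.1, g'.2, ?_⟩
  let ψ : SchemeHomOver (Spec.map (φ ≫ CommRingCat.ofHom (Ideal.Quotient.mk I))) (Spec.map φ) :=
    ⟨Spec.map (CommRingCat.ofHom (Ideal.Quotient.mk I)), ht⟩
  obtain ⟨e₁⟩ := h.classify_spec (Spec.map φ) M' hM'
  have key : postComp g' ψ = gOver :=
    h.ext_of_iso _ _ _ ⟨(helper7579.pullbackAlongCompIso h.poincare g' ψ).symm ≪≫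
      (Scheme.Modules.pullback (baseChangeSnd c ψ)).mapIso e₁ ≪≫ e⟩
  exact congrArg Subtype.val key

/-- **Smoothness of a representing designation from square-zero lifting of bundles.** -/
theorem smooth_of_liftSqZero {P : SubPicCondition c ε} {D : RelativePic0Designation R c}
    (h : RepresentsRelSubPic c ε P D) (hL : LiftSqZero c ε P)
    [LocallyOfFinitePresentation D.toBase] : Smooth D.toBase :=
  smooth_of_sqZeroLifting D.toBase (sqZeroLifting_of_liftSqZero h hL)

/-- A field point of `Spec B` factors through `Spec (B ⧸ I)` when `I ^ 2 = 0`. -/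
theorem exists_factor_of_sq_zero {B : Type u} [CommRing B] (I : Ideal B) (hI : I ^ 2 = ⊥)
    {K : Type u} [Field K] (s : Spec (CommRingCat.of K) ⟶ Spec (CommRingCat.of B)) :
    ∃ s' : Spec (CommRingCat.of K) ⟶ Spec (CommRingCat.of (B ⧸ I)),
      s' ≫ Spec.map (CommRingCat.ofHom (Ideal.Quotient.mk I)) = s := by
  obtain ⟨σ, rfl⟩ := Spec.map_surjective s
  have hker : ∀ a ∈ I, σ.hom a = 0 := by
    intro a ha
    have h2 : a ^ 2 ∈ I ^ 2 := Ideal.pow_mem_pow ha 2
    rw [hI] at h2
    have h0 : a ^ 2 = 0 := h2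
    have : σ.hom a ^ 2 = 0 := by rw [← map_pow, h0, map_zero]
    exact pow_eq_zero_iff (two_ne_zero) |>.mp this
  refine ⟨Spec.map (CommRingCat.ofHom (Ideal.Quotient.lift I σ.hom hker)), ?_⟩
  rw [← Spec.map_comp]
  congr 1

/-- For the cut "fibrewise algebraically equivalent to zero", a bundle over `Spec B` whose
restriction to `Spec (B ⧸ I)`, `I ^ 2 = 0`, is in the cut is itself in the cut. -/
theorem fibrewiseAlgEquivZero_of_sqZero {B : Type u} [CommRing B] (I : Ideal B) (hI : I ^ 2 = ⊥)
    {t : Spec (CommRingCat.of B) ⟶ Spec (CommRingCat.of R)}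
    {t' : Spec (CommRingCat.of (B ⧸ I)) ⟶ Spec (CommRingCat.of R)}
    (ht : Spec.map (CommRingCat.ofHom (Ideal.Quotient.mk I)) ≫ t = t')
    (M' : RigidifiedLineBundle c ε t)
    (hM : FibrewiseAlgEquivZero (M'.pullbackAlong
      (⟨Spec.map (CommRingCat.ofHom (Ideal.Quotient.mk I)), ht⟩ : SchemeHomOver t' t))) :
    FibrewiseAlgEquivZero M' := by
  intro K _ _ s
  obtain ⟨s', rfl⟩ := exists_factor_of_sq_zero I hI s
  exact helper8915.isAlgEquivZero_fibre_of_pullbackAlong
    (⟨Spec.map (CommRingCat.ofHom (Ideal.Quotient.mk I)), ht⟩ : SchemeHomOver t' t) M' s'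
    (hM K s')

end General

/-- `Stmt_LiftSqZero` of the LG spec gives `LiftSqZero` for the cut of S25. -/
theorem liftSqZero_of_stmt (hS : helper985.Stmt_LiftSqZero.{u}) (k : Type u) [Field k]
    {C : Scheme.{u}} (c : C ⟶ Spec (CommRingCat.of k)) (hc : helper1705.IsCurve k c)
    (ε : SchemeHomOver (𝟙 (Spec (CommRingCat.of k))) c) :
    LiftSqZero c ε (algEquivZeroCut c ε) := by
  intro B _ I hI t t' ht M hM
  obtain ⟨φ, rfl⟩ := Spec.map_surjective t
  let _ : Algebra k B := φ.hom.toAlgebra
  have ht' : t' = helper985.specStr k (B ⧸ I) := by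
    rw [← ht, ← Spec.map_comp]
    rfl
  subst ht'
  obtain ⟨M', ⟨e⟩⟩ := hS k c hc ε B I hI M hM
  refine ⟨M', ?_, ?_⟩
  · exact fibrewiseAlgEquivZero_of_sqZero I hI ht M' (FibrewiseAlgEquivZero.congr ⟨e.symm⟩ hM)
  · exact ⟨e⟩

/-- **Leaf LG-SMOOTH.** `Stmt_Smooth` follows from `Stmt_LiftSqZero`. -/
theorem stmt_Smooth_of_liftSqZero (hS : helper985.Stmt_LiftSqZero.{u}) :
    helper1705.Stmt_Smooth.{u} := by
  intro k _ C c hc ε D hD hft
  obtain ⟨h⟩ := hD
  have : LocallyOfFiniteType D.toBase := hft
  have : LocallyOfFinitePresentation D.toBase := inferInstance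
  exact smooth_of_liftSqZero h (liftSqZero_of_stmt hS k c hc ε)

end Fermat.Agent.S25.helper2317
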