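import Mathlib

/-!
# S25 brick WV: the weak valuative criterion for universally closed morphisms (helper2320)

Mathlib's `UniversallyClosed.of_valuativeCriterion` wants, for every valuative square
`Spec K ⟶ X`, `Spec R ⟶ Y`, a lift `Spec R ⟶ X` over the valuation ring `R` itself.
For moduli problems one usually only gets a lift after enlarging the valuation ring
(for instance after passing to an algebraically closed fraction field).
This file shows that this is enough (Stacks 01KF / 0CM1 style):

* `WeakLift S`          : a lift of the valuative square `S` after an extension of local rings;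
* `WeakExistence`       : the morphism property "every valuative square has a weak lift";
* `WeakExistence.specializingMap`, `WeakExistence.isStableUnderBaseChange`;
* `universallyClosed_of_weakExistence` : quasi-compact + weak existence ⟹ universally closed;
* `universallyClosed_of_existence_of_isAlgClosed` : it suffices to lift the valuative squares
  whose fraction field is algebraically closed.

Only Mathlib is imported.
-/

set_option autoImplicit false

universe u

open CategoryTheory CategoryTheory.Limits AlgebraicGeometry IsLocalRing

namespace Fermat.Agent.S25.helper2320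

variable {X Y : Scheme.{u}}

/-- A weak lift of a valuative square `S` over `f : X ⟶ Y`: a local ring `R'` with a local
homomorphism `φ : S.R →+* R'`, a field `K'` with homomorphisms `ι : R' →+* K'` and
`ψ : S.K →+* K'` forming a commutative square with `S.R → S.K`, and a morphism
`l : Spec R' ⟶ X` which lifts the square obtained from `S` by pulling back along `φ`, `ψ`.

The typical case is `R'` a valuation ring dominating `S.R` and `K'` its fraction field. -/
structure WeakLift {f : X ⟶ Y} (S : ValuativeCommSq f) where
  /-- the enlarged local ring -/
  R' : Type u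
  /-- the enlarged field -/
  K' : Type u
  [commRing : CommRing R']
  [isLocalRing : IsLocalRing R']
  [field : Field K']
  /-- the map from the valuation ring of the square to the enlarged ring -/
  φ : S.R →+* R'
  [isLocalHom : IsLocalHom φ]
  /-- the map from the enlarged ring to the enlarged field -/
  ι : R' →+* K'
  /-- the map from the fraction field of the square to the enlarged field -/
  ψ : S.K →+* K'
  comm : ι.comp φ = ψ.comp (algebraMap S.R S.K)
  /-- the lift over the enlarged ring -/
  l : Spec (CommRingCat.of R') ⟶ X
  fac_left : Spec.map (CommRingCat.ofHom ι) ≫ l = Spec.map (CommRingCat.ofHom ψ) ≫ S.i₁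
  fac_right : l ≫ f = Spec.map (CommRingCat.ofHom φ) ≫ S.i₂

attribute [instance] WeakLift.commRing WeakLift.isLocalRing WeakLift.field WeakLift.isLocalHom

/-- A genuine lift of a valuative square is a weak lift. -/
noncomputable def WeakLift.ofLift {f : X ⟶ Y} (S : ValuativeCommSq f)
    (l : Spec (CommRingCat.of S.R) ⟶ X)
    (h₁ : Spec.map (CommRingCat.ofHom (algebraMap S.R S.K)) ≫ l = S.i₁) (h₂ : l ≫ f = S.i₂) :
    WeakLift S where
  R' := S.R
  K' := S.K
  φ := RingHom.id _
  isLocalHom := ⟨fun _ h => h⟩
  ι := algebraMap S.R S.K
  ψ := RingHom.id _
  comm := rfl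
  l := l
  fac_left := by
    rw [h₁, CommRingCat.ofHom_id, Spec.map_id, Category.id_comp]
  fac_right := by
    rw [h₂, CommRingCat.ofHom_id, Spec.map_id, Category.id_comp]

/-- The weak existence part of the valuative criterion: every valuative square has a lift
after enlarging the valuation ring. -/
def WeakExistence : MorphismProperty Scheme.{u} :=
  fun _ _ f ↦ ∀ S : ValuativeCommSq f, Nonempty (WeakLift S)

/-- The existence part of the valuative criterion implies the weak existence part. -/
theorem weakExistence_of_existence {f : X ⟶ Y} (H : ValuativeCriterion.Existence f) :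
    WeakExistence f := by
  intro S
  obtain ⟨l, hl₁, hl₂⟩ := (H S).exists_lift
  exact ⟨WeakLift.ofLift S l hl₁ hl₂⟩

/-- Weak existence implies that the underlying map lifts specializations. -/
theorem WeakExistence.specializingMap {f : X ⟶ Y} (H : WeakExistence f) :
    SpecializingMap f := by
  intro x' y h
  let stalk_y_to_residue_x' : Y.presheaf.stalk y ⟶ X.residueField x' :=
    Y.presheaf.stalkSpecializes h ≫ f.stalkMap x' ≫ X.residue x'
  obtain ⟨A, hA, hA_local⟩ := exists_factor_valuationRing stalk_y_to_residue_x'.hom
  let stalk_y_to_A : Y.presheaf.stalk y ⟶ .of A :=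
    CommRingCat.ofHom (stalk_y_to_residue_x'.hom.codRestrict _ hA)
  have w : X.fromSpecResidueField x' ≫ f =
      Spec.map (CommRingCat.ofHom (algebraMap A (X.residueField x'))) ≫
        Spec.map stalk_y_to_A ≫ Y.fromSpecStalk y := by
    rw [Scheme.fromSpecResidueField, Category.assoc, ← Scheme.SpecMap_stalkMap_fromSpecStalk,
      ← Scheme.SpecMap_stalkSpecializes_fromSpecStalk h]
    simp_rw [← Spec.map_comp_assoc]
    rfl
  let S : ValuativeCommSq f := { R := A, K := X.residueField x', commSq := ⟨w⟩, .. }
  obtain ⟨W⟩ := H S
  -- the point of `Spec W.R'` coming from `Spec W.K'`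
  let η : Spec (CommRingCat.of W.R') := Spec.map (CommRingCat.ofHom W.ι) (closedPoint W.K')
  refine ⟨W.l (closedPoint W.R'), ?_, ?_⟩
  · have h1 : W.l η = x' := by
      have := congrArg (fun g : Spec (CommRingCat.of W.K') ⟶ X => g (closedPoint W.K')) W.fac_left
      simp only [Scheme.Hom.comp_apply] at this
      rw [show W.l η = W.l (Spec.map (CommRingCat.ofHom W.ι) (closedPoint W.K')) from rfl, this]
      have h2 : Spec.map (CommRingCat.ofHom W.ψ) (closedPoint W.K') =
          closedPoint (X.residueField x') := Subsingleton.elim _ _
      rw [h2]
      exact Scheme.fromSpecResidueField_apply x' (closedPoint (X.residueField x'))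
    rw [← h1]
    exact (specializes_closedPoint η).map W.l.continuous
  · rw [← Scheme.Hom.comp_apply, W.fac_right]
    simp only [Scheme.Hom.comp_apply]
    have hφloc : IsLocalHom W.φ := W.isLocalHom
    have h3 : Spec.map (CommRingCat.ofHom W.φ) (closedPoint W.R') = closedPoint A :=
      comap_closedPoint (S := W.R') W.φ
    have h4 : Spec.map stalk_y_to_A (closedPoint A) = closedPoint (Y.presheaf.stalk y) :=
      comap_closedPoint (S := A) (stalk_y_to_residue_x'.hom.codRestrict A.toSubring hA)
    rw [h3]
    change Y.fromSpecStalk y (Spec.map stalk_y_to_A (closedPoint A)) = y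
    rw [h4, Y.fromSpecStalk_closedPoint]

/-- Weak existence is stable under base change. -/
instance WeakExistence.isStableUnderBaseChange :
    WeakExistence.{u}.IsStableUnderBaseChange := by
  constructor
  intro Y' X X' Y Y'_to_Y f X'_to_X f' hP hf commSq
  let commSq' : ValuativeCommSq f :=
  { R := commSq.R
    K := commSq.K
    i₁ := commSq.i₁ ≫ X'_to_X
    i₂ := commSq.i₂ ≫ Y'_to_Y
    commSq := ⟨by simp only [Category.assoc, hP.w, reassoc_of% commSq.commSq.w]⟩ }
  obtain ⟨W⟩ := hf commSq'
  have hcomm : Spec.map (CommRingCat.ofHom W.ι) ≫ Spec.map (CommRingCat.ofHom W.φ) =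
      Spec.map (CommRingCat.ofHom W.ψ) ≫
        Spec.map (CommRingCat.ofHom (algebraMap commSq.R commSq.K)) := by
    rw [← Spec.map_comp, ← Spec.map_comp, ← CommRingCat.ofHom_comp, ← CommRingCat.ofHom_comp]
    exact congrArg (fun g => Spec.map (CommRingCat.ofHom g)) W.comm
  have hw : W.l ≫ f = (Spec.map (CommRingCat.ofHom W.φ) ≫ commSq.i₂) ≫ Y'_to_Y := by
    rw [W.fac_right, Category.assoc]
  refine ⟨{ R' := W.R', K' := W.K', φ := W.φ, ι := W.ι, ψ := W.ψ, comm := W.comm
            l := hP.lift W.l (Spec.map (CommRingCat.ofHom W.φ) ≫ commSq.i₂) hw
            fac_left := ?_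
            fac_right := hP.lift_snd _ _ _ }⟩
  apply hP.hom_ext
  · rw [Category.assoc, hP.lift_fst, W.fac_left, Category.assoc]
  · rw [Category.assoc, hP.lift_snd, Category.assoc, commSq.commSq.w, ← Category.assoc, hcomm,
      Category.assoc]

/-- Weak existence is the same as existence: both are equivalent to "universally specializing".
(Only the inequality needed below is stated.) -/
theorem WeakExistence.le_universally_specializing :
    WeakExistence.{u} ≤ (topologically @SpecializingMap).universally := by
  intro X Y f hf
  have : WeakExistence.universally f := by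
    rwa [MorphismProperty.IsStableUnderBaseChange.universally_eq]
  exact MorphismProperty.universally_mono (fun _ _ g hg => WeakExistence.specializingMap hg) _ this

/-- Weak existence implies existence (so the two notions coincide). -/
theorem existence_of_weakExistence {f : X ⟶ Y} (H : WeakExistence f) :
    ValuativeCriterion.Existence f := by
  rw [ValuativeCriterion.Existence.eq]
  exact WeakExistence.le_universally_specializing _ H

/-- **Weak valuative criterion.** A quasi-compact morphism such that every valuative square
has a lift after enlarging the valuation ring is universally closed. -/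
theorem universallyClosed_of_weakExistence (f : X ⟶ Y) [QuasiCompact f] (H : WeakExistence f) :
    UniversallyClosed f :=
  UniversallyClosed.of_valuativeCriterion f (existence_of_weakExistence H)

/-- Every valuation ring with fraction field `K` is dominated by a valuation ring whose fraction
field is an algebraic closure of `K`. The output is a valuative square over `f` with
algebraically closed fraction field, together with the data comparing it to `S`. -/
theorem exists_algClosed_extension {f : X ⟶ Y} (S : ValuativeCommSq f) :
    ∃ (S' : ValuativeCommSq f) (_ : IsAlgClosed S'.K) (φ : S.R →+* S'.R) (ψ : S.K →+* S'.K),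
      IsLocalHom φ ∧ (algebraMap S'.R S'.K).comp φ = ψ.comp (algebraMap S.R S.K) ∧
      S'.i₁ = Spec.map (CommRingCat.ofHom ψ) ≫ S.i₁ ∧
      S'.i₂ = Spec.map (CommRingCat.ofHom φ) ≫ S.i₂ := by
  let K' := AlgebraicClosure S.K
  let g : S.R →+* K' := (algebraMap S.K K').comp (algebraMap S.R S.K)
  obtain ⟨A, hA, hA_local⟩ := exists_factor_valuationRing g
  let φ : S.R →+* A := g.codRestrict A.toSubring hA
  let ψ : S.K →+* K' := algebraMap S.K K'
  have hcomm : (algebraMap A K').comp φ = ψ.comp (algebraMap S.R S.K) := by
    ext r
    rfl
  have hSpec : Spec.map (CommRingCat.ofHom (algebraMap A K')) ≫ Spec.map (CommRingCat.ofHom φ) =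
      Spec.map (CommRingCat.ofHom ψ) ≫
        Spec.map (CommRingCat.ofHom (algebraMap S.R S.K)) := by
    rw [← Spec.map_comp, ← Spec.map_comp, ← CommRingCat.ofHom_comp, ← CommRingCat.ofHom_comp]
    exact congrArg (fun g => Spec.map (CommRingCat.ofHom g)) hcomm
  let S' : ValuativeCommSq f :=
  { R := A
    K := K'
    i₁ := Spec.map (CommRingCat.ofHom ψ) ≫ S.i₁
    i₂ := Spec.map (CommRingCat.ofHom φ) ≫ S.i₂
    commSq := ⟨by
      rw [Category.assoc, S.commSq.w, ← Category.assoc, ← hSpec, Category.assoc]⟩ }
  exact ⟨S', inferInstanceAs (IsAlgClosed (AlgebraicClosure S.K)), φ, ψ, hA_local, hcomm, rfl, rfl⟩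

/-- A morphism satisfies weak existence as soon as the valuative squares with algebraically
closed fraction field have lifts. -/
theorem weakExistence_of_existence_of_isAlgClosed {f : X ⟶ Y}
    (H : ∀ S : ValuativeCommSq f, IsAlgClosed S.K → S.commSq.HasLift) : WeakExistence f := by
  intro S
  obtain ⟨S', hS', φ, ψ, hφ, hcomm, h₁, h₂⟩ := exists_algClosed_extension S
  obtain ⟨l, hl₁, hl₂⟩ := (H S' hS').exists_lift
  exact ⟨{ R' := S'.R, K' := S'.K, φ := φ, isLocalHom := hφ, ι := algebraMap S'.R S'.K, ψ := ψ
           comm := hcomm, l := l, fac_left := hl₁.trans h₁, fac_right := hl₂.trans h₂ }⟩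

/-- **Valuative criterion with algebraically closed fraction fields.** A quasi-compact
morphism is universally closed as soon as every valuative square whose fraction field is
algebraically closed has a lift. -/
theorem universallyClosed_of_existence_of_isAlgClosed (f : X ⟶ Y) [QuasiCompact f]
    (H : ∀ S : ValuativeCommSq f, IsAlgClosed S.K → S.commSq.HasLift) : UniversallyClosed f :=
  universallyClosed_of_weakExistence f (weakExistence_of_existence_of_isAlgClosed H)

/-- The existence part of the valuative criterion can be checked on the valuative squares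
whose fraction field is algebraically closed. -/
theorem existence_of_existence_of_isAlgClosed {f : X ⟶ Y}
    (H : ∀ S : ValuativeCommSq f, IsAlgClosed S.K → S.commSq.HasLift) :
    ValuativeCriterion.Existence f :=
  existence_of_weakExistence (weakExistence_of_existence_of_isAlgClosed H)

end Fermat.Agent.S25.helper2320
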