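/-
S25 generic brick P5 (helper2321): restriction to an open subscheme commutes with pullback.

Mathlib-only. All declarations live in `Fermat.Agent.S25.helper2321`.

Main declarations (`X Y U V : Scheme.{u}`):

* `pullbackSquareIso (f : Y ⟶ X) (j : U ⟶ X) (j' : V ⟶ Y) (g : V ⟶ U) (w : j' ≫ f = g ≫ j) :
    pullback f ⋙ pullback j' ≅ pullback j ⋙ pullback g`
  (any commutative square of schemes; no open-immersion hypothesis).
* `restrictPullbackIso` : the same with `restrictFunctor j`, `restrictFunctor j'` for open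
  immersions `j`, `j'`:  `pullback f ⋙ restrictFunctor j' ≅ restrictFunctor j ⋙ pullback g`.
* `pullbackOpensIso (f : Y ⟶ X) (U : X.Opens)` :
    `pullback f ⋙ pullback (f ⁻¹ᵁ U).ι ≅ pullback U.ι ⋙ pullback (f ∣_ U)`
* `restrictOpensIso (f : Y ⟶ X) (U : X.Opens)` :
    `pullback f ⋙ restrictFunctor (f ⁻¹ᵁ U).ι ≅ restrictFunctor U.ι ⋙ pullback (f ∣_ U)`
* object-level versions `pullbackOpensObjIso`, `restrictOpensObjIso` and their naturality.
-/
import Mathlib

set_option autoImplicit false

universe u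

open CategoryTheory AlgebraicGeometry

namespace Fermat.Agent.S25.helper2321

noncomputable section

open AlgebraicGeometry.Scheme.Modules

variable {X Y U V : Scheme.{u}}

/-- Pullbacks along the two paths of a commutative square of schemes agree. -/
def pullbackSquareIso (f : Y ⟶ X) (j : U ⟶ X) (j' : V ⟶ Y) (g : V ⟶ U)
    (w : j' ≫ f = g ≫ j) :
    Scheme.Modules.pullback f ⋙ Scheme.Modules.pullback j' ≅
      Scheme.Modules.pullback j ⋙ Scheme.Modules.pullback g :=
  Scheme.Modules.pullbackComp j' f ≪≫ Scheme.Modules.pullbackCongr w ≪≫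
    (Scheme.Modules.pullbackComp g j).symm

/-- Restriction to an open (along open immersions `j`, `j'`) commutes with pullback, for any
commutative square `j' ≫ f = g ≫ j`. -/
def restrictPullbackIso (f : Y ⟶ X) (j : U ⟶ X) (j' : V ⟶ Y) (g : V ⟶ U)
    [IsOpenImmersion j] [IsOpenImmersion j'] (w : j' ≫ f = g ≫ j) :
    Scheme.Modules.pullback f ⋙ Scheme.Modules.restrictFunctor j' ≅
      Scheme.Modules.restrictFunctor j ⋙ Scheme.Modules.pullback g :=
  Functor.isoWhiskerLeft (Scheme.Modules.pullback f)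
      (Scheme.Modules.restrictFunctorIsoPullback j') ≪≫
    pullbackSquareIso f j j' g w ≪≫
    Functor.isoWhiskerRight (Scheme.Modules.restrictFunctorIsoPullback j).symm
      (Scheme.Modules.pullback g)

/-- `pullback` form for the preimage of an open subset. -/
def pullbackOpensIso (f : Y ⟶ X) (W : X.Opens) :
    Scheme.Modules.pullback f ⋙ Scheme.Modules.pullback (f ⁻¹ᵁ W).ι ≅
      Scheme.Modules.pullback W.ι ⋙ Scheme.Modules.pullback (f ∣_ W) :=
  pullbackSquareIso f W.ι (f ⁻¹ᵁ W).ι (f ∣_ W) (morphismRestrict_ι f W).symm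

/-- `restrictFunctor` form for the preimage of an open subset. -/
def restrictOpensIso (f : Y ⟶ X) (W : X.Opens) :
    Scheme.Modules.pullback f ⋙ Scheme.Modules.restrictFunctor (f ⁻¹ᵁ W).ι ≅
      Scheme.Modules.restrictFunctor W.ι ⋙ Scheme.Modules.pullback (f ∣_ W) :=
  restrictPullbackIso f W.ι (f ⁻¹ᵁ W).ι (f ∣_ W) (morphismRestrict_ι f W).symm

/-- Object-level form: `(f^* M)|_{f⁻¹ W} ≅ (f|_W)^* (M|_W)` with `pullback` along the
inclusions (the shape used by the Prelude's `Scheme.Modules.IsInvertible`). -/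
def pullbackOpensObjIso (f : Y ⟶ X) (W : X.Opens) (M : X.Modules) :
    (Scheme.Modules.pullback (f ⁻¹ᵁ W).ι).obj ((Scheme.Modules.pullback f).obj M) ≅
      (Scheme.Modules.pullback (f ∣_ W)).obj ((Scheme.Modules.pullback W.ι).obj M) :=
  (pullbackOpensIso f W).app M

/-- Object-level form with `restrict`. -/
def restrictOpensObjIso (f : Y ⟶ X) (W : X.Opens) (M : X.Modules) :
    ((Scheme.Modules.pullback f).obj M).restrict (f ⁻¹ᵁ W).ι ≅
      (Scheme.Modules.pullback (f ∣_ W)).obj (M.restrict W.ι) :=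
  (restrictOpensIso f W).app M

@[reassoc]
lemma pullbackOpensObjIso_hom_naturality (f : Y ⟶ X) (W : X.Opens) {M N : X.Modules}
    (φ : M ⟶ N) :
    (Scheme.Modules.pullback (f ⁻¹ᵁ W).ι).map ((Scheme.Modules.pullback f).map φ) ≫
        (pullbackOpensObjIso f W N).hom =
      (pullbackOpensObjIso f W M).hom ≫
        (Scheme.Modules.pullback (f ∣_ W)).map ((Scheme.Modules.pullback W.ι).map φ) :=
  (pullbackOpensIso f W).hom.naturality φ

@[reassoc]
lemma restrictOpensObjIso_hom_naturality (f : Y ⟶ X) (W : X.Opens) {M N : X.Modules}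
    (φ : M ⟶ N) :
    (Scheme.Modules.restrictFunctor (f ⁻¹ᵁ W).ι).map ((Scheme.Modules.pullback f).map φ) ≫
        (restrictOpensObjIso f W N).hom =
      (restrictOpensObjIso f W M).hom ≫
        (Scheme.Modules.pullback (f ∣_ W)).map ((Scheme.Modules.restrictFunctor W.ι).map φ) :=
  (restrictOpensIso f W).hom.naturality φ

end

end Fermat.Agent.S25.helper2321
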