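import Fermat.Agent.S25.helper1397_HomGlue

/-!
# S25, LC-HOM: congruence of the Hom datum under isomorphisms (helper233)

Shared brick of the chart layer (consumers: MONO, FG3, IMAGE, (F)):

* `homDatumIso a b : Iso (homDatum G H) (homDatum G' H')` for `a : Iso G G'`, `b : Iso H H'`;
* `homDatum_congr : G.Equiv G' → H.Equiv H' → (homDatum G H).Equiv (homDatum G' H')`;
* `surjective_delta_iff_of_equiv` : surjectivity of `delta` (i.e. `H¹ = 0`) only depends on the
  isomorphism class of a two-chart line bundle, and the corollary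
  `surjective_delta_homDatum_iff` for Hom data.
-/

set_option autoImplicit false

namespace Fermat.Agent.S25.helper233

open Fermat.Agent.S25.helper1705 Fermat.Agent.S25.helper2945 Fermat.Agent.S25.helper743
  Fermat.Agent.S25.helper1397

universe u

variable {k : Type u} [Field k] {D : CurveDatum k} {B : Type u} [CommRing B] [Algebra k B]

theorem homRes₀_arrowCongr {G G' H H' : GlueDatum D B} (a : GlueDatum.Iso G G')
    (b : GlueDatum.Iso H H') (f : G.M₀ →ₗ[D.A₀ B] H.M₀) :
    LinearEquiv.arrowCongr a.e₀₁ b.e₀₁ (homRes₀ G H f) =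
      homRes₀ G' H' (LinearEquiv.arrowCongr a.e₀ b.e₀ f) := by
  refine ext_ρ₀ G' H' fun m => ?_
  have h1 : a.e₀₁.symm (G'.ρ₀ m) = G.ρ₀ (a.e₀.symm m) := by
    rw [LinearEquiv.symm_apply_eq, a.comm₀, LinearEquiv.apply_symm_apply]
  rw [LinearEquiv.arrowCongr_apply, h1, homRes₀_apply, homRes₀_apply,
    LinearEquiv.arrowCongr_apply, b.comm₀]

theorem homRes₁_arrowCongr {G G' H H' : GlueDatum D B} (a : GlueDatum.Iso G G')
    (b : GlueDatum.Iso H H') (f : G.M₁ →ₗ[D.A₁ B] H.M₁) :
    LinearEquiv.arrowCongr a.e₀₁ b.e₀₁ (homRes₁ G H f) =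
      homRes₁ G' H' (LinearEquiv.arrowCongr a.e₁ b.e₁ f) := by
  refine ext_ρ₁ G' H' fun m => ?_
  have h1 : a.e₀₁.symm (G'.ρ₁ m) = G.ρ₁ (a.e₁.symm m) := by
    rw [LinearEquiv.symm_apply_eq, a.comm₁, LinearEquiv.apply_symm_apply]
  rw [LinearEquiv.arrowCongr_apply, h1, homRes₁_apply, homRes₁_apply,
    LinearEquiv.arrowCongr_apply, b.comm₁]

/-- The Hom datum is functorial for isomorphisms in both variables. -/
noncomputable def homDatumIso {G G' H H' : GlueDatum D B} (a : GlueDatum.Iso G G')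
    (b : GlueDatum.Iso H H') : GlueDatum.Iso (homDatum G H) (homDatum G' H') where
  e₀ := LinearEquiv.arrowCongr a.e₀ b.e₀
  e₁ := LinearEquiv.arrowCongr a.e₁ b.e₁
  e₀₁ := LinearEquiv.arrowCongr a.e₀₁ b.e₀₁
  comm₀ f := homRes₀_arrowCongr a b f
  comm₁ f := homRes₁_arrowCongr a b f

/-- **Congruence of the Hom datum.** -/
theorem homDatum_congr {G G' H H' : GlueDatum D B} (hG : G.Equiv G') (hH : H.Equiv H') :
    (homDatum G H).Equiv (homDatum G' H') := by
  obtain ⟨a⟩ := hG
  obtain ⟨b⟩ := hH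
  exact ⟨homDatumIso a b⟩

/-- Surjectivity of `delta` (vanishing of `H¹`) is invariant under isomorphism. -/
theorem surjective_delta_of_iso {X X' : GlueDatum D B} (e : GlueDatum.Iso X X')
    (h : Function.Surjective X.delta) : Function.Surjective X'.delta := by
  intro z
  obtain ⟨v, hv⟩ := h (e.e₀₁.symm z)
  refine ⟨(e.e₀ v.1, e.e₁ v.2), ?_⟩
  rw [GlueDatum.delta_apply] at hv ⊢
  rw [← e.comm₀, ← e.comm₁, ← map_sub, hv, LinearEquiv.apply_symm_apply]

theorem surjective_delta_iff_of_equiv {X X' : GlueDatum D B} (h : X.Equiv X') :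
    Function.Surjective X.delta ↔ Function.Surjective X'.delta := by
  obtain ⟨e⟩ := h
  exact ⟨surjective_delta_of_iso e, surjective_delta_of_iso e.symm⟩

/-- `H¹(Hom(G, H)) = 0` only depends on the isomorphism classes of `G` and `H`. -/
theorem surjective_delta_homDatum_iff {G G' H H' : GlueDatum D B} (hG : G.Equiv G')
    (hH : H.Equiv H') :
    Function.Surjective (homDatum G H).delta ↔ Function.Surjective (homDatum G' H').delta :=
  surjective_delta_iff_of_equiv (homDatum_congr hG hH)

end Fermat.Agent.S25.helper233
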