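import Mathlib

/-!
# S25 generic brick WVC: the weak valuative criterion (helper6679)

A quasi-compact morphism is universally closed as soon as the existence part of the valuative
criterion holds for valuation rings whose fraction field is ALGEBRAICALLY CLOSED.

Mathlib's `UniversallyClosed.of_valuativeCriterion` asks for a lift for every valuation ring.
For the Jacobian one can only extend points after enlarging the fraction field (all points of a
divisor become rational), so this weaker hypothesis is the usable one.

Only Mathlib is imported.
-/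

set_option autoImplicit false

universe u

open CategoryTheory CategoryTheory.Limits AlgebraicGeometry IsLocalRing

namespace Fermat.Agent.S25.helper6679

/-- The existence part of the valuative criterion, only for valuation rings with algebraically
closed fraction field. -/
def WeakExistence : MorphismProperty Scheme.{u} :=
  fun _ _ f ↦ ∀ S : ValuativeCommSq f, IsAlgClosed S.K → S.commSq.HasLift

theorem weakExistence_of_existence {X Y : Scheme.{u}} {f : X ⟶ Y}
    (H : ValuativeCriterion.Existence f) : WeakExistence f :=
  fun S _ => H S

/-- The weak existence property is stable under base change. -/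
instance weakExistence_isStableUnderBaseChange :
    WeakExistence.{u}.IsStableUnderBaseChange := by
  constructor
  intro Y' X X' Y Y'_to_Y f X'_to_X f' hP hf commSq hK
  let commSq' : ValuativeCommSq f :=
  { R := commSq.R
    K := commSq.K
    i₁ := commSq.i₁ ≫ X'_to_X
    i₂ := commSq.i₂ ≫ Y'_to_Y
    commSq := ⟨by simp only [Category.assoc, hP.w, reassoc_of% commSq.commSq.w]⟩ }
  obtain ⟨l₀, hl₁, hl₂⟩ := (hf commSq' hK).exists_lift
  refine ⟨⟨⟨hP.lift l₀ commSq.i₂ (by simp_all only [commSq']), ?_, hP.lift_snd _ _ _⟩⟩⟩
  apply hP.hom_ext
  · simpa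
  · simp only [Category.assoc]
    rw [hP.lift_snd]
    rw [commSq.commSq.w]

set_option backward.isDefEq.respectTransparency.types false in
/-- A morphism satisfying the weak existence property is specializing. -/
theorem WeakExistence.specializingMap {X Y : Scheme.{u}} {f : X ⟶ Y} (H : WeakExistence f) :
    SpecializingMap f := by
  intro x' y h
  let Kbar : Type u := AlgebraicClosure (X.residueField x')
  let toKbar : X.residueField x' ⟶ CommRingCat.of Kbar :=
    CommRingCat.ofHom (algebraMap (X.residueField x') Kbar)
  let stalk_y_to_Kbar : Y.presheaf.stalk y ⟶ CommRingCat.of Kbar :=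
    Y.presheaf.stalkSpecializes h ≫ f.stalkMap x' ≫ X.residue x' ≫ toKbar
  obtain ⟨A, hA, hA_local⟩ := exists_factor_valuationRing stalk_y_to_Kbar.hom
  let stalk_y_to_A : Y.presheaf.stalk y ⟶ .of A :=
    CommRingCat.ofHom (stalk_y_to_Kbar.hom.codRestrict _ hA)
  have w : (Spec.map toKbar ≫ X.fromSpecResidueField x') ≫ f =
      Spec.map (CommRingCat.ofHom (algebraMap A Kbar)) ≫
        Spec.map stalk_y_to_A ≫ Y.fromSpecStalk y := by
    rw [Scheme.fromSpecResidueField, Category.assoc, Category.assoc,
      ← Scheme.SpecMap_stalkMap_fromSpecStalk,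
      ← Scheme.SpecMap_stalkSpecializes_fromSpecStalk h]
    simp_rw [← Spec.map_comp_assoc]
    rfl
  obtain ⟨l, hl₁, hl₂⟩ :=
    (H { R := A, K := Kbar, commSq := ⟨w⟩, .. } (inferInstanceAs (IsAlgClosed Kbar))).exists_lift
  dsimp only at hl₁ hl₂
  refine ⟨l (closedPoint A), ?_, ?_⟩
  · have hx' : (Spec.map toKbar ≫ X.fromSpecResidueField x') (closedPoint Kbar) = x' := by
      rw [Scheme.Hom.comp_apply]
      have : Spec.map toKbar (closedPoint Kbar) = closedPoint (X.residueField x') :=
        Subsingleton.elim _ _
      rw [this, Scheme.fromSpecResidueField_apply]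
    have key : (Spec.map (CommRingCat.ofHom (algebraMap A Kbar)) ≫ l) (closedPoint Kbar) ⤳
        l (closedPoint A) := by
      rw [Scheme.Hom.comp_apply]
      exact (specializes_closedPoint _).map l.continuous
    rw [hl₁, hx'] at key
    exact key
  · rw [← Scheme.Hom.comp_apply, hl₂]
    simp only [Scheme.Hom.comp_base, TopCat.coe_comp, Function.comp_apply]
    have : Spec.map stalk_y_to_A (closedPoint A) = closedPoint (Y.presheaf.stalk y) :=
      comap_closedPoint (S := A) (stalk_y_to_Kbar.hom.codRestrict A.toSubring hA)
    rw [this, Y.fromSpecStalk_closedPoint]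

/-- **WVC1.** A quasi-compact morphism satisfying the existence part of the valuative criterion
for valuation rings with algebraically closed fraction field is universally closed. -/
theorem universallyClosed_of_weakValuativeCriterion {X Y : Scheme.{u}} (f : X ⟶ Y)
    [QuasiCompact f]
    (H : ∀ S : ValuativeCommSq f, IsAlgClosed S.K → S.commSq.HasLift) :
    UniversallyClosed f := by
  rw [universallyClosed_eq_universallySpecializing]
  refine ⟨?_, ‹_›⟩
  have hle : WeakExistence.{u} ≤ topologically @SpecializingMap := by
    intro X Y f hf
    exact hf.specializingMap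
  have h2 : WeakExistence.{u}.universally f := by
    rw [MorphismProperty.IsStableUnderBaseChange.universally_eq]
    exact H
  exact MorphismProperty.universally_mono hle _ h2

/-- **WVC2.** Points form over a base field `k`: to prove that `j : J ⟶ Spec k` is universally
closed it suffices (given quasi-compactness) to extend `K`-points to `V`-points for valuation
rings `V` over `k` whose fraction field `K` is algebraically closed. -/
theorem universallyClosed_of_points (k : Type u) [Field k] {J : Scheme.{u}}
    (j : J ⟶ Spec (CommRingCat.of k)) [QuasiCompact j]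
    (H : ∀ (V K : Type u) [CommRing V] [IsDomain V] [ValuationRing V] [Field K] [IsAlgClosed K]
      [Algebra V K] [IsFractionRing V K] [Algebra k V] (g : Spec (CommRingCat.of K) ⟶ J),
      g ≫ j = Spec.map (CommRingCat.ofHom (algebraMap V K)) ≫
        Spec.map (CommRingCat.ofHom (algebraMap k V)) →
      ∃ g' : Spec (CommRingCat.of V) ⟶ J,
        Spec.map (CommRingCat.ofHom (algebraMap V K)) ≫ g' = g ∧
        g' ≫ j = Spec.map (CommRingCat.ofHom (algebraMap k V))) :
    UniversallyClosed j := by
  apply universallyClosed_of_weakValuativeCriterion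
  intro S hK
  obtain ⟨φ, hφ⟩ := Spec.map_surjective S.i₂
  let _ : Algebra k S.R := φ.hom.toAlgebra
  have hφ' : Spec.map (CommRingCat.ofHom (algebraMap k S.R)) = S.i₂ := hφ
  obtain ⟨g', h1, h2⟩ := H S.R S.K S.i₁ (by rw [S.commSq.w, hφ'])
  exact ⟨⟨⟨g', h1, by rw [h2, hφ']⟩⟩⟩

/-- **WVC2'.** The same with a compatible `k`-algebra structure on the fraction field, in the
shape produced by a functor-of-points description of `J` on `k`-algebras. -/
theorem universallyClosed_of_points_tower (k : Type u) [Field k] {J : Scheme.{u}}
    (j : J ⟶ Spec (CommRingCat.of k)) [QuasiCompact j]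
    (H : ∀ (V K : Type u) [CommRing V] [IsDomain V] [ValuationRing V] [Field K] [IsAlgClosed K]
      [Algebra V K] [IsFractionRing V K] [Algebra k V] [Algebra k K] [IsScalarTower k V K]
      (g : Spec (CommRingCat.of K) ⟶ J),
      g ≫ j = Spec.map (CommRingCat.ofHom (algebraMap k K)) →
      ∃ g' : Spec (CommRingCat.of V) ⟶ J,
        Spec.map (CommRingCat.ofHom (algebraMap V K)) ≫ g' = g ∧
        g' ≫ j = Spec.map (CommRingCat.ofHom (algebraMap k V))) :
    UniversallyClosed j := by
  apply universallyClosed_of_points k j
  intro V K _ _ _ _ _ _ _ _ g hg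
  let _ : Algebra k K := ((algebraMap V K).comp (algebraMap k V)).toAlgebra
  have : IsScalarTower k V K := IsScalarTower.of_algebraMap_eq (fun _ => rfl)
  have hcomp : Spec.map (CommRingCat.ofHom (algebraMap V K)) ≫
      Spec.map (CommRingCat.ofHom (algebraMap k V)) =
      Spec.map (CommRingCat.ofHom (algebraMap k K)) := by
    rw [← Spec.map_comp]
    rfl
  exact H V K g (hg.trans hcomp)

end Fermat.Agent.S25.helper6679
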