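/-
S25, layer G, leaf LG-UC (wiring half, backup seat helper3788): universal closedness of any
scheme representing the cut `algEquivZeroCut`, from

* `helper985.Stmt_QC`        : a representing designation is quasi-compact over `k`;
* `helper985.Stmt_ValExistAC`: over a valuation ring `V` with algebraically closed fraction
                               field `K`, a bundle in the cut on `C × Spec K` extends to one in
                               the cut on `C × Spec V`.

Everything is stated in the frozen vocabulary; the valuative input is the weak valuative
criterion `helper6679.universallyClosed_of_points_tower` (lifts are only needed for valuation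
rings with algebraically closed fraction field).
-/
import Fermat.Agent.S25.helper985_LGSpec
import Fermat.Agent.S25.helper6679_WeakValuative
import Fermat.Agent.S25.helper7579_AffineReduction

set_option autoImplicit false

universe u

open CategoryTheory CategoryTheory.Limits AlgebraicGeometry AlgebraicGeometry.RelPicard
  NeronModelInfra GoodReductionJacobian

namespace Fermat.Agent.S25.helper3788

open Fermat.Agent.S25.helper1705 Fermat.Agent.S25.helper985

variable {k : Type u} [Field k] {C : Scheme.{u}} {c : C ⟶ Spec (CommRingCat.of k)}
  {ε : SchemeHomOver (𝟙 (Spec (CommRingCat.of k))) c}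

/-- **Valuative existence for a cut** `P`, for valuation rings `V` over `k` whose fraction
field `K` is algebraically closed: every bundle in the cut over `Spec K` is the restriction of
a bundle in the cut over `Spec V`. -/
def ValExistAC (c : C ⟶ Spec (CommRingCat.of k))
    (ε : SchemeHomOver (𝟙 (Spec (CommRingCat.of k))) c) (P : SubPicCondition c ε) : Prop :=
  ∀ (V : Type u) [CommRing V] [IsDomain V] [ValuationRing V] [Algebra k V]
    (K : Type u) [Field K] [IsAlgClosed K] [Algebra V K] [IsFractionRing V K] [Algebra k K]
    [IsScalarTower k V K]
    (M : RigidifiedLineBundle c ε (specStr k K)), P.P (specStr k K) M →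
    ∃ M' : RigidifiedLineBundle c ε (specStr k V), P.P (specStr k V) M' ∧
      Nonempty ((M'.pullbackAlong (specHomOver (IsScalarTower.toAlgHom k V K))).L ≅ M.L)

/-- A point of a representing scheme with values in the algebraically closed fraction field of
a valuation ring `V` over `k` extends to a `V`-point, as soon as bundles in the cut extend. -/
theorem exists_lift_of_valExistAC {P : SubPicCondition c ε} {D : RelativePic0Designation k c}
    (h : RepresentsRelSubPic c ε P D) (hV : ValExistAC c ε P)
    (V K : Type u) [CommRing V] [IsDomain V] [ValuationRing V] [Field K] [IsAlgClosed K]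
    [Algebra V K] [IsFractionRing V K] [Algebra k V] [Algebra k K] [IsScalarTower k V K]
    (g : Spec (CommRingCat.of K) ⟶ D.P)
    (hg : g ≫ D.toBase = Spec.map (CommRingCat.ofHom (algebraMap k K))) :
    ∃ g' : Spec (CommRingCat.of V) ⟶ D.P,
      Spec.map (CommRingCat.ofHom (algebraMap V K)) ≫ g' = g ∧
      g' ≫ D.toBase = Spec.map (CommRingCat.ofHom (algebraMap k V)) := by
  -- the bundle classified by the `K`-point
  let gK : SchemeHomOver (specStr k K) D.toBase := ⟨g, hg⟩
  have hmem : P.P (specStr k K) (h.poincare.pullbackAlong gK) :=
    P.pullback_mem _ _ gK _ h.poincare_mem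
  -- extend it over `V`
  obtain ⟨M', hM', ⟨e⟩⟩ := hV V K (h.poincare.pullbackAlong gK) hmem
  -- classify the extension
  let gV : SchemeHomOver (specStr k V) D.toBase := h.classify (specStr k V) M' hM'
  obtain ⟨eV⟩ := h.classify_spec (specStr k V) M' hM'
  let ψ : SchemeHomOver (specStr k K) (specStr k V) := specHomOver (IsScalarTower.toAlgHom k V K)
  -- the restriction of the `V`-point to `K` classifies the same bundle as `g`
  have hiso : Nonempty ((h.poincare.pullbackAlong (postComp gV ψ)).L ≅
      (h.poincare.pullbackAlong gK).L) :=
    ⟨(helper7579.pullbackAlongCompIso h.poincare gV ψ).symm ≪≫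
      (Scheme.Modules.pullback (baseChangeSnd c ψ)).mapIso eV ≪≫ e⟩
  have heq : postComp gV ψ = gK := h.ext_of_iso (specStr k K) _ _ hiso
  refine ⟨gV.1, ?_, gV.2⟩
  exact congrArg Subtype.val heq

/-- **LG-UC, general form.** A quasi-compact scheme representing a cut of the relative Picard
functor of `C / k` is universally closed as soon as the cut satisfies valuative existence for
valuation rings with algebraically closed fraction field. -/
theorem universallyClosed_of_valExistAC {P : SubPicCondition c ε}
    {D : RelativePic0Designation k c} (h : RepresentsRelSubPic c ε P D)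
    (hV : ValExistAC c ε P) [QuasiCompact D.toBase] : UniversallyClosed D.toBase :=
  helper6679.universallyClosed_of_points_tower k D.toBase
    fun V K _ _ _ _ _ _ _ _ _ _ g hg => exists_lift_of_valExistAC h hV V K g hg

/-- `helper985.Stmt_ValExistAC` is valuative existence for the cut `algEquivZeroCut` of every
curve of S25. -/
theorem valExistAC_of_stmt (hVE : Stmt_ValExistAC.{u}) (k : Type u) [Field k] {C : Scheme.{u}}
    (c : C ⟶ Spec (CommRingCat.of k)) (hc : IsCurve k c)
    (ε : SchemeHomOver (𝟙 (Spec (CommRingCat.of k))) c) :
    ValExistAC c ε (algEquivZeroCut c ε) :=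
  fun V _ _ _ _ K _ _ _ _ _ _ M hM => hVE k c hc ε V K M hM

/-- **LG-UC.** `Stmt_UC` of the Spec from quasi-compactness (`Stmt_QC`) and valuative existence
over valuation rings with algebraically closed fraction field (`Stmt_ValExistAC`). -/
theorem stmt_UC_of (hQC : Stmt_QC.{u}) (hVE : Stmt_ValExistAC.{u}) : Stmt_UC.{u} := by
  intro k _ C c hc ε D hD _
  have : QuasiCompact D.toBase := hQC k c hc ε D hD
  obtain ⟨h⟩ := hD
  exact universallyClosed_of_valExistAC h (valExistAC_of_stmt hVE k c hc ε)

end Fermat.Agent.S25.helper3788
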