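/-
S25, layer G, leaf LG-SEP: separatedness of any scheme representing a cut of the relative
Picard functor, from valuative uniqueness of rigidified line bundles.

Everything is stated in the frozen vocabulary (`RigidifiedLineBundle`, `pullbackAlong`,
`SubPicCondition`, `RepresentsRelSubPic`).  Hypothesis-passing: the single input is
`ValUniq c ε P`: two rigidified line bundles in the cut over a valuation ring which become
isomorphic over the fraction field are isomorphic.
-/
import Mathlib
import Fermat.Agent.S25.helper1705_Spec
import Fermat.Agent.S25.helper7579_AffineReduction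
import Fermat.Agent.S25.helper985_LGSpec

set_option autoImplicit false

universe u

open CategoryTheory CategoryTheory.Limits AlgebraicGeometry AlgebraicGeometry.RelPicard
  NeronModelInfra GoodReductionJacobian

namespace Fermat.Agent.S25.helper665

variable {R : Type u} [CommRing R] {C : Scheme.{u}} {c : C ⟶ Spec (CommRingCat.of R)}
  {ε : SchemeHomOver (𝟙 (Spec (CommRingCat.of R))) c}

/-- The generic point of the spectrum of a domain `V` with fraction field `K`, as a morphism
over the base. -/
noncomputable abbrev genHom (V K : Type u) [CommRing V] [Field K] [Algebra V K]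
    (t : Spec (CommRingCat.of V) ⟶ Spec (CommRingCat.of R)) :
    SchemeHomOver (Spec.map (CommRingCat.ofHom (algebraMap V K)) ≫ t) t :=
  ⟨Spec.map (CommRingCat.ofHom (algebraMap V K)), rfl⟩

/-- **Valuative uniqueness** for the cut `P`: two rigidified line bundles in the cut over a
valuation ring `V` whose restrictions to the fraction field `K` are isomorphic are isomorphic. -/
def ValUniq (c : C ⟶ Spec (CommRingCat.of R))
    (ε : SchemeHomOver (𝟙 (Spec (CommRingCat.of R))) c) (P : SubPicCondition c ε) : Prop :=
  ∀ (V : Type u) [CommRing V] [IsDomain V] [ValuationRing V] (K : Type u) [Field K]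
    [Algebra V K] [IsFractionRing V K]
    (t : Spec (CommRingCat.of V) ⟶ Spec (CommRingCat.of R)) (M M' : RigidifiedLineBundle c ε t),
    P.P t M → P.P t M' →
    Nonempty ((M.pullbackAlong (genHom V K t)).L ≅ (M'.pullbackAlong (genHom V K t)).L) →
    Nonempty (M.L ≅ M'.L)

/-- Valuative uniqueness of bundles gives the uniqueness part of the valuative criterion for
any representing scheme. -/
theorem uniqueness_of_valUniq {P : SubPicCondition c ε} {D : RelativePic0Designation R c}
    (h : RepresentsRelSubPic c ε P D) (hV : ValUniq c ε P) :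
    ValuativeCriterion.Uniqueness D.toBase := by
  intro S
  refine ⟨fun l l' => ?_⟩
  have hl : l.l ≫ D.toBase = S.i₂ := l.fac_right
  have hl' : l'.l ≫ D.toBase = S.i₂ := l'.fac_right
  let g : SchemeHomOver S.i₂ D.toBase := ⟨l.l, hl⟩
  let g' : SchemeHomOver S.i₂ D.toBase := ⟨l'.l, hl'⟩
  have hmem : P.P S.i₂ (h.poincare.pullbackAlong g) := P.pullback_mem _ _ g _ h.poincare_mem
  have hmem' : P.P S.i₂ (h.poincare.pullbackAlong g') := P.pullback_mem _ _ g' _ h.poincare_mem
  have hgen : Nonempty (((h.poincare.pullbackAlong g).pullbackAlong (genHom S.R S.K S.i₂)).L ≅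
      ((h.poincare.pullbackAlong g').pullbackAlong (genHom S.R S.K S.i₂)).L) := by
    obtain ⟨e₀⟩ := helper7579.pullbackAlong_congr_val h.poincare
      (ψ := postComp g (genHom S.R S.K S.i₂)) (ψ' := postComp g' (genHom S.R S.K S.i₂))
      (l.fac_left.trans l'.fac_left.symm)
    exact ⟨helper7579.pullbackAlongCompIso h.poincare g (genHom S.R S.K S.i₂) ≪≫ e₀ ≪≫
      (helper7579.pullbackAlongCompIso h.poincare g' (genHom S.R S.K S.i₂)).symm⟩
  have hiso := hV S.R S.K S.i₂ _ _ hmem hmem' hgen
  have hgg' : g = g' := h.ext_of_iso S.i₂ g g' hiso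
  have : l.l = l'.l := congrArg Subtype.val hgg'
  cases l; cases l'; simp_all

/-- **LG-SEP, general form.** A quasi-separated scheme representing a cut of the relative
Picard functor is separated as soon as the cut satisfies valuative uniqueness. -/
theorem isSeparated_of_valUniq {P : SubPicCondition c ε} {D : RelativePic0Designation R c}
    (h : RepresentsRelSubPic c ε P D) (hV : ValUniq c ε P) [QuasiSeparated D.toBase] :
    IsSeparated D.toBase :=
  IsSeparated.of_valuativeCriterion D.toBase (uniqueness_of_valUniq h hV)

/-- A scheme locally of finite type over a field is quasi-separated over it. -/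
theorem quasiSeparated_of_locallyOfFiniteType_field {k : Type u} [Field k] {X : Scheme.{u}}
    (f : X ⟶ Spec (CommRingCat.of k)) [LocallyOfFiniteType f] : QuasiSeparated f := by
  have : IsLocallyNoetherian X := LocallyOfFiniteType.isLocallyNoetherian f
  infer_instance

/-- Valuative uniqueness for the curves of S25, as a closed statement: this is what the
dictionary and the valuation-ring algebra (leaf U8) must deliver. -/
def Stmt_ValUniq : Prop :=
  ∀ (k : Type u) [Field k] {C : Scheme.{u}} (c : C ⟶ Spec (CommRingCat.of k))
    (_ : helper1705.IsCurve k c) (ε : SchemeHomOver (𝟙 (Spec (CommRingCat.of k))) c),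
    ValUniq c ε (algEquivZeroCut c ε)

/-- **LG-SEP.** `Stmt_Sep` of the Spec from valuative uniqueness. -/
theorem stmt_Sep_of_valUniq (hV : Stmt_ValUniq.{u}) : helper1705.Stmt_Sep.{u} := by
  intro k _ C c hc ε D hD hft
  obtain ⟨h⟩ := hD
  have := hft
  have := quasiSeparated_of_locallyOfFiniteType_field D.toBase
  exact isSeparated_of_valUniq h (hV k c hc ε)

/-! ### Adapter to the layer-G specification (`helper985_LGSpec`) -/

/-- Transport of an isomorphism of pullbacks along propositionally equal test morphisms. -/
theorem iso_pullbackAlong_of_eq {T T' : Scheme.{u}} {t : T ⟶ Spec (CommRingCat.of R)}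
    {t₁ t₁' : T' ⟶ Spec (CommRingCat.of R)} (h : t₁ = t₁') (M M' : RigidifiedLineBundle c ε t)
    (ψ : SchemeHomOver t₁ t) (ψ' : SchemeHomOver t₁' t) (hψ : ψ.1 = ψ'.1)
    (hiso : Nonempty ((M.pullbackAlong ψ).L ≅ (M'.pullbackAlong ψ).L)) :
    Nonempty ((M.pullbackAlong ψ').L ≅ (M'.pullbackAlong ψ').L) := by
  subst h
  obtain rfl : ψ = ψ' := Subtype.ext hψ
  exact hiso

/-- The layer-G statement `helper985.Stmt_ValUniq` (test morphism `Spec V ⟶ Spec k` coming from
an algebra structure) implies valuative uniqueness for arbitrary test morphisms. -/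
theorem stmt_ValUniq_of_LGSpec (hV : helper985.Stmt_ValUniq.{u}) : Stmt_ValUniq.{u} := by
  intro k _ C c hc ε V _ _ _ K _ _ _ t M M' hM hM' hiso
  obtain ⟨φ, rfl⟩ : ∃ φ : CommRingCat.of k ⟶ CommRingCat.of V, Spec.map φ = t :=
    ⟨Spec.preimage t, Spec.map_preimage t⟩
  let _ : Algebra k V := φ.hom.toAlgebra
  let _ : Algebra k K := ((algebraMap V K).comp φ.hom).toAlgebra
  have : IsScalarTower k V K := IsScalarTower.of_algebraMap_eq fun _ => rfl
  have key := hV k c hc ε V K M M' hM hM'
  refine key (iso_pullbackAlong_of_eq ?_ M M' (genHom V K (Spec.map φ))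
    (helper985.specHomOver (IsScalarTower.toAlgHom k V K)) rfl hiso)
  exact (helper985.specHomOver (IsScalarTower.toAlgHom k V K)).2

/-- **LG-SEP, in the shape of the layer-G specification.** -/
theorem stmt_Sep_of_LGSpec (hV : helper985.Stmt_ValUniq.{u}) : helper1705.Stmt_Sep.{u} :=
  stmt_Sep_of_valUniq (stmt_ValUniq_of_LGSpec hV)

end Fermat.Agent.S25.helper665
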