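import Mathlib

/-!
# S25, leaf LG-QCPT: quasi-compactness and geometric irreducibility from one surjection

Statement-agnostic bricks (Mathlib only) for the properties layer of the Jacobian project.

* `surjective_of_geometric_points`: a morphism `g : X ⟶ Y` such that every geometric point of `Y`
  lifts to `X`, possibly after enlarging the field, is surjective.
* `quasiCompact_of_surjective_comp`, `compactSpace_of_surjective`,
  `irreducibleSpace_of_surjective`: descent of topological properties along a surjection.
* `geometricallyIrreducible_of_surjective_comp`, `geometricallyConnected_of_surjective_comp`: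
  descent of the geometric properties along a surjection.
* `geometricallyIrreducible_Spec_of_isDomain`, `geometricallyIntegral_Spec_of_isDomain`:
  the affine source, from the tensor-domain property.
* `quasiCompact_and_geometricallyIrreducible_of_affine_surjection`: the consumer form.
-/

set_option autoImplicit false

universe u

open CategoryTheory CategoryTheory.Limits AlgebraicGeometry TensorProduct

namespace Fermat.Agent.S25.helper7343

variable {X Y S : Scheme.{u}}

/-! ### (Q1) surjectivity from geometric points -/

/-- If every geometric point of `Y` lifts to `X` after enlarging the field, then `g : X ⟶ Y` is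
surjective. -/
theorem surjective_of_geometric_points (g : X ⟶ Y)
    (H : ∀ (K : Type u) [Field K] [IsAlgClosed K] (s : Spec (CommRingCat.of K) ⟶ Y),
      ∃ (K' : Type u) (_ : Field K') (φ : K →+* K') (s' : Spec (CommRingCat.of K') ⟶ X),
        s' ≫ g = Spec.map (CommRingCat.ofHom φ) ≫ s) : Surjective g := by
  refine ⟨fun y => ?_⟩
  obtain ⟨K', _, φ, s', hs'⟩ := H (AlgebraicClosure (Y.residueField y))
    (Spec.map (CommRingCat.ofHom (algebraMap (Y.residueField y)
      (AlgebraicClosure (Y.residueField y)))) ≫ Y.fromSpecResidueField y)
  obtain ⟨p⟩ : Nonempty (Spec (CommRingCat.of K')) := inferInstance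
  refine ⟨s' p, ?_⟩
  have h2 : g (s' p) ∈ Set.range (Y.fromSpecResidueField y) := by
    refine ⟨(Spec.map (CommRingCat.ofHom φ) ≫ Spec.map (CommRingCat.ofHom
      (algebraMap (Y.residueField y) (AlgebraicClosure (Y.residueField y))))) p, ?_⟩
    rw [← Scheme.Hom.comp_apply, Category.assoc, ← hs', Scheme.Hom.comp_apply]
  rw [Scheme.range_fromSpecResidueField] at h2
  exact h2

/-- Special case of `surjective_of_geometric_points` without enlarging the field. -/
theorem surjective_of_geometric_points' (g : X ⟶ Y)
    (H : ∀ (K : Type u) [Field K] [IsAlgClosed K] (s : Spec (CommRingCat.of K) ⟶ Y),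
      ∃ s' : Spec (CommRingCat.of K) ⟶ X, s' ≫ g = s) : Surjective g := by
  refine surjective_of_geometric_points g fun K _ _ s => ?_
  obtain ⟨s', hs'⟩ := H K s
  exact ⟨K, inferInstance, RingHom.id K, s', by simp [hs']⟩

/-! ### (Q2) topological descent along a surjection -/

/-- The image of a compact scheme under a surjection is compact. -/
theorem compactSpace_of_surjective (g : X ⟶ Y) [Surjective g] [CompactSpace X] :
    CompactSpace Y :=
  ⟨by
    rw [← Set.range_eq_univ.mpr g.surjective]
    exact isCompact_range g.continuous⟩

/-- The image of an irreducible scheme under a surjection is irreducible. -/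
theorem irreducibleSpace_of_surjective (g : X ⟶ Y) [Surjective g] [IrreducibleSpace X] :
    IrreducibleSpace Y := by
  have h : IsIrreducible (Set.univ : Set Y) := by
    rw [← Set.range_eq_univ.mpr g.surjective, ← Set.image_univ]
    exact (IrreducibleSpace.isIrreducible_univ X).image _ g.continuous.continuousOn
  exact (irreducibleSpace_def Y).mpr h

/-- The image of a connected scheme under a surjection is connected. -/
theorem connectedSpace_of_surjective (g : X ⟶ Y) [Surjective g] [ConnectedSpace X] :
    ConnectedSpace Y := by
  have h : _root_.IsConnected (Set.univ : Set Y) := by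
    rw [← Set.range_eq_univ.mpr g.surjective, ← Set.image_univ]
    exact isConnected_univ.image _ g.continuous.continuousOn
  exact connectedSpace_iff_univ.mpr h

/-- If `g` is surjective and `g ≫ j` is quasi-compact, then `j` is quasi-compact. -/
theorem quasiCompact_of_surjective_comp (g : X ⟶ Y) (j : Y ⟶ S) [Surjective g]
    [QuasiCompact (g ≫ j)] : QuasiCompact j := by
  refine ⟨fun U hU hU' => ?_⟩
  have h := QuasiCompact.isCompact_preimage (f := g ≫ j) U hU hU'
  have h2 : j ⁻¹' U = g '' ((g ≫ j) ⁻¹' U) := by
    ext y
    constructor
    · intro hy
      obtain ⟨x, rfl⟩ := g.surjective y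
      exact ⟨x, by simpa using hy, rfl⟩
    · rintro ⟨x, hx, rfl⟩
      simpa using hx
  rw [h2]
  exact h.image g.continuous

/-- Over a quasi-separated (e.g. affine) base: a scheme receiving a surjection from a compact
scheme is quasi-compact over the base. -/
theorem quasiCompact_of_surjective_of_compactSpace (g : X ⟶ Y) (j : Y ⟶ S) [Surjective g]
    [CompactSpace X] [QuasiSeparatedSpace S] : QuasiCompact j := by
  have := compactSpace_of_surjective g
  infer_instance

/-! ### (Q3) descent of geometric properties along a surjection -/

/-- If `g` is surjective and `g ≫ j` is geometrically irreducible, then so is `j`. -/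
theorem geometricallyIrreducible_of_surjective_comp (g : X ⟶ Y) (j : Y ⟶ S) [Surjective g]
    [GeometricallyIrreducible (g ≫ j)] : GeometricallyIrreducible j := by
  refine ⟨geometrically_iff_of_isClosedUnderIsomorphisms.mpr fun K _ y => ?_⟩
  have : IrreducibleSpace ↥(pullback (g ≫ j) y) :=
    pullback_of_geometrically (GeometricallyIrreducible.geometrically_irreducibleSpace
      (f := g ≫ j)) K y
  have : IrreducibleSpace ↥(pullback g (pullback.fst j y)) := by
    rw [(pullbackRightPullbackFstIso j y g).hom.homeomorph.irreducibleSpace_iff]
    infer_instance
  exact irreducibleSpace_of_surjective (pullback.snd g (pullback.fst j y))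

/-- If `g` is surjective and `g ≫ j` is geometrically connected, then so is `j`. -/
theorem geometricallyConnected_of_surjective_comp (g : X ⟶ Y) (j : Y ⟶ S) [Surjective g]
    [GeometricallyConnected (g ≫ j)] : GeometricallyConnected j := by
  refine ⟨geometrically_iff_of_isClosedUnderIsomorphisms.mpr fun K _ y => ?_⟩
  have : ConnectedSpace ↥(pullback (g ≫ j) y) :=
    pullback_of_geometrically (GeometricallyConnected.geometrically_connectedSpace
      (f := g ≫ j)) K y
  have : ConnectedSpace ↥(pullback g (pullback.fst j y)) := by
    rw [(pullbackRightPullbackFstIso j y g).hom.homeomorph.connectedSpace_iff]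
    infer_instance
  exact connectedSpace_of_surjective (pullback.snd g (pullback.fst j y))

/-- Geometrically irreducible morphisms are geometrically connected. -/
theorem geometricallyConnected_of_geometricallyIrreducible (j : Y ⟶ S)
    [GeometricallyIrreducible j] : GeometricallyConnected j := by
  refine ⟨fun K _ y Z fst snd h => ?_⟩
  have : IrreducibleSpace ↥Z :=
    GeometricallyIrreducible.geometrically_irreducibleSpace (f := j) y fst snd h
  infer_instance

/-! ### (Q4) the affine source -/

section Affine

variable (k : Type u) [Field k] (B : Type u) [CommRing B] [Algebra k B]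

/-- The tensor-domain property gives geometric integrality of `Spec B ⟶ Spec k`. -/
theorem geometricallyIntegral_Spec_of_isDomain
    (hB : ∀ (K : Type u) [Field K] [Algebra k K], IsDomain (B ⊗[k] K)) :
    GeometricallyIntegral (Spec.map (CommRingCat.ofHom (algebraMap k B))) := by
  refine ⟨geometrically_iff_of_commRing.mpr fun K _ _ Z fst snd h => ?_⟩
  have hdom : IsDomain (CommRingCat.of (B ⊗[k] K)) := hB K
  have hint : IsIntegral (Spec (CommRingCat.of (B ⊗[k] K))) := inferInstance
  exact IsIntegral.of_isIso (h.isoPullback ≪≫ pullbackSpecIso k B K).inv

/-- The tensor-domain property gives geometric irreducibility of `Spec B ⟶ Spec k`. -/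
theorem geometricallyIrreducible_Spec_of_isDomain
    (hB : ∀ (K : Type u) [Field K] [Algebra k K], IsDomain (B ⊗[k] K)) :
    GeometricallyIrreducible (Spec.map (CommRingCat.ofHom (algebraMap k B))) := by
  have := geometricallyIntegral_Spec_of_isDomain k B hB
  infer_instance

/-- Variant of `geometricallyIntegral_Spec_of_isDomain` with the other order of the factors. -/
theorem geometricallyIntegral_Spec_of_isDomain'
    (hB : ∀ (K : Type u) [Field K] [Algebra k K], IsDomain (K ⊗[k] B)) :
    GeometricallyIntegral (Spec.map (CommRingCat.ofHom (algebraMap k B))) :=
  geometricallyIntegral_Spec_of_isDomain k B fun K _ _ =>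
    have := hB K
    (Algebra.TensorProduct.comm k B K).toMulEquiv.isDomain

end Affine

/-! ### (Q5) the consumer form -/

/-- CONSUMER FORM. Let `j : J ⟶ Spec k` and `g : Spec B ⟶ J` over `k`, where `B ⊗[k] K` is a
domain for every field `K/k`, and assume that every geometric point of `J` lifts to `Spec B` after
enlarging the field. Then `J` is quasi-compact, irreducible, geometrically irreducible and
geometrically connected over `k`, and `g` is surjective. -/
theorem properties_of_affine_surjection {k : Type u} [Field k] {J : Scheme.{u}}
    (j : J ⟶ Spec (CommRingCat.of k)) (B : Type u) [CommRing B] [Algebra k B]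
    (hB : ∀ (K : Type u) [Field K] [Algebra k K], IsDomain (B ⊗[k] K))
    (g : Spec (CommRingCat.of B) ⟶ J)
    (hg : g ≫ j = Spec.map (CommRingCat.ofHom (algebraMap k B)))
    (H : ∀ (K : Type u) [Field K] [IsAlgClosed K] (s : Spec (CommRingCat.of K) ⟶ J),
      ∃ (K' : Type u) (_ : Field K') (φ : K →+* K')
        (s' : Spec (CommRingCat.of K') ⟶ Spec (CommRingCat.of B)),
        s' ≫ g = Spec.map (CommRingCat.ofHom φ) ≫ s) :
    Surjective g ∧ QuasiCompact j ∧ IrreducibleSpace J ∧ GeometricallyIrreducible j ∧
      GeometricallyConnected j := by
  have hsurj : Surjective g := surjective_of_geometric_points g H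
  have hgi : GeometricallyIrreducible (g ≫ j) := by
    rw [hg]
    exact geometricallyIrreducible_Spec_of_isDomain k B hB
  have hirr : GeometricallyIrreducible j := geometricallyIrreducible_of_surjective_comp g j
  have hdom : IsDomain (CommRingCat.of B) := by
    have h1 := hB k
    exact (Algebra.TensorProduct.rid k k B).symm.toMulEquiv.isDomain (B ⊗[k] k)
  have hirrB : IrreducibleSpace ↥(Spec (CommRingCat.of B)) := inferInstance
  exact ⟨hsurj, quasiCompact_of_surjective_of_compactSpace g j, irreducibleSpace_of_surjective g,
    hirr, geometricallyConnected_of_geometricallyIrreducible j⟩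

/-! ### (Q6) locally of finite type over a field: locally noetherian and quasi-separated -/

/-- A scheme locally of finite type over a field is locally noetherian. -/
theorem isLocallyNoetherian_of_locallyOfFiniteType_field {k : Type u} [Field k] {J : Scheme.{u}}
    (j : J ⟶ Spec (CommRingCat.of k)) [LocallyOfFiniteType j] : IsLocallyNoetherian J :=
  LocallyOfFiniteType.isLocallyNoetherian j

set_option backward.isDefEq.respectTransparency.types false in
/-- A scheme locally of finite type over a field is quasi-separated over it. -/
theorem quasiSeparated_of_locallyOfFiniteType_field {k : Type u} [Field k] {J : Scheme.{u}}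
    (j : J ⟶ Spec (CommRingCat.of k)) [LocallyOfFiniteType j] : QuasiSeparated j := by
  have := isLocallyNoetherian_of_locallyOfFiniteType_field j
  rw [HasAffineProperty.iff_of_isAffine (P := @QuasiSeparated)]
  infer_instance

end Fermat.Agent.S25.helper7343
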