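/-
S25, layer G, leaf LG-ASSEMBLY (backup seat helper233): composition of the layer-G arrows.

* `stmt_QC_of_bounded`  : `helper985.Stmt_Bounded → helper985.Stmt_QC` (arrow W-QC): the
  classifying map of the bounded family is surjective, so any representing scheme is the
  image of an affine scheme, hence quasi-compact.
* `lg_all_of_frozen`    : the four frozen layer-G statements (`Stmt_LiftSqZero`, `Stmt_ValUniq`,
  `Stmt_Bounded`, `Stmt_ValExistAC`) and `Stmt_GC` give the four property statements of the Spec.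
* `stmt_S25_of_frozen`  : S25 from `Stmt_Rep`, the four frozen layer-G statements and `Stmt_GC`.

Everything is in the frozen vocabulary; hypothesis-passing.
-/
import Fermat.Agent.S25.helper2317_SmoothWiring
import Fermat.Agent.S25.helper665_SepWiring
import Fermat.Agent.S25.helper3788_UCWiring
import Fermat.Agent.S25.helper7343_QcptSurj

set_option autoImplicit false

universe u

open CategoryTheory CategoryTheory.Limits AlgebraicGeometry AlgebraicGeometry.RelPicard
  NeronModelInfra GoodReductionJacobian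

namespace Fermat.Agent.S25.helper233

open Fermat.Agent.S25.helper1705 Fermat.Agent.S25.helper985

/-- **Arrow W-QC.** If one affine family in the cut meets every geometric point of the functor,
then every representing designation is quasi-compact over `k`. -/
theorem stmt_QC_of_bounded (hB : Stmt_Bounded.{u}) : Stmt_QC.{u} := by
  intro k _ C c hc ε D hD
  obtain ⟨h⟩ := hD
  obtain ⟨B₀, _, _, M₀, hM₀, hcov⟩ := hB k c hc ε
  -- the classifying map of the bounded family
  let g₀ : SchemeHomOver (specStr k B₀) D.toBase := h.classify (specStr k B₀) M₀ hM₀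
  obtain ⟨e₀⟩ := h.classify_spec (specStr k B₀) M₀ hM₀
  have hsurj : Surjective g₀.1 := by
    refine helper7343.surjective_of_geometric_points' g₀.1 fun K _ _ s => ?_
    obtain ⟨φ, hφ⟩ : ∃ φ : CommRingCat.of k ⟶ CommRingCat.of K, Spec.map φ = s ≫ D.toBase :=
      ⟨Spec.preimage _, Spec.map_preimage _⟩
    let _ : Algebra k K := φ.hom.toAlgebra
    have hs : s ≫ D.toBase = specStr k K := hφ.symm
    let sK : SchemeHomOver (specStr k K) D.toBase := ⟨s, hs⟩
    have hmem : FibrewiseAlgEquivZero (h.poincare.pullbackAlong sK) :=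
      (algEquivZeroCut c ε).pullback_mem _ _ sK _ h.poincare_mem
    obtain ⟨ψ, ⟨e⟩⟩ := hcov K (h.poincare.pullbackAlong sK) hmem
    have key : postComp g₀ (specHomOver ψ) = sK :=
      h.ext_of_iso _ _ _ ⟨(helper7579.pullbackAlongCompIso h.poincare g₀ (specHomOver ψ)).symm ≪≫
        (Scheme.Modules.pullback (baseChangeSnd c (specHomOver ψ))).mapIso e₀ ≪≫ e⟩
    exact ⟨(specHomOver ψ).1, congrArg Subtype.val key⟩
  exact helper7343.quasiCompact_of_surjective_of_compactSpace g₀.1 D.toBase

/-- **LG-ASSEMBLY.** The four frozen layer-G statements and `Stmt_GC` give the four property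
statements of the Spec. -/
theorem lg_all_of_frozen (hLift : Stmt_LiftSqZero.{u}) (hVU : Stmt_ValUniq.{u})
    (hB : Stmt_Bounded.{u}) (hVE : Stmt_ValExistAC.{u}) (hGC : Stmt_GC.{u}) :
    Stmt_Smooth.{u} ∧ Stmt_Sep.{u} ∧ Stmt_UC.{u} ∧ Stmt_GC.{u} :=
  ⟨helper2317.stmt_Smooth_of_liftSqZero hLift, helper665.stmt_Sep_of_LGSpec hVU,
    helper3788.stmt_UC_of (stmt_QC_of_bounded hB) hVE, hGC⟩

/-- S25 from `Stmt_Rep`, the four frozen layer-G statements and `Stmt_GC`. -/
theorem stmt_S25_of_frozen (hRep : Stmt_Rep.{u}) (hLift : Stmt_LiftSqZero.{u})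
    (hVU : Stmt_ValUniq.{u}) (hB : Stmt_Bounded.{u}) (hVE : Stmt_ValExistAC.{u})
    (hGC : Stmt_GC.{u}) : Stmt_S25.{u} :=
  have h := lg_all_of_frozen hLift hVU hB hVE hGC
  stmt_S25_of hRep h.1 h.2.1 h.2.2.1 h.2.2.2

end Fermat.Agent.S25.helper233
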