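/-
S25, layer G, leaf LG-ASSEMBLY (backup seat helper233): the BOTTOM half of the assembly.

`helper233_LGAssembly` composes the W-arrows (frozen layer-G statements ⟹ property statements).
This file composes them with the descent arrows of `helper175_Descent`, the chart wiring of
`helper1705_Spec3` and the proved top-level statements (`Stmt_GlueRep`, `Stmt_AffRed`,
`Stmt_LocIso`, `Stmt_CutLocal`, `Stmt_GC`), so that S25 is stated from the ROOTS of the project
only (table `s25_roots`).  It cites only root theorems whose statements are Spec Props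
(no dependency on any other assembly file):

* `lg_all_of_roots`  : `Stmt_Chart`, `Stmt_Dict`, `Stmt_FAEZ` and the four algebra statements of
  `helper985_LGAlg` give `Stmt_Smooth ∧ Stmt_Sep ∧ Stmt_UC ∧ Stmt_GC`;
* `stmt_S25_of_roots` : S25 from the nine roots;
* `stmt_S25_of_open_roots` : the same with the roots already proved on main discharged
  (`Stmt_AlgLiftSqZero` = `helper7727.stmt_AlgLiftSqZero`).

Hypothesis-passing; nothing new is proved here.
-/
import Fermat.Agent.S25.helper175_Descent
import Fermat.Agent.S25.helper233_LGAssembly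
import Fermat.Agent.S25.helper7579_GlueRepWrap
import Fermat.Agent.S25.helper8470_LRGen
import Fermat.Agent.S25.helper6523_AffRed
import Fermat.Agent.S25.helper8915_CutLocal
import Fermat.Agent.S25.helper8183_GC
import Fermat.Agent.S25.helper2952_LocIso
import Fermat.Agent.S25.helper7727_AlgLift

set_option autoImplicit false

universe u

open CategoryTheory CategoryTheory.Limits AlgebraicGeometry AlgebraicGeometry.RelPicard
  NeronModelInfra GoodReductionJacobian

namespace Fermat.Agent.S25.helper233

open Fermat.Agent.S25.helper1705 Fermat.Agent.S25.helper985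

/-- **LG-ASSEMBLY, bottom half.** The two-chart atlas, the dictionary, the translation of the
cut and the four algebra statements give the four property statements of the Spec. -/
theorem lg_all_of_roots (hChart : Stmt_Chart.{u}) (hDict : Stmt_Dict.{u})
    (hFAEZ : Stmt_FAEZ.{u}) (hU7 : Stmt_AlgLiftSqZero.{u}) (hU8 : Stmt_AlgValUniq.{u})
    (hU9 : Stmt_AlgBounded.{u}) (hU18 : Stmt_AlgValExistAC.{u}) :
    Stmt_Smooth.{u} ∧ Stmt_Sep.{u} ∧ Stmt_UC.{u} ∧ Stmt_GC.{u} :=
  lg_all_of_frozen (helper175.stmt_LiftSqZero_of hChart hDict hU7)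
    (helper175.stmt_ValUniq_of hChart hDict hU8)
    (helper175.stmt_Bounded_of hChart hDict hFAEZ hU9)
    (helper175.stmt_ValExistAC_of hChart hDict hFAEZ hU18) helper8183.stmt_GC

/-- **S25 from the nine roots** (`Stmt_GlueObj`, `Stmt_Chart`, `Stmt_Dict`, `Stmt_FAEZ`,
`Stmt_AlgCharts` and the four algebra statements of `helper985_LGAlg`). -/
theorem stmt_S25_of_roots (hGlueObj : Stmt_GlueObj.{u}) (hChart : Stmt_Chart.{u})
    (hDict : Stmt_Dict.{u}) (hFAEZ : Stmt_FAEZ.{u}) (hAlgCharts : Stmt_AlgCharts.{u})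
    (hU7 : Stmt_AlgLiftSqZero.{u}) (hU8 : Stmt_AlgValUniq.{u})
    (hU9 : Stmt_AlgBounded.{u}) (hU18 : Stmt_AlgValExistAC.{u}) : Stmt_S25.{u} :=
  stmt_S25_of_frozen
    (stmt_Rep_of (helper7579.stmt_GlueRep_of_LRGen helper8470.stmt_LRGen) helper6523.stmt_AffRed
      helper2952.stmt_LocIso hGlueObj helper8915.stmt_CutLocal
      (stmt_ChartsAff_of hChart hDict hFAEZ hAlgCharts))
    (helper175.stmt_LiftSqZero_of hChart hDict hU7)
    (helper175.stmt_ValUniq_of hChart hDict hU8)
    (helper175.stmt_Bounded_of hChart hDict hFAEZ hU9)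
    (helper175.stmt_ValExistAC_of hChart hDict hFAEZ hU18) helper8183.stmt_GC

/-- S25 from the roots that are still owed: `Stmt_AlgLiftSqZero` is proved on main
(`helper7727.stmt_AlgLiftSqZero`). -/
theorem stmt_S25_of_open_roots (hGlueObj : Stmt_GlueObj.{u}) (hChart : Stmt_Chart.{u})
    (hDict : Stmt_Dict.{u}) (hFAEZ : Stmt_FAEZ.{u}) (hAlgCharts : Stmt_AlgCharts.{u})
    (hU8 : Stmt_AlgValUniq.{u}) (hU9 : Stmt_AlgBounded.{u})
    (hU18 : Stmt_AlgValExistAC.{u}) : Stmt_S25.{u} :=
  stmt_S25_of_roots hGlueObj hChart hDict hFAEZ hAlgCharts helper7727.stmt_AlgLiftSqZero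
    hU8 hU9 hU18

/-- The frozen statement S25, in the literal shape of the template, from the open roots. -/
theorem stmt_S25_literal_of_open_roots (hGlueObj : Stmt_GlueObj.{u}) (hChart : Stmt_Chart.{u})
    (hDict : Stmt_Dict.{u}) (hFAEZ : Stmt_FAEZ.{u}) (hAlgCharts : Stmt_AlgCharts.{u})
    (hU8 : Stmt_AlgValUniq.{u}) (hU9 : Stmt_AlgBounded.{u})
    (hU18 : Stmt_AlgValExistAC.{u})
    (k : Type u) [Field k] [IsAlgClosed k] {C : Scheme.{u}} (c : C ⟶ Spec (CommRingCat.of k))
    [IsProper c] [SmoothOfRelativeDimension 1 c] [IsIntegral C]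
    (ε : SchemeHomOver (𝟙 (Spec (CommRingCat.of k))) c) :
    ∃ D : RelativePic0Designation k c,
      Nonempty (RepresentsRelSubPic c ε (algEquivZeroCut c ε) D) ∧
        Smooth D.toBase ∧ IsProper D.toBase ∧ GeometricallyConnected D.toBase :=
  stmt_S25_of_open_roots hGlueObj hChart hDict hFAEZ hAlgCharts hU8 hU9 hU18 k c ε

end Fermat.Agent.S25.helper233
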