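/-
S25, Spec part II leaf `Stmt_AffRed` (formal, no curves): the chart conditions
`ChartFamily.IsMono` and `ChartFamily.IsOpenCover` of `helper1705_Spec2` may be tested on
affine schemes `Spec B` only, provided the rigidified Picard functor is separated for the
Zariski topology (`LocIso`).

Everything is stated in the frozen vocabulary (`RigidifiedLineBundle`, `pullbackAlong`,
`SubPicCondition`) and in the vocabulary of `helper1705_Spec2`.
-/
import Fermat.Agent.S25.helper1705_Spec2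
import Fermat.Agent.S25.helper7579_AffineReduction

set_option autoImplicit false

universe u

open CategoryTheory CategoryTheory.Limits AlgebraicGeometry AlgebraicGeometry.RelPicard
  NeronModelInfra GoodReductionJacobian

namespace Fermat.Agent.S25.helper2399

open Fermat.Agent.S25.helper1705 Fermat.Agent.S25.helper7579

variable {R : Type u} [CommRing R] {C : Scheme.{u}} {c : C ⟶ Spec (CommRingCat.of R)}
  {ε : SchemeHomOver (𝟙 (Spec (CommRingCat.of R))) c}

/-! ### Bricks on `pullbackAlong` and `InChart` -/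

/-- An iterated pullback is the pullback along any morphism whose underlying map is the
composite. -/
theorem pullbackAlong_pullbackAlong {S T₁ T : Scheme.{u}} {s : S ⟶ Spec (CommRingCat.of R)}
    {t₁ : T₁ ⟶ Spec (CommRingCat.of R)} {t : T ⟶ Spec (CommRingCat.of R)}
    (M : RigidifiedLineBundle c ε t) (α : SchemeHomOver t₁ t) (β : SchemeHomOver s t₁)
    (δ : SchemeHomOver s t) (hδ : δ.1 = β.1 ≫ α.1) :
    Nonempty (((M.pullbackAlong α).pullbackAlong β).L ≅ (M.pullbackAlong δ).L) := by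
  obtain ⟨e⟩ := pullbackAlong_congr_val M (ψ := postComp α β) (ψ' := δ) hδ.symm
  exact ⟨pullbackAlongCompIso M α β ≪≫ e⟩

variable {Pc : SubPicCondition c ε} (F : ChartFamily Pc)

/-- Being in a chart only depends on the isomorphism class of the underlying module. -/
theorem inChart_congr (i : F.ι) {T : Scheme.{u}} {t : T ⟶ Spec (CommRingCat.of R)}
    {N N' : RigidifiedLineBundle c ε t} (h : Nonempty (N.L ≅ N'.L)) :
    F.InChart i t N → F.InChart i t N' := by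
  rintro ⟨g, ⟨e⟩⟩
  obtain ⟨e'⟩ := h
  exact ⟨g, ⟨e ≪≫ e'⟩⟩

/-- Being in a chart is stable under pullback. -/
theorem inChart_pullbackAlong (i : F.ι) {T T' : Scheme.{u}} {t : T ⟶ Spec (CommRingCat.of R)}
    {t' : T' ⟶ Spec (CommRingCat.of R)} {N : RigidifiedLineBundle c ε t}
    (β : SchemeHomOver t' t) : F.InChart i t N → F.InChart i t' (N.pullbackAlong β) := by
  rintro ⟨g, ⟨e⟩⟩
  exact ⟨postComp g β, ⟨(pullbackAlongCompIso (F.Q i) g β).symm ≪≫
    (Scheme.Modules.pullback (baseChangeSnd c β)).mapIso e⟩⟩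

/-- Transport of `InChart` along an equality of structure morphisms. -/
theorem inChart_transport (i : F.ι) {S T : Scheme.{u}} {s s' : S ⟶ Spec (CommRingCat.of R)}
    (h : s = s') {t : T ⟶ Spec (CommRingCat.of R)} (M : RigidifiedLineBundle c ε t)
    (δ : SchemeHomOver s t) (δ' : SchemeHomOver s' t) (hδ : δ.1 = δ'.1) :
    F.InChart i s (M.pullbackAlong δ) → F.InChart i s' (M.pullbackAlong δ') := by
  subst h
  obtain rfl : δ = δ' := Subtype.ext hδ
  exact id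

/-! ### Monomorphism condition -/

/-- `IsMono` can be tested on affine schemes. -/
theorem isMono_of_isMonoAff (hmono : F.IsMonoAff) : F.IsMono := by
  intro i T t g g' h
  apply Subtype.ext
  let 𝒰 := T.affineOpenCover
  refine 𝒰.openCover.hom_ext _ _ fun j => ?_
  let a : SchemeHomOver (𝒰.f j ≫ t) t := ⟨𝒰.f j, rfl⟩
  have key : postComp g a = postComp g' a := by
    apply hmono i (𝒰.X j) (𝒰.f j ≫ t)
    obtain ⟨e⟩ := h
    exact ⟨(pullbackAlongCompIso (F.Q i) g a).symm ≪≫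
      (Scheme.Modules.pullback (baseChangeSnd c a)).mapIso e ≪≫
      pullbackAlongCompIso (F.Q i) g' a⟩
  exact congrArg Subtype.val key

/-! ### Gluing chart membership over an open cover -/

/-- If the pullbacks of `N` to the members of an open cover are all in the `i`-th chart, then so
is `N` (the classifying maps glue by `IsMono`, and the glued pullback is `N` by `LocIso`). -/
theorem inChart_of_openCover (hL : LocIso c ε) (hmono : F.IsMono) (i : F.ι) {T : Scheme.{u}}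
    (t : T ⟶ Spec (CommRingCat.of R)) (N : RigidifiedLineBundle c ε t)
    (𝒱 : Scheme.OpenCover.{u} T)
    (h : ∀ p, F.InChart i (𝒱.f p ≫ t) (N.pullbackAlong (coverHom t 𝒱 p))) :
    F.InChart i t N := by
  choose g hg using h
  have hcompat : ∀ x y, pullback.fst (𝒱.f x) (𝒱.f y) ≫ (g x).1 =
      pullback.snd (𝒱.f x) (𝒱.f y) ≫ (g y).1 := by
    intro x y
    let s : pullback (𝒱.f x) (𝒱.f y) ⟶ Spec (CommRingCat.of R) :=
      pullback.fst (𝒱.f x) (𝒱.f y) ≫ 𝒱.f x ≫ t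
    let a₁ : SchemeHomOver s (𝒱.f x ≫ t) := ⟨pullback.fst (𝒱.f x) (𝒱.f y), rfl⟩
    let a₂ : SchemeHomOver s (𝒱.f y ≫ t) := ⟨pullback.snd (𝒱.f x) (𝒱.f y), by
      simp only [s, pullback.condition_assoc]⟩
    have hp : (postComp (coverHom t 𝒱 x) a₁).1 = (postComp (coverHom t 𝒱 y) a₂).1 :=
      pullback.condition
    have key : postComp (g x) a₁ = postComp (g y) a₂ := by
      apply hmono i s
      obtain ⟨e₁⟩ := hg x
      obtain ⟨e₂⟩ := hg y
      obtain ⟨e₀⟩ := pullbackAlong_congr_val N hp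
      exact ⟨(pullbackAlongCompIso (F.Q i) (g x) a₁).symm ≪≫
        (Scheme.Modules.pullback (baseChangeSnd c a₁)).mapIso e₁ ≪≫
        pullbackAlongCompIso N (coverHom t 𝒱 x) a₁ ≪≫ e₀ ≪≫
        (pullbackAlongCompIso N (coverHom t 𝒱 y) a₂).symm ≪≫
        (Scheme.Modules.pullback (baseChangeSnd c a₂)).mapIso e₂.symm ≪≫
        pullbackAlongCompIso (F.Q i) (g y) a₂⟩
    exact congrArg Subtype.val key
  let G : T ⟶ F.X i := 𝒱.glueMorphisms (fun p => (g p).1) hcompat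
  have hG : ∀ p, 𝒱.f p ≫ G = (g p).1 := fun p => 𝒱.ι_glueMorphisms _ hcompat p
  have hGj : G ≫ F.x i = t := by
    refine 𝒱.hom_ext _ _ fun p => ?_
    rw [← Category.assoc, hG, (g p).2]
  refine ⟨⟨G, hGj⟩, hL t _ N 𝒱 fun p => ?_⟩
  obtain ⟨e₁⟩ := hg p
  obtain ⟨e₀⟩ := pullbackAlong_congr_val (F.Q i)
    (ψ := postComp (⟨G, hGj⟩ : SchemeHomOver t (F.x i)) (coverHom t 𝒱 p)) (ψ' := g p) (hG p)
  exact ⟨pullbackAlongCompIso (F.Q i) ⟨G, hGj⟩ (coverHom t 𝒱 p) ≪≫ e₀ ≪≫ e₁⟩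

/-! ### Open cover condition -/

/-- `IsOpenCover` can be tested on affine schemes. -/
theorem isOpenCover_of_isOpenCoverAff (hL : LocIso c ε) (hmono : F.IsMono)
    (hopen : F.IsOpenCoverAff) : F.IsOpenCover := by
  intro T t M hM
  let 𝒰 := T.affineOpenCover
  have hloc : ∀ j : 𝒰.I₀, ∃ U : F.ι → (Spec (𝒰.X j)).Opens,
      (∀ (i : F.ι) (B' : CommRingCat.{u}) (ψ : Spec B' ⟶ Spec (𝒰.X j)),
        (∀ p : Spec B', ψ.base p ∈ U i) ↔
          F.InChart i (ψ ≫ 𝒰.f j ≫ t)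
            ((M.pullbackAlong (⟨𝒰.f j, rfl⟩ : SchemeHomOver (𝒰.f j ≫ t) t)).pullbackAlong
              (⟨ψ, rfl⟩ : SchemeHomOver (ψ ≫ 𝒰.f j ≫ t) (𝒰.f j ≫ t)))) ∧
      (⨆ i, U i) = ⊤ := fun j =>
    hopen (𝒰.X j) (𝒰.f j ≫ t) (M.pullbackAlong ⟨𝒰.f j, rfl⟩) (Pc.pullback_mem _ _ _ M hM)
  choose U hU hUtop using hloc
  -- the local statements, freed from the literal shape of the structure morphism
  have hU' : ∀ (j : 𝒰.I₀) (i : F.ι) (B' : CommRingCat.{u}) (ψ : Spec B' ⟶ Spec (𝒰.X j))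
      (s : Spec B' ⟶ Spec (CommRingCat.of R)) (δ : SchemeHomOver s t) (_ : δ.1 = ψ ≫ 𝒰.f j),
      (∀ p : Spec B', ψ.base p ∈ U j i) ↔ F.InChart i s (M.pullbackAlong δ) := by
    intro j i B' ψ s δ hδ
    rw [hU j i B' ψ]
    have hs : s = ψ ≫ 𝒰.f j ≫ t := by rw [← δ.2, hδ, Category.assoc]
    let α : SchemeHomOver (𝒰.f j ≫ t) t := ⟨𝒰.f j, rfl⟩
    let β : SchemeHomOver (ψ ≫ 𝒰.f j ≫ t) (𝒰.f j ≫ t) := ⟨ψ, rfl⟩
    have e := pullbackAlong_pullbackAlong M α β (postComp α β) rfl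
    constructor
    · intro h
      exact inChart_transport F i hs.symm M (postComp α β) δ hδ.symm (inChart_congr F i e h)
    · intro h
      exact inChart_congr F i ⟨e.some.symm⟩
        (inChart_transport F i hs M δ (postComp α β) hδ h)
  refine ⟨fun i => ⨆ j, (𝒰.f j) ''ᵁ (U j i), fun i T' ψ => ⟨fun h => ?_, fun h p => ?_⟩, ?_⟩
  · -- if `ψ` lands in `U i` then `ψ^* M` is in the `i`-th chart
    have hp : ∀ p : T', ∃ j : 𝒰.I₀, ψ.base p ∈ (𝒰.f j) ''ᵁ (U j i) := fun p =>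
      TopologicalSpace.Opens.mem_iSup.mp (h p)
    choose jp hjp using hp
    have haff : ∀ p : T', ∃ (B' : CommRingCat.{u}) (b : Spec B' ⟶ T'), IsOpenImmersion b ∧
        p ∈ Set.range b ∧ Set.range b ⊆ (ψ ⁻¹ᵁ ((𝒰.f (jp p)) ''ᵁ (U (jp p) i)) : T'.Opens) :=
      fun p => Scheme.exists_affine_mem_range_and_range_subset (hjp p)
    choose B' b hb hpb hbsub using haff
    let 𝒱 : Scheme.OpenCover.{u} T' :=
      Scheme.Cover.mkOfCovers T' (fun p => Spec (B' p)) b (fun p => by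
        obtain ⟨q, hq⟩ := hpb p
        exact ⟨p, q, hq⟩) hb
    refine inChart_of_openCover F hL hmono i (ψ ≫ t) _ 𝒱 fun p => ?_
    -- the lift of `b p ≫ ψ` through the affine chart `𝒰.f (jp p)`
    have hrange : Set.range (b p ≫ ψ) ⊆ Set.range (𝒰.f (jp p)) := by
      rintro _ ⟨q, rfl⟩
      have h1 : ψ.base ((b p).base q) ∈ (𝒰.f (jp p)) ''ᵁ (U (jp p) i) := hbsub p ⟨q, rfl⟩
      obtain ⟨z, -, hz⟩ := h1
      exact ⟨z, by simpa using hz⟩
    have := hb p
    let ψ' : Spec (B' p) ⟶ Spec (𝒰.X (jp p)) := IsOpenImmersion.lift (𝒰.f (jp p)) (b p ≫ ψ) hrange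
    have hfac : ψ' ≫ 𝒰.f (jp p) = b p ≫ ψ := IsOpenImmersion.lift_fac _ _ _
    let δ : SchemeHomOver (b p ≫ ψ ≫ t) t := ⟨b p ≫ ψ, by rw [Category.assoc]⟩
    have hin : ∀ q : Spec (B' p), ψ'.base q ∈ U (jp p) i := by
      intro q
      have h1 : ψ.base ((b p).base q) ∈ (𝒰.f (jp p)) ''ᵁ (U (jp p) i) := hbsub p ⟨q, rfl⟩
      have h2 : (𝒰.f (jp p)).base (ψ'.base q) = ψ.base ((b p).base q) := by
        have := congrArg (fun f => f.base q) hfac
        simpa using this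
      rw [← h2] at h1
      exact (Scheme.Hom.apply_mem_image_iff _).mp h1
    have h3 : F.InChart i (b p ≫ ψ ≫ t) (M.pullbackAlong δ) :=
      (hU' (jp p) i (B' p) ψ' (b p ≫ ψ ≫ t) δ hfac.symm).mp hin
    obtain ⟨e⟩ := pullbackAlong_pullbackAlong M (⟨ψ, rfl⟩ : SchemeHomOver (ψ ≫ t) t)
      (coverHom (ψ ≫ t) 𝒱 p) δ rfl
    exact inChart_congr F i ⟨e.symm⟩ h3
  · -- if `ψ^* M` is in the `i`-th chart then `ψ` lands in `U i`
    let j := 𝒰.idx (ψ.base p)
    have hj : ψ.base p ∈ Set.range (𝒰.f j) := 𝒰.covers (ψ.base p)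
    have hpV : p ∈ (ψ ⁻¹ᵁ (𝒰.f j).opensRange : T'.Opens) := hj
    obtain ⟨B', b, hb, ⟨p', hp'⟩, hbsub⟩ := Scheme.exists_affine_mem_range_and_range_subset hpV
    have hrange : Set.range (b ≫ ψ) ⊆ Set.range (𝒰.f j) := by
      rintro _ ⟨q, rfl⟩
      have h1 : ψ.base (b.base q) ∈ (𝒰.f j).opensRange := hbsub ⟨q, rfl⟩
      obtain ⟨z, hz⟩ := h1
      exact ⟨z, by simpa using hz⟩
    let ψ' : Spec B' ⟶ Spec (𝒰.X j) := IsOpenImmersion.lift (𝒰.f j) (b ≫ ψ) hrange
    have hfac : ψ' ≫ 𝒰.f j = b ≫ ψ := IsOpenImmersion.lift_fac _ _ _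
    let δ : SchemeHomOver (b ≫ ψ ≫ t) t := ⟨b ≫ ψ, by rw [Category.assoc]⟩
    let β : SchemeHomOver (b ≫ ψ ≫ t) (ψ ≫ t) := ⟨b, rfl⟩
    have h3 : F.InChart i (b ≫ ψ ≫ t) (M.pullbackAlong δ) :=
      inChart_congr F i (pullbackAlong_pullbackAlong M ⟨ψ, rfl⟩ β δ rfl)
        (inChart_pullbackAlong F i β h)
    have hin := (hU' j i B' ψ' (b ≫ ψ ≫ t) δ hfac.symm).mpr h3 p'
    have h2 : (𝒰.f j).base (ψ'.base p') = ψ.base p := by
      have := congrArg (fun f => f.base p') hfac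
      rw [← hp']
      simpa using this
    have h4 : ψ.base p ∈ (𝒰.f j) ''ᵁ (U j i) := by
      rw [← h2]
      exact (Scheme.Hom.apply_mem_image_iff _).mpr hin
    exact (le_iSup (fun j => (𝒰.f j) ''ᵁ (U j i)) j) h4
  · -- the `U i` cover `T`
    rw [eq_top_iff]
    rintro x -
    let j := 𝒰.idx x
    obtain ⟨z, hz⟩ : x ∈ Set.range (𝒰.f j) := 𝒰.covers x
    have hz' : z ∈ (⨆ i, U j i : (Spec (𝒰.X j)).Opens) := by
      rw [hUtop j]; trivial
    obtain ⟨i, hi⟩ := TopologicalSpace.Opens.mem_iSup.mp hz'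
    have h4 : x ∈ (𝒰.f j) ''ᵁ (U j i) := by
      rw [← hz]
      exact (Scheme.Hom.apply_mem_image_iff _).mpr hi
    exact (le_iSup (fun i => ⨆ j, (𝒰.f j) ''ᵁ (U j i)) i)
      ((le_iSup (fun j => (𝒰.f j) ''ᵁ (U j i)) j) h4)

/-! ### The statement -/

/-- **AFF-RED.** The chart conditions can be tested on affine schemes. -/
theorem stmt_AffRed : Stmt_AffRed.{u} := by
  intro R _ C c ε Pc hL F hmono hopen
  have h1 := isMono_of_isMonoAff F hmono
  exact ⟨h1, isOpenCover_of_isOpenCoverAff F hL h1 hopen⟩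

end Fermat.Agent.S25.helper2399
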