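import Mathlib
import Fermat.Agent.S25.helper2531_FieldCover
import Fermat.Agent.S25.helper8573_LCSpec
import Fermat.Agent.S25.helper3115_TwistGlue
import Fermat.Agent.S25.helper1397_HomGlue

/-!
# S25, leaf U5b, F-side: the field-level cover theorem in morphism form (helper2531)

For a two-chart line bundle `G` over a field `K ⊇ k` (`k` algebraically closed) the sections of
the twists of the dual datum `Hom(G, 𝒪)` are the morphisms `G → 𝒪(n)`. This file translates
`helper2531.exists_section_general_position` (applied to the dual datum) into the language of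
morphisms `helper8573.Mor G (helper3115.twist (unit D K) n)`.
-/

set_option autoImplicit false
set_option linter.style.haveILetI false

open Module TensorProduct
open Fermat.Agent.S25.helper1705 Fermat.Agent.S25.helper2945

namespace Fermat.Agent.S25.helper2531

section DualLemmas

variable {R P : Type*} [CommRing R] [AddCommGroup P] [Module R P]

/-- A functional in `I • Hom(P, R)` takes values in `I`. -/
theorem forall_mem_of_mem_smul_top (I : Ideal R) (f : P →ₗ[R] R)
    (hf : f ∈ I • (⊤ : Submodule R (P →ₗ[R] R))) (p : P) : f p ∈ I := by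
  refine Submodule.smul_induction_on (p := fun g => g p ∈ I) hf ?_ ?_
  · intro r hr g _
    change (r • g) p ∈ I
    rw [LinearMap.smul_apply, smul_eq_mul]
    exact I.mul_mem_right _ hr
  · intro g h hg hh
    change (g + h) p ∈ I
    rw [LinearMap.add_apply]
    exact I.add_mem hg hh

/-- A functional on a finite projective module with values in `I` lies in `I • Hom(P, R)`. -/
theorem mem_smul_top_of_forall_mem [Module.Finite R P] [Module.Projective R P] (I : Ideal R)
    (f : P →ₗ[R] R) (hf : ∀ p, f p ∈ I) : f ∈ I • (⊤ : Submodule R (P →ₗ[R] R)) := by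
  classical
  obtain ⟨n, s, g, -, -, hsg⟩ := Module.Finite.exists_comp_eq_id_of_projective R P
  have key : f = ∑ i : Fin n,
      f (s (Pi.single i 1)) • ((LinearMap.proj i : (Fin n → R) →ₗ[R] R) ∘ₗ g) := by
    ext p
    have hp : p = s (g p) := by
      have := congrArg (fun φ => φ p) hsg
      simpa using this.symm
    conv_lhs => rw [hp]
    have hg : g p = ∑ i, g p i • (Pi.single i 1 : Fin n → R) := by
      ext j
      simp [Finset.sum_apply, Pi.single_apply]
    conv_lhs => rw [hg]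
    simp [map_sum, mul_comm]
  rw [key]
  exact Submodule.sum_mem _ fun i _ => Submodule.smul_mem_smul (hf _) Submodule.mem_top

/-- If a functional `f` on an invertible module generates the dual modulo `y`, then `f` is
surjective modulo `y`. -/
theorem exists_eq_apply_add_mul_of_span_sup_eq_top [Module.Invertible R P] (y : R)
    (f : P →ₗ[R] R)
    (h : Submodule.span R {f} ⊔ Ideal.span {y} • (⊤ : Submodule R (P →ₗ[R] R)) = ⊤) (b : R) :
    ∃ (p : P) (b' : R), b = f p + y * b' := by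
  obtain ⟨n, φ, e, h1⟩ := helper1397.exists_dual_sum_eq_one R P
  have hφ : ∀ i, ∃ (a : R) (ψ : P →ₗ[R] R), φ i = a • f + y • ψ := by
    intro i
    have hi : φ i ∈ Submodule.span R {f} ⊔ Ideal.span {y} • (⊤ : Submodule R (P →ₗ[R] R)) := by
      rw [h]; trivial
    obtain ⟨u, hu, v, hv, huv⟩ := Submodule.mem_sup.mp hi
    obtain ⟨a, rfl⟩ := Submodule.mem_span_singleton.mp hu
    rw [Submodule.ideal_span_singleton_smul] at hv
    obtain ⟨ψ, -, rfl⟩ := hv
    exact ⟨a, ψ, huv.symm⟩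
  choose a ψ hφ using hφ
  refine ⟨b • ∑ i, a i • e i, b * ∑ i, ψ i (e i), ?_⟩
  have h2 : (1 : R) = f (∑ i, a i • e i) + y * ∑ i, ψ i (e i) := by
    rw [← h1, map_sum, Finset.mul_sum, ← Finset.sum_add_distrib]
    refine Finset.sum_congr rfl fun i _ => ?_
    rw [hφ i]
    simp
  calc b = b * 1 := (mul_one b).symm
    _ = f (b • ∑ i, a i • e i) + y * (b * ∑ i, ψ i (e i)) := by
      rw [h2, map_smul, smul_eq_mul]
      ring

end DualLemmas

universe u

section MorAdapters

variable {k : Type u} [Field k] {D : CurveDatum k} {B : Type u} [CommRing B] [Algebra k B]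
variable (G : GlueDatum D B)

/-- The dual datum `Hom(G, 𝒪)`. -/
noncomputable abbrev dualDatum : GlueDatum D B := helper1397.homDatum G (GlueDatum.unit D B)

theorem xU_natCast_val (N : ℕ) :
    ((helper3115.xU D B ^ (N : ℤ) : (D.A₀₁ B)ˣ) : D.A₀₁ B) =
      algebraMap (D.A₀ B) (D.A₀₁ B) (xB D B ^ N) := by
  rw [zpow_natCast, Units.val_pow_eq_pow_val, helper3115.xU_val, map_pow]

/-- The restriction map of `𝒪(N)` on the chart at infinity. -/
theorem twist_unit_ρ₁ (N : ℕ) (b : (GlueDatum.unit D B).M₁) :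
    (helper3115.twist (GlueDatum.unit D B) (N : ℤ)).ρ₁ b =
      xB D B ^ N • (GlueDatum.unit D B).ρ₁ b := by
  have h := helper3115.twist_ρ₁_apply (GlueDatum.unit D B) (N : ℤ) b
  rw [xU_natCast_val, algebraMap_smul] at h
  exact h

/-- An element of the overlap module of the dual datum, as a linear map. -/
def dualHom₀₁ (g : (dualDatum G).M₀₁) : G.M₀₁ →ₗ[D.A₀₁ B] (GlueDatum.unit D B).M₀₁ := g

/-- Evaluation of a twisted restriction in the dual datum. -/
theorem smul_dual_ρ₁_apply (N : ℕ) (f₁ : G.M₁ →ₗ[D.A₁ B] (GlueDatum.unit D B).M₁) (m : G.M₁) :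
    dualHom₀₁ G (xB D B ^ N • (dualDatum G).ρ₁ f₁) (G.ρ₁ m) =
      xB D B ^ N • (GlueDatum.unit D B).ρ₁ (f₁ m) :=
  congrArg (fun z : (GlueDatum.unit D B).M₀₁ => xB D B ^ N • z)
    (helper1397.homRes₁_apply G (GlueDatum.unit D B) f₁ m)

/-- A twisted section of the dual datum is a morphism to `𝒪(N)`. -/
noncomputable def morOfSection (N : ℕ) (f₀ : G.M₀ →ₗ[D.A₀ B] (GlueDatum.unit D B).M₀)
    (f₁ : G.M₁ →ₗ[D.A₁ B] (GlueDatum.unit D B).M₁)
    (h : (dualDatum G).ρ₀ f₀ = xB D B ^ N • (dualDatum G).ρ₁ f₁) :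
    helper8573.Mor G (helper3115.twist (GlueDatum.unit D B) (N : ℤ)) where
  f₀ := f₀
  f₁ := f₁
  f₀₁ := helper1397.homRes₀ G (GlueDatum.unit D B) f₀
  comm₀ m := helper1397.homRes₀_apply G (GlueDatum.unit D B) f₀ m
  comm₁ m := by
    have h1 : helper1397.homRes₀ G (GlueDatum.unit D B) f₀ (G.ρ₁ m) =
        xB D B ^ N • (GlueDatum.unit D B).ρ₁ (f₁ m) :=
      (congrArg (fun g : G.M₀₁ →ₗ[D.A₀₁ B] (GlueDatum.unit D B).M₀₁ => g (G.ρ₁ m)) h).trans
        (smul_dual_ρ₁_apply G N f₁ m)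
    exact h1.trans (twist_unit_ρ₁ N (f₁ m)).symm

/-- A morphism to `𝒪(N)` is a twisted section of the dual datum. -/
theorem section_of_mor (N : ℕ)
    (τ : helper8573.Mor G (helper3115.twist (GlueDatum.unit D B) (N : ℤ))) :
    (dualDatum G).ρ₀ τ.f₀ = xB D B ^ N • (dualDatum G).ρ₁ τ.f₁ := by
  have h0 : (dualDatum G).ρ₀ τ.f₀ = τ.f₀₁ :=
    helper1397.ext_ρ₀ G (GlueDatum.unit D B) fun m =>
      (helper1397.homRes₀_apply G (GlueDatum.unit D B) τ.f₀ m).trans (τ.comm₀ m).symm
  refine h0.trans (helper1397.ext_ρ₁ G (GlueDatum.unit D B) fun m => ?_)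
  exact ((τ.comm₁ m).trans (twist_unit_ρ₁ N (τ.f₁ m))).trans (smul_dual_ρ₁_apply G N τ.f₁ m).symm

end MorAdapters

section Package

variable {k : Type u} [Field k] {D : CurveDatum k} {K : Type u} [Field K] [Algebra k K]

/-- **Field-level cover theorem, morphism form.** If `H¹(Hom(G, 𝒪)(n)) = 0` and the space of
morphisms `G → 𝒪(n + 1)` is finite-dimensional and nonzero, then there are a finite set `S` of
`k`-points of the first chart and a morphism `σ : G → 𝒪(n + 1)` vanishing on `S`, such that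
every morphism vanishing on `S` is a multiple of `σ`, and `σ` is surjective modulo `y` on the
chart at infinity. -/
theorem exists_mor_general_position [IsAlgClosed k] (G : GlueDatum D K) (n : ℕ)
    (hserre : ∀ z : (dualDatum G).M₀₁, ∃ (a : (dualDatum G).M₀) (b : (dualDatum G).M₁),
      z = (dualDatum G).ρ₀ a + xB D K ^ n • (dualDatum G).ρ₁ b)
    [FiniteDimensional K ↥(secSub (dualDatum G) (n + 1))]
    (hpos : secSub (dualDatum G) (n + 1) ≠ ⊥) :
    ∃ (S : Finset (D.R₀ →ₐ[k] k))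
      (σ : helper8573.Mor G (helper3115.twist (GlueDatum.unit D K) ((n + 1 : ℕ) : ℤ))),
      S.card + 1 = finrank K ↥(secSub (dualDatum G) (n + 1)) ∧
      (∀ Q ∈ S, ∀ m, σ.f₀ m ∈ mQ D K Q) ∧
      (∀ τ : helper8573.Mor G (helper3115.twist (GlueDatum.unit D K) ((n + 1 : ℕ) : ℤ)),
        (∀ Q ∈ S, ∀ m, τ.f₀ m ∈ mQ D K Q) →
        ∃ c : K, (∀ m, τ.f₀ m = c • σ.f₀ m) ∧ (∀ m, τ.f₁ m = c • σ.f₁ m)) ∧
      σ.SurjModY := by
  obtain ⟨S, m₀, m₁, hcard, -, hsec, hvan, huniq, hgen, -⟩ :=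
    exists_section_general_position (dualDatum G) n hserre hpos
  refine ⟨S, morOfSection G (n + 1) m₀ m₁ hsec, hcard, ?_, ?_, ?_⟩
  · intro Q hQ m
    exact forall_mem_of_mem_smul_top (mQ D K Q) m₀ (hvan Q hQ) m
  · intro τ hτ
    obtain ⟨c, h0, h1⟩ := huniq τ.f₀ τ.f₁ (section_of_mor G (n + 1) τ)
      (fun Q hQ => mem_smul_top_of_forall_mem (mQ D K Q) τ.f₀ (hτ Q hQ))
    exact ⟨c, fun m => by rw [h0]; rfl, fun m => by rw [h1]; rfl⟩
  · intro b
    exact exists_eq_apply_add_mul_of_span_sup_eq_top (yB D K) m₁ hgen b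

/-- The Serre-vanishing condition for the dual datum at level `n`, in `tw`/`secSub` form. -/
def DualSerre (G : GlueDatum D K) (n : ℕ) : Prop :=
  ∀ z : (dualDatum G).M₀₁, ∃ (a : (dualDatum G).M₀) (b : (dualDatum G).M₁),
    z = (dualDatum G).ρ₀ a + xB D K ^ n • (dualDatum G).ρ₁ b

/-- **F-side of the cover theorem, hypothesis-passing form.** Inputs: Serre vanishing and the
dimension count for the twists of the dual datum (`hS4`), and `χ(Hom(G, 𝒪)) = χ(𝒪)` (`hchi`). -/
theorem exists_fieldCoverMor_of [IsAlgClosed k] (G : GlueDatum D K)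
    (hS4 : ∃ n₀ : ℕ, ∀ n : ℕ, n₀ ≤ n → DualSerre G n ∧
      FiniteDimensional K ↥(secSub (dualDatum G) (n + 1)) ∧
      (finrank K ↥(secSub (dualDatum G) (n + 1)) : ℤ) =
        (dualDatum G).chi + ((n + 1 : ℕ) : ℤ) * (helper1153.degInf D : ℤ))
    (hchi : (dualDatum G).chi = (GlueDatum.unit D K).chi) :
    ∃ (N : ℕ) (S : Finset (D.R₀ →ₐ[k] k))
      (σ : helper8573.Mor G (helper3115.twist (GlueDatum.unit D K) (N : ℤ))),
      (S.card : ℤ) + 1 = (GlueDatum.unit D K).chi + (N : ℤ) * (helper1153.degInf D : ℤ) ∧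
      (∀ Q ∈ S, ∀ m, σ.f₀ m ∈ mQ D K Q) ∧
      (∀ τ : helper8573.Mor G (helper3115.twist (GlueDatum.unit D K) (N : ℤ)),
        (∀ Q ∈ S, ∀ m, τ.f₀ m ∈ mQ D K Q) →
        ∃ c : K, (∀ m, τ.f₀ m = c • σ.f₀ m) ∧ (∀ m, τ.f₁ m = c • σ.f₁ m)) ∧
      σ.SurjModY := by
  obtain ⟨n₀, hn₀⟩ := hS4
  obtain ⟨n, hn, hnχ⟩ : ∃ n : ℕ, n₀ ≤ n ∧ -(GlueDatum.unit D K).chi ≤ (n : ℤ) :=
    ⟨max n₀ (-(GlueDatum.unit D K).chi).toNat, le_max_left _ _,
      (Int.self_le_toNat _).trans (by exact_mod_cast le_max_right _ _)⟩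
  obtain ⟨hserre, hfd, hcount⟩ := hn₀ n hn
  rw [hchi] at hcount
  have hdeg : (1 : ℤ) ≤ (helper1153.degInf D : ℤ) := by
    exact_mod_cast helper1153.degInf_pos D
  have hposZ : (0 : ℤ) < (finrank K ↥(secSub (dualDatum G) (n + 1)) : ℤ) := by
    rw [hcount]
    have h1 : ((n + 1 : ℕ) : ℤ) ≤ ((n + 1 : ℕ) : ℤ) * (helper1153.degInf D : ℤ) :=
      le_mul_of_one_le_right (by positivity) hdeg
    push_cast at h1 ⊢
    linarith
  have hpos : secSub (dualDatum G) (n + 1) ≠ ⊥ := by
    intro h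
    rw [h, finrank_bot] at hposZ
    exact lt_irrefl _ hposZ
  obtain ⟨S, σ, hcard, hvan, hline, hsurj⟩ := exists_mor_general_position G n hserre hpos
  refine ⟨n + 1, S, σ, ?_, hvan, hline, hsurj⟩
  rw [← hcount, ← hcard]
  push_cast
  rfl

end Package

end Fermat.Agent.S25.helper2531
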