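import Fermat.Agent.S25.helper3045_HomLength

/-!
# S25, leaf LC-DEGHOM, part 3: the degree of the `Hom` datum over a field (helper3045)

Two-chart line bundles over a field `K`, in unbundled module form:
rings `A₀ → A₀₁ ← A₁` (domains, `A₀₁ = A₀[1/x] = A₁[1/y]`, `x y = 1`), triples `(M₀, M₁, M₀₁; r₀, r₁)`
of invertible modules with localization maps.

Main result `index_homCech`:
`χ(Hom(G, G')) = χ(G') - χ(G) + χ(O)`, where `χ` is the index (`dim ker - dim coker`) of the Čech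
differential.
-/

set_option autoImplicit false
set_option linter.unusedSectionVars false

open Module Function TensorProduct

namespace Fermat.Agent.S25.helper3045

section HomLoc

variable {K : Type*} [Field K]
variable {A A' : Type*} [CommRing A] [CommRing A'] [Algebra K A] [Algebra K A'] [Algebra A A']
variable (S : Submonoid A) [IsLocalization S A']
variable {M M' : Type*} [AddCommGroup M] [Module A M] [AddCommGroup M'] [Module A' M']
  [Module A M'] [IsScalarTower A A' M']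
variable (r : M →ₗ[A] M')
variable (P : Type*) [AddCommGroup P] [Module A' P] [Module A P] [IsScalarTower A A' P]
  [Module K P] [IsScalarTower K A' P] [IsScalarTower K A P]

/-- On a module over a localization `A'` of `A` at `S`, the elements of `S` act invertibly. -/
theorem isUnit_algebraMap_end_of_isLocalization {A : Type*} (A' : Type*) [CommRing A] [CommRing A']
    [Algebra A A'] (S : Submonoid A) [IsLocalization S A'] (P : Type*) [AddCommGroup P]
    [Module A' P] [Module A P] [IsScalarTower A A' P] (s : S) :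
    IsUnit (algebraMap A (Module.End A P) s) := by
  rw [Module.End.isUnit_iff]
  obtain ⟨u, hu⟩ := IsLocalization.map_units A' s
  have key : ∀ p : P, algebraMap A (Module.End A P) s p = (u : A') • p := by
    intro p
    rw [Module.algebraMap_end_apply, hu, algebraMap_smul]
  constructor
  · intro p q h
    rw [key, key] at h
    have := congrArg (fun z => (↑u⁻¹ : A') • z) h
    simpa [smul_smul] using this
  · intro p
    exact ⟨(↑u⁻¹ : A') • p, by rw [key, smul_smul, Units.mul_inv, one_smul]⟩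

variable (K A') in
/-- Restriction of an `A'`-linear map `M' → P` along the localization map `r : M → M'`. -/
def homRes : (M' →ₗ[A'] P) →ₗ[K] (M →ₗ[A] P) where
  toFun h := (h.restrictScalars A) ∘ₗ r
  map_add' _ _ := rfl
  map_smul' _ _ := rfl

variable {P} in
@[simp] theorem homRes_apply (h : M' →ₗ[A'] P) (m : M) : homRes K A' r P h m = h (r m) := rfl

variable [IsLocalizedModule S r]

include S in
theorem homRes_bijective : Bijective (homRes K A' r P) := by
  constructor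
  · intro h₁ h₂ h
    have h' : (h₁.restrictScalars A) ∘ₗ r = (h₂.restrictScalars A) ∘ₗ r := h
    have := IsLocalizedModule.ext S r (isUnit_algebraMap_end_of_isLocalization A' S P) h'
    exact LinearMap.restrictScalars_injective A this
  · intro g
    refine ⟨(IsLocalizedModule.lift S r g
      (isUnit_algebraMap_end_of_isLocalization A' S P)).extendScalarsOfIsLocalization S A', ?_⟩
    ext m
    simp

variable (K A') in
/-- Extension of an `A`-linear map `M → P` (with `P` an `A'`-module) to the localization `M'`. -/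
noncomputable def homExt : (M →ₗ[A] P) ≃ₗ[K] (M' →ₗ[A'] P) :=
  (LinearEquiv.ofBijective (homRes K A' r P) (homRes_bijective S r P)).symm

variable {P} in
@[simp] theorem homExt_apply (g : M →ₗ[A] P) (m : M) : homExt K A' S r P g (r m) = g m := by
  have h := (LinearEquiv.ofBijective (homRes K A' r P) (homRes_bijective S r P)).apply_symm_apply g
  exact LinearMap.congr_fun h m

omit [Algebra K A] [Algebra K A'] [Module K P] [IsScalarTower K A' P] [IsScalarTower K A P] in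
variable {P} in
include S in
/-- Two `A'`-linear maps out of the localization which agree on the image of `r` are equal. -/
theorem hom_ext_of_localization {h₁ h₂ : M' →ₗ[A'] P} (h : ∀ m, h₁ (r m) = h₂ (r m)) : h₁ = h₂ := by
  have h' : (h₁.restrictScalars A) ∘ₗ r = (h₂.restrictScalars A) ∘ₗ r := LinearMap.ext h
  have := IsLocalizedModule.ext S r (isUnit_algebraMap_end_of_isLocalization A' S P) h'
  exact LinearMap.restrictScalars_injective A this

end HomLoc

section HomE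

variable {K : Type*} [Field K]
variable {A A' : Type*} [CommRing A] [CommRing A'] [Algebra K A] [Algebra K A'] [Algebra A A']
variable (S : Submonoid A) [IsLocalization S A']
variable {M M' : Type*} [AddCommGroup M] [Module A M] [AddCommGroup M'] [Module A' M']
  [Module A M'] [IsScalarTower A A' M']
variable (r : M →ₗ[A] M') [IsLocalizedModule S r]
variable {T P : Type*} [AddCommGroup T] [Module A T] [Module K T] [IsScalarTower K A T]
  [AddCommGroup P] [Module A' P] [Module A P] [IsScalarTower A A' P]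
  [Module K P] [IsScalarTower K A' P] [IsScalarTower K A P]
variable {T₂ P₂ : Type*} [AddCommGroup T₂] [Module A T₂] [Module K T₂] [IsScalarTower K A T₂]
  [AddCommGroup P₂] [Module A' P₂] [Module A P₂] [IsScalarTower A A' P₂]
  [Module K P₂] [IsScalarTower K A' P₂] [IsScalarTower K A P₂]

variable (K A') in
/-- One chart of the `Hom` datum: `f : M → T` is sent to the `A'`-linear extension
`M' → P` of `t ∘ f`, where `t : T → P` is the restriction map of the target datum. -/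
noncomputable def homE (t : T →ₗ[A] P) : (M →ₗ[A] T) →ₗ[K] (M' →ₗ[A'] P) :=
  (homExt K A' S r P).toLinearMap ∘ₗ postcomp K M t

@[simp] theorem homE_apply (t : T →ₗ[A] P) (f : M →ₗ[A] T) (m : M) :
    homE K A' S r t f (r m) = t (f m) := by
  simp [homE]

/-- The chart map of the `Hom` datum is determined by its characteristic property. -/
theorem homE_unique (t : T →ₗ[A] P) (E : (M →ₗ[A] T) →ₗ[K] (M' →ₗ[A'] P))
    (hE : ∀ f m, E f (r m) = t (f m)) : E = homE K A' S r t := by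
  ext f : 1
  exact hom_ext_of_localization S r fun m => by rw [hE, homE_apply]

/-- Naturality of the chart map of the `Hom` datum in the target. -/
theorem homE_square (t : T →ₗ[A] P) (t₂ : T₂ →ₗ[A] P₂) (σ : T →ₗ[A] T₂) (τ : P →ₗ[A'] P₂)
    (h : ∀ v, τ (t v) = t₂ (σ v)) :
    postcomp K M' τ ∘ₗ homE K A' S r t = homE K A' S r t₂ ∘ₗ postcomp K M σ := by
  ext f : 1
  exact hom_ext_of_localization S r fun m => by
    simp [h]

end HomE

section SmulId

variable (K : Type*) [Field K] (A : Type*) [CommRing A] [Algebra K A]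
variable (M : Type*) [AddCommGroup M] [Module A M] [Module K M] [IsScalarTower K A M]

/-- `a ↦ a • id`, as a `K`-linear map `A → End_A(M)`. -/
def smulId : A →ₗ[K] (M →ₗ[A] M) where
  toFun a := a • LinearMap.id
  map_add' a b := add_smul a b _
  map_smul' c a := by
    ext m
    simp

variable {A M} in
@[simp] theorem smulId_apply (a : A) (m : M) : smulId K A M a m = a • m := rfl

theorem smulId_bijective [Module.Invertible A M] : Bijective (smulId K A M) := by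
  have h := Module.Invertible.toModuleEnd_bijective A M
  have e : (smulId K A M : A → (M →ₗ[A] M)) = Module.toModuleEnd A (S := A) M := by
    funext a
    ext m
    rfl
  rw [e]
  exact h

end SmulId

section LiftLoc

variable {A : Type*} [CommRing A] (y : A)
variable {N M M' : Type*} [AddCommGroup N] [Module A N] [Module.Finite A N] [Module.Projective A N]
  [AddCommGroup M] [Module A M] [AddCommGroup M'] [Module A M']
variable (r : M →ₗ[A] M') [IsLocalizedModule (Submonoid.powers y) r]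

/-- A linear map from a finite projective module into a localization `M' = M[1/y]` becomes, after
multiplication by a power of `y`, the image of a linear map into `M`. -/
theorem exists_lift_of_localization (g : N →ₗ[A] M') :
    ∃ (m : ℕ) (f : N →ₗ[A] M), ∀ v, r (f v) = y ^ m • g v := by
  classical
  obtain ⟨n, p, i, -, -, hpi⟩ := Module.Finite.exists_comp_eq_id_of_projective A N
  -- `p : (Fin n → A) → N`, `i : N → (Fin n → A)`, `p ∘ i = id`
  have hz : ∀ j : Fin n, ∃ (k : ℕ) (w : M), y ^ k • g (p (Pi.single j 1)) = r w := by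
    intro j
    obtain ⟨⟨w, s⟩, hs⟩ := IsLocalizedModule.surj (Submonoid.powers y) r (g (p (Pi.single j 1)))
    obtain ⟨k, hk⟩ := (Submonoid.mem_powers_iff _ _).mp s.2
    refine ⟨k, w, ?_⟩
    rw [hk]
    exact hs
  choose k w hkw using hz
  let m : ℕ := ∑ j, k j
  have hk_le : ∀ j, k j ≤ m := fun j => Finset.single_le_sum (fun _ _ => Nat.zero_le _)
    (Finset.mem_univ j)
  let w' : Fin n → M := fun j => y ^ (m - k j) • w j
  have hw' : ∀ j, r (w' j) = y ^ m • g (p (Pi.single j 1)) := by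
    intro j
    simp only [w', map_smul]
    rw [← hkw j, smul_smul, ← pow_add, Nat.sub_add_cancel (hk_le j)]
  let h : (Fin n → A) →ₗ[A] M := Fintype.linearCombination A w'
  refine ⟨m, h ∘ₗ i, fun v => ?_⟩
  have hv : v = p (i v) := (LinearMap.congr_fun hpi v).symm
  have hsum : p (i v) = ∑ j, i v j • p (Pi.single j 1) := by
    rw [LinearMap.pi_apply_eq_sum_univ p (i v)]
    refine Finset.sum_congr rfl fun j _ => ?_
    congr 2
    funext j'
    simp [Pi.single_apply, eq_comm]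
  calc r ((h ∘ₗ i) v) = ∑ j, i v j • r (w' j) := by
        simp [h, Fintype.linearCombination_apply, map_sum]
    _ = ∑ j, i v j • (y ^ m • g (p (Pi.single j 1))) := by simp only [hw']
    _ = y ^ m • g (∑ j, i v j • p (Pi.single j 1)) := by
        simp only [map_sum, map_smul, Finset.smul_sum]
        refine Finset.sum_congr rfl fun j _ => ?_
        rw [smul_comm]
    _ = y ^ m • g v := by rw [← hsum, ← hv]

end LiftLoc

section TwoChart

variable {K : Type*} [Field K]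
variable {A₀ A₁ A₀₁ : Type*} [CommRing A₀] [CommRing A₁] [CommRing A₀₁]
  [Algebra K A₀] [Algebra K A₁] [Algebra K A₀₁] [Algebra A₀ A₀₁] [Algebra A₁ A₀₁]
variable (x : A₀) (y : A₁) [IsLocalization.Away x A₀₁] [IsLocalization.Away y A₀₁]
variable {M₀ M₁ M₀₁ : Type*} [AddCommGroup M₀] [Module A₀ M₀] [AddCommGroup M₁] [Module A₁ M₁]
  [AddCommGroup M₀₁] [Module A₀₁ M₀₁] [Module A₀ M₀₁] [Module A₁ M₀₁]
  [IsScalarTower A₀ A₀₁ M₀₁] [IsScalarTower A₁ A₀₁ M₀₁]
variable (r₀ : M₀ →ₗ[A₀] M₀₁) (r₁ : M₁ →ₗ[A₁] M₀₁)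
  [IsLocalizedModule (Submonoid.powers x) r₀] [IsLocalizedModule (Submonoid.powers y) r₁]
variable {T₀ T₁ T₀₁ : Type*} [AddCommGroup T₀] [Module A₀ T₀] [Module K T₀] [IsScalarTower K A₀ T₀]
  [AddCommGroup T₁] [Module A₁ T₁] [Module K T₁] [IsScalarTower K A₁ T₁]
  [AddCommGroup T₀₁] [Module A₀₁ T₀₁] [Module A₀ T₀₁] [Module A₁ T₀₁] [Module K T₀₁]
  [IsScalarTower A₀ A₀₁ T₀₁] [IsScalarTower A₁ A₀₁ T₀₁]
  [IsScalarTower K A₀₁ T₀₁] [IsScalarTower K A₀ T₀₁] [IsScalarTower K A₁ T₀₁]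
variable {U₀ U₁ U₀₁ : Type*} [AddCommGroup U₀] [Module A₀ U₀] [Module K U₀] [IsScalarTower K A₀ U₀]
  [AddCommGroup U₁] [Module A₁ U₁] [Module K U₁] [IsScalarTower K A₁ U₁]
  [AddCommGroup U₀₁] [Module A₀₁ U₀₁] [Module A₀ U₀₁] [Module A₁ U₀₁] [Module K U₀₁]
  [IsScalarTower A₀ A₀₁ U₀₁] [IsScalarTower A₁ A₀₁ U₀₁]
  [IsScalarTower K A₀₁ U₀₁] [IsScalarTower K A₀ U₀₁] [IsScalarTower K A₁ U₀₁]

variable (K) in
/-- The `K`-linear Čech differential `T₀ × T₁ → T₀₁` of a two-chart datum `(T₀, T₁, T₀₁; t₀, t₁)`. -/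
def cechK (t₀ : T₀ →ₗ[A₀] T₀₁) (t₁ : T₁ →ₗ[A₁] T₀₁) : T₀ × T₁ →ₗ[K] T₀₁ :=
  cech (t₀.restrictScalars K) (t₁.restrictScalars K)

variable (K A₀₁) in
/-- The Čech differential of the `Hom` datum from `(M₀, M₁, M₀₁; r₀, r₁)` to
`(T₀, T₁, T₀₁; t₀, t₁)`:
`Hom(M₀, T₀) × Hom(M₁, T₁) → Hom(M₀₁, T₀₁)`, `(f₀, f₁) ↦ ext(t₀ ∘ f₀) - ext(t₁ ∘ f₁)`. -/
noncomputable def homCech (t₀ : T₀ →ₗ[A₀] T₀₁) (t₁ : T₁ →ₗ[A₁] T₀₁) :
    (M₀ →ₗ[A₀] T₀) × (M₁ →ₗ[A₁] T₁) →ₗ[K] (M₀₁ →ₗ[A₀₁] T₀₁) :=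
  cech (homE K A₀₁ (Submonoid.powers x) r₀ t₀) (homE K A₀₁ (Submonoid.powers y) r₁ t₁)

section Modification

variable [Module.Invertible A₀ M₀] [Module.Invertible A₁ M₁]
variable {t₀ : T₀ →ₗ[A₀] T₀₁} {t₁ : T₁ →ₗ[A₁] T₀₁} {u₀ : U₀ →ₗ[A₀] U₀₁} {u₁ : U₁ →ₗ[A₁] U₀₁}
  {σ₀ : T₀ →ₗ[A₀] U₀} {σ₁ : T₁ →ₗ[A₁] U₁} {σ₀₁ : T₀₁ →ₗ[A₀₁] U₀₁}

omit [IsLocalization.Away x A₀₁] [IsLocalization.Away y A₀₁] in
/-- Fredholmness of the Čech differential is invariant under modifications. -/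
theorem cechK_isFred_iff (h₀ : ∀ v, σ₀₁ (t₀ v) = u₀ (σ₀ v)) (h₁ : ∀ v, σ₀₁ (t₁ v) = u₁ (σ₁ v))
    (hσ₀ : Injective σ₀) (hσ₁ : Injective σ₁) (hσ₀₁ : Injective σ₀₁)
    [Module.Finite K (U₀ ⧸ LinearMap.range σ₀)] [Module.Finite K (U₁ ⧸ LinearMap.range σ₁)]
    [Module.Finite K (U₀₁ ⧸ LinearMap.range σ₀₁)] :
    IsFred (cechK K t₀ t₁) ↔ IsFred (cechK K u₀ u₁) := by
  have := finite_coker_restrictScalars (K := K) σ₀
  have := finite_coker_restrictScalars (K := K) σ₁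
  have := finite_coker_restrictScalars (K := K) σ₀₁
  exact cech_isFred_iff (s₀ := σ₀.restrictScalars K) (s₁ := σ₁.restrictScalars K)
    (s := σ₀₁.restrictScalars K) (LinearMap.ext h₀) (LinearMap.ext h₁) hσ₀ hσ₁ hσ₀₁

omit [IsLocalization.Away x A₀₁] [IsLocalization.Away y A₀₁] in
/-- The index of the Čech differential under a modification. -/
theorem cechK_index (h₀ : ∀ v, σ₀₁ (t₀ v) = u₀ (σ₀ v)) (h₁ : ∀ v, σ₀₁ (t₁ v) = u₁ (σ₁ v))
    (hσ₀ : Injective σ₀) (hσ₁ : Injective σ₁) (hσ₀₁ : Injective σ₀₁)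
    [Module.Finite K (U₀ ⧸ LinearMap.range σ₀)] [Module.Finite K (U₁ ⧸ LinearMap.range σ₁)]
    [Module.Finite K (U₀₁ ⧸ LinearMap.range σ₀₁)] (h1 : IsFred (cechK K t₀ t₁)) :
    (cechK K u₀ u₁).index = (cechK K t₀ t₁).index + finrank K (U₀ ⧸ LinearMap.range σ₀)
      + finrank K (U₁ ⧸ LinearMap.range σ₁) - finrank K (U₀₁ ⧸ LinearMap.range σ₀₁) := by
  have := finite_coker_restrictScalars (K := K) σ₀
  have := finite_coker_restrictScalars (K := K) σ₁
  have := finite_coker_restrictScalars (K := K) σ₀₁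
  have := cech_index (s₀ := σ₀.restrictScalars K) (s₁ := σ₁.restrictScalars K)
    (s := σ₀₁.restrictScalars K) (t₀' := u₀.restrictScalars K) (t₁' := u₁.restrictScalars K)
    (LinearMap.ext h₀) (LinearMap.ext h₁) hσ₀ hσ₁ hσ₀₁ h1
  rw [finrank_coker_restrictScalars, finrank_coker_restrictScalars,
    finrank_coker_restrictScalars] at this
  exact this

/-- Fredholmness of the Čech differential of the `Hom` datum is invariant under modifications of
the target. -/
theorem homCech_isFred_iff (h₀ : ∀ v, σ₀₁ (t₀ v) = u₀ (σ₀ v)) (h₁ : ∀ v, σ₀₁ (t₁ v) = u₁ (σ₁ v))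
    (hσ₀ : Injective σ₀) (hσ₁ : Injective σ₁) (hσ₀₁ : Injective σ₀₁)
    [Module.Finite K (U₀ ⧸ LinearMap.range σ₀)] [Module.Finite K (U₁ ⧸ LinearMap.range σ₁)]
    [Module.Finite K (U₀₁ ⧸ LinearMap.range σ₀₁)] :
    IsFred (homCech K A₀₁ x y r₀ r₁ t₀ t₁) ↔ IsFred (homCech K A₀₁ x y r₀ r₁ u₀ u₁) := by
  have inv01 : Module.Invertible A₀₁ M₀₁ :=
    Module.Invertible.of_isLocalization (Submonoid.powers x) r₀
  have := finite_coker_postcomp (K := K) M₀ hσ₀
  have := finite_coker_postcomp (K := K) M₁ hσ₁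
  have := finite_coker_postcomp (K := K) M₀₁ hσ₀₁
  exact cech_isFred_iff (s₀ := postcomp K M₀ σ₀) (s₁ := postcomp K M₁ σ₁)
    (s := postcomp K M₀₁ σ₀₁)
    (homE_square (Submonoid.powers x) r₀ t₀ u₀ σ₀ σ₀₁ h₀)
    (homE_square (Submonoid.powers y) r₁ t₁ u₁ σ₁ σ₀₁ h₁)
    (postcomp_injective M₀ hσ₀) (postcomp_injective M₁ hσ₁) (postcomp_injective M₀₁ hσ₀₁)

/-- The index of the Čech differential of the `Hom` datum under a modification of the target:
it changes by the same amount as the index of the Čech differential of the target itself. -/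
theorem homCech_index (h₀ : ∀ v, σ₀₁ (t₀ v) = u₀ (σ₀ v)) (h₁ : ∀ v, σ₀₁ (t₁ v) = u₁ (σ₁ v))
    (hσ₀ : Injective σ₀) (hσ₁ : Injective σ₁) (hσ₀₁ : Injective σ₀₁)
    [Module.Finite K (U₀ ⧸ LinearMap.range σ₀)] [Module.Finite K (U₁ ⧸ LinearMap.range σ₁)]
    [Module.Finite K (U₀₁ ⧸ LinearMap.range σ₀₁)] (h1 : IsFred (homCech K A₀₁ x y r₀ r₁ t₀ t₁)) :
    (homCech K A₀₁ x y r₀ r₁ u₀ u₁).index = (homCech K A₀₁ x y r₀ r₁ t₀ t₁).index
      + finrank K (U₀ ⧸ LinearMap.range σ₀) + finrank K (U₁ ⧸ LinearMap.range σ₁)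
      - finrank K (U₀₁ ⧸ LinearMap.range σ₀₁) := by
  have inv01 : Module.Invertible A₀₁ M₀₁ :=
    Module.Invertible.of_isLocalization (Submonoid.powers x) r₀
  have := finite_coker_postcomp (K := K) M₀ hσ₀
  have := finite_coker_postcomp (K := K) M₁ hσ₁
  have := finite_coker_postcomp (K := K) M₀₁ hσ₀₁
  have := cech_index (s₀ := postcomp K M₀ σ₀) (s₁ := postcomp K M₁ σ₁)
    (s := postcomp K M₀₁ σ₀₁)
    (homE_square (Submonoid.powers x) r₀ t₀ u₀ σ₀ σ₀₁ h₀)
    (homE_square (Submonoid.powers y) r₁ t₁ u₁ σ₁ σ₀₁ h₁)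
    (postcomp_injective M₀ hσ₀) (postcomp_injective M₁ hσ₁) (postcomp_injective M₀₁ hσ₀₁) h1
  rw [finrank_coker_postcomp M₀ hσ₀, finrank_coker_postcomp M₁ hσ₁,
    finrank_coker_postcomp M₀₁ hσ₀₁] at this
  exact this

/-- **Modification invariance**: `χ(Hom(G, T)) - χ(T)` does not change when the target `T` is
replaced by a modification `U` (a morphism `T → U` injective with finite-dimensional cokernels in
all three charts). -/
theorem homCech_index_sub (h₀ : ∀ v, σ₀₁ (t₀ v) = u₀ (σ₀ v)) (h₁ : ∀ v, σ₀₁ (t₁ v) = u₁ (σ₁ v))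
    (hσ₀ : Injective σ₀) (hσ₁ : Injective σ₁) (hσ₀₁ : Injective σ₀₁)
    [Module.Finite K (U₀ ⧸ LinearMap.range σ₀)] [Module.Finite K (U₁ ⧸ LinearMap.range σ₁)]
    [Module.Finite K (U₀₁ ⧸ LinearMap.range σ₀₁)] (h1 : IsFred (homCech K A₀₁ x y r₀ r₁ t₀ t₁))
    (h2 : IsFred (cechK K t₀ t₁)) :
    (homCech K A₀₁ x y r₀ r₁ u₀ u₁).index - (cechK K u₀ u₁).index =
      (homCech K A₀₁ x y r₀ r₁ t₀ t₁).index - (cechK K t₀ t₁).index := by
  have e1 := homCech_index x y r₀ r₁ h₀ h₁ hσ₀ hσ₁ hσ₀₁ h1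
  have e2 := cechK_index h₀ h₁ hσ₀ hσ₁ hσ₀₁ h2
  omega

end Modification

section Self

variable [Module K M₀] [IsScalarTower K A₀ M₀] [Module K M₁] [IsScalarTower K A₁ M₁]
  [Module K M₀₁] [IsScalarTower K A₀₁ M₀₁] [IsScalarTower K A₀ M₀₁] [IsScalarTower K A₁ M₀₁]
  [IsScalarTower K A₀ A₀₁] [IsScalarTower K A₁ A₀₁]
  [Module.Invertible A₀ M₀] [Module.Invertible A₁ M₁]

variable (K A₀ A₁ A₀₁) in
/-- The Čech differential `A₀ × A₁ → A₀₁` of the structure sheaf. -/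
def cechO : A₀ × A₁ →ₗ[K] A₀₁ :=
  cechK K (Algebra.linearMap A₀ A₀₁) (Algebra.linearMap A₁ A₀₁)

theorem homCech_self_square :
    smulId K A₀₁ M₀₁ ∘ₗ cechO K A₀ A₁ A₀₁ =
      homCech K A₀₁ x y r₀ r₁ r₀ r₁ ∘ₗ (smulId K A₀ M₀).prodMap (smulId K A₁ M₁) := by
  refine cech_square ?_ ?_
  · ext a : 1
    refine hom_ext_of_localization (Submonoid.powers x) r₀ fun m => ?_
    simp
  · ext a : 1
    refine hom_ext_of_localization (Submonoid.powers y) r₁ fun m => ?_
    simp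

theorem prodMap_smulId_bijective :
    Bijective ((smulId K A₀ M₀).prodMap (smulId K A₁ M₁)) := by
  have b₀ := smulId_bijective K A₀ M₀
  have b₁ := smulId_bijective K A₁ M₁
  constructor
  · exact prodMap_injective' b₀.1 b₁.1
  · rintro ⟨f, g⟩
    obtain ⟨a, rfl⟩ := b₀.2 f
    obtain ⟨b, rfl⟩ := b₁.2 g
    exact ⟨(a, b), rfl⟩

/-- `Hom(G, G) = O`: Fredholmness. -/
theorem homCech_self_isFred_iff :
    IsFred (cechO K A₀ A₁ A₀₁) ↔ IsFred (homCech K A₀₁ x y r₀ r₁ r₀ r₁) := by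
  have inv01 : Module.Invertible A₀₁ M₀₁ :=
    Module.Invertible.of_isLocalization (Submonoid.powers x) r₀
  exact isFred_iff_of_iso_square (homCech_self_square x y r₀ r₁) prodMap_smulId_bijective
    (smulId_bijective K A₀₁ M₀₁)

/-- `Hom(G, G) = O`: the index. -/
theorem homCech_self_index (h : IsFred (cechO K A₀ A₁ A₀₁)) :
    (homCech K A₀₁ x y r₀ r₁ r₀ r₁).index = (cechO K A₀ A₁ A₀₁).index := by
  have inv01 : Module.Invertible A₀₁ M₀₁ :=
    Module.Invertible.of_isLocalization (Submonoid.powers x) r₀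
  exact index_eq_of_iso_square (homCech_self_square x y r₀ r₁) prodMap_smulId_bijective
    (smulId_bijective K A₀₁ M₀₁) h

end Self

section Main

variable [Module K M₀] [IsScalarTower K A₀ M₀] [Module K M₁] [IsScalarTower K A₁ M₁]
  [Module K M₀₁] [IsScalarTower K A₀₁ M₀₁] [IsScalarTower K A₀ M₀₁] [IsScalarTower K A₁ M₀₁]
  [IsScalarTower K A₀ A₀₁] [IsScalarTower K A₁ A₀₁]
  [Module.Invertible A₀ M₀] [Module.Invertible A₁ M₁]
variable (t₀ : T₀ →ₗ[A₀] T₀₁) (t₁ : T₁ →ₗ[A₁] T₀₁)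
  [IsLocalizedModule (Submonoid.powers x) t₀] [IsLocalizedModule (Submonoid.powers y) t₁]
  [Module.Invertible A₀ T₀] [Module.Invertible A₁ T₁]
variable [IsDomain A₀] [IsDomain A₁] [IsDomain A₀₁]

include K in
/-- **The bridge.** For two invertible two-chart data `G = (M; r)` and `G' = (T; t)` over domains
there is a morphism `G' → G(m)` into a twist of `G` which is injective in all three charts. -/
theorem exists_bridge (hxy : algebraMap A₀ A₀₁ x * algebraMap A₁ A₀₁ y = 1) :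
    ∃ (m : ℕ) (f₀ : T₀ →ₗ[A₀] M₀) (f₁ : T₁ →ₗ[A₁] M₁) (f₀₁ : T₀₁ →ₗ[A₀₁] M₀₁),
      Injective f₀ ∧ Injective f₁ ∧ Injective f₀₁ ∧ (∀ v, f₀₁ (t₀ v) = r₀ (f₀ v)) ∧
      (∀ v, f₀₁ (t₁ v) = ((algebraMap A₀ A₀₁ x) ^ m • r₁) (f₁ v)) := by
  have hx0 : x ≠ 0 := by
    rintro rfl
    simp at hxy
  have inv01M : Module.Invertible A₀₁ M₀₁ :=
    Module.Invertible.of_isLocalization (Submonoid.powers x) r₀
  have inv01T : Module.Invertible A₀₁ T₀₁ :=
    Module.Invertible.of_isLocalization (Submonoid.powers x) t₀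
  have hr₀ : Injective r₀ := injective_of_isLocalizedModule_powers x hx0 r₀
  obtain ⟨f₀, hf₀⟩ := exists_hom_ne_zero (A := A₀) (M₁ := T₀) (M₂ := M₀)
  let f₀₁ : T₀₁ →ₗ[A₀₁] M₀₁ := homExt K A₀₁ (Submonoid.powers x) t₀ M₀₁ (r₀ ∘ₗ f₀)
  have h₀ : ∀ v, f₀₁ (t₀ v) = r₀ (f₀ v) := fun v => by simp [f₀₁]
  obtain ⟨m, f₁, hf₁⟩ := exists_lift_of_localization y r₁ ((f₀₁.restrictScalars A₁) ∘ₗ t₁)
  have h₁ : ∀ v, f₀₁ (t₁ v) = ((algebraMap A₀ A₀₁ x) ^ m • r₁) (f₁ v) := by
    intro v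
    have h := hf₁ v
    simp only [LinearMap.comp_apply, LinearMap.restrictScalars_apply] at h
    rw [LinearMap.smul_apply, h, ← algebraMap_smul A₀₁ (y ^ m), smul_smul, map_pow, ← mul_pow,
      hxy, one_pow, one_smul]
  have hf₀₁ne : f₀₁ ≠ 0 := by
    intro h0
    apply hf₀
    ext v
    apply hr₀
    rw [← h₀, h0]
    simp
  have hf₁ne : f₁ ≠ 0 := by
    intro h0
    apply hf₀₁ne
    refine hom_ext_of_localization (Submonoid.powers y) t₁ fun v => ?_
    rw [h₁, h0]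
    simp
  exact ⟨m, f₀, f₁, f₀₁, injective_of_ne_zero hf₀, injective_of_ne_zero hf₁ne,
    injective_of_ne_zero hf₀₁ne, h₀, h₁⟩

omit [IsDomain A₀] [IsDomain A₁] [IsDomain A₀₁] in
/-- The cokernel of a surjective linear map is finite-dimensional (it is zero). -/
theorem finite_coker_of_surjective {A : Type*} [CommRing A] [Algebra K A] {P₁ P₂ : Type*}
    [AddCommGroup P₁] [Module A P₁] [AddCommGroup P₂] [Module A P₂] [Module K P₂]
    [IsScalarTower K A P₂] {j : P₁ →ₗ[A] P₂} (hj : Surjective j) :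
    Module.Finite K (P₂ ⧸ LinearMap.range j) := by
  have : Subsingleton (P₂ ⧸ LinearMap.range j) := by
    refine subsingleton_of_forall_eq 0 fun q => ?_
    obtain ⟨v, rfl⟩ := Submodule.mkQ_surjective _ q
    rw [Submodule.mkQ_apply, Submodule.Quotient.mk_eq_zero]
    exact hj v
  infer_instance

/-- **Degree of the `Hom` datum over a field** (canonical form).
For invertible two-chart data `G = (M₀, M₁, M₀₁; r₀, r₁)` and `G' = (T₀, T₁, T₀₁; t₀, t₁)` over
domains `A₀ → A₀₁ ← A₁` (`A₀₁ = A₀[1/x] = A₁[1/y]`, `x y = 1`) whose proper principal quotients are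
finite-dimensional over the field `K`:
`χ(Hom(G, G')) = χ(G') - χ(G) + χ(O)`,
and the `Hom` complex has finite-dimensional cohomology. -/
theorem index_homCech (hxy : algebraMap A₀ A₀₁ x * algebraMap A₁ A₀₁ y = 1)
    (hA₀ : ∀ a : A₀, a ≠ 0 → Module.Finite K (A₀ ⧸ Ideal.span {a}))
    (hA₁ : ∀ a : A₁, a ≠ 0 → Module.Finite K (A₁ ⧸ Ideal.span {a}))
    (hG : IsFred (cechK K r₀ r₁)) (hG' : IsFred (cechK K t₀ t₁))
    (hO : IsFred (cechO K A₀ A₁ A₀₁)) :
    IsFred (homCech K A₀₁ x y r₀ r₁ t₀ t₁) ∧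
      (homCech K A₀₁ x y r₀ r₁ t₀ t₁).index =
        (cechK K t₀ t₁).index - (cechK K r₀ r₁).index + (cechO K A₀ A₁ A₀₁).index := by
  have hy0 : y ≠ 0 := by
    rintro rfl
    simp at hxy
  obtain ⟨m, f₀, f₁, f₀₁, hf₀, hf₁, hf₀₁, h₀, h₁⟩ := exists_bridge (K := K) x y r₀ r₁ t₀ t₁ hxy
  -- the cokernels of the bridge are finite-dimensional
  have c₀ : Module.Finite K (M₀ ⧸ LinearMap.range f₀) := finite_coker_of_injective hA₀ hf₀
  have c₁ : Module.Finite K (M₁ ⧸ LinearMap.range f₁) := finite_coker_of_injective hA₁ hf₁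
  have c₀₁ : Module.Finite K (M₀₁ ⧸ LinearMap.range f₀₁) :=
    finite_coker_of_localization x t₀ r₀ f₀ f₀₁ h₀
  -- the morphism `G → G(m)`
  let τ₁ : M₁ →ₗ[A₁] M₁ := LinearMap.lsmul A₁ M₁ (y ^ m)
  have hτ₁ : Injective τ₁ := smul_right_injective M₁ (pow_ne_zero m hy0)
  have k₀ : ∀ v, (LinearMap.id : M₀₁ →ₗ[A₀₁] M₀₁) (r₀ v) =
      r₀ ((LinearMap.id : M₀ →ₗ[A₀] M₀) v) := fun v => rfl
  have k₁ : ∀ v, (LinearMap.id : M₀₁ →ₗ[A₀₁] M₀₁) (r₁ v) =
      ((algebraMap A₀ A₀₁ x) ^ m • r₁) (τ₁ v) := by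
    intro v
    simp only [LinearMap.id_apply, LinearMap.smul_apply, τ₁, LinearMap.lsmul_apply, map_smul]
    rw [← algebraMap_smul A₀₁ (y ^ m), smul_smul, map_pow, ← mul_pow,
      mul_comm (algebraMap A₁ A₀₁ y), hxy, one_pow, one_smul]
  have d₀ : Module.Finite K (M₀ ⧸ LinearMap.range (LinearMap.id : M₀ →ₗ[A₀] M₀)) :=
    finite_coker_of_surjective surjective_id
  have d₁ : Module.Finite K (M₁ ⧸ LinearMap.range τ₁) := finite_coker_of_injective hA₁ hτ₁
  have d₀₁ : Module.Finite K (M₀₁ ⧸ LinearMap.range (LinearMap.id : M₀₁ →ₗ[A₀₁] M₀₁)) :=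
    finite_coker_of_surjective surjective_id
  -- Fredholmness
  have F1 : IsFred (homCech K A₀₁ x y r₀ r₁ r₀ r₁) := (homCech_self_isFred_iff x y r₀ r₁).mp hO
  have F2 : IsFred (homCech K A₀₁ x y r₀ r₁ r₀ ((algebraMap A₀ A₀₁ x) ^ m • r₁)) :=
    (homCech_isFred_iff x y r₀ r₁ k₀ k₁ injective_id hτ₁ injective_id).mp F1
  have F3 : IsFred (homCech K A₀₁ x y r₀ r₁ t₀ t₁) :=
    (homCech_isFred_iff x y r₀ r₁ h₀ h₁ hf₀ hf₁ hf₀₁).mpr F2
  have e1 := homCech_index_sub x y r₀ r₁ h₀ h₁ hf₀ hf₁ hf₀₁ F3 hG'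
  have e2 := homCech_index_sub x y r₀ r₁ k₀ k₁ injective_id hτ₁ injective_id F1 hG
  have e3 := homCech_self_index x y r₀ r₁ hO
  exact ⟨F3, by omega⟩

/-- **Degree of the `Hom` datum over a field** (def-agnostic form): the same statement for ANY
`K`-linear chart maps `E₀ : Hom(M₀, T₀) → Hom(M₀₁, T₀₁)`, `E₁ : Hom(M₁, T₁) → Hom(M₀₁, T₀₁)` with
the characteristic property `(Eᵢ f)(rᵢ m) = tᵢ (f m)`. -/
theorem index_hom (hxy : algebraMap A₀ A₀₁ x * algebraMap A₁ A₀₁ y = 1)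
    (hA₀ : ∀ a : A₀, a ≠ 0 → Module.Finite K (A₀ ⧸ Ideal.span {a}))
    (hA₁ : ∀ a : A₁, a ≠ 0 → Module.Finite K (A₁ ⧸ Ideal.span {a}))
    (E₀ : (M₀ →ₗ[A₀] T₀) →ₗ[K] (M₀₁ →ₗ[A₀₁] T₀₁)) (E₁ : (M₁ →ₗ[A₁] T₁) →ₗ[K] (M₀₁ →ₗ[A₀₁] T₀₁))
    (hE₀ : ∀ f m, E₀ f (r₀ m) = t₀ (f m)) (hE₁ : ∀ f m, E₁ f (r₁ m) = t₁ (f m))
    (hG : IsFred (cechK K r₀ r₁)) (hG' : IsFred (cechK K t₀ t₁))
    (hO : IsFred (cechO K A₀ A₁ A₀₁)) :
    IsFred (cech E₀ E₁) ∧
      (cech E₀ E₁).index =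
        (cechK K t₀ t₁).index - (cechK K r₀ r₁).index + (cechO K A₀ A₁ A₀₁).index := by
  have h0 := homE_unique (Submonoid.powers x) r₀ t₀ E₀ hE₀
  have h1 := homE_unique (Submonoid.powers y) r₁ t₁ E₁ hE₁
  subst h0 h1
  exact index_homCech x y r₀ r₁ t₀ t₁ hxy hA₀ hA₁ hG hG' hO

end Main

end TwoChart

end Fermat.Agent.S25.helper3045
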