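import Fermat.Agent.S25.helper8573_LCSpec
import Fermat.Agent.S25.helper3115_TwistGlue
import Fermat.Agent.S25.helper2531_FieldCover

/-!
# S25, root `Stmt_CoverAC` (leaf U5b): the contract between the field side and the `N`-side
(helper5035; captain's ruling R10)

`Stmt_FieldCoverMor` is the ONE interface between

* the FIELD side (general position over an algebraically closed field `K ⊇ k`): for a rigidified
  degree-zero two-chart line bundle `G` over `K` there are `n`, a finite set `S` of DISTINCT
  `k`-rational points of the first chart and a morphism `σ : G → 𝒪_K(n · D∞)` vanishing at the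
  points of `S`, which spans the space of all such morphisms and is an isomorphism along `V(y)`,
  with `|S| + 1 = χ(𝒪_K) + n · deg D∞`;
* the `N`-side: the base bundles `N(n, S) := 𝒪(n · D∞ − S)` over `k`, the factorisation of `σ`
  through `N(n, S)_K`, and the final theorem `Stmt_FieldCoverMor → helper8573.Stmt_CoverAC`.

Only the definition lives in this part of the file; nobody changes it.
-/

set_option autoImplicit false

namespace Fermat.Agent.S25.helper5035

open Fermat.Agent.S25.helper1705 Fermat.Agent.S25.helper2945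

universe u

/-- FIELD-COVER (contract of ruling R10). Over an algebraically closed field `K ⊇ k`, every
rigidified degree-zero two-chart line bundle `G` admits `n : ℕ`, a finite set `S` of `k`-points
of the first chart and a morphism `σ : G → 𝒪_K(n · D∞)` such that
* `|S| + 1 = χ(𝒪_K) + n · deg D∞`;
* `σ` vanishes at every point of `S` (its chart-0 component lands in the point ideal `mQ`);
* every morphism `τ : G → 𝒪_K(n · D∞)` vanishing at every point of `S` is a `K`-multiple of `σ`;
* `σ` is surjective modulo `y` on the chart at infinity (`helper8573.Mor.SurjModY`, which unfolds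
  to `∀ b : D.A₁ K, ∃ (m : G.M₁) (b' : D.A₁ K), b = σ.f₁ m + yB D K • b'`). -/
def Stmt_FieldCoverMor : Prop :=
  ∀ (k : Type u) [Field k] [IsAlgClosed k] (D : CurveDatum k)
    (K : Type u) [Field K] [Algebra k K] [IsAlgClosed K] (G : GlueDatum D K),
    G.IsRig → G.DegZero →
    ∃ (n : ℕ) (S : Finset (D.R₀ →ₐ[k] k))
      (σ : helper8573.Mor G (helper3115.twist (GlueDatum.unit D K) (n : ℤ))),
      ((S.card : ℤ) + 1 = (GlueDatum.unit D K).chi + (n : ℤ) * (helper1153.degInf D : ℤ)) ∧
      (∀ Q ∈ S, ∀ m : G.M₀, (σ.f₀ m : D.A₀ K) ∈ helper2531.mQ D K Q) ∧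
      (∀ τ : helper8573.Mor G (helper3115.twist (GlueDatum.unit D K) (n : ℤ)),
        (∀ Q ∈ S, ∀ m : G.M₀, (τ.f₀ m : D.A₀ K) ∈ helper2531.mQ D K Q) →
        ∃ c : K, (∀ m : G.M₀, τ.f₀ m = c • σ.f₀ m) ∧ (∀ m : G.M₁, τ.f₁ m = c • σ.f₁ m)) ∧
      σ.SurjModY

end Fermat.Agent.S25.helper5035
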