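import Mathlib
import Fermat.Agent.S25.helper2531_FieldCoverMor
import Fermat.Agent.S25.helper3045_HomDegree
import Fermat.Agent.S25.helper8703_FieldGlue
import Fermat.Agent.S25.helper7215_FieldGlue
import Fermat.Agent.S25.helper239_GlueIndex
import Fermat.Agent.S25.helper905_UniformH1
import Fermat.Agent.S25.helper2303_SecSub
import Fermat.Agent.S25.helper5035_CoverAsm

/-!
# S25, leaf U5b, F-side: `χ` of the dual datum and the closed field-level cover theorem (helper2531)
-/

set_option autoImplicit false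
set_option linter.style.haveILetI false

open Module TensorProduct
open Fermat.Agent.S25.helper1705 Fermat.Agent.S25.helper2945

namespace Fermat.Agent.S25.helper2531

/-- The index of a linear map does not depend on the choice of (equal) module structures. -/
theorem index_congr_module {K V W : Type*} [Field K] [AddCommGroup V] [AddCommGroup W]
    (i₁ i₂ : Module K V) (j₁ j₂ : Module K W) (hi : i₁ = i₂) (hj : j₁ = j₂)
    (f : @LinearMap K K _ _ (RingHom.id K) V W _ _ i₁ j₁)
    (g : @LinearMap K K _ _ (RingHom.id K) V W _ _ i₂ j₂) (hfg : ∀ v, f v = g v) :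
    @LinearMap.index V W _ _ K _ i₁ j₁ f = @LinearMap.index V W _ _ K _ i₂ j₂ g := by
  subst hi hj
  rw [show f = g from LinearMap.ext hfg]

universe u

variable {k : Type u} [Field k] {D : CurveDatum k} {K : Type u} [Field K] [Algebra k K]

/-- `χ(Hom(G, 𝒪)) = χ(𝒪) - χ(G) + χ(𝒪)` over a field. -/
theorem chi_dualDatum [IsAlgClosed k] (G : GlueDatum D K) :
    (dualDatum G).chi = (GlueDatum.unit D K).chi - G.chi + (GlueDatum.unit D K).chi := by
  haveI : IsDomain (D.A₀₁ K) := helper7215.isDomain_A₀₁ D K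
  have hG : helper3045.IsFred (helper3045.cechK K G.ρ₀ G.ρ₁) :=
    ⟨helper239.finite_H0_field G, helper239.finite_H1_field G⟩
  have hU : helper3045.IsFred
      (helper3045.cechK K (GlueDatum.unit D K).ρ₀ (GlueDatum.unit D K).ρ₁) :=
    ⟨helper239.finite_H0_field (GlueDatum.unit D K), helper239.finite_H1_field (GlueDatum.unit D K)⟩
  have hO : helper3045.IsFred (helper3045.cechO K (D.A₀ K) (D.A₁ K) (D.A₀₁ K)) := hU
  obtain ⟨-, hind⟩ := helper3045.index_hom (xB D K) (yB D K) G.ρ₀ G.ρ₁
    (GlueDatum.unit D K).ρ₀ (GlueDatum.unit D K).ρ₁ (xB_mul_yB D K)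
    (helper8703.finQuot_A₀ D K) (helper8703.finQuot_A₁ D K)
    (helper3045.homE K (D.A₀₁ K) (Submonoid.powers (xB D K)) G.ρ₀ (GlueDatum.unit D K).ρ₀)
    (helper3045.homE K (D.A₀₁ K) (Submonoid.powers (yB D K)) G.ρ₁ (GlueDatum.unit D K).ρ₁)
    (fun f m => helper3045.homE_apply _ _ _ f m) (fun f m => helper3045.homE_apply _ _ _ f m)
    hG hU hO
  have h1 : (helper3045.cechK K G.ρ₀ G.ρ₁).index = G.chi := (helper8703.chi_eq_index G).symm
  have h2 : (helper3045.cechK K (GlueDatum.unit D K).ρ₀ (GlueDatum.unit D K).ρ₁).index =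
      (GlueDatum.unit D K).chi := (helper8703.chi_eq_index (GlueDatum.unit D K)).symm
  have h3 : (helper3045.cechO K (D.A₀ K) (D.A₁ K) (D.A₀₁ K)).index = (GlueDatum.unit D K).chi := h2
  rw [h1, h2, h3] at hind
  rw [← hind, helper8703.chi_eq_index]
  refine index_congr_module _ _ _ _ ?_ ?_ _ _ ?_
  · exact Module.ext' _ _ fun c p => rfl
  · exact Module.ext' _ _ fun c g => rfl
  · intro v
    have e₀ : (dualDatum G).ρ₀ v.1 =
        helper3045.homE K (D.A₀₁ K) (Submonoid.powers (xB D K)) G.ρ₀ (GlueDatum.unit D K).ρ₀ v.1 :=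
      helper1397.ext_ρ₀ G (GlueDatum.unit D K) fun m =>
        (helper1397.homRes₀_apply G (GlueDatum.unit D K) v.1 m).trans
          (helper3045.homE_apply _ _ _ v.1 m).symm
    have e₁ : (dualDatum G).ρ₁ v.2 =
        helper3045.homE K (D.A₀₁ K) (Submonoid.powers (yB D K)) G.ρ₁ (GlueDatum.unit D K).ρ₁ v.2 :=
      helper1397.ext_ρ₁ G (GlueDatum.unit D K) fun m =>
        (helper1397.homRes₁_apply G (GlueDatum.unit D K) v.2 m).trans
          (helper3045.homE_apply _ _ _ v.2 m).symm
    refine ((dualDatum G).delta_apply v).trans ?_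
    refine (congrArg₂ (fun a b : G.M₀₁ →ₗ[D.A₀₁ K] (GlueDatum.unit D K).M₀₁ => a - b) e₀ e₁).trans ?_
    exact (helper3045.cech_apply _ _ v).symm

/-- `χ(Hom(G, 𝒪)) = χ(𝒪)` for a degree-zero two-chart line bundle over a field. -/
theorem chi_dualDatum_of_degZero [IsAlgClosed k] (G : GlueDatum D K) (hG : G.DegZero) :
    (dualDatum G).chi = (GlueDatum.unit D K).chi := by
  rw [chi_dualDatum, helper905.chi_eq_of_degZero G hG]
  ring

/-- **F-side of the cover theorem, closed form.** For a degree-zero two-chart line bundle `G`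
over a field `K ⊇ k` (`k` algebraically closed) there are `N`, a finite set `S` of `k`-points
of the first chart with `|S| + 1 = χ(𝒪) + N · deg D∞`, and a morphism `σ : G → 𝒪(N)` vanishing
on `S`, such that every morphism `G → 𝒪(N)` vanishing on `S` is a `K`-multiple of `σ`, and `σ` is
surjective modulo `y` on the chart at infinity. -/
theorem exists_fieldCoverMor [IsAlgClosed k] (G : GlueDatum D K) (hG : G.DegZero) :
    ∃ (N : ℕ) (S : Finset (D.R₀ →ₐ[k] k))
      (σ : helper8573.Mor G (helper3115.twist (GlueDatum.unit D K) (N : ℤ))),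
      (S.card : ℤ) + 1 = (GlueDatum.unit D K).chi + (N : ℤ) * (helper1153.degInf D : ℤ) ∧
      (∀ Q ∈ S, ∀ m, σ.f₀ m ∈ mQ D K Q) ∧
      (∀ τ : helper8573.Mor G (helper3115.twist (GlueDatum.unit D K) (N : ℤ)),
        (∀ Q ∈ S, ∀ m, τ.f₀ m ∈ mQ D K Q) →
        ∃ c : K, (∀ m, τ.f₀ m = c • σ.f₀ m) ∧ (∀ m, τ.f₁ m = c • σ.f₁ m)) ∧
      σ.SurjModY := by
  refine exists_fieldCoverMor_of G ?_ (chi_dualDatum_of_degZero G hG)
  obtain ⟨n₀, h⟩ := helper2303.exists_forall_hserre_finrank (dualDatum G)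
  exact ⟨n₀, fun n hn => ⟨(h n hn).1, helper2303.finiteDimensional_secSub (dualDatum G) (n + 1),
    (h n hn).2⟩⟩

/-- **The F-side contract of ruling R10**: `helper5035.Stmt_FieldCoverMor`. -/
theorem stmt_FieldCoverMor : helper5035.Stmt_FieldCoverMor.{u} :=
  fun _ _ _ _ _ _ _ _ G _ hG => exists_fieldCoverMor G hG

end Fermat.Agent.S25.helper2531
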