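import Fermat.Agent.S25.helper3045_HomChi
import Fermat.Agent.S25.helper1397_HomBridge
import Fermat.Agent.S25.helper239_ChiApi
import Fermat.Agent.S25.helper8573_LCSpec

/-!
# S25: field-level `Generates` from `H¹(Hom) = 0` (helper25)

Over a field `K ⊇ k` (`k` algebraically closed), let `G` be a degree-zero two-chart line
bundle and `N'` a bundle of degree `g`, i.e. `χ(N') = χ(𝒪) + g`.  Then
`χ(Hom(G, N')) = χ(N') = 1`, so if `H¹(Hom(G, N')) = 0` (surjectivity of the Čech differential
of `helper1397.homDatum G N'`) the space of morphisms `G → N'` is a line, and every non-zero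
morphism generates it:

* `finrank_H0_homDatum_of_surjective_delta` : `finrank K (homDatum G N').H0 = 1`;
* `generates_of_surjective_delta` : `σ.f₀ ≠ 0 → σ.Generates`;
* `generates_baseOver_of_surjective_delta` : the same for `N' = baseOver N K`,
  `HasDegreeGenus N`;
* `generates_iff_ne_zero_of_surjective_delta`, `surjective_delta_of_finrank_H0`,
  `chi_homDatum_eq_one`, `chi_baseOver`, `chi_unit_field_eq` : bricks.
-/

set_option autoImplicit false

namespace Fermat.Agent.S25.helper25

open Fermat.Agent.S25.helper1705 Fermat.Agent.S25.helper2945 Fermat.Agent.S25.helper8573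

universe u

section FieldGenerates

variable {k : Type u} [Field k] [IsAlgClosed k] {D : CurveDatum k}
  {K : Type u} [Field K] [Algebra k K]

/-- `χ(𝒪_{C_K}) = 1 − g` over every field `K ⊇ k`. -/
theorem chi_unit_field_eq (D : CurveDatum k) (K : Type u) [Field K] [Algebra k K] :
    (GlueDatum.unit D K).chi = 1 - (genus D : ℤ) := by
  rw [helper239.chi_unit D K]
  exact helper7215.glue_unit_chi D k

/-- `χ` of the pull-back of a bundle over `k` to a field `K ⊇ k`. -/
theorem chi_baseOver (N : GlueDatum D k) (K : Type u) [Field K] [Algebra k K] :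
    (baseOver N K).chi = N.chi :=
  helper239.chi_field_ext N (Algebra.ofId k K)

/-- `χ(Hom(G, N')) = 1` for `G` of degree zero and `N'` of degree `g`. -/
theorem chi_homDatum_eq_one (G N' : GlueDatum D K) (hG : G.DegZero)
    (hN : N'.chi = (GlueDatum.unit D K).chi + (genus D : ℤ)) :
    (helper1397.homDatum G N').chi = 1 := by
  rw [helper3045.chi_homDatum_of_degZero G N' hG, hN, chi_unit_field_eq D K]
  ring

/-- If `H¹(Hom(G, N')) = 0` then `Hom(G, N')` is one-dimensional. -/
theorem finrank_H0_homDatum_of_surjective_delta (G N' : GlueDatum D K) (hG : G.DegZero)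
    (hN : N'.chi = (GlueDatum.unit D K).chi + (genus D : ℤ))
    (h1 : Function.Surjective (helper1397.homDatum G N').delta) :
    Module.finrank K (helper1397.homDatum G N').H0 = 1 := by
  have hchi := chi_homDatum_eq_one G N' hG hN
  have hsub : Subsingleton (helper1397.homDatum G N').H1 :=
    (helper3115.subsingleton_H1_iff _).mpr (LinearMap.range_eq_top.mpr h1)
  have h0 : Module.finrank K (helper1397.homDatum G N').H1 = 0 :=
    Module.finrank_zero_of_subsingleton
  unfold GlueDatum.chi at hchi
  rw [h0] at hchi
  simpa using hchi

/-- Conversely, if `Hom(G, N')` is one-dimensional then `H¹(Hom(G, N')) = 0`. -/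
theorem surjective_delta_of_finrank_H0 (G N' : GlueDatum D K) (hG : G.DegZero)
    (hN : N'.chi = (GlueDatum.unit D K).chi + (genus D : ℤ))
    (h0 : Module.finrank K (helper1397.homDatum G N').H0 = 1) :
    Function.Surjective (helper1397.homDatum G N').delta := by
  have hchi := chi_homDatum_eq_one G N' hG hN
  unfold GlueDatum.chi at hchi
  rw [h0] at hchi
  have h1 : Module.finrank K (helper1397.homDatum G N').H1 = 0 := by
    have : ((Module.finrank K (helper1397.homDatum G N').H1 : ℕ) : ℤ) = 0 := by
      push_cast at hchi
      linarith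
    exact_mod_cast this
  have : Module.Finite K (helper1397.homDatum G N').H1 :=
    helper239.finite_H1_field (helper1397.homDatum G N')
  have hsub : Subsingleton (helper1397.homDatum G N').H1 :=
    Module.finrank_zero_iff.mp h1
  exact LinearMap.range_eq_top.mp ((helper3115.subsingleton_H1_iff _).mp hsub)

/-- **Field-level `Generates`.** Over a field, for `G` of degree zero and `N'` of degree `g`
with `H¹(Hom(G, N')) = 0`, every non-zero morphism `G → N'` generates all morphisms. -/
theorem generates_of_surjective_delta (G N' : GlueDatum D K) (hG : G.DegZero)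
    (hN : N'.chi = (GlueDatum.unit D K).chi + (genus D : ℤ))
    (h1 : Function.Surjective (helper1397.homDatum G N').delta)
    (σ : Mor G N') (hσ : σ.f₀ ≠ 0) : σ.Generates := by
  rw [helper1397.specMor_generates_iff_forall]
  have hrank := finrank_H0_homDatum_of_surjective_delta G N' hG hN h1
  have hmem := helper1397.specMorPair_mem_H0 σ
  set v : (helper1397.homDatum G N').H0 := ⟨helper1397.specMorPair σ, hmem⟩ with hv
  have hv0 : v ≠ 0 := by
    intro h
    apply hσ
    have h' : helper1397.specMorPair σ = 0 := congrArg Subtype.val h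
    have h'' := congrArg Prod.fst h'
    rw [helper1397.specMorPair_fst] at h''
    exact h''
  intro p hp
  obtain ⟨c, hc⟩ := (finrank_eq_one_iff_of_nonzero' v hv0).mp hrank ⟨p, hp⟩
  exact ⟨c, (congrArg Subtype.val hc).symm⟩

/-- Under `H¹(Hom(G, N')) = 0` a morphism generates iff it is non-zero on the first chart. -/
theorem generates_iff_ne_zero_of_surjective_delta (G N' : GlueDatum D K) (hG : G.DegZero)
    (hN : N'.chi = (GlueDatum.unit D K).chi + (genus D : ℤ))
    (h1 : Function.Surjective (helper1397.homDatum G N').delta)
    (σ : Mor G N') : σ.Generates ↔ helper1397.specMorPair σ ≠ 0 := by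
  have hrank := finrank_H0_homDatum_of_surjective_delta G N' hG hN h1
  have hmem := helper1397.specMorPair_mem_H0 σ
  constructor
  · intro hgen h0
    rw [helper1397.specMor_generates_iff_forall] at hgen
    have hzero : ∀ p : (helper1397.homDatum G N').H0, p = 0 := by
      intro p
      obtain ⟨c, hc⟩ := hgen p.1 p.2
      rw [h0, smul_zero] at hc
      exact Subtype.ext hc
    have : Subsingleton (helper1397.homDatum G N').H0 :=
      ⟨fun a b => (hzero a).trans (hzero b).symm⟩
    have : Module.finrank K (helper1397.homDatum G N').H0 = 0 :=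
      Module.finrank_zero_of_subsingleton
    omega
  · intro hne
    rw [helper1397.specMor_generates_iff_forall]
    set v : (helper1397.homDatum G N').H0 := ⟨helper1397.specMorPair σ, hmem⟩ with hv
    have hv0 : v ≠ 0 := fun h => hne (congrArg Subtype.val h)
    intro p hp
    obtain ⟨c, hc⟩ := (finrank_eq_one_iff_of_nonzero' v hv0).mp hrank ⟨p, hp⟩
    exact ⟨c, (congrArg Subtype.val hc).symm⟩

/-- **Field-level `Generates` for a base bundle.** For `N` over `k` of degree `g`, `G` of degree
zero over a field `K ⊇ k` with `H¹(Hom(G, N_K)) = 0`, every non-zero morphism `G → N_K`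
generates all morphisms. -/
theorem generates_baseOver_of_surjective_delta (N : GlueDatum D k) (hN : HasDegreeGenus N)
    (G : GlueDatum D K) (hG : G.DegZero)
    (h1 : Function.Surjective (helper1397.homDatum G (baseOver N K)).delta)
    (σ : Mor G (baseOver N K)) (hσ : σ.f₀ ≠ 0) : σ.Generates := by
  refine generates_of_surjective_delta G (baseOver N K) hG ?_ h1 σ hσ
  rw [chi_baseOver N K, helper239.chi_unit D K]
  exact hN

/-- `Hom(G, N_K)` is one-dimensional when `H¹(Hom(G, N_K)) = 0` (base bundle form). -/
theorem finrank_H0_homDatum_baseOver (N : GlueDatum D k) (hN : HasDegreeGenus N)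
    (G : GlueDatum D K) (hG : G.DegZero)
    (h1 : Function.Surjective (helper1397.homDatum G (baseOver N K)).delta) :
    Module.finrank K (helper1397.homDatum G (baseOver N K)).H0 = 1 := by
  refine finrank_H0_homDatum_of_surjective_delta G (baseOver N K) hG ?_ h1
  rw [chi_baseOver N K, helper239.chi_unit D K]
  exact hN

end FieldGenerates

end Fermat.Agent.S25.helper25
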