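import Mathlib

/-!
# S25, layer B: algebra core of `Dictionary.models_baseChange` (helper263)

Transport of a base-change property along ring isomorphisms, in the additive/semilinear form
used by the opens-form `Models` of the dictionary.

Setting: rings `A → A'` (algebra) and `S → S'` (algebra), ring isomorphisms `γ : A ≃+* S`,
`γ' : A' ≃+* S'` compatible with the algebra maps; an `A`-module `M`, an `S`-module `N` with a
`γ`-semilinear additive bijection `e : M ≃+ N`; an `S'`-module `N'` and an `S`-linear map
`p : N → N'` which is a base change along `S → S'`.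
Then `a' ⊗ m ↦ γ' a' • p (e m)` is a `γ'`-semilinear additive bijection `A' ⊗[A] M ≃+ N'`.
-/

set_option autoImplicit false

open TensorProduct

namespace Fermat.Agent.S25.helper263

section Core

variable {A A' S S' : Type*} [CommRing A] [CommRing A'] [CommRing S] [CommRing S']
  [Algebra A A'] [Algebra S S']
  (γ : A ≃+* S) (γ' : A' ≃+* S')
  {M N N' : Type*} [AddCommGroup M] [Module A M] [AddCommGroup N] [Module S N]
  [AddCommGroup N'] [Module S' N'] [Module S N'] [IsScalarTower S S' N']
  (e : M ≃+ N) (p : N →ₗ[S] N')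

/-- The forward map `a' ⊗ m ↦ γ' a' • p (e m)`. -/
noncomputable def baseChangeFwd (hγ : ∀ a, γ' (algebraMap A A' a) = algebraMap S S' (γ a))
    (he : ∀ (a : A) (m : M), e (a • m) = γ a • e m) : A' ⊗[A] M →+ N' :=
  TensorProduct.liftAddHom
    ({ toFun := fun a' =>
        { toFun := fun m => γ' a' • p (e m)
          map_zero' := by simp
          map_add' := fun m m' => by simp [smul_add] }
       map_zero' := by ext m; simp
       map_add' := fun a b => by ext m; simp [add_smul] } : A' →+ M →+ N')
    (fun a a' m => by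
      simp only [AddMonoidHom.coe_mk, ZeroHom.coe_mk, he, map_smul, Algebra.smul_def, map_mul, hγ,
        mul_smul]
      rw [smul_comm, IsScalarTower.algebraMap_smul])

@[simp]
theorem baseChangeFwd_tmul (hγ : ∀ a, γ' (algebraMap A A' a) = algebraMap S S' (γ a))
    (he : ∀ (a : A) (m : M), e (a • m) = γ a • e m) (a' : A') (m : M) :
    baseChangeFwd γ γ' e p hγ he (a' ⊗ₜ m) = γ' a' • p (e m) := rfl

/-- The backward map on `S' ⊗[S] N`: `s' ⊗ n ↦ γ'⁻¹ s' ⊗ e⁻¹ n`. -/
noncomputable def baseChangeBwd (hγ : ∀ a, γ' (algebraMap A A' a) = algebraMap S S' (γ a))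
    (he : ∀ (a : A) (m : M), e (a • m) = γ a • e m) : S' ⊗[S] N →+ A' ⊗[A] M :=
  TensorProduct.liftAddHom
    ({ toFun := fun s' =>
        { toFun := fun n => γ'.symm s' ⊗ₜ[A] e.symm n
          map_zero' := by simp
          map_add' := fun n n' => by simp [tmul_add] }
       map_zero' := by ext n; simp
       map_add' := fun a b => by ext n; simp [add_tmul] } : S' →+ N →+ A' ⊗[A] M)
    (fun s s' n => by
      simp only [AddMonoidHom.coe_mk, ZeroHom.coe_mk]
      have h1 : γ'.symm (s • s') = γ.symm s • γ'.symm s' := by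
        apply γ'.injective
        simp [Algebra.smul_def, hγ]
      have h2 : e.symm (s • n) = γ.symm s • e.symm n := by
        apply e.injective
        rw [he]
        simp
      rw [h1, h2, TensorProduct.smul_tmul])

@[simp]
theorem baseChangeBwd_tmul (hγ : ∀ a, γ' (algebraMap A A' a) = algebraMap S S' (γ a))
    (he : ∀ (a : A) (m : M), e (a • m) = γ a • e m) (s' : S') (n : N) :
    baseChangeBwd γ γ' e hγ he (s' ⊗ₜ n) = γ'.symm s' ⊗ₜ[A] e.symm n := rfl

/-- **Algebra core of `models_baseChange`.** -/
theorem exists_addEquiv_of_isBaseChange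
    (hγ : ∀ a, γ' (algebraMap A A' a) = algebraMap S S' (γ a))
    (he : ∀ (a : A) (m : M), e (a • m) = γ a • e m) (hp : IsBaseChange S' p) :
    ∃ e' : A' ⊗[A] M ≃+ N', (∀ (a' : A') (x : A' ⊗[A] M), e' (a' • x) = γ' a' • e' x) ∧
      ∀ (a' : A') (m : M), e' (a' ⊗ₜ m) = γ' a' • p (e m) := by
  have hleft : ∀ x : A' ⊗[A] M,
      baseChangeBwd γ γ' e hγ he (hp.equiv.symm (baseChangeFwd γ γ' e p hγ he x)) = x := by
    intro x
    induction x using TensorProduct.induction_on with
    | zero => simp
    | tmul a' m =>
      have : hp.equiv.symm (γ' a' • p (e m)) = γ' a' ⊗ₜ[S] e m := by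
        rw [LinearEquiv.symm_apply_eq, IsBaseChange.equiv_tmul]
      rw [baseChangeFwd_tmul, this, baseChangeBwd_tmul]
      simp
    | add x y hx hy => rw [map_add, map_add, map_add, hx, hy]
  have hright' : ∀ y : S' ⊗[S] N,
      baseChangeFwd γ γ' e p hγ he (baseChangeBwd γ γ' e hγ he y) = hp.equiv y := by
    intro y
    induction y using TensorProduct.induction_on with
    | zero => simp
    | tmul s' n => simp [IsBaseChange.equiv_tmul]
    | add x y hx hy => rw [map_add, map_add, map_add, hx, hy]
  let e' : A' ⊗[A] M ≃+ N' :=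
    { toFun := baseChangeFwd γ γ' e p hγ he
      invFun := fun n' => baseChangeBwd γ γ' e hγ he (hp.equiv.symm n')
      left_inv := hleft
      right_inv := fun n' => by rw [hright', LinearEquiv.apply_symm_apply]
      map_add' := map_add _ }
  refine ⟨e', ?_, fun a' m => rfl⟩
  intro a' x
  change baseChangeFwd γ γ' e p hγ he (a' • x) = γ' a' • baseChangeFwd γ γ' e p hγ he x
  induction x using TensorProduct.induction_on with
  | zero => simp
  | tmul b m => simp [TensorProduct.smul_tmul', mul_smul]
  | add x y hx hy => rw [smul_add, map_add, map_add, hx, hy, smul_add]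

end Core

end Fermat.Agent.S25.helper263
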