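import Mathlib

/-!
# Smooth over a field implies reduced (helper263, S25 brick SR)

* `isReduced_of_etale_of_isDomain` : an étale algebra over a domain is reduced.
* `isReduced_of_smooth_field` : a smooth algebra over a field is reduced.
* `isReduced_of_smooth` : a scheme smooth over a field is reduced.
* `geometricallyReduced_of_smooth` : a smooth morphism to the spectrum of a field is
  geometrically reduced.
* `geometricallyIntegral_of_smooth` : smooth + geometrically irreducible over a field implies
  geometrically integral.
* `isIntegral_of_smooth_of_irreducibleSpace` : smooth over a field + irreducible implies integral.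
-/

set_option autoImplicit false

universe u

open TensorProduct

namespace Fermat.Agent.S25.helper263

/-- An étale algebra over a domain is reduced (it embeds, by flatness, into its base change to the
fraction field, which is étale over a field). -/
theorem isReduced_of_etale_of_isDomain (P T : Type*) [CommRing P] [IsDomain P] [CommRing T]
    [Algebra P T] [Algebra.Etale P T] : IsReduced T := by
  let K := FractionRing P
  have : Algebra.Etale K (K ⊗[P] T) := inferInstance
  have : IsReduced (K ⊗[P] T) := Algebra.FormallyUnramified.isReduced_of_field K (K ⊗[P] T)
  have : Module.Flat P T := inferInstance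
  have hinj : Function.Injective
      (Algebra.TensorProduct.includeRight (R := P) (A := K) (B := T)) :=
    Algebra.TensorProduct.includeRight_injective (IsFractionRing.injective P K)
  exact isReduced_of_injective
    (Algebra.TensorProduct.includeRight (R := P) (A := K) (B := T)) hinj

/-- A smooth algebra over a field is reduced. -/
theorem isReduced_of_smooth_field (k S : Type*) [Field k] [CommRing S] [Algebra k S]
    [Algebra.Smooth k S] : IsReduced S := by
  constructor
  intro x hx
  -- the annihilator of `x` is not contained in any prime
  by_contra hx0
  have hne : Ideal.span {x} ≠ ⊥ := by simpa [Ideal.span_singleton_eq_bot] using hx0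
  have hann : (Ideal.span ({x} : Set S)).annihilator ≠ ⊤ := by
    intro h
    have : (1 : S) ∈ (Ideal.span ({x} : Set S)).annihilator := by rw [h]; trivial
    rw [Submodule.mem_annihilator_span_singleton] at this
    exact hx0 (by simpa using this)
  obtain ⟨m, hm, hle⟩ := Ideal.exists_le_maximal _ hann
  have : m.IsPrime := hm.isPrime
  obtain ⟨f, hfm, n, _, _, _⟩ :=
    Algebra.IsSmoothAt.exists_isStandardEtale_mvPolynomial (R := k) (p := m)
  have : IsReduced (Localization.Away f) :=
    isReduced_of_etale_of_isDomain (MvPolynomial (Fin n) k) (Localization.Away f)
  have h0 : algebraMap S (Localization.Away f) x = 0 :=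
    (hx.map (algebraMap S (Localization.Away f))).eq_zero
  rw [IsLocalization.map_eq_zero_iff (Submonoid.powers f)] at h0
  obtain ⟨⟨_, N, rfl⟩, hN⟩ := h0
  have hmem : f ^ N ∈ (Ideal.span ({x} : Set S)).annihilator := by
    rw [Submodule.mem_annihilator_span_singleton]
    simpa using hN
  exact hfm (hm.isPrime.mem_of_pow_mem N (hle hmem))

open AlgebraicGeometry CategoryTheory CategoryTheory.Limits

/-- An affine scheme smooth over a field is reduced. -/
theorem isReduced_of_smooth_Spec {k : Type u} [Field k] {R : CommRingCat.{u}}
    (g : Spec R ⟶ Spec (CommRingCat.of k)) [Smooth g] : _root_.IsReduced R := by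
  obtain ⟨φ, rfl⟩ := Spec.map_surjective g
  have hφ : φ.hom.Smooth := (HasRingHomProperty.Spec_iff (P := @Smooth)).mp inferInstance
  let : Algebra k R := φ.hom.toAlgebra
  have : Algebra.Smooth k R := hφ
  exact isReduced_of_smooth_field k R

/-- An affine scheme smooth over a field is reduced. -/
theorem isReduced_of_smooth_of_isAffine {Y : Scheme.{u}} [IsAffine Y] {k : Type u} [Field k]
    (g : Y ⟶ Spec (CommRingCat.of k)) [Smooth g] : IsReduced Y := by
  have : _root_.IsReduced Γ(Y, ⊤) := isReduced_of_smooth_Spec (Y.isoSpec.inv ≫ g)
  exact isReduced_of_isAffine_isReduced Y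

/-- A scheme smooth over a field is reduced. -/
theorem isReduced_of_smooth {X : Scheme.{u}} {k : Type u} [Field k]
    (f : X ⟶ Spec (CommRingCat.of k)) [Smooth f] : IsReduced X := by
  have (i : X.affineCover.I₀) : IsReduced (X.affineCover.X i) :=
    isReduced_of_smooth_of_isAffine (X.affineCover.f i ≫ f)
  exact IsReduced.of_openCover X X.affineCover

/-- A smooth morphism to the spectrum of a field is geometrically reduced. -/
theorem geometricallyReduced_of_smooth {X : Scheme.{u}} {k : Type u} [Field k]
    (f : X ⟶ Spec (CommRingCat.of k)) [Smooth f] : GeometricallyReduced f := by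
  constructor
  intro K _ y Z fst snd h
  have : Smooth snd := MorphismProperty.of_isPullback h inferInstance
  exact isReduced_of_smooth snd

/-- Smooth and geometrically irreducible over a field implies geometrically integral. -/
theorem geometricallyIntegral_of_smooth {X : Scheme.{u}} {k : Type u} [Field k]
    (f : X ⟶ Spec (CommRingCat.of k)) [Smooth f] [GeometricallyIrreducible f] :
    GeometricallyIntegral f := by
  have := geometricallyReduced_of_smooth f
  exact GeometricallyIntegral.of_geometricallyReduced_of_geometricallyIrreducible f

/-- Smooth over a field and irreducible implies integral. -/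
theorem isIntegral_of_smooth_of_irreducibleSpace {X : Scheme.{u}} {k : Type u} [Field k]
    (f : X ⟶ Spec (CommRingCat.of k)) [Smooth f] [IrreducibleSpace X] : IsIntegral X := by
  have := isReduced_of_smooth f
  exact isIntegral_of_irreducibleSpace_of_isReduced X

end Fermat.Agent.S25.helper263
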