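import Mathlib
import Fermat.Agent.S25.helper263_SmoothReduced

/-!
# Smooth + connected over a field implies integral (helper263, S25 leaf U13)
-/

set_option autoImplicit false

universe u

open TensorProduct

namespace Fermat.Agent.S25.helper263

section Idempotents

variable (P T : Type*) [CommRing P] [IsDomain P] [IsIntegrallyClosed P] [CommRing T]
  [Algebra P T] [Algebra.Etale P T]

omit [IsDomain P] [Algebra.Etale P T] in
/-- Elements of `T ⊗[P] integralClosure P (Frac P)` map to elements of the form `t ⊗ 1`. -/
theorem toIntegralClosure_eq_tmul_one (z : T ⊗[P] integralClosure P (FractionRing P)) :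
    ∃ t : T, (TensorProduct.toIntegralClosure P T (FractionRing P) z : T ⊗[P] FractionRing P)
      = t ⊗ₜ[P] (1 : FractionRing P) := by
  induction z using TensorProduct.induction_on with
  | zero => exact ⟨0, by simp⟩
  | tmul s b =>
    obtain ⟨p, hp⟩ := IsIntegrallyClosed.isIntegral_iff.mp b.2
    refine ⟨p • s, ?_⟩
    have : (TensorProduct.toIntegralClosure P T (FractionRing P) (s ⊗ₜ b) :
        T ⊗[P] FractionRing P) = s ⊗ₜ[P] (b : FractionRing P) := by
      simp [TensorProduct.toIntegralClosure]
    rw [this, ← hp, Algebra.algebraMap_eq_smul_one, TensorProduct.smul_tmul]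
  | add z₁ z₂ h₁ h₂ =>
    obtain ⟨t₁, h₁⟩ := h₁
    obtain ⟨t₂, h₂⟩ := h₂
    exact ⟨t₁ + t₂, by rw [map_add, Subalgebra.coe_add, h₁, h₂, TensorProduct.add_tmul]⟩

omit [IsDomain P] in
/-- For `T` étale over an integrally closed domain `P`, every idempotent of `Frac P ⊗[P] T`
comes from `T`. -/
theorem exists_eq_one_tmul_of_isIdempotentElem (a : FractionRing P ⊗[P] T)
    (ha : IsIdempotentElem a) : ∃ t : T, a = (1 : FractionRing P) ⊗ₜ[P] t := by
  set c := Algebra.TensorProduct.comm P (FractionRing P) T with hc
  set a' : T ⊗[P] FractionRing P := c a with ha'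
  have hidem : a' * a' = a' := by rw [ha', ← map_mul, ha.eq]
  have hint : IsIntegral T a' := by
    refine ⟨Polynomial.X ^ 2 - Polynomial.X, ?_, ?_⟩
    · exact Polynomial.monic_X_pow_sub (lt_of_le_of_lt Polynomial.degree_X_le (by norm_num))
    · simp [pow_two, hidem]
  obtain ⟨z, hz⟩ := (TensorProduct.toIntegralClosure_bijective_of_smooth
    (R := P) (S := T) (B := FractionRing P)).2 ⟨a', hint⟩
  obtain ⟨t, ht⟩ := toIntegralClosure_eq_tmul_one P T z
  refine ⟨t, ?_⟩
  rw [hz] at ht
  have : c a = t ⊗ₜ[P] (1 : FractionRing P) := ht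
  have h2 : c ((1 : FractionRing P) ⊗ₜ[P] t) = t ⊗ₜ[P] (1 : FractionRing P) := by
    simp [hc]
  exact c.injective (this.trans h2.symm)

end Idempotents

section LocallyIrreducible

/-- If `T` is étale over an integrally closed domain `P`, then every point of `Spec T` has an
irreducible open neighbourhood (in fact `Spec T` is a finite disjoint union of integral
schemes). -/
theorem exists_isOpen_isIrreducible_of_etale (P T : Type u) [CommRing P] [IsDomain P]
    [IsIntegrallyClosed P] [CommRing T] [Algebra P T] [Algebra.Etale P T]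
    (q : PrimeSpectrum T) :
    ∃ U : Set (PrimeSpectrum T), IsOpen U ∧ q ∈ U ∧ IsIrreducible U := by
  classical
  obtain ⟨I, hI, L, _, _, e, -⟩ :=
    (Algebra.Etale.iff_exists_algEquiv_prod (FractionRing P) (FractionRing P ⊗[P] T)).mp
      inferInstance
  have := Fintype.ofFinite I
  let ι : T →ₐ[P] FractionRing P ⊗[P] T := Algebra.TensorProduct.includeRight
  have hι : Function.Injective ι :=
    Algebra.TensorProduct.includeRight_injective (IsFractionRing.injective P (FractionRing P))
  have hidem : ∀ i, IsIdempotentElem (e.symm (Pi.single i 1)) := by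
    intro i
    unfold IsIdempotentElem
    rw [← map_mul, ← Pi.single_mul, mul_one]
  choose t ht using fun i => exists_eq_one_tmul_of_isIdempotentElem P T _ (hidem i)
  have ht' : ∀ i, ι (t i) = e.symm (Pi.single i 1) := fun i => (ht i).symm
  have hsum : ∑ i, t i = 1 := by
    apply hι
    rw [map_sum, map_one]
    simp only [ht']
    rw [← map_sum, Finset.univ_sum_single]
    exact map_one e.symm
  obtain ⟨i, hi⟩ : ∃ i, t i ∉ q.asIdeal := by
    by_contra h
    have h : ∀ i, t i ∈ q.asIdeal := fun i => by_contra fun hi => h ⟨i, hi⟩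
    have : (1 : T) ∈ q.asIdeal := hsum ▸ Ideal.sum_mem _ (fun i _ => h i)
    exact q.isPrime.ne_top ((Ideal.eq_top_iff_one _).mpr this)
  let φ : T →+* L i := (Pi.evalRingHom L i).comp (e.toRingEquiv.toRingHom.comp ι.toRingHom)
  have hφ : ∀ s, φ s = e (ι s) i := fun s => rfl
  have hφt : φ (t i) = 1 := by
    rw [hφ, ht', AlgEquiv.apply_symm_apply, Pi.single_eq_same]
  have hker : ∀ s, φ s = 0 → s * t i = 0 := by
    intro s hs
    apply hι
    apply e.injective
    rw [map_mul, map_mul, ht', AlgEquiv.apply_symm_apply, map_zero, map_zero]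
    ext j
    by_cases hj : j = i
    · subst hj
      rw [Pi.mul_apply, ← hφ, hs, zero_mul, Pi.zero_apply]
    · rw [Pi.mul_apply, Pi.single_eq_of_ne hj, mul_zero, Pi.zero_apply]
  have hprime : (RingHom.ker φ).IsPrime := RingHom.ker_isPrime φ
  refine ⟨PrimeSpectrum.basicOpen (t i), (PrimeSpectrum.basicOpen (t i)).isOpen, hi, ?_⟩
  have heq : (PrimeSpectrum.basicOpen (t i) : Set (PrimeSpectrum T)) =
      PrimeSpectrum.zeroLocus (RingHom.ker φ) := by
    ext p
    simp only [PrimeSpectrum.basicOpen_eq_zeroLocus_compl, Set.mem_compl_iff,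
      PrimeSpectrum.mem_zeroLocus, Set.singleton_subset_iff, SetLike.mem_coe]
    constructor
    · intro hp s hs
      have h0 : s * t i ∈ p.asIdeal := by rw [hker s hs]; exact Ideal.zero_mem _
      exact (p.isPrime.mem_or_mem h0).resolve_right hp
    · intro hp htp
      have h1 : 1 - t i ∈ RingHom.ker φ := by
        rw [RingHom.mem_ker, map_sub, map_one, hφt, sub_self]
      have : (1 : T) ∈ p.asIdeal := by
        have := Ideal.add_mem _ (hp h1) htp
        simpa using this
      exact p.isPrime.ne_top ((Ideal.eq_top_iff_one _).mpr this)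
  rw [heq, PrimeSpectrum.isIrreducible_zeroLocus_iff_of_radical _ hprime.isRadical]
  exact hprime

/-- Every point of the spectrum of a smooth algebra over a field has an irreducible open
neighbourhood. -/
theorem exists_isOpen_isIrreducible_of_smooth_field (k S : Type u) [Field k] [CommRing S]
    [Algebra k S] [Algebra.Smooth k S] (q : PrimeSpectrum S) :
    ∃ U : Set (PrimeSpectrum S), IsOpen U ∧ q ∈ U ∧ IsIrreducible U := by
  obtain ⟨f, hfq, n, _, _, _⟩ :=
    Algebra.IsSmoothAt.exists_isStandardEtale_mvPolynomial (R := k) (p := q.asIdeal)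
  have hemb := PrimeSpectrum.localization_away_isOpenEmbedding (Localization.Away f) f
  obtain ⟨q', rfl⟩ : q ∈ Set.range
      (PrimeSpectrum.comap (algebraMap S (Localization.Away f))) := by
    rw [PrimeSpectrum.localization_away_comap_range (Localization.Away f) f]
    exact hfq
  obtain ⟨U, hU, hqU, hirr⟩ :=
    exists_isOpen_isIrreducible_of_etale (MvPolynomial (Fin n) k) (Localization.Away f) q'
  exact ⟨_ '' U, hemb.isOpenMap _ hU, ⟨q', hqU, rfl⟩, hirr.image _ hemb.continuous.continuousOn⟩

end LocallyIrreducible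

section Topology

/-- A preconnected nonempty space in which every point has an irreducible open neighbourhood is
irreducible. -/
theorem irreducibleSpace_of_preconnected_of_locally_irreducible {X : Type*} [TopologicalSpace X]
    [PreconnectedSpace X] [Nonempty X]
    (h : ∀ x : X, ∃ U : Set X, IsOpen U ∧ x ∈ U ∧ IsIrreducible U) : IrreducibleSpace X := by
  obtain ⟨V, hVo, hxV, hVirr⟩ := h (Classical.arbitrary X)
  have hopen : IsOpen (closure V) := by
    rw [isOpen_iff_forall_mem_open]
    intro y hy
    obtain ⟨W, hWo, hyW, hWirr⟩ := h y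
    refine ⟨W, ?_, hWo, hyW⟩
    intro w hw
    rw [mem_closure_iff]
    intro N hNo hwN
    obtain ⟨v, hvW, hvV⟩ := (mem_closure_iff.mp hy) W hWo hyW
    obtain ⟨a, -, haN, haV⟩ := hWirr.2 N V hNo hVo ⟨w, hw, hwN⟩ ⟨v, hvW, hvV⟩
    exact ⟨a, haN, haV⟩
  have hclopen : IsClopen (closure V) := ⟨isClosed_closure, hopen⟩
  have huniv : closure V = Set.univ := hclopen.eq_univ ⟨_, subset_closure hxV⟩
  rw [irreducibleSpace_def]
  have := hVirr.closure
  rwa [huniv] at this

end Topology

section Schemes

open AlgebraicGeometry CategoryTheory CategoryTheory.Limits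

/-- Every point of an affine scheme smooth over a field has an irreducible open neighbourhood. -/
theorem exists_isOpen_isIrreducible_of_smooth_Spec {K : Type u} [Field K] {R : CommRingCat.{u}}
    (g : Spec R ⟶ Spec (CommRingCat.of K)) [Smooth g] (y : Spec R) :
    ∃ U : Set (Spec R), IsOpen U ∧ y ∈ U ∧ IsIrreducible U := by
  obtain ⟨φ, rfl⟩ := Spec.map_surjective g
  have hφ : φ.hom.Smooth := (HasRingHomProperty.Spec_iff (P := @Smooth)).mp inferInstance
  let : Algebra K R := φ.hom.toAlgebra
  have : Algebra.Smooth K R := hφ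
  exact exists_isOpen_isIrreducible_of_smooth_field K R y

/-- Every point of a scheme smooth over a field has an irreducible open neighbourhood. -/
theorem exists_isOpen_isIrreducible_of_smooth {Z : Scheme.{u}} {K : Type u} [Field K]
    (g : Z ⟶ Spec (CommRingCat.of K)) [Smooth g] (z : Z) :
    ∃ U : Set Z, IsOpen U ∧ z ∈ U ∧ IsIrreducible U := by
  obtain ⟨i, y, rfl⟩ := Z.affineCover.exists_eq z
  let j : Spec Γ(Z.affineCover.X i, ⊤) ⟶ Z :=
    (Z.affineCover.X i).isoSpec.inv ≫ Z.affineCover.f i
  have hj : Topology.IsOpenEmbedding j := j.isOpenEmbedding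
  obtain ⟨U, hU, hyU, hirr⟩ := exists_isOpen_isIrreducible_of_smooth_Spec (j ≫ g)
    ((Z.affineCover.X i).isoSpec.hom y)
  refine ⟨j '' U, hj.isOpenMap _ hU, ⟨_, hyU, ?_⟩, hirr.image _ hj.continuous.continuousOn⟩
  simp [j, ← Scheme.Hom.comp_apply]

/-- A connected scheme smooth over a field is integral. -/
theorem isIntegral_of_smooth_of_connectedSpace {Z : Scheme.{u}} {K : Type u} [Field K]
    (g : Z ⟶ Spec (CommRingCat.of K)) [Smooth g] [ConnectedSpace Z] : IsIntegral Z := by
  have : IrreducibleSpace Z :=
    irreducibleSpace_of_preconnected_of_locally_irreducible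
      (exists_isOpen_isIrreducible_of_smooth g)
  exact isIntegral_of_smooth_of_irreducibleSpace g

/-- **U13**: a smooth, geometrically connected morphism to the spectrum of a field is
geometrically integral. -/
theorem geometricallyIntegral_of_smooth_of_geometricallyConnected {X : Scheme.{u}} {k : Type u}
    [Field k] (f : X ⟶ Spec (CommRingCat.of k)) [Smooth f] [GeometricallyConnected f] :
    GeometricallyIntegral f := by
  constructor
  intro K _ y Z fst snd h
  have : Smooth snd := MorphismProperty.of_isPullback h inferInstance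
  have : ConnectedSpace Z := GeometricallyConnected.geometrically_connectedSpace y fst snd h
  exact isIntegral_of_smooth_of_connectedSpace snd

end Schemes

end Fermat.Agent.S25.helper263
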