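import Mathlib

set_option autoImplicit false

universe u

open CategoryTheory CategoryTheory.Limits AlgebraicGeometry Opposite

namespace Fermat.Agent.S25.helper7939

noncomputable section

variable {R S : CommRingCat.{u}} (φ : R ⟶ S)

/-- Global sections of a pushforward along `Spec.map φ` are the global sections with
scalars restricted along `φ`. -/
def pushforwardCompΓIso :
    Scheme.Modules.pushforward (Spec.map φ) ⋙ moduleSpecΓFunctor (R := R) ≅
      moduleSpecΓFunctor (R := S) ⋙ ModuleCat.restrictScalars φ.hom :=
  Functor.isoWhiskerRight (pushforwardCompModulesSpecToSheafIso φ)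
    (TopCat.Sheaf.forget _ _ ⋙ (evaluation _ _).obj (op ⊤)) ≪≫
    NatIso.ofComponents (fun M => Iso.refl _) (fun f => by rfl)

/-- The composite adjunction `tilde ⋙ pullback ⊣ pushforward ⋙ Γ`. -/
def tildePullbackAdj :
    tilde.functor R ⋙ Scheme.Modules.pullback (Spec.map φ) ⊣
      Scheme.Modules.pushforward (Spec.map φ) ⋙ moduleSpecΓFunctor (R := R) :=
  (tilde.adjunction (R := R)).comp (Scheme.Modules.pullbackPushforwardAdjunction (Spec.map φ))

/-- The composite adjunction `extendScalars ⋙ tilde ⊣ Γ ⋙ restrictScalars`. -/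
def extendTildeAdj :
    ModuleCat.extendScalars φ.hom ⋙ tilde.functor S ⊣
      moduleSpecΓFunctor (R := S) ⋙ ModuleCat.restrictScalars φ.hom :=
  (ModuleCat.extendRestrictScalarsAdj φ.hom).comp (tilde.adjunction (R := S))

/-- **Base change for tilde**: pulling back `M^~` along `Spec.map φ` is `(S ⊗[R] M)^~`. -/
def tildePullbackIso :
    tilde.functor R ⋙ Scheme.Modules.pullback (Spec.map φ) ≅
      ModuleCat.extendScalars φ.hom ⋙ tilde.functor S :=
  ((conjugateIsoEquiv (tildePullbackAdj φ) (extendTildeAdj φ)).symm (pushforwardCompΓIso φ)).symm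

end

end Fermat.Agent.S25.helper7939

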