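import Mathlib
import Fermat.Agent.S25.helper7939_TildeBaseChange

/-!
# Canonical pullback of sections and affine base change (S25, layer B, brick P8)

For a morphism of schemes `f : Y ⟶ X`, a sheaf of modules `M` on `X`, opens `V ⊆ X`, `W ⊆ Y`
with `W ≤ f ⁻¹ᵁ V`, the unit of the adjunction `f^* ⊣ f_*` induces a canonical additive map
`pullSec f M V W h : Γ(M, V) →+ Γ(f^* M, W)`, semilinear along `f.appLE V W h`.

Main results (all sectionwise, so no pseudofunctor coherence is ever needed downstream):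

* `pullSec_smul`, `pullSec_res`, `pullSec_naturality`: semilinearity, compatibility with
  restriction on both sides, naturality in `M`;
* `pullSec_comp`, `pullSec_congr`, `pullSec_id`: compatibility with `pullbackComp`,
  `pullbackCongr`, `pullbackId` (proved with mates: the mate of `pullbackComp` is the
  sectionwise identity `pushforwardComp`);
* `isBaseChangeAlong_pullSec_tilde`, `isBaseChangeAlong_pullSec_Spec`: for `φ : R ⟶ S` and a
  module `P ≅ N^~` on `Spec R`, the map `Γ(P, ⊤) → Γ((Spec φ)^* P, ⊤)` is a base change along `φ`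
  (native `R`- and `S`-module structures of Mathlib's `Tilde.lean`).

`IsBaseChangeAlong φ h` is Mathlib's `IsBaseChange` for the algebra structure `φ.toAlgebra`;
`IsBaseChangeAlong.of_comm` transports it along semilinear bijections.

The open-immersion case and the affine-opens form (`V ⊆ X`, `W ⊆ Y` affine, `W ≤ f ⁻¹ᵁ V`)
are in the companion file `helper8492_PullSecOpens.lean`.
-/

set_option autoImplicit false
universe u
open CategoryTheory CategoryTheory.Limits AlgebraicGeometry Opposite TopologicalSpace TensorProduct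

namespace Fermat.Agent.S25.helper8492

noncomputable section

variable {X Y Z : Scheme.{u}}

/-- The canonical map of sheaves `M ⟶ f_* f^* M`. -/
def pullUnit (f : Y ⟶ X) (M : X.Modules) :
    M ⟶ (Scheme.Modules.pushforward f).obj ((Scheme.Modules.pullback f).obj M) :=
  (Scheme.Modules.pullbackPushforwardAdjunction f).unit.app M

/-- Restriction of sections as an additive map. -/
def res (M : X.Modules) {V W : X.Opens} (h : W ≤ V) : Γ(M, V) →+ Γ(M, W) :=
  (M.presheaf.map (homOfLE h).op).hom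

lemma res_apply (M : X.Modules) {V W : X.Opens} (h : W ≤ V) (s : Γ(M, V)) :
    res M h s = M.presheaf.map (homOfLE h).op s := rfl

@[simp] lemma res_res (M : X.Modules) {V W W' : X.Opens} (h : W ≤ V) (h' : W' ≤ W)
    (s : Γ(M, V)) : res M h' (res M h s) = res M (h'.trans h) s := by
  simp only [res_apply]
  rw [← ConcreteCategory.comp_apply, ← M.presheaf.map_comp]
  rfl

@[simp] lemma res_self (M : X.Modules) {V : X.Opens} (h : V ≤ V) (s : Γ(M, V)) :
    res M h s = s := by
  simp only [res_apply]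
  have : (homOfLE h).op = 𝟙 (op V) := rfl
  rw [this, M.presheaf.map_id]
  rfl

lemma res_smul (M : X.Modules) {V W : X.Opens} (h : W ≤ V) (r : Γ(X, V)) (s : Γ(M, V)) :
    res M h (r • s) = (X.presheaf.map (homOfLE h).op).hom r • res M h s :=
  Scheme.Modules.map_smul M (homOfLE h) r s

/-- A morphism of sheaves of modules commutes with restriction. -/
lemma app_res {M N : X.Modules} (φ : M ⟶ N) {V W : X.Opens} (h : W ≤ V) (s : Γ(M, V)) :
    φ.app W (res M h s) = res N h (φ.app V s) := by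
  have := φ.mapPresheaf.naturality (homOfLE h).op
  exact congr($this s)

/-- Sections of a pushforward, as sections over the preimage (the identity map). -/
def pushSec (f : Y ⟶ X) (N : Y.Modules) (V : X.Opens) :
    Γ((Scheme.Modules.pushforward f).obj N, V) →+ Γ(N, f ⁻¹ᵁ V) :=
  AddMonoidHom.id _

lemma pushSec_smul (f : Y ⟶ X) (N : Y.Modules) (V : X.Opens) (r : Γ(X, V))
    (x : Γ((Scheme.Modules.pushforward f).obj N, V)) :
    pushSec f N V (r • x) = (f.app V).hom r • pushSec f N V x := rfl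

lemma pushSec_res (f : Y ⟶ X) (N : Y.Modules) {V V' : X.Opens} (h : V' ≤ V)
    (x : Γ((Scheme.Modules.pushforward f).obj N, V)) :
    pushSec f N V' (res _ h x) = res N (f.preimage_mono h) (pushSec f N V x) := rfl

lemma pushSec_map (f : Y ⟶ X) {N N' : Y.Modules} (φ : N ⟶ N') (V : X.Opens)
    (x : Γ((Scheme.Modules.pushforward f).obj N, V)) :
    pushSec f N' V (((Scheme.Modules.pushforward f).map φ).app V x) =
      φ.app (f ⁻¹ᵁ V) (pushSec f N V x) := rfl

/-- canonical pullback of sections -/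
def pullSec (f : Y ⟶ X) (M : X.Modules) (V : X.Opens) (W : Y.Opens) (h : W ≤ f ⁻¹ᵁ V) :
    Γ(M, V) →+ Γ((Scheme.Modules.pullback f).obj M, W) :=
  (res ((Scheme.Modules.pullback f).obj M) h).comp
    ((pushSec f _ V).comp ((pullUnit f M).app V).hom)

lemma pullSec_apply (f : Y ⟶ X) (M : X.Modules) (V : X.Opens) (W : Y.Opens) (h : W ≤ f ⁻¹ᵁ V)
    (s : Γ(M, V)) :
    pullSec f M V W h s = res _ h (pushSec f _ V ((pullUnit f M).app V s)) := rfl

lemma pullSec_smul (f : Y ⟶ X) (M : X.Modules) (V : X.Opens) (W : Y.Opens) (h : W ≤ f ⁻¹ᵁ V)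
    (r : Γ(X, V)) (s : Γ(M, V)) :
    pullSec f M V W h (r • s) = (f.appLE V W h).hom r • pullSec f M V W h s := by
  rw [pullSec_apply, pullSec_apply, Scheme.Modules.Hom.app_smul, pushSec_smul, res_smul]
  rfl

/-- `pullSec` commutes with restriction on both sides. -/
lemma pullSec_res (f : Y ⟶ X) (M : X.Modules) {V V' : X.Opens} {W W' : Y.Opens}
    (h : W ≤ f ⁻¹ᵁ V) (h' : W' ≤ f ⁻¹ᵁ V') (hV : V' ≤ V) (hW : W' ≤ W) (s : Γ(M, V)) :
    pullSec f M V' W' h' (res M hV s) = res _ hW (pullSec f M V W h s) := by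
  rw [pullSec_apply, pullSec_apply, app_res, pushSec_res, res_res, res_res]

/-- `pullSec` is natural in the module. -/
lemma pullSec_naturality (f : Y ⟶ X) {M M' : X.Modules} (φ : M ⟶ M') (V : X.Opens) (W : Y.Opens)
    (h : W ≤ f ⁻¹ᵁ V) (s : Γ(M, V)) :
    ((Scheme.Modules.pullback f).map φ).app W (pullSec f M V W h s) =
      pullSec f M' V W h (φ.app V s) := by
  rw [pullSec_apply, pullSec_apply, app_res]
  congr 1
  have := (Scheme.Modules.pullbackPushforwardAdjunction f).unit.naturality φ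
  have h2 := congr(($this).app V s)
  exact h2.symm

/-- Sections of a pushforward along a composition (the identity map). -/
def pushSecComp (g : Z ⟶ Y) (f : Y ⟶ X) (N : Z.Modules) (V : X.Opens) :
    Γ((Scheme.Modules.pushforward (g ≫ f)).obj N, V) →+ Γ(N, g ⁻¹ᵁ f ⁻¹ᵁ V) :=
  AddMonoidHom.id _

lemma pushSecComp_eq (g : Z ⟶ Y) (f : Y ⟶ X) (N : Z.Modules) (V : X.Opens)
    (x : Γ((Scheme.Modules.pushforward (g ≫ f)).obj N, V)) :
    pushSecComp g f N V x =
      res N (le_of_eq rfl : g ⁻¹ᵁ f ⁻¹ᵁ V ≤ (g ≫ f) ⁻¹ᵁ V) (pushSec (g ≫ f) N V x) :=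
  (res_self N (le_refl (g ⁻¹ᵁ f ⁻¹ᵁ V)) (pushSecComp g f N V x)).symm

/-- The composition formula for the units, sectionwise. -/
lemma pullUnit_comp (g : Z ⟶ Y) (f : Y ⟶ X) (M : X.Modules) (V : X.Opens) (s : Γ(M, V)) :
    pushSec g _ (f ⁻¹ᵁ V) ((pullUnit g ((Scheme.Modules.pullback f).obj M)).app (f ⁻¹ᵁ V)
      (pushSec f _ V ((pullUnit f M).app V s))) =
    ((Scheme.Modules.pullbackComp g f).inv.app M).app (g ⁻¹ᵁ f ⁻¹ᵁ V)
      (pushSecComp g f _ V ((pullUnit (g ≫ f) M).app V s)) := by
  have key := unit_conjugateEquiv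
    ((Scheme.Modules.pullbackPushforwardAdjunction f).comp
      (Scheme.Modules.pullbackPushforwardAdjunction g))
    (Scheme.Modules.pullbackPushforwardAdjunction (g ≫ f))
    (Scheme.Modules.pullbackComp g f).inv M
  rw [Scheme.Modules.conjugateEquiv_pullbackComp_inv] at key
  have key2 := congr(($key).app V s)
  exact key2

/-- `pullSec` is compatible with composition of morphisms. -/
lemma pullSec_comp (g : Z ⟶ Y) (f : Y ⟶ X) (M : X.Modules) (V : X.Opens) (W : Y.Opens)
    (T : Z.Opens) (hW : W ≤ f ⁻¹ᵁ V) (hT : T ≤ g ⁻¹ᵁ W) (hT' : T ≤ (g ≫ f) ⁻¹ᵁ V)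
    (s : Γ(M, V)) :
    ((Scheme.Modules.pullbackComp g f).hom.app M).app T
      (pullSec g ((Scheme.Modules.pullback f).obj M) W T hT (pullSec f M V W hW s)) =
    pullSec (g ≫ f) M V T hT' s := by
  have h1 : pullSec g ((Scheme.Modules.pullback f).obj M) W T hT (pullSec f M V W hW s) =
      res _ (hT.trans (g.preimage_mono hW))
        (pushSec g _ (f ⁻¹ᵁ V) ((pullUnit g ((Scheme.Modules.pullback f).obj M)).app (f ⁻¹ᵁ V)
          (pushSec f _ V ((pullUnit f M).app V s)))) := by
    rw [pullSec_apply f, pullSec_apply g, app_res, pushSec_res, res_res]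
  have h2 : ((Scheme.Modules.pullbackComp g f).hom.app M).app (g ⁻¹ᵁ f ⁻¹ᵁ V)
      (((Scheme.Modules.pullbackComp g f).inv.app M).app (g ⁻¹ᵁ f ⁻¹ᵁ V)
        (pushSecComp g f _ V ((pullUnit (g ≫ f) M).app V s))) =
      pushSecComp g f _ V ((pullUnit (g ≫ f) M).app V s) :=
    congr((($((Scheme.Modules.pullbackComp g f).inv_hom_id_app M)).app (g ⁻¹ᵁ f ⁻¹ᵁ V))
      (pushSecComp g f _ V ((pullUnit (g ≫ f) M).app V s)))
  rw [h1, pullUnit_comp]
  refine (app_res ((Scheme.Modules.pullbackComp g f).hom.app M)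
    (hT.trans (g.preimage_mono hW)) _).trans ?_
  refine (congrArg (res _ (hT.trans (g.preimage_mono hW))) h2).trans ?_
  rw [pushSecComp_eq, res_res, pullSec_apply]

/-- `pullSec` along equal morphisms. -/
lemma pullSec_congr {f f' : Y ⟶ X} (hf : f = f') (M : X.Modules) (V : X.Opens) (W : Y.Opens)
    (h : W ≤ f ⁻¹ᵁ V) (h' : W ≤ f' ⁻¹ᵁ V) (s : Γ(M, V)) :
    ((Scheme.Modules.pullbackCongr hf).hom.app M).app W (pullSec f M V W h s) =
      pullSec f' M V W h' s := by
  subst hf
  rfl

/-- Sections of a pushforward along the identity (the identity map). -/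
def pushSecId (N : X.Modules) (V : X.Opens) :
    Γ((Scheme.Modules.pushforward (𝟙 X)).obj N, V) →+ Γ(N, V) :=
  AddMonoidHom.id _

lemma pushSecId_eq (N : X.Modules) (V : X.Opens)
    (x : Γ((Scheme.Modules.pushforward (𝟙 X)).obj N, V)) :
    pushSecId N V x = res N (le_of_eq rfl : V ≤ 𝟙 X ⁻¹ᵁ V) (pushSec (𝟙 X) N V x) :=
  (res_self N (le_refl V) (pushSecId N V x)).symm

/-- The identity formula for the unit, sectionwise. -/
lemma pullUnit_id (M : X.Modules) (V : X.Opens) (s : Γ(M, V)) :
    ((Scheme.Modules.pullbackId X).hom.app M).app V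
      (pushSecId _ V ((pullUnit (𝟙 X) M).app V s)) = s := by
  have key := unit_conjugateEquiv (Adjunction.id (C := X.Modules))
    (Scheme.Modules.pullbackPushforwardAdjunction (𝟙 X))
    (Scheme.Modules.pullbackId X).hom M
  rw [Scheme.Modules.conjugateEquiv_pullbackId_hom] at key
  have key2 := congr(($key).app V s)
  exact key2.symm

/-- `pullSec` along the identity is restriction. -/
lemma pullSec_id (M : X.Modules) (V W : X.Opens) (h : W ≤ V) (h' : W ≤ 𝟙 X ⁻¹ᵁ V)
    (s : Γ(M, V)) :
    ((Scheme.Modules.pullbackId X).hom.app M).app W (pullSec (𝟙 X) M V W h' s) = res M h s := by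
  have h1 : pullSec (𝟙 X) M V W h' s = res _ h
      (pushSecId _ V ((pullUnit (𝟙 X) M).app V s)) := by
    rw [pullSec_apply, pushSecId_eq, res_res]
  rw [h1, app_res, pullUnit_id]
  rfl

/-- `h : N →+ P` is a base change along the ring homomorphism `φ : A →+* B`. -/
def IsBaseChangeAlong {A B : Type*} [CommRing A] [CommRing B] (φ : A →+* B) {N P : Type*}
    [AddCommGroup N] [Module A N] [AddCommGroup P] [Module B P] (h : N →+ P) : Prop :=
  letI := φ.toAlgebra
  letI : Module A P := Module.compHom P φ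
  haveI : IsScalarTower A B P := IsScalarTower.of_algebraMap_smul fun _ _ => rfl
  ∃ hs : ∀ (a : A) (n : N), h (a • n) = a • h n,
    IsBaseChange B ({ toFun := h, map_add' := h.map_add, map_smul' := hs } : N →ₗ[A] P)

lemma IsBaseChangeAlong.map_smul {A B : Type*} [CommRing A] [CommRing B] {φ : A →+* B}
    {N P : Type*} [AddCommGroup N] [Module A N] [AddCommGroup P] [Module B P] {h : N →+ P}
    (H : IsBaseChangeAlong φ h) (a : A) (n : N) : h (a • n) = φ a • h n := by
  obtain ⟨hs, -⟩ := H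
  exact hs a n

section Bridge

variable {R S : Type u} [CommRing R] [CommRing S] (φ : R →+* S)

/-- The identity between the two incarnations of `S ⊗[R] N`. -/
noncomputable def extendScalarsEquiv (N : ModuleCat.{u} R) :
    letI := φ.toAlgebra
    S ⊗[R] N ≃ₗ[S] (ModuleCat.extendScalars φ).obj N :=
  letI := φ.toAlgebra
  LinearEquiv.refl S _

lemma isBaseChangeAlong_of_iso (N : ModuleCat.{u} R) (P : ModuleCat.{u} S)
    (Θ : (ModuleCat.extendScalars φ).obj N ≅ P) (v : N →+ P)
    (hv : ∀ n, v n = Θ.hom ((ModuleCat.extendRestrictScalarsAdj φ).unit.app N n)) :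
    IsBaseChangeAlong φ v := by
  let _ := φ.toAlgebra
  let _ : Module R P := Module.compHom P φ
  have _ : IsScalarTower R S P := IsScalarTower.of_algebraMap_smul fun _ _ => rfl
  have hs : ∀ (a : R) (n : N), v (a • n) = a • v n := by
    intro a n
    rw [hv, hv, map_smul]
    exact Θ.hom.hom.map_smul (φ a) _
  refine ⟨hs, ?_⟩
  refine IsBaseChange.of_equiv ((extendScalarsEquiv φ N).trans Θ.toLinearEquiv) ?_
  intro x
  exact (hv x).symm

end Bridge


lemma IsBaseChangeAlong.of_comm {A B : Type*} [CommRing A] [CommRing B] {φ : A →+* B}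
    {N N' P P' : Type*} [AddCommGroup N] [Module A N] [AddCommGroup P] [Module B P]
    [AddCommGroup N'] [Module A N'] [AddCommGroup P'] [Module B P']
    {h : N →+ P} (H : IsBaseChangeAlong φ h) (h' : N' →+ P')
    (eN : N ≃+ N') (heN : ∀ (a : A) (n : N), eN (a • n) = a • eN n)
    (eP : P ≃+ P') (heP : ∀ (b : B) (p : P), eP (b • p) = b • eP p)
    (comm : ∀ n, h' (eN n) = eP (h n)) : IsBaseChangeAlong φ h' := by
  let _ := φ.toAlgebra
  let _ : Module A P := Module.compHom P φ
  have _ : IsScalarTower A B P := IsScalarTower.of_algebraMap_smul fun _ _ => rfl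
  let _ : Module A P' := Module.compHom P' φ
  have _ : IsScalarTower A B P' := IsScalarTower.of_algebraMap_smul fun _ _ => rfl
  obtain ⟨hs, hbc⟩ := H
  have hs' : ∀ (a : A) (n : N'), h' (a • n) = a • h' n := by
    intro a n
    obtain ⟨m, rfl⟩ := eN.surjective n
    rw [← heN, comm, comm, hs]
    exact heP (φ a) (h m)
  refine ⟨hs', ?_⟩
  let eNl : N ≃ₗ[A] N' := { eN with map_smul' := heN }
  let ePl : P ≃ₗ[B] P' := { eP with map_smul' := heP }
  refine (IsBaseChange.iff_of_equiv_comm eNl ePl ?_).mp hbc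
  ext n
  exact comm n

section Affine

open helper7939

variable {R S : CommRingCat.{u}} (φ : R ⟶ S)

lemma mate_tilde (N : ModuleCat.{u} R) :
    (tildePullbackAdj φ).unit.app N ≫ (pushforwardCompΓIso φ).hom.app _ =
      (extendTildeAdj φ).unit.app N ≫
        (moduleSpecΓFunctor (R := S) ⋙ ModuleCat.restrictScalars φ.hom).map
          ((tildePullbackIso φ).inv.app N) :=
  unit_conjugateEquiv_symm (tildePullbackAdj φ) (extendTildeAdj φ) (pushforwardCompΓIso φ).hom N

/-- Sections over `⊤` of a pushforward (the identity map). -/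
def pushSecTop (f : Y ⟶ X) (N : Y.Modules) :
    Γ((Scheme.Modules.pushforward f).obj N, ⊤) →+ Γ(N, ⊤) :=
  AddMonoidHom.id _

lemma top_le_preimage_top (f : Y ⟶ X) : (⊤ : Y.Opens) ≤ f ⁻¹ᵁ ⊤ := le_of_eq rfl

lemma pullSec_top (f : Y ⟶ X) (M : X.Modules) (h : (⊤ : Y.Opens) ≤ f ⁻¹ᵁ ⊤) (s : Γ(M, ⊤)) :
    pullSec f M ⊤ ⊤ h s = pushSecTop f _ ((pullUnit f M).app ⊤ s) :=
  res_self _ (le_refl ⊤) (pushSecTop f _ ((pullUnit f M).app ⊤ s))

/-- The comparison isomorphism `S ⊗[R] N ≅ Γ(f^* Ñ)`. -/
def tildeΘ (N : ModuleCat.{u} R) :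
    (ModuleCat.extendScalars φ.hom).obj N ≅
      moduleSpecΓFunctor.obj ((Scheme.Modules.pullback (Spec.map φ)).obj (tilde N)) :=
  tilde.isoTop _ ≪≫ moduleSpecΓFunctor.mapIso ((tildePullbackIso φ).symm.app N)

/-- The canonical map `N → Γ(Ñ, ⊤)` as an additive map. -/
def toOpenTop (N : ModuleCat.{u} R) : N →+ Γ(tilde N, ⊤) :=
  (tilde.toOpen N ⊤).hom.toAddMonoidHom

lemma toOpenTop_smul (N : ModuleCat.{u} R) (r : R) (n : N) :
    toOpenTop N (r • n) = r • toOpenTop N n :=
  (tilde.toOpen N ⊤).hom.map_smul r n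

lemma toOpenTop_bijective (N : ModuleCat.{u} R) : Function.Bijective (toOpenTop N) :=
  (ConcreteCategory.isIso_iff_bijective (tilde.toOpen N ⊤)).mp inferInstance

lemma pullSec_tilde_toOpen (N : ModuleCat.{u} R) (n : N) :
    pullSec (Spec.map φ) (tilde N) ⊤ ⊤ (top_le_preimage_top _) (toOpenTop N n) =
      (tildeΘ φ N).hom ((ModuleCat.extendRestrictScalarsAdj φ.hom).unit.app N n) := by
  refine (pullSec_top _ _ _ _).trans ?_
  have key := congr($(mate_tilde φ N) n)
  exact key

end Affine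

section Affine

variable {R S : CommRingCat.{u}} (φ : R ⟶ S)

/-- Sections over `⊤` of a morphism of modules on `Spec R` are `R`-linear. -/
lemma app_smul_Spec {M N : (Spec R).Modules} (e : M ⟶ N) (U : (Spec R).Opens) (r : R)
    (x : Γ(M, U)) : e.app U (r • x) = r • e.app U x := by
  rw [Scheme.Modules.smul_Spec_def, Scheme.Modules.smul_Spec_def, Scheme.Modules.Hom.app_smul]

lemma app_bijective_of_isIso {X : Scheme.{u}} {M N : X.Modules} (e : M ⟶ N) [IsIso e]
    (U : X.Opens) : Function.Bijective (e.app U) :=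
  (ConcreteCategory.isIso_iff_bijective (e.app U)).mp inferInstance

/-- **Affine base change for `M^~`**. -/
theorem isBaseChangeAlong_pullSec_tilde (N : ModuleCat.{u} R) :
    IsBaseChangeAlong φ.hom
      (pullSec (Spec.map φ) (tilde N) ⊤ ⊤ (top_le_preimage_top _)) := by
  have H := isBaseChangeAlong_of_iso φ.hom N
    (moduleSpecΓFunctor.obj ((Scheme.Modules.pullback (Spec.map φ)).obj (tilde N)))
    (tildeΘ φ N)
    ((pullSec (Spec.map φ) (tilde N) ⊤ ⊤ (top_le_preimage_top _)).comp (toOpenTop N))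
    (fun n => pullSec_tilde_toOpen φ N n)
  exact H.of_comm _ (AddEquiv.ofBijective (toOpenTop N) (toOpenTop_bijective N))
    (toOpenTop_smul N) (AddEquiv.refl _) (fun _ _ => rfl) (fun _ => rfl)

/-- **Affine base change** for a module on `Spec R` isomorphic to some `N^~`. -/
theorem isBaseChangeAlong_pullSec_Spec (P : (Spec R).Modules) (N : ModuleCat.{u} R)
    (e : tilde N ≅ P) :
    IsBaseChangeAlong φ.hom (pullSec (Spec.map φ) P ⊤ ⊤ (top_le_preimage_top _)) := by
  refine (isBaseChangeAlong_pullSec_tilde φ N).of_comm _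
    (AddEquiv.ofBijective (e.hom.app ⊤).hom (app_bijective_of_isIso e.hom ⊤))
    (fun a n => app_smul_Spec e.hom ⊤ a n)
    (AddEquiv.ofBijective (((Scheme.Modules.pullback (Spec.map φ)).map e.hom).app ⊤).hom
      (app_bijective_of_isIso _ ⊤))
    (fun b p => app_smul_Spec _ ⊤ b p) ?_
  intro n
  exact (pullSec_naturality (Spec.map φ) e.hom ⊤ ⊤ (top_le_preimage_top _) n).symm

end Affine

end
end Fermat.Agent.S25.helper8492
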