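import Mathlib
import Fermat.Agent.S25.helper8492_PullSec

/-!
# Pullback of sections: open immersions and the affine-opens base change (S25, brick P8)

Companion of `helper8492_PullSec.lean`.

* `pullSec_of_isOpenImmersion`: for an open immersion `j`, `pullSec j M V W` is the restriction
  of sections `Γ(M, V) → Γ(M, j ''ᵁ W)` followed by `restrictFunctorIsoPullback`;
* `pullSec_bijective_of_image_eq`: it is bijective when `j ''ᵁ W = V`;
* `isBaseChangeAlong_pullSec`: for `f : Y ⟶ X`, affine opens `V ⊆ X`, `W ⊆ Y` with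
  `W ≤ f ⁻¹ᵁ V`, and `M` whose pullback to `Spec Γ(X, V)` is some `N^~` (e.g. `M` quasi-coherent),
  the canonical map `Γ(M, V) → Γ(f^* M, W)` is a base change along `Γ(X, V) → Γ(Y, W)`.
-/

set_option autoImplicit false
universe u
open CategoryTheory CategoryTheory.Limits AlgebraicGeometry Opposite TopologicalSpace TensorProduct

namespace Fermat.Agent.S25.helper8492

noncomputable section

variable {X Y Z : Scheme.{u}}

section OpenImmersion

variable (j : Y ⟶ X) [IsOpenImmersion j]

/-- Sections of `M` over the image `j ''ᵁ W`, as sections of the restriction over `W`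
(the identity map). -/
def restrSec (M : X.Modules) (W : Y.Opens) : Γ(M, j ''ᵁ W) →+ Γ(M.restrict j, W) :=
  (M.restrictAppIso j W).inv.hom

lemma restrSec_bijective (M : X.Modules) (W : Y.Opens) : Function.Bijective (restrSec j M W) :=
  (ConcreteCategory.isIso_iff_bijective (M.restrictAppIso j W).inv).mp inferInstance

lemma pullUnit_of_isOpenImmersion (M : X.Modules) :
    pullUnit j M = (Scheme.Modules.restrictAdjunction j).unit.app M ≫
      (Scheme.Modules.pushforward j).map
        ((Scheme.Modules.restrictFunctorIsoPullback j).hom.app M) :=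
  (Adjunction.unit_leftAdjointUniq_hom_app (Scheme.Modules.restrictAdjunction j)
    (Scheme.Modules.pullbackPushforwardAdjunction j) M).symm

/-- For an open immersion, `pullSec` is restriction of sections. -/
lemma pullSec_of_isOpenImmersion (M : X.Modules) (V : X.Opens) (W : Y.Opens)
    (h : W ≤ j ⁻¹ᵁ V) (h' : j ''ᵁ W ≤ V) (s : Γ(M, V)) :
    pullSec j M V W h s =
      ((Scheme.Modules.restrictFunctorIsoPullback j).hom.app M).app W
        (restrSec j M W (res M h' s)) := by
  rw [pullSec_apply, pullUnit_of_isOpenImmersion]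
  have h1 : pushSec j _ V ((((Scheme.Modules.restrictAdjunction j).unit.app M ≫
      (Scheme.Modules.pushforward j).map
        ((Scheme.Modules.restrictFunctorIsoPullback j).hom.app M)).app V) s) =
      ((Scheme.Modules.restrictFunctorIsoPullback j).hom.app M).app (j ⁻¹ᵁ V)
        (pushSec j (M.restrict j) V
          (((Scheme.Modules.restrictAdjunction j).unit.app M).app V s)) := rfl
  rw [h1, ← app_res]
  congr 1
  change (M.presheaf.map _ ≫ M.presheaf.map _) s = M.presheaf.map _ s
  rw [← M.presheaf.map_comp]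
  rfl

/-- For an open immersion `j` with `j ''ᵁ W = V`, `pullSec j M V W` is bijective. -/
lemma pullSec_bijective_of_image_eq (M : X.Modules) (V : X.Opens) (W : Y.Opens)
    (h : W ≤ j ⁻¹ᵁ V) (hVW : j ''ᵁ W = V) : Function.Bijective (pullSec j M V W h) := by
  subst hVW
  have h1 : ⇑(pullSec j M (j ''ᵁ W) W h) =
      (fun s => ((Scheme.Modules.restrictFunctorIsoPullback j).hom.app M).app W
        (restrSec j M W s)) := by
    funext s
    rw [pullSec_of_isOpenImmersion j M _ W h le_rfl, res_self]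
  rw [h1]
  exact (app_bijective_of_isIso _ W).comp (restrSec_bijective j M W)

end OpenImmersion

section AffineOpens

variable {V : X.Opens} {W : Y.Opens}

lemma top_le_fromSpec_preimage (hV : IsAffineOpen V) :
    (⊤ : (Spec Γ(X, V)).Opens) ≤ hV.fromSpec ⁻¹ᵁ V :=
  le_of_eq hV.fromSpec_preimage_self.symm

lemma fromSpec_appLE_top (hV : IsAffineOpen V) (a : Γ(X, V)) :
    (hV.fromSpec.appLE V ⊤ (top_le_fromSpec_preimage hV)).hom a =
      ((Spec Γ(X, V)).presheaf.map (⊤ : (Spec Γ(X, V)).Opens).leTop.op).hom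
        ((Scheme.ΓSpecIso Γ(X, V)).inv.hom a) := by
  have h1 : hV.fromSpec.appLE V ⊤ (top_le_fromSpec_preimage hV) =
      (Scheme.ΓSpecIso Γ(X, V)).inv ≫
        (Spec Γ(X, V)).presheaf.map (⊤ : (Spec Γ(X, V)).Opens).leTop.op := by
    rw [Scheme.Hom.appLE, hV.fromSpec_app_self, Category.assoc, ← Functor.map_comp]
    rfl
  rw [h1]
  rfl

/-- The chart bijection `Γ(M, V) ≃ Γ(j_V^* M, ⊤)` for an affine open `V`. -/
def chartSec (hV : IsAffineOpen V) (M : X.Modules) :
    Γ(M, V) ≃+ Γ((Scheme.Modules.pullback hV.fromSpec).obj M, ⊤) :=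
  AddEquiv.ofBijective (pullSec hV.fromSpec M V ⊤ (top_le_fromSpec_preimage hV))
    (pullSec_bijective_of_image_eq hV.fromSpec M V ⊤ _
      (by rw [Scheme.Hom.image_top_eq_opensRange, hV.opensRange_fromSpec]))

lemma chartSec_apply (hV : IsAffineOpen V) (M : X.Modules) (s : Γ(M, V)) :
    chartSec hV M s = pullSec hV.fromSpec M V ⊤ (top_le_fromSpec_preimage hV) s := rfl

/-- `chartSec` is linear over `Γ(X, V)` (native module structure on the `Spec` side). -/
lemma chartSec_smul (hV : IsAffineOpen V) (M : X.Modules) (a : Γ(X, V)) (s : Γ(M, V)) :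
    chartSec hV M (a • s) = a • chartSec hV M s := by
  rw [chartSec_apply, chartSec_apply, pullSec_smul, Scheme.Modules.smul_Spec_def,
    fromSpec_appLE_top]

/-- The comparison isomorphism around the square
`hW.fromSpec ≫ f = Spec.map (f.appLE V W h) ≫ hV.fromSpec`. -/
def squareIso (f : Y ⟶ X) (hV : IsAffineOpen V) (hW : IsAffineOpen W) (h : W ≤ f ⁻¹ᵁ V)
    (M : X.Modules) :
    (Scheme.Modules.pullback (Spec.map (f.appLE V W h))).obj
        ((Scheme.Modules.pullback hV.fromSpec).obj M) ≅
      (Scheme.Modules.pullback hW.fromSpec).obj ((Scheme.Modules.pullback f).obj M) :=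
  (Scheme.Modules.pullbackComp (Spec.map (f.appLE V W h)) hV.fromSpec).app M ≪≫
    (Scheme.Modules.pullbackCongr (IsAffineOpen.SpecMap_appLE_fromSpec f hV hW h)).app M ≪≫
    ((Scheme.Modules.pullbackComp hW.fromSpec f).app M).symm

/-- The fundamental square of pullbacks of sections. -/
lemma squareIso_pullSec (f : Y ⟶ X) (hV : IsAffineOpen V) (hW : IsAffineOpen W)
    (h : W ≤ f ⁻¹ᵁ V) (M : X.Modules) (s : Γ(M, V)) :
    (squareIso f hV hW h M).hom.app ⊤
      (pullSec (Spec.map (f.appLE V W h)) ((Scheme.Modules.pullback hV.fromSpec).obj M) ⊤ ⊤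
        (top_le_preimage_top _) (chartSec hV M s)) =
    chartSec hW ((Scheme.Modules.pullback f).obj M) (pullSec f M V W h s) := by
  have hT1 : (⊤ : (Spec Γ(Y, W)).Opens) ≤
      (Spec.map (f.appLE V W h) ≫ hV.fromSpec) ⁻¹ᵁ V := by
    rw [IsAffineOpen.SpecMap_appLE_fromSpec f hV hW h]
    exact (top_le_fromSpec_preimage hW).trans (hW.fromSpec.preimage_mono h)
  have hT2 : (⊤ : (Spec Γ(Y, W)).Opens) ≤ (hW.fromSpec ≫ f) ⁻¹ᵁ V :=
    (top_le_fromSpec_preimage hW).trans (hW.fromSpec.preimage_mono h)
  have e1 := pullSec_comp (Spec.map (f.appLE V W h)) hV.fromSpec M V ⊤ ⊤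
    (top_le_fromSpec_preimage hV) (top_le_preimage_top _) hT1 s
  have e2 := pullSec_congr (IsAffineOpen.SpecMap_appLE_fromSpec f hV hW h) M V ⊤ hT1 hT2 s
  have e3 := pullSec_comp hW.fromSpec f M V W ⊤ h (top_le_fromSpec_preimage hW) hT2 s
  rw [chartSec_apply, chartSec_apply]
  simp only [squareIso, Iso.trans_hom, Iso.app_hom, Iso.symm_hom, Iso.app_inv,
    Scheme.Modules.Hom.comp_app, ConcreteCategory.comp_apply]
  rw [e1, e2, ← e3]
  exact congr((($((Scheme.Modules.pullbackComp hW.fromSpec f).hom_inv_id_app M)).app ⊤) _)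

lemma chartSec_symm_smul (hV : IsAffineOpen V) (M : X.Modules) (a : Γ(X, V))
    (n : Γ((Scheme.Modules.pullback hV.fromSpec).obj M, ⊤)) :
    (chartSec hV M).symm (a • n) = a • (chartSec hV M).symm n := by
  apply (chartSec hV M).injective
  rw [chartSec_smul, AddEquiv.apply_symm_apply, AddEquiv.apply_symm_apply]

/-- **Base change for sections of a pullback, affine-opens form.**
Let `f : Y ⟶ X`, `V ⊆ X` and `W ⊆ Y` affine opens with `W ≤ f ⁻¹ᵁ V`, and `M` a sheaf of modules
on `X` whose pullback to `Spec Γ(X, V)` is of the form `N^~`. Then the canonical map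
`Γ(M, V) → Γ(f^* M, W)` is a base change along `Γ(X, V) → Γ(Y, W)`. -/
theorem isBaseChangeAlong_pullSec (f : Y ⟶ X) (hV : IsAffineOpen V) (hW : IsAffineOpen W)
    (h : W ≤ f ⁻¹ᵁ V) (M : X.Modules) (N : ModuleCat.{u} Γ(X, V))
    (e : tilde N ≅ (Scheme.Modules.pullback hV.fromSpec).obj M) :
    IsBaseChangeAlong (f.appLE V W h).hom (pullSec f M V W h) := by
  have H1 := isBaseChangeAlong_pullSec_Spec (f.appLE V W h)
    ((Scheme.Modules.pullback hV.fromSpec).obj M) N e
  let eP : Γ((Scheme.Modules.pullback (Spec.map (f.appLE V W h))).obj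
        ((Scheme.Modules.pullback hV.fromSpec).obj M), ⊤) ≃+
      Γ((Scheme.Modules.pullback f).obj M, W) :=
    (AddEquiv.ofBijective ((squareIso f hV hW h M).hom.app ⊤).hom
      (app_bijective_of_isIso _ ⊤)).trans (chartSec hW ((Scheme.Modules.pullback f).obj M)).symm
  refine H1.of_comm (pullSec f M V W h) (chartSec hV M).symm (chartSec_symm_smul hV M) eP ?_ ?_
  · intro b p
    change (chartSec hW _).symm ((squareIso f hV hW h M).hom.app ⊤ (b • p)) =
      b • (chartSec hW _).symm ((squareIso f hV hW h M).hom.app ⊤ p)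
    rw [app_smul_Spec, chartSec_symm_smul]
  · intro n
    obtain ⟨s, rfl⟩ := (chartSec hV M).surjective n
    rw [AddEquiv.symm_apply_apply]
    change _ = (chartSec hW _).symm ((squareIso f hV hW h M).hom.app ⊤ _)
    rw [squareIso_pullSec, AddEquiv.symm_apply_apply]

/-- Quasi-coherent version of `isBaseChangeAlong_pullSec`. -/
theorem isBaseChangeAlong_pullSec_of_isQuasicoherent (f : Y ⟶ X) (hV : IsAffineOpen V)
    (hW : IsAffineOpen W) (h : W ≤ f ⁻¹ᵁ V) (M : X.Modules) [M.IsQuasicoherent] :
    IsBaseChangeAlong (f.appLE V W h).hom (pullSec f M V W h) := by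
  have hr : ((Scheme.Modules.restrictFunctor hV.fromSpec).obj M).IsQuasicoherent :=
    inferInstance
  have hq : ((Scheme.Modules.pullback hV.fromSpec).obj M).IsQuasicoherent :=
    (SheafOfModules.isQuasicoherent (Spec Γ(X, V)).ringCatSheaf).prop_of_iso
      ((Scheme.Modules.restrictFunctorIsoPullback hV.fromSpec).app M) hr
  have hiso : IsIso ((Scheme.Modules.pullback hV.fromSpec).obj M).fromTildeΓ :=
    Scheme.Modules.isIso_fromTildeΓ_of_isQuasicoherent _
  exact isBaseChangeAlong_pullSec f hV hW h M _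
    (asIso ((Scheme.Modules.pullback hV.fromSpec).obj M).fromTildeΓ)

end AffineOpens

end

end Fermat.Agent.S25.helper8492
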