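import Fermat.Agent.S25.helper8915_DictBaseChange
import Fermat.Agent.S25.helper8492_PullSecOpens

/-!
# S25, layer B: the `baseChange` field of the dictionary, closed (helper263)

`stmt_BaseChange R : helper7939.Stmt_BaseChange R`, by feeding P8-opens
(`helper8492.isBaseChangeAlong_pullSec_of_isQuasicoherent`) into
`helper8915.stmt_BaseChange_of`.
-/

set_option autoImplicit false

universe u

open CategoryTheory CategoryTheory.Limits AlgebraicGeometry
open AlgebraicGeometry.RelPicard NeronModelInfra Fermat.Agent.S25.helper1705

namespace Fermat.Agent.S25.helper263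

/-- **P8-opens** in the shape consumed by `helper8915.stmt_BaseChange_of`. -/
theorem stmt_PullSecOpens : helper8915.Stmt_PullSecOpens.{u} :=
  fun f M _ _ _ h hV hW => helper8492.isBaseChangeAlong_pullSec_of_isQuasicoherent f hV hW h M

/-- **Field `baseChange` of the dictionary.** -/
theorem stmt_BaseChange {k : Type u} [Field k] {C : Scheme.{u}}
    {c : C ⟶ Spec (CommRingCat.of k)} {ε : SchemeHomOver (𝟙 (Spec (CommRingCat.of k))) c}
    {D : CurveDatum k} (R : Realization c ε D) : helper7939.Stmt_BaseChange R :=
  helper8915.stmt_BaseChange_of stmt_PullSecOpens R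

end Fermat.Agent.S25.helper263
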