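import Fermat.Agent.S25.helper9577_TwoChartGlue

set_option autoImplicit false

universe u

open CategoryTheory CategoryTheory.Limits AlgebraicGeometry

namespace Fermat.Agent.S25.helper263

section Abstract

universe v₁ v₂ v₃ v₄ u₁ u₂ u₃ u₄

variable {MA : Type u₁} {MA' : Type u₂} {QA : Type u₃} {QA' : Type u₄}
  [Category.{v₁} MA] [Category.{v₂} MA'] [Category.{v₃} QA] [Category.{v₄} QA']
  {T : MA ⥤ QA} {Γ : QA ⥤ MA} {T' : MA' ⥤ QA'} {Γ' : QA' ⥤ MA'}
  {Pb : QA ⥤ QA'} {P : QA' ⥤ QA} {Ext : MA ⥤ MA'} {Res : MA' ⥤ MA}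
  (adjT : T ⊣ Γ) (adjT' : T' ⊣ Γ') (adjP : Pb ⊣ P) (adjE : Ext ⊣ Res)
  (β : P ⋙ Γ ≅ Γ' ⋙ Res)

/-- Abstract form of the computation of the unit-transpose of a conjugate isomorphism. -/
lemma unit_conjugate_transpose (N : MA) {N' : MA'} (θ : Ext.obj N ⟶ N') :
    adjT.unit.app N ≫ Γ.map (adjP.unit.app (T.obj N) ≫ P.map
        ((((conjugateIsoEquiv (adjT.comp adjP) (adjE.comp adjT')).symm β).symm).hom.app N ≫
          T'.map θ)) =
      adjE.unit.app N ≫ Res.map θ ≫ Res.map (adjT'.unit.app N') ≫ β.inv.app (T'.obj N') := by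
  have h := unit_conjugateEquiv (adjE.comp adjT') (adjT.comp adjP)
    (((conjugateIsoEquiv (adjT.comp adjP) (adjE.comp adjT')).symm β).symm).hom N
  have hc : conjugateEquiv (adjE.comp adjT') (adjT.comp adjP)
      (((conjugateIsoEquiv (adjT.comp adjP) (adjE.comp adjT')).symm β).symm).hom = β.inv :=
    Equiv.apply_symm_apply _ _
  rw [hc] at h
  simp only [Adjunction.comp_unit_app, Functor.comp_obj, Functor.comp_map, Category.assoc] at h
  have nat1 := β.inv.naturality (T'.map θ)
  have nat2 := adjT'.unit.naturality θ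
  simp only [Functor.comp_obj, Functor.comp_map, Functor.id_obj, Functor.id_map] at nat1 nat2
  simp only [Functor.map_comp]
  rw [← reassoc_of% h, ← nat1, ← Res.map_comp_assoc, ← nat2, Res.map_comp_assoc]

end Abstract

noncomputable section

variable {A A' : CommRingCat.{u}} (r : A ⟶ A') [IsOpenImmersion (Spec.map r)]
  (N : ModuleCat.{u} A) (N' : ModuleCat.{u} A')
  (θ : (ModuleCat.extendScalars r.hom).obj N ≅ N')

/-- `tildeRes` is the transpose, under `pullback ⊣ pushforward`, of the base-change
isomorphism followed by `θ`. -/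
lemma tildeRes_eq_unit_comp :
    helper9577.tildeRes r N N' θ =
      (Scheme.Modules.pullbackPushforwardAdjunction (Spec.map r)).unit.app (tilde N) ≫
        (Scheme.Modules.pushforward (Spec.map r)).map
          ((helper7939.tildePullbackIso r).hom.app N ≫ (tilde.functor A').map θ.hom) := by
  have h := Adjunction.unit_leftAdjointUniq_hom_app
    (Scheme.Modules.restrictAdjunction (Spec.map r))
    (Scheme.Modules.pullbackPushforwardAdjunction (Spec.map r)) (tilde N)
  rw [← h]
  unfold helper9577.tildeRes helper9577.toPushforward helper9577.kappa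
  simp only [Iso.trans_hom, Iso.app_hom, Functor.map_comp, Category.assoc]
  rfl

/-- **Global sections of `tildeRes`**, categorical form: through the units of the tilde
adjunctions, `Γ(tildeRes r N N' θ)` is `n ↦ θ (1 ⊗ n)`. -/
theorem tildeRes_unit :
    (tilde.adjunction (R := A)).unit.app N ≫
        (moduleSpecΓFunctor (R := A)).map (helper9577.tildeRes r N N' θ) =
      (ModuleCat.extendRestrictScalarsAdj r.hom).unit.app N ≫
        (ModuleCat.restrictScalars r.hom).map θ.hom ≫
        (ModuleCat.restrictScalars r.hom).map ((tilde.adjunction (R := A')).unit.app N') ≫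
        (helper7939.pushforwardCompΓIso r).inv.app (tilde N') := by
  rw [tildeRes_eq_unit_comp]
  exact unit_conjugate_transpose (tilde.adjunction (R := A)) (tilde.adjunction (R := A'))
    (Scheme.Modules.pullbackPushforwardAdjunction (Spec.map r))
    (ModuleCat.extendRestrictScalarsAdj r.hom) (helper7939.pushforwardCompΓIso r) N θ.hom

open TensorProduct in
/-- **Global sections of `tildeRes`**, elementwise. -/
theorem tildeRes_app_top (n : N) :
    (helper9577.tildeRes r N N' θ).app ⊤ ((tilde.toOpen N ⊤).hom n) =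
      (tilde.toOpen N' ⊤).hom (θ.hom.hom
        (helper9577.tm r.hom (1 : A') n)) := by
  have h := congr($(tildeRes_unit r N N' θ) n)
  exact h

/-- **Global sections of `tildeRes` for a localization-type semilinear map `ρ`**: the map
`N → N'` induced on global sections is `ρ` itself. -/
theorem tildeRes_extendIso_app_top (ρ : N ⟶ (ModuleCat.restrictScalars r.hom).obj N') {x : A}
    (h : helper9577.IsLocAt r.hom ρ x) (n : N) :
    (helper9577.tildeRes r N N' (helper9577.extendIso h)).app ⊤ ((tilde.toOpen N ⊤).hom n) =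
      (tilde.toOpen N' ⊤).hom (show N' from ρ.hom n) := by
  rw [tildeRes_app_top]
  congr 1
  have h1 : (helper9577.extendIso h).hom.hom (helper9577.tm r.hom (1 : A') n) =
      (1 : A') • (show N' from ρ.hom n) := helper9577.extendMap_tm r.hom ρ 1 n
  rw [h1, one_smul]

end

end Fermat.Agent.S25.helper263
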