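import Fermat.Agent.S25.helper622_PointTwist
import Fermat.Agent.S25.helper8573_LCSpec
import Fermat.Agent.S25.helper8703_FieldGlue
import Fermat.Agent.S25.helper3115_Twist
import Fermat.Agent.S25.helper8663_PointDecompCurve
import Fermat.Agent.S25.helper69_ChartGlue

/-!
# S25, leaf U9a (S-PEEL): peeling points off a morphism of two-chart line bundles

`k` algebraically closed, `K` an algebraically closed field over `k`, `G N : GlueDatum D K`,
`τ : Mor G N` nonzero on chart `0` and surjective modulo `y` on the chart at infinity.  Then `G`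
is obtained from `N` by twisting with exactly `dim_K (N.M₀ ⧸ τ.f₀ G.M₀)` points of chart `0`:

* `exists_mor_ofSubmodules`, `exists_mor_twist` : a morphism whose chart maps land in a sub-datum
  factors through it (any base ring);
* `surjModY_of_factor` : the factor stays surjective modulo `y` when the ideal at infinity
  contains some `u ≡ 1 mod y`;
* `finrank_coker_of_factor` : additivity of the chart-`0` colength;
* `equiv_of_mor_surj` : the base case (`τ.f₀` onto ⟹ `G ≈ N`), `exists_point` : a point through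
  which `τ` factors otherwise;
* `peel_step`, `peel` : the statement on `helper622.tw₀` / `(helper622.pointTwist D).twList`.
-/

set_option autoImplicit false

open TensorProduct Module

namespace Fermat.Agent.S25.helper2734

open Fermat.Agent.S25.helper1705 Fermat.Agent.S25.helper2945 Fermat.Agent.S25.helper8573

universe u

/-! ## Generic linear algebra -/

section Generic

/-- Dimension count for a short exact sequence with finite-dimensional middle term. -/
theorem finrank_of_exact {K U V W : Type*} [Field K] [AddCommGroup U] [Module K U]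
    [AddCommGroup V] [Module K V] [AddCommGroup W] [Module K W]
    (g : U →ₗ[K] V) (h : V →ₗ[K] W) (hg : Function.Injective g) (hh : Function.Surjective h)
    (hex : LinearMap.ker h = LinearMap.range g) [FiniteDimensional K V] :
    finrank K V = finrank K U + finrank K W := by
  have h1 := h.finrank_range_add_finrank_ker
  rw [LinearMap.range_eq_top.mpr hh, finrank_top, hex, LinearMap.finrank_range_of_inj hg] at h1
  omega

/-- Colength is additive along a factorisation `f = ι ∘ f'` with `ι` injective. -/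
theorem finrank_coker_comp {K A : Type*} [Field K] [CommRing A] [Algebra K A]
    {G M' M : Type*} [AddCommGroup G] [Module A G]
    [AddCommGroup M'] [Module A M'] [Module K M'] [IsScalarTower K A M']
    [AddCommGroup M] [Module A M] [Module K M] [IsScalarTower K A M]
    (f : G →ₗ[A] M) (f' : G →ₗ[A] M') (ι : M' →ₗ[A] M) (hι : Function.Injective ι)
    (hf : ∀ g, ι (f' g) = f g) [Module.Finite K (M ⧸ LinearMap.range f)] :
    finrank K (M ⧸ LinearMap.range f) =
      finrank K (M' ⧸ LinearMap.range f') + finrank K (M ⧸ LinearMap.range ι) := by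
  have hle1 : LinearMap.range f' ≤ (LinearMap.range f).comap ι := by
    rintro _ ⟨g, rfl⟩
    exact ⟨g, (hf g).symm⟩
  have hle2 : LinearMap.range f ≤ LinearMap.range ι := by
    rintro _ ⟨g, rfl⟩
    exact ⟨f' g, hf g⟩
  let g : (M' ⧸ LinearMap.range f') →ₗ[A] (M ⧸ LinearMap.range f) :=
    Submodule.mapQ _ _ ι hle1
  let h : (M ⧸ LinearMap.range f) →ₗ[A] (M ⧸ LinearMap.range ι) := Submodule.factor hle2
  have gmk : ∀ m' : M', g (Submodule.Quotient.mk m') = Submodule.Quotient.mk (ι m') :=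
    fun _ => rfl
  have hmk : ∀ m : M, h (Submodule.Quotient.mk m) = Submodule.Quotient.mk m := fun _ => rfl
  have hg : Function.Injective g := by
    rw [injective_iff_map_eq_zero]
    intro z hz
    obtain ⟨m', rfl⟩ := Submodule.Quotient.mk_surjective _ z
    rw [gmk, Submodule.Quotient.mk_eq_zero] at hz
    obtain ⟨e, he⟩ := hz
    rw [Submodule.Quotient.mk_eq_zero]
    exact ⟨e, hι ((hf e).trans he)⟩
  have hh : Function.Surjective h := Submodule.factor_surjective hle2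
  have hex : LinearMap.ker h = LinearMap.range g := by
    ext z
    obtain ⟨m, rfl⟩ := Submodule.Quotient.mk_surjective _ z
    simp only [LinearMap.mem_ker, hmk, Submodule.Quotient.mk_eq_zero, LinearMap.mem_range]
    constructor
    · rintro ⟨m', rfl⟩
      exact ⟨Submodule.Quotient.mk m', gmk m'⟩
    · rintro ⟨w, hw⟩
      obtain ⟨m', rfl⟩ := Submodule.Quotient.mk_surjective _ w
      rw [gmk, Submodule.Quotient.eq] at hw
      obtain ⟨e, he⟩ := hw
      refine ⟨m' - f' e, ?_⟩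
      rw [map_sub, hf, he]
      abel
  have hexK : LinearMap.ker (h.restrictScalars K) = LinearMap.range (g.restrictScalars K) := by
    ext z
    exact (SetLike.ext_iff.mp hex z)
  exact finrank_of_exact (g.restrictScalars K) (h.restrictScalars K) hg hh hexK

end Generic

/-! ## Factorisation of a morphism through a sub-datum -/

section Factor

variable {k : Type u} [Field k] {D : CurveDatum k} {B : Type u} [CommRing B] [Algebra k B]

/-- If a morphism sends chart `0` into `Λ₀`, it sends the overlap into the span of `Λ₀`. -/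
theorem mor_overlap_mem_span₀ {G N : GlueDatum D B} (τ : Mor G N)
    (Λ₀ : Submodule (D.A₀ B) N.M₀) (h₀ : ∀ m, τ.f₀ m ∈ Λ₀) (z : G.M₀₁) :
    τ.f₀₁ z ∈ helper6121.GlueDatum.span₀ N Λ₀ := by
  obtain ⟨⟨m, s⟩, hs⟩ := IsLocalizedModule.surj (Submonoid.powers (xB D B)) G.ρ₀ z
  rw [Submodule.mem_localized']
  refine ⟨τ.f₀ m, h₀ m, s, ?_⟩
  rw [IsLocalizedModule.mk'_eq_iff, ← τ.comm₀, ← hs]
  change τ.f₀₁ ((s : D.A₀ B) • z) = (s : D.A₀ B) • τ.f₀₁ z
  rw [← algebraMap_smul (D.A₀₁ B) (s : D.A₀ B) z, map_smul, algebraMap_smul]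

/-- **Factorisation.**  A morphism `τ : G → N` whose chart maps land in the submodules `Λ₀`, `Λ₁`
factors through the sub-datum `ofSubmodules N Λ₀ Λ₁`. -/
theorem exists_mor_ofSubmodules {G N : GlueDatum D B} (τ : Mor G N)
    (Λ₀ : Submodule (D.A₀ B) N.M₀) (Λ₁ : Submodule (D.A₁ B) N.M₁)
    [Module.Invertible (D.A₀ B) Λ₀] [Module.Invertible (D.A₁ B) Λ₁]
    (h : helper6121.GlueDatum.span₀ N Λ₀ = helper6121.GlueDatum.span₁ N Λ₁)
    (h₀ : ∀ m, τ.f₀ m ∈ Λ₀) (h₁ : ∀ m, τ.f₁ m ∈ Λ₁) :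
    ∃ τ' : Mor G (helper6121.GlueDatum.ofSubmodules N Λ₀ Λ₁ h),
      (∀ m, helper6121.GlueDatum.ofSubmodules.ι₀ N Λ₀ Λ₁ h (τ'.f₀ m) = τ.f₀ m) ∧
      (∀ m, helper6121.GlueDatum.ofSubmodules.ι₁ N Λ₀ Λ₁ h (τ'.f₁ m) = τ.f₁ m) ∧
      (∀ z, helper6121.GlueDatum.ofSubmodules.ι₀₁ N Λ₀ Λ₁ h (τ'.f₀₁ z) = τ.f₀₁ z) :=
  ⟨{ f₀ := τ.f₀.codRestrict Λ₀ h₀
     f₁ := τ.f₁.codRestrict Λ₁ h₁
     f₀₁ := τ.f₀₁.codRestrict (helper6121.GlueDatum.span₀ N Λ₀) (mor_overlap_mem_span₀ τ Λ₀ h₀)
     comm₀ := fun m => Subtype.ext (τ.comm₀ m)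
     comm₁ := fun m => Subtype.ext (τ.comm₁ m) },
    fun _ => rfl, fun _ => rfl, fun _ => rfl⟩

/-- **Factorisation through a twist.**  A morphism `τ : G → N` with `τ.f₀ G.M₀ ⊆ I₀ N.M₀` and
`τ.f₁ G.M₁ ⊆ I₁ N.M₁` factors through the inclusion `N(-D) → N` of the twist. -/
theorem exists_mor_twist {G N : GlueDatum D B} (τ : Mor G N) (I₀ : Ideal (D.A₀ B))
    (I₁ : Ideal (D.A₁ B)) [Module.Invertible (D.A₀ B) I₀] [Module.Invertible (D.A₁ B) I₁]
    (h : I₀.map (algebraMap (D.A₀ B) (D.A₀₁ B)) = I₁.map (algebraMap (D.A₁ B) (D.A₀₁ B)))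
    (h₀ : ∀ m, τ.f₀ m ∈ (I₀ • ⊤ : Submodule (D.A₀ B) N.M₀))
    (h₁ : ∀ m, τ.f₁ m ∈ (I₁ • ⊤ : Submodule (D.A₁ B) N.M₁)) :
    ∃ τ' : Mor G (helper6121.GlueDatum.twist N I₀ I₁ h),
      (∀ m, (helper69.twistIncl N I₀ I₁ h).f₀ (τ'.f₀ m) = τ.f₀ m) ∧
      (∀ m, (helper69.twistIncl N I₀ I₁ h).f₁ (τ'.f₁ m) = τ.f₁ m) := by
  obtain ⟨τ', h0, h1, -⟩ := exists_mor_ofSubmodules τ (I₀ • ⊤) (I₁ • ⊤)
    (by rw [helper6121.GlueDatum.span₀_smul_top, helper6121.GlueDatum.span₁_smul_top, h]) h₀ h₁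
  exact ⟨τ', h0, h1⟩

/-- For a divisor of chart `0` finite over the base, the condition on the chart at infinity is
automatic. -/
theorem mor_chart₁_mem {G N : GlueDatum D B} (τ : Mor G N) (I : Ideal (D.A₀ B))
    [Module.Finite B (D.A₀ B ⧸ I)]
    (h₀ : ∀ m, τ.f₀ m ∈ (I • ⊤ : Submodule (D.A₀ B) N.M₀)) (m : G.M₁) :
    τ.f₁ m ∈ (helper622.atInfty (D.A₁ B) (D.A₀₁ B) I • ⊤ : Submodule (D.A₁ B) N.M₁) := by
  obtain ⟨u, hu, hu1⟩ := helper622.exists_mem_atInfty_sub_one_mem (B := B) (xB D B) (yB D B)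
    (xB_mul_yB D B) I
  rw [helper622.mem_atInfty_smul_top_iff (yB D B) I N.ρ₁ u hu hu1, ← τ.comm₁,
    ← helper6121.GlueDatum.span₀_smul_top]
  exact mor_overlap_mem_span₀ τ _ h₀ _

/-- The factor of a morphism surjective modulo `y` through a sub-datum whose ideal at infinity
contains some `u ≡ 1 mod y` is surjective modulo `y`. -/
theorem surjModY_of_factor {G N N' : GlueDatum D B} (τ : Mor G N) (ι : Mor N' N) (τ' : Mor G N')
    (hι₁ : Function.Injective ι.f₁) (hτ₁ : ∀ m, ι.f₁ (τ'.f₁ m) = τ.f₁ m)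
    (I₁ : Ideal (D.A₁ B)) (hr₁ : LinearMap.range ι.f₁ = I₁ • (⊤ : Submodule (D.A₁ B) N.M₁))
    (u : D.A₁ B) (hu : u ∈ I₁) (hu1 : u - 1 ∈ Ideal.span {yB D B}) (hy : τ.SurjModY) :
    τ'.SurjModY := by
  intro n'
  obtain ⟨w, hw⟩ := Ideal.mem_span_singleton'.mp hu1
  obtain ⟨m, n₂, hn⟩ := hy (ι.f₁ n')
  have hmem : u • n₂ - w • ι.f₁ n' ∈ LinearMap.range ι.f₁ := by
    rw [hr₁]
    refine Submodule.sub_mem _ (Submodule.smul_mem_smul hu Submodule.mem_top) ?_
    refine Submodule.smul_mem _ _ ?_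
    rw [← hr₁]
    exact ⟨n', rfl⟩
  obtain ⟨n'', hn''⟩ := hmem
  refine ⟨u • m, n'', hι₁ ?_⟩
  rw [map_add, hτ₁, map_smul, map_smul, hn'']
  have key : u • τ.f₁ m + yB D B • (u • n₂ - w • ι.f₁ n') =
      u • (τ.f₁ m + yB D B • n₂) - (w * yB D B) • ι.f₁ n' := by
    rw [smul_sub, smul_add, smul_smul, smul_smul, smul_smul, mul_comm (yB D B) u,
      mul_comm (yB D B) w]
    abel
  have h1 : u - (u - 1) = 1 := by ring
  rw [key, ← hn, ← sub_smul, hw, h1, one_smul]

end Factor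

/-! ## Over a field -/

section Field

variable {k : Type u} [Field k] [IsAlgClosed k] {D : CurveDatum k} {K : Type u} [Field K]
  [Algebra k K]

/-- The chart-`0` cokernel of a nonzero morphism over a field is finite-dimensional. -/
theorem finite_coker₀ {G N : GlueDatum D K} (τ : Mor G N) (h0 : τ.f₀ ≠ 0) :
    Module.Finite K (N.M₀ ⧸ LinearMap.range τ.f₀) := by
  have := helper8703.isDomain_A₀ D K
  have := helper8703.isDomain_A₁ D K
  exact (helper8703.morphism_finite_coker (helper8703.isLocAt_ρ₀ G) (helper8703.isLocAt_ρ₁ G)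
    (helper8703.isLocAt_ρ₀ N) (helper8703.isLocAt_ρ₁ N) (helper8703.isUnit_algebraMap_xB D K)
    (helper8703.isUnit_algebraMap_yB D K) (helper8703.finQuot_A₀ D K) (helper8703.finQuot_A₁ D K)
    τ.f₀ τ.f₁ τ.f₀₁ τ.comm₀ τ.comm₁ h0).1

/-- Additivity of the chart-`0` colength along a factorisation `τ = ι ∘ τ'`. -/
theorem finrank_coker_of_factor {G N N' : GlueDatum D K} (τ : Mor G N) (ι : Mor N' N)
    (τ' : Mor G N') (h0 : τ.f₀ ≠ 0) (hι₀ : Function.Injective ι.f₀)
    (hτ₀ : ∀ m, ι.f₀ (τ'.f₀ m) = τ.f₀ m) :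
    finrank K (N.M₀ ⧸ LinearMap.range τ.f₀) =
      finrank K (N'.M₀ ⧸ LinearMap.range τ'.f₀) + finrank K (N.M₀ ⧸ LinearMap.range ι.f₀) := by
  have := finite_coker₀ τ h0
  exact finrank_coker_comp τ.f₀ τ'.f₀ ι.f₀ hι₀ hτ₀

/-- **Base case.**  A morphism surjective modulo `y` which is onto on chart `0` is an
isomorphism (over any base). -/
theorem equiv_of_mor_surj {B : Type u} [CommRing B] [Algebra k B] {G N : GlueDatum D B}
    (τ : Mor G N) (hy : τ.SurjModY) (hs : Function.Surjective τ.f₀) : G.Equiv N := by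
  obtain ⟨I, -, -, -, hI, -, -, hinj₀, hinj₁, -, hr₁, -, -⟩ := helper69.chart_of_mor τ hy
  have hItop : I = ⊤ := by
    rw [hI, LinearMap.range_eq_top.mpr hs]
    ext a
    simp
  have hs₁ : Function.Surjective τ.f₁ := by
    rw [← LinearMap.range_eq_top, hr₁, hItop]
    have : helper622.atInfty (D.A₁ B) (D.A₀₁ B) (⊤ : Ideal (D.A₀ B)) = ⊤ := by
      unfold helper622.atInfty
      rw [Ideal.map_top, Ideal.comap_top]
    rw [this, Submodule.top_smul]
  exact ⟨helper6121.GlueDatum.isoOfBijective τ.f₀ τ.f₁ τ.f₀₁ τ.comm₀ τ.comm₁ ⟨hinj₀, hs⟩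
    ⟨hinj₁, hs₁⟩⟩

omit [IsAlgClosed k] in
/-- Over an algebraically closed field, a proper ideal of finite codimension of the first chart
ring is contained in the ideal of a point. -/
theorem exists_pointIdeal₀_ge [IsAlgClosed K] (I : Ideal (D.A₀ K)) [Module.Finite K (D.A₀ K ⧸ I)]
    (hI : I ≠ ⊤) : ∃ p : D.R₀ →ₐ[k] K, I ≤ helper6871.pointIdeal₀ D p := by
  obtain ⟨m, hm, hIm⟩ := Ideal.exists_le_maximal I hI
  have hfin : Module.Finite K (D.A₀ K ⧸ m) :=
    Module.Finite.of_surjective (Ideal.Quotient.factorₐ K hIm).toLinearMap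
      (Ideal.Quotient.factor_surjective hIm)
  obtain ⟨χ, hχ, -⟩ := helper8663.exists_algHom_ker_eq K m
  refine ⟨helper8663.point₀ D χ, ?_⟩
  rw [← helper8663.ker_eq_pointIdeal₀ D χ, hχ]
  exact hIm

/-- **A point through which `τ` factors.**  If `τ.f₀` is not onto, its image is contained in
`𝔪_p • N.M₀` for some `K`-point `p` of chart `0`. -/
theorem exists_point [IsAlgClosed K] {G N : GlueDatum D K} (τ : Mor G N) (hy : τ.SurjModY)
    (hns : ¬ Function.Surjective τ.f₀) :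
    ∃ p : D.R₀ →ₐ[k] K,
      ∀ m, τ.f₀ m ∈ (helper6871.pointIdeal₀ D p • ⊤ : Submodule (D.A₀ K) N.M₀) := by
  obtain ⟨I, -, -, -, -, hfin, -, -, -, hr₀, -, -, -⟩ := helper69.chart_of_mor τ hy
  have hI : I ≠ ⊤ := by
    rintro rfl
    apply hns
    rw [← LinearMap.range_eq_top, hr₀, Submodule.top_smul]
  obtain ⟨p, hp⟩ := exists_pointIdeal₀_ge I hI
  refine ⟨p, fun m => ?_⟩
  have h1 : τ.f₀ m ∈ LinearMap.range τ.f₀ := ⟨m, rfl⟩
  rw [hr₀] at h1
  exact Submodule.smul_mono_left hp h1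

omit [IsAlgClosed k] in
/-- The ideal of a `K`-point has colength one. -/
theorem finrank_quot_pointIdeal₀ (p : D.R₀ →ₐ[k] K) :
    finrank K (D.A₀ K ⧸ helper6871.pointIdeal₀ D p) = 1 := by
  rw [(helper6871.quotEquiv₀ D p).toLinearEquiv.finrank_eq, Module.finrank_self]

/-- **One step of the peeling.**  If the chart-`0` image of `τ : G → N` lies in `𝔪_p • N.M₀`,
then `τ` factors through `N(-p)`, the factor is again nonzero and surjective modulo `y`, and the
chart-`0` colength drops by exactly one. -/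
theorem peel_step {G N : GlueDatum D K} (τ : Mor G N) (h0 : τ.f₀ ≠ 0) (hy : τ.SurjModY)
    (p : D.R₀ →ₐ[k] K)
    (hp : ∀ m, τ.f₀ m ∈ (helper6871.pointIdeal₀ D p • ⊤ : Submodule (D.A₀ K) N.M₀)) :
    ∃ τ' : Mor G (helper622.tw₀ N p), τ'.f₀ ≠ 0 ∧ τ'.SurjModY ∧
      finrank K ((helper622.tw₀ N p).M₀ ⧸ LinearMap.range τ'.f₀) + 1 =
        finrank K (N.M₀ ⧸ LinearMap.range τ.f₀) := by
  have := helper622.invertible_pointIdeal₀ p
  have := helper622.invertible_inf₀ (helper6871.pointIdeal₀ D p)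
  have h₁ := mor_chart₁_mem τ (helper6871.pointIdeal₀ D p) hp
  obtain ⟨τ', hτ₀, hτ₁⟩ := exists_mor_twist τ (helper6871.pointIdeal₀ D p)
    (helper622.inf₀ (helper6871.pointIdeal₀ D p)) (helper622.map_inf₀ _) hp h₁
  obtain ⟨u, hu, hu1⟩ := helper622.exists_mem_atInfty_sub_one_mem (B := K) (xB D K) (yB D K)
    (xB_mul_yB D K) (helper6871.pointIdeal₀ D p)
  have hne : τ'.f₀ ≠ 0 := by
    intro h
    apply h0
    ext m
    rw [← hτ₀, h]
    simp
  have hsurj : τ'.SurjModY :=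
    surjModY_of_factor τ (helper69.twistIncl N _ _ (helper622.map_inf₀ _)) τ'
      (helper69.twistIncl_f₁_injective N _ _ _) hτ₁ _ (helper69.range_twistIncl_f₁ N _ _ _)
      u hu hu1 hy
  have hcount := finrank_coker_of_factor τ (helper69.twistIncl N _ _ (helper622.map_inf₀ _)) τ'
    h0 (helper69.twistIncl_f₀_injective N _ _ _) hτ₀
  rw [helper69.range_twistIncl_f₀,
    helper3115.finrank_quotient_smul_top_eq K (D.A₀ K) N.M₀ (helper6871.pointIdeal₀ D p),
    finrank_quot_pointIdeal₀] at hcount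
  exact ⟨τ', hne, hsurj, hcount.symm⟩

/-- **S-PEEL.**  Over an algebraically closed field `K ⊇ k`, a morphism `τ : G → N` of two-chart
line bundles which is nonzero on chart `0` and surjective modulo `y` on the chart at infinity
exhibits `G` as the twist of `N` by `dim_K (N.M₀ ⧸ τ.f₀ G.M₀)` points of chart `0`. -/
theorem peel [IsAlgClosed K] (G N : GlueDatum D K) (τ : Mor G N) (h0 : τ.f₀ ≠ 0)
    (hy : τ.SurjModY) :
    ∃ L : List (D.R₀ →ₐ[k] K), L.length = finrank K (N.M₀ ⧸ LinearMap.range τ.f₀) ∧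
      G.Equiv ((helper622.pointTwist D).twList N L) := by
  suffices H : ∀ (n : ℕ) (N : GlueDatum D K) (τ : Mor G N), τ.f₀ ≠ 0 → τ.SurjModY →
      finrank K (N.M₀ ⧸ LinearMap.range τ.f₀) = n →
      ∃ L : List (D.R₀ →ₐ[k] K), L.length = n ∧
        G.Equiv ((helper622.pointTwist D).twList N L) by
    obtain ⟨L, hL, hGL⟩ := H _ N τ h0 hy rfl
    exact ⟨L, hL, hGL⟩
  intro n
  induction n with
  | zero =>
    intro N τ h0 hy hn
    have := finite_coker₀ τ h0
    have hsub : Subsingleton (N.M₀ ⧸ LinearMap.range τ.f₀) := Module.finrank_zero_iff.mp hn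
    have hs : Function.Surjective τ.f₀ := by
      rw [← LinearMap.range_eq_top]
      exact Submodule.Quotient.subsingleton_iff.mp hsub
    exact ⟨[], rfl, equiv_of_mor_surj τ hy hs⟩
  | succ n ih =>
    intro N τ h0 hy hn
    have hns : ¬ Function.Surjective τ.f₀ := by
      intro hs
      have htop : LinearMap.range τ.f₀ = ⊤ := LinearMap.range_eq_top.mpr hs
      have hsub : Subsingleton (N.M₀ ⧸ LinearMap.range τ.f₀) :=
        Submodule.Quotient.subsingleton_iff.mpr htop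
      rw [Module.finrank_zero_of_subsingleton] at hn
      exact absurd hn (Nat.succ_ne_zero n).symm
    obtain ⟨p, hp⟩ := exists_point τ hy hns
    obtain ⟨τ', h0', hy', hcount⟩ := peel_step τ h0 hy p hp
    obtain ⟨L, hL, hGL⟩ := ih (helper622.tw₀ N p) τ' h0' hy' (by omega)
    exact ⟨p :: L, by simp [hL], hGL⟩

end Field

end Fermat.Agent.S25.helper2734
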