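/-
S25, layer A (independent copy of the regular-locus half of LA-CHARTS; helper2911).

For an integral scheme `X` and a rational function `f`, the open `regOpen f` where `f` is regular
and the section `regSection f` on it; for `f ≠ 0`: `basicOpen (regSection f) = regOpen f ⊓
regOpen f⁻¹` and the product of the two sections is `1`; if the local rings at non-generic
points are valuation rings then the two opens cover `X`.
Only Mathlib is imported. All proofs complete.
-/
import Mathlib

set_option autoImplicit false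

universe u

open CategoryTheory AlgebraicGeometry TopologicalSpace Opposite

namespace Fermat.Agent.S25.helper2911

section RegLocus

variable {X : Scheme.{u}} [IsIntegral X]

theorem genericPoint_mem_of_mem {U : X.Opens} {p : X} (hp : p ∈ U) : genericPoint X ∈ U :=
  ((genericPoint_spec X).mem_open_set_iff U.isOpen).mpr ⟨p, trivial, hp⟩

/-- `f` is regular at `p`: it lies in the image of the local ring at `p`. -/
def IsRegAt (f : X.functionField) (p : X) : Prop :=
  f ∈ Set.range (algebraMap (X.presheaf.stalk p) X.functionField)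

theorem algebraMap_germ_eq {U : X.Opens} {p : X} (hp : p ∈ U) (s : Γ(X, U)) :
    algebraMap (X.presheaf.stalk p) X.functionField (X.presheaf.germ U p hp s) =
      X.presheaf.germ U (genericPoint X) (genericPoint_mem_of_mem hp) s := by
  have : Nonempty U := ⟨⟨p, hp⟩⟩
  exact Scheme.algebraMap_germ_eq_germToFunctionField X hp s

theorem isRegAt_iff (f : X.functionField) (p : X) :
    IsRegAt f p ↔ ∃ (U : X.Opens) (hp : p ∈ U) (s : Γ(X, U)),
      X.presheaf.germ U (genericPoint X) (genericPoint_mem_of_mem hp) s = f := by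
  constructor
  · rintro ⟨t, rfl⟩
    obtain ⟨U, hp, s, rfl⟩ := X.presheaf.exists_germ_eq t
    exact ⟨U, hp, s, (algebraMap_germ_eq hp s).symm⟩
  · rintro ⟨U, hp, s, rfl⟩
    exact ⟨X.presheaf.germ U p hp s, algebraMap_germ_eq hp s⟩

/-- The open set where the rational function `f` is regular. -/
def regOpen (f : X.functionField) : X.Opens :=
  ⟨{p | IsRegAt f p}, isOpen_iff_forall_mem_open.mpr fun p hp => by
    obtain ⟨U, hpU, s, hs⟩ := (isRegAt_iff f p).mp hp
    exact ⟨U, fun q hq => (isRegAt_iff f q).mpr ⟨U, hq, s, hs⟩, U.isOpen, hpU⟩⟩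

theorem mem_regOpen {f : X.functionField} {p : X} : p ∈ regOpen f ↔ IsRegAt f p := Iff.rfl

theorem genericPoint_mem_regOpen (f : X.functionField) : genericPoint X ∈ regOpen f := by
  obtain ⟨U, hη, s, rfl⟩ := X.presheaf.exists_germ_eq f
  exact (isRegAt_iff _ _).mpr ⟨U, hη, s, rfl⟩

/-- Two sections over an open with the same germ at the generic point are equal. -/
theorem section_ext_of_germ {U : X.Opens} (hη : genericPoint X ∈ U) (s t : Γ(X, U))
    (h : X.presheaf.germ U (genericPoint X) hη s = X.presheaf.germ U (genericPoint X) hη t) :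
    s = t :=
  germ_injective_of_isIntegral X (genericPoint X) hη h

/-- The rational function `f` is a section over its regular locus. -/
theorem exists_regSection (f : X.functionField) :
    ∃ s : Γ(X, regOpen f),
      X.presheaf.germ (regOpen f) (genericPoint X) (genericPoint_mem_regOpen f) s = f := by
  classical
  let ι : Type u := {U : X.Opens // ∃ (hη : genericPoint X ∈ U) (s : Γ(X, U)),
    X.presheaf.germ U (genericPoint X) hη s = f}
  let U : ι → X.Opens := fun i => i.1
  have hη : ∀ i : ι, genericPoint X ∈ U i := fun i => i.2.choose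
  let sf : ∀ i : ι, Γ(X, U i) := fun i => i.2.choose_spec.choose
  have hsf : ∀ i : ι, X.presheaf.germ (U i) (genericPoint X) (hη i) (sf i) = f :=
    fun i => i.2.choose_spec.choose_spec
  have hle : ∀ i : ι, U i ≤ regOpen f := fun i q hq =>
    (isRegAt_iff f q).mpr ⟨U i, hq, sf i, hsf i⟩
  have hcover : regOpen f ≤ iSup U := by
    intro p hp
    obtain ⟨V, hpV, s, hs⟩ := (isRegAt_iff f p).mp hp
    exact Opens.mem_iSup.mpr ⟨⟨V, genericPoint_mem_of_mem hpV, s, hs⟩, hpV⟩
  have hcompat : TopCat.Presheaf.IsCompatible X.sheaf.1 U sf := by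
    intro i j
    have hηij : genericPoint X ∈ U i ⊓ U j := ⟨hη i, hη j⟩
    refine section_ext_of_germ hηij _ _ ?_
    have h1 := X.presheaf.germ_res_apply (Opens.infLELeft (U i) (U j)) (genericPoint X) hηij
      (sf i)
    have h2 := X.presheaf.germ_res_apply (Opens.infLERight (U i) (U j)) (genericPoint X) hηij
      (sf j)
    exact h1.trans ((hsf i).trans ((hsf j).symm.trans h2.symm))
  obtain ⟨s, hs, -⟩ := X.sheaf.existsUnique_gluing' U (regOpen f) (fun i => homOfLE (hle i))
    hcover sf hcompat
  refine ⟨s, ?_⟩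
  obtain ⟨V, hηV, t, ht⟩ := X.presheaf.exists_germ_eq f
  let i₀ : ι := ⟨V, hηV, t, ht⟩
  have h1 := X.presheaf.germ_res_apply (homOfLE (hle i₀)) (genericPoint X) (hη i₀) s
  rw [← h1]
  exact (congrArg _ (hs i₀)).trans (hsf i₀)

/-- The rational function `f` as a section over its regular locus. -/
noncomputable def regSection (f : X.functionField) : Γ(X, regOpen f) :=
  (exists_regSection f).choose

theorem germ_regSection (f : X.functionField) :
    X.presheaf.germ (regOpen f) (genericPoint X) (genericPoint_mem_regOpen f) (regSection f) = f :=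
  (exists_regSection f).choose_spec

theorem algebraMap_germ_regSection (f : X.functionField) {p : X} (hp : p ∈ regOpen f) :
    algebraMap (X.presheaf.stalk p) X.functionField
      (X.presheaf.germ (regOpen f) p hp (regSection f)) = f :=
  (algebraMap_germ_eq hp _).trans (germ_regSection f)

theorem algebraMap_stalk_injective (p : X) :
    Function.Injective (algebraMap (X.presheaf.stalk p) X.functionField) :=
  IsFractionRing.injective (X.presheaf.stalk p) X.functionField

/-- Where `f` and `f⁻¹` are both regular, `f` is a unit; and conversely. -/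
theorem basicOpen_regSection {f : X.functionField} (hf : f ≠ 0) :
    X.basicOpen (regSection f) = regOpen f⁻¹ ⊓ regOpen f := by
  ext p
  constructor
  · intro hp
    have hpU : p ∈ regOpen f := X.basicOpen_le _ hp
    refine ⟨?_, hpU⟩
    have hu : IsUnit (X.presheaf.germ (regOpen f) p hpU (regSection f)) :=
      (X.mem_basicOpen (regSection f) p hpU).mp hp
    obtain ⟨g', hg'⟩ := hu.exists_right_inv
    refine ⟨g', ?_⟩
    have h1 := congrArg (algebraMap (X.presheaf.stalk p) X.functionField) hg'
    rw [map_mul, map_one, algebraMap_germ_regSection f hpU] at h1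
    exact eq_inv_of_mul_eq_one_right h1
  · rintro ⟨⟨g', hg'⟩, hpU⟩
    refine (X.mem_basicOpen (regSection f) p hpU).mpr ?_
    refine IsUnit.of_mul_eq_one g' ?_
    apply algebraMap_stalk_injective p
    rw [map_mul, map_one, algebraMap_germ_regSection f hpU, hg', mul_inv_cancel₀ hf]

/-- On the common regular locus of `f⁻¹` and `f` the product of the two sections is `1`. -/
theorem regSection_inv_mul_regSection {f : X.functionField} (hf : f ≠ 0) :
    X.presheaf.map (homOfLE (inf_le_left : regOpen f⁻¹ ⊓ regOpen f ≤ regOpen f⁻¹)).op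
        (regSection f⁻¹) *
      X.presheaf.map (homOfLE (inf_le_right : regOpen f⁻¹ ⊓ regOpen f ≤ regOpen f)).op
        (regSection f) = 1 := by
  have hη : genericPoint X ∈ regOpen f⁻¹ ⊓ regOpen f :=
    ⟨genericPoint_mem_regOpen _, genericPoint_mem_regOpen _⟩
  refine section_ext_of_germ hη _ _ ?_
  rw [map_mul, map_one]
  have h1 := X.presheaf.germ_res_apply
    (homOfLE (inf_le_left : regOpen f⁻¹ ⊓ regOpen f ≤ regOpen f⁻¹)) (genericPoint X) hη
    (regSection f⁻¹)
  have h2 := X.presheaf.germ_res_apply
    (homOfLE (inf_le_right : regOpen f⁻¹ ⊓ regOpen f ≤ regOpen f)) (genericPoint X) hη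
    (regSection f)
  rw [h1, h2, germ_regSection, germ_regSection, inv_mul_cancel₀ hf]

/-- If the local rings at the non-generic points are valuation rings, the regular loci of `f⁻¹`
and `f` cover `X`. -/
theorem regOpen_inv_sup_regOpen (f : X.functionField)
    (hval : ∀ p : X, p ≠ genericPoint X → ValuationRing (X.presheaf.stalk p)) :
    regOpen f⁻¹ ⊔ regOpen f = ⊤ := by
  rw [eq_top_iff]
  intro p _
  by_cases hp : p = genericPoint X
  · subst hp
    exact Or.inr (genericPoint_mem_regOpen f)
  · have := hval p hp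
    rcases ValuationRing.isInteger_or_isInteger (X.presheaf.stalk p) f with h | h
    · exact Or.inr h
    · exact Or.inl h

/-- The regular-locus half of the two-chart atlas (in the field shapes of
`helper7755.TwoChart`): for a point `p₀` whose local ring is not a field there are opens
`U₀`, `U₁` covering `X` and sections `x`, `y` with `D(x) = D(y) = U₀ ⊓ U₁`, `x * y = 1` there,
`p₀ ∈ U₁ \ U₀` and `y` vanishing at `p₀`. -/
theorem exists_two_opens (p₀ : X)
    (hval : ∀ p : X, p ≠ genericPoint X → ValuationRing (X.presheaf.stalk p))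
    (hp₀ : ¬ IsField (X.presheaf.stalk p₀)) :
    ∃ (U₀ U₁ : X.Opens) (x : Γ(X, U₀)) (y : Γ(X, U₁)),
      p₀ ∈ U₁ ∧ p₀ ∉ X.basicOpen y ∧ p₀ ∉ U₀ ∧ U₀ ⊔ U₁ = ⊤ ∧
      X.basicOpen x = U₀ ⊓ U₁ ∧ X.basicOpen y = U₀ ⊓ U₁ ∧
      X.presheaf.map (homOfLE (inf_le_left : U₀ ⊓ U₁ ≤ U₀)).op x *
        X.presheaf.map (homOfLE (inf_le_right : U₀ ⊓ U₁ ≤ U₁)).op y = 1 ∧
      Nonempty U₀ ∧ Nonempty U₁ := by
  obtain ⟨g, hg0, hgu⟩ : ∃ g : X.presheaf.stalk p₀, g ≠ 0 ∧ ¬ IsUnit g := by
    by_contra hcon
    push Not at hcon
    exact hp₀ ⟨exists_pair_ne _, mul_comm, fun {a} ha => (hcon a ha).exists_right_inv⟩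
  set f : X.functionField := algebraMap (X.presheaf.stalk p₀) X.functionField g with hfdef
  have hf : f ≠ 0 := fun h => hg0 (algebraMap_stalk_injective p₀ (h.trans (map_zero _).symm))
  have hp₁ : p₀ ∈ regOpen f := ⟨g, rfl⟩
  have hnot : p₀ ∉ regOpen f⁻¹ := by
    rintro ⟨g', hg'⟩
    refine hgu (IsUnit.of_mul_eq_one g' ?_)
    apply algebraMap_stalk_injective p₀
    rw [map_mul, map_one, hg', ← hfdef, mul_inv_cancel₀ hf]
  refine ⟨regOpen f⁻¹, regOpen f, regSection f⁻¹, regSection f, hp₁, ?_, hnot,
    regOpen_inv_sup_regOpen f hval, ?_, basicOpen_regSection hf,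
    regSection_inv_mul_regSection hf, ⟨⟨_, genericPoint_mem_regOpen _⟩⟩,
    ⟨⟨_, genericPoint_mem_regOpen _⟩⟩⟩
  · rw [basicOpen_regSection hf]
    exact fun h => hnot h.1
  · rw [basicOpen_regSection (inv_ne_zero hf), inv_inv, inf_comm]

end RegLocus

end Fermat.Agent.S25.helper2911
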