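import Fermat.Agent.S25.helper1705_Spec2
import Fermat.Agent.S25.helper1800_OmegaInv

/-!
# S25, layer A, leaf LA-REAL (helper8468): packaging a two-chart atlas into a `Realization`

Input: two affine opens `U₀`, `U₁` of the curve `C` covering it, with sections `x`, `y` such
that `U₀ ⊓ U₁ = D(x) = D(y)`, `x * y = 1` on the overlap, the point `ε` lies in `U₁` on `y = 0`,
and `Γ(C, U₀)`, `Γ(C, U₁)` are finite over `k[x]`, `k[y]` (`TwoChart c ε`).

Output: a `CurveDatum k` with `R₀ = Γ(C, U₀)`, `R₁ = Γ(C, U₁)`, `R₀₁ = Γ(C, U₀ ⊓ U₁)` and a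
`Realization c ε D` of the Spec (`helper1705.Stmt_Chart`).
-/

set_option autoImplicit false

universe u

open CategoryTheory CategoryTheory.Limits AlgebraicGeometry NeronModelInfra GoodReductionJacobian

namespace Fermat.Agent.S25.helper8468

open Fermat.Agent.S25.helper1705

/-! ## Generic facts on affine opens -/

section Affine

/-- The canonical structure homomorphism `k → Γ(C, U)` of a scheme over `Spec k`. -/
noncomputable def structHom {k : Type u} [CommRing k] {C : Scheme.{u}}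
    (c : C ⟶ Spec (CommRingCat.of k)) (U : C.Opens) : k →+* Γ(C, U) :=
  ((Scheme.ΓSpecIso (CommRingCat.of k)).inv ≫ c.appLE ⊤ U le_top).hom

/-- Restriction of sections, as a ring homomorphism. -/
noncomputable def resHom {X : Scheme.{u}} {U V : X.Opens} (h : V ≤ U) : Γ(X, U) →+* Γ(X, V) :=
  (X.presheaf.map (homOfLE h).op).hom

theorem resHom_comp_structHom {k : Type u} [CommRing k] {C : Scheme.{u}}
    (c : C ⟶ Spec (CommRingCat.of k)) {U V : C.Opens} (h : V ≤ U) :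
    (resHom h).comp (structHom c U) = structHom c V := by
  unfold resHom structHom
  rw [← CommRingCat.hom_comp, Category.assoc, Scheme.Hom.appLE_map]

theorem fromSpec_comp_eq {k : Type u} [CommRing k] {C : Scheme.{u}}
    (c : C ⟶ Spec (CommRingCat.of k)) {U : C.Opens} (hU : IsAffineOpen U) :
    hU.fromSpec ≫ c = Spec.map (CommRingCat.ofHom (structHom c U)) := by
  have h := IsAffineOpen.SpecMap_appLE_fromSpec c
    (isAffineOpen_top (Spec (CommRingCat.of k))) hU le_top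
  rw [← h, IsAffineOpen.fromSpec_top, Scheme.isoSpec_Spec_inv, ← Spec.map_comp]
  rfl

theorem isLocalization_away_resHom {X : Scheme.{u}} {U W : X.Opens} (hU : IsAffineOpen U)
    (f : Γ(X, U)) (hW : W = X.basicOpen f) (h : W ≤ U) :
    @IsLocalization.Away Γ(X, U) _ f Γ(X, W) _ (resHom h).toAlgebra := by
  subst hW
  exact hU.isLocalization_basicOpen f

theorem isPullback_fromSpec {X : Scheme.{u}} {U₀ U₁ W : X.Opens} (hU₀ : IsAffineOpen U₀)
    (hU₁ : IsAffineOpen U₁) (hW : IsAffineOpen W) (h : W = U₀ ⊓ U₁) (h₀ : W ≤ U₀) (h₁ : W ≤ U₁) :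
    IsPullback (Spec.map (CommRingCat.ofHom (resHom h₀))) (Spec.map (CommRingCat.ofHom (resHom h₁)))
      hU₀.fromSpec hU₁.fromSpec := by
  have w₀ : Spec.map (CommRingCat.ofHom (resHom h₀)) ≫ hU₀.fromSpec = hW.fromSpec :=
    hU₀.map_fromSpec hW (homOfLE h₀).op
  have w₁ : Spec.map (CommRingCat.ofHom (resHom h₁)) ≫ hU₁.fromSpec = hW.fromSpec :=
    hU₁.map_fromSpec hW (homOfLE h₁).op
  have key : ∀ s : PullbackCone hU₀.fromSpec hU₁.fromSpec,
      Set.range (s.fst ≫ hU₀.fromSpec) ⊆ Set.range hW.fromSpec := by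
    intro s
    rw [hW.range_fromSpec, h]
    rintro _ ⟨p, rfl⟩
    refine ⟨?_, ?_⟩
    · have : (s.fst ≫ hU₀.fromSpec) p ∈ Set.range hU₀.fromSpec := ⟨s.fst p, rfl⟩
      rwa [hU₀.range_fromSpec] at this
    · have : (s.fst ≫ hU₀.fromSpec) p ∈ Set.range hU₁.fromSpec := by
        rw [s.condition]
        exact ⟨s.snd p, rfl⟩
      rwa [hU₁.range_fromSpec] at this
  refine ⟨⟨w₀.trans w₁.symm⟩, ⟨PullbackCone.IsLimit.mk _
    (fun s => IsOpenImmersion.lift hW.fromSpec (s.fst ≫ hU₀.fromSpec) (key s)) ?_ ?_ ?_⟩⟩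
  · intro s
    rw [← cancel_mono hU₀.fromSpec, Category.assoc, w₀, IsOpenImmersion.lift_fac]
  · intro s
    rw [← cancel_mono hU₁.fromSpec, Category.assoc, w₁, IsOpenImmersion.lift_fac, s.condition]
  · intro s m hm₀ _
    apply IsOpenImmersion.lift_uniq
    rw [← hm₀, Category.assoc, w₀]

theorem cover_fromSpec {X : Scheme.{u}} {U₀ U₁ : X.Opens} (hU₀ : IsAffineOpen U₀)
    (hU₁ : IsAffineOpen U₁) (hcov : U₀ ⊔ U₁ = ⊤) (p : X) :
    (∃ q, hU₀.fromSpec.base q = p) ∨ (∃ q, hU₁.fromSpec.base q = p) := by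
  have hp : p ∈ U₀ ⊔ U₁ := by rw [hcov]; trivial
  rcases hp with hp | hp
  · left
    have : p ∈ Set.range hU₀.fromSpec := by rw [hU₀.range_fromSpec]; exact hp
    exact this
  · right
    have : p ∈ Set.range hU₁.fromSpec := by rw [hU₁.range_fromSpec]; exact hp
    exact this

end Affine

/-! ## The curve datum from unbundled ring homomorphisms -/

section Datum

variable {k : Type u} [Field k] {R₀ R₁ R₀₁ : Type u} [CommRing R₀] [CommRing R₁] [CommRing R₀₁]

/-- A `CurveDatum` whose restriction maps are given as plain ring homomorphisms. -/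
noncomputable def datumOfRingHoms [Algebra k R₀] [Algebra k R₁] [IsDomain R₀] [IsDomain R₁]
    [Module.Invertible R₀ Ω[R₀⁄k]] [Module.Invertible R₁ Ω[R₁⁄k]]
    (ρ₀ : R₀ →+* R₀₁) (ρ₁ : R₁ →+* R₀₁)
    (hρ : ρ₀.comp (algebraMap k R₀) = ρ₁.comp (algebraMap k R₁)) (x : R₀) (y : R₁)
    (hx : @IsLocalization.Away R₀ _ x R₀₁ _ ρ₀.toAlgebra)
    (hy : @IsLocalization.Away R₁ _ y R₀₁ _ ρ₁.toAlgebra)
    (hxy : ρ₀ x * ρ₁ y = 1) (e : R₁ →ₐ[k] k) (hey : e y = 0)
    (hf₀ : (Polynomial.aeval x : Polynomial k →ₐ[k] R₀).toRingHom.Finite)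
    (hf₁ : (Polynomial.aeval y : Polynomial k →ₐ[k] R₁).toRingHom.Finite) : CurveDatum k :=
  letI : Algebra R₀ R₀₁ := ρ₀.toAlgebra
  letI : Algebra R₁ R₀₁ := ρ₁.toAlgebra
  letI : Algebra k R₀₁ := (ρ₀.comp (algebraMap k R₀)).toAlgebra
  { R₀ := R₀
    R₁ := R₁
    R₀₁ := R₀₁
    tower₀ := IsScalarTower.of_algebraMap_eq fun _ => rfl
    tower₁ := IsScalarTower.of_algebraMap_eq fun r => DFunLike.congr_fun hρ r
    x := x
    y := y
    away₀ := hx
    away₁ := hy
    xy := hxy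
    e := e
    ey := hey
    finite₀ := hf₀
    finite₁ := hf₁ }

end Datum

/-! ## The realization -/

section Real

variable {k : Type u} [Field k] {C : Scheme.{u}} (c : C ⟶ Spec (CommRingCat.of k))

/-- The `k`-point of the chart `U` defined by a section `ε` landing in `U`, as a ring
homomorphism `Γ(C, U) → k`. -/
noncomputable def pointHom (ε : Spec (CommRingCat.of k) ⟶ C) {U : C.Opens}
    (hε : ∀ p, ε.base p ∈ U) : Γ(C, U) →+* k :=
  (ε.appLE U ⊤ (fun p _ => hε p) ≫ (Scheme.ΓSpecIso (CommRingCat.of k)).hom).hom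

theorem pointHom_comp_structHom (ε : Spec (CommRingCat.of k) ⟶ C) (hεc : ε ≫ c = 𝟙 _)
    {U : C.Opens} (hε : ∀ p, ε.base p ∈ U) :
    (pointHom ε hε).comp (structHom c U) = RingHom.id k := by
  unfold pointHom structHom
  rw [← CommRingCat.hom_comp, Category.assoc, Scheme.Hom.appLE_comp_appLE_assoc]
  simp only [hεc]
  have h1 : Scheme.Hom.appLE (𝟙 (Spec (CommRingCat.of k))) ⊤ ⊤ le_top = 𝟙 _ := by
    simp [Scheme.Hom.appLE]
  rw [h1, Category.id_comp, Iso.inv_hom_id]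
  rfl

theorem specMap_pointHom_fromSpec (ε : Spec (CommRingCat.of k) ⟶ C) {U : C.Opens}
    (hU : IsAffineOpen U) (hε : ∀ p, ε.base p ∈ U) :
    Spec.map (CommRingCat.ofHom (pointHom ε hε)) ≫ hU.fromSpec = ε := by
  have h := IsAffineOpen.SpecMap_appLE_fromSpec ε hU
    (isAffineOpen_top (Spec (CommRingCat.of k))) (fun p _ => hε p)
  rw [IsAffineOpen.fromSpec_top, Scheme.isoSpec_Spec_inv] at h
  have h2 : Spec.map (CommRingCat.ofHom (pointHom ε hε)) =
      Spec.map (Scheme.ΓSpecIso (CommRingCat.of k)).hom ≫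
        Spec.map (ε.appLE U ⊤ (fun p _ => hε p)) := by
    rw [← Spec.map_comp]
    rfl
  rw [h2, Category.assoc, h, ← Category.assoc, ← Spec.map_comp, Iso.inv_hom_id, Spec.map_id,
    Category.id_comp]

theorem pointHom_eq_zero (ε : Spec (CommRingCat.of k) ⟶ C) {U : C.Opens}
    (hε : ∀ p, ε.base p ∈ U) (y : Γ(C, U)) (hy : ∀ p, ε.base p ∉ C.basicOpen y) :
    pointHom ε hε y = 0 := by
  by_contra hne
  have hu : IsUnit (pointHom ε hε y) := isUnit_iff_ne_zero.mpr hne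
  have hu' : IsUnit (ε.appLE U ⊤ (fun p _ => hε p) y) := by
    have h3 := hu.map (Scheme.ΓSpecIso (CommRingCat.of k)).inv.hom
    have h4 : (Scheme.ΓSpecIso (CommRingCat.of k)).inv.hom (pointHom ε hε y) =
        ε.appLE U ⊤ (fun p _ => hε p) y := by
      unfold pointHom
      simp
    rwa [h4] at h3
  have h5 := Scheme.basicOpen_appLE ε ⊤ U (fun p _ => hε p) y
  rw [Scheme.basicOpen_of_isUnit _ hu'] at h5
  have p : Spec (CommRingCat.of k) := Nonempty.some inferInstance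
  have h6 : p ∈ (⊤ : (Spec (CommRingCat.of k)).Opens) ⊓ ε ⁻¹ᵁ C.basicOpen y := by
    rw [← h5]; trivial
  exact hy p h6.2

/-- Packaging, when the first chart is known to be nonempty. -/
theorem exists_realization_of_nonempty [SmoothOfRelativeDimension 1 c] [IsIntegral C]
    (ε : SchemeHomOver (𝟙 (Spec (CommRingCat.of k))) c)
    {U₀ U₁ : C.Opens} (hU₀ : IsAffineOpen U₀) (hU₁ : IsAffineOpen U₁) (hne₀ : Nonempty U₀)
    (x : Γ(C, U₀)) (y : Γ(C, U₁)) (hcov : U₀ ⊔ U₁ = ⊤)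
    (hx : U₀ ⊓ U₁ = C.basicOpen x) (hy : U₀ ⊓ U₁ = C.basicOpen y)
    (hxy : resHom (inf_le_left : U₀ ⊓ U₁ ≤ U₀) x * resHom (inf_le_right : U₀ ⊓ U₁ ≤ U₁) y = 1)
    (hε : ∀ p, ε.1.base p ∈ U₁) (hεy : ∀ p, ε.1.base p ∉ C.basicOpen y)
    (hf₀ : (Polynomial.eval₂RingHom (structHom c U₀) x).Finite)
    (hf₁ : (Polynomial.eval₂RingHom (structHom c U₁) y).Finite) :
    ∃ D : CurveDatum k, Nonempty (Realization c ε D) := by
  let : Algebra k Γ(C, U₀) := (structHom c U₀).toAlgebra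
  let : Algebra k Γ(C, U₁) := (structHom c U₁).toAlgebra
  have : Nonempty U₁ := ⟨⟨ε.1.base (Nonempty.some inferInstance), hε _⟩⟩
  have : Module.Invertible Γ(C, U₀) Ω[Γ(C, U₀)⁄k] :=
    helper1800.invertible_kaehlerDifferential_of_isAffineOpen c hU₀ rfl
  have : Module.Invertible Γ(C, U₁) Ω[Γ(C, U₁)⁄k] :=
    helper1800.invertible_kaehlerDifferential_of_isAffineOpen c hU₁ rfl
  have hW : IsAffineOpen (U₀ ⊓ U₁) := hx ▸ hU₀.basicOpen x
  let e : Γ(C, U₁) →ₐ[k] k :=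
    { toRingHom := pointHom ε.1 hε
      commutes' := fun r => DFunLike.congr_fun (pointHom_comp_structHom c ε.1 ε.2 hε) r }
  have hρ : (resHom (inf_le_left : U₀ ⊓ U₁ ≤ U₀)).comp (algebraMap k Γ(C, U₀)) =
      (resHom (inf_le_right : U₀ ⊓ U₁ ≤ U₁)).comp (algebraMap k Γ(C, U₁)) :=
    (resHom_comp_structHom c _).trans (resHom_comp_structHom c _).symm
  refine ⟨datumOfRingHoms (resHom inf_le_left) (resHom inf_le_right) hρ x y
    (isLocalization_away_resHom hU₀ x hx _) (isLocalization_away_resHom hU₁ y hy _) hxy e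
    (pointHom_eq_zero ε.1 hε y hεy) ?_ ?_, ⟨?_⟩⟩
  · exact hf₀
  · exact hf₁
  · exact
      { j₀ := hU₀.fromSpec
        j₁ := hU₁.fromSpec
        isOpenImmersion₀ := hU₀.isOpenImmersion_fromSpec
        isOpenImmersion₁ := hU₁.isOpenImmersion_fromSpec
        fac₀ := fromSpec_comp_eq c hU₀
        fac₁ := fromSpec_comp_eq c hU₁
        cover := cover_fromSpec hU₀ hU₁ hcov
        isPullback := isPullback_fromSpec hU₀ hU₁ hW rfl _ _
        eps := (specMap_pointHom_fromSpec ε.1 hU₁ hε).symm }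

/-- In a two-chart atlas of a smooth curve over an algebraically closed field the first chart
is automatically nonempty: otherwise `C = U₁` would be affine with `y = 0`, hence finite over
`k`, hence `Γ(C, U₁) = k`, contradicting the invertibility of `Ω`. -/
theorem nonempty_chart_zero [IsAlgClosed k] [SmoothOfRelativeDimension 1 c] [IsIntegral C]
    {U₀ U₁ : C.Opens} (hU₁ : IsAffineOpen U₁) (y : Γ(C, U₁)) (hcov : U₀ ⊔ U₁ = ⊤)
    (hy : U₀ ⊓ U₁ = C.basicOpen y)
    (hf₁ : (Polynomial.eval₂RingHom (structHom c U₁) y).Finite) : Nonempty U₀ := by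
  by_contra hne
  have hU₀ : U₀ = ⊥ := by
    rw [eq_bot_iff]
    intro p hp
    exact (hne ⟨⟨p, hp⟩⟩).elim
  subst hU₀
  have h1 : U₁ = ⊤ := by simpa using hcov
  have hy0 : y = 0 := by
    rw [← basicOpen_eq_bot_iff, ← hy, bot_inf_eq]
  subst hy0
  have hne₁ : Nonempty U₁ := by
    rw [h1]
    exact ⟨⟨Nonempty.some inferInstance, trivial⟩⟩
  have hfin : (structHom c U₁).Finite := by
    have h2 : Polynomial.eval₂RingHom (structHom c U₁) 0 =
        (structHom c U₁).comp Polynomial.constantCoeff := by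
      ext <;> simp
    rw [h2] at hf₁
    exact RingHom.Finite.of_comp_finite hf₁
  have hbij := IsAlgClosed.ringHom_bijective_of_isIntegral (structHom c U₁) hfin.to_isIntegral
  let : Algebra k Γ(C, U₁) := (structHom c U₁).toAlgebra
  have hinv : Module.Invertible Γ(C, U₁) Ω[Γ(C, U₁)⁄k] :=
    helper1800.invertible_kaehlerDifferential_of_isAffineOpen c hU₁ rfl
  have hsub : Subsingleton Ω[Γ(C, U₁)⁄k] :=
    KaehlerDifferential.subsingleton_of_surjective k Γ(C, U₁) hbij.2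
  have h01 : (0 : Γ(C, U₁)) = 1 :=
    FaithfulSMul.eq_of_smul_eq_smul (α := Ω[Γ(C, U₁)⁄k]) fun m => Subsingleton.elim _ _
  exact zero_ne_one h01

/-- **Packaging** (leaf LA-REAL). A two-chart atlas of the curve gives a `CurveDatum` and a
`Realization` of the curve by it. -/
theorem exists_realization [IsAlgClosed k] [SmoothOfRelativeDimension 1 c] [IsIntegral C]
    (ε : SchemeHomOver (𝟙 (Spec (CommRingCat.of k))) c)
    {U₀ U₁ : C.Opens} (hU₀ : IsAffineOpen U₀) (hU₁ : IsAffineOpen U₁)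
    (x : Γ(C, U₀)) (y : Γ(C, U₁)) (hcov : U₀ ⊔ U₁ = ⊤)
    (hx : U₀ ⊓ U₁ = C.basicOpen x) (hy : U₀ ⊓ U₁ = C.basicOpen y)
    (hxy : resHom (inf_le_left : U₀ ⊓ U₁ ≤ U₀) x * resHom (inf_le_right : U₀ ⊓ U₁ ≤ U₁) y = 1)
    (hε : ∀ p, ε.1.base p ∈ U₁) (hεy : ∀ p, ε.1.base p ∉ C.basicOpen y)
    (hf₀ : (Polynomial.eval₂RingHom (structHom c U₀) x).Finite)
    (hf₁ : (Polynomial.eval₂RingHom (structHom c U₁) y).Finite) :
    ∃ D : CurveDatum k, Nonempty (Realization c ε D) :=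
  exists_realization_of_nonempty c ε hU₀ hU₁ (nonempty_chart_zero c hU₁ y hcov hy hf₁)
    x y hcov hx hy hxy hε hεy hf₀ hf₁

/-- The two-chart atlas of a curve with a section (output of leaf LA-CHARTS): two affine opens
`U₀`, `U₁` covering `C`, sections `x` on `U₀` and `y` on `U₁` with `U₀ ⊓ U₁ = D(x) = D(y)` and
`x * y = 1` on the overlap, the section `ε` lands in `U₁` on the zero locus of `y`, and
`Γ(C, U₀)`, `Γ(C, U₁)` are finite over `k[X]` via `X ↦ x`, `X ↦ y`. -/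
def TwoChart (ε : Spec (CommRingCat.of k) ⟶ C) : Prop :=
  ∃ (U₀ U₁ : C.Opens) (x : Γ(C, U₀)) (y : Γ(C, U₁)),
    IsAffineOpen U₀ ∧ IsAffineOpen U₁ ∧ U₀ ⊔ U₁ = ⊤ ∧
    U₀ ⊓ U₁ = C.basicOpen x ∧ U₀ ⊓ U₁ = C.basicOpen y ∧
    resHom (inf_le_left : U₀ ⊓ U₁ ≤ U₀) x * resHom (inf_le_right : U₀ ⊓ U₁ ≤ U₁) y = 1 ∧
    (∀ p, ε.base p ∈ U₁) ∧ (∀ p, ε.base p ∉ C.basicOpen y) ∧
    (Polynomial.eval₂RingHom (structHom c U₀) x).Finite ∧
    (Polynomial.eval₂RingHom (structHom c U₁) y).Finite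

end Real

/-- TWO-CHART (leaf LA-CHARTS). Every curve with a section has a two-chart atlas. -/
def Stmt_TwoChart : Prop :=
  ∀ (k : Type u) [Field k] {C : Scheme.{u}} (c : C ⟶ Spec (CommRingCat.of k)) (_ : IsCurve k c)
    (ε : SchemeHomOver (𝟙 (Spec (CommRingCat.of k))) c), TwoChart c ε.1

/-- **`Stmt_Chart` of the Spec from the two-chart atlas** (leaf LA-REAL). -/
theorem stmt_Chart_of (h : Stmt_TwoChart.{u}) : Stmt_Chart.{u} := by
  intro k _ C c hc ε
  obtain ⟨U₀, U₁, x, y, hU₀, hU₁, hcov, hx, hy, hxy, hε, hεy, hf₀, hf₁⟩ := h k c hc ε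
  have := hc.algClosed
  have := hc.smooth
  have := hc.integral
  exact exists_realization c ε hU₀ hU₁ x y hcov hx hy hxy hε hεy hf₀ hf₁

end Fermat.Agent.S25.helper8468
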