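/-
S25, layer A (LA-CHARTS assembly, helper2911).

From the regular-locus construction (`helper2911_RegLocus`), chart finiteness
(`helper9237_ChartFinite`, `helper9237_ChartProper`) and the local structure of the curve
(`helper9237_CurveLocal`): the two-chart atlas `helper8468.TwoChart c ε` of a smooth proper
integral curve with a section, hence `helper8468.Stmt_TwoChart` and `helper1705.Stmt_Chart`.
All proofs complete.
-/
import Fermat.Agent.S25.helper2911_RegLocus
import Fermat.Agent.S25.helper9237_ChartFinite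
import Fermat.Agent.S25.helper8468_Realization

set_option autoImplicit false

universe u

open CategoryTheory AlgebraicGeometry TopologicalSpace Opposite

namespace Fermat.Agent.S25.helper2911

open Fermat.Agent.S25.helper7755

section TwoOpens

variable {k : Type u} [Field k] {C : Scheme.{u}} (c : C ⟶ Spec (CommRingCat.of k))

theorem res_res {X : Scheme.{u}} {U V W : X.Opens} (h₁ : V ≤ U) (h₂ : W ≤ V) (s : Γ(X, U)) :
    X.presheaf.map (homOfLE h₂).op (X.presheaf.map (homOfLE h₁).op s) =
      X.presheaf.map (homOfLE (h₂.trans h₁)).op s := by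
  rw [← CommRingCat.comp_apply, ← Functor.map_comp]
  rfl

theorem res_toΓ {U V : C.Opens} (h : V ≤ U) (a : k) :
    C.presheaf.map (homOfLE h).op (toΓ c U a) = toΓ c V a := by
  unfold toΓ
  simp only [CommRingCat.hom_comp, RingHom.comp_apply]
  rw [res_res]

theorem toΓ_eq_structHom (U : C.Opens) : toΓ c U = helper8468.structHom c U := rfl

/-- A section vanishing somewhere on its (connected) domain of definition but not identically
zero is not constant. -/
theorem ne_toΓ_of_notMem_basicOpen {U : C.Opens} (y : Γ(C, U)) {p₀ : C} (hp₁ : p₀ ∈ U)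
    (hp₀ : p₀ ∉ C.basicOpen y) (hy0 : y ≠ 0) (b : k) : y ≠ toΓ c U b := by
  rintro rfl
  by_cases hb : b = 0
  · exact hy0 (by rw [hb, map_zero])
  · have hu : IsUnit (toΓ c U b) := (isUnit_iff_ne_zero.mpr hb).map _
    rw [Scheme.basicOpen_of_isUnit _ hu] at hp₀
    exact hp₀ hp₁

/-- In the two-chart shape, with a point `p₀ ∈ U₁` at which `y` vanishes: neither `y` nor `x`
is constant. -/
theorem ne_toΓ_of_twoOpens [IsIntegral C] {U₀ U₁ : C.Opens} (x : Γ(C, U₀)) (y : Γ(C, U₁))
    {p₀ : C} (hp₁ : p₀ ∈ U₁) (hp₀ : p₀ ∉ C.basicOpen y) (hne : Nonempty U₀)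
    (hby : C.basicOpen y = U₀ ⊓ U₁)
    (hxy : C.presheaf.map (homOfLE (inf_le_left : U₀ ⊓ U₁ ≤ U₀)).op x *
      C.presheaf.map (homOfLE (inf_le_right : U₀ ⊓ U₁ ≤ U₁)).op y = 1) :
    (∀ b : k, y ≠ toΓ c U₁ b) ∧ (∀ a : k, x ≠ toΓ c U₀ a) := by
  obtain ⟨⟨q, hq⟩⟩ := hne
  have hη : genericPoint C ∈ U₀ ⊓ U₁ :=
    ⟨genericPoint_mem_of_mem hq, genericPoint_mem_of_mem hp₁⟩
  have hne01 : Nonempty (U₀ ⊓ U₁ : C.Opens) := ⟨⟨_, hη⟩⟩
  have hy0 : y ≠ 0 := by
    rintro rfl
    rw [Scheme.basicOpen_zero] at hby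
    rw [← hby] at hη
    exact hη
  have hy : ∀ b : k, y ≠ toΓ c U₁ b := ne_toΓ_of_notMem_basicOpen c y hp₁ hp₀ hy0
  refine ⟨hy, ?_⟩
  rintro a rfl
  rw [res_toΓ] at hxy
  by_cases ha : a = 0
  · rw [ha, map_zero, zero_mul] at hxy
    exact zero_ne_one hxy
  · apply hy a⁻¹
    apply map_injective_of_isIntegral C (homOfLE (inf_le_right : U₀ ⊓ U₁ ≤ U₁))
    rw [res_toΓ]
    have h1 : toΓ c (U₀ ⊓ U₁) a⁻¹ * toΓ c (U₀ ⊓ U₁) a = 1 := by
      rw [← map_mul, inv_mul_cancel₀ ha, map_one]
    calc C.presheaf.map (homOfLE (inf_le_right : U₀ ⊓ U₁ ≤ U₁)).op y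
        = (toΓ c (U₀ ⊓ U₁) a⁻¹ * toΓ c (U₀ ⊓ U₁) a) *
            C.presheaf.map (homOfLE (inf_le_right : U₀ ⊓ U₁ ≤ U₁)).op y := by rw [h1, one_mul]
      _ = toΓ c (U₀ ⊓ U₁) a⁻¹ := by rw [mul_assoc, hxy, mul_one]


/-- A `k`-rational point of a smooth integral curve is not the generic point. -/
theorem section_base_ne_genericPoint [SmoothOfRelativeDimension 1 c] [IsIntegral C]
    (ε : Spec (CommRingCat.of k) ⟶ C) (hε : ε ≫ c = 𝟙 _) (p : Spec (CommRingCat.of k)) :
    ε.base p ≠ genericPoint C := by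
  intro hη
  obtain ⟨V, hV, hηV, -⟩ :=
    exists_isAffineOpen_mem_and_subset (x := genericPoint C) (U := ⊤) trivial
  have hall : ∀ q, ε.base q ∈ V := fun q => by
    have hq : q = p := Subsingleton.elim (α := PrimeSpectrum k) _ _
    rw [hq, hη]
    exact hηV
  have hneV : Nonempty V := ⟨⟨_, hηV⟩⟩
  have hev : (helper8468.pointHom ε hall).comp (helper8468.structHom c V) = RingHom.id k :=
    helper8468.pointHom_comp_structHom c ε hε hall
  have hinj : Function.Injective (helper8468.pointHom ε hall) := by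
    rw [injective_iff_map_eq_zero]
    intro s hs
    by_contra hs0
    have hb : C.basicOpen s ≠ ⊥ := fun h => hs0 ((basicOpen_eq_bot_iff s).mp h)
    obtain ⟨q, hq⟩ : ∃ q, q ∈ C.basicOpen s := by
      by_contra hcon
      push Not at hcon
      exact hb (eq_bot_iff.mpr fun q hq => (hcon q hq).elim)
    have hηs : genericPoint C ∈ C.basicOpen s := genericPoint_mem_of_mem hq
    have h4 : (Scheme.ΓSpecIso (CommRingCat.of k)).inv.hom (helper8468.pointHom ε hall s) =
        ε.appLE V ⊤ (fun p _ => hall p) s := by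
      unfold helper8468.pointHom
      simp
    rw [hs, map_zero] at h4
    have h5 := Scheme.basicOpen_appLE ε ⊤ V (fun p _ => hall p) s
    rw [← h4, Scheme.basicOpen_zero] at h5
    have h6 : p ∈ (⊤ : (Spec (CommRingCat.of k)).Opens) ⊓ ε ⁻¹ᵁ C.basicOpen s := by
      refine ⟨trivial, ?_⟩
      change ε.base p ∈ C.basicOpen s
      rw [hη]
      exact hηs
    rw [← h5] at h6
    exact h6
  have hsurj : Function.Surjective (helper8468.structHom c V) := by
    intro s
    refine ⟨helper8468.pointHom ε hall s, hinj ?_⟩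
    exact congrArg (fun f : k →+* k => f (helper8468.pointHom ε hall s)) hev
  let _ : Algebra k Γ(C, V) := (helper8468.structHom c V).toAlgebra
  have hinv : Module.Invertible Γ(C, V) Ω[Γ(C, V)⁄k] :=
    helper1800.invertible_kaehlerDifferential_of_isAffineOpen c hV rfl
  have hsub : Subsingleton Ω[Γ(C, V)⁄k] :=
    KaehlerDifferential.subsingleton_of_surjective k Γ(C, V) hsurj
  have h01 : (0 : Γ(C, V)) = 1 :=
    FaithfulSMul.eq_of_smul_eq_smul (α := Ω[Γ(C, V)⁄k]) fun m => Subsingleton.elim _ _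
  exact zero_ne_one h01


/-- The finite-fibre property of chart maps of non-constant sections (the remaining input of
LA-CHARTS). -/
def FiniteChartFibres : Prop :=
  ∀ (U : C.Opens) [Nonempty U] (s : Γ(C, U)), (∀ a : k, s ≠ toΓ c U a) →
    ∀ p, (helper9237.chartMap c U s ⁻¹' {p}).Finite

/-- **Two-chart atlas** of a smooth proper integral curve with a section over an algebraically
closed field, from the finiteness of the fibres of chart maps. -/
theorem twoChart_of_finiteChartFibres [IsAlgClosed k] [IsProper c]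
    [SmoothOfRelativeDimension 1 c] [IsIntegral C]
    (ε : Spec (CommRingCat.of k) ⟶ C) (hε : ε ≫ c = 𝟙 _) (hfib : FiniteChartFibres c) :
    helper8468.TwoChart c ε := by
  let pt : Spec (CommRingCat.of k) := Nonempty.some inferInstance
  have hall : ∀ p, ε.base p = ε.base pt := fun p =>
    congrArg _ (Subsingleton.elim (α := PrimeSpectrum k) _ _)
  have hp₀η : ε.base pt ≠ genericPoint C := section_base_ne_genericPoint c ε hε pt
  have hdvr := helper9237.isDiscreteValuationRing_stalk k c (ε.base pt) hp₀η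
  have hnf : ¬ IsField (C.presheaf.stalk (ε.base pt)) := IsDiscreteValuationRing.not_isField _
  have hval : ∀ p : C, p ≠ genericPoint C → ValuationRing (C.presheaf.stalk p) := fun p hp => by
    have := helper9237.isDiscreteValuationRing_stalk k c p hp
    infer_instance
  obtain ⟨U₀, U₁, x, y, hp₁, hpy, -, hcov, hbx, hby, hxy, hne₀, hne₁⟩ :=
    exists_two_opens (ε.base pt) hval hnf
  obtain ⟨hyc, hxc⟩ := ne_toΓ_of_twoOpens c x y hp₁ hpy hne₀ hby hxy
  obtain ⟨haff₀, hfin₀⟩ := helper9237.isAffineOpen_and_finite_of_finite_fibers c U₀ U₁ x y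
    hcov hby hxy (hfib U₀ x hxc)
  have hxy' : C.presheaf.map (homOfLE (inf_le_left : U₁ ⊓ U₀ ≤ U₁)).op y *
      C.presheaf.map (homOfLE (inf_le_right : U₁ ⊓ U₀ ≤ U₀)).op x = 1 := by
    have h := congrArg (C.presheaf.map (homOfLE (inf_comm U₁ U₀).le).op) hxy
    rw [map_mul, map_one, res_res, res_res, mul_comm] at h
    exact h
  obtain ⟨haff₁, hfin₁⟩ := helper9237.isAffineOpen_and_finite_of_finite_fibers c U₁ U₀ y x
    (by rw [sup_comm]; exact hcov) (by rw [inf_comm]; exact hbx) hxy' (hfib U₁ y hyc)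
  exact ⟨U₀, U₁, x, y, haff₀, haff₁, hcov, hbx.symm, hby.symm, hxy,
    fun p => by rw [hall p]; exact hp₁, fun p => by rw [hall p]; exact hpy, hfin₀, hfin₁⟩

/-- `helper8468.Stmt_TwoChart` (hence `helper1705.Stmt_Chart` by `helper8468.stmt_Chart_of`)
from the finite-fibre property. -/
theorem stmt_TwoChart_of_finiteChartFibres
    (H : ∀ (k : Type u) [Field k] [IsAlgClosed k] {C : Scheme.{u}}
      (c : C ⟶ Spec (CommRingCat.of k)) [IsProper c] [SmoothOfRelativeDimension 1 c]
      [IsIntegral C], FiniteChartFibres c) :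
    helper8468.Stmt_TwoChart.{u} := by
  intro k _ C c hc ε
  have := hc.algClosed
  have := hc.proper
  have := hc.smooth
  have := hc.integral
  exact twoChart_of_finiteChartFibres c ε.1 ε.2 (H k c)


/-- Chart maps of non-constant sections have finite fibres (`helper9237.finite_fiber_chartMap`). -/
theorem finiteChartFibres [IsAlgClosed k] [IsProper c] [SmoothOfRelativeDimension 1 c]
    [IsIntegral C] : FiniteChartFibres c := by
  intro U _ s hs p
  have := helper9237.noetherianSpace_of_isProper c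
  exact helper9237.finite_fiber_chartMap c U s hs p

/-- **Two-chart atlas** of a smooth proper integral curve with a section over an algebraically
closed field (leaf LA-CHARTS). -/
theorem twoChart [IsAlgClosed k] [IsProper c] [SmoothOfRelativeDimension 1 c] [IsIntegral C]
    (ε : Spec (CommRingCat.of k) ⟶ C) (hε : ε ≫ c = 𝟙 _) : helper8468.TwoChart c ε :=
  twoChart_of_finiteChartFibres c ε hε (finiteChartFibres c)

/-- Leaf LA-CHARTS, closed. -/
theorem stmt_TwoChart : helper8468.Stmt_TwoChart.{u} :=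
  stmt_TwoChart_of_finiteChartFibres fun _ _ _ _ c _ _ _ => finiteChartFibres c

/-- **`Stmt_Chart` of the Spec**: every curve with a section is realized by a `CurveDatum`. -/
theorem stmt_Chart : helper1705.Stmt_Chart.{u} :=
  helper8468.stmt_Chart_of stmt_TwoChart


end TwoOpens

end Fermat.Agent.S25.helper2911
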