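import Mathlib.AlgebraicGeometry.Modules.Sheaf
import Mathlib.Topology.Sheaves.SheafCondition.UniqueGluing
set_option autoImplicit false

open CategoryTheory Opposite TopologicalSpace AlgebraicGeometry

universe u

noncomputable section

namespace Fermat.Agent.S25.helper2952

variable {X : Scheme.{u}}

/-- Restriction of sections of a sheaf of modules along an inclusion of opens. -/
def res (M : X.Modules) {V V' : X.Opens} (h : V' ≤ V) : Γ(M, V) →+ Γ(M, V') :=
  (M.presheaf.map (homOfLE h).op).hom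

/-- Restriction of functions along an inclusion of opens. -/
def resO (X : Scheme.{u}) {V V' : X.Opens} (h : V' ≤ V) : Γ(X, V) →+* Γ(X, V') :=
  (X.presheaf.map (homOfLE h).op).hom

theorem res_res (M : X.Modules) {V V' V'' : X.Opens} (h : V' ≤ V) (h' : V'' ≤ V') (m : Γ(M, V)) :
    res M h' (res M h m) = res M (h'.trans h) m := by
  unfold res
  rw [← AddCommGrpCat.comp_apply, ← Functor.map_comp]
  rfl

theorem res_self (M : X.Modules) {V : X.Opens} (h : V ≤ V) (m : Γ(M, V)) : res M h m = m := by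
  unfold res
  have : (homOfLE h).op = 𝟙 (op V) := rfl
  rw [this, M.presheaf.map_id]
  rfl

theorem res_smul (M : X.Modules) {V V' : X.Opens} (h : V' ≤ V) (r : Γ(X, V)) (m : Γ(M, V)) :
    res M h (r • m) = resO X h r • res M h m :=
  M.map_smul (homOfLE h) r m

end Fermat.Agent.S25.helper2952

namespace Fermat.Agent.S25.helper2952

variable {X : Scheme.{u}}

theorem resO_resO (X : Scheme.{u}) {V V' V'' : X.Opens} (h : V' ≤ V) (h' : V'' ≤ V')
    (r : Γ(X, V)) : resO X h' (resO X h r) = resO X (h'.trans h) r := by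
  unfold resO
  rw [← CommRingCat.comp_apply, ← Functor.map_comp]
  rfl

theorem resO_self (X : Scheme.{u}) {V : X.Opens} (h : V ≤ V) (r : Γ(X, V)) : resO X h r = r := by
  unfold resO
  have : (homOfLE h).op = 𝟙 (op V) := rfl
  rw [this, X.presheaf.map_id]
  rfl

/-- A "local homomorphism" `M → N` over the open `V₀`, given on sections. -/
structure SecHom (M N : X.Modules) (V₀ : X.Opens) where
  toFun : ∀ (V : X.Opens), V ≤ V₀ → (Γ(M, V) →+ Γ(N, V))
  map_res : ∀ (V V' : X.Opens) (hV : V ≤ V₀) (h : V' ≤ V) (m : Γ(M, V)),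
    toFun V' (h.trans hV) (res M h m) = res N h (toFun V hV m)
  map_smul : ∀ (V : X.Opens) (hV : V ≤ V₀) (r : Γ(X, V)) (m : Γ(M, V)),
    toFun V hV (r • m) = r • toFun V hV m

namespace SecHom

variable {M N P : X.Modules} {V₀ : X.Opens}

@[ext]
theorem ext {ψ ψ' : SecHom M N V₀}
    (h : ∀ (V : X.Opens) (hV : V ≤ V₀) (m : Γ(M, V)), ψ.toFun V hV m = ψ'.toFun V hV m) :
    ψ = ψ' := by
  cases ψ; cases ψ'
  congr
  funext V hV
  exact AddMonoidHom.ext (h V hV)

/-- The local homomorphism attached to a global one. -/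
def ofHom (φ : M ⟶ N) (V₀ : X.Opens) : SecHom M N V₀ where
  toFun V _ := (φ.app V).hom
  map_res V V' _ h m := by
    have := φ.mapPresheaf.naturality (homOfLE h).op
    exact congr($this m)
  map_smul V _ r m := Scheme.Modules.Hom.app_smul φ r m

/-- Restriction of a local homomorphism to a smaller open. -/
def restrict (ψ : SecHom M N V₀) {V₁ : X.Opens} (h : V₁ ≤ V₀) : SecHom M N V₁ where
  toFun V hV := ψ.toFun V (hV.trans h)
  map_res V V' hV h' m := ψ.map_res V V' (hV.trans h) h' m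
  map_smul V hV r m := ψ.map_smul V (hV.trans h) r m

/-- Composition of local homomorphisms. -/
def comp (ψ : SecHom M N V₀) (χ : SecHom N P V₀) : SecHom M P V₀ where
  toFun V hV := (χ.toFun V hV).comp (ψ.toFun V hV)
  map_res V V' hV h m := by
    simp only [AddMonoidHom.comp_apply]
    rw [ψ.map_res, χ.map_res]
  map_smul V hV r m := by
    simp only [AddMonoidHom.comp_apply]
    rw [ψ.map_smul, χ.map_smul]

/-- The identity local homomorphism. -/
def id (M : X.Modules) (V₀ : X.Opens) : SecHom M M V₀ where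
  toFun V _ := AddMonoidHom.id _
  map_res _ _ _ _ _ := rfl
  map_smul _ _ _ _ := rfl

end SecHom

end Fermat.Agent.S25.helper2952

namespace Fermat.Agent.S25.helper2952

variable {X : Scheme.{u}}

section Glue

variable {M N : X.Modules} {ι : Type u} (U : ι → X.Opens) (hU : ⨆ i, U i = ⊤)
  (ψ : ∀ i, SecHom M N (U i))
  (hψ : ∀ (i j : ι) (V : X.Opens) (hi : V ≤ U i) (hj : V ≤ U j) (m : Γ(M, V)),
    (ψ i).toFun V hi m = (ψ j).toFun V hj m)

/-- The sheaf of abelian groups underlying a sheaf of modules. -/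
def abSheaf (N : X.Modules) : TopCat.Sheaf Ab X := ⟨N.presheaf, N.isSheaf⟩

include hU in
theorem le_iSup_inf (V : X.Opens) : V ≤ ⨆ i, V ⊓ U i := by
  rw [← inf_iSup_eq, hU, inf_top_eq]

/-- Two sections agreeing on all small opens are equal. -/
theorem sec_ext (N : X.Modules) {ι : Type u} (U : ι → X.Opens)
    {V : X.Opens} (hV : V ≤ ⨆ i, U i) (n n' : Γ(N, V))
    (h : ∀ i, res N (inf_le_left : V ⊓ U i ≤ V) n = res N inf_le_left n') : n = n' :=
  TopCat.Sheaf.eq_of_locally_eq' (abSheaf N) (fun i => V ⊓ U i) V (fun i => homOfLE inf_le_left)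
    (by rw [← inf_iSup_eq]; exact le_inf le_rfl hV) n n' h

theorem eq_of_res_eq (N : X.Modules) {ι : Type u} (U : ι → X.Opens) (hU : ⨆ i, U i = ⊤)
    {V : X.Opens} (n n' : Γ(N, V))
    (h : ∀ i, res N (inf_le_left : V ⊓ U i ≤ V) n = res N inf_le_left n') : n = n' :=
  sec_ext N U (hU ▸ le_top) n n' h

include hψ in
theorem glue_compatible (V : X.Opens) (m : Γ(M, V)) :
    TopCat.Presheaf.IsCompatible (abSheaf N).1 (fun i => V ⊓ U i)
      (fun i => (ψ i).toFun (V ⊓ U i) inf_le_right (res M inf_le_left m)) := by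
  intro i j
  have h1 := (ψ i).map_res (V ⊓ U i) ((V ⊓ U i) ⊓ (V ⊓ U j)) inf_le_right inf_le_left
    (res M inf_le_left m)
  have h2 := (ψ j).map_res (V ⊓ U j) ((V ⊓ U i) ⊓ (V ⊓ U j)) inf_le_right inf_le_right
    (res M inf_le_left m)
  rw [res_res] at h1 h2
  change res N _ _ = res N _ _
  rw [← h1, ← h2]
  exact hψ i j _ _ _ _

include hU hψ in
theorem glue_exists (V : X.Opens) (m : Γ(M, V)) :
    ∃! n : Γ(N, V), ∀ i, res N (inf_le_left : V ⊓ U i ≤ V) n =
      (ψ i).toFun (V ⊓ U i) inf_le_right (res M inf_le_left m) :=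
  TopCat.Sheaf.existsUnique_gluing' (abSheaf N) (fun i => V ⊓ U i) V (fun i => homOfLE inf_le_left)
    (le_iSup_inf U hU V) _ (glue_compatible U ψ hψ V m)

/-- The glued map on sections. -/
def glueFun (V : X.Opens) (m : Γ(M, V)) : Γ(N, V) := (glue_exists U hU ψ hψ V m).choose

theorem glueFun_spec (V : X.Opens) (m : Γ(M, V)) (i : ι) :
    res N (inf_le_left : V ⊓ U i ≤ V) (glueFun U hU ψ hψ V m) =
      (ψ i).toFun (V ⊓ U i) inf_le_right (res M inf_le_left m) :=
  (glue_exists U hU ψ hψ V m).choose_spec.1 i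

theorem glueFun_unique (V : X.Opens) (m : Γ(M, V)) (n : Γ(N, V))
    (h : ∀ i, res N (inf_le_left : V ⊓ U i ≤ V) n =
      (ψ i).toFun (V ⊓ U i) inf_le_right (res M inf_le_left m)) :
    n = glueFun U hU ψ hψ V m :=
  (glue_exists U hU ψ hψ V m).choose_spec.2 n h

theorem glueFun_of_le (V : X.Opens) (i : ι) (hV : V ≤ U i) (m : Γ(M, V)) :
    glueFun U hU ψ hψ V m = (ψ i).toFun V hV m := by
  symm
  apply glueFun_unique
  intro j
  rw [← (ψ i).map_res V (V ⊓ U j) hV inf_le_left m]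
  exact hψ i j _ _ _ _

theorem glueFun_res (V V' : X.Opens) (h : V' ≤ V) (m : Γ(M, V)) :
    glueFun U hU ψ hψ V' (res M h m) = res N h (glueFun U hU ψ hψ V m) := by
  symm
  apply glueFun_unique
  intro i
  have h1 := glueFun_spec U hU ψ hψ V m i
  have h2 := congrArg (res N (inf_le_inf_right (U i) h : V' ⊓ U i ≤ V ⊓ U i)) h1
  rw [res_res] at h2
  rw [res_res, h2, ← (ψ i).map_res, res_res, res_res]

theorem glueFun_add (V : X.Opens) (m m' : Γ(M, V)) :
    glueFun U hU ψ hψ V (m + m') = glueFun U hU ψ hψ V m + glueFun U hU ψ hψ V m' := by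
  symm
  apply glueFun_unique
  intro i
  rw [map_add, map_add, map_add, glueFun_spec, glueFun_spec]

theorem glueFun_smul (V : X.Opens) (r : Γ(X, V)) (m : Γ(M, V)) :
    glueFun U hU ψ hψ V (r • m) = r • glueFun U hU ψ hψ V m := by
  symm
  apply glueFun_unique
  intro i
  rw [res_smul, res_smul, (ψ i).map_smul, glueFun_spec]


theorem res_eq_map (M : X.Modules) {V V' : X.Opens} (f : op V ⟶ op V') (m : Γ(M, V)) :
    M.presheaf.map f m = res M (leOfHom f.unop) m := rfl

/-- The glued morphism of abelian presheaves. -/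
def gluePresheafHom : M.presheaf ⟶ N.presheaf where
  app V := AddCommGrpCat.ofHom
    (AddMonoidHom.mk' (glueFun U hU ψ hψ V.unop) (glueFun_add U hU ψ hψ V.unop))
  naturality V V' f := by
    ext m
    exact glueFun_res U hU ψ hψ V.unop V'.unop (leOfHom f.unop) m

/-- The glued morphism of sheaves of modules. -/
def glueHom : M ⟶ N :=
  (Scheme.Modules.fullyFaithfulToPresheafOfModules (X := X)).preimage
    (PresheafOfModules.homMk (gluePresheafHom U hU ψ hψ)
      (fun V r m => glueFun_smul U hU ψ hψ V.unop r m))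

theorem glueHom_app (V : X.Opens) (m : Γ(M, V)) :
    (glueHom U hU ψ hψ).app V m = glueFun U hU ψ hψ V m := by
  rfl


theorem ofHom_glueHom (i : ι) : SecHom.ofHom (glueHom U hU ψ hψ) (U i) = ψ i := by
  apply SecHom.ext
  intro V hV m
  exact glueFun_of_le U hU ψ hψ V i hV m

end Glue

/-- Two morphisms agreeing on the members of an open cover are equal. -/
theorem hom_ext_of_cover {M N : X.Modules} {ι : Type u} (U : ι → X.Opens) (hU : ⨆ i, U i = ⊤)
    (φ φ' : M ⟶ N)
    (h : ∀ (i : ι) (V : X.Opens) (_ : V ≤ U i) (m : Γ(M, V)), φ.app V m = φ'.app V m) :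
    φ = φ' := by
  apply Scheme.Modules.hom_ext
  intro V
  ext m
  apply eq_of_res_eq N U hU
  intro i
  have h1 := (SecHom.ofHom φ ⊤).map_res V (V ⊓ U i) le_top inf_le_left m
  have h2 := (SecHom.ofHom φ' ⊤).map_res V (V ⊓ U i) le_top inf_le_left m
  change φ.app _ _ = res N _ (φ.app V m) at h1
  change φ'.app _ _ = res N _ (φ'.app V m) at h2
  rw [← h1, ← h2]
  exact h i _ inf_le_right _

/-- Gluing of mutually inverse local homomorphisms gives an isomorphism. -/
theorem nonempty_iso_of_secHom {M N : X.Modules} {ι : Type u} (U : ι → X.Opens)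
    (hU : ⨆ i, U i = ⊤) (ψ : ∀ i, SecHom M N (U i)) (χ : ∀ i, SecHom N M (U i))
    (hψ : ∀ (i j : ι) (V : X.Opens) (hi : V ≤ U i) (hj : V ≤ U j) (m : Γ(M, V)),
      (ψ i).toFun V hi m = (ψ j).toFun V hj m)
    (h1 : ∀ (i : ι) (V : X.Opens) (hV : V ≤ U i) (m : Γ(M, V)),
      (χ i).toFun V hV ((ψ i).toFun V hV m) = m)
    (h2 : ∀ (i : ι) (V : X.Opens) (hV : V ≤ U i) (n : Γ(N, V)),
      (ψ i).toFun V hV ((χ i).toFun V hV n) = n) :
    Nonempty (M ≅ N) := by
  have hχ : ∀ (i j : ι) (V : X.Opens) (hi : V ≤ U i) (hj : V ≤ U j) (n : Γ(N, V)),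
      (χ i).toFun V hi n = (χ j).toFun V hj n := by
    intro i j V hi hj n
    have := h1 j V hj ((χ i).toFun V hi n)
    rw [← hψ i j V hi hj, h2 i V hi n] at this
    exact this.symm
  refine ⟨⟨glueHom U hU ψ hψ, glueHom U hU χ hχ, ?_, ?_⟩⟩
  · apply hom_ext_of_cover U hU
    intro i V hV m
    change (glueHom U hU χ hχ).app V ((glueHom U hU ψ hψ).app V m) = m
    rw [glueHom_app, glueHom_app, glueFun_of_le U hU ψ hψ V i hV, glueFun_of_le U hU χ hχ V i hV]
    exact h1 i V hV m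
  · apply hom_ext_of_cover U hU
    intro i V hV n
    change (glueHom U hU ψ hψ).app V ((glueHom U hU χ hχ).app V n) = n
    rw [glueHom_app, glueHom_app, glueFun_of_le U hU χ hχ V i hV, glueFun_of_le U hU ψ hψ V i hV]
    exact h2 i V hV n

/-- Gluing of sections. -/
theorem sec_glue (N : X.Modules) {ι : Type u} (U : ι → X.Opens) (V : X.Opens)
    (hUV : ∀ i, U i ≤ V) (hV : V ≤ ⨆ i, U i) (s : ∀ i, Γ(N, U i))
    (hs : ∀ i j, res N (inf_le_left : U i ⊓ U j ≤ U i) (s i) = res N inf_le_right (s j)) :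
    ∃! n : Γ(N, V), ∀ i, res N (hUV i) n = s i :=
  TopCat.Sheaf.existsUnique_gluing' (abSheaf N) U V (fun i => homOfLE (hUV i)) hV s hs

/-- Locality of equality of sections, flexible form. -/
theorem sec_ext' (N : X.Modules) {ι : Type u} (U : ι → X.Opens) (V : X.Opens)
    (hUV : ∀ i, U i ≤ V) (hV : V ≤ ⨆ i, U i) (n n' : Γ(N, V))
    (h : ∀ i, res N (hUV i) n = res N (hUV i) n') : n = n' :=
  TopCat.Sheaf.eq_of_locally_eq' (abSheaf N) U V (fun i => homOfLE (hUV i)) hV n n' h

/-! ### The structure sheaf as a module, generators -/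

/-- The structure sheaf as a sheaf of modules. -/
abbrev OO (X : Scheme.{u}) : X.Modules := SheafOfModules.unit X.ringCatSheaf

/-- A function, seen as a section of the structure sheaf. -/
def toO {V : X.Opens} (r : Γ(X, V)) : Γ(OO X, V) := r

/-- A section of the structure sheaf, seen as a function. -/
def ofO {V : X.Opens} (s : Γ(OO X, V)) : Γ(X, V) := s

@[simp] theorem ofO_toO {V : X.Opens} (r : Γ(X, V)) : ofO (toO r) = r := rfl
@[simp] theorem toO_ofO {V : X.Opens} (s : Γ(OO X, V)) : toO (ofO s) = s := rfl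
theorem toO_add {V : X.Opens} (r s : Γ(X, V)) : toO (r + s) = toO r + toO s := rfl
theorem ofO_add {V : X.Opens} (r s : Γ(OO X, V)) : ofO (r + s) = ofO r + ofO s := rfl
theorem smul_toO {V : X.Opens} (r s : Γ(X, V)) : r • toO s = toO (r * s) := rfl
theorem ofO_smul {V : X.Opens} (r : Γ(X, V)) (s : Γ(OO X, V)) : ofO (r • s) = r * ofO s := rfl
theorem res_toO {V V' : X.Opens} (h : V' ≤ V) (r : Γ(X, V)) :
    res (OO X) h (toO r) = toO (resO X h r) := rfl
theorem ofO_res {V V' : X.Opens} (h : V' ≤ V) (s : Γ(OO X, V)) :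
    ofO (res (OO X) h s) = resO X h (ofO s) := rfl
theorem toO_injective {V : X.Opens} : Function.Injective (toO : Γ(X, V) → Γ(OO X, V)) :=
  fun _ _ h => h

/-- Locality of equality of functions. -/
theorem fun_ext_of_cover (X : Scheme.{u}) {ι : Type u} (U : ι → X.Opens) (V : X.Opens)
    (hUV : ∀ i, U i ≤ V) (hV : V ≤ ⨆ i, U i) (a b : Γ(X, V))
    (h : ∀ i, resO X (hUV i) a = resO X (hUV i) b) : a = b :=
  toO_injective (sec_ext' (OO X) U V hUV hV (toO a) (toO b)
    (fun i => by rw [res_toO, res_toO, h i]))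

/-- Gluing of functions. -/
theorem fun_glue (X : Scheme.{u}) {ι : Type u} (U : ι → X.Opens) (V : X.Opens)
    (hUV : ∀ i, U i ≤ V) (hV : V ≤ ⨆ i, U i) (s : ∀ i, Γ(X, U i))
    (hs : ∀ i j, resO X (inf_le_left : U i ⊓ U j ≤ U i) (s i) = resO X inf_le_right (s j)) :
    ∃ a : Γ(X, V), ∀ i, resO X (hUV i) a = s i := by
  obtain ⟨n, hn, -⟩ := sec_glue (OO X) U V hUV hV (fun i => toO (s i))
    (fun i j => by rw [res_toO, res_toO, hs i j])
  exact ⟨ofO n, fun i => by rw [← ofO_res, hn i]; rfl⟩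

/-- `m₀` is a generator of `M` over `V₀`: every section over a smaller open is a unique
multiple of the restriction of `m₀`. -/
def IsGenerator (M : X.Modules) (V₀ : X.Opens) (m₀ : Γ(M, V₀)) : Prop :=
  ∀ (V : X.Opens) (hV : V ≤ V₀), Function.Bijective (fun r : Γ(X, V) => r • res M hV m₀)

theorem IsGenerator.restrict {M : X.Modules} {V₀ V₁ : X.Opens} {m₀ : Γ(M, V₀)}
    (h : IsGenerator M V₀ m₀) (h1 : V₁ ≤ V₀) : IsGenerator M V₁ (res M h1 m₀) := by
  intro V hV
  have := h V (hV.trans h1)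
  simpa only [res_res] using this

/-- `M` is locally generated by one section on `V₀`. -/
def LocGen (M : X.Modules) (V₀ : X.Opens) : Prop :=
  ∀ x : X, x ∈ V₀ → ∃ W : X.Opens, W ≤ V₀ ∧ x ∈ W ∧ ∃ m₀ : Γ(M, W), IsGenerator M W m₀

theorem LocGen.mono {M : X.Modules} {V₀ V₁ : X.Opens} (h : LocGen M V₀) (h1 : V₁ ≤ V₀) :
    LocGen M V₁ := by
  intro x hx
  obtain ⟨W, hW, hxW, m₀, hm₀⟩ := h x (h1 hx)
  exact ⟨W ⊓ V₁, inf_le_right, ⟨hxW, hx⟩, res M inf_le_left m₀, hm₀.restrict inf_le_left⟩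

theorem isGenerator_of_secIso {M : X.Modules} {V₀ : X.Opens} (ψ : SecHom M (OO X) V₀)
    (χ : SecHom (OO X) M V₀)
    (h1 : ∀ (V : X.Opens) (hV : V ≤ V₀) (m : Γ(M, V)), χ.toFun V hV (ψ.toFun V hV m) = m)
    (h2 : ∀ (V : X.Opens) (hV : V ≤ V₀) (s : Γ(OO X, V)), ψ.toFun V hV (χ.toFun V hV s) = s) :
    IsGenerator M V₀ (χ.toFun V₀ le_rfl (toO 1)) := by
  intro V hV
  have key : ∀ r : Γ(X, V), r • res M hV (χ.toFun V₀ le_rfl (toO 1)) = χ.toFun V hV (toO r) := by
    intro r
    rw [← χ.map_res V₀ V le_rfl hV, ← χ.map_smul, res_toO, smul_toO, map_one, mul_one]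
  constructor
  · intro r r' hrr'
    simp only [key] at hrr'
    have := congrArg (ψ.toFun V hV) hrr'
    rw [h2, h2] at this
    exact this
  · intro m
    refine ⟨ofO (ψ.toFun V hV m), ?_⟩
    simp only [key]
    rw [toO_ofO, h1]

/-! ### Multiplication by a function; endomorphisms of locally monogenic modules -/

/-- Multiplication by a function, as a local endomorphism. -/
def SecHom.smul (M : X.Modules) {V₀ : X.Opens} (r : Γ(X, V₀)) : SecHom M M V₀ where
  toFun V hV := DistribSMul.toAddMonoidHom Γ(M, V) (resO X hV r)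
  map_res V V' hV h m := by
    simp only [DistribSMul.toAddMonoidHom_apply]
    rw [res_smul, resO_resO]
  map_smul V hV r' m := by
    simp only [DistribSMul.toAddMonoidHom_apply]
    rw [← mul_smul, ← mul_smul, mul_comm]

@[simp] theorem SecHom.smul_toFun (M : X.Modules) {V₀ : X.Opens} (r : Γ(X, V₀)) (V : X.Opens)
    (hV : V ≤ V₀) (m : Γ(M, V)) : (SecHom.smul M r).toFun V hV m = resO X hV r • m := rfl

/-- Every local endomorphism of a locally monogenic module is multiplication by a function. -/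
theorem SecHom.exists_eq_smul {M : X.Modules} {V₀ : X.Opens} (hM : LocGen M V₀)
    (ψ : SecHom M M V₀) : ∃ r : Γ(X, V₀), ψ = SecHom.smul M r := by
  classical
  choose W hW hxW m₀ hgen using hM
  let ι : Type u := {x : X // x ∈ V₀}
  let U : ι → X.Opens := fun i => W i.1 i.2
  have hUV : ∀ i : ι, U i ≤ V₀ := fun i => hW i.1 i.2
  have hcov : V₀ ≤ ⨆ i, U i := by
    intro x hx
    exact TopologicalSpace.Opens.mem_iSup.mpr ⟨⟨x, hx⟩, hxW x hx⟩
  -- local multipliers
  have hr : ∀ i : ι, ∃ r : Γ(X, U i), r • m₀ i.1 i.2 = ψ.toFun (U i) (hUV i) (m₀ i.1 i.2) := by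
    intro i
    obtain ⟨r, hr⟩ := (hgen i.1 i.2 (U i) le_rfl).2 (ψ.toFun (U i) (hUV i) (m₀ i.1 i.2))
    refine ⟨r, ?_⟩
    simpa only [res_self] using hr
  choose r hr using hr
  have key : ∀ (i : ι) (V : X.Opens) (hV : V ≤ U i) (m : Γ(M, V)),
      ψ.toFun V (hV.trans (hUV i)) m = resO X hV (r i) • m := by
    intro i V hV m
    obtain ⟨s, rfl⟩ := (hgen i.1 i.2 V hV).2 m
    simp only
    rw [ψ.map_smul, ψ.map_res (U i) V (hUV i) hV, ← hr i, res_smul, ← mul_smul, ← mul_smul,
      mul_comm]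
  have hcompat : ∀ i j : ι, resO X (inf_le_left : U i ⊓ U j ≤ U i) (r i) =
      resO X inf_le_right (r j) := by
    intro i j
    apply (hgen i.1 i.2 (U i ⊓ U j) inf_le_left).1
    simp only
    rw [← key i (U i ⊓ U j) inf_le_left, ← key j (U i ⊓ U j) inf_le_right]
  obtain ⟨a, ha⟩ := fun_glue X U V₀ hUV hcov r hcompat
  refine ⟨a, ?_⟩
  apply SecHom.ext
  intro V hV m
  rw [SecHom.smul_toFun]
  apply sec_ext M U (hV.trans hcov)
  intro i
  rw [← ψ.map_res V (V ⊓ U i) hV inf_le_left, res_smul, resO_resO,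
    key i (V ⊓ U i) inf_le_right, ← ha i, resO_resO]

end Fermat.Agent.S25.helper2952
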