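import Fermat.Agent.S25.helper2952_SecHom
import Mathlib.AlgebraicGeometry.Restrict
set_option autoImplicit false

/-!
# Separatedness of rigidified Picard functors: the sectionwise core (S25, leaf L0-LOCISO)

Mathlib-only. For a morphism `σ : T ⟶ X` and a map `ρ : σ^* M ⟶ 𝒪_T` we define the evaluation
`ev σ ρ W : Γ(M, W) →+ Γ(T, σ⁻¹ W)`; we show that every `σ`-semilinear family is a multiple of
`ev` when `ρ` is an isomorphism (`SemiHom.exists_eq_mul_ev`), that `ev` of a local generator is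
a unit (`isUnit_ev_of_isGenerator`), and the core theorem `sep_core`.
-/

open CategoryTheory Opposite TopologicalSpace AlgebraicGeometry

universe u

noncomputable section

namespace Fermat.Agent.S25.helper2952

variable {X T : Scheme.{u}}

/-- The global morphism attached to a local homomorphism over `⊤`. -/
def SecHom.toHom {M N : X.Modules} (ψ : SecHom M N ⊤) : M ⟶ N :=
  (Scheme.Modules.fullyFaithfulToPresheafOfModules (X := X)).preimage
    (PresheafOfModules.homMk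
      (M₁ := M.val) (M₂ := N.val)
      { app := fun V => AddCommGrpCat.ofHom (ψ.toFun V.unop le_top)
        naturality := fun V V' f => by
          ext m
          exact ψ.map_res V.unop V'.unop le_top (leOfHom f.unop) m }
      (fun V r m => ψ.map_smul V.unop le_top r m))

theorem SecHom.toHom_app {M N : X.Modules} (ψ : SecHom M N ⊤) (V : X.Opens) (m : Γ(M, V)) :
    ψ.toHom.app V m = ψ.toFun V le_top m := rfl

section Eval

variable (σ : T ⟶ X) {M : X.Modules} (ρ : (Scheme.Modules.pullback σ).obj M ⟶ OO T)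

/-- The adjoint of a map `σ^* M ⟶ 𝒪_T`. -/
def evalHom : M ⟶ (Scheme.Modules.pushforward σ).obj (OO T) :=
  (Scheme.Modules.pullbackPushforwardAdjunction σ).homEquiv M (OO T) ρ

/-- Sections of `σ_* 𝒪_T` are functions on the preimage. -/
def pfO {W : X.Opens} (n : Γ((Scheme.Modules.pushforward σ).obj (OO T), W)) : Γ(T, σ ⁻¹ᵁ W) := n

/-- The evaluation map on sections: `Γ(M, W) → Γ(T, σ⁻¹ W)`. -/
def ev (W : X.Opens) : Γ(M, W) →+ Γ(T, σ ⁻¹ᵁ W) :=
  AddMonoidHom.mk' (fun m => pfO σ ((evalHom σ ρ).app W m)) (fun m m' => by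
    rw [map_add]; rfl)

theorem ev_apply (W : X.Opens) (m : Γ(M, W)) : ev σ ρ W m = pfO σ ((evalHom σ ρ).app W m) := rfl

theorem preimage_mono {W W' : X.Opens} (h : W' ≤ W) : σ ⁻¹ᵁ W' ≤ σ ⁻¹ᵁ W :=
  fun _ hx => h hx

theorem ev_res {W W' : X.Opens} (h : W' ≤ W) (m : Γ(M, W)) :
    ev σ ρ W' (res M h m) = resO T (preimage_mono σ h) (ev σ ρ W m) := by
  have := (SecHom.ofHom (evalHom σ ρ) ⊤).map_res W W' le_top h m
  exact congrArg (pfO σ) this

theorem ev_smul (W : X.Opens) (r : Γ(X, W)) (m : Γ(M, W)) :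
    ev σ ρ W (r • m) = σ.app W r * ev σ ρ W m := by
  have := Scheme.Modules.Hom.app_smul (evalHom σ ρ) r m
  exact congrArg (pfO σ) this

end Eval

/-! ### Coordinates with respect to a generator -/

section Coord

variable {M : X.Modules} {W : X.Opens} {m₀ : Γ(M, W)} (hgen : IsGenerator M W m₀)

/-- The coordinate of a section with respect to a generator. -/
def coord (V : X.Opens) (hV : V ≤ W) (m : Γ(M, V)) : Γ(X, V) := ((hgen V hV).2 m).choose

theorem coord_spec (V : X.Opens) (hV : V ≤ W) (m : Γ(M, V)) :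
    coord hgen V hV m • res M hV m₀ = m := ((hgen V hV).2 m).choose_spec

theorem coord_unique (V : X.Opens) (hV : V ≤ W) (m : Γ(M, V)) (r : Γ(X, V))
    (h : r • res M hV m₀ = m) : r = coord hgen V hV m :=
  (hgen V hV).1 (by simp only [h, coord_spec])

theorem coord_add (V : X.Opens) (hV : V ≤ W) (m m' : Γ(M, V)) :
    coord hgen V hV (m + m') = coord hgen V hV m + coord hgen V hV m' := by
  symm
  apply coord_unique
  rw [add_smul, coord_spec, coord_spec]

theorem coord_smul (V : X.Opens) (hV : V ≤ W) (r : Γ(X, V)) (m : Γ(M, V)) :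
    coord hgen V hV (r • m) = r * coord hgen V hV m := by
  symm
  apply coord_unique
  rw [mul_smul, coord_spec]

theorem coord_res (V V' : X.Opens) (hV : V ≤ W) (h : V' ≤ V) (m : Γ(M, V)) :
    coord hgen V' (h.trans hV) (res M h m) = resO X h (coord hgen V hV m) := by
  symm
  apply coord_unique
  have := congrArg (res M h) (coord_spec hgen V hV m)
  rw [res_smul, res_res] at this
  exact this

theorem coord_gen (V : X.Opens) (hV : V ≤ W) : coord hgen V hV (res M hV m₀) = 1 := by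
  symm
  apply coord_unique
  rw [one_smul]

end Coord

theorem app_resO (σ : T ⟶ X) {V V' : X.Opens} (h : V' ≤ V) (r : Γ(X, V)) :
    σ.app V' (resO X h r) = resO T (preimage_mono σ h) (σ.app V r) := by
  have := σ.naturality (homOfLE h).op
  exact congr($this r)

/-- The sheaf `j_* 𝒪_U` on `T`, for an open `U`. -/
abbrev GG (U : T.Opens) : T.Modules := (Scheme.Modules.pushforward U.ι).obj (OO U.toScheme)

/-- A function on `V ∩ U`, seen as a section of `j_* 𝒪_U` over `V`. -/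
def toG {U V : T.Opens} (s : Γ(T, U.ι ''ᵁ U.ι ⁻¹ᵁ V)) : Γ(GG U, V) := s

/-- A section of `j_* 𝒪_U` over `V`, seen as a function on `V ∩ U`. -/
def ofG {U V : T.Opens} (s : Γ(GG U, V)) : Γ(T, U.ι ''ᵁ U.ι ⁻¹ᵁ V) := s

theorem toG_ofG {U V : T.Opens} (s : Γ(GG U, V)) : toG (ofG s) = s := rfl
theorem ofG_toG {U V : T.Opens} (s : Γ(T, U.ι ''ᵁ U.ι ⁻¹ᵁ V)) : ofG (toG s : Γ(GG U, V)) = s := rfl

theorem toG_add {U V : T.Opens} (s s' : Γ(T, U.ι ''ᵁ U.ι ⁻¹ᵁ V)) :
    (toG (s + s') : Γ(GG U, V)) = toG s + toG s' := rfl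

theorem imgpre_mono (U : T.Opens) {V V' : T.Opens} (h : V' ≤ V) :
    U.ι ''ᵁ U.ι ⁻¹ᵁ V' ≤ U.ι ''ᵁ U.ι ⁻¹ᵁ V := by
  rintro _ ⟨x, hx, rfl⟩
  exact ⟨x, h hx, rfl⟩

theorem imgpre_le (U V : T.Opens) : U.ι ''ᵁ U.ι ⁻¹ᵁ V ≤ V := by
  rintro _ ⟨x, hx, rfl⟩
  exact hx

theorem imgpre_le' (U V : T.Opens) : U.ι ''ᵁ U.ι ⁻¹ᵁ V ≤ U := by
  rintro _ ⟨x, hx, rfl⟩
  exact x.2

theorem le_imgpre (U V V' : T.Opens) (h1 : V' ≤ V) (h2 : V' ≤ U) : V' ≤ U.ι ''ᵁ U.ι ⁻¹ᵁ V := by
  intro x hx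
  exact ⟨⟨x, h2 hx⟩, h1 hx, rfl⟩

theorem res_toG {U V V' : T.Opens} (h : V' ≤ V) (s : Γ(T, U.ι ''ᵁ U.ι ⁻¹ᵁ V)) :
    res (GG U) h (toG s) = toG (resO T (imgpre_mono U h) s) := rfl

theorem smul_toG {U V : T.Opens} (r : Γ(T, V)) (s : Γ(T, U.ι ''ᵁ U.ι ⁻¹ᵁ V)) :
    r • (toG s : Γ(GG U, V)) = toG (resO T (imgpre_le U V) r * s) := rfl

/-- A section of `N` over `σ⁻¹ W`, seen as a section of `σ_* N` over `W`. -/
def toPf (σ : T ⟶ X) {N : T.Modules} {W : X.Opens} (n : Γ(N, σ ⁻¹ᵁ W)) :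
    Γ((Scheme.Modules.pushforward σ).obj N, W) := n

theorem toPf_add (σ : T ⟶ X) {N : T.Modules} {W : X.Opens} (n n' : Γ(N, σ ⁻¹ᵁ W)) :
    toPf σ (n + n') = toPf σ n + toPf σ n' := rfl

theorem res_toPf (σ : T ⟶ X) {N : T.Modules} {W W' : X.Opens} (h : W' ≤ W)
    (n : Γ(N, σ ⁻¹ᵁ W)) :
    res ((Scheme.Modules.pushforward σ).obj N) h (toPf σ n) =
      toPf σ (res N (preimage_mono σ h) n) := rfl

theorem smul_toPf (σ : T ⟶ X) {N : T.Modules} {W : X.Opens} (r : Γ(X, W))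
    (n : Γ(N, σ ⁻¹ᵁ W)) :
    r • toPf σ n = toPf σ (σ.app W r • n) := rfl

theorem pf_map_app (σ : T ⟶ X) {N N' : T.Modules} (θ : N ⟶ N') (W : X.Opens)
    (n : Γ(N, σ ⁻¹ᵁ W)) :
    ((Scheme.Modules.pushforward σ).map θ).app W (toPf σ n) = toPf σ (θ.app (σ ⁻¹ᵁ W) n) := rfl

/-- A `σ`-semilinear family of maps `Γ(M, W) → Γ(T, σ⁻¹ W)` for `W ≤ V₀`. -/
structure SemiHom (σ : T ⟶ X) (M : X.Modules) (V₀ : X.Opens) where
  toFun : ∀ (W : X.Opens), W ≤ V₀ → (Γ(M, W) →+ Γ(T, σ ⁻¹ᵁ W))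
  map_res : ∀ (W W' : X.Opens) (hW : W ≤ V₀) (h : W' ≤ W) (m : Γ(M, W)),
    toFun W' (h.trans hW) (res M h m) = resO T (preimage_mono σ h) (toFun W hW m)
  map_smul : ∀ (W : X.Opens) (hW : W ≤ V₀) (r : Γ(X, W)) (m : Γ(M, W)),
    toFun W hW (r • m) = σ.app W r * toFun W hW m

section Ratio

variable (σ : T ⟶ X) {M : X.Modules} {V₀ : X.Opens}

theorem ratio_le (V₀ W : X.Opens) :
    (σ ⁻¹ᵁ V₀).ι ''ᵁ (σ ⁻¹ᵁ V₀).ι ⁻¹ᵁ (σ ⁻¹ᵁ W) ≤ σ ⁻¹ᵁ (W ⊓ V₀) := by
  rintro _ ⟨x, hx, rfl⟩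
  exact ⟨hx, x.2⟩

/-- The auxiliary global morphism `M ⟶ σ_* j_* 𝒪` attached to a semilinear family. -/
def SemiHom.aux (g : SemiHom σ M V₀) :
    SecHom M ((Scheme.Modules.pushforward σ).obj (GG (σ ⁻¹ᵁ V₀))) ⊤ where
  toFun W _ := AddMonoidHom.mk'
    (fun m => toPf σ (toG (resO T (ratio_le σ V₀ W)
      (g.toFun (W ⊓ V₀) inf_le_right (res M inf_le_left m)))))
    (fun m m' => by rw [map_add, map_add, map_add, toG_add, toPf_add])
  map_res W W' _ h m := by
    simp only [AddMonoidHom.mk'_apply]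
    rw [res_toPf, res_toG, res_res, resO_resO]
    have h1 : W' ⊓ V₀ ≤ W ⊓ V₀ := inf_le_inf_right V₀ h
    have h2 := g.map_res (W ⊓ V₀) (W' ⊓ V₀) inf_le_right h1 (res M inf_le_left m)
    rw [res_res] at h2
    rw [h2, resO_resO]
  map_smul W _ r m := by
    simp only [AddMonoidHom.mk'_apply]
    rw [smul_toPf, smul_toG, res_smul, g.map_smul, map_mul, app_resO, resO_resO]


theorem toO_one_eq (V : T.Opens) :
    (toO (1 : Γ(T, V)) : Γ(OO T, V)) = res (OO T) le_top (toO (1 : Γ(T, ⊤))) := by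
  rw [res_toO, map_one]

/-- A morphism out of the structure sheaf is determined by the image of `1`. -/
theorem hom_OO_apply {N : T.Modules} (θ : OO T ⟶ N) (V : T.Opens) (s : Γ(T, V)) :
    θ.app V (toO s) = s • res N le_top (θ.app ⊤ (toO 1)) := by
  have h1 : (toO s : Γ(OO T, V)) = s • toO (1 : Γ(T, V)) := by rw [smul_toO, mul_one]
  rw [h1, Scheme.Modules.Hom.app_smul, toO_one_eq]
  congr 1
  exact (SecHom.ofHom θ ⊤).map_res ⊤ V le_top le_top (toO 1)

variable (ρ : (Scheme.Modules.pullback σ).obj M ≅ OO T)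

theorem evalHom_app (ρ : (Scheme.Modules.pullback σ).obj M ⟶ OO T) (W : X.Opens) (m : Γ(M, W)) :
    (evalHom σ ρ).app W m = toPf σ (toO (ev σ ρ W m)) := rfl

/-- **Ratio lemma.** Every `σ`-semilinear family on `M` over `V₀` is a multiple of the
evaluation attached to a rigidification `ρ : σ^* M ≅ 𝒪_T`. -/
theorem SemiHom.exists_eq_mul_ev (g : SemiHom σ M V₀) :
    ∃ a : Γ(T, σ ⁻¹ᵁ V₀), ∀ (W : X.Opens) (hW : W ≤ V₀) (m : Γ(M, W)),
      g.toFun W hW m = resO T (preimage_mono σ hW) a * ev σ ρ.hom W m := by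
  let U : T.Opens := σ ⁻¹ᵁ V₀
  let adj := Scheme.Modules.pullbackPushforwardAdjunction σ
  let F : M ⟶ (Scheme.Modules.pushforward σ).obj (GG U) := (g.aux σ).toHom
  let θ : OO T ⟶ GG U := ρ.inv ≫ (adj.homEquiv M (GG U)).symm F
  have hF : F = evalHom σ ρ.hom ≫ (Scheme.Modules.pushforward σ).map θ := by
    have h1 : adj.homEquiv M (GG U) (ρ.hom ≫ θ) =
        adj.homEquiv M (OO T) ρ.hom ≫ (Scheme.Modules.pushforward σ).map θ :=
      adj.homEquiv_naturality_right _ _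
    have h2 : ρ.hom ≫ θ = (adj.homEquiv M (GG U)).symm F := by
      simp only [θ, Iso.hom_inv_id_assoc]
    rw [h2, Equiv.apply_symm_apply] at h1
    exact h1
  let c : Γ(GG U, ⊤) := θ.app ⊤ (toO 1)
  have hU : U ≤ U.ι ''ᵁ U.ι ⁻¹ᵁ ⊤ := le_imgpre U ⊤ U le_top le_rfl
  refine ⟨resO T hU (ofG c), ?_⟩
  intro W hW m
  have h3 : F.app W m = toPf σ (θ.app (σ ⁻¹ᵁ W) (toO (ev σ ρ.hom W m))) := by
    rw [hF]
    rfl
  rw [hom_OO_apply] at h3
  have h4 : F.app W m = toPf σ (toG (resO T (ratio_le σ V₀ W)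
      (g.toFun (W ⊓ V₀) inf_le_right (res M inf_le_left m)))) := rfl
  rw [h4] at h3
  have h5 : resO T (ratio_le σ V₀ W) (g.toFun (W ⊓ V₀) inf_le_right (res M inf_le_left m)) =
      resO T (imgpre_le U (σ ⁻¹ᵁ W)) (ev σ ρ.hom W m) *
        resO T (imgpre_mono U le_top) (ofG c) := h3
  have hge : σ ⁻¹ᵁ W ≤ U.ι ''ᵁ U.ι ⁻¹ᵁ (σ ⁻¹ᵁ W) :=
    le_imgpre U _ _ le_rfl (preimage_mono σ hW)
  have h6 := congrArg (resO T hge) h5
  rw [g.map_res W (W ⊓ V₀) hW inf_le_left m, resO_resO, resO_resO, resO_self, map_mul,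
    resO_resO, resO_resO, resO_self] at h6
  rw [h6, resO_resO, mul_comm]

end Ratio

/-! ### Units, uniqueness of the ratio -/

section Core

variable (σ : T ⟶ X) {M M' : X.Modules}

/-- The `σ`-semilinear family "coordinate with respect to a generator, pulled back by `σ`". -/
def coordSemi {W₀ : X.Opens} {m₀ : Γ(M, W₀)} (hgen : IsGenerator M W₀ m₀) : SemiHom σ M W₀ where
  toFun W hW := AddMonoidHom.mk' (fun m => σ.app W (coord hgen W hW m))
    (fun m m' => by rw [coord_add, map_add])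
  map_res W W' hW h m := by
    simp only [AddMonoidHom.mk'_apply]
    rw [coord_res, app_resO]
  map_smul W hW r m := by
    simp only [AddMonoidHom.mk'_apply]
    rw [coord_smul, map_mul]

/-- The evaluation (through a rigidification) of a local generator is a unit. -/
theorem isUnit_ev_of_isGenerator (ρ : (Scheme.Modules.pullback σ).obj M ≅ OO T)
    {W₀ : X.Opens} {m₀ : Γ(M, W₀)} (hgen : IsGenerator M W₀ m₀) :
    IsUnit (ev σ ρ.hom W₀ m₀) := by
  obtain ⟨a, ha⟩ := (coordSemi σ hgen).exists_eq_mul_ev σ ρ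
  have h := ha W₀ le_rfl m₀
  have h1 : (coordSemi σ hgen).toFun W₀ le_rfl m₀ = 1 := by
    change σ.app W₀ (coord hgen W₀ le_rfl m₀) = 1
    have := coord_gen hgen W₀ le_rfl
    rw [res_self] at this
    rw [this, map_one]
  rw [h1, resO_self] at h
  exact isUnit_iff_exists_inv.mpr ⟨a, by rw [mul_comm]; exact h.symm⟩

/-- Two functions having the same product with the evaluation of every local section of a
locally monogenic module are equal. -/
theorem eq_of_mul_ev_eq (ρ : (Scheme.Modules.pullback σ).obj M ≅ OO T) {V₀ : X.Opens}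
    (hM : LocGen M V₀) (a a' : Γ(T, σ ⁻¹ᵁ V₀))
    (h : ∀ (W : X.Opens) (hW : W ≤ V₀) (m : Γ(M, W)),
      resO T (preimage_mono σ hW) a * ev σ ρ.hom W m =
        resO T (preimage_mono σ hW) a' * ev σ ρ.hom W m) : a = a' := by
  classical
  choose W hW hxW m₀ hgen using hM
  let ι : Type u := {x : X // x ∈ V₀}
  refine fun_ext_of_cover T (fun i : ι => σ ⁻¹ᵁ W i.1 i.2) (σ ⁻¹ᵁ V₀)
    (fun i => preimage_mono σ (hW i.1 i.2)) ?_ a a' ?_
  · intro y hy
    exact TopologicalSpace.Opens.mem_iSup.mpr ⟨⟨_, hy⟩, hxW _ hy⟩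
  · intro i
    have := h (W i.1 i.2) (hW i.1 i.2) (m₀ i.1 i.2)
    exact (isUnit_ev_of_isGenerator σ ρ (hgen i.1 i.2)).mul_left_injective this

/-- Composition of a local homomorphism with an evaluation is a semilinear family. -/
def SecHom.evSemi (ρ' : (Scheme.Modules.pullback σ).obj M' ⟶ OO T) {V₀ : X.Opens}
    (ψ : SecHom M M' V₀) : SemiHom σ M V₀ where
  toFun W hW := (ev σ ρ' W).comp (ψ.toFun W hW)
  map_res W W' hW h m := by
    simp only [AddMonoidHom.comp_apply]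
    rw [ψ.map_res, ev_res]
  map_smul W hW r m := by
    simp only [AddMonoidHom.comp_apply]
    rw [ψ.map_smul, ev_smul]

theorem SecHom.evSemi_toFun (ρ' : (Scheme.Modules.pullback σ).obj M' ⟶ OO T) {V₀ : X.Opens}
    (ψ : SecHom M M' V₀) (W : X.Opens) (hW : W ≤ V₀) (m : Γ(M, W)) :
    (ψ.evSemi σ ρ').toFun W hW m = ev σ ρ' W (ψ.toFun W hW m) := rfl

/-- For a section `σ` of `π`, `σ^♯ ∘ π^♯` is the identity (up to restriction). -/
theorem sec_app (π : X ⟶ T) (hσ : σ ≫ π = 𝟙 T) (V : T.Opens) (h : σ ⁻¹ᵁ π ⁻¹ᵁ V ≤ V)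
    (u : Γ(T, V)) : σ.app (π ⁻¹ᵁ V) (π.app V u) = resO T h u := by
  have h1 := Scheme.Hom.congr_app hσ V
  exact congr($h1 u)

theorem sec_preimage (π : X ⟶ T) (hσ : σ ≫ π = 𝟙 T) (V : T.Opens) : σ ⁻¹ᵁ π ⁻¹ᵁ V = V := by
  rw [← Scheme.Hom.comp_preimage, hσ, Scheme.Hom.id_preimage]

end Core

/-! ### The core separatedness theorem -/

section SepCore

variable (π : X ⟶ T) (σ : T ⟶ X) (hσ : σ ≫ π = 𝟙 T)

include hσ in
/-- **Core theorem.** Let `σ` be a section of `π : X ⟶ T` such that every function on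
`π⁻¹ V` comes from `V`. Two modules on `X` rigidified along `σ`, the first one locally
monogenic, which are isomorphic over `π⁻¹ (V i)` for an open cover `V i` of `T`, are
isomorphic. -/
theorem sep_core
    (hΓ : ∀ V : T.Opens, Function.Surjective (π.app V))
    {M M' : X.Modules} (hM : LocGen M ⊤)
    (ρ : (Scheme.Modules.pullback σ).obj M ≅ OO T)
    (ρ' : (Scheme.Modules.pullback σ).obj M' ≅ OO T)
    {ι : Type u} (V : ι → T.Opens) (hV : ⨆ i, V i = ⊤)
    (ψ : ∀ i, SecHom M M' (π ⁻¹ᵁ V i)) (χ : ∀ i, SecHom M' M (π ⁻¹ᵁ V i))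
    (h1 : ∀ (i : ι) (W : X.Opens) (hW : W ≤ π ⁻¹ᵁ V i) (m : Γ(M, W)),
      (χ i).toFun W hW ((ψ i).toFun W hW m) = m)
    (h2 : ∀ (i : ι) (W : X.Opens) (hW : W ≤ π ⁻¹ᵁ V i) (n : Γ(M', W)),
      (ψ i).toFun W hW ((χ i).toFun W hW n) = n) :
    Nonempty (M ≅ M') := by
  -- Step 1: the ratios
  have hA : ∀ i, ∃ a : Γ(T, σ ⁻¹ᵁ π ⁻¹ᵁ V i),
      ∀ (W : X.Opens) (hW : W ≤ π ⁻¹ᵁ V i) (m : Γ(M, W)),
        ev σ ρ'.hom W ((ψ i).toFun W hW m) =
          resO T (preimage_mono σ hW) a * ev σ ρ.hom W m :=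
    fun i => ((ψ i).evSemi σ ρ'.hom).exists_eq_mul_ev σ ρ
  have hB : ∀ i, ∃ b : Γ(T, σ ⁻¹ᵁ π ⁻¹ᵁ V i),
      ∀ (W : X.Opens) (hW : W ≤ π ⁻¹ᵁ V i) (n : Γ(M', W)),
        ev σ ρ.hom W ((χ i).toFun W hW n) =
          resO T (preimage_mono σ hW) b * ev σ ρ'.hom W n :=
    fun i => ((χ i).evSemi σ ρ.hom).exists_eq_mul_ev σ ρ'
  choose a ha using hA
  choose b hb using hB
  -- Step 2: they are inverse to each other
  have hba : ∀ i, b i * a i = 1 := by
    intro i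
    apply eq_of_mul_ev_eq σ ρ (hM.mono le_top)
    intro W hW m
    rw [map_mul, map_one, one_mul, mul_assoc, ← ha i W hW m, ← hb i W hW, h1 i W hW m]
  -- Step 3: transport to functions on `X`
  have hle : ∀ V : T.Opens, V ≤ σ ⁻¹ᵁ π ⁻¹ᵁ V := fun V => (sec_preimage σ π hσ V).ge
  have hge : ∀ V : T.Opens, σ ⁻¹ᵁ π ⁻¹ᵁ V ≤ V := fun V => (sec_preimage σ π hσ V).le
  let A : ∀ i, Γ(X, π ⁻¹ᵁ V i) := fun i => π.app (V i) (resO T (hle (V i)) (a i))
  let B : ∀ i, Γ(X, π ⁻¹ᵁ V i) := fun i => π.app (V i) (resO T (hle (V i)) (b i))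
  have hBA : ∀ i, B i * A i = 1 := by
    intro i
    simp only [A, B]
    rw [← map_mul, ← map_mul, hba i, map_one, map_one]
  -- Step 4: the normalised local isomorphisms
  let ψ' : ∀ i, SecHom M M' (π ⁻¹ᵁ V i) := fun i => (ψ i).comp (SecHom.smul M' (B i))
  let χ' : ∀ i, SecHom M' M (π ⁻¹ᵁ V i) := fun i => (χ i).comp (SecHom.smul M (A i))
  have hψ' : ∀ (i : ι) (W : X.Opens) (hW : W ≤ π ⁻¹ᵁ V i) (m : Γ(M, W)),
      (ψ' i).toFun W hW m = resO X hW (B i) • (ψ i).toFun W hW m := fun _ _ _ _ => rfl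
  have hχ' : ∀ (i : ι) (W : X.Opens) (hW : W ≤ π ⁻¹ᵁ V i) (n : Γ(M', W)),
      (χ' i).toFun W hW n = resO X hW (A i) • (χ i).toFun W hW n := fun _ _ _ _ => rfl
  refine nonempty_iso_of_secHom (fun i => π ⁻¹ᵁ V i) (Scheme.Hom.iSup_preimage_eq_top π hV)
    ψ' χ' ?_ ?_ ?_
  · -- compatibility on overlaps
    intro i j W hi hj m
    let Vij : T.Opens := V i ⊓ V j
    let V₀ : X.Opens := π ⁻¹ᵁ Vij
    have h0i : V₀ ≤ π ⁻¹ᵁ V i := preimage_mono π inf_le_left
    have h0j : V₀ ≤ π ⁻¹ᵁ V j := preimage_mono π inf_le_right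
    have hW₀ : W ≤ V₀ := fun x hx => ⟨hi hx, hj hx⟩
    let E : SecHom M M V₀ := ((ψ i).restrict h0i).comp ((χ j).restrict h0j)
    obtain ⟨r, hr⟩ := SecHom.exists_eq_smul (hM.mono le_top) E
    obtain ⟨u, hu⟩ := hΓ Vij r
    have h5a : ∀ (W' : X.Opens) (hW' : W' ≤ V₀) (m : Γ(M, W')),
        (ψ i).toFun W' (hW'.trans h0i) m =
          resO X hW' r • (ψ j).toFun W' (hW'.trans h0j) m := by
      intro W' hW' m
      have e1 : (χ j).toFun W' (hW'.trans h0j) ((ψ i).toFun W' (hW'.trans h0i) m) =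
          resO X hW' r • m :=
        congrArg (fun E' : SecHom M M V₀ => E'.toFun W' hW' m) hr
      have e2 := congrArg ((ψ j).toFun W' (hW'.trans h0j)) e1
      rw [h2 j, (ψ j).map_smul] at e2
      exact e2
    let ai : Γ(T, σ ⁻¹ᵁ V₀) := resO T (preimage_mono σ h0i) (a i)
    let aj : Γ(T, σ ⁻¹ᵁ V₀) := resO T (preimage_mono σ h0j) (a j)
    let bi : Γ(T, σ ⁻¹ᵁ V₀) := resO T (preimage_mono σ h0i) (b i)
    let bj : Γ(T, σ ⁻¹ᵁ V₀) := resO T (preimage_mono σ h0j) (b j)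
    let u' : Γ(T, σ ⁻¹ᵁ V₀) := σ.app V₀ r
    have h5b : ai = u' * aj := by
      apply eq_of_mul_ev_eq σ ρ (hM.mono le_top)
      intro W' hW' m
      simp only [ai, aj, u']
      rw [resO_resO, ← ha i W' (hW'.trans h0i) m, h5a W' hW' m, ev_smul,
        ha j W' (hW'.trans h0j) m, map_mul, resO_resO, app_resO, mul_assoc]
    have hbai : bi * ai = 1 := by
      simp only [ai, bi]
      rw [← map_mul, hba i, map_one]
    have hbaj : bj * aj = 1 := by
      simp only [aj, bj]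
      rw [← map_mul, hba j, map_one]
    have h5c : bi * u' = bj := by
      calc bi * u' = bi * u' * (bj * aj) := by rw [hbaj, mul_one]
        _ = (bi * (u' * aj)) * bj := by ring
        _ = bj := by rw [← h5b, hbai, one_mul]
    have hu' : u' = resO T (hge Vij) u := by
      simp only [u']
      rw [← hu]
      exact sec_app σ π hσ Vij (hge Vij) u
    have key : resO X h0i (B i) * r = resO X h0j (B j) := by
      have e3 := congrArg (resO T (hle Vij)) h5c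
      rw [map_mul, hu'] at e3
      simp only [bi, bj, resO_resO, resO_self] at e3
      have e4 : resO X h0i (B i) = π.app Vij (resO T inf_le_left (resO T (hle (V i)) (b i))) :=
        (app_resO π inf_le_left _).symm
      have e5 : resO X h0j (B j) = π.app Vij (resO T inf_le_right (resO T (hle (V j)) (b j))) :=
        (app_resO π inf_le_right _).symm
      rw [e4, e5, ← hu, ← map_mul, resO_resO, resO_resO]
      exact congrArg _ e3
    rw [hψ', hψ', h5a W hW₀ m, ← mul_smul]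
    congr 1
    have e6 := congrArg (resO X hW₀) key
    rw [map_mul, resO_resO, resO_resO] at e6
    exact e6
  · intro i W hW m
    rw [hψ', hχ', (χ i).map_smul, h1 i W hW m, ← mul_smul, ← map_mul, mul_comm, hBA i,
      map_one, one_smul]
  · intro i W hW n
    rw [hχ', hψ', (ψ i).map_smul, h2 i W hW n, ← mul_smul, ← map_mul, hBA i, map_one,
      one_smul]

end SepCore

end Fermat.Agent.S25.helper2952
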