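import Mathlib

/-!
# S25, leaf LC-DEGHOM, part 1: Fredholm maps and the index of a commutative square (helper3045)

Pure linear algebra over a field `K` (Mathlib only, statement-agnostic).

* `IsFred d` : the `K`-linear map `d` has finite-dimensional kernel and cokernel.
* `index_square` : for a commutative square `β ∘ d₁ = d₂ ∘ α` with `α`, `β` injective with
  finite-dimensional cokernels, `d₁` is Fredholm iff `d₂` is, and
  `index d₂ = index d₁ + dim coker α - dim coker β` (index = `LinearMap.index` of Mathlib,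
  `dim ker - dim coker`).
* `finrank_coker_prodMap` : the cokernel of a product map.
* `surjective_of_locally_nilpotent_inverse` : a Fitting-type lemma (a finite-dimensional space
  surjects onto its "localisation").
-/

set_option autoImplicit false

open Module Function

namespace Fermat.Agent.S25.helper3045

section Fred

variable {K : Type*} [Field K]
variable {E F G : Type*} [AddCommGroup E] [Module K E] [AddCommGroup F] [Module K F]
  [AddCommGroup G] [Module K G]

/-- A linear map with finite-dimensional kernel and cokernel. -/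
structure IsFred (d : E →ₗ[K] F) : Prop where
  ker : FiniteDimensional K (LinearMap.ker d)
  coker : FiniteDimensional K (F ⧸ LinearMap.range d)

theorem IsFred.of_injective {α : E →ₗ[K] F} (hα : Injective α)
    (h : FiniteDimensional K (F ⧸ LinearMap.range α)) : IsFred α := by
  refine ⟨?_, h⟩
  rw [LinearMap.ker_eq_bot.mpr hα]
  infer_instance

theorem IsFred.comp {f : E →ₗ[K] F} {g : F →ₗ[K] G} (hf : IsFred f) (hg : IsFred g) :
    IsFred (g ∘ₗ f) := by
  have := hf.ker
  have := hf.coker
  have := hg.ker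
  have := hg.coker
  constructor
  · rw [LinearMap.ker_comp]; infer_instance
  · rw [LinearMap.range_comp]; infer_instance

end Fred

section FredMore

variable {K : Type*} [Field K]
variable {E F G : Type*} [AddCommGroup E] [Module K E] [AddCommGroup F] [Module K F]
  [AddCommGroup G] [Module K G]

/-- If `β ∘ d` is Fredholm and `β` is injective then `d` is Fredholm. -/
theorem IsFred.of_comp_injective {d : E →ₗ[K] F} {β : F →ₗ[K] G} (h : IsFred (β ∘ₗ d))
    (hβ : Injective β) : IsFred d := by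
  have hk := h.ker
  have hc := h.coker
  constructor
  · rwa [LinearMap.ker_comp_of_ker_eq_bot _ (LinearMap.ker_eq_bot.mpr hβ)] at hk
  · have hle : LinearMap.range d ≤ (LinearMap.range (β ∘ₗ d)).comap β := by
      rintro _ ⟨e, rfl⟩
      exact ⟨e, rfl⟩
    let φ : (F ⧸ LinearMap.range d) →ₗ[K] (G ⧸ LinearMap.range (β ∘ₗ d)) :=
      Submodule.mapQ _ _ β hle
    have hφ : Injective φ := by
      rw [← LinearMap.ker_eq_bot, Submodule.ker_mapQ, LinearMap.range_comp,
        Submodule.comap_map_eq_of_injective hβ]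
      simp
    exact FiniteDimensional.of_injective φ hφ

/-- If `d ∘ α` is Fredholm and `α` has finite-dimensional cokernel then `d` is Fredholm. -/
theorem IsFred.of_comp_finite_coker {α : E →ₗ[K] F} {d : F →ₗ[K] G} (h : IsFred (d ∘ₗ α))
    (hα : FiniteDimensional K (F ⧸ LinearMap.range α)) : IsFred d := by
  have hk := h.ker
  have hc := h.coker
  constructor
  · -- `ker d → F ⧸ range α` has kernel the image of `ker (d ∘ α)`
    let ψ : LinearMap.ker d →ₗ[K] (F ⧸ LinearMap.range α) :=
      (LinearMap.range α).mkQ ∘ₗ (LinearMap.ker d).subtype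
    let ρ : LinearMap.ker (d ∘ₗ α) →ₗ[K] LinearMap.ker d :=
      α.restrict (p := LinearMap.ker (d ∘ₗ α)) (q := LinearMap.ker d) (fun e he => by
        simpa using he)
    have hker : LinearMap.ker ψ ≤ LinearMap.range ρ := by
      rintro ⟨v, hv⟩ hvψ
      have hv' : v ∈ LinearMap.range α := by
        simpa [ψ, Submodule.Quotient.mk_eq_zero] using hvψ
      obtain ⟨e, rfl⟩ := hv'
      refine ⟨⟨e, ?_⟩, ?_⟩
      · simpa using hv
      · ext; rfl
    have h1 : FiniteDimensional K (LinearMap.range ρ) := inferInstance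
    have h2 : FiniteDimensional K (LinearMap.ker ψ) :=
      FiniteDimensional.of_injective (Submodule.inclusion hker) (Submodule.inclusion_injective _)
    have h3 : FiniteDimensional K (LinearMap.ker d ⧸ LinearMap.ker ψ) :=
      FiniteDimensional.of_injective (LinearMap.quotKerEquivRange ψ).toLinearMap
        (LinearEquiv.injective _)
    exact Module.Finite.of_submodule_quotient (LinearMap.ker ψ)
  · have hle : LinearMap.range (d ∘ₗ α) ≤ LinearMap.range d := LinearMap.range_comp_le_range α d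
    exact Module.Finite.of_surjective (Submodule.factor hle) (Submodule.factor_surjective hle)

/-- The index of an injective map with finite-dimensional cokernel. -/
theorem index_of_injective' {α : E →ₗ[K] F} (hα : Injective α) :
    α.index = - (finrank K (F ⧸ LinearMap.range α) : ℤ) :=
  LinearMap.index_of_injective hα

variable {E₁ F₁ E₂ F₂ : Type*} [AddCommGroup E₁] [Module K E₁] [AddCommGroup F₁] [Module K F₁]
  [AddCommGroup E₂] [Module K E₂] [AddCommGroup F₂] [Module K F₂]

/-- **Index of a commutative square**: `β ∘ d₁ = d₂ ∘ α` with `α`, `β` injective with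
finite-dimensional cokernels. Then `d₁` is Fredholm iff `d₂` is. -/
theorem isFred_iff_of_square {d₁ : E₁ →ₗ[K] F₁} {d₂ : E₂ →ₗ[K] F₂} {α : E₁ →ₗ[K] E₂}
    {β : F₁ →ₗ[K] F₂} (h : β ∘ₗ d₁ = d₂ ∘ₗ α) (hα : Injective α) (hβ : Injective β)
    (hcα : FiniteDimensional K (E₂ ⧸ LinearMap.range α))
    (hcβ : FiniteDimensional K (F₂ ⧸ LinearMap.range β)) : IsFred d₁ ↔ IsFred d₂ := by
  constructor
  · intro h1
    have : IsFred (d₂ ∘ₗ α) := h ▸ h1.comp (IsFred.of_injective hβ hcβ)
    exact this.of_comp_finite_coker hcα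
  · intro h2
    have : IsFred (β ∘ₗ d₁) := h ▸ (IsFred.of_injective hα hcα).comp h2
    exact this.of_comp_injective hβ

/-- **Index of a commutative square**: `index d₂ = index d₁ + dim coker α - dim coker β`. -/
theorem index_square {d₁ : E₁ →ₗ[K] F₁} {d₂ : E₂ →ₗ[K] F₂} {α : E₁ →ₗ[K] E₂}
    {β : F₁ →ₗ[K] F₂} (h : β ∘ₗ d₁ = d₂ ∘ₗ α) (hα : Injective α) (hβ : Injective β)
    (hcα : FiniteDimensional K (E₂ ⧸ LinearMap.range α))
    (hcβ : FiniteDimensional K (F₂ ⧸ LinearMap.range β)) (h1 : IsFred d₁) (h2 : IsFred d₂) :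
    d₂.index = d₁.index + finrank K (E₂ ⧸ LinearMap.range α)
      - finrank K (F₂ ⧸ LinearMap.range β) := by
  have := h1.ker
  have := h1.coker
  have := h2.ker
  have := h2.coker
  have hkα : FiniteDimensional K (LinearMap.ker α) := (IsFred.of_injective hα hcα).ker
  have hkβ : FiniteDimensional K (LinearMap.ker β) := (IsFred.of_injective hβ hcβ).ker
  have e1 : (d₂ ∘ₗ α).index = d₂.index + α.index := LinearMap.index_comp d₂
  have e2 : (β ∘ₗ d₁).index = β.index + d₁.index := LinearMap.index_comp β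
  rw [index_of_injective' hα] at e1
  rw [index_of_injective' hβ] at e2
  rw [h] at e2
  omega

end FredMore

section Prod

variable {K : Type*} [Field K]
variable {E₁ F₁ E₂ F₂ : Type*} [AddCommGroup E₁] [Module K E₁] [AddCommGroup F₁] [Module K F₁]
  [AddCommGroup E₂] [Module K E₂] [AddCommGroup F₂] [Module K F₂]

/-- The cokernel of a product map is the product of the cokernels. -/
noncomputable def cokerProdEquiv (a : E₁ →ₗ[K] E₂) (b : F₁ →ₗ[K] F₂) :
    ((E₂ × F₂) ⧸ LinearMap.range (a.prodMap b)) ≃ₗ[K]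
      (E₂ ⧸ LinearMap.range a) × (F₂ ⧸ LinearMap.range b) := by
  let Φ : E₂ × F₂ →ₗ[K] (E₂ ⧸ LinearMap.range a) × (F₂ ⧸ LinearMap.range b) :=
    (LinearMap.range a).mkQ.prodMap (LinearMap.range b).mkQ
  have hΦ : Surjective Φ := by
    rintro ⟨u, v⟩
    obtain ⟨u, rfl⟩ := Submodule.mkQ_surjective _ u
    obtain ⟨v, rfl⟩ := Submodule.mkQ_surjective _ v
    exact ⟨(u, v), rfl⟩
  have hker : LinearMap.ker Φ = LinearMap.range (a.prodMap b) := by
    rw [LinearMap.range_prodMap]
    ext ⟨u, v⟩
    simp [Φ, Submodule.mem_prod]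
  exact (Submodule.quotEquivOfEq _ _ hker.symm) ≪≫ₗ Φ.quotKerEquivOfSurjective hΦ

theorem finiteDimensional_coker_prodMap (a : E₁ →ₗ[K] E₂) (b : F₁ →ₗ[K] F₂)
    [FiniteDimensional K (E₂ ⧸ LinearMap.range a)] [FiniteDimensional K (F₂ ⧸ LinearMap.range b)] :
    FiniteDimensional K ((E₂ × F₂) ⧸ LinearMap.range (a.prodMap b)) :=
  Module.Finite.equiv (cokerProdEquiv a b).symm

theorem finrank_coker_prodMap (a : E₁ →ₗ[K] E₂) (b : F₁ →ₗ[K] F₂)
    [FiniteDimensional K (E₂ ⧸ LinearMap.range a)] [FiniteDimensional K (F₂ ⧸ LinearMap.range b)] :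
    finrank K ((E₂ × F₂) ⧸ LinearMap.range (a.prodMap b)) =
      finrank K (E₂ ⧸ LinearMap.range a) + finrank K (F₂ ⧸ LinearMap.range b) := by
  rw [(cokerProdEquiv a b).finrank_eq, Module.finrank_prod]

end Prod

section Fitting

variable {K : Type*} [Field K]
variable {V W : Type*} [AddCommGroup V] [Module K V] [AddCommGroup W] [Module K W]

/-- A Fitting-type lemma: if `V` is finite-dimensional, `T` is an injective endomorphism of `W`
preserving the image of `ι : V → W`, and every element of `W` is moved into that image by a power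
of `T`, then `ι` is surjective. (A finite-dimensional `K[x]`-module surjects onto its localisation
at `x`.) -/
theorem surjective_of_fitting (ι : V →ₗ[K] W) [FiniteDimensional K V] (T : W →ₗ[K] W)
    (hT : Injective T) (hstable : ∀ v, T (ι v) ∈ LinearMap.range ι)
    (hgen : ∀ w, ∃ n : ℕ, (T ^ n) w ∈ LinearMap.range ι) : Surjective ι := by
  set R := LinearMap.range ι with hR
  have hmaps : ∀ r ∈ R, T r ∈ R := by
    rintro _ ⟨v, rfl⟩
    exact hstable v
  let TR : R →ₗ[K] R := T.restrict hmaps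
  have hTRinj : Injective TR := by
    intro a b hab
    apply Subtype.ext
    apply hT
    exact congrArg Subtype.val hab
  have hTRsurj : Surjective TR := LinearMap.injective_iff_surjective.mp hTRinj
  have key : ∀ n : ℕ, ∀ w, (T ^ n) w ∈ R → w ∈ R := by
    intro n
    induction n with
    | zero => intro w hw; simpa using hw
    | succ n ih =>
      intro w hw
      rw [pow_succ', Module.End.mul_apply] at hw
      obtain ⟨r, hr⟩ := hTRsurj ⟨_, hw⟩
      have hr' : T r = T ((T ^ n) w) := congrArg Subtype.val hr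
      have : (r : W) = (T ^ n) w := hT hr'
      exact ih w (this ▸ r.2)
  intro w
  obtain ⟨n, hn⟩ := hgen w
  exact key n w hn

end Fitting

section IsoSquare

variable {K : Type*} [Field K]
variable {E₁ F₁ E₂ F₂ : Type*} [AddCommGroup E₁] [Module K E₁] [AddCommGroup F₁] [Module K F₁]
  [AddCommGroup E₂] [Module K E₂] [AddCommGroup F₂] [Module K F₂]

theorem subsingleton_coker_of_surjective {α : E₁ →ₗ[K] E₂} (hα : Surjective α) :
    Subsingleton (E₂ ⧸ LinearMap.range α) := by
  refine subsingleton_of_forall_eq 0 fun q => ?_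
  obtain ⟨v, rfl⟩ := Submodule.mkQ_surjective _ q
  rw [Submodule.mkQ_apply, Submodule.Quotient.mk_eq_zero]
  exact hα v

/-- An isomorphism of two-term complexes preserves Fredholmness. -/
theorem isFred_iff_of_iso_square {d₁ : E₁ →ₗ[K] F₁} {d₂ : E₂ →ₗ[K] F₂} {α : E₁ →ₗ[K] E₂}
    {β : F₁ →ₗ[K] F₂} (h : β ∘ₗ d₁ = d₂ ∘ₗ α) (hα : Bijective α) (hβ : Bijective β) :
    IsFred d₁ ↔ IsFred d₂ := by
  have := subsingleton_coker_of_surjective hα.2
  have := subsingleton_coker_of_surjective hβ.2
  exact isFred_iff_of_square h hα.1 hβ.1 inferInstance inferInstance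

/-- An isomorphism of two-term complexes preserves the index. -/
theorem index_eq_of_iso_square {d₁ : E₁ →ₗ[K] F₁} {d₂ : E₂ →ₗ[K] F₂} {α : E₁ →ₗ[K] E₂}
    {β : F₁ →ₗ[K] F₂} (h : β ∘ₗ d₁ = d₂ ∘ₗ α) (hα : Bijective α) (hβ : Bijective β)
    (h1 : IsFred d₁) : d₂.index = d₁.index := by
  have s1 := subsingleton_coker_of_surjective hα.2
  have s2 := subsingleton_coker_of_surjective hβ.2
  have h2 := (isFred_iff_of_iso_square h hα hβ).mp h1
  have := index_square h hα.1 hβ.1 inferInstance inferInstance h1 h2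
  rw [Module.finrank_zero_of_subsingleton, Module.finrank_zero_of_subsingleton] at this
  simpa using this

end IsoSquare

section Cech

variable {K : Type*} [Field K]
variable {T₀ T₁ T : Type*} [AddCommGroup T₀] [Module K T₀] [AddCommGroup T₁] [Module K T₁]
  [AddCommGroup T] [Module K T]
variable {T₀' T₁' T' : Type*} [AddCommGroup T₀'] [Module K T₀'] [AddCommGroup T₁'] [Module K T₁']
  [AddCommGroup T'] [Module K T']

/-- The Čech differential `(a, b) ↦ t₀ a - t₁ b` of a two-chart datum. Its kernel is `H⁰` and its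
cokernel is `H¹`. -/
def cech (t₀ : T₀ →ₗ[K] T) (t₁ : T₁ →ₗ[K] T) : T₀ × T₁ →ₗ[K] T := t₀.coprod (-t₁)

@[simp] theorem cech_apply (t₀ : T₀ →ₗ[K] T) (t₁ : T₁ →ₗ[K] T) (p : T₀ × T₁) :
    cech t₀ t₁ p = t₀ p.1 - t₁ p.2 := by
  simp [cech, sub_eq_add_neg]

variable {t₀ : T₀ →ₗ[K] T} {t₁ : T₁ →ₗ[K] T} {t₀' : T₀' →ₗ[K] T'} {t₁' : T₁' →ₗ[K] T'}
  {s₀ : T₀ →ₗ[K] T₀'} {s₁ : T₁ →ₗ[K] T₁'} {s : T →ₗ[K] T'}

theorem cech_square (h₀ : s ∘ₗ t₀ = t₀' ∘ₗ s₀) (h₁ : s ∘ₗ t₁ = t₁' ∘ₗ s₁) :
    s ∘ₗ cech t₀ t₁ = cech t₀' t₁' ∘ₗ s₀.prodMap s₁ := by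
  ext p
  · have := LinearMap.congr_fun h₀ p
    simpa using this
  · have := LinearMap.congr_fun h₁ p
    simpa using this

theorem prodMap_injective' (hs₀ : Injective s₀) (hs₁ : Injective s₁) :
    Injective (s₀.prodMap s₁) := by
  rintro ⟨a, b⟩ ⟨a', b'⟩ h
  simp only [LinearMap.prodMap_apply, Prod.mk.injEq] at h
  exact Prod.ext (hs₀ h.1) (hs₁ h.2)

/-- A morphism of two-chart data which is injective with finite-dimensional cokernels in all three
charts preserves Fredholmness of the Čech differential. -/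
theorem cech_isFred_iff (h₀ : s ∘ₗ t₀ = t₀' ∘ₗ s₀) (h₁ : s ∘ₗ t₁ = t₁' ∘ₗ s₁)
    (hs₀ : Injective s₀) (hs₁ : Injective s₁) (hs : Injective s)
    [FiniteDimensional K (T₀' ⧸ LinearMap.range s₀)]
    [FiniteDimensional K (T₁' ⧸ LinearMap.range s₁)]
    [FiniteDimensional K (T' ⧸ LinearMap.range s)] :
    IsFred (cech t₀ t₁) ↔ IsFred (cech t₀' t₁') :=
  isFred_iff_of_square (cech_square h₀ h₁) (prodMap_injective' hs₀ hs₁) hs
    (finiteDimensional_coker_prodMap s₀ s₁) inferInstance

/-- The index of the Čech differential changes by `dim Q₀ + dim Q₁ - dim Q₀₁` under a morphism of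
two-chart data which is injective with finite-dimensional cokernels `Q₀, Q₁, Q₀₁`. -/
theorem cech_index (h₀ : s ∘ₗ t₀ = t₀' ∘ₗ s₀) (h₁ : s ∘ₗ t₁ = t₁' ∘ₗ s₁)
    (hs₀ : Injective s₀) (hs₁ : Injective s₁) (hs : Injective s)
    [FiniteDimensional K (T₀' ⧸ LinearMap.range s₀)]
    [FiniteDimensional K (T₁' ⧸ LinearMap.range s₁)]
    [FiniteDimensional K (T' ⧸ LinearMap.range s)] (h1 : IsFred (cech t₀ t₁)) :
    (cech t₀' t₁').index = (cech t₀ t₁).index + finrank K (T₀' ⧸ LinearMap.range s₀)
      + finrank K (T₁' ⧸ LinearMap.range s₁) - finrank K (T' ⧸ LinearMap.range s) := by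
  have h2 := (cech_isFred_iff h₀ h₁ hs₀ hs₁ hs).mp h1
  have := index_square (cech_square h₀ h₁) (prodMap_injective' hs₀ hs₁) hs
    (finiteDimensional_coker_prodMap s₀ s₁) inferInstance h1 h2
  rw [finrank_coker_prodMap] at this
  push_cast at this
  omega

end Cech

end Fermat.Agent.S25.helper3045
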