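import Mathlib
import Fermat.Agent.S25.helper3045_Index

/-!
# S25, leaf LC-DEGHOM, part 2: lengths of `Hom` modules out of an invertible module (helper3045)

Commutative algebra over a field `K` (Mathlib only, statement-agnostic).

* `exists_eval_bijective` / `finrank_hom_eq` : for an invertible `A`-module `M` and an `A`-module
  `Q` that is finite-dimensional over `K`, `Hom_A(M, Q)` has the same `K`-dimension as `Q`
  (evaluation at a suitable element of `M` is bijective; `A ⧸ Ann Q` is a finite `K`-algebra, hence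
  semilocal, hence `M ⧸ Ann(Q) M` is free of rank one).
* `finrank_coker_postcomp` : for `j : P₁ → P₂` injective with cokernel finite-dimensional over `K`
  and `M` invertible, post-composition `Hom_A(M, P₁) → Hom_A(M, P₂)` is injective with cokernel of
  the same dimension as `coker j`.
* `injective_of_ne_zero` : a nonzero map between invertible modules over a domain is injective.
* `finite_coker_of_injective` : over a domain all of whose proper principal quotients are
  finite-dimensional over `K`, an injective map between invertible modules has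
  finite-dimensional cokernel.
-/

set_option autoImplicit false

open Module Function TensorProduct

namespace Fermat.Agent.S25.helper3045

section Length

variable {K : Type*} [Field K] {A : Type*} [CommRing A] [Algebra K A]
variable (M : Type*) [AddCommGroup M] [Module A M] [Module.Invertible A M]
variable (Q : Type*) [AddCommGroup Q] [Module A Q] [Module K Q] [IsScalarTower K A Q]

variable (K A) in
omit [Module.Invertible A M] in
/-- Evaluation at an element, as a `K`-linear map on `Hom_A(M, Q)`. -/
def evalAt (e : M) : (M →ₗ[A] Q) →ₗ[K] Q where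
  toFun f := f e
  map_add' _ _ := rfl
  map_smul' _ _ := rfl

omit [Module.Invertible A M] in
variable {M Q} in
@[simp] theorem evalAt_apply (e : M) (f : M →ₗ[A] Q) : evalAt K A M Q e f = f e := rfl

/-- For `M` invertible over `A` and `Q` finite-dimensional over `K`, evaluation at a suitable
element of `M` is a bijection `Hom_A(M, Q) → Q`. -/
theorem exists_eval_bijective [Module.Finite K Q] :
    ∃ e : M, Bijective (evalAt K A M Q e) := by
  classical
  let I : Ideal A := Module.annihilator A Q
  -- `A ⧸ I` is a finite `K`-algebra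
  let φ : A →ₐ[K] Module.End K Q := Algebra.lsmul K K Q
  have hφ : ∀ a ∈ I, φ a = 0 := by
    intro a ha
    ext q
    exact Module.mem_annihilator.mp ha q
  let φ' : A ⧸ I →ₐ[K] Module.End K Q := Ideal.Quotient.liftₐ I φ hφ
  have hφ' : Injective φ' := by
    rw [injective_iff_map_eq_zero]
    intro a ha
    obtain ⟨a, rfl⟩ := Ideal.Quotient.mk_surjective a
    have h0 : φ a = 0 := ha
    rw [Ideal.Quotient.eq_zero_iff_mem, Module.mem_annihilator]
    intro q
    exact LinearMap.congr_fun h0 q
  have hfin : Module.Finite K (A ⧸ I) := Module.Finite.of_injective φ'.toLinearMap hφ'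
  have hart : IsArtinianRing (A ⧸ I) := IsArtinianRing.of_finite K (A ⧸ I)
  have hfree : Module.Free (A ⧸ I) ((A ⧸ I) ⊗[A] M) := inferInstance
  obtain ⟨ψ⟩ := Module.Invertible.free_iff_linearEquiv.mp hfree
  have hmk : Surjective (TensorProduct.mk A (A ⧸ I) M 1) :=
    TensorProduct.mk_surjective A M (A ⧸ I) Ideal.Quotient.mk_surjective
  obtain ⟨e, he⟩ := hmk (ψ.symm 1)
  have he' : ψ ((1 : A ⧸ I) ⊗ₜ[A] e) = 1 := by
    have : (1 : A ⧸ I) ⊗ₜ[A] e = ψ.symm 1 := he
    rw [this, LinearEquiv.apply_symm_apply]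
  refine ⟨e, ?_, ?_⟩
  · -- injectivity
    rw [injective_iff_map_eq_zero]
    intro f hf
    have hfe : f e = 0 := hf
    -- the `A`-linear map `A ⧸ I ⊗ M → Q` induced by `f`
    have hkill : I ≤ LinearMap.ker (LinearMap.toSpanSingleton A (M →ₗ[A] Q) f) := by
      intro a ha
      rw [LinearMap.mem_ker]
      ext m
      simpa using Module.mem_annihilator.mp ha (f m)
    let g : (A ⧸ I) →ₗ[A] (M →ₗ[A] Q) :=
      Submodule.liftQ I (LinearMap.toSpanSingleton A (M →ₗ[A] Q) f) hkill
    let F : (A ⧸ I) ⊗[A] M →ₗ[A] Q := TensorProduct.lift g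
    have hF : ∀ m, F ((1 : A ⧸ I) ⊗ₜ[A] m) = f m := by
      intro m
      have : g (1 : A ⧸ I) = f := by
        change Submodule.liftQ I (LinearMap.toSpanSingleton A (M →ₗ[A] Q) f) hkill
          (Submodule.Quotient.mk (1 : A)) = f
        rw [Submodule.liftQ_apply, LinearMap.toSpanSingleton_apply, one_smul]
      simp [F, this]
    ext m
    obtain ⟨a, ha⟩ := Ideal.Quotient.mk_surjective (ψ ((1 : A ⧸ I) ⊗ₜ[A] m))
    have h1 : (1 : A ⧸ I) ⊗ₜ[A] (m - a • e) = 0 := by
      apply ψ.injective
      rw [map_zero, tmul_sub, map_sub, ← ha]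
      have : (1 : A ⧸ I) ⊗ₜ[A] (a • e) = (Ideal.Quotient.mk I a) • ((1 : A ⧸ I) ⊗ₜ[A] e) := by
        rw [TensorProduct.smul_tmul', ← TensorProduct.smul_tmul]
        congr 1
      rw [this, map_smul, he', smul_eq_mul, mul_one, sub_self]
    have h2 : f (m - a • e) = 0 := by rw [← hF, h1, map_zero]
    have : f m = a • f e := by
      have := h2
      rw [map_sub, map_smul, sub_eq_zero] at this
      exact this
    simpa [hfe] using this
  · -- surjectivity
    intro q
    have hkill : I ≤ LinearMap.ker (LinearMap.toSpanSingleton A Q q) := by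
      intro a ha
      rw [LinearMap.mem_ker]
      simpa using Module.mem_annihilator.mp ha q
    let g : (A ⧸ I) →ₗ[A] Q := Submodule.liftQ I (LinearMap.toSpanSingleton A Q q) hkill
    let f : M →ₗ[A] Q :=
      g ∘ₗ (ψ.toLinearMap.restrictScalars A) ∘ₗ (TensorProduct.mk A (A ⧸ I) M 1)
    refine ⟨f, ?_⟩
    change g (ψ ((1 : A ⧸ I) ⊗ₜ[A] e)) = q
    rw [he']
    change Submodule.liftQ I (LinearMap.toSpanSingleton A Q q) hkill
      (Submodule.Quotient.mk (1 : A)) = q
    rw [Submodule.liftQ_apply, LinearMap.toSpanSingleton_apply, one_smul]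

theorem finite_hom [Module.Finite K Q] : Module.Finite K (M →ₗ[A] Q) := by
  obtain ⟨e, he⟩ := exists_eval_bijective (K := K) (A := A) M Q
  exact Module.Finite.equiv (LinearEquiv.ofBijective _ he).symm

theorem finrank_hom_eq [Module.Finite K Q] : finrank K (M →ₗ[A] Q) = finrank K Q := by
  obtain ⟨e, he⟩ := exists_eval_bijective (K := K) (A := A) M Q
  exact (LinearEquiv.ofBijective _ he).finrank_eq

end Length

section Postcomp

variable {K : Type*} [Field K] {A : Type*} [CommRing A] [Algebra K A]
variable (M : Type*) [AddCommGroup M] [Module A M]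
variable {P₁ P₂ : Type*} [AddCommGroup P₁] [Module A P₁] [Module K P₁] [IsScalarTower K A P₁]
  [AddCommGroup P₂] [Module A P₂] [Module K P₂] [IsScalarTower K A P₂]

variable (K) in
/-- Post-composition with an `A`-linear map `j`, as a `K`-linear map on `Hom_A(M, -)`. -/
def postcomp (j : P₁ →ₗ[A] P₂) : (M →ₗ[A] P₁) →ₗ[K] (M →ₗ[A] P₂) where
  toFun f := j ∘ₗ f
  map_add' f g := LinearMap.comp_add _ _ _
  map_smul' c f := by
    ext m
    simp only [LinearMap.comp_apply, LinearMap.smul_apply, RingHom.id_apply]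
    exact j.map_smul_of_tower c (f m)

variable {M} in
@[simp] theorem postcomp_apply (j : P₁ →ₗ[A] P₂) (f : M →ₗ[A] P₁) (m : M) :
    postcomp K M j f m = j (f m) := rfl

theorem postcomp_injective {j : P₁ →ₗ[A] P₂} (hj : Injective j) :
    Injective (postcomp K M j) := by
  intro f g hfg
  ext m
  apply hj
  exact LinearMap.congr_fun hfg m

theorem postcomp_surjective [Module.Projective A M] {j : P₁ →ₗ[A] P₂} (hj : Surjective j) :
    Surjective (postcomp K M j) := by
  intro g
  obtain ⟨h, hh⟩ := Module.projective_lifting_property j g hj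
  exact ⟨h, hh⟩

theorem ker_postcomp_mkQ {j : P₁ →ₗ[A] P₂} (hj : Injective j) :
    LinearMap.ker (postcomp K M (LinearMap.range j).mkQ) = LinearMap.range (postcomp K M j) := by
  ext f
  constructor
  · intro hf
    have hmem : ∀ m, f m ∈ LinearMap.range j := by
      intro m
      have := LinearMap.congr_fun (LinearMap.mem_ker.mp hf) m
      simpa [Submodule.Quotient.mk_eq_zero] using this
    let f' : M →ₗ[A] P₁ :=
      (LinearEquiv.ofInjective j hj).symm.toLinearMap ∘ₗ f.codRestrict (LinearMap.range j) hmem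
    refine ⟨f', ?_⟩
    ext m
    simp [f']
  · rintro ⟨g, rfl⟩
    rw [LinearMap.mem_ker]
    ext m
    simp

/-- For `M` projective and `j` injective, the cokernel of post-composition with `j` on
`Hom_A(M, -)` is `Hom_A(M, coker j)`. -/
noncomputable def cokerPostcompEquiv [Module.Projective A M] {j : P₁ →ₗ[A] P₂}
    (hj : Injective j) :
    ((M →ₗ[A] P₂) ⧸ LinearMap.range (postcomp K M j)) ≃ₗ[K]
      (M →ₗ[A] (P₂ ⧸ LinearMap.range j)) :=
  (Submodule.quotEquivOfEq _ _ (ker_postcomp_mkQ (K := K) M hj).symm) ≪≫ₗ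
    (postcomp K M (LinearMap.range j).mkQ).quotKerEquivOfSurjective
      (postcomp_surjective M (Submodule.mkQ_surjective _))

theorem finite_coker_postcomp [Module.Invertible A M] {j : P₁ →ₗ[A] P₂} (hj : Injective j)
    [Module.Finite K (P₂ ⧸ LinearMap.range j)] :
    Module.Finite K ((M →ₗ[A] P₂) ⧸ LinearMap.range (postcomp K M j)) := by
  have := finite_hom (K := K) (A := A) M (P₂ ⧸ LinearMap.range j)
  exact Module.Finite.equiv (cokerPostcompEquiv (K := K) M hj).symm

theorem finrank_coker_postcomp [Module.Invertible A M] {j : P₁ →ₗ[A] P₂} (hj : Injective j)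
    [Module.Finite K (P₂ ⧸ LinearMap.range j)] :
    finrank K ((M →ₗ[A] P₂) ⧸ LinearMap.range (postcomp K M j)) =
      finrank K (P₂ ⧸ LinearMap.range j) := by
  rw [(cokerPostcompEquiv (K := K) M hj).finrank_eq, finrank_hom_eq]

end Postcomp

section Domain

variable {A : Type*} [CommRing A]
variable {M₁ M₂ : Type*} [AddCommGroup M₁] [Module A M₁] [Module.Invertible A M₁]
  [AddCommGroup M₂] [Module A M₂] [Module.Invertible A M₂]

omit [AddCommGroup M₂] [Module A M₂] [Module.Invertible A M₂] in
/-- The rank-one identity in an invertible module: `l(m) • m' = l(m') • m`. -/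
theorem dual_smul_comm (l : Module.Dual A M₁) (m m' : M₁) : l m • m' = l m' • m := by
  have h := Module.Invertible.tmul_comm (R := A) (m₁ := m) (m₂ := m')
  let Φ : M₁ ⊗[A] M₁ →ₗ[A] M₁ := TensorProduct.lift ((LinearMap.lsmul A M₁).comp l)
  have := congrArg Φ h
  simpa [Φ] using this

omit [AddCommGroup M₂] [Module A M₂] [Module.Invertible A M₂] in
/-- An invertible module over a nontrivial ring has a nonzero element. -/
theorem exists_ne_zero_of_invertible [Nontrivial A] : ∃ m : M₁, m ≠ 0 := by
  by_contra h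
  have h' : ∀ m : M₁, m = 0 := fun m => by_contra fun hm => h ⟨m, hm⟩
  have : (1 : A) = 0 := by
    apply FaithfulSMul.eq_of_smul_eq_smul (α := M₁)
    intro m
    rw [h' m, smul_zero, smul_zero]
  exact one_ne_zero this

variable [IsDomain A]

/-- A nonzero linear map between invertible modules over a domain is injective. -/
theorem injective_of_ne_zero {f : M₁ →ₗ[A] M₂} (hf : f ≠ 0) : Injective f := by
  rw [injective_iff_map_eq_zero]
  intro m hm
  by_contra hne
  obtain ⟨l, hl⟩ := Module.Projective.exists_dual_ne_zero A hne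
  apply hf
  ext m'
  have h1 : l m • f m' = 0 := by
    rw [← map_smul, dual_smul_comm l m m', map_smul, hm, smul_zero]
  simpa using (smul_eq_zero.mp h1).resolve_left hl

variable {K : Type*} [Field K] [Algebra K A] [Module K M₂] [IsScalarTower K A M₂]

/-- Over a domain `A` all of whose quotients by nonzero principal ideals are finite-dimensional
over `K`, an injective linear map between invertible modules has a cokernel that is
finite-dimensional over `K`. -/
theorem finite_coker_of_injective
    (hA : ∀ a : A, a ≠ 0 → Module.Finite K (A ⧸ Ideal.span {a}))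
    {j : M₁ →ₗ[A] M₂} (hj : Injective j) : Module.Finite K (M₂ ⧸ LinearMap.range j) := by
  classical
  obtain ⟨m₁, hm₁⟩ := exists_ne_zero_of_invertible (A := A) (M₁ := M₁)
  obtain ⟨m₂, hm₂⟩ := exists_ne_zero_of_invertible (A := A) (M₁ := M₂)
  obtain ⟨l, hl⟩ := Module.Projective.exists_dual_ne_zero A hm₂
  let g : M₂ →ₗ[A] M₁ := (LinearMap.toSpanSingleton A M₁ m₁) ∘ₗ l
  have hg0 : g ≠ 0 := by
    intro h0
    have : l m₂ • m₁ = 0 := by simpa [g] using LinearMap.congr_fun h0 m₂
    rcases smul_eq_zero.mp this with h | h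
    · exact hl h
    · exact hm₁ h
  have hg : Injective g := injective_of_ne_zero hg0
  -- `g ∘ j` is multiplication by some `a`
  obtain ⟨a, ha⟩ := (Module.Invertible.toModuleEnd_bijective A M₁).surjective (g ∘ₗ j)
  have ha' : ∀ m, a • m = g (j m) := fun m => LinearMap.congr_fun ha m
  have ha0 : a ≠ 0 := by
    rintro rfl
    have : g (j m₁) = 0 := by rw [← ha', zero_smul]
    exact hm₁ (hj (hg (by rw [this, map_zero, map_zero])))
  -- `j ∘ g` is multiplication by `a` as well
  obtain ⟨b, hb⟩ := (Module.Invertible.toModuleEnd_bijective A M₂).surjective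
    (j ∘ₗ g - a • LinearMap.id)
  have hb' : ∀ v, b • v = j (g v) - a • v := fun v => LinearMap.congr_fun hb v
  have hb0 : b = 0 := by
    have h := hb' (j m₁)
    rw [← ha', map_smul, sub_self] at h
    rcases smul_eq_zero.mp h with h | h
    · exact h
    · exact absurd (hj (by rw [h, map_zero])) hm₁
  have hjg : ∀ v, a • v = j (g v) := by
    intro v
    have h := hb' v
    rw [hb0, zero_smul] at h
    exact (sub_eq_zero.mp h.symm).symm
  -- generators of `M₂`
  obtain ⟨n, s, hs⟩ := Module.Finite.exists_fin (R := A) (M := M₂)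
  have hkill : ∀ i, Ideal.span {a} ≤ LinearMap.ker
      ((LinearMap.range j).mkQ ∘ₗ LinearMap.toSpanSingleton A M₂ (s i)) := by
    intro i c hc
    obtain ⟨c', rfl⟩ := Ideal.mem_span_singleton'.mp hc
    rw [LinearMap.mem_ker, LinearMap.comp_apply, LinearMap.toSpanSingleton_apply,
      Submodule.mkQ_apply, Submodule.Quotient.mk_eq_zero, mul_smul, hjg]
    exact ⟨c' • g (s i), by rw [map_smul]⟩
  let ψ : Fin n → (A ⧸ Ideal.span {a}) →ₗ[A] (M₂ ⧸ LinearMap.range j) := fun i =>
    Submodule.liftQ (Ideal.span {a}) _ (hkill i)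
  let Ψ : (Fin n → A ⧸ Ideal.span {a}) →ₗ[A] (M₂ ⧸ LinearMap.range j) :=
    ∑ i, ψ i ∘ₗ LinearMap.proj i
  have hΨ : Surjective Ψ := by
    intro v
    obtain ⟨v, rfl⟩ := Submodule.mkQ_surjective _ v
    have hv : v ∈ Submodule.span A (Set.range s) := by rw [hs]; trivial
    obtain ⟨c, rfl⟩ := (Submodule.mem_span_range_iff_exists_fun A).mp hv
    refine ⟨fun i => Ideal.Quotient.mk _ (c i), ?_⟩
    simp only [Ψ, LinearMap.coe_sum, Finset.sum_apply, LinearMap.comp_apply, LinearMap.proj_apply,
      map_sum]
    refine Finset.sum_congr rfl fun i _ => ?_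
    change Submodule.liftQ (Ideal.span {a}) _ (hkill i) (Submodule.Quotient.mk (c i)) = _
    rw [Submodule.liftQ_apply]
    rfl
  have := hA a ha0
  exact Module.Finite.of_surjective (Ψ.restrictScalars K) hΨ

end Domain

section RestrictScalars

variable {K : Type*} [Field K] {A : Type*} [CommRing A] [Algebra K A]
variable {P₁ P₂ : Type*} [AddCommGroup P₁] [Module A P₁] [Module K P₁] [IsScalarTower K A P₁]
  [AddCommGroup P₂] [Module A P₂] [Module K P₂] [IsScalarTower K A P₂]

/-- The cokernel of an `A`-linear map, computed `K`-linearly or `A`-linearly. -/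
noncomputable def cokerRestrictScalarsEquiv (j : P₁ →ₗ[A] P₂) :
    (P₂ ⧸ LinearMap.range (j.restrictScalars K)) ≃ₗ[K] (P₂ ⧸ LinearMap.range j) :=
  (Submodule.quotEquivOfEq _ _ (by ext; simp)) ≪≫ₗ
    Submodule.Quotient.restrictScalarsEquiv K (LinearMap.range j)

theorem finite_coker_restrictScalars (j : P₁ →ₗ[A] P₂) [Module.Finite K (P₂ ⧸ LinearMap.range j)] :
    Module.Finite K (P₂ ⧸ LinearMap.range (j.restrictScalars K)) :=
  Module.Finite.equiv (cokerRestrictScalarsEquiv (K := K) j).symm

theorem finrank_coker_restrictScalars (j : P₁ →ₗ[A] P₂) :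
    finrank K (P₂ ⧸ LinearMap.range (j.restrictScalars K)) =
      finrank K (P₂ ⧸ LinearMap.range j) :=
  (cokerRestrictScalarsEquiv (K := K) j).finrank_eq

end RestrictScalars

section DomainMore

variable {A : Type*} [CommRing A] [IsDomain A]
variable {M₁ M₂ : Type*} [AddCommGroup M₁] [Module A M₁] [Module.Invertible A M₁]
  [AddCommGroup M₂] [Module A M₂] [Module.Invertible A M₂]

/-- Between two invertible modules over a domain there is a nonzero linear map. -/
theorem exists_hom_ne_zero : ∃ f : M₁ →ₗ[A] M₂, f ≠ 0 := by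
  obtain ⟨m₁, hm₁⟩ := exists_ne_zero_of_invertible (A := A) (M₁ := M₁)
  obtain ⟨m₂, hm₂⟩ := exists_ne_zero_of_invertible (A := A) (M₁ := M₂)
  obtain ⟨l, hl⟩ := Module.Projective.exists_dual_ne_zero A hm₁
  refine ⟨(LinearMap.toSpanSingleton A M₂ m₂) ∘ₗ l, fun h0 => ?_⟩
  have : l m₁ • m₂ = 0 := by simpa using LinearMap.congr_fun h0 m₁
  rcases smul_eq_zero.mp this with h | h
  · exact hl h
  · exact hm₂ h

omit [Module.Invertible A M₁] [AddCommGroup M₂] [Module A M₂] [Module.Invertible A M₂] in
/-- The localization map of a torsion-free module at the powers of a nonzero element of a domain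
is injective. -/
theorem injective_of_isLocalizedModule_powers (s : A) (hs : s ≠ 0) [Module.IsTorsionFree A M₁]
    {M' : Type*} [AddCommGroup M'] [Module A M'] (r : M₁ →ₗ[A] M')
    [IsLocalizedModule (Submonoid.powers s) r] : Injective r := by
  rw [injective_iff_map_eq_zero]
  intro m hm
  obtain ⟨⟨c, hc⟩, h⟩ := (IsLocalizedModule.eq_zero_iff (Submonoid.powers s) r).mp hm
  obtain ⟨k, rfl⟩ := (Submonoid.mem_powers_iff _ _).mp hc
  have : s ^ k • m = 0 := h
  exact (smul_eq_zero.mp this).resolve_left (pow_ne_zero k hs)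

end DomainMore

section LocCoker

variable {K : Type*} [Field K] {A A' : Type*} [CommRing A] [CommRing A'] [Algebra K A]
  [Algebra K A'] [Algebra A A'] (s : A) [IsLocalization.Away s A']
variable {M₁ M₂ M₁' M₂' : Type*} [AddCommGroup M₁] [Module A M₁]
  [AddCommGroup M₂] [Module A M₂] [Module K M₂] [IsScalarTower K A M₂]
  [AddCommGroup M₁'] [Module A' M₁']
  [AddCommGroup M₂'] [Module A' M₂'] [Module A M₂'] [IsScalarTower A A' M₂'] [Module K M₂']
  [IsScalarTower K A' M₂'] [IsScalarTower K A M₂']
variable (r₁ : M₁ → M₁') (r₂ : M₂ →ₗ[A] M₂') [IsLocalizedModule (Submonoid.powers s) r₂]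

include s r₁ in
/-- If `f' : M₁' → M₂'` is a localization (away from `s`) of `f : M₁ → M₂` and the cokernel of `f`
is finite-dimensional over `K`, then so is the cokernel of `f'` (a finite-dimensional
`K[s]`-module surjects onto its localization at `s`). -/
theorem finite_coker_of_localization (f : M₁ →ₗ[A] M₂) (f' : M₁' →ₗ[A'] M₂')
    (h : ∀ v, f' (r₁ v) = r₂ (f v)) [Module.Finite K (M₂ ⧸ LinearMap.range f)] :
    Module.Finite K (M₂' ⧸ LinearMap.range f') := by
  let φ : M₂ →ₗ[A] (M₂' ⧸ LinearMap.range f') :=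
    ((LinearMap.range f').mkQ.restrictScalars A) ∘ₗ r₂
  have hφ : LinearMap.range f ≤ LinearMap.ker φ := by
    rintro _ ⟨v, rfl⟩
    rw [LinearMap.mem_ker]
    change Submodule.Quotient.mk (r₂ (f v)) = 0
    rw [Submodule.Quotient.mk_eq_zero, ← h]
    exact ⟨r₁ v, rfl⟩
  let ι : (M₂ ⧸ LinearMap.range f) →ₗ[K] (M₂' ⧸ LinearMap.range f') :=
    (Submodule.liftQ (LinearMap.range f) φ hφ).restrictScalars K
  have hι : ∀ v : M₂, ι (Submodule.Quotient.mk v) = Submodule.Quotient.mk (r₂ v) := fun v => rfl
  let T : (M₂' ⧸ LinearMap.range f') →ₗ[K] (M₂' ⧸ LinearMap.range f') :=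
    (LinearMap.lsmul A' (M₂' ⧸ LinearMap.range f') (algebraMap A A' s)).restrictScalars K
  have hTapply : ∀ w, T w = (algebraMap A A' s) • w := fun w => rfl
  have hTpow : ∀ (n : ℕ) w, (T ^ n) w = (algebraMap A A' s) ^ n • w := by
    intro n
    induction n with
    | zero => intro w; simp
    | succ n ih =>
      intro w
      rw [pow_succ', Module.End.mul_apply, ih, hTapply, smul_smul, ← pow_succ']
  have hT : Injective T := by
    obtain ⟨u, hu⟩ := IsLocalization.Away.algebraMap_isUnit (S := A') s
    intro w₁ w₂ hw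
    rw [hTapply, hTapply, ← hu] at hw
    have := congrArg (fun z => (↑u⁻¹ : A') • z) hw
    simpa [smul_smul] using this
  have hstable : ∀ q, T (ι q) ∈ LinearMap.range ι := by
    intro q
    obtain ⟨v, rfl⟩ := Submodule.mkQ_surjective _ q
    refine ⟨Submodule.Quotient.mk (s • v), ?_⟩
    rw [Submodule.mkQ_apply, hι, hι, hTapply, map_smul, ← Submodule.Quotient.mk_smul,
      algebraMap_smul]
  have hgen : ∀ w, ∃ n : ℕ, (T ^ n) w ∈ LinearMap.range ι := by
    intro w
    obtain ⟨z, rfl⟩ := Submodule.mkQ_surjective _ w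
    obtain ⟨⟨v, c⟩, hc⟩ := IsLocalizedModule.surj (Submonoid.powers s) r₂ z
    obtain ⟨n, hn⟩ := (Submonoid.mem_powers_iff _ _).mp c.2
    refine ⟨n, Submodule.Quotient.mk v, ?_⟩
    have hc' : s ^ n • z = r₂ v := by rw [hn]; exact hc
    rw [hι, hTpow, Submodule.mkQ_apply, ← Submodule.Quotient.mk_smul, ← hc', ← map_pow,
      algebraMap_smul]
  exact Module.Finite.of_surjective ι (surjective_of_fitting ι T hT hstable hgen)

end LocCoker

end Fermat.Agent.S25.helper3045
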