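import Fermat.Agent.S25.helper1035_PointTwist
import Fermat.Agent.S25.helper8573_LCSpec
import Fermat.Agent.S25.helper8703_FieldGlue
import Fermat.Agent.S25.helper622_DivisorOps
import Fermat.Agent.S25.helper8663_PointDecompCurve

/-!
# S25, LC5/LC4 (S-PEEL): peeling points off a morphism of two-chart line bundles (helper3115)

`k` algebraically closed, `D : CurveDatum k`, `K` a field over `k`, `G N : GlueDatum D K` and
`τ : helper8573.Mor G N` a morphism with `τ.f₀ ≠ 0` which is surjective modulo `y` on the chart at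
infinity (`τ.SurjModY`: `τ` is an isomorphism along `V(y)`).

* `Peel.equiv_of_mor_surj` : if `τ.f₀` is onto, then `τ` is an isomorphism, `G ≈ N`.
* `Peel.exists_factor` : if `τ.f₀` has image in `E.I₀ • N.M₀` for a divisor datum `E` of the
  first chart (`E.I₁ = atInfty E.I₀`, finite codimension), then `τ` factors through the reference
  twist `helper1035.twist N E = N(−E)`; the factorisation is again nonzero and surjective modulo
  `y`, and the cokernel on the first chart drops by `dim N.M₀ ⧸ E.I₀ • N.M₀`.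
* `Peel.exists_point` : if `τ.f₀` is not onto and `K` is algebraically closed, its image lies in
  `𝔪_p • N.M₀` for a `K`-point `p` of the first chart.
* `Peel.peel_of`, `Peel.peel` : hence `G ≈ N(−p₁)⋯(−p_d)` with
  `d = dim_K (N.M₀ ⧸ range τ.f₀)` points of the first chart.
-/

set_option autoImplicit false

universe u

open TensorProduct Module

namespace Fermat.Agent.S25.helper3115

open Fermat.Agent.S25.helper1705 Fermat.Agent.S25.helper2945
open Fermat.Agent.S25.helper8573 (Mor)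

namespace Peel

section Field

variable {k : Type u} [Field k] [IsAlgClosed k] {D : CurveDatum k} {K : Type u} [Field K]
  [Algebra k K] {G N : GlueDatum D K}

/-- A morphism of two-chart line bundles over a field which is nonzero on the first chart is
injective on both charts and on the overlap. -/
theorem mor_injective (τ : Mor G N) (h0 : τ.f₀ ≠ 0) :
    Function.Injective τ.f₀ ∧ Function.Injective τ.f₁ ∧ Function.Injective τ.f₀₁ ∧ τ.f₁ ≠ 0 :=
  helper8703.hom_injective G N τ.f₀ τ.f₁ τ.f₀₁ τ.comm₀ τ.comm₁ h0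

/-- The cokernels of a nonzero morphism on the two charts are finite-dimensional. -/
theorem mor_finite_coker (τ : Mor G N) (h0 : τ.f₀ ≠ 0) :
    Module.Finite K (N.M₀ ⧸ LinearMap.range τ.f₀) ∧
      Module.Finite K (N.M₁ ⧸ LinearMap.range τ.f₁) := by
  have := helper8703.isDomain_A₀ D K
  have := helper8703.isDomain_A₁ D K
  exact helper8703.morphism_finite_coker (helper8703.isLocAt_ρ₀ G) (helper8703.isLocAt_ρ₁ G)
    (helper8703.isLocAt_ρ₀ N) (helper8703.isLocAt_ρ₁ N) (helper8703.isUnit_algebraMap_xB D K)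
    (helper8703.isUnit_algebraMap_yB D K) (helper8703.finQuot_A₀ D K) (helper8703.finQuot_A₁ D K)
    τ.f₀ τ.f₁ τ.f₀₁ τ.comm₀ τ.comm₁ h0

omit [IsAlgClosed k] in
/-- The overlap map is onto when the map on the first chart is. -/
theorem f₀₁_surjective (τ : Mor G N) (hs : Function.Surjective τ.f₀) :
    Function.Surjective τ.f₀₁ := by
  intro w
  obtain ⟨⟨n₀, ⟨_, j, rfl⟩⟩, h⟩ := IsLocalizedModule.surj (Submonoid.powers (xB D K)) N.ρ₀ w
  obtain ⟨m, rfl⟩ := hs n₀
  have h' : xB D K ^ j • w = τ.f₀₁ (G.ρ₀ m) := by rw [τ.comm₀]; exact h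
  have hxy : algebraMap (D.A₁ K) (D.A₀₁ K) (yB D K) ^ j * algebraMap (D.A₀ K) (D.A₀₁ K) (xB D K) ^ j
      = 1 := by
    rw [← mul_pow, mul_comm, xB_mul_yB, one_pow]
  refine ⟨algebraMap (D.A₁ K) (D.A₀₁ K) (yB D K) ^ j • G.ρ₀ m, ?_⟩
  rw [map_smul, ← h', ← algebraMap_smul (D.A₀₁ K) (xB D K ^ j) w, smul_smul, map_pow, hxy,
    one_smul]

/-- Every element of `N.M₁` is moved into the image of `τ.f₁` by a power of `y`, when the overlap
map is onto. -/
theorem exists_pow_smul_mem_range (τ : Mor G N) (hs₀₁ : Function.Surjective τ.f₀₁) (n : N.M₁) :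
    ∃ j : ℕ, yB D K ^ j • n ∈ LinearMap.range τ.f₁ := by
  obtain ⟨z, hz⟩ := hs₀₁ (N.ρ₁ n)
  obtain ⟨⟨m, ⟨_, j, rfl⟩⟩, h⟩ := IsLocalizedModule.surj (Submonoid.powers (yB D K)) G.ρ₁ z
  have h' : yB D K ^ j • z = G.ρ₁ m := h
  refine ⟨j, m, ?_⟩
  apply helper1804.Lattice.ρ₁_injective N
  have e1 : N.ρ₁ (τ.f₁ m) = τ.f₀₁ (algebraMap (D.A₁ K) (D.A₀₁ K) (yB D K ^ j) • z) := by
    rw [← τ.comm₁, ← h', algebraMap_smul]
  rw [e1, LinearMap.map_smul, LinearMap.map_smul, hz, algebraMap_smul]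

/-- A uniform power of `y` moves `N.M₁` into the image of `τ.f₁`. -/
theorem exists_pow_smul_mem_range_all (τ : Mor G N) (hs₀₁ : Function.Surjective τ.f₀₁) :
    ∃ J : ℕ, ∀ n : N.M₁, yB D K ^ J • n ∈ LinearMap.range τ.f₁ := by
  obtain ⟨s, hs⟩ := (Module.Finite.fg_top : (⊤ : Submodule (D.A₁ K) N.M₁).FG)
  choose j hj using exists_pow_smul_mem_range τ hs₀₁
  refine ⟨s.sup j, fun n => ?_⟩
  have hn : n ∈ Submodule.span (D.A₁ K) (s : Set N.M₁) := hs ▸ Submodule.mem_top
  induction hn using Submodule.span_induction with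
  | mem x hx =>
    have hle : j x ≤ s.sup j := Finset.le_sup hx
    obtain ⟨c, hc⟩ := Nat.exists_eq_add_of_le hle
    rw [hc, add_comm, pow_add, mul_smul]
    exact Submodule.smul_mem _ _ (hj x)
  | zero => rw [smul_zero]; exact Submodule.zero_mem _
  | add x y _ _ hx hy => rw [smul_add]; exact Submodule.add_mem _ hx hy
  | smul a x _ hx => rw [smul_comm]; exact Submodule.smul_mem _ _ hx

omit [IsAlgClosed k] in
/-- Iterating surjectivity modulo `y`. -/
theorem surjModY_pow (τ : Mor G N) (hy : τ.SurjModY) (J : ℕ) (n : N.M₁) :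
    ∃ (m : G.M₁) (n' : N.M₁), n = τ.f₁ m + yB D K ^ J • n' := by
  induction J generalizing n with
  | zero => exact ⟨0, n, by simp⟩
  | succ J ih =>
    obtain ⟨m, n', h⟩ := ih n
    obtain ⟨m', n'', h'⟩ := hy n'
    refine ⟨m + yB D K ^ J • m', n'', ?_⟩
    rw [h, h', smul_add, map_add, map_smul, pow_succ, mul_smul, add_assoc]

/-- **Base case of the peeling.** A morphism which is onto on the first chart and surjective
modulo `y` on the chart at infinity is an isomorphism. -/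
theorem equiv_of_mor_surj (τ : Mor G N) (h0 : τ.f₀ ≠ 0) (hy : τ.SurjModY)
    (hs : Function.Surjective τ.f₀) : G.Equiv N := by
  obtain ⟨i0, i1, i01, -⟩ := mor_injective τ h0
  have s01 : Function.Surjective τ.f₀₁ := f₀₁_surjective τ hs
  have s1 : Function.Surjective τ.f₁ := by
    obtain ⟨J, hJ⟩ := exists_pow_smul_mem_range_all τ s01
    intro n
    obtain ⟨m, n', h⟩ := surjModY_pow τ hy J n
    obtain ⟨m', hm'⟩ := hJ n'
    exact ⟨m + m', by rw [map_add, hm', h]⟩
  exact ⟨{ e₀ := LinearEquiv.ofBijective τ.f₀ ⟨i0, hs⟩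
           e₁ := LinearEquiv.ofBijective τ.f₁ ⟨i1, s1⟩
           e₀₁ := LinearEquiv.ofBijective τ.f₀₁ ⟨i01, s01⟩
           comm₀ := τ.comm₀
           comm₁ := τ.comm₁ }⟩

end Field

/-! ### Generic linear algebra -/

section Generic

variable {K A : Type*} [Field K] [CommRing A] [Algebra K A]
  {M P Q : Type*} [AddCommGroup M] [Module A M] [Module K M] [IsScalarTower K A M]
  [AddCommGroup P] [Module A P] [Module K P] [IsScalarTower K A P]
  [AddCommGroup Q] [Module A Q] [Module K Q] [IsScalarTower K A Q]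

/-- Cokernel dimensions add up along a composition of injective maps. -/
theorem finrank_coker_comp (d : M →ₗ[A] P) (j : P →ₗ[A] Q) (hd : Function.Injective d)
    (hj : Function.Injective j) [Module.Finite K (P ⧸ LinearMap.range d)]
    [Module.Finite K (Q ⧸ LinearMap.range j)] :
    finrank K (Q ⧸ LinearMap.range (j ∘ₗ d)) =
      finrank K (P ⧸ LinearMap.range d) + finrank K (Q ⧸ LinearMap.range j) := by
  have hc : FiniteDimensional K (Q ⧸ LinearMap.range (j.restrictScalars K)) :=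
    helper8703.finite_coker_restrictScalars (K := K) j
  have hc' : FiniteDimensional K (P ⧸ LinearMap.range (d.restrictScalars K)) :=
    helper8703.finite_coker_restrictScalars (K := K) d
  obtain ⟨-, h2⟩ :=
    helper1035.index_injective_comp (d.restrictScalars K) (j.restrictScalars K) hj hc
  have hker : LinearMap.ker (d.restrictScalars K) = ⊥ := LinearMap.ker_eq_bot.mpr hd
  have hfc : FinCoh (d.restrictScalars K) := ⟨by rw [hker]; infer_instance, hc'⟩
  have h3 := h2 hfc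
  have hker' : LinearMap.ker ((j.restrictScalars K) ∘ₗ (d.restrictScalars K)) = ⊥ :=
    LinearMap.ker_eq_bot.mpr (hj.comp hd)
  unfold index at h3
  rw [hker, hker', finrank_bot] at h3
  have e1 : finrank K (Q ⧸ LinearMap.range ((j.restrictScalars K) ∘ₗ (d.restrictScalars K))) =
      finrank K (Q ⧸ LinearMap.range (j ∘ₗ d)) :=
    helper8703.finrank_coker_restrictScalars (K := K) (j ∘ₗ d)
  rw [e1, helper8703.finrank_coker_restrictScalars, helper8703.finrank_coker_restrictScalars]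
    at h3
  push_cast at h3
  omega

/-- A proper submodule of finite codimension of an invertible module lies in `𝔪 • ⊤` for a maximal
ideal `𝔪` of finite codimension. -/
theorem exists_maximal_smul_top_ge [Module.Invertible A M] (W : Submodule A M) (hW : W ≠ ⊤)
    [Module.Finite K (M ⧸ W)] :
    ∃ 𝔪 : Ideal A, 𝔪.IsMaximal ∧ W ≤ (𝔪 • ⊤ : Submodule A M) ∧ Module.Finite K (A ⧸ 𝔪) := by
  -- a maximal ideal containing the annihilator of `M ⧸ W`
  have hJ : (W.colon (⊤ : Set M) : Ideal A) ≠ ⊤ := by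
    intro h
    apply hW
    rw [eq_top_iff]
    intro m _
    have h1 : (1 : A) ∈ W.colon (⊤ : Set M) := h ▸ Submodule.mem_top
    have := Submodule.mem_colon.mp h1 m (Set.mem_univ m)
    simpa using this
  obtain ⟨𝔪, h𝔪, hle⟩ := Ideal.exists_le_maximal _ hJ
  -- `M ⧸ 𝔪 • ⊤` is a simple module
  let _ := Ideal.Quotient.field 𝔪
  have hfree : Module.Free (A ⧸ 𝔪) ((A ⧸ 𝔪) ⊗[A] M) := inferInstance
  obtain ⟨e₂⟩ := Module.Invertible.free_iff_linearEquiv.mp hfree
  have e₁ : ((A ⧸ 𝔪) ⊗[A] M) ≃ₗ[A] M ⧸ (𝔪 • ⊤ : Submodule A M) :=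
    TensorProduct.quotTensorEquivQuotSMul M 𝔪
  have e : (M ⧸ (𝔪 • ⊤ : Submodule A M)) ≃ₗ[A] (A ⧸ 𝔪) := e₁.symm ≪≫ₗ (e₂.restrictScalars A)
  have hsimple : IsSimpleModule A (A ⧸ 𝔪) :=
    isSimpleModule_iff_isCoatom.mpr (Ideal.isMaximal_def.mp h𝔪)
  have hsimple' : IsSimpleModule A (M ⧸ (𝔪 • ⊤ : Submodule A M)) := IsSimpleModule.congr e
  have hcoatom : IsCoatom (𝔪 • ⊤ : Submodule A M) := isSimpleModule_iff_isCoatom.mp hsimple'
  -- Nakayama: `W ⊔ 𝔪 • ⊤ ≠ ⊤`
  have hne : W ⊔ (𝔪 • ⊤ : Submodule A M) ≠ ⊤ := by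
    intro htop
    have h1 : (⊤ : Submodule A (M ⧸ W)) ≤ 𝔪 • ⊤ := by
      have h2 := congrArg (Submodule.map W.mkQ) htop
      rw [Submodule.map_sup, Submodule.mkQ_map_self, bot_sup_eq, Submodule.map_smul'',
        Submodule.map_top, Submodule.range_mkQ] at h2
      exact h2.ge
    have hfg : (⊤ : Submodule A (M ⧸ W)).FG := Module.Finite.fg_top
    obtain ⟨r, hr, hr0⟩ :=
      Submodule.exists_sub_one_mem_and_smul_eq_zero_of_fg_of_le_smul 𝔪 ⊤ hfg h1
    have hrJ : r ∈ W.colon (⊤ : Set M) := by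
      rw [Submodule.mem_colon]
      intro m _
      have := hr0 (W.mkQ m) Submodule.mem_top
      rw [← map_smul, Submodule.mkQ_apply, Submodule.Quotient.mk_eq_zero] at this
      exact this
    have h1m : (1 : A) ∈ 𝔪 := by
      have : (1 : A) = r - (r - 1) := by ring
      rw [this]
      exact Ideal.sub_mem _ (hle hrJ) hr
    exact h𝔪.ne_top ((Ideal.eq_top_iff_one _).mpr h1m)
  have hWle : W ≤ (𝔪 • ⊤ : Submodule A M) := by
    have h2 : W ⊔ (𝔪 • ⊤ : Submodule A M) = 𝔪 • ⊤ := by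
      by_contra hcon
      exact hne (hcoatom.2 _ (lt_of_le_of_ne le_sup_right (Ne.symm hcon)))
    exact h2 ▸ le_sup_left
  refine ⟨𝔪, h𝔪, hWle, ?_⟩
  -- `A ⧸ 𝔪 ≃ M ⧸ 𝔪 • ⊤` is a quotient of `M ⧸ W`
  have hfin : Module.Finite K (M ⧸ (𝔪 • ⊤ : Submodule A M)) :=
    Module.Finite.of_surjective ((Submodule.factor hWle).restrictScalars K)
      (Submodule.factor_surjective hWle)
  exact Module.Finite.equiv (e.restrictScalars K)

end Generic

/-! ### Factoring a morphism through a twist -/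

section Factor

variable {k : Type u} [Field k] [IsAlgClosed k] {D : CurveDatum k} {K : Type u} [Field K]
  [Algebra k K] {G N : GlueDatum D K}

omit [IsAlgClosed k] in
/-- If `τ.f₀` has image in `E.I₀ • N.M₀`, the overlap map has image in `E.I₀₁ • N.M₀₁`. -/
theorem f₀₁_mem (τ : Mor G N) (E : helper1035.DivDatum D K)
    (h : ∀ m, τ.f₀ m ∈ (E.I₀ • ⊤ : Submodule (D.A₀ K) N.M₀)) (z : G.M₀₁) :
    τ.f₀₁ z ∈ (E.I₀₁ • ⊤ : Submodule (D.A₀₁ K) N.M₀₁) := by
  obtain ⟨⟨m, ⟨_, j, rfl⟩⟩, hm⟩ := IsLocalizedModule.surj (Submonoid.powers (xB D K)) G.ρ₀ z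
  have hm' : xB D K ^ j • z = G.ρ₀ m := hm
  have h1 : τ.f₀₁ (algebraMap (D.A₀ K) (D.A₀₁ K) (xB D K ^ j) • z) ∈
      (E.I₀₁ • ⊤ : Submodule (D.A₀₁ K) N.M₀₁) := by
    rw [algebraMap_smul, hm', τ.comm₀, ← E.map₀]
    exact helper1035.map_mem_smul_top N.ρ₀ E.I₀ (h m)
  have hxy : algebraMap (D.A₁ K) (D.A₀₁ K) (yB D K) ^ j *
      algebraMap (D.A₀ K) (D.A₀₁ K) (xB D K ^ j) = 1 := by
    rw [map_pow, ← mul_pow, mul_comm, xB_mul_yB, one_pow]
  have h2 : τ.f₀₁ z = algebraMap (D.A₁ K) (D.A₀₁ K) (yB D K) ^ j •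
      τ.f₀₁ (algebraMap (D.A₀ K) (D.A₀₁ K) (xB D K ^ j) • z) := by
    rw [LinearMap.map_smul, smul_smul, hxy, one_smul]
  rw [h2]
  exact Submodule.smul_mem _ _ h1

omit [IsAlgClosed k] in
/-- If `τ.f₀` has image in `E.I₀ • N.M₀` and `E.I₁ = atInfty E.I₀`, the map on the chart at
infinity has image in `E.I₁ • N.M₁`. -/
theorem f₁_mem (τ : Mor G N) (E : helper1035.DivDatum D K)
    (hE₁ : E.I₁ = helper622.atInfty (D.A₁ K) (D.A₀₁ K) E.I₀) [Module.Finite K (D.A₀ K ⧸ E.I₀)]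
    (h : ∀ m, τ.f₀ m ∈ (E.I₀ • ⊤ : Submodule (D.A₀ K) N.M₀)) (m : G.M₁) :
    τ.f₁ m ∈ (E.I₁ • ⊤ : Submodule (D.A₁ K) N.M₁) := by
  obtain ⟨u, hu, hu1⟩ := helper622.exists_mem_atInfty_sub_one_mem (B := K) (xB D K) (yB D K)
    (xB_mul_yB D K) E.I₀
  rw [hE₁, helper622.mem_atInfty_smul_top_iff (yB D K) E.I₀ N.ρ₁ u hu hu1, ← τ.comm₁, E.map₀]
  exact f₀₁_mem τ E h _

/-- The factorisation of a morphism `τ : G → N` with image in the sub-datum `N(−E)`. -/
noncomputable def factor (τ : Mor G N) (E : helper1035.DivDatum D K)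
    (h₀ : ∀ m, τ.f₀ m ∈ (E.I₀ • ⊤ : Submodule (D.A₀ K) N.M₀))
    (h₁ : ∀ m, τ.f₁ m ∈ (E.I₁ • ⊤ : Submodule (D.A₁ K) N.M₁))
    (h₀₁ : ∀ m, τ.f₀₁ m ∈ (E.I₀₁ • ⊤ : Submodule (D.A₀₁ K) N.M₀₁)) :
    Mor G (helper1035.twist N E) where
  f₀ := τ.f₀.codRestrict _ h₀
  f₁ := τ.f₁.codRestrict _ h₁
  f₀₁ := τ.f₀₁.codRestrict _ h₀₁
  comm₀ m := Subtype.ext (τ.comm₀ m)
  comm₁ m := Subtype.ext (τ.comm₁ m)

/-- **Peeling step, factorisation.** A nonzero morphism `τ : G → N`, surjective modulo `y`, whose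
first-chart image lies in `E.I₀ • N.M₀` factors through the twist `N(−E)`; the factorisation is
again nonzero and surjective modulo `y`, and the first-chart cokernel drops by
`dim N.M₀ ⧸ E.I₀ • N.M₀`. -/
theorem exists_factor (τ : Mor G N) (h0 : τ.f₀ ≠ 0) (hy : τ.SurjModY)
    (E : helper1035.DivDatum D K)
    (hE₁ : E.I₁ = helper622.atInfty (D.A₁ K) (D.A₀₁ K) E.I₀) [Module.Finite K (D.A₀ K ⧸ E.I₀)]
    (h : ∀ m, τ.f₀ m ∈ (E.I₀ • ⊤ : Submodule (D.A₀ K) N.M₀)) :
    ∃ τ' : Mor G (helper1035.twist N E),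
      (∀ m, helper1035.incl₀ N E (τ'.f₀ m) = τ.f₀ m) ∧
      (∀ m, helper1035.incl₁ N E (τ'.f₁ m) = τ.f₁ m) ∧
      τ'.f₀ ≠ 0 ∧ τ'.SurjModY ∧
      finrank K (N.M₀ ⧸ LinearMap.range τ.f₀) =
        finrank K ((helper1035.twist N E).M₀ ⧸ LinearMap.range τ'.f₀) +
          finrank K (N.M₀ ⧸ (E.I₀ • ⊤ : Submodule (D.A₀ K) N.M₀)) := by
  have h₁ := f₁_mem τ E hE₁ h
  have h₀₁ := f₀₁_mem τ E h
  set τ' : Mor G (helper1035.twist N E) := factor τ E h h₁ h₀₁ with hτ'
  have c₀ : ∀ m, helper1035.incl₀ N E (τ'.f₀ m) = τ.f₀ m := fun _ => rfl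
  have c₁ : ∀ m, helper1035.incl₁ N E (τ'.f₁ m) = τ.f₁ m := fun _ => rfl
  have h0' : τ'.f₀ ≠ 0 := by
    intro hz
    apply h0
    ext m
    rw [← c₀ m, hz, LinearMap.zero_apply, map_zero, LinearMap.zero_apply]
  refine ⟨τ', c₀, c₁, h0', ?_, ?_⟩
  · intro n
    obtain ⟨u, hu, hu1⟩ := helper622.exists_mem_atInfty_sub_one_mem (B := K) (xB D K) (yB D K)
      (xB_mul_yB D K) E.I₀
    obtain ⟨w, hw⟩ := Ideal.mem_span_singleton'.mp hu1
    obtain ⟨m, n₂, hn⟩ := hy (helper1035.incl₁ N E n)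
    have hu' : u ∈ E.I₁ := hE₁ ▸ hu
    set a : N.M₁ := helper1035.incl₁ N E n with ha
    have hmem : u • n₂ - w • a ∈ (E.I₁ • ⊤ : Submodule (D.A₁ K) N.M₁) :=
      Submodule.sub_mem _ (Submodule.smul_mem_smul hu' Submodule.mem_top)
        (Submodule.smul_mem _ _ (helper1035.incl₁_mem N E n))
    have key : a = u • τ.f₁ m + yB D K • (u • n₂ - w • a) := by
      have e1 : yB D K • (u • n₂ - w • a) = u • (yB D K • n₂) - (w * yB D K) • a := by
        rw [smul_sub, smul_comm (yB D K) u n₂, mul_smul, smul_comm (yB D K) w a]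
      have hua : u • a = u • τ.f₁ m + u • (yB D K • n₂) := by rw [← smul_add, ← hn]
      rw [e1, hw, sub_smul, one_smul, hua]
      abel
    refine ⟨u • m, helper1035.mk₁ N E _ hmem, ?_⟩
    apply helper1035.incl₁_injective N E
    simp only [LinearMap.map_add, LinearMap.map_smul, helper1035.incl₁_mk₁, c₁]
    exact key
  · obtain ⟨i0, -, -, -⟩ := mor_injective τ h0
    have hd : Function.Injective τ'.f₀ := fun a b hab => i0 (by rw [← c₀ a, ← c₀ b, hab])
    have hcomp : helper1035.incl₀ N E ∘ₗ τ'.f₀ = τ.f₀ := LinearMap.ext c₀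
    have : Module.Finite K ((helper1035.twist N E).M₀ ⧸ LinearMap.range τ'.f₀) :=
      (mor_finite_coker τ' h0').1
    have hfin := helper8663.finrank_quotient_smul_top K N.M₀ E.I₀
    have : Module.Finite K (N.M₀ ⧸ LinearMap.range (helper1035.incl₀ N E)) := by
      rw [helper1035.range_incl₀]
      exact hfin.1
    have hcount := finrank_coker_comp (K := K) τ'.f₀ (helper1035.incl₀ N E) hd
      (helper1035.incl₀_injective N E)
    rw [hcomp, helper1035.range_incl₀] at hcount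
    exact hcount

end Factor

/-! ### The point and the peeling -/

section Point

variable {k : Type u} [Field k] [IsAlgClosed k] {D : CurveDatum k} {K : Type u} [Field K]
  [Algebra k K] [IsAlgClosed K]

/-- **Peeling step, the point.** If `τ.f₀` is not onto, its image lies in `𝔪_p • N.M₀` for a
`K`-point `p` of the first chart. -/
theorem exists_point {G N : GlueDatum D K} (τ : Mor G N) (h0 : τ.f₀ ≠ 0)
    (hns : ¬ Function.Surjective τ.f₀) :
    ∃ p : D.R₀ →ₐ[k] K,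
      ∀ m, τ.f₀ m ∈ (helper6871.pointIdeal₀ D p • ⊤ : Submodule (D.A₀ K) N.M₀) := by
  have := (mor_finite_coker τ h0).1
  obtain ⟨𝔪, h𝔪, hle, hfin⟩ := exists_maximal_smul_top_ge (K := K) (LinearMap.range τ.f₀)
    (by rwa [Ne, LinearMap.range_eq_top])
  obtain ⟨χ, hχ, -⟩ := helper8663.exists_algHom_ker_eq K 𝔪
  refine ⟨helper8663.point₀ D χ, fun m => ?_⟩
  rw [← helper8663.ker_eq_pointIdeal₀ D χ, hχ]
  exact hle ⟨m, rfl⟩

/-- **Peeling** (S-PEEL), for any family `E p` of divisor data of the points of the first chart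
(`(E p).I₀ = 𝔪_p`, `(E p).I₁ = atInfty 𝔪_p`): a nonzero morphism `τ : G → N`, surjective modulo
`y`, exhibits `G` as `N(−p₁)⋯(−p_d)` with `d = dim_K (N.M₀ ⧸ range τ.f₀)`. -/
theorem peel_of (E : (D.R₀ →ₐ[k] K) → helper1035.DivDatum D K)
    (hE₀ : ∀ p, (E p).I₀ = helper6871.pointIdeal₀ D p)
    (hE₁ : ∀ p, (E p).I₁ = helper622.atInfty (D.A₁ K) (D.A₀₁ K) (E p).I₀)
    {G N : GlueDatum D K} (τ : Mor G N) (h0 : τ.f₀ ≠ 0) (hy : τ.SurjModY) :
    ∃ L : List (D.R₀ →ₐ[k] K), L.length = finrank K (N.M₀ ⧸ LinearMap.range τ.f₀) ∧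
      (L.foldl (fun N p => helper1035.twist N (E p)) N).Equiv G := by
  suffices H : ∀ (d : ℕ) (N : GlueDatum D K) (τ : Mor G N), τ.f₀ ≠ 0 → τ.SurjModY →
      finrank K (N.M₀ ⧸ LinearMap.range τ.f₀) = d →
      ∃ L : List (D.R₀ →ₐ[k] K), L.length = d ∧
        (L.foldl (fun N p => helper1035.twist N (E p)) N).Equiv G from
    H _ N τ h0 hy rfl
  intro d
  induction d with
  | zero =>
    intro N τ h0 hy hd
    have := (mor_finite_coker τ h0).1
    have hs : Function.Surjective τ.f₀ := by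
      rw [← LinearMap.range_eq_top]
      have : Subsingleton (N.M₀ ⧸ LinearMap.range τ.f₀) := Module.finrank_zero_iff.mp hd
      exact Submodule.Quotient.subsingleton_iff.mp this
    exact ⟨[], rfl, (equiv_of_mor_surj τ h0 hy hs).symm⟩
  | succ d ih =>
    intro N τ h0 hy hd
    have := (mor_finite_coker τ h0).1
    have hns : ¬ Function.Surjective τ.f₀ := by
      intro hs
      have htop : LinearMap.range τ.f₀ = ⊤ := LinearMap.range_eq_top.mpr hs
      have : Subsingleton (N.M₀ ⧸ LinearMap.range τ.f₀) :=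
        Submodule.Quotient.subsingleton_iff.mpr htop
      have h0' : finrank K (N.M₀ ⧸ LinearMap.range τ.f₀) = 0 := Module.finrank_zero_of_subsingleton
      omega
    obtain ⟨p, hp⟩ := exists_point τ h0 hns
    have : Module.Finite K (D.A₀ K ⧸ (E p).I₀) := by rw [hE₀ p]; infer_instance
    obtain ⟨τ', -, -, h0', hy', hcount⟩ := exists_factor τ h0 hy (E p) (hE₁ p)
      (fun m => by rw [hE₀ p]; exact hp m)
    have h1 : finrank K (N.M₀ ⧸ ((E p).I₀ • ⊤ : Submodule (D.A₀ K) N.M₀)) = 1 := by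
      rw [(helper8663.finrank_quotient_smul_top K N.M₀ (E p).I₀).2, hE₀ p,
        (helper6871.quotEquiv₀ D p).toLinearEquiv.finrank_eq, Module.finrank_self]
    obtain ⟨L, hL, hequiv⟩ := ih (helper1035.twist N (E p)) τ' h0' hy' (by omega)
    exact ⟨p :: L, by rw [List.length_cons, hL], by rw [List.foldl_cons]; exact hequiv⟩

end Point

end Peel

end Fermat.Agent.S25.helper3115
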