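import Fermat.Agent.S25.helper3173_ChartOfAsm
import Fermat.Agent.S25.helper239_ChiApi
import Fermat.Agent.S25.helper4927_TwistChi
import Fermat.Agent.S25.helper622_DivisorOps

/-!
# S25, root `Stmt_ChartOfAC`, clause DEG: the universal chart bundles have degree zero (helper7196)

`helper3173.Stmt_UnivDeg`: for a base bundle `N` over `k` of degree `g = genus D`, every
universal chart bundle `P N s f = N_W(−D_univ)` over `W = C_s[1/f]` has degree zero, i.e. its
fibre at every field-valued point `φ : W → F` has the Euler characteristic of the trivial bundle.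

Proof: the fibre is `N_F(−D_I)` for the chart ideal `I` classified by `φ`
(`helper1035.twist_baseChange`; the ideal at infinity commutes with the base change by
`helper622.map_atInfty_eq_atInfty_map`), the inclusion `N_F(−D_I) → N_F` is an isomorphism along
`V(y)`, so `χ(N_F(−D_I)) = χ(N_F) − dim_F (A₀ F ⧸ I)` (`helper4927.chi_of_mor_ideal`), the
colength of a chart ideal is `g`, and `χ(N_F) = χ(N) = χ(𝒪) + g` (`helper239.chi_field_ext`).

Also exported, for any `helper1035.twist`:
* `twistInclMor G E : helper8573.Mor (helper1035.twist G E) G`, the inclusion `G(−E) → G`;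
* `twistInclMor_surjModY` : it is surjective modulo `y` as soon as `E.I₁` contains an element
  congruent to `1` modulo `y`;
* `chi_twist_of_sub_one_mem` : `χ(G(−E)) = χ(G) − dim_F (A₀ F ⧸ E.I₀)` over a field `F`.
-/

set_option autoImplicit false

open TensorProduct

namespace Fermat.Agent.S25.helper7196

open Fermat.Agent.S25.helper1705 Fermat.Agent.S25.helper2945

universe u

section Incl

variable {k : Type u} [Field k] {D : CurveDatum k} {B : Type u} [CommRing B] [Algebra k B]

/-- The inclusion `G(−E) → G` of a twist (in the sense of `helper1035.twist`) as a morphism of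
two-chart line bundles. -/
noncomputable def twistInclMor (G : GlueDatum D B) (E : helper1035.DivDatum D B) :
    helper8573.Mor (helper1035.twist G E) G where
  f₀ := helper1035.incl₀ G E
  f₁ := helper1035.incl₁ G E
  f₀₁ := helper1035.incl₀₁ G E
  comm₀ m := (helper1035.ρ₀_incl₀ G E m).symm
  comm₁ m := (helper1035.ρ₁_incl₁ G E m).symm

/-- The inclusion `G(−E) → G` is surjective modulo `y` on the chart at infinity as soon as the
ideal at infinity contains an element congruent to `1` modulo `y` (the divisor does not meet
`V(y)`). -/
theorem twistInclMor_surjModY (G : GlueDatum D B) (E : helper1035.DivDatum D B)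
    (v : D.A₁ B) (hv : v ∈ E.I₁) (hv1 : v - 1 ∈ Ideal.span {yB D B}) :
    (twistInclMor G E).SurjModY := by
  intro n
  obtain ⟨w, hw⟩ := Ideal.mem_span_singleton'.mp hv1
  refine ⟨helper1035.mk₁ G E (v • n) (Submodule.smul_mem_smul hv Submodule.mem_top),
    (-w) • n, ?_⟩
  change n = v • n + yB D B • ((-w) • n)
  rw [smul_smul, ← add_smul]
  have h : v + yB D B * -w = 1 := by
    have : w * yB D B = v - 1 := hw
    linear_combination -this
  rw [h, one_smul]

end Incl

section Field

variable {k : Type u} [Field k] [IsAlgClosed k] {D : CurveDatum k}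
  {F : Type u} [Field F] [Algebra k F]

/-- **Euler characteristic of a twist by a divisor of the first chart**, over a field: if the
ideal at infinity contains an element congruent to `1` modulo `y` and `A₀ F ⧸ I₀` is
finite-dimensional, then `χ(G(−E)) = χ(G) − dim_F (A₀ F ⧸ I₀)`. -/
theorem chi_twist_of_sub_one_mem (G : GlueDatum D F) (E : helper1035.DivDatum D F)
    (I : Ideal (D.A₀ F)) (hI : E.I₀ = I) [Module.Finite F (D.A₀ F ⧸ I)]
    (v : D.A₁ F) (hv : v ∈ E.I₁) (hv1 : v - 1 ∈ Ideal.span {yB D F}) :
    (helper1035.twist G E).chi = G.chi - (Module.finrank F (D.A₀ F ⧸ I) : ℤ) := by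
  have h0 : FiniteDimensional F G.H0 := helper239.finite_H0_field G
  have h1 : FiniteDimensional F G.H1 := helper239.finite_H1_field G
  have hr : LinearMap.range (twistInclMor G E).f₀ = I • ⊤ := by
    rw [← hI]
    exact helper1035.range_incl₀ G E
  exact (helper4927.chi_of_mor_ideal (twistInclMor G E) (helper1035.incl₀_injective G E)
    (helper1035.incl₁_injective G E) (twistInclMor_surjModY G E v hv hv1) I hr).2.2

end Field

/-- **DEG.** The universal chart bundles have degree zero. -/
theorem stmt_UnivDeg : helper3173.Stmt_UnivDeg.{u} := by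
  intro k _ _ D N hN s f F _ _ φ
  -- the chart ideal over `W` and its extension to `F`
  have hI : helper1002.IsChartIdeal s (helper3173.chartIdeal s f) :=
    helper3173.isChartIdeal_chartIdeal s f
  have hfin : Module.Finite (helper3173.W D s f)
      (D.A₀ (helper3173.W D s f) ⧸ helper3173.chartIdeal s f) := hI.finite
  have hproj : Module.Projective (helper3173.W D s f)
      (D.A₀ (helper3173.W D s f) ⧸ helper3173.chartIdeal s f) := hI.projective
  have hI' : helper1002.IsChartIdeal s ((helper3173.chartIdeal s f).map (D.map₀ φ)) := hI.map φ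
  have hfin' : Module.Finite F (D.A₀ F ⧸ (helper3173.chartIdeal s f).map (D.map₀ φ)) :=
    hI'.finite
  have hproj' : Module.Projective F (D.A₀ F ⧸ (helper3173.chartIdeal s f).map (D.map₀ φ)) :=
    hI'.projective
  -- the ideal at infinity commutes with the base change
  have hloc : IsLocalization.Away ((D.map₁ φ).toRingHom (yB D (helper3173.W D s f)))
      (D.A₀₁ F) := by
    have h : (D.map₁ φ).toRingHom (yB D (helper3173.W D s f)) = yB D F := map₁_yB D φ
    rw [h]
    infer_instance
  obtain ⟨v, hv, hv1⟩ := helper622.exists_mem_atInfty_sub_one_mem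
    (B := helper3173.W D s f) (xB D (helper3173.W D s f)) (yB D (helper3173.W D s f))
    (xB_mul_yB D (helper3173.W D s f)) (helper3173.chartIdeal s f)
  have h₁ : (helper622.atInfty (D.A₁ (helper3173.W D s f)) (D.A₀₁ (helper3173.W D s f))
      (helper3173.chartIdeal s f)).map (D.map₁ φ) =
      helper622.atInfty (D.A₁ F) (D.A₀₁ F) ((helper3173.chartIdeal s f).map (D.map₀ φ)) :=
    helper622.map_atInfty_eq_atInfty_map (yB D (helper3173.W D s f)) (D.map₀ φ).toRingHom
      (D.map₁ φ).toRingHom (D.map₀₁ φ).toRingHom
      (RingHom.ext fun a => (res₀_map₀ D φ a).symm)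
      (RingHom.ext fun a => (res₁_map₁ D φ a).symm)
      (helper3173.chartIdeal s f) v hv hv1
  -- the fibre is the twist of `N_F` by the extended chart ideal
  have e1 : ((helper3173.P N s f).baseChange φ).Equiv
      (helper1035.twist ((helper8573.baseOver N (helper3173.W D s f)).baseChange φ)
        (helper3173.divOf ((helper3173.chartIdeal s f).map (D.map₀ φ)))) :=
    helper1035.twist_baseChange (helper8573.baseOver N (helper3173.W D s f))
      (helper3173.divOf (helper3173.chartIdeal s f)) φ
      (helper3173.divOf ((helper3173.chartIdeal s f).map (D.map₀ φ))) rfl h₁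
  have hcomp : φ.comp (Algebra.ofId k (helper3173.W D s f)) = Algebra.ofId k F :=
    Subsingleton.elim _ _
  have e2 : ((helper8573.baseOver N (helper3173.W D s f)).baseChange φ).Equiv
      (helper8573.baseOver N F) := by
    have h := helper743.baseChange_comp N (Algebra.ofId k (helper3173.W D s f)) φ
    rwa [hcomp] at h
  have e3 := helper1035.equiv_twist e2
    (helper3173.divOf ((helper3173.chartIdeal s f).map (D.map₀ φ)))
  -- the Euler characteristic of the twist
  obtain ⟨v', hv', hv1'⟩ := helper622.exists_mem_atInfty_sub_one_mem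
    (B := F) (xB D F) (yB D F) (xB_mul_yB D F) ((helper3173.chartIdeal s f).map (D.map₀ φ))
  have hchi := chi_twist_of_sub_one_mem (helper8573.baseOver N F)
    (helper3173.divOf ((helper3173.chartIdeal s f).map (D.map₀ φ)))
    ((helper3173.chartIdeal s f).map (D.map₀ φ)) rfl v' hv' hv1'
  have hrk : Module.finrank F (D.A₀ F ⧸ (helper3173.chartIdeal s f).map (D.map₀ φ)) =
      helper8573.genus D := by
    rw [hI'.finrank_eq, Fintype.card_fin]
  rw [helper743.equiv_chi_eq e1, helper743.equiv_chi_eq e3, hchi, hrk,
    helper239.chi_field_ext N (Algebra.ofId k F), hN, helper239.chi_unit D F]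
  ring

end Fermat.Agent.S25.helper7196
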