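import Fermat.Agent.S25.helper7736_Assembly
import Fermat.Agent.S25.helper3151_GlueObjWrap
import Fermat.Agent.S25.helper505_ChiRoot
import Fermat.Agent.S25.helper985_LGAlg2
import Fermat.Agent.S25.helper8573_LCAssembly
import Fermat.Agent.S25.helper7939_StmtDict
import Fermat.Agent.S25.helper845_ExistsModel
import Fermat.Agent.S25.helper263_StmtBaseChange
import Fermat.Agent.S25.helper886_PointDecomp
import Fermat.Agent.S25.helper2734_Peel
import Fermat.Agent.S25.helper83_CoverAsm
import Fermat.Agent.S25.helper263_StmtExistsSheaf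
import Fermat.Agent.S25.helper3173_ChartOfAsm
import Fermat.Agent.S25.helper7196_UnivDeg

/-!
# S25: the frontier after the closure of `Stmt_GlueObj` (helper3151)

`stmt_S25_of_open5` : S25 from the FIVE statements that are still open on main
(stable signature; a new name is added when a further root closes):

* `helper7939.Stmt_ExistsSheaf R` for every realization (leaf U14, last field of the dictionary),
* `helper985.Stmt_AlgBoundedFT`,
* `helper985.Stmt_AlgValExistAC`,
* `helper8573.Stmt_ChartOf`,
* `helper8573.Stmt_Cover`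

(`stmt_S25_of_open5AC`: the same with `Stmt_ChartOfAC`, `Stmt_CoverAC`).

Discharged here by theorems on main: `Stmt_GlueObj` (`helper3151.stmt_GlueObj`), the dictionary
fields `ExistsModel` (`helper845`), `BaseChange` (`helper263`), `IsoIff`, `RigIff`, `Unit`
(through `helper7939.stmt_Dict_of_three`), `Stmt_FAEZ` (`helper505.stmt_FAEZ_of_boundedFT`),
`Stmt_AlgBounded` (`helper985.stmt_AlgBounded_of_FT`), `Stmt_AlgCharts`
(`helper8573.stmt_AlgCharts_of'`), `Stmt_Chart` (`helper2911`), `Stmt_AlgLiftSqZero`
(`helper7727`), `Stmt_AlgValUniq` (`helper6550`); composed through the stable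
`helper7736.stmt_S25_of_roots`.
-/

set_option autoImplicit false

universe u

open CategoryTheory CategoryTheory.Limits AlgebraicGeometry AlgebraicGeometry.RelPicard
  NeronModelInfra

namespace Fermat.Agent.S25.helper3151

open Fermat.Agent.S25 Fermat.Agent.S25.helper1705 Fermat.Agent.S25.helper2911
  Fermat.Agent.S25.helper2945

/-- **S25 from the five statements still open on main.** -/
theorem stmt_S25_of_open5
    (hSheaf : ∀ (k : Type u) [Field k] {C : Scheme.{u}} (c : C ⟶ Spec (CommRingCat.of k))
      (ε : SchemeHomOver (𝟙 (Spec (CommRingCat.of k))) c) (D : CurveDatum k)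
      (R : Realization c ε D), helper7939.Stmt_ExistsSheaf R)
    (hBoundedFT : helper985.Stmt_AlgBoundedFT.{u})
    (hValExist : helper985.Stmt_AlgValExistAC.{u})
    (hChartOf : helper8573.Stmt_ChartOf.{u}) (hCover : helper8573.Stmt_Cover.{u}) :
    helper1705.Stmt_S25.{u} :=
  helper7736.stmt_S25_of_roots stmt_GlueObj helper2911.stmt_Chart
    (helper7939.stmt_Dict_of_three (fun _ _ _ _ _ _ R => helper845.stmt_ExistsModel R) hSheaf
      (fun _ _ _ _ _ _ R => helper263.stmt_BaseChange R))
    (helper505.stmt_FAEZ_of_boundedFT hBoundedFT)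
    (helper8573.stmt_AlgCharts_of' hChartOf hCover)
    helper7727.stmt_AlgLiftSqZero helper6550.stmt_AlgValUniq
    (helper985.stmt_AlgBounded_of_FT hBoundedFT) hValExist

/-- **S25 from the five statements still open on main**, with the chart statements in their
weakest (algebraically closed test field) form `Stmt_ChartOfAC`, `Stmt_CoverAC`. -/
theorem stmt_S25_of_open5AC
    (hSheaf : ∀ (k : Type u) [Field k] {C : Scheme.{u}} (c : C ⟶ Spec (CommRingCat.of k))
      (ε : SchemeHomOver (𝟙 (Spec (CommRingCat.of k))) c) (D : CurveDatum k)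
      (R : Realization c ε D), helper7939.Stmt_ExistsSheaf R)
    (hBoundedFT : helper985.Stmt_AlgBoundedFT.{u})
    (hValExist : helper985.Stmt_AlgValExistAC.{u})
    (hChartOfAC : helper8573.Stmt_ChartOfAC.{u}) (hCoverAC : helper8573.Stmt_CoverAC.{u}) :
    helper1705.Stmt_S25.{u} :=
  helper7736.stmt_S25_of_roots stmt_GlueObj helper2911.stmt_Chart
    (helper7939.stmt_Dict_of_three (fun _ _ _ _ _ _ R => helper845.stmt_ExistsModel R) hSheaf
      (fun _ _ _ _ _ _ R => helper263.stmt_BaseChange R))
    (helper505.stmt_FAEZ_of_boundedFT hBoundedFT)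
    (helper8573.stmt_AlgCharts_of hChartOfAC hCoverAC)
    helper7727.stmt_AlgLiftSqZero helper6550.stmt_AlgValUniq
    (helper985.stmt_AlgBounded_of_FT hBoundedFT) hValExist

/-- The peeling statement `helper886.Stmt_Peel` (closed on main by `helper2734.peel`). -/
theorem stmt_Peel : helper886.Stmt_Peel.{u} :=
  fun _ _ _ _ _ _ _ _ G N τ h0 hy => helper2734.peel G N τ h0 hy

/-- **S25 from the TWO statements still open on main** (03:10Z): the sheaf half of the dictionary
(`helper7939.Stmt_ExistsSheaf`, leaf U14) and the chart theorem `helper8573.Stmt_ChartOfAC`.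
Closed since `stmt_S25_of_open5`: the three roots `Stmt_AlgBoundedFT`, `Stmt_AlgValExistAC`,
`Stmt_FAEZ` (`helper886.stmt_*_of_peel` + `helper2734.peel`) and `Stmt_CoverAC`
(`helper83.stmt_CoverAC`). -/
theorem stmt_S25_of_open2
    (hSheaf : ∀ (k : Type u) [Field k] {C : Scheme.{u}} (c : C ⟶ Spec (CommRingCat.of k))
      (ε : SchemeHomOver (𝟙 (Spec (CommRingCat.of k))) c) (D : CurveDatum k)
      (R : Realization c ε D), helper7939.Stmt_ExistsSheaf R)
    (hChartOfAC : helper8573.Stmt_ChartOfAC.{u}) :
    helper1705.Stmt_S25.{u} :=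
  stmt_S25_of_open5AC hSheaf (helper886.stmt_AlgBoundedFT_of_peel stmt_Peel)
    (helper886.stmt_AlgValExistAC_of_peel stmt_Peel) hChartOfAC helper83.stmt_CoverAC

/-- **S25 from the ONE statement still open on main** (03:15Z): the chart theorem
`helper8573.Stmt_ChartOfAC`. Closed since `stmt_S25_of_open2`: the sheaf half of the dictionary
(`helper263.stmt_ExistsSheaf`). -/
theorem stmt_S25_of_open1 (hChartOfAC : helper8573.Stmt_ChartOfAC.{u}) :
    helper1705.Stmt_S25.{u} :=
  stmt_S25_of_open2 (fun _ _ _ _ _ _ R => helper263.stmt_ExistsSheaf R) hChartOfAC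

/-- **S25 from the three clauses of the chart family still open on main** (03:15Z):
`helper3173.Stmt_UnivMono`, `Stmt_UnivOpen`, `Stmt_UnivImage` (the clauses `Stmt_UnivRig`,
`Stmt_UnivDeg` are theorems: `helper3173.stmt_UnivRig`, `helper7196.stmt_UnivDeg`). -/
theorem stmt_S25_of_clauses3 (hMono : helper3173.Stmt_UnivMono.{u})
    (hOpen : helper3173.Stmt_UnivOpen.{u}) (hImage : helper3173.Stmt_UnivImage.{u}) :
    helper1705.Stmt_S25.{u} :=
  stmt_S25_of_open1
    (helper3173.stmt_ChartOfAC_of helper3173.stmt_UnivRig helper7196.stmt_UnivDeg hMono hOpen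
      hImage)

end Fermat.Agent.S25.helper3151
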