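import Mathlib

/-!
# Hom is a sheaf for sheaves of modules on a scheme (S25 generic brick P4)

For a scheme `X`, sheaves of modules `M N : X.Modules` and a family `U : ι → X.Opens` with
`⨆ i, U i = ⊤`, call an open `W` *small* if `W ≤ U i` for some `i`.

* `LocalHom M N U`: additive, `Γ(X, W)`-linear maps `Γ(M, W) → Γ(N, W)` for all small `W`,
  compatible with restriction.
* `glueHom`, `existsUnique_hom_of_cover` (H1): such a family is induced by a unique `f : M ⟶ N`.
* `hom_ext_of_cover` (H2): morphisms agreeing on small opens are equal.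
* `glueIso`, `isIso_of_cover` (H3): bijective on small opens implies isomorphism.
-/

set_option autoImplicit false

universe u

open CategoryTheory TopologicalSpace Opposite AlgebraicGeometry

namespace Fermat.Agent.S25.helper4193

variable {X : Scheme.{u}}

/-- Restriction of sections of a sheaf of modules, as an additive map. -/
noncomputable def res (M : X.Modules) {V W : X.Opens} (h : W ≤ V) : Γ(M, V) →+ Γ(M, W) :=
  (M.presheaf.map (homOfLE h).op).hom

lemma res_apply (M : X.Modules) {V W : X.Opens} (h : W ≤ V) (s : Γ(M, V)) :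
    res M h s = M.presheaf.map (homOfLE h).op s := rfl

@[simp] lemma res_res (M : X.Modules) {V W W' : X.Opens} (h : W ≤ V) (h' : W' ≤ W)
    (s : Γ(M, V)) : res M h' (res M h s) = res M (h'.trans h) s := by
  simp only [res_apply]
  rw [← ConcreteCategory.comp_apply, ← M.presheaf.map_comp]
  rfl

@[simp] lemma res_self (M : X.Modules) {V : X.Opens} (h : V ≤ V) (s : Γ(M, V)) :
    res M h s = s := by
  simp only [res_apply]
  have : (homOfLE h).op = 𝟙 (op V) := rfl
  rw [this, M.presheaf.map_id]
  rfl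

lemma res_smul (M : X.Modules) {V W : X.Opens} (h : W ≤ V) (r : Γ(X, V)) (s : Γ(M, V)) :
    res M h (r • s) = X.presheaf.map (homOfLE h).op r • res M h s :=
  Scheme.Modules.map_smul M (homOfLE h) r s

section SheafProperty

variable (M : X.Modules) {ι : Type*} (U : ι → X.Opens)

/-- The underlying sheaf of abelian groups of a sheaf of modules. -/
noncomputable def abSheaf : TopCat.Sheaf Ab X := ⟨M.presheaf, M.isSheaf⟩

lemma le_iSup_inf (hU : ⨆ i, U i = ⊤) (V : X.Opens) : V ≤ ⨆ i, V ⊓ U i := by
  rw [← inf_iSup_eq, hU, inf_top_eq]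

/-- Sections are determined by their restrictions to `V ⊓ U i`. -/
lemma eq_of_res_eq (hU : ⨆ i, U i = ⊤) {V : X.Opens} (s t : Γ(M, V))
    (h : ∀ i, res M (inf_le_left : V ⊓ U i ≤ V) s = res M inf_le_left t) : s = t :=
  TopCat.Sheaf.eq_of_locally_eq' (abSheaf M) (fun i => V ⊓ U i) V
    (fun _ => homOfLE inf_le_left) (le_iSup_inf U hU V) s t h

/-- Compatible families of sections on `V ⊓ U i` glue uniquely. -/
lemma existsUnique_glue (hU : ⨆ i, U i = ⊤) {V : X.Opens} (sf : ∀ i, Γ(M, V ⊓ U i))
    (compat : ∀ i j, res M (inf_le_left : (V ⊓ U i) ⊓ (V ⊓ U j) ≤ V ⊓ U i) (sf i) =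
      res M inf_le_right (sf j)) :
    ∃! s : Γ(M, V), ∀ i, res M (inf_le_left : V ⊓ U i ≤ V) s = sf i :=
  TopCat.Sheaf.existsUnique_gluing' (abSheaf M) (fun i => V ⊓ U i) V
    (fun _ => homOfLE inf_le_left) (le_iSup_inf U hU V) sf compat

end SheafProperty

section LocalHom

variable {ι : Type*}

/-- An open is *small* for the family `U` if it is contained in some member of the family. -/
def Small (U : ι → X.Opens) (W : X.Opens) : Prop := ∃ i, W ≤ U i

lemma Small.mono {U : ι → X.Opens} {W W' : X.Opens} (hW : Small U W) (h : W' ≤ W) :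
    Small U W' := by
  obtain ⟨i, hi⟩ := hW
  exact ⟨i, h.trans hi⟩

lemma small_inf_right (U : ι → X.Opens) (V : X.Opens) (i : ι) : Small U (V ⊓ U i) :=
  ⟨i, inf_le_right⟩

lemma small_self (U : ι → X.Opens) (i : ι) : Small U (U i) := ⟨i, le_rfl⟩

/-- A morphism of sheaves of modules "defined on the small opens of a cover": a family of
additive, `Γ(X, W)`-linear maps `Γ(M, W) → Γ(N, W)` for all small opens `W`, compatible with
restriction. -/
structure LocalHom (M N : X.Modules) (U : ι → X.Opens) where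
  /-- the maps on sections over small opens -/
  app : ∀ W : X.Opens, Small U W → (Γ(M, W) →+ Γ(N, W))
  /-- compatibility with restriction -/
  app_res : ∀ (W W' : X.Opens) (hW : Small U W) (hW' : Small U W') (h : W' ≤ W) (s : Γ(M, W)),
    res N h (app W hW s) = app W' hW' (res M h s)
  /-- linearity -/
  app_smul : ∀ (W : X.Opens) (hW : Small U W) (r : Γ(X, W)) (s : Γ(M, W)),
    app W hW (r • s) = r • app W hW s

variable {M N : X.Modules} {U : ι → X.Opens} (ψ : LocalHom M N U)

/-- `t` is a lift of `s` along `ψ` if it restricts to `ψ (s|_W)` on every small `W ≤ V`. -/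
def IsLift (V : X.Opens) (s : Γ(M, V)) (t : Γ(N, V)) : Prop :=
  ∀ (W : X.Opens) (hW : Small U W) (h : W ≤ V), res N h t = ψ.app W hW (res M h s)

lemma isLift_iff (hU : ⨆ i, U i = ⊤) (V : X.Opens) (s : Γ(M, V)) (t : Γ(N, V)) :
    IsLift ψ V s t ↔ ∀ i, res N (inf_le_left : V ⊓ U i ≤ V) t =
      ψ.app (V ⊓ U i) (small_inf_right U V i) (res M inf_le_left s) := by
  refine ⟨fun h i => h _ _ _, fun h W hW hWV => ?_⟩
  refine eq_of_res_eq N U hU _ _ fun i => ?_
  have h1 : (W ⊓ U i : X.Opens) ≤ V ⊓ U i := inf_le_inf_right _ hWV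
  rw [res_res, ψ.app_res W (W ⊓ U i) hW (small_inf_right U W i) inf_le_left, res_res]
  have h2 := congrArg (res N h1) (h i)
  rw [res_res, ψ.app_res (V ⊓ U i) (W ⊓ U i) _ (small_inf_right U W i) h1, res_res] at h2
  exact h2

lemma existsUnique_isLift (hU : ⨆ i, U i = ⊤) (V : X.Opens) (s : Γ(M, V)) :
    ∃! t : Γ(N, V), IsLift ψ V s t := by
  obtain ⟨t, ht, htu⟩ := existsUnique_glue N U hU (V := V)
    (fun i => ψ.app (V ⊓ U i) (small_inf_right U V i) (res M inf_le_left s)) (by
      intro i j
      rw [ψ.app_res _ _ _ ((small_inf_right U V i).mono inf_le_left) inf_le_left,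
        ψ.app_res _ _ _ ((small_inf_right U V i).mono inf_le_left) inf_le_right,
        res_res, res_res])
  exact ⟨t, (isLift_iff ψ hU V s t).2 ht, fun t' ht' => htu t' ((isLift_iff ψ hU V s t').1 ht')⟩

lemma IsLift.unique (hU : ⨆ i, U i = ⊤) {V : X.Opens} {s : Γ(M, V)} {t t' : Γ(N, V)}
    (h : IsLift ψ V s t) (h' : IsLift ψ V s t') : t = t' :=
  (existsUnique_isLift ψ hU V s).unique h h'

lemma IsLift.add {V : X.Opens} {s s' : Γ(M, V)} {t t' : Γ(N, V)}
    (h : IsLift ψ V s t) (h' : IsLift ψ V s' t') : IsLift ψ V (s + s') (t + t') := by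
  intro W hW hWV
  rw [map_add, map_add, map_add, h W hW hWV, h' W hW hWV]

lemma IsLift.res {V V' : X.Opens} {s : Γ(M, V)} {t : Γ(N, V)}
    (h : IsLift ψ V s t) (hV : V' ≤ V) : IsLift ψ V' (res M hV s) (res N hV t) := by
  intro W hW hWV
  rw [res_res, res_res, h W hW (hWV.trans hV)]

lemma IsLift.smul {V : X.Opens} {s : Γ(M, V)} {t : Γ(N, V)}
    (h : IsLift ψ V s t) (r : Γ(X, V)) : IsLift ψ V (r • s) (r • t) := by
  intro W hW hWV
  rw [res_smul, res_smul, ψ.app_smul, h W hW hWV]

lemma isLift_app (W : X.Opens) (hW : Small U W) (s : Γ(M, W)) :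
    IsLift ψ W s (ψ.app W hW s) := by
  intro W' hW' h
  exact ψ.app_res W W' hW hW' h s

end LocalHom

section Glue

variable {ι : Type*} {M N : X.Modules} {U : ι → X.Opens} (ψ : LocalHom M N U)
  (hU : ⨆ i, U i = ⊤)

/-- The glued map on sections over an arbitrary open. -/
noncomputable def liftFun (V : X.Opens) (s : Γ(M, V)) : Γ(N, V) :=
  (existsUnique_isLift ψ hU V s).choose

lemma isLift_liftFun (V : X.Opens) (s : Γ(M, V)) : IsLift ψ V s (liftFun ψ hU V s) :=
  (existsUnique_isLift ψ hU V s).choose_spec.1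

lemma liftFun_eq {V : X.Opens} {s : Γ(M, V)} {t : Γ(N, V)} (h : IsLift ψ V s t) :
    liftFun ψ hU V s = t :=
  (isLift_liftFun ψ hU V s).unique ψ hU h

/-- The glued map on sections, as an additive map. -/
noncomputable def liftHom (V : X.Opens) : Γ(M, V) →+ Γ(N, V) :=
  AddMonoidHom.mk' (liftFun ψ hU V) fun s s' =>
    liftFun_eq ψ hU ((isLift_liftFun ψ hU V s).add ψ (isLift_liftFun ψ hU V s'))

lemma liftHom_apply (V : X.Opens) (s : Γ(M, V)) : liftHom ψ hU V s = liftFun ψ hU V s := rfl

lemma liftHom_res {V V' : X.Opens} (hV : V' ≤ V) (s : Γ(M, V)) :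
    res N hV (liftHom ψ hU V s) = liftHom ψ hU V' (res M hV s) :=
  (liftFun_eq ψ hU ((isLift_liftFun ψ hU V s).res ψ hV)).symm

lemma liftHom_smul (V : X.Opens) (r : Γ(X, V)) (s : Γ(M, V)) :
    liftHom ψ hU V (r • s) = r • liftHom ψ hU V s :=
  liftFun_eq ψ hU ((isLift_liftFun ψ hU V s).smul ψ r)

lemma liftHom_small (W : X.Opens) (hW : Small U W) : liftHom ψ hU W = ψ.app W hW := by
  ext s
  exact liftFun_eq ψ hU (isLift_app ψ W hW s)

/-- The morphism of abelian presheaves underlying the glued morphism. -/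
noncomputable def gluePresheafHom : M.presheaf ⟶ N.presheaf where
  app V := AddCommGrpCat.ofHom (liftHom ψ hU V.unop)
  naturality V V' f := by
    ext s
    exact (liftHom_res ψ hU (leOfHom f.unop) s).symm

/-- **Hom is a sheaf**: a morphism of sheaves of modules defined on the small opens of an open
cover glues to a global morphism. -/
noncomputable def glueHom : M ⟶ N :=
  SheafOfModules.Hom.mk (PresheafOfModules.homMk (gluePresheafHom ψ hU)
    (fun V r s => liftHom_smul ψ hU V.unop r s))

lemma glueHom_app_apply (V : X.Opens) (s : Γ(M, V)) :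
    (glueHom ψ hU).app V s = liftHom ψ hU V s := rfl

lemma glueHom_app (W : X.Opens) (hW : Small U W) :
    (glueHom ψ hU).app W = AddCommGrpCat.ofHom (ψ.app W hW) := by
  ext s
  rw [glueHom_app_apply, liftHom_small ψ hU W hW]
  rfl

end Glue

section Main

variable {ι : Type*} {M N : X.Modules} {U : ι → X.Opens}

/-- Morphisms of sheaves of modules commute with restriction of sections. -/
lemma hom_app_res (f : M ⟶ N) {V W : X.Opens} (h : W ≤ V) (s : Γ(M, V)) :
    res N h (f.app V s) = f.app W (res M h s) :=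
  (ConcreteCategory.congr_hom (f.mapPresheaf.naturality (homOfLE h).op) s).symm

/-- The local morphism (on the small opens of any family) underlying a global morphism. -/
noncomputable def LocalHom.ofHom (f : M ⟶ N) (U : ι → X.Opens) : LocalHom M N U where
  app W _ := (f.app W).hom
  app_res _ _ _ _ h s := hom_app_res f h s
  app_smul _ _ r s := f.app_smul r s

/-- **(H2)** Two morphisms of sheaves of modules which agree on the small opens of an open cover
are equal. -/
theorem hom_ext_of_cover (hU : ⨆ i, U i = ⊤) (f g : M ⟶ N)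
    (h : ∀ W : X.Opens, Small U W → f.app W = g.app W) : f = g := by
  ext V s
  refine eq_of_res_eq N U hU _ _ fun i => ?_
  rw [hom_app_res, hom_app_res, h _ (small_inf_right U V i)]

/-- **(H1)** Hom is a sheaf: a compatible linear family of maps on the small opens of an open
cover is induced by a unique morphism of sheaves of modules. -/
theorem existsUnique_hom_of_cover (hU : ⨆ i, U i = ⊤) (ψ : LocalHom M N U) :
    ∃! f : M ⟶ N, ∀ (W : X.Opens) (hW : Small U W),
      f.app W = AddCommGrpCat.ofHom (ψ.app W hW) :=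
  ⟨glueHom ψ hU, glueHom_app ψ hU, fun g hg =>
    hom_ext_of_cover hU _ _ fun W hW => by rw [hg W hW, glueHom_app ψ hU W hW]⟩

/-- The inverse of a local morphism all of whose components are bijective. -/
noncomputable def LocalHom.inv (ψ : LocalHom M N U)
    (hψ : ∀ (W : X.Opens) (hW : Small U W), Function.Bijective (ψ.app W hW)) :
    LocalHom N M U where
  app W hW := ((AddEquiv.ofBijective (ψ.app W hW) (hψ W hW)).symm : Γ(N, W) →+ Γ(M, W))
  app_res W W' hW hW' h t := by
    apply (hψ W' hW').1
    rw [← ψ.app_res W W' hW hW' h]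
    change res N h ((AddEquiv.ofBijective (ψ.app W hW) (hψ W hW))
      ((AddEquiv.ofBijective (ψ.app W hW) (hψ W hW)).symm t)) =
      (AddEquiv.ofBijective (ψ.app W' hW') (hψ W' hW'))
        ((AddEquiv.ofBijective (ψ.app W' hW') (hψ W' hW')).symm (res N h t))
    rw [AddEquiv.apply_symm_apply, AddEquiv.apply_symm_apply]
  app_smul W hW r t := by
    apply (hψ W hW).1
    rw [ψ.app_smul]
    change (AddEquiv.ofBijective (ψ.app W hW) (hψ W hW))
      ((AddEquiv.ofBijective (ψ.app W hW) (hψ W hW)).symm (r • t)) =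
      r • (AddEquiv.ofBijective (ψ.app W hW) (hψ W hW))
        ((AddEquiv.ofBijective (ψ.app W hW) (hψ W hW)).symm t)
    rw [AddEquiv.apply_symm_apply, AddEquiv.apply_symm_apply]

lemma LocalHom.inv_app_app (ψ : LocalHom M N U)
    (hψ : ∀ (W : X.Opens) (hW : Small U W), Function.Bijective (ψ.app W hW))
    (W : X.Opens) (hW : Small U W) (s : Γ(M, W)) :
    (ψ.inv hψ).app W hW (ψ.app W hW s) = s :=
  (AddEquiv.ofBijective (ψ.app W hW) (hψ W hW)).symm_apply_apply s

lemma LocalHom.app_inv_app (ψ : LocalHom M N U)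
    (hψ : ∀ (W : X.Opens) (hW : Small U W), Function.Bijective (ψ.app W hW))
    (W : X.Opens) (hW : Small U W) (t : Γ(N, W)) :
    ψ.app W hW ((ψ.inv hψ).app W hW t) = t :=
  (AddEquiv.ofBijective (ψ.app W hW) (hψ W hW)).apply_symm_apply t

/-- **(H3), gluing form**: a compatible linear family of *bijections* on the small opens of an
open cover glues to an isomorphism of sheaves of modules. -/
noncomputable def glueIso (hU : ⨆ i, U i = ⊤) (ψ : LocalHom M N U)
    (hψ : ∀ (W : X.Opens) (hW : Small U W), Function.Bijective (ψ.app W hW)) : M ≅ N where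
  hom := glueHom ψ hU
  inv := glueHom (ψ.inv hψ) hU
  hom_inv_id := by
    refine hom_ext_of_cover hU _ _ fun W hW => ?_
    ext s
    rw [Scheme.Modules.Hom.comp_app, glueHom_app ψ hU W hW, glueHom_app (ψ.inv hψ) hU W hW]
    exact ψ.inv_app_app hψ W hW s
  inv_hom_id := by
    refine hom_ext_of_cover hU _ _ fun W hW => ?_
    ext t
    rw [Scheme.Modules.Hom.comp_app, glueHom_app ψ hU W hW, glueHom_app (ψ.inv hψ) hU W hW]
    exact ψ.app_inv_app hψ W hW t

lemma glueIso_hom_app (hU : ⨆ i, U i = ⊤) (ψ : LocalHom M N U)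
    (hψ : ∀ (W : X.Opens) (hW : Small U W), Function.Bijective (ψ.app W hW))
    (W : X.Opens) (hW : Small U W) :
    (glueIso hU ψ hψ).hom.app W = AddCommGrpCat.ofHom (ψ.app W hW) :=
  glueHom_app ψ hU W hW

/-- **(H3)** A morphism of sheaves of modules which is bijective on sections over the small
opens of an open cover is an isomorphism. -/
theorem isIso_of_cover (hU : ⨆ i, U i = ⊤) (f : M ⟶ N)
    (h : ∀ W : X.Opens, Small U W → Function.Bijective (f.app W)) : IsIso f := by
  have h' : ∀ (W : X.Opens) (hW : Small U W),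
      Function.Bijective ((LocalHom.ofHom f U).app W hW) := fun W hW => h W hW
  have hf : f = (glueIso hU (LocalHom.ofHom f U) h').hom :=
    hom_ext_of_cover hU _ _ fun W hW =>
      (glueIso_hom_app hU (LocalHom.ofHom f U) h' W hW).symm
  rw [hf]
  infer_instance

end Main

section Variants

variable {ι : Type*} {M N : X.Modules} {U : ι → X.Opens}

/-- Constructor for `LocalHom` from morphisms of abelian groups. -/
noncomputable def LocalHom.ofAb
    (φ : ∀ W : X.Opens, Small U W → (Γ(M, W) ⟶ Γ(N, W)))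
    (hres : ∀ (W W' : X.Opens) (hW : Small U W) (hW' : Small U W') (h : W' ≤ W),
      φ W hW ≫ N.presheaf.map (homOfLE h).op = M.presheaf.map (homOfLE h).op ≫ φ W' hW')
    (hsmul : ∀ (W : X.Opens) (hW : Small U W) (r : Γ(X, W)) (s : Γ(M, W)),
      φ W hW (r • s) = r • φ W hW s) : LocalHom M N U where
  app W hW := (φ W hW).hom
  app_res W W' hW hW' h s := ConcreteCategory.congr_hom (hres W W' hW hW' h) s
  app_smul W hW r s := hsmul W hW r s

/-- **(H1), `Ab` form.** -/
theorem existsUnique_hom_of_cover_ab (hU : ⨆ i, U i = ⊤)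
    (φ : ∀ W : X.Opens, Small U W → (Γ(M, W) ⟶ Γ(N, W)))
    (hres : ∀ (W W' : X.Opens) (hW : Small U W) (hW' : Small U W') (h : W' ≤ W),
      φ W hW ≫ N.presheaf.map (homOfLE h).op = M.presheaf.map (homOfLE h).op ≫ φ W' hW')
    (hsmul : ∀ (W : X.Opens) (hW : Small U W) (r : Γ(X, W)) (s : Γ(M, W)),
      φ W hW (r • s) = r • φ W hW s) :
    ∃! f : M ⟶ N, ∀ (W : X.Opens) (hW : Small U W), f.app W = φ W hW :=
  existsUnique_hom_of_cover hU (LocalHom.ofAb φ hres hsmul)

/-- **(H3), `IsIso` form.** -/
theorem isIso_of_cover_of_isIso_app (hU : ⨆ i, U i = ⊤) (f : M ⟶ N)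
    (h : ∀ W : X.Opens, Small U W → IsIso (f.app W)) : IsIso f :=
  isIso_of_cover hU f fun W hW => by
    have := h W hW
    exact ConcreteCategory.bijective_of_isIso (f.app W)

/-- A morphism of sheaves of modules is zero if it vanishes on the small opens of a cover. -/
theorem eq_zero_of_cover (hU : ⨆ i, U i = ⊤) (f : M ⟶ N)
    (h : ∀ W : X.Opens, Small U W → f.app W = 0) : f = 0 :=
  hom_ext_of_cover hU f 0 fun W hW => by rw [h W hW]; rfl

end Variants

end Fermat.Agent.S25.helper4193
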