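import Mathlib
import Fermat.Agent.S25.helper4193_HomGlue

/-!
# S25, leaf L0-GLUEOBJ: sectionwise gluing core

AUTHORSHIP: this file is the work of helper9244 (owner of L0-GLUEOBJ). It is a verbatim copy of
`helper9244_GlueCore.lean` as pushed to the team branch of helper9244 (commit 31363057), with
only the surrounding name space changed, so that the frozen wrapper `helper3151_GlueObjWrap`
has all of its imports on the main branch. Nothing else was modified.

Mathlib-only (plus the Hom-gluing brick of helper4193).  Everything is sectionwise on one scheme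
`X`, so no pseudofunctor coherence is ever needed.
-/

set_option autoImplicit false

universe u

open CategoryTheory TopologicalSpace Opposite AlgebraicGeometry

namespace Fermat.Agent.S25.helper3151

open Fermat.Agent.S25.helper4193 (res res_res res_self res_smul res_apply)

noncomputable section

variable {X : Scheme.{u}}

/-! ## Restriction of functions and the sheaf axioms in a convenient form -/

/-- Restriction of functions, as a ring homomorphism. -/
def resO (X : Scheme.{u}) {V W : X.Opens} (h : W ≤ V) : Γ(X, V) →+* Γ(X, W) :=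
  (X.presheaf.map (homOfLE h).op).hom

lemma resO_apply {V W : X.Opens} (h : W ≤ V) (a : Γ(X, V)) :
    resO X h a = X.presheaf.map (homOfLE h).op a := rfl

@[simp] lemma resO_resO {V W W' : X.Opens} (h : W ≤ V) (h' : W' ≤ W) (a : Γ(X, V)) :
    resO X h' (resO X h a) = resO X (h'.trans h) a := by
  simp only [resO_apply]
  rw [← ConcreteCategory.comp_apply, ← X.presheaf.map_comp]
  rfl

@[simp] lemma resO_self {V : X.Opens} (h : V ≤ V) (a : Γ(X, V)) : resO X h a = a := by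
  simp only [resO_apply]
  have : (homOfLE h).op = 𝟙 (op V) := rfl
  rw [this, X.presheaf.map_id]
  rfl

lemma res_smul' (M : X.Modules) {V W : X.Opens} (h : W ≤ V) (r : Γ(X, V)) (s : Γ(M, V)) :
    res M h (r • s) = resO X h r • res M h s :=
  res_smul M h r s

/-- Sections of a module agreeing on a cover are equal. -/
lemma msec_ext (M : X.Modules) {ι : Type u} (U : ι → X.Opens) (V : X.Opens)
    (hle : ∀ i, U i ≤ V) (hcov : V ≤ ⨆ i, U i) (s t : Γ(M, V))
    (h : ∀ i, res M (hle i) s = res M (hle i) t) : s = t :=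
  TopCat.Sheaf.eq_of_locally_eq' (helper4193.abSheaf M) U V (fun i => homOfLE (hle i)) hcov s t h

/-- Compatible sections of a module on a cover glue. -/
lemma msec_glue (M : X.Modules) {ι : Type u} (U : ι → X.Opens) (V : X.Opens)
    (hle : ∀ i, U i ≤ V) (hcov : V ≤ ⨆ i, U i) (sf : ∀ i, Γ(M, U i))
    (compat : ∀ i j, res M (inf_le_left : U i ⊓ U j ≤ U i) (sf i) =
      res M (inf_le_right : U i ⊓ U j ≤ U j) (sf j)) :
    ∃! s : Γ(M, V), ∀ i, res M (hle i) s = sf i :=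
  TopCat.Sheaf.existsUnique_gluing' (helper4193.abSheaf M) U V (fun i => homOfLE (hle i)) hcov sf
    compat

/-- Functions agreeing on a cover are equal. -/
lemma fsec_ext (X : Scheme.{u}) {ι : Type u} (U : ι → X.Opens) (V : X.Opens)
    (hle : ∀ i, U i ≤ V) (hcov : V ≤ ⨆ i, U i) (s t : Γ(X, V))
    (h : ∀ i, resO X (hle i) s = resO X (hle i) t) : s = t :=
  TopCat.Sheaf.eq_of_locally_eq' X.sheaf U V (fun i => homOfLE (hle i)) hcov s t h

/-- Compatible functions on a cover glue. -/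
lemma fsec_glue (X : Scheme.{u}) {ι : Type u} (U : ι → X.Opens) (V : X.Opens)
    (hle : ∀ i, U i ≤ V) (hcov : V ≤ ⨆ i, U i) (sf : ∀ i, Γ(X, U i))
    (compat : ∀ i j, resO X (inf_le_left : U i ⊓ U j ≤ U i) (sf i) =
      resO X (inf_le_right : U i ⊓ U j ≤ U j) (sf j)) :
    ∃! s : Γ(X, V), ∀ i, resO X (hle i) s = sf i :=
  TopCat.Sheaf.existsUnique_gluing' X.sheaf U V (fun i => homOfLE (hle i)) hcov sf compat

/-! ## Generators -/

/-- `e` generates `M` freely on every open `W' ≤ W`. -/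
def IsGen (M : X.Modules) (W : X.Opens) (e : Γ(M, W)) : Prop :=
  ∀ (W' : X.Opens) (h : W' ≤ W), Function.Bijective (fun a : Γ(X, W') => a • res M h e)

/-- `M` has local generators at every point of `W₀`. -/
def HasGens (M : X.Modules) (W₀ : X.Opens) : Prop :=
  ∀ y ∈ W₀, ∃ (W : X.Opens) (_ : W ≤ W₀) (e : Γ(M, W)), y ∈ W ∧ IsGen M W e

section IsGen

variable {M : X.Modules} {W : X.Opens} {e : Γ(M, W)}

lemma IsGen.restrict (he : IsGen M W e) {W' : X.Opens} (h : W' ≤ W) : IsGen M W' (res M h e) := by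
  intro W'' h'
  have := he W'' (h'.trans h)
  simpa only [res_res] using this

/-- The coefficient of a section with respect to a generator. -/
def IsGen.coeff (he : IsGen M W e) {W' : X.Opens} (h : W' ≤ W) (s : Γ(M, W')) : Γ(X, W') :=
  ((he W' h).2 s).choose

lemma IsGen.coeff_smul (he : IsGen M W e) {W' : X.Opens} (h : W' ≤ W) (s : Γ(M, W')) :
    he.coeff h s • res M h e = s :=
  ((he W' h).2 s).choose_spec

lemma IsGen.smul_inj (he : IsGen M W e) {W' : X.Opens} (h : W' ≤ W) {a b : Γ(X, W')}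
    (hab : a • res M h e = b • res M h e) : a = b :=
  (he W' h).1 hab

lemma HasGens.mono {M : X.Modules} {W₀ W₁ : X.Opens} (hM : HasGens M W₀) (h : W₁ ≤ W₀) :
    HasGens M W₁ := by
  intro y hy
  obtain ⟨W, hW, e, hyW, he⟩ := hM y (h hy)
  exact ⟨W ⊓ W₁, inf_le_right, res M inf_le_left e, ⟨hyW, hy⟩, he.restrict _⟩

end IsGen

/-! ## Morphisms defined on an open -/

/-- A morphism of modules "defined on the open `W₀`": additive, linear maps on sections over
all opens `W ≤ W₀`, compatible with restriction. -/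
structure HomOn (M N : X.Modules) (W₀ : X.Opens) where
  /-- the maps on sections -/
  app : ∀ W : X.Opens, W ≤ W₀ → (Γ(M, W) →+ Γ(N, W))
  app_res : ∀ (W W' : X.Opens) (hW : W ≤ W₀) (h : W' ≤ W) (s : Γ(M, W)),
    res N h (app W hW s) = app W' (h.trans hW) (res M h s)
  app_smul : ∀ (W : X.Opens) (hW : W ≤ W₀) (r : Γ(X, W)) (s : Γ(M, W)),
    app W hW (r • s) = r • app W hW s

namespace HomOn

variable {M N P : X.Modules} {W₀ : X.Opens}

/-- All components are bijective. -/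
def IsIso (g : HomOn M N W₀) : Prop := ∀ (W : X.Opens) (hW : W ≤ W₀), Function.Bijective (g.app W hW)

/-- The identity. -/
def id (M : X.Modules) (W₀ : X.Opens) : HomOn M M W₀ where
  app _ _ := AddMonoidHom.id _
  app_res _ _ _ _ _ := rfl
  app_smul _ _ _ _ := rfl

lemma id_isIso (M : X.Modules) (W₀ : X.Opens) : (id M W₀).IsIso :=
  fun _ _ => Function.bijective_id

/-- Composition. -/
def comp (g : HomOn M N W₀) (g' : HomOn N P W₀) : HomOn M P W₀ where
  app W hW := (g'.app W hW).comp (g.app W hW)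
  app_res W W' hW h s := by
    simp only [AddMonoidHom.comp_apply]
    rw [g'.app_res, g.app_res]
  app_smul W hW r s := by
    simp only [AddMonoidHom.comp_apply]
    rw [g.app_smul, g'.app_smul]

lemma comp_isIso {g : HomOn M N W₀} {g' : HomOn N P W₀} (hg : g.IsIso) (hg' : g'.IsIso) :
    (g.comp g').IsIso :=
  fun W hW => (hg' W hW).comp (hg W hW)

/-- Restriction to a smaller open. -/
def restrict (g : HomOn M N W₀) {W₁ : X.Opens} (h : W₁ ≤ W₀) : HomOn M N W₁ where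
  app W hW := g.app W (hW.trans h)
  app_res W W' hW h' s := g.app_res W W' (hW.trans h) h' s
  app_smul W hW r s := g.app_smul W (hW.trans h) r s

lemma restrict_isIso {g : HomOn M N W₀} (hg : g.IsIso) {W₁ : X.Opens} (h : W₁ ≤ W₀) :
    (g.restrict h).IsIso :=
  fun W hW => hg W (hW.trans h)

/-- Multiplication by a function on `W₀`. -/
def smul (g : HomOn M N W₀) (f : Γ(X, W₀)) : HomOn M N W₀ where
  app W hW := (DistribSMul.toAddMonoidHom Γ(N, W) (resO X hW f)).comp (g.app W hW)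
  app_res W W' hW h s := by
    simp only [AddMonoidHom.comp_apply, DistribSMul.toAddMonoidHom_apply]
    rw [res_smul', resO_resO, g.app_res]
  app_smul W hW r s := by
    simp only [AddMonoidHom.comp_apply, DistribSMul.toAddMonoidHom_apply]
    rw [g.app_smul, smul_comm]

lemma smul_app (g : HomOn M N W₀) (f : Γ(X, W₀)) (W : X.Opens) (hW : W ≤ W₀) (s : Γ(M, W)) :
    (g.smul f).app W hW s = resO X hW f • g.app W hW s := rfl

lemma smul_isIso {g : HomOn M N W₀} (hg : g.IsIso) {f : Γ(X, W₀)} (hf : IsUnit f) :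
    (g.smul f).IsIso := by
  intro W hW
  have hu : IsUnit (resO X hW f) := hf.map _
  constructor
  · intro s t hst
    apply (hg W hW).1
    simp only [smul_app] at hst
    exact (hu.smul_left_cancel).1 hst
  · intro t
    obtain ⟨u, hu⟩ := hu
    obtain ⟨s, hs⟩ := (hg W hW).2 ((↑u⁻¹ : Γ(X, W)) • t)
    refine ⟨s, ?_⟩
    rw [smul_app, hs, ← hu, smul_smul, Units.mul_inv, one_smul]

/-- The inverse of an isomorphism. -/
def inv (g : HomOn M N W₀) (hg : g.IsIso) : HomOn N M W₀ where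
  app W hW := ((AddEquiv.ofBijective (g.app W hW) (hg W hW)).symm : Γ(N, W) →+ Γ(M, W))
  app_res W W' hW h t := by
    apply (hg W' (h.trans hW)).1
    rw [← g.app_res W W' hW h]
    change res N h ((AddEquiv.ofBijective (g.app W hW) (hg W hW))
      ((AddEquiv.ofBijective (g.app W hW) (hg W hW)).symm t)) =
      (AddEquiv.ofBijective (g.app W' (h.trans hW)) (hg W' (h.trans hW)))
        ((AddEquiv.ofBijective (g.app W' (h.trans hW)) (hg W' (h.trans hW))).symm (res N h t))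
    rw [AddEquiv.apply_symm_apply, AddEquiv.apply_symm_apply]
  app_smul W hW r t := by
    apply (hg W hW).1
    rw [g.app_smul]
    change (AddEquiv.ofBijective (g.app W hW) (hg W hW))
      ((AddEquiv.ofBijective (g.app W hW) (hg W hW)).symm (r • t)) =
      r • (AddEquiv.ofBijective (g.app W hW) (hg W hW))
        ((AddEquiv.ofBijective (g.app W hW) (hg W hW)).symm t)
    rw [AddEquiv.apply_symm_apply, AddEquiv.apply_symm_apply]

lemma inv_app_app (g : HomOn M N W₀) (hg : g.IsIso) (W : X.Opens) (hW : W ≤ W₀) (s : Γ(M, W)) :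
    (g.inv hg).app W hW (g.app W hW s) = s :=
  (AddEquiv.ofBijective (g.app W hW) (hg W hW)).symm_apply_apply s

lemma app_inv_app (g : HomOn M N W₀) (hg : g.IsIso) (W : X.Opens) (hW : W ≤ W₀) (t : Γ(N, W)) :
    g.app W hW ((g.inv hg).app W hW t) = t :=
  (AddEquiv.ofBijective (g.app W hW) (hg W hW)).apply_symm_apply t

lemma inv_isIso (g : HomOn M N W₀) (hg : g.IsIso) : (g.inv hg).IsIso :=
  fun W hW => (AddEquiv.ofBijective (g.app W hW) (hg W hW)).symm.bijective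

/-- The restriction of a global morphism. -/
def ofHom (φ : M ⟶ N) (W₀ : X.Opens) : HomOn M N W₀ where
  app W _ := (φ.app W).hom
  app_res _ _ _ h s := helper4193.hom_app_res φ h s
  app_smul _ _ r s := φ.app_smul r s

/-- An isomorphism on `W₀` transports generators. -/
lemma isGen_app {g : HomOn M N W₀} (hg : g.IsIso) {W : X.Opens} (hW : W ≤ W₀) {e : Γ(M, W)}
    (he : IsGen M W e) : IsGen N W (g.app W hW e) := by
  intro W' h
  have h1 : (fun a : Γ(X, W') => a • res N h (g.app W hW e)) =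
      (g.app W' (h.trans hW)) ∘ (fun a : Γ(X, W') => a • res M h e) := by
    funext a
    simp only [Function.comp_apply]
    rw [g.app_smul, g.app_res]
  rw [h1]
  exact (hg W' (h.trans hW)).comp (he W' h)

lemma hasGens_of_isIso {g : HomOn M N W₀} (hg : g.IsIso) (hM : HasGens M W₀) : HasGens N W₀ := by
  intro y hy
  obtain ⟨W, hW, e, hyW, he⟩ := hM y hy
  exact ⟨W, hW, g.app W hW e, hyW, isGen_app hg hW he⟩

end HomOn

/-! ## Endomorphisms of a locally free module of rank one are functions -/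

lemma le_iSup_of_mem {W₀ : X.Opens} (Wy : {y : X // y ∈ W₀} → X.Opens)
    (hy : ∀ y : {y : X // y ∈ W₀}, y.1 ∈ Wy y) : W₀ ≤ ⨆ y, Wy y := by
  intro x hx
  exact Opens.mem_iSup.2 ⟨⟨x, hx⟩, hy ⟨x, hx⟩⟩

/-- On an open where `e` is a generator, a morphism is determined by the image of `e`. -/
lemma HomOn.app_eq_of_gen {K N : X.Modules} {W₀ : X.Opens} (α : HomOn K N W₀) {W : X.Opens}
    (hW : W ≤ W₀) {e : Γ(K, W)} (he : IsGen K W e) {W' : X.Opens} (h : W' ≤ W) (s : Γ(K, W')) :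
    α.app W' (h.trans hW) s = he.coeff h s • res N h (α.app W hW e) := by
  conv_lhs => rw [← he.coeff_smul h s]
  rw [α.app_smul, α.app_res]

/-- An endomorphism (on `W₀`) of a module with local generators is multiplication by a
function. -/
theorem HomOn.exists_eq_smul {K : X.Modules} {W₀ : X.Opens} (hK : HasGens K W₀)
    (α : HomOn K K W₀) :
    ∃ f : Γ(X, W₀), ∀ (W : X.Opens) (hW : W ≤ W₀) (s : Γ(K, W)),
      α.app W hW s = resO X hW f • s := by
  classical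
  choose Wy hWy ey hyW hgen using fun y : {y : X // y ∈ W₀} => hK y.1 y.2
  let fy : ∀ y, Γ(X, Wy y) := fun y => (hgen y).coeff le_rfl (α.app (Wy y) (hWy y) (ey y))
  have hfy : ∀ y, α.app (Wy y) (hWy y) (ey y) = fy y • ey y := fun y => by
    have := (hgen y).coeff_smul le_rfl (α.app (Wy y) (hWy y) (ey y))
    rw [res_self] at this
    exact this.symm
  have hloc : ∀ (y) (W : X.Opens) (h : W ≤ Wy y) (s : Γ(K, W)),
      α.app W (h.trans (hWy y)) s = resO X h (fy y) • s := by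
    intro y W h s
    rw [α.app_eq_of_gen (hWy y) (hgen y) h s, hfy y, res_smul', smul_smul, mul_comm, ← smul_smul,
      (hgen y).coeff_smul h s]
  have hcompat : ∀ y z, resO X (inf_le_left : Wy y ⊓ Wy z ≤ Wy y) (fy y) =
      resO X (inf_le_right : Wy y ⊓ Wy z ≤ Wy z) (fy z) := by
    intro y z
    apply ((hgen y).restrict (inf_le_left : Wy y ⊓ Wy z ≤ Wy y)).smul_inj le_rfl
    rw [res_self]
    rw [← hloc y _ inf_le_left, ← hloc z _ inf_le_right]
  obtain ⟨f, hf, -⟩ := fsec_glue X Wy W₀ hWy (le_iSup_of_mem Wy hyW) fy hcompat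
  refine ⟨f, fun W hW s => ?_⟩
  refine msec_ext K (fun y => W ⊓ Wy y) W (fun _ => inf_le_left) ?_ _ _ fun y => ?_
  · intro x hx
    exact Opens.mem_iSup.2 ⟨⟨x, hW hx⟩, hx, hyW ⟨x, hW hx⟩⟩
  · rw [α.app_res, hloc y _ inf_le_right, res_smul', resO_resO, ← hf y, resO_resO]

/-- A function which is locally a unit is a unit. -/
lemma isUnit_of_locally (X : Scheme.{u}) {ι : Type u} (U : ι → X.Opens) (V : X.Opens)
    (hle : ∀ i, U i ≤ V) (hcov : V ≤ ⨆ i, U i) (f : Γ(X, V))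
    (h : ∀ i, IsUnit (resO X (hle i) f)) : IsUnit f := by
  have hcompat : ∀ i j, resO X (inf_le_left : U i ⊓ U j ≤ U i) (↑(h i).unit⁻¹ : Γ(X, U i)) =
      resO X (inf_le_right : U i ⊓ U j ≤ U j) (↑(h j).unit⁻¹ : Γ(X, U j)) := by
    intro i j
    have h1 : resO X ((inf_le_left : U i ⊓ U j ≤ U i).trans (hle i)) f *
        resO X (inf_le_left : U i ⊓ U j ≤ U i) (↑(h i).unit⁻¹ : Γ(X, U i)) = 1 := by
      rw [← resO_resO (hle i) inf_le_left, ← map_mul, IsUnit.mul_val_inv, map_one]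
    have h2 : resO X ((inf_le_left : U i ⊓ U j ≤ U i).trans (hle i)) f *
        resO X (inf_le_right : U i ⊓ U j ≤ U j) (↑(h j).unit⁻¹ : Γ(X, U j)) = 1 := by
      rw [← resO_resO (hle j) inf_le_right, ← map_mul, IsUnit.mul_val_inv, map_one]
    calc resO X (inf_le_left : U i ⊓ U j ≤ U i) (↑(h i).unit⁻¹ : Γ(X, U i))
        = resO X (inf_le_left : U i ⊓ U j ≤ U i) (↑(h i).unit⁻¹ : Γ(X, U i)) *
          (resO X ((inf_le_left : U i ⊓ U j ≤ U i).trans (hle i)) f *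
            resO X (inf_le_right : U i ⊓ U j ≤ U j) (↑(h j).unit⁻¹ : Γ(X, U j))) := by
          rw [h2, mul_one]
      _ = resO X (inf_le_right : U i ⊓ U j ≤ U j) (↑(h j).unit⁻¹ : Γ(X, U j)) := by
          rw [← mul_assoc, mul_comm (resO X _ _) (resO X _ f), h1, one_mul]
  obtain ⟨g, hg, -⟩ := fsec_glue X U V hle hcov (fun i => (↑(h i).unit⁻¹ : Γ(X, U i))) hcompat
  refine IsUnit.of_mul_eq_one g ?_
  refine fsec_ext X U V hle hcov _ _ fun i => ?_
  rw [map_mul, hg i, IsUnit.mul_val_inv, map_one]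

/-! ## A scheme with a section: evaluation maps -/

variable {T : Scheme.{u}}

lemma preimage_sigma_le (p : X ⟶ T) (σ : T ⟶ X) (hσ : σ ≫ p = 𝟙 T) {V : T.Opens} {W : X.Opens}
    (h : W ≤ p ⁻¹ᵁ V) : σ ⁻¹ᵁ W ≤ V := by
  intro x hx
  have h1 : p (σ x) ∈ V := h hx
  have h2 : p (σ x) = x := by
    rw [← Scheme.Hom.comp_apply, hσ]; rfl
  rwa [h2] at h1

lemma le_preimage_sigma (p : X ⟶ T) (σ : T ⟶ X) (hσ : σ ≫ p = 𝟙 T) (V : T.Opens) :
    V ≤ σ ⁻¹ᵁ (p ⁻¹ᵁ V) := by
  intro x hx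
  have h2 : p (σ x) = x := by
    rw [← Scheme.Hom.comp_apply, hσ]; rfl
  change p (σ x) ∈ V
  rwa [h2]

lemma app_resO {Y : Scheme.{u}} (f : Y ⟶ X) {V W : X.Opens} (h : W ≤ V) (a : Γ(X, V)) :
    f.app W (resO X h a) = resO Y (f.preimage_mono h) (f.app V a) := by
  have := f.naturality (homOfLE h).op
  exact congr($this a)

lemma app_of_eq_id (g : T ⟶ T) (hg : g = 𝟙 T) {V U : T.Opens} (hle : U ≤ g ⁻¹ᵁ V) (hle' : U ≤ V)
    (a : Γ(T, V)) : resO T hle (g.app V a) = resO T hle' a := by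
  subst hg
  rfl

/-- `σ^♯ ∘ p^♯ = id`. -/
lemma sigma_app_pullback (p : X ⟶ T) (σ : T ⟶ X) (hσ : σ ≫ p = 𝟙 T) (V : T.Opens)
    (W : X.Opens) (h : W ≤ p ⁻¹ᵁ V) (a : Γ(T, V)) :
    σ.app W (resO X h (p.app V a)) = resO T (preimage_sigma_le p σ hσ h) a := by
  rw [app_resO]
  exact app_of_eq_id (σ ≫ p) hσ _ _ a

/-- "Evaluation along the section `σ`": `σ`-semilinear maps from the sections of `K` over the
opens `W ≤ W₀` to the functions on `σ⁻¹ W`. -/
structure EvOn (σ : T ⟶ X) (K : X.Modules) (W₀ : X.Opens) where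
  /-- the evaluation maps -/
  ev : ∀ W : X.Opens, W ≤ W₀ → (Γ(K, W) →+ Γ(T, σ ⁻¹ᵁ W))
  ev_res : ∀ (W W' : X.Opens) (hW : W ≤ W₀) (h : W' ≤ W) (s : Γ(K, W)),
    ev W' (h.trans hW) (res K h s) = resO T (σ.preimage_mono h) (ev W hW s)
  ev_smul : ∀ (W : X.Opens) (hW : W ≤ W₀) (r : Γ(X, W)) (s : Γ(K, W)),
    ev W hW (r • s) = σ.app W r * ev W hW s

namespace EvOn

variable {σ : T ⟶ X} {K K' : X.Modules} {W₀ : X.Opens}

/-- Restriction to a smaller open. -/
def restrict (E : EvOn σ K W₀) {W₁ : X.Opens} (h : W₁ ≤ W₀) : EvOn σ K W₁ where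
  ev W hW := E.ev W (hW.trans h)
  ev_res W W' hW h' s := E.ev_res W W' (hW.trans h) h' s
  ev_smul W hW r s := E.ev_smul W (hW.trans h) r s

/-- Nondegeneracy at the points of `V₀`. -/
def ND (E : EvOn σ K W₀) (V₀ : T.Opens) : Prop :=
  ∀ x ∈ V₀, ∃ (W : X.Opens) (hW : W ≤ W₀) (s : Γ(K, W)), x ∈ T.basicOpen (E.ev W hW s)

/-- At every point of `V₀` there is a local generator whose evaluation is a unit. -/
def Good (E : EvOn σ K W₀) (V₀ : T.Opens) : Prop :=
  ∀ x ∈ V₀, ∃ (W : X.Opens) (hW : W ≤ W₀) (e : Γ(K, W)),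
    σ x ∈ W ∧ IsGen K W e ∧ IsUnit (E.ev W hW e)

lemma isUnit_ev_res (E : EvOn σ K W₀) {W W' : X.Opens} (hW : W ≤ W₀) (h : W' ≤ W) {s : Γ(K, W)}
    (hs : IsUnit (E.ev W hW s)) : IsUnit (E.ev W' (h.trans hW) (res K h s)) := by
  rw [E.ev_res]
  exact hs.map _

lemma Good.mono {E : EvOn σ K W₀} {V₀ : T.Opens} (hE : E.Good V₀) {W₁ : X.Opens} (h : W₁ ≤ W₀)
    {V₁ : T.Opens} (hV : V₁ ≤ V₀) (hσV : V₁ ≤ σ ⁻¹ᵁ W₁) : (E.restrict h).Good V₁ := by
  intro x hx
  obtain ⟨W, hW, e, hxW, he, hu⟩ := hE x (hV hx)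
  exact ⟨W ⊓ W₁, inf_le_right, res K inf_le_left e, ⟨hxW, hσV hx⟩, he.restrict _,
    E.isUnit_ev_res hW inf_le_left hu⟩

/-- The evaluation of a generator is a unit wherever some section has unit evaluation. -/
lemma isUnit_ev_of_gen (E : EvOn σ K W₀) {W : X.Opens} (hW : W ≤ W₀) {e s : Γ(K, W)}
    (he : IsGen K W e) (hs : IsUnit (E.ev W hW s)) : IsUnit (E.ev W hW e) := by
  have h3 := he.coeff_smul le_rfl s
  rw [res_self] at h3
  rw [← h3, E.ev_smul] at hs
  exact isUnit_of_mul_isUnit_right hs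

lemma good_of_nd (p : X ⟶ T) (hσ : σ ≫ p = 𝟙 T) (E : EvOn σ K W₀) {V₀ : T.Opens}
    (hK : HasGens K W₀) (hnd : E.ND V₀) : E.Good V₀ := by
  intro x hx
  obtain ⟨W₁, hW₁, s, hxs⟩ := hnd x hx
  have hD : T.basicOpen (E.ev W₁ hW₁ s) ≤ σ ⁻¹ᵁ W₁ := T.basicOpen_le _
  have hσx : σ x ∈ W₁ := hD hxs
  obtain ⟨W₂, hW₂, e, hx₂, he⟩ := hK (σ x) (hW₁ hσx)
  have hW1 : W₁ ⊓ W₂ ⊓ p ⁻¹ᵁ (T.basicOpen (E.ev W₁ hW₁ s)) ≤ W₁ := inf_le_left.trans inf_le_left
  have hW2 : W₁ ⊓ W₂ ⊓ p ⁻¹ᵁ (T.basicOpen (E.ev W₁ hW₁ s)) ≤ W₂ := inf_le_left.trans inf_le_right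
  have hWD : W₁ ⊓ W₂ ⊓ p ⁻¹ᵁ (T.basicOpen (E.ev W₁ hW₁ s)) ≤
      p ⁻¹ᵁ (T.basicOpen (E.ev W₁ hW₁ s)) := inf_le_right
  refine ⟨_, hW1.trans hW₁, res K hW2 e, ⟨⟨hσx, hx₂⟩, ?_⟩, he.restrict hW2, ?_⟩
  · exact le_preimage_sigma p σ hσ _ hxs
  · refine E.isUnit_ev_of_gen (hW1.trans hW₁) (he.restrict hW2) (s := res K hW1 s) ?_
    rw [E.ev_res W₁ _ hW₁ hW1 s]
    have hle : σ ⁻¹ᵁ (W₁ ⊓ W₂ ⊓ p ⁻¹ᵁ (T.basicOpen (E.ev W₁ hW₁ s))) ≤
        T.basicOpen (E.ev W₁ hW₁ s) := preimage_sigma_le p σ hσ hWD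
    have hu := RingedSpace.isUnit_res_basicOpen T.toRingedSpace (E.ev W₁ hW₁ s)
    have : resO T (σ.preimage_mono hW1) (E.ev W₁ hW₁ s) =
        resO T hle (resO T (T.basicOpen_le _) (E.ev W₁ hW₁ s)) := by
      rw [resO_resO]
    rw [this]
    exact IsUnit.map _ hu

/-- Evaluation of a section in terms of its coefficient with respect to a generator. -/
lemma ev_of_gen (E : EvOn σ K W₀) {W : X.Opens} (hW : W ≤ W₀) {e : Γ(K, W)} (he : IsGen K W e)
    {W' : X.Opens} (h : W' ≤ W) (s : Γ(K, W')) :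
    E.ev W' (h.trans hW) s =
      σ.app W' (he.coeff h s) * resO T (σ.preimage_mono h) (E.ev W hW e) := by
  conv_lhs => rw [← he.coeff_smul h s]
  rw [E.ev_smul, E.ev_res]

lemma Good.exists_common {E : EvOn σ K W₀} {E' : EvOn σ K' W₀} {V₀ : T.Opens} (hE : E.Good V₀)
    (hE' : E'.Good V₀) (x : T) (hx : x ∈ V₀) :
    ∃ (W : X.Opens) (hW : W ≤ W₀) (e : Γ(K, W)) (e' : Γ(K', W)),
      σ x ∈ W ∧ IsGen K W e ∧ IsGen K' W e' ∧ IsUnit (E.ev W hW e) ∧ IsUnit (E'.ev W hW e') := by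
  obtain ⟨W₁, hW₁, e, hx₁, he, hu⟩ := hE x hx
  obtain ⟨W₂, hW₂, e', hx₂, he', hu'⟩ := hE' x hx
  exact ⟨W₁ ⊓ W₂, inf_le_left.trans hW₁, res K inf_le_left e, res K' inf_le_right e', ⟨hx₁, hx₂⟩,
    he.restrict _, he'.restrict _, E.isUnit_ev_res hW₁ inf_le_left hu,
    E'.isUnit_ev_res hW₂ inf_le_right hu'⟩

lemma le_iSup_preimage {V₀ : T.Opens} (Wx : {x : T // x ∈ V₀} → X.Opens)
    (hx : ∀ x : {x : T // x ∈ V₀}, σ x.1 ∈ Wx x) : V₀ ≤ ⨆ x, σ ⁻¹ᵁ (Wx x) := by
  intro x hx'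
  exact Opens.mem_iSup.2 ⟨⟨x, hx'⟩, hx ⟨x, hx'⟩⟩

/-- **Normalisation.** An isomorphism between two modules with good evaluations can be
rescaled, by a unit coming from the base, to an isomorphism compatible with the evaluations. -/
theorem exists_normalised (p : X ⟶ T) (hσ : σ ≫ p = 𝟙 T) (V₀ : T.Opens)
    (E : EvOn σ K (p ⁻¹ᵁ V₀)) (E' : EvOn σ K' (p ⁻¹ᵁ V₀)) (hE : E.Good V₀) (hE' : E'.Good V₀)
    (g : HomOn K K' (p ⁻¹ᵁ V₀)) (hg : g.IsIso) :
    ∃ g' : HomOn K K' (p ⁻¹ᵁ V₀), g'.IsIso ∧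
      ∀ (W : X.Opens) (hW : W ≤ p ⁻¹ᵁ V₀) (s : Γ(K, W)),
        E'.ev W hW (g'.app W hW s) = E.ev W hW s := by
  classical
  choose Wx hWx ex ex' hxW hgen hgen' hu hu' using
    fun x : {x : T // x ∈ V₀} => Good.exists_common hE hE' x.1 x.2
  have ha : ∀ x, IsUnit (E'.ev (Wx x) (hWx x) (g.app (Wx x) (hWx x) (ex x))) := fun x =>
    E'.isUnit_ev_of_gen (hWx x) (HomOn.isGen_app hg (hWx x) (hgen x)) (hu' x)
  -- the local formula, in cross-multiplied form
  have hloc : ∀ (x) (W : X.Opens) (h : W ≤ Wx x) (s : Γ(K, W)),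
      E'.ev W (h.trans (hWx x)) (g.app W (h.trans (hWx x)) s) *
          resO T (σ.preimage_mono h) (E.ev (Wx x) (hWx x) (ex x)) =
        resO T (σ.preimage_mono h) (E'.ev (Wx x) (hWx x) (g.app (Wx x) (hWx x) (ex x))) *
          E.ev W (h.trans (hWx x)) s := by
    intro x W h s
    rw [g.app_eq_of_gen (hWx x) (hgen x) h s, E'.ev_smul, E'.ev_res (Wx x) W (hWx x) h,
      E.ev_of_gen (hWx x) (hgen x) h s]
    ring
  -- the local ratios
  let ux : ∀ x, Γ(T, σ ⁻¹ᵁ (Wx x)) := fun x =>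
    E'.ev (Wx x) (hWx x) (g.app (Wx x) (hWx x) (ex x)) * ↑(hu x).unit⁻¹
  have hux : ∀ x, ux x * E.ev (Wx x) (hWx x) (ex x) =
      E'.ev (Wx x) (hWx x) (g.app (Wx x) (hWx x) (ex x)) := fun x => by
    simp only [ux]
    rw [mul_assoc, IsUnit.val_inv_mul, mul_one]
  have huxu : ∀ x, IsUnit (ux x) := fun x => (ha x).mul (Units.isUnit _)
  have hle : ∀ x, σ ⁻¹ᵁ (Wx x) ≤ V₀ := fun x => preimage_sigma_le p σ hσ (hWx x)
  have hcov : V₀ ≤ ⨆ x, σ ⁻¹ᵁ (Wx x) := le_iSup_preimage Wx hxW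
  -- the formula on opens inside `Wx x`, with the ratio
  have hloc' : ∀ (x) (W : X.Opens) (h : W ≤ Wx x) (s : Γ(K, W)),
      E'.ev W (h.trans (hWx x)) (g.app W (h.trans (hWx x)) s) =
        resO T (σ.preimage_mono h) (ux x) * E.ev W (h.trans (hWx x)) s := by
    intro x W h s
    have hb : IsUnit (resO T (σ.preimage_mono h) (E.ev (Wx x) (hWx x) (ex x))) := (hu x).map _
    apply hb.mul_right_cancel
    rw [hloc x W h s, ← hux x, map_mul]
    ring
  have hcompat : ∀ x y, resO T (inf_le_left : σ ⁻¹ᵁ (Wx x) ⊓ σ ⁻¹ᵁ (Wx y) ≤ σ ⁻¹ᵁ (Wx x)) (ux x) =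
      resO T (inf_le_right : σ ⁻¹ᵁ (Wx x) ⊓ σ ⁻¹ᵁ (Wx y) ≤ σ ⁻¹ᵁ (Wx y)) (ux y) := by
    intro x y
    have h1 := hloc' x (Wx x ⊓ Wx y) inf_le_left (res K inf_le_right (ex y))
    have h2 := hloc' y (Wx x ⊓ Wx y) inf_le_right (res K inf_le_right (ex y))
    have hb : IsUnit (E.ev (Wx x ⊓ Wx y) ((inf_le_right : Wx x ⊓ Wx y ≤ Wx y).trans (hWx y))
        (res K inf_le_right (ex y))) := E.isUnit_ev_res (hWx y) inf_le_right (hu y)
    exact hb.mul_right_cancel (h1.symm.trans h2)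
  obtain ⟨u, hu_res, -⟩ := fsec_glue T (fun x => σ ⁻¹ᵁ (Wx x)) V₀ hle hcov ux hcompat
  have huu : IsUnit u := isUnit_of_locally T (fun x => σ ⁻¹ᵁ (Wx x)) V₀ hle hcov u
    (fun x => by rw [hu_res x]; exact huxu x)
  -- the global formula
  have hglob : ∀ (W : X.Opens) (hW : W ≤ p ⁻¹ᵁ V₀) (s : Γ(K, W)),
      E'.ev W hW (g.app W hW s) = resO T (preimage_sigma_le p σ hσ hW) u * E.ev W hW s := by
    intro W hW s
    refine fsec_ext T (fun x : {x : T // x ∈ V₀} => σ ⁻¹ᵁ (W ⊓ Wx x)) (σ ⁻¹ᵁ W)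
      (fun x => σ.preimage_mono inf_le_left) ?_ _ _ fun x => ?_
    · intro z hz
      have hzV : z ∈ V₀ := preimage_sigma_le p σ hσ hW hz
      exact Opens.mem_iSup.2 ⟨⟨z, hzV⟩, hz, hxW ⟨z, hzV⟩⟩
    · rw [← E'.ev_res W _ hW inf_le_left, g.app_res, map_mul, ← E.ev_res W _ hW inf_le_left,
        hloc' x (W ⊓ Wx x) inf_le_right, resO_resO, ← hu_res x, resO_resO]
  refine ⟨g.smul (p.app V₀ (↑huu.unit⁻¹ : Γ(T, V₀))), HomOn.smul_isIso hg ?_, fun W hW s => ?_⟩
  · exact IsUnit.map (p.app V₀).hom (Units.isUnit _)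
  · rw [HomOn.smul_app, E'.ev_smul, sigma_app_pullback p σ hσ, hglob W hW s, ← mul_assoc,
      ← map_mul, IsUnit.val_inv_mul, map_one, one_mul]

/-- **Rigidity.** An endomorphism compatible with a good evaluation is the identity, provided
every function on `p⁻¹ V₀` comes from `V₀`. -/
theorem eq_id_of_ev (p : X ⟶ T) (hσ : σ ≫ p = 𝟙 T) (V₀ : T.Opens)
    (hsurj : Function.Surjective (p.app V₀).hom)
    (E : EvOn σ K (p ⁻¹ᵁ V₀)) (hK : HasGens K (p ⁻¹ᵁ V₀)) (hE : E.Good V₀)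
    (α : HomOn K K (p ⁻¹ᵁ V₀))
    (hα : ∀ (W : X.Opens) (hW : W ≤ p ⁻¹ᵁ V₀) (s : Γ(K, W)),
      E.ev W hW (α.app W hW s) = E.ev W hW s)
    (W : X.Opens) (hW : W ≤ p ⁻¹ᵁ V₀) (s : Γ(K, W)) : α.app W hW s = s := by
  classical
  obtain ⟨f, hf⟩ := α.exists_eq_smul hK
  obtain ⟨h, hh⟩ := hsurj f
  have hh' : p.app V₀ h = f := hh
  subst hh'
  have h1 : h = 1 := by
    choose Wx hWx ex hxW hgen hu using fun x : {x : T // x ∈ V₀} => hE x.1 x.2
    refine fsec_ext T (fun x => σ ⁻¹ᵁ (Wx x)) V₀ (fun x => preimage_sigma_le p σ hσ (hWx x))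
      (le_iSup_preimage Wx hxW) _ _ fun x => ?_
    have := hα (Wx x) (hWx x) (ex x)
    rw [hf, E.ev_smul, sigma_app_pullback p σ hσ] at this
    rw [map_one]
    exact (hu x).mul_right_cancel (this.trans (one_mul _).symm)
  rw [hf, h1, map_one, map_one, one_smul]

/-- **Uniqueness** of evaluation-compatible isomorphisms. -/
theorem eq_of_ev (p : X ⟶ T) (hσ : σ ≫ p = 𝟙 T) (V₀ : T.Opens)
    (hsurj : Function.Surjective (p.app V₀).hom)
    (E : EvOn σ K (p ⁻¹ᵁ V₀)) (E' : EvOn σ K' (p ⁻¹ᵁ V₀)) (hK : HasGens K (p ⁻¹ᵁ V₀))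
    (hE : E.Good V₀) (g g' : HomOn K K' (p ⁻¹ᵁ V₀)) (hg' : g'.IsIso)
    (h : ∀ (W : X.Opens) (hW : W ≤ p ⁻¹ᵁ V₀) (s : Γ(K, W)),
      E'.ev W hW (g.app W hW s) = E.ev W hW s)
    (h' : ∀ (W : X.Opens) (hW : W ≤ p ⁻¹ᵁ V₀) (s : Γ(K, W)),
      E'.ev W hW (g'.app W hW s) = E.ev W hW s)
    (W : X.Opens) (hW : W ≤ p ⁻¹ᵁ V₀) (s : Γ(K, W)) : g.app W hW s = g'.app W hW s := by
  have key := eq_id_of_ev p hσ V₀ hsurj E hK hE (g.comp (g'.inv hg')) (fun W hW s => by
    change E.ev W hW ((g'.inv hg').app W hW (g.app W hW s)) = E.ev W hW s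
    rw [← h' W hW ((g'.inv hg').app W hW (g.app W hW s)), HomOn.app_inv_app, h]) W hW s
  have key' : (g'.inv hg').app W hW (g.app W hW s) = s := key
  have := congrArg (g'.app W hW) key'
  rwa [HomOn.app_inv_app] at this

end EvOn

/-! ## The gluing theorem -/

/-- The structure sheaf as a module over itself. -/
abbrev OO (X : Scheme.{u}) : X.Modules := SheafOfModules.unit X.ringCatSheaf

/-- Sections of the structure sheaf, seen as a module, are functions. -/
def unitSec (U : X.Opens) : Γ(OO X, U) ≃+ Γ(X, U) := AddEquiv.refl _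

/-- The statement of brick P3 (gluing of modules along a family of opens, with cocycle
condition), in the sectionwise form consumed by `glueCore`. -/
def GlueStmt : Prop :=
  ∀ {X : Scheme.{u}} {ι : Type u} (U : ι → X.Opens) (K : ι → X.Modules)
    (g : ∀ i j, HomOn (K i) (K j) (U i ⊓ U j)),
    (∀ (i) (W : X.Opens) (hW : W ≤ U i ⊓ U i) (s : Γ(K i, W)), (g i i).app W hW s = s) →
    (∀ (i j k) (W : X.Opens) (hij : W ≤ U i ⊓ U j) (hjk : W ≤ U j ⊓ U k) (hik : W ≤ U i ⊓ U k)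
      (s : Γ(K i, W)), (g j k).app W hjk ((g i j).app W hij s) = (g i k).app W hik s) →
    ∃ (N : X.Modules) (e : ∀ i, HomOn N (K i) (U i)), (∀ i, (e i).IsIso) ∧
      ∀ (i j) (W : X.Opens) (hi : W ≤ U i) (hj : W ≤ U j) (s : Γ(N, W)),
        (g i j).app W (le_inf hi hj) ((e i).app W hi s) = (e j).app W hj s

/-- **Gluing core.** `p : X ⟶ T` with a section `σ`, such that functions on `p⁻¹ V` come from
`V`. Modules `K i` on `X`, locally free of rank one on `p⁻¹ (V i)`, with good evaluations along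
`σ`, pairwise isomorphic on the overlaps (by arbitrary isomorphisms), glue to a module `N` with an
evaluation `EN` and evaluation-compatible isomorphisms `N ≅ K i` on `p⁻¹ (V i)`. -/
theorem glueCore (hglue : GlueStmt.{u}) (p : X ⟶ T) (σ : T ⟶ X) (hσ : σ ≫ p = 𝟙 T)
    (hsurj : ∀ V : T.Opens, Function.Surjective (p.app V).hom)
    {ι : Type u} (V : ι → T.Opens) (hV : ⨆ i, V i = ⊤)
    (K : ι → X.Modules) (hK : ∀ i, HasGens (K i) (p ⁻¹ᵁ V i))
    (E : ∀ i, EvOn σ (K i) (p ⁻¹ᵁ V i)) (hE : ∀ i, (E i).Good (V i))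
    (hiso : ∀ i j, ∃ g : HomOn (K i) (K j) (p ⁻¹ᵁ (V i ⊓ V j)), g.IsIso) :
    ∃ (N : X.Modules) (EN : N ⟶ (Scheme.Modules.pushforward σ).obj (OO T))
      (e : ∀ i, HomOn N (K i) (p ⁻¹ᵁ V i)),
      (∀ i, (e i).IsIso) ∧
      ∀ (i) (W : X.Opens) (hW : W ≤ p ⁻¹ᵁ V i) (s : Γ(N, W)),
        (E i).ev W hW ((e i).app W hW s) = unitSec (σ ⁻¹ᵁ W) (EN.app W s) := by
  classical
  -- restricted evaluations on the overlaps
  have hnorm : ∀ i j, ∃ g : HomOn (K i) (K j) (p ⁻¹ᵁ (V i ⊓ V j)), g.IsIso ∧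
      ∀ (W : X.Opens) (hW : W ≤ p ⁻¹ᵁ (V i ⊓ V j)) (s : Γ(K i, W)),
        (E j).ev W (hW.trans (p.preimage_mono inf_le_right)) (g.app W hW s) =
          (E i).ev W (hW.trans (p.preimage_mono inf_le_left)) s := by
    intro i j
    obtain ⟨g, hg⟩ := hiso i j
    exact EvOn.exists_normalised p hσ (V i ⊓ V j)
      ((E i).restrict (p.preimage_mono inf_le_left)) ((E j).restrict (p.preimage_mono inf_le_right))
      ((hE i).mono _ inf_le_left (le_preimage_sigma p σ hσ _))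
      ((hE j).mono _ inf_le_right (le_preimage_sigma p σ hσ _)) g hg
  choose g hg hgE using hnorm
  -- uniqueness on an arbitrary open `V₀` contained in `V i` and `V j`
  have huniq : ∀ (i j) (V₀ : T.Opens) (hi : V₀ ≤ V i) (hj : V₀ ≤ V j)
      (g₁ g₂ : HomOn (K i) (K j) (p ⁻¹ᵁ V₀)) (_ : g₂.IsIso)
      (_ : ∀ (W : X.Opens) (hW : W ≤ p ⁻¹ᵁ V₀) (s : Γ(K i, W)),
        (E j).ev W (hW.trans (p.preimage_mono hj)) (g₁.app W hW s) =
          (E i).ev W (hW.trans (p.preimage_mono hi)) s)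
      (_ : ∀ (W : X.Opens) (hW : W ≤ p ⁻¹ᵁ V₀) (s : Γ(K i, W)),
        (E j).ev W (hW.trans (p.preimage_mono hj)) (g₂.app W hW s) =
          (E i).ev W (hW.trans (p.preimage_mono hi)) s)
      (W : X.Opens) (hW : W ≤ p ⁻¹ᵁ V₀) (s : Γ(K i, W)), g₁.app W hW s = g₂.app W hW s := by
    intro i j V₀ hi hj g₁ g₂ hg₂ h₁ h₂ W hW s
    exact EvOn.eq_of_ev p hσ V₀ (hsurj V₀) ((E i).restrict (p.preimage_mono hi))
      ((E j).restrict (p.preimage_mono hj)) ((hK i).mono (p.preimage_mono hi))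
      ((hE i).mono _ hi (le_preimage_sigma p σ hσ _)) g₁ g₂ hg₂ h₁ h₂ W hW s
  -- the transition maps in the shape wanted by the gluing brick
  have hle : ∀ i j, p ⁻¹ᵁ V i ⊓ p ⁻¹ᵁ V j ≤ p ⁻¹ᵁ (V i ⊓ V j) := fun i j x hx => hx
  obtain ⟨N, e, he, hcomp⟩ := hglue (fun i => p ⁻¹ᵁ V i) K (fun i j => (g i j).restrict (hle i j))
    (fun i W hW s => huniq i i (V i ⊓ V i) inf_le_left inf_le_right (g i i)
      (HomOn.id (K i) _) (HomOn.id_isIso _ _) (hgE i i) (fun _ _ _ => rfl) W (hW.trans (hle i i)) s)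
    (fun i j k W hij hjk hik s => by
      have hW : W ≤ p ⁻¹ᵁ (V i ⊓ V j ⊓ V k) := fun x hx => ⟨⟨(hij hx).1, (hij hx).2⟩, (hjk hx).2⟩
      have hi : V i ⊓ V j ⊓ V k ≤ V i := inf_le_left.trans inf_le_left
      have hj : V i ⊓ V j ⊓ V k ≤ V j := inf_le_left.trans inf_le_right
      have hk : V i ⊓ V j ⊓ V k ≤ V k := inf_le_right
      exact huniq i k (V i ⊓ V j ⊓ V k) hi hk
        (((g i j).restrict (p.preimage_mono (le_inf hi hj))).comp
          ((g j k).restrict (p.preimage_mono (le_inf hj hk))))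
        ((g i k).restrict (p.preimage_mono (le_inf hi hk)))
        (HomOn.restrict_isIso (hg i k) _)
        (fun W' hW' s' => by
          change (E k).ev W' _ ((g j k).app W' _ ((g i j).app W' _ s')) = _
          rw [hgE j k, hgE i j])
        (fun W' hW' s' => hgE i k W' _ s') W hW s)
  -- independence of the index
  have hindep : ∀ (i j) (W : X.Opens) (hi : W ≤ p ⁻¹ᵁ V i) (hj : W ≤ p ⁻¹ᵁ V j) (s : Γ(N, W)),
      (E i).ev W hi ((e i).app W hi s) = (E j).ev W hj ((e j).app W hj s) := by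
    intro i j W hi hj s
    rw [← hcomp i j W hi hj s]
    exact (hgE i j W ((le_inf hi hj).trans (hle i j)) ((e i).app W hi s)).symm
  have hU : ⨆ i, p ⁻¹ᵁ V i = ⊤ := by
    refine top_le_iff.1 fun x _ => ?_
    have hx : p x ∈ ⨆ i, V i := by rw [hV]; trivial
    obtain ⟨i, hi⟩ := Opens.mem_iSup.1 hx
    exact Opens.mem_iSup.2 ⟨i, hi⟩
  let ψ : helper4193.LocalHom N ((Scheme.Modules.pushforward σ).obj (OO T))
      (fun i => p ⁻¹ᵁ V i) :=
    { app := fun W hW => ((unitSec (σ ⁻¹ᵁ W)).symm.toAddMonoidHom.comp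
        ((E hW.choose).ev W hW.choose_spec)).comp ((e hW.choose).app W hW.choose_spec)
      app_res := fun W W' hW hW' h s => by
        change resO T (σ.preimage_mono h) ((E hW.choose).ev W hW.choose_spec
          ((e hW.choose).app W hW.choose_spec s)) =
          (E hW'.choose).ev W' hW'.choose_spec ((e hW'.choose).app W' hW'.choose_spec (res N h s))
        rw [← (E hW.choose).ev_res W W' hW.choose_spec h, (e hW.choose).app_res]
        exact hindep _ _ W' _ _ _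
      app_smul := fun W hW r s => by
        change (E hW.choose).ev W hW.choose_spec ((e hW.choose).app W hW.choose_spec (r • s)) =
          σ.app W r * (E hW.choose).ev W hW.choose_spec ((e hW.choose).app W hW.choose_spec s)
        rw [(e hW.choose).app_smul, (E hW.choose).ev_smul] }
  refine ⟨N, helper4193.glueHom ψ hU, e, he, fun i W hW s => ?_⟩
  have h1 := helper4193.glueHom_app ψ hU W ⟨i, hW⟩
  have h2 : (helper4193.glueHom ψ hU).app W s = ψ.app W ⟨i, hW⟩ s := by rw [h1]; rfl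
  rw [h2]
  exact hindep i _ W hW _ s

end

end Fermat.Agent.S25.helper3151
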