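import Mathlib
import Fermat.Prelude.Def_AlgebraicGeometry_RelPicardAlgEquivZeroCut

/-!
# S25, brick FAEZ-FAM: normal form of `IsAlgEquivZero` on the fibres (helper6135)

The frozen definition `FibrewiseAlgEquivZero M` speaks about invertible modules on the iterated
pullbacks `pullback (fibreAt c t s) h`, where `fibreAt c t s` is the structure map of
`pullback (pullback.snd c t) s`.  This file discharges all of that nested-pullback bookkeeping
once: being algebraically equivalent to zero on the fibre over `s : Spec K ⟶ T` is the same as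
the existence of a family `N` on `pullback c (h ≫ s ≫ t)` (a line bundle on `C ×_R T'`)
whose fibres at two `K`-points of `T'` are trivial, resp. the pullback of `L` to
`pullback c (s ≫ t)` along `baseChangeSnd c ⟨s, rfl⟩`.

Main declarations (namespace `Fermat.Agent.S25.helper6135`):
* `fibrePullbackIso`, `fibreIdIso` : the two scheme isomorphisms, with their projections;
* `FamilyForm c t s L : Prop`;
* `isAlgEquivZero_fibre_iff`;
* `fibrewiseAlgEquivZero_iff`.
-/

set_option autoImplicit false

universe u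

open CategoryTheory CategoryTheory.Limits AlgebraicGeometry AlgebraicGeometry.RelPicard
  NeronModelInfra

namespace Fermat.Agent.S25.helper6135

noncomputable section

/-! ### Two general-purpose isomorphisms for pullbacks of modules -/

/-- Pullback of modules around a commutative square of schemes. -/
def sqIso {W X Y Z : Scheme.{u}} {p : W ⟶ X} {f : X ⟶ Z} {q : W ⟶ Y} {g : Y ⟶ Z}
    (w : p ≫ f = q ≫ g) (M : Z.Modules) :
    (Scheme.Modules.pullback p).obj ((Scheme.Modules.pullback f).obj M) ≅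
      (Scheme.Modules.pullback q).obj ((Scheme.Modules.pullback g).obj M) :=
  (Scheme.Modules.pullbackComp p f).app M ≪≫ (Scheme.Modules.pullbackCongr w).app M ≪≫
    ((Scheme.Modules.pullbackComp q g).app M).symm

/-- Pullback of modules along a composite which is equal to a given morphism. -/
def compIso {W X Z : Scheme.{u}} {p : W ⟶ X} {f : X ⟶ Z} {r : W ⟶ Z}
    (w : p ≫ f = r) (M : Z.Modules) :
    (Scheme.Modules.pullback p).obj ((Scheme.Modules.pullback f).obj M) ≅
      (Scheme.Modules.pullback r).obj M :=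
  (Scheme.Modules.pullbackComp p f).app M ≪≫ (Scheme.Modules.pullbackCongr w).app M

variable {R : Type u} [CommRing R] {C T : Scheme.{u}}

/-! ### The scheme isomorphisms -/

section Isos

variable (c : C ⟶ Spec (CommRingCat.of R)) (t : T ⟶ Spec (CommRingCat.of R))
  {K : Type u} [Field K] (s : Spec (CommRingCat.of K) ⟶ T)

/-- The fibre of `C ×_R T → T` over `s` is a pullback of `c` along `s ≫ t`. -/
theorem isPullback_fibre :
    IsPullback (pullback.fst (pullback.snd c t) s ≫ pullback.fst c t) (fibreAt c t s) c (s ≫ t) :=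
  (IsPullback.of_hasPullback (pullback.snd c t) s).paste_horiz (IsPullback.of_hasPullback c t)

/-- The pullback of the fibre along `h : T' ⟶ Spec K` is a pullback of `c` along
`h ≫ s ≫ t`. -/
theorem isPullback_fibrePullback {T' : Scheme.{u}} (h : T' ⟶ Spec (CommRingCat.of K)) :
    IsPullback (pullback.fst (fibreAt c t s) h ≫ pullback.fst (pullback.snd c t) s ≫
      pullback.fst c t) (pullback.snd (fibreAt c t s) h) c (h ≫ s ≫ t) :=
  (IsPullback.of_hasPullback (fibreAt c t s) h).paste_horiz (isPullback_fibre c t s)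

/-- `(C ×_R T)_s ×_K T' ≅ C ×_R T'`. -/
def fibrePullbackIso {T' : Scheme.{u}} (h : T' ⟶ Spec (CommRingCat.of K)) :
    pullback (fibreAt c t s) h ≅ pullback c (h ≫ s ≫ t) :=
  (isPullback_fibrePullback c t s h).isoPullback

@[reassoc (attr := simp)]
theorem fibrePullbackIso_hom_fst {T' : Scheme.{u}} (h : T' ⟶ Spec (CommRingCat.of K)) :
    (fibrePullbackIso c t s h).hom ≫ pullback.fst c (h ≫ s ≫ t) =
      pullback.fst (fibreAt c t s) h ≫ pullback.fst (pullback.snd c t) s ≫ pullback.fst c t :=
  (isPullback_fibrePullback c t s h).isoPullback_hom_fst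

@[reassoc (attr := simp)]
theorem fibrePullbackIso_hom_snd {T' : Scheme.{u}} (h : T' ⟶ Spec (CommRingCat.of K)) :
    (fibrePullbackIso c t s h).hom ≫ pullback.snd c (h ≫ s ≫ t) =
      pullback.snd (fibreAt c t s) h :=
  (isPullback_fibrePullback c t s h).isoPullback_hom_snd

/-- `(C ×_R T)_s ×_K Spec K ≅ C ×_R Spec K`. -/
def fibreIdIso :
    pullback (fibreAt c t s) (𝟙 (Spec (CommRingCat.of K))) ≅ pullback c (s ≫ t) :=
  asIso (pullback.fst (fibreAt c t s) (𝟙 (Spec (CommRingCat.of K)))) ≪≫
    (isPullback_fibre c t s).isoPullback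

@[reassoc (attr := simp)]
theorem fibreIdIso_hom_fst :
    (fibreIdIso c t s).hom ≫ pullback.fst c (s ≫ t) =
      pullback.fst (fibreAt c t s) (𝟙 _) ≫ pullback.fst (pullback.snd c t) s ≫
        pullback.fst c t := by
  simp [fibreIdIso]

@[reassoc (attr := simp)]
theorem fibreIdIso_hom_snd :
    (fibreIdIso c t s).hom ≫ pullback.snd c (s ≫ t) =
      pullback.fst (fibreAt c t s) (𝟙 _) ≫ fibreAt c t s := by
  simp [fibreIdIso]

/-- A `K`-point of `T'`, as a morphism over `R` from `Spec K` (with structure map `s ≫ t`). -/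
def sec {T' : Scheme.{u}} {h : T' ⟶ Spec (CommRingCat.of K)}
    (tt : SchemeHomOver (𝟙 (Spec (CommRingCat.of K))) h) :
    SchemeHomOver (s ≫ t) (h ≫ s ≫ t) :=
  ⟨tt.1, by rw [← Category.assoc, tt.2, Category.id_comp]⟩

/-- `s`, as a morphism over `R`. -/
def pt : SchemeHomOver (s ≫ t) t := ⟨s, rfl⟩

theorem baseChangeSnd_fibrePullbackIso {T' : Scheme.{u}} {h : T' ⟶ Spec (CommRingCat.of K)}
    (tt : SchemeHomOver (𝟙 (Spec (CommRingCat.of K))) h) :
    baseChangeSnd (fibreAt c t s) tt ≫ (fibrePullbackIso c t s h).hom =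
      (fibreIdIso c t s).hom ≫ baseChangeSnd c (sec t s tt) := by
  apply pullback.hom_ext
  · simp [baseChangeSnd, sec, pullback.lift_fst, pullback.lift_fst_assoc]
  · simp only [baseChangeSnd, sec, Category.assoc, fibrePullbackIso_hom_snd, pullback.lift_snd,
      fibreIdIso_hom_snd_assoc]
    rw [← Category.assoc (pullback.fst _ _), pullback.condition, Category.comp_id]

theorem baseChangeSnd_fibrePullbackIso_inv {T' : Scheme.{u}} {h : T' ⟶ Spec (CommRingCat.of K)}
    (tt : SchemeHomOver (𝟙 (Spec (CommRingCat.of K))) h) :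
    baseChangeSnd c (sec t s tt) ≫ (fibrePullbackIso c t s h).inv =
      (fibreIdIso c t s).inv ≫ baseChangeSnd (fibreAt c t s) tt := by
  rw [Iso.comp_inv_eq, Category.assoc, baseChangeSnd_fibrePullbackIso, Iso.inv_hom_id_assoc]

theorem fibreIdIso_hom_baseChangeSnd :
    (fibreIdIso c t s).hom ≫ baseChangeSnd c (pt t s) =
      pullback.fst (fibreAt c t s) (𝟙 _) ≫ pullback.fst (pullback.snd c t) s := by
  apply pullback.hom_ext
  · simp [baseChangeSnd, pt, pullback.lift_fst]
  · simp only [baseChangeSnd, pt, Category.assoc, pullback.lift_snd, fibreIdIso_hom_snd_assoc]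
    rw [fibreAt, pullback.condition]

theorem fibreIdIso_inv_fst_fst :
    (fibreIdIso c t s).inv ≫ pullback.fst (fibreAt c t s) (𝟙 _) ≫
      pullback.fst (pullback.snd c t) s = baseChangeSnd c (pt t s) := by
  rw [Iso.inv_comp_eq, fibreIdIso_hom_baseChangeSnd]

end Isos

/-! ### The family form -/

/-- `L` on `C ×_R T` is, on the fibre over `s : Spec K ⟶ T`, a member of a family of invertible
modules on `C ×_R T'` (`T'` locally of finite type and geometrically integral over `K`) which
also has a trivial member. Everything lives on pullbacks of `c` along `R`-schemes. -/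
def FamilyForm (c : C ⟶ Spec (CommRingCat.of R)) (t : T ⟶ Spec (CommRingCat.of R))
    {K : Type u} [Field K] (s : Spec (CommRingCat.of K) ⟶ T) (L : (pullback c t).Modules) :
    Prop :=
  ∃ (T' : Scheme.{u}) (h : T' ⟶ Spec (CommRingCat.of K)) (_ : LocallyOfFiniteType h)
    (_ : GeometricallyIntegral h) (N : (pullback c (h ≫ s ≫ t)).Modules)
    (_ : Scheme.Modules.IsInvertible N)
    (t₀ t₁ : SchemeHomOver (𝟙 (Spec (CommRingCat.of K))) h),
    Nonempty ((Scheme.Modules.pullback (baseChangeSnd c (sec t s t₀))).obj N ≅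
        SheafOfModules.unit (pullback c (s ≫ t)).ringCatSheaf) ∧
    Nonempty ((Scheme.Modules.pullback (baseChangeSnd c (sec t s t₁))).obj N ≅
        (Scheme.Modules.pullback (baseChangeSnd c (pt t s))).obj L)

variable (c : C ⟶ Spec (CommRingCat.of R)) (t : T ⟶ Spec (CommRingCat.of R))
  {K : Type u} [Field K] (s : Spec (CommRingCat.of K) ⟶ T) (L : (pullback c t).Modules)

theorem familyForm_of_isAlgEquivZero
    (hL : IsAlgEquivZero (fibreAt c t s)
      ((Scheme.Modules.pullback (pullback.fst (pullback.snd c t) s)).obj L)) :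
    FamilyForm c t s L := by
  obtain ⟨T', h, hft, hgi, M, hM, t₀, t₁, ⟨e₀⟩, ⟨e₁⟩⟩ := hL
  refine ⟨T', h, hft, hgi, (Scheme.Modules.pullback (fibrePullbackIso c t s h).inv).obj M,
    hM.pullback _, t₀, t₁, ⟨?_⟩, ⟨?_⟩⟩
  · exact sqIso (baseChangeSnd_fibrePullbackIso_inv c t s t₀) M ≪≫
      (Scheme.Modules.pullback (fibreIdIso c t s).inv).mapIso e₀ ≪≫
      Scheme.Modules.pullbackUnitIso _
  · exact sqIso (baseChangeSnd_fibrePullbackIso_inv c t s t₁) M ≪≫
      (Scheme.Modules.pullback (fibreIdIso c t s).inv).mapIso e₁ ≪≫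
      (Scheme.Modules.pullback (fibreIdIso c t s).inv).mapIso
        (compIso (rfl : pullback.fst (fibreAt c t s) (𝟙 _) ≫ pullback.fst (pullback.snd c t) s = _)
          L) ≪≫
      compIso (by rw [fibreIdIso_inv_fst_fst]) L

theorem isAlgEquivZero_of_familyForm (hL : FamilyForm c t s L) :
    IsAlgEquivZero (fibreAt c t s)
      ((Scheme.Modules.pullback (pullback.fst (pullback.snd c t) s)).obj L) := by
  obtain ⟨T', h, hft, hgi, N, hN, t₀, t₁, ⟨e₀⟩, ⟨e₁⟩⟩ := hL
  refine ⟨T', h, hft, hgi, (Scheme.Modules.pullback (fibrePullbackIso c t s h).hom).obj N,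
    hN.pullback _, t₀, t₁, ⟨?_⟩, ⟨?_⟩⟩
  · exact sqIso (baseChangeSnd_fibrePullbackIso c t s t₀) N ≪≫
      (Scheme.Modules.pullback (fibreIdIso c t s).hom).mapIso e₀ ≪≫
      Scheme.Modules.pullbackUnitIso _
  · exact sqIso (baseChangeSnd_fibrePullbackIso c t s t₁) N ≪≫
      (Scheme.Modules.pullback (fibreIdIso c t s).hom).mapIso e₁ ≪≫
      compIso (fibreIdIso_hom_baseChangeSnd c t s) L ≪≫
      (compIso (rfl : pullback.fst (fibreAt c t s) (𝟙 _) ≫ pullback.fst (pullback.snd c t) s = _)
        L).symm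

/-- **FAEZ-FAM.** Algebraic equivalence to zero on the fibre over `s`, in family form. -/
theorem isAlgEquivZero_fibre_iff :
    IsAlgEquivZero (fibreAt c t s)
      ((Scheme.Modules.pullback (pullback.fst (pullback.snd c t) s)).obj L) ↔
      FamilyForm c t s L :=
  ⟨familyForm_of_isAlgEquivZero c t s L, isAlgEquivZero_of_familyForm c t s L⟩

/-- **FAEZ-FAM**, for the frozen predicate `FibrewiseAlgEquivZero`. -/
theorem fibrewiseAlgEquivZero_iff {c : C ⟶ Spec (CommRingCat.of R)}
    {ε : SchemeHomOver (𝟙 (Spec (CommRingCat.of R))) c} {t : T ⟶ Spec (CommRingCat.of R)}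
    (M : RigidifiedLineBundle c ε t) :
    FibrewiseAlgEquivZero M ↔
      ∀ (K : Type u) [Field K] [IsAlgClosed K] (s : Spec (CommRingCat.of K) ⟶ T),
        FamilyForm c t s M.L :=
  ⟨fun hM K _ _ s => familyForm_of_isAlgEquivZero c t s M.L (hM K s),
    fun hM K _ _ s => isAlgEquivZero_of_familyForm c t s M.L (hM K s)⟩

/-- The second fibre in `FamilyForm` is the underlying module of `M.pullbackAlong (pt t s)`. -/
theorem pullbackAlong_pt_L {c : C ⟶ Spec (CommRingCat.of R)}
    {ε : SchemeHomOver (𝟙 (Spec (CommRingCat.of R))) c} {t : T ⟶ Spec (CommRingCat.of R)}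
    (M : RigidifiedLineBundle c ε t) {K : Type u} [Field K] (s : Spec (CommRingCat.of K) ⟶ T) :
    (M.pullbackAlong (pt t s)).L =
      (Scheme.Modules.pullback (baseChangeSnd c (pt t s))).obj M.L :=
  rfl

/-- `FamilyForm` only depends on the isomorphism class of `L`. -/
theorem FamilyForm.of_iso {c : C ⟶ Spec (CommRingCat.of R)} {t : T ⟶ Spec (CommRingCat.of R)}
    {K : Type u} [Field K] {s : Spec (CommRingCat.of K) ⟶ T} {L L' : (pullback c t).Modules}
    (e : L ≅ L') (hL : FamilyForm c t s L) : FamilyForm c t s L' := by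
  obtain ⟨T', h, hft, hgi, N, hN, t₀, t₁, e₀, ⟨e₁⟩⟩ := hL
  exact ⟨T', h, hft, hgi, N, hN, t₀, t₁, e₀,
    ⟨e₁ ≪≫ (Scheme.Modules.pullback _).mapIso e⟩⟩

end

end Fermat.Agent.S25.helper6135
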