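import Fermat.Agent.S25.helper1705_Spec
import Fermat.Agent.S25.helper6135_AEZFamily

/-!
# S25, leaf LG-GC: `Stmt_GC` from the cut itself (helper3249, backup implementation)

Any scheme representing the functor of rigidified line bundles that are fibrewise algebraically
equivalent to zero is geometrically connected. No curve hypothesis is used, and the base may be
any commutative ring `R`.

Proof. Let `Z = D.P ×_R Spec K`, `z ∈ Z`, `ω : Spec Ω ⟶ Z` a geometric point over `z` and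
`s = ω ≫ fst`. `poincare_mem` at `s` gives an integral `Ω`-scheme `T'`, an invertible module `N`
on `C ×_R T'` and two `Ω`-points `t₀`, `t₁` of `T'` with `N|t₀` trivial and `N|t₁` the fibre of
the Poincare bundle at `s`. On an open `V` of `T'` over which `ε^* N` is trivial, `N` is a
rigidified line bundle which is fibrewise algebraically equivalent to zero (the connecting family
at a geometric point `u` of `V` is the base change `T'_u`), hence is classified by a morphism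
`g_V : V ⟶ D.P`. Take `V₀ ∋ t₀`, `V₁ ∋ t₁`. By uniqueness of classifying maps, `g_{V₀}` and
`g_{V₁}` agree on `V₀ ⊓ V₁` (nonempty, `T'` being irreducible), `g_{V₁}` sends `t₁` to `s` and
`g_{V₀}` sends `t₀` to the zero point. So the images of the irreducible spaces `V₀`, `V₁` in `Z`
are connected sets with a common point, containing the zero point and `z` respectively.
-/

set_option autoImplicit false

universe u

open CategoryTheory CategoryTheory.Limits AlgebraicGeometry AlgebraicGeometry.RelPicard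
  NeronModelInfra GoodReductionJacobian

namespace Fermat.Agent.S25.helper3249

noncomputable section

variable {R : Type u} [CommRing R] {C : Scheme.{u}} {c : C ⟶ Spec (CommRingCat.of R)}
  {ε : SchemeHomOver (𝟙 (Spec (CommRingCat.of R))) c}

/-! ### Bricks on base change of modules -/

theorem baseChangeSnd_comp_of_eq {T₁ T₂ T₃ : Scheme.{u}} {t₁ : T₁ ⟶ Spec (CommRingCat.of R)}
    {t₂ : T₂ ⟶ Spec (CommRingCat.of R)} {t₃ : T₃ ⟶ Spec (CommRingCat.of R)}
    (ψ : SchemeHomOver t₁ t₂) (φ : SchemeHomOver t₂ t₃) (χ : SchemeHomOver t₁ t₃)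
    (w : ψ.1 ≫ φ.1 = χ.1) :
    baseChangeSnd c ψ ≫ baseChangeSnd c φ = baseChangeSnd c χ := by
  rw [baseChangeSnd_comp]
  congr 1
  exact Subtype.ext w

/-- Base change of a module in two steps is the base change along the composite. -/
def bcIso {T₁ T₂ T₃ : Scheme.{u}} {t₁ : T₁ ⟶ Spec (CommRingCat.of R)}
    {t₂ : T₂ ⟶ Spec (CommRingCat.of R)} {t₃ : T₃ ⟶ Spec (CommRingCat.of R)}
    (ψ : SchemeHomOver t₁ t₂) (φ : SchemeHomOver t₂ t₃) (χ : SchemeHomOver t₁ t₃)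
    (w : ψ.1 ≫ φ.1 = χ.1) (N : (pullback c t₃).Modules) :
    (Scheme.Modules.pullback (baseChangeSnd c ψ)).obj
        ((Scheme.Modules.pullback (baseChangeSnd c φ)).obj N) ≅
      (Scheme.Modules.pullback (baseChangeSnd c χ)).obj N :=
  helper6135.compIso (baseChangeSnd_comp_of_eq ψ φ χ w) N

/-- An invertible module on `C ×_R T`, pulled back to a `T`-scheme `W` over which its
restriction along the rigidifying section is trivial, is a rigidified line bundle. -/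
def restrictRig {T W : Scheme.{u}} {t : T ⟶ Spec (CommRingCat.of R)}
    {w : W ⟶ Spec (CommRingCat.of R)} (N : (pullback c t).Modules)
    (hN : Scheme.Modules.IsInvertible N) (ψ : SchemeHomOver w t)
    (triv : Nonempty ((Scheme.Modules.pullback ψ.1).obj
      ((Scheme.Modules.pullback (rigSection c t ε)).obj N) ≅
        SheafOfModules.unit W.ringCatSheaf)) : RigidifiedLineBundle c ε w where
  L := (Scheme.Modules.pullback (baseChangeSnd c ψ)).obj N
  isInvertible := hN.pullback _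
  rigidified := ⟨helper6135.sqIso (rigSection_baseChangeSnd c ε ψ) N ≪≫ triv.some⟩

/-! ### A family with a trivial member is fibrewise algebraically equivalent to zero -/

/-- Let `T'` be locally of finite type and geometrically integral over a field `Ω`, and let `N`
be an invertible module on `C ×_R T'` whose member at an `Ω`-point `t₀` is trivial. Then every
rigidified line bundle which is a pullback of `N` along a morphism `W ⟶ T'` is fibrewise
algebraically equivalent to zero. -/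
theorem fibrewiseAlgEquivZero_of_family {Ω : Type u} [Field Ω] {T' : Scheme.{u}}
    (h' : T' ⟶ Spec (CommRingCat.of Ω)) [LocallyOfFiniteType h'] [GeometricallyIntegral h']
    (σ : Spec (CommRingCat.of Ω) ⟶ Spec (CommRingCat.of R))
    (N : (pullback c (h' ≫ σ)).Modules) (hN : Scheme.Modules.IsInvertible N)
    (θ₀ : SchemeHomOver σ (h' ≫ σ)) (hθ₀ : θ₀.1 ≫ h' = 𝟙 _)
    (e₀ : Nonempty ((Scheme.Modules.pullback (baseChangeSnd c θ₀)).obj N ≅
      SheafOfModules.unit (pullback c σ).ringCatSheaf))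
    {W : Scheme.{u}} {w : W ⟶ Spec (CommRingCat.of R)} (ψ : SchemeHomOver w (h' ≫ σ))
    (M : RigidifiedLineBundle c ε w)
    (eM : Nonempty (M.L ≅ (Scheme.Modules.pullback (baseChangeSnd c ψ)).obj N)) :
    FibrewiseAlgEquivZero M := by
  intro K' _ _ s'
  refine helper6135.isAlgEquivZero_of_familyForm c w s' M.L ?_
  -- the connecting family is `T' ×_Ω Spec K'`
  let u : Spec (CommRingCat.of K') ⟶ Spec (CommRingCat.of Ω) := s' ≫ ψ.1 ≫ h'
  have hu : u ≫ σ = s' ≫ w := by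
    simp only [u, Category.assoc]
    rw [ψ.2]
  let h'' : pullback h' u ⟶ Spec (CommRingCat.of K') := pullback.snd h' u
  have hq : pullback.fst h' u ≫ (h' ≫ σ) = h'' ≫ s' ≫ w := by
    rw [← Category.assoc, pullback.condition, Category.assoc, hu]
  let q : SchemeHomOver (h'' ≫ s' ≫ w) (h' ≫ σ) := ⟨pullback.fst h' u, hq⟩
  have h₁ : (s' ≫ ψ.1) ≫ h' = 𝟙 _ ≫ u := by
    simp only [u, Category.assoc, Category.id_comp]
  have h₀ : (u ≫ θ₀.1) ≫ h' = 𝟙 _ ≫ u := by
    rw [Category.assoc, hθ₀, Category.comp_id, Category.id_comp]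
  let τ₁ : SchemeHomOver (𝟙 (Spec (CommRingCat.of K'))) h'' :=
    ⟨pullback.lift (s' ≫ ψ.1) (𝟙 _) h₁, pullback.lift_snd _ _ _⟩
  let τ₀ : SchemeHomOver (𝟙 (Spec (CommRingCat.of K'))) h'' :=
    ⟨pullback.lift (u ≫ θ₀.1) (𝟙 _) h₀, pullback.lift_snd _ _ _⟩
  let υ : SchemeHomOver (s' ≫ w) σ := ⟨u, hu⟩
  let χ₀ : SchemeHomOver (s' ≫ w) (h' ≫ σ) := postComp θ₀ υ
  let χ₁ : SchemeHomOver (s' ≫ w) (h' ≫ σ) := postComp ψ (helper6135.pt w s')
  have hτ₀ : (helper6135.sec w s' τ₀).1 ≫ q.1 = χ₀.1 := pullback.lift_fst _ _ _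
  have hτ₁ : (helper6135.sec w s' τ₁).1 ≫ q.1 = χ₁.1 := pullback.lift_fst _ _ _
  refine ⟨pullback h' u, h'', inferInstance, inferInstance,
    (Scheme.Modules.pullback (baseChangeSnd c q)).obj N, hN.pullback _, τ₀, τ₁, ⟨?_⟩, ⟨?_⟩⟩
  · exact bcIso (helper6135.sec w s' τ₀) q χ₀ hτ₀ N ≪≫ (bcIso υ θ₀ χ₀ rfl N).symm ≪≫
      (Scheme.Modules.pullback (baseChangeSnd c υ)).mapIso e₀.some ≪≫
      Scheme.Modules.pullbackUnitIso _
  · exact bcIso (helper6135.sec w s' τ₁) q χ₁ hτ₁ N ≪≫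
      (bcIso (helper6135.pt w s') ψ χ₁ rfl N).symm ≪≫
      (Scheme.Modules.pullback (baseChangeSnd c (helper6135.pt w s'))).mapIso eM.some.symm

/-! ### Classifying maps -/

/-- Uniqueness of classifying maps: two morphisms to `D.P` classifying pullbacks of one and the
same module `N` on `C ×_R T` agree on any common refinement. -/
theorem classify_comp_eq {D : RelativePic0Designation R c} {P : SubPicCondition c ε}
    (h : RepresentsRelSubPic c ε P D) {T W W' : Scheme.{u}}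
    {t : T ⟶ Spec (CommRingCat.of R)} {w : W ⟶ Spec (CommRingCat.of R)}
    {w' : W' ⟶ Spec (CommRingCat.of R)} (N : (pullback c t).Modules)
    (ψ₁ : SchemeHomOver w t) (g₁ : SchemeHomOver w D.toBase)
    (i₁ : Nonempty ((h.poincare.pullbackAlong g₁).L ≅
      (Scheme.Modules.pullback (baseChangeSnd c ψ₁)).obj N))
    (ψ₂ : SchemeHomOver w' t) (g₂ : SchemeHomOver w' D.toBase)
    (i₂ : Nonempty ((h.poincare.pullbackAlong g₂).L ≅
      (Scheme.Modules.pullback (baseChangeSnd c ψ₂)).obj N))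
    (x : SchemeHomOver w' w) (hx : x.1 ≫ ψ₁.1 = ψ₂.1) : x.1 ≫ g₁.1 = g₂.1 := by
  have key : postComp g₁ x = g₂ := by
    refine h.ext_of_iso w' _ _ ⟨?_⟩
    exact (bcIso x g₁ (postComp g₁ x) rfl h.poincare.L).symm ≪≫
      (Scheme.Modules.pullback (baseChangeSnd c x)).mapIso i₁.some ≪≫
      bcIso x ψ₁ ψ₂ hx N ≪≫ i₂.some.symm
  exact congrArg Subtype.val key

/-! ### Every geometric point lies in the connected component of the zero point -/

/-- The local classifying maps of a family with a trivial member: every point of `T'` has an open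
neighbourhood `V` on which the family is classified by a morphism `V ⟶ D.P`. -/
theorem exists_local_classify {D : RelativePic0Designation R c}
    (h : RepresentsRelSubPic c ε (algEquivZeroCut c ε) D) {Ω : Type u} [Field Ω]
    {T' : Scheme.{u}} (h' : T' ⟶ Spec (CommRingCat.of Ω)) [LocallyOfFiniteType h']
    [GeometricallyIntegral h'] (σ : Spec (CommRingCat.of Ω) ⟶ Spec (CommRingCat.of R))
    (N : (pullback c (h' ≫ σ)).Modules) (hN : Scheme.Modules.IsInvertible N)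
    (θ₀ : SchemeHomOver σ (h' ≫ σ)) (hθ₀ : θ₀.1 ≫ h' = 𝟙 _)
    (e₀ : Nonempty ((Scheme.Modules.pullback (baseChangeSnd c θ₀)).obj N ≅
      SheafOfModules.unit (pullback c σ).ringCatSheaf)) (x : T') :
    ∃ (V : T'.Opens) (_ : x ∈ V) (g : SchemeHomOver (V.ι ≫ h' ≫ σ) D.toBase),
      Nonempty ((h.poincare.pullbackAlong g).L ≅
        (Scheme.Modules.pullback (baseChangeSnd c
          (⟨V.ι, rfl⟩ : SchemeHomOver (V.ι ≫ h' ≫ σ) (h' ≫ σ)))).obj N) := by
  obtain ⟨V, hxV, triv⟩ := (hN.pullback (rigSection c (h' ≫ σ) ε)).exists_trivialization x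
  let ψ : SchemeHomOver (V.ι ≫ h' ≫ σ) (h' ≫ σ) := ⟨V.ι, rfl⟩
  let NV : RigidifiedLineBundle c ε (V.ι ≫ h' ≫ σ) := restrictRig N hN ψ triv
  have hNV : FibrewiseAlgEquivZero NV :=
    fibrewiseAlgEquivZero_of_family h' σ N hN θ₀ hθ₀ e₀ ψ NV ⟨Iso.refl _⟩
  exact ⟨V, hxV, h.classify _ NV hNV, h.classify_spec _ NV hNV⟩

/-- Every geometric point of `Z = D.P ×_R Spec K` lies in the connected component of the zero
point. -/
theorem mem_connectedComponent_zero {D : RelativePic0Designation R c}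
    (h : RepresentsRelSubPic c ε (algEquivZeroCut c ε) D) {K : Type u} [Field K]
    {y : Spec (CommRingCat.of K) ⟶ Spec (CommRingCat.of R)} {Z : Scheme.{u}} {fst : Z ⟶ D.P}
    {snd : Z ⟶ Spec (CommRingCat.of K)} (hP : IsPullback fst snd D.toBase y)
    (ζ : Spec (CommRingCat.of K) ⟶ Z) (hζ₁ : ζ ≫ fst = y ≫ D.zeroSection)
    (hζ₂ : ζ ≫ snd = 𝟙 _) (Ω : Type u) [Field Ω] [IsAlgClosed Ω]
    (ω : Spec (CommRingCat.of Ω) ⟶ Z) (p : Spec (CommRingCat.of Ω))
    (q : Spec (CommRingCat.of K)) :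
    ω.base p ∈ connectedComponent (ζ.base q) := by
  let s : Spec (CommRingCat.of Ω) ⟶ D.P := ω ≫ fst
  let ρ : Spec (CommRingCat.of Ω) ⟶ Spec (CommRingCat.of K) := ω ≫ snd
  have hmem : FibrewiseAlgEquivZero h.poincare := h.poincare_mem
  obtain ⟨T', h', hft, hgi, N, hN, t₀, t₁, e₀, e₁⟩ :=
    helper6135.familyForm_of_isAlgEquivZero c D.toBase s h.poincare.L (hmem Ω s)
  have := hft
  have := hgi
  have : IsIntegral T' := GeometricallyIntegral.isIntegral_of_subsingleton h'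
  let σ : Spec (CommRingCat.of Ω) ⟶ Spec (CommRingCat.of R) := s ≫ D.toBase
  let θ₀ : SchemeHomOver σ (h' ≫ σ) := helper6135.sec D.toBase s t₀
  let θ₁ : SchemeHomOver σ (h' ≫ σ) := helper6135.sec D.toBase s t₁
  have hσ : σ = ρ ≫ y := by
    simp only [σ, s, ρ, Category.assoc]
    rw [hP.w]
  -- the two local classifying maps
  obtain ⟨V₀, h0V, g₀, i₀⟩ := exists_local_classify h h' σ N hN θ₀ t₀.2 e₀ (t₀.1.base p)
  obtain ⟨V₁, h1V, g₁, i₁⟩ := exists_local_classify h h' σ N hN θ₀ t₀.2 e₀ (t₁.1.base p)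
  let ψ₀ : SchemeHomOver (V₀.ι ≫ h' ≫ σ) (h' ≫ σ) := ⟨V₀.ι, rfl⟩
  let ψ₁ : SchemeHomOver (V₁.ι ≫ h' ≫ σ) (h' ≫ σ) := ⟨V₁.ι, rfl⟩
  -- the two points lift to `V₀`, `V₁`
  have hr₀ : Set.range t₀.1.base ⊆ Set.range V₀.ι.base := by
    rintro _ ⟨p', rfl⟩
    rw [Subsingleton.elim p' p]
    exact ⟨⟨_, h0V⟩, rfl⟩
  have hr₁ : Set.range t₁.1.base ⊆ Set.range V₁.ι.base := by
    rintro _ ⟨p', rfl⟩
    rw [Subsingleton.elim p' p]
    exact ⟨⟨_, h1V⟩, rfl⟩
  let x₀ : Spec (CommRingCat.of Ω) ⟶ V₀ := IsOpenImmersion.lift V₀.ι t₀.1 hr₀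
  let x₁ : Spec (CommRingCat.of Ω) ⟶ V₁ := IsOpenImmersion.lift V₁.ι t₁.1 hr₁
  have hx₀ : x₀ ≫ V₀.ι = t₀.1 := IsOpenImmersion.lift_fac _ _ _
  have hx₁ : x₁ ≫ V₁.ι = t₁.1 := IsOpenImmersion.lift_fac _ _ _
  have hx₀' : x₀ ≫ V₀.ι ≫ h' ≫ σ = σ := by
    rw [← Category.assoc, hx₀]; exact θ₀.2
  have hx₁' : x₁ ≫ V₁.ι ≫ h' ≫ σ = σ := by
    rw [← Category.assoc, hx₁]; exact θ₁.2
  -- `g₁` sends `t₁` to `s`
  have c₁ : x₁ ≫ g₁.1 = s :=
    classify_comp_eq h N ψ₁ g₁ i₁ θ₁ (helper6135.pt D.toBase s) ⟨e₁.some.symm⟩ ⟨x₁, hx₁'⟩ hx₁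
  -- `g₀` sends `t₀` to the zero point
  have hz : (σ ≫ D.zeroSection) ≫ D.toBase = σ := by
    rw [Category.assoc, D.zeroSection_toBase, Category.comp_id]
  let zs : SchemeHomOver (𝟙 (Spec (CommRingCat.of R))) D.toBase :=
    ⟨D.zeroSection, D.zeroSection_toBase⟩
  let σ' : SchemeHomOver σ (𝟙 (Spec (CommRingCat.of R))) := ⟨σ, Category.comp_id _⟩
  let gz : SchemeHomOver σ D.toBase := ⟨σ ≫ D.zeroSection, hz⟩
  have c₀ : x₀ ≫ g₀.1 = σ ≫ D.zeroSection :=
    classify_comp_eq h N ψ₀ g₀ i₀ θ₀ gz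
      ⟨(bcIso σ' zs gz rfl h.poincare.L).symm ≪≫
        (Scheme.Modules.pullback (baseChangeSnd c σ')).mapIso h.zero.some ≪≫
        Scheme.Modules.pullbackUnitIso _ ≪≫ e₀.some.symm⟩ ⟨x₀, hx₀'⟩ hx₀
  -- the classifying maps agree on the overlap
  let j₀ : (V₀ ⊓ V₁ : T'.Opens).toScheme ⟶ V₀ := T'.homOfLE inf_le_left
  let j₁ : (V₀ ⊓ V₁ : T'.Opens).toScheme ⟶ V₁ := T'.homOfLE inf_le_right
  have hj₀ : j₀ ≫ V₀.ι = (V₀ ⊓ V₁).ι := T'.homOfLE_ι _
  have hj₁ : j₁ ≫ V₁.ι = (V₀ ⊓ V₁).ι := T'.homOfLE_ι _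
  have hj₀' : j₀ ≫ V₀.ι ≫ h' ≫ σ = (V₀ ⊓ V₁).ι ≫ h' ≫ σ := by
    rw [← Category.assoc, hj₀]
  have hj₁' : j₁ ≫ V₁.ι ≫ h' ≫ σ = (V₀ ⊓ V₁).ι ≫ h' ≫ σ := by
    rw [← Category.assoc, hj₁]
  let ψ₀₁ : SchemeHomOver ((V₀ ⊓ V₁).ι ≫ h' ≫ σ) (h' ≫ σ) := ⟨(V₀ ⊓ V₁).ι, rfl⟩
  let ξ₁ : SchemeHomOver ((V₀ ⊓ V₁).ι ≫ h' ≫ σ) (V₁.ι ≫ h' ≫ σ) := ⟨j₁, hj₁'⟩
  have c₀₁ : j₀ ≫ g₀.1 = j₁ ≫ g₁.1 :=
    classify_comp_eq h N ψ₀ g₀ i₀ ψ₀₁ (postComp g₁ ξ₁)
      ⟨(bcIso ξ₁ g₁ (postComp g₁ ξ₁) rfl h.poincare.L).symm ≪≫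
        (Scheme.Modules.pullback (baseChangeSnd c ξ₁)).mapIso i₁.some ≪≫
        bcIso ξ₁ ψ₁ ψ₀₁ hj₁ N⟩ ⟨j₀, hj₀'⟩ hj₀
  -- the induced maps to `Z`
  have hG₀w : g₀.1 ≫ D.toBase = (V₀.ι ≫ h' ≫ ρ) ≫ y := by
    rw [g₀.2, hσ]; simp only [Category.assoc]
  have hG₁w : g₁.1 ≫ D.toBase = (V₁.ι ≫ h' ≫ ρ) ≫ y := by
    rw [g₁.2, hσ]; simp only [Category.assoc]
  let G₀ : V₀.toScheme ⟶ Z := hP.lift g₀.1 (V₀.ι ≫ h' ≫ ρ) hG₀w
  let G₁ : V₁.toScheme ⟶ Z := hP.lift g₁.1 (V₁.ι ≫ h' ≫ ρ) hG₁w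
  have hG₀f : G₀ ≫ fst = g₀.1 := hP.lift_fst _ _ _
  have hG₀s : G₀ ≫ snd = V₀.ι ≫ h' ≫ ρ := hP.lift_snd _ _ _
  have hG₁f : G₁ ≫ fst = g₁.1 := hP.lift_fst _ _ _
  have hG₁s : G₁ ≫ snd = V₁.ι ≫ h' ≫ ρ := hP.lift_snd _ _ _
  have ht₀ : t₀.1 ≫ h' = 𝟙 _ := t₀.2
  have ht₁ : t₁.1 ≫ h' = 𝟙 _ := t₁.2
  have e₁G : x₁ ≫ G₁ = ω := by
    apply hP.hom_ext
    · rw [Category.assoc, hG₁f, c₁]
    · rw [Category.assoc, hG₁s, ← Category.assoc, hx₁, ← Category.assoc, ht₁, Category.id_comp]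
  have e₀G : x₀ ≫ G₀ = ρ ≫ ζ := by
    apply hP.hom_ext
    · rw [Category.assoc, hG₀f, c₀, Category.assoc ρ, hζ₁, hσ, Category.assoc]
    · rw [Category.assoc, hG₀s, ← Category.assoc, hx₀, ← Category.assoc, ht₀, Category.id_comp,
        Category.assoc, hζ₂, Category.comp_id]
  have e₀₁G : j₀ ≫ G₀ = j₁ ≫ G₁ := by
    apply hP.hom_ext
    · rw [Category.assoc, hG₀f, c₀₁, Category.assoc, hG₁f]
    · rw [Category.assoc, hG₀s, ← Category.assoc, hj₀, Category.assoc, hG₁s, ← Category.assoc j₁,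
        hj₁]
  -- topology
  have : Nonempty V₀ := ⟨⟨_, h0V⟩⟩
  have : Nonempty V₁ := ⟨⟨_, h1V⟩⟩
  obtain ⟨b, hb₀, hb₁⟩ := nonempty_preirreducible_inter V₀.isOpen V₁.isOpen
    ⟨_, h0V⟩ ⟨_, h1V⟩
  let b' : (V₀ ⊓ V₁ : T'.Opens) := ⟨b, hb₀, hb₁⟩
  have hS₀ : Set.range G₀.base ⊆ connectedComponent (ζ.base q) := by
    refine (isPreconnected_range G₀.continuous).subset_connectedComponent ⟨x₀.base p, ?_⟩
    have := congrArg (fun f => f.base p) e₀G
    simp only [Scheme.Hom.comp_base, TopCat.comp_app] at this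
    rw [this, Subsingleton.elim (ρ.base p) q]
  have hm : G₁.base (j₁.base b') ∈ connectedComponent (ζ.base q) := by
    have := congrArg (fun f => f.base b') e₀₁G
    simp only [Scheme.Hom.comp_base, TopCat.comp_app] at this
    rw [← this]
    exact hS₀ ⟨_, rfl⟩
  have hS₁ : Set.range G₁.base ⊆ connectedComponent (ζ.base q) := by
    rw [connectedComponent_eq hm]
    exact (isPreconnected_range G₁.continuous).subset_connectedComponent ⟨_, rfl⟩
  have := congrArg (fun f => f.base p) e₁G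
  simp only [Scheme.Hom.comp_base, TopCat.comp_app] at this
  rw [← this]
  exact hS₁ ⟨_, rfl⟩

/-! ### Geometric connectedness -/

/-- **GC from the cut.** Any scheme representing the functor of rigidified line bundles which
are fibrewise algebraically equivalent to zero is geometrically connected over the base. -/
theorem geometricallyConnected_of_represents (D : RelativePic0Designation R c)
    (h : RepresentsRelSubPic c ε (algEquivZeroCut c ε) D) :
    GeometricallyConnected D.toBase := by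
  refine ⟨fun K _ y Z fst snd hP => ?_⟩
  change ConnectedSpace Z
  -- the zero point of `Z`
  have hw : (y ≫ D.zeroSection) ≫ D.toBase = 𝟙 _ ≫ y := by
    rw [Category.assoc, D.zeroSection_toBase, Category.comp_id, Category.id_comp]
  let ζ : Spec (CommRingCat.of K) ⟶ Z := hP.lift (y ≫ D.zeroSection) (𝟙 _) hw
  have hζ₁ : ζ ≫ fst = y ≫ D.zeroSection := hP.lift_fst _ _ _
  have hζ₂ : ζ ≫ snd = 𝟙 _ := hP.lift_snd _ _ _
  refine connectedSpace_iff_connectedComponent.mpr ⟨ζ.base default, Set.eq_univ_of_forall ?_⟩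
  intro z
  -- a geometric point over `z`
  let ω : Spec (CommRingCat.of (AlgebraicClosure (Z.residueField z))) ⟶ Z :=
    Spec.map (CommRingCat.ofHom
      (algebraMap (Z.residueField z) (AlgebraicClosure (Z.residueField z)))) ≫
      Z.fromSpecResidueField z
  have hω : ω.base default = z := by
    simp only [ω, Scheme.Hom.comp_base, TopCat.comp_app]
    exact Z.fromSpecResidueField_apply z _
  rw [← hω]
  exact mem_connectedComponent_zero h hP ζ hζ₁ hζ₂ _ ω default default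

/-- The Spec leaf `Stmt_GC`. -/
theorem stmt_GC : helper1705.Stmt_GC.{u} :=
  fun _ _ _ _ _ _ D hD _ => geometricallyConnected_of_represents D hD.some

end

end Fermat.Agent.S25.helper3249
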