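import Mathlib

/-!
# S25 brick LC: lattice cohomology on `ℙ¹_B` (helper905)

Pure commutative algebra, Mathlib only, statement-agnostic.

A vector bundle on `ℙ¹_B` in two-chart form is encoded by a `B`-module `N` (sections over the
overlap) with a `B`-linear automorphism `T` (multiplication by the coordinate `x`) and two
`B`-submodules `Λ₀` (sections over the chart `x ≠ ∞`, stable under `T`) and `Λ₁` (sections over
the chart `x ≠ 0`, stable under `T⁻¹`).  Then

* `H⁰ = Λ₀ ⊓ Λ₁`, `H¹ = N ⧸ (Λ₀ ⊔ Λ₁)`;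
* twisting by `m` times the divisor at infinity replaces `Λ₁` by `tw T Λ₁ m = T ^ m (Λ₁)`.

For a line bundle on a curve `C ×ₖ Spec B` with a finite map `x : C → ℙ¹` take `N := M₀₁` as a
`B`-module, `T :=` multiplication by `x`, `Λ₀ :=` image of `M₀`, `Λ₁ :=` image of `M₁`.
-/

set_option autoImplicit false

open Submodule

namespace Fermat.Agent.S25.helper905

section Weak

variable {B : Type*} [CommRing B] {N : Type*} [AddCommGroup N] [Module B N]

theorem zpow_add_apply (T : N ≃ₗ[B] N) (a b : ℤ) (n : N) :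
    (T ^ (a + b)) n = (T ^ a) ((T ^ b) n) := by
  rw [zpow_add]; rfl

theorem zpow_neg_apply_zpow (T : N ≃ₗ[B] N) (a : ℤ) (n : N) :
    (T ^ (-a)) ((T ^ a) n) = n := by
  rw [← zpow_add_apply]; simp

theorem zpow_apply_zpow_neg (T : N ≃ₗ[B] N) (a : ℤ) (n : N) :
    (T ^ a) ((T ^ (-a)) n) = n := by
  rw [← zpow_add_apply]; simp

theorem zpow_symm (T : N ≃ₗ[B] N) (a : ℤ) : (T ^ a).symm = T ^ (-a) := by
  rw [zpow_neg]; rfl

theorem symm_zpow (T : N ≃ₗ[B] N) (a : ℤ) : T.symm ^ a = T ^ (-a) := by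
  rw [zpow_neg]
  change T⁻¹ ^ a = (T ^ a)⁻¹
  rw [inv_zpow]

/-- The twist of a lattice: `tw T Λ m = T ^ m (Λ)`. For the chart at infinity this is the
lattice of sections with a pole of order `≤ m` along the divisor at infinity. -/
def tw (T : N ≃ₗ[B] N) (Λ : Submodule B N) (m : ℤ) : Submodule B N :=
  Λ.map ((T ^ m : N ≃ₗ[B] N) : N →ₗ[B] N)

theorem mem_tw {T : N ≃ₗ[B] N} {Λ : Submodule B N} {m : ℤ} {n : N} :
    n ∈ tw T Λ m ↔ (T ^ (-m)) n ∈ Λ := by
  unfold tw
  rw [Submodule.mem_map_equiv, zpow_symm]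

theorem zpow_mem_tw {T : N ≃ₗ[B] N} {Λ : Submodule B N} (m : ℤ) {n : N} (hn : n ∈ Λ) :
    (T ^ m) n ∈ tw T Λ m := by
  rw [mem_tw, zpow_neg_apply_zpow]; exact hn

@[simp] theorem tw_zero (T : N ≃ₗ[B] N) (Λ : Submodule B N) : tw T Λ 0 = Λ := by
  ext n; rw [mem_tw]; simp

theorem tw_tw (T : N ≃ₗ[B] N) (Λ : Submodule B N) (a b : ℤ) :
    tw T (tw T Λ a) b = tw T Λ (a + b) := by
  ext n
  rw [mem_tw, mem_tw, mem_tw, ← zpow_add_apply, neg_add]

theorem tw_sup (T : N ≃ₗ[B] N) (Λ Λ' : Submodule B N) (m : ℤ) :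
    tw T (Λ ⊔ Λ') m = tw T Λ m ⊔ tw T Λ' m := by
  unfold tw; exact Submodule.map_sup _ _ _

theorem tw_inf (T : N ≃ₗ[B] N) (Λ Λ' : Submodule B N) (m : ℤ) :
    tw T (Λ ⊓ Λ') m = tw T Λ m ⊓ tw T Λ' m := by
  ext n; simp only [mem_tw, Submodule.mem_inf]

theorem tw_top (T : N ≃ₗ[B] N) (m : ℤ) : tw T (⊤ : Submodule B N) m = ⊤ := by
  ext n; simp only [mem_tw, Submodule.mem_top]

theorem tw_bot (T : N ≃ₗ[B] N) (m : ℤ) : tw T (⊥ : Submodule B N) m = ⊥ := by
  unfold tw; exact Submodule.map_bot _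

theorem tw_mono_left (T : N ≃ₗ[B] N) {Λ Λ' : Submodule B N} (h : Λ ≤ Λ') (m : ℤ) :
    tw T Λ m ≤ tw T Λ' m := by
  unfold tw; exact Submodule.map_mono h

/-- A lattice stable under `T` is stable under all non-negative powers of `T`. -/
theorem zpow_natCast_mem {T : N ≃ₗ[B] N} {Λ : Submodule B N} (h : ∀ n ∈ Λ, T n ∈ Λ) (j : ℕ)
    {n : N} (hn : n ∈ Λ) : (T ^ (j : ℤ)) n ∈ Λ := by
  induction j with
  | zero => simpa using hn
  | succ j ih =>
    have : ((j + 1 : ℕ) : ℤ) = 1 + (j : ℤ) := by push_cast; ring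
    rw [this, zpow_add_apply]
    simpa using h _ ih

theorem zpow_neg_natCast_mem {T : N ≃ₗ[B] N} {Λ : Submodule B N} (h : ∀ n ∈ Λ, T.symm n ∈ Λ)
    (j : ℕ) {n : N} (hn : n ∈ Λ) : (T ^ (-(j : ℤ))) n ∈ Λ := by
  have := zpow_natCast_mem (T := T.symm) h j hn
  rwa [symm_zpow] at this

/-- For a lattice stable under `T⁻¹` the twists increase with `m`. -/
theorem tw_mono {T : N ≃ₗ[B] N} {Λ : Submodule B N} (h : ∀ n ∈ Λ, T.symm n ∈ Λ) {m m' : ℤ}
    (hm : m ≤ m') : tw T Λ m ≤ tw T Λ m' := by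
  intro n hn
  rw [mem_tw] at hn ⊢
  obtain ⟨j, hj⟩ := Int.le.dest hm
  have : -m' = -(j : ℤ) + -m := by omega
  rw [this, zpow_add_apply]
  exact zpow_neg_natCast_mem h j hn

/-- For a lattice stable under `T` the twists decrease with `m`. -/
theorem tw_anti {T : N ≃ₗ[B] N} {Λ : Submodule B N} (h : ∀ n ∈ Λ, T n ∈ Λ) {m m' : ℤ}
    (hm : m ≤ m') : tw T Λ m' ≤ tw T Λ m := by
  intro n hn
  rw [mem_tw] at hn ⊢
  obtain ⟨j, hj⟩ := Int.le.dest hm
  have : -m = (j : ℤ) + -m' := by omega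
  rw [this, zpow_add_apply]
  exact zpow_natCast_mem h j hn

/-- The weak hypotheses on a pair of lattices: `N` is finitely generated over `B[T, T⁻¹]`,
`Λ₀` is `T`-stable and exhausts `N` under `T⁻¹`, `Λ₁` is `T⁻¹`-stable and exhausts `N` under `T`.
-/
structure IsLatticePair (T : N ≃ₗ[B] N) (Λ₀ Λ₁ : Submodule B N) : Prop where
  stable₀ : ∀ n ∈ Λ₀, T n ∈ Λ₀
  stable₁ : ∀ n ∈ Λ₁, T.symm n ∈ Λ₁
  exh₀ : ∀ n, ∃ j : ℕ, (T ^ (j : ℤ)) n ∈ Λ₀
  exh₁ : ∀ n, ∃ j : ℕ, (T ^ (-(j : ℤ))) n ∈ Λ₁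
  fg : ∃ S : Finset N, Submodule.span B {n | ∃ s ∈ S, ∃ j : ℤ, n = (T ^ j) s} = ⊤

namespace IsLatticePair

variable {T : N ≃ₗ[B] N} {Λ₀ Λ₁ : Submodule B N}

/-- Twisting the lattice at infinity preserves the hypotheses. -/
theorem tw_right (h : IsLatticePair T Λ₀ Λ₁) (m : ℤ) : IsLatticePair T Λ₀ (tw T Λ₁ m) where
  stable₀ := h.stable₀
  stable₁ := by
    intro n hn
    rw [mem_tw] at hn ⊢
    have := h.stable₁ _ hn
    have e : T.symm ((T ^ (-m)) n) = (T ^ (-m)) (T.symm n) := by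
      have h1 : T.symm ((T ^ (-m)) n) = (T ^ (-1 + -m)) n := by
        rw [zpow_add_apply]; simp
      have h2 : (T ^ (-m)) (T.symm n) = (T ^ (-m + -1)) n := by
        rw [zpow_add_apply]; simp
      rw [h1, h2, add_comm]
    rwa [e] at this
  exh₀ := h.exh₀
  exh₁ := by
    intro n
    obtain ⟨j, hj⟩ := h.exh₁ ((T ^ (-m)) n)
    refine ⟨j, ?_⟩
    rw [mem_tw, ← zpow_add_apply, add_comm, zpow_add_apply]
    exact hj
  fg := h.fg

/-- **Finiteness of `H¹`, explicit form**: there is a finite set `G` with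
`Λ₀ ⊔ Λ₁ ⊔ span G = ⊤`. -/
theorem exists_finset_sup_eq_top (h : IsLatticePair T Λ₀ Λ₁) :
    ∃ G : Finset N, Λ₀ ⊔ Λ₁ ⊔ Submodule.span B (G : Set N) = ⊤ := by
  classical
  obtain ⟨S, hS⟩ := h.fg
  choose a ha using h.exh₁
  choose b hb using h.exh₀
  refine ⟨S.biUnion fun s => (Finset.Ioo (-(a s : ℤ)) (b s : ℤ)).image fun j => (T ^ j) s, ?_⟩
  rw [eq_top_iff, ← hS, Submodule.span_le]
  rintro _ ⟨s, hs, j, rfl⟩
  by_cases h1 : (b s : ℤ) ≤ j
  · -- in `Λ₀`
    obtain ⟨i, hi⟩ := Int.le.dest h1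
    have : j = (i : ℤ) + (b s : ℤ) := by omega
    rw [this]
    apply Submodule.mem_sup_left; apply Submodule.mem_sup_left
    rw [zpow_add_apply]
    exact zpow_natCast_mem h.stable₀ i (hb s)
  · by_cases h2 : j ≤ -(a s : ℤ)
    · obtain ⟨i, hi⟩ := Int.le.dest h2
      have : j = -(i : ℤ) + -(a s : ℤ) := by omega
      rw [this]
      apply Submodule.mem_sup_left; apply Submodule.mem_sup_right
      rw [zpow_add_apply]
      exact zpow_neg_natCast_mem h.stable₁ i (ha s)
    · apply Submodule.mem_sup_right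
      apply Submodule.subset_span
      simp only [Finset.coe_biUnion, Finset.coe_image, Set.mem_iUnion, Set.mem_image,
        Finset.mem_coe, Finset.mem_Ioo]
      exact ⟨s, hs, j, ⟨by omega, by omega⟩, rfl⟩

/-- **(LC1) Finiteness of `H¹`**: `N ⧸ (Λ₀ ⊔ Λ₁)` is a finite `B`-module. -/
theorem finite_quotient (h : IsLatticePair T Λ₀ Λ₁) : Module.Finite B (N ⧸ (Λ₀ ⊔ Λ₁)) := by
  obtain ⟨G, hG⟩ := h.exists_finset_sup_eq_top
  rw [Module.finite_def]
  have : (⊤ : Submodule B (N ⧸ (Λ₀ ⊔ Λ₁))) = (Submodule.span B (G : Set N)).map (Λ₀ ⊔ Λ₁).mkQ := by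
    rw [eq_comm, eq_top_iff]
    rintro x -
    obtain ⟨n, rfl⟩ := Submodule.mkQ_surjective _ x
    have hn : n ∈ Λ₀ ⊔ Λ₁ ⊔ Submodule.span B (G : Set N) := by rw [hG]; trivial
    obtain ⟨u, hu, v, hv, rfl⟩ := Submodule.mem_sup.mp hn
    refine ⟨v, hv, ?_⟩
    simp only [Submodule.mkQ_apply, Submodule.Quotient.mk_add]
    rw [(Submodule.Quotient.mk_eq_zero _).mpr hu, zero_add]
  rw [this]
  exact (Submodule.fg_span G.finite_toSet).map _

/-- **(LC2) Serre vanishing**: `H¹` of the `m`-th twist vanishes for all large `m`. -/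
theorem exists_sup_tw_eq_top (h : IsLatticePair T Λ₀ Λ₁) :
    ∃ m₀ : ℕ, ∀ m : ℤ, (m₀ : ℤ) ≤ m → Λ₀ ⊔ tw T Λ₁ m = ⊤ := by
  classical
  obtain ⟨G, hG⟩ := h.exists_finset_sup_eq_top
  choose a ha using h.exh₁
  refine ⟨G.sup a, fun m hm => ?_⟩
  rw [eq_top_iff, ← hG]
  refine sup_le (sup_le le_sup_left ?_) ?_
  · refine le_trans ?_ le_sup_right
    have := tw_mono h.stable₁ (m := 0) (m' := m) (by omega)
    simpa using this
  · refine le_trans ?_ le_sup_right
    rw [Submodule.span_le]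
    intro g hg
    have h1 : g ∈ tw T Λ₁ (a g) := by rw [mem_tw]; exact ha g
    have h2 : (a g : ℤ) ≤ m := by
      have : a g ≤ G.sup a := Finset.le_sup hg
      omega
    exact tw_mono h.stable₁ h2 h1

end IsLatticePair

end Weak


section Std

variable (B : Type*) [CommRing B] (r : ℕ)

/-- The standard module `B[T, T⁻¹]^r`, with `B`-basis the monomials `T^j e_a`. -/
abbrev Std := (ℤ × Fin r) →₀ B

/-- Multiplication by `T^m` on the standard module. -/
noncomputable def shiftBy (m : ℤ) : Std B r ≃ₗ[B] Std B r :=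
  Finsupp.domLCongr ((Equiv.addRight m).prodCongr (Equiv.refl (Fin r)))

/-- Multiplication by `T` on the standard module. -/
noncomputable def shift : Std B r ≃ₗ[B] Std B r := shiftBy B r 1

variable {B r}

@[simp] theorem shiftBy_single (m j : ℤ) (a : Fin r) (b : B) :
    shiftBy B r m (Finsupp.single (j, a) b) = Finsupp.single (j + m, a) b := by
  simp [shiftBy]

theorem shiftBy_apply (m : ℤ) (v : Std B r) (j : ℤ) (a : Fin r) :
    shiftBy B r m v (j, a) = v (j - m, a) := by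
  simp only [shiftBy, Finsupp.domLCongr_apply]
  rfl

theorem shiftBy_add (m m' : ℤ) : shiftBy B r (m + m') = shiftBy B r m * shiftBy B r m' := by
  apply LinearEquiv.toLinearMap_injective
  apply Finsupp.lhom_ext
  rintro ⟨j, a⟩ b
  change shiftBy B r (m + m') _ = shiftBy B r m (shiftBy B r m' _)
  simp only [shiftBy_single]
  congr 2
  ring

theorem shiftBy_zero : shiftBy B r 0 = 1 := by
  apply LinearEquiv.toLinearMap_injective
  apply Finsupp.lhom_ext
  rintro ⟨j, a⟩ b
  change shiftBy B r 0 _ = _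
  simp

theorem shift_zpow (m : ℤ) : shift B r ^ m = shiftBy B r m := by
  induction m using Int.induction_on with
  | zero => simp [shiftBy_zero]
  | succ k ih => rw [zpow_add, ih, zpow_one, shiftBy_add]; rfl
  | pred k ih =>
    have h1 : shiftBy B r (-(k : ℤ) - 1) * shift B r = shiftBy B r (-(k : ℤ)) := by
      change shiftBy B r (-(k : ℤ) - 1) * shiftBy B r 1 = _
      rw [← shiftBy_add]; congr 1; ring
    rw [sub_eq_add_neg, zpow_add, ih, zpow_neg, zpow_one, ← h1, ← sub_eq_add_neg, mul_assoc,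
      mul_inv_cancel, mul_one]

theorem shift_zpow_apply (m : ℤ) (v : Std B r) (j : ℤ) (a : Fin r) :
    (shift B r ^ m) v (j, a) = v (j - m, a) := by
  rw [shift_zpow, shiftBy_apply]

@[simp] theorem shift_zpow_single (m j : ℤ) (a : Fin r) (b : B) :
    (shift B r ^ m) (Finsupp.single (j, a) b) = Finsupp.single (j + m, a) b := by
  rw [shift_zpow, shiftBy_single]

variable (B r)

/-- The `B`-submodule of the standard module of elements with degrees in `s`. -/
def Dg (s : Set ℤ) : Submodule B (Std B r) := Finsupp.supported B B (Prod.fst ⁻¹' s)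

variable {B r}

theorem mem_Dg {s : Set ℤ} {v : Std B r} : v ∈ Dg B r s ↔ ∀ j a, j ∉ s → v (j, a) = 0 := by
  unfold Dg
  rw [Finsupp.mem_supported']
  constructor
  · intro h j a hj; exact h (j, a) hj
  · rintro h ⟨j, a⟩ hj; exact h j a hj

theorem Dg_mono {s t : Set ℤ} (h : s ⊆ t) : Dg B r s ≤ Dg B r t :=
  Finsupp.supported_mono (Set.preimage_mono h)

theorem single_mem_Dg {s : Set ℤ} {j : ℤ} (hj : j ∈ s) (a : Fin r) (b : B) :
    Finsupp.single (j, a) b ∈ Dg B r s :=
  Finsupp.single_mem_supported B b (by simpa using hj)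

theorem shift_zpow_mem_Dg {s t : Set ℤ} (m : ℤ) (hst : ∀ j ∈ s, j + m ∈ t) {v : Std B r}
    (hv : v ∈ Dg B r s) : (shift B r ^ m) v ∈ Dg B r t := by
  rw [mem_Dg] at hv ⊢
  intro j a hj
  rw [shift_zpow_apply]
  apply hv
  intro h
  apply hj
  have := hst _ h
  simpa using this

theorem Dg_inf_eq_bot {s t : Set ℤ} (h : Disjoint s t) : Dg B r s ⊓ Dg B r t = ⊥ := by
  rw [eq_bot_iff]
  rintro v ⟨hs, ht⟩
  rw [SetLike.mem_coe, mem_Dg] at hs ht
  rw [Submodule.mem_bot]
  ext ⟨j, a⟩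
  by_cases hj : j ∈ s
  · exact ht j a (fun h' => Set.disjoint_left.mp h hj h')
  · exact hs j a hj

/-- Every element of the standard module has bounded degrees. -/
theorem exists_mem_Dg_Icc (v : Std B r) : ∃ d : ℕ, v ∈ Dg B r (Set.Icc (-(d : ℤ)) d) := by
  classical
  refine ⟨v.support.sup fun q => q.1.natAbs, ?_⟩
  rw [mem_Dg]
  intro j a hj
  by_contra hne
  apply hj
  have hmem : (j, a) ∈ v.support := Finsupp.mem_support_iff.mpr hne
  have : j.natAbs ≤ v.support.sup fun q => q.1.natAbs :=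
    Finset.le_sup (f := fun q : ℤ × Fin r => q.1.natAbs) hmem
  constructor <;> omega

open Classical in
/-- Truncation to degrees in `s`: a `B`-linear projection of the standard module onto
`Dg B r s`. -/
noncomputable def trunc (B : Type*) [CommRing B] (r : ℕ) (s : Set ℤ) : Std B r →ₗ[B] Std B r :=
  (Finsupp.supported B B (Prod.fst ⁻¹' s)).subtype ∘ₗ Finsupp.restrictDom B B (Prod.fst ⁻¹' s)

theorem trunc_apply_of_mem {s : Set ℤ} (v : Std B r) {j : ℤ} (hj : j ∈ s) (a : Fin r) :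
    trunc B r s v (j, a) = v (j, a) := by
  classical
  simp only [trunc, LinearMap.coe_comp, Function.comp_apply, Submodule.coe_subtype,
    Finsupp.restrictDom_apply, Finsupp.filter_apply, Set.mem_preimage, if_pos hj]

theorem trunc_apply_of_notMem {s : Set ℤ} (v : Std B r) {j : ℤ} (hj : j ∉ s) (a : Fin r) :
    trunc B r s v (j, a) = 0 := by
  classical
  simp only [trunc, LinearMap.coe_comp, Function.comp_apply, Submodule.coe_subtype,
    Finsupp.restrictDom_apply, Finsupp.filter_apply, Set.mem_preimage, if_neg hj]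

theorem trunc_mem (s : Set ℤ) (v : Std B r) : trunc B r s v ∈ Dg B r s := by
  rw [mem_Dg]
  intro j a hj
  exact trunc_apply_of_notMem v hj a

theorem trunc_eq_self {s : Set ℤ} {v : Std B r} (hv : v ∈ Dg B r s) : trunc B r s v = v := by
  rw [mem_Dg] at hv
  ext ⟨j, a⟩
  by_cases h : j ∈ s
  · exact trunc_apply_of_mem v h a
  · rw [trunc_apply_of_notMem v h a, hv j a h]

theorem trunc_eq_zero {s t : Set ℤ} (h : Disjoint s t) {v : Std B r} (hv : v ∈ Dg B r t) :
    trunc B r s v = 0 := by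
  rw [mem_Dg] at hv
  ext ⟨j, a⟩
  by_cases h' : j ∈ s
  · rw [trunc_apply_of_mem v h' a]
    exact hv j a (fun h'' => Set.disjoint_left.mp h h' h'')
  · exact trunc_apply_of_notMem v h' a

/-- `Dg B r s` is a finitely generated `B`-module when `s` is finite. -/
theorem Dg_fg {s : Set ℤ} (hs : s.Finite) : (Dg B r s).FG := by
  unfold Dg
  rw [Finsupp.supported_eq_span_single]
  apply Submodule.fg_span
  apply Set.Finite.image
  have : (Prod.fst ⁻¹' s : Set (ℤ × Fin r)) = s ×ˢ (Set.univ : Set (Fin r)) := by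
    ext ⟨j, a⟩; simp
  rw [this]
  exact hs.prod Set.finite_univ

end Std


section Triv

universe u v

variable {B : Type u} [CommRing B] {N : Type v} [AddCommGroup N] [Module B N]

/-- Equivariance for all integer powers from equivariance for the generator. -/
theorem zpow_equivariant {R R' : Type*} [CommRing R] [CommRing R'] {M M' : Type*} [AddCommGroup M]
    [Module R M] [AddCommGroup M'] [Module R' M'] (S : M ≃ₗ[R] M) (S' : M' ≃ₗ[R'] M')
    (f : M → M') (h : ∀ x, f (S x) = S' (f x)) (m : ℤ) (x : M) :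
    f ((S ^ m) x) = (S' ^ m) (f x) := by
  have hinv : ∀ x, f (S.symm x) = S'.symm (f x) := by
    intro x
    apply S'.injective
    rw [← h]; simp
  induction m using Int.induction_on generalizing x with
  | zero => simp
  | succ k ih =>
    rw [zpow_add_apply S k 1 x, zpow_add_apply S' k 1 (f x), ih]
    simp [h]
  | pred k ih =>
    rw [sub_eq_add_neg, zpow_add_apply S (-(k : ℤ)) (-1) x,
      zpow_add_apply S' (-(k : ℤ)) (-1) (f x), ih]
    simp only [zpow_neg_one]
    exact congrArg _ (hinv x)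

/-- A trivialization of a lattice `Λ` in `(N, T)`: the pair `(N, Λ)` is a `T`-equivariant
`B`-linear retract of the standard pair `(B[T,T⁻¹]^r, B[T]^r)`.  Equivalently: `Λ` is a finitely
generated projective `B[T]`-module and `N = Λ[1/T]`.  For the lattice at infinity use
`LatticeTriv T.symm Λ₁`. -/
structure LatticeTriv (T : N ≃ₗ[B] N) (Λ : Submodule B N) : Type (max u v) where
  r : ℕ
  i : N →ₗ[B] Std B r
  p : Std B r →ₗ[B] N
  i_T : ∀ n, i (T n) = shift B r (i n)
  p_T : ∀ w, p (shift B r w) = T (p w)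
  p_i : ∀ n, p (i n) = n
  i_mem : ∀ n ∈ Λ, i n ∈ Dg B r (Set.Ici 0)
  p_mem : ∀ w ∈ Dg B r (Set.Ici 0), p w ∈ Λ

namespace LatticeTriv

variable {T : N ≃ₗ[B] N} {Λ : Submodule B N} (c : LatticeTriv T Λ)

theorem i_zpow (m : ℤ) (n : N) : c.i ((T ^ m) n) = (shift B c.r ^ m) (c.i n) :=
  zpow_equivariant T (shift B c.r) c.i c.i_T m n

theorem p_zpow (m : ℤ) (w : Std B c.r) : c.p ((shift B c.r ^ m) w) = (T ^ m) (c.p w) :=
  zpow_equivariant (shift B c.r) T c.p c.p_T m w

include c in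
theorem stable : ∀ n ∈ Λ, T n ∈ Λ := by
  intro n hn
  rw [← c.p_i (T n), c.i_T]
  apply c.p_mem
  have := shift_zpow_mem_Dg (B := B) (r := c.r) (s := Set.Ici 0) (t := Set.Ici 0) 1
    (fun j hj => by simp only [Set.mem_Ici] at hj ⊢; omega) (c.i_mem n hn)
  simpa using this

include c in
theorem exh (n : N) : ∃ j : ℕ, (T ^ (j : ℤ)) n ∈ Λ := by
  obtain ⟨d, hd⟩ := exists_mem_Dg_Icc (c.i n)
  refine ⟨d, ?_⟩
  rw [← c.p_i ((T ^ (d : ℤ)) n), c.i_zpow]
  apply c.p_mem
  exact shift_zpow_mem_Dg (d : ℤ)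
    (fun j hj => by simp only [Set.mem_Icc, Set.mem_Ici] at hj ⊢; omega) hd

/-- The `B`-linear retraction of `N` onto `Λ` given by a trivialization. -/
noncomputable def retr : N →ₗ[B] N := c.p ∘ₗ trunc B c.r (Set.Ici 0) ∘ₗ c.i

theorem retr_mem (n : N) : c.retr n ∈ Λ := c.p_mem _ (trunc_mem _ _)

theorem retr_eq {n : N} (hn : n ∈ Λ) : c.retr n = n := by
  simp only [retr, LinearMap.coe_comp, Function.comp_apply]
  rw [trunc_eq_self (c.i_mem n hn), c.p_i]

include c in
theorem projective : Module.Projective B N :=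
  Module.Projective.of_split c.i c.p (by ext n; simp [c.p_i])

include c in
theorem span_orbit_eq_top : ∃ S : Finset N,
    Submodule.span B {n | ∃ s ∈ S, ∃ j : ℤ, n = (T ^ j) s} = ⊤ := by
  classical
  refine ⟨Finset.univ.image fun a : Fin c.r => c.p (Finsupp.single (0, a) 1), ?_⟩
  rw [eq_top_iff]
  rintro n -
  have h1 : c.i n ∈ Submodule.span B
      ((fun q : ℤ × Fin c.r => Finsupp.single q (1 : B)) '' Set.univ) := by
    rw [← Finsupp.supported_eq_span_single, Finsupp.supported_univ]; trivial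
  have h2 : c.p (c.i n) ∈ (Submodule.span B
      ((fun q : ℤ × Fin c.r => Finsupp.single q (1 : B)) '' Set.univ)).map c.p :=
    Submodule.mem_map_of_mem h1
  rw [c.p_i, Submodule.map_span] at h2
  refine Submodule.span_mono ?_ h2
  rintro _ ⟨_, ⟨⟨j, a⟩, -, rfl⟩, rfl⟩
  refine ⟨c.p (Finsupp.single (0, a) 1), by simp, j, ?_⟩
  rw [← c.p_zpow, shift_zpow_single, zero_add]

end LatticeTriv

variable {T : N ≃ₗ[B] N} {Λ₀ Λ₁ : Submodule B N}

/-- Trivializations of both lattices give the weak hypotheses. -/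
theorem LatticeTriv.isLatticePair (c₀ : LatticeTriv T Λ₀) (c₁ : LatticeTriv T.symm Λ₁) :
    IsLatticePair T Λ₀ Λ₁ where
  stable₀ := c₀.stable
  stable₁ := c₁.stable
  exh₀ := c₀.exh
  exh₁ := by
    intro n
    obtain ⟨j, hj⟩ := c₁.exh n
    exact ⟨j, by rwa [symm_zpow] at hj⟩
  fg := c₀.span_orbit_eq_top

/-- The degrees of the second lattice, measured in a trivialization of the first, are bounded
above. -/
theorem LatticeTriv.exists_bound (c₀ : LatticeTriv T Λ₀) (c₁ : LatticeTriv T.symm Λ₁) :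
    ∃ d : ℕ, ∀ n ∈ Λ₁, c₀.i n ∈ Dg B c₀.r (Set.Iic (d : ℤ)) := by
  classical
  have hex : ∀ a : Fin c₁.r, ∃ d : ℕ,
      c₀.i (c₁.p (Finsupp.single (0, a) 1)) ∈ Dg B c₀.r (Set.Icc (-(d : ℤ)) d) :=
    fun a => exists_mem_Dg_Icc _
  choose d hd using hex
  refine ⟨Finset.univ.sup d, ?_⟩
  have key : Dg B c₁.r (Set.Ici 0) ≤
      (Dg B c₀.r (Set.Iic ((Finset.univ.sup d : ℕ) : ℤ))).comap (c₀.i ∘ₗ c₁.p) := by
    unfold Dg
    rw [Finsupp.supported_eq_span_single, Submodule.span_le]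
    rintro _ ⟨⟨j, a⟩, hj, rfl⟩
    simp only [Set.mem_preimage, Set.mem_Ici] at hj
    simp only [SetLike.mem_coe, Submodule.mem_comap, LinearMap.coe_comp, Function.comp_apply]
    have e1 : (Finsupp.single (j, a) (1 : B) : Std B c₁.r)
        = (shift B c₁.r ^ j) (Finsupp.single (0, a) 1) := by
      rw [shift_zpow_single, zero_add]
    rw [e1, c₁.p_zpow, symm_zpow, c₀.i_zpow]
    refine shift_zpow_mem_Dg (-j) ?_ (hd a)
    intro t ht
    have : d a ≤ Finset.univ.sup d := Finset.le_sup (Finset.mem_univ a)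
    simp only [Set.mem_Icc, Set.mem_Iic] at ht ⊢
    omega
  intro n hn
  have := key (c₁.i_mem n hn)
  simpa [c₁.p_i] using this

/-- **(LC4) Negative vanishing**: `H⁰` of all sufficiently negative twists vanishes. -/
theorem LatticeTriv.exists_inf_tw_eq_bot (c₀ : LatticeTriv T Λ₀) (c₁ : LatticeTriv T.symm Λ₁) :
    ∃ m₀ : ℕ, ∀ m : ℤ, (m₀ : ℤ) ≤ m → Λ₀ ⊓ tw T Λ₁ (-m) = ⊥ := by
  obtain ⟨d, hd⟩ := c₀.exists_bound c₁
  refine ⟨d + 1, fun m hm => ?_⟩
  rw [eq_bot_iff]
  rintro x ⟨hx0, hx1⟩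
  rw [SetLike.mem_coe, mem_tw, neg_neg] at hx1
  rw [Submodule.mem_bot]
  have h0 : c₀.i x ∈ Dg B c₀.r (Set.Ici 0) := c₀.i_mem x hx0
  have h1 : c₀.i x ∈ Dg B c₀.r (Set.Iio 0) := by
    have h2 := hd _ hx1
    rw [c₀.i_zpow] at h2
    have h3 := shift_zpow_mem_Dg (B := B) (r := c₀.r) (s := Set.Iic (d : ℤ)) (t := Set.Iio 0) (-m)
      (fun j hj => by simp only [Set.mem_Iic, Set.mem_Iio] at hj ⊢; push_cast at hm; omega) h2
    rwa [zpow_neg_apply_zpow] at h3
  have h4 : c₀.i x ∈ Dg B c₀.r (Set.Ici 0) ⊓ Dg B c₀.r (Set.Iio 0) := ⟨h0, h1⟩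
  rw [Dg_inf_eq_bot (by
    rw [Set.disjoint_left]; intro j hj hj'; simp only [Set.mem_Ici, Set.mem_Iio] at hj hj'
    omega), Submodule.mem_bot] at h4
  rw [← c₀.p_i x, h4, map_zero]

end Triv


section Split

universe u v

variable {B : Type u} [CommRing B] {N : Type v} [AddCommGroup N] [Module B N]

/-- Splitting data for two submodules `Λ₀`, `Λ₁` with `Λ₀ + Λ₁ = N`: `B`-linear retractions
`ρ₀`, `ρ₁` of `N` onto them and a `B`-linear decomposition `n = s₀ n + s₁ n`. -/
structure SplitData (Λ₀ Λ₁ : Submodule B N) : Type v where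
  ρ₀ : N →ₗ[B] N
  ρ₁ : N →ₗ[B] N
  s₀ : N →ₗ[B] N
  s₁ : N →ₗ[B] N
  ρ₀_mem : ∀ n, ρ₀ n ∈ Λ₀
  ρ₀_eq : ∀ n ∈ Λ₀, ρ₀ n = n
  ρ₁_mem : ∀ n, ρ₁ n ∈ Λ₁
  ρ₁_eq : ∀ n ∈ Λ₁, ρ₁ n = n
  s₀_mem : ∀ n, s₀ n ∈ Λ₀
  s₁_mem : ∀ n, s₁ n ∈ Λ₁
  s_add : ∀ n, s₀ n + s₁ n = n

namespace SplitData

variable {Λ₀ Λ₁ : Submodule B N} (d : SplitData Λ₀ Λ₁)

/-- The `B`-linear retraction of `N` onto `Λ₀ ⊓ Λ₁` built from splitting data. -/
def e : N →ₗ[B] N := d.ρ₀ - d.s₀ ∘ₗ (LinearMap.id - d.ρ₁) ∘ₗ d.ρ₀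

theorem e_apply (n : N) : d.e n = d.ρ₀ n - d.s₀ (d.ρ₀ n - d.ρ₁ (d.ρ₀ n)) := rfl

theorem e_mem (n : N) : d.e n ∈ Λ₀ ⊓ Λ₁ := by
  rw [e_apply]
  refine ⟨Λ₀.sub_mem (d.ρ₀_mem n) (d.s₀_mem _), ?_⟩
  have h : d.s₀ (d.ρ₀ n - d.ρ₁ (d.ρ₀ n)) =
      d.ρ₀ n - d.ρ₁ (d.ρ₀ n) - d.s₁ (d.ρ₀ n - d.ρ₁ (d.ρ₀ n)) :=
    eq_sub_of_add_eq (d.s_add _)
  have h' : d.ρ₀ n - d.s₀ (d.ρ₀ n - d.ρ₁ (d.ρ₀ n)) =
      d.ρ₁ (d.ρ₀ n) + d.s₁ (d.ρ₀ n - d.ρ₁ (d.ρ₀ n)) := by
    rw [h]; abel
  rw [SetLike.mem_coe, h']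
  exact Λ₁.add_mem (d.ρ₁_mem _) (d.s₁_mem _)

theorem e_eq {n : N} (hn : n ∈ Λ₀ ⊓ Λ₁) : d.e n = n := by
  rw [e_apply, d.ρ₀_eq n hn.1, d.ρ₁_eq n hn.2, sub_self, map_zero, sub_zero]

include d in
theorem sup_eq_top : Λ₀ ⊔ Λ₁ = ⊤ := by
  rw [eq_top_iff]
  rintro n -
  rw [← d.s_add n]
  exact Submodule.add_mem_sup (d.s₀_mem n) (d.s₁_mem n)

include d in
/-- `Λ₀ ⊓ Λ₁` is a direct summand of `N`, hence projective when `N` is. -/
theorem projective_inf [Module.Projective B N] : Module.Projective B ↥(Λ₀ ⊓ Λ₁) :=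
  Module.Projective.of_split (Λ₀ ⊓ Λ₁).subtype (d.e.codRestrict (Λ₀ ⊓ Λ₁) d.e_mem) (by
    ext x
    simp only [LinearMap.coe_comp, Submodule.coe_subtype, Function.comp_apply,
      LinearMap.codRestrict_apply, LinearMap.id_coe, id_eq]
    exact d.e_eq x.2)

end SplitData

/-- Complementary projections for two submodules in direct sum position. -/
structure DirectData (Λ Λ' : Submodule B N) : Type v where
  π : N →ₗ[B] N
  π' : N →ₗ[B] N
  π_mem : ∀ n, π n ∈ Λ
  π_eq : ∀ n ∈ Λ, π n = n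
  π_zero : ∀ n ∈ Λ', π n = 0
  π'_mem : ∀ n, π' n ∈ Λ'
  π'_eq : ∀ n ∈ Λ', π' n = n
  π'_zero : ∀ n ∈ Λ, π' n = 0

namespace DirectData

variable {Λ Λ' : Submodule B N} (d : DirectData Λ Λ')

include d in
theorem inf_eq_bot : Λ ⊓ Λ' = ⊥ := by
  rw [eq_bot_iff]
  rintro x ⟨h, h'⟩
  rw [Submodule.mem_bot, ← d.π_eq x h, d.π_zero x h']

theorem add_mem (n : N) : d.π n + d.π' n ∈ Λ ⊔ Λ' :=
  Submodule.add_mem_sup (d.π_mem n) (d.π'_mem n)

theorem add_eq {n : N} (hn : n ∈ Λ ⊔ Λ') : d.π n + d.π' n = n := by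
  obtain ⟨a, ha, b, hb, rfl⟩ := Submodule.mem_sup.mp hn
  rw [map_add, map_add, d.π_eq a ha, d.π_zero b hb, d.π'_zero a ha, d.π'_eq b hb]
  abel

include d in
/-- The quotient by a direct sum of two direct summands is projective. -/
theorem projective_quotient [Module.Projective B N] : Module.Projective B (N ⧸ (Λ ⊔ Λ')) := by
  have hker : Λ ⊔ Λ' ≤ LinearMap.ker (LinearMap.id - (d.π + d.π')) := by
    intro n hn
    rw [LinearMap.mem_ker, LinearMap.sub_apply, LinearMap.add_apply, LinearMap.id_apply,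
      d.add_eq hn, sub_self]
  refine Module.Projective.of_split
    ((Λ ⊔ Λ').liftQ (LinearMap.id - (d.π + d.π')) hker) (Λ ⊔ Λ').mkQ ?_
  apply Submodule.linearMap_qext
  ext n
  simp only [LinearMap.coe_comp, Function.comp_apply, Submodule.mkQ_apply, Submodule.liftQ_apply,
    LinearMap.sub_apply, LinearMap.id_coe, id_eq, LinearMap.add_apply, Submodule.Quotient.mk_sub]
  rw [(Submodule.Quotient.mk_eq_zero _).mpr (d.add_mem n), sub_zero]

end DirectData

variable {T : N ≃ₗ[B] N} {Λ₀ Λ₁ : Submodule B N}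

/-- If `H¹ = 0` then splitting data exist. -/
theorem LatticeTriv.exists_splitData (c₀ : LatticeTriv T Λ₀) (c₁ : LatticeTriv T.symm Λ₁)
    (hsup : Λ₀ ⊔ Λ₁ = ⊤) : Nonempty (SplitData Λ₀ Λ₁) := by
  have := c₀.projective
  have hf : Function.Surjective (Λ₀.subtype.coprod Λ₁.subtype) := by
    intro n
    have hn : n ∈ Λ₀ ⊔ Λ₁ := by rw [hsup]; trivial
    obtain ⟨a, ha, b, hb, rfl⟩ := Submodule.mem_sup.mp hn
    exact ⟨(⟨a, ha⟩, ⟨b, hb⟩), by simp⟩
  obtain ⟨s, hs⟩ := Module.projective_lifting_property (Λ₀.subtype.coprod Λ₁.subtype)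
    LinearMap.id hf
  exact ⟨{
    ρ₀ := c₀.retr
    ρ₁ := c₁.retr
    s₀ := Λ₀.subtype ∘ₗ LinearMap.fst B _ _ ∘ₗ s
    s₁ := Λ₁.subtype ∘ₗ LinearMap.snd B _ _ ∘ₗ s
    ρ₀_mem := c₀.retr_mem
    ρ₀_eq := fun n hn => c₀.retr_eq hn
    ρ₁_mem := c₁.retr_mem
    ρ₁_eq := fun n hn => c₁.retr_eq hn
    s₀_mem := fun n => (s n).1.2
    s₁_mem := fun n => (s n).2.2
    s_add := fun n => by
      have := LinearMap.congr_fun hs n
      simpa using this }⟩

/-- **(LC5) Main theorem**: if `H¹ = N ⧸ (Λ₀ ⊔ Λ₁)` vanishes then `H⁰ = Λ₀ ⊓ Λ₁` is a finite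
projective `B`-module.  No noetherian hypothesis. -/
theorem LatticeTriv.inf_finite_projective (c₀ : LatticeTriv T Λ₀) (c₁ : LatticeTriv T.symm Λ₁)
    (hsup : Λ₀ ⊔ Λ₁ = ⊤) :
    Module.Finite B ↥(Λ₀ ⊓ Λ₁) ∧ Module.Projective B ↥(Λ₀ ⊓ Λ₁) := by
  obtain ⟨d⟩ := c₀.exists_splitData c₁ hsup
  have := c₀.projective
  refine ⟨?_, d.projective_inf⟩
  obtain ⟨b, hb⟩ := c₀.exists_bound c₁
  rw [Module.Finite.iff_fg]
  have hEq : Λ₀ ⊓ Λ₁ = (Dg B c₀.r (Set.Icc 0 (b : ℤ))).map (d.e ∘ₗ c₀.p) := by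
    apply le_antisymm
    · intro h hh
      refine ⟨c₀.i h, ?_, ?_⟩
      · have h0 := c₀.i_mem h hh.1
        have h1 := hb h hh.2
        rw [mem_Dg] at h0 h1
        rw [SetLike.mem_coe, mem_Dg]
        intro j a hj
        by_cases hj0 : j ∈ Set.Ici (0 : ℤ)
        · apply h1
          intro hj1
          exact hj ⟨hj0, hj1⟩
        · exact h0 j a hj0
      · simp only [LinearMap.coe_comp, Function.comp_apply]
        rw [c₀.p_i, d.e_eq hh]
    · rintro _ ⟨w, -, rfl⟩
      exact d.e_mem _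
  rw [hEq]
  exact (Dg_fg (Set.finite_Icc _ _)).map _

/-- **(LC6) Negative twists split**: for all sufficiently large `m`, the lattices `Λ₀` and
`T^(-m) Λ₁` are in direct sum position, with `B`-linear complementary projections. -/
theorem LatticeTriv.exists_directData (c₀ : LatticeTriv T Λ₀) (c₁ : LatticeTriv T.symm Λ₁) :
    ∃ m₀ : ℕ, ∀ m : ℤ, (m₀ : ℤ) ≤ m → Nonempty (DirectData Λ₀ (tw T Λ₁ (-m))) := by
  obtain ⟨d', hd'⟩ := LatticeTriv.exists_bound (T := T.symm) (Λ₀ := Λ₁) (Λ₁ := Λ₀) c₁ c₀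
  refine ⟨d' + 1, fun m hm => ?_⟩
  -- the projection onto the twisted lattice
  let π₁ : N →ₗ[B] N := ((T ^ (-m) : N ≃ₗ[B] N) : N →ₗ[B] N) ∘ₗ c₁.retr ∘ₗ
    ((T ^ m : N ≃ₗ[B] N) : N →ₗ[B] N)
  have hπ₁ : ∀ n, π₁ n = (T ^ (-m)) (c₁.retr ((T ^ m) n)) := fun n => rfl
  have h1mem : ∀ n, π₁ n ∈ tw T Λ₁ (-m) := fun n => zpow_mem_tw (-m) (c₁.retr_mem _)
  have h1eq : ∀ n ∈ tw T Λ₁ (-m), π₁ n = n := by
    intro n hn
    rw [mem_tw, neg_neg] at hn
    rw [hπ₁, c₁.retr_eq hn, zpow_neg_apply_zpow]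
  have h1zero : ∀ n ∈ Λ₀, π₁ n = 0 := by
    intro n hn
    have h2 : c₁.i ((T ^ m) n) ∈ Dg B c₁.r (Set.Iio 0) := by
      have e1 : (T ^ m) n = (T.symm ^ (-m)) n := by rw [symm_zpow, neg_neg]
      rw [e1, c₁.i_zpow]
      exact shift_zpow_mem_Dg (-m)
        (fun j hj => by simp only [Set.mem_Iic, Set.mem_Iio] at hj ⊢; push_cast at hm; omega)
        (hd' n hn)
    have h3 : c₁.retr ((T ^ m) n) = 0 := by
      simp only [LatticeTriv.retr, LinearMap.coe_comp, Function.comp_apply]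
      rw [trunc_eq_zero (by
        rw [Set.disjoint_left]; intro j hj hj'; simp only [Set.mem_Ici, Set.mem_Iio] at hj hj'
        omega) h2, map_zero]
    rw [hπ₁, h3, map_zero]
  exact ⟨{
    π := c₀.retr ∘ₗ (LinearMap.id - π₁)
    π' := π₁
    π_mem := fun n => c₀.retr_mem _
    π_eq := fun n hn => by
      simp only [LinearMap.coe_comp, Function.comp_apply, LinearMap.sub_apply, LinearMap.id_coe,
        id_eq]
      rw [h1zero n hn, sub_zero, c₀.retr_eq hn]
    π_zero := fun n hn => by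
      simp only [LinearMap.coe_comp, Function.comp_apply, LinearMap.sub_apply, LinearMap.id_coe,
        id_eq]
      rw [h1eq n hn, sub_self, map_zero]
    π'_mem := h1mem
    π'_eq := h1eq
    π'_zero := h1zero }⟩

/-- For all sufficiently negative twists `H¹` is a finite projective `B`-module (and `H⁰ = 0`,
see `DirectData.inf_eq_bot`). -/
theorem LatticeTriv.exists_finite_projective_quotient (c₀ : LatticeTriv T Λ₀)
    (c₁ : LatticeTriv T.symm Λ₁) :
    ∃ m₀ : ℕ, ∀ m : ℤ, (m₀ : ℤ) ≤ m →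
      Module.Finite B (N ⧸ (Λ₀ ⊔ tw T Λ₁ (-m))) ∧
      Module.Projective B (N ⧸ (Λ₀ ⊔ tw T Λ₁ (-m))) := by
  obtain ⟨m₀, h⟩ := c₀.exists_directData c₁
  refine ⟨m₀, fun m hm => ?_⟩
  obtain ⟨d⟩ := h m hm
  have := c₀.projective
  exact ⟨((c₀.isLatticePair c₁).tw_right (-m)).finite_quotient, d.projective_quotient⟩

end Split


section BaseChange

open TensorProduct

universe u v u' v'

variable {B : Type u} [CommRing B] {N : Type v} [AddCommGroup N] [Module B N]

/-- The base change of a submodule along `β : N → N'`: the `B'`-span of its image. -/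
def bcSub (B' : Type u') [CommRing B'] [Algebra B B'] {N' : Type v'} [AddCommGroup N']
    [Module B N'] [Module B' N'] [IsScalarTower B B' N'] (β : N →ₗ[B] N') (Λ : Submodule B N) :
    Submodule B' N' :=
  Submodule.span B' (β '' (Λ : Set N))

variable {B' : Type u'} [CommRing B'] [Algebra B B'] {N' : Type v'} [AddCommGroup N']
  [Module B N'] [Module B' N'] [IsScalarTower B B' N'] {β : N →ₗ[B] N'}

theorem mem_bcSub_of_mem {Λ : Submodule B N} {n : N} (hn : n ∈ Λ) : β n ∈ bcSub B' β Λ :=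
  Submodule.subset_span ⟨n, hn, rfl⟩

theorem bcSub_mono {Λ Λ' : Submodule B N} (h : Λ ≤ Λ') : bcSub B' β Λ ≤ bcSub B' β Λ' :=
  Submodule.span_mono (Set.image_mono h)

theorem bcSub_sup (Λ Λ' : Submodule B N) :
    bcSub B' β (Λ ⊔ Λ') = bcSub B' β Λ ⊔ bcSub B' β Λ' := by
  apply le_antisymm
  · unfold bcSub
    rw [Submodule.span_le]
    rintro _ ⟨n, hn, rfl⟩
    obtain ⟨a, ha, b, hb, rfl⟩ := Submodule.mem_sup.mp hn
    rw [map_add]
    exact Submodule.add_mem_sup (Submodule.subset_span ⟨a, ha, rfl⟩)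
      (Submodule.subset_span ⟨b, hb, rfl⟩)
  · exact sup_le (bcSub_mono le_sup_left) (bcSub_mono le_sup_right)

theorem bcSub_top (hβ : IsBaseChange B' β) : bcSub B' β (⊤ : Submodule B N) = ⊤ := by
  rw [eq_top_iff]
  rintro x -
  induction x using hβ.inductionOn with
  | zero => exact Submodule.zero_mem _
  | tmul n => exact mem_bcSub_of_mem trivial
  | smul b x hx => exact Submodule.smul_mem _ b hx
  | add x y hx hy => exact Submodule.add_mem _ hx hy

/-- The extension of a `B`-linear endomorphism of `N` to the base change `N'`. -/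
noncomputable def bcEnd (hβ : IsBaseChange B' β) (f : N →ₗ[B] N) : N' →ₗ[B'] N' :=
  hβ.lift (β ∘ₗ f)

@[simp] theorem bcEnd_apply (hβ : IsBaseChange B' β) (f : N →ₗ[B] N) (n : N) :
    bcEnd hβ f (β n) = β (f n) :=
  hβ.lift_eq _ _

theorem bcEnd_mem (hβ : IsBaseChange B' β) {f : N →ₗ[B] N} {Λ : Submodule B N}
    (hf : ∀ n, f n ∈ Λ) (x : N') : bcEnd hβ f x ∈ bcSub B' β Λ := by
  induction x using hβ.inductionOn with
  | zero => rw [map_zero]; exact Submodule.zero_mem _
  | tmul n => rw [bcEnd_apply]; exact mem_bcSub_of_mem (hf n)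
  | smul b x hx => rw [map_smul]; exact Submodule.smul_mem _ b hx
  | add x y hx hy => rw [map_add]; exact Submodule.add_mem _ hx hy

theorem bcEnd_eq_self (hβ : IsBaseChange B' β) {f : N →ₗ[B] N} {Λ : Submodule B N}
    (hf : ∀ n ∈ Λ, f n = n) {x : N'} (hx : x ∈ bcSub B' β Λ) : bcEnd hβ f x = x := by
  induction hx using Submodule.span_induction with
  | mem x hx => obtain ⟨n, hn, rfl⟩ := hx; rw [bcEnd_apply, hf n hn]
  | zero => rw [map_zero]
  | add x y _ _ hx hy => rw [map_add, hx, hy]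
  | smul b x _ hx => rw [map_smul, hx]

theorem bcEnd_eq_zero (hβ : IsBaseChange B' β) {f : N →ₗ[B] N} {Λ : Submodule B N}
    (hf : ∀ n ∈ Λ, f n = 0) {x : N'} (hx : x ∈ bcSub B' β Λ) : bcEnd hβ f x = 0 := by
  induction hx using Submodule.span_induction with
  | mem x hx => obtain ⟨n, hn, rfl⟩ := hx; rw [bcEnd_apply, hf n hn, map_zero]
  | zero => rw [map_zero]
  | add x y _ _ hx hy => rw [map_add, hx, hy, add_zero]
  | smul b x _ hx => rw [map_smul, hx, smul_zero]

theorem bcEnd_add_eq (hβ : IsBaseChange B' β) {f g : N →ₗ[B] N} (hfg : ∀ n, f n + g n = n)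
    (x : N') : bcEnd hβ f x + bcEnd hβ g x = x := by
  induction x using hβ.inductionOn with
  | zero => simp
  | tmul n => rw [bcEnd_apply, bcEnd_apply, ← map_add, hfg]
  | smul b x hx => rw [map_smul, map_smul, ← smul_add, hx]
  | add x y hx hy =>
    rw [map_add, map_add, add_add_add_comm, hx, hy]

/-- Base change of splitting data. -/
noncomputable def SplitData.baseChange {Λ₀ Λ₁ : Submodule B N} (d : SplitData Λ₀ Λ₁)
    (hβ : IsBaseChange B' β) : SplitData (bcSub B' β Λ₀) (bcSub B' β Λ₁) where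
  ρ₀ := bcEnd hβ d.ρ₀
  ρ₁ := bcEnd hβ d.ρ₁
  s₀ := bcEnd hβ d.s₀
  s₁ := bcEnd hβ d.s₁
  ρ₀_mem := bcEnd_mem hβ d.ρ₀_mem
  ρ₀_eq := fun _ hx => bcEnd_eq_self hβ d.ρ₀_eq hx
  ρ₁_mem := bcEnd_mem hβ d.ρ₁_mem
  ρ₁_eq := fun _ hx => bcEnd_eq_self hβ d.ρ₁_eq hx
  s₀_mem := bcEnd_mem hβ d.s₀_mem
  s₁_mem := bcEnd_mem hβ d.s₁_mem
  s_add := bcEnd_add_eq hβ d.s_add

theorem SplitData.baseChange_e {Λ₀ Λ₁ : Submodule B N} (d : SplitData Λ₀ Λ₁)
    (hβ : IsBaseChange B' β) : (d.baseChange hβ).e = bcEnd hβ d.e := by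
  apply hβ.algHom_ext
  intro n
  rw [bcEnd_apply, SplitData.e_apply, SplitData.e_apply]
  simp only [SplitData.baseChange, bcEnd_apply, map_sub]

/-- Base change of complementary projections. -/
noncomputable def DirectData.baseChange {Λ Λ' : Submodule B N} (d : DirectData Λ Λ')
    (hβ : IsBaseChange B' β) : DirectData (bcSub B' β Λ) (bcSub B' β Λ') where
  π := bcEnd hβ d.π
  π' := bcEnd hβ d.π'
  π_mem := bcEnd_mem hβ d.π_mem
  π_eq := fun _ hx => bcEnd_eq_self hβ d.π_eq hx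
  π_zero := fun _ hx => bcEnd_eq_zero hβ d.π_zero hx
  π'_mem := bcEnd_mem hβ d.π'_mem
  π'_eq := fun _ hx => bcEnd_eq_self hβ d.π'_eq hx
  π'_zero := fun _ hx => bcEnd_eq_zero hβ d.π'_zero hx

/-- **`H⁰` commutes with base change when `H¹ = 0`** (submodule form): the intersection of the
base-changed lattices is the base change of the intersection. -/
theorem SplitData.inf_bcSub {Λ₀ Λ₁ : Submodule B N} (d : SplitData Λ₀ Λ₁)
    (hβ : IsBaseChange B' β) :
    bcSub B' β Λ₀ ⊓ bcSub B' β Λ₁ = bcSub B' β (Λ₀ ⊓ Λ₁) := by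
  apply le_antisymm
  · intro x hx
    have h1 : (d.baseChange hβ).e x = x := (d.baseChange hβ).e_eq hx
    rw [← h1, d.baseChange_e hβ]
    exact bcEnd_mem hβ d.e_mem x
  · exact le_inf (bcSub_mono inf_le_left) (bcSub_mono inf_le_right)

/-- The restriction of `β` to a submodule, with values in the base-changed submodule. -/
def bcRestrict (B' : Type u') [CommRing B'] [Algebra B B'] {N' : Type v'} [AddCommGroup N']
    [Module B N'] [Module B' N'] [IsScalarTower B B' N'] (β : N →ₗ[B] N') (H : Submodule B N) :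
    ↥H →ₗ[B] ↥(bcSub B' β H) where
  toFun h := ⟨β h, mem_bcSub_of_mem h.2⟩
  map_add' x y := by ext; simp
  map_smul' b x := by ext; simp

@[simp] theorem coe_bcRestrict (H : Submodule B N) (h : H) :
    ((bcRestrict B' β H h : ↥(bcSub B' β H)) : N') = β h := rfl

/-- The restriction of a base change to a direct summand is a base change. -/
theorem isBaseChange_bcRestrict (hβ : IsBaseChange B' β) (H : Submodule B N) (e : N →ₗ[B] N)
    (he : ∀ n, e n ∈ H) (he' : ∀ n ∈ H, e n = n) : IsBaseChange B' (bcRestrict B' β H) := by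
  let L : B' ⊗[B] ↥H →ₗ[B'] ↥(bcSub B' β H) := LinearMap.liftBaseChange B' (bcRestrict B' β H)
  have hL : ∀ (b : B') (h : H), L (b ⊗ₜ h) = b • bcRestrict B' β H h := fun b h =>
    LinearMap.liftBaseChange_tmul _ _ _ _
  have hcomp : ∀ t, ((L t : ↥(bcSub B' β H)) : N') = hβ.equiv (H.subtype.baseChange B' t) := by
    intro t
    induction t using TensorProduct.induction_on with
    | zero => simp
    | tmul b h => rw [hL]; simp [IsBaseChange.equiv_tmul]
    | add t t' ht ht' => simp only [map_add, Submodule.coe_add, ht, ht']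
  have hinj2 : Function.Injective (H.subtype.baseChange B') := by
    have h1 : (LinearMap.baseChange B' (e.codRestrict H he)) ∘ₗ (H.subtype.baseChange B') =
        LinearMap.id := by
      rw [← LinearMap.baseChange_comp]
      have h2 : e.codRestrict H he ∘ₗ H.subtype = LinearMap.id := by
        ext x; simp [he' x x.2]
      rw [h2, LinearMap.baseChange_id]
    exact Function.LeftInverse.injective (fun t => LinearMap.congr_fun h1 t)
  have hinj : Function.Injective L := by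
    intro t t' htt'
    apply hinj2
    apply hβ.equiv.injective
    rw [← hcomp, ← hcomp, htt']
  have hsurj : Function.Surjective L := by
    rintro ⟨x, hx⟩
    have h1 : ∃ t, ((L t : ↥(bcSub B' β H)) : N') = x := by
      induction hx using Submodule.span_induction with
      | mem x hx =>
        obtain ⟨h, hh, rfl⟩ := hx
        exact ⟨1 ⊗ₜ ⟨h, hh⟩, by rw [hL]; simp⟩
      | zero => exact ⟨0, by simp⟩
      | add x y _ _ hx hy =>
        obtain ⟨t, rfl⟩ := hx
        obtain ⟨t', rfl⟩ := hy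
        exact ⟨t + t', by simp⟩
      | smul b x _ hx =>
        obtain ⟨t, rfl⟩ := hx
        exact ⟨b • t, by simp⟩
    obtain ⟨t, ht⟩ := h1
    exact ⟨t, Subtype.ext ht⟩
  exact IsBaseChange.of_equiv (LinearEquiv.ofBijective L ⟨hinj, hsurj⟩)
    (fun h => (hL 1 h).trans (one_smul _ _))

/-- **`H⁰` commutes with base change when `H¹ = 0`** (module form). -/
theorem SplitData.isBaseChange_inf {Λ₀ Λ₁ : Submodule B N} (d : SplitData Λ₀ Λ₁)
    (hβ : IsBaseChange B' β) : IsBaseChange B' (bcRestrict B' β (Λ₀ ⊓ Λ₁)) :=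
  isBaseChange_bcRestrict hβ (Λ₀ ⊓ Λ₁) d.e d.e_mem (fun _ hn => d.e_eq hn)

omit [Algebra B B'] [IsScalarTower B B' N'] in
/-- Compatibility of the inverse with a base change of the automorphism. -/
theorem symm_comm_of_comm {T : N ≃ₗ[B] N} {T' : N' ≃ₗ[B'] N'} (hT : ∀ n, T' (β n) = β (T n))
    (n : N) : T'.symm (β n) = β (T.symm n) := by
  apply T'.injective
  rw [hT]; simp

/-- Twisting commutes with base change. -/
theorem tw_bcSub {T : N ≃ₗ[B] N} {T' : N' ≃ₗ[B'] N'} (hT : ∀ n, T' (β n) = β (T n))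
    (Λ : Submodule B N) (m : ℤ) : tw T' (bcSub B' β Λ) m = bcSub B' β (tw T Λ m) := by
  unfold tw bcSub
  rw [Submodule.map_span]
  congr 1
  ext x
  simp only [Set.mem_image, SetLike.mem_coe, Submodule.mem_map, LinearEquiv.coe_coe]
  constructor
  · rintro ⟨_, ⟨n, hn, rfl⟩, rfl⟩
    exact ⟨(T ^ m) n, ⟨n, hn, rfl⟩, zpow_equivariant T T' β (fun n => (hT n).symm) m n⟩
  · rintro ⟨_, ⟨n, hn, rfl⟩, rfl⟩
    exact ⟨β n, ⟨n, hn, rfl⟩, (zpow_equivariant T T' β (fun n => (hT n).symm) m n).symm⟩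

/-- The coefficient extension map `B[T,T⁻¹]^r → B'[T,T⁻¹]^r`. -/
noncomputable def stdMap (B : Type u) [CommRing B] (B' : Type u') [CommRing B'] [Algebra B B']
    (r : ℕ) : Std B r →ₗ[B] Std B' r :=
  Finsupp.mapRange.linearMap (Algebra.linearMap B B')

theorem stdMap_apply (r : ℕ) (w : Std B r) (q : ℤ × Fin r) :
    stdMap B B' r w q = algebraMap B B' (w q) := rfl

theorem stdMap_single (r : ℕ) (q : ℤ × Fin r) (b : B) :
    stdMap B B' r (Finsupp.single q b) = Finsupp.single q (algebraMap B B' b) := by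
  simp [stdMap]

theorem stdMap_shift (r : ℕ) (w : Std B r) :
    stdMap B B' r (shift B r w) = shift B' r (stdMap B B' r w) := by
  ext ⟨j, a⟩
  have h1 : shift B' r (stdMap B B' r w) (j, a) = stdMap B B' r w (j - 1, a) :=
    shiftBy_apply 1 _ j a
  have h2 : shift B r w (j, a) = w (j - 1, a) := shiftBy_apply 1 _ j a
  rw [h1, stdMap_apply, stdMap_apply, h2]

theorem stdMap_mem_Dg (r : ℕ) {s : Set ℤ} {w : Std B r} (hw : w ∈ Dg B r s) :
    stdMap B B' r w ∈ Dg B' r s := by
  rw [mem_Dg] at hw ⊢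
  intro j a hj
  rw [stdMap_apply, hw j a hj, map_zero]

/-- **Base change of a trivialization.** -/
noncomputable def LatticeTriv.baseChange {T : N ≃ₗ[B] N} {Λ : Submodule B N}
    (c : LatticeTriv T Λ) (hβ : IsBaseChange B' β) (T' : N' ≃ₗ[B'] N')
    (hT : ∀ n, T' (β n) = β (T n)) : LatticeTriv T' (bcSub B' β Λ) where
  r := c.r
  i := hβ.lift (stdMap B B' c.r ∘ₗ c.i)
  p := Finsupp.linearCombination B' (fun q => β (c.p (Finsupp.single q 1)))
  i_T := by
    intro x
    induction x using hβ.inductionOn with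
    | zero => simp
    | tmul n =>
      rw [hT, hβ.lift_eq, hβ.lift_eq]
      simp only [LinearMap.coe_comp, Function.comp_apply]
      rw [c.i_T, stdMap_shift]
    | smul b x hx => simp only [map_smul, hx]
    | add x y hx hy => simp only [map_add, hx, hy]
  p_T := by
    intro w
    induction w using Finsupp.induction_linear with
    | zero => simp
    | add f g hf hg => simp only [map_add, hf, hg]
    | single q b =>
      obtain ⟨j, a⟩ := q
      have h1 : shift B' c.r (Finsupp.single (j, a) b) = Finsupp.single (j + 1, a) b :=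
        shiftBy_single 1 j a b
      have h2 : (Finsupp.single (j + 1, a) (1 : B) : Std B c.r) =
          shift B c.r (Finsupp.single (j, a) 1) := (shiftBy_single 1 j a 1).symm
      rw [h1, Finsupp.linearCombination_single, Finsupp.linearCombination_single, h2, c.p_T,
        ← hT, map_smul]
  p_i := by
    have key : ∀ w : Std B c.r,
        Finsupp.linearCombination B' (fun q => β (c.p (Finsupp.single q 1)))
          (stdMap B B' c.r w) = β (c.p w) := by
      intro w
      induction w using Finsupp.induction_linear with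
      | zero => simp
      | add f g hf hg => simp only [map_add, hf, hg]
      | single q b =>
        rw [stdMap_single, Finsupp.linearCombination_single, algebraMap_smul, ← map_smul,
          ← map_smul, Finsupp.smul_single, smul_eq_mul, mul_one]
    intro x
    induction x using hβ.inductionOn with
    | zero => simp
    | tmul n =>
      rw [hβ.lift_eq]
      simp only [LinearMap.coe_comp, Function.comp_apply]
      rw [key, c.p_i]
    | smul b x hx => rw [map_smul, map_smul, hx]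
    | add x y hx hy => rw [map_add, map_add, hx, hy]
  i_mem := by
    intro x hx
    induction hx using Submodule.span_induction with
    | mem x hx =>
      obtain ⟨n, hn, rfl⟩ := hx
      rw [hβ.lift_eq]
      exact stdMap_mem_Dg c.r (c.i_mem n hn)
    | zero => rw [map_zero]; exact Submodule.zero_mem _
    | add x y _ _ hx hy => rw [map_add]; exact Submodule.add_mem _ hx hy
    | smul b x _ hx => rw [map_smul]; exact Submodule.smul_mem _ b hx
  p_mem := by
    intro w hw
    rw [Finsupp.linearCombination_apply, Finsupp.sum]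
    apply Submodule.sum_mem
    intro q hq
    apply Submodule.smul_mem
    apply mem_bcSub_of_mem
    apply c.p_mem
    obtain ⟨j, a⟩ := q
    apply single_mem_Dg
    by_contra hj
    rw [mem_Dg] at hw
    exact (Finsupp.mem_support_iff.mp hq) (hw j a hj)

/-- **(LC5, base change)** If `H¹ = 0` then `H⁰` commutes with every base change `B → B'`:
the intersection of the base-changed lattices is the `B'`-span of the image of `Λ₀ ⊓ Λ₁`, and
`B' ⊗[B] (Λ₀ ⊓ Λ₁) → N'` is injective (stated as `IsBaseChange` of the restricted map). -/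
theorem LatticeTriv.inf_baseChange {T : N ≃ₗ[B] N} {Λ₀ Λ₁ : Submodule B N}
    (c₀ : LatticeTriv T Λ₀) (c₁ : LatticeTriv T.symm Λ₁) (hsup : Λ₀ ⊔ Λ₁ = ⊤)
    (hβ : IsBaseChange B' β) :
    bcSub B' β Λ₀ ⊓ bcSub B' β Λ₁ = bcSub B' β (Λ₀ ⊓ Λ₁) ∧
      IsBaseChange B' (bcRestrict B' β (Λ₀ ⊓ Λ₁)) := by
  obtain ⟨d⟩ := c₀.exists_splitData c₁ hsup
  exact ⟨d.inf_bcSub hβ, d.isBaseChange_inf hβ⟩

/-- `H¹` commutes with every base change (submodule form): the sum of the base-changed lattices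
is the base change of the sum. In particular `H¹ = 0` is preserved. -/
theorem sup_bcSub_eq_top {Λ₀ Λ₁ : Submodule B N} (hsup : Λ₀ ⊔ Λ₁ = ⊤) (hβ : IsBaseChange B' β) :
    bcSub B' β Λ₀ ⊔ bcSub B' β Λ₁ = ⊤ := by
  rw [← bcSub_sup, hsup, bcSub_top hβ]

/-- **(LC4/LC6, universal form)** There is `m₀` such that for all `m ≥ m₀` and EVERY base change
`B → B'` the base-changed lattices `Λ₀'` and `T'^(-m) Λ₁'` meet trivially (`H⁰ = 0` universally).
-/
theorem LatticeTriv.exists_inf_tw_bcSub_eq_bot {T : N ≃ₗ[B] N} {Λ₀ Λ₁ : Submodule B N}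
    (c₀ : LatticeTriv T Λ₀) (c₁ : LatticeTriv T.symm Λ₁) :
    ∃ m₀ : ℕ, ∀ m : ℤ, (m₀ : ℤ) ≤ m →
      ∀ (B' : Type u') [CommRing B'] [Algebra B B'] (N' : Type v') [AddCommGroup N']
        [Module B N'] [Module B' N'] [IsScalarTower B B' N'] (β : N →ₗ[B] N'),
        IsBaseChange B' β → bcSub B' β Λ₀ ⊓ bcSub B' β (tw T Λ₁ (-m)) = ⊥ := by
  obtain ⟨m₀, h⟩ := c₀.exists_directData c₁
  refine ⟨m₀, fun m hm B' _ _ N' _ _ _ _ β hβ => ?_⟩
  obtain ⟨d⟩ := h m hm
  exact (d.baseChange hβ).inf_eq_bot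

end BaseChange


section Constructor

open Polynomial

universe u v w

variable {B : Type u} [CommRing B]

/-- The inclusion `B[X]^r → B[T,T⁻¹]^r` of polynomial vectors into the standard module. -/
noncomputable def polyToStd (B : Type u) [CommRing B] (r : ℕ) :
    (Fin r → B[X]) →ₗ[B] Std B r :=
  ∑ a : Fin r, ((Polynomial.basisMonomials B).constr B
    (fun j : ℕ => (Finsupp.single ((j : ℤ), a) (1 : B) : Std B r))) ∘ₗ
      (LinearMap.proj (R := B) (φ := fun _ : Fin r => B[X]) a)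

theorem polyToStd_single {r : ℕ} (a : Fin r) (j : ℕ) (b : B) :
    polyToStd B r (Pi.single a (monomial j b)) = Finsupp.single ((j : ℤ), a) b := by
  classical
  have hmon : (monomial j b : B[X]) = b • Polynomial.basisMonomials B j := by
    rw [Polynomial.coe_basisMonomials, Polynomial.smul_monomial, smul_eq_mul, mul_one]
  simp only [polyToStd, LinearMap.coe_sum, Finset.sum_apply, LinearMap.coe_comp,
    Function.comp_apply, LinearMap.proj_apply]
  rw [Finset.sum_eq_single a]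
  · rw [Pi.single_eq_same, hmon, map_smul, Module.Basis.constr_basis, Finsupp.smul_single,
      smul_eq_mul, mul_one]
  · intro a' _ ha'
    rw [Pi.single_eq_of_ne ha', map_zero]
  · intro h; exact absurd (Finset.mem_univ a) h

/-- Two `B`-linear maps on `B[X]^r` agreeing on the monomial vectors are equal. -/
theorem polyVec_ext {P : Type*} [AddCommGroup P] [Module B P] {r : ℕ}
    {f g : (Fin r → B[X]) →ₗ[B] P}
    (h : ∀ (a : Fin r) (j : ℕ) (b : B),
      f (Pi.single a (monomial j b)) = g (Pi.single a (monomial j b))) : f = g := by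
  classical
  apply LinearMap.pi_ext
  intro a x
  induction x using Polynomial.induction_on' with
  | add p q hp hq => rw [Pi.single_add, map_add, map_add, hp, hq]
  | monomial j b => exact h a j b

theorem polyToStd_mem {r : ℕ} (v : Fin r → B[X]) : polyToStd B r v ∈ Dg B r (Set.Ici 0) := by
  classical
  have h : (⊤ : Submodule B (Fin r → B[X])) ≤ (Dg B r (Set.Ici 0)).comap (polyToStd B r) := by
    intro v _
    have hv : v = ∑ a : Fin r, Pi.single a (v a) := by
      ext a' : 1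
      simp [Finset.sum_apply, Pi.single_apply]
    rw [hv, Submodule.mem_comap, map_sum]
    apply Submodule.sum_mem
    intro a _
    generalize v a = x
    induction x using Polynomial.induction_on' with
    | add p q hp hq => rw [Pi.single_add, map_add]; exact Submodule.add_mem _ hp hq
    | monomial j b =>
      rw [polyToStd_single]
      exact single_mem_Dg (by simp) a b
  exact h trivial

theorem polyToStd_X_smul {r : ℕ} (v : Fin r → B[X]) :
    polyToStd B r ((X : B[X]) • v) = shift B r (polyToStd B r v) := by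
  classical
  have h : polyToStd B r ∘ₗ ((X : B[X]) • (LinearMap.id : (Fin r → B[X]) →ₗ[B[X]] _)).restrictScalars B
      = (shift B r : Std B r →ₗ[B] Std B r) ∘ₗ polyToStd B r := by
    apply polyVec_ext
    intro a j b
    simp only [LinearMap.coe_comp, LinearMap.coe_restrictScalars, Function.comp_apply,
      LinearMap.smul_apply, LinearMap.id_coe, id_eq, LinearEquiv.coe_coe]
    rw [← Pi.single_smul, smul_eq_mul, Polynomial.X_mul_monomial, polyToStd_single,
      polyToStd_single]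
    have := shiftBy_single (B := B) (r := r) 1 (j : ℤ) a b
    rw [show shift B r = shiftBy B r 1 from rfl, this]
    push_cast
    rfl
  exact LinearMap.congr_fun h v

theorem polyToStd_X_pow_smul {r : ℕ} (j : ℕ) (v : Fin r → B[X]) :
    polyToStd B r ((X : B[X]) ^ j • v) = (shift B r ^ (j : ℤ)) (polyToStd B r v) := by
  induction j with
  | zero => simp
  | succ j ih =>
    have e : ((j + 1 : ℕ) : ℤ) = 1 + (j : ℤ) := by push_cast; ring
    rw [pow_succ', mul_smul, polyToStd_X_smul, ih, e, zpow_add_apply]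
    simp

variable {N : Type v} [AddCommGroup N] [Module B N]

/-- **(LC7) Constructor, core form.** Let `ρ : M → N` be an injective `B`-linear map
intertwining a `B`-linear endomorphism `ξ` of `M` ("multiplication by `x`") with `T`, whose image
exhausts `N` under `T⁻¹`.  If `(M, ξ)` is a `B`-linear retract of `(B[X]^r, X)`, compatibly with
`ξ` and `X`, then the lattice `range ρ` admits a trivialization.  (For the chart at infinity apply
this to `T.symm`.) -/
theorem LatticeTriv.nonempty_of_retract (T : N ≃ₗ[B] N) {M : Type w} [AddCommGroup M]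
    [Module B M] (ξ : M →ₗ[B] M) (ρ : M →ₗ[B] N)
    (hρ : ∀ m, ρ (ξ m) = T (ρ m)) (hinj : Function.Injective ρ)
    (hexh : ∀ n, ∃ j : ℕ, (T ^ (j : ℤ)) n ∈ LinearMap.range ρ)
    {r : ℕ} (s : M →ₗ[B] (Fin r → B[X])) (π : (Fin r → B[X]) →ₗ[B] M)
    (hπs' : ∀ m, π (s m) = m) (hsξ : ∀ m, s (ξ m) = (X : B[X]) • s m)
    (hπX : ∀ v, π ((X : B[X]) • v) = ξ (π v)) :
    Nonempty (LatticeTriv T (LinearMap.range ρ)) := by
  classical
  -- powers of `ξ`, `X` and `T`
  have hpow : ∀ (j : ℕ) (m : M), ρ ((ξ ^ j) m) = (T ^ (j : ℤ)) (ρ m) := by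
    intro j
    induction j with
    | zero => intro m; simp
    | succ j ih =>
      intro m
      have e : ((j + 1 : ℕ) : ℤ) = 1 + (j : ℤ) := by push_cast; ring
      rw [pow_succ', Module.End.mul_apply, hρ, ih, e, zpow_add_apply]
      simp
  have hspow : ∀ (j : ℕ) (m : M), s ((ξ ^ j) m) = (X : B[X]) ^ j • s m := by
    intro j
    induction j with
    | zero => intro m; simp
    | succ j ih =>
      intro m
      rw [pow_succ', Module.End.mul_apply, hsξ, ih, pow_succ', mul_smul]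
  have hπpow : ∀ (j : ℕ) (v : Fin r → B[X]), π ((X : B[X]) ^ j • v) = (ξ ^ j) (π v) := by
    intro j
    induction j with
    | zero => intro v; simp
    | succ j ih =>
      intro v
      rw [pow_succ', mul_smul, hπX, ih, pow_succ', Module.End.mul_apply]
  -- the map `p`
  let g : ℤ × Fin r → N := fun q => (T ^ q.1) (ρ (π (Pi.single q.2 1)))
  let p : Std B r →ₗ[B] N := Finsupp.linearCombination B g
  have hp_single : ∀ (j : ℤ) (a : Fin r) (b : B),
      p (Finsupp.single (j, a) b) = b • (T ^ j) (ρ (π (Pi.single a 1))) := by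
    intro j a b
    exact Finsupp.linearCombination_single B b (j, a)
  have hpT : ∀ w, p (shift B r w) = T (p w) := by
    intro w
    induction w using Finsupp.induction_linear with
    | zero => simp
    | add f g hf hg => simp only [map_add, hf, hg]
    | single q b =>
      obtain ⟨j, a⟩ := q
      have h1 : shift B r (Finsupp.single (j, a) b) = Finsupp.single (j + 1, a) b :=
        shiftBy_single 1 j a b
      rw [h1, hp_single, hp_single, map_smul, add_comm j 1, zpow_add_apply]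
      simp
  have hp_poly : ∀ v : Fin r → B[X], p (polyToStd B r v) = ρ (π v) := by
    intro v
    have h : p ∘ₗ polyToStd B r = ρ ∘ₗ π := by
      apply polyVec_ext
      intro a j b
      simp only [LinearMap.coe_comp, Function.comp_apply]
      rw [polyToStd_single, hp_single]
      have e : (Pi.single a (monomial j b) : Fin r → B[X]) =
          b • ((X : B[X]) ^ j • Pi.single a (1 : B[X])) := by
        rw [← Pi.single_smul, ← Pi.single_smul, smul_eq_mul, mul_one, ← Polynomial.C_mul_X_pow_eq_monomial,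
          Polynomial.C_eq_algebraMap, Algebra.smul_def]
      rw [e, map_smul, map_smul, hπpow, hpow]
    exact LinearMap.congr_fun h v
  -- the map `i`
  choose jj mm hjm using hexh
  have hjm' : ∀ n, (T ^ (jj n : ℤ)) n = ρ (mm n) := fun n => (hjm n).symm
  let iFun : N → Std B r := fun n => (shift B r ^ (-(jj n : ℤ))) (polyToStd B r (s (mm n)))
  have key : ∀ (n : N) (j : ℕ) (m : M), (T ^ (j : ℤ)) n = ρ m →
      iFun n = (shift B r ^ (-(j : ℤ))) (polyToStd B r (s m)) := by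
    intro n j m h
    have h1 : (ξ ^ j) (mm n) = (ξ ^ jj n) m := by
      apply hinj
      rw [hpow, hpow, ← hjm' n, ← h, ← zpow_add_apply, ← zpow_add_apply, add_comm]
    have h2 : (shift B r ^ (j : ℤ)) (polyToStd B r (s (mm n))) =
        (shift B r ^ (jj n : ℤ)) (polyToStd B r (s m)) := by
      rw [← polyToStd_X_pow_smul, ← polyToStd_X_pow_smul, ← hspow, ← hspow, h1]
    change (shift B r ^ (-(jj n : ℤ))) (polyToStd B r (s (mm n))) = _
    have h3 : polyToStd B r (s (mm n)) =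
        (shift B r ^ (-(j : ℤ))) ((shift B r ^ (jj n : ℤ)) (polyToStd B r (s m))) := by
      rw [← h2, zpow_neg_apply_zpow]
    rw [h3, ← zpow_add_apply, ← zpow_add_apply]
    congr 2
    ring
  let i : N →ₗ[B] Std B r :=
    { toFun := iFun
      map_add' := by
        intro n₁ n₂
        have h12 : (T ^ ((jj n₁ + jj n₂ : ℕ) : ℤ)) (n₁ + n₂) =
            ρ ((ξ ^ jj n₂) (mm n₁) + (ξ ^ jj n₁) (mm n₂)) := by
          rw [map_add, map_add, hpow, hpow, ← hjm' n₁, ← hjm' n₂, ← zpow_add_apply,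
            ← zpow_add_apply]
          push_cast
          rw [add_comm (jj n₁ : ℤ) (jj n₂ : ℤ)]
        rw [key _ _ _ h12]
        have e1 : iFun n₁ = (shift B r ^ (-((jj n₁ + jj n₂ : ℕ) : ℤ)))
            (polyToStd B r (s ((ξ ^ jj n₂) (mm n₁)))) := by
          apply key
          rw [hpow, ← hjm' n₁, ← zpow_add_apply]
          push_cast
          rw [add_comm (jj n₁ : ℤ) (jj n₂ : ℤ)]
        have e2 : iFun n₂ = (shift B r ^ (-((jj n₁ + jj n₂ : ℕ) : ℤ)))
            (polyToStd B r (s ((ξ ^ jj n₁) (mm n₂)))) := by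
          apply key
          rw [hpow, ← hjm' n₂, ← zpow_add_apply]
          push_cast
          rfl
        rw [e1, e2, map_add, map_add, map_add]
      map_smul' := by
        intro b n
        have hb : (T ^ (jj n : ℤ)) (b • n) = ρ (b • mm n) := by
          rw [map_smul, map_smul, hjm' n]
        rw [key _ _ _ hb, RingHom.id_apply]
        change _ = b • (shift B r ^ (-(jj n : ℤ))) (polyToStd B r (s (mm n)))
        rw [map_smul, map_smul, map_smul] }
  have hi : ∀ n, i n = iFun n := fun n => rfl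
  refine ⟨{ r := r, i := i, p := p, i_T := ?_, p_T := hpT, p_i := ?_, i_mem := ?_, p_mem := ?_ }⟩
  · intro n
    have h1 : (T ^ (jj n : ℤ)) (T n) = ρ (ξ (mm n)) := by
      rw [hρ, ← hjm' n]
      have := zpow_add_apply T (jj n : ℤ) 1 n
      have h' := zpow_add_apply T 1 (jj n : ℤ) n
      rw [add_comm] at h'
      simp only [zpow_one] at this h'
      rw [← this, h']
    rw [hi, key _ _ _ h1, hsξ, polyToStd_X_smul, hi]
    change _ = shift B r ((shift B r ^ (-(jj n : ℤ))) (polyToStd B r (s (mm n))))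
    have a1 := zpow_add_apply (shift B r) (-(jj n : ℤ)) 1 (polyToStd B r (s (mm n)))
    have a2 := zpow_add_apply (shift B r) 1 (-(jj n : ℤ)) (polyToStd B r (s (mm n)))
    rw [add_comm] at a2
    simp only [zpow_one] at a1 a2
    rw [← a1, a2]
  · intro n
    rw [hi]
    change p ((shift B r ^ (-(jj n : ℤ))) (polyToStd B r (s (mm n)))) = n
    rw [zpow_equivariant (shift B r) T p hpT, hp_poly, hπs', ← hjm' n, zpow_neg_apply_zpow]
  · rintro _ ⟨m, rfl⟩
    have h0 : (T ^ ((0 : ℕ) : ℤ)) (ρ m) = ρ m := by simp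
    rw [hi, key _ _ _ h0]
    simpa using polyToStd_mem (s m)
  · intro w hw
    have hsub : Dg B r (Set.Ici 0) ≤ (LinearMap.range ρ).comap p := by
      unfold Dg
      rw [Finsupp.supported_eq_span_single, Submodule.span_le]
      rintro _ ⟨⟨j, a⟩, hj, rfl⟩
      simp only [Set.mem_preimage, Set.mem_Ici] at hj
      obtain ⟨j', rfl⟩ := Int.eq_ofNat_of_zero_le hj
      simp only [SetLike.mem_coe, Submodule.mem_comap]
      rw [hp_single, one_smul, ← hpow]
      exact ⟨_, rfl⟩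
    exact hsub hw

/-- **(LC7) Constructor, typeclass form.** A lattice which is the image of a finite projective
`B[X]`-module `M` under an injective `B`-linear map `ρ : M → N` intertwining `X` with `T`, and
which exhausts `N` under `T⁻¹`, admits a trivialization. -/
theorem LatticeTriv.nonempty_of_projective (T : N ≃ₗ[B] N) {M : Type w} [AddCommGroup M]
    [Module B M] [Module B[X] M] [IsScalarTower B B[X] M] [Module.Finite B[X] M]
    [Module.Projective B[X] M] (ρ : M →ₗ[B] N)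
    (hρ : ∀ m, ρ ((X : B[X]) • m) = T (ρ m)) (hinj : Function.Injective ρ)
    (hexh : ∀ n, ∃ j : ℕ, (T ^ (j : ℤ)) n ∈ LinearMap.range ρ) :
    Nonempty (LatticeTriv T (LinearMap.range ρ)) := by
  obtain ⟨r, π, s, -, -, hπs⟩ := Module.Finite.exists_comp_eq_id_of_projective B[X] M
  exact LatticeTriv.nonempty_of_retract T
    (((X : B[X]) • (LinearMap.id : M →ₗ[B[X]] M)).restrictScalars B) ρ hρ hinj hexh
    (s.restrictScalars B) (π.restrictScalars B) (fun m => LinearMap.congr_fun hπs m)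
    (fun m => by simp) (fun v => by simp)

end Constructor

end Fermat.Agent.S25.helper905
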