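import Fermat.Agent.S25.helper1804_AlgApi
import Fermat.Agent.S25.helper905_LatticeCoh
import Fermat.Agent.S25.helper9607_GlueBridge

/-!
# LC-BRIDGE (helper3281): a glue datum is a trivialized lattice pair

For a glue datum `G` on the two-chart curve `D` over an arbitrary `k`-algebra `B`, the overlap
module `G.M₀₁` with `T` = multiplication by `x` and the two lattices `Λ₀ = range ρ₀`,
`Λ₁ = range ρ₁` (the lattice view of `helper1804_AlgApi`) carries trivializations in the sense of
`helper905_LatticeCoh`.  This file glues the three bricks already available: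

* `helper9607.isRetractOfFree_X₀ / _Y₁` (chart modules are equivariant retracts of `B[X]^r`),
* `helper905.LatticeTriv.nonempty_of_retract` (constructor of trivializations),
* `helper1804.Lattice` (`T`, `Λ₀`, `Λ₁`, exhaustion, injectivity, `H0Equiv`, `H1Equiv`),

and restates the lattice theorems of `helper905` for glue data.
-/

namespace Fermat.Agent.S25.helper3281

open Fermat.Agent.S25.helper1705 Fermat.Agent.S25.helper2945
open Fermat.Agent.S25.helper905
open Fermat.Agent.S25.helper1804.Lattice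
open Fermat.Agent.S25.helper9607

universe u

variable {k : Type u} [Field k] {D : CurveDatum k} {B : Type u} [CommRing B] [Algebra k B]
variable (G : GlueDatum D B)

theorem ne_zero_of_transcendental {A : Type*} [CommRing A] [Algebra k A] {a : A}
    (ha : Transcendental k a) : a ≠ 0 := fun h => ha (h ▸ isAlgebraic_zero)

/-- **(BR3), first chart, hypothesis-passing form.** -/
theorem nonempty_latticeTriv₀_of (hx : Transcendental k D.x) :
    Nonempty (LatticeTriv (T G) (Λ₀ G)) := by
  obtain ⟨n, i, p, hpi, hiX, hpX⟩ := isRetractOfFree_X₀ G hx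
  exact LatticeTriv.nonempty_of_retract (T G) (X₀ G) G.ρ₀B
    (fun m => by rw [ρ₀B_X₀, X₀₁_apply, T_apply'])
    (ρ₀_injective_of_ne_zero G (ne_zero_of_transcendental hx)) (exh₀ G) i p hpi hiX hpX

/-- **(BR3), chart at infinity, hypothesis-passing form.** -/
theorem nonempty_latticeTriv₁_of (hy : Transcendental k D.y) :
    Nonempty (LatticeTriv (T G).symm (Λ₁ G)) := by
  obtain ⟨n, i, p, hpi, hiX, hpX⟩ := isRetractOfFree_Y₁ G hy
  exact LatticeTriv.nonempty_of_retract (T G).symm (Y₁ G) G.ρ₁B
    (fun m => by rw [ρ₁B_Y₁, Y₀₁_apply, T_symm_apply'])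
    (ρ₁_injective_of_ne_zero G (ne_zero_of_transcendental hy))
    (fun z => by
      obtain ⟨j, hj⟩ := exh₁ G z
      exact ⟨j, by rw [symm_zpow]; exact hj⟩) i p hpi hiX hpX

section AlgClosed

variable [IsAlgClosed k]

/-- **(BR3)** The lattice of the first chart is trivialized. -/
theorem nonempty_latticeTriv₀ : Nonempty (LatticeTriv (T G) (Λ₀ G)) :=
  nonempty_latticeTriv₀_of G (helper1800.transcendental_x D)

/-- **(BR3)** The lattice of the chart at infinity is trivialized (for `T⁻¹`). -/
theorem nonempty_latticeTriv₁ : Nonempty (LatticeTriv (T G).symm (Λ₁ G)) :=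
  nonempty_latticeTriv₁_of G (helper1800.transcendental_y D)

/-- A chosen trivialization of the lattice of the first chart. -/
noncomputable def triv₀ : LatticeTriv (T G) (Λ₀ G) := (nonempty_latticeTriv₀ G).some

/-- A chosen trivialization of the lattice of the chart at infinity. -/
noncomputable def triv₁ : LatticeTriv (T G).symm (Λ₁ G) := (nonempty_latticeTriv₁ G).some

/-- **(BR3)** `(T, Λ₀, Λ₁)` is a lattice pair. -/
theorem isLatticePair : IsLatticePair (T G) (Λ₀ G) (Λ₁ G) :=
  (triv₀ G).isLatticePair (triv₁ G)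

/-- **(BR4)** `H¹` of a glue datum is a finite `B`-module (any `k`-algebra `B`). -/
theorem finite_H1 : Module.Finite B G.H1 :=
  haveI := (isLatticePair G).finite_quotient
  Module.Finite.equiv (H1Equiv G).symm

/-- **(BR4)** Serre vanishing, lattice form. -/
theorem exists_sup_tw_eq_top :
    ∃ m₀ : ℕ, ∀ m : ℤ, (m₀ : ℤ) ≤ m → Λ₀ G ⊔ tw (T G) (Λ₁ G) m = ⊤ :=
  (isLatticePair G).exists_sup_tw_eq_top

/-- **(BR4)** Negative vanishing, lattice form. -/
theorem exists_inf_tw_eq_bot :
    ∃ m₀ : ℕ, ∀ m : ℤ, (m₀ : ℤ) ≤ m → Λ₀ G ⊓ tw (T G) (Λ₁ G) (-m) = ⊥ :=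
  (triv₀ G).exists_inf_tw_eq_bot (triv₁ G)

/-- **(BR4)** Negative twists: the quotient `M₀₁ ⧸ (Λ₀ + T^(-m) Λ₁)` is finite projective. -/
theorem exists_finite_projective_quotient :
    ∃ m₀ : ℕ, ∀ m : ℤ, (m₀ : ℤ) ≤ m →
      Module.Finite B (G.M₀₁ ⧸ (Λ₀ G ⊔ tw (T G) (Λ₁ G) (-m))) ∧
      Module.Projective B (G.M₀₁ ⧸ (Λ₀ G ⊔ tw (T G) (Λ₁ G) (-m))) :=
  (triv₀ G).exists_finite_projective_quotient (triv₁ G)

/-- **(BR4)** `H¹ = 0 ⟹ Λ₀ ⊓ Λ₁` finite projective. -/
theorem inf_finite_projective (h : Function.Surjective G.delta) :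
    Module.Finite B ↥(Λ₀ G ⊓ Λ₁ G) ∧ Module.Projective B ↥(Λ₀ G ⊓ Λ₁ G) :=
  (triv₀ G).inf_finite_projective (triv₁ G)
    (by rw [← range_delta]; exact LinearMap.range_eq_top.mpr h)

/-- **(BR4)** `H¹ = 0 ⟹ H⁰` finite projective (lattice route; second proof of
`helper9607.H0_fg_and_projective`). -/
theorem H0_finite_projective (h : Function.Surjective G.delta) :
    Module.Finite B G.H0 ∧ Module.Projective B G.H0 := by
  obtain ⟨h1, h2⟩ := inf_finite_projective G h
  exact ⟨Module.Finite.equiv (H0Equiv G).symm, Module.Projective.of_equiv (H0Equiv G).symm⟩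

end AlgClosed

end Fermat.Agent.S25.helper3281
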