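import Fermat.Agent.S25.helper3477_PolyTrick
import Fermat.Agent.S25.helper3115_TwistGlue
import Fermat.Agent.S25.helper8573_LCSpec
import Fermat.Agent.S25.helper8703_FieldGlue

/-!
# S25, LC5 / U9a (S-POLY): the polynomial trick in `GlueDatum` form (helper3477)

Adapter of `helper3477_PolyTrick` (`exists_hom_of_section_of_finite`) to
`helper2945.GlueDatum`, `helper3115.twist` and `helper8573.Mor`, in the exact shape requested by
the LC5 integrator:

a nonzero section `(a, b)` of the twist `G(m · D∞)` of a two-chart line bundle `G` over a field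
`K` which generates `G.M₁` modulo `y` gives a morphism `τ : G ⟶ 𝒪((d - m) · D∞)`,
`d = dim_K (G.M₀ ⧸ A₀ a)`, which is nonzero and surjective modulo `y` (an isomorphism along
`V(y)`).  No dual, no Hom datum, no general position.
-/

set_option autoImplicit false

universe u

open Polynomial

namespace Fermat.Agent.S25.helper3477

open Fermat.Agent.S25.helper1705 Fermat.Agent.S25.helper2945

variable {k : Type u} [Field k] [IsAlgClosed k] {D : CurveDatum k} {K : Type u} [Field K]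
  [Algebra k K]

/-- **Polynomial trick, `GlueDatum` form, with the defining identities.**  For a nonzero section
`(a, b)` of `G(m · D∞)` generating `G.M₁` modulo `y`, there are a monic polynomial `P` of degree
`d = dim_K (G.M₀ ⧸ A₀ a)`, linear forms `l₀`, `l₁` and a morphism `τ : G ⟶ 𝒪((d - m) · D∞)` with
components `l₀`, `l₁` such that `P(x) • g = l₀ g • a`, `u(y) • g = l₁ g • b` (`u` the reverse of
`P`), `l₀ a = P(x)`, `l₁ b = u(y) ≡ 1` modulo `y`; `τ` is nonzero and surjective modulo `y`. -/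
theorem exists_poly_mor (G : GlueDatum D K) (m : ℤ) (a : G.M₀) (b : G.M₁) (ha : a ≠ 0)
    (hab : G.ρ₀ a = ((helper3115.xU D K ^ m : (D.A₀₁ K)ˣ) : D.A₀₁ K) • G.ρ₁ b)
    (hgen : ∀ z : G.M₁, ∃ (c : D.A₁ K) (z' : G.M₁), z = c • b + yB D K • z') :
    Module.Finite K (G.M₀ ⧸ Submodule.span (D.A₀ K) {a}) ∧
    ∃ (P : K[X]) (l₀ : G.M₀ →ₗ[D.A₀ K] D.A₀ K) (l₁ : G.M₁ →ₗ[D.A₁ K] D.A₁ K)
      (τ : helper8573.Mor G (helper3115.twist (GlueDatum.unit D K)
        ((Module.finrank K (G.M₀ ⧸ Submodule.span (D.A₀ K) {a}) : ℤ) - m))),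
      P.Monic ∧ P.natDegree = Module.finrank K (G.M₀ ⧸ Submodule.span (D.A₀ K) {a}) ∧
      τ.f₀ = l₀ ∧ τ.f₁ = l₁ ∧
      (∀ g : G.M₀, aeval (xB D K) P • g = l₀ g • a) ∧
      (∀ g : G.M₁, aeval (yB D K) P.reverse • g = l₁ g • b) ∧
      l₀ a = aeval (xB D K) P ∧ l₁ b = aeval (yB D K) P.reverse ∧
      l₁ b - 1 ∈ Ideal.span {yB D K} ∧
      τ.f₀ ≠ 0 ∧ τ.SurjModY := by
  have hdom : IsDomain (D.A₀ K) := helper8703.isDomain_A₀ D K
  have hne : helper8703.secHom₀ G a ≠ 0 := helper8703.secHom₀_ne_zero G ha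
  obtain ⟨hinj, -⟩ := helper7215.injective_and_torsion_coker (helper8703.secHom₀ G a) hne
  have ht₀ : ∀ c : D.A₀ K, c • a = 0 → c = 0 := by
    intro c hc
    apply hinj
    show c • a = (0 : D.A₀ K) • a
    rw [hc, zero_smul]
  have hfin : Module.Finite K (G.M₀ ⧸ Submodule.span (D.A₀ K) {a}) := by
    have := helper7215.finite_coker_of_ne_zero (helper8703.finQuot_A₀ D K)
      (helper8703.secHom₀ G a) hne
    rwa [helper8703.range_secHom₀] at this
  refine ⟨hfin, ?_⟩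
  have hgen' : Submodule.span (D.A₁ K) {b} ⊔
      Ideal.span {yB D K} • (⊤ : Submodule (D.A₁ K) G.M₁) = ⊤ := by
    rw [eq_top_iff]
    rintro z -
    obtain ⟨c, z', rfl⟩ := hgen z
    exact Submodule.add_mem_sup (Submodule.smul_mem _ _ (Submodule.mem_span_singleton_self b))
      (Submodule.smul_mem_smul (Ideal.mem_span_singleton_self _) Submodule.mem_top)
  have hinj₁ : Function.Injective (algebraMap (D.A₁ K) (D.A₀₁ K)) :=
    helper1167.res₁_injective (D := D) (B := K)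
  obtain ⟨P, l₀, l₁, l, hPm, hPd, h1, h2, h3, h4, hu, -, h5, h6⟩ :=
    exists_hom_of_section_of_finite (K := K) (xB D K) (yB D K) G.ρ₀ G.ρ₁ (xB_mul_yB D K)
      hinj₁ a b _ hab ht₀ hgen'
  set d : ℕ := Module.finrank K (G.M₀ ⧸ Submodule.span (D.A₀ K) {a}) with hd
  have hcomm₁ : ∀ g : G.M₁, l (G.ρ₁ g) =
      ((helper3115.xU D K ^ ((d : ℤ) - m) : (D.A₀₁ K)ˣ) : D.A₀₁ K) *
        algebraMap (D.A₁ K) (D.A₀₁ K) (l₁ g) := by
    intro g
    have hz : ((helper3115.xU D K ^ m : (D.A₀₁ K)ˣ) : D.A₀₁ K) *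
        ((helper3115.xU D K ^ ((d : ℤ) - m) : (D.A₀₁ K)ˣ) : D.A₀₁ K) =
        algebraMap (D.A₀ K) (D.A₀₁ K) (xB D K) ^ d := by
      rw [← Units.val_mul, ← zpow_add, add_sub_cancel, zpow_natCast, Units.val_pow_eq_pow_val]
      rfl
    apply (helper3115.xU D K ^ m).isUnit.mul_left_cancel
    rw [h6 g, ← mul_assoc, hz]
  -- the element `u(y) = l₁ b` is nonzero: it has value `1` at the marked point
  obtain ⟨w, hw⟩ := Ideal.mem_span_singleton'.mp hu
  have hl₁b : l₁ b = w * yB D K + 1 := by rw [hw]; ring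
  have he : D.eB K (l₁ b) = 1 := by
    rw [hl₁b, map_add, map_mul, eB_yB, mul_zero, zero_add, map_one]
  have hl₀a : l₀ a ≠ 0 := by
    intro h0
    have hP0 : aeval (xB D K) P = 0 := by rw [← h3, h0]
    have hrev := algebraMap_aeval_reverse (K := K) (xB D K) (yB D K) (xB_mul_yB D K) P
    rw [hP0, map_zero, mul_zero] at hrev
    have hu0 : aeval (yB D K) P.reverse = 0 := hinj₁ (hrev.trans (map_zero _).symm)
    rw [h4, hu0, map_zero] at he
    exact zero_ne_one he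
  refine ⟨P, l₀, l₁, { f₀ := l₀, f₁ := l₁, f₀₁ := l, comm₀ := h5, comm₁ := hcomm₁ },
    hPm, hPd, rfl, rfl, h1, h2, h3, h4, hu, ?_, ?_⟩
  · intro h0
    exact hl₀a (LinearMap.congr_fun h0 a)
  · intro n
    refine ⟨(show D.A₁ K from n) • b, -(w * (show D.A₁ K from n)), ?_⟩
    show (show D.A₁ K from n) = l₁ ((show D.A₁ K from n) • b) +
      yB D K * (-(w * (show D.A₁ K from n)))
    rw [map_smul, hl₁b, smul_eq_mul]
    ring

/-- **(S-POLY), the statement of the LC5 integration plan.** -/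
theorem poly_mor (G : GlueDatum D K) (m : ℤ) (a : G.M₀) (b : G.M₁) (ha : a ≠ 0)
    (hab : G.ρ₀ a = ((helper3115.xU D K ^ m : (D.A₀₁ K)ˣ) : D.A₀₁ K) • G.ρ₁ b)
    (hgen : ∀ z : G.M₁, ∃ (c : D.A₁ K) (z' : G.M₁), z = c • b + yB D K • z') :
    ∃ τ : helper8573.Mor G (helper3115.twist (GlueDatum.unit D K)
        ((Module.finrank K (G.M₀ ⧸ Submodule.span (D.A₀ K) {a}) : ℤ) - m)),
      τ.f₀ ≠ 0 ∧ τ.SurjModY := by
  obtain ⟨-, P, l₀, l₁, τ, -, -, -, -, -, -, -, -, -, h0, hy⟩ :=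
    exists_poly_mor G m a b ha hab hgen
  exact ⟨τ, h0, hy⟩

end Fermat.Agent.S25.helper3477
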