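import Mathlib

/-!
# S25: point decomposition without Hom data — the polynomial trick (helper3477)

Pure commutative algebra, Mathlib only, in the unbundled two-chart conventions of
`helper69_ChartThm` / `helper622_DivisorAtInfinity` (the rings `A₀`, `A₁`, `A₀₁ = A₀[1/x] =
A₁[1/y]`, modules `M₀`, `M₁`, `N` with localization maps `ρ₀`, `ρ₁`), so that a
`helper2945.GlueDatum D K` feeds it with `A₀ := D.A₀ K`, ... directly.

Let `G = (M₀, M₁, N, ρ₀, ρ₁)` be a two-chart line bundle over a field `K` and let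
`s = (s₀, s₁)` be a section of a twist of `G`, i.e. `ρ₀ s₀ = c • ρ₁ s₁` (think `c = x ^ m`),
which generates `M₁` along `V(y)`: `M₁ = A₁ s₁ + y M₁`.

* `exists_section_generating` : such a section exists as soon as `H¹` of the previous twist
  vanishes (`N = ρ₀ M₀ + c' • ρ₁ M₁`, `c = c' x`) and `M₁ / y M₁` is cyclic.
  No general-position argument.
* `exists_monic_aeval_smul_mem` (Cayley–Hamilton) : if `M₀ / A₀ s₀` is finite-dimensional over
  `K`, the characteristic polynomial `P` of `x` on it is monic of degree `dim (M₀ / A₀ s₀)` and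
  `P(x) • M₀ ⊆ A₀ s₀`.
* `exists_hom_of_section` (**polynomial trick**) : for any `P` with `P(x) • M₀ ⊆ A₀ s₀`,
  "division by `s`" `g ↦ P(x) g / s` is a morphism of two-chart data from `G` to the twisted
  trivial bundle: `l₀ : M₀ → A₀`, `l₁ : M₁ → A₁`, `l : N → A₀₁` with
  `P(x) • g = l₀ g • s₀`, `u(y) • g = l₁ g • s₁` (`u` the reverse polynomial of `P`),
  `l ∘ ρ₀ = res₀ ∘ l₀` and `c * l (ρ₁ g) = x ^ deg P * res₁ (l₁ g)`.
  For `P` monic, `l₁ s₁ = u(y) ≡ 1 mod y` (`aeval_reverse_sub_one_mem`), so the morphism is an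
  isomorphism along `V(y)`, which is the hypothesis of the chart theorem
  (`helper69.colon_eq_comap_map_colon`): `G ≅` the ideal sub-datum `(J, atInfty J)` of
  `𝒪((deg P - m) D∞)`, `J = range l₀`.

So a degree-zero `G` over an algebraically closed field is `𝒪(m' D∞ - Σ Qᵢ)` with `Qᵢ` points
of the first chart, without ever forming a dual or a Hom datum.
-/

set_option autoImplicit false

open Polynomial

namespace Fermat.Agent.S25.helper3477

section Reverse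

variable {K A₀ A₁ A₀₁ : Type*} [Field K] [CommRing A₀] [CommRing A₁] [CommRing A₀₁]
  [Algebra K A₀] [Algebra K A₁] [Algebra K A₀₁] [Algebra A₀ A₀₁] [Algebra A₁ A₀₁]
  [IsScalarTower K A₀ A₀₁] [IsScalarTower K A₁ A₀₁]

/-- `u(y) = y ^ d * P(x)` in the overlap ring, where `u` is the reverse of `P`, `d = deg P`
and `x * y = 1`. -/
theorem algebraMap_aeval_reverse (x : A₀) (y : A₁)
    (hxy : algebraMap A₀ A₀₁ x * algebraMap A₁ A₀₁ y = 1) (P : K[X]) :
    algebraMap A₁ A₀₁ (aeval y P.reverse) =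
      algebraMap A₁ A₀₁ y ^ P.natDegree * algebraMap A₀ A₀₁ (aeval x P) := by
  rw [← aeval_algebraMap_apply, ← aeval_algebraMap_apply]
  let _ : Invertible (algebraMap A₀ A₀₁ x) := ⟨algebraMap A₁ A₀₁ y, by rw [mul_comm]; exact hxy, hxy⟩
  have h := eval₂_reverse_mul_pow (algebraMap K A₀₁) (algebraMap A₀ A₀₁ x) P
  have hinv : ⅟(algebraMap A₀ A₀₁ x) = algebraMap A₁ A₀₁ y := rfl
  rw [hinv] at h
  simp only [aeval_def]
  rw [← h, mul_comm _ (eval₂ _ _ _ * _), mul_assoc, ← mul_pow, hxy, one_pow, mul_one]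

/-- The reverse of a monic polynomial is `≡ 1` modulo its variable. -/
theorem aeval_reverse_sub_one_mem (y : A₁) (P : K[X]) (hP : P.Monic) :
    aeval y P.reverse - 1 ∈ Ideal.span {y} := by
  have h0 : P.reverse.coeff 0 = 1 := by rw [coeff_zero_reverse, hP.leadingCoeff]
  have h := divX_mul_X_add P.reverse
  rw [h0] at h
  have h2 : aeval y P.reverse = aeval y P.reverse.divX * y + 1 := by
    conv_lhs => rw [← h]
    simp
  rw [h2, add_sub_cancel_right]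
  exact Ideal.mul_mem_left _ _ (Ideal.mem_span_singleton_self y)

end Reverse

section Main

variable {A₀ A₁ A₀₁ : Type*} [CommRing A₀] [CommRing A₁] [CommRing A₀₁]
  [Algebra A₀ A₀₁] [Algebra A₁ A₀₁]
  (x : A₀) (y : A₁) [IsLocalization.Away x A₀₁] [IsLocalization.Away y A₀₁]
  {M₀ M₁ N : Type*} [AddCommGroup M₀] [Module A₀ M₀] [AddCommGroup M₁] [Module A₁ M₁]
  [AddCommGroup N] [Module A₀₁ N] [Module A₀ N] [Module A₁ N]
  [IsScalarTower A₀ A₀₁ N] [IsScalarTower A₁ A₀₁ N]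
  (ρ₀ : M₀ →ₗ[A₀] N) (ρ₁ : M₁ →ₗ[A₁] N)
  [IsLocalizedModule (Submonoid.powers x) ρ₀] [IsLocalizedModule (Submonoid.powers y) ρ₁]

include x in
/-- A non-torsion element of `M₀` stays non-torsion in the localization. -/
theorem smul_map_eq_zero (s₀ : M₀) (ht₀ : ∀ a : A₀, a • s₀ = 0 → a = 0) (b : A₀₁)
    (hb : b • ρ₀ s₀ = 0) : b = 0 := by
  obtain ⟨⟨a, t⟩, hat⟩ := IsLocalization.surj (Submonoid.powers x) b
  simp only at hat
  have h1 : ρ₀ (a • s₀) = 0 := by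
    rw [map_smul, ← algebraMap_smul A₀₁ a (ρ₀ s₀), ← hat, mul_comm, mul_smul, hb, smul_zero]
  obtain ⟨t', ht'⟩ := (IsLocalizedModule.eq_zero_iff (Submonoid.powers x) ρ₀).mp h1
  have h2 : (t' : A₀) * a = 0 := ht₀ _ (by rw [mul_smul]; exact ht')
  have h3 : algebraMap A₀ A₀₁ a = 0 := by
    have hu : IsUnit (algebraMap A₀ A₀₁ (t' : A₀)) := IsLocalization.map_units A₀₁ t'
    have := congrArg (algebraMap A₀ A₀₁) h2
    rw [map_mul, map_zero] at this
    exact (hu.mul_right_eq_zero).mp this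
  have hu : IsUnit (algebraMap A₀ A₀₁ (t : A₀)) := IsLocalization.map_units A₀₁ t
  rw [h3] at hat
  exact (hu.mul_left_eq_zero).mp hat

/-- A linear functional `l` with `p • g = l g • s` from `p • M ⊆ A s`, `s` non-torsion. -/
theorem exists_coeff_linearMap {A M : Type*} [CommRing A] [AddCommGroup M] [Module A M]
    (s : M) (ht : ∀ a : A, a • s = 0 → a = 0) (p : A)
    (hp : ∀ g : M, p • g ∈ Submodule.span A {s}) :
    ∃ l : M →ₗ[A] A, ∀ g, p • g = l g • s := by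
  have hex : ∀ g : M, ∃ a : A, a • s = p • g := fun g => Submodule.mem_span_singleton.mp (hp g)
  choose f hf using hex
  have huniq : ∀ a b : A, a • s = b • s → a = b := by
    intro a b hab
    have : (a - b) • s = 0 := by rw [sub_smul, hab, sub_self]
    exact sub_eq_zero.mp (ht _ this)
  refine ⟨{ toFun := f, map_add' := ?_, map_smul' := ?_ }, fun g => (hf g).symm⟩
  · intro g g'
    apply huniq
    rw [hf, add_smul, hf, hf, smul_add]
  · intro a g
    apply huniq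
    rw [hf, RingHom.id_apply, smul_eq_mul, mul_smul, hf, smul_comm]

omit [IsLocalization.Away y A₀₁] in
include y in
/-- If `M₁ = A₁ s₁ + y M₁` (Nakayama), membership in `A₁ s₁` can be tested after
multiplication by a power of `y`. -/
theorem mem_span_of_pow_smul_mem [Module.Finite A₁ M₁] (s₁ : M₁)
    (hgen : Submodule.span A₁ {s₁} ⊔ Ideal.span {y} • (⊤ : Submodule A₁ M₁) = ⊤)
    (g : M₁) (j : ℕ) (hg : y ^ j • g ∈ Submodule.span A₁ {s₁}) :
    g ∈ Submodule.span A₁ {s₁} := by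
  set G₁ : Submodule A₁ M₁ := Submodule.span A₁ {s₁} with hG₁
  -- Nakayama on the finite module `M₁ ⧸ G₁`
  have hfg : (⊤ : Submodule A₁ (M₁ ⧸ G₁)).FG := Module.finite_def.mp inferInstance
  have hle : (⊤ : Submodule A₁ (M₁ ⧸ G₁)) ≤ Ideal.span {y} • ⊤ := by
    rintro z -
    obtain ⟨n, rfl⟩ := Submodule.Quotient.mk_surjective G₁ z
    have hn : n ∈ G₁ ⊔ Ideal.span {y} • (⊤ : Submodule A₁ M₁) := by
      rw [hgen]; exact Submodule.mem_top
    obtain ⟨g', hg', w, hw, rfl⟩ := Submodule.mem_sup.mp hn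
    have : (Submodule.Quotient.mk (g' + w) : M₁ ⧸ G₁) = G₁.mkQ w := by
      rw [Submodule.Quotient.mk_add, (Submodule.Quotient.mk_eq_zero G₁).mpr hg', zero_add]
      rfl
    rw [this]
    have := Submodule.mem_map_of_mem (f := G₁.mkQ) hw
    rw [Submodule.map_smul''] at this
    exact Submodule.smul_mono le_rfl le_top this
  obtain ⟨r, hr1, hr⟩ :=
    Submodule.exists_sub_one_mem_and_smul_eq_zero_of_fg_of_le_smul _ _ hfg hle
  have hrg : r • g ∈ G₁ := by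
    have := hr (Submodule.Quotient.mk g) Submodule.mem_top
    rwa [← Submodule.Quotient.mk_smul, Submodule.Quotient.mk_eq_zero] at this
  obtain ⟨c, hc⟩ := Ideal.mem_span_singleton'.mp hr1
  have hcop : IsCoprime (y ^ j) r := by
    apply IsCoprime.pow_left
    exact ⟨-c, 1, by rw [neg_mul, hc]; ring⟩
  obtain ⟨α, β, hαβ⟩ := hcop
  have : g = α • (y ^ j • g) + β • (r • g) := by
    rw [← mul_smul, ← mul_smul, ← add_smul, hαβ, one_smul]
  rw [this]
  exact G₁.add_mem (G₁.smul_mem _ hg) (G₁.smul_mem _ hrg)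

end Main

section Poly

variable {K A₀ A₁ A₀₁ : Type*} [Field K] [CommRing A₀] [CommRing A₁] [CommRing A₀₁]
  [Algebra K A₀] [Algebra K A₁] [Algebra K A₀₁] [Algebra A₀ A₀₁] [Algebra A₁ A₀₁]
  [IsScalarTower K A₀ A₀₁] [IsScalarTower K A₁ A₀₁]
  (x : A₀) (y : A₁) [IsLocalization.Away x A₀₁] [IsLocalization.Away y A₀₁]
  {M₀ M₁ N : Type*} [AddCommGroup M₀] [Module A₀ M₀] [AddCommGroup M₁] [Module A₁ M₁]
  [AddCommGroup N] [Module A₀₁ N] [Module A₀ N] [Module A₁ N]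
  [IsScalarTower A₀ A₀₁ N] [IsScalarTower A₁ A₀₁ N]
  (ρ₀ : M₀ →ₗ[A₀] N) (ρ₁ : M₁ →ₗ[A₁] N)
  [IsLocalizedModule (Submonoid.powers x) ρ₀] [IsLocalizedModule (Submonoid.powers y) ρ₁]

/-- **Polynomial trick.** Let `s = (s₀, s₁)` be a section of a twist of the two-chart datum
`(M₀, M₁, N, ρ₀, ρ₁)` (`ρ₀ s₀ = c • ρ₁ s₁`), non-torsion, generating `M₁` along `V(y)`, and let
`P` be a polynomial with `P(x) • M₀ ⊆ A₀ s₀`. Then "division by `s`" is a morphism of two-chart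
data to the twisted trivial datum: linear maps `l₀`, `l₁`, `l` with `P(x) • g = l₀ g • s₀`,
`u(y) • g = l₁ g • s₁` (`u = P.reverse`), compatible on the overlap up to the unit
`x ^ deg P / c`. -/
theorem exists_hom_of_section [Module.Finite A₁ M₁]
    (hxy : algebraMap A₀ A₀₁ x * algebraMap A₁ A₀₁ y = 1)
    (hinj₁ : Function.Injective (algebraMap A₁ A₀₁))
    (s₀ : M₀) (s₁ : M₁) (c : A₀₁) (hs : ρ₀ s₀ = c • ρ₁ s₁)
    (ht₀ : ∀ a : A₀, a • s₀ = 0 → a = 0)
    (hgen : Submodule.span A₁ {s₁} ⊔ Ideal.span {y} • (⊤ : Submodule A₁ M₁) = ⊤)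
    (P : K[X]) (hPs : ∀ g : M₀, aeval x P • g ∈ Submodule.span A₀ {s₀}) :
    ∃ (l₀ : M₀ →ₗ[A₀] A₀) (l₁ : M₁ →ₗ[A₁] A₁) (l : N →ₗ[A₀₁] A₀₁),
      (∀ g, aeval x P • g = l₀ g • s₀) ∧
      (∀ g, aeval y P.reverse • g = l₁ g • s₁) ∧
      l₀ s₀ = aeval x P ∧ l₁ s₁ = aeval y P.reverse ∧
      (∀ g, l (ρ₀ g) = algebraMap A₀ A₀₁ (l₀ g)) ∧
      (∀ g, c * l (ρ₁ g) = algebraMap A₀ A₀₁ x ^ P.natDegree * algebraMap A₁ A₀₁ (l₁ g)) := by
  set X : A₀₁ := algebraMap A₀ A₀₁ x with hX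
  set Y : A₀₁ := algebraMap A₁ A₀₁ y with hY
  set PX : A₀₁ := algebraMap A₀ A₀₁ (aeval x P) with hPX
  have hYX : Y * X = 1 := by rw [mul_comm]; exact hxy
  have htN : ∀ b : A₀₁, b • ρ₀ s₀ = 0 → b = 0 := smul_map_eq_zero x ρ₀ s₀ ht₀
  -- chart 0
  obtain ⟨l₀, hl₀⟩ := exists_coeff_linearMap s₀ ht₀ (aeval x P) hPs
  -- overlap
  have hN : ∀ z : N, PX • z ∈ Submodule.span A₀₁ {ρ₀ s₀} := by
    intro z
    obtain ⟨⟨g, t⟩, hgt⟩ := IsLocalizedModule.surj (Submonoid.powers x) ρ₀ z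
    simp only at hgt
    obtain ⟨v, hv⟩ := (IsLocalization.map_units A₀₁ t).exists_left_inv
    rw [Submodule.mem_span_singleton]
    refine ⟨v * algebraMap A₀ A₀₁ (l₀ g), ?_⟩
    have h1 : ρ₀ (aeval x P • g) = algebraMap A₀ A₀₁ (l₀ g) • ρ₀ s₀ := by
      rw [hl₀, map_smul, algebraMap_smul]
    have h2 : ρ₀ (aeval x P • g) = algebraMap A₀ A₀₁ (t : A₀) • (PX • z) := by
      rw [map_smul, ← hgt, Submonoid.smul_def, smul_comm, ← algebraMap_smul A₀₁ (t : A₀),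
        ← algebraMap_smul A₀₁ (aeval x P) z]
    rw [mul_smul, ← h1, h2, ← mul_smul, hv, one_smul]
  obtain ⟨l, hl⟩ := exists_coeff_linearMap (ρ₀ s₀) htN PX hN
  have hl0 : ∀ g, l (ρ₀ g) = algebraMap A₀ A₀₁ (l₀ g) := by
    intro g
    have h1 : PX • ρ₀ g = algebraMap A₀ A₀₁ (l₀ g) • ρ₀ s₀ := by
      rw [hPX, algebraMap_smul, ← map_smul, hl₀, map_smul, algebraMap_smul]
    have h2 := hl (ρ₀ g)
    rw [h1] at h2
    have : (algebraMap A₀ A₀₁ (l₀ g) - l (ρ₀ g)) • ρ₀ s₀ = 0 := by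
      rw [sub_smul, h2, sub_self]
    exact (sub_eq_zero.mp (htN _ this)).symm
  -- chart 1
  have hrev : algebraMap A₁ A₀₁ (aeval y P.reverse) = Y ^ P.natDegree * PX :=
    algebraMap_aeval_reverse x y hxy P
  have ht₁ : ∀ a : A₁, a • s₁ = 0 → a = 0 := by
    intro a ha
    apply hinj₁
    rw [map_zero]
    apply htN
    rw [hs, smul_comm, algebraMap_smul, ← map_smul, ha, map_zero, smul_zero]
  have key : ∀ g : M₁, ρ₁ (aeval y P.reverse • g) = (Y ^ P.natDegree * l (ρ₁ g) * c) • ρ₁ s₁ := by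
    intro g
    rw [map_smul, ← algebraMap_smul A₀₁ (aeval y P.reverse), hrev, mul_smul, hl, hs, ← mul_smul,
      ← mul_smul, mul_assoc]
  have hM₁ : ∀ g : M₁, aeval y P.reverse • g ∈ Submodule.span A₁ {s₁} := by
    intro g
    obtain ⟨⟨a, t⟩, hat⟩ :=
      IsLocalization.surj (Submonoid.powers y) (Y ^ P.natDegree * l (ρ₁ g) * c)
    simp only at hat
    obtain ⟨j, hj⟩ := t.2
    have h1 : ρ₁ ((t : A₁) • (aeval y P.reverse • g)) = ρ₁ (a • s₁) := by
      rw [map_smul, key, map_smul, ← algebraMap_smul A₀₁ (t : A₁), ← mul_smul, mul_comm, hat,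
        algebraMap_smul]
    obtain ⟨t', ht'⟩ := (IsLocalizedModule.eq_iff_exists (Submonoid.powers y) ρ₁).mp h1
    obtain ⟨j', hj'⟩ := t'.2
    apply mem_span_of_pow_smul_mem y s₁ hgen _ (j' + j)
    have : y ^ (j' + j) • (aeval y P.reverse • g) = (t' : A₁) • (a • s₁) := by
      rw [Submonoid.smul_def, Submonoid.smul_def] at ht'
      have hj2 : y ^ j = (t : A₁) := hj
      have hj2' : y ^ j' = (t' : A₁) := hj'
      rw [← ht', pow_add, mul_smul, hj2, hj2']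
    rw [this]
    exact Submodule.smul_mem _ _ (Submodule.smul_mem _ _ (Submodule.mem_span_singleton_self s₁))
  obtain ⟨l₁, hl₁⟩ := exists_coeff_linearMap s₁ ht₁ (aeval y P.reverse) hM₁
  have hl₀s : l₀ s₀ = aeval x P := by
    have : (l₀ s₀ - aeval x P) • s₀ = 0 := by rw [sub_smul, ← hl₀, sub_self]
    exact sub_eq_zero.mp (ht₀ _ this)
  have hl₁s : l₁ s₁ = aeval y P.reverse := by
    have : (l₁ s₁ - aeval y P.reverse) • s₁ = 0 := by rw [sub_smul, ← hl₁, sub_self]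
    exact sub_eq_zero.mp (ht₁ _ this)
  refine ⟨l₀, l₁, l, hl₀, hl₁, hl₀s, hl₁s, hl0, ?_⟩
  intro g
  have h1 := key g
  rw [hl₁, map_smul, ← algebraMap_smul A₀₁ (l₁ g) (ρ₁ s₁)] at h1
  have h2 : (algebraMap A₁ A₀₁ (l₁ g) - Y ^ P.natDegree * l (ρ₁ g) * c) • ρ₀ s₀ = 0 := by
    rw [hs, smul_comm, sub_smul, h1, sub_self, smul_zero]
  have h3 := sub_eq_zero.mp (htN _ h2)
  rw [h3]
  calc c * l (ρ₁ g) = (X * Y) ^ P.natDegree * (c * l (ρ₁ g)) := by rw [hxy, one_pow, one_mul]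
    _ = X ^ P.natDegree * (Y ^ P.natDegree * l (ρ₁ g) * c) := by ring

omit [IsLocalization.Away x A₀₁] [IsLocalization.Away y A₀₁]
  [IsLocalizedModule (Submonoid.powers x) ρ₀] [IsLocalizedModule (Submonoid.powers y) ρ₁]
  [Field K] [Algebra K A₀] [Algebra K A₁] [Algebra K A₀₁] [IsScalarTower K A₀ A₀₁]
  [IsScalarTower K A₁ A₀₁] [IsScalarTower A₀ A₀₁ N] in
/-- **Sections generating along `V(y)`, without general position.** If `H¹` of the previous
twist vanishes (`N = ρ₀ M₀ + c' • ρ₁ M₁`) and `t` generates `M₁` modulo `y`, then the twist by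
`c' x` has a section `(s₀, s₁)` with `s₁ ≡ t` modulo `y M₁`; in particular `s₁` generates `M₁`
modulo `y`. -/
theorem exists_section_generating
    (hxy : algebraMap A₀ A₀₁ x * algebraMap A₁ A₀₁ y = 1) (c' : A₀₁)
    (hsup : ∀ z : N, ∃ (g₀ : M₀) (g₁ : M₁), z = ρ₀ g₀ + c' • ρ₁ g₁)
    (t : M₁) (ht : Submodule.span A₁ {t} ⊔ Ideal.span {y} • (⊤ : Submodule A₁ M₁) = ⊤) :
    ∃ (s₀ : M₀) (s₁ : M₁), ρ₀ s₀ = (c' * algebraMap A₀ A₀₁ x) • ρ₁ s₁ ∧
      s₁ - t ∈ Ideal.span {y} • (⊤ : Submodule A₁ M₁) ∧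
      Submodule.span A₁ {s₁} ⊔ Ideal.span {y} • (⊤ : Submodule A₁ M₁) = ⊤ := by
  obtain ⟨g₀, g₁, hg⟩ := hsup ((c' * algebraMap A₀ A₀₁ x) • ρ₁ t)
  have hyg : y • g₁ ∈ Ideal.span {y} • (⊤ : Submodule A₁ M₁) :=
    Submodule.smul_mem_smul (Ideal.mem_span_singleton_self y) Submodule.mem_top
  refine ⟨g₀, t - y • g₁, ?_, ?_, ?_⟩
  · have h1 : (c' * algebraMap A₀ A₀₁ x) • ρ₁ (y • g₁) = c' • ρ₁ g₁ := by
      rw [map_smul, ← algebraMap_smul A₀₁ y (ρ₁ g₁), ← mul_smul, mul_assoc, hxy, mul_one]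
    rw [map_sub, smul_sub, h1, hg, add_sub_cancel_right]
  · rw [sub_sub_cancel_left]
    exact Submodule.neg_mem _ hyg
  · rw [eq_top_iff]
    rintro m -
    have hm : m ∈ Submodule.span A₁ {t} ⊔ Ideal.span {y} • (⊤ : Submodule A₁ M₁) := by
      rw [ht]; exact Submodule.mem_top
    obtain ⟨a, ha, b, hb, rfl⟩ := Submodule.mem_sup.mp hm
    obtain ⟨r, rfl⟩ := Submodule.mem_span_singleton.mp ha
    have : r • t + b = r • (t - y • g₁) + (r • (y • g₁) + b) := by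
      rw [smul_sub]; abel
    rw [this]
    exact Submodule.add_mem_sup
      (Submodule.smul_mem _ _ (Submodule.mem_span_singleton_self _))
      (Submodule.add_mem _ (Submodule.smul_mem _ _ hyg) hb)

end Poly

section Charpoly

variable {K A : Type*} [Field K] [CommRing A] [Algebra K A]
  {M : Type*} [AddCommGroup M] [Module A M] [Module K M] [IsScalarTower K A M]

/-- Cayley–Hamilton: if `M ⧸ W` is finite-dimensional over `K`, the characteristic polynomial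
`P` of multiplication by `x` on it is monic of degree `dim_K (M ⧸ W)` and `P(x) • M ⊆ W`. -/
theorem exists_monic_aeval_smul_mem (x : A) (W : Submodule A M) [Module.Finite K (M ⧸ W)] :
    ∃ P : K[X], P.Monic ∧ P.natDegree = Module.finrank K (M ⧸ W) ∧
      ∀ g : M, aeval x P • g ∈ W := by
  let f : Module.End K (M ⧸ W) := Algebra.lsmul K K (M ⧸ W) x
  refine ⟨f.charpoly, f.charpoly_monic, f.charpoly_natDegree, fun g => ?_⟩
  have h1 : aeval f f.charpoly = 0 := f.aeval_self_charpoly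
  have h2 : aeval f f.charpoly = Algebra.lsmul K K (M ⧸ W) (aeval x f.charpoly) :=
    aeval_algHom_apply (Algebra.lsmul K K (M ⧸ W)) x f.charpoly
  rw [h1] at h2
  have h3 : aeval x f.charpoly • (Submodule.Quotient.mk g : M ⧸ W) = 0 := by
    have := congrArg (fun e : Module.End K (M ⧸ W) => e (Submodule.Quotient.mk g)) h2
    simpa using this.symm
  rwa [← Submodule.Quotient.mk_smul, Submodule.Quotient.mk_eq_zero] at h3

end Charpoly

section Packaged

variable {K A₀ A₁ A₀₁ : Type*} [Field K] [CommRing A₀] [CommRing A₁] [CommRing A₀₁]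
  [Algebra K A₀] [Algebra K A₁] [Algebra K A₀₁] [Algebra A₀ A₀₁] [Algebra A₁ A₀₁]
  [IsScalarTower K A₀ A₀₁] [IsScalarTower K A₁ A₀₁]
  (x : A₀) (y : A₁) [IsLocalization.Away x A₀₁] [IsLocalization.Away y A₀₁]
  {M₀ M₁ N : Type*} [AddCommGroup M₀] [Module A₀ M₀] [AddCommGroup M₁] [Module A₁ M₁]
  [AddCommGroup N] [Module A₀₁ N] [Module A₀ N] [Module A₁ N]
  [IsScalarTower A₀ A₀₁ N] [IsScalarTower A₁ A₀₁ N]
  (ρ₀ : M₀ →ₗ[A₀] N) (ρ₁ : M₁ →ₗ[A₁] N)
  [IsLocalizedModule (Submonoid.powers x) ρ₀] [IsLocalizedModule (Submonoid.powers y) ρ₁]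

/-- **Polynomial trick, packaged.** A non-torsion section `(s₀, s₁)` of a twist of a two-chart
datum over a field `K`, generating `M₁` along `V(y)` and with `M₀ ⧸ A₀ s₀` of finite dimension
`d` over `K`, gives a morphism `(l₀, l₁, l)` from the datum to the twisted trivial datum which
is an isomorphism along `V(y)`: `l₁ s₁ ≡ 1` modulo `y`. Here `l₀ s₀ = P(x)` for a monic `P` of
degree `d`, and on the overlap `l ∘ ρ₀ = res₀ ∘ l₀`, `c * l (ρ₁ g) = x ^ d * res₁ (l₁ g)`. -/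
theorem exists_hom_of_section_of_finite [Module.Finite A₁ M₁]
    [Module K M₀] [IsScalarTower K A₀ M₀]
    (hxy : algebraMap A₀ A₀₁ x * algebraMap A₁ A₀₁ y = 1)
    (hinj₁ : Function.Injective (algebraMap A₁ A₀₁))
    (s₀ : M₀) (s₁ : M₁) (c : A₀₁) (hs : ρ₀ s₀ = c • ρ₁ s₁)
    (ht₀ : ∀ a : A₀, a • s₀ = 0 → a = 0)
    (hgen : Submodule.span A₁ {s₁} ⊔ Ideal.span {y} • (⊤ : Submodule A₁ M₁) = ⊤)
    [Module.Finite K (M₀ ⧸ Submodule.span A₀ {s₀})] :
    ∃ (P : K[X]) (l₀ : M₀ →ₗ[A₀] A₀) (l₁ : M₁ →ₗ[A₁] A₁) (l : N →ₗ[A₀₁] A₀₁),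
      P.Monic ∧ P.natDegree = Module.finrank K (M₀ ⧸ Submodule.span A₀ {s₀}) ∧
      (∀ g, aeval x P • g = l₀ g • s₀) ∧
      (∀ g, aeval y P.reverse • g = l₁ g • s₁) ∧
      l₀ s₀ = aeval x P ∧ l₁ s₁ = aeval y P.reverse ∧
      l₁ s₁ - 1 ∈ Ideal.span {y} ∧
      LinearMap.range l₁ ⊔ Ideal.span {y} • (⊤ : Submodule A₁ A₁) = ⊤ ∧
      (∀ g, l (ρ₀ g) = algebraMap A₀ A₀₁ (l₀ g)) ∧
      (∀ g, c * l (ρ₁ g) =
        algebraMap A₀ A₀₁ x ^ Module.finrank K (M₀ ⧸ Submodule.span A₀ {s₀}) *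
          algebraMap A₁ A₀₁ (l₁ g)) := by
  obtain ⟨P, hPm, hPd, hPs⟩ := exists_monic_aeval_smul_mem (K := K) x (Submodule.span A₀ {s₀})
  obtain ⟨l₀, l₁, l, h1, h2, h3, h4, h5, h6⟩ :=
    exists_hom_of_section x y ρ₀ ρ₁ hxy hinj₁ s₀ s₁ c hs ht₀ hgen P hPs
  have hu : l₁ s₁ - 1 ∈ Ideal.span {y} := by
    rw [h4]; exact aeval_reverse_sub_one_mem y P hPm
  refine ⟨P, l₀, l₁, l, hPm, hPd, h1, h2, h3, h4, hu, ?_, h5, ?_⟩
  · rw [eq_top_iff]
    rintro a -
    have : a = l₁ (a • s₁) + (-(l₁ s₁ - 1)) • a := by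
      rw [map_smul, smul_eq_mul, smul_eq_mul]; ring
    rw [this]
    exact Submodule.add_mem_sup (LinearMap.mem_range_self _ _)
      (Submodule.smul_mem_smul ((Ideal.span {y}).neg_mem hu) Submodule.mem_top)
  · intro g
    rw [← hPd]
    exact h6 g

end Packaged

end Fermat.Agent.S25.helper3477
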