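import Mathlib
import Fermat.Agent.S25.helper4193_HomGlue

/-!
# S25 leaf U15: full faithfulness of the two-chart dictionary (helper3484)

Let `X` be a scheme covered by two affine opens `V₀`, `V₁` with affine intersection, and let
`L`, `L'` be quasi-coherent modules on `X` (e.g. invertible ones). Then morphisms `L ⟶ L'` are the
same as compatible triples of linear maps on the sections over `V₀`, `V₁`, `V₀ ⊓ V₁`, and
`L ≅ L'` if and only if the three section modules are compatibly isomorphic.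

All module structures are Mathlib's `Γ(X, V)`-module structures on `Γ(L, V)`; restriction maps are
`Fermat.Agent.S25.helper4193.res`.

Main statements (everything is stated with Mathlib notions only):

* `bijective_moduleSpecΓFunctor_map` : on `Spec R`, `Hom(M, N) = Hom_R(Γ M, Γ N)` for `M`
  quasi-coherent and `N` arbitrary.
* `IsGen`, `isGen_of_isAffineOpen` : local generation by sections over an affine open.
* `localHom_ext_of_isGen` : uniqueness of extensions (FF2).
* `exists_localHom_of_isAffineOpen` : existence of extensions over an affine open (FF1).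
* `existsUnique_hom_of_two_affine` : two-chart gluing of morphisms (FF3).
* `exists_iso_of_two_affine`, `nonempty_iso_iff_of_two_affine` : two-chart criterion for
  isomorphism (FF4).
-/

set_option autoImplicit false

universe u v₁ v₂ u₁ u₂

open CategoryTheory TopologicalSpace Opposite AlgebraicGeometry
open Fermat.Agent.S25.helper4193

namespace Fermat.Agent.S25.helper3484

variable {X Y : Scheme.{u}}

/-! ## Generalities on local morphisms -/

lemma le_of_small {V W : X.Opens} (h : Small (fun _ : Unit => V) W) : W ≤ V := by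
  obtain ⟨_, h⟩ := h
  exact h

lemma small_of_le {V W : X.Opens} (h : W ≤ V) : Small (fun _ : Unit => V) W := ⟨(), h⟩

/-- Two sections of a sheaf of modules which agree locally are equal. -/
lemma eq_of_locally_eq (M : X.Modules) {W : X.Opens} (s t : Γ(M, W))
    (h : ∀ p : X, p ∈ W → ∃ (W' : X.Opens) (hW' : W' ≤ W), p ∈ W' ∧ res M hW' s = res M hW' t) :
    s = t := by
  choose W' hW' hp hst using h
  refine TopCat.Sheaf.eq_of_locally_eq' (abSheaf M) (fun p : W => W' p.1 p.2) W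
    (fun p => homOfLE (hW' p.1 p.2)) ?_ s t (fun p => hst p.1 p.2)
  intro p hpW
  exact Opens.mem_iSup.2 ⟨⟨p, hpW⟩, hp p hpW⟩

/-- `L` is *generated on `V` by its sections over `V`*: every section of `L` over an open
`W ≤ V` is, locally on `W`, a unit multiple of the restriction of a section over `V`.
This holds for quasi-coherent `L` and affine `V` (`isGen_of_isAffineOpen`). -/
def IsGen (L : X.Modules) (V : X.Opens) : Prop :=
  ∀ (W : X.Opens) (hW : W ≤ V) (s : Γ(L, W)) (p : X), p ∈ W →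
    ∃ (W' : X.Opens) (hW' : W' ≤ W), p ∈ W' ∧ ∃ (b : Γ(X, W')) (t : Γ(L, V)),
      IsUnit b ∧ b • res L hW' s = res L (hW'.trans hW) t

/-- **Uniqueness (FF2).** If `L` is generated on `V` by its sections over `V`, two compatible
linear families of maps on the opens contained in `V'' ≤ V` that agree on the restrictions of the
sections over `V` are equal. -/
theorem localHom_ext_of_isGen {L L' : X.Modules} {V V'' : X.Opens} (hgen : IsGen L V)
    (hV'' : V'' ≤ V) (ψ ψ' : LocalHom L L' (fun _ : Unit => V''))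
    (h : ∀ t : Γ(L, V), ψ.app V'' (small_of_le le_rfl) (res L hV'' t) =
      ψ'.app V'' (small_of_le le_rfl) (res L hV'' t))
    (W : X.Opens) (hW : Small (fun _ : Unit => V'') W) (s : Γ(L, W)) :
    ψ.app W hW s = ψ'.app W hW s := by
  have hWV'' : W ≤ V'' := le_of_small hW
  refine eq_of_locally_eq L' _ _ fun p hp => ?_
  obtain ⟨W', hW', hpW', b, t, hb, hbt⟩ := hgen W (hWV''.trans hV'') s p hp
  refine ⟨W', hW', hpW', ?_⟩
  have hsW' : Small (fun _ : Unit => V'') W' := small_of_le (hW'.trans hWV'')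
  rw [ψ.app_res W W' hW hsW' hW', ψ'.app_res W W' hW hsW' hW']
  have key : ∀ φ : LocalHom L L' (fun _ : Unit => V''),
      b • φ.app W' hsW' (res L hW' s) =
        res L' (hW'.trans hWV'') (φ.app V'' (small_of_le le_rfl) (res L hV'' t)) := by
    intro φ
    rw [← φ.app_smul, hbt, φ.app_res V'' W' (small_of_le le_rfl) hsW' (hW'.trans hWV''), res_res]
  have h2 : b • ψ.app W' hsW' (res L hW' s) = b • ψ'.app W' hsW' (res L hW' s) := by
    rw [key ψ, key ψ', h t]
  obtain ⟨u, rfl⟩ := hb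
  have h3 := congrArg (fun x => (↑u⁻¹ : Γ(X, W')) • x) h2
  simpa [smul_smul] using h3

/-- Restriction of a local morphism to the opens contained in a smaller open. -/
noncomputable def restrLocalHom {L L' : X.Modules} {V V' : X.Opens} (h : V' ≤ V)
    (ψ : LocalHom L L' (fun _ : Unit => V)) : LocalHom L L' (fun _ : Unit => V') where
  app W hW := ψ.app W (small_of_le ((le_of_small hW).trans h))
  app_res W W' _ _ hWW' s := ψ.app_res W W' _ _ hWW' s
  app_smul W _ r s := ψ.app_smul W _ r s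

/-- The family of two opens `V₀`, `V₁`, indexed by `Bool` (`false ↦ V₀`, `true ↦ V₁`). -/
def twoFam (V₀ V₁ : X.Opens) : Bool → X.Opens := fun b => bif b then V₁ else V₀

lemma iSup_twoFam (V₀ V₁ : X.Opens) : ⨆ b, twoFam V₀ V₁ b = V₀ ⊔ V₁ := by
  rw [iSup_bool_eq, sup_comm]
  rfl

lemma small_twoFam_left {V₀ V₁ W : X.Opens} (h : W ≤ V₀) : Small (twoFam V₀ V₁) W :=
  ⟨false, h⟩

lemma small_twoFam_right {V₀ V₁ W : X.Opens} (h : W ≤ V₁) : Small (twoFam V₀ V₁) W :=
  ⟨true, h⟩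

lemma le_right_of_small_twoFam {V₀ V₁ W : X.Opens} (hW : Small (twoFam V₀ V₁) W)
    (h : ¬ W ≤ V₀) : W ≤ V₁ := by
  obtain ⟨b, hb⟩ := hW
  cases b
  · exact absurd hb h
  · exact hb

section GlueTwo

variable {L L' : X.Modules} {V₀ V₁ : X.Opens}
  (ψ₀ : LocalHom L L' (fun _ : Unit => V₀)) (ψ₁ : LocalHom L L' (fun _ : Unit => V₁))

open Classical in
/-- The maps of the glued local morphism: `ψ₀` on the opens contained in `V₀`, `ψ₁` on the
others. -/
noncomputable def glueTwoApp (W : X.Opens) (hW : Small (twoFam V₀ V₁) W) : Γ(L, W) →+ Γ(L', W) :=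
  if h : W ≤ V₀ then ψ₀.app W (small_of_le h)
  else ψ₁.app W (small_of_le (le_right_of_small_twoFam hW h))

lemma glueTwoApp_of_le (W : X.Opens) (hW : Small (twoFam V₀ V₁) W) (h : W ≤ V₀) :
    glueTwoApp ψ₀ ψ₁ W hW = ψ₀.app W (small_of_le h) := by
  unfold glueTwoApp
  rw [dif_pos h]

lemma glueTwoApp_of_not_le (W : X.Opens) (hW : Small (twoFam V₀ V₁) W) (h : ¬ W ≤ V₀) :
    glueTwoApp ψ₀ ψ₁ W hW = ψ₁.app W (small_of_le (le_right_of_small_twoFam hW h)) := by
  unfold glueTwoApp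
  rw [dif_neg h]

variable (hagree : ∀ (W : X.Opens) (h0 : W ≤ V₀) (h1 : W ≤ V₁) (s : Γ(L, W)),
      ψ₀.app W (small_of_le h0) s = ψ₁.app W (small_of_le h1) s)

include hagree in
lemma glueTwoApp_of_le_right (W : X.Opens) (hW : Small (twoFam V₀ V₁) W) (h : W ≤ V₁)
    (s : Γ(L, W)) : glueTwoApp ψ₀ ψ₁ W hW s = ψ₁.app W (small_of_le h) s := by
  by_cases h' : W ≤ V₀
  · rw [glueTwoApp_of_le ψ₀ ψ₁ W hW h', hagree W h' h]
  · rw [glueTwoApp_of_not_le ψ₀ ψ₁ W hW h']

/-- Two local morphisms on `V₀` and on `V₁` which agree on the opens contained in `V₀ ⊓ V₁`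
glue to a local morphism for the family `{V₀, V₁}`. -/
noncomputable def glueTwo : LocalHom L L' (twoFam V₀ V₁) where
  app W hW := glueTwoApp ψ₀ ψ₁ W hW
  app_res W W' hW hW' hWW' s := by
    by_cases h : W ≤ V₀
    · have h' : W' ≤ V₀ := hWW'.trans h
      rw [glueTwoApp_of_le ψ₀ ψ₁ W hW h, glueTwoApp_of_le ψ₀ ψ₁ W' hW' h']
      exact ψ₀.app_res W W' _ _ hWW' s
    · have h1 : W ≤ V₁ := le_right_of_small_twoFam hW h
      rw [glueTwoApp_of_not_le ψ₀ ψ₁ W hW h,
        glueTwoApp_of_le_right ψ₀ ψ₁ hagree W' hW' (hWW'.trans h1)]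
      exact ψ₁.app_res W W' _ _ hWW' s
  app_smul W hW r s := by
    by_cases h : W ≤ V₀
    · rw [glueTwoApp_of_le ψ₀ ψ₁ W hW h]
      exact ψ₀.app_smul W _ r s
    · rw [glueTwoApp_of_not_le ψ₀ ψ₁ W hW h]
      exact ψ₁.app_smul W _ r s

lemma glueTwo_app_left (W : X.Opens) (h : W ≤ V₀) (s : Γ(L, W)) :
    (glueTwo ψ₀ ψ₁ hagree).app W (small_twoFam_left h) s = ψ₀.app W (small_of_le h) s := by
  change glueTwoApp ψ₀ ψ₁ W (small_twoFam_left h) s = _
  rw [glueTwoApp_of_le ψ₀ ψ₁ W (small_twoFam_left h) h]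

lemma glueTwo_app_right (W : X.Opens) (h : W ≤ V₁) (s : Γ(L, W)) :
    (glueTwo ψ₀ ψ₁ hagree).app W (small_twoFam_right h) s = ψ₁.app W (small_of_le h) s :=
  glueTwoApp_of_le_right ψ₀ ψ₁ hagree W (small_twoFam_right h) h s

end GlueTwo

/-! ## Morphisms of restrictions along an open immersion -/

/-- For an open immersion `j` and an open `W` inside its range, `W = j(j⁻¹ W)`. -/
lemma le_image_preimage (j : Y ⟶ X) [IsOpenImmersion j] {W : X.Opens} (hW : W ≤ j ''ᵁ ⊤) :
    W ≤ j ''ᵁ (j ⁻¹ᵁ W) := by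
  rw [j.image_preimage_eq_opensRange_inf, ← j.image_top_eq_opensRange]
  exact le_inf hW le_rfl

section

variable (j : Y ⟶ X) [IsOpenImmersion j] {L L' : X.Modules} (g : L.restrict j ⟶ L'.restrict j)

/-- The action of a morphism `L|_Y ⟶ L'|_Y` on the sections of `L` over `j(W)`. -/
noncomputable def restrictApp (W : Y.Opens) : Γ(L, j ''ᵁ W) →+ Γ(L', j ''ᵁ W) :=
  (g.app W).hom

lemma restrictApp_res {W W' : Y.Opens} (h : W' ≤ W) (s : Γ(L, j ''ᵁ W)) :
    res L' (j.image_mono h) (restrictApp j g W s) =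
      restrictApp j g W' (res L (j.image_mono h) s) :=
  hom_app_res g h s

lemma restrictApp_smul (W : Y.Opens) (r : Γ(X, j ''ᵁ W)) (s : Γ(L, j ''ᵁ W)) :
    restrictApp j g W (r • s) = r • restrictApp j g W s := by
  have h : (j.appIso W).inv ((j.appIso W).hom r) = r := by simp
  have h1 : restrictApp j g W ((j.appIso W).inv ((j.appIso W).hom r) • s) =
      (j.appIso W).inv ((j.appIso W).hom r) • restrictApp j g W s :=
    g.app_smul (U := W) ((j.appIso W).hom r) s
  rwa [h] at h1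

end

/-- A morphism between the restrictions of two modules along an open immersion `j`, viewed as a
compatible family of maps on sections over the opens contained in the image of `j`. -/
noncomputable def localHomOfRestrict (j : Y ⟶ X) [IsOpenImmersion j] {L L' : X.Modules}
    (g : L.restrict j ⟶ L'.restrict j) : LocalHom L L' (fun _ : Unit => j ''ᵁ ⊤) where
  app W hW :=
    (res L' (le_image_preimage j (le_of_small hW))).comp
      ((restrictApp j g (j ⁻¹ᵁ W)).comp (res L (j.image_preimage_le W)))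
  app_res W W' hW hW' h s := by
    have hpre : j ⁻¹ᵁ W' ≤ j ⁻¹ᵁ W := j.preimage_mono h
    simp only [AddMonoidHom.comp_apply]
    rw [res_res]
    have e1 : res L (j.image_preimage_le W') (res L h s) =
        res L (j.image_mono hpre) (res L (j.image_preimage_le W) s) := by
      rw [res_res, res_res]
    rw [e1, ← restrictApp_res j g hpre, res_res]
  app_smul W hW r s := by
    simp only [AddMonoidHom.comp_apply]
    rw [res_smul, restrictApp_smul, res_smul]
    congr 1
    rw [← ConcreteCategory.comp_apply, ← Functor.map_comp]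
    have : (homOfLE (j.image_preimage_le W)).op ≫
        (homOfLE (le_image_preimage j (le_of_small hW))).op = 𝟙 (op W) := rfl
    rw [this, X.presheaf.map_id]
    rfl

lemma localHomOfRestrict_app_top (j : Y ⟶ X) [IsOpenImmersion j] {L L' : X.Modules}
    (g : L.restrict j ⟶ L'.restrict j) (s : Γ(L, j ''ᵁ ⊤)) :
    (localHomOfRestrict j g).app (j ''ᵁ ⊤) (small_of_le le_rfl) s = restrictApp j g ⊤ s := by
  change res L' _ (restrictApp j g (j ⁻¹ᵁ (j ''ᵁ ⊤)) (res L _ s)) = _
  have h : res L (j.image_preimage_le (j ''ᵁ ⊤)) s =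
      res L (j.image_mono (le_top : j ⁻¹ᵁ (j ''ᵁ ⊤) ≤ ⊤)) s := rfl
  rw [h, ← restrictApp_res j g le_top, res_res, res_self]

/-! ## The affine case -/

/-- If the counit of an adjunction `F ⊣ G` is an isomorphism at `M`, then `G` is bijective on
morphisms out of `M`. -/
theorem bijective_map_of_isIso_counit {C : Type u₁} [Category.{v₁} C] {D : Type u₂}
    [Category.{v₂} D] {F : C ⥤ D} {G : D ⥤ C} (adj : F ⊣ G) (M N : D)
    [IsIso (adj.counit.app M)] :
    Function.Bijective (fun g : M ⟶ N => G.map g) := by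
  have key : ∀ g : M ⟶ N, G.map g = adj.homEquiv _ _ (adj.counit.app M ≫ g) := by
    intro g
    rw [Adjunction.homEquiv_unit, Functor.map_comp, ← Category.assoc,
      adj.right_triangle_components, Category.id_comp]
  have : (fun g : M ⟶ N => G.map g) =
      (adj.homEquiv _ _) ∘ (fun g : M ⟶ N => adj.counit.app M ≫ g) := by
    funext g
    exact key g
  rw [this]
  refine (adj.homEquiv _ _).bijective.comp ?_
  exact ⟨fun a b h => (cancel_epi _).1 h, fun h => ⟨inv (adj.counit.app M) ≫ h, by simp⟩⟩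

variable {R : CommRingCat.{u}}

/-- On `Spec R`, morphisms out of a quasi-coherent module are the same as `R`-linear maps on
global sections. -/
theorem bijective_moduleSpecΓFunctor_map (M N : (Spec R).Modules) [M.IsQuasicoherent] :
    Function.Bijective (fun g : M ⟶ N => (moduleSpecΓFunctor (R := R)).map g) := by
  have hM : IsIso M.fromTildeΓ := inferInstance
  have : IsIso ((tilde.adjunction (R := R)).counit.app M) := hM
  exact bijective_map_of_isIso_counit (tilde.adjunction (R := R)) M N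

lemma moduleSpecΓFunctor_map_apply {M N : (Spec R).Modules} (g : M ⟶ N)
    (s : Γ(M, (⊤ : (Spec R).Opens))) :
    ((moduleSpecΓFunctor (R := R)).map g).hom s = g.app ⊤ s := rfl

/-- An `R`-linear map between global sections, as a morphism in `ModuleCat R`. -/
noncomputable def linToΓ (M N : (Spec R).Modules)
    (l : Γ(M, (⊤ : (Spec R).Opens)) →ₗ[R] Γ(N, (⊤ : (Spec R).Opens))) :
    (moduleSpecΓFunctor (R := R)).obj M ⟶ (moduleSpecΓFunctor (R := R)).obj N :=
  ModuleCat.ofHom (X := Γ(M, (⊤ : (Spec R).Opens))) (Y := Γ(N, (⊤ : (Spec R).Opens))) l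

/-- On `Spec R`, every `R`-linear map between the global sections of a quasi-coherent module `M`
and those of any module `N` is induced by a morphism `M ⟶ N`. -/
theorem exists_hom_app_top_eq (M N : (Spec R).Modules) [M.IsQuasicoherent]
    (l : Γ(M, (⊤ : (Spec R).Opens)) →ₗ[R] Γ(N, (⊤ : (Spec R).Opens))) :
    ∃ g : M ⟶ N, ∀ s, g.app ⊤ s = l s := by
  obtain ⟨g, hg⟩ := (bijective_moduleSpecΓFunctor_map M N).2 (linToΓ M N l)
  refine ⟨g, fun s => ?_⟩
  have hg' : (moduleSpecΓFunctor (R := R)).map g = linToΓ M N l := hg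
  rw [← moduleSpecΓFunctor_map_apply, hg']
  rfl

/-- The basic open `D(f)` as an open of the scheme `Spec R`. -/
def bo (f : R) : (Spec R).Opens := PrimeSpectrum.basicOpen f

/-- Local generation on `Spec R`: a section of a quasi-coherent module over a basic open `D(f)`
becomes, after multiplication by a power of `f`, the restriction of a global section. -/
lemma exists_pow_smul_eq_res (M : (Spec R).Modules) [M.IsQuasicoherent] (f : R)
    (y : Γ(M, bo f)) :
    ∃ (n : ℕ) (x : Γ(M, (⊤ : (Spec R).Opens))),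
      (f ^ n) • y = M.presheaf.map (homOfLE (le_top : bo f ≤ ⊤)).op x := by
  have hloc := (isIso_fromTildeΓ_iff_isLocalizing M).1 inferInstance f
  obtain ⟨⟨x, ⟨_, n, rfl⟩⟩, hx⟩ := hloc.surj y
  exact ⟨n, x, hx⟩

set_option backward.isDefEq.respectTransparency.types false in
lemma isUnit_algebraMap_bo (f : R) : IsUnit (algebraMap R Γ(Spec R, bo f) f) :=
  haveI : IsLocalization.Away f Γ(Spec R, bo f) :=
    inferInstanceAs (IsLocalization.Away f
      ((Spec.structureSheaf R).obj.obj (Opposite.op <| PrimeSpectrum.basicOpen f)))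
  IsLocalization.Away.algebraMap_isUnit _

/-- A quasi-coherent module is generated, on the image of an affine chart, by its sections over
that image. -/
theorem isGen_of_chart (j : Spec R ⟶ X) [IsOpenImmersion j] (L : X.Modules) [L.IsQuasicoherent] :
    IsGen L (j ''ᵁ ⊤) := by
  intro W hW s p hp
  obtain ⟨q, -, rfl⟩ := hW hp
  have hq : q ∈ j ⁻¹ᵁ W := hp
  obtain ⟨a, ⟨_, ⟨f, rfl⟩, rfl⟩, hqf, hfW : PrimeSpectrum.basicOpen _ ≤ _⟩ :=
    PrimeSpectrum.isBasis_basic_opens.exists_subset_of_mem_open hq (j ⁻¹ᵁ W).2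
  have hfW' : bo f ≤ j ⁻¹ᵁ W := hfW
  have hW' : j ''ᵁ (bo f) ≤ W := (j.image_mono hfW').trans (j.image_preimage_le W)
  refine ⟨j ''ᵁ (bo f), hW', ⟨q, hqf, rfl⟩, ?_⟩
  obtain ⟨n, x, hx⟩ := exists_pow_smul_eq_res (L.restrict j) f (res L hW' s)
  refine ⟨(j.appIso (bo f)).inv (algebraMap R Γ(Spec R, bo f) (f ^ n)), x, ?_, ?_⟩
  · rw [map_pow]
    exact ((isUnit_algebraMap_bo f).pow n).map _
  · exact hx

/-- **Existence on an affine chart.** Let `j : Spec R ⟶ X` be an open immersion, `L` a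
quasi-coherent module and `L'` any module on `X`. Every linear map between the sections of `L`
and `L'` over the image of `j` extends to a compatible linear family of maps on the sections
over all opens contained in the image of `j`. -/
theorem exists_localHom_of_chart (j : Spec R ⟶ X) [IsOpenImmersion j] (L L' : X.Modules)
    [L.IsQuasicoherent] (e : Γ(L, j ''ᵁ ⊤) →ₗ[Γ(X, j ''ᵁ ⊤)] Γ(L', j ''ᵁ ⊤)) :
    ∃ ψ : LocalHom L L' (fun _ : Unit => j ''ᵁ ⊤),
      ∀ s, ψ.app (j ''ᵁ ⊤) (small_of_le le_rfl) s = e s := by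
  let l : Γ(L.restrict j, (⊤ : (Spec R).Opens)) →ₗ[R] Γ(L'.restrict j, (⊤ : (Spec R).Opens)) :=
    { toFun := fun s => e s
      map_add' := fun s t => e.map_add s t
      map_smul' := fun r s =>
        e.map_smul ((j.appIso ⊤).inv (algebraMap R Γ(Spec R, (⊤ : (Spec R).Opens)) r)) s }
  obtain ⟨g, hg⟩ := exists_hom_app_top_eq (L.restrict j) (L'.restrict j) l
  refine ⟨localHomOfRestrict j g, fun s => ?_⟩
  rw [localHomOfRestrict_app_top]
  exact hg s

/-! ## Affine opens of a scheme -/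

lemma fromSpec_image_top {V : X.Opens} (hV : IsAffineOpen V) : hV.fromSpec ''ᵁ ⊤ = V :=
  (Scheme.Hom.image_top_eq_opensRange _).trans hV.opensRange_fromSpec

/-- A quasi-coherent module is generated on an affine open `V` by its sections over `V`. -/
theorem isGen_of_isAffineOpen {V : X.Opens} (hV : IsAffineOpen V) (L : X.Modules)
    [L.IsQuasicoherent] : IsGen L V := by
  have h := isGen_of_chart hV.fromSpec L
  rwa [fromSpec_image_top hV] at h

/-- **Existence (FF1).** Let `V` be an affine open of `X`, `L` a quasi-coherent module and `L'`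
any module on `X`. Every `Γ(X, V)`-linear map `Γ(L, V) → Γ(L', V)` extends to a compatible
linear family of maps `Γ(L, W) → Γ(L', W)` for all opens `W ≤ V`. -/
theorem exists_localHom_of_isAffineOpen {V : X.Opens} (hV : IsAffineOpen V) (L L' : X.Modules)
    [L.IsQuasicoherent] (e : Γ(L, V) →ₗ[Γ(X, V)] Γ(L', V)) :
    ∃ ψ : LocalHom L L' (fun _ : Unit => V), ∀ s, ψ.app V (small_of_le le_rfl) s = e s := by
  have key : ∀ (V' : X.Opens) (_ : hV.fromSpec ''ᵁ ⊤ = V')
      (e : Γ(L, V') →ₗ[Γ(X, V')] Γ(L', V')),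
      ∃ ψ : LocalHom L L' (fun _ : Unit => V'), ∀ s, ψ.app V' (small_of_le le_rfl) s = e s := by
    intro V' h e
    subst h
    exact exists_localHom_of_chart hV.fromSpec L L' e
  exact key V (fromSpec_image_top hV) e

/-- **Uniqueness on an affine open.** Two morphisms out of a quasi-coherent module which agree
on the sections over an affine open `V` agree on the sections over every open `W ≤ V`. -/
theorem hom_app_eq_of_isAffineOpen {V : X.Opens} (hV : IsAffineOpen V) {L L' : X.Modules}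
    [L.IsQuasicoherent] (f f' : L ⟶ L') (h : ∀ s : Γ(L, V), f.app V s = f'.app V s)
    {W : X.Opens} (hW : W ≤ V) (s : Γ(L, W)) : f.app W s = f'.app W s := by
  refine localHom_ext_of_isGen (isGen_of_isAffineOpen hV L) le_rfl
    (LocalHom.ofHom f (fun _ : Unit => V)) (LocalHom.ofHom f' (fun _ : Unit => V)) ?_ W
    (small_of_le hW) s
  intro t
  rw [res_self]
  exact h t

/-! ## Two charts -/

section TwoCharts

variable {V₀ V₁ : X.Opens}

/-- **Two-chart gluing of morphisms (FF3).** Let `X = V₀ ∪ V₁` with `V₀`, `V₁`, `V₀ ⊓ V₁` affine,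
`L` quasi-coherent and `L'` arbitrary. Linear maps `e₀`, `e₁`, `e₀₁` on the sections over `V₀`,
`V₁`, `V₀ ⊓ V₁`, compatible with the two restriction maps, come from a unique morphism
`f : L ⟶ L'`. -/
theorem existsUnique_hom_of_two_affine (h₀ : IsAffineOpen V₀) (h₁ : IsAffineOpen V₁)
    (h₀₁ : IsAffineOpen (V₀ ⊓ V₁)) (hcov : V₀ ⊔ V₁ = ⊤) (L L' : X.Modules) [L.IsQuasicoherent]
    (e₀ : Γ(L, V₀) →ₗ[Γ(X, V₀)] Γ(L', V₀)) (e₁ : Γ(L, V₁) →ₗ[Γ(X, V₁)] Γ(L', V₁))
    (e₀₁ : Γ(L, V₀ ⊓ V₁) →ₗ[Γ(X, V₀ ⊓ V₁)] Γ(L', V₀ ⊓ V₁))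
    (c₀ : ∀ s, e₀₁ (res L inf_le_left s) = res L' inf_le_left (e₀ s))
    (c₁ : ∀ s, e₀₁ (res L inf_le_right s) = res L' inf_le_right (e₁ s)) :
    ∃! f : L ⟶ L', (∀ s, f.app V₀ s = e₀ s) ∧ (∀ s, f.app V₁ s = e₁ s) := by
  obtain ⟨ψ₀, hψ₀⟩ := exists_localHom_of_isAffineOpen h₀ L L' e₀
  obtain ⟨ψ₁, hψ₁⟩ := exists_localHom_of_isAffineOpen h₁ L L' e₁
  obtain ⟨ψ₀₁, hψ₀₁⟩ := exists_localHom_of_isAffineOpen h₀₁ L L' e₀₁
  have hA : ∀ (W : X.Opens) (hW : W ≤ V₀ ⊓ V₁) (s : Γ(L, W)),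
      ψ₀.app W (small_of_le (hW.trans inf_le_left)) s = ψ₀₁.app W (small_of_le hW) s := by
    intro W hW s
    refine localHom_ext_of_isGen (isGen_of_isAffineOpen h₀ L) inf_le_left
      (restrLocalHom inf_le_left ψ₀) ψ₀₁ ?_ W (small_of_le hW) s
    intro t
    change ψ₀.app (V₀ ⊓ V₁) _ (res L inf_le_left t) = _
    rw [← ψ₀.app_res V₀ (V₀ ⊓ V₁) (small_of_le le_rfl) _ inf_le_left, hψ₀, hψ₀₁, c₀]
  have hB : ∀ (W : X.Opens) (hW : W ≤ V₀ ⊓ V₁) (s : Γ(L, W)),
      ψ₁.app W (small_of_le (hW.trans inf_le_right)) s = ψ₀₁.app W (small_of_le hW) s := by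
    intro W hW s
    refine localHom_ext_of_isGen (isGen_of_isAffineOpen h₁ L) inf_le_right
      (restrLocalHom inf_le_right ψ₁) ψ₀₁ ?_ W (small_of_le hW) s
    intro t
    change ψ₁.app (V₀ ⊓ V₁) _ (res L inf_le_right t) = _
    rw [← ψ₁.app_res V₁ (V₀ ⊓ V₁) (small_of_le le_rfl) _ inf_le_right, hψ₁, hψ₀₁, c₁]
  have hagree : ∀ (W : X.Opens) (h0 : W ≤ V₀) (h1 : W ≤ V₁) (s : Γ(L, W)),
      ψ₀.app W (small_of_le h0) s = ψ₁.app W (small_of_le h1) s := fun W h0 h1 s =>
    (hA W (le_inf h0 h1) s).trans (hB W (le_inf h0 h1) s).symm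
  have hU : ⨆ b, twoFam V₀ V₁ b = ⊤ := (iSup_twoFam V₀ V₁).trans hcov
  refine ⟨glueHom (glueTwo ψ₀ ψ₁ hagree) hU, ⟨fun s => ?_, fun s => ?_⟩, ?_⟩
  · rw [glueHom_app_apply, liftHom_small _ hU V₀ (small_twoFam_left le_rfl),
      glueTwo_app_left ψ₀ ψ₁ hagree V₀ le_rfl, hψ₀]
  · rw [glueHom_app_apply, liftHom_small _ hU V₁ (small_twoFam_right le_rfl),
      glueTwo_app_right ψ₀ ψ₁ hagree V₁ le_rfl, hψ₁]
  · rintro f' ⟨hf0, hf1⟩
    refine hom_ext_of_cover hU _ _ fun W hW => ?_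
    ext s
    obtain ⟨b, hb⟩ := hW
    cases b
    · refine hom_app_eq_of_isAffineOpen h₀ _ _ (fun t => ?_) hb s
      rw [hf0, glueHom_app_apply, liftHom_small _ hU V₀ (small_twoFam_left le_rfl),
        glueTwo_app_left ψ₀ ψ₁ hagree V₀ le_rfl, hψ₀]
    · refine hom_app_eq_of_isAffineOpen h₁ _ _ (fun t => ?_) hb s
      rw [hf1, glueHom_app_apply, liftHom_small _ hU V₁ (small_twoFam_right le_rfl),
        glueTwo_app_right ψ₀ ψ₁ hagree V₁ le_rfl, hψ₁]

/-- Two morphisms out of a quasi-coherent module which agree on the sections over two affine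
opens covering `X` are equal. -/
theorem hom_ext_of_two_affine (h₀ : IsAffineOpen V₀) (h₁ : IsAffineOpen V₁)
    (hcov : V₀ ⊔ V₁ = ⊤) {L L' : X.Modules} [L.IsQuasicoherent] (f f' : L ⟶ L')
    (hf₀ : ∀ s : Γ(L, V₀), f.app V₀ s = f'.app V₀ s)
    (hf₁ : ∀ s : Γ(L, V₁), f.app V₁ s = f'.app V₁ s) : f = f' := by
  have hU : ⨆ b, twoFam V₀ V₁ b = ⊤ := (iSup_twoFam V₀ V₁).trans hcov
  refine hom_ext_of_cover hU _ _ fun W hW => ?_
  ext s
  obtain ⟨b, hb⟩ := hW
  cases b
  · exact hom_app_eq_of_isAffineOpen h₀ _ _ hf₀ hb s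
  · exact hom_app_eq_of_isAffineOpen h₁ _ _ hf₁ hb s

/-- The linear equivalence on sections over an open induced by an isomorphism of modules. -/
noncomputable def sectionsEquiv {L L' : X.Modules} (φ : L ≅ L') (V : X.Opens) :
    Γ(L, V) ≃ₗ[Γ(X, V)] Γ(L', V) where
  toFun := fun s => φ.hom.app V s
  invFun := fun s => φ.inv.app V s
  map_add' := fun s t => map_add _ s t
  map_smul' := fun r s => φ.hom.app_smul r s
  left_inv := fun s => by
    change φ.inv.app V (φ.hom.app V s) = s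
    rw [← ConcreteCategory.comp_apply, ← Scheme.Modules.Hom.comp_app, φ.hom_inv_id]
    rfl
  right_inv := fun s => by
    change φ.hom.app V (φ.inv.app V s) = s
    rw [← ConcreteCategory.comp_apply, ← Scheme.Modules.Hom.comp_app, φ.inv_hom_id]
    rfl

lemma sectionsEquiv_apply {L L' : X.Modules} (φ : L ≅ L') (V : X.Opens) (s : Γ(L, V)) :
    sectionsEquiv φ V s = φ.hom.app V s := rfl

/-- **Two-chart criterion for isomorphism, constructive direction (FF4).** Compatible linear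
equivalences on the sections over `V₀`, `V₁`, `V₀ ⊓ V₁` come from an isomorphism `L ≅ L'`. -/
theorem exists_iso_of_two_affine (h₀ : IsAffineOpen V₀) (h₁ : IsAffineOpen V₁)
    (h₀₁ : IsAffineOpen (V₀ ⊓ V₁)) (hcov : V₀ ⊔ V₁ = ⊤) (L L' : X.Modules) [L.IsQuasicoherent]
    [L'.IsQuasicoherent]
    (e₀ : Γ(L, V₀) ≃ₗ[Γ(X, V₀)] Γ(L', V₀)) (e₁ : Γ(L, V₁) ≃ₗ[Γ(X, V₁)] Γ(L', V₁))
    (e₀₁ : Γ(L, V₀ ⊓ V₁) ≃ₗ[Γ(X, V₀ ⊓ V₁)] Γ(L', V₀ ⊓ V₁))
    (c₀ : ∀ s, e₀₁ (res L inf_le_left s) = res L' inf_le_left (e₀ s))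
    (c₁ : ∀ s, e₀₁ (res L inf_le_right s) = res L' inf_le_right (e₁ s)) :
    ∃ φ : L ≅ L', (∀ s, φ.hom.app V₀ s = e₀ s) ∧ (∀ s, φ.hom.app V₁ s = e₁ s) := by
  obtain ⟨f, ⟨hf0, hf1⟩, -⟩ := existsUnique_hom_of_two_affine h₀ h₁ h₀₁ hcov L L'
    e₀.toLinearMap e₁.toLinearMap e₀₁.toLinearMap c₀ c₁
  have c₀' : ∀ s, e₀₁.symm (res L' inf_le_left s) = res L inf_le_left (e₀.symm s) := by
    intro s
    rw [LinearEquiv.symm_apply_eq, c₀, LinearEquiv.apply_symm_apply]
  have c₁' : ∀ s, e₀₁.symm (res L' inf_le_right s) = res L inf_le_right (e₁.symm s) := by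
    intro s
    rw [LinearEquiv.symm_apply_eq, c₁, LinearEquiv.apply_symm_apply]
  obtain ⟨f', ⟨hf0', hf1'⟩, -⟩ := existsUnique_hom_of_two_affine h₀ h₁ h₀₁ hcov L' L
    e₀.symm.toLinearMap e₁.symm.toLinearMap e₀₁.symm.toLinearMap c₀' c₁'
  refine ⟨⟨f, f', ?_, ?_⟩, hf0, hf1⟩
  · refine hom_ext_of_two_affine h₀ h₁ hcov _ _ (fun s => ?_) (fun s => ?_)
    · rw [Scheme.Modules.Hom.comp_app, ConcreteCategory.comp_apply, hf0, hf0']
      exact e₀.symm_apply_apply s
    · rw [Scheme.Modules.Hom.comp_app, ConcreteCategory.comp_apply, hf1, hf1']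
      exact e₁.symm_apply_apply s
  · refine hom_ext_of_two_affine h₀ h₁ hcov _ _ (fun s => ?_) (fun s => ?_)
    · rw [Scheme.Modules.Hom.comp_app, ConcreteCategory.comp_apply, hf0', hf0]
      exact e₀.apply_symm_apply s
    · rw [Scheme.Modules.Hom.comp_app, ConcreteCategory.comp_apply, hf1', hf1]
      exact e₁.apply_symm_apply s

/-- **Two-chart criterion for isomorphism (FF4).** Let `X = V₀ ∪ V₁` with `V₀`, `V₁`, `V₀ ⊓ V₁`
affine and `L`, `L'` quasi-coherent. Then `L ≅ L'` if and only if the section modules over `V₀`,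
`V₁`, `V₀ ⊓ V₁` are isomorphic compatibly with the two restriction maps. -/
theorem nonempty_iso_iff_of_two_affine (h₀ : IsAffineOpen V₀) (h₁ : IsAffineOpen V₁)
    (h₀₁ : IsAffineOpen (V₀ ⊓ V₁)) (hcov : V₀ ⊔ V₁ = ⊤) (L L' : X.Modules) [L.IsQuasicoherent]
    [L'.IsQuasicoherent] :
    Nonempty (L ≅ L') ↔
      ∃ (e₀ : Γ(L, V₀) ≃ₗ[Γ(X, V₀)] Γ(L', V₀)) (e₁ : Γ(L, V₁) ≃ₗ[Γ(X, V₁)] Γ(L', V₁))
        (e₀₁ : Γ(L, V₀ ⊓ V₁) ≃ₗ[Γ(X, V₀ ⊓ V₁)] Γ(L', V₀ ⊓ V₁)),
        (∀ s, e₀₁ (res L inf_le_left s) = res L' inf_le_left (e₀ s)) ∧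
          (∀ s, e₀₁ (res L inf_le_right s) = res L' inf_le_right (e₁ s)) := by
  constructor
  · rintro ⟨φ⟩
    refine ⟨sectionsEquiv φ V₀, sectionsEquiv φ V₁, sectionsEquiv φ (V₀ ⊓ V₁), fun s => ?_,
      fun s => ?_⟩
    · exact (hom_app_res φ.hom inf_le_left s).symm
    · exact (hom_app_res φ.hom inf_le_right s).symm
  · rintro ⟨e₀, e₁, e₀₁, c₀, c₁⟩
    obtain ⟨φ, -, -⟩ := exists_iso_of_two_affine h₀ h₁ h₀₁ hcov L L' e₀ e₁ e₀₁ c₀ c₁
    exact ⟨φ⟩

end TwoCharts

end Fermat.Agent.S25.helper3484
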