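import Fermat.Agent.S25.helper3484_FullFaithful

/-!
# S25 leaf U15, adapter: isomorphism of sheaves ⟺ isomorphism of section models (helper3484)

Def-agnostic form of the `iso_iff` field of the dictionary (layer B of S25), in the shape ruled
by the LB sub-architect: a *section model* of a module `L` on `X = V₀ ∪ V₁` is a triple of
modules `M₀`, `M₁`, `M₀₁` over rings `A₀`, `A₁`, `A₀₁`, with maps `ρ₀ : M₀ → M₀₁`,
`ρ₁ : M₁ → M₀₁`, identified with the sections of `L` over `V₀`, `V₁`, `V₀ ⊓ V₁` by additive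
bijections that are semilinear along ring homomorphisms `γᵢ : Aᵢ → Γ(X, Vᵢ)` and compatible with
restriction.

* `SecModel` : the structure.
* `SecModel.nonempty_iso_iff` : for `V₀`, `V₁`, `V₀ ⊓ V₁` affine covering `X`, quasi-coherent
  `L`, `L'` with section models over the same rings (with surjective `γᵢ`),
  `L ≅ L'` iff the two models are isomorphic compatibly with `ρ₀`, `ρ₁`.
-/

set_option autoImplicit false

universe u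

open CategoryTheory TopologicalSpace Opposite AlgebraicGeometry
open Fermat.Agent.S25.helper4193

namespace Fermat.Agent.S25.helper3484

variable {X : Scheme.{u}}

/-- A *section model* of a sheaf of modules `L` on `X` over the two opens `V₀`, `V₁`: modules
`M₀`, `M₁`, `M₀₁` over rings `A₀`, `A₁`, `A₀₁` with maps `ρ₀`, `ρ₁`, identified with the
sections of `L` over `V₀`, `V₁`, `V₀ ⊓ V₁` and the two restriction maps, semilinearly along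
`γ₀`, `γ₁`, `γ₀₁`. -/
structure SecModel (L : X.Modules) (V₀ V₁ : X.Opens)
    {A₀ A₁ A₀₁ : Type*} [CommRing A₀] [CommRing A₁] [CommRing A₀₁]
    (γ₀ : A₀ →+* Γ(X, V₀)) (γ₁ : A₁ →+* Γ(X, V₁)) (γ₀₁ : A₀₁ →+* Γ(X, V₀ ⊓ V₁))
    {M₀ M₁ M₀₁ : Type*} [AddCommGroup M₀] [AddCommGroup M₁] [AddCommGroup M₀₁]
    [Module A₀ M₀] [Module A₁ M₁] [Module A₀₁ M₀₁] (ρ₀ : M₀ → M₀₁) (ρ₁ : M₁ → M₀₁) where
  /-- sections over the first chart -/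
  e₀ : M₀ ≃+ Γ(L, V₀)
  /-- sections over the second chart -/
  e₁ : M₁ ≃+ Γ(L, V₁)
  /-- sections over the overlap -/
  e₀₁ : M₀₁ ≃+ Γ(L, V₀ ⊓ V₁)
  smul₀ : ∀ (a : A₀) (m : M₀), e₀ (a • m) = γ₀ a • e₀ m
  smul₁ : ∀ (a : A₁) (m : M₁), e₁ (a • m) = γ₁ a • e₁ m
  smul₀₁ : ∀ (a : A₀₁) (m : M₀₁), e₀₁ (a • m) = γ₀₁ a • e₀₁ m
  comm₀ : ∀ m : M₀, e₀₁ (ρ₀ m) = res L inf_le_left (e₀ m)
  comm₁ : ∀ m : M₁, e₀₁ (ρ₁ m) = res L inf_le_right (e₁ m)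

/-- A semilinear additive bijection has a semilinear inverse. -/
lemma symm_smul_of_smul {A S M N : Type*} [Semiring A] [Semiring S] [AddCommMonoid M]
    [AddCommMonoid N] [Module A M] [Module S N] (γ : A →+* S) (e : M ≃+ N)
    (he : ∀ (a : A) (m : M), e (a • m) = γ a • e m) (a : A) (n : N) :
    e.symm (γ a • n) = a • e.symm n := by
  apply e.injective
  rw [he, AddEquiv.apply_symm_apply, AddEquiv.apply_symm_apply]

namespace SecModel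

variable {L L' : X.Modules} {V₀ V₁ : X.Opens}
  {A₀ A₁ A₀₁ : Type*} [CommRing A₀] [CommRing A₁] [CommRing A₀₁]
  {γ₀ : A₀ →+* Γ(X, V₀)} {γ₁ : A₁ →+* Γ(X, V₁)} {γ₀₁ : A₀₁ →+* Γ(X, V₀ ⊓ V₁)}
  {M₀ M₁ M₀₁ : Type*} [AddCommGroup M₀] [AddCommGroup M₁] [AddCommGroup M₀₁]
  [Module A₀ M₀] [Module A₁ M₁] [Module A₀₁ M₀₁] {ρ₀ : M₀ → M₀₁} {ρ₁ : M₁ → M₀₁}
  {M₀' M₁' M₀₁' : Type*} [AddCommGroup M₀'] [AddCommGroup M₁'] [AddCommGroup M₀₁']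
  [Module A₀ M₀'] [Module A₁ M₁'] [Module A₀₁ M₀₁'] {ρ₀' : M₀' → M₀₁'} {ρ₁' : M₁' → M₀₁'}

/-- Transport of a `Γ(X, V)`-linear equivalence of sections to a linear equivalence of models. -/
noncomputable def modelEquiv {V : X.Opens} {A : Type*} [CommRing A] (γ : A →+* Γ(X, V))
    {M M' : Type*} [AddCommGroup M] [AddCommGroup M'] [Module A M] [Module A M']
    (e : M ≃+ Γ(L, V)) (e' : M' ≃+ Γ(L', V))
    (he : ∀ (a : A) (m : M), e (a • m) = γ a • e m)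
    (he' : ∀ (a : A) (m : M'), e' (a • m) = γ a • e' m)
    (E : Γ(L, V) ≃ₗ[Γ(X, V)] Γ(L', V)) : M ≃ₗ[A] M' :=
  { e.trans (E.toAddEquiv.trans e'.symm) with
    map_smul' := fun a m => by
      change e'.symm (E (e (a • m))) = a • e'.symm (E (e m))
      rw [he, E.map_smul, symm_smul_of_smul γ e' he'] }

lemma modelEquiv_apply {V : X.Opens} {A : Type*} [CommRing A] (γ : A →+* Γ(X, V))
    {M M' : Type*} [AddCommGroup M] [AddCommGroup M'] [Module A M] [Module A M']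
    (e : M ≃+ Γ(L, V)) (e' : M' ≃+ Γ(L', V))
    (he : ∀ (a : A) (m : M), e (a • m) = γ a • e m)
    (he' : ∀ (a : A) (m : M'), e' (a • m) = γ a • e' m)
    (E : Γ(L, V) ≃ₗ[Γ(X, V)] Γ(L', V)) (m : M) :
    e' (modelEquiv γ e e' he he' E m) = E (e m) :=
  e'.apply_symm_apply _

/-- Transport of a linear equivalence of models to a `Γ(X, V)`-linear equivalence of
sections. -/
noncomputable def sectionEquiv {V : X.Opens} {A : Type*} [CommRing A] (γ : A →+* Γ(X, V))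
    (hγ : Function.Surjective γ)
    {M M' : Type*} [AddCommGroup M] [AddCommGroup M'] [Module A M] [Module A M']
    (e : M ≃+ Γ(L, V)) (e' : M' ≃+ Γ(L', V))
    (he : ∀ (a : A) (m : M), e (a • m) = γ a • e m)
    (he' : ∀ (a : A) (m : M'), e' (a • m) = γ a • e' m)
    (f : M ≃ₗ[A] M') : Γ(L, V) ≃ₗ[Γ(X, V)] Γ(L', V) :=
  { e.symm.trans (f.toAddEquiv.trans e') with
    map_smul' := fun r s => by
      obtain ⟨a, rfl⟩ := hγ r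
      change e' (f (e.symm (γ a • s))) = γ a • e' (f (e.symm s))
      rw [symm_smul_of_smul γ e he, f.map_smul, he'] }

lemma sectionEquiv_apply {V : X.Opens} {A : Type*} [CommRing A] (γ : A →+* Γ(X, V))
    (hγ : Function.Surjective γ)
    {M M' : Type*} [AddCommGroup M] [AddCommGroup M'] [Module A M] [Module A M']
    (e : M ≃+ Γ(L, V)) (e' : M' ≃+ Γ(L', V))
    (he : ∀ (a : A) (m : M), e (a • m) = γ a • e m)
    (he' : ∀ (a : A) (m : M'), e' (a • m) = γ a • e' m)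
    (f : M ≃ₗ[A] M') (m : M) :
    sectionEquiv γ hγ e e' he he' f (e m) = e' (f m) := by
  change e' (f (e.symm (e m))) = _
  rw [AddEquiv.symm_apply_apply]

/-- **`iso_iff`, easy direction.** An isomorphism of sheaves induces an isomorphism of section
models. No hypothesis on the opens, the rings or the sheaves. -/
theorem exists_equiv_of_iso (S : SecModel L V₀ V₁ γ₀ γ₁ γ₀₁ ρ₀ ρ₁)
    (S' : SecModel L' V₀ V₁ γ₀ γ₁ γ₀₁ ρ₀' ρ₁') (φ : L ≅ L') :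
    ∃ (f₀ : M₀ ≃ₗ[A₀] M₀') (f₁ : M₁ ≃ₗ[A₁] M₁') (f₀₁ : M₀₁ ≃ₗ[A₀₁] M₀₁'),
      (∀ m, f₀₁ (ρ₀ m) = ρ₀' (f₀ m)) ∧ (∀ m, f₀₁ (ρ₁ m) = ρ₁' (f₁ m)) := by
  refine ⟨modelEquiv γ₀ S.e₀ S'.e₀ S.smul₀ S'.smul₀ (sectionsEquiv φ V₀),
    modelEquiv γ₁ S.e₁ S'.e₁ S.smul₁ S'.smul₁ (sectionsEquiv φ V₁),
    modelEquiv γ₀₁ S.e₀₁ S'.e₀₁ S.smul₀₁ S'.smul₀₁ (sectionsEquiv φ (V₀ ⊓ V₁)), fun m => ?_,
    fun m => ?_⟩
  · apply S'.e₀₁.injective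
    rw [modelEquiv_apply, S'.comm₀, modelEquiv_apply, S.comm₀, sectionsEquiv_apply,
      sectionsEquiv_apply]
    exact (hom_app_res φ.hom inf_le_left _).symm
  · apply S'.e₀₁.injective
    rw [modelEquiv_apply, S'.comm₁, modelEquiv_apply, S.comm₁, sectionsEquiv_apply,
      sectionsEquiv_apply]
    exact (hom_app_res φ.hom inf_le_right _).symm

/-- **`iso_iff`, hard direction.** For `X = V₀ ∪ V₁` with `V₀`, `V₁`, `V₀ ⊓ V₁` affine and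
quasi-coherent `L`, `L'`, an isomorphism of section models (over surjective `γᵢ`) comes from an
isomorphism of sheaves, which induces the given isomorphisms on the two charts. -/
theorem exists_iso_of_equiv (h₀ : IsAffineOpen V₀) (h₁ : IsAffineOpen V₁)
    (h₀₁ : IsAffineOpen (V₀ ⊓ V₁)) (hcov : V₀ ⊔ V₁ = ⊤) [L.IsQuasicoherent] [L'.IsQuasicoherent]
    (hγ₀ : Function.Surjective γ₀) (hγ₁ : Function.Surjective γ₁)
    (hγ₀₁ : Function.Surjective γ₀₁)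
    (S : SecModel L V₀ V₁ γ₀ γ₁ γ₀₁ ρ₀ ρ₁) (S' : SecModel L' V₀ V₁ γ₀ γ₁ γ₀₁ ρ₀' ρ₁')
    (f₀ : M₀ ≃ₗ[A₀] M₀') (f₁ : M₁ ≃ₗ[A₁] M₁') (f₀₁ : M₀₁ ≃ₗ[A₀₁] M₀₁')
    (c₀ : ∀ m, f₀₁ (ρ₀ m) = ρ₀' (f₀ m)) (c₁ : ∀ m, f₀₁ (ρ₁ m) = ρ₁' (f₁ m)) :
    ∃ φ : L ≅ L', (∀ m, φ.hom.app V₀ (S.e₀ m) = S'.e₀ (f₀ m)) ∧
      (∀ m, φ.hom.app V₁ (S.e₁ m) = S'.e₁ (f₁ m)) := by
  obtain ⟨φ, hφ₀, hφ₁⟩ := exists_iso_of_two_affine h₀ h₁ h₀₁ hcov L L'
    (sectionEquiv γ₀ hγ₀ S.e₀ S'.e₀ S.smul₀ S'.smul₀ f₀)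
    (sectionEquiv γ₁ hγ₁ S.e₁ S'.e₁ S.smul₁ S'.smul₁ f₁)
    (sectionEquiv γ₀₁ hγ₀₁ S.e₀₁ S'.e₀₁ S.smul₀₁ S'.smul₀₁ f₀₁)
    (fun s => by
      obtain ⟨m, rfl⟩ := S.e₀.surjective s
      rw [← S.comm₀, sectionEquiv_apply, sectionEquiv_apply, c₀, S'.comm₀])
    (fun s => by
      obtain ⟨m, rfl⟩ := S.e₁.surjective s
      rw [← S.comm₁, sectionEquiv_apply, sectionEquiv_apply, c₁, S'.comm₁])
  refine ⟨φ, fun m => ?_, fun m => ?_⟩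
  · rw [hφ₀, sectionEquiv_apply]
  · rw [hφ₁, sectionEquiv_apply]

/-- **`iso_iff` for section models (leaf U15).** For `X = V₀ ∪ V₁` with `V₀`, `V₁`, `V₀ ⊓ V₁`
affine and quasi-coherent `L`, `L'` with section models over the same rings, `L ≅ L'` if and only
if the models are isomorphic compatibly with `ρ₀`, `ρ₁`. -/
theorem nonempty_iso_iff (h₀ : IsAffineOpen V₀) (h₁ : IsAffineOpen V₁)
    (h₀₁ : IsAffineOpen (V₀ ⊓ V₁)) (hcov : V₀ ⊔ V₁ = ⊤) [L.IsQuasicoherent] [L'.IsQuasicoherent]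
    (hγ₀ : Function.Surjective γ₀) (hγ₁ : Function.Surjective γ₁)
    (hγ₀₁ : Function.Surjective γ₀₁)
    (S : SecModel L V₀ V₁ γ₀ γ₁ γ₀₁ ρ₀ ρ₁) (S' : SecModel L' V₀ V₁ γ₀ γ₁ γ₀₁ ρ₀' ρ₁') :
    Nonempty (L ≅ L') ↔
      ∃ (f₀ : M₀ ≃ₗ[A₀] M₀') (f₁ : M₁ ≃ₗ[A₁] M₁') (f₀₁ : M₀₁ ≃ₗ[A₀₁] M₀₁'),
        (∀ m, f₀₁ (ρ₀ m) = ρ₀' (f₀ m)) ∧ (∀ m, f₀₁ (ρ₁ m) = ρ₁' (f₁ m)) := by
  constructor
  · rintro ⟨φ⟩
    exact exists_equiv_of_iso S S' φ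
  · rintro ⟨f₀, f₁, f₀₁, c₀, c₁⟩
    obtain ⟨φ, -, -⟩ := exists_iso_of_equiv h₀ h₁ h₀₁ hcov hγ₀ hγ₁ hγ₀₁ S S' f₀ f₁ f₀₁ c₀ c₁
    exact ⟨φ⟩

end SecModel

end Fermat.Agent.S25.helper3484
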