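import Fermat.Agent.S25.helper8703_FieldGlue
import Fermat.Agent.S25.helper239_ChiApi
import Fermat.Agent.S25.helper8573_LCSpec
import Fermat.Agent.S25.helper3115_TwistGlue

/-!
# S25 / U9a (C) NUMBERS: counting the cokernel of a morphism which is an isomorphism along
`V(y)` (helper4037)

Over a field `K`, for a nonzero morphism `τ : G → N` of two-chart line bundles which is
surjective modulo `y` on the chart at infinity (`Mor.SurjModY`):

* `finrank_coker_f₀₁_eq_of_surjModY` : the cokernels on the chart at infinity and on the overlap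
  have the same dimension;
* `chi_eq_chi_add_finrank_coker` : `χ(N) = χ(G) + dim N₀ / τ₀ G₀`;
* `finrank_quot_span_of_section` : the number of zeros of a section of `G(m·D∞)` generating
  along `V(y)` is `χ(G) - χ(𝒪) + m · deg D∞`;
* `finrank_coker_twist_unit_of_degZero` : the cokernel of `τ : G → 𝒪(j·D∞)` has dimension
  `j · deg D∞` when `G` has degree zero.
-/

set_option autoImplicit false

namespace Fermat.Agent.S25.helper4037

open Module Function

section LinearAlgebra

variable {K : Type*} [Field K] {E F E' F' : Type*} [AddCommGroup E] [Module K E]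
  [AddCommGroup F] [Module K F] [AddCommGroup E'] [Module K E'] [AddCommGroup F'] [Module K F']

/-- If `Y` preserves `ψ₀ E`, induces a surjection on the finite-dimensional cokernel
`E' / ψ₀ E`, and `Y b ∈ ψ₀ E`, then `b ∈ ψ₀ E`. -/
theorem mem_range_of_apply_mem_range (ψ₀ : E →ₗ[K] E') (Y : E' →ₗ[K] E')
    (hY : ∀ e, Y (ψ₀ e) ∈ LinearMap.range ψ₀)
    (hsurj : ∀ n : E', ∃ (m : E) (n' : E'), n = ψ₀ m + Y n')
    [FiniteDimensional K (E' ⧸ LinearMap.range ψ₀)] (b : E') (hb : Y b ∈ LinearMap.range ψ₀) :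
    b ∈ LinearMap.range ψ₀ := by
  have hY' : LinearMap.range ψ₀ ≤ (LinearMap.range ψ₀).comap Y := by
    rintro _ ⟨e, rfl⟩
    exact hY e
  let Ybar : (E' ⧸ LinearMap.range ψ₀) →ₗ[K] (E' ⧸ LinearMap.range ψ₀) :=
    (LinearMap.range ψ₀).mapQ (LinearMap.range ψ₀) Y hY'
  have hs : Surjective Ybar := by
    intro q
    obtain ⟨n, rfl⟩ := Submodule.Quotient.mk_surjective _ q
    obtain ⟨m, n', rfl⟩ := hsurj n
    refine ⟨Submodule.Quotient.mk n', ?_⟩
    change Submodule.Quotient.mk (Y n') = Submodule.Quotient.mk (ψ₀ m + Y n')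
    rw [Submodule.Quotient.eq]
    refine ⟨-m, ?_⟩
    rw [map_neg]
    abel
  have hi : Injective Ybar := LinearMap.injective_iff_surjective.2 hs
  have h0 : Ybar (Submodule.Quotient.mk b) = 0 := by
    change Submodule.Quotient.mk (Y b) = 0
    exact (Submodule.Quotient.mk_eq_zero _).2 hb
  have h1 := hi (h0.trans (map_zero Ybar).symm)
  exact (Submodule.Quotient.mk_eq_zero _).1 h1

/-- The chart cokernel injects into the overlap cokernel when the chart map is surjective
modulo `Y` and the overlap is the localization at `Y`. -/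
theorem finrank_coker_le_of_surjMod (l : E →ₗ[K] F) (l' : E' →ₗ[K] F') (ψ₀ : E →ₗ[K] E')
    (ψ : F →ₗ[K] F') (h : ψ ∘ₗ l = l' ∘ₗ ψ₀) (Y : E' →ₗ[K] E')
    (hY : ∀ e, Y (ψ₀ e) ∈ LinearMap.range ψ₀)
    (hsurj : ∀ n : E', ∃ (m : E) (n' : E'), n = ψ₀ m + Y n')
    (hloc : ∀ b : E', l' b ∈ LinearMap.range ψ → ∃ j : ℕ, (Y ^ j) b ∈ LinearMap.range ψ₀)
    [FiniteDimensional K (E' ⧸ LinearMap.range ψ₀)]
    [FiniteDimensional K (F' ⧸ LinearMap.range ψ)] :
    finrank K (E' ⧸ LinearMap.range ψ₀) ≤ finrank K (F' ⧸ LinearMap.range ψ) := by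
  have hcomap : LinearMap.range ψ₀ ≤ (LinearMap.range ψ).comap l' := by
    rintro _ ⟨e, rfl⟩
    exact ⟨l e, LinearMap.congr_fun h e⟩
  let g : (E' ⧸ LinearMap.range ψ₀) →ₗ[K] (F' ⧸ LinearMap.range ψ) :=
    (LinearMap.range ψ₀).mapQ (LinearMap.range ψ) l' hcomap
  have hpow : ∀ (j : ℕ) (b : E'), (Y ^ j) b ∈ LinearMap.range ψ₀ → b ∈ LinearMap.range ψ₀ := by
    intro j
    induction j with
    | zero => intro b hb; simpa using hb
    | succ j ih =>
      intro b hb
      rw [pow_succ', Module.End.mul_apply] at hb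
      exact ih b (mem_range_of_apply_mem_range ψ₀ Y hY hsurj _ hb)
  have hg : Injective g := by
    rw [← LinearMap.ker_eq_bot, eq_bot_iff]
    intro q hq
    obtain ⟨b, rfl⟩ := Submodule.Quotient.mk_surjective _ q
    have h1 : l' b ∈ LinearMap.range ψ := by
      have h2 : (Submodule.Quotient.mk (l' b) : F' ⧸ LinearMap.range ψ) = 0 := hq
      exact (Submodule.Quotient.mk_eq_zero _).1 h2
    obtain ⟨j, hj⟩ := hloc b h1
    exact (Submodule.mem_bot K).2 ((Submodule.Quotient.mk_eq_zero _).2 (hpow j b hj))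
  exact LinearMap.finrank_le_finrank_of_injective hg

end LinearAlgebra

section OneChart

open Fermat.Agent.S25.helper8703

variable {K A A' : Type*} [Field K] [CommRing A] [CommRing A'] [Algebra K A] [Algebra K A']
  [Algebra A A'] [IsScalarTower K A A']
  {M N M' N' : Type*} [AddCommGroup M] [Module A M] [Module K M] [IsScalarTower K A M]
  [AddCommGroup N] [Module A N] [Module K N] [IsScalarTower K A N]
  [AddCommGroup M'] [Module A' M'] [Module K M'] [IsScalarTower K A' M']
  [AddCommGroup N'] [Module A' N'] [Module K N'] [IsScalarTower K A' N']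
  {x : A} {l : M → M'} {l' : N → N'}

/-- One chart: if `ψ₀ : M → N` is surjective modulo `x` and has finite-dimensional cokernel,
then the cokernel of the localized map has the same dimension. -/
theorem finrank_coker_eq_of_surjMod (hl : IsLocAt A' x l) (hl' : IsLocAt A' x l')
    (hx : IsUnit (algebraMap A A' x)) (ψ₀ : M →ₗ[A] N) (ψ : M' →ₗ[A'] N')
    (h : ∀ m, ψ (l m) = l' (ψ₀ m))
    (hsurj : ∀ n : N, ∃ (m : M) (n' : N), n = ψ₀ m + x • n')
    [Module.Finite K (N ⧸ LinearMap.range ψ₀)] :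
    finrank K (N' ⧸ LinearMap.range ψ) = finrank K (N ⧸ LinearMap.range ψ₀) := by
  have := finite_coker_restrictScalars (K := K) ψ₀
  have hc := chart_sup_overlap_eq_top (K := K) hl hl' hx ψ₀ ψ h
  have hs : (ψ.restrictScalars K) ∘ₗ (hl.toLinearMap K)
      = (hl'.toLinearMap K) ∘ₗ (ψ₀.restrictScalars K) := by
    apply LinearMap.ext; intro m; simp [h]
  obtain ⟨fin01, le⟩ := finrank_coker_le_of_sup_eq_top (hl.toLinearMap K) (hl'.toLinearMap K)
    (ψ₀.restrictScalars K) (ψ.restrictScalars K) hs hc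
  let Y : N →ₗ[K] N := (LinearMap.lsmul A N x).restrictScalars K
  have hYpow : ∀ (j : ℕ) (b : N), (Y ^ j) b = x ^ j • b := by
    intro j
    induction j with
    | zero => intro b; simp
    | succ j ih =>
      intro b
      rw [pow_succ, Module.End.mul_apply, ih]
      change x ^ j • (x • b) = x ^ (j + 1) • b
      rw [smul_smul, pow_succ]
  have ge := finrank_coker_le_of_surjMod (hl.toLinearMap K) (hl'.toLinearMap K)
    (ψ₀.restrictScalars K) (ψ.restrictScalars K) hs Y
    (fun e => ⟨x • e, by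
      change ψ₀ (x • e) = x • ψ₀ e
      rw [map_smul]⟩)
    (fun n => by
      obtain ⟨m, n', hn⟩ := hsurj n
      exact ⟨m, n', hn⟩)
    (fun b hb => by
      obtain ⟨w, hw⟩ := hb
      have hw' : ψ w = l' b := hw
      obtain ⟨j, m, hm⟩ := hl.surj w
      refine ⟨j, m, ?_⟩
      apply hl'.injective
      change l' (ψ₀ m) = l' ((Y ^ j) b)
      rw [hYpow, hl'.map_smul, map_pow, ← hw', ← map_smul, hm, h])
  rw [finrank_coker_restrictScalars, finrank_coker_restrictScalars] at le ge
  exact le_antisymm le ge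

end OneChart

section Glue

open Fermat.Agent.S25.helper1705 Fermat.Agent.S25.helper2945

universe u

variable {k : Type u} [Field k] [IsAlgClosed k] {D : CurveDatum k} {K : Type u} [Field K]
  [Algebra k K]

/-- For a nonzero morphism which is surjective modulo `y` at infinity, the cokernels on the
chart at infinity and on the overlap have the same dimension. -/
theorem finrank_coker_f₀₁_eq_of_surjModY (G N : GlueDatum D K) (τ : helper8573.Mor G N)
    (h0 : τ.f₀ ≠ 0) (hy : τ.SurjModY) :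
    finrank K (N.M₀₁ ⧸ LinearMap.range τ.f₀₁) = finrank K (N.M₁ ⧸ LinearMap.range τ.f₁) := by
  have := helper8703.isDomain_A₀ D K
  have := helper8703.isDomain_A₁ D K
  obtain ⟨-, f1⟩ := helper8703.morphism_finite_coker (helper8703.isLocAt_ρ₀ G)
    (helper8703.isLocAt_ρ₁ G) (helper8703.isLocAt_ρ₀ N) (helper8703.isLocAt_ρ₁ N)
    (helper8703.isUnit_algebraMap_xB D K) (helper8703.isUnit_algebraMap_yB D K)
    (helper8703.finQuot_A₀ D K) (helper8703.finQuot_A₁ D K) τ.f₀ τ.f₁ τ.f₀₁ τ.comm₀ τ.comm₁ h0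
  have := f1
  exact finrank_coker_eq_of_surjMod (helper8703.isLocAt_ρ₁ G) (helper8703.isLocAt_ρ₁ N)
    (helper8703.isUnit_algebraMap_yB D K) τ.f₁ τ.f₀₁ τ.comm₁ hy

/-- **(C) NUMBERS.** For a nonzero morphism `τ : G → N` over a field which is an isomorphism
along `V(y)`: `χ(N) = χ(G) + dim N₀ / τ₀ G₀`. -/
theorem chi_eq_chi_add_finrank_coker (G N : GlueDatum D K) (τ : helper8573.Mor G N)
    (h0 : τ.f₀ ≠ 0) (hy : τ.SurjModY) :
    N.chi = G.chi + (finrank K (N.M₀ ⧸ LinearMap.range τ.f₀) : ℤ) := by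
  have := helper8703.isDomain_A₀ D K
  have := helper8703.isDomain_A₁ D K
  have hG : helper8703.FinCoh G := ⟨helper239.finite_H0_field G, helper239.finite_H1_field G⟩
  have hN : helper8703.FinCoh N := ⟨helper239.finite_H0_field N, helper239.finite_H1_field N⟩
  obtain ⟨key, -, -, -⟩ := helper8703.morphism_index (helper8703.isLocAt_ρ₀ G)
    (helper8703.isLocAt_ρ₁ G) (helper8703.isLocAt_ρ₀ N) (helper8703.isLocAt_ρ₁ N)
    (helper8703.isUnit_algebraMap_xB D K) (helper8703.isUnit_algebraMap_yB D K)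
    (helper8703.finQuot_A₀ D K) (helper8703.finQuot_A₁ D K) τ.f₀ τ.f₁ τ.f₀₁ τ.comm₀ τ.comm₁ h0
    G.delta N.delta (fun a b => G.delta_apply (a, b)) (fun a b => N.delta_apply (a, b)) hG hN
  have e := finrank_coker_f₀₁_eq_of_surjModY G N τ h0 hy
  rw [helper8703.chi_eq_index, helper8703.chi_eq_index, key, e]
  ring

/-- The morphism `𝒪 → G(m·D∞)` defined by a section of `G(m·D∞)`. -/
noncomputable def secMor (G : GlueDatum D K) (m : ℤ) (a : G.M₀) (b : G.M₁)
    (hab : G.ρ₀ a = ((helper3115.xU D K ^ m : (D.A₀₁ K)ˣ) : D.A₀₁ K) • G.ρ₁ b) :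
    helper8573.Mor (GlueDatum.unit D K) (helper3115.twist G m) where
  f₀ := helper8703.secHom₀ G a
  f₁ := helper8703.secHom₁ G b
  f₀₁ := helper8703.secHom₀₁ G (G.ρ₀ a)
  comm₀ x := helper8703.secHom_comm₀ G (a, b) x
  comm₁ x := by
    have hp : ((a, b) : (helper3115.twist G m).M₀ × (helper3115.twist G m).M₁) ∈
        (helper3115.twist G m).H0 := (helper3115.mem_H0_twist G m a b).2 hab
    exact helper8703.secHom_comm₁ (helper3115.twist G m) hp x

/-- **Number of zeros of a section.** If `(a, b)` is a section of `G(m·D∞)` with `a ≠ 0` which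
generates along `V(y)`, then `dim M₀ / A₀ a = χ(G) - χ(𝒪) + m · deg D∞`. -/
theorem finrank_quot_span_of_section (G : GlueDatum D K) (m : ℤ) (a : G.M₀) (b : G.M₁)
    (ha : a ≠ 0)
    (hab : G.ρ₀ a = ((helper3115.xU D K ^ m : (D.A₀₁ K)ˣ) : D.A₀₁ K) • G.ρ₁ b)
    (hgen : ∀ z : G.M₁, ∃ (c : D.A₁ K) (z' : G.M₁), z = c • b + yB D K • z') :
    (finrank K (G.M₀ ⧸ Submodule.span (D.A₀ K) {a}) : ℤ) =
      G.chi - (GlueDatum.unit D K).chi + m * helper1153.degInf D := by
  have h := chi_eq_chi_add_finrank_coker (GlueDatum.unit D K) (helper3115.twist G m)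
    (secMor G m a b hab) (helper8703.secHom₀_ne_zero G ha) hgen
  have hr : LinearMap.range (secMor G m a b hab).f₀ = Submodule.span (D.A₀ K) {a} :=
    helper8703.range_secHom₀ G a
  rw [helper239.chi_twist] at h
  have h2 : (finrank K ((helper3115.twist G m).M₀ ⧸ LinearMap.range (secMor G m a b hab).f₀) : ℤ)
      = (finrank K (G.M₀ ⧸ Submodule.span (D.A₀ K) {a}) : ℤ) := by
    rw [hr]; rfl
  linarith

/-- For `G` of degree zero the section of `G(m·D∞)` has exactly `m · deg D∞` zeros. -/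
theorem finrank_quot_span_of_section_degZero (G : GlueDatum D K) (hG : G.DegZero) (m : ℤ)
    (a : G.M₀) (b : G.M₁) (ha : a ≠ 0)
    (hab : G.ρ₀ a = ((helper3115.xU D K ^ m : (D.A₀₁ K)ˣ) : D.A₀₁ K) • G.ρ₁ b)
    (hgen : ∀ z : G.M₁, ∃ (c : D.A₁ K) (z' : G.M₁), z = c • b + yB D K • z') :
    (finrank K (G.M₀ ⧸ Submodule.span (D.A₀ K) {a}) : ℤ) = m * helper1153.degInf D := by
  rw [finrank_quot_span_of_section G m a b ha hab hgen, (helper239.degZero_iff_chi G).1 hG]
  ring

/-- **Number of points.** For `G` of degree zero, a nonzero morphism `τ : G → 𝒪(j·D∞)` which is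
an isomorphism along `V(y)` has a cokernel of dimension `j · deg D∞` on the first chart. -/
theorem finrank_coker_twist_unit_of_degZero (G : GlueDatum D K) (hG : G.DegZero) (j : ℤ)
    (τ : helper8573.Mor G (helper3115.twist (GlueDatum.unit D K) j)) (h0 : τ.f₀ ≠ 0)
    (hy : τ.SurjModY) :
    (finrank K ((helper3115.twist (GlueDatum.unit D K) j).M₀ ⧸ LinearMap.range τ.f₀) : ℤ) =
      j * helper1153.degInf D := by
  have h := chi_eq_chi_add_finrank_coker G _ τ h0 hy
  rw [helper239.chi_twist, (helper239.degZero_iff_chi G).1 hG] at h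
  linarith

end Glue

end Fermat.Agent.S25.helper4037
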