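import Fermat.Agent.S25.helper3115_TwistGlue
import Fermat.Agent.S25.helper7186_CechBaseChange
import Fermat.Agent.S25.helper1800_CurveDatumBasics
import Fermat.Agent.S25.helper4037_TwistCore

/-!
# S25 / U1: negative vanishing for the twist `G(-m·D∞)` (helper4037)

On top of `helper2945.GlueDatum` and `helper3115.twist`.

* `exists_twist_neg_retraction` : for `m ≥ m₀` the Čech differential of `G(-m·D∞)` has a
  `B`-linear left inverse (so it is injective, and stays injective after every base change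
  of `B`-modules).
* `exists_twist_neg_H0_eq_bot` : `H⁰(G(-m·D∞)) = 0` for `m ≥ m₀`.
-/

set_option autoImplicit false

open TensorProduct

namespace Fermat.Agent.S25.helper4037

universe u

open Fermat.Agent.S25.helper1705 Fermat.Agent.S25.helper2945 Fermat.Agent.S25.helper3115

variable {k : Type u} [Field k] {D : CurveDatum k} {B : Type u} [CommRing B] [Algebra k B]

/-! ### Powers of `x` and `y` on the overlap -/

theorem xU_zpow_neg_natCast_smul (G : GlueDatum D B) (n : ℕ) (z : G.M₀₁) :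
    ((xU D B ^ (-(n : ℤ)) : (D.A₀₁ B)ˣ) : D.A₀₁ B) • z = (yB D B) ^ n • z := by
  rw [zpow_neg, zpow_natCast, ← inv_pow, Units.val_pow_eq_pow_val, xU_inv_val, ← map_pow,
    algebraMap_smul]

theorem xB_smul_yB_smul (G : GlueDatum D B) (z : G.M₀₁) : xB D B • (yB D B • z) = z := by
  rw [← algebraMap_smul (D.A₀₁ B) (xB D B), ← algebraMap_smul (D.A₀₁ B) (yB D B), smul_smul,
    xB_mul_yB, one_smul]

theorem yB_smul_xB_smul (G : GlueDatum D B) (z : G.M₀₁) : yB D B • (xB D B • z) = z := by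
  rw [← algebraMap_smul (D.A₀₁ B) (xB D B), ← algebraMap_smul (D.A₀₁ B) (yB D B), smul_smul,
    mul_comm, xB_mul_yB, one_smul]

/-! ### Finite generation over `B[x]` -/

section FG

theorem fgUnder_of_finite_aeval {k : Type*} [CommRing k] {R : Type*} [CommRing R] [Algebra k R]
    (x : R) (hfin : (Polynomial.aeval x : Polynomial k →ₐ[k] R).toRingHom.Finite) :
    FGUnder (smulEnd k x R) := by
  classical
  let : Algebra (Polynomial k) R :=
    (Polynomial.aeval x : Polynomial k →ₐ[k] R).toRingHom.toAlgebra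
  have halg : ∀ (q : Polynomial k) (r : R), q • r = Polynomial.aeval x q * r := fun q r => rfl
  have : Module.Finite (Polynomial k) R := hfin
  obtain ⟨S, hS⟩ := (Module.Finite.fg_top : (⊤ : Submodule (Polynomial k) R).FG)
  refine ⟨S, ?_⟩
  rw [eq_top_iff]
  intro r _
  have hr : r ∈ Submodule.span (Polynomial k) (S : Set R) := by rw [hS]; trivial
  obtain ⟨f, -, rfl⟩ := Submodule.mem_span_finset.1 hr
  refine Submodule.sum_mem _ fun s hs => ?_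
  rw [halg, Polynomial.aeval_eq_sum_range, Finset.sum_mul]
  refine Submodule.sum_mem _ fun j _ => ?_
  rw [smul_mul_assoc]
  refine Submodule.smul_mem _ _ (Submodule.subset_span ⟨s, hs, j, ?_⟩)
  rw [smulEnd_pow_apply, smul_eq_mul]

attribute [local instance] Algebra.TensorProduct.rightAlgebra in
theorem fgUnder_tensor {k : Type*} [CommRing k] {R : Type*} [CommRing R] [Algebra k R] (x : R)
    (h : FGUnder (smulEnd k x R)) (B : Type*) [CommRing B] [Algebra k B] :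
    FGUnder (smulEnd B (x ⊗ₜ[k] (1 : B)) (R ⊗[k] B)) := by
  classical
  obtain ⟨S, hS⟩ := h
  refine ⟨S.image (fun s => s ⊗ₜ[k] (1 : B)), ?_⟩
  have h1 : ∀ r : R, r ⊗ₜ[k] (1 : B) ∈ Submodule.span B
      {z | ∃ s' ∈ S.image (fun s => s ⊗ₜ[k] (1 : B)), ∃ j : ℕ,
        z = (smulEnd B (x ⊗ₜ[k] (1 : B)) (R ⊗[k] B) ^ j) s'} := by
    intro r
    have hr : r ∈ Submodule.span k {z | ∃ s ∈ S, ∃ j : ℕ, z = (smulEnd k x R ^ j) s} := by
      rw [hS]; trivial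
    let φ : R →ₗ[k] R ⊗[k] B := (TensorProduct.mk k R B).flip 1
    have hφ : Submodule.map φ (Submodule.span k {z | ∃ s ∈ S, ∃ j : ℕ, z = (smulEnd k x R ^ j) s})
        ≤ (Submodule.span B {z | ∃ s' ∈ S.image (fun s => s ⊗ₜ[k] (1 : B)), ∃ j : ℕ,
          z = (smulEnd B (x ⊗ₜ[k] (1 : B)) (R ⊗[k] B) ^ j) s'}).restrictScalars k := by
      rw [Submodule.map_span, Submodule.span_le]
      rintro _ ⟨_, ⟨s, hs, j, rfl⟩, rfl⟩
      apply Submodule.subset_span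
      refine ⟨s ⊗ₜ 1, Finset.mem_image_of_mem _ hs, j, ?_⟩
      rw [smulEnd_pow_apply, smulEnd_pow_apply]
      change (x ^ j • s) ⊗ₜ[k] (1 : B) = (x ⊗ₜ[k] (1 : B)) ^ j • (s ⊗ₜ[k] (1 : B))
      rw [smul_eq_mul, smul_eq_mul, Algebra.TensorProduct.tmul_pow, one_pow,
        Algebra.TensorProduct.tmul_mul_tmul, one_mul]
    exact hφ (Submodule.mem_map_of_mem hr)
  rw [eq_top_iff]
  intro t _
  clear hS
  induction t using TensorProduct.induction_on with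
  | zero => exact Submodule.zero_mem _
  | tmul r b =>
    have hb : r ⊗ₜ[k] b = b • (r ⊗ₜ[k] (1 : B)) := by
      rw [Algebra.smul_def, Algebra.TensorProduct.right_algebraMap_apply,
        Algebra.TensorProduct.tmul_mul_tmul, one_mul, mul_one]
    rw [hb]
    exact Submodule.smul_mem _ b (h1 r)
  | add a b ha hb => exact Submodule.add_mem _ (ha trivial) (hb trivial)

variable (D B) in
theorem fgUnder_xB : FGUnder (smulEnd B (xB D B) (D.A₀ B)) :=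
  fgUnder_tensor D.x (fgUnder_of_finite_aeval D.x D.finite₀) B

variable (D B) in
theorem fgUnder_yB : FGUnder (smulEnd B (yB D B) (D.A₁ B)) :=
  fgUnder_tensor D.y (fgUnder_of_finite_aeval D.y D.finite₁) B

theorem fgUnder_M₀ (G : GlueDatum D B) : FGUnder (smulEnd B (xB D B) G.M₀) :=
  fgUnder_smulEnd_of_finite B (xB D B) G.M₀ (fgUnder_xB D B)

theorem fgUnder_M₁ (G : GlueDatum D B) : FGUnder (smulEnd B (yB D B) G.M₁) :=
  fgUnder_smulEnd_of_finite B (yB D B) G.M₁ (fgUnder_yB D B)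

end FG

/-! ### Negative vanishing -/

section Vanishing

variable (G : GlueDatum D B)

theorem smulEnd_xB_mul_yB :
    smulEnd B (xB D B) G.M₀₁ * smulEnd B (yB D B) G.M₀₁ = 1 :=
  LinearMap.ext fun z => xB_smul_yB_smul G z

theorem smulEnd_yB_mul_xB :
    smulEnd B (yB D B) G.M₀₁ * smulEnd B (xB D B) G.M₀₁ = 1 :=
  LinearMap.ext fun z => yB_smul_xB_smul G z

theorem ρ₀B_smulEnd (a : G.M₀) :
    G.ρ₀B (smulEnd B (xB D B) G.M₀ a) = smulEnd B (xB D B) G.M₀₁ (G.ρ₀B a) :=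
  G.ρ₀.map_smul _ _

theorem ρ₁B_smulEnd (b : G.M₁) :
    G.ρ₁B (smulEnd B (yB D B) G.M₁ b) = smulEnd B (yB D B) G.M₀₁ (G.ρ₁B b) :=
  G.ρ₁.map_smul _ _

theorem exists_pow_eq_ρ₀B (z : G.M₀₁) :
    ∃ (j : ℕ) (a : G.M₀), (smulEnd B (xB D B) G.M₀₁ ^ j) z = G.ρ₀B a := by
  obtain ⟨⟨a, ⟨_, j, rfl⟩⟩, h⟩ := IsLocalizedModule.surj (Submonoid.powers (xB D B)) G.ρ₀ z
  exact ⟨j, a, by rw [smulEnd_pow_apply]; exact h⟩

theorem exists_pow_eq_ρ₁B (z : G.M₀₁) :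
    ∃ (j : ℕ) (b : G.M₁), (smulEnd B (yB D B) G.M₀₁ ^ j) z = G.ρ₁B b := by
  obtain ⟨⟨b, ⟨_, j, rfl⟩⟩, h⟩ := IsLocalizedModule.surj (Submonoid.powers (yB D B)) G.ρ₁ z
  exact ⟨j, b, by rw [smulEnd_pow_apply]; exact h⟩

theorem exists_pow_eq_zero_of_ρ₀B (a : G.M₀) (h : G.ρ₀B a = 0) :
    ∃ n : ℕ, (smulEnd B (xB D B) G.M₀ ^ n) a = 0 := by
  obtain ⟨⟨_, n, rfl⟩, hn⟩ :=
    (IsLocalizedModule.eq_zero_iff (Submonoid.powers (xB D B)) G.ρ₀).1 h
  exact ⟨n, by rw [smulEnd_pow_apply]; exact hn⟩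

theorem exists_pow_eq_zero_of_ρ₁B (b : G.M₁) (h : G.ρ₁B b = 0) :
    ∃ n : ℕ, (smulEnd B (yB D B) G.M₁ ^ n) b = 0 := by
  obtain ⟨⟨_, n, rfl⟩, hn⟩ :=
    (IsLocalizedModule.eq_zero_iff (Submonoid.powers (yB D B)) G.ρ₁).1 h
  exact ⟨n, by rw [smulEnd_pow_apply]; exact hn⟩

theorem twist_neg_delta_apply (m : ℕ) (p : G.M₀ × G.M₁) :
    ((twist G (-(m : ℤ))).delta : G.M₀ × G.M₁ →ₗ[B] G.M₀₁) p =
      G.ρ₀B p.1 - (smulEnd B (yB D B) G.M₀₁ ^ m) (G.ρ₁B p.2) := by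
  rw [smulEnd_pow_apply, ← xU_zpow_neg_natCast_smul]
  exact GlueDatum.delta_apply (twist G (-(m : ℤ))) p

attribute [local instance] Algebra.TensorProduct.rightAlgebra in
/-- **Negative vanishing, split form.** For `m ≥ m₀` the Čech differential of `G(-m·D∞)` has a
`B`-linear left inverse. -/
theorem exists_twist_neg_retraction [IsAlgClosed k] :
    ∃ m₀ : ℕ, ∀ m : ℕ, m₀ ≤ m → ∃ ρ : G.M₀₁ →ₗ[B] G.M₀ × G.M₁,
      ∀ p : G.M₀ × G.M₁,
        ρ (((twist G (-(m : ℤ))).delta : G.M₀ × G.M₁ →ₗ[B] G.M₀₁) p) = p := by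
  obtain ⟨F₀, _, _, U₀, D₀, i₀, p₀, hF₀, hpi₀, hi₀⟩ :=
    exists_polyRetract_tensor D.x (helper1800.transcendental_x D) D.finite₀ B
  obtain ⟨F₁, _, _, U₁, D₁, i₁, p₁, hF₁, hpi₁, hi₁⟩ :=
    exists_polyRetract_tensor D.y (helper1800.transcendental_y D) D.finite₁ B
  obtain ⟨n₀, iM₀, pM₀, hP₀, hpiM₀, hiM₀⟩ :=
    exists_polyRetract_of_projective B (xB D B) G.M₀ hF₀ i₀ p₀ hpi₀ hi₀
  obtain ⟨n₁, iM₁, pM₁, hP₁, hpiM₁, hiM₁⟩ :=
    exists_polyRetract_of_projective B (yB D B) G.M₁ hF₁ i₁ p₁ hpi₁ hi₁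
  obtain ⟨m₀, hm₀⟩ := exists_twist_retraction hP₀ hP₁
    (smulEnd_xB_mul_yB G) (smulEnd_yB_mul_xB G) iM₀ pM₀ hpiM₀ hiM₀ iM₁ pM₁ hpiM₁ hiM₁
    (ρ₀B_smulEnd G) (ρ₁B_smulEnd G) (fgUnder_M₁ G)
    (exists_pow_eq_zero_of_ρ₀B G) (exists_pow_eq_zero_of_ρ₁B G)
    (exists_pow_eq_ρ₀B G) (exists_pow_eq_ρ₁B G)
  refine ⟨m₀, fun m hm => ?_⟩
  obtain ⟨ρ, hρ⟩ := hm₀ m hm
  refine ⟨ρ, fun p => ?_⟩
  rw [twist_neg_delta_apply]
  exact hρ p.1 p.2

/-- **Negative vanishing.** `H⁰(G(-m·D∞)) = 0` for `m ≥ m₀`. -/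
theorem exists_twist_neg_H0_eq_bot [IsAlgClosed k] :
    ∃ m₀ : ℕ, ∀ m : ℤ, (m₀ : ℤ) ≤ m → (twist G (-m)).H0 = ⊥ := by
  obtain ⟨m₀, h⟩ := exists_twist_neg_retraction G
  refine ⟨m₀, fun m hm => ?_⟩
  obtain ⟨n, rfl⟩ := Int.eq_ofNat_of_zero_le (le_trans (Int.natCast_nonneg m₀) hm)
  obtain ⟨ρ, hρ⟩ := h n (by exact_mod_cast hm)
  rw [eq_bot_iff]
  intro p hp
  have h0 : ((twist G (-(n : ℤ))).delta : G.M₀ × G.M₁ →ₗ[B] G.M₀₁) p = (0 : G.M₀₁) := hp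
  have h1 : (p : G.M₀ × G.M₁) = (0 : G.M₀ × G.M₁) :=
    (hρ p).symm.trans ((congrArg ρ h0).trans (map_zero ρ))
  exact (Submodule.mem_bot B).2 h1

end Vanishing

/-! ### Base change -/

section BaseChange

variable {B' : Type u} [CommRing B'] [Algebra k B']

/-- Vanishing of `H⁰` is invariant under isomorphism. -/
theorem H0_eq_bot_of_iso {G G' : GlueDatum D B} (f : GlueDatum.Iso G G') (h : G.H0 = ⊥) :
    G'.H0 = ⊥ := by
  rw [eq_bot_iff]
  intro p hp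
  rw [GlueDatum.mem_H0] at hp
  have h1 : (f.e₀.symm p.1, f.e₁.symm p.2) ∈ G.H0 := by
    rw [GlueDatum.mem_H0]
    apply f.e₀₁.injective
    change f.e₀₁ (G.ρ₀ (f.e₀.symm p.1)) = f.e₀₁ (G.ρ₁ (f.e₁.symm p.2))
    rw [f.comm₀, f.comm₁, LinearEquiv.apply_symm_apply, LinearEquiv.apply_symm_apply, hp]
  rw [h, Submodule.mem_bot, Prod.mk_eq_zero] at h1
  rw [Submodule.mem_bot]
  exact Prod.ext (f.e₀.symm.map_eq_zero_iff.1 h1.1) (f.e₁.symm.map_eq_zero_iff.1 h1.2)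

/-- **A split Čech differential stays injective after every base change.** If `H.delta` has a
`B`-linear left inverse, then `H⁰(H ⊗_B B') = 0` for every `φ : B → B'`. -/
theorem H0_baseChange_eq_bot_of_retraction (H : GlueDatum D B)
    (ρ : H.M₀₁ →ₗ[B] H.M₀ × H.M₁) (hρ : ∀ p, ρ (H.delta p) = p) (φ : B →ₐ[k] B') :
    (H.baseChange φ).H0 = ⊥ := by
  let _ : Algebra B B' := φ.toRingHom.toAlgebra
  obtain ⟨c₀, c₁, c₀₁, h₀, h₁⟩ := helper7186.exists_baseChangeCmp H φ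
  have e₀ : ∀ a : H.M₀, ρ (H.ρ₀B a) = (a, 0) := by
    intro a
    have h2 : H.delta (a, (0 : H.M₁)) = H.ρ₀B a := by
      rw [GlueDatum.delta_apply]; simp
    rw [← h2]; exact hρ _
  have e₁ : ∀ b : H.M₁, ρ (H.ρ₁B b) = (0, -b) := by
    intro b
    have h2 : H.delta ((0 : H.M₀), -b) = H.ρ₁B b := by
      rw [GlueDatum.delta_apply]; simp
    rw [← h2]; exact hρ _
  have ha₀ : (LinearMap.fst B H.M₀ H.M₁ ∘ₗ ρ) ∘ₗ H.ρ₀B = LinearMap.id :=
    LinearMap.ext fun a => by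
      change (ρ (H.ρ₀B a)).1 = a
      rw [e₀]
  have ha₁ : (LinearMap.fst B H.M₀ H.M₁ ∘ₗ ρ) ∘ₗ H.ρ₁B = 0 :=
    LinearMap.ext fun b => by
      change (ρ (H.ρ₁B b)).1 = 0
      rw [e₁]
  have hb₀ : (LinearMap.snd B H.M₀ H.M₁ ∘ₗ ρ) ∘ₗ H.ρ₀B = 0 :=
    LinearMap.ext fun a => by
      change (ρ (H.ρ₀B a)).2 = 0
      rw [e₀]
  have hb₁ : (LinearMap.snd B H.M₀ H.M₁ ∘ₗ ρ) ∘ₗ H.ρ₁B = -LinearMap.id :=
    LinearMap.ext fun b => by
      change (ρ (H.ρ₁B b)).2 = -b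
      rw [e₁]
  rw [eq_bot_iff]
  intro p hp
  rw [GlueDatum.mem_H0] at hp
  have E : H.ρ₀B.baseChange B' (c₀ p.1) = H.ρ₁B.baseChange B' (c₁ p.2) := by
    rw [← h₀, ← h₁, hp]
  have E₀ := congrArg ((LinearMap.fst B H.M₀ H.M₁ ∘ₗ ρ).baseChange B') E
  have E₁ := congrArg ((LinearMap.snd B H.M₀ H.M₁ ∘ₗ ρ).baseChange B') E
  rw [← LinearMap.comp_apply, ← LinearMap.comp_apply, ← LinearMap.baseChange_comp,
    ← LinearMap.baseChange_comp, ha₀, ha₁, LinearMap.baseChange_id, LinearMap.baseChange_zero,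
    LinearMap.id_apply, LinearMap.zero_apply] at E₀
  rw [← LinearMap.comp_apply, ← LinearMap.comp_apply, ← LinearMap.baseChange_comp,
    ← LinearMap.baseChange_comp, hb₀, hb₁, LinearMap.baseChange_neg, LinearMap.baseChange_id,
    LinearMap.baseChange_zero, LinearMap.zero_apply, LinearMap.neg_apply, LinearMap.id_apply,
    zero_eq_neg] at E₁
  rw [Submodule.mem_bot]
  exact Prod.ext (c₀.map_eq_zero_iff.1 E₀) (c₁.map_eq_zero_iff.1 E₁)

/-- **Negative vanishing, uniformly in the base change.** `H⁰(G_{B'}(-m·D∞)) = 0` for all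
`m ≥ m₀` and all `φ : B → B'`, with `m₀` depending only on `G`. -/
theorem exists_forall_twist_neg_baseChange_H0_eq_bot [IsAlgClosed k] (G : GlueDatum D B) :
    ∃ m₀ : ℕ, ∀ m : ℤ, (m₀ : ℤ) ≤ m → ∀ (B' : Type u) [CommRing B'] [Algebra k B']
      (φ : B →ₐ[k] B'), (twist (G.baseChange φ) (-m)).H0 = ⊥ := by
  obtain ⟨m₀, h⟩ := exists_twist_neg_retraction G
  refine ⟨m₀, fun m hm B' _ _ φ => ?_⟩
  obtain ⟨n, rfl⟩ := Int.eq_ofNat_of_zero_le (le_trans (Int.natCast_nonneg m₀) hm)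
  obtain ⟨ρ, hρ⟩ := h n (by exact_mod_cast hm)
  exact H0_eq_bot_of_iso (baseChangeTwistIso G φ (-(n : ℤ)))
    (H0_baseChange_eq_bot_of_retraction (twist G (-(n : ℤ))) ρ hρ φ)

/-- Same statement, as injectivity of the Čech differential. -/
theorem exists_forall_twist_neg_baseChange_delta_injective [IsAlgClosed k] (G : GlueDatum D B) :
    ∃ m₀ : ℕ, ∀ m : ℤ, (m₀ : ℤ) ≤ m → ∀ (B' : Type u) [CommRing B'] [Algebra k B']
      (φ : B →ₐ[k] B'), Function.Injective (twist (G.baseChange φ) (-m)).delta := by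
  obtain ⟨m₀, h⟩ := exists_forall_twist_neg_baseChange_H0_eq_bot G
  exact ⟨m₀, fun m hm B' _ _ φ => LinearMap.ker_eq_bot.1 (h m hm B' φ)⟩

end BaseChange

end Fermat.Agent.S25.helper4037
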