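import Mathlib

/-!
# S25, leaf U5a: chart loci are open — the open-condition calculus (helper4087)

Mathlib-only, statement-agnostic. A *condition* on a ring `B` is a property `P B' φ` of ring
homomorphisms `φ : B →+* B'`. It is an *open condition* (`IsOpenCond P`) if there is an open
subset `U ⊆ Spec B` such that `P B' φ` holds iff `Spec B' → Spec B` lands in `U`. This is
exactly the shape of `ChartFamily.IsOpenCoverAff` in the S25 Spec.

Main results:
* `subsingleton_baseChange_iff` : for a finite `B`-module `H`, `B' ⊗[B] H = 0` iff the image of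
  `Spec B' → Spec B` avoids the support of `H`;
* `isOpenCond_subsingleton` (OC1), `isOpenCond_surjective` (OC2), `isOpenCond_bijective` (OC3),
  `isOpenCond_isUnit` (OC0) : the basic open conditions (vanishing of a finite module,
  surjectivity onto a module with finite cokernel, bijectivity between finite flat modules of
  the same rank, invertibility of an element);
* `IsOpenCond.and`, `IsOpenCond.congr`, `IsOpenCond.restrict`, `IsOpenCond.stable`,
  `IsOpenCond.local`, `IsOpenCond.iff_forall_residueField` : formal properties;
* `IsOpenCond.of_local_of_field` (OC5) : local-to-global criterion. A condition that is stable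
  under base change, Zariski-local on the test ring, and that becomes an open condition on a
  basic open neighbourhood `D(f)` of every field point where it holds, is an open condition.
  (This is how "`H¹ = 0` ⟹ `H⁰` finite projective and compatible with base change" is used:
  only after localizing to `D(f) ⊆ {H¹ = 0}`.)
* `IsOpenCond.exists_opens_Spec` : the scheme form, for `Spec B' ⟶ Spec B`.
-/

set_option autoImplicit false

universe u

open scoped TensorProduct

namespace Fermat.Agent.S25.helper4087

section Support

variable {B : Type*} [CommRing B] (H : Type*) [AddCommGroup H] [Module B H]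

/-- A field-valued point of `Spec B` kills the finite module `H` iff it lies outside the
support of `H`. -/
theorem subsingleton_tensor_field_iff [Module.Finite B H] (L : Type*) [Field L] [Algebra B L] :
    Subsingleton (L ⊗[B] H) ↔
      (⟨RingHom.ker (algebraMap B L), RingHom.ker_isPrime _⟩ : PrimeSpectrum B) ∉
        Module.support B H := by
  have hI : (RingHom.ker (algebraMap B L)).IsPrime := RingHom.ker_isPrime _
  rw [Module.mem_support_iff_nontrivial_residueField_tensorProduct,
    not_nontrivial_iff_subsingleton]
  have h2 : (RingHom.ker (algebraMap B L)).primeCompl ≤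
      (IsUnit.submonoid L).comap (algebraMap B L) := by
    intro b hb
    simp only [Submonoid.mem_comap, IsUnit.mem_submonoid_iff]
    exact isUnit_iff_ne_zero.mpr (fun h => hb (by simpa [RingHom.mem_ker] using h))
  let ι : (RingHom.ker (algebraMap B L)).ResidueField →+* L :=
    Ideal.ResidueField.lift _ (algebraMap B L) le_rfl h2
  let _ : Algebra (RingHom.ker (algebraMap B L)).ResidueField L := ι.toAlgebra
  have : IsScalarTower B (RingHom.ker (algebraMap B L)).ResidueField L :=
    IsScalarTower.of_algebraMap_eq (fun b => by
      simp [RingHom.algebraMap_toAlgebra, ι])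
  let e := TensorProduct.AlgebraTensorModule.cancelBaseChange B
    (RingHom.ker (algebraMap B L)).ResidueField L L H
  rw [← e.toEquiv.subsingleton_congr]
  exact Module.FaithfullyFlat.subsingleton_tensorProduct_iff_right _ _

/-- Base change of a finite module vanishes iff the image of `Spec B' → Spec B` avoids the
support. -/
theorem subsingleton_baseChange_iff [Module.Finite B H] (B' : Type*) [CommRing B']
    [Algebra B B'] :
    Subsingleton (B' ⊗[B] H) ↔
      ∀ q : PrimeSpectrum B', q.comap (algebraMap B B') ∉ Module.support B H := by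
  rw [← Module.support_eq_empty_iff (R := B'), Set.eq_empty_iff_forall_notMem]
  refine forall_congr' fun q => ?_
  rw [Module.mem_support_iff_nontrivial_residueField_tensorProduct,
    not_nontrivial_iff_subsingleton]
  let e := TensorProduct.AlgebraTensorModule.cancelBaseChange B B' q.asIdeal.ResidueField
    q.asIdeal.ResidueField H
  rw [e.toEquiv.subsingleton_congr, subsingleton_tensor_field_iff]
  have : (⟨RingHom.ker (algebraMap B q.asIdeal.ResidueField), RingHom.ker_isPrime _⟩ :
      PrimeSpectrum B) = q.comap (algebraMap B B') := by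
    ext b
    simp [RingHom.mem_ker, IsScalarTower.algebraMap_apply B B' q.asIdeal.ResidueField]
  rw [this]

variable {H}

/-- Right exactness: a base-changed map is surjective iff the base change of its cokernel
vanishes. -/
theorem surjective_baseChange_iff {N : Type*} [AddCommGroup N] [Module B N] (f : H →ₗ[B] N)
    (B' : Type*) [CommRing B'] [Algebra B B'] :
    Function.Surjective (f.baseChange B') ↔
      Subsingleton (B' ⊗[B] (N ⧸ LinearMap.range f)) := by
  rw [LinearMap.baseChange_eq_ltensor]
  have hex := lTensor_exact B' (LinearMap.exact_map_mkQ_range f) (Submodule.mkQ_surjective _)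
  have hsurj := LinearMap.lTensor_surjective B' (Submodule.mkQ_surjective (LinearMap.range f))
  constructor
  · intro h
    refine ⟨fun a b => ?_⟩
    have key : ∀ z : B' ⊗[B] (N ⧸ LinearMap.range f), z = 0 := by
      intro z
      obtain ⟨n, rfl⟩ := hsurj z
      obtain ⟨m, rfl⟩ := h n
      exact (hex _).mpr ⟨m, rfl⟩
    rw [key a, key b]
  · intro h n
    exact (hex n).mp (Subsingleton.elim _ _)

end Support

section OpenCond

variable {B : Type u} [CommRing B]

/-- A property of ring homomorphisms out of `B` (test rings in the universe of `B`). -/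
abbrev Cond (B : Type u) [CommRing B] : Type (u + 1) :=
  ∀ (B' : Type u) [CommRing B'], (B →+* B') → Prop

/-- `P` is an *open condition* on `Spec B`: there is an open subset `U` of `Spec B` such that
`P` holds for `φ : B → B'` iff `Spec B' → Spec B` lands in `U`. -/
def IsOpenCond (P : Cond B) : Prop :=
  ∃ U : Set (PrimeSpectrum B), IsOpen U ∧
    ∀ (B' : Type u) [CommRing B'] (φ : B →+* B'),
      P B' φ ↔ ∀ q : PrimeSpectrum B', q.comap φ ∈ U

/-- Stability of a condition under further base change. -/
def Cond.Stable (P : Cond B) : Prop :=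
  ∀ (B' B'' : Type u) [CommRing B'] [CommRing B''] (φ : B →+* B') (ψ : B' →+* B''),
    P B' φ → P B'' (ψ.comp φ)

/-- Zariski-locality of a condition on the test ring. -/
def Cond.Local (P : Cond B) : Prop :=
  ∀ (B' : Type u) [CommRing B'] (φ : B →+* B') (s : Set B'), Ideal.span s = ⊤ →
    (∀ g ∈ s, P (Localization.Away g) ((algebraMap B' (Localization.Away g)).comp φ)) →
    P B' φ

/-- Restriction of a condition along a ring homomorphism `B → C`. -/
def Cond.restrict (P : Cond B) {C : Type u} [CommRing C] (ρ : B →+* C) : Cond C :=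
  fun B' _ φ => P B' (φ.comp ρ)

/-- The unique point of the spectrum of a field. -/
def fieldPoint (L : Type*) [Field L] : PrimeSpectrum L := ⟨⊥, Ideal.isPrime_bot⟩

theorem comap_fieldPoint_asIdeal {A : Type*} [CommRing A] (L : Type*) [Field L] (φ : A →+* L) :
    ((fieldPoint L).comap φ).asIdeal = RingHom.ker φ := rfl

theorem eq_fieldPoint (L : Type*) [Field L] (q : PrimeSpectrum L) : q = fieldPoint L := by
  ext1
  exact (Ideal.eq_bot_or_top q.asIdeal).resolve_right q.isPrime.ne_top

theorem comap_algebraMap_residueField_fieldPoint {A : Type*} [CommRing A] (v : PrimeSpectrum A) :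
    (fieldPoint v.asIdeal.ResidueField).comap (algebraMap A v.asIdeal.ResidueField) = v := by
  ext1
  rw [comap_fieldPoint_asIdeal, Ideal.ker_algebraMap_residueField]

theorem IsOpenCond.stable {P : Cond B} (h : IsOpenCond P) : P.Stable := by
  obtain ⟨U, -, hU⟩ := h
  intro B' B'' _ _ φ ψ hP
  rw [hU] at hP ⊢
  intro q
  have := hP (q.comap ψ)
  rwa [PrimeSpectrum.comap_comp_apply]

theorem IsOpenCond.local {P : Cond B} (h : IsOpenCond P) : P.Local := by
  obtain ⟨U, -, hU⟩ := h
  intro B' _ φ s hs hP
  rw [hU]
  intro q
  obtain ⟨g, hgs, hgq⟩ : ∃ g ∈ s, g ∉ q.asIdeal := by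
    by_contra hcon
    have hcon' : ∀ g ∈ s, g ∈ q.asIdeal := fun g hg => by
      by_contra hgq
      exact hcon ⟨g, hg, hgq⟩
    have : Ideal.span s ≤ q.asIdeal := Ideal.span_le.mpr hcon'
    rw [hs] at this
    exact q.isPrime.ne_top (top_le_iff.mp this)
  have h1 := (hU _ _).mp (hP g hgs)
  obtain ⟨q', hq'⟩ : ∃ q' : PrimeSpectrum (Localization.Away g),
      q'.comap (algebraMap B' (Localization.Away g)) = q := by
    have : q ∈ Set.range (PrimeSpectrum.comap (algebraMap B' (Localization.Away g))) := by
      rw [PrimeSpectrum.localization_away_comap_range (Localization.Away g) g]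
      exact hgq
    exact this
  have := h1 q'
  rwa [PrimeSpectrum.comap_comp_apply, hq'] at this

/-- An open condition can be tested on residue fields. -/
theorem IsOpenCond.iff_forall_residueField {P : Cond B} (h : IsOpenCond P) (B' : Type u)
    [CommRing B'] (φ : B →+* B') :
    P B' φ ↔ ∀ q : PrimeSpectrum B',
      P q.asIdeal.ResidueField ((algebraMap B' q.asIdeal.ResidueField).comp φ) := by
  refine ⟨fun hP q => h.stable _ _ _ _ hP, fun hq => ?_⟩
  obtain ⟨U, -, hU⟩ := h
  rw [hU]
  intro q
  have := (hU _ _).mp (hq q) (fieldPoint _)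
  rwa [PrimeSpectrum.comap_comp_apply, comap_algebraMap_residueField_fieldPoint] at this

theorem IsOpenCond.and {P Q : Cond B} (hP : IsOpenCond P) (hQ : IsOpenCond Q) :
    IsOpenCond (fun B' _ φ => P B' φ ∧ Q B' φ) := by
  obtain ⟨U, hU, hPU⟩ := hP
  obtain ⟨V, hV, hQV⟩ := hQ
  refine ⟨U ∩ V, hU.inter hV, fun B' _ φ => ?_⟩
  change P B' φ ∧ Q B' φ ↔ _
  rw [hPU, hQV]
  exact ⟨fun h q => ⟨h.1 q, h.2 q⟩, fun h => ⟨fun q => (h q).1, fun q => (h q).2⟩⟩

theorem IsOpenCond.congr {P Q : Cond B} (hP : IsOpenCond P)
    (h : ∀ (B' : Type u) [CommRing B'] (φ : B →+* B'), P B' φ ↔ Q B' φ) : IsOpenCond Q := by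
  obtain ⟨U, hU, hPU⟩ := hP
  exact ⟨U, hU, fun B' _ φ => (h B' φ).symm.trans (hPU B' φ)⟩

theorem IsOpenCond.restrict {P : Cond B} (hP : IsOpenCond P) {C : Type u} [CommRing C]
    (ρ : B →+* C) : IsOpenCond (P.restrict ρ) := by
  obtain ⟨U, hU, hPU⟩ := hP
  refine ⟨PrimeSpectrum.comap ρ ⁻¹' U, hU.preimage (PrimeSpectrum.continuous_comap ρ),
    fun B' _ φ => ?_⟩
  simp only [Cond.restrict, hPU, PrimeSpectrum.comap_comp_apply, Set.mem_preimage]

/-- The condition that always holds is open. -/
theorem isOpenCond_true : IsOpenCond (B := B) (fun _ _ _ => True) :=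
  ⟨Set.univ, isOpen_univ, fun _ _ _ => by simp⟩

/-- (OC0) Invertibility of the image of an element is an open condition. -/
theorem isOpenCond_isUnit (b : B) : IsOpenCond (B := B) (fun _ _ φ => IsUnit (φ b)) := by
  refine ⟨PrimeSpectrum.basicOpen b, (PrimeSpectrum.basicOpen b).isOpen, fun B' _ φ => ?_⟩
  constructor
  · intro h q hq
    exact q.isPrime.ne_top (Ideal.eq_top_of_isUnit_mem _ hq h)
  · intro h
    by_contra hu
    obtain ⟨m, hm, hbm⟩ := exists_max_ideal_of_mem_nonunits hu
    exact h ⟨m, hm.isPrime⟩ hbm

/-- (OC1) Vanishing of the base change of a finite module is an open condition. -/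
theorem isOpenCond_subsingleton (H : Type*) [AddCommGroup H] [Module B H] [Module.Finite B H] :
    IsOpenCond (B := B) (fun B' _ φ => letI := φ.toAlgebra; Subsingleton (B' ⊗[B] H)) := by
  refine ⟨(Module.support B H)ᶜ, Module.isClosed_support.isOpen_compl, fun B' _ φ => ?_⟩
  let _ := φ.toAlgebra
  exact subsingleton_baseChange_iff H B'

/-- (OC2) Surjectivity of the base change of a linear map with finite cokernel is an open
condition. -/
theorem isOpenCond_surjective {M N : Type*} [AddCommGroup M] [Module B M] [AddCommGroup N]
    [Module B N] (f : M →ₗ[B] N) [Module.Finite B (N ⧸ LinearMap.range f)] :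
    IsOpenCond (B := B)
      (fun B' _ φ => letI := φ.toAlgebra; Function.Surjective (f.baseChange B')) :=
  (isOpenCond_subsingleton (N ⧸ LinearMap.range f)).congr (fun B' _ φ => by
    let _ := φ.toAlgebra
    exact (surjective_baseChange_iff f B').symm)

/-- (OC3) Bijectivity of the base change of a linear map between finite flat modules of the
same rank is an open condition. -/
theorem isOpenCond_bijective {M N : Type*} [AddCommGroup M] [Module B M] [AddCommGroup N]
    [Module B N] [Module.Finite B M] [Module.Flat B M] [Module.Finite B N] [Module.Flat B N]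
    (f : M →ₗ[B] N)
    (hrank : ∀ p : PrimeSpectrum B, Module.rankAtStalk M p = Module.rankAtStalk N p) :
    IsOpenCond (B := B)
      (fun B' _ φ => letI := φ.toAlgebra; Function.Bijective (f.baseChange B')) :=
  (isOpenCond_surjective f).congr (fun B' _ φ => by
    let _ := φ.toAlgebra
    refine ⟨fun h => ?_, fun h => h.2⟩
    refine Module.bijective_of_surjective_of_rankAtStalk_eq h (fun m _ => ?_)
    rw [Module.rankAtStalk_baseChange, Module.rankAtStalk_baseChange]
    exact hrank _)

/-- (OC5) Local-to-global criterion: a condition that is stable under base change,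
Zariski-local on the test ring, and becomes an open condition on a basic open neighbourhood
of every field point where it holds, is an open condition. -/
theorem IsOpenCond.of_local_of_field (P : Cond B) (hst : P.Stable) (hloc : P.Local)
    (h : ∀ (L : Type u) [Field L] (φ : B →+* L), P L φ →
      ∃ f : B, φ f ≠ 0 ∧ IsOpenCond (P.restrict (algebraMap B (Localization.Away f)))) :
    IsOpenCond P := by
  classical
  let U : Set (PrimeSpectrum B) :=
    {p | ∃ (L : Type u) (_ : Field L) (φ : B →+* L), RingHom.ker φ = p.asIdeal ∧ P L φ}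
  have key : ∀ p ∈ U, ∃ (f : B) (V : Set (PrimeSpectrum (Localization.Away f))),
      IsOpen V ∧
      (∀ (B' : Type u) [CommRing B'] (ψ : Localization.Away f →+* B'),
        P B' (ψ.comp (algebraMap B (Localization.Away f))) ↔
          ∀ q : PrimeSpectrum B', q.comap ψ ∈ V) ∧
      p ∈ PrimeSpectrum.comap (algebraMap B (Localization.Away f)) '' V := by
    rintro p ⟨L, _, φ, hker, hP⟩
    obtain ⟨f, hf, V, hV, hPV⟩ := h L φ hP
    refine ⟨f, V, hV, hPV, ?_⟩
    let φ' : Localization.Away f →+* L := IsLocalization.Away.lift f (isUnit_iff_ne_zero.mpr hf)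
    have hφ' : φ'.comp (algebraMap B (Localization.Away f)) = φ :=
      IsLocalization.Away.lift_comp f (isUnit_iff_ne_zero.mpr hf)
    have h1 : P L (φ'.comp (algebraMap B (Localization.Away f))) := by rw [hφ']; exact hP
    refine ⟨(fieldPoint L).comap φ', (hPV L φ').mp h1 _, ?_⟩
    rw [← PrimeSpectrum.comap_comp_apply, hφ']
    ext1
    rw [comap_fieldPoint_asIdeal, hker]
  have hW : ∀ (f : B) (V : Set (PrimeSpectrum (Localization.Away f))),
      (∀ (B' : Type u) [CommRing B'] (ψ : Localization.Away f →+* B'),
        P B' (ψ.comp (algebraMap B (Localization.Away f))) ↔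
          ∀ q : PrimeSpectrum B', q.comap ψ ∈ V) →
      PrimeSpectrum.comap (algebraMap B (Localization.Away f)) '' V ⊆ U := by
    rintro f V hPV _ ⟨v, hv, rfl⟩
    refine ⟨v.asIdeal.ResidueField, inferInstance,
      (algebraMap (Localization.Away f) v.asIdeal.ResidueField).comp
        (algebraMap B (Localization.Away f)), ?_, ?_⟩
    · ext b
      simp [RingHom.mem_ker]
    · refine (hPV _ _).mpr (fun q => ?_)
      rw [eq_fieldPoint _ q, comap_algebraMap_residueField_fieldPoint]
      exact hv
  have hUopen : IsOpen U := by
    rw [isOpen_iff_forall_mem_open]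
    intro p hp
    obtain ⟨f, V, hV, hPV, hpW⟩ := key p hp
    exact ⟨_, hW f V hPV,
      (PrimeSpectrum.localization_away_isOpenEmbedding (Localization.Away f) f).isOpenMap V hV,
      hpW⟩
  refine ⟨U, hUopen, fun B' _ φ => ⟨fun hP q => ?_, fun hq => ?_⟩⟩
  · refine ⟨q.asIdeal.ResidueField, inferInstance,
      (algebraMap B' q.asIdeal.ResidueField).comp φ, ?_, hst _ _ _ _ hP⟩
    ext b
    simp [RingHom.mem_ker]
  · -- the set of `g` such that `P` holds on `D(g)` generates the unit ideal
    let s : Set B' := {g | P (Localization.Away g) ((algebraMap B' (Localization.Away g)).comp φ)}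
    refine hloc B' φ s ?_ (fun g hg => hg)
    by_contra hs
    obtain ⟨m, hm, hsm⟩ := Ideal.exists_le_maximal _ hs
    let q : PrimeSpectrum B' := ⟨m, hm.isPrime⟩
    obtain ⟨f, V, hV, hPV, hpW⟩ := key _ (hq q)
    have hopen : IsOpen (PrimeSpectrum.comap φ ⁻¹'
        (PrimeSpectrum.comap (algebraMap B (Localization.Away f)) '' V)) :=
      ((PrimeSpectrum.localization_away_isOpenEmbedding (Localization.Away f) f).isOpenMap V
        hV).preimage (PrimeSpectrum.continuous_comap φ)
    obtain ⟨_, ⟨g, rfl⟩, hqg, hgW⟩ :=
      PrimeSpectrum.isTopologicalBasis_basic_opens.exists_subset_of_mem_open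
        (show q ∈ _ from hpW) hopen
    have hgm : g ∉ m := hqg
    refine hgm (hsm (Ideal.subset_span ?_))
    change P (Localization.Away g) ((algebraMap B' (Localization.Away g)).comp φ)
    set χ : B →+* Localization.Away g := (algebraMap B' (Localization.Away g)).comp φ with hχ
    have hmem : ∀ q'' : PrimeSpectrum (Localization.Away g),
        q''.comap χ ∈ PrimeSpectrum.comap (algebraMap B (Localization.Away f)) '' V := by
      intro q''
      rw [hχ, PrimeSpectrum.comap_comp_apply]
      apply hgW
      have : q''.comap (algebraMap B' (Localization.Away g)) ∈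
          Set.range (PrimeSpectrum.comap (algebraMap B' (Localization.Away g))) := ⟨q'', rfl⟩
      rwa [PrimeSpectrum.localization_away_comap_range (Localization.Away g) g] at this
    have hunit : IsUnit (χ f) := by
      by_contra hu
      obtain ⟨n, hn, hfn⟩ := exists_max_ideal_of_mem_nonunits hu
      obtain ⟨v, -, hv⟩ := hmem ⟨n, hn.isPrime⟩
      have h1 : v.comap (algebraMap B (Localization.Away f)) ∈
          Set.range (PrimeSpectrum.comap (algebraMap B (Localization.Away f))) := ⟨v, rfl⟩
      rw [PrimeSpectrum.localization_away_comap_range (Localization.Away f) f, hv] at h1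
      exact h1 hfn
    let ψ : Localization.Away f →+* Localization.Away g := IsLocalization.Away.lift f hunit
    have hψ : ψ.comp (algebraMap B (Localization.Away f)) = χ :=
      IsLocalization.Away.lift_comp f hunit
    rw [← hψ]
    refine (hPV _ ψ).mpr (fun q'' => ?_)
    obtain ⟨v, hvV, hv⟩ := hmem q''
    rw [← hψ, PrimeSpectrum.comap_comp_apply] at hv
    rwa [← PrimeSpectrum.localization_comap_injective (Localization.Away f)
      (Submonoid.powers f) hv]

end OpenCond

section SchemeForm

open AlgebraicGeometry CategoryTheory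

/-- Scheme form of an open condition: an open subscheme `U` of `Spec B` such that a morphism
`ψ : Spec B' ⟶ Spec B` factors (set-theoretically) through `U` iff the condition holds for the
ring homomorphism of `ψ`. This is the shape of `ChartFamily.IsOpenCoverAff`. -/
theorem IsOpenCond.exists_opens_Spec {B : CommRingCat.{u}} {P : Cond B} (h : IsOpenCond P) :
    ∃ U : (Spec B).Opens, ∀ (B' : CommRingCat.{u}) (ψ : Spec B' ⟶ Spec B),
      (∀ p : Spec B', ψ.base p ∈ U) ↔ P B' (Spec.preimage ψ).hom := by
  obtain ⟨U, hU, hP⟩ := h
  refine ⟨⟨U, hU⟩, fun B' ψ => ?_⟩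
  rw [hP]
  conv_lhs => rw [← Spec.map_preimage ψ]
  rfl

end SchemeForm

end Fermat.Agent.S25.helper4087
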