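import Fermat.Agent.S25.helper4087_ChartOpen

/-!
# S25, leaf U5a, stage 2: sections with a spanning condition form an open locus (helper4087)

Mathlib-only (on top of the open-condition calculus of `helper4087_ChartOpen`), complex form,
statement-agnostic: `d : E₀ →ₗ[B] E₁` is any two-term complex of `B`-modules (for a two-chart
datum: the Čech differential `M₀ × M₁ → M₀₁`, so that `ker (d ⊗ B')` is `H⁰` and
`coker (d ⊗ B')` is `H¹` of the base change to `B'`).

Main results:
* `IsOpenCond.exists_away_of_field` : an open condition spreads from a field point to some `D(f)`;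
* `IsOpenCond.of_relative` (OC7) : chaining of open conditions along a base where the previous
  condition holds;
* `ker_baseChange_eq_span` : if `d ⊗ B'` is surjective, then for every `B' → B''` the kernel of
  `d ⊗ B''` is spanned by the image of the kernel of `d ⊗ B'` (right exactness only; no flatness,
  no finiteness or projectivity of the kernel);
* `isOpenCond_kerImage_eq_top` (CS) : if the cokernel of `d` is a finite `B`-module and `V` is a
  finite `B`-module, then for any family `γ i : E₀ →ₗ[B] V` the condition
  "`d ⊗ B'` is surjective and the images of `ker (d ⊗ B')` under the `γ i ⊗ B'` span `B' ⊗ V`"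
  is an open condition on `Spec B`;
* `isOpenCond_exists_section` : the special case `V = B`: "`H¹ = 0` over `B'` and there is a
  section `t ∈ H⁰` over `B'` with `ev t = 1`" is an open condition (rigidified generator).* the closed-fibre kit (`IsOpenCond.of_forall_isMaximal`, `subsingleton_of_forall_isMaximal`,
  `surjective_of_forall_isMaximal`, `bijective_of_forall_isMaximal`, `isUnit_of_forall_isMaximal`,
  `exists_section_of_forall_isMaximal`, `iSup_map_ker_eq_top_of_forall_isMaximal`) : the same
  statements in "fibrewise ⟹ global" form, tested on ONE field-valued point over every closed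
  point of `Spec B` (the shape of the hypothesis of `DatumPred.FibGlobal`).
-/

set_option autoImplicit false

universe u

open scoped TensorProduct

namespace Fermat.Agent.S25.helper4087

section Generic

variable {B : Type u} [CommRing B]

/-- An open condition that holds at a field point holds on a basic open neighbourhood. -/
theorem IsOpenCond.exists_away_of_field {P : Cond B} (h : IsOpenCond P) (L : Type u) [Field L]
    (φ : B →+* L) (hP : P L φ) :
    ∃ f : B, φ f ≠ 0 ∧ P (Localization.Away f) (algebraMap B (Localization.Away f)) := by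
  obtain ⟨U, hU, hPU⟩ := h
  have hp : (fieldPoint L).comap φ ∈ U := (hPU L φ).mp hP _
  obtain ⟨_, ⟨f, rfl⟩, hpf, hfU⟩ :=
    PrimeSpectrum.isTopologicalBasis_basic_opens.exists_subset_of_mem_open hp hU
  refine ⟨f, fun h0 => hpf ?_, (hPU _ _).mpr (fun q => hfU ?_)⟩
  · exact (RingHom.mem_ker (f := φ)).mpr h0
  · have : q.comap (algebraMap B (Localization.Away f)) ∈
        Set.range (PrimeSpectrum.comap (algebraMap B (Localization.Away f))) := ⟨q, rfl⟩
    rwa [PrimeSpectrum.localization_away_comap_range (Localization.Away f) f] at this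

/-- (OC7) Chaining of open conditions: if `P` implies an open condition `P₁`, and over every
base `B'` where `P₁` holds the condition `P` (restricted to `B'`-algebras) is an open condition
on `Spec B'`, then `P` is an open condition on `Spec B`. -/
theorem IsOpenCond.of_relative {P₁ P : Cond B} (h₁ : IsOpenCond P₁)
    (hle : ∀ (B' : Type u) [CommRing B'] (φ : B →+* B'), P B' φ → P₁ B' φ)
    (hrel : ∀ (B' : Type u) [CommRing B'] (φ : B →+* B'), P₁ B' φ →
      ∃ R : Cond B', IsOpenCond R ∧
        ∀ (B'' : Type u) [CommRing B''] (ψ : B' →+* B''), P B'' (ψ.comp φ) ↔ R B'' ψ) :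
    IsOpenCond P := by
  refine IsOpenCond.of_local_of_field P ?_ ?_ ?_
  · intro B' B'' _ _ φ ψ hP
    obtain ⟨R, hR, hPR⟩ := hrel B' φ (hle B' φ hP)
    have h1 : R B' (RingHom.id B') := (hPR B' (RingHom.id B')).mp (by rwa [RingHom.id_comp])
    have h2 := hR.stable B' B'' (RingHom.id B') ψ h1
    rw [RingHom.comp_id] at h2
    exact (hPR B'' ψ).mpr h2
  · intro B' _ φ s hs hP
    have hP₁ : P₁ B' φ := h₁.local B' φ s hs (fun g hg => hle _ _ (hP g hg))
    obtain ⟨R, hR, hPR⟩ := hrel B' φ hP₁
    have h1 : R B' (RingHom.id B') := hR.local B' (RingHom.id B') s hs (fun g hg => by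
      rw [RingHom.comp_id]; exact (hPR _ _).mp (hP g hg))
    have := (hPR B' (RingHom.id B')).mpr h1
    rwa [RingHom.id_comp] at this
  · intro L _ φ hP
    obtain ⟨f, hf, hPf⟩ := h₁.exists_away_of_field L φ (hle L φ hP)
    obtain ⟨R, hR, hPR⟩ := hrel _ _ hPf
    exact ⟨f, hf, hR.congr (fun B'' _ ψ => (hPR B'' ψ).symm)⟩

end Generic

section Transition

variable {B : Type*} [CommRing B] (B' B'' : Type*) [CommRing B'] [CommRing B''] [Algebra B B']
  [Algebra B B''] [Algebra B' B''] [IsScalarTower B B' B'']

/-- The transition map `B' ⊗[B] E → B'' ⊗[B] E` for a tower `B → B' → B''`. -/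
noncomputable def trans (E : Type*) [AddCommGroup E] [Module B E] :
    B' ⊗[B] E →ₗ[B'] B'' ⊗[B] E :=
  TensorProduct.AlgebraTensorModule.map (Algebra.linearMap B' B'') LinearMap.id

variable {E F : Type*} [AddCommGroup E] [Module B E] [AddCommGroup F] [Module B F]

@[simp] theorem trans_tmul (b : B') (e : E) :
    trans B' B'' E (b ⊗ₜ[B] e) = algebraMap B' B'' b ⊗ₜ[B] e := rfl

theorem trans_eq_cancel (z : B' ⊗[B] E) :
    trans B' B'' E z =
      TensorProduct.AlgebraTensorModule.cancelBaseChange B B' B'' B'' E (1 ⊗ₜ[B'] z) := by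
  induction z using TensorProduct.induction_on with
  | zero => simp
  | tmul b e =>
    rw [trans_tmul, TensorProduct.AlgebraTensorModule.cancelBaseChange_tmul,
      Algebra.algebraMap_eq_smul_one]
  | add x y hx hy => rw [map_add, hx, hy, TensorProduct.tmul_add, map_add]

theorem baseChange_trans (f : E →ₗ[B] F) (z : B' ⊗[B] E) :
    f.baseChange B'' (trans B' B'' E z) = trans B' B'' F (f.baseChange B' z) := by
  induction z using TensorProduct.induction_on with
  | zero => simp
  | tmul b e => simp
  | add x y hx hy => simp only [map_add, hx, hy]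

theorem span_range_trans (E : Type*) [AddCommGroup E] [Module B E] :
    Submodule.span B'' (Set.range (trans (B := B) B' B'' E)) = ⊤ := by
  rw [eq_top_iff]
  rintro z -
  induction z using TensorProduct.induction_on with
  | zero => exact Submodule.zero_mem _
  | tmul b e =>
    have : b ⊗ₜ[B] e = b • trans B' B'' E (1 ⊗ₜ[B] e) := by
      rw [trans_tmul, map_one, TensorProduct.smul_tmul', smul_eq_mul, mul_one]
    rw [this]
    exact Submodule.smul_mem _ _ (Submodule.subset_span ⟨_, rfl⟩)
  | add x y hx hy => exact Submodule.add_mem _ hx hy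

theorem cancel_baseChange_baseChange (f : E →ₗ[B] F) (y : B'' ⊗[B'] (B' ⊗[B] E)) :
    TensorProduct.AlgebraTensorModule.cancelBaseChange B B' B'' B'' F
        ((f.baseChange B').baseChange B'' y) =
      f.baseChange B'' (TensorProduct.AlgebraTensorModule.cancelBaseChange B B' B'' B'' E y) := by
  induction y using TensorProduct.induction_on with
  | zero => simp
  | tmul c z =>
    induction z using TensorProduct.induction_on with
    | zero => simp
    | tmul b e => simp
    | add x y hx hy => simp only [TensorProduct.tmul_add, map_add, hx, hy]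
  | add x y hx hy => simp only [map_add, hx, hy]

end Transition

section KerSpan

/-- Right exactness of the tensor product, kernel form. -/
theorem ker_lTensor_eq_range_of_surjective {R : Type*} [CommRing R] (Q : Type*) [AddCommGroup Q]
    [Module R Q] {N P : Type*} [AddCommGroup N] [Module R N] [AddCommGroup P] [Module R P]
    (g : N →ₗ[R] P) (hg : Function.Surjective g) :
    LinearMap.ker (g.lTensor Q) = LinearMap.range ((LinearMap.ker g).subtype.lTensor Q) := by
  rw [← LinearMap.exact_iff]
  exact lTensor_exact Q (LinearMap.exact_subtype_ker_map g) hg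

variable {B : Type*} [CommRing B] (B' B'' : Type*) [CommRing B'] [CommRing B''] [Algebra B B']
  [Algebra B B''] [Algebra B' B''] [IsScalarTower B B' B'']
  {E₀ E₁ V : Type*} [AddCommGroup E₀] [Module B E₀] [AddCommGroup E₁] [Module B E₁]
  [AddCommGroup V] [Module B V]

/-- Surjectivity of a base-changed map is inherited along a tower. -/
theorem surjective_baseChange_of_tower (d : E₀ →ₗ[B] E₁)
    (hd : Function.Surjective (d.baseChange B')) : Function.Surjective (d.baseChange B'') := by
  intro z
  have hz : z ∈ Submodule.span B'' (Set.range (trans (B := B) B' B'' E₁)) := by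
    rw [span_range_trans]; trivial
  induction hz using Submodule.span_induction with
  | mem x hx =>
    obtain ⟨w, rfl⟩ := hx
    obtain ⟨v, rfl⟩ := hd w
    exact ⟨trans B' B'' E₀ v, baseChange_trans ..⟩
  | zero => exact ⟨0, map_zero _⟩
  | add x y _ _ hx hy =>
    obtain ⟨a, rfl⟩ := hx
    obtain ⟨b, rfl⟩ := hy
    exact ⟨a + b, map_add _ _ _⟩
  | smul c x _ hx =>
    obtain ⟨a, rfl⟩ := hx
    exact ⟨c • a, map_smul _ _ _⟩

/-- Right exactness: if `d ⊗ B'` is surjective then, for every `B' → B''`, the kernel of
`d ⊗ B''` is spanned by the image of the kernel of `d ⊗ B'`. No flatness is needed. -/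
theorem ker_baseChange_eq_span (d : E₀ →ₗ[B] E₁)
    (hd : Function.Surjective (d.baseChange B')) :
    LinearMap.ker (d.baseChange B'') =
      Submodule.span B''
        (trans B' B'' E₀ '' (LinearMap.ker (d.baseChange B') : Set (B' ⊗[B] E₀))) := by
  apply le_antisymm
  · intro z hz
    have hy : (d.baseChange B').baseChange B''
        ((TensorProduct.AlgebraTensorModule.cancelBaseChange B B' B'' B'' E₀).symm z) = 0 := by
      apply (TensorProduct.AlgebraTensorModule.cancelBaseChange B B' B'' B'' E₁).injective
      rw [cancel_baseChange_baseChange, LinearEquiv.apply_symm_apply, map_zero]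
      exact hz
    have hex := ker_lTensor_eq_range_of_surjective B'' (d.baseChange B') hd
    have hy' : (TensorProduct.AlgebraTensorModule.cancelBaseChange B B' B'' B'' E₀).symm z ∈
        LinearMap.ker ((d.baseChange B').lTensor B'') := hy
    rw [hex] at hy'
    obtain ⟨u, hu⟩ := hy'
    have hz' : z = TensorProduct.AlgebraTensorModule.cancelBaseChange B B' B'' B'' E₀
        ((LinearMap.lTensor B'' (LinearMap.ker (d.baseChange B')).subtype) u) := by
      rw [hu, LinearEquiv.apply_symm_apply]
    rw [hz']
    clear hz' hu hy hz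
    induction u using TensorProduct.induction_on with
    | zero => simp
    | tmul c w =>
      rw [LinearMap.lTensor_tmul]
      have : TensorProduct.AlgebraTensorModule.cancelBaseChange B B' B'' B'' E₀
          (c ⊗ₜ[B'] (w : B' ⊗[B] E₀)) = c • trans B' B'' E₀ w := by
        rw [trans_eq_cancel, ← map_smul, TensorProduct.smul_tmul', smul_eq_mul, mul_one]
      rw [Submodule.subtype_apply, this]
      exact Submodule.smul_mem _ _ (Submodule.subset_span ⟨w, w.2, rfl⟩)
    | add x y hx hy => rw [map_add, map_add]; exact Submodule.add_mem _ hx hy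
  · rw [Submodule.span_le]
    rintro _ ⟨w, hw, rfl⟩
    rw [SetLike.mem_coe, LinearMap.mem_ker, baseChange_trans, LinearMap.mem_ker.mp hw, map_zero]

end KerSpan

/-! ### The image of the kernel under a family of maps -/

section KerImage

variable {B : Type*} [CommRing B] {E₀ E₁ V : Type*} [AddCommGroup E₀] [Module B E₀]
  [AddCommGroup E₁] [Module B E₁] [AddCommGroup V] [Module B V]

/-- The submodule of `B' ⊗ V` generated by the images of `ker (d ⊗ B')` under the maps
`γ i ⊗ B'`. For `d` the Čech differential of a two-chart datum, `ker (d ⊗ B')` is `H⁰` over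
`B'`. -/
noncomputable def kerImage (d : E₀ →ₗ[B] E₁) {ι : Type*} (γ : ι → (E₀ →ₗ[B] V)) (B' : Type*)
    [CommRing B'] [Algebra B B'] : Submodule B' (B' ⊗[B] V) :=
  ⨆ i, (LinearMap.ker (d.baseChange B')).map ((γ i).baseChange B')

variable (B' B'' : Type*) [CommRing B'] [CommRing B''] [Algebra B B']
  [Algebra B B''] [Algebra B' B''] [IsScalarTower B B' B'']
  (d : E₀ →ₗ[B] E₁) {ι : Type*} (γ : ι → (E₀ →ₗ[B] V))

theorem trans_mem_kerImage {w : B' ⊗[B] V} (hw : w ∈ kerImage d γ B') :
    trans B' B'' V w ∈ kerImage d γ B'' := by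
  unfold kerImage at hw
  induction hw using Submodule.iSup_induction' with
  | mem i x hx =>
    obtain ⟨z, hz, rfl⟩ := hx
    rw [← baseChange_trans]
    refine Submodule.mem_iSup_of_mem i ⟨_, ?_, rfl⟩
    rw [SetLike.mem_coe, LinearMap.mem_ker, baseChange_trans, LinearMap.mem_ker.mp hz, map_zero]
  | zero => rw [map_zero]; exact Submodule.zero_mem _
  | add x y _ _ hx hy => rw [map_add]; exact Submodule.add_mem _ hx hy

theorem kerImage_eq_span (hd : Function.Surjective (d.baseChange B')) :
    kerImage d γ B'' =
      Submodule.span B'' (trans B' B'' V '' (kerImage d γ B' : Set (B' ⊗[B] V))) := by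
  apply le_antisymm
  · unfold kerImage
    refine iSup_le fun i => ?_
    rw [ker_baseChange_eq_span B' B'' d hd, Submodule.map_span, Submodule.span_le]
    rintro _ ⟨_, ⟨w, hw, rfl⟩, rfl⟩
    rw [baseChange_trans]
    exact Submodule.subset_span ⟨_, Submodule.mem_iSup_of_mem i ⟨w, hw, rfl⟩, rfl⟩
  · rw [Submodule.span_le]
    rintro _ ⟨w, hw, rfl⟩
    exact trans_mem_kerImage B' B'' d γ hw

end KerImage

/-- Right exactness: for an exact pair `f, g` with `g` surjective, the base change of `f` is
surjective iff the base change of the target of `g` vanishes. -/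
theorem surjective_baseChange_iff_of_exact {R : Type*} [CommRing R] {M₁ M₂ M₃ : Type*}
    [AddCommGroup M₁] [Module R M₁] [AddCommGroup M₂] [Module R M₂] [AddCommGroup M₃]
    [Module R M₃] (f : M₁ →ₗ[R] M₂) (g : M₂ →ₗ[R] M₃) (hfg : Function.Exact f g)
    (hg : Function.Surjective g) (S : Type*) [CommRing S] [Algebra R S] :
    Function.Surjective (f.baseChange S) ↔ Subsingleton (S ⊗[R] M₃) := by
  rw [LinearMap.baseChange_eq_ltensor]
  have hex := lTensor_exact S hfg hg
  have hsurj := LinearMap.lTensor_surjective S hg
  constructor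
  · intro h
    refine ⟨fun a b => ?_⟩
    have key : ∀ z : S ⊗[R] M₃, z = 0 := by
      intro z
      obtain ⟨n, rfl⟩ := hsurj z
      obtain ⟨m, rfl⟩ := h n
      exact (hex _).mpr ⟨m, rfl⟩
    rw [key a, key b]
  · intro h n
    exact (hex n).mp (Subsingleton.elim _ _)

/-- The base change of a quotient vanishes iff the base change of the submodule is everything. -/
theorem subsingleton_tensor_quotient_iff {R : Type*} [CommRing R] (S : Type*) [CommRing S]
    [Algebra R S] {M : Type*} [AddCommGroup M] [Module R M] (N : Submodule R M) :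
    Subsingleton (S ⊗[R] (M ⧸ N)) ↔ Function.Surjective (N.subtype.baseChange S) :=
  (surjective_baseChange_iff_of_exact N.subtype N.mkQ (LinearMap.exact_subtype_mkQ N)
    (Submodule.mkQ_surjective N) S).symm

section KerImageTop

variable {B : Type*} [CommRing B] {E₀ E₁ V : Type*} [AddCommGroup E₀] [Module B E₀]
  [AddCommGroup E₁] [Module B E₁] [AddCommGroup V] [Module B V]
  (B' B'' : Type*) [CommRing B'] [CommRing B''] [Algebra B B']
  [Algebra B B''] [Algebra B' B''] [IsScalarTower B B' B'']

/-- For a `B'`-submodule `N` of `B' ⊗[B] V`: the base change of `N` to `B''` is everything iff the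
transition images of `N` span `B'' ⊗[B] V`. -/
theorem surjective_subtype_baseChange_iff (N : Submodule B' (B' ⊗[B] V)) :
    Function.Surjective (N.subtype.baseChange B'') ↔
      Submodule.span B'' (trans B' B'' V '' (N : Set (B' ⊗[B] V))) = ⊤ := by
  have key : ∀ y : B'' ⊗[B'] (B' ⊗[B] V), y ∈ LinearMap.range (N.subtype.baseChange B'') ↔
      TensorProduct.AlgebraTensorModule.cancelBaseChange B B' B'' B'' V y ∈
        Submodule.span B'' (trans B' B'' V '' (N : Set (B' ⊗[B] V))) := by
    intro y
    constructor
    · rintro ⟨u, rfl⟩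
      induction u using TensorProduct.induction_on with
      | zero => simp
      | tmul c n =>
        have : TensorProduct.AlgebraTensorModule.cancelBaseChange B B' B'' B'' V
            ((N.subtype.baseChange B'') (c ⊗ₜ[B'] n)) = c • trans B' B'' V (n : B' ⊗[B] V) := by
          rw [LinearMap.baseChange_tmul, Submodule.subtype_apply, trans_eq_cancel, ← map_smul,
            TensorProduct.smul_tmul', smul_eq_mul, mul_one]
        rw [this]
        exact Submodule.smul_mem _ _ (Submodule.subset_span ⟨n, n.2, rfl⟩)
      | add x y hx hy => rw [map_add, map_add]; exact Submodule.add_mem _ hx hy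
    · intro hy
      have hy' : ∀ v ∈ Submodule.span B'' (trans B' B'' V '' (N : Set (B' ⊗[B] V))),
          (TensorProduct.AlgebraTensorModule.cancelBaseChange B B' B'' B'' V).symm v ∈
            LinearMap.range (N.subtype.baseChange B'') := by
        intro v hv
        induction hv using Submodule.span_induction with
        | mem x hx =>
          obtain ⟨n, hn, rfl⟩ := hx
          refine ⟨1 ⊗ₜ[B'] ⟨n, hn⟩, ?_⟩
          rw [LinearMap.baseChange_tmul, Submodule.subtype_apply, trans_eq_cancel,
            LinearEquiv.symm_apply_apply]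
        | zero => rw [map_zero]; exact Submodule.zero_mem _
        | add x y _ _ hx hy => rw [map_add]; exact Submodule.add_mem _ hx hy
        | smul c x _ hx => rw [map_smul]; exact Submodule.smul_mem _ _ hx
      have := hy' _ hy
      rwa [LinearEquiv.symm_apply_apply] at this
  constructor
  · intro h
    rw [eq_top_iff]
    rintro v -
    have := (key ((TensorProduct.AlgebraTensorModule.cancelBaseChange B B' B'' B'' V).symm v)).mp
      (by rw [LinearMap.range_eq_top.mpr h]; trivial)
    rwa [LinearEquiv.apply_symm_apply] at this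
  · intro h
    rw [← LinearMap.range_eq_top, eq_top_iff]
    rintro y -
    exact (key y).mpr (by rw [h]; trivial)

variable (d : E₀ →ₗ[B] E₁) {ι : Type*} (γ : ι → (E₀ →ₗ[B] V))

/-- Key relative statement: over a base `B'` where `d ⊗ B'` is surjective, the condition
"`kerImage` is everything over `B''`" is the vanishing of the base change of the `B'`-module
`(B' ⊗ V) ⧸ kerImage`. -/
theorem kerImage_eq_top_iff (hd : Function.Surjective (d.baseChange B')) :
    kerImage d γ B'' = ⊤ ↔
      Subsingleton (B'' ⊗[B'] ((B' ⊗[B] V) ⧸ kerImage d γ B')) := by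
  rw [subsingleton_tensor_quotient_iff, surjective_subtype_baseChange_iff,
    kerImage_eq_span B' B'' d γ hd]

end KerImageTop


/-! ### The main theorem -/

section Main

variable {B : Type u} [CommRing B] {E₀ E₁ V : Type*} [AddCommGroup E₀] [Module B E₀]
  [AddCommGroup E₁] [Module B E₁] [AddCommGroup V] [Module B V]

/-- (CS) If the cokernel of `d` and the module `V` are finite over `B`, then
"`d ⊗ B'` is surjective and the images of `ker (d ⊗ B')` under the maps `γ i ⊗ B'` span
`B' ⊗ V`" is an open condition on `Spec B`. -/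
theorem isOpenCond_kerImage_eq_top (d : E₀ →ₗ[B] E₁) [Module.Finite B (E₁ ⧸ LinearMap.range d)]
    [Module.Finite B V] {ι : Type*} (γ : ι → (E₀ →ₗ[B] V)) :
    IsOpenCond (B := B) (fun B' _ φ => letI := φ.toAlgebra;
      Function.Surjective (d.baseChange B') ∧ kerImage d γ B' = ⊤) := by
  refine IsOpenCond.of_relative (isOpenCond_surjective d) (fun B' _ φ h => h.1) ?_
  intro B' _ φ hd
  let _ := φ.toAlgebra
  refine ⟨fun B'' _ ψ => letI := ψ.toAlgebra;
    Subsingleton (B'' ⊗[B'] ((B' ⊗[B] V) ⧸ kerImage d γ B')), isOpenCond_subsingleton _, ?_⟩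
  intro B'' _ ψ
  let _ := ψ.toAlgebra
  let _ := (ψ.comp φ).toAlgebra
  have : IsScalarTower B B' B'' := IsScalarTower.of_algebraMap_eq (fun x => rfl)
  exact ⟨fun h => (kerImage_eq_top_iff B' B'' d γ hd).mp h.2,
    fun h => ⟨surjective_baseChange_of_tower B' B'' d hd,
      (kerImage_eq_top_iff B' B'' d γ hd).mpr h⟩⟩

/-- The extension of a linear form `ev : E₀ →ₗ[B] B` to `B' ⊗[B] E₀ →ₗ[B'] B'`,
`b ⊗ e ↦ b * ev e`. -/
noncomputable def evBC (ev : E₀ →ₗ[B] B) (B' : Type*) [CommRing B'] [Algebra B B'] :
    B' ⊗[B] E₀ →ₗ[B'] B' :=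
  LinearMap.liftBaseChange B' ((Algebra.linearMap B B').comp ev)

@[simp] theorem evBC_tmul (ev : E₀ →ₗ[B] B) (B' : Type*) [CommRing B'] [Algebra B B'] (b : B')
    (e : E₀) : evBC ev B' (b ⊗ₜ[B] e) = b * algebraMap B B' (ev e) := by
  simp [evBC]

theorem evBC_eq_rid (ev : E₀ →ₗ[B] B) (B' : Type*) [CommRing B'] [Algebra B B']
    (z : B' ⊗[B] E₀) :
    evBC ev B' z = TensorProduct.AlgebraTensorModule.rid B B' B' (ev.baseChange B' z) := by
  induction z using TensorProduct.induction_on with
  | zero => simp
  | tmul b e => simp [Algebra.smul_def, mul_comm]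
  | add x y hx hy => simp only [map_add, hx, hy]

theorem kerImage_unit_eq_top_iff (d : E₀ →ₗ[B] E₁) (ev : E₀ →ₗ[B] B) (B' : Type*) [CommRing B']
    [Algebra B B'] :
    kerImage d (fun _ : Unit => ev) B' = ⊤ ↔
      ∃ t ∈ LinearMap.ker (d.baseChange B'), evBC ev B' t = 1 := by
  have hk : kerImage d (fun _ : Unit => ev) B' =
      (LinearMap.ker (d.baseChange B')).map (ev.baseChange B') := by
    unfold kerImage
    exact ciSup_unique
  rw [hk]
  constructor
  · intro h
    have h1 : (TensorProduct.AlgebraTensorModule.rid B B' B').symm 1 ∈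
        (LinearMap.ker (d.baseChange B')).map (ev.baseChange B') := by rw [h]; trivial
    obtain ⟨t, ht, hte⟩ := h1
    exact ⟨t, ht, by rw [evBC_eq_rid, hte, LinearEquiv.apply_symm_apply]⟩
  · rintro ⟨t, ht, hte⟩
    rw [eq_top_iff]
    rintro w -
    refine ⟨TensorProduct.AlgebraTensorModule.rid B B' B' w • t, Submodule.smul_mem _ _ ht, ?_⟩
    apply (TensorProduct.AlgebraTensorModule.rid B B' B').injective
    rw [map_smul, map_smul, ← evBC_eq_rid, hte, smul_eq_mul, mul_one]

/-- (CS, section form) "`d ⊗ B'` is surjective and some `t ∈ ker (d ⊗ B')` has `ev t = 1`" is an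
open condition on `Spec B`, as soon as the cokernel of `d` is a finite `B`-module. -/
theorem isOpenCond_exists_section (d : E₀ →ₗ[B] E₁) [Module.Finite B (E₁ ⧸ LinearMap.range d)]
    (ev : E₀ →ₗ[B] B) :
    IsOpenCond (B := B) (fun B' _ φ => letI := φ.toAlgebra;
      Function.Surjective (d.baseChange B') ∧
        ∃ t ∈ LinearMap.ker (d.baseChange B'), evBC ev B' t = 1) :=
  (isOpenCond_kerImage_eq_top d (fun _ : Unit => ev)).congr (fun B' _ φ => by
    let _ := φ.toAlgebra
    exact and_congr Iff.rfl (kerImage_unit_eq_top_iff d ev B'))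

end Main

/-! ### The closed-fibre kit: "one field-valued point over every closed point" ⟹ global -/

section ClosedFibres

variable {B : Type u} [CommRing B]

/-- (K0) An open condition which holds at one field-valued point over every closed point of
`Spec B` holds over `B` itself. -/
theorem IsOpenCond.of_forall_isMaximal {P : Cond B} (h : IsOpenCond P)
    (hfib : ∀ m : Ideal B, m.IsMaximal → ∃ (K : Type u) (_ : Field K) (χ : B →+* K),
      RingHom.ker χ = m ∧ P K χ) : P B (RingHom.id B) := by
  obtain ⟨U, hU, hPU⟩ := h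
  rw [hPU]
  intro q
  by_contra hq
  obtain ⟨𝔞, h𝔞⟩ := (PrimeSpectrum.isClosed_iff_zeroLocus_ideal _).mp hU.isClosed_compl
  have hq' : q.comap (RingHom.id B) ∈ Uᶜ := hq
  rw [h𝔞, PrimeSpectrum.mem_zeroLocus] at hq'
  have hne : 𝔞 ≠ ⊤ := by
    rintro rfl
    exact (q.comap (RingHom.id B)).isPrime.ne_top (top_le_iff.mp (SetLike.coe_subset_coe.mp hq'))
  obtain ⟨m, hm, hle⟩ := Ideal.exists_le_maximal 𝔞 hne
  obtain ⟨K, _, χ, hχ, hP⟩ := hfib m hm
  have hmU : (fieldPoint K).comap χ ∈ U := (hPU K χ).mp hP _
  have hmem : (fieldPoint K).comap χ ∈ Uᶜ := by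
    rw [h𝔞, PrimeSpectrum.mem_zeroLocus, comap_fieldPoint_asIdeal, hχ]
    exact hle
  exact hmem hmU

/-- (K1) Nakayama at the closed points, tested on arbitrary field-valued points: a finite
module whose fibre at one field-valued point over every closed point vanishes is zero. -/
theorem subsingleton_of_forall_isMaximal (H : Type*) [AddCommGroup H] [Module B H]
    [Module.Finite B H]
    (hfib : ∀ m : Ideal B, m.IsMaximal → ∃ (K : Type u) (_ : Field K) (χ : B →+* K),
      RingHom.ker χ = m ∧ (letI := χ.toAlgebra; Subsingleton (K ⊗[B] H))) :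
    Subsingleton H := by
  rw [← Module.support_eq_empty_iff (R := B), Set.eq_empty_iff_forall_notMem]
  intro p hp
  rw [Module.support_eq_zeroLocus, PrimeSpectrum.mem_zeroLocus] at hp
  have hne : Module.annihilator B H ≠ ⊤ := by
    intro h
    rw [h] at hp
    exact p.isPrime.ne_top (top_le_iff.mp (SetLike.coe_subset_coe.mp hp))
  obtain ⟨m, hm, hle⟩ := Ideal.exists_le_maximal _ hne
  obtain ⟨K, _, χ, hχ, hsub⟩ := hfib m hm
  let _ := χ.toAlgebra
  have h1 := (subsingleton_tensor_field_iff H K).mp hsub
  apply h1
  rw [Module.support_eq_zeroLocus, PrimeSpectrum.mem_zeroLocus]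
  change (Module.annihilator B H : Set B) ⊆ RingHom.ker (algebraMap B K)
  rw [RingHom.algebraMap_toAlgebra, hχ]
  exact hle

/-- (K2) A linear map with finite cokernel which is surjective at one field-valued point over
every closed point is surjective. -/
theorem surjective_of_forall_isMaximal {M N : Type*} [AddCommGroup M] [Module B M]
    [AddCommGroup N] [Module B N] (f : M →ₗ[B] N) [Module.Finite B (N ⧸ LinearMap.range f)]
    (hfib : ∀ m : Ideal B, m.IsMaximal → ∃ (K : Type u) (_ : Field K) (χ : B →+* K),
      RingHom.ker χ = m ∧ (letI := χ.toAlgebra; Function.Surjective (f.baseChange K))) :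
    Function.Surjective f := by
  have : Subsingleton (N ⧸ LinearMap.range f) :=
    subsingleton_of_forall_isMaximal (B := B) (N ⧸ LinearMap.range f) fun m hm => by
      obtain ⟨K, i, χ, hχ, hs⟩ := hfib m hm
      refine ⟨K, i, χ, hχ, ?_⟩
      let _ := χ.toAlgebra
      exact (surjective_baseChange_iff f K).mp hs
  rw [← LinearMap.range_eq_top]
  exact Submodule.Quotient.subsingleton_iff.mp this

/-- (K3) A linear map from a finite module to a finite projective module which is bijective at
one field-valued point over every closed point is bijective (no rank hypothesis). -/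
theorem bijective_of_forall_isMaximal {M N : Type*} [AddCommGroup M] [Module B M]
    [AddCommGroup N] [Module B N] [Module.Finite B M] [Module.Finite B N]
    [Module.Projective B N] (f : M →ₗ[B] N)
    (hfib : ∀ m : Ideal B, m.IsMaximal → ∃ (K : Type u) (_ : Field K) (χ : B →+* K),
      RingHom.ker χ = m ∧ (letI := χ.toAlgebra; Function.Bijective (f.baseChange K))) :
    Function.Bijective f := by
  have hsurj : Function.Surjective f := surjective_of_forall_isMaximal f (fun m hm => by
    obtain ⟨K, i, χ, hχ, hs⟩ := hfib m hm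
    exact ⟨K, i, χ, hχ, hs.2⟩)
  refine ⟨?_, hsurj⟩
  obtain ⟨g, hg⟩ := Module.projective_lifting_property f LinearMap.id hsurj
  -- the projection of `M` onto `ker f`
  have hq : ∀ x : M, x - g (f x) ∈ LinearMap.ker f := by
    intro x
    have := LinearMap.congr_fun hg (f x)
    simp only [LinearMap.coe_comp, Function.comp_apply, LinearMap.id_coe, id_eq] at this
    rw [LinearMap.mem_ker, map_sub, this, sub_self]
  let π : M →ₗ[B] LinearMap.ker f := (LinearMap.id - g ∘ₗ f).codRestrict (LinearMap.ker f) hq
  have hπ : ∀ x : LinearMap.ker f, π x.1 = x := by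
    intro x
    apply Subtype.ext
    change x.1 - g (f x.1) = x.1
    rw [LinearMap.mem_ker.mp x.2, map_zero, sub_zero]
  have hfin : Module.Finite B (LinearMap.ker f) :=
    Module.Finite.of_surjective π (fun x => ⟨x.1, hπ x⟩)
  have hker : Subsingleton (LinearMap.ker f) := by
    refine subsingleton_of_forall_isMaximal (B := B) (LinearMap.ker f) fun m hm => ?_
    obtain ⟨K, i, χ, hχ, hs⟩ := hfib m hm
    refine ⟨K, i, χ, hχ, ?_⟩
    let _ := χ.toAlgebra
    refine ⟨fun a b => ?_⟩
    have key : ∀ z : K ⊗[B] (LinearMap.ker f), z = 0 := by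
      intro z
      have h1 : (π.baseChange K) (((LinearMap.ker f).subtype.baseChange K) z) = z := by
        rw [← LinearMap.comp_apply, ← LinearMap.baseChange_comp]
        have : π ∘ₗ (LinearMap.ker f).subtype = LinearMap.id := LinearMap.ext hπ
        rw [this, LinearMap.baseChange_id, LinearMap.id_apply]
      have h2 : (f.baseChange K) (((LinearMap.ker f).subtype.baseChange K) z) = 0 := by
        rw [← LinearMap.comp_apply, ← LinearMap.baseChange_comp]
        have : f ∘ₗ (LinearMap.ker f).subtype = 0 := LinearMap.ext fun x => x.2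
        rw [this, LinearMap.baseChange_zero, LinearMap.zero_apply]
      have h3 : ((LinearMap.ker f).subtype.baseChange K) z = 0 :=
        hs.1 (by rw [h2, map_zero])
      rw [← h1, h3, map_zero]
    rw [key a, key b]
  rw [← LinearMap.ker_eq_bot]
  exact Submodule.eq_bot_of_subsingleton

/-- (K4) An element which does not vanish at one field-valued point over every closed point is
a unit. -/
theorem isUnit_of_forall_isMaximal (b : B)
    (hfib : ∀ m : Ideal B, m.IsMaximal → ∃ (K : Type u) (_ : Field K) (χ : B →+* K),
      RingHom.ker χ = m ∧ χ b ≠ 0) : IsUnit b := by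
  by_contra hb
  obtain ⟨m, hm, hbm⟩ := exists_max_ideal_of_mem_nonunits hb
  obtain ⟨K, _, χ, hχ, hne⟩ := hfib m hm
  exact hne (by rw [← RingHom.mem_ker, hχ]; exact hbm)

/-- (K5) Global sections from the closed fibres: if the cokernel of `d` is a finite `B`-module
and at one field-valued point `χ : B → K` over every closed point `d ⊗ K` is surjective and
some `t ∈ ker (d ⊗ K)` has `ev t = 1`, then `d` is surjective and some `t ∈ ker d` has
`ev t = 1`. (For a two-chart datum: `H¹ = 0` and a rigidified generator of `H⁰` exist globally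
as soon as they exist on the closed fibres.) -/
theorem exists_section_of_forall_isMaximal {E₀ E₁ : Type*} [AddCommGroup E₀] [Module B E₀]
    [AddCommGroup E₁] [Module B E₁] (d : E₀ →ₗ[B] E₁)
    [Module.Finite B (E₁ ⧸ LinearMap.range d)] (ev : E₀ →ₗ[B] B)
    (hfib : ∀ m : Ideal B, m.IsMaximal → ∃ (K : Type u) (_ : Field K) (χ : B →+* K),
      RingHom.ker χ = m ∧ (letI := χ.toAlgebra; Function.Surjective (d.baseChange K) ∧
        ∃ t ∈ LinearMap.ker (d.baseChange K), evBC ev K t = 1)) :
    Function.Surjective d ∧ ∃ t ∈ LinearMap.ker d, ev t = 1 := by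
  have hd : Function.Surjective d := surjective_of_forall_isMaximal d (fun m hm => by
    obtain ⟨K, i, χ, hχ, hs, -⟩ := hfib m hm
    exact ⟨K, i, χ, hχ, hs⟩)
  refine ⟨hd, ?_⟩
  have hI : (LinearMap.ker d).map ev = ⊤ := by
    by_contra hne
    obtain ⟨m, hm, hle⟩ := Ideal.exists_le_maximal ((LinearMap.ker d).map ev) hne
    obtain ⟨K, _, χ, hχ, -, t, ht, hev⟩ := hfib m hm
    let _ := χ.toAlgebra
    have hex := ker_lTensor_eq_range_of_surjective K d hd
    have ht' : t ∈ LinearMap.ker (d.lTensor K) := by
      rw [LinearMap.mem_ker, ← LinearMap.baseChange_eq_ltensor]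
      exact LinearMap.mem_ker.mp ht
    rw [hex] at ht'
    obtain ⟨w, rfl⟩ := ht'
    have key : ∀ w : K ⊗[B] (LinearMap.ker d),
        evBC ev K ((LinearMap.ker d).subtype.lTensor K w) = 0 := by
      intro w
      induction w using TensorProduct.induction_on with
      | zero => simp
      | tmul c s =>
        rw [LinearMap.lTensor_tmul, evBC_tmul, Submodule.subtype_apply]
        have h1 : ev s.1 ∈ m := hle ⟨s.1, s.2, rfl⟩
        have h2 : algebraMap B K (ev s.1) = 0 := by
          rw [RingHom.algebraMap_toAlgebra, ← RingHom.mem_ker, hχ]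
          exact h1
        rw [h2, mul_zero]
      | add x y hx hy => rw [map_add, map_add, hx, hy, add_zero]
    rw [key w] at hev
    exact zero_ne_one hev
  have h1 : (1 : B) ∈ (LinearMap.ker d).map ev := by rw [hI]; trivial
  obtain ⟨t, ht, hte⟩ := h1
  exact ⟨t, ht, hte⟩

/-- (K6) The spanning condition from the closed fibres: if the cokernel of `d` and `V` are finite
`B`-modules and at one field-valued point `χ : B → K` over every closed point `d ⊗ K` is
surjective and the images of `ker (d ⊗ K)` under the `γ i ⊗ K` span `K ⊗ V`, then `d` is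
surjective and the images of `ker d` under the `γ i` span `V`. -/
theorem iSup_map_ker_eq_top_of_forall_isMaximal {E₀ E₁ V : Type*} [AddCommGroup E₀]
    [Module B E₀] [AddCommGroup E₁] [Module B E₁] [AddCommGroup V] [Module B V]
    [Module.Finite B V] (d : E₀ →ₗ[B] E₁) [Module.Finite B (E₁ ⧸ LinearMap.range d)]
    {ι : Type*} (γ : ι → (E₀ →ₗ[B] V))
    (hfib : ∀ m : Ideal B, m.IsMaximal → ∃ (K : Type u) (_ : Field K) (χ : B →+* K),
      RingHom.ker χ = m ∧ (letI := χ.toAlgebra; Function.Surjective (d.baseChange K) ∧
        kerImage d γ K = ⊤)) :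
    Function.Surjective d ∧ ⨆ i, (LinearMap.ker d).map (γ i) = ⊤ := by
  have hd : Function.Surjective d := surjective_of_forall_isMaximal d (fun m hm => by
    obtain ⟨K, i, χ, hχ, hs, -⟩ := hfib m hm
    exact ⟨K, i, χ, hχ, hs⟩)
  refine ⟨hd, ?_⟩
  set W : Submodule B V := ⨆ i, (LinearMap.ker d).map (γ i) with hWdef
  have hW : Function.Surjective W.subtype := by
    refine surjective_of_forall_isMaximal W.subtype (fun m hm => ?_)
    obtain ⟨K, i, χ, hχ, -, hk⟩ := hfib m hm
    refine ⟨K, i, χ, hχ, ?_⟩
    let _ := χ.toAlgebra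
    rw [← LinearMap.range_eq_top, eq_top_iff, ← hk]
    unfold kerImage
    refine iSup_le fun j => ?_
    rintro _ ⟨t, ht, rfl⟩
    have hex := ker_lTensor_eq_range_of_surjective K d hd
    have ht' : t ∈ LinearMap.ker (d.lTensor K) := by
      rw [LinearMap.mem_ker, ← LinearMap.baseChange_eq_ltensor]
      exact LinearMap.mem_ker.mp ht
    rw [hex] at ht'
    obtain ⟨w, rfl⟩ := ht'
    let g : LinearMap.ker d →ₗ[B] W := ((γ j) ∘ₗ (LinearMap.ker d).subtype).codRestrict W
      (fun s => le_iSup (fun i => (LinearMap.ker d).map (γ i)) j ⟨s.1, s.2, rfl⟩)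
    have hg : W.subtype ∘ₗ g = (γ j) ∘ₗ (LinearMap.ker d).subtype := LinearMap.ext fun s => rfl
    refine ⟨g.baseChange K w, ?_⟩
    rw [← LinearMap.baseChange_eq_ltensor, ← LinearMap.comp_apply, ← LinearMap.baseChange_comp,
      hg, LinearMap.baseChange_comp, LinearMap.comp_apply]
  have := LinearMap.range_eq_top.mpr hW
  rwa [Submodule.range_subtype] at this

end ClosedFibres

end Fermat.Agent.S25.helper4087
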