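import Fermat.Agent.S25.helper4193_HomGlue

/-!
# Hom is a sheaf, `restrictFunctor` form (S25 generic brick P4, wrappers)

For `V : X.Opens` and `φ : M.restrict V.ι ⟶ N.restrict V.ι` we define its sectionwise view
`appOn φ W hW : Γ(M, W) →+ Γ(N, W)` for opens `W ≤ V` of `X`, and use it to restate the gluing
theorems of `helper4193_HomGlue` for families of morphisms between restrictions.
-/

set_option autoImplicit false

universe u

open CategoryTheory TopologicalSpace Opposite AlgebraicGeometry

namespace Fermat.Agent.S25.helper4193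

variable {X : Scheme.{u}}

section AppOn

variable {M N K : X.Modules} {V : X.Opens}

lemma image_preimage_eq_of_le {V W : X.Opens} (hW : W ≤ V) : V.ι ''ᵁ V.ι ⁻¹ᵁ W = W := by
  rw [Scheme.Hom.image_preimage_eq_opensRange_inf, Scheme.Opens.opensRange_ι]
  exact inf_eq_right.mpr hW

/-- The sectionwise view of a morphism between restrictions to an open `V`: the induced map on
sections over an open `W ≤ V` of the ambient scheme. -/
noncomputable def appOn (φ : M.restrict V.ι ⟶ N.restrict V.ι) (W : X.Opens) (hW : W ≤ V) :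
    Γ(M, W) →+ Γ(N, W) :=
  (res N (image_preimage_eq_of_le hW).ge).comp
    ((show Γ(M, V.ι ''ᵁ V.ι ⁻¹ᵁ W) →+ Γ(N, V.ι ''ᵁ V.ι ⁻¹ᵁ W) from
      (φ.app (V.ι ⁻¹ᵁ W)).hom).comp (res M (image_preimage_eq_of_le hW).le))

end AppOn

section AppOnLemmas

variable {M N K : X.Modules} {V : X.Opens}

/-- Restriction of sections of `M.restrict V.ι` is restriction of sections of `M`. -/
lemma res_restrict (M : X.Modules) {V : X.Opens} {P P' : V.toScheme.Opens} (h : P' ≤ P)
    (s : Γ(M.restrict V.ι, P)) :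
    res (M.restrict V.ι) h s = res M (V.ι.image_mono h) (show Γ(M, V.ι ''ᵁ P) from s) := rfl

lemma appOn_apply (φ : M.restrict V.ι ⟶ N.restrict V.ι) (W : X.Opens) (hW : W ≤ V)
    (s : Γ(M, W)) :
    appOn φ W hW s = res N (image_preimage_eq_of_le hW).ge
      (show Γ(N, V.ι ''ᵁ V.ι ⁻¹ᵁ W) from
        φ.app (V.ι ⁻¹ᵁ W) (show Γ(M.restrict V.ι, V.ι ⁻¹ᵁ W) from
          res M (image_preimage_eq_of_le hW).le s)) := rfl

lemma appOn_res (φ : M.restrict V.ι ⟶ N.restrict V.ι) {W W' : X.Opens} (hW : W ≤ V)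
    (hW' : W' ≤ V) (h : W' ≤ W) (s : Γ(M, W)) :
    res N h (appOn φ W hW s) = appOn φ W' hW' (res M h s) := by
  have hP : V.ι ⁻¹ᵁ W' ≤ V.ι ⁻¹ᵁ W := fun _ hx => h hx
  have key := hom_app_res φ hP (show Γ(M.restrict V.ι, V.ι ⁻¹ᵁ W) from
    res M (image_preimage_eq_of_le hW).le s)
  rw [res_restrict, res_restrict] at key
  rw [appOn_apply, appOn_apply, res_res, res_res]
  have key2 := congrArg (res N (image_preimage_eq_of_le hW').ge) key
  rw [res_res] at key2
  rw [res_res] at key2
  exact key2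

end AppOnLemmas

section AppOnSmul

variable {M N K : X.Modules} {V : X.Opens}

/-- The module structure on sections of `M.restrict V.ι`, in terms of that of `M`. -/
lemma smul_restrict (M : X.Modules) {V : X.Opens} (P : V.toScheme.Opens)
    (a : Γ(V.toScheme, P)) (t : Γ(M.restrict V.ι, P)) :
    a • t = (show Γ(M.restrict V.ι, P) from
      ((V.ι.appIso P).inv a) • (show Γ(M, V.ι ''ᵁ P) from t)) := rfl

lemma app_restrict_smul (φ : M.restrict V.ι ⟶ N.restrict V.ι) (P : V.toScheme.Opens)
    (r : Γ(X, V.ι ''ᵁ P)) (t : Γ(M, V.ι ''ᵁ P)) :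
    (show Γ(N, V.ι ''ᵁ P) from φ.app P (show Γ(M.restrict V.ι, P) from r • t)) =
      r • (show Γ(N, V.ι ''ᵁ P) from φ.app P (show Γ(M.restrict V.ι, P) from t)) := by
  have h := φ.app_smul ((V.ι.appIso P).hom r) (show Γ(M.restrict V.ι, P) from t)
  rw [smul_restrict, smul_restrict] at h
  have e : (V.ι.appIso P).inv ((V.ι.appIso P).hom r) = r := by
    rw [← CommRingCat.comp_apply, Iso.hom_inv_id]
    rfl
  rw [e] at h
  exact h

lemma appOn_smul (φ : M.restrict V.ι ⟶ N.restrict V.ι) (W : X.Opens) (hW : W ≤ V)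
    (r : Γ(X, W)) (s : Γ(M, W)) :
    appOn φ W hW (r • s) = r • appOn φ W hW s := by
  rw [appOn_apply, appOn_apply, res_smul]
  have h := app_restrict_smul φ (V.ι ⁻¹ᵁ W)
    (X.presheaf.map (homOfLE (image_preimage_eq_of_le hW).le).op r)
    (res M (image_preimage_eq_of_le hW).le s)
  have h2 := congrArg (res N (image_preimage_eq_of_le hW).ge) h
  rw [res_smul] at h2
  rw [h2]
  congr 1
  rw [← CommRingCat.comp_apply, ← X.presheaf.map_comp]
  have : (homOfLE (image_preimage_eq_of_le hW).le).op ≫ (homOfLE (image_preimage_eq_of_le hW).ge).op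
      = 𝟙 (op W) := rfl
  rw [this, X.presheaf.map_id]
  rfl

end AppOnSmul

section AppOnFunctorial

variable {M N K : X.Modules} {V : X.Opens}

/-- `appOn` of the restriction of a global morphism is the global morphism on sections. -/
lemma appOn_restrictFunctor_map (f : M ⟶ N) (W : X.Opens) (hW : W ≤ V) :
    appOn ((Scheme.Modules.restrictFunctor V.ι).map f) W hW = (f.app W).hom := by
  ext s
  rw [appOn_apply]
  have h := hom_app_res f (image_preimage_eq_of_le hW).le s
  have h2 := congrArg (res N (image_preimage_eq_of_le hW).ge) h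
  rw [res_res, res_self] at h2
  exact h2.symm

/-- `appOn` on an open of the form `V.ι ''ᵁ P` is the map on sections over `P`. -/
lemma appOn_image (φ : M.restrict V.ι ⟶ N.restrict V.ι) (P : V.toScheme.Opens)
    (t : Γ(M.restrict V.ι, P)) :
    appOn φ (V.ι ''ᵁ P) (V.ι_image_le P) (show Γ(M, V.ι ''ᵁ P) from t) =
      (show Γ(N, V.ι ''ᵁ P) from φ.app P t) := by
  have hP : V.ι ⁻¹ᵁ (V.ι ''ᵁ P) ≤ P := (V.ι.preimage_image_eq P).le
  have key := hom_app_res φ hP t
  rw [res_restrict, res_restrict] at key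
  rw [appOn_apply]
  have key2 := congrArg (res N (image_preimage_eq_of_le (V.ι_image_le P)).ge) key
  rw [res_res, res_self] at key2
  exact key2.symm

/-- A morphism between restrictions is determined by its sectionwise view. -/
lemma restrict_hom_ext (φ φ' : M.restrict V.ι ⟶ N.restrict V.ι)
    (h : ∀ (W : X.Opens) (hW : W ≤ V), appOn φ W hW = appOn φ' W hW) : φ = φ' := by
  ext P t
  have h1 := appOn_image φ P t
  have h2 := appOn_image φ' P t
  rw [h _ (V.ι_image_le P)] at h1
  exact h1.symm.trans h2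

@[simp] lemma appOn_id (W : X.Opens) (hW : W ≤ V) :
    appOn (𝟙 (M.restrict V.ι)) W hW = AddMonoidHom.id _ := by
  ext s
  rw [appOn_apply]
  change res M _ (res M _ s) = s
  rw [res_res, res_self]

lemma appOn_comp (φ : M.restrict V.ι ⟶ N.restrict V.ι) (φ' : N.restrict V.ι ⟶ K.restrict V.ι)
    (W : X.Opens) (hW : W ≤ V) :
    appOn (φ ≫ φ') W hW = (appOn φ' W hW).comp (appOn φ W hW) := by
  ext s
  rw [AddMonoidHom.comp_apply, appOn_apply, appOn_apply, appOn_apply, res_res, res_self]
  rfl

lemma appOn_comp_apply (φ : M.restrict V.ι ⟶ N.restrict V.ι)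
    (φ' : N.restrict V.ι ⟶ K.restrict V.ι) (W : X.Opens) (hW : W ≤ V) (s : Γ(M, W)) :
    appOn (φ ≫ φ') W hW s = appOn φ' W hW (appOn φ W hW s) := by
  rw [appOn_comp]
  rfl

lemma appOn_iso_hom_inv (e : M.restrict V.ι ≅ N.restrict V.ι) (W : X.Opens) (hW : W ≤ V)
    (s : Γ(M, W)) : appOn e.inv W hW (appOn e.hom W hW s) = s := by
  rw [← appOn_comp_apply, e.hom_inv_id, appOn_id]
  rfl

lemma appOn_iso_inv_hom (e : M.restrict V.ι ≅ N.restrict V.ι) (W : X.Opens) (hW : W ≤ V)
    (t : Γ(N, W)) : appOn e.hom W hW (appOn e.inv W hW t) = t := by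
  rw [← appOn_comp_apply, e.inv_hom_id, appOn_id]
  rfl

lemma appOn_bijective_of_isIso (φ : M.restrict V.ι ⟶ N.restrict V.ι) [IsIso φ] (W : X.Opens)
    (hW : W ≤ V) : Function.Bijective (appOn φ W hW) :=
  Function.bijective_iff_has_inverse.mpr ⟨appOn (inv φ) W hW,
    fun s => appOn_iso_hom_inv (asIso φ) W hW s, fun t => appOn_iso_inv_hom (asIso φ) W hW t⟩

end AppOnFunctorial

section GlueRestrict

variable {ι : Type*} {M N : X.Modules} {U : ι → X.Opens}

/-- The local morphism defined by a family of morphisms between the restrictions to the members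
of a family of opens, which agree sectionwise on overlaps. -/
noncomputable def LocalHom.ofRestrict (φ : ∀ i, M.restrict (U i).ι ⟶ N.restrict (U i).ι)
    (compat : ∀ (i j : ι) (W : X.Opens) (hi : W ≤ U i) (hj : W ≤ U j),
      appOn (φ i) W hi = appOn (φ j) W hj) : LocalHom M N U where
  app W hW := appOn (φ hW.choose) W hW.choose_spec
  app_res W W' hW hW' h s := by
    rw [compat hW'.choose hW.choose W' hW'.choose_spec (h.trans hW.choose_spec)]
    exact appOn_res (φ hW.choose) hW.choose_spec _ h s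
  app_smul W hW r s := appOn_smul _ W _ r s

lemma LocalHom.ofRestrict_app (φ : ∀ i, M.restrict (U i).ι ⟶ N.restrict (U i).ι)
    (compat : ∀ (i j : ι) (W : X.Opens) (hi : W ≤ U i) (hj : W ≤ U j),
      appOn (φ i) W hi = appOn (φ j) W hj) (i : ι) (W : X.Opens) (hW : W ≤ U i) :
    (LocalHom.ofRestrict φ compat).app W ⟨i, hW⟩ = appOn (φ i) W hW :=
  compat _ i W (Exists.choose_spec (⟨i, hW⟩ : Small U W)) hW

/-- **(H4a)** Morphisms between the restrictions to the members of an open cover which agree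
sectionwise on overlaps glue uniquely to a global morphism. -/
theorem existsUnique_hom_of_restrict (hU : ⨆ i, U i = ⊤)
    (φ : ∀ i, M.restrict (U i).ι ⟶ N.restrict (U i).ι)
    (compat : ∀ (i j : ι) (W : X.Opens) (hi : W ≤ U i) (hj : W ≤ U j),
      appOn (φ i) W hi = appOn (φ j) W hj) :
    ∃! f : M ⟶ N, ∀ i, (Scheme.Modules.restrictFunctor (U i).ι).map f = φ i := by
  refine ⟨glueHom (LocalHom.ofRestrict φ compat) hU, fun i => ?_, fun g hg => ?_⟩
  · refine restrict_hom_ext _ _ fun W hW => ?_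
    rw [appOn_restrictFunctor_map, glueHom_app _ hU W ⟨i, hW⟩,
      LocalHom.ofRestrict_app φ compat i W hW]
    rfl
  · refine hom_ext_of_cover hU _ _ fun W hW => ?_
    obtain ⟨i, hi⟩ := hW
    ext s
    have h1 := appOn_restrictFunctor_map g W hi
    rw [hg i] at h1
    have h2 : (glueHom (LocalHom.ofRestrict φ compat) hU).app W s = appOn (φ i) W hi s := by
      rw [glueHom_app _ hU W ⟨i, hi⟩, LocalHom.ofRestrict_app φ compat i W hi]
      rfl
    rw [h2, h1]

/-- The glued morphism of `existsUnique_hom_of_restrict`. -/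
noncomputable def glueRestrictHom (hU : ⨆ i, U i = ⊤)
    (φ : ∀ i, M.restrict (U i).ι ⟶ N.restrict (U i).ι)
    (compat : ∀ (i j : ι) (W : X.Opens) (hi : W ≤ U i) (hj : W ≤ U j),
      appOn (φ i) W hi = appOn (φ j) W hj) : M ⟶ N :=
  glueHom (LocalHom.ofRestrict φ compat) hU

lemma restrictFunctor_map_glueRestrictHom (hU : ⨆ i, U i = ⊤)
    (φ : ∀ i, M.restrict (U i).ι ⟶ N.restrict (U i).ι)
    (compat : ∀ (i j : ι) (W : X.Opens) (hi : W ≤ U i) (hj : W ≤ U j),
      appOn (φ i) W hi = appOn (φ j) W hj) (i : ι) :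
    (Scheme.Modules.restrictFunctor (U i).ι).map (glueRestrictHom hU φ compat) = φ i := by
  refine restrict_hom_ext _ _ fun W hW => ?_
  rw [appOn_restrictFunctor_map, glueRestrictHom, glueHom_app _ hU W ⟨i, hW⟩,
    LocalHom.ofRestrict_app φ compat i W hW]
  rfl

/-- **(H2), restrict form.** -/
theorem hom_ext_of_restrict (hU : ⨆ i, U i = ⊤) (f g : M ⟶ N)
    (h : ∀ i, (Scheme.Modules.restrictFunctor (U i).ι).map f =
      (Scheme.Modules.restrictFunctor (U i).ι).map g) : f = g := by
  refine hom_ext_of_cover hU _ _ fun W hW => ?_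
  obtain ⟨i, hi⟩ := hW
  have h1 := appOn_restrictFunctor_map (V := U i) f W hi
  have h2 := appOn_restrictFunctor_map (V := U i) g W hi
  rw [h i, h2] at h1
  ext s
  exact (DFunLike.congr_fun h1 s).symm

/-- **(H3), restrict form**: a morphism whose restrictions to the members of an open cover are
isomorphisms is an isomorphism. -/
theorem isIso_of_restrict (hU : ⨆ i, U i = ⊤) (f : M ⟶ N)
    (h : ∀ i, IsIso ((Scheme.Modules.restrictFunctor (U i).ι).map f)) : IsIso f := by
  refine isIso_of_cover hU f fun W hW => ?_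
  obtain ⟨i, hi⟩ := hW
  have := h i
  have hb := appOn_bijective_of_isIso ((Scheme.Modules.restrictFunctor (U i).ι).map f) W hi
  rw [appOn_restrictFunctor_map] at hb
  exact hb

/-- **(H3), gluing form, restrict version**: isomorphisms between the restrictions to the
members of an open cover which agree sectionwise on overlaps glue to a global isomorphism. -/
noncomputable def glueRestrictIso (hU : ⨆ i, U i = ⊤)
    (e : ∀ i, M.restrict (U i).ι ≅ N.restrict (U i).ι)
    (compat : ∀ (i j : ι) (W : X.Opens) (hi : W ≤ U i) (hj : W ≤ U j),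
      appOn (e i).hom W hi = appOn (e j).hom W hj) : M ≅ N :=
  haveI : IsIso (glueRestrictHom hU (fun i => (e i).hom) compat) :=
    isIso_of_restrict hU _ fun i => by
      rw [restrictFunctor_map_glueRestrictHom]
      infer_instance
  asIso (glueRestrictHom hU (fun i => (e i).hom) compat)

lemma restrictFunctor_map_glueRestrictIso_hom (hU : ⨆ i, U i = ⊤)
    (e : ∀ i, M.restrict (U i).ι ≅ N.restrict (U i).ι)
    (compat : ∀ (i j : ι) (W : X.Opens) (hi : W ≤ U i) (hj : W ≤ U j),
      appOn (e i).hom W hi = appOn (e j).hom W hj) (i : ι) :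
    (Scheme.Modules.restrictFunctor (U i).ι).map (glueRestrictIso hU e compat).hom = (e i).hom :=
  restrictFunctor_map_glueRestrictHom hU _ compat i

end GlueRestrict

section Converse

variable {M N : X.Modules} {V : X.Opens}

/-- Sectionwise data on the opens `W ≤ V` of `X` define a morphism between the restrictions
to `V`. -/
noncomputable def restrictHomOfLocal (ψ : LocalHom M N (fun _ : Unit => V)) :
    M.restrict V.ι ⟶ N.restrict V.ι :=
  SheafOfModules.Hom.mk (PresheafOfModules.homMk
    (M₁ := (M.restrict V.ι).val) (M₂ := (N.restrict V.ι).val)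
    { app := fun P => AddCommGrpCat.ofHom
        (ψ.app (V.ι ''ᵁ P.unop) ⟨(), V.ι_image_le P.unop⟩)
      naturality := fun P P' f => by
        ext s
        exact (ψ.app_res _ _ _ _ (V.ι.image_mono (leOfHom f.unop)) s).symm }
    (fun P a t => ψ.app_smul _ _ ((V.ι.appIso P.unop).inv a) t))

lemma restrictHomOfLocal_app_apply (ψ : LocalHom M N (fun _ : Unit => V))
    (P : V.toScheme.Opens) (t : Γ(M.restrict V.ι, P)) :
    (restrictHomOfLocal ψ).app P t =
      ψ.app (V.ι ''ᵁ P) ⟨(), V.ι_image_le P⟩ (show Γ(M, V.ι ''ᵁ P) from t) := rfl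

lemma appOn_restrictHomOfLocal (ψ : LocalHom M N (fun _ : Unit => V)) (W : X.Opens)
    (hW : W ≤ V) : appOn (restrictHomOfLocal ψ) W hW = ψ.app W ⟨(), hW⟩ := by
  ext s
  rw [appOn_apply, restrictHomOfLocal_app_apply]
  have h := ψ.app_res W (V.ι ''ᵁ V.ι ⁻¹ᵁ W) ⟨(), hW⟩ ⟨(), V.ι_image_le _⟩
    (image_preimage_eq_of_le hW).le s
  have h2 := congrArg (res N (image_preimage_eq_of_le hW).ge) h
  rw [res_res, res_self] at h2
  exact h2.symm

/-- The sectionwise view of a morphism between restrictions, as a `LocalHom`. -/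
noncomputable def LocalHom.ofRestrictOpen (φ : M.restrict V.ι ⟶ N.restrict V.ι) :
    LocalHom M N (fun _ : Unit => V) :=
  LocalHom.ofRestrict (U := fun _ : Unit => V) (fun _ => φ) (fun _ _ _ _ _ => rfl)

lemma LocalHom.ofRestrictOpen_app (φ : M.restrict V.ι ⟶ N.restrict V.ι) (W : X.Opens)
    (hW : W ≤ V) : (LocalHom.ofRestrictOpen φ).app W ⟨(), hW⟩ = appOn φ W hW := rfl

lemma restrictHomOfLocal_ofRestrictOpen (φ : M.restrict V.ι ⟶ N.restrict V.ι) :
    restrictHomOfLocal (LocalHom.ofRestrictOpen φ) = φ :=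
  restrict_hom_ext _ _ fun W hW => by
    rw [appOn_restrictHomOfLocal, LocalHom.ofRestrictOpen_app]

/-- Sectionwise *bijective* data on the opens `W ≤ V` define an isomorphism between the
restrictions to `V`. -/
noncomputable def restrictIsoOfLocal (ψ : LocalHom M N (fun _ : Unit => V))
    (hψ : ∀ (W : X.Opens) (hW : Small (fun _ : Unit => V) W), Function.Bijective (ψ.app W hW)) :
    M.restrict V.ι ≅ N.restrict V.ι where
  hom := restrictHomOfLocal ψ
  inv := restrictHomOfLocal (ψ.inv hψ)
  hom_inv_id := restrict_hom_ext _ _ fun W hW => by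
    ext s
    rw [appOn_comp_apply, appOn_restrictHomOfLocal, appOn_restrictHomOfLocal, appOn_id]
    exact ψ.inv_app_app hψ W ⟨(), hW⟩ s
  inv_hom_id := restrict_hom_ext _ _ fun W hW => by
    ext t
    rw [appOn_comp_apply, appOn_restrictHomOfLocal, appOn_restrictHomOfLocal, appOn_id]
    exact ψ.app_inv_app hψ W ⟨(), hW⟩ t

end Converse

end Fermat.Agent.S25.helper4193
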