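import Fermat.Agent.S25.helper1705_Spec2

/-!
# S25, leaf L0-CUTLOCAL (helper4454): the cut `algEquivZeroCut` is Zariski-local on the base

`stmt_CutLocal : helper1705.Stmt_CutLocal`.

In fact the fibre condition only depends on the geometric point: for ANY morphism
`ψ : T' ⟶ T` over the base and any point `s' : Spec K ⟶ T'`, the fibre of `M.pullbackAlong ψ`
at `s'` and the fibre of `M` at `s' ≫ ψ` are canonically isomorphic (`fibreIso`), compatibly with
the line bundles; hence `IsAlgEquivZero` of one is equivalent to `IsAlgEquivZero` of the other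
(`isAlgEquivZero_fibre_pullbackAlong_iff`). Locality follows because every point of a field
factors through a member of an open cover.
-/

set_option autoImplicit false
set_option linter.unusedSimpArgs false

universe u

open CategoryTheory CategoryTheory.Limits AlgebraicGeometry AlgebraicGeometry.RelPicard
  NeronModelInfra GoodReductionJacobian

namespace Fermat.Agent.S25.helper4454

variable {R : Type u} [CommRing R] {C : Scheme.{u}} {c : C ⟶ Spec (CommRingCat.of R)}
  {ε : SchemeHomOver (𝟙 (Spec (CommRingCat.of R))) c}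

section Fibre

variable {T T' : Scheme.{u}} {t : T ⟶ Spec (CommRingCat.of R)}
  {t' : T' ⟶ Spec (CommRingCat.of R)} (ψ : SchemeHomOver t' t) {K : Type u} [Field K]
  (s' : Spec (CommRingCat.of K) ⟶ T')

/-- The comparison map from the fibre of `C ×_R T'` at `s'` to the fibre of `C ×_R T` at
`s' ≫ ψ`. -/
noncomputable def fibreMap :
    pullback (pullback.snd c t') s' ⟶ pullback (pullback.snd c t) (s' ≫ ψ.1) :=
  pullback.map _ _ _ _ (baseChangeSnd c ψ) (𝟙 _) ψ.1
    (by simp only [baseChangeSnd, pullback.lift_snd]) (by simp)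

/-- The inverse of `fibreMap`. -/
noncomputable def fibreMapInv :
    pullback (pullback.snd c t) (s' ≫ ψ.1) ⟶ pullback (pullback.snd c t') s' :=
  pullback.lift
    (pullback.lift (pullback.fst _ _ ≫ pullback.fst c t) (pullback.snd _ _ ≫ s') (by
      rw [Category.assoc, pullback.condition, ← Category.assoc, pullback.condition,
        Category.assoc, Category.assoc, Category.assoc, ψ.2]))
    (pullback.snd _ _) (by simp only [pullback.lift_snd])

theorem fibreMap_fst :
    fibreMap (c := c) ψ s' ≫ pullback.fst (pullback.snd c t) (s' ≫ ψ.1) =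
      pullback.fst (pullback.snd c t') s' ≫ baseChangeSnd c ψ := by
  simp only [fibreMap, pullback.lift_fst]

theorem fibreMap_snd :
    fibreMap (c := c) ψ s' ≫ pullback.snd (pullback.snd c t) (s' ≫ ψ.1) =
      pullback.snd (pullback.snd c t') s' := by
  simp only [fibreMap, pullback.lift_snd, Category.comp_id]

/-- The two fibres are canonically isomorphic. -/
noncomputable def fibreIso :
    pullback (pullback.snd c t') s' ≅ pullback (pullback.snd c t) (s' ≫ ψ.1) where
  hom := fibreMap ψ s'
  inv := fibreMapInv ψ s'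
  hom_inv_id := by
    apply pullback.hom_ext
    · apply pullback.hom_ext
      · simp only [fibreMap, fibreMapInv, baseChangeSnd, Category.assoc, pullback.lift_fst,
          pullback.lift_snd, pullback.lift_fst_assoc, pullback.lift_snd_assoc, Category.comp_id,
          Category.id_comp]
      · simp only [fibreMap, fibreMapInv, baseChangeSnd, Category.assoc, pullback.lift_fst,
          pullback.lift_snd, pullback.lift_fst_assoc, pullback.lift_snd_assoc, Category.comp_id,
          Category.id_comp, pullback.condition]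
    · simp only [fibreMap, fibreMapInv, Category.assoc, pullback.lift_fst,
        pullback.lift_snd, pullback.lift_fst_assoc, pullback.lift_snd_assoc, Category.comp_id,
        Category.id_comp]
  inv_hom_id := by
    apply pullback.hom_ext
    · apply pullback.hom_ext
      · simp only [fibreMap, fibreMapInv, baseChangeSnd, Category.assoc, pullback.lift_fst,
          pullback.lift_snd, pullback.lift_fst_assoc, pullback.lift_snd_assoc, Category.comp_id,
          Category.id_comp]
      · simp only [fibreMap, fibreMapInv, baseChangeSnd, Category.assoc, pullback.lift_fst,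
          pullback.lift_snd, pullback.lift_fst_assoc, pullback.lift_snd_assoc, Category.comp_id,
          Category.id_comp, pullback.condition]
    · simp only [fibreMap, fibreMapInv, Category.assoc, pullback.lift_fst,
        pullback.lift_snd, pullback.lift_fst_assoc, pullback.lift_snd_assoc, Category.comp_id,
        Category.id_comp]

end Fibre

section Main

variable {T T' : Scheme.{u}} {t : T ⟶ Spec (CommRingCat.of R)}
  {t' : T' ⟶ Spec (CommRingCat.of R)}

/-- Descent of the fibre condition along ANY base change `ψ : T' ⟶ T`: if the fibre of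
`M.pullbackAlong ψ` at `s'` is algebraically equivalent to zero, so is the fibre of `M` at
`s' ≫ ψ`. (The converse is the frozen `FibrewiseAlgEquivZero.pullback`.) -/
theorem isAlgEquivZero_fibre_of_pullbackAlong (ψ : SchemeHomOver t' t)
    (M : RigidifiedLineBundle c ε t) {K : Type u} [Field K] (s' : Spec (CommRingCat.of K) ⟶ T')
    (h : IsAlgEquivZero (fibreAt c t' s')
      ((Scheme.Modules.pullback (pullback.fst (pullback.snd c t') s')).obj
        (M.pullbackAlong ψ).L)) :
    IsAlgEquivZero (fibreAt c t (s' ≫ ψ.1))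
      ((Scheme.Modules.pullback (pullback.fst (pullback.snd c t) (s' ≫ ψ.1))).obj M.L) := by
  have he : (fibreIso (c := c) ψ s').inv ≫ fibreAt c t' s' = fibreAt c t (s' ≫ ψ.1) := by
    rw [Iso.inv_comp_eq]
    exact (fibreMap_snd ψ s').symm
  have hfst : (fibreIso (c := c) ψ s').inv ≫ pullback.fst (pullback.snd c t') s' ≫
      baseChangeSnd c ψ = pullback.fst (pullback.snd c t) (s' ≫ ψ.1) := by
    rw [Iso.inv_comp_eq]
    exact (fibreMap_fst ψ s').symm
  refine IsAlgEquivZero.of_iso ?_ (h.pullback (fibreIso (c := c) ψ s').inv he)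
  exact (Scheme.Modules.pullback (fibreIso (c := c) ψ s').inv).mapIso
      ((Scheme.Modules.pullbackComp _ _).app M.L) ≪≫
    (Scheme.Modules.pullbackComp _ _).app M.L ≪≫
    (Scheme.Modules.pullbackCongr hfst).app M.L

/-- The fibre condition at `s'` for `M.pullbackAlong ψ` is equivalent to the fibre condition at
`s' ≫ ψ` for `M`. -/
theorem isAlgEquivZero_fibre_pullbackAlong_iff (ψ : SchemeHomOver t' t)
    (M : RigidifiedLineBundle c ε t) {K : Type u} [Field K] (s' : Spec (CommRingCat.of K) ⟶ T') :
    IsAlgEquivZero (fibreAt c t' s')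
        ((Scheme.Modules.pullback (pullback.fst (pullback.snd c t') s')).obj
          (M.pullbackAlong ψ).L) ↔
      IsAlgEquivZero (fibreAt c t (s' ≫ ψ.1))
        ((Scheme.Modules.pullback (pullback.fst (pullback.snd c t) (s' ≫ ψ.1))).obj M.L) := by
  refine ⟨isAlgEquivZero_fibre_of_pullbackAlong ψ M s', fun h => ?_⟩
  have he : fibreMap (c := c) ψ s' ≫ fibreAt c t (s' ≫ ψ.1) = fibreAt c t' s' :=
    fibreMap_snd ψ s'
  refine IsAlgEquivZero.of_iso ?_ (h.pullback (fibreMap (c := c) ψ s') he)
  exact (Scheme.Modules.pullbackComp _ _).app M.L ≪≫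
    (Scheme.Modules.pullbackCongr (fibreMap_fst ψ s')).app M.L ≪≫
    ((Scheme.Modules.pullbackComp _ _).app M.L).symm

/-- A jointly surjective family of morphisms (on geometric points) detects the cut:
if every geometric point of `T` lifts to some `T' i` and all the pullbacks of `M` are fibrewise
algebraically equivalent to zero, so is `M`. -/
theorem fibrewiseAlgEquivZero_of_jointly_surjective {ι : Type*} {X : ι → Scheme.{u}}
    (f : ∀ i, X i ⟶ T) (M : RigidifiedLineBundle c ε t)
    (hsurj : ∀ (K : Type u) [Field K] [IsAlgClosed K] (s : Spec (CommRingCat.of K) ⟶ T),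
      ∃ (i : ι) (s' : Spec (CommRingCat.of K) ⟶ X i), s' ≫ f i = s)
    (h : ∀ i, FibrewiseAlgEquivZero
      (M.pullbackAlong (⟨f i, rfl⟩ : SchemeHomOver (f i ≫ t) t))) :
    FibrewiseAlgEquivZero M := by
  intro K _ _ s
  obtain ⟨i, s', rfl⟩ := hsurj K s
  exact isAlgEquivZero_fibre_of_pullbackAlong (⟨f i, rfl⟩ : SchemeHomOver (f i ≫ t) t) M s'
    (h i K s')

/-- (F1 of the LG interface.) Descent of the cut along ONE morphism `ψ : T' ⟶ T` over the base
through which every geometric point of `T` lifts (e.g. a nilpotent thickening, a surjective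
smooth/flat morphism, a surjection from a parameter space). -/
theorem fibrewiseAlgEquivZero_of_pullbackAlong (ψ : SchemeHomOver t' t)
    (M : RigidifiedLineBundle c ε t)
    (hsurj : ∀ (K : Type u) [Field K] [IsAlgClosed K] (s : Spec (CommRingCat.of K) ⟶ T),
      ∃ s' : Spec (CommRingCat.of K) ⟶ T', s' ≫ ψ.1 = s)
    (h : FibrewiseAlgEquivZero (M.pullbackAlong ψ)) : FibrewiseAlgEquivZero M := by
  intro K _ _ s
  obtain ⟨s', rfl⟩ := hsurj K s
  exact isAlgEquivZero_fibre_of_pullbackAlong ψ M s' (h K s')

/-- Under the lifting hypothesis, membership in the cut can be tested after pullback. -/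
theorem fibrewiseAlgEquivZero_pullbackAlong_iff (ψ : SchemeHomOver t' t)
    (M : RigidifiedLineBundle c ε t)
    (hsurj : ∀ (K : Type u) [Field K] [IsAlgClosed K] (s : Spec (CommRingCat.of K) ⟶ T),
      ∃ s' : Spec (CommRingCat.of K) ⟶ T', s' ≫ ψ.1 = s) :
    FibrewiseAlgEquivZero (M.pullbackAlong ψ) ↔ FibrewiseAlgEquivZero M :=
  ⟨fibrewiseAlgEquivZero_of_pullbackAlong ψ M hsurj, fun h => h.pullback ψ⟩

/-- Every point `Spec K ⟶ T` (`K` a field) factors through a member of an open cover. -/
theorem exists_lift_of_openCover {T : Scheme.{u}} (𝒰 : Scheme.OpenCover.{u} T) (K : Type u)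
    [Field K] (s : Spec (CommRingCat.of K) ⟶ T) :
    ∃ (i : 𝒰.I₀) (s' : Spec (CommRingCat.of K) ⟶ 𝒰.X i), s' ≫ 𝒰.f i = s := by
  have : Subsingleton (Spec (CommRingCat.of K)) :=
    inferInstanceAs (Subsingleton (PrimeSpectrum K))
  have : Nonempty (Spec (CommRingCat.of K)) :=
    inferInstanceAs (Nonempty (PrimeSpectrum K))
  let p : Spec (CommRingCat.of K) := Classical.arbitrary _
  obtain ⟨i, y, hy⟩ := 𝒰.exists_eq (s.base p)
  have hrange : Set.range s ⊆ Set.range (𝒰.f i) := by
    rintro _ ⟨q, rfl⟩
    exact ⟨y, by rw [hy, Subsingleton.elim q p]⟩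
  exact ⟨i, IsOpenImmersion.lift (𝒰.f i) s hrange, IsOpenImmersion.lift_fac _ _ _⟩

end Main

/-- **Leaf L0-CUTLOCAL.** Fibrewise algebraic equivalence to zero is Zariski-local on the base. -/
theorem stmt_CutLocal : helper1705.Stmt_CutLocal.{u} := by
  intro R _ C c ε T t M 𝒰 h
  exact fibrewiseAlgEquivZero_of_jointly_surjective (fun i => 𝒰.f i) M
    (fun K _ _ s => exists_lift_of_openCover 𝒰 K s) h

end Fermat.Agent.S25.helper4454
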