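import Mathlib

/-!
# S25, layer A: the module of differentials of a chart of the curve is invertible
(helper4512, backup of leaf LA-OMEGA)

Mathlib-only, statement-agnostic.

* `rankAtStalk_dual` : the dual of a finite projective module has the same local ranks.
* `invertible_of_rankAtStalk_eq_one` : a finite projective module of rank one at every prime is
  `Module.Invertible` (Mathlib only has the converse direction).
* `invertible_kaehler_of_locally` : if `k → R` is locally standard smooth of relative dimension
  one, then `Ω[R⁄k]` is an invertible `R`-module.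
* `locally_isStandardSmooth_of_openImmersion`, `invertible_kaehler_of_openImmersion` : the scheme
  form, in the shape of the fields `j₀, fac₀` of a two-chart realization of a curve.
-/

set_option autoImplicit false

universe u

open scoped TensorProduct
open CategoryTheory AlgebraicGeometry

namespace Fermat.Agent.S25.helper4512

section Algebra

variable {R : Type*} [CommRing R] {M : Type*} [AddCommGroup M] [Module R M]

/-- The dual of a finite projective module has the same rank at every prime. -/
theorem rankAtStalk_dual [Module.Finite R M] [Module.Projective R M] (p : PrimeSpectrum R) :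
    Module.rankAtStalk (Module.Dual R M) p = Module.rankAtStalk M p := by
  have : Module.FinitePresentation R M := Module.finitePresentation_of_projective R M
  let S := p.asIdeal.primeCompl
  let Rₚ := Localization.AtPrime p.asIdeal
  let Mₚ := LocalizedModule S M
  let f := LocalizedModule.mkLinearMap S M
  let g : R →ₗ[R] Rₚ := Algebra.linearMap R Rₚ
  let φ : Module.Dual R M →ₗ[R] (Mₚ →ₗ[Rₚ] Rₚ) := IsLocalizedModule.mapExtendScalars S f g Rₚ
  let e : LocalizedModule S (Module.Dual R M) ≃ₗ[Rₚ] (Mₚ →ₗ[Rₚ] Rₚ) :=
    (IsLocalizedModule.linearEquiv S (LocalizedModule.mkLinearMap S _)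
      φ).extendScalarsOfIsLocalization S Rₚ
  have : Module.Free Rₚ Mₚ := Module.free_of_flat_of_isLocalRing
  rw [Module.rankAtStalk, e.finrank_eq, Module.finrank_linearMap, Module.finrank_self, mul_one]
  rfl

/-- The trace ideal of a finite projective module of rank one is the unit ideal. -/
theorem contractLeft_surjective_of_rankAtStalk_eq_one [Module.Finite R M] [Module.Projective R M]
    (h : ∀ p : PrimeSpectrum R, Module.rankAtStalk M p = 1) :
    Function.Surjective (contractLeft R M) := by
  rw [← LinearMap.range_eq_top]
  by_contra hne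
  obtain ⟨𝔪, h𝔪, hle⟩ := Ideal.exists_le_maximal (LinearMap.range (contractLeft R M)) hne
  obtain ⟨s, hs⟩ := Module.projective_def'.mp ‹Module.Projective R M›
  have hmem : ∀ (m : M) (x : M), s m x ∈ 𝔪 := fun m x =>
    hle ⟨(Finsupp.lapply x ∘ₗ s) ⊗ₜ m, by simp [contractLeft_apply]⟩
  have := h𝔪.isPrime
  have hsub : Subsingleton (𝔪.ResidueField ⊗[R] M) := by
    refine ⟨fun a b => ?_⟩
    have key : ∀ a : 𝔪.ResidueField ⊗[R] M, a = 0 := by
      intro a
      induction a using TensorProduct.induction_on with
      | zero => rfl
      | add x y hx hy => rw [hx, hy, add_zero]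
      | tmul c m =>
        have hm : m = Finsupp.linearCombination R id (s m) := by
          have := LinearMap.congr_fun hs m
          simpa using this.symm
        rw [hm, Finsupp.linearCombination_apply, Finsupp.sum, TensorProduct.tmul_sum]
        refine Finset.sum_eq_zero fun x _ => ?_
        rw [id, TensorProduct.tmul_smul, TensorProduct.smul_tmul', Algebra.smul_def,
          (Ideal.algebraMap_residueField_eq_zero).mpr (hmem m x), zero_mul,
          TensorProduct.zero_tmul]
    rw [key a, key b]
  have h1 := Module.rankAtStalk_eq (M := M) ⟨𝔪, h𝔪.isPrime⟩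
  rw [h ⟨𝔪, h𝔪.isPrime⟩] at h1
  have h0 : Module.finrank 𝔪.ResidueField (𝔪.ResidueField ⊗[R] M) = 0 :=
    Module.finrank_zero_of_subsingleton
  exact one_ne_zero (h1.trans h0)

/-- (OM0) A finite projective module of rank one at every prime is invertible. -/
theorem invertible_of_rankAtStalk_eq_one [Module.Finite R M] [Module.Projective R M]
    (h : ∀ p : PrimeSpectrum R, Module.rankAtStalk M p = 1) : Module.Invertible R M := by
  have hb : Function.Bijective (contractLeft R M) := by
    refine @Module.bijective_of_surjective_of_rankAtStalk_eq R _ (Module.Dual R M ⊗[R] M) R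
      _ _ _ _ _ _ _ _ (contractLeft R M) (contractLeft_surjective_of_rankAtStalk_eq_one h) ?_
    intro m hm
    have : Nontrivial R :=
      ⟨⟨0, 1, fun h01 => hm.ne_top ((Ideal.eq_top_iff_one m).mpr (h01 ▸ m.zero_mem))⟩⟩
    rw [Module.rankAtStalk_tensorProduct, Pi.mul_apply, rankAtStalk_dual, h, mul_one,
      Module.rankAtStalk_self, Pi.one_apply]
  exact ⟨hb⟩

end Algebra

section Omega

variable {k R : Type u} [CommRing k] [CommRing R] [Algebra k R]

/-- (OM1) If `k → R` is locally (on `R`) standard smooth of relative dimension one, then the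
module of Kähler differentials `Ω[R⁄k]` is an invertible `R`-module. -/
theorem invertible_kaehler_of_locally
    (h : RingHom.Locally (RingHom.IsStandardSmoothOfRelativeDimension 1) (algebraMap k R)) :
    Module.Invertible R (Ω[R⁄k]) := by
  obtain ⟨s, hs, H⟩ := h
  have hsm : Algebra.Smooth k R := by
    rw [← RingHom.smooth_algebraMap, RingHom.smooth_iff_locally_isStandardSmooth]
    exact ⟨s, hs, fun t ht => (H t ht).isStandardSmooth⟩
  have hfp : Algebra.FinitePresentation k R := hsm.finitePresentation
  have hfs : Algebra.FormallySmooth k R := hsm.formallySmooth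
  have : Module.Finite R (Ω[R⁄k]) := inferInstance
  have : Module.Projective R (Ω[R⁄k]) := inferInstance
  refine invertible_of_rankAtStalk_eq_one fun p => ?_
  -- pick `r ∈ s` outside `p`
  obtain ⟨r, hr, hrp⟩ : ∃ r ∈ s, r ∉ p.asIdeal := by
    by_contra hcon
    have hall : ∀ r ∈ s, r ∈ p.asIdeal := fun r hr => by
      by_contra hrp
      exact hcon ⟨r, hr, hrp⟩
    have hle : Ideal.span s ≤ p.asIdeal := Ideal.span_le.mpr hall
    rw [hs] at hle
    exact p.isPrime.ne_top (top_le_iff.mp hle)
  let Rr := Localization.Away r
  have hH := H r hr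
  rw [← IsScalarTower.algebraMap_eq k R Rr,
    RingHom.isStandardSmoothOfRelativeDimension_algebraMap] at hH
  have hss : Algebra.IsStandardSmooth k Rr := hH.isStandardSmooth
  have hdisj : Disjoint (Submonoid.powers r : Set R) (p.asIdeal : Set R) := by
    rw [Ideal.disjoint_powers_iff_notMem_of_isPrime]
    exact hrp
  have hq : (Ideal.map (algebraMap R Rr) p.asIdeal).IsPrime :=
    IsLocalization.isPrime_of_isPrime_disjoint (Submonoid.powers r) Rr p.asIdeal p.isPrime hdisj
  let q : PrimeSpectrum Rr := ⟨Ideal.map (algebraMap R Rr) p.asIdeal, hq⟩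
  have hqp : q.comap (algebraMap R Rr) = p := by
    ext1
    exact IsLocalization.under_map_of_isPrime_disjoint (Submonoid.powers r) Rr p.isPrime hdisj
  have : Nontrivial Rr := q.nontrivial
  have hfe : Algebra.FormallyEtale R Rr :=
    Algebra.FormallyEtale.of_isLocalization (Rₘ := Rr) (Submonoid.powers r)
  have hbc : IsBaseChange Rr (KaehlerDifferential.map k k R Rr) :=
    KaehlerDifferential.isBaseChange_of_formallyEtale k R Rr
  have h1 := Module.rankAtStalk_isBaseChange hbc q
  rw [hqp] at h1
  rw [← h1, Module.rankAtStalk_eq_finrank_of_free, Pi.natCast_apply]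
  exact Module.finrank_eq_of_rank_eq
    (Algebra.IsStandardSmoothOfRelativeDimension.rank_kaehlerDifferential 1)

end Omega

section Scheme

/-- (OM2') An affine chart `j : Spec R ⟶ C` (open immersion) of a scheme `C` that is smooth of
relative dimension `n` over `Spec k` has coordinate ring locally standard smooth of relative
dimension `n` over `k`. -/
theorem locally_isStandardSmooth_of_openImmersion {k R : Type u} [CommRing k] [CommRing R]
    {C : Scheme.{u}} (c : C ⟶ Spec (CommRingCat.of k)) (n : ℕ) [SmoothOfRelativeDimension n c]
    (j : Spec (CommRingCat.of R) ⟶ C) [IsOpenImmersion j] (φ : k →+* R)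
    (fac : j ≫ c = Spec.map (CommRingCat.ofHom φ)) :
    RingHom.Locally (RingHom.IsStandardSmoothOfRelativeDimension n) φ := by
  have h : SmoothOfRelativeDimension n (j ≫ c) :=
    IsZariskiLocalAtSource.comp (P := @SmoothOfRelativeDimension n) inferInstance j
  rw [fac] at h
  exact (HasRingHomProperty.Spec_iff (P := @SmoothOfRelativeDimension n)).mp h

/-- (OM2) The differentials of an affine chart of a smooth curve form an invertible module.
This is the shape of the fields `j₀, fac₀` (resp. `j₁, fac₁`) of a two-chart realization. -/
theorem invertible_kaehler_of_openImmersion {k R : Type u} [CommRing k] [CommRing R]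
    [Algebra k R] {C : Scheme.{u}} (c : C ⟶ Spec (CommRingCat.of k))
    [SmoothOfRelativeDimension 1 c] (j : Spec (CommRingCat.of R) ⟶ C) [IsOpenImmersion j]
    (fac : j ≫ c = Spec.map (CommRingCat.ofHom (algebraMap k R))) :
    Module.Invertible R (Ω[R⁄k]) :=
  invertible_kaehler_of_locally (locally_isStandardSmooth_of_openImmersion c 1 j _ fac)

end Scheme

end Fermat.Agent.S25.helper4512
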