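import Mathlib
import Fermat.Prelude.Def_AlgebraicGeometry_NeronModelPropertyBundleCarrier
import Fermat.Prelude.Def_JacJ1Iface
import Fermat.Prelude.Def_AlgebraicGeometry_RelativePicardFunctor
import Fermat.Prelude.Def_AlgebraicGeometry_RepresentsRelSubPic
import Fermat.Prelude.Def_AlgebraicGeometry_RelPicardAlgEquivZeroCut

/-!
# S25 wiring: the Poincare bundle is fibrewise algebraically equivalent to zero

Statement-level wiring in the frozen vocabulary of S25 (no curve theory, no dictionary).

* `isAlgEquivZero_fibre_of_family`: let `Pc` be a rigidified line bundle on `C ×_R J`, trivial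
  along a section `z` of `j : J ⟶ Spec R`.  Let `w : W ⟶ Spec R` be locally of finite type and
  geometrically integral, with a morphism `φ : W ⟶ J` over `Spec R`.  If a geometric point
  `s : Spec K ⟶ J` and the zero point both lift to `K`-points of `W`, then the fibre of `Pc` at
  `s` is algebraically equivalent to zero.  The connecting family is `W_K` carrying the pullback
  of `Pc`; both required isomorphisms are functoriality of pullback.
* `fibrewiseAlgEquivZero_of_family`: the same for all geometric points at once.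
* `fibrewiseAlgEquivZero_of_geometricallyIntegral`: the case `W = J`, `φ = 𝟙`: it suffices that
  `j` is locally of finite type and geometrically integral.
* `fibrewiseAlgEquivZero_of_designation`: the same, phrased with a `RelativePic0Designation`.
-/

set_option autoImplicit false

universe u

open CategoryTheory CategoryTheory.Limits AlgebraicGeometry AlgebraicGeometry.RelPicard
  NeronModelInfra GoodReductionJacobian

namespace Fermat.Agent.S25.helper9344

variable {R : Type u} [CommRing R] {C : Scheme.{u}} {c : C ⟶ Spec (CommRingCat.of R)}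
  {ε : SchemeHomOver (𝟙 (Spec (CommRingCat.of R))) c}

/-- Pulling back along a composite, as an isomorphism of objects (Mathlib's `pullbackComp`
packaged with a proof of the factorisation). -/
noncomputable def pullbackFactorIso {X Y Z : Scheme.{u}} (f : X ⟶ Y) (g : Y ⟶ Z) (h : X ⟶ Z)
    (w : f ≫ g = h) (L : Z.Modules) :
    (Scheme.Modules.pullback f).obj ((Scheme.Modules.pullback g).obj L) ≅
      (Scheme.Modules.pullback h).obj L :=
  (Scheme.Modules.pullbackComp f g).app L ≪≫ (Scheme.Modules.pullbackCongr w).app L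

/-- Two factorisations of the same morphism give isomorphic iterated pullbacks. -/
noncomputable def pullbackSquareObjIso {X Y Y' Z : Scheme.{u}} (f : X ⟶ Y) (g : Y ⟶ Z)
    (f' : X ⟶ Y') (g' : Y' ⟶ Z) (w : f ≫ g = f' ≫ g') (L : Z.Modules) :
    (Scheme.Modules.pullback f).obj ((Scheme.Modules.pullback g).obj L) ≅
      (Scheme.Modules.pullback f').obj ((Scheme.Modules.pullback g').obj L) :=
  pullbackFactorIso f g (f' ≫ g') w L ≪≫ (pullbackFactorIso f' g' (f' ≫ g') rfl L).symm

/-- **Family form of the wiring lemma for `poincare_mem`.** -/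
theorem isAlgEquivZero_fibre_of_family
    {J : Scheme.{u}} (j : J ⟶ Spec (CommRingCat.of R)) (z : Spec (CommRingCat.of R) ⟶ J)
    (hz : z ≫ j = 𝟙 _) (Pc : RigidifiedLineBundle c ε j)
    (hzero : Nonempty ((Pc.pullbackAlong ⟨z, hz⟩).L ≅
      (RigidifiedLineBundle.unit (c := c) (ε := ε) (𝟙 _)).L))
    {W : Scheme.{u}} (w : W ⟶ Spec (CommRingCat.of R)) [LocallyOfFiniteType w]
    [GeometricallyIntegral w] (φ : W ⟶ J) (hφ : φ ≫ j = w)
    {K : Type u} [Field K] (s : Spec (CommRingCat.of K) ⟶ J)
    (t₁ : Spec (CommRingCat.of K) ⟶ W) (ht₁ : t₁ ≫ φ = s)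
    (t₀ : Spec (CommRingCat.of K) ⟶ W) (ht₀ : t₀ ≫ φ = (s ≫ j) ≫ z) :
    IsAlgEquivZero (fibreAt c j s)
      ((Scheme.Modules.pullback (pullback.fst (pullback.snd c j) s)).obj Pc.L) := by
  obtain ⟨e0⟩ := hzero
  subst hφ
  let w : W ⟶ Spec (CommRingCat.of R) := φ ≫ j
  let σ : Spec (CommRingCat.of K) ⟶ Spec (CommRingCat.of R) := s ≫ j
  let a := fibreAt c j s
  -- the connecting family: `W_K`
  let h : pullback w σ ⟶ Spec (CommRingCat.of K) := pullback.snd w σ
  have hfs : pullback.fst (pullback.snd c j) s ≫ pullback.snd c j = a ≫ s := pullback.condition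
  have hcond : (pullback.fst a h ≫ pullback.fst (pullback.snd c j) s ≫ pullback.fst c j) ≫ c =
      (pullback.snd a h ≫ pullback.fst w σ ≫ φ) ≫ j := by
    have h2 : pullback.fst a h ≫ a = pullback.snd a h ≫ h := pullback.condition
    have h3 : pullback.fst w σ ≫ w = h ≫ σ := pullback.condition
    calc (pullback.fst a h ≫ pullback.fst (pullback.snd c j) s ≫ pullback.fst c j) ≫ c
        = pullback.fst a h ≫ pullback.fst (pullback.snd c j) s ≫ (pullback.fst c j ≫ c) := by
          simp only [Category.assoc]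
      _ = pullback.fst a h ≫ (pullback.fst (pullback.snd c j) s ≫ pullback.snd c j) ≫ j := by
          rw [pullback.condition]; simp only [Category.assoc]
      _ = (pullback.fst a h ≫ a) ≫ s ≫ j := by rw [hfs]; simp only [Category.assoc]
      _ = pullback.snd a h ≫ h ≫ σ := by rw [h2]; simp only [Category.assoc, σ]
      _ = (pullback.snd a h ≫ pullback.fst w σ ≫ φ) ≫ j := by
          rw [← h3]; simp only [Category.assoc, w]
  let q : pullback a h ⟶ pullback c j :=
    pullback.lift (pullback.fst a h ≫ pullback.fst (pullback.snd c j) s ≫ pullback.fst c j)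
      (pullback.snd a h ≫ pullback.fst w σ ≫ φ) hcond
  have hq1 : q ≫ pullback.fst c j =
      pullback.fst a h ≫ pullback.fst (pullback.snd c j) s ≫ pullback.fst c j :=
    pullback.lift_fst _ _ _
  have hq2 : q ≫ pullback.snd c j = pullback.snd a h ≫ pullback.fst w σ ≫ φ :=
    pullback.lift_snd _ _ _
  -- the two marked points
  have hw₁ : t₁ ≫ w = 𝟙 _ ≫ σ := by
    simp only [w, σ]; rw [← Category.assoc, ht₁, Category.id_comp]
  have hw₀ : t₀ ≫ w = 𝟙 _ ≫ σ := by
    simp only [w, σ]
    rw [← Category.assoc, ht₀, Category.assoc, hz, Category.comp_id, Category.id_comp]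
  let τ₁ : SchemeHomOver (𝟙 (Spec (CommRingCat.of K))) h :=
    ⟨pullback.lift t₁ (𝟙 _) hw₁, pullback.lift_snd _ _ _⟩
  let τ₀ : SchemeHomOver (𝟙 (Spec (CommRingCat.of K))) h :=
    ⟨pullback.lift t₀ (𝟙 _) hw₀, pullback.lift_snd _ _ _⟩
  have hτ₁ : τ₁.1 ≫ pullback.fst w σ = t₁ := pullback.lift_fst _ _ _
  have hτ₀ : τ₀.1 ≫ pullback.fst w σ = t₀ := pullback.lift_fst _ _ _
  have hb1 : ∀ tt : SchemeHomOver (𝟙 (Spec (CommRingCat.of K))) h,
      baseChangeSnd a tt ≫ pullback.fst a h = pullback.fst a (𝟙 _) := by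
    intro tt
    simp only [baseChangeSnd, pullback.lift_fst, Category.comp_id]
  have hb2 : ∀ tt : SchemeHomOver (𝟙 (Spec (CommRingCat.of K))) h,
      baseChangeSnd a tt ≫ pullback.snd a h = pullback.snd a (𝟙 _) ≫ tt.1 := by
    intro tt
    simp only [baseChangeSnd, pullback.lift_snd]
  have hcondA : pullback.fst a (𝟙 (Spec (CommRingCat.of K))) ≫ a = pullback.snd a (𝟙 _) := by
    rw [pullback.condition, Category.comp_id]
  refine ⟨pullback w σ, h, inferInstance, inferInstance, (Scheme.Modules.pullback q).obj Pc.L,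
    Pc.isInvertible.pullback q, τ₀, τ₁, ⟨?_⟩, ⟨?_⟩⟩
  · -- at the zero point the family is trivial
    let ζ : SchemeHomOver (𝟙 (Spec (CommRingCat.of R))) j := ⟨z, hz⟩
    have hwcond : (pullback.fst a (𝟙 (Spec (CommRingCat.of K))) ≫
        pullback.fst (pullback.snd c j) s ≫ pullback.fst c j) ≫ c =
        (pullback.snd a (𝟙 _) ≫ σ) ≫ 𝟙 _ := by
      calc (pullback.fst a (𝟙 (Spec (CommRingCat.of K))) ≫
            pullback.fst (pullback.snd c j) s ≫ pullback.fst c j) ≫ c
          = pullback.fst a (𝟙 _) ≫ (pullback.fst (pullback.snd c j) s ≫ pullback.snd c j) ≫ j := by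
            simp only [Category.assoc]; rw [pullback.condition]
        _ = (pullback.fst a (𝟙 _) ≫ a) ≫ s ≫ j := by rw [hfs]; simp only [Category.assoc]
        _ = (pullback.snd a (𝟙 _) ≫ σ) ≫ 𝟙 _ := by rw [hcondA]; simp only [Category.comp_id, σ]
    let v : pullback a (𝟙 (Spec (CommRingCat.of K))) ⟶ pullback c (𝟙 (Spec (CommRingCat.of R))) :=
      pullback.lift (pullback.fst a (𝟙 _) ≫ pullback.fst (pullback.snd c j) s ≫ pullback.fst c j)
        (pullback.snd a (𝟙 _) ≫ σ) hwcond
    have hsq : baseChangeSnd a τ₀ ≫ q = v ≫ baseChangeSnd c ζ := by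
      apply pullback.hom_ext
      · rw [Category.assoc, hq1, ← Category.assoc, hb1]
        simp only [v, baseChangeSnd, Category.assoc, pullback.lift_fst, Category.comp_id]
      · rw [Category.assoc, hq2, ← Category.assoc, hb2, Category.assoc, ← Category.assoc τ₀.1,
          hτ₀, ht₀]
        simp only [v, baseChangeSnd, Category.assoc, pullback.lift_snd, pullback.lift_snd_assoc,
          ζ, σ]
    exact pullbackSquareObjIso _ _ _ _ hsq Pc.L ≪≫
      (Scheme.Modules.pullback v).mapIso e0 ≪≫ Scheme.Modules.pullbackUnitIso v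
  · -- at the given point the family is the fibre of the Poincare bundle
    have hsq : baseChangeSnd a τ₁ ≫ q =
        pullback.fst a (𝟙 (Spec (CommRingCat.of K))) ≫ pullback.fst (pullback.snd c j) s := by
      apply pullback.hom_ext
      · rw [Category.assoc, hq1, ← Category.assoc, hb1, Category.assoc]
      · rw [Category.assoc, hq2, ← Category.assoc, hb2, Category.assoc, ← Category.assoc τ₁.1,
          hτ₁, ht₁, Category.assoc, hfs, ← Category.assoc, hcondA]
    exact pullbackSquareObjIso _ _ _ _ hsq Pc.L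

/-- All geometric points at once: if for every algebraically closed `K` every `K`-point of `J`
and the zero point lift to `K`-points of one geometrically integral `W` over `J`, then `Pc`
satisfies the cut. -/
theorem fibrewiseAlgEquivZero_of_family
    {J : Scheme.{u}} (j : J ⟶ Spec (CommRingCat.of R)) (z : Spec (CommRingCat.of R) ⟶ J)
    (hz : z ≫ j = 𝟙 _) (Pc : RigidifiedLineBundle c ε j)
    (hzero : Nonempty ((Pc.pullbackAlong ⟨z, hz⟩).L ≅
      (RigidifiedLineBundle.unit (c := c) (ε := ε) (𝟙 _)).L))
    {W : Scheme.{u}} (w : W ⟶ Spec (CommRingCat.of R)) [LocallyOfFiniteType w]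
    [GeometricallyIntegral w] (φ : W ⟶ J) (hφ : φ ≫ j = w)
    (hsurj : ∀ (K : Type u) [Field K] [IsAlgClosed K] (s : Spec (CommRingCat.of K) ⟶ J),
      ∃ t : Spec (CommRingCat.of K) ⟶ W, t ≫ φ = s) :
    FibrewiseAlgEquivZero Pc := by
  intro K _ _ s
  obtain ⟨t₁, ht₁⟩ := hsurj K s
  obtain ⟨t₀, ht₀⟩ := hsurj K ((s ≫ j) ≫ z)
  exact isAlgEquivZero_fibre_of_family j z hz Pc hzero w φ hφ s t₁ ht₁ t₀ ht₀

/-- **Wiring lemma for `poincare_mem`.**  A rigidified line bundle on `C ×_R J` which is trivial
along a section of `J` is fibrewise algebraically equivalent to zero as soon as `J ⟶ Spec R`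
is locally of finite type and geometrically integral. -/
theorem fibrewiseAlgEquivZero_of_geometricallyIntegral
    {J : Scheme.{u}} (j : J ⟶ Spec (CommRingCat.of R)) (z : Spec (CommRingCat.of R) ⟶ J)
    (hz : z ≫ j = 𝟙 _) (Pc : RigidifiedLineBundle c ε j)
    (hzero : Nonempty ((Pc.pullbackAlong ⟨z, hz⟩).L ≅
      (RigidifiedLineBundle.unit (c := c) (ε := ε) (𝟙 _)).L))
    [LocallyOfFiniteType j] [GeometricallyIntegral j] :
    FibrewiseAlgEquivZero Pc :=
  fibrewiseAlgEquivZero_of_family j z hz Pc hzero j (𝟙 J) (Category.id_comp j)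
    (fun _ _ _ s => ⟨s, Category.comp_id s⟩)

/-- The same, phrased with a `RelativePic0Designation`. -/
theorem fibrewiseAlgEquivZero_of_designation
    (D : RelativePic0Designation R c) (Pc : RigidifiedLineBundle c ε D.toBase)
    (hzero : Nonempty ((Pc.pullbackAlong ⟨D.zeroSection, D.zeroSection_toBase⟩).L ≅
      (RigidifiedLineBundle.unit (c := c) (ε := ε) (𝟙 _)).L))
    [LocallyOfFiniteType D.toBase] [GeometricallyIntegral D.toBase] :
    FibrewiseAlgEquivZero Pc :=
  fibrewiseAlgEquivZero_of_geometricallyIntegral D.toBase D.zeroSection D.zeroSection_toBase Pc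
    hzero

end Fermat.Agent.S25.helper9344
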