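import Fermat.Agent.S25.helper8183_CutComponent
import Fermat.Agent.S25.helper263_SmoothConnected
import Fermat.Agent.S25.helper6784_GeomIntegral
import Fermat.Agent.S25.helper9344_PoincareMem

/-!
# S25, brick IDCOMP: the identity component represents the cut `algEquivZeroCut`

Let `k` be an algebraically closed field, `Pc₀` ANY cut containing the cut of bundles fibrewise
algebraically equivalent to zero, and let `D₀` represent `Pc₀`, with `D₀.toBase` smooth.  Then
the connected component `J` of the zero point of `D₀.P` is open (and closed), and `J`, with the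
restricted Poincare bundle, represents `algEquivZeroCut c ε`.

Inputs (all on main): `helper8183.mem_connectedComponent_of_fibrewiseAlgEquivZero` (classifying
maps of FAEZ bundles land in the component of zero), `helper263` (smooth + connected ⟹
integral; irreducible open neighbourhoods), `helper6784` (integral over an algebraically closed
field ⟹ geometrically integral), `helper9344` (Poincare bundle of a geometrically integral
designation is FAEZ).

Main declarations (namespace `Fermat.Agent.S25.helper4602`):
* `idOpen D₀ hs : D₀.P.Opens` — the component of the zero point, as an open;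
* `idComp D₀ hs : RelativePic0Designation k c` — the designation `J`;
* `idComp_smooth`, `idComp_isIntegral`, `idComp_geometricallyIntegral`,
  `idComp_geometricallyConnected`, `isClopen_idOpen`, `range_idCompι`;
* `idCompRepresents hle h₀ hs : RepresentsRelSubPic c ε (algEquivZeroCut c ε) (idComp D₀ hs)`;
* `exists_representsRelSubPic_algEquivZeroCut_of_represents` — the existential packaging.
-/

set_option autoImplicit false

universe u

open CategoryTheory CategoryTheory.Limits AlgebraicGeometry AlgebraicGeometry.RelPicard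
  NeronModelInfra GoodReductionJacobian

namespace Fermat.Agent.S25.helper4602

noncomputable section

variable {k : Type u} [Field k] {C : Scheme.{u}} {c : C ⟶ Spec (CommRingCat.of k)}
  {ε : SchemeHomOver (𝟙 (Spec (CommRingCat.of k))) c}

/-- The zero point of a designation over a field. -/
def zeroPt (D₀ : RelativePic0Designation k c) : D₀.P :=
  D₀.zeroSection (default : Spec (CommRingCat.of k))

theorem zeroSection_apply (D₀ : RelativePic0Designation k c) (x : Spec (CommRingCat.of k)) :
    D₀.zeroSection x = zeroPt D₀ := by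
  rw [zeroPt, Subsingleton.elim x default]

/-- In a scheme smooth over a field, connected components are open. -/
theorem isOpen_connectedComponent_of_smooth {Z : Scheme.{u}} (g : Z ⟶ Spec (CommRingCat.of k))
    [Smooth g] (z : Z) : IsOpen (connectedComponent z) := by
  rw [isOpen_iff_forall_mem_open]
  intro y hy
  obtain ⟨U, hU, hyU, hirr⟩ := helper263.exists_isOpen_isIrreducible_of_smooth g y
  refine ⟨U, ?_, hU, hyU⟩
  rw [connectedComponent_eq hy]
  exact hirr.isConnected.isPreconnected.subset_connectedComponent hyU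

/-- The connected component of the zero point, as an open of `D₀.P`. -/
def idOpen (D₀ : RelativePic0Designation k c) (hs : Smooth D₀.toBase) : D₀.P.Opens :=
  ⟨connectedComponent (zeroPt D₀), by
    have := hs
    exact isOpen_connectedComponent_of_smooth D₀.toBase _⟩

theorem coe_idOpen (D₀ : RelativePic0Designation k c) (hs : Smooth D₀.toBase) :
    (idOpen D₀ hs : Set D₀.P) = connectedComponent (zeroPt D₀) :=
  rfl

theorem isClopen_idOpen (D₀ : RelativePic0Designation k c) (hs : Smooth D₀.toBase) :
    IsClopen (idOpen D₀ hs : Set D₀.P) :=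
  ⟨isClosed_connectedComponent, (idOpen D₀ hs).2⟩

theorem zeroPt_mem_idOpen (D₀ : RelativePic0Designation k c) (hs : Smooth D₀.toBase) :
    zeroPt D₀ ∈ idOpen D₀ hs :=
  mem_connectedComponent

theorem range_zeroSection_subset (D₀ : RelativePic0Designation k c) (hs : Smooth D₀.toBase) :
    Set.range D₀.zeroSection ⊆ Set.range (idOpen D₀ hs).ι := by
  rw [Scheme.Opens.range_ι]
  rintro _ ⟨x, rfl⟩
  rw [zeroSection_apply]
  exact zeroPt_mem_idOpen D₀ hs

/-- The identity component `J` of `D₀.P`, as a designation. -/
def idComp (D₀ : RelativePic0Designation k c) (hs : Smooth D₀.toBase) :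
    RelativePic0Designation k c where
  P := (idOpen D₀ hs).toScheme
  toBase := (idOpen D₀ hs).ι ≫ D₀.toBase
  zeroSection := IsOpenImmersion.lift (idOpen D₀ hs).ι D₀.zeroSection
    (range_zeroSection_subset D₀ hs)
  zeroSection_toBase := by
    rw [← Category.assoc, IsOpenImmersion.lift_fac, D₀.zeroSection_toBase]

/-- The open immersion `J ⟶ D₀.P`. -/
def idCompι (D₀ : RelativePic0Designation k c) (hs : Smooth D₀.toBase) :
    (idComp D₀ hs).P ⟶ D₀.P :=
  (idOpen D₀ hs).ι

instance (D₀ : RelativePic0Designation k c) (hs : Smooth D₀.toBase) :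
    IsOpenImmersion (idCompι D₀ hs) := by
  have : IsOpenImmersion (idOpen D₀ hs).ι := inferInstance
  exact this

@[simp]
theorem idCompι_toBase (D₀ : RelativePic0Designation k c) (hs : Smooth D₀.toBase) :
    idCompι D₀ hs ≫ D₀.toBase = (idComp D₀ hs).toBase :=
  rfl

@[simp]
theorem idComp_zeroSection_ι (D₀ : RelativePic0Designation k c) (hs : Smooth D₀.toBase) :
    (idComp D₀ hs).zeroSection ≫ idCompι D₀ hs = D₀.zeroSection :=
  IsOpenImmersion.lift_fac (idOpen D₀ hs).ι D₀.zeroSection (range_zeroSection_subset D₀ hs)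

theorem range_idCompι (D₀ : RelativePic0Designation k c) (hs : Smooth D₀.toBase) :
    Set.range (idCompι D₀ hs) = connectedComponent (zeroPt D₀) :=
  Scheme.Opens.range_ι _

theorem isClopen_range_idCompι (D₀ : RelativePic0Designation k c) (hs : Smooth D₀.toBase) :
    IsClopen (Set.range (idCompι D₀ hs)) := by
  rw [range_idCompι]
  exact isClopen_idOpen D₀ hs

theorem idComp_smooth (D₀ : RelativePic0Designation k c) (hs : Smooth D₀.toBase) :
    Smooth (idComp D₀ hs).toBase := by
  have := hs
  exact inferInstanceAs (Smooth ((idOpen D₀ hs).ι ≫ D₀.toBase))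

theorem idComp_connectedSpace (D₀ : RelativePic0Designation k c) (hs : Smooth D₀.toBase) :
    ConnectedSpace (idComp D₀ hs).P :=
  isConnected_iff_connectedSpace.mp
    (isConnected_connectedComponent (x := zeroPt D₀))

theorem idComp_isIntegral (D₀ : RelativePic0Designation k c) (hs : Smooth D₀.toBase) :
    IsIntegral (idComp D₀ hs).P := by
  have := idComp_smooth D₀ hs
  have := idComp_connectedSpace D₀ hs
  exact helper263.isIntegral_of_smooth_of_connectedSpace (idComp D₀ hs).toBase

theorem idComp_locallyOfFiniteType (D₀ : RelativePic0Designation k c) (hs : Smooth D₀.toBase) :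
    LocallyOfFiniteType (idComp D₀ hs).toBase := by
  have := idComp_smooth D₀ hs
  infer_instance

variable [IsAlgClosed k]

theorem idComp_geometricallyIntegral (D₀ : RelativePic0Designation k c)
    (hs : Smooth D₀.toBase) : GeometricallyIntegral (idComp D₀ hs).toBase := by
  have := idComp_isIntegral D₀ hs
  exact helper6784.geometricallyIntegral_of_isAlgClosed _

theorem idComp_geometricallyConnected (D₀ : RelativePic0Designation k c)
    (hs : Smooth D₀.toBase) : GeometricallyConnected (idComp D₀ hs).toBase := by
  have := idComp_isIntegral D₀ hs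
  exact helper6784.geometricallyConnected_of_isAlgClosed _

/-! ### The identity component represents the cut -/

section Represents

open Fermat.Agent.S25.helper8183 (pb pbComp pbCongr baseChangeSnd_comp_eq')

variable {Pc₀ : SubPicCondition c ε} {D₀ : RelativePic0Designation k c}

/-- Pulling back along a commutative triangle of base changes. -/
def pbTri {S T₁ T : Scheme.{u}} {s : S ⟶ Spec (CommRingCat.of k)}
    {t₁ : T₁ ⟶ Spec (CommRingCat.of k)} {t : T ⟶ Spec (CommRingCat.of k)}
    (a : SchemeHomOver s t₁) (p : SchemeHomOver t₁ t) (q : SchemeHomOver s t)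
    (w : a.1 ≫ p.1 = q.1) (N : (pullback c t).Modules) :
    pb (baseChangeSnd c a) (pb (baseChangeSnd c p) N) ≅ pb (baseChangeSnd c q) N :=
  pbComp _ _ N ≪≫ pbCongr (baseChangeSnd_comp_eq' a p q w) N

/-- The open immersion `J ⟶ D₀.P`, as a morphism over `k`. -/
def idCompHom (D₀ : RelativePic0Designation k c) (hs : Smooth D₀.toBase) :
    SchemeHomOver (idComp D₀ hs).toBase D₀.toBase :=
  ⟨idCompι D₀ hs, rfl⟩

/-- The Poincare bundle of `D₀`, restricted to the identity component. -/
def idCompPoincare (h₀ : RepresentsRelSubPic c ε Pc₀ D₀) (hs : Smooth D₀.toBase) :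
    RigidifiedLineBundle c ε (idComp D₀ hs).toBase :=
  h₀.poincare.pullbackAlong (idCompHom D₀ hs)

omit [IsAlgClosed k] in
theorem idCompPoincare_zero (h₀ : RepresentsRelSubPic c ε Pc₀ D₀) (hs : Smooth D₀.toBase) :
    Nonempty (((idCompPoincare h₀ hs).pullbackAlong
        ⟨(idComp D₀ hs).zeroSection, (idComp D₀ hs).zeroSection_toBase⟩).L ≅
      (RigidifiedLineBundle.unit (c := c) (ε := ε) (𝟙 _)).L) := by
  obtain ⟨e⟩ := h₀.zero
  exact ⟨pbTri ⟨(idComp D₀ hs).zeroSection, (idComp D₀ hs).zeroSection_toBase⟩ (idCompHom D₀ hs)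
    ⟨D₀.zeroSection, D₀.zeroSection_toBase⟩ (idComp_zeroSection_ι D₀ hs) h₀.poincare.L ≪≫ e⟩

/-- The restricted Poincare bundle is fibrewise algebraically equivalent to zero. -/
theorem idCompPoincare_mem (h₀ : RepresentsRelSubPic c ε Pc₀ D₀) (hs : Smooth D₀.toBase) :
    FibrewiseAlgEquivZero (idCompPoincare h₀ hs) := by
  have := idComp_locallyOfFiniteType D₀ hs
  have := idComp_geometricallyIntegral D₀ hs
  exact helper9344.fibrewiseAlgEquivZero_of_designation (idComp D₀ hs) _
    (idCompPoincare_zero h₀ hs)

omit [IsAlgClosed k] in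
/-- Classifying maps of bundles fibrewise algebraically equivalent to zero land in the identity
component. -/
theorem range_subset_range_idCompι
    (hle : ∀ {T : Scheme.{u}} (t : T ⟶ Spec (CommRingCat.of k)) (M : RigidifiedLineBundle c ε t),
      FibrewiseAlgEquivZero M → Pc₀.P t M)
    (h₀ : RepresentsRelSubPic c ε Pc₀ D₀) (hs : Smooth D₀.toBase)
    {T : Scheme.{u}} {t : T ⟶ Spec (CommRingCat.of k)} (M : RigidifiedLineBundle c ε t)
    (hM : FibrewiseAlgEquivZero M) (g : SchemeHomOver t D₀.toBase)
    (hg : Nonempty ((h₀.poincare.pullbackAlong g).L ≅ M.L)) :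
    Set.range g.1 ⊆ Set.range (idCompι D₀ hs) := by
  rw [range_idCompι]
  rintro _ ⟨p, rfl⟩
  have := helper8183.mem_connectedComponent_of_fibrewiseAlgEquivZero hle h₀ M hM g hg p
  rwa [zeroSection_apply] at this

/-- **IDCOMP.** If `D₀` represents a cut `Pc₀` containing the cut of bundles fibrewise
algebraically equivalent to zero, and `D₀.toBase` is smooth, then the identity component of
`D₀.P` represents `algEquivZeroCut c ε`. -/
def idCompRepresents
    (hle : ∀ {T : Scheme.{u}} (t : T ⟶ Spec (CommRingCat.of k)) (M : RigidifiedLineBundle c ε t),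
      FibrewiseAlgEquivZero M → Pc₀.P t M)
    (h₀ : RepresentsRelSubPic c ε Pc₀ D₀) (hs : Smooth D₀.toBase) :
    RepresentsRelSubPic c ε (algEquivZeroCut c ε) (idComp D₀ hs) where
  poincare := idCompPoincare h₀ hs
  poincare_mem := idCompPoincare_mem h₀ hs
  univ := by
    intro T t M hM
    have hM' : FibrewiseAlgEquivZero M := hM
    obtain ⟨g, ⟨eg⟩, huniq⟩ := h₀.univ t M (hle t M hM')
    have hrange := range_subset_range_idCompι hle h₀ hs M hM' g ⟨eg⟩
    let g' : T ⟶ (idComp D₀ hs).P := IsOpenImmersion.lift (idCompι D₀ hs) g.1 hrange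
    have hg' : g' ≫ idCompι D₀ hs = g.1 := IsOpenImmersion.lift_fac _ _ _
    have hg'' : g' ≫ (idComp D₀ hs).toBase = t := by
      rw [← idCompι_toBase, ← Category.assoc, hg', g.2]
    refine ⟨⟨g', hg''⟩, ⟨pbTri ⟨g', hg''⟩ (idCompHom D₀ hs) g hg' h₀.poincare.L ≪≫ eg⟩, ?_⟩
    rintro ⟨g₂, hg₂⟩ ⟨e₂⟩
    have hg₂' : (g₂ ≫ idCompι D₀ hs) ≫ D₀.toBase = t := by
      rw [Category.assoc, idCompι_toBase, hg₂]
    have h2 : (⟨g₂ ≫ idCompι D₀ hs, hg₂'⟩ : SchemeHomOver t D₀.toBase) = g :=
      huniq _ ⟨(pbTri ⟨g₂, hg₂⟩ (idCompHom D₀ hs) ⟨g₂ ≫ idCompι D₀ hs, hg₂'⟩ rfl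
        h₀.poincare.L).symm ≪≫ e₂⟩
    apply Subtype.ext
    have h3 : g₂ ≫ idCompι D₀ hs = g' ≫ idCompι D₀ hs := by
      rw [hg']
      exact congrArg Subtype.val h2
    exact (cancel_mono (idCompι D₀ hs)).mp h3
  zero := idCompPoincare_zero h₀ hs

/-- **IDCOMP**, existential packaging: the identity component `D` of `D₀` represents
`algEquivZeroCut c ε`, is smooth and geometrically integral (hence geometrically connected),
and sits in `D₀.P` as an open and closed subscheme through the zero section. -/
theorem exists_representsRelSubPic_algEquivZeroCut_of_represents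
    (hle : ∀ {T : Scheme.{u}} (t : T ⟶ Spec (CommRingCat.of k)) (M : RigidifiedLineBundle c ε t),
      FibrewiseAlgEquivZero M → Pc₀.P t M)
    (h₀ : RepresentsRelSubPic c ε Pc₀ D₀) (hs : Smooth D₀.toBase) :
    ∃ (D : RelativePic0Designation k c) (i : D.P ⟶ D₀.P),
      Nonempty (RepresentsRelSubPic c ε (algEquivZeroCut c ε) D) ∧
      IsOpenImmersion i ∧ i ≫ D₀.toBase = D.toBase ∧ D.zeroSection ≫ i = D₀.zeroSection ∧
      IsClopen (Set.range i) ∧ Smooth D.toBase ∧ GeometricallyIntegral D.toBase ∧
      GeometricallyConnected D.toBase :=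
  ⟨idComp D₀ hs, idCompι D₀ hs, ⟨idCompRepresents hle h₀ hs⟩, inferInstance,
    idCompι_toBase D₀ hs, idComp_zeroSection_ι D₀ hs, isClopen_range_idCompι D₀ hs,
    idComp_smooth D₀ hs, idComp_geometricallyIntegral D₀ hs,
    idComp_geometricallyConnected D₀ hs⟩

end Represents

/-! ### Inheritance of properties from `D₀`, and the `Stmt_Rep` form -/

section Inherit

omit [IsAlgClosed k]

/-- The inclusion of the identity component is a closed immersion. -/
theorem idCompι_isClosedImmersion (D₀ : RelativePic0Designation k c) (hs : Smooth D₀.toBase) :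
    IsClosedImmersion (idCompι D₀ hs) :=
  .of_isPreimmersion _ (isClopen_range_idCompι D₀ hs).1

theorem idComp_isSeparated (D₀ : RelativePic0Designation k c) (hs : Smooth D₀.toBase)
    (h : IsSeparated D₀.toBase) : IsSeparated (idComp D₀ hs).toBase := by
  rw [← idCompι_toBase]
  infer_instance

theorem idComp_quasiCompact (D₀ : RelativePic0Designation k c) (hs : Smooth D₀.toBase)
    (h : QuasiCompact D₀.toBase) : QuasiCompact (idComp D₀ hs).toBase := by
  have := idCompι_isClosedImmersion D₀ hs
  rw [← idCompι_toBase]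
  infer_instance

theorem idComp_universallyClosed (D₀ : RelativePic0Designation k c) (hs : Smooth D₀.toBase)
    (h : UniversallyClosed D₀.toBase) : UniversallyClosed (idComp D₀ hs).toBase := by
  have := idCompι_isClosedImmersion D₀ hs
  rw [← idCompι_toBase]
  infer_instance

theorem idComp_isProper (D₀ : RelativePic0Designation k c) (hs : Smooth D₀.toBase)
    (h : IsProper D₀.toBase) : IsProper (idComp D₀ hs).toBase := by
  have := idCompι_isClosedImmersion D₀ hs
  rw [← idCompι_toBase]
  infer_instance

/-- A morphism from a preconnected scheme to `D₀.P` which sends one point into the identity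
component factors through the identity component. -/
theorem exists_lift_idComp_of_preconnected (D₀ : RelativePic0Designation k c)
    (hs : Smooth D₀.toBase) {T : Scheme.{u}} [PreconnectedSpace T] (g : T ⟶ D₀.P) (p : T)
    (hp : g p ∈ connectedComponent (zeroPt D₀)) :
    ∃ g' : T ⟶ (idComp D₀ hs).P, g' ≫ idCompι D₀ hs = g := by
  have hrange : Set.range g ⊆ Set.range (idCompι D₀ hs) := by
    rw [range_idCompι, connectedComponent_eq hp]
    exact (isPreconnected_range g.continuous).subset_connectedComponent ⟨p, rfl⟩
  exact ⟨IsOpenImmersion.lift (idCompι D₀ hs) g hrange, IsOpenImmersion.lift_fac _ _ _⟩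

end Inherit

/-- REP-SUP. For every curve there are a cut `Pc₀` containing the cut of bundles fibrewise
algebraically equivalent to zero and a SMOOTH designation representing `Pc₀`.  (For instance
`Pc₀ = ⊤`, or a numerical "degree zero" cut.) -/
def Stmt_RepSup : Prop :=
  ∀ (k : Type u) [Field k] {C : Scheme.{u}} (c : C ⟶ Spec (CommRingCat.of k))
    (_ : helper1705.IsCurve k c) (ε : SchemeHomOver (𝟙 (Spec (CommRingCat.of k))) c),
    ∃ (Pc₀ : SubPicCondition c ε) (D₀ : RelativePic0Designation k c),
      (∀ {T : Scheme.{u}} (t : T ⟶ Spec (CommRingCat.of k)) (M : RigidifiedLineBundle c ε t),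
        FibrewiseAlgEquivZero M → Pc₀.P t M) ∧
      Nonempty (RepresentsRelSubPic c ε Pc₀ D₀) ∧ Smooth D₀.toBase

/-- **IDCOMP in Spec form**: `Stmt_Rep` of the Spec follows from the representability of ANY
cut containing the frozen one by a smooth scheme; no "degree zero ⟹ algebraically equivalent
to zero" is needed. -/
theorem stmt_Rep_of_repSup (h : Stmt_RepSup.{u}) : helper1705.Stmt_Rep.{u} := by
  intro k _ C c hc ε
  obtain ⟨Pc₀, D₀, hle, ⟨h₀⟩, hs⟩ := h k c hc ε
  have := hc.algClosed
  exact ⟨idComp D₀ hs, ⟨idCompRepresents hle h₀ hs⟩, idComp_locallyOfFiniteType D₀ hs⟩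

end

end Fermat.Agent.S25.helper4602
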