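import Fermat.Agent.S25.helper4743_CoverAsm
import Fermat.Agent.S25.helper25_BaseBundle
import Fermat.Agent.S25.helper239_ChiApi
import Fermat.Agent.S25.helper8703_FieldGlue
import Fermat.Agent.S25.helper8573_LCAssembly
import Fermat.Agent.S25.helper5035_CoverAsm

/-!
# S25, root `Stmt_CoverAC`: the N-side assembly (helper4743)

`stmt_CoverAC_of : helper5035.Stmt_FieldCoverMor → helper8573.Stmt_CoverAC` : the field-level
cover contract of ruling R10 (for every rigidified degree-zero bundle `G` over an algebraically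
closed field `K ⊇ k` there are `n`, a finite set `S` of `k`-points of the first chart and
`σ : G → 𝒪(n · D∞)_K` vanishing on `S`, spanning the morphisms vanishing on `S`, an isomorphism
along `V(y)`, with `S.card + 1 = χ(𝒪) + n · degInf`) implies `helper8573.Stmt_CoverAC`, with the
base bundles `helper25.baseBundle D n S = 𝒪(n · D∞ − S)` indexed by the pairs `(n, S)` of
degree `g`. (`stmt_CoverAC_of'` : the same with the contract and the base change of the base
bundles as explicit hypotheses.)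

Bricks: `isSubAwayFromY_ptsIncl`, `inChartOf_baseBundle`, `chi_unit_eq_one_sub_genus`,
`hasDegreeGenus_baseBundle_of_count`.
-/

set_option autoImplicit false

namespace Fermat.Agent.S25.helper4743

open Fermat.Agent.S25.helper1705 Fermat.Agent.S25.helper2945 Fermat.Agent.S25.helper8573
open Fermat.Agent.S25.helper25

universe u

section

variable {k : Type u} [Field k] [IsAlgClosed k] (D : CurveDatum k) (K : Type u) [Field K]
  [Algebra k K]

/-- The inclusion `𝒪(n · D∞ − S) → 𝒪(n · D∞)` is a sub-bundle agreeing with the ambient bundle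
along `V(y)`. -/
theorem isSubAwayFromY_ptsIncl (n : ℕ) (S : Finset (D.R₀ →ₐ[k] k)) :
    IsSubAwayFromY (ptsIncl D K n S) where
  inj₀ := ptsIncl_f₀_injective D K n S
  inj₁ := ptsIncl_f₁_injective D K n S
  unit := by
    obtain ⟨u, hu, c, huc⟩ := exists_mem_ptsIdeal₁ D K S
    refine ⟨u, c, by linear_combination -huc, fun b => ?_⟩
    exact (mem_range_ptsIncl_f₁ D K n S _).mpr (Ideal.mul_mem_right _ _ hu)

/-- **The chart condition for the base bundle `𝒪(n · D∞ − S)`.** A morphism
`σ : G → 𝒪(n · D∞)_K` vanishing on `S`, spanning the morphisms vanishing on `S` and an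
isomorphism along `V(y)` shows that `G` is in the chart of `baseBundle D n S`. -/
theorem inChartOf_baseBundle (n : ℕ) (S : Finset (D.R₀ →ₐ[k] k)) (G : GlueDatum D K)
    (hb : (baseOver (baseBundle D n S) K).Equiv (ptsBundle D K n S))
    (σ : Mor G (ambient D K n))
    (h1 : ∀ Q ∈ S, ∀ m, σ.f₀ m ∈ helper2531.mQ D K Q)
    (h2 : ∀ τ : Mor G (ambient D K n), (∀ Q ∈ S, ∀ m, τ.f₀ m ∈ helper2531.mQ D K Q) →
      ∃ c : K, (∀ m, τ.f₀ m = c • σ.f₀ m) ∧ (∀ m, τ.f₁ m = c • σ.f₁ m))
    (h3 : σ.SurjModY) : InChartOf (baseBundle D n S) G := by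
  refine (isSubAwayFromY_ptsIncl D K n S).inChartOf (baseBundle D n S) hb.symm σ ?_ h3 ?_
  · intro m
    exact (mem_range_ptsIncl_f₀ D K n S _).mpr
      ((mem_ptsIdeal_iff D K S _).mpr fun Q hQ => h1 Q hQ m)
  · intro τ hτ
    exact h2 τ fun Q hQ m =>
      (mem_ptsIdeal_iff D K S _).mp ((mem_range_ptsIncl_f₀ D K n S _).mp (hτ m)) Q hQ

/-- `χ(𝒪_C) = 1 − g`. -/
theorem chi_unit_eq_one_sub_genus : (GlueDatum.unit D k).chi = 1 - (genus D : ℤ) := by
  unfold GlueDatum.chi genus
  rw [helper8703.finrank_H0_unit]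
  rfl

/-- The count of the field-level cover gives the degree of the base bundle. -/
theorem hasDegreeGenus_baseBundle_of_count (n : ℕ) (S : Finset (D.R₀ →ₐ[k] k))
    (h : (S.card : ℤ) + 1 = (GlueDatum.unit D K).chi + (n : ℤ) * (helper1153.degInf D : ℤ)) :
    HasDegreeGenus (baseBundle D n S) := by
  rw [hasDegreeGenus_baseBundle_iff]
  rw [helper239.chi_unit D K, chi_unit_eq_one_sub_genus] at h
  linarith

end

/-- **N-side of the cover.** The field-level contract and the base change of the base bundles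
give `Stmt_CoverAC`: the base bundles `𝒪(n · D∞ − S)` of degree `g`, indexed by pairs `(n, S)`,
`S` a finite set of `k`-points of the first chart, cover all rigidified degree-zero bundles
over algebraically closed fields. -/
theorem stmt_CoverAC_of'
    (hF : ∀ (k : Type u) [Field k] [IsAlgClosed k] (D : CurveDatum k) (K : Type u) [Field K]
      [Algebra k K] [IsAlgClosed K] (G : GlueDatum D K), G.IsRig → G.DegZero →
      ∃ (n : ℕ) (S : Finset (D.R₀ →ₐ[k] k))
        (σ : Mor G (helper3115.twist (GlueDatum.unit D K) n)),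
        ((S.card : ℤ) + 1 = (GlueDatum.unit D K).chi + (n : ℤ) * (helper1153.degInf D : ℤ)) ∧
        (∀ Q ∈ S, ∀ m, σ.f₀ m ∈ helper2531.mQ D K Q) ∧
        (∀ τ : Mor G (helper3115.twist (GlueDatum.unit D K) n),
          (∀ Q ∈ S, ∀ m, τ.f₀ m ∈ helper2531.mQ D K Q) →
          ∃ c : K, (∀ m, τ.f₀ m = c • σ.f₀ m) ∧ (∀ m, τ.f₁ m = c • σ.f₁ m)) ∧
        σ.SurjModY)
    (hb : ∀ (k : Type u) [Field k] [IsAlgClosed k] (D : CurveDatum k) (K : Type u) [Field K]
      [Algebra k K] (n : ℕ) (S : Finset (D.R₀ →ₐ[k] k)),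
      (baseOver (baseBundle D n S) K).Equiv (ptsBundle D K n S)) :
    Stmt_CoverAC.{u} := by
  intro k _ _ D
  refine ⟨{p : ℕ × Finset (D.R₀ →ₐ[k] k) // HasDegreeGenus (baseBundle D p.1 p.2)},
    fun p => baseBundle D p.1.1 p.1.2, fun p => p.2, ?_⟩
  intro K _ _ _ G hG hG0
  obtain ⟨n, S, σ, hc, h1, h2, h3⟩ := hF k D K G hG hG0
  exact ⟨⟨(n, S), hasDegreeGenus_baseBundle_of_count D K n S hc⟩,
    inChartOf_baseBundle D K n S G (hb k D K n S) σ h1 h2 h3⟩

/-- **N-side of the cover (ruling R10).** The field-level contract implies `Stmt_CoverAC`. -/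
theorem stmt_CoverAC_of (hF : helper5035.Stmt_FieldCoverMor.{u}) : Stmt_CoverAC.{u} :=
  stmt_CoverAC_of' (fun k _ _ D K _ _ _ G hG hG0 => hF k D K G hG hG0)
    (fun _ _ _ D K _ _ n S => baseOver_baseBundle_equiv D K n S)

end Fermat.Agent.S25.helper4743
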