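import Fermat.Agent.S25.helper2945_AlgDefs

/-!
# S25, layer LC (chart layer): from fibrewise statements to the ideal form of `open_locus`
(helper9743, backup of LC-ASSEMBLY)

Purely formal. Let `Mem` be a property of two-chart line bundles `G : GlueDatum D B` over
`k`-algebras `B` (typically "`G` is in the chart `i`", i.e. `∃ γ, (Gu i).baseChange γ ≈ G`),
stable under base change and under `Equiv`. Assume

* (FG) **fibrewise ⟹ global**: if `G` is rigidified of degree zero over `B` and over every closed
  point `m` of `Spec B` some field-valued point `χ : B → K` with kernel `m` has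
  `Mem (G.baseChange χ)`, then `Mem G`;
* (OL) **open locus**: for such `G` the set of `p ∈ Spec B` with `Mem (G ⊗ κ(p))` is open.

Then (`exists_ideal_of_fibre`) for every such `G` there is an ideal `𝔞` of `B` such that for all
`ψ : B →ₐ[k] B'`: `Mem (G.baseChange ψ) ↔ 𝔞.map ψ = ⊤`. This is the `open_locus` field of the
algebraic chart family of the S25 Spec (ideal form).

The four facts about `GlueDatum.baseChange` that are used are bundled in the `Prop` `BCApi D`
(hypothesis-passing; they are theorems of the LC-API leaf).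
-/

set_option autoImplicit false

universe u

open Fermat.Agent.S25.helper1705 Fermat.Agent.S25.helper2945

namespace Fermat.Agent.S25.helper9743

variable {k : Type u} [Field k]

/-- The base-change facts about `GlueDatum` consumed by the formal chart-layer arguments. -/
structure BCApi (D : CurveDatum k) : Prop where
  equiv_baseChange : ∀ {B B' : Type u} [CommRing B] [Algebra k B] [CommRing B'] [Algebra k B']
    (φ : B →ₐ[k] B') {G G' : GlueDatum D B}, G.Equiv G' →
    (G.baseChange φ).Equiv (G'.baseChange φ)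
  baseChange_comp : ∀ {B B' B'' : Type u} [CommRing B] [Algebra k B] [CommRing B'] [Algebra k B']
    [CommRing B''] [Algebra k B''] (φ : B →ₐ[k] B') (ψ : B' →ₐ[k] B'') (G : GlueDatum D B),
    ((G.baseChange φ).baseChange ψ).Equiv (G.baseChange (ψ.comp φ))
  isRig_baseChange : ∀ {B B' : Type u} [CommRing B] [Algebra k B] [CommRing B'] [Algebra k B']
    (φ : B →ₐ[k] B') {G : GlueDatum D B}, G.IsRig → (G.baseChange φ).IsRig
  degZero_baseChange : ∀ {B B' : Type u} [CommRing B] [Algebra k B] [CommRing B'] [Algebra k B']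
    (φ : B →ₐ[k] B') {G : GlueDatum D B}, G.DegZero → (G.baseChange φ).DegZero

/-- The canonical `k`-algebra map from `B` to the residue field of a point of `Spec B`. -/
noncomputable abbrev toResidue {B : Type u} [CommRing B] [Algebra k B] (p : PrimeSpectrum B) :
    B →ₐ[k] p.asIdeal.ResidueField :=
  IsScalarTower.toAlgHom k B p.asIdeal.ResidueField

theorem ker_toResidue {B : Type u} [CommRing B] [Algebra k B] (p : PrimeSpectrum B) :
    RingHom.ker (toResidue (k := k) p).toRingHom = p.asIdeal :=
  Ideal.ker_algebraMap_residueField (I := p.asIdeal)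

section Formal

variable {D : CurveDatum k}

/-- A property of two-chart line bundles over all `k`-algebras. -/
abbrev DatumPred (D : CurveDatum k) : Type (u + 1) :=
  ∀ (B : Type u) [CommRing B] [Algebra k B], GlueDatum D B → Prop

/-- Stability under base change. -/
def DatumPred.Stable (Mem : DatumPred D) : Prop :=
  ∀ (B B' : Type u) [CommRing B] [Algebra k B] [CommRing B'] [Algebra k B'] (φ : B →ₐ[k] B')
    (G : GlueDatum D B), Mem B G → Mem B' (G.baseChange φ)

/-- Invariance under isomorphism. -/
def DatumPred.RespectsEquiv (Mem : DatumPred D) : Prop :=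
  ∀ (B : Type u) [CommRing B] [Algebra k B] (G G' : GlueDatum D B), G.Equiv G' → Mem B G → Mem B G'

/-- (FG) fibrewise ⟹ global, tested on one field-valued point over every closed point. -/
def DatumPred.FibGlobal (Mem : DatumPred D) : Prop :=
  ∀ (B : Type u) [CommRing B] [Algebra k B] (G : GlueDatum D B), G.IsRig → G.DegZero →
    (∀ m : Ideal B, m.IsMaximal → ∃ (K : Type u) (_ : Field K) (_ : Algebra k K) (χ : B →ₐ[k] K),
      RingHom.ker χ.toRingHom = m ∧ Mem K (G.baseChange χ)) → Mem B G

/-- The locus of points of `Spec B` whose fibre satisfies `Mem`. -/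
def DatumPred.locus (Mem : DatumPred D) {B : Type u} [CommRing B] [Algebra k B]
    (G : GlueDatum D B) : Set (PrimeSpectrum B) :=
  {p | Mem p.asIdeal.ResidueField (G.baseChange (toResidue p))}

/-- The locus of points of `Spec B` over which SOME field-valued point satisfies `Mem`. -/
def DatumPred.locus' (Mem : DatumPred D) {B : Type u} [CommRing B] [Algebra k B]
    (G : GlueDatum D B) : Set (PrimeSpectrum B) :=
  {p | ∃ (K : Type u) (_ : Field K) (_ : Algebra k K) (χ : B →ₐ[k] K),
      RingHom.ker χ.toRingHom = p.asIdeal ∧ Mem K (G.baseChange χ)}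

/-- (OL) the locus is open. -/
def DatumPred.OpenLocus (Mem : DatumPred D) : Prop :=
  ∀ (B : Type u) [CommRing B] [Algebra k B] (G : GlueDatum D B), G.IsRig → G.DegZero →
    IsOpen (Mem.locus G)

/-- (OL') the locus, in the "some field-valued point" form, is open. -/
def DatumPred.OpenLocus' (Mem : DatumPred D) : Prop :=
  ∀ (B : Type u) [CommRing B] [Algebra k B] (G : GlueDatum D B), G.IsRig → G.DegZero →
    IsOpen (Mem.locus' G)

variable {Mem : DatumPred D}

/-- Field descent, a consequence of (FG): if some field-valued point with kernel `p` satisfies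
`Mem`, so does the residue field point. -/
theorem mem_residue_of_point (api : BCApi D) (hE : Mem.RespectsEquiv) (hFG : Mem.FibGlobal)
    {B : Type u} [CommRing B] [Algebra k B] (G : GlueDatum D B) (hrig : G.IsRig)
    (hdeg : G.DegZero) (p : PrimeSpectrum B) {K : Type u} [Field K] [Algebra k K]
    (χ : B →ₐ[k] K) (hχ : RingHom.ker χ.toRingHom = p.asIdeal) (h : Mem K (G.baseChange χ)) :
    Mem p.asIdeal.ResidueField (G.baseChange (toResidue p)) := by
  refine hFG _ _ (api.isRig_baseChange _ hrig) (api.degZero_baseChange _ hdeg) ?_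
  intro m hm
  have h₁ : p.asIdeal ≤ RingHom.ker (χ : B →+* K) := hχ.ge
  have h₂ : p.asIdeal.primeCompl ≤ (IsUnit.submonoid K).comap (χ : B →+* K) := by
    intro b hb
    simp only [Submonoid.mem_comap, IsUnit.mem_submonoid_iff]
    refine isUnit_iff_ne_zero.mpr fun h0 => hb ?_
    rw [← hχ]
    exact h0
  let χ' : p.asIdeal.ResidueField →ₐ[k] K := Ideal.ResidueField.liftₐ p.asIdeal χ h₁ h₂
  have hcomp : χ'.comp (toResidue p) = χ :=
    Ideal.ResidueField.liftₐ_comp_toAlgHom p.asIdeal χ h₁ h₂
  refine ⟨K, inferInstance, inferInstance, χ', ?_, ?_⟩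
  · have hbot : RingHom.ker χ'.toRingHom = ⊥ :=
      (RingHom.injective_iff_ker_eq_bot _).mp (RingHom.injective χ'.toRingHom)
    rw [hbot]
    rcases Ideal.eq_bot_or_top m with h | h
    · exact h.symm
    · exact absurd h hm.ne_top
  · refine hE _ _ _ (api.baseChange_comp (toResidue p) χ' G).symm ?_
    rw [hcomp]
    exact h

/-- Under (FG) the two descriptions of the locus agree. -/
theorem locus'_eq_locus (api : BCApi D) (hE : Mem.RespectsEquiv) (hFG : Mem.FibGlobal)
    {B : Type u} [CommRing B] [Algebra k B] (G : GlueDatum D B) (hrig : G.IsRig)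
    (hdeg : G.DegZero) : Mem.locus' G = Mem.locus G := by
  ext p
  constructor
  · rintro ⟨K, _, _, χ, hχ, h⟩
    exact mem_residue_of_point api hE hFG G hrig hdeg p χ hχ h
  · intro h
    exact ⟨_, inferInstance, inferInstance, toResidue p, ker_toResidue p, h⟩

/-- (OL') ⟹ (OL) under (FG). -/
theorem openLocus_of_openLocus' (api : BCApi D) (hE : Mem.RespectsEquiv) (hFG : Mem.FibGlobal)
    (hOL : Mem.OpenLocus') : Mem.OpenLocus := by
  intro B _ _ G hrig hdeg
  rw [← locus'_eq_locus api hE hFG G hrig hdeg]
  exact hOL B G hrig hdeg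

/-- **Fibre form ⟹ ideal form.** If `Mem` is stable under base change and isomorphism,
fibrewise-global (FG) and has open loci (OL), then for every rigidified degree-zero `G` over `B`
there is an ideal `𝔞` of `B` such that a base change `G.baseChange ψ` satisfies `Mem` exactly
when `𝔞` generates the unit ideal of `B'`. -/
theorem exists_ideal_of_fibre (api : BCApi D) (hS : Mem.Stable) (hE : Mem.RespectsEquiv)
    (hFG : Mem.FibGlobal) (hOL : Mem.OpenLocus)
    (B : Type u) [CommRing B] [Algebra k B] (G : GlueDatum D B) (hrig : G.IsRig)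
    (hdeg : G.DegZero) :
    ∃ 𝔞 : Ideal B, ∀ (B' : Type u) [CommRing B'] [Algebra k B'] (ψ : B →ₐ[k] B'),
      Mem B' (G.baseChange ψ) ↔ 𝔞.map ψ.toRingHom = ⊤ := by
  obtain ⟨𝔞, h𝔞⟩ := (PrimeSpectrum.isClosed_iff_zeroLocus_ideal _).mp
    (hOL B G hrig hdeg).isClosed_compl
  refine ⟨𝔞, fun B' _ _ ψ => ⟨fun h => ?_, fun h => ?_⟩⟩
  · -- (⟹): a maximal ideal containing `𝔞 B'` would give a point of the locus inside `V(𝔞)`
    by_contra hne
    obtain ⟨m', hm', hle⟩ := Ideal.exists_le_maximal _ hne
    let _ : Field (B' ⧸ m') := Ideal.Quotient.field m'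
    let χ' : B' →ₐ[k] B' ⧸ m' := Ideal.Quotient.mkₐ k m'
    have hmem : Mem (B' ⧸ m') (G.baseChange (χ'.comp ψ)) :=
      hE _ _ _ (api.baseChange_comp ψ χ' G) (hS _ _ χ' _ h)
    let p : PrimeSpectrum B := ⟨RingHom.ker (χ'.comp ψ).toRingHom, RingHom.ker_isPrime _⟩
    have hp : p ∈ Mem.locus G := mem_residue_of_point api hE hFG G hrig hdeg p (χ'.comp ψ) rfl hmem
    have hp' : p ∈ (Mem.locus G)ᶜ := by
      rw [h𝔞, PrimeSpectrum.mem_zeroLocus]
      intro a ha
      change (χ'.comp ψ).toRingHom a = 0
      have : ψ a ∈ m' := hle (Ideal.mem_map_of_mem _ ha)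
      simpa [χ'] using (Ideal.Quotient.eq_zero_iff_mem.mpr this)
    exact hp' hp
  · -- (⟸): every closed point of `Spec B'` maps into the locus; conclude by (FG)
    refine hFG _ _ (api.isRig_baseChange _ hrig) (api.degZero_baseChange _ hdeg) ?_
    intro m' hm'
    have : m'.IsPrime := hm'.isPrime
    let q : PrimeSpectrum B' := ⟨m', inferInstance⟩
    let p : PrimeSpectrum B := ⟨m'.comap ψ.toRingHom, inferInstance⟩
    have hp : p ∈ Mem.locus G := by
      by_contra hp
      have hp' : p ∈ (Mem.locus G)ᶜ := hp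
      rw [h𝔞, PrimeSpectrum.mem_zeroLocus] at hp'
      have hle : 𝔞.map ψ.toRingHom ≤ m' := Ideal.map_le_iff_le_comap.mpr hp'
      rw [h] at hle
      exact hm'.ne_top (top_le_iff.mp hle)
    let j : p.asIdeal.ResidueField →ₐ[k] q.asIdeal.ResidueField :=
      Ideal.ResidueField.mapₐ p.asIdeal q.asIdeal ψ rfl
    have hsq : (toResidue q).comp ψ = j.comp (toResidue p) := by
      ext b
      simp [j, toResidue, Ideal.ResidueField.map_algebraMap]
    refine ⟨q.asIdeal.ResidueField, inferInstance, inferInstance, toResidue q, ker_toResidue q, ?_⟩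
    refine hE _ _ _ (api.baseChange_comp ψ (toResidue q) G).symm ?_
    rw [hsq]
    exact hE _ _ _ (api.baseChange_comp (toResidue p) j G) (hS _ _ j _ hp)

/-! ## Membership in a chart -/

/-- `G` over `B` is pulled back from the universal datum `Gu` over `W`. -/
def InChart {W : Type u} [CommRing W] [Algebra k W] (Gu : GlueDatum D W) : DatumPred D :=
  fun B _ _ G => ∃ γ : W →ₐ[k] B, (Gu.baseChange γ).Equiv G

theorem inChart_stable (api : BCApi D) {W : Type u} [CommRing W] [Algebra k W]
    (Gu : GlueDatum D W) : (InChart Gu).Stable := by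
  rintro B B' _ _ _ _ φ G ⟨γ, hγ⟩
  exact ⟨φ.comp γ, (api.baseChange_comp γ φ Gu).symm.trans (api.equiv_baseChange φ hγ)⟩

theorem inChart_respectsEquiv {W : Type u} [CommRing W] [Algebra k W] (Gu : GlueDatum D W) :
    (InChart Gu).RespectsEquiv := by
  rintro B _ _ G G' h ⟨γ, hγ⟩
  exact ⟨γ, hγ.trans h⟩

/-- **Ideal form of the chart locus.** For a chart `(W, Gu)` that is fibrewise-global and has
open loci, the sub-functor "`G.baseChange ψ` is in the chart" of `Spec B` is the open
subscheme `Spec B ∖ V(𝔞)`. This is the `open_locus` field of the algebraic chart family. -/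
theorem exists_ideal_inChart (api : BCApi D) {W : Type u} [CommRing W] [Algebra k W]
    (Gu : GlueDatum D W) (hFG : (InChart Gu).FibGlobal) (hOL : (InChart Gu).OpenLocus)
    (B : Type u) [CommRing B] [Algebra k B] (G : GlueDatum D B) (hrig : G.IsRig)
    (hdeg : G.DegZero) :
    ∃ 𝔞 : Ideal B, ∀ (B' : Type u) [CommRing B'] [Algebra k B'] (ψ : B →ₐ[k] B'),
      (∃ γ : W →ₐ[k] B', (Gu.baseChange γ).Equiv (G.baseChange ψ)) ↔ 𝔞.map ψ.toRingHom = ⊤ :=
  exists_ideal_of_fibre api (inChart_stable api Gu) (inChart_respectsEquiv Gu) hFG hOL B G hrig hdeg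

/-! ## The same with an explicit condition on the fibres -/

/-- A condition on two-chart line bundles over fields (e.g. the explicit chart conditions
"`H¹ = 0`, the generating section does not vanish on `V(y)`, `s` is a basis of `𝒪_D`,
`f ≠ 0`"). -/
abbrev FieldPred (D : CurveDatum k) : Type (u + 1) :=
  ∀ (K : Type u) [Field K] [Algebra k K], GlueDatum D K → Prop

/-- `C` is a fibre criterion for `Mem`: over fields `Mem` implies `C`, the condition `C` is
invariant under isomorphism and under extension of the field (both ways), it is open on the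
base, and it implies `Mem` globally as soon as it holds at all closed points. -/
structure FibreCriterion (Mem : DatumPred D) (C : FieldPred D) : Prop where
  of_mem : ∀ (K : Type u) [Field K] [Algebra k K] (H : GlueDatum D K), H.IsRig → H.DegZero →
    Mem K H → C K H
  respectsEquiv : ∀ (K : Type u) [Field K] [Algebra k K] (H H' : GlueDatum D K), H.Equiv H' →
    C K H → C K H'
  ascent : ∀ (K K' : Type u) [Field K] [Algebra k K] [Field K'] [Algebra k K'] (j : K →ₐ[k] K')
    (H : GlueDatum D K), H.IsRig → H.DegZero → C K H → C K' (H.baseChange j)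
  descent : ∀ (K K' : Type u) [Field K] [Algebra k K] [Field K'] [Algebra k K'] (j : K →ₐ[k] K')
    (H : GlueDatum D K), H.IsRig → H.DegZero → C K' (H.baseChange j) → C K H
  global : ∀ (B : Type u) [CommRing B] [Algebra k B] (G : GlueDatum D B), G.IsRig → G.DegZero →
    (∀ p : PrimeSpectrum B, p.asIdeal.IsMaximal →
      C p.asIdeal.ResidueField (G.baseChange (toResidue p))) → Mem B G
  isOpen : ∀ (B : Type u) [CommRing B] [Algebra k B] (G : GlueDatum D B), G.IsRig → G.DegZero →
    IsOpen {p : PrimeSpectrum B | C p.asIdeal.ResidueField (G.baseChange (toResidue p))}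

namespace FibreCriterion

variable {C : FieldPred D}

/-- A fibre criterion gives (FG). -/
theorem fibGlobal (api : BCApi D) (hC : FibreCriterion Mem C) : Mem.FibGlobal := by
  intro B _ _ G hrig hdeg h
  refine hC.global B G hrig hdeg fun p hp => ?_
  obtain ⟨K, _, _, χ, hχ, hmem⟩ := h p.asIdeal hp
  have h₁ : p.asIdeal ≤ RingHom.ker (χ : B →+* K) := hχ.ge
  have h₂ : p.asIdeal.primeCompl ≤ (IsUnit.submonoid K).comap (χ : B →+* K) := by
    intro b hb
    simp only [Submonoid.mem_comap, IsUnit.mem_submonoid_iff]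
    refine isUnit_iff_ne_zero.mpr fun h0 => hb ?_
    rw [← hχ]
    exact h0
  let χ' : p.asIdeal.ResidueField →ₐ[k] K := Ideal.ResidueField.liftₐ p.asIdeal χ h₁ h₂
  have hcomp : χ'.comp (toResidue p) = χ :=
    Ideal.ResidueField.liftₐ_comp_toAlgHom p.asIdeal χ h₁ h₂
  have hCK : C K (G.baseChange χ) :=
    hC.of_mem K _ (api.isRig_baseChange _ hrig) (api.degZero_baseChange _ hdeg) hmem
  refine hC.descent _ K χ' _ (api.isRig_baseChange _ hrig) (api.degZero_baseChange _ hdeg) ?_
  refine hC.respectsEquiv K _ _ (api.baseChange_comp (toResidue p) χ' G).symm ?_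
  rw [hcomp]
  exact hCK

/-- The locus of `Mem` is the locus of the criterion. -/
theorem locus_eq (api : BCApi D) (hC : FibreCriterion Mem C)
    {B : Type u} [CommRing B] [Algebra k B] (G : GlueDatum D B) (hrig : G.IsRig)
    (hdeg : G.DegZero) :
    Mem.locus G = {p : PrimeSpectrum B | C p.asIdeal.ResidueField (G.baseChange (toResidue p))} := by
  ext p
  constructor
  · intro h
    exact hC.of_mem _ _ (api.isRig_baseChange _ hrig) (api.degZero_baseChange _ hdeg) h
  · intro h
    refine hC.global _ _ (api.isRig_baseChange _ hrig) (api.degZero_baseChange _ hdeg) fun q _ => ?_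
    exact hC.ascent _ _ (toResidue q) _ (api.isRig_baseChange _ hrig)
      (api.degZero_baseChange _ hdeg) h

/-- A fibre criterion gives (OL). -/
theorem openLocus (api : BCApi D) (hC : FibreCriterion Mem C) : Mem.OpenLocus := by
  intro B _ _ G hrig hdeg
  rw [hC.locus_eq api G hrig hdeg]
  exact hC.isOpen B G hrig hdeg

/-- Ideal form from a fibre criterion. -/
theorem exists_ideal (api : BCApi D) (hS : Mem.Stable) (hE : Mem.RespectsEquiv)
    (hC : FibreCriterion Mem C) (B : Type u) [CommRing B] [Algebra k B] (G : GlueDatum D B)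
    (hrig : G.IsRig) (hdeg : G.DegZero) :
    ∃ 𝔞 : Ideal B, ∀ (B' : Type u) [CommRing B'] [Algebra k B'] (ψ : B →ₐ[k] B'),
      Mem B' (G.baseChange ψ) ↔ 𝔞.map ψ.toRingHom = ⊤ :=
  exists_ideal_of_fibre api hS hE (hC.fibGlobal api) (hC.openLocus api) B G hrig hdeg

end FibreCriterion

/-- Ideal form of the chart locus from an explicit fibre criterion for the chart `(W, Gu)`. -/
theorem exists_ideal_inChart_of_criterion (api : BCApi D) {W : Type u} [CommRing W] [Algebra k W]
    (Gu : GlueDatum D W) {C : FieldPred D} (hC : FibreCriterion (InChart Gu) C)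
    (B : Type u) [CommRing B] [Algebra k B] (G : GlueDatum D B) (hrig : G.IsRig)
    (hdeg : G.DegZero) :
    ∃ 𝔞 : Ideal B, ∀ (B' : Type u) [CommRing B'] [Algebra k B'] (ψ : B →ₐ[k] B'),
      (∃ γ : W →ₐ[k] B', (Gu.baseChange γ).Equiv (G.baseChange ψ)) ↔ 𝔞.map ψ.toRingHom = ⊤ :=
  hC.exists_ideal api (inChart_stable api Gu) (inChart_respectsEquiv Gu) B G hrig hdeg

end Formal

end Fermat.Agent.S25.helper9743
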