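import Fermat.Agent.S25.helper743_AlgApi
import Fermat.Agent.S25.helper8573_LCSpec
import Fermat.Agent.S25.helper9743_FibreCapstone

/-!
# S25, layer LC: the two API statements of `helper8573_LCSpec` (helper743)

`Stmt_RigBC` and `Stmt_DegZeroBC` of `helper8573_LCSpec` are `isRig_baseChange` and
`degZero_baseChange` of `helper743_AlgApi`; `bcApi` discharges the API bundle `BCApi` of
`helper9743_FibreCapstone`.
-/

set_option autoImplicit false

namespace Fermat.Agent.S25.helper743

open Fermat.Agent.S25.helper1705 Fermat.Agent.S25.helper2945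

universe u

/-- RIG-BC: rigidifications pull back. -/
theorem stmt_RigBC : helper8573.Stmt_RigBC.{u} :=
  fun _ _ _ _ _ _ _ _ _ φ _ hG => isRig_baseChange hG φ

/-- DEG-BC: degree zero is stable under base change. -/
theorem stmt_DegZeroBC : helper8573.Stmt_DegZeroBC.{u} :=
  fun _ _ _ _ _ _ _ _ _ φ _ hG => degZero_baseChange hG φ

/-- The base-change API bundle of `helper9743_FibreCapstone`. -/
theorem bcApi {k : Type u} [Field k] (D : CurveDatum k) : helper9743.BCApi D where
  equiv_baseChange := fun φ _ _ h => equiv_baseChange h φ
  baseChange_comp := fun φ ψ G => baseChange_comp G φ ψ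
  isRig_baseChange := fun φ _ hG => isRig_baseChange hG φ
  degZero_baseChange := fun φ _ hG => degZero_baseChange hG φ

end Fermat.Agent.S25.helper743
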