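import Fermat.Agent.S25.helper8573_LCAssembly
import Fermat.Agent.S25.helper743_LCSpecApi
import Fermat.Agent.S25.helper8108_GlueRecog
import Fermat.Agent.S25.helper6550_ValUniq

/-!
# S25, layer LC, root `Stmt_ChartOf`, OPEN clause: spreading out (helper4755)

The openness of a chart `(W, Gu)` (with `W` of finite type over `k`) follows from the
fibrewise-to-global property (FG) alone, by a limit argument:

* `exists_algHom_away`      : a `k`-algebra map `W → S⁻¹ B` factors through some `B_f`, `f ∈ S`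
                              (`W` finitely presented);
* `exists_mor_pair_of_equiv_localization`, `spread_equiv` : two-chart line bundles over `C` that
  become isomorphic over `S⁻¹ C` become isomorphic after inverting one `d ∈ S` (clearing
  denominators; no torsion-freeness needed);
* `openLocus'_inChart`      : (FG) ⟹ the locus "some field point over `p` is in the chart" is open;
* `chartOpenIdeal_of_fibGlobal` : (FG) ⟹ `helper8573.ChartOpenIdeal Gu`.

The route is the one announced by helper9598 (chat #528).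
-/

set_option autoImplicit false

open TensorProduct

namespace Fermat.Agent.S25.helper4755

universe u

open Fermat.Agent.S25.helper1705 Fermat.Agent.S25.helper2945

/-! ## Generic lemmas on localized modules -/

section Generic

variable {C : Type*} [CommRing C] (S : Submonoid C) {A : Type*} [CommRing A] [Algebra C A]

/-- A linear map between localizations (at the image of `S ⊆ C`) is, up to a scalar from `S`,
induced by a linear map between the original modules, the source being finitely presented;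
every multiple `a * d` of the denominator works as well. -/
theorem exists_lift_scaled {M M' N N' : Type*} [AddCommGroup M] [Module A M] [AddCommGroup M']
    [Module A M'] [AddCommGroup N] [Module A N] [AddCommGroup N'] [Module A N']
    (ι : M →ₗ[A] N) (ι' : M' →ₗ[A] N')
    [IsLocalizedModule (Algebra.algebraMapSubmonoid A S) ι']
    [Module.FinitePresentation A M] (φ : N →ₗ[A] N') :
    ∃ a ∈ S, ∀ d : C, ∃ f : M →ₗ[A] M',
      ∀ m, ι' (f m) = algebraMap C A (a * d) • φ (ι m) := by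
  obtain ⟨h, s, hs⟩ := Module.FinitePresentation.exists_lift_of_isLocalizedModule
    (Algebra.algebraMapSubmonoid A S) ι' (φ ∘ₗ ι)
  obtain ⟨a, ha, has⟩ := s.2
  refine ⟨a, ha, fun d => ⟨algebraMap C A d • h, fun m => ?_⟩⟩
  have h1 : ι' (h m) = algebraMap C A a • φ (ι m) := by
    have := LinearMap.congr_fun hs m
    simp only [LinearMap.comp_apply, LinearMap.smul_apply] at this
    rw [this, has]
    rfl
  rw [LinearMap.smul_apply, map_smul, h1, smul_smul, ← map_mul, mul_comm d a]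

/-- Two linear maps from a finite `A`-module into an `A'`-module which agree after
localization (of the target, at the image of `S ⊆ C`) agree after multiplication by one
element of `S`. -/
theorem exists_smul_eq_of_localized_eq {A' : Type*} [CommRing A'] [Algebra C A'] [Algebra A A']
    [IsScalarTower C A A']
    {M X Y : Type*} [AddCommGroup M] [Module A M] [Module.Finite A M]
    [AddCommGroup X] [Module A' X] [Module A X] [IsScalarTower A A' X]
    [AddCommGroup Y] [Module A' Y]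
    (ι : X →ₗ[A'] Y) [IsLocalizedModule (Algebra.algebraMapSubmonoid A' S) ι]
    (g₁ g₂ : M →ₗ[A] X) (h : ∀ m, ι (g₁ m) = ι (g₂ m)) :
    ∃ t ∈ S, ∀ m, algebraMap C A t • g₁ m = algebraMap C A t • g₂ m := by
  classical
  have key : ∀ x : M, ∃ t ∈ S, algebraMap C A t • g₁ x = algebraMap C A t • g₂ x := by
    intro x
    obtain ⟨s, hs⟩ := IsLocalizedModule.exists_of_eq
      (S := Algebra.algebraMapSubmonoid A' S) (f := ι) (h x)
    obtain ⟨t, ht, hts⟩ := s.2
    refine ⟨t, ht, ?_⟩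
    have e : ∀ y : X, algebraMap C A t • y = s • y := by
      intro y
      rw [Submonoid.smul_def, ← hts, IsScalarTower.algebraMap_apply C A A',
        algebraMap_smul A' (algebraMap C A t) y]
    rw [e, e]
    exact hs
  choose t ht hts using key
  obtain ⟨σ, hσ⟩ := (inferInstance : Module.Finite A M)
  refine ⟨∏ x ∈ σ, t x, Submonoid.prod_mem S fun x _ => ht x, ?_⟩
  have hle : (⊤ : Submodule A M) ≤
      LinearMap.eqLocus (algebraMap C A (∏ x ∈ σ, t x) • g₁)
        (algebraMap C A (∏ x ∈ σ, t x) • g₂) := by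
    rw [← hσ, Submodule.span_le]
    intro x hx
    rw [SetLike.mem_coe, LinearMap.mem_eqLocus, LinearMap.smul_apply, LinearMap.smul_apply,
      ← Finset.prod_erase_mul σ t hx, map_mul, mul_smul, mul_smul, hts]
  intro m
  have := hle (Submodule.mem_top (x := m))
  rw [LinearMap.mem_eqLocus, LinearMap.smul_apply, LinearMap.smul_apply] at this
  exact this

/-- A linear map with a two-sided inverse up to a unit scalar is bijective. -/
theorem bijective_of_comp_eq_unit_smul {R X Y : Type*} [CommRing R] [AddCommGroup X]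
    [Module R X] [AddCommGroup Y] [Module R Y] (f : X →ₗ[R] Y) (g : Y →ₗ[R] X) (c : R)
    (hc : IsUnit c) (hgf : ∀ x, g (f x) = c • x) (hfg : ∀ y, f (g y) = c • y) :
    Function.Bijective f := by
  obtain ⟨c', hc'⟩ := hc.exists_left_inv
  constructor
  · intro x x' hxx
    have h1 : c • x = c • x' := by rw [← hgf, ← hgf, hxx]
    calc x = c' • c • x := by rw [smul_smul, hc', one_smul]
      _ = c' • c • x' := by rw [h1]
      _ = x' := by rw [smul_smul, hc', one_smul]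
  · intro y
    refine ⟨g (c' • y), ?_⟩
    rw [hfg, smul_smul, mul_comm, hc', one_smul]

end Generic

/-! ## Spreading out an algebra map from a finitely presented algebra -/

section SpreadAlgHom

/-- The algebra map out of `B_f` induced by an algebra map sending `f` to a unit. -/
noncomputable def awayLift {k B P : Type*} [CommRing k] [CommRing B] [Algebra k B] [CommRing P]
    [Algebra k P] (f : B) (g : B →ₐ[k] P) (hg : IsUnit (g f)) : Localization.Away f →ₐ[k] P :=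
  IsLocalization.liftAlgHom (M := Submonoid.powers f) (f := g) (fun y => by
    obtain ⟨m, hm⟩ := y.2
    rw [← hm, map_pow]
    exact hg.pow m)

@[simp]
theorem awayLift_algebraMap {k B P : Type*} [CommRing k] [CommRing B] [Algebra k B] [CommRing P]
    [Algebra k P] (f : B) (g : B →ₐ[k] P) (hg : IsUnit (g f)) (b : B) :
    awayLift f g hg (algebraMap B (Localization.Away f) b) = g b := by
  simp [awayLift]

theorem awayLift_comp {k B P : Type*} [CommRing k] [CommRing B] [Algebra k B] [CommRing P]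
    [Algebra k P] (f : B) (g : B →ₐ[k] P) (hg : IsUnit (g f)) :
    (awayLift f g hg).comp (IsScalarTower.toAlgHom k B (Localization.Away f)) = g := by
  ext b
  simp

variable {k : Type*} [CommRing k] {W : Type*} [CommRing W] [Algebra k W]
  {B : Type*} [CommRing B] [Algebra k B] (S : Submonoid B) {B' : Type*} [CommRing B']
  [Algebra k B'] [Algebra B B'] [IsScalarTower k B B'] [IsLocalization S B']

/-- An element of `B_s` (`s ∈ S`) dying in `S⁻¹ B` is killed by an element of `S`. -/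
theorem exists_mul_eq_zero_of_map_eq_zero (s : B) (μ : Localization.Away s →+* B')
    (hμ : ∀ b, μ (algebraMap B (Localization.Away s) b) = algebraMap B B' b)
    (z : Localization.Away s) (hz : μ z = 0) :
    ∃ t ∈ S, algebraMap B (Localization.Away s) t * z = 0 := by
  obtain ⟨⟨b, ⟨_, n, rfl⟩⟩, hb⟩ := IsLocalization.surj (Submonoid.powers s) z
  have hb' : z * algebraMap B (Localization.Away s) (s ^ n) =
      algebraMap B (Localization.Away s) b := hb
  have h0 : algebraMap B B' b = 0 := by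
    rw [← hμ, ← hb', map_mul, hz, zero_mul]
  obtain ⟨t, ht⟩ := (IsLocalization.map_eq_zero_iff S B' b).mp h0
  refine ⟨t, t.2, ?_⟩
  have hu : IsUnit (algebraMap B (Localization.Away s) (s ^ n)) := by
    rw [map_pow]
    exact (IsLocalization.Away.algebraMap_isUnit s).pow n
  apply hu.mul_left_injective
  show algebraMap B (Localization.Away s) t * z * algebraMap B (Localization.Away s) (s ^ n) =
    0 * algebraMap B (Localization.Away s) (s ^ n)
  rw [zero_mul, mul_assoc, hb', ← map_mul, ht, map_zero]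

/-- **Spreading out an algebra map.** A `k`-algebra map from a finitely presented `k`-algebra
`W` to a localization `S⁻¹ B` factors through `B_f` for some `f ∈ S`. -/
theorem exists_algHom_away [Algebra.FinitePresentation k W] (γ : W →ₐ[k] B') :
    ∃ f ∈ S, ∃ (γ' : W →ₐ[k] Localization.Away f) (μ : Localization.Away f →ₐ[k] B'),
      μ.comp γ' = γ ∧
      μ.comp (IsScalarTower.toAlgHom k B (Localization.Away f)) =
        IsScalarTower.toAlgHom k B B' := by
  classical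
  obtain ⟨n, π, hπ, hker⟩ := Algebra.FinitePresentation.out (R := k) (A := W)
  obtain ⟨σ, hσ⟩ := hker
  obtain ⟨⟨s, hsS⟩, hs⟩ := IsLocalization.exist_integer_multiples_of_finite S
    (fun i : Fin n => γ (π (MvPolynomial.X i)))
  choose b hb using hs
  have hsu : IsUnit (IsScalarTower.toAlgHom k B B' s) := IsLocalization.map_units B' ⟨s, hsS⟩
  let μs : Localization.Away s →ₐ[k] B' := awayLift s (IsScalarTower.toAlgHom k B B') hsu
  let a : Fin n → Localization.Away s := fun i =>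
    IsLocalization.mk' (Localization.Away s) (b i)
      (⟨s, Submonoid.mem_powers s⟩ : Submonoid.powers s)
  have ha : ∀ i, μs (a i) = γ (π (MvPolynomial.X i)) := by
    intro i
    have h1 : a i * algebraMap B (Localization.Away s) s =
        algebraMap B (Localization.Away s) (b i) := IsLocalization.mk'_spec _ _ _
    have h2 := congrArg μs h1
    rw [map_mul, awayLift_algebraMap, awayLift_algebraMap] at h2
    apply hsu.mul_left_injective
    show μs (a i) * (IsScalarTower.toAlgHom k B B') s = γ (π (MvPolynomial.X i)) *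
      (IsScalarTower.toAlgHom k B B') s
    rw [h2]
    have h3 := hb i
    simp only [Algebra.smul_def] at h3
    rw [IsScalarTower.coe_toAlgHom', h3, mul_comm]
  let g₁ : MvPolynomial (Fin n) k →ₐ[k] Localization.Away s := MvPolynomial.aeval a
  have hg₁ : μs.comp g₁ = γ.comp π := MvPolynomial.algHom_ext (fun i => by simp [g₁, ha])
  have hz : ∀ p ∈ σ, ∃ t ∈ S, algebraMap B (Localization.Away s) t * g₁ p = 0 := by
    intro p hp
    refine exists_mul_eq_zero_of_map_eq_zero S s μs.toRingHom (fun b => ?_) (g₁ p) ?_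
    · exact awayLift_algebraMap s _ hsu b
    · have h1 : π p = 0 := by
        have h2 : p ∈ RingHom.ker π.toRingHom := hσ ▸ Ideal.subset_span hp
        exact h2
      show (μs.comp g₁) p = 0
      rw [hg₁, AlgHom.comp_apply, h1, map_zero]
  choose! t htS ht using hz
  have hTS : (∏ p ∈ σ, t p) ∈ S := Submonoid.prod_mem S (fun p hp => htS p hp)
  have hT : ∀ p ∈ σ, algebraMap B (Localization.Away s) (∏ p ∈ σ, t p) * g₁ p = 0 := by
    intro p hp
    rw [← Finset.prod_erase_mul σ t hp, map_mul, mul_assoc, ht p hp, mul_zero]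
  set T := ∏ p ∈ σ, t p with hTdef
  refine ⟨s * T, S.mul_mem hsS hTS, ?_⟩
  have hfu : IsUnit (algebraMap B (Localization.Away (s * T)) (s * T)) :=
    IsLocalization.Away.algebraMap_isUnit _
  rw [map_mul] at hfu
  have hsu' : IsUnit (IsScalarTower.toAlgHom k B (Localization.Away (s * T)) s) :=
    isUnit_of_mul_isUnit_left hfu
  have hTu : IsUnit (algebraMap B (Localization.Away (s * T)) T) :=
    isUnit_of_mul_isUnit_right hfu
  let ν : Localization.Away s →ₐ[k] Localization.Away (s * T) :=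
    awayLift s (IsScalarTower.toAlgHom k B _) hsu'
  have hker : RingHom.ker π.toRingHom ≤ RingHom.ker (ν.comp g₁).toRingHom := by
    rw [← hσ, Ideal.span_le]
    intro p hp
    rw [SetLike.mem_coe, RingHom.mem_ker]
    have h1 := congrArg ν (hT p hp)
    rw [map_mul, map_zero, awayLift_algebraMap] at h1
    exact (hTu.mul_right_eq_zero).mp h1
  have hfS : IsUnit (IsScalarTower.toAlgHom k B B' (s * T)) :=
    IsLocalization.map_units B' ⟨s * T, S.mul_mem hsS hTS⟩
  refine ⟨AlgHom.liftOfSurjective π hπ (ν.comp g₁) hker,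
    awayLift (s * T) (IsScalarTower.toAlgHom k B B') hfS, ?_, awayLift_comp _ _ _⟩
  rw [← AlgHom.cancel_right hπ]
  have h1 : (AlgHom.liftOfSurjective π hπ (ν.comp g₁) hker).comp π = ν.comp g₁ :=
    AlgHom.liftOfSurjective_comp _ _ _ _
  have h2 : (awayLift (s * T) (IsScalarTower.toAlgHom k B B') hfS).comp ν = μs := by
    apply IsLocalization.algHom_ext (Submonoid.powers s)
    ext b
    show (awayLift (s * T) (IsScalarTower.toAlgHom k B B') hfS)
      (ν (algebraMap B (Localization.Away s) b)) = μs (algebraMap B (Localization.Away s) b)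
    rw [awayLift_algebraMap, awayLift_algebraMap, IsScalarTower.coe_toAlgHom',
      awayLift_algebraMap]
  rw [AlgHom.comp_assoc, h1, ← AlgHom.comp_assoc, h2, hg₁]

end SpreadAlgHom

/-! ## Morphism pairs that become isomorphisms after inverting `d` -/

section MorPair

variable {k : Type u} [Field k] {D : CurveDatum k} {C C'' : Type u} [CommRing C] [Algebra k C]
  [CommRing C''] [Algebra k C'']

/-- The image of a scalar of the base under `D.map₀`. -/
theorem map₀_algebraMap (ψ : C →ₐ[k] C'') (d : C) :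
    D.map₀ ψ (algebraMap C (D.A₀ C) d) = algebraMap C'' (D.A₀ C'') (ψ d) := by
  simp [algebraMap_B_A₀]

/-- The image of a scalar of the base under `D.map₁`. -/
theorem map₁_algebraMap (ψ : C →ₐ[k] C'') (d : C) :
    D.map₁ ψ (algebraMap C (D.A₁ C) d) = algebraMap C'' (D.A₁ C'') (ψ d) := by
  simp [algebraMap_B_A₁]

/-- Composition of the lifts of two chart-`0` maps. -/
theorem lift₀_comp_lift₀ (ψ : C →ₐ[k] C'') (H H' : GlueDatum D C) (d : C)
    (u₀ : H.M₀ →ₗ[D.A₀ C] H'.M₀) (w₀ : H'.M₀ →ₗ[D.A₀ C] H.M₀) (wu₀ : ∀ m, w₀ (u₀ m) = d • m)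
    (t : (H.baseChange ψ).M₀) :
    helper8108.lift₀ H' ψ (H.baseChange ψ) ((helper8108.bcMap₀ H ψ).comp w₀)
      (helper8108.lift₀ H ψ (H'.baseChange ψ) ((helper8108.bcMap₀ H' ψ).comp u₀) t) =
      algebraMap C'' (D.A₀ C'') (ψ d) • t := by
  have hzero : helper8108.lift₀ H' ψ (H.baseChange ψ) ((helper8108.bcMap₀ H ψ).comp w₀)
      (helper8108.lift₀ H ψ (H'.baseChange ψ) ((helper8108.bcMap₀ H' ψ).comp u₀) 0) =
      algebraMap C'' (D.A₀ C'') (ψ d) • (0 : (H.baseChange ψ).M₀) := by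
    rw [map_zero, map_zero, smul_zero]
  have hadd : ∀ x y : (H.baseChange ψ).M₀,
      helper8108.lift₀ H' ψ (H.baseChange ψ) ((helper8108.bcMap₀ H ψ).comp w₀)
        (helper8108.lift₀ H ψ (H'.baseChange ψ) ((helper8108.bcMap₀ H' ψ).comp u₀) x) =
        algebraMap C'' (D.A₀ C'') (ψ d) • x →
      helper8108.lift₀ H' ψ (H.baseChange ψ) ((helper8108.bcMap₀ H ψ).comp w₀)
        (helper8108.lift₀ H ψ (H'.baseChange ψ) ((helper8108.bcMap₀ H' ψ).comp u₀) y) =
        algebraMap C'' (D.A₀ C'') (ψ d) • y →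
      helper8108.lift₀ H' ψ (H.baseChange ψ) ((helper8108.bcMap₀ H ψ).comp w₀)
        (helper8108.lift₀ H ψ (H'.baseChange ψ) ((helper8108.bcMap₀ H' ψ).comp u₀) (x + y)) =
        algebraMap C'' (D.A₀ C'') (ψ d) • (x + y) := by
    intro x y hx hy
    rw [map_add, map_add, hx, hy, smul_add]
  let _ := algA₀ D ψ
  change D.A₀ C'' ⊗[D.A₀ C] H.M₀ at t
  induction t using TensorProduct.induction_on with
  | zero => exact hzero
  | tmul a m =>
    rw [helper8108.lift₀_tmul, map_smul, LinearMap.comp_apply, helper8108.lift₀_bcMap₀,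
      LinearMap.comp_apply, wu₀, GlueDatum.smul_def₀, map_smulₛₗ, smul_smul]
    show ((a * D.map₀ ψ (algebraMap C (D.A₀ C) d)) • ((1 : D.A₀ C'') ⊗ₜ[D.A₀ C] m) :
      D.A₀ C'' ⊗[D.A₀ C] H.M₀) = (algebraMap C'' (D.A₀ C'') (ψ d) • (a ⊗ₜ[D.A₀ C] m) :
      D.A₀ C'' ⊗[D.A₀ C] H.M₀)
    rw [map₀_algebraMap, TensorProduct.smul_tmul', TensorProduct.smul_tmul', smul_eq_mul,
      smul_eq_mul, mul_one, mul_comm]
  | add x y hx hy => exact hadd x y hx hy

/-- Composition of the lifts of two chart-`1` maps. -/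
theorem lift₁_comp_lift₁ (ψ : C →ₐ[k] C'') (H H' : GlueDatum D C) (d : C)
    (u₁ : H.M₁ →ₗ[D.A₁ C] H'.M₁) (w₁ : H'.M₁ →ₗ[D.A₁ C] H.M₁) (wu₁ : ∀ m, w₁ (u₁ m) = d • m)
    (t : (H.baseChange ψ).M₁) :
    helper8108.lift₁ H' ψ (H.baseChange ψ) ((helper8108.bcMap₁ H ψ).comp w₁)
      (helper8108.lift₁ H ψ (H'.baseChange ψ) ((helper8108.bcMap₁ H' ψ).comp u₁) t) =
      algebraMap C'' (D.A₁ C'') (ψ d) • t := by
  have hzero : helper8108.lift₁ H' ψ (H.baseChange ψ) ((helper8108.bcMap₁ H ψ).comp w₁)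
      (helper8108.lift₁ H ψ (H'.baseChange ψ) ((helper8108.bcMap₁ H' ψ).comp u₁) 0) =
      algebraMap C'' (D.A₁ C'') (ψ d) • (0 : (H.baseChange ψ).M₁) := by
    rw [map_zero, map_zero, smul_zero]
  have hadd : ∀ x y : (H.baseChange ψ).M₁,
      helper8108.lift₁ H' ψ (H.baseChange ψ) ((helper8108.bcMap₁ H ψ).comp w₁)
        (helper8108.lift₁ H ψ (H'.baseChange ψ) ((helper8108.bcMap₁ H' ψ).comp u₁) x) =
        algebraMap C'' (D.A₁ C'') (ψ d) • x →
      helper8108.lift₁ H' ψ (H.baseChange ψ) ((helper8108.bcMap₁ H ψ).comp w₁)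
        (helper8108.lift₁ H ψ (H'.baseChange ψ) ((helper8108.bcMap₁ H' ψ).comp u₁) y) =
        algebraMap C'' (D.A₁ C'') (ψ d) • y →
      helper8108.lift₁ H' ψ (H.baseChange ψ) ((helper8108.bcMap₁ H ψ).comp w₁)
        (helper8108.lift₁ H ψ (H'.baseChange ψ) ((helper8108.bcMap₁ H' ψ).comp u₁) (x + y)) =
        algebraMap C'' (D.A₁ C'') (ψ d) • (x + y) := by
    intro x y hx hy
    rw [map_add, map_add, hx, hy, smul_add]
  let _ := algA₁ D ψ
  change D.A₁ C'' ⊗[D.A₁ C] H.M₁ at t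
  induction t using TensorProduct.induction_on with
  | zero => exact hzero
  | tmul a m =>
    rw [helper8108.lift₁_tmul, map_smul, LinearMap.comp_apply, helper8108.lift₁_bcMap₁,
      LinearMap.comp_apply, wu₁, GlueDatum.smul_def₁, map_smulₛₗ, smul_smul]
    show ((a * D.map₁ ψ (algebraMap C (D.A₁ C) d)) • ((1 : D.A₁ C'') ⊗ₜ[D.A₁ C] m) :
      D.A₁ C'' ⊗[D.A₁ C] H.M₁) = (algebraMap C'' (D.A₁ C'') (ψ d) • (a ⊗ₜ[D.A₁ C] m) :
      D.A₁ C'' ⊗[D.A₁ C] H.M₁)
    rw [map₁_algebraMap, TensorProduct.smul_tmul', TensorProduct.smul_tmul', smul_eq_mul,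
      smul_eq_mul, mul_one, mul_comm]
  | add x y hx hy => exact hadd x y hx hy

/-- **Morphism pairs.** Morphisms `u : H → H'` (on the three charts) and `w : H' → H` (on the
two charts) of two-chart line bundles over `C` with `w ∘ u = d` and `u ∘ w = d` induce an
isomorphism `H_ψ ≅ H'_ψ` after every base change `ψ : C → C''` making `d` a unit. -/
theorem equiv_baseChange_of_mor_pair (ψ : C →ₐ[k] C'') (H H' : GlueDatum D C) (d : C)
    (hd : IsUnit (ψ d))
    (u₀ : H.M₀ →ₗ[D.A₀ C] H'.M₀) (u₁ : H.M₁ →ₗ[D.A₁ C] H'.M₁)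
    (u₀₁ : H.M₀₁ →ₗ[D.A₀₁ C] H'.M₀₁)
    (w₀ : H'.M₀ →ₗ[D.A₀ C] H.M₀) (w₁ : H'.M₁ →ₗ[D.A₁ C] H.M₁)
    (comm₀ : ∀ m, u₀₁ (H.ρ₀ m) = H'.ρ₀ (u₀ m)) (comm₁ : ∀ m, u₀₁ (H.ρ₁ m) = H'.ρ₁ (u₁ m))
    (wu₀ : ∀ m, w₀ (u₀ m) = d • m) (uw₀ : ∀ m, u₀ (w₀ m) = d • m)
    (wu₁ : ∀ m, w₁ (u₁ m) = d • m) (uw₁ : ∀ m, u₁ (w₁ m) = d • m) :
    (H.baseChange ψ).Equiv (H'.baseChange ψ) := by
  refine helper8108.equiv_baseChange_of_semilinear H ψ
    ((helper8108.bcMap₀ H' ψ).comp u₀) ((helper8108.bcMap₁ H' ψ).comp u₁)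
    ((helper8108.bcMap₀₁ H' ψ).comp u₀₁) ?_ ?_ ?_ ?_
  · intro m
    rw [LinearMap.comp_apply, LinearMap.comp_apply, comm₀, helper8108.baseChange_ρ₀_bcMap₀]
  · intro m
    rw [LinearMap.comp_apply, LinearMap.comp_apply, comm₁, helper8108.baseChange_ρ₁_bcMap₁]
  · exact bijective_of_comp_eq_unit_smul _
      (helper8108.lift₀ H' ψ (H.baseChange ψ) ((helper8108.bcMap₀ H ψ).comp w₀))
      (algebraMap C'' (D.A₀ C'') (ψ d)) (hd.map _)
      (lift₀_comp_lift₀ ψ H H' d u₀ w₀ wu₀) (lift₀_comp_lift₀ ψ H' H d w₀ u₀ uw₀)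
  · exact bijective_of_comp_eq_unit_smul _
      (helper8108.lift₁ H' ψ (H.baseChange ψ) ((helper8108.bcMap₁ H ψ).comp w₁))
      (algebraMap C'' (D.A₁ C'') (ψ d)) (hd.map _)
      (lift₁_comp_lift₁ ψ H H' d u₁ w₁ wu₁) (lift₁_comp_lift₁ ψ H' H d w₁ u₁ uw₁)

end MorPair

/-! ## Spreading out an isomorphism from a localization of the base -/

section Spread

variable {k : Type u} [Field k] {D : CurveDatum k} {C C' : Type u} [CommRing C] [Algebra k C]
  [CommRing C'] [Algebra k C'] [Algebra C C'] [IsScalarTower k C C']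

/-- If `t₁ • x = t₁ • y` then `(r * t₁) • x = (r * t₁) • y`. -/
theorem mul_smul_eq_of_smul_eq {R X : Type*} [Monoid R] [MulAction R X] {t₁ : R} {x y : X}
    (h : t₁ • x = t₁ • y) (r : R) : (r * t₁) • x = (r * t₁) • y := by
  rw [mul_smul, mul_smul, h]

/-- **Clearing denominators over a localization, general form.** Two-chart line bundles `H`,
`H'` over `C` that become isomorphic over a localization `C' = S⁻¹ C` are related by morphisms
`u : H → H'`, `w : H' → H` with `w ∘ u = d`, `u ∘ w = d` for some `d ∈ S`.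
(No torsion-freeness hypothesis: discrepancies are killed by further elements of `S`.) -/
theorem exists_mor_pair_of_equiv_localization (S : Submonoid C) [IsLocalization S C']
    (H H' : GlueDatum D C)
    (h : (H.baseChange (IsScalarTower.toAlgHom k C C')).Equiv
      (H'.baseChange (IsScalarTower.toAlgHom k C C'))) :
    ∃ d ∈ S, ∃ (u₀ : H.M₀ →ₗ[D.A₀ C] H'.M₀) (u₁ : H.M₁ →ₗ[D.A₁ C] H'.M₁)
      (u₀₁ : H.M₀₁ →ₗ[D.A₀₁ C] H'.M₀₁) (w₀ : H'.M₀ →ₗ[D.A₀ C] H.M₀)
      (w₁ : H'.M₁ →ₗ[D.A₁ C] H.M₁),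
      (∀ m, u₀₁ (H.ρ₀ m) = H'.ρ₀ (u₀ m)) ∧ (∀ m, u₀₁ (H.ρ₁ m) = H'.ρ₁ (u₁ m)) ∧
      (∀ m, w₀ (u₀ m) = d • m) ∧ (∀ m, u₀ (w₀ m) = d • m) ∧
      (∀ m, w₁ (u₁ m) = d • m) ∧ (∀ m, u₁ (w₁ m) = d • m) := by
  obtain ⟨I⟩ := h
  let _ := algA₀ D (IsScalarTower.toAlgHom k C C')
  let _ := algA₁ D (IsScalarTower.toAlgHom k C C')
  let _ := algA₀₁ D (IsScalarTower.toAlgHom k C C')
  let _ := algA₀A₀₁ D (IsScalarTower.toAlgHom k C C')
  let _ := algA₁A₀₁ D (IsScalarTower.toAlgHom k C C')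
  have := tower_A₀_A₀₁_A₀₁' D (IsScalarTower.toAlgHom k C C')
  have := tower_A₀_A₀'_A₀₁' D (IsScalarTower.toAlgHom k C C')
  have := tower_A₁_A₀₁_A₀₁' D (IsScalarTower.toAlgHom k C C')
  have := tower_A₁_A₁'_A₀₁' D (IsScalarTower.toAlgHom k C C')
  have := helper6550.isLocalization_A₀ (D := D) (K := C') S
  have := helper6550.isLocalization_A₁ (D := D) (K := C') S
  have := helper6550.isLocalization_A₀₁ (D := D) (K := C') S
  have := helper6550.invertible_M₀₁ H
  have := helper6550.invertible_M₀₁ H'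
  have : Module.FinitePresentation (D.A₀ C) H.M₀ := Module.finitePresentation_of_projective _ _
  have : Module.FinitePresentation (D.A₀ C) H'.M₀ := Module.finitePresentation_of_projective _ _
  have : Module.FinitePresentation (D.A₁ C) H.M₁ := Module.finitePresentation_of_projective _ _
  have : Module.FinitePresentation (D.A₁ C) H'.M₁ := Module.finitePresentation_of_projective _ _
  have : Module.FinitePresentation (D.A₀₁ C) H.M₀₁ :=
    Module.finitePresentation_of_projective _ _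
  -- the restriction maps of the base-changed data, with their types spelled out
  let R₀ : D.A₀ C' ⊗[D.A₀ C] H.M₀ →ₗ[D.A₀ C'] D.A₀₁ C' ⊗[D.A₀₁ C] H.M₀₁ :=
    (H.baseChange (IsScalarTower.toAlgHom k C C')).ρ₀
  let R₁ : D.A₁ C' ⊗[D.A₁ C] H.M₁ →ₗ[D.A₁ C'] D.A₀₁ C' ⊗[D.A₀₁ C] H.M₀₁ :=
    (H.baseChange (IsScalarTower.toAlgHom k C C')).ρ₁
  let R₀' : D.A₀ C' ⊗[D.A₀ C] H'.M₀ →ₗ[D.A₀ C'] D.A₀₁ C' ⊗[D.A₀₁ C] H'.M₀₁ :=
    (H'.baseChange (IsScalarTower.toAlgHom k C C')).ρ₀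
  let R₁' : D.A₁ C' ⊗[D.A₁ C] H'.M₁ →ₗ[D.A₁ C'] D.A₀₁ C' ⊗[D.A₀₁ C] H'.M₀₁ :=
    (H'.baseChange (IsScalarTower.toAlgHom k C C')).ρ₁
  have hr₀ : ∀ m : H.M₀, (1 : D.A₀₁ C') ⊗ₜ[D.A₀₁ C] (H.ρ₀ m) =
      R₀ ((1 : D.A₀ C') ⊗ₜ[D.A₀ C] m) := by
    intro m
    have h1 := sqBaseChange_tmul (S := D.A₀₁ C) (S' := D.A₀₁ C') H.ρ₀ (1 : D.A₀ C') m
    rw [map_one] at h1
    exact h1.symm
  have hr₁ : ∀ m : H.M₁, (1 : D.A₀₁ C') ⊗ₜ[D.A₀₁ C] (H.ρ₁ m) =
      R₁ ((1 : D.A₁ C') ⊗ₜ[D.A₁ C] m) := by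
    intro m
    have h1 := sqBaseChange_tmul (S := D.A₀₁ C) (S' := D.A₀₁ C') H.ρ₁ (1 : D.A₁ C') m
    rw [map_one] at h1
    exact h1.symm
  have hr₀' : ∀ m : H'.M₀, (1 : D.A₀₁ C') ⊗ₜ[D.A₀₁ C] (H'.ρ₀ m) =
      R₀' ((1 : D.A₀ C') ⊗ₜ[D.A₀ C] m) := by
    intro m
    have h1 := sqBaseChange_tmul (S := D.A₀₁ C) (S' := D.A₀₁ C') H'.ρ₀ (1 : D.A₀ C') m
    rw [map_one] at h1
    exact h1.symm
  have hr₁' : ∀ m : H'.M₁, (1 : D.A₀₁ C') ⊗ₜ[D.A₀₁ C] (H'.ρ₁ m) =
      R₁' ((1 : D.A₁ C') ⊗ₜ[D.A₁ C] m) := by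
    intro m
    have h1 := sqBaseChange_tmul (S := D.A₀₁ C) (S' := D.A₀₁ C') H'.ρ₁ (1 : D.A₁ C') m
    rw [map_one] at h1
    exact h1.symm
  have key₀ : ∀ c : C, algebraMap (D.A₀ C') (D.A₀₁ C')
      (algebraMap (D.A₀ C) (D.A₀ C') (algebraMap C (D.A₀ C) c)) =
      algebraMap (D.A₀₁ C) (D.A₀₁ C') (algebraMap C (D.A₀₁ C) c) := by
    intro c
    simp [RingHom.algebraMap_toAlgebra]
  have key₁ : ∀ c : C, algebraMap (D.A₁ C') (D.A₀₁ C')
      (algebraMap (D.A₁ C) (D.A₁ C') (algebraMap C (D.A₁ C) c)) =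
      algebraMap (D.A₀₁ C) (D.A₀₁ C') (algebraMap C (D.A₀₁ C) c) := by
    intro c
    simp [RingHom.algebraMap_toAlgebra]
  have hR₀' : ∀ (c : C) (n : D.A₀ C' ⊗[D.A₀ C] H'.M₀),
      R₀' (algebraMap C (D.A₀ C) c • n) = algebraMap C (D.A₀₁ C) c • R₀' n :=
    helper6550.map_algebraMap_smul_of_square key₀ R₀'
  have hR₁' : ∀ (c : C) (n : D.A₁ C' ⊗[D.A₁ C] H'.M₁),
      R₁' (algebraMap C (D.A₁ C) c • n) = algebraMap C (D.A₀₁ C) c • R₁' n :=
    helper6550.map_algebraMap_smul_of_square key₁ R₁'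
  let E₀ : D.A₀ C' ⊗[D.A₀ C] H.M₀ ≃ₗ[D.A₀ C'] D.A₀ C' ⊗[D.A₀ C] H'.M₀ := I.e₀
  let E₁ : D.A₁ C' ⊗[D.A₁ C] H.M₁ ≃ₗ[D.A₁ C'] D.A₁ C' ⊗[D.A₁ C] H'.M₁ := I.e₁
  let E₀₁ : D.A₀₁ C' ⊗[D.A₀₁ C] H.M₀₁ ≃ₗ[D.A₀₁ C'] D.A₀₁ C' ⊗[D.A₀₁ C] H'.M₀₁ := I.e₀₁
  have hφ₀ : ∀ n, E₀₁ (R₀ n) = R₀' (E₀ n) := fun n => I.comm₀ n
  have hφ₁ : ∀ n, E₀₁ (R₁ n) = R₁' (E₁ n) := fun n => I.comm₁ n
  -- the six localization maps
  let ι₀ := TensorProduct.mk (D.A₀ C) (D.A₀ C') H.M₀ 1
  let ι₀' := TensorProduct.mk (D.A₀ C) (D.A₀ C') H'.M₀ 1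
  let ι₁ := TensorProduct.mk (D.A₁ C) (D.A₁ C') H.M₁ 1
  let ι₁' := TensorProduct.mk (D.A₁ C) (D.A₁ C') H'.M₁ 1
  let ι₀₁ := TensorProduct.mk (D.A₀₁ C) (D.A₀₁ C') H.M₀₁ 1
  let ι₀₁' := TensorProduct.mk (D.A₀₁ C) (D.A₀₁ C') H'.M₀₁ 1
  -- clearing denominators, chart by chart
  obtain ⟨a₀, ha₀, F₀⟩ := exists_lift_scaled S ι₀ ι₀' (E₀.restrictScalars (D.A₀ C)).toLinearMap
  obtain ⟨a₁, ha₁, F₁⟩ := exists_lift_scaled S ι₁ ι₁' (E₁.restrictScalars (D.A₁ C)).toLinearMap
  obtain ⟨a₀₁, ha₀₁, F₀₁⟩ :=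
    exists_lift_scaled S ι₀₁ ι₀₁' (E₀₁.restrictScalars (D.A₀₁ C)).toLinearMap
  obtain ⟨b₀, hb₀, G₀⟩ :=
    exists_lift_scaled S ι₀' ι₀ (E₀.symm.restrictScalars (D.A₀ C)).toLinearMap
  obtain ⟨b₁, hb₁, G₁⟩ :=
    exists_lift_scaled S ι₁' ι₁ (E₁.symm.restrictScalars (D.A₁ C)).toLinearMap
  set c : C := a₀ * a₁ * a₀₁ * b₀ * b₁ with hc
  obtain ⟨u₀, hu₀⟩ := F₀ (a₁ * a₀₁ * b₀ * b₁)
  obtain ⟨u₁, hu₁⟩ := F₁ (a₀ * a₀₁ * b₀ * b₁)
  obtain ⟨u₀₁, hu₀₁⟩ := F₀₁ (a₀ * a₁ * b₀ * b₁)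
  obtain ⟨w₀, hw₀⟩ := G₀ (a₀ * a₁ * a₀₁ * b₁)
  obtain ⟨w₁, hw₁⟩ := G₁ (a₀ * a₁ * a₀₁ * b₀)
  have e₀ : a₀ * (a₁ * a₀₁ * b₀ * b₁) = c := by rw [hc]; ring
  have e₁ : a₁ * (a₀ * a₀₁ * b₀ * b₁) = c := by rw [hc]; ring
  have e₀₁ : a₀₁ * (a₀ * a₁ * b₀ * b₁) = c := by rw [hc]; ring
  have e₀' : b₀ * (a₀ * a₁ * a₀₁ * b₁) = c := by rw [hc]; ring
  have e₁' : b₁ * (a₀ * a₁ * a₀₁ * b₀) = c := by rw [hc]; ring
  rw [e₀] at hu₀
  rw [e₁] at hu₁
  rw [e₀₁] at hu₀₁
  rw [e₀'] at hw₀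
  rw [e₁'] at hw₁
  simp only [LinearEquiv.coe_coe, LinearEquiv.restrictScalars_apply] at hu₀ hu₁ hu₀₁ hw₀ hw₁
  -- (i) compatibility with `ρ₀`, after localization
  have hi : ∀ m, ι₀₁' (((u₀₁.restrictScalars (D.A₀ C)).comp H.ρ₀) m) =
      ι₀₁' ((H'.ρ₀.comp u₀) m) := by
    intro m
    show ι₀₁' (u₀₁ (H.ρ₀ m)) = ι₀₁' (H'.ρ₀ (u₀ m))
    rw [hu₀₁]
    show _ • E₀₁ ((1 : D.A₀₁ C') ⊗ₜ[D.A₀₁ C] (H.ρ₀ m)) =
      (1 : D.A₀₁ C') ⊗ₜ[D.A₀₁ C] (H'.ρ₀ (u₀ m))
    rw [hr₀, hφ₀, hr₀']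
    show _ = R₀' (ι₀' (u₀ m))
    rw [hu₀, hR₀']
    rfl
  -- (ii) compatibility with `ρ₁`, after localization
  have hii : ∀ m, ι₀₁' (((u₀₁.restrictScalars (D.A₁ C)).comp H.ρ₁) m) =
      ι₀₁' ((H'.ρ₁.comp u₁) m) := by
    intro m
    show ι₀₁' (u₀₁ (H.ρ₁ m)) = ι₀₁' (H'.ρ₁ (u₁ m))
    rw [hu₀₁]
    show _ • E₀₁ ((1 : D.A₀₁ C') ⊗ₜ[D.A₀₁ C] (H.ρ₁ m)) =
      (1 : D.A₀₁ C') ⊗ₜ[D.A₀₁ C] (H'.ρ₁ (u₁ m))
    rw [hr₁, hφ₁, hr₁']
    show _ = R₁' (ι₁' (u₁ m))
    rw [hu₁, hR₁']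
    rfl
  -- (iii)–(vi) the compositions, after localization
  have hE₀ : ∀ (a : D.A₀ C) (x : D.A₀ C' ⊗[D.A₀ C] H.M₀), E₀ (a • x) = a • E₀ x :=
    fun a x => LinearMap.map_smul_of_tower E₀.toLinearMap a x
  have hE₀s : ∀ (a : D.A₀ C) (x : D.A₀ C' ⊗[D.A₀ C] H'.M₀), E₀.symm (a • x) = a • E₀.symm x :=
    fun a x => LinearMap.map_smul_of_tower E₀.symm.toLinearMap a x
  have hE₁ : ∀ (a : D.A₁ C) (x : D.A₁ C' ⊗[D.A₁ C] H.M₁), E₁ (a • x) = a • E₁ x :=
    fun a x => LinearMap.map_smul_of_tower E₁.toLinearMap a x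
  have hE₁s : ∀ (a : D.A₁ C) (x : D.A₁ C' ⊗[D.A₁ C] H'.M₁), E₁.symm (a • x) = a • E₁.symm x :=
    fun a x => LinearMap.map_smul_of_tower E₁.symm.toLinearMap a x
  have hiii : ∀ m, ι₀ ((w₀.comp u₀) m) =
      ι₀ ((algebraMap C (D.A₀ C) (c * c) • (LinearMap.id : H.M₀ →ₗ[D.A₀ C] H.M₀)) m) := by
    intro m
    show ι₀ (w₀ (u₀ m)) = ι₀ (algebraMap C (D.A₀ C) (c * c) • m)
    rw [hw₀, hu₀, hE₀s, LinearEquiv.symm_apply_apply, smul_smul, ← map_mul, map_smul]
  have hiv : ∀ m, ι₀' ((u₀.comp w₀) m) =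
      ι₀' ((algebraMap C (D.A₀ C) (c * c) • (LinearMap.id : H'.M₀ →ₗ[D.A₀ C] H'.M₀)) m) := by
    intro m
    show ι₀' (u₀ (w₀ m)) = ι₀' (algebraMap C (D.A₀ C) (c * c) • m)
    rw [hu₀, hw₀, hE₀, LinearEquiv.apply_symm_apply, smul_smul, ← map_mul, map_smul]
  have hv : ∀ m, ι₁ ((w₁.comp u₁) m) =
      ι₁ ((algebraMap C (D.A₁ C) (c * c) • (LinearMap.id : H.M₁ →ₗ[D.A₁ C] H.M₁)) m) := by
    intro m
    show ι₁ (w₁ (u₁ m)) = ι₁ (algebraMap C (D.A₁ C) (c * c) • m)
    rw [hw₁, hu₁, hE₁s, LinearEquiv.symm_apply_apply, smul_smul, ← map_mul, map_smul]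
  have hvi : ∀ m, ι₁' ((u₁.comp w₁) m) =
      ι₁' ((algebraMap C (D.A₁ C) (c * c) • (LinearMap.id : H'.M₁ →ₗ[D.A₁ C] H'.M₁)) m) := by
    intro m
    show ι₁' (u₁ (w₁ m)) = ι₁' (algebraMap C (D.A₁ C) (c * c) • m)
    rw [hu₁, hw₁, hE₁, LinearEquiv.apply_symm_apply, smul_smul, ← map_mul, map_smul]
  obtain ⟨t₁, ht₁, k₁⟩ := exists_smul_eq_of_localized_eq S ι₀₁' _ _ hi
  obtain ⟨t₂, ht₂, k₂⟩ := exists_smul_eq_of_localized_eq S ι₀₁' _ _ hii
  obtain ⟨t₃, ht₃, k₃⟩ := exists_smul_eq_of_localized_eq S ι₀ _ _ hiii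
  obtain ⟨t₄, ht₄, k₄⟩ := exists_smul_eq_of_localized_eq S ι₀' _ _ hiv
  obtain ⟨t₅, ht₅, k₅⟩ := exists_smul_eq_of_localized_eq S ι₁ _ _ hv
  obtain ⟨t₆, ht₆, k₆⟩ := exists_smul_eq_of_localized_eq S ι₁' _ _ hvi
  -- the same statements with scalars from `C`
  have c₁ : ∀ m, t₁ • u₀₁ (H.ρ₀ m) = t₁ • H'.ρ₀ (u₀ m) := fun m => by
    have h := k₁ m
    rw [algebraMap_smul (D.A₀ C) t₁, algebraMap_smul (D.A₀ C) t₁] at h
    exact h
  have c₂ : ∀ m, t₂ • u₀₁ (H.ρ₁ m) = t₂ • H'.ρ₁ (u₁ m) := fun m => by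
    have h := k₂ m
    rw [algebraMap_smul (D.A₁ C) t₂, algebraMap_smul (D.A₁ C) t₂] at h
    exact h
  have c₃ : ∀ m, t₃ • w₀ (u₀ m) = t₃ • (c * c) • m := fun m => by
    have h := k₃ m
    rw [algebraMap_smul (D.A₀ C) t₃, algebraMap_smul (D.A₀ C) t₃, LinearMap.smul_apply,
      algebraMap_smul (D.A₀ C) (c * c)] at h
    exact h
  have c₄ : ∀ m, t₄ • u₀ (w₀ m) = t₄ • (c * c) • m := fun m => by
    have h := k₄ m
    rw [algebraMap_smul (D.A₀ C) t₄, algebraMap_smul (D.A₀ C) t₄, LinearMap.smul_apply,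
      algebraMap_smul (D.A₀ C) (c * c)] at h
    exact h
  have c₅ : ∀ m, t₅ • w₁ (u₁ m) = t₅ • (c * c) • m := fun m => by
    have h := k₅ m
    rw [algebraMap_smul (D.A₁ C) t₅, algebraMap_smul (D.A₁ C) t₅, LinearMap.smul_apply,
      algebraMap_smul (D.A₁ C) (c * c)] at h
    exact h
  have c₆ : ∀ m, t₆ • u₁ (w₁ m) = t₆ • (c * c) • m := fun m => by
    have h := k₆ m
    rw [algebraMap_smul (D.A₁ C) t₆, algebraMap_smul (D.A₁ C) t₆, LinearMap.smul_apply,
      algebraMap_smul (D.A₁ C) (c * c)] at h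
    exact h
  set t : C := t₁ * t₂ * t₃ * t₄ * t₅ * t₆ with ht
  have f₁ : t = (t₂ * t₃ * t₄ * t₅ * t₆) * t₁ := by rw [ht]; ring
  have f₂ : t = (t₁ * t₃ * t₄ * t₅ * t₆) * t₂ := by rw [ht]; ring
  have f₃ : t = (t₁ * t₂ * t₄ * t₅ * t₆) * t₃ := by rw [ht]; ring
  have f₄ : t = (t₁ * t₂ * t₃ * t₅ * t₆) * t₄ := by rw [ht]; ring
  have f₅ : t = (t₁ * t₂ * t₃ * t₄ * t₆) * t₅ := by rw [ht]; ring
  have f₆ : t = (t₁ * t₂ * t₃ * t₄ * t₅) * t₆ := ht
  have hcS : c ∈ S := by
    rw [hc]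
    exact S.mul_mem (S.mul_mem (S.mul_mem (S.mul_mem ha₀ ha₁) ha₀₁) hb₀) hb₁
  have htS : t ∈ S := by
    rw [ht]
    exact S.mul_mem (S.mul_mem (S.mul_mem (S.mul_mem (S.mul_mem ht₁ ht₂) ht₃) ht₄) ht₅) ht₆
  refine ⟨t * (c * c), S.mul_mem htS (S.mul_mem hcS hcS),
    algebraMap C (D.A₀ C) t • u₀, algebraMap C (D.A₁ C) t • u₁, algebraMap C (D.A₀₁ C) t • u₀₁,
    w₀, w₁, ?_, ?_, ?_, ?_, ?_, ?_⟩
  · intro m
    rw [LinearMap.smul_apply, LinearMap.smul_apply, map_smul, algebraMap_smul (D.A₀₁ C) t,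
      algebraMap_smul (D.A₀ C) t, f₁]
    exact mul_smul_eq_of_smul_eq (c₁ m) _
  · intro m
    rw [LinearMap.smul_apply, LinearMap.smul_apply, map_smul, algebraMap_smul (D.A₀₁ C) t,
      algebraMap_smul (D.A₁ C) t, f₂]
    exact mul_smul_eq_of_smul_eq (c₂ m) _
  · intro m
    rw [LinearMap.smul_apply, map_smul, algebraMap_smul (D.A₀ C) t, mul_smul t (c * c) m]
    rw [f₃]
    exact mul_smul_eq_of_smul_eq (c₃ m) _
  · intro m
    rw [LinearMap.smul_apply, algebraMap_smul (D.A₀ C) t, mul_smul t (c * c) m]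
    rw [f₄]
    exact mul_smul_eq_of_smul_eq (c₄ m) _
  · intro m
    rw [LinearMap.smul_apply, map_smul, algebraMap_smul (D.A₁ C) t, mul_smul t (c * c) m]
    rw [f₅]
    exact mul_smul_eq_of_smul_eq (c₅ m) _
  · intro m
    rw [LinearMap.smul_apply, algebraMap_smul (D.A₁ C) t, mul_smul t (c * c) m]
    rw [f₆]
    exact mul_smul_eq_of_smul_eq (c₆ m) _

/-- **Spreading out an isomorphism.** Two-chart line bundles over `C` which become isomorphic
over a localization `S⁻¹ C` become isomorphic after every base change that inverts a suitable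
single element `d ∈ S`. -/
theorem spread_equiv (S : Submonoid C) [IsLocalization S C'] (H H' : GlueDatum D C)
    (h : (H.baseChange (IsScalarTower.toAlgHom k C C')).Equiv
      (H'.baseChange (IsScalarTower.toAlgHom k C C'))) :
    ∃ d ∈ S, ∀ (C'' : Type u) [CommRing C''] [Algebra k C''] (ψ : C →ₐ[k] C''),
      IsUnit (ψ d) → (H.baseChange ψ).Equiv (H'.baseChange ψ) := by
  obtain ⟨d, hd, u₀, u₁, u₀₁, w₀, w₁, comm₀, comm₁, wu₀, uw₀, wu₁, uw₁⟩ :=
    exists_mor_pair_of_equiv_localization S H H' h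
  exact ⟨d, hd, fun C'' _ _ ψ hψ =>
    equiv_baseChange_of_mor_pair ψ H H' d hψ u₀ u₁ u₀₁ w₀ w₁ comm₀ comm₁ wu₀ uw₀ wu₁ uw₁⟩

end Spread

/-! ## Openness of the chart locus from (FG) -/

section OpenLocus

variable {k : Type u} [Field k] {D : CurveDatum k} {W : Type u} [CommRing W] [Algebra k W]
  [Algebra.FiniteType k W]

/-- (FG) ⟹ (OL'): for a chart `(W, Gu)` with `W` of finite type over `k` which is
fibrewise-global, the locus of points of `Spec B` over which some field-valued point of `G`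
lies in the chart is open. -/
theorem openLocus'_inChart (Gu : GlueDatum D W) (hFG : (helper9743.InChart Gu).FibGlobal) :
    (helper9743.InChart Gu).OpenLocus' := by
  intro B _ _ G hrig hdeg
  rw [isOpen_iff_forall_mem_open]
  rintro p ⟨K, _, _, χ, hχ, γK, hγK⟩
  -- Step 1: the chart condition over the local ring at `p`
  let φp : B →ₐ[k] Localization.AtPrime p.asIdeal :=
    IsScalarTower.toAlgHom k B (Localization.AtPrime p.asIdeal)
  have hunits : ∀ y : p.asIdeal.primeCompl, IsUnit (χ y) := fun y =>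
    isUnit_iff_ne_zero.mpr fun h0 => y.2 (hχ.le (show (y : B) ∈ RingHom.ker χ.toRingHom from h0))
  let χ' : Localization.AtPrime p.asIdeal →ₐ[k] K :=
    IsLocalization.liftAlgHom (M := p.asIdeal.primeCompl) (f := χ) hunits
  have hχ'φ : ∀ b, χ' (algebraMap B (Localization.AtPrime p.asIdeal) b) = χ b := by
    intro b
    simp [χ']
  have hχ' : χ'.comp φp = χ := by
    ext b
    exact hχ'φ b
  have hker : RingHom.ker χ'.toRingHom = IsLocalRing.maximalIdeal (Localization.AtPrime p.asIdeal) := by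
    symm
    refine (IsLocalRing.maximalIdeal.isMaximal _).eq_of_le ?_ ?_
    · intro htop
      have h1 : (1 : Localization.AtPrime p.asIdeal) ∈ RingHom.ker χ'.toRingHom := by
        rw [htop]; trivial
      rw [RingHom.mem_ker, map_one] at h1
      exact one_ne_zero h1
    · intro x hx
      obtain ⟨⟨b, s⟩, hbs⟩ := IsLocalization.surj p.asIdeal.primeCompl x
      have hbs' : x * algebraMap B (Localization.AtPrime p.asIdeal) s =
          algebraMap B (Localization.AtPrime p.asIdeal) b := hbs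
      have hb : b ∈ p.asIdeal := by
        rw [← IsLocalization.AtPrime.to_map_mem_maximal_iff (Localization.AtPrime p.asIdeal)
          p.asIdeal b, ← hbs']
        exact Ideal.mul_mem_right _ _ hx
      rw [RingHom.mem_ker]
      have h2 := congrArg χ' hbs'
      rw [map_mul, hχ'φ, hχ'φ] at h2
      have h3 : χ b = 0 := by
        have : b ∈ RingHom.ker χ.toRingHom := by rw [hχ]; exact hb
        exact this
      rw [h3] at h2
      exact (hunits s).mul_left_eq_zero.mp h2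
  have hloc : helper9743.InChart Gu (Localization.AtPrime p.asIdeal) (G.baseChange φp) := by
    refine hFG _ (G.baseChange φp) (helper743.isRig_baseChange hrig φp)
      (helper743.degZero_baseChange hdeg φp) ?_
    intro m hm
    refine ⟨K, inferInstance, inferInstance, χ', ?_, γK, ?_⟩
    · rw [hker]
      exact (IsLocalRing.eq_maximalIdeal hm).symm
    · refine hγK.trans ?_
      rw [← hχ']
      exact (helper743.baseChange_comp G φp χ').symm
  obtain ⟨γp, hγp⟩ := hloc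
  -- Step 2: spread the chart map out to some `B_f`
  have : Algebra.FinitePresentation k W :=
    Algebra.FinitePresentation.of_finiteType.mp inferInstance
  obtain ⟨f, hf, γf, μ, hμγ, hμφ⟩ := exists_algHom_away p.asIdeal.primeCompl γp
  let φf : B →ₐ[k] Localization.Away f := IsScalarTower.toAlgHom k B (Localization.Away f)
  let _ : Algebra (Localization.Away f) (Localization.AtPrime p.asIdeal) := μ.toRingHom.toAlgebra
  have : IsScalarTower k (Localization.Away f) (Localization.AtPrime p.asIdeal) :=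
    IsScalarTower.of_algebraMap_eq fun c => (μ.commutes c).symm
  have : IsScalarTower B (Localization.Away f) (Localization.AtPrime p.asIdeal) :=
    IsScalarTower.of_algebraMap_eq fun b => (DFunLike.congr_fun hμφ b).symm
  have hμ : IsScalarTower.toAlgHom k (Localization.Away f) (Localization.AtPrime p.asIdeal) = μ := by
    ext x
    rfl
  have : IsLocalization (Algebra.algebraMapSubmonoid (Localization.Away f) p.asIdeal.primeCompl)
      (Localization.AtPrime p.asIdeal) :=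
    IsLocalization.isLocalization_of_submonoid_le (Localization.Away f)
      (Localization.AtPrime p.asIdeal) (Submonoid.powers f) p.asIdeal.primeCompl
      (Submonoid.powers_le.mpr hf)
  -- Step 3: the two data over `B_f` become isomorphic over the local ring; spread the isomorphism
  have hEq : ((Gu.baseChange γf).baseChange
      (IsScalarTower.toAlgHom k (Localization.Away f) (Localization.AtPrime p.asIdeal))).Equiv
      ((G.baseChange φf).baseChange
        (IsScalarTower.toAlgHom k (Localization.Away f) (Localization.AtPrime p.asIdeal))) := by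
    rw [hμ]
    refine (helper743.baseChange_comp Gu γf μ).trans ?_
    rw [hμγ]
    refine hγp.trans ?_
    have h1 : φp = μ.comp φf := hμφ.symm
    rw [h1]
    exact (helper743.baseChange_comp G φf μ).symm
  obtain ⟨d, hd, hspread⟩ := spread_equiv
    (Algebra.algebraMapSubmonoid (Localization.Away f) p.asIdeal.primeCompl)
    (Gu.baseChange γf) (G.baseChange φf) hEq
  obtain ⟨d₀, hd₀, rfl⟩ := hd
  -- Step 4: the neighbourhood `D(f * d₀)` of `p`
  refine ⟨PrimeSpectrum.basicOpen (f * d₀), ?_, (PrimeSpectrum.basicOpen (f * d₀)).isOpen, ?_⟩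
  · intro q hq
    have hq' : f * d₀ ∉ q.asIdeal := hq
    have hfq : f ∉ q.asIdeal := fun h => hq' (Ideal.mul_mem_right _ _ h)
    have hdq : d₀ ∉ q.asIdeal := fun h => hq' (Ideal.mul_mem_left _ _ h)
    have hkq : RingHom.ker (helper9743.toResidue (k := k) q).toRingHom = q.asIdeal :=
      helper9743.ker_toResidue q
    have hfu : IsUnit (helper9743.toResidue (k := k) q f) :=
      isUnit_iff_ne_zero.mpr fun h0 => hfq (hkq.le h0)
    have hψ : (awayLift f (helper9743.toResidue (k := k) q) hfu).comp φf =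
        helper9743.toResidue (k := k) q := awayLift_comp f _ hfu
    have hdu : IsUnit (awayLift f (helper9743.toResidue (k := k) q) hfu
        (algebraMap B (Localization.Away f) d₀)) := by
      rw [awayLift_algebraMap]
      exact isUnit_iff_ne_zero.mpr fun h0 => hdq (hkq.le h0)
    have h1 := hspread _ (awayLift f (helper9743.toResidue (k := k) q) hfu) hdu
    refine ⟨_, inferInstance, inferInstance, helper9743.toResidue (k := k) q, hkq,
      (awayLift f (helper9743.toResidue (k := k) q) hfu).comp γf, ?_⟩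
    refine (helper743.baseChange_comp Gu γf _).symm.trans (h1.trans ?_)
    have h2 := helper743.baseChange_comp G φf (awayLift f (helper9743.toResidue (k := k) q) hfu)
    rw [hψ] at h2
    exact h2
  · show f * d₀ ∉ p.asIdeal
    exact fun h => (p.isPrime.mem_or_mem h).elim hf hd₀

/-- **OPEN clause of the chart theorem.** A chart `(W, Gu)` with `W` of finite type over `k`
which is fibrewise-global (FG) is an open subfunctor, in ideal form. -/
theorem chartOpenIdeal_of_fibGlobal (Gu : GlueDatum D W)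
    (hFG : (helper9743.InChart Gu).FibGlobal) : helper8573.ChartOpenIdeal Gu := by
  intro B _ _ G hrig hdeg
  have hOL := helper9743.openLocus_of_openLocus' (helper743.bcApi D)
    (helper9743.inChart_respectsEquiv Gu) hFG (openLocus'_inChart Gu hFG)
  obtain ⟨𝔞, h𝔞⟩ := helper9743.exists_ideal_inChart (helper743.bcApi D) Gu hFG hOL B G hrig hdeg
  exact ⟨𝔞, fun B' _ _ ψ => h𝔞 B' ψ⟩

end OpenLocus

end Fermat.Agent.S25.helper4755
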