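import Fermat.Agent.S25.helper4755_ValuationUnique
import Fermat.Agent.S25.helper2945_AlgDefs
import Fermat.Agent.S25.helper1800_CurveDatumBasics
import Fermat.Agent.Lib.helper9007_TensorDomain

/-!
# S25, leaf U8 (SF): special-fibre hypotheses for two-chart line bundles over a valuation ring

For an algebraically closed field `k`, a curve datum `D`, a valuation ring `V` that is a
`k`-algebra and `G : GlueDatum D V`, we produce the hypotheses of
`exists_linearEquiv_of_isTwoChart` (file `helper4755_ValuationUnique`):

* `isPrime_map_maximalIdeal₀`, `isPrime_map_maximalIdeal₁` : `𝔪 · (R_i ⊗ V)` is prime;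
* `projective_M₀`, `projective_M₁` : the chart modules are projective over the base ring;
* `isTwoChart G : IsTwoChart V (D.A₀ V) (D.A₁ V) (D.A₀₁ V) G.ρ₀B G.ρ₁B`.
-/

set_option autoImplicit false

open scoped TensorProduct

namespace Fermat.Agent.S25.helper4755

universe u

section Generic

/-- Transitivity of projectivity: a projective module over a `V`-algebra `A` that is projective
as a `V`-module is projective over `V`. -/
theorem projective_of_tower (V A M : Type*) [CommRing V] [CommRing A] [Algebra V A]
    [AddCommGroup M] [Module A M] [Module V M] [IsScalarTower V A M]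
    [Module.Projective V A] [Module.Projective A M] : Module.Projective V M := by
  classical
  obtain ⟨s, hs⟩ := Module.projective_def'.mp (inferInstance : Module.Projective A M)
  have : Module.Projective V (M →₀ A) :=
    Module.Projective.of_equiv (finsuppLequivDFinsupp V).symm
  refine Module.Projective.of_split (s.restrictScalars V)
    ((Finsupp.linearCombination A (id : M → M)).restrictScalars V) ?_
  ext m
  have := congrArg (fun g : M →ₗ[A] M => g m) hs
  simpa using this

/-- `R ⊗[k] V` is a projective `V`-module for the right algebra structure. -/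
theorem projective_tensor_right (k R V : Type*) [Field k] [CommRing R] [Algebra k R]
    [CommRing V] [Algebra k V] [Algebra V (R ⊗[k] V)]
    (h : ∀ b : V, algebraMap V (R ⊗[k] V) b = 1 ⊗ₜ[k] b) :
    Module.Projective V (R ⊗[k] V) := by
  let e : (R ⊗[k] V) →ₗ[V] (V ⊗[k] R) :=
    { toFun := TensorProduct.comm k R V
      map_add' := fun x y => map_add _ x y
      map_smul' := fun b t => by
        simp only [RingHom.id_apply]
        induction t using TensorProduct.induction_on with
        | zero => simp
        | tmul r v =>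
          rw [Algebra.smul_def, h, Algebra.TensorProduct.tmul_mul_tmul]
          simp [TensorProduct.smul_tmul']
        | add x y hx hy => rw [smul_add, map_add, hx, hy, map_add, smul_add] }
  let e' : (V ⊗[k] R) →ₗ[V] (R ⊗[k] V) :=
    { toFun := (TensorProduct.comm k R V).symm
      map_add' := fun x y => map_add _ x y
      map_smul' := fun b t => by
        simp only [RingHom.id_apply]
        induction t using TensorProduct.induction_on with
        | zero => simp
        | tmul v r =>
          rw [TensorProduct.smul_tmul', TensorProduct.comm_symm_tmul, TensorProduct.comm_symm_tmul,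
            Algebra.smul_def b (r ⊗ₜ[k] v), h, Algebra.TensorProduct.tmul_mul_tmul, one_mul,
            smul_eq_mul]
        | add x y hx hy => rw [smul_add, map_add, hx, hy, map_add, smul_add] }
  refine Module.Projective.of_split e e' ?_
  ext t
  exact (TensorProduct.comm k R V).symm_apply_apply t


/-- In a projective module, multiplication by an element outside a prime ideal `I` is injective
modulo `I`. -/
theorem mem_smul_top_of_smul_mem {A : Type*} [CommRing A] {P : Type*} [AddCommGroup P]
    [Module A P] [Module.Projective A P] (I : Ideal A) [I.IsPrime] {a : A} (ha : a ∉ I) {m : P}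
    (h : a • m ∈ (I • ⊤ : Submodule A P)) : m ∈ (I • ⊤ : Submodule A P) := by
  refine mem_smul_top_of_functional I fun φ => ?_
  have h1 := functional_mem_of_mem_smul_top I h φ
  rw [map_smul, smul_eq_mul] at h1
  exact (Ideal.IsPrime.mem_or_mem inferInstance h1).resolve_left ha

end Generic

section Loc

/-- Every element of a localized module is a multiple of a restricted element. -/
theorem exists_eq_smul_of_isLocalizedModule {A A' : Type*} [CommRing A] [CommRing A']
    [Algebra A A'] (S : Submonoid A) [IsLocalization S A']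
    {M N : Type*} [AddCommGroup M] [AddCommGroup N] [Module A M] [Module A N] [Module A' N]
    [IsScalarTower A A' N] (ρ : M →ₗ[A] N) [IsLocalizedModule S ρ] (n : N) :
    ∃ (a : A') (m : M), n = a • ρ m := by
  obtain ⟨⟨m, s⟩, h⟩ := IsLocalizedModule.surj S ρ n
  obtain ⟨u, hu⟩ := IsLocalization.map_units A' s
  refine ⟨↑u⁻¹, m, ?_⟩
  have h1 : ρ m = (u : A') • n := by
    rw [← h, hu, algebraMap_smul, Submonoid.smul_def]
  rw [h1, smul_smul, Units.inv_mul, one_smul]

/-- A localization of a `V`-torsion-free module is `V`-torsion-free. -/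
theorem eq_zero_of_smul_eq_zero_of_isLocalizedModule {A : Type*} [CommRing A] (S : Submonoid A)
    {M N : Type*} [AddCommGroup M] [AddCommGroup N] [Module A M] [Module A N]
    (ρ : M →ₗ[A] N) [IsLocalizedModule S ρ]
    {V : Type*} [CommRing V] [Algebra V A] [Module V M] [Module V N] [IsScalarTower V A M]
    [IsScalarTower V A N]
    (htf : ∀ (e : V) (m : M), e ≠ 0 → e • m = 0 → m = 0) (e : V) (n : N) (he : e ≠ 0)
    (h : e • n = 0) : n = 0 := by
  obtain ⟨⟨m, s⟩, hs⟩ := IsLocalizedModule.surj S ρ n
  have hs' : (s : A) • n = ρ m := by rw [← hs, Submonoid.smul_def]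
  have h1 : ρ (e • m) = 0 := by
    rw [LinearMap.map_smul_of_tower, ← hs', smul_comm, h, smul_zero]
  obtain ⟨c, hc⟩ := (IsLocalizedModule.eq_zero_iff S ρ).mp h1
  have h2 : (c : A) • m = 0 := htf e _ he (by rw [smul_comm, ← Submonoid.smul_def]; exact hc)
  have h3 : (c * s) • n = 0 := by
    rw [Submonoid.smul_def, Submonoid.coe_mul, mul_smul, hs', ← map_smul, h2, map_zero]
  exact IsLocalizedModule.smul_injective ρ (c * s) (by simpa using h3)

/-- The restriction map to a localization at elements outside `𝔪 A` is injective modulo `𝔪`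
(for a projective module, `𝔪 A` prime). -/
theorem mem_smul_top_of_map_mem_of_isLocalizedModule {A : Type*} [CommRing A] (S : Submonoid A)
    {M N : Type*} [AddCommGroup M] [AddCommGroup N] [Module A M] [Module A N]
    (ρ : M →ₗ[A] N) [IsLocalizedModule S ρ]
    {V : Type*} [CommRing V] [Algebra V A] [Module V M] [Module V N] [IsScalarTower V A M]
    [IsScalarTower V A N] [IsDomain V] [ValuationRing V]
    [Module.Projective A M]
    (hp : (Ideal.map (algebraMap V A) (IsLocalRing.maximalIdeal V)).IsPrime)
    (hS : ∀ s ∈ S, s ∉ Ideal.map (algebraMap V A) (IsLocalRing.maximalIdeal V))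
    (m : M) (h : ρ m ∈ (IsLocalRing.maximalIdeal V • ⊤ : Submodule V N)) :
    m ∈ (IsLocalRing.maximalIdeal V • ⊤ : Submodule V M) := by
  obtain ⟨t, ht, n, hn⟩ := exists_mem_maximalIdeal_smul h
  obtain ⟨⟨m', s⟩, hs⟩ := IsLocalizedModule.surj S ρ n
  have hs' : (s : A) • n = ρ m' := by rw [← hs, Submonoid.smul_def]
  have h1 : ρ ((s : A) • m) = ρ (t • m') := by
    rw [map_smul, hn, LinearMap.map_smul_of_tower, ← hs', smul_comm]
  obtain ⟨c, hc⟩ := IsLocalizedModule.exists_of_eq (S := S) h1
  have h2 : ((c : A) * (s : A)) • m ∈ (IsLocalRing.maximalIdeal V • ⊤ : Submodule V M) := by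
    have h3 : ((c : A) * (s : A)) • m = t • ((c : A) • m') := by
      rw [mul_smul, ← Submonoid.smul_def, hc, Submonoid.smul_def, smul_comm]
    rw [h3]
    exact Submodule.smul_mem_smul ht Submodule.mem_top
  rw [mem_smul_top_iff_mem_map_smul_top (A := A)] at h2 ⊢
  have := hp
  exact mem_smul_top_of_smul_mem _ (hS _ (S.mul_mem c.2 s.2)) h2

end Loc

section Datum

open Fermat.Agent.S25.helper1705 Fermat.Agent.S25.helper2945

variable {k : Type u} [Field k] [IsAlgClosed k] (D : CurveDatum k)
  (V : Type u) [CommRing V] [IsDomain V] [ValuationRing V] [Algebra k V]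

omit [IsAlgClosed k] [IsDomain V] [ValuationRing V] in
theorem map_ideal_eq_ker₀ (J : Ideal V) :
    Ideal.map (algebraMap V (D.A₀ V)) J =
      RingHom.ker (Algebra.TensorProduct.map (AlgHom.id k D.R₀) (Ideal.Quotient.mkₐ k J)) := by
  have hker : RingHom.ker (Ideal.Quotient.mkₐ k J) = J := by
    ext v
    rw [RingHom.mem_ker, Ideal.Quotient.mkₐ_eq_mk, Ideal.Quotient.eq_zero_iff_mem]
  rw [Algebra.TensorProduct.lTensor_ker _ (Ideal.Quotient.mkₐ_surjective k _), hker]
  rfl

omit [IsAlgClosed k] [IsDomain V] [ValuationRing V] in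
theorem map_ideal_eq_ker₁ (J : Ideal V) :
    Ideal.map (algebraMap V (D.A₁ V)) J =
      RingHom.ker (Algebra.TensorProduct.map (AlgHom.id k D.R₁) (Ideal.Quotient.mkₐ k J)) := by
  have hker : RingHom.ker (Ideal.Quotient.mkₐ k J) = J := by
    ext v
    rw [RingHom.mem_ker, Ideal.Quotient.mkₐ_eq_mk, Ideal.Quotient.eq_zero_iff_mem]
  rw [Algebra.TensorProduct.lTensor_ker _ (Ideal.Quotient.mkₐ_surjective k _), hker]
  rfl

/-- **(SF1)** `𝔪 · (R₀ ⊗ V)` is a prime ideal. -/
theorem isPrime_map_maximalIdeal₀ :
    (Ideal.map (algebraMap V (D.A₀ V)) (IsLocalRing.maximalIdeal V)).IsPrime := by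
  rw [map_ideal_eq_ker₀]
  have : IsDomain (D.R₀ ⊗[k] (V ⧸ IsLocalRing.maximalIdeal V)) :=
    Fermat.Agent.Lib.helper9007.isDomain_tensorProduct k D.R₀ _
  exact RingHom.ker_isPrime _

/-- **(SF1)** `𝔪 · (R₁ ⊗ V)` is a prime ideal. -/
theorem isPrime_map_maximalIdeal₁ :
    (Ideal.map (algebraMap V (D.A₁ V)) (IsLocalRing.maximalIdeal V)).IsPrime := by
  rw [map_ideal_eq_ker₁]
  have : IsDomain (D.R₁ ⊗[k] (V ⧸ IsLocalRing.maximalIdeal V)) :=
    Fermat.Agent.Lib.helper9007.isDomain_tensorProduct k D.R₁ _
  exact RingHom.ker_isPrime _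

/-- Powers of `x` are nonzero on the special fibre of the first chart. -/
theorem xB_pow_not_mem (n : ℕ) :
    (xB D V) ^ n ∉ Ideal.map (algebraMap V (D.A₀ V)) (IsLocalRing.maximalIdeal V) := by
  have hp := isPrime_map_maximalIdeal₀ D V
  intro h
  have h' := hp.mem_of_pow_mem n h
  rw [map_ideal_eq_ker₀, RingHom.mem_ker] at h'
  have h2 : (D.x ⊗ₜ[k] (1 : V ⧸ IsLocalRing.maximalIdeal V)) = 0 := by
    simpa [xB] using h'
  have hinj : Function.Injective (Algebra.TensorProduct.includeLeft :
      D.R₀ →ₐ[k] D.R₀ ⊗[k] (V ⧸ IsLocalRing.maximalIdeal V)) :=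
    Algebra.TensorProduct.includeLeft_injective
      (algebraMap k (V ⧸ IsLocalRing.maximalIdeal V)).injective
  exact Fermat.Agent.S25.helper1800.x_ne_zero D (hinj (by simpa using h2))

/-- Powers of `y` are nonzero on the special fibre of the chart at infinity. -/
theorem yB_pow_not_mem (n : ℕ) :
    (yB D V) ^ n ∉ Ideal.map (algebraMap V (D.A₁ V)) (IsLocalRing.maximalIdeal V) := by
  have hp := isPrime_map_maximalIdeal₁ D V
  intro h
  have h' := hp.mem_of_pow_mem n h
  rw [map_ideal_eq_ker₁, RingHom.mem_ker] at h'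
  have h2 : (D.y ⊗ₜ[k] (1 : V ⧸ IsLocalRing.maximalIdeal V)) = 0 := by
    simpa [yB] using h'
  have hinj : Function.Injective (Algebra.TensorProduct.includeLeft :
      D.R₁ →ₐ[k] D.R₁ ⊗[k] (V ⧸ IsLocalRing.maximalIdeal V)) :=
    Algebra.TensorProduct.includeLeft_injective
      (algebraMap k (V ⧸ IsLocalRing.maximalIdeal V)).injective
  exact Fermat.Agent.S25.helper1800.y_ne_zero D (hinj (by simpa using h2))

omit [IsAlgClosed k] [IsDomain V] [ValuationRing V] in
/-- `R₀ ⊗ B` is a projective `B`-module. -/
theorem projective_A₀ : Module.Projective V (D.A₀ V) :=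
  projective_tensor_right k D.R₀ V (fun _ => rfl)

omit [IsAlgClosed k] [IsDomain V] [ValuationRing V] in
/-- `R₁ ⊗ B` is a projective `B`-module. -/
theorem projective_A₁ : Module.Projective V (D.A₁ V) :=
  projective_tensor_right k D.R₁ V (fun _ => rfl)

variable {D V}

omit [IsAlgClosed k] [IsDomain V] [ValuationRing V] in
/-- **(SF2)** The chart module `M₀` of a two-chart line bundle over `B` is `B`-projective. -/
theorem projective_M₀ (G : GlueDatum D V) : Module.Projective V G.M₀ := by
  have := projective_A₀ D V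
  exact projective_of_tower V (D.A₀ V) G.M₀

omit [IsAlgClosed k] [IsDomain V] [ValuationRing V] in
/-- **(SF2)** The chart module `M₁` of a two-chart line bundle over `B` is `B`-projective. -/
theorem projective_M₁ (G : GlueDatum D V) : Module.Projective V G.M₁ := by
  have := projective_A₁ D V
  exact projective_of_tower V (D.A₁ V) G.M₁

/-- **(SF3)** A two-chart line bundle over a valuation ring `V` (a `k`-algebra, `k`
algebraically closed) satisfies the hypotheses `IsTwoChart` of the valuation-ring uniqueness
theorem `exists_linearEquiv_of_isTwoChart`. -/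
theorem isTwoChart (G : GlueDatum D V) :
    IsTwoChart V (D.A₀ V) (D.A₁ V) (D.A₀₁ V) G.ρ₀B G.ρ₁B where
  inv₀ := G.inv₀
  inv₁ := G.inv₁
  proj₀ := projective_M₀ G
  proj₁ := projective_M₁ G
  tf := fun e n he h =>
    eq_zero_of_smul_eq_zero_of_isLocalizedModule (Submonoid.powers (xB D V)) G.ρ₀
      (fun e m he h => by
        have := projective_M₀ G
        exact eq_zero_of_smul_eq_zero_of_projective he h) e n he h
  gen₀ := fun n => exists_eq_smul_of_isLocalizedModule (Submonoid.powers (xB D V)) G.ρ₀ n
  gen₁ := fun n => exists_eq_smul_of_isLocalizedModule (Submonoid.powers (yB D V)) G.ρ₁ n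
  sat₀ := fun m h =>
    mem_smul_top_of_map_mem_of_isLocalizedModule (Submonoid.powers (xB D V)) G.ρ₀
      (isPrime_map_maximalIdeal₀ D V) (by rintro s ⟨n, rfl⟩; exact xB_pow_not_mem D V n) m h
  sat₁ := fun m h =>
    mem_smul_top_of_map_mem_of_isLocalizedModule (Submonoid.powers (yB D V)) G.ρ₁
      (isPrime_map_maximalIdeal₁ D V) (by rintro s ⟨n, rfl⟩; exact yB_pow_not_mem D V n) m h

end Datum

end Fermat.Agent.S25.helper4755
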