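import Fermat.Agent.S25.helper4755_ValSpecialFibre
import Fermat.Agent.S25.helper985_LGAlg

/-!
# S25, leaf U8: assembly of `helper985.Stmt_AlgValUniq` (helper4755)

`stmt_AlgValUniq_of_clearDenom : Stmt_ClearDenom → helper985.Stmt_AlgValUniq`, where
`Stmt_ClearDenom` is the closed Prop "an isomorphism of two-chart line bundles over the
fraction field `K` of a domain `V` comes, after clearing denominators, from morphisms
`u : G → G'`, `w : G' → G` over `V` with `w ∘ u = d`, `u ∘ w = d`, `d ≠ 0`".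
Everything else (valuation-ring content argument, special-fibre hypotheses) is proved in
`helper4755_ValuationUnique` and `helper4755_ValSpecialFibre`.
-/

set_option autoImplicit false

universe u

namespace Fermat.Agent.S25.helper4755

open Fermat.Agent.S25.helper1705 Fermat.Agent.S25.helper2945

/-- The output shape of "clearing denominators" (leaf CD in GlueDatum form): an isomorphism over
the fraction field gives morphisms `u : G → G'`, `w : G' → G` over `V` with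
`w ∘ u = d`, `u ∘ w = d`, `d ≠ 0`. -/
def Stmt_ClearDenom : Prop :=
  ∀ (k : Type u) [Field k] (D : CurveDatum k)
    (V : Type u) [CommRing V] [IsDomain V] [Algebra k V]
    (K : Type u) [Field K] [Algebra V K] [IsFractionRing V K] [Algebra k K] [IsScalarTower k V K]
    (G G' : GlueDatum D V),
    (G.baseChange (IsScalarTower.toAlgHom k V K)).Equiv
      (G'.baseChange (IsScalarTower.toAlgHom k V K)) →
    ∃ (d : V) (u₀ : G.M₀ →ₗ[D.A₀ V] G'.M₀) (u₁ : G.M₁ →ₗ[D.A₁ V] G'.M₁)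
      (u₀₁ : G.M₀₁ →ₗ[D.A₀₁ V] G'.M₀₁) (w₀ : G'.M₀ →ₗ[D.A₀ V] G.M₀)
      (w₁ : G'.M₁ →ₗ[D.A₁ V] G.M₁) (w₀₁ : G'.M₀₁ →ₗ[D.A₀₁ V] G.M₀₁),
      d ≠ 0 ∧ (∀ m, G'.ρ₀ (u₀ m) = u₀₁ (G.ρ₀ m)) ∧ (∀ m, G'.ρ₁ (u₁ m) = u₀₁ (G.ρ₁ m)) ∧
      (∀ m, G.ρ₀ (w₀ m) = w₀₁ (G'.ρ₀ m)) ∧ (∀ m, G.ρ₁ (w₁ m) = w₀₁ (G'.ρ₁ m)) ∧
      (∀ m, w₀ (u₀ m) = d • m) ∧ (∀ m, u₀ (w₀ m) = d • m) ∧
      (∀ m, w₁ (u₁ m) = d • m) ∧ (∀ m, u₁ (w₁ m) = d • m)

/-- **U8 assembly.** Valuation-ring uniqueness for two-chart line bundles, from clearing of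
denominators. -/
theorem stmt_AlgValUniq_of_clearDenom (hCD : Stmt_ClearDenom.{u}) :
    Fermat.Agent.S25.helper985.Stmt_AlgValUniq.{u} := by
  intro k _ _ D V _ _ _ _ K _ _ _ _ _ G G' _ _ hK
  obtain ⟨d, u₀, u₁, u₀₁, w₀, w₁, w₀₁, hd, hu₀, hu₁, hw₀, hw₁, hwu₀, huw₀, hwu₁, huw₁⟩ :=
    hCD k D V K G G' hK
  obtain ⟨e₀, e₁, e₀₁, h₀, h₁⟩ := exists_linearEquiv_of_isTwoChart
    (isPrime_map_maximalIdeal₀ D V) (isPrime_map_maximalIdeal₁ D V) (isTwoChart G) (isTwoChart G')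
    u₀ u₁ u₀₁ hu₀ hu₁ w₀ w₁ w₀₁ hw₀ hw₁ d hd hwu₀ huw₀ hwu₁ huw₁
  exact ⟨⟨e₀, e₁, e₀₁, fun m => (h₀ m).symm, fun m => (h₁ m).symm⟩⟩

end Fermat.Agent.S25.helper4755
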