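import Mathlib

/-!
# S25, leaf U8: valuation-ring uniqueness for two-chart module data (helper4755)

Mathlib-only, statement-agnostic core of the separatedness of the Jacobian.

Let `V` be a valuation ring with maximal ideal `𝔪`. A "two-chart datum" over `V` consists of
modules `M₀`, `M₁`, `M₀₁` over chart rings `A₀`, `A₁`, `A₀₁` (all `V`-algebras) and `V`-linear
restriction maps `ρ₀ : M₀ → M₀₁`, `ρ₁ : M₁ → M₀₁`, subject to the hypotheses `IsTwoChart`.

Main results:
* `exists_content` : content lemma for finite families in a projective `V`-module;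
* `exists_primitive_factor` : a nonzero linear map into a `V`-projective module is `e` times a
  linear map which is nonzero modulo `𝔪`;
* `mem_smul_top_of_map_mem` : a map of invertible modules which is nonzero modulo a prime
  ideal is injective modulo that prime ideal;
* `exists_linearEquiv_of_isTwoChart` : two-chart data `G`, `G'` over `V` with morphisms
  `u : G → G'`, `w : G' → G` such that `w ∘ u = d`, `u ∘ w = d` for a nonzero `d : V` are
  isomorphic. No degree hypothesis, no rigidification, any rank of `V`.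
-/

set_option autoImplicit false

open scoped TensorProduct

namespace Fermat.Agent.S25.helper4755

section Content

variable {V : Type*} [CommRing V] [IsDomain V] [ValuationRing V]

/-- In a valuation ring, a finite family that is not identically zero has a nonzero member
dividing all members. -/
theorem exists_dvd_all {ι : Type*} (s : Finset ι) (a : ι → V) (h : ∃ i ∈ s, a i ≠ 0) :
    ∃ j ∈ s, a j ≠ 0 ∧ ∀ i ∈ s, a j ∣ a i := by
  classical
  induction s using Finset.induction_on with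
  | empty => simp at h
  | insert i s hi ih =>
    by_cases hs : ∃ i ∈ s, a i ≠ 0
    · obtain ⟨j, hj, hj0, hjd⟩ := ih hs
      by_cases hi0 : a i = 0
      · refine ⟨j, Finset.mem_insert_of_mem hj, hj0, fun l hl => ?_⟩
        rcases Finset.mem_insert.mp hl with rfl | hl
        · rw [hi0]; exact dvd_zero _
        · exact hjd l hl
      · rcases ValuationRing.dvd_total (a i) (a j) with hd | hd
        · refine ⟨i, Finset.mem_insert_self _ _, hi0, fun l hl => ?_⟩
          rcases Finset.mem_insert.mp hl with rfl | hl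
          · exact dvd_rfl
          · exact hd.trans (hjd l hl)
        · refine ⟨j, Finset.mem_insert_of_mem hj, hj0, fun l hl => ?_⟩
          rcases Finset.mem_insert.mp hl with rfl | hl
          · exact hd
          · exact hjd l hl
    · obtain ⟨l, hl, hl0⟩ := h
      have hli : l = i := by
        rcases Finset.mem_insert.mp hl with rfl | hl'
        · rfl
        · exact absurd ⟨l, hl', hl0⟩ hs
      subst hli
      push Not at hs
      refine ⟨l, Finset.mem_insert_self _ _, hl0, fun m hm => ?_⟩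
      rcases Finset.mem_insert.mp hm with rfl | hm
      · exact dvd_rfl
      · rw [hs m hm]; exact dvd_zero _

omit [ValuationRing V] in
/-- A projective module over a domain is torsion-free. -/
theorem eq_zero_of_smul_eq_zero_of_projective {P : Type*} [AddCommGroup P] [Module V P]
    [Module.Projective V P] {e : V} (he : e ≠ 0) {p : P} (h : e • p = 0) : p = 0 := by
  obtain ⟨s, hs⟩ := Module.projective_def'.mp (inferInstance : Module.Projective V P)
  have h1 : e • s p = 0 := by rw [← map_smul, h, map_zero]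
  have h2 : s p = 0 := by
    ext i
    have := congrArg (fun q : P →₀ V => q i) h1
    simpa [he] using this
  have h3 : p = Finsupp.linearCombination V id (s p) := by
    have := congrArg (fun g : P →ₗ[V] P => g p) hs
    simpa using this.symm
  rw [h3, h2, map_zero]

omit [ValuationRing V] in
theorem smul_left_cancel_of_projective {P : Type*} [AddCommGroup P] [Module V P]
    [Module.Projective V P] {e : V} (he : e ≠ 0) {p q : P} (h : e • p = e • q) : p = q := by
  have : e • (p - q) = 0 := by rw [smul_sub, h, sub_self]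
  exact sub_eq_zero.mp (eq_zero_of_smul_eq_zero_of_projective he this)

/-- Elements of `𝔪 • ⊤` are sent into `𝔪` by every linear functional. -/
theorem functional_mem_of_mem_smul_top {A : Type*} [CommRing A] (I : Ideal A)
    {P : Type*} [AddCommGroup P] [Module A P] {x : P}
    (hx : x ∈ (I • ⊤ : Submodule A P)) (φ : P →ₗ[A] A) : φ x ∈ I := by
  refine Submodule.smul_induction_on hx (fun r hr n _ => ?_) (fun x y hx hy => ?_)
  · rw [map_smul, smul_eq_mul]; exact I.mul_mem_right _ hr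
  · rw [map_add]; exact I.add_mem hx hy

/-- **Content lemma.** A finite family, not identically zero, in a projective module `P` over a
valuation ring `V` is `e` times a family which is not contained in `𝔪 P`. -/
theorem exists_content {P : Type*} [AddCommGroup P] [Module V P] [Module.Projective V P]
    {J : Type*} [Finite J] (z : J → P) (hz : ∃ j, z j ≠ 0) :
    ∃ (e : V) (p : J → P), e ≠ 0 ∧ (∀ j, z j = e • p j) ∧
      ∃ j, p j ∉ (IsLocalRing.maximalIdeal V • ⊤ : Submodule V P) := by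
  classical
  cases nonempty_fintype J
  obtain ⟨s, hs⟩ := Module.projective_def'.mp (inferInstance : Module.Projective V P)
  have hs' : ∀ p : P, Finsupp.linearCombination V id (s p) = p := fun p => by
    have := congrArg (fun g : P →ₗ[V] P => g p) hs
    simpa using this
  -- the finite family of all coordinates
  let T : Finset (Σ _ : J, P) := Finset.univ.sigma (fun j => (s (z j)).support)
  let a : (Σ _ : J, P) → V := fun x => s (z x.1) x.2
  have hT : ∃ x ∈ T, a x ≠ 0 := by
    obtain ⟨j, hj⟩ := hz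
    have : s (z j) ≠ 0 := fun h0 => hj (by rw [← hs' (z j), h0, map_zero])
    obtain ⟨i, hi⟩ := Finsupp.ne_iff.mp this
    refine ⟨⟨j, i⟩, ?_, by simpa [a] using hi⟩
    simp only [T, Finset.mem_sigma, Finset.mem_univ, true_and, Finsupp.mem_support_iff]
    simpa using hi
  obtain ⟨⟨j₀, i₀⟩, -, he0, hdiv⟩ := exists_dvd_all T a hT
  set e : V := s (z j₀) i₀ with he
  have hdvd : ∀ j i, e ∣ s (z j) i := by
    intro j i
    by_cases hi : s (z j) i = 0
    · rw [hi]; exact dvd_zero _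
    · exact hdiv ⟨j, i⟩ (by
        simp only [T, Finset.mem_sigma, Finset.mem_univ, true_and, Finsupp.mem_support_iff]
        exact hi)
  -- division by `e`
  let dv : V → V := fun v => if h : e ∣ v then Classical.choose h else 0
  have hdv : ∀ v, e ∣ v → e * dv v = v := by
    intro v hv
    simp only [dv, dif_pos hv]
    exact (Classical.choose_spec hv).symm
  have hdv0 : dv 0 = 0 := by
    have := hdv 0 (dvd_zero _)
    rcases mul_eq_zero.mp this with h | h
    · exact absurd h he0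
    · exact h
  let q : J → (P →₀ V) := fun j => (s (z j)).mapRange dv hdv0
  have hq : ∀ j, e • q j = s (z j) := by
    intro j
    ext i
    simp only [q, Finsupp.smul_apply, Finsupp.mapRange_apply, smul_eq_mul]
    exact hdv _ (hdvd j i)
  refine ⟨e, fun j => Finsupp.linearCombination V id (q j), he0, fun j => ?_, j₀, fun hmem => ?_⟩
  · rw [← map_smul, hq, hs']
  · have h1 : ((Finsupp.lapply i₀).comp s) (Finsupp.linearCombination V id (q j₀)) ∈
        IsLocalRing.maximalIdeal V := functional_mem_of_mem_smul_top _ hmem _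
    have h2 : e * ((Finsupp.lapply i₀).comp s) (Finsupp.linearCombination V id (q j₀)) = e := by
      rw [← smul_eq_mul, ← map_smul, ← map_smul, hq, hs']
      simp [he]
    have h3 : ((Finsupp.lapply i₀).comp s) (Finsupp.linearCombination V id (q j₀)) = 1 := by
      have := mul_left_cancel₀ he0 (h2.trans (mul_one e).symm)
      exact this
    rw [h3] at h1
    exact (IsLocalRing.maximalIdeal V).ne_top_iff_one.mp (IsLocalRing.maximalIdeal.isMaximal V).ne_top h1


/-- An element of `𝔪 P` is divisible by a single element of `𝔪`. -/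
theorem exists_mem_maximalIdeal_smul {P : Type*} [AddCommGroup P] [Module V P] {x : P}
    (hx : x ∈ (IsLocalRing.maximalIdeal V • ⊤ : Submodule V P)) :
    ∃ t ∈ IsLocalRing.maximalIdeal V, ∃ p : P, x = t • p := by
  refine Submodule.smul_induction_on hx (fun r hr n _ => ⟨r, hr, n, rfl⟩) ?_
  rintro x y ⟨t, ht, p, rfl⟩ ⟨t', ht', p', rfl⟩
  rcases ValuationRing.dvd_total t t' with ⟨c, rfl⟩ | ⟨c, rfl⟩
  · exact ⟨t, ht, p + c • p', by rw [smul_add, mul_smul]⟩
  · exact ⟨t', ht', c • p + p', by rw [smul_add, mul_smul]⟩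

/-- **Primitive part of a linear map.** A nonzero `A`-linear map from a finite `A`-module to an
`A`-module that is projective over the valuation ring `V` is `e` times a linear map that is
nonzero modulo `𝔪`. -/
theorem exists_primitive_factor {A : Type*} [CommRing A] [Algebra V A]
    {M P : Type*} [AddCommGroup M] [Module A M] [Module.Finite A M]
    [AddCommGroup P] [Module A P] [Module V P] [IsScalarTower V A P] [Module.Projective V P]
    (f : M →ₗ[A] P) (hf : f ≠ 0) :
    ∃ (e : V) (f' : M →ₗ[A] P), e ≠ 0 ∧ (∀ m, f m = e • f' m) ∧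
      ∃ m, f' m ∉ (IsLocalRing.maximalIdeal V • ⊤ : Submodule V P) := by
  classical
  obtain ⟨S, hS⟩ := (Module.Finite.fg_top : (⊤ : Submodule A M).FG)
  have hz : ∃ j : S, f j ≠ 0 := by
    by_contra hcon
    push Not at hcon
    apply hf
    apply LinearMap.ext_on hS
    intro x hx
    simpa using hcon ⟨x, hx⟩
  obtain ⟨e, p, he, hp, j₀, hj₀⟩ := exists_content (V := V) (fun j : S => f j) hz
  have hdiv : ∀ m : M, ∃ q : P, f m = e • q := by
    intro m
    have hm : m ∈ Submodule.span A (S : Set M) := hS ▸ Submodule.mem_top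
    induction hm using Submodule.span_induction with
    | mem x hx => exact ⟨p ⟨x, hx⟩, hp ⟨x, hx⟩⟩
    | zero => exact ⟨0, by simp⟩
    | add x y _ _ hx hy =>
      obtain ⟨qx, hqx⟩ := hx
      obtain ⟨qy, hqy⟩ := hy
      exact ⟨qx + qy, by rw [map_add, hqx, hqy, smul_add]⟩
    | smul a x _ hx =>
      obtain ⟨qx, hqx⟩ := hx
      exact ⟨a • qx, by rw [map_smul, hqx, smul_comm]⟩
  choose g hg using hdiv
  have hinj : ∀ {x y : P}, e • x = e • y → x = y := fun h => smul_left_cancel_of_projective (V := V) he h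
  let f' : M →ₗ[A] P :=
    { toFun := g
      map_add' := fun x y => hinj (by rw [← hg, map_add, hg x, hg y, smul_add])
      map_smul' := fun a x => hinj (by
        rw [← hg, map_smul, hg x, RingHom.id_apply, smul_comm]) }
  refine ⟨e, f', he, hg, j₀, ?_⟩
  have : f' j₀ = p j₀ := hinj (by rw [← hp j₀]; exact (hg _).symm)
  rw [this]
  exact hj₀

end Content


section Fibre

variable {A : Type*} [CommRing A]

/-- In a projective module, membership in `I P` is detected by linear functionals. -/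
theorem mem_smul_top_of_functional {P : Type*} [AddCommGroup P] [Module A P]
    [Module.Projective A P] (I : Ideal A) {x : P} (h : ∀ φ : P →ₗ[A] A, φ x ∈ I) :
    x ∈ (I • ⊤ : Submodule A P) := by
  obtain ⟨s, hs⟩ := Module.projective_def'.mp (inferInstance : Module.Projective A P)
  have hx : Finsupp.linearCombination A id (s x) = x := by
    have := congrArg (fun g : P →ₗ[A] P => g x) hs
    simpa using this
  rw [← hx, Finsupp.linearCombination_apply]
  refine Submodule.sum_mem _ fun i _ => ?_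
  refine Submodule.smul_mem_smul ?_ Submodule.mem_top
  exact h ((Finsupp.lapply i).comp s)

/-- The rank one identity in an invertible module. -/
theorem functional_smul_comm {M : Type*} [AddCommGroup M] [Module A M] [Module.Invertible A M]
    (φ : M →ₗ[A] A) (m m' : M) : φ m • m' = φ m' • m := by
  have h : m ⊗ₜ[A] m' = m' ⊗ₜ[A] m := Module.Invertible.tmul_comm
  have := congrArg (fun t => TensorProduct.lid A M (φ.rTensor M t)) h
  simpa using this

/-- **Injectivity on the special fibre.** Let `I` be a prime ideal of `A`. An `A`-linear map from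
an invertible module to a projective module which is nonzero modulo `I` is injective modulo
`I`. -/
theorem mem_smul_top_of_map_mem {M P : Type*} [AddCommGroup M] [Module A M]
    [Module.Invertible A M] [AddCommGroup P] [Module A P] [Module.Projective A P]
    (I : Ideal A) [I.IsPrime] (f : M →ₗ[A] P) {m₀ : M}
    (h₀ : f m₀ ∉ (I • ⊤ : Submodule A P)) {m : M} (hm : f m ∈ (I • ⊤ : Submodule A P)) :
    m ∈ (I • ⊤ : Submodule A M) := by
  refine mem_smul_top_of_functional I fun φ => ?_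
  by_contra hφ
  apply h₀
  refine mem_smul_top_of_functional I fun ψ => ?_
  have h1 : φ m * ψ (f m₀) = φ m₀ * ψ (f m) := by
    rw [← smul_eq_mul, ← map_smul, ← map_smul, functional_smul_comm φ m m₀, map_smul, map_smul,
      smul_eq_mul]
  have h2 : φ m * ψ (f m₀) ∈ I := by
    rw [h1]
    exact I.mul_mem_left _ (functional_mem_of_mem_smul_top I hm ψ)
  exact ((Ideal.IsPrime.mem_or_mem inferInstance h2).resolve_left hφ)

/-- An invertible module is not killed by a proper ideal. -/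
theorem exists_not_mem_smul_top {M : Type*} [AddCommGroup M] [Module A M] [Module.Invertible A M]
    (I : Ideal A) (hI : I ≠ ⊤) : ∃ m : M, m ∉ (I • ⊤ : Submodule A M) := by
  by_contra hcon
  push Not at hcon
  apply hI
  rw [Ideal.eq_top_iff_one]
  obtain ⟨t, ht⟩ := (Module.Invertible.bijective (R := A) (M := M)).2 1
  have key : ∀ t : Module.Dual A M ⊗[A] M, contractLeft A M t ∈ I := by
    intro t
    induction t using TensorProduct.induction_on with
    | zero => simp
    | tmul φ m =>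
      rw [contractLeft_apply]
      exact functional_mem_of_mem_smul_top I (hcon m) φ
    | add x y hx hy => rw [map_add]; exact I.add_mem hx hy
  rw [← ht]
  exact key t

end Fibre

section Scalars

variable {V : Type*} [CommRing V] {A : Type*} [CommRing A] [Algebra V A]

/-- The `V`-submodule `J P` and the `A`-submodule `(J A) P` have the same elements. -/
theorem mem_smul_top_iff_mem_map_smul_top {P : Type*} [AddCommGroup P] [Module A P] [Module V P]
    [IsScalarTower V A P] (J : Ideal V) (x : P) :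
    x ∈ (J • ⊤ : Submodule V P) ↔ x ∈ ((J.map (algebraMap V A)) • ⊤ : Submodule A P) := by
  constructor
  · intro hx
    refine Submodule.smul_induction_on hx (fun r hr n _ => ?_) (fun x y hx hy => add_mem hx hy)
    rw [← algebraMap_smul A r n]
    exact Submodule.smul_mem_smul (Ideal.mem_map_of_mem _ hr) Submodule.mem_top
  · intro hx
    refine Submodule.smul_induction_on hx (fun a ha n _ => ?_) (fun x y hx hy => add_mem hx hy)
    revert n
    refine Submodule.span_induction (p := fun a _ => ∀ n : P, n ∈ (⊤ : Submodule A P) →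
      a • n ∈ (J • ⊤ : Submodule V P)) ?_ ?_ ?_ ?_ ha
    · rintro _ ⟨r, hr, rfl⟩ n _
      rw [algebraMap_smul]
      exact Submodule.smul_mem_smul hr Submodule.mem_top
    · intro n _; rw [zero_smul]; exact zero_mem _
    · intro a b _ _ ha hb n hn
      rw [add_smul]; exact add_mem (ha n hn) (hb n hn)
    · intro c a _ ha n hn
      rw [smul_eq_mul, mul_smul, smul_comm]
      exact ha _ Submodule.mem_top

theorem not_mem_smul_top_of_not_mem_map {P : Type*} [AddCommGroup P] [Module A P] [Module V P]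
    [IsScalarTower V A P] {J : Ideal V} {x : P}
    (hx : x ∉ ((J.map (algebraMap V A)) • ⊤ : Submodule A P)) :
    x ∉ (J • ⊤ : Submodule V P) :=
  fun h => hx ((mem_smul_top_iff_mem_map_smul_top J x).mp h)

omit [CommRing A] [Algebra V A] in
theorem ne_zero_of_not_mem_smul_top {P : Type*} [AddCommGroup P] [Module V P] {J : Ideal V}
    {x : P} (hx : x ∉ (J • ⊤ : Submodule V P)) : x ≠ 0 :=
  fun h => hx (h ▸ zero_mem _)

end Scalars


section Transfer

variable {V : Type*} [CommRing V] [IsDomain V] [ValuationRing V]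

/-- A unit multiple of a map which is nonzero modulo `𝔪` is nonzero modulo `𝔪`; in contrapositive
form: if `c • p ∈ 𝔪 P` with `c` a unit, then `p ∈ 𝔪 P`. -/
theorem mem_smul_top_of_isUnit_smul {P : Type*} [AddCommGroup P] [Module V P] {c : V}
    (hc : IsUnit c) {p : P} (h : c • p ∈ (IsLocalRing.maximalIdeal V • ⊤ : Submodule V P)) :
    p ∈ (IsLocalRing.maximalIdeal V • ⊤ : Submodule V P) := by
  obtain ⟨c', hc'⟩ := hc.exists_left_inv
  have : p = c' • (c • p) := by rw [smul_smul, hc', one_smul]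
  rw [this]
  exact Submodule.smul_mem _ _ h

/-- **Transfer across the overlap.** If the primitive-part candidate on one chart vanishes
modulo `𝔪`, so does the one on the other chart. -/
theorem transfer_mem_smul_top
    {A B C : Type*} [CommRing A] [CommRing B] [CommRing C] [Algebra V A] [Algebra V B]
    [Algebra V C]
    {M N L M' N' L' : Type*}
    [AddCommGroup M] [Module A M] [Module V M] [IsScalarTower V A M] [Module.Finite A M]
    [AddCommGroup N] [Module B N] [Module V N] [IsScalarTower V B N]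
    [AddCommGroup L] [Module C L] [Module V L] [IsScalarTower V C L]
    [AddCommGroup M'] [Module A M'] [Module V M'] [IsScalarTower V A M'] [Module.Projective V M']
    [AddCommGroup N'] [Module B N'] [Module V N'] [IsScalarTower V B N']
    [AddCommGroup L'] [Module C L'] [Module V L'] [IsScalarTower V C L']
    (ρM : M →ₗ[V] L) (ρN : N →ₗ[V] L) (ρM' : M' →ₗ[V] L') (ρN' : N' →ₗ[V] L')
    (tf' : ∀ (e : V) (n : L'), e ≠ 0 → e • n = 0 → n = 0)
    (gen : ∀ n : L, ∃ (a : C) (m : M), n = a • ρM m)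
    (sat : ∀ m : N', ρN' m ∈ (IsLocalRing.maximalIdeal V • ⊤ : Submodule V L') →
      m ∈ (IsLocalRing.maximalIdeal V • ⊤ : Submodule V N'))
    (uM : M →ₗ[A] M') (uN : N →ₗ[B] N') (u : L →ₗ[C] L') (e : V) (he : e ≠ 0)
    (hM : ∀ m, ρM' (e • uM m) = u (ρM m)) (hN : ∀ m, ρN' (e • uN m) = u (ρN m))
    (h : ∀ m, uM m ∈ (IsLocalRing.maximalIdeal V • ⊤ : Submodule V M')) :
    ∀ m, uN m ∈ (IsLocalRing.maximalIdeal V • ⊤ : Submodule V N') := by
  intro n
  apply sat
  by_cases huM : uM = 0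
  · -- then `u = 0` on the overlap
    obtain ⟨a, m, ham⟩ := gen (ρN n)
    have h1 : e • ρN' (uN n) = 0 := by
      rw [← map_smul, hN, ham, map_smul, ← hM, huM]
      simp
    rw [tf' e _ he h1]
    exact zero_mem _
  · obtain ⟨t, uM', ht, hfac, m₁, hm₁⟩ := exists_primitive_factor (V := V) uM huM
    have htm : t ∈ IsLocalRing.maximalIdeal V := by
      by_contra hcon
      have hunit : IsUnit t := by
        by_contra hnu
        exact hcon ((IsLocalRing.mem_maximalIdeal t).mpr hnu)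
      apply hm₁
      apply mem_smul_top_of_isUnit_smul hunit
      rw [← hfac]
      exact h m₁
    obtain ⟨a, m, ham⟩ := gen (ρN n)
    have h1 : e • ρN' (uN n) = e • (t • (a • ρM' (uM' m))) := by
      rw [← map_smul, hN, ham, map_smul, ← hM, hfac, map_smul, map_smul, smul_comm a e,
        smul_comm a t]
    have h2 : ρN' (uN n) = t • (a • ρM' (uM' m)) := by
      have h3 : e • (ρN' (uN n) - t • (a • ρM' (uM' m))) = 0 := by
        rw [smul_sub, h1, sub_self]
      exact sub_eq_zero.mp (tf' e _ he h3)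
    rw [h2]
    exact Submodule.smul_mem_smul htm Submodule.mem_top

end Transfer


/-- Hypotheses on a two-chart module datum `(M₀, M₁, M₀₁, ρ₀, ρ₁)` over a local ring `V`
(in the application: an invertible sheaf on `C ×ₖ Spec V` in its two-chart description,
`A₀ = R₀ ⊗ V`, `A₁ = R₁ ⊗ V`, `A₀₁ = R₀₁ ⊗ V`). -/
structure IsTwoChart (V A₀ A₁ A₀₁ : Type*) [CommRing V] [IsLocalRing V] [CommRing A₀]
    [CommRing A₁] [CommRing A₀₁] [Algebra V A₀] [Algebra V A₁] [Algebra V A₀₁]
    {M₀ M₁ M₀₁ : Type*} [AddCommGroup M₀] [AddCommGroup M₁] [AddCommGroup M₀₁]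
    [Module A₀ M₀] [Module V M₀] [IsScalarTower V A₀ M₀]
    [Module A₁ M₁] [Module V M₁] [IsScalarTower V A₁ M₁]
    [Module A₀₁ M₀₁] [Module V M₀₁] [IsScalarTower V A₀₁ M₀₁]
    (ρ₀ : M₀ →ₗ[V] M₀₁) (ρ₁ : M₁ →ₗ[V] M₀₁) : Prop where
  /-- the chart modules are invertible -/
  inv₀ : Module.Invertible A₀ M₀
  inv₁ : Module.Invertible A₁ M₁
  /-- the chart modules are projective over the base ring -/
  proj₀ : Module.Projective V M₀
  proj₁ : Module.Projective V M₁
  /-- the overlap module is torsion-free over the base ring -/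
  tf : ∀ (e : V) (n : M₀₁), e ≠ 0 → e • n = 0 → n = 0
  /-- each chart generates the overlap module -/
  gen₀ : ∀ n : M₀₁, ∃ (a : A₀₁) (m : M₀), n = a • ρ₀ m
  gen₁ : ∀ n : M₀₁, ∃ (a : A₀₁) (m : M₁), n = a • ρ₁ m
  /-- the restriction maps are injective modulo the maximal ideal -/
  sat₀ : ∀ m : M₀, ρ₀ m ∈ (IsLocalRing.maximalIdeal V • ⊤ : Submodule V M₀₁) →
    m ∈ (IsLocalRing.maximalIdeal V • ⊤ : Submodule V M₀)
  sat₁ : ∀ m : M₁, ρ₁ m ∈ (IsLocalRing.maximalIdeal V • ⊤ : Submodule V M₀₁) →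
    m ∈ (IsLocalRing.maximalIdeal V • ⊤ : Submodule V M₁)

section Main

variable {V : Type*} [CommRing V] [IsDomain V] [ValuationRing V]
  {A₀ A₁ A₀₁ : Type*} [CommRing A₀] [CommRing A₁] [CommRing A₀₁]
  [Algebra V A₀] [Algebra V A₁] [Algebra V A₀₁]
  {M₀ M₁ M₀₁ : Type*} [AddCommGroup M₀] [AddCommGroup M₁] [AddCommGroup M₀₁]
  [Module A₀ M₀] [Module V M₀] [IsScalarTower V A₀ M₀]
  [Module A₁ M₁] [Module V M₁] [IsScalarTower V A₁ M₁]
  [Module A₀₁ M₀₁] [Module V M₀₁] [IsScalarTower V A₀₁ M₀₁]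
  {M₀' M₁' M₀₁' : Type*} [AddCommGroup M₀'] [AddCommGroup M₁'] [AddCommGroup M₀₁']
  [Module A₀ M₀'] [Module V M₀'] [IsScalarTower V A₀ M₀']
  [Module A₁ M₁'] [Module V M₁'] [IsScalarTower V A₁ M₁']
  [Module A₀₁ M₀₁'] [Module V M₀₁'] [IsScalarTower V A₀₁ M₀₁']
  {ρ₀ : M₀ →ₗ[V] M₀₁} {ρ₁ : M₁ →ₗ[V] M₀₁} {ρ₀' : M₀' →ₗ[V] M₀₁'} {ρ₁' : M₁' →ₗ[V] M₀₁'}

/-- **Joint primitive part.** A morphism of two-chart data which is nonzero on both charts is
`e` times a morphism which is nonzero modulo `𝔪` on BOTH charts. -/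
theorem exists_joint_primitive (hG : IsTwoChart V A₀ A₁ A₀₁ ρ₀ ρ₁)
    (hG' : IsTwoChart V A₀ A₁ A₀₁ ρ₀' ρ₁')
    (u₀ : M₀ →ₗ[A₀] M₀') (u₁ : M₁ →ₗ[A₁] M₁') (u₀₁ : M₀₁ →ₗ[A₀₁] M₀₁')
    (hu₀ : ∀ m, ρ₀' (u₀ m) = u₀₁ (ρ₀ m)) (hu₁ : ∀ m, ρ₁' (u₁ m) = u₀₁ (ρ₁ m))
    (h₀ : u₀ ≠ 0) (h₁ : u₁ ≠ 0) :
    ∃ (e : V) (u₀' : M₀ →ₗ[A₀] M₀') (u₁' : M₁ →ₗ[A₁] M₁'), e ≠ 0 ∧
      (∀ m, u₀ m = e • u₀' m) ∧ (∀ m, u₁ m = e • u₁' m) ∧
      (∃ m, u₀' m ∉ (IsLocalRing.maximalIdeal V • ⊤ : Submodule V M₀')) ∧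
      (∃ m, u₁' m ∉ (IsLocalRing.maximalIdeal V • ⊤ : Submodule V M₁')) := by
  have := hG.inv₀
  have := hG.inv₁
  have := hG'.proj₀
  have := hG'.proj₁
  obtain ⟨e₀, f₀, he₀, hf₀, m₀, hm₀⟩ := exists_primitive_factor (V := V) u₀ h₀
  obtain ⟨e₁, f₁, he₁, hf₁, m₁, hm₁⟩ := exists_primitive_factor (V := V) u₁ h₁
  rcases ValuationRing.dvd_total e₀ e₁ with ⟨c, hc⟩ | ⟨c, hc⟩
  · -- `e₁ = e₀ * c`
    let g₁ : M₁ →ₗ[A₁] M₁' := (algebraMap V A₁ c) • f₁
    have hg₁ : ∀ m, g₁ m = c • f₁ m := fun m => by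
      simp only [g₁, LinearMap.smul_apply, algebraMap_smul]
    have hu₁' : ∀ m, u₁ m = e₀ • g₁ m := fun m => by rw [hg₁, hf₁, hc, mul_smul]
    have hcu : IsUnit c := by
      by_contra hnu
      have hcm : c ∈ IsLocalRing.maximalIdeal V := (IsLocalRing.mem_maximalIdeal c).mpr hnu
      refine hm₀ (transfer_mem_smul_top (V := V) ρ₁ ρ₀ ρ₁' ρ₀' hG'.tf hG.gen₁ hG'.sat₀ g₁ f₀ u₀₁ e₀
        he₀ (fun m => by rw [← hu₁', hu₁]) (fun m => by rw [← hf₀, hu₀]) (fun m => ?_) m₀)
      rw [hg₁]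
      exact Submodule.smul_mem_smul hcm Submodule.mem_top
    refine ⟨e₀, f₀, g₁, he₀, hf₀, hu₁', ⟨m₀, hm₀⟩, ⟨m₁, fun hmem => hm₁ ?_⟩⟩
    rw [hg₁] at hmem
    exact mem_smul_top_of_isUnit_smul hcu hmem
  · -- `e₀ = e₁ * c`
    let g₀ : M₀ →ₗ[A₀] M₀' := (algebraMap V A₀ c) • f₀
    have hg₀ : ∀ m, g₀ m = c • f₀ m := fun m => by
      simp only [g₀, LinearMap.smul_apply, algebraMap_smul]
    have hu₀' : ∀ m, u₀ m = e₁ • g₀ m := fun m => by rw [hg₀, hf₀, hc, mul_smul]
    have hcu : IsUnit c := by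
      by_contra hnu
      have hcm : c ∈ IsLocalRing.maximalIdeal V := (IsLocalRing.mem_maximalIdeal c).mpr hnu
      refine hm₁ (transfer_mem_smul_top (V := V) ρ₀ ρ₁ ρ₀' ρ₁' hG'.tf hG.gen₀ hG'.sat₁ g₀ f₁ u₀₁ e₁
        he₁ (fun m => by rw [← hu₀', hu₀]) (fun m => by rw [← hf₁, hu₁]) (fun m => ?_) m₁)
      rw [hg₀]
      exact Submodule.smul_mem_smul hcm Submodule.mem_top
    refine ⟨e₁, g₀, f₁, he₁, hu₀', hf₁, ⟨m₀, fun hmem => hm₀ ?_⟩, ⟨m₁, hm₁⟩⟩
    rw [hg₀] at hmem
    exact mem_smul_top_of_isUnit_smul hcu hmem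


/-- **Valuation-ring uniqueness, abstract two-chart form.** Let `V` be a valuation ring with
maximal ideal `𝔪`, and let `G = (M₀, M₁, M₀₁)`, `G' = (M₀', M₁', M₀₁')` be two-chart data over
chart rings `A₀, A₁, A₀₁` such that `𝔪 A₀` and `𝔪 A₁` are prime. If there are morphisms
`u : G → G'` and `w : G' → G` with `w ∘ u = d` and `u ∘ w = d` for some nonzero `d : V`
(i.e. `G` and `G'` become isomorphic over the fraction field), then `G ≅ G'`. -/
theorem exists_linearEquiv_of_isTwoChart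
    (hA₀ : (Ideal.map (algebraMap V A₀) (IsLocalRing.maximalIdeal V)).IsPrime)
    (hA₁ : (Ideal.map (algebraMap V A₁) (IsLocalRing.maximalIdeal V)).IsPrime)
    (hG : IsTwoChart V A₀ A₁ A₀₁ ρ₀ ρ₁) (hG' : IsTwoChart V A₀ A₁ A₀₁ ρ₀' ρ₁')
    (u₀ : M₀ →ₗ[A₀] M₀') (u₁ : M₁ →ₗ[A₁] M₁') (u₀₁ : M₀₁ →ₗ[A₀₁] M₀₁')
    (hu₀ : ∀ m, ρ₀' (u₀ m) = u₀₁ (ρ₀ m)) (hu₁ : ∀ m, ρ₁' (u₁ m) = u₀₁ (ρ₁ m))
    (w₀ : M₀' →ₗ[A₀] M₀) (w₁ : M₁' →ₗ[A₁] M₁) (w₀₁ : M₀₁' →ₗ[A₀₁] M₀₁)
    (hw₀ : ∀ m, ρ₀ (w₀ m) = w₀₁ (ρ₀' m)) (hw₁ : ∀ m, ρ₁ (w₁ m) = w₀₁ (ρ₁' m))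
    (d : V) (hd : d ≠ 0)
    (hwu₀ : ∀ m, w₀ (u₀ m) = d • m) (huw₀ : ∀ m, u₀ (w₀ m) = d • m)
    (hwu₁ : ∀ m, w₁ (u₁ m) = d • m) (huw₁ : ∀ m, u₁ (w₁ m) = d • m) :
    ∃ (e₀ : M₀ ≃ₗ[A₀] M₀') (e₁ : M₁ ≃ₗ[A₁] M₁') (e₀₁ : M₀₁ ≃ₗ[A₀₁] M₀₁'),
      (∀ m, ρ₀' (e₀ m) = e₀₁ (ρ₀ m)) ∧ (∀ m, ρ₁' (e₁ m) = e₀₁ (ρ₁ m)) := by
  have := hG.inv₀
  have := hG.inv₁
  have := hG'.inv₀
  have := hG'.inv₁
  have := hG.proj₀
  have := hG.proj₁
  have := hG'.proj₀
  have := hG'.proj₁
  -- elements which are nonzero modulo `𝔪`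
  obtain ⟨n₀, hn₀⟩ := exists_not_mem_smul_top (M := M₀) _ hA₀.ne_top
  obtain ⟨n₁, hn₁⟩ := exists_not_mem_smul_top (M := M₁) _ hA₁.ne_top
  obtain ⟨n₀', hn₀'⟩ := exists_not_mem_smul_top (M := M₀') _ hA₀.ne_top
  obtain ⟨n₁', hn₁'⟩ := exists_not_mem_smul_top (M := M₁') _ hA₁.ne_top
  have hn₀V := not_mem_smul_top_of_not_mem_map hn₀
  -- the four maps are nonzero
  have hu₀ne : u₀ ≠ 0 := by
    intro h
    have h1 := hwu₀ n₀
    rw [h, LinearMap.zero_apply, map_zero] at h1
    exact ne_zero_of_not_mem_smul_top (not_mem_smul_top_of_not_mem_map hn₀) (eq_zero_of_smul_eq_zero_of_projective hd h1.symm)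
  have hu₁ne : u₁ ≠ 0 := by
    intro h
    have h1 := hwu₁ n₁
    rw [h, LinearMap.zero_apply, map_zero] at h1
    exact ne_zero_of_not_mem_smul_top (not_mem_smul_top_of_not_mem_map hn₁) (eq_zero_of_smul_eq_zero_of_projective hd h1.symm)
  have hw₀ne : w₀ ≠ 0 := by
    intro h
    have h1 := huw₀ n₀'
    rw [h, LinearMap.zero_apply, map_zero] at h1
    exact ne_zero_of_not_mem_smul_top (not_mem_smul_top_of_not_mem_map hn₀') (eq_zero_of_smul_eq_zero_of_projective hd h1.symm)
  have hw₁ne : w₁ ≠ 0 := by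
    intro h
    have h1 := huw₁ n₁'
    rw [h, LinearMap.zero_apply, map_zero] at h1
    exact ne_zero_of_not_mem_smul_top (not_mem_smul_top_of_not_mem_map hn₁') (eq_zero_of_smul_eq_zero_of_projective hd h1.symm)
  obtain ⟨e, u₀', u₁', he, hu₀', hu₁', ⟨a₀, ha₀⟩, ⟨a₁, ha₁⟩⟩ :=
    exists_joint_primitive hG hG' u₀ u₁ u₀₁ hu₀ hu₁ hu₀ne hu₁ne
  obtain ⟨e', w₀', w₁', he', hw₀', hw₁', ⟨b₀, hb₀⟩, ⟨b₁, hb₁⟩⟩ :=
    exists_joint_primitive hG' hG w₀ w₁ w₀₁ hw₀ hw₁ hw₀ne hw₁ne
  have hee : e * e' ≠ 0 := mul_ne_zero he he'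
  have key₀ : ∀ m, (e * e') • w₀' (u₀' m) = d • m := fun m => by
    rw [← hwu₀, hu₀', LinearMap.map_smul_of_tower, hw₀', smul_smul]
  have key₀' : ∀ m, (e * e') • u₀' (w₀' m) = d • m := fun m => by
    rw [← huw₀, hw₀', LinearMap.map_smul_of_tower, hu₀', smul_smul, mul_comm]
  have key₁ : ∀ m, (e * e') • w₁' (u₁' m) = d • m := fun m => by
    rw [← hwu₁, hu₁', LinearMap.map_smul_of_tower, hw₁', smul_smul]
  have key₁' : ∀ m, (e * e') • u₁' (w₁' m) = d • m := fun m => by
    rw [← huw₁, hw₁', LinearMap.map_smul_of_tower, hu₁', smul_smul, mul_comm]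
  -- `d = e * e' * lam`
  have hlam : ∃ lam : V, d = e * e' * lam := by
    rcases ValuationRing.dvd_total (e * e') d with ⟨c, hc⟩ | ⟨c, hc⟩
    · exact ⟨c, hc⟩
    · by_cases hcu : IsUnit c
      · obtain ⟨c', hc'⟩ := hcu.exists_right_inv
        exact ⟨c', by rw [hc, mul_assoc, hc', mul_one]⟩
      · exfalso
        have hcm : c ∈ IsLocalRing.maximalIdeal V := (IsLocalRing.mem_maximalIdeal c).mpr hcu
        apply hn₀V
        have h1 : d • (c • w₀' (u₀' n₀)) = d • n₀ := by rw [smul_smul, ← hc, key₀]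
        have h2 : n₀ = c • w₀' (u₀' n₀) := (smul_left_cancel_of_projective hd h1).symm
        rw [h2]
        exact Submodule.smul_mem_smul hcm Submodule.mem_top
  obtain ⟨lam, hlam⟩ := hlam
  have wu₀ : ∀ m, w₀' (u₀' m) = lam • m := fun m =>
    smul_left_cancel_of_projective hee (by rw [key₀, hlam, mul_smul])
  have uw₀ : ∀ m, u₀' (w₀' m) = lam • m := fun m =>
    smul_left_cancel_of_projective hee (by rw [key₀', hlam, mul_smul])
  have wu₁ : ∀ m, w₁' (u₁' m) = lam • m := fun m =>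
    smul_left_cancel_of_projective hee (by rw [key₁, hlam, mul_smul])
  have uw₁ : ∀ m, u₁' (w₁' m) = lam • m := fun m =>
    smul_left_cancel_of_projective hee (by rw [key₁', hlam, mul_smul])
  -- `lam` is a unit: look at the special fibre of the first chart
  have hlamu : IsUnit lam := by
    by_contra hnu
    have hlm : lam ∈ IsLocalRing.maximalIdeal V := (IsLocalRing.mem_maximalIdeal lam).mpr hnu
    have h1 : u₀' n₀ ∉ ((Ideal.map (algebraMap V A₀) (IsLocalRing.maximalIdeal V)) • ⊤ :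
        Submodule A₀ M₀') := fun hmem =>
      hn₀ (mem_smul_top_of_map_mem _ u₀' (m₀ := a₀)
        (fun h => ha₀ ((mem_smul_top_iff_mem_map_smul_top _ _).mpr h)) hmem)
    have h2 : w₀' (u₀' n₀) ∉ ((Ideal.map (algebraMap V A₀) (IsLocalRing.maximalIdeal V)) • ⊤ :
        Submodule A₀ M₀) := fun hmem =>
      h1 (mem_smul_top_of_map_mem _ w₀' (m₀ := b₀)
        (fun h => hb₀ ((mem_smul_top_iff_mem_map_smul_top _ _).mpr h)) hmem)
    apply not_mem_smul_top_of_not_mem_map h2
    rw [wu₀]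
    exact Submodule.smul_mem_smul hlm Submodule.mem_top
  obtain ⟨lam', hlam'⟩ := hlamu.exists_left_inv
  have hlam'' : lam * lam' = 1 := by rw [mul_comm]; exact hlam'
  have inj₀ : Function.Injective u₀' := by
    intro x y hxy
    have h1 : lam • x = lam • y := by rw [← wu₀, ← wu₀, hxy]
    have h2 := congrArg (fun z => lam' • z) h1
    simpa [smul_smul, hlam'] using h2
  have surj₀ : Function.Surjective u₀' := fun p =>
    ⟨w₀' (lam' • p), by rw [uw₀, smul_smul, hlam'', one_smul]⟩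
  have inj₁ : Function.Injective u₁' := by
    intro x y hxy
    have h1 : lam • x = lam • y := by rw [← wu₁, ← wu₁, hxy]
    have h2 := congrArg (fun z => lam' • z) h1
    simpa [smul_smul, hlam'] using h2
  have surj₁ : Function.Surjective u₁' := fun p =>
    ⟨w₁' (lam' • p), by rw [uw₁, smul_smul, hlam'', one_smul]⟩
  -- the overlap
  have hdiv₀₁ : ∀ n, ∃ q, u₀₁ n = e • q := by
    intro n
    obtain ⟨a, m, rfl⟩ := hG.gen₀ n
    exact ⟨a • ρ₀' (u₀' m), by rw [map_smul, ← hu₀, hu₀', map_smul, smul_comm]⟩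
  choose g hg using hdiv₀₁
  have hcancel : ∀ {x y : M₀₁'}, e • x = e • y → x = y := fun {x y} h =>
    sub_eq_zero.mp (hG'.tf e _ he (by rw [smul_sub, h, sub_self]))
  let u₀₁' : M₀₁ →ₗ[A₀₁] M₀₁' :=
    { toFun := g
      map_add' := fun x y => hcancel (by rw [← hg, map_add, hg x, hg y, smul_add])
      map_smul' := fun a x => hcancel (by
        rw [← hg, map_smul, hg x, RingHom.id_apply, smul_comm]) }
  have hg' : ∀ n, u₀₁ n = e • u₀₁' n := hg
  have hwu₀₁ : ∀ n, w₀₁ (u₀₁ n) = d • n := by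
    intro n
    obtain ⟨a, m, rfl⟩ := hG.gen₀ n
    rw [map_smul, ← hu₀, map_smul, ← hw₀, hwu₀, map_smul, smul_comm]
  have inj₀₁ : Function.Injective u₀₁' := by
    intro x y hxy
    have h1 : u₀₁ x = u₀₁ y := by rw [hg' x, hg' y, hxy]
    have h2 : d • x = d • y := by rw [← hwu₀₁, ← hwu₀₁, h1]
    exact sub_eq_zero.mp (hG.tf d _ hd (by rw [smul_sub, h2, sub_self]))
  have compat₀ : ∀ m, ρ₀' (u₀' m) = u₀₁' (ρ₀ m) := fun m =>
    hcancel (by rw [← hg', ← hu₀, hu₀', map_smul])
  have compat₁ : ∀ m, ρ₁' (u₁' m) = u₀₁' (ρ₁ m) := fun m =>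
    hcancel (by rw [← hg', ← hu₁, hu₁', map_smul])
  have surj₀₁ : Function.Surjective u₀₁' := by
    intro q
    obtain ⟨a, p, rfl⟩ := hG'.gen₀ q
    obtain ⟨m, rfl⟩ := surj₀ p
    exact ⟨a • ρ₀ m, by rw [map_smul, ← compat₀]⟩
  exact ⟨LinearEquiv.ofBijective u₀' ⟨inj₀, surj₀⟩, LinearEquiv.ofBijective u₁' ⟨inj₁, surj₁⟩,
    LinearEquiv.ofBijective u₀₁' ⟨inj₀₁, surj₀₁⟩, compat₀, compat₁⟩

end Main

end Fermat.Agent.S25.helper4755
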