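import Mathlib

/-!
# S25, brick UV (helper4899): uniform vanishing, lattice core

Pure linear algebra over a field `K`, no schemes, no `GlueDatum`.

A two-chart module on the curve over `K` is seen in LATTICE FORM: a `K`-vector space `N`
(sections over the overlap), an automorphism `T` of `N` (multiplication by `x`), and two
`K`-subspaces `Λ₀`, `Λ₁` (images of the sections over the two charts). Its first cohomology is
`N ⧸ (Λ₀ ⊔ Λ₁)`; the twist by `j • D∞` replaces `Λ₁` by `T ^ j Λ₁`.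

Main results:
* `sup_eq_top_of_finite`: if `Λ₀` is `T`-stable and exhausts `N` after applying powers of `T`,
  and `S` is a subspace with `T S = S` such that `Λ₀ ≤ S ⊔ W` for a finite-dimensional `W`,
  then `Λ₀ ⊔ S = ⊤`.
* `h1_vanishing_of_map`: a `T`-equivariant map `φ` of lattice data with range `S` as above
  transports vanishing of `H¹` of every twist.
* `exists_finite_sup_span`: for an invertible module `M` over a domain `A` finite over `K[x]`
  and `σ ≠ 0` in `M`, `M = A σ + W` with `W` finite-dimensional over `K`.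
-/

set_option autoImplicit false

open Polynomial

namespace Fermat.Agent.S25.helper4899

section Core

variable {K : Type*} [Field K] {N : Type*} [AddCommGroup N] [Module K N]

/-- Core lemma. `Λ` is stable under the automorphism `T` and exhausts `N` (every element is
moved into `Λ` by a power of `T`); `S` is stable under `T` and `T⁻¹`; modulo `S` the subspace
`Λ` is finite-dimensional. Then `Λ ⊔ S = ⊤`. -/
theorem sup_eq_top_of_finite (T : N ≃ₗ[K] N) (Λ S W : Submodule K N)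
    (hΛ : ∀ z ∈ Λ, T z ∈ Λ) (hex : ∀ z : N, ∃ j : ℕ, (T ^ j) z ∈ Λ)
    (hS : ∀ z, T z ∈ S ↔ z ∈ S) (hW : Module.Finite K W) (hΛW : Λ ≤ S ⊔ W) :
    Λ ⊔ S = ⊤ := by
  classical
  -- the image of `Λ` in `N ⧸ S`
  set Λb : Submodule K (N ⧸ S) := Λ.map S.mkQ with hΛb
  -- the induced endomorphism of `N ⧸ S`
  let Tb : (N ⧸ S) →ₗ[K] (N ⧸ S) := S.mapQ S T.toLinearMap (fun z hz => (hS z).mpr hz)
  have hTb : ∀ z : N, Tb (S.mkQ z) = S.mkQ (T z) := fun z => rfl
  have hTb_inj : Function.Injective Tb := by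
    rw [← LinearMap.ker_eq_bot, Submodule.eq_bot_iff]
    intro q hq
    obtain ⟨z, rfl⟩ := S.mkQ_surjective q
    rw [LinearMap.mem_ker, hTb, Submodule.mkQ_apply, Submodule.Quotient.mk_eq_zero] at hq
    rw [Submodule.mkQ_apply, Submodule.Quotient.mk_eq_zero]
    exact (hS z).mp hq
  have hTbΛ : ∀ q ∈ Λb, Tb q ∈ Λb := by
    rintro q ⟨z, hz, rfl⟩
    exact ⟨T z, hΛ z hz, rfl⟩
  -- `Λb` is finite-dimensional
  have hfin : Module.Finite K Λb := by
    have hle : Λb ≤ W.map S.mkQ := by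
      rintro q ⟨z, hz, rfl⟩
      obtain ⟨s, hs, w, hw, rfl⟩ := Submodule.mem_sup.mp (hΛW hz)
      refine ⟨w, hw, ?_⟩
      rw [map_add, Submodule.mkQ_apply S s, (Submodule.Quotient.mk_eq_zero S).mpr hs, zero_add]
    have : Module.Finite K (W.map S.mkQ) := Module.Finite.map W S.mkQ
    exact Submodule.finiteDimensional_of_le hle
  -- the restriction of `Tb` to `Λb` is injective, hence surjective
  let Tr : Λb →ₗ[K] Λb := Tb.restrict hTbΛ
  have hTr_inj : Function.Injective Tr := by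
    intro a b hab
    apply Subtype.ext
    apply hTb_inj
    have := congrArg Subtype.val hab
    simpa [Tr, LinearMap.restrict_apply] using this
  have hTr_surj : Function.Surjective Tr := LinearMap.injective_iff_surjective.mp hTr_inj
  -- hence `Tb q ∈ Λb → q ∈ Λb`
  have hback : ∀ q, Tb q ∈ Λb → q ∈ Λb := by
    intro q hq
    obtain ⟨a, ha⟩ := hTr_surj ⟨Tb q, hq⟩
    have h1 : Tb (a : N ⧸ S) = Tb q := by
      have := congrArg Subtype.val ha
      simpa [Tr, LinearMap.restrict_apply] using this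
    have h2 : (a : N ⧸ S) = q := hTb_inj h1
    rw [← h2]; exact a.2
  have hpow : ∀ (j : ℕ) (z : N), S.mkQ ((T ^ j) z) ∈ Λb → S.mkQ z ∈ Λb := by
    intro j
    induction j with
    | zero => intro z hz; simpa using hz
    | succ j ih =>
      intro z hz
      apply ih z
      apply hback
      rw [hTb]
      have : (T ^ (j + 1)) z = T ((T ^ j) z) := by
        rw [pow_succ']; rfl
      rwa [this] at hz
  -- conclusion
  rw [eq_top_iff]
  intro z _
  obtain ⟨j, hj⟩ := hex z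
  have hz : S.mkQ z ∈ Λb := hpow j z ⟨_, hj, rfl⟩
  obtain ⟨l, hl, hlz⟩ := hz
  have : z - l ∈ S := by
    rw [← Submodule.Quotient.mk_eq_zero, Submodule.Quotient.mk_sub]
    have h3 : S.mkQ l = S.mkQ z := hlz
    simp only [Submodule.mkQ_apply] at h3
    rw [h3, sub_self]
  have hz' : z = l + (z - l) := by abel
  rw [hz']
  exact Submodule.add_mem_sup hl this

/-- Transport of `H¹`-vanishing along a `T`-equivariant map of lattice data
(`N₁, T₁, Λ₀', Λ₁'`) → (`N, T, Λ₀, Λ₁`) whose range `S` satisfies the hypotheses of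
`sup_eq_top_of_finite`: if `Λ₀' ⊔ T₁ ^ j Λ₁' = ⊤` then `Λ₀ ⊔ T ^ j Λ₁ = ⊤`. -/
theorem h1_vanishing_of_map {N₁ : Type*} [AddCommGroup N₁] [Module K N₁]
    (T₁ : N₁ ≃ₗ[K] N₁) (T : N ≃ₗ[K] N) (φ : N₁ →ₗ[K] N)
    (hφT : ∀ z, φ (T₁ z) = T (φ z))
    (Λ₀' Λ₁' : Submodule K N₁) (Λ₀ Λ₁ W : Submodule K N)
    (h₀ : ∀ z ∈ Λ₀', φ z ∈ Λ₀) (h₁ : ∀ z ∈ Λ₁', φ z ∈ Λ₁)
    (hΛ : ∀ z ∈ Λ₀, T z ∈ Λ₀) (hex : ∀ z : N, ∃ j : ℕ, (T ^ j) z ∈ Λ₀)
    (hW : Module.Finite K W) (hΛW : Λ₀ ≤ LinearMap.range φ ⊔ W)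
    (j : ℕ) (hj : Λ₀' ⊔ Λ₁'.map (T₁ ^ j : N₁ ≃ₗ[K] N₁).toLinearMap = ⊤) :
    Λ₀ ⊔ Λ₁.map (T ^ j : N ≃ₗ[K] N).toLinearMap = ⊤ := by
  have hφpow : ∀ (i : ℕ) (z : N₁), φ ((T₁ ^ i) z) = (T ^ i) (φ z) := by
    intro i
    induction i with
    | zero => intro z; simp
    | succ i ih =>
      intro z
      have e1 : (T₁ ^ (i + 1)) z = T₁ ((T₁ ^ i) z) := by rw [pow_succ']; rfl
      have e2 : (T ^ (i + 1)) (φ z) = T ((T ^ i) (φ z)) := by rw [pow_succ']; rfl
      rw [e1, e2, hφT, ih]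
  have hS : ∀ z, T z ∈ LinearMap.range φ ↔ z ∈ LinearMap.range φ := by
    intro z
    constructor
    · rintro ⟨w, hw⟩
      refine ⟨T₁.symm w, ?_⟩
      apply T.injective
      rw [← hφT, LinearEquiv.apply_symm_apply, hw]
    · rintro ⟨w, rfl⟩
      exact ⟨T₁ w, hφT w⟩
  have key := sup_eq_top_of_finite T Λ₀ (LinearMap.range φ) W hΛ hex hS hW hΛW
  rw [eq_top_iff]
  intro z _
  have hz : z ∈ Λ₀ ⊔ LinearMap.range φ := key ▸ Submodule.mem_top
  obtain ⟨l, hl, s, ⟨w, rfl⟩, rfl⟩ := Submodule.mem_sup.mp hz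
  have hw : w ∈ Λ₀' ⊔ Λ₁'.map (T₁ ^ j : N₁ ≃ₗ[K] N₁).toLinearMap := hj ▸ Submodule.mem_top
  obtain ⟨a, ha, b, ⟨b', hb', rfl⟩, rfl⟩ := Submodule.mem_sup.mp hw
  have e : l + φ (a + (T₁ ^ j : N₁ ≃ₗ[K] N₁).toLinearMap b') =
      (l + φ a) + (T ^ j : N ≃ₗ[K] N).toLinearMap (φ b') := by
    rw [map_add, add_assoc]
    congr 2
    exact hφpow j b'
  rw [e]
  exact Submodule.add_mem_sup (Λ₀.add_mem hl (h₀ a ha)) ⟨φ b', h₁ b' hb', rfl⟩

end Core

section ModuleLemmas

/-- A finitely generated `K[X]`-module is, modulo `c • M` for a nonzero polynomial `c`,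
spanned over `K` by finitely many elements. -/
theorem exists_finite_add_smul {K : Type*} [Field K] {M : Type*} [AddCommGroup M]
    [Module K[X] M] [Module K M] [IsScalarTower K K[X] M] [Module.Finite K[X] M]
    (c : K[X]) (hc : c ≠ 0) :
    ∃ W : Submodule K M, Module.Finite K W ∧ ∀ m : M, ∃ w ∈ W, ∃ m' : M, m = w + c • m' := by
  classical
  obtain ⟨s, hs⟩ := (Module.finite_def (R := K[X]) (M := M)).mp inferInstance
  let t : Finset M := (s ×ˢ Finset.range c.natDegree).image (fun p => (X : K[X]) ^ p.2 • p.1)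
  refine ⟨Submodule.span K (t : Set M), Module.Finite.span_of_finite K t.finite_toSet, ?_⟩
  -- the set of good elements is a `K[X]`-submodule containing `s`
  have key : ∀ (p : K[X]) (e : M), e ∈ s →
      ∃ w ∈ Submodule.span K (t : Set M), ∃ m' : M, p • e = w + c • m' := by
    intro p e he
    refine ⟨(p % c) • e, ?_, (p / c) • e, ?_⟩
    · by_cases hdeg : c.natDegree = 0
      · have hunit : IsUnit c := by
          rw [Polynomial.isUnit_iff]
          exact ⟨c.coeff 0, isUnit_iff_ne_zero.mpr (by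
            intro h0
            apply hc
            rw [Polynomial.eq_C_of_natDegree_eq_zero hdeg, h0, map_zero]),
            (Polynomial.eq_C_of_natDegree_eq_zero hdeg).symm⟩
        have : p % c = 0 := (EuclideanDomain.mod_eq_zero).mpr hunit.dvd
        rw [this, zero_smul]; exact Submodule.zero_mem _
      · have hlt : (p % c).natDegree < c.natDegree := Polynomial.natDegree_mod_lt p hdeg
        rw [Polynomial.as_sum_range' (p % c) c.natDegree hlt, Finset.sum_smul]
        refine Submodule.sum_mem _ (fun i hi => ?_)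
        have hmon : (monomial i ((p % c).coeff i) : K[X]) • e =
            ((p % c).coeff i) • ((X : K[X]) ^ i • e) := by
          rw [← Polynomial.smul_X_eq_monomial, smul_assoc]
        rw [hmon]
        refine Submodule.smul_mem _ _ (Submodule.subset_span ?_)
        exact Finset.mem_coe.mpr (Finset.mem_image.mpr ⟨(e, i), Finset.mem_product.mpr ⟨he, hi⟩, rfl⟩)
    · rw [← mul_smul, ← add_smul]
      congr 1
      rw [add_comm]
      exact (EuclideanDomain.div_add_mod p c).symm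
  intro m
  have hm : m ∈ Submodule.span K[X] (s : Set M) := hs ▸ Submodule.mem_top
  obtain ⟨f, -, hf⟩ := Submodule.mem_span_finset.mp hm
  choose! w hw m' hwm using key
  refine ⟨∑ e ∈ s, w (f e) e, Submodule.sum_mem _ (fun e he => hw (f e) e he),
    ∑ e ∈ s, m' (f e) e, ?_⟩
  rw [← hf, Finset.smul_sum, ← Finset.sum_add_distrib]
  exact Finset.sum_congr rfl (fun e he => hwm (f e) e he)

end ModuleLemmas

section ModuleLemmas2

/-- In a domain `A` that is integral over `P` via `f`, every nonzero `a` divides the image of a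
nonzero element of `P` (the constant term of an integral equation of minimal degree). -/
theorem exists_ne_zero_dvd_map {P A : Type*} [CommRing P] [CommRing A] [IsDomain A]
    (f : P →+* A) (hf : f.IsIntegral) (a : A) (ha : a ≠ 0) :
    ∃ c : P, c ≠ 0 ∧ a ∣ f c := by
  have main : ∀ (n : ℕ) (p : P[X]), p.Monic → p.natDegree = n → eval₂ f a p = 0 →
      ∃ c : P, c ≠ 0 ∧ a ∣ f c := by
    intro n
    induction n with
    | zero =>
      intro p hp hdeg h0
      rw [(Polynomial.Monic.natDegree_eq_zero hp).mp hdeg, eval₂_one] at h0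
      exact absurd h0 one_ne_zero
    | succ n ih =>
      intro p hp hdeg h0
      have hsplit : eval₂ f a p = eval₂ f a p.divX * a + f (p.coeff 0) := by
        conv_lhs => rw [← divX_mul_X_add p]
        rw [eval₂_add, eval₂_mul, eval₂_X, eval₂_C]
      by_cases hc : p.coeff 0 = 0
      · -- pass to `divX p`
        rw [hc, map_zero, add_zero] at hsplit
        have h1 : eval₂ f a p.divX = 0 := by
          rw [h0] at hsplit
          rcases mul_eq_zero.mp hsplit.symm with h | h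
          · exact h
          · exact absurd h ha
        have hdeg' : p.divX.natDegree = n := by
          rw [natDegree_divX_eq_natDegree_tsub_one, hdeg]; rfl
        have hmonic : p.divX.Monic := by
          rw [Monic, leadingCoeff, hdeg', coeff_divX, ← hdeg]
          exact hp
        exact ih p.divX hmonic hdeg' h1
      · refine ⟨p.coeff 0, hc, ⟨-eval₂ f a p.divX, ?_⟩⟩
        rw [h0] at hsplit
        have : f (p.coeff 0) = -(eval₂ f a p.divX * a) := by
          rw [eq_neg_iff_add_eq_zero, add_comm]; exact hsplit.symm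
        rw [this]; ring
  obtain ⟨p, hp, h0⟩ := hf a
  exact main _ p hp rfl h0

/-- In an invertible module `M` over `A`, every nonzero `σ` has `α • M ⊆ A σ` for some
nonzero `α : A` (namely `α = φ σ` for a suitable linear form `φ`). -/
theorem exists_ne_zero_smul_eq_smul {A M : Type*} [CommRing A] [AddCommGroup M] [Module A M]
    [Module.Invertible A M] (σ : M) (hσ : σ ≠ 0) :
    ∃ α : A, α ≠ 0 ∧ ∀ m : M, ∃ b : A, α • m = b • σ := by
  obtain ⟨φ, hφ⟩ : ∃ φ : Module.Dual A M, φ σ ≠ 0 := by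
    by_contra h
    exact hσ ((Module.forall_dual_apply_eq_zero_iff A σ).mp
      (fun φ => by_contra fun hφ => h ⟨φ, hφ⟩))
  refine ⟨φ σ, hφ, fun m => ⟨φ m, ?_⟩⟩
  let g : TensorProduct A M M →ₗ[A] M := TensorProduct.lift ((LinearMap.lsmul A M).comp φ)
  have h1 : g (TensorProduct.tmul A σ m) = φ σ • m := by simp [g]
  have h2 : g (TensorProduct.tmul A m σ) = φ m • σ := by simp [g]
  rw [← h1, ← h2, Module.Invertible.tmul_comm (R := A) (m₁ := σ) (m₂ := m)]

end ModuleLemmas2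

section Combined

/-- For an invertible module `M` over a domain `A` which is finite over `K[x]`, and `σ ≠ 0`
in `M`: `M = A σ + W` with `W` a finite-dimensional `K`-subspace. -/
theorem exists_finite_sup_span {K A M : Type*} [Field K] [CommRing A] [IsDomain A] [Algebra K A]
    (x : A) (hfin : (aeval x : K[X] →ₐ[K] A).toRingHom.Finite)
    [AddCommGroup M] [Module A M] [Module K M] [IsScalarTower K A M] [Module.Invertible A M]
    (σ : M) (hσ : σ ≠ 0) :
    ∃ W : Submodule K M, Module.Finite K W ∧ ∀ m : M, ∃ a : A, ∃ w ∈ W, m = a • σ + w := by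
  obtain ⟨α, hα, hαM⟩ := exists_ne_zero_smul_eq_smul (A := A) σ hσ
  obtain ⟨c, hc, d, hd⟩ := exists_ne_zero_dvd_map (aeval x : K[X] →ₐ[K] A).toRingHom
    hfin.to_isIntegral α hα
  let _ : Algebra K[X] A := (aeval x : K[X] →ₐ[K] A).toRingHom.toAlgebra
  let _ : Module K[X] M := Module.compHom M (aeval x : K[X] →ₐ[K] A).toRingHom
  have hsmul : ∀ (p : K[X]) (m : M), p • m = (aeval x p : A) • m := fun _ _ => rfl
  have : IsScalarTower K[X] A M := ⟨fun p a m => by
    rw [hsmul, Algebra.smul_def, mul_smul]; rfl⟩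
  have : IsScalarTower K K[X] M := ⟨fun k p m => by
    rw [hsmul, hsmul, map_smul, smul_assoc]⟩
  have : Module.Finite K[X] A := hfin
  have : Module.Finite K[X] M := Module.Finite.trans A M
  obtain ⟨W, hW, hWm⟩ := exists_finite_add_smul (K := K) (M := M) c hc
  refine ⟨W, hW, fun m => ?_⟩
  obtain ⟨w, hw, m', rfl⟩ := hWm m
  obtain ⟨b, hb⟩ := hαM m'
  refine ⟨d * b, w, hw, ?_⟩
  have h1 : (aeval x c : A) = α * d := hd
  rw [hsmul, h1, mul_comm α d, mul_smul, hb, mul_smul, add_comm]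

end Combined


section Final

/-- **Transport of `H¹`-vanishing along a nonzero section** (two-chart form over a field `K`).

`A₀ → A₀₁ ← A₁` are the rings of the two charts and of the overlap of a curve over `K`,
`x : A₀` becomes invertible on the overlap, `A₀` is a domain finite over `K[x]`.
`(M₀, M₁, M₀₁, r₀, r₁)` is a two-chart module with `M₀` invertible and `M₀₁ = M₀[1/x]`
(only the exhaustion half is needed), and `(σ₀, σ₁)` a section with `σ₀ ≠ 0`.
If `H¹` of the `j`-th twist of the structure datum vanishes, i.e.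
`A₀₁ = ρ₀ A₀ + x^j ρ₁ A₁`, then `H¹` of the `j`-th twist of the module vanishes, i.e.
`M₀₁ = r₀ M₀ + x^j r₁ M₁`. -/
theorem h1_vanishing_of_section
    {K A₀ A₁ A₀₁ M₀ M₁ M₀₁ : Type*} [Field K]
    [CommRing A₀] [IsDomain A₀] [CommRing A₁] [CommRing A₀₁]
    [Algebra K A₀] [Algebra K A₁] [Algebra K A₀₁]
    (ρ₀ : A₀ →ₐ[K] A₀₁) (ρ₁ : A₁ →ₐ[K] A₀₁)
    (x : A₀) (hx : IsUnit (ρ₀ x))
    (hfin : (aeval x : K[X] →ₐ[K] A₀).toRingHom.Finite)
    [AddCommGroup M₀] [Module A₀ M₀] [Module K M₀] [IsScalarTower K A₀ M₀]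
    [Module.Invertible A₀ M₀]
    [AddCommGroup M₁] [Module A₁ M₁]
    [AddCommGroup M₀₁] [Module A₀₁ M₀₁] [Module K M₀₁] [IsScalarTower K A₀₁ M₀₁]
    (r₀ : M₀ →+ M₀₁) (hr₀ : ∀ (a : A₀) (m : M₀), r₀ (a • m) = ρ₀ a • r₀ m)
    (r₁ : M₁ →+ M₀₁) (hr₁ : ∀ (a : A₁) (m : M₁), r₁ (a • m) = ρ₁ a • r₁ m)
    (hloc : ∀ z : M₀₁, ∃ (i : ℕ) (m : M₀), ρ₀ x ^ i • z = r₀ m)
    (σ₀ : M₀) (σ₁ : M₁) (hσ : r₀ σ₀ = r₁ σ₁) (hσ₀ : σ₀ ≠ 0)
    (j : ℕ) (hunit : ∀ a : A₀₁, ∃ (a₀ : A₀) (a₁ : A₁), a = ρ₀ a₀ + ρ₀ x ^ j * ρ₁ a₁) :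
    ∀ z : M₀₁, ∃ (m₀ : M₀) (m₁ : M₁), z = r₀ m₀ + ρ₀ x ^ j • r₁ m₁ := by
  classical
  obtain ⟨v, hv⟩ := hx.exists_right_inv
  have hvu : v * ρ₀ x = 1 := by rw [mul_comm]; exact hv
  set u : A₀₁ := ρ₀ x with hu
  -- `r₀` is `K`-linear
  let r₀K : M₀ →ₗ[K] M₀₁ :=
    { toFun := r₀
      map_add' := r₀.map_add
      map_smul' := fun k m => by
        have h1 : k • m = (algebraMap K A₀ k) • m := (algebraMap_smul A₀ k m).symm
        have h2 : k • r₀ m = (algebraMap K A₀₁ k) • r₀ m := (algebraMap_smul A₀₁ k (r₀ m)).symm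
        rw [RingHom.id_apply, h1, hr₀, h2, AlgHom.commutes] }
  have hr₀K : ∀ m, r₀K m = r₀ m := fun _ => rfl
  -- multiplication by `u` as a `K`-linear automorphism
  let T : M₀₁ ≃ₗ[K] M₀₁ :=
    { toFun := fun z => u • z
      map_add' := fun a b => smul_add u a b
      map_smul' := fun k z => by
        rw [RingHom.id_apply]; exact smul_comm u k z
      invFun := fun z => v • z
      left_inv := fun z => by
        change v • u • z = z
        rw [smul_smul, hvu, one_smul]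
      right_inv := fun z => by
        change u • v • z = z
        rw [smul_smul, hv, one_smul] }
  have hT : ∀ z, T z = u • z := fun _ => rfl
  have hTpow : ∀ (i : ℕ) (z : M₀₁), (T ^ i) z = u ^ i • z := by
    intro i
    induction i with
    | zero => intro z; simp
    | succ i ih =>
      intro z
      have e1 : (T ^ (i + 1)) z = T ((T ^ i) z) := by rw [pow_succ']; rfl
      rw [e1, ih, hT, smul_smul, ← pow_succ']
  obtain ⟨W₀, hW₀, hW₀m⟩ := exists_finite_sup_span (K := K) x hfin σ₀ hσ₀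
  let φ : A₀₁ →ₗ[K] M₀₁ := (LinearMap.toSpanSingleton A₀₁ M₀₁ (r₀ σ₀)).restrictScalars K
  have hφ : ∀ a, φ a = a • r₀ σ₀ := fun _ => rfl
  have key : LinearMap.range r₀K ⊔ LinearMap.range φ = ⊤ := by
    refine sup_eq_top_of_finite T (LinearMap.range r₀K) (LinearMap.range φ) (W₀.map r₀K)
      ?_ ?_ ?_ (Module.Finite.map W₀ r₀K) ?_
    · rintro z ⟨m, rfl⟩
      exact ⟨x • m, by rw [hr₀K, hr₀K, hT, hr₀]⟩
    · intro z
      obtain ⟨i, m, hm⟩ := hloc z
      exact ⟨i, m, by rw [hTpow, hr₀K, hm]⟩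
    · intro z
      constructor
      · rintro ⟨a, ha⟩
        refine ⟨v * a, ?_⟩
        rw [hφ, mul_smul, ← hφ, ha, hT, smul_smul, hvu, one_smul]
      · rintro ⟨a, rfl⟩
        exact ⟨u * a, by rw [hφ, hφ, hT, mul_smul]⟩
    · rintro z ⟨m, rfl⟩
      obtain ⟨a, w, hw, rfl⟩ := hW₀m m
      rw [map_add]
      refine Submodule.add_mem_sup ⟨ρ₀ a, ?_⟩ ⟨w, hw, rfl⟩
      rw [hφ, hr₀K, hr₀]
  intro z
  have hz : z ∈ LinearMap.range r₀K ⊔ LinearMap.range φ := key ▸ Submodule.mem_top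
  obtain ⟨_, ⟨m, rfl⟩, _, ⟨a, rfl⟩, rfl⟩ := Submodule.mem_sup.mp hz
  obtain ⟨a₀, a₁, rfl⟩ := hunit a
  refine ⟨m + a₀ • σ₀, a₁ • σ₁, ?_⟩
  rw [hr₀K, hφ, map_add, hr₀, hr₁, add_smul, mul_smul, ← hσ, add_assoc]

end Final

end Fermat.Agent.S25.helper4899
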