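import Mathlib

/-!
# S25 leaf U3: relative divisor operations on two-chart data (helper4927)

Unbundled, Mathlib-only core.  A "two-chart datum" is: rings `A0`, `A1`, `A01` with
`A01 = A0[1/x] = A1[1/y]`, `x * y = 1` in `A01`, modules `M0`, `M1`, `M01` and localization maps
`ρ0 : M0 → M01` (at `x`), `ρ1 : M1 → M01` (at `y`).

For an ideal `I` of `A0` such that `x` is congruent modulo `I * A01` to an element `q` of `A1`
(this holds as soon as `A0 ⧸ I` is integral over a common base ring, see
`exists_q_of_isIntegral`), i.e. the closed subscheme `V(I)` of the chart `Spec A0` is closed in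
the whole curve, we construct the twist `G(-D)`:

* `twist0 I M0 = I • M0`, `twist01 I A01 M01 = (I A01) • M01`,
  `twist1 A01 ρ1 I = ρ1 ⁻¹ ((I A01) • M01)`;
* the restricted maps `twistRes0`, `twistRes1` are again localization maps;
* the three modules are invertible when the original ones are and `I` is an invertible module
  (`invertible_twist0`, `invertible_twist01`, `invertible_twist1`); the last one is proved by
  patching on the cover `D(y) ∪ D(u)` of `Spec A1`, `u = 1 - y q` (`invertible_of_localizationSpan`);
* excision `M01 = (I A01) M01 + ρ1 M1` (`exists_sub_mem_twist01`), which gives the six-term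
  sequence relating the cohomology of `G(-D)` and of `G`.
-/

set_option autoImplicit false
set_option linter.unusedSectionVars false

open TensorProduct

namespace Fermat.Agent.S25.helper4927

section Transfer

/-- `Module.Invertible` transfers along a ring isomorphism and a semilinear equivalence. -/
theorem invertible_of_semilinearEquiv {R R' M M' : Type*} [CommRing R] [CommRing R']
    [AddCommGroup M] [Module R M] [AddCommGroup M'] [Module R' M']
    (σ : R ≃+* R') (e : M ≃+ M') (he : ∀ (r : R) (m : M), e (r • m) = σ r • e m)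
    [Module.Invertible R M] : Module.Invertible R' M' := by
  let _ : Algebra R R' := σ.toRingHom.toAlgebra
  let _ : Module R M' := Module.compHom M' σ.toRingHom
  have : IsScalarTower R R' M' := ⟨fun r a m => by
    change (σ r * a) • m = σ r • (a • m)
    rw [mul_smul]⟩
  let eL : M ≃ₗ[R] M' := { e with map_smul' := fun r m => he r m }
  have : Module.Invertible R M' := Module.Invertible.congr eL
  have : IsLocalization (⊥ : Submonoid R) R' := by
    refine ⟨⟨?_, ?_, ?_⟩⟩
    · rintro ⟨y, hy⟩
      rw [Submonoid.mem_bot] at hy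
      subst hy
      simp
    · intro z
      refine ⟨(σ.symm z, 1), ?_⟩
      simp [RingHom.algebraMap_toAlgebra]
    · intro x y hxy
      refine ⟨1, ?_⟩
      have : σ x = σ y := hxy
      simpa using σ.injective this
  have : IsLocalizedModule (⊥ : Submonoid R) (LinearMap.id : M' →ₗ[R] M') := by
    refine ⟨?_, ?_, ?_⟩
    · rintro ⟨y, hy⟩
      rw [Submonoid.mem_bot] at hy
      subst hy
      simp
    · intro y
      exact ⟨(y, 1), by simp⟩
    · intro x y hxy
      exact ⟨1, by simpa using hxy⟩
  exact Module.Invertible.of_isLocalization (⊥ : Submonoid R) (LinearMap.id : M' →ₗ[R] M')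

end Transfer

section
variable {R : Type*} [CommRing R] {M : Type*} [AddCommGroup M] [Module R M]

theorem invertible_localizedModule_of_isLocalizedModule (S : Submonoid R) {A N : Type*}
    [CommRing A] [Algebra R A] [IsLocalization S A] [AddCommGroup N] [Module R N] [Module A N]
    [IsScalarTower R A N] (φ : M →ₗ[R] N) [IsLocalizedModule S φ] [Module.Invertible A N] :
    Module.Invertible (Localization S) (LocalizedModule S M) := by
  let σ : A ≃+* Localization S := (IsLocalization.algEquiv S A (Localization S)).toRingEquiv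
  let e : N ≃ₗ[R] LocalizedModule S M := (IsLocalizedModule.iso S φ).symm
  refine invertible_of_semilinearEquiv σ e.toAddEquiv (fun a n => ?_)
  obtain ⟨r, s, rfl⟩ := IsLocalization.exists_mk'_eq S a
  have hinj : Function.Injective (fun z : LocalizedModule S M => (s : R) • z) :=
    ((Module.End.isUnit_iff _).mp
      (IsLocalizedModule.map_units (LocalizedModule.mkLinearMap S M) s)).1
  apply hinj
  change (s : R) • e (IsLocalization.mk' A r s • n) = (s : R) • (σ (IsLocalization.mk' A r s) • e n)
  rw [← map_smul, ← algebraMap_smul A (s : R) (IsLocalization.mk' A r s • n), ← mul_smul,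
    IsLocalization.mk'_spec', algebraMap_smul, map_smul,
    ← algebraMap_smul (Localization S) (s : R) (σ (IsLocalization.mk' A r s) • e n), ← mul_smul]
  have : algebraMap R (Localization S) s * σ (IsLocalization.mk' A r s) =
      algebraMap R (Localization S) r := by
    have h1 : σ (algebraMap R A s) = algebraMap R (Localization S) s := by simp [σ]
    rw [← h1, ← map_mul, IsLocalization.mk'_spec']
    simp [σ]
  rw [this, algebraMap_smul]

end

section Patching

variable {R : Type*} [CommRing R] {M : Type*} [AddCommGroup M] [Module R M]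

/-- evaluation `(N →ₗ[R] A) ⊗[R] N → A` -/
noncomputable def evalMap (A N : Type*) [CommRing A] [Algebra R A] [AddCommGroup N] [Module R N] :
    (N →ₗ[R] A) ⊗[R] N →ₗ[R] A :=
  TensorProduct.lift (LinearMap.id : (N →ₗ[R] A) →ₗ[R] N →ₗ[R] A)

theorem evalMap_bijective (S : Submonoid R) (A N : Type*) [CommRing A] [Algebra R A]
    [IsLocalization S A] [AddCommGroup N] [Module R N] [Module A N] [IsScalarTower R A N]
    [Module.Invertible A N] : Function.Bijective (evalMap (R := R) A N) := by
  have := IsLocalization.tensorProduct_compatibleSMul S A (N →ₗ[A] A) N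
  let e1 : (N →ₗ[R] A) ⊗[R] N ≃ₗ[R] (N →ₗ[A] A) ⊗[R] N :=
    TensorProduct.congr ((LinearMap.extendScalarsOfIsLocalizationEquiv S A).restrictScalars R)
      (LinearEquiv.refl R N)
  let e2 : (N →ₗ[A] A) ⊗[A] N ≃ₗ[A] (N →ₗ[A] A) ⊗[R] N :=
    TensorProduct.equivOfCompatibleSMul R A A (N →ₗ[A] A) N
  have key : (evalMap (R := R) A N) =
      ((contractLeft A N).restrictScalars R) ∘ₗ (e2.symm.restrictScalars R).toLinearMap ∘ₗ
        e1.toLinearMap := by
    apply TensorProduct.ext'
    intro φ n
    simp [evalMap, e1, e2, TensorProduct.equivOfCompatibleSMul]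
  rw [key]
  exact (Module.Invertible.bijective (R := A) (M := N)).comp
    ((e2.symm.restrictScalars R).bijective.comp e1.bijective)

/-- Invertibility is local on a cover by basic opens (canonical localizations). -/
theorem invertible_of_localizationSpan (s : Set R) (hs : Ideal.span s = ⊤)
    (h : ∀ r : s, Module.Invertible (Localization.Away r.1) (LocalizedModule.Away r.1 M)) :
    Module.Invertible R M := by
  have hfp : Module.FinitePresentation R M :=
    Module.FinitePresentation.of_localizationSpan s hs (fun r => by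
      have := h r
      exact Module.finitePresentation_of_projective _ _)
  refine ⟨bijective_of_localized_span s hs (contractLeft R M) (fun r => ?_)⟩
  have := h r
  let S := Submonoid.powers r.1
  let mkM := LocalizedModule.mkLinearMap S M
  let g₁ : Module.Dual R M ⊗[R] M →ₗ[R]
      (LocalizedModule S M →ₗ[R] Localization S) ⊗[R] LocalizedModule S M :=
    TensorProduct.map (IsLocalizedModule.map S mkM (Algebra.linearMap R (Localization S))) mkM
  have hg₁ : IsLocalizedModule S g₁ := inferInstance
  let g₂ : R →ₗ[R] Localization S := Algebra.linearMap R (Localization S)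
  rw [← IsLocalizedModule.map_bijective_iff_localizedModuleMap_bijective g₁ g₂]
  have key : IsLocalizedModule.map S g₁ g₂ (contractLeft R M) =
      evalMap (R := R) (Localization S) (LocalizedModule S M) := by
    apply IsLocalizedModule.linearMap_ext S g₁ g₂
    rw [IsLocalizedModule.map_comp]
    apply TensorProduct.ext'
    intro φ m
    have h1 : (IsLocalizedModule.map S mkM (Algebra.linearMap R (Localization S)) φ) (mkM m)
        = Algebra.linearMap R (Localization S) (φ m) := IsLocalizedModule.map_apply S mkM _ φ m
    simp only [LinearMap.coe_comp, Function.comp_apply, contractLeft_apply, g₁, g₂, map_tmul,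
      evalMap, lift.tmul, LinearMap.id_coe, id_eq]
    exact h1.symm
  rw [key]
  exact evalMap_bijective S _ _

end Patching

section FlatSmul

variable {R : Type*} [CommRing R] (I : Ideal R) (M : Type*) [AddCommGroup M] [Module R M]

/-- the multiplication map `I ⊗ M → M` -/
noncomputable def idealTensorToModule : I ⊗[R] M →ₗ[R] M :=
  (TensorProduct.lid R M).toLinearMap ∘ₗ LinearMap.rTensor M I.subtype

@[simp] theorem idealTensorToModule_tmul (i : I) (m : M) :
    idealTensorToModule I M (i ⊗ₜ m) = (i : R) • m := by
  simp [idealTensorToModule]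

theorem range_idealTensorToModule :
    LinearMap.range (idealTensorToModule I M) = (I • ⊤ : Submodule R M) := by
  apply le_antisymm
  · rintro _ ⟨t, rfl⟩
    induction t with
    | zero => simp
    | tmul i m =>
      rw [idealTensorToModule_tmul]
      exact Submodule.smul_mem_smul i.2 Submodule.mem_top
    | add a b ha hb =>
      rw [map_add]
      exact Submodule.add_mem _ ha hb
  · rw [Submodule.smul_le]
    intro r hr m _
    exact ⟨(⟨r, hr⟩ : I) ⊗ₜ m, by simp⟩

theorem idealTensorToModule_injective [Module.Flat R M] :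
    Function.Injective (idealTensorToModule I M) := by
  unfold idealTensorToModule
  exact (TensorProduct.lid R M).injective.comp
    (Module.Flat.rTensor_preserves_injective_linearMap I.subtype Subtype.val_injective)

/-- For flat `M`, `I ⊗ M ≃ I • M`. -/
noncomputable def idealTensorEquivSmulTop [Module.Flat R M] :
    I ⊗[R] M ≃ₗ[R] (I • ⊤ : Submodule R M) :=
  (LinearEquiv.ofInjective _ (idealTensorToModule_injective I M)).trans
    (LinearEquiv.ofEq _ _ (range_idealTensorToModule I M))

instance invertible_smul_top [Module.Invertible R I] [Module.Invertible R M] :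
    Module.Invertible R (I • ⊤ : Submodule R M) :=
  Module.Invertible.congr (idealTensorEquivSmulTop I M)

end FlatSmul

section RestrictLoc

variable {R S M N : Type*} [CommRing R] [CommRing S] [Algebra R S]
  [AddCommGroup M] [Module R M] [AddCommGroup N] [Module R N] [Module S N] [IsScalarTower R S N]

/-- A map between submodules induced by a localization map `f` is a localization map as soon as
it is "surjective up to denominators". -/
theorem isLocalizedModule_of_submodule (p : Submonoid R) [IsLocalization p S] (f : M →ₗ[R] N)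
    [IsLocalizedModule p f] (M' : Submodule R M) (N' : Submodule S N) (g : M' →ₗ[R] N')
    (hg : ∀ m : M', ((g m : N') : N) = f m)
    (hsurj : ∀ n ∈ N', ∃ m ∈ M', ∃ s : p, (s : R) • n = f m) : IsLocalizedModule p g where
  map_units s := by
    rw [Module.End.isUnit_iff]
    constructor
    · intro a b hab
      have h1 : (s : R) • (a : N) = (s : R) • (b : N) := by
        have := congrArg (fun z : N' => (z : N)) hab
        simpa using this
      exact Subtype.ext (IsLocalizedModule.smul_injective f s h1)
    · intro n
      refine ⟨(IsLocalization.mk' S (1 : R) s) • n, ?_⟩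
      apply Subtype.ext
      change (s : R) • ((IsLocalization.mk' S (1 : R) s) • (n : N)) = (n : N)
      rw [← algebraMap_smul S (s : R), ← mul_smul, IsLocalization.mk'_spec', map_one, one_smul]
  surj n := by
    obtain ⟨m, hm, s, hs⟩ := hsurj n n.2
    refine ⟨(⟨m, hm⟩, s), Subtype.ext ?_⟩
    change (s : R) • (n : N) = ((g ⟨m, hm⟩ : N') : N)
    rw [hg, hs]
  exists_of_eq {a b} hab := by
    have h1 : f a = f b := by rw [← hg, ← hg, hab]
    obtain ⟨c, hc⟩ := IsLocalizedModule.exists_of_eq (S := p) h1
    exact ⟨c, Subtype.ext hc⟩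

end RestrictLoc

section TwoChart

variable {A0 A1 A01 : Type*} [CommRing A0] [CommRing A1] [CommRing A01]
  [Algebra A0 A01] [Algebra A1 A01]
  (x : A0) (y : A1) [IsLocalization.Away x A01] [IsLocalization.Away y A01]
  {M0 M1 M01 : Type*} [AddCommGroup M0] [Module A0 M0] [AddCommGroup M1] [Module A1 M1]
  [AddCommGroup M01] [Module A01 M01] [Module A0 M01] [Module A1 M01]
  [IsScalarTower A0 A01 M01] [IsScalarTower A1 A01 M01]
  (ρ0 : M0 →ₗ[A0] M01) (ρ1 : M1 →ₗ[A1] M01)
  [IsLocalizedModule (Submonoid.powers x) ρ0] [IsLocalizedModule (Submonoid.powers y) ρ1]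
  (I : Ideal A0)

/-- chart-0 module of the twist `G(-D)`: `I • M0`. -/
def twist0 (M0 : Type*) [AddCommGroup M0] [Module A0 M0] : Submodule A0 M0 := I • ⊤

/-- overlap module of the twist `G(-D)`: `(I A01) • M01`. -/
def twist01 (A01 M01 : Type*) [CommRing A01] [Algebra A0 A01] [AddCommGroup M01] [Module A01 M01] :
    Submodule A01 M01 := I.map (algebraMap A0 A01) • ⊤

variable (A01) in
/-- chart-1 module of the twist `G(-D)`: the preimage of `(I A01) • M01` in `M1`. -/
def twist1 : Submodule A1 M1 := ((twist01 I A01 M01).restrictScalars A1).comap ρ1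

theorem mem_twist1 (m : M1) : m ∈ twist1 A01 ρ1 I ↔ ρ1 m ∈ twist01 I A01 M01 := Iff.rfl

include x in
theorem twist01_eq_localized' :
    (twist0 I M0).localized' A01 (Submonoid.powers x) ρ0 = twist01 I A01 M01 := by
  unfold twist0 twist01
  rw [Submodule.localized'_smul, Submodule.localized'_top, Submodule.localized'_eq_span]
  rfl

theorem map_mem_twist01 (m : M0) (hm : m ∈ twist0 I M0) : ρ0 m ∈ twist01 I A01 M01 := by
  unfold twist0 at hm
  unfold twist01
  refine Submodule.smul_induction_on hm ?_ ?_
  · intro r hr n _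
    rw [map_smul, ← algebraMap_smul A01 r (ρ0 n)]
    exact Submodule.smul_mem_smul (Ideal.mem_map_of_mem _ hr) Submodule.mem_top
  · intro a b ha hb
    rw [map_add]
    exact Submodule.add_mem _ ha hb

variable (A01) in
/-- the restriction map of the twist on chart 0 -/
def twistRes0 : twist0 I M0 →ₗ[A0] twist01 I A01 M01 where
  toFun m := ⟨ρ0 m, map_mem_twist01 ρ0 I m m.2⟩
  map_add' a b := Subtype.ext (by simp)
  map_smul' r a := Subtype.ext (by simp)

variable (A01) in
/-- the restriction map of the twist on chart 1 -/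
def twistRes1 : twist1 A01 ρ1 I →ₗ[A1] twist01 I A01 M01 where
  toFun m := ⟨ρ1 m, m.2⟩
  map_add' a b := Subtype.ext (by simp)
  map_smul' r a := Subtype.ext (by simp)

@[simp] theorem twistRes0_coe (m : twist0 I M0) :
    ((twistRes0 A01 ρ0 I m : twist01 I A01 M01) : M01) = ρ0 m := rfl

@[simp] theorem twistRes1_coe (m : twist1 A01 ρ1 I) :
    ((twistRes1 A01 ρ1 I m : twist01 I A01 M01) : M01) = ρ1 m := rfl

instance isLocalizedModule_twistRes0 : IsLocalizedModule (Submonoid.powers x) (twistRes0 A01 ρ0 I) := by
  refine isLocalizedModule_of_submodule (Submonoid.powers x) ρ0 _ _ _ (fun m => rfl) ?_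
  intro n hn
  rw [← twist01_eq_localized' x ρ0 I] at hn
  obtain ⟨m, hm, s, rfl⟩ := hn
  exact ⟨m, hm, s, IsLocalizedModule.mk'_cancel' ρ0 m s⟩

instance isLocalizedModule_twistRes1 : IsLocalizedModule (Submonoid.powers y) (twistRes1 A01 ρ1 I) := by
  refine isLocalizedModule_of_submodule (Submonoid.powers y) ρ1 _ _ _ (fun m => rfl) ?_
  intro n hn
  obtain ⟨⟨m, s⟩, hs⟩ := IsLocalizedModule.surj (Submonoid.powers y) ρ1 n
  refine ⟨m, ?_, s, hs⟩
  rw [mem_twist1, ← hs]
  have : (s : A1) • n = algebraMap A1 A01 s • n := (algebraMap_smul A01 (s : A1) n).symm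
  rw [Submonoid.smul_def, this]
  exact Submodule.smul_mem _ _ hn


section Closed

variable (q : A1) (hq : algebraMap A0 A01 x - algebraMap A1 A01 q ∈ I.map (algebraMap A0 A01))
  (hxy : algebraMap A0 A01 x * algebraMap A1 A01 y = 1)

include hq hxy in
/-- `u = 1 - y q` lies in `I A01`: the divisor does not meet `D(u)`. -/
theorem map_u_mem : algebraMap A1 A01 (1 - y * q) ∈ I.map (algebraMap A0 A01) := by
  have h : algebraMap A1 A01 (1 - y * q) =
      algebraMap A1 A01 y * (algebraMap A0 A01 x - algebraMap A1 A01 q) := by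
    rw [map_sub, map_one, map_mul, mul_sub, mul_comm (algebraMap A1 A01 y) (algebraMap A0 A01 x),
      hxy]
  rw [h]
  exact Ideal.mul_mem_left _ _ hq

include hq hxy in
theorem u_smul_mem_twist1 (m : M1) : (1 - y * q) • m ∈ twist1 A01 ρ1 I := by
  rw [mem_twist1, map_smul, ← algebraMap_smul A01 (1 - y * q) (ρ1 m)]
  exact Submodule.smul_mem_smul (map_u_mem x y I q hq hxy) Submodule.mem_top

include hq hxy in
/-- excision: `M01 = (I A01) M01 + ρ1 (M1)`. -/
theorem exists_sub_mem_twist01 (m : M01) :
    ∃ m1 : M1, m - ρ1 m1 ∈ twist01 I A01 M01 := by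
  obtain ⟨⟨m', s⟩, hs⟩ := IsLocalizedModule.surj (Submonoid.powers y) ρ1 m
  obtain ⟨k, hk⟩ := s.2
  have hs' : algebraMap A1 A01 y ^ k • m = ρ1 m' := by
    have : (s : A1) • m = ρ1 m' := hs
    rw [← hk, ← algebraMap_smul A01 (y ^ k) m, map_pow] at this
    exact this
  refine ⟨q ^ k • m', ?_⟩
  have h1 : m = algebraMap A0 A01 x ^ k • ρ1 m' := by
    rw [← hs', ← mul_smul, ← mul_pow, hxy, one_pow, one_smul]
  have h2 : ρ1 (q ^ k • m') = algebraMap A1 A01 q ^ k • ρ1 m' := by
    rw [map_smul, ← algebraMap_smul A01 (q ^ k) (ρ1 m'), map_pow]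
  have h3 : m - ρ1 (q ^ k • m') =
      (algebraMap A0 A01 x ^ k - algebraMap A1 A01 q ^ k) • ρ1 m' := by
    rw [h2, sub_smul, ← h1]
  rw [h3]
  refine Submodule.smul_mem_smul ?_ Submodule.mem_top
  obtain ⟨c, hc⟩ := sub_dvd_pow_sub_pow (algebraMap A0 A01 x) (algebraMap A1 A01 q) k
  rw [hc]
  exact Ideal.mul_mem_right _ _ hq

/-- `Spec A1 = D(y) ∪ D(u)` with `u = 1 - y q`. -/
theorem span_y_u_eq_top : Ideal.span ({y, 1 - y * q} : Set A1) = ⊤ := by
  rw [Ideal.eq_top_iff_one, Ideal.mem_span_pair]
  exact ⟨q, 1, by ring⟩

include hq hxy in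
/-- After inverting `u = 1 - y q`, the twist on chart 1 is all of `M1`. -/
theorem localizedMap_subtype_twist1_bijective :
    Function.Bijective (LocalizedModule.map (Submonoid.powers (1 - y * q))
      (twist1 A01 ρ1 I).subtype) := by
  refine ⟨LocalizedModule.map_injective _ _ (Submodule.subtype_injective _), ?_⟩
  intro z
  induction z using LocalizedModule.induction_on with
  | h m s =>
    let u : Submonoid.powers (1 - y * q) := ⟨1 - y * q, Submonoid.mem_powers _⟩
    refine ⟨LocalizedModule.mk ⟨(1 - y * q) • m, u_smul_mem_twist1 x y ρ1 I q hq hxy m⟩ (u * s), ?_⟩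
    rw [LocalizedModule.map_mk]
    exact LocalizedModule.mk_cancel_common_left u s m

end Closed

section Invertible

variable (q : A1) (hq : algebraMap A0 A01 x - algebraMap A1 A01 q ∈ I.map (algebraMap A0 A01))
  (hxy : algebraMap A0 A01 x * algebraMap A1 A01 y = 1)

/-- chart 0 of the twist is invertible. -/
theorem invertible_twist0 [Module.Invertible A0 I] [Module.Invertible A0 M0] :
    Module.Invertible A0 (twist0 I M0) :=
  invertible_smul_top I M0

include x ρ0 in
/-- the overlap module of the twist is invertible. -/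
theorem invertible_twist01 [Module.Invertible A0 I] [Module.Invertible A0 M0] :
    Module.Invertible A01 (twist01 I A01 M01) := by
  have := invertible_twist0 (M0 := M0) I
  exact Module.Invertible.of_isLocalization (Submonoid.powers x) (twistRes0 A01 ρ0 I)

include hq hxy in
/-- chart 1 of the twist is invertible: patching on `D(y) ∪ D(1 - y q)`. -/
theorem invertible_twist1 [Module.Invertible A1 M1] [Module.Invertible A01 (twist01 I A01 M01)] :
    Module.Invertible A1 (twist1 A01 ρ1 I) := by
  apply invertible_of_localizationSpan ({y, 1 - y * q} : Set A1) (span_y_u_eq_top y q)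
  rintro ⟨r, hr⟩
  rcases hr with rfl | hr
  · exact invertible_localizedModule_of_isLocalizedModule (Submonoid.powers r) (A := A01)
      (twistRes1 A01 ρ1 I)
  · have hr' : r = 1 - y * q := hr
    subst hr'
    exact Module.Invertible.congr (LinearEquiv.ofBijective _
      (localizedMap_subtype_twist1_bijective x y ρ1 I q hq hxy)).symm

end Invertible

end TwoChart

section Integral

variable {B A0 A1 A01 : Type*} [CommRing B] [CommRing A0] [CommRing A1] [CommRing A01]
  [Algebra B A0] [Algebra B A1] [Algebra B A01] [Algebra A0 A01] [Algebra A1 A01]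
  [IsScalarTower B A0 A01] [IsScalarTower B A1 A01]
  (x : A0) (y : A1) (hxy : algebraMap A0 A01 x * algebraMap A1 A01 y = 1) (I : Ideal A0)

include hxy in
/-- If `x` satisfies a monic polynomial over `B` modulo `I`, then `x` is congruent modulo `I A01`
to a polynomial in `y` (the divisor `V(I)` stays away from `y = 0`). -/
theorem exists_q_of_monic (P : Polynomial B) (hP : P.Monic) (hPx : Polynomial.aeval x P ∈ I) :
    ∃ q : A1, algebraMap A0 A01 x - algebraMap A1 A01 q ∈ I.map (algebraMap A0 A01) := by
  let I01 : Ideal A01 := I.map (algebraMap A0 A01)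
  let π : A01 →+* A01 ⧸ I01 := Ideal.Quotient.mk I01
  let i : B →+* A01 ⧸ I01 := π.comp (algebraMap B A01)
  have hx : π (algebraMap A0 A01 x) * π (algebraMap A1 A01 y) = 1 := by
    rw [← map_mul, hxy, map_one]
  have h0 : Polynomial.eval₂ i (π (algebraMap A0 A01 x)) P = 0 := by
    have h2 : (π.comp (algebraMap A0 A01)).comp (algebraMap B A0) = i := by
      ext b
      simp [i, ← IsScalarTower.algebraMap_apply B A0 A01]
    have h1 : π (algebraMap A0 A01 (Polynomial.eval₂ (algebraMap B A0) x P)) =
        Polynomial.eval₂ i (π (algebraMap A0 A01 x)) P := by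
      rw [← h2]
      exact Polynomial.hom_eval₂ P (algebraMap B A0) (π.comp (algebraMap A0 A01)) x
    rw [← h1]
    exact (Ideal.Quotient.eq_zero_iff_mem).mpr (Ideal.mem_map_of_mem _ hPx)
  let _ : Invertible (π (algebraMap A0 A01 x)) :=
    ⟨π (algebraMap A1 A01 y), by rw [mul_comm]; exact hx, hx⟩
  have h3 : Polynomial.eval₂ i (π (algebraMap A1 A01 y)) P.reverse = 0 := by
    have := Polynomial.eval₂_reverse_mul_pow i (π (algebraMap A0 A01 x)) P
    rw [h0] at this
    have h4 : Polynomial.eval₂ i (π (algebraMap A1 A01 y)) P.reverse *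
        π (algebraMap A0 A01 x) ^ P.natDegree = 0 := this
    have h5 := congrArg (fun z => z * π (algebraMap A1 A01 y) ^ P.natDegree) h4
    simp only [zero_mul, mul_assoc, ← mul_pow, hx, one_pow, mul_one] at h5
    exact h5
  have h6 : P.reverse = P.reverse.divX * Polynomial.X + 1 := by
    conv_lhs => rw [← Polynomial.divX_mul_X_add P.reverse]
    rw [Polynomial.coeff_zero_reverse, hP.leadingCoeff, map_one]
  rw [h6] at h3
  simp only [Polynomial.eval₂_add, Polynomial.eval₂_mul, Polynomial.eval₂_X,
    Polynomial.eval₂_one] at h3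
  -- multiply by x
  have h7 : Polynomial.eval₂ i (π (algebraMap A1 A01 y)) P.reverse.divX +
      π (algebraMap A0 A01 x) = 0 := by
    have := congrArg (fun z => z * π (algebraMap A0 A01 x)) h3
    simp only [zero_mul, add_mul, one_mul, mul_assoc] at this
    rw [mul_comm (π (algebraMap A1 A01 y)) (π (algebraMap A0 A01 x)), hx, mul_one] at this
    exact this
  refine ⟨-(Polynomial.eval₂ (algebraMap B A1) y P.reverse.divX), ?_⟩
  rw [← Ideal.Quotient.eq_zero_iff_mem]
  have h9 : (π.comp (algebraMap A1 A01)).comp (algebraMap B A1) = i := by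
    ext b
    simp [i, ← IsScalarTower.algebraMap_apply B A1 A01]
  have h8 : π (algebraMap A1 A01 (Polynomial.eval₂ (algebraMap B A1) y P.reverse.divX)) =
      Polynomial.eval₂ i (π (algebraMap A1 A01 y)) P.reverse.divX := by
    rw [← h9]
    exact Polynomial.hom_eval₂ P.reverse.divX (algebraMap B A1) (π.comp (algebraMap A1 A01)) y
  change π (algebraMap A0 A01 x - algebraMap A1 A01 (-(Polynomial.eval₂ (algebraMap B A1) y
    P.reverse.divX))) = 0
  rw [map_sub, map_neg, map_neg, sub_neg_eq_add, h8, add_comm]
  exact h7

include hxy in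
/-- If `A0 ⧸ I` is integral over `B` (e.g. finite), the divisor `V(I)` stays away from
`y = 0`. -/
theorem exists_q_of_isIntegral (hint : IsIntegral B (Ideal.Quotient.mk I x)) :
    ∃ q : A1, algebraMap A0 A01 x - algebraMap A1 A01 q ∈ I.map (algebraMap A0 A01) := by
  obtain ⟨P, hP, hPx⟩ := hint
  refine exists_q_of_monic x y hxy I P hP ?_
  rw [← Ideal.Quotient.eq_zero_iff_mem]
  have h1 : (Ideal.Quotient.mk I) (Polynomial.eval₂ (algebraMap B A0) x P) =
      Polynomial.eval₂ ((Ideal.Quotient.mk I).comp (algebraMap B A0))
        ((Ideal.Quotient.mk I) x) P := Polynomial.hom_eval₂ P _ _ x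
  rw [Polynomial.aeval_def, h1]
  exact hPx

include hxy in
theorem exists_q_of_finite [Module.Finite B (A0 ⧸ I)] :
    ∃ q : A1, algebraMap A0 A01 x - algebraMap A1 A01 q ∈ I.map (algebraMap A0 A01) :=
  exists_q_of_isIntegral x y hxy I (Algebra.IsIntegral.isIntegral (R := B) _)

end Integral

end Fermat.Agent.S25.helper4927
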