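import Fermat.Agent.S25.helper5035_CoverAsm
import Fermat.Agent.S25.helper25_BaseBundle
import Fermat.Agent.S25.helper4743_CoverAsm
import Fermat.Agent.S25.helper239_ChiApi
import Fermat.Agent.S25.helper8703_FieldGlue
import Fermat.Agent.S25.helper8573_LCAssembly

/-!
# S25, root `Stmt_CoverAC` (leaf U5b): the `N`-side assembly (helper5035; ruling R10)

`stmt_CoverAC_of : Stmt_FieldCoverMor → helper8573.Stmt_CoverAC`.

The base bundles are `N(n, S) := helper25.baseBundle D n S = 𝒪_C(n · D∞ − S)` (`n : ℕ`, `S` a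
finite set of `k`-points of the first chart), indexed by the pairs `(n, S)` for which `N(n, S)`
has degree `g`. For a rigidified degree-zero `G` over an algebraically closed `K ⊇ k` the
contract `Stmt_FieldCoverMor` gives `n`, `S` and `σ : G → 𝒪_K(n · D∞)` vanishing on `S`;

* `hasDegreeGenus_baseBundle` : the count `|S| + 1 = χ(𝒪_K) + n · deg D∞` says exactly that
  `N(n, S)` has degree `g` (`helper25.hasDegreeGenus_baseBundle_iff`, `helper239.chi_unit`,
  `h⁰(𝒪_C) = 1`);
* `inChartOf_baseBundle` : `σ` factors through the sub-datum `𝒪_K(n · D∞ − S) ≅ N(n, S)_K`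
  (`helper25.baseOver_baseBundle_equiv`), and the corestriction is an isomorphism along `V(y)`
  and generates (`helper4743.inChartOf_ofSubmodules`).
-/

set_option autoImplicit false

namespace Fermat.Agent.S25.helper5035

open Fermat.Agent.S25.helper1705 Fermat.Agent.S25.helper2945 Fermat.Agent.S25.helper8573

universe u

variable {k : Type u} [Field k] [IsAlgClosed k] (D : CurveDatum k)

/-- `χ(𝒪_C) = 1 − g`. -/
theorem chi_unit_eq_one_sub_genus : (GlueDatum.unit D k).chi = 1 - (genus D : ℤ) := by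
  rw [GlueDatum.chi, helper8703.finrank_H0_unit]
  rfl

/-- The count of the contract says that `N(n, S)` has degree `g`. -/
theorem hasDegreeGenus_baseBundle (K : Type u) [Field K] [Algebra k K] (n : ℕ)
    (S : Finset (D.R₀ →ₐ[k] k))
    (h : (S.card : ℤ) + 1 =
      (GlueDatum.unit D K).chi + (n : ℤ) * (helper1153.degInf D : ℤ)) :
    HasDegreeGenus (helper25.baseBundle D n S) := by
  rw [helper25.hasDegreeGenus_baseBundle_iff]
  rw [helper239.chi_unit D K, chi_unit_eq_one_sub_genus] at h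
  linarith

/-- A morphism `σ : G → 𝒪_K(n · D∞)` vanishing on `S`, an isomorphism along `V(y)` and spanning
the morphisms vanishing on `S`, exhibits `G` in the chart of `N(n, S)`. -/
theorem inChartOf_baseBundle (K : Type u) [Field K] [Algebra k K] (G : GlueDatum D K) (n : ℕ)
    (S : Finset (D.R₀ →ₐ[k] k))
    (σ : Mor G (helper3115.twist (GlueDatum.unit D K) (n : ℤ)))
    (hvan : ∀ Q ∈ S, ∀ m : G.M₀, (σ.f₀ m : D.A₀ K) ∈ helper2531.mQ D K Q)
    (hgen : ∀ τ : Mor G (helper3115.twist (GlueDatum.unit D K) (n : ℤ)),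
      (∀ Q ∈ S, ∀ m : G.M₀, (τ.f₀ m : D.A₀ K) ∈ helper2531.mQ D K Q) →
      ∃ c : K, (∀ m : G.M₀, τ.f₀ m = c • σ.f₀ m) ∧ (∀ m : G.M₁, τ.f₁ m = c • σ.f₁ m))
    (hy : σ.SurjModY) : InChartOf (helper25.baseBundle D n S) G := by
  obtain ⟨u, hu, c, huc⟩ := helper25.exists_mem_ptsIdeal₁ D K S
  have hmem : ∀ a : D.A₀ K,
      a ∈ helper25.ptsIdeal D K S • (⊤ : Ideal (D.A₀ K)) ↔
        ∀ Q ∈ S, a ∈ helper2531.mQ D K Q := by
    intro a
    rw [smul_eq_mul, Ideal.mul_top, helper25.mem_ptsIdeal_iff]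
  exact helper4743.inChartOf_ofSubmodules (helper25.ambient D K n) (helper25.ptsSub₀ D K n S)
    (helper25.ptsSub₁ D K n S) (helper25.ptsSub_span_eq D K n S) (helper25.baseBundle D n S)
    u c (by linear_combination (-1 : D.A₁ K) * huc)
    (fun m => Submodule.smul_mem_smul hu Submodule.mem_top)
    (helper25.baseOver_baseBundle_equiv D K n S).symm σ
    (fun m => (hmem (σ.f₀ m)).mpr fun Q hQ => hvan Q hQ m) hy
    (fun τ hτ => hgen τ fun Q hQ m => (hmem (τ.f₀ m)).mp (hτ m) Q hQ)

/-- **COVER from the field-level contract.** -/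
theorem stmt_CoverAC_of (h : Stmt_FieldCoverMor.{u}) : helper8573.Stmt_CoverAC.{u} := by
  intro k _ _ D
  refine ⟨{p : ℕ × Finset (D.R₀ →ₐ[k] k) // HasDegreeGenus (helper25.baseBundle D p.1 p.2)},
    fun j => helper25.baseBundle D j.1.1 j.1.2, fun j => j.2, ?_⟩
  intro K _ _ _ G hG hG0
  obtain ⟨n, S, σ, hcard, hvan, hgen, hy⟩ := h k D K G hG hG0
  exact ⟨⟨(n, S), hasDegreeGenus_baseBundle D K n S hcard⟩,
    inChartOf_baseBundle D K G n S σ hvan hgen hy⟩

end Fermat.Agent.S25.helper5035
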