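import Fermat.Agent.S25.helper5047_PointFamily
import Fermat.Agent.S25.helper7530_ValExistAlg
import Fermat.Agent.S25.helper985_LGAlg2
import Fermat.Agent.S25.helper1800_CurveDatumBasics
import Fermat.Agent.S25.helper1153_ChiTwist
import Fermat.Agent.S25.helper622_PointTwist
import Fermat.Agent.S25.helper8628_ChiGlue
import Fermat.Agent.S25.helper886_PointDecomp
import Fermat.Agent.S25.helper2734_Peel

/-!
# S25, root `Stmt_AlgBoundedFT` (LC5 capstone, hypothesis-passing; leaf U9b / PF4, helper5047)

The bounded family of degree-zero two-chart line bundles is the universal point family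

  `univ T O d = O(B₀)(−Γ_{ι 0} − ⋯ − Γ_{ι (d-1)})`  over  `B₀ = Pow k D.R₀ d = R₀^{⊗d}`,

where `T : helper7530.GluePointTwist D` are the point twists on `GlueDatum` (leaf U3-PT, the
same supplier object as for the root `Stmt_AlgValExistAC`) and `O : helper7530.BaseFamily D`
is a base family (in the application `O(m'·D∞)`, see `twistFamily`).

This file proves everything about it that does not depend on the construction of the twists
nor on the point decomposition:

* `bc_univ`, `exists_bc_univ`, `bc_univ_eq` : the fibres of `univ T O d` are exactly the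
  `d`-fold point twists of `O`;
* `isRig_univ` : it is rigidified as soon as point twists preserve rigidifications;
* `degZero_univ_of_count` / `degZero_univ_of_chiConstFT` : it has degree zero, either by
  counting or by constancy of the Euler characteristic on the domain `B₀`;
* `stmt_AlgBoundedFT_of_chiConst`, `stmt_AlgBoundedFT_of_count` and their `twist` forms: the
  root `helper985.Stmt_AlgBoundedFT` from the suppliers' statements.

The generic reductions take: point twists `T` with `RigStable T`, the UNIFORM point
decomposition `PointDecompUniform T O d` over algebraically closed fields, and either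
`ChiConstFT D` (leaf LC-CHI) or the two Euler characteristic counts.

With the suppliers that are on main (`helper622.pointTwist` with `helper622.isRig_tw₀`, and the
index theorem `helper8628.exists_isLocallyConstant_chi`) the ONLY input left is the uniform
point decomposition:

* `stmt_AlgBoundedFT_of_decomp` : any point twists preserving rigidifications, any rigidified
  base family;
* `stmt_AlgBoundedFT_of_pointDecomp` : `T = helper622.pointTwist D`, `O = O(m·D∞)`;
* `stmt_AlgBoundedFT_of_pointDecomp_fin` : the same with the points given as a `Fin d`-tuple.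
-/

set_option autoImplicit false

universe u

namespace Fermat.Agent.S25.helper5047

open Fermat.Agent.S25.helper1705 Fermat.Agent.S25.helper2945 Fermat.Agent.S25.helper743
  Fermat.Agent.S25.helper7530

namespace BoundedWiring

variable {k : Type u} [Field k] {D : CurveDatum k}

/-! ## Supplier statements -/

/-- Point twists in chart 0 preserve rigidifications along `ε` (the point twist changes the
bundle only away from `ε`, or by an ideal containing an element which is `1` at `ε`). -/
def RigStable (T : GluePointTwist D) : Prop :=
  ∀ (B : Type u) [CommRing B] [Algebra k B] (G : GlueDatum D B) (p : D.R₀ →ₐ[k] B),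
    G.IsRig → (T.tw₀ G p).IsRig

/-- Point twists in chart 0 drop the Euler characteristic by one over every field. -/
def ChiDrop₀ (T : GluePointTwist D) : Prop :=
  ∀ (F : Type u) [Field F] [Algebra k F] (G : GlueDatum D F) (p : D.R₀ →ₐ[k] F),
    (T.tw₀ G p).chi = G.chi - 1

theorem chiDrop₀_of_chiDrop {T : GluePointTwist D} (h : T.ChiDrop) : ChiDrop₀ T :=
  fun _ _ _ G p => h.chi_tw₀ G p

/-- UNIFORM POINT DECOMPOSITION (leaf U9a): over every algebraically closed field `K`, every
degree-zero two-chart line bundle is the twist of the member `O.obj K` of ONE base family by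
exactly `d` points of chart 0 (`O = O(m'·D∞)` and `d = m'·deg D∞` in the application). -/
def PointDecompUniform (T : GluePointTwist D) (O : BaseFamily D) (d : ℕ) : Prop :=
  ∀ (K : Type u) [Field K] [IsAlgClosed K] [Algebra k K] (G : GlueDatum D K), G.DegZero →
    ∃ L : List (D.R₀ →ₐ[k] K), L.length = d ∧ G.Equiv (T.twList (O.obj K) L)

/-- The uniform point decomposition from its `Fin d`-tuple form (the shape
`((List.ofFn P).foldl tw₀ (O K)).Equiv G` of the U9a integration plan). -/
theorem pointDecompUniform_of_fin {T : GluePointTwist D} {O : BaseFamily D} {d : ℕ}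
    (h : ∀ (K : Type u) [Field K] [IsAlgClosed K] [Algebra k K] (G : GlueDatum D K), G.DegZero →
      ∃ P : Fin d → (D.R₀ →ₐ[k] K), (T.twList (O.obj K) (List.ofFn P)).Equiv G) :
    PointDecompUniform T O d := by
  intro K _ _ _ G hG
  obtain ⟨P, hP⟩ := h K G hG
  exact ⟨List.ofFn P, List.length_ofFn, hP.symm⟩

/-- The `Fin d`-tuple form of the uniform point decomposition. -/
theorem PointDecompUniform.fin {T : GluePointTwist D} {O : BaseFamily D} {d : ℕ}
    (h : PointDecompUniform T O d) (K : Type u) [Field K] [IsAlgClosed K] [Algebra k K]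
    (G : GlueDatum D K) (hG : G.DegZero) :
    ∃ P : Fin d → (D.R₀ →ₐ[k] K), (T.twList (O.obj K) (List.ofFn P)).Equiv G := by
  obtain ⟨L, hL, hGL⟩ := h K G hG
  subst hL
  exact ⟨L.get, by rw [List.ofFn_get]; exact hGL.symm⟩

/-- The fibrewise Euler characteristic of a two-chart line bundle over a domain of finite type
over `k` is constant (leaf LC-CHI; weaker than `helper7530.ChiConst`). -/
def ChiConstFT (D : CurveDatum k) : Prop :=
  ∀ (B : Type u) [CommRing B] [IsDomain B] [Algebra k B], Algebra.FiniteType k B →
    ∀ (G : GlueDatum D B), ∃ c : ℤ, ∀ (L : Type u) [Field L] [Algebra k L] (φ : B →ₐ[k] L),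
      (G.baseChange φ).chi = c

theorem chiConstFT_of_chiConst (h : ChiConst D) : ChiConstFT D :=
  fun B _ _ _ _ G => h B G

/-- `ChiConstFT` from local constancy of the Euler characteristic over noetherian bases (the
shape of the LC-CHI index theorem consumed by the `FAEZ` wiring). -/
theorem chiConstFT_of_locConst_noeth
    (h : ∀ (B : Type u) [CommRing B] [Algebra k B] [IsNoetherianRing B] (G : GlueDatum D B),
      ∃ f : PrimeSpectrum B → ℤ, IsLocallyConstant f ∧
        ∀ (K : Type u) [Field K] [Algebra k K] (φ : B →ₐ[k] K) (q : PrimeSpectrum B),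
          q.asIdeal = RingHom.ker φ.toRingHom → (G.baseChange φ).chi = f q) :
    ChiConstFT D := by
  intro B _ _ _ hft G
  have : IsNoetherianRing B := Algebra.FiniteType.isNoetherianRing k B
  obtain ⟨f, hf, hφ⟩ := h B G
  refine ⟨f ⟨⊥, Ideal.isPrime_bot⟩, fun L _ _ φ => ?_⟩
  rw [hφ L φ ⟨RingHom.ker φ.toRingHom, RingHom.ker_isPrime _⟩ rfl]
  exact hf.apply_eq_of_preconnectedSpace _ _

/-- If the fibrewise Euler characteristic is constant over the finite type domain `B`, a datum
over `B` whose fibre at ONE field point has the Euler characteristic of the trivial bundle has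
degree zero. -/
theorem degZero_of_chiConstFT (h : ChiConstFT D) {B : Type u} [CommRing B] [IsDomain B]
    [Algebra k B] (hft : Algebra.FiniteType k B) (G : GlueDatum D B) {K : Type u} [Field K]
    [Algebra k K] (ι : B →ₐ[k] K) (hG : (G.baseChange ι).chi = (GlueDatum.unit D K).chi) :
    G.DegZero := by
  obtain ⟨c, hc⟩ := h B hft G
  obtain ⟨c₀, hc₀⟩ := h B hft (GlueDatum.unit D B)
  have h₀ : ∀ (L : Type u) [Field L] [Algebra k L] (φ : B →ₐ[k] L),
      (GlueDatum.unit D L).chi = c₀ := fun L _ _ φ => by
    rw [← hc₀ L φ, equiv_chi_eq (unit_baseChange φ)]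
  have hcc : c = c₀ := by rw [← hc K ι, hG, h₀ K ι]
  intro L _ _ φ
  rw [hc L φ, hcc, h₀ L φ]

/-! ## The base family `O(m·D∞)` -/

/-- The base family `B ↦ O(m·D∞)` over `B` (the twist of the trivial bundle). -/
noncomputable def twistFamily (D : CurveDatum k) (m : ℤ) : BaseFamily D where
  obj B _ _ := helper3115.twist (GlueDatum.unit D B) m
  bc φ := (helper3115.baseChange_twist _ φ m).trans (helper3115.Equiv_twist (unit_baseChange φ) m)

theorem twistFamily_isRig (m : ℤ) (B : Type u) [CommRing B] [Algebra k B] :
    ((twistFamily D m).obj B).IsRig :=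
  (helper3115.twist_isRig (GlueDatum.unit D B) m).mpr isRig_unit

/-- `χ(O(m·D∞)) = χ(O) + m·deg D∞` over a field, given finite-dimensionality of the cohomology
of the trivial bundle. -/
theorem twistFamily_chi (m : ℤ) (F : Type u) [Field F] [Algebra k F]
    [Module.Finite F (GlueDatum.unit D F).H0] [Module.Finite F (GlueDatum.unit D F).H1] :
    ((twistFamily D m).obj F).chi = (GlueDatum.unit D F).chi + m * helper1153.degInf D :=
  helper1153.chi_twist_eq (GlueDatum.unit D F) m

/-! ## The universal family -/

section Family

variable (T : GluePointTwist D) (O : BaseFamily D)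

/-- The universal family `O(−Γ_{ι 0} − ⋯ − Γ_{ι (d-1)})` over `R₀^{⊗d}`. -/
noncomputable def univ (d : ℕ) : GlueDatum D (Pow k D.R₀ d) :=
  T.twList (O.obj (Pow k D.R₀ d)) (List.ofFn (Pow.ι (k := k) (R := D.R₀) (d := d)))

/-- **Universal property.** The base change of the universal family along the classifying map
of a `d`-tuple of points is the iterated twist by these points. -/
theorem bc_univ (d : ℕ) {B : Type u} [CommRing B] [Algebra k B] (P : Fin d → (D.R₀ →ₐ[k] B)) :
    ((univ T O d).baseChange (Pow.lift P)).Equiv (T.twList (O.obj B) (List.ofFn P)) := by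
  have h1 := T.bc_twList (Pow.lift P) (List.ofFn (Pow.ι (k := k) (R := D.R₀) (d := d)))
    (O.obj (Pow k D.R₀ d))
  have h2 : (List.ofFn (Pow.ι (k := k) (R := D.R₀) (d := d))).map (Pow.lift P).comp =
      List.ofFn P := by
    rw [List.map_ofFn]
    congr 1
    funext i
    exact Pow.lift_comp_ι P i
  rw [h2] at h1
  exact h1.trans (T.twList_congr _ (O.bc _))

/-- Every twist of `O.obj B` by a list of `d` points is a fibre of the universal family. -/
theorem exists_bc_univ (d : ℕ) {B : Type u} [CommRing B] [Algebra k B]
    (L : List (D.R₀ →ₐ[k] B)) (hL : L.length = d) :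
    ∃ φ : Pow k D.R₀ d →ₐ[k] B, ((univ T O d).baseChange φ).Equiv (T.twList (O.obj B) L) := by
  subst hL
  refine ⟨Pow.lift L.get, ?_⟩
  have h := bc_univ T O L.length L.get
  rwa [List.ofFn_get] at h

/-- Every fibre of the universal family is a twist of `O.obj B` by `d` points. -/
theorem bc_univ_eq (d : ℕ) {B : Type u} [CommRing B] [Algebra k B]
    (φ : Pow k D.R₀ d →ₐ[k] B) :
    ((univ T O d).baseChange φ).Equiv
      (T.twList (O.obj B) (List.ofFn fun i => φ.comp (Pow.ι i))) := by
  have h := bc_univ T O d (fun i => φ.comp (Pow.ι i))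
  rwa [← Pow.lift_unique (fun i => φ.comp (Pow.ι i)) φ (fun _ => rfl)] at h

variable {T} in
/-- Iterated point twists preserve rigidifications. -/
theorem isRig_twList (hrig : RigStable T) {B : Type u} [CommRing B] [Algebra k B]
    (L : List (D.R₀ →ₐ[k] B)) (G : GlueDatum D B) (hG : G.IsRig) : (T.twList G L).IsRig := by
  induction L generalizing G with
  | nil => exact hG
  | cons p L ih => exact ih _ (hrig B G p hG)

variable {T O} in
/-- The universal family is rigidified. -/
theorem isRig_univ (hrig : RigStable T)
    (hO : ∀ (B : Type u) [CommRing B] [Algebra k B], (O.obj B).IsRig) (d : ℕ) :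
    (univ T O d).IsRig :=
  isRig_twList hrig _ _ (hO _)

variable {T} in
/-- Euler characteristic of an iterated point twist over a field. -/
theorem chi_twList (hdrop : ChiDrop₀ T) {F : Type u} [Field F] [Algebra k F]
    (L : List (D.R₀ →ₐ[k] F)) (G : GlueDatum D F) :
    (T.twList G L).chi = G.chi - L.length := by
  induction L generalizing G with
  | nil => simp
  | cons p L ih =>
    rw [GluePointTwist.twList_cons, ih, hdrop F G p, List.length_cons]
    push_cast
    ring

variable {T O} in
/-- **Degree zero by counting.** -/
theorem degZero_univ_of_count (hdrop : ChiDrop₀ T) (d : ℕ)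
    (hO : ∀ (F : Type u) [Field F] [Algebra k F],
      (O.obj F).chi = (GlueDatum.unit D F).chi + d) :
    (univ T O d).DegZero := by
  intro F _ _ φ
  rw [equiv_chi_eq (bc_univ_eq T O d φ), chi_twList hdrop, List.length_ofFn, hO F]
  ring

variable {T O} in
/-- **Degree zero by constancy of the Euler characteristic**: the universal family lives over
the finite type domain `R₀^{⊗d}` and one of its fibres is the trivial bundle over `k`. -/
theorem degZero_univ_of_chiConstFT [IsAlgClosed k] (hchi : ChiConstFT D) (d : ℕ)
    (hdec : PointDecompUniform T O d) : (univ T O d).DegZero := by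
  have := Pow.isDomain k D.R₀ d
  have := helper1800.finiteType₀ D
  obtain ⟨L, hL, hGL⟩ := hdec k (GlueDatum.unit D k) degZero_unit
  obtain ⟨φ, hφ⟩ := exists_bc_univ T O d L hL
  exact degZero_of_chiConstFT hchi (Pow.finiteType k D.R₀ d) (univ T O d) φ
    (equiv_chi_eq (hφ.trans hGL.symm))

variable {T O} in
/-- **Boundedness** for one curve: the universal family over `R₀^{⊗d}` bounds all degree-zero
two-chart line bundles over algebraically closed fields. -/
theorem exists_boundedFT [IsAlgClosed k] (d : ℕ) (hrig : RigStable T)
    (hO : ∀ (B : Type u) [CommRing B] [Algebra k B], (O.obj B).IsRig)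
    (hdec : PointDecompUniform T O d) (hdeg : (univ T O d).DegZero) :
    ∃ (B₀ : Type u) (_ : CommRing B₀) (_ : Algebra k B₀) (G₀ : GlueDatum D B₀),
      IsDomain B₀ ∧ Algebra.FiniteType k B₀ ∧ G₀.IsRig ∧ G₀.DegZero ∧
      ∀ (K : Type u) [Field K] [IsAlgClosed K] [Algebra k K] (G : GlueDatum D K),
        G.IsRig → G.DegZero → ∃ φ : B₀ →ₐ[k] K, (G₀.baseChange φ).Equiv G := by
  have := helper1800.finiteType₀ D
  refine ⟨Pow k D.R₀ d, inferInstance, inferInstance, univ T O d, Pow.isDomain k D.R₀ d,
    Pow.finiteType k D.R₀ d, isRig_univ hrig hO d, hdeg, ?_⟩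
  intro K _ _ _ G _ hG
  obtain ⟨L, hL, hGL⟩ := hdec K G hG
  obtain ⟨φ, hφ⟩ := exists_bc_univ T O d L hL
  exact ⟨φ, hφ.trans hGL.symm⟩

end Family

end BoundedWiring

open BoundedWiring

/-! ## The root -/

/-- **LC5, variant B.** `helper985.Stmt_AlgBoundedFT` from: point twists on `GlueDatum`
preserving rigidifications (leaf U3-PT), a base family of rigidified bundles, the uniform point
decomposition over algebraically closed fields (leaf U9a) and constancy of the fibrewise Euler
characteristic over finite type domains (leaf LC-CHI). -/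
theorem stmt_AlgBoundedFT_of_chiConst
    (h : ∀ (k : Type u) [Field k] [IsAlgClosed k] (D : CurveDatum k),
      ChiConstFT D ∧ ∃ (T : GluePointTwist D) (O : BaseFamily D) (d : ℕ),
        RigStable T ∧ (∀ (B : Type u) [CommRing B] [Algebra k B], (O.obj B).IsRig) ∧
          PointDecompUniform T O d) :
    Fermat.Agent.S25.helper985.Stmt_AlgBoundedFT.{u} := by
  intro k _ _ D
  obtain ⟨hchi, T, O, d, hrig, hO, hdec⟩ := h k D
  exact exists_boundedFT d hrig hO hdec (degZero_univ_of_chiConstFT hchi d hdec)

/-- **LC5, variant A.** `helper985.Stmt_AlgBoundedFT` from: point twists on `GlueDatum`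
preserving rigidifications and dropping the Euler characteristic by one (leaf U3-PT), a base
family of rigidified bundles of Euler characteristic `χ(O) + d`, and the uniform point
decomposition over algebraically closed fields (leaf U9a). -/
theorem stmt_AlgBoundedFT_of_count
    (h : ∀ (k : Type u) [Field k] [IsAlgClosed k] (D : CurveDatum k),
      ∃ (T : GluePointTwist D) (O : BaseFamily D) (d : ℕ),
        RigStable T ∧ ChiDrop₀ T ∧ (∀ (B : Type u) [CommRing B] [Algebra k B], (O.obj B).IsRig) ∧
          (∀ (F : Type u) [Field F] [Algebra k F],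
            (O.obj F).chi = (GlueDatum.unit D F).chi + d) ∧
          PointDecompUniform T O d) :
    Fermat.Agent.S25.helper985.Stmt_AlgBoundedFT.{u} := by
  intro k _ _ D
  obtain ⟨T, O, d, hrig, hdrop, hO, hOchi, hdec⟩ := h k D
  exact exists_boundedFT d hrig hO hdec (degZero_univ_of_count hdrop d hOchi)

/-- **LC5, variant B with `O = O(m·D∞)`.** -/
theorem stmt_AlgBoundedFT_of_twist_chiConst
    (h : ∀ (k : Type u) [Field k] [IsAlgClosed k] (D : CurveDatum k),
      ChiConstFT D ∧ ∃ (T : GluePointTwist D) (m : ℤ) (d : ℕ),
        RigStable T ∧ PointDecompUniform T (twistFamily D m) d) :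
    Fermat.Agent.S25.helper985.Stmt_AlgBoundedFT.{u} := by
  refine stmt_AlgBoundedFT_of_chiConst fun k _ _ D => ?_
  obtain ⟨hchi, T, m, d, hrig, hdec⟩ := h k D
  exact ⟨hchi, T, twistFamily D m, d, hrig, twistFamily_isRig m, hdec⟩

/-- **LC5, variant A with `O = O(m·D∞)`**, `m ≥ 0` and `d = m·deg D∞` points; the cohomology of
the trivial bundle over every field is assumed finite-dimensional. -/
theorem stmt_AlgBoundedFT_of_twist_count
    (h : ∀ (k : Type u) [Field k] [IsAlgClosed k] (D : CurveDatum k),
      (∀ (F : Type u) [Field F] [Algebra k F],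
        Module.Finite F (GlueDatum.unit D F).H0 ∧ Module.Finite F (GlueDatum.unit D F).H1) ∧
      ∃ (T : GluePointTwist D) (m : ℕ),
        RigStable T ∧ ChiDrop₀ T ∧
          PointDecompUniform T (twistFamily D m) (m * helper1153.degInf D)) :
    Fermat.Agent.S25.helper985.Stmt_AlgBoundedFT.{u} := by
  refine stmt_AlgBoundedFT_of_count fun k _ _ D => ?_
  obtain ⟨hfin, T, m, hrig, hdrop, hdec⟩ := h k D
  refine ⟨T, twistFamily D m, m * helper1153.degInf D, hrig, hdrop, twistFamily_isRig _,
    fun F _ _ => ?_, hdec⟩
  have := (hfin F).1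
  have := (hfin F).2
  rw [twistFamily_chi]
  push_cast
  ring

/-! ## The root, with the suppliers on main -/

section Suppliers

variable {k : Type u} [Field k] [IsAlgClosed k] (D : CurveDatum k)

/-- Local constancy of the fibrewise Euler characteristic (`helper8628_ChiGlue`), in the
supplier shape `helper7530.ChiLocConst`. -/
theorem BoundedWiring.chiLocConst : ChiLocConst D :=
  fun _ _ _ G => helper8628.exists_isLocallyConstant_chi G

/-- The fibrewise Euler characteristic is constant over domains. -/
theorem BoundedWiring.chiConst : ChiConst D :=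
  (BoundedWiring.chiLocConst D).chiConst

/-- The point twists of `helper622_PointTwist` preserve rigidifications. -/
theorem BoundedWiring.rigStable_pointTwist : RigStable (helper622.pointTwist D) :=
  fun _ _ _ G p hG => helper622.isRig_tw₀ G p hG

end Suppliers

/-- **LC5, reduced to the uniform point decomposition** (any point twists preserving
rigidifications, any rigidified base family). -/
theorem stmt_AlgBoundedFT_of_decomp
    (h : ∀ (k : Type u) [Field k] [IsAlgClosed k] (D : CurveDatum k),
      ∃ (T : GluePointTwist D) (O : BaseFamily D) (d : ℕ),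
        RigStable T ∧ (∀ (B : Type u) [CommRing B] [Algebra k B], (O.obj B).IsRig) ∧
          PointDecompUniform T O d) :
    Fermat.Agent.S25.helper985.Stmt_AlgBoundedFT.{u} :=
  stmt_AlgBoundedFT_of_chiConst fun k _ _ D =>
    ⟨chiConstFT_of_chiConst (BoundedWiring.chiConst D), h k D⟩

/-- **LC5, reduced to the uniform point decomposition for the point twists of
`helper622_PointTwist` and the base family `O(m·D∞)`**: if for every curve datum over an
algebraically closed field there are `m` and `d` such that every degree-zero two-chart line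
bundle over an algebraically closed field `K` is `O(m·D∞)(−P₁ − ⋯ − P_d)` for `d` points `P_i`
of chart 0 with values in `K`, then `helper985.Stmt_AlgBoundedFT` holds. -/
theorem stmt_AlgBoundedFT_of_pointDecomp
    (h : ∀ (k : Type u) [Field k] [IsAlgClosed k] (D : CurveDatum k),
      ∃ (m : ℤ) (d : ℕ), PointDecompUniform (helper622.pointTwist D) (twistFamily D m) d) :
    Fermat.Agent.S25.helper985.Stmt_AlgBoundedFT.{u} :=
  stmt_AlgBoundedFT_of_decomp fun k _ _ D => by
    obtain ⟨m, d, hdec⟩ := h k D
    exact ⟨helper622.pointTwist D, twistFamily D m, d, BoundedWiring.rigStable_pointTwist D,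
      twistFamily_isRig m, hdec⟩

/-- The same, with the points given as a `Fin d`-tuple and everything unfolded: the statement
to prove is about `helper622.tw₀`, `helper3115.twist` and `GlueDatum.unit` only. -/
theorem stmt_AlgBoundedFT_of_pointDecomp_fin
    (h : ∀ (k : Type u) [Field k] [IsAlgClosed k] (D : CurveDatum k),
      ∃ (m : ℤ) (d : ℕ), ∀ (K : Type u) [Field K] [IsAlgClosed K] [Algebra k K]
        (G : GlueDatum D K), G.DegZero →
        ∃ P : Fin d → (D.R₀ →ₐ[k] K),
          ((List.ofFn P).foldl (fun G p => helper622.tw₀ G p)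
            (helper3115.twist (GlueDatum.unit D K) m)).Equiv G) :
    Fermat.Agent.S25.helper985.Stmt_AlgBoundedFT.{u} :=
  stmt_AlgBoundedFT_of_pointDecomp fun k _ _ D => by
    obtain ⟨m, d, hdec⟩ := h k D
    exact ⟨m, d, pointDecompUniform_of_fin fun K _ _ _ G hG => hdec K G hG⟩

/-! ## The three roots, closed

Peeling (`helper2734.peel`) closes `helper886.Stmt_Peel`, hence the uniform point decomposition
(`helper886_PointDecomp`) and with it the three roots that hang on it. -/

/-- **(S-PEEL)** is a theorem. -/
theorem stmt_Peel : Fermat.Agent.S25.helper886.Stmt_Peel.{u} :=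
  fun _ _ _ _ _ _ _ _ G N τ h0 hy => Fermat.Agent.S25.helper2734.peel G N τ h0 hy

/-- **Root LC5**: the bounded family over a finite type domain. -/
theorem stmt_AlgBoundedFT : Fermat.Agent.S25.helper985.Stmt_AlgBoundedFT.{u} :=
  Fermat.Agent.S25.helper886.stmt_AlgBoundedFT_of_peel stmt_Peel

/-- **Root LC5**, in the form consumed by the descent arrow D-BOUNDED. -/
theorem stmt_AlgBounded : Fermat.Agent.S25.helper985.Stmt_AlgBounded.{u} :=
  Fermat.Agent.S25.helper985.stmt_AlgBounded_of_FT stmt_AlgBoundedFT

/-- **Root LC4**: valuative existence over valuation rings with algebraically closed fraction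
field. -/
theorem stmt_AlgValExistAC : Fermat.Agent.S25.helper985.Stmt_AlgValExistAC.{u} :=
  Fermat.Agent.S25.helper886.stmt_AlgValExistAC_of_peel stmt_Peel

/-- **Root `Stmt_FAEZ`**: degree zero ⟺ fibrewise algebraically equivalent to zero. -/
theorem stmt_FAEZ : Fermat.Agent.S25.helper1705.Stmt_FAEZ.{u} :=
  Fermat.Agent.S25.helper886.stmt_FAEZ_of_peel stmt_Peel

end Fermat.Agent.S25.helper5047
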