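import Fermat.Agent.S25.helper1705_Curve

/-!
# S25, leaf LG-UC, part (UC-a): extension of points of the atlas over a valuation ring

`D : CurveDatum k`, `V` a valuation ring that is a `k`-algebra, `K = Frac V`.
Every `K`-point of the chart `Spec R₀` extends to a `V`-point of `Spec R₀` or to a `V`-point of
`Spec R₁` (and symmetrically).  This is pure algebra: `R₀` is integral over `k[x]`,
`R₁` is integral over `k[y]`, `x * y = 1` on the overlap and `V` is integrally closed.
(Properness of the curve is encoded in `finite₀`, `finite₁`.)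
-/

set_option autoImplicit false

universe u v w

open Polynomial

namespace Fermat.Agent.S25.helper6505

open Fermat.Agent.S25.helper1705

section Generic

variable {k : Type u} [Field k]
variable {V : Type v} {K : Type w} [CommRing V] [IsDomain V] [ValuationRing V] [Field K]
  [Algebra V K] [IsFractionRing V K] [Algebra k V] [Algebra k K] [IsScalarTower k V K]

/-- If `A` is finite over `k[z]` and a `K`-point `p` of `A` sends `z` into the valuation ring `V`,
then `p` sends all of `A` into `V`. -/
theorem exists_mem_of_finite {A : Type*} [CommRing A] [Algebra k A] (z : A)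
    (hfin : (Polynomial.aeval z : Polynomial k →ₐ[k] A).toRingHom.Finite)
    (p : A →ₐ[k] K) (hz : ∃ v : V, algebraMap V K v = p z) (a : A) :
    ∃ w : V, algebraMap V K w = p a := by
  obtain ⟨v, hv⟩ := hz
  obtain ⟨f, hf, hfa⟩ := hfin.to_isIntegral a
  have hcomp : (algebraMap V K).comp (Polynomial.aeval v : Polynomial k →ₐ[k] V).toRingHom =
      p.toRingHom.comp (Polynomial.aeval z : Polynomial k →ₐ[k] A).toRingHom := by
    have : ((IsScalarTower.toAlgHom k V K).comp (Polynomial.aeval v : Polynomial k →ₐ[k] V)) =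
        p.comp (Polynomial.aeval z : Polynomial k →ₐ[k] A) := by
      apply Polynomial.algHom_ext
      simp [hv]
    exact congrArg AlgHom.toRingHom this
  have hint : IsIntegral V (p a) := by
    refine ⟨f.map (Polynomial.aeval v : Polynomial k →ₐ[k] V).toRingHom, hf.map _, ?_⟩
    rw [Polynomial.eval₂_map, hcomp]
    have := congrArg p hfa
    rw [map_zero] at this
    rw [← this]
    exact (Polynomial.hom_eval₂ f _ p.toRingHom a).symm
  exact IsIntegrallyClosed.isIntegral_iff.mp hint

/-- If `A` is finite over `k[z]` and a `K`-point `p` of `A` sends `z` into the valuation ring `V`,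
then `p` comes from a `V`-point of `A`. -/
theorem exists_lift_of_finite {A : Type*} [CommRing A] [Algebra k A] (z : A)
    (hfin : (Polynomial.aeval z : Polynomial k →ₐ[k] A).toRingHom.Finite)
    (p : A →ₐ[k] K) (hz : ∃ v : V, algebraMap V K v = p z) :
    ∃ p' : A →ₐ[k] V, (IsScalarTower.toAlgHom k V K).comp p' = p := by
  have hinj : Function.Injective (algebraMap V K) := IsFractionRing.injective V K
  choose g hg using exists_mem_of_finite (V := V) z hfin p hz
  refine ⟨{ toFun := g
            map_one' := hinj (by rw [hg, map_one, map_one])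
            map_mul' := fun a b => hinj (by rw [hg, map_mul, map_mul, hg, hg])
            map_zero' := hinj (by rw [hg, map_zero, map_zero])
            map_add' := fun a b => hinj (by rw [hg, map_add, map_add, hg, hg])
            commutes' := fun c => hinj (by
              rw [hg, AlgHom.commutes, ← IsScalarTower.algebraMap_apply]) }, ?_⟩
  ext a
  exact hg a

/-- **Point extension, abstract two-chart form.**  `A`, `A'` are the two chart rings, `A₀₁` the
overlap ring, `z * z' = 1` on the overlap, `A` finite over `k[z]`, `A'` finite over `k[z']`.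
A `K`-point of `A` extends to a `V`-point of `A`, or it extends to the overlap and its
restriction to `A'` comes from a `V`-point of `A'`. -/
theorem point_extension_aux {A A' A₀₁ : Type*} [CommRing A] [CommRing A'] [CommRing A₀₁]
    [Algebra k A] [Algebra k A'] [Algebra k A₀₁] [Algebra A A₀₁] [Algebra A' A₀₁]
    [IsScalarTower k A A₀₁] [IsScalarTower k A' A₀₁] (z : A) (z' : A')
    [IsLocalization.Away z A₀₁]
    (hzz' : algebraMap A A₀₁ z * algebraMap A' A₀₁ z' = 1)
    (hfin : (Polynomial.aeval z : Polynomial k →ₐ[k] A).toRingHom.Finite)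
    (hfin' : (Polynomial.aeval z' : Polynomial k →ₐ[k] A').toRingHom.Finite)
    (p : A →ₐ[k] K) :
    (∃ p' : A →ₐ[k] V, (IsScalarTower.toAlgHom k V K).comp p' = p) ∨
    (∃ (q' : A' →ₐ[k] V) (r : A₀₁ →ₐ[k] K),
      r.comp (IsScalarTower.toAlgHom k A A₀₁) = p ∧
      r.comp (IsScalarTower.toAlgHom k A' A₀₁) = (IsScalarTower.toAlgHom k V K).comp q' ∧
      algebraMap V K (q' z') * p z = 1) := by
  by_cases hz : ∃ v : V, algebraMap V K v = p z
  · exact Or.inl (exists_lift_of_finite z hfin p hz)
  · right
    have hpz : p z ≠ 0 := fun h => hz ⟨0, by rw [map_zero, h]⟩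
    -- `(p z)⁻¹ ∈ V`
    obtain ⟨v, hv⟩ : ∃ v : V, algebraMap V K v = (p z)⁻¹ := by
      rcases ValuationRing.isInteger_or_isInteger V (p z) with h | h
      · exact absurd h hz
      · exact h
    -- extend `p` to the overlap
    have hunit : ∀ y : Submonoid.powers z, IsUnit (p y) := by
      rintro ⟨_, n, rfl⟩
      simpa using (IsUnit.mk0 _ hpz).pow n
    let r : A₀₁ →ₐ[k] K := IsLocalization.liftAlgHom (M := Submonoid.powers z) (f := p) hunit
    have hr : ∀ a : A, r (algebraMap A A₀₁ a) = p a := fun a =>
      IsLocalization.lift_eq _ a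
    have hrz' : r (algebraMap A' A₀₁ z') = (p z)⁻¹ := by
      have h1 := congrArg r hzz'
      rw [map_mul, map_one, hr] at h1
      exact eq_inv_of_mul_eq_one_right h1
    let q : A' →ₐ[k] K := r.comp (IsScalarTower.toAlgHom k A' A₀₁)
    have hqz' : q z' = (p z)⁻¹ := hrz'
    obtain ⟨q', hq'⟩ := exists_lift_of_finite (V := V) z' hfin' q ⟨v, by rw [hv, hqz']⟩
    refine ⟨q', r, ?_, hq'.symm, ?_⟩
    · ext a
      exact hr a
    · have : algebraMap V K (q' z') = q z' := by
        rw [← hq']
        rfl
      rw [this, hqz', inv_mul_cancel₀ hpz]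

end Generic

section Curve

variable {k : Type u} [Field k] (D : CurveDatum k)
variable {V : Type v} {K : Type w} [CommRing V] [IsDomain V] [ValuationRing V] [Field K]
  [Algebra V K] [IsFractionRing V K] [Algebra k V] [Algebra k K] [IsScalarTower k V K]

/-- **Point extension, chart 0.**  A `K`-point of `Spec R₀` extends to a `V`-point of `Spec R₀`,
or it lies on the overlap and extends to a `V`-point of `Spec R₁`. -/
theorem point_extension₀ (p : D.R₀ →ₐ[k] K) :
    (∃ p' : D.R₀ →ₐ[k] V, (IsScalarTower.toAlgHom k V K).comp p' = p) ∨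
    (∃ (q' : D.R₁ →ₐ[k] V) (r : D.R₀₁ →ₐ[k] K),
      r.comp (IsScalarTower.toAlgHom k D.R₀ D.R₀₁) = p ∧
      r.comp (IsScalarTower.toAlgHom k D.R₁ D.R₀₁) = (IsScalarTower.toAlgHom k V K).comp q' ∧
      algebraMap V K (q' D.y) * p D.x = 1) :=
  point_extension_aux D.x D.y D.xy D.finite₀ D.finite₁ p

/-- **Point extension, chart 1.**  A `K`-point of `Spec R₁` extends to a `V`-point of `Spec R₁`,
or it lies on the overlap and extends to a `V`-point of `Spec R₀`. -/
theorem point_extension₁ (q : D.R₁ →ₐ[k] K) :
    (∃ q' : D.R₁ →ₐ[k] V, (IsScalarTower.toAlgHom k V K).comp q' = q) ∨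
    (∃ (p' : D.R₀ →ₐ[k] V) (r : D.R₀₁ →ₐ[k] K),
      r.comp (IsScalarTower.toAlgHom k D.R₁ D.R₀₁) = q ∧
      r.comp (IsScalarTower.toAlgHom k D.R₀ D.R₀₁) = (IsScalarTower.toAlgHom k V K).comp p' ∧
      algebraMap V K (p' D.x) * q D.y = 1) :=
  point_extension_aux D.y D.x ((mul_comm _ _).trans D.xy) D.finite₁ D.finite₀ q

end Curve

end Fermat.Agent.S25.helper6505
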