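import Fermat.Agent.S25.helper1705_Curve
import Fermat.Agent.S25.helper6505_PointExt

/-!
# S25, leaf U18: valuative existence, interface form (helper7530)

`V` a valuation ring over `k` with fraction field `K`.  A two-chart line bundle datum over `K`
of the form `O(m·D∞ − Σ Pᵢ)` (`Pᵢ` `K`-points of chart 0) extends to a datum over `V` with the
same fibrewise Euler characteristic.

The statement is proved for an abstract family of data (`PointTwistData`) carrying exactly the
operations and compatibilities that are used: base change, twist by a point of chart 0 or of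
chart 1, base-change compatibility of the twists, agreement of the two twists for a point of the
overlap, and the Euler characteristic over fields dropping by one under a point twist.
The instantiation with the actual glue data is a separate (short) file.
-/

set_option autoImplicit false

universe u w

namespace Fermat.Agent.S25.helper7530

open Fermat.Agent.S25.helper1705

/-- The operations on two-chart data used in the valuative existence argument. -/
structure PointTwistData {k : Type u} [Field k] (D : CurveDatum k) where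
  /-- data over a `k`-algebra `B` -/
  Obj : ∀ (B : Type u) [CommRing B] [Algebra k B], Type w
  /-- isomorphism of data -/
  Rel : ∀ {B : Type u} [CommRing B] [Algebra k B], Obj B → Obj B → Prop
  rel_refl : ∀ {B : Type u} [CommRing B] [Algebra k B] (G : Obj B), Rel G G
  rel_symm : ∀ {B : Type u} [CommRing B] [Algebra k B] {G G' : Obj B}, Rel G G' → Rel G' G
  rel_trans : ∀ {B : Type u} [CommRing B] [Algebra k B] {G G' G'' : Obj B},
    Rel G G' → Rel G' G'' → Rel G G''
  /-- base change -/
  bc : ∀ {B B' : Type u} [CommRing B] [Algebra k B] [CommRing B'] [Algebra k B']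
    (_ : B →ₐ[k] B'), Obj B → Obj B'
  bc_congr : ∀ {B B' : Type u} [CommRing B] [Algebra k B] [CommRing B'] [Algebra k B']
    (φ : B →ₐ[k] B') {G G' : Obj B}, Rel G G' → Rel (bc φ G) (bc φ G')
  /-- twist `G(−P)` by a point of chart 0 -/
  tw₀ : ∀ {B : Type u} [CommRing B] [Algebra k B], Obj B → (D.R₀ →ₐ[k] B) → Obj B
  /-- twist `G(−Q)` by a point of chart 1 -/
  tw₁ : ∀ {B : Type u} [CommRing B] [Algebra k B], Obj B → (D.R₁ →ₐ[k] B) → Obj B
  tw₀_congr : ∀ {B : Type u} [CommRing B] [Algebra k B] {G G' : Obj B} (p : D.R₀ →ₐ[k] B),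
    Rel G G' → Rel (tw₀ G p) (tw₀ G' p)
  bc_tw₀ : ∀ {B B' : Type u} [CommRing B] [Algebra k B] [CommRing B'] [Algebra k B']
    (φ : B →ₐ[k] B') (G : Obj B) (p : D.R₀ →ₐ[k] B),
    Rel (bc φ (tw₀ G p)) (tw₀ (bc φ G) (φ.comp p))
  bc_tw₁ : ∀ {B B' : Type u} [CommRing B] [Algebra k B] [CommRing B'] [Algebra k B']
    (φ : B →ₐ[k] B') (G : Obj B) (q : D.R₁ →ₐ[k] B),
    Rel (bc φ (tw₁ G q)) (tw₁ (bc φ G) (φ.comp q))
  /-- a point of the overlap gives the same twist in both charts -/
  tw_same : ∀ {B : Type u} [CommRing B] [Algebra k B] (G : Obj B) (r : D.R₀₁ →ₐ[k] B),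
    Rel (tw₀ G (r.comp (IsScalarTower.toAlgHom k D.R₀ D.R₀₁)))
      (tw₁ G (r.comp (IsScalarTower.toAlgHom k D.R₁ D.R₀₁)))
  /-- Euler characteristic over a field -/
  chi : ∀ {F : Type u} [Field F] [Algebra k F], Obj F → ℤ
  chi_congr : ∀ {F : Type u} [Field F] [Algebra k F] {G G' : Obj F}, Rel G G' → chi G = chi G'
  chi_tw₀ : ∀ {F : Type u} [Field F] [Algebra k F] (G : Obj F) (p : D.R₀ →ₐ[k] F),
    chi (tw₀ G p) = chi G - 1
  chi_tw₁ : ∀ {F : Type u} [Field F] [Algebra k F] (G : Obj F) (q : D.R₁ →ₐ[k] F),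
    chi (tw₁ G q) = chi G - 1

namespace PointTwistData

variable {k : Type u} [Field k] {D : CurveDatum k} (T : PointTwistData.{u, w} D)

/-- Iterated twist by a list of points of chart 0: `G(−P₁ − ⋯ − P_d)`. -/
def twList {B : Type u} [CommRing B] [Algebra k B] (G : T.Obj B) (L : List (D.R₀ →ₐ[k] B)) :
    T.Obj B :=
  L.foldl T.tw₀ G

@[simp] theorem twList_nil {B : Type u} [CommRing B] [Algebra k B] (G : T.Obj B) :
    T.twList G [] = G := rfl

@[simp] theorem twList_cons {B : Type u} [CommRing B] [Algebra k B] (G : T.Obj B)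
    (p : D.R₀ →ₐ[k] B) (L : List (D.R₀ →ₐ[k] B)) :
    T.twList G (p :: L) = T.twList (T.tw₀ G p) L := rfl

theorem twList_congr {B : Type u} [CommRing B] [Algebra k B] (L : List (D.R₀ →ₐ[k] B))
    {G G' : T.Obj B} (h : T.Rel G G') : T.Rel (T.twList G L) (T.twList G' L) := by
  induction L generalizing G G' with
  | nil => exact h
  | cons p L ih => exact ih (T.tw₀_congr p h)

section Valuation

variable {V K : Type u} [CommRing V] [IsDomain V] [ValuationRing V] [Field K]
  [Algebra V K] [IsFractionRing V K] [Algebra k V] [Algebra k K] [IsScalarTower k V K]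

/-- One step: a datum over `V` whose generic fibre is the twist of the generic fibre of `G`
by a given `K`-point of chart 0, with Euler characteristic dropping by one on every fibre. -/
theorem exists_step (G : T.Obj V) (p : D.R₀ →ₐ[k] K) :
    ∃ G' : T.Obj V,
      T.Rel (T.bc (IsScalarTower.toAlgHom k V K) G')
        (T.tw₀ (T.bc (IsScalarTower.toAlgHom k V K) G) p) ∧
      ∀ (F : Type u) [Field F] [Algebra k F] (φ : V →ₐ[k] F),
        T.chi (T.bc φ G') = T.chi (T.bc φ G) - 1 := by
  rcases helper6505.point_extension₀ (V := V) D p with ⟨p', hp'⟩ | ⟨q', r, hr₀, hr₁, -⟩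
  · refine ⟨T.tw₀ G p', ?_, fun F _ _ φ => ?_⟩
    · have h := T.bc_tw₀ (IsScalarTower.toAlgHom k V K) G p'
      rwa [hp'] at h
    · rw [T.chi_congr (T.bc_tw₀ φ G p'), T.chi_tw₀]
  · refine ⟨T.tw₁ G q', ?_, fun F _ _ φ => ?_⟩
    · have h := T.bc_tw₁ (IsScalarTower.toAlgHom k V K) G q'
      rw [← hr₁] at h
      have h' := T.tw_same (T.bc (IsScalarTower.toAlgHom k V K) G) r
      rw [hr₀] at h'
      exact T.rel_trans h (T.rel_symm h')
    · rw [T.chi_congr (T.bc_tw₁ φ G q'), T.chi_tw₁]

/-- **Valuative existence, interface form (list version).**  For every datum `G` over `V`, every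
datum `H` over `K` isomorphic to the generic fibre of `G`, and every list `L` of `K`-points of
chart 0, the twist `H(−Σ L)` is the generic fibre of a datum `G'` over `V` whose Euler
characteristic on every fibre is that of `G` minus the number of points. -/
theorem exists_extension_list (L : List (D.R₀ →ₐ[k] K)) (G : T.Obj V) (H : T.Obj K)
    (hGH : T.Rel (T.bc (IsScalarTower.toAlgHom k V K) G) H) :
    ∃ G' : T.Obj V,
      T.Rel (T.bc (IsScalarTower.toAlgHom k V K) G') (T.twList H L) ∧
      ∀ (F : Type u) [Field F] [Algebra k F] (φ : V →ₐ[k] F),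
        T.chi (T.bc φ G') = T.chi (T.bc φ G) - L.length := by
  induction L generalizing G H with
  | nil => exact ⟨G, hGH, fun F _ _ φ => by simp⟩
  | cons p L ih =>
    obtain ⟨G₁, hG₁, hchi₁⟩ := T.exists_step G p
    obtain ⟨G', hG', hchi'⟩ := ih G₁ (T.tw₀ H p) (T.rel_trans hG₁ (T.tw₀_congr p hGH))
    refine ⟨G', hG', fun F _ _ φ => ?_⟩
    rw [hchi' F φ, hchi₁ F φ, List.length_cons]
    push_cast
    ring

/-- **Valuative existence, interface form (`Fin d` version).** -/
theorem exists_extension_fin (d : ℕ) (P : Fin d → (D.R₀ →ₐ[k] K)) (G : T.Obj V) (H : T.Obj K)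
    (hGH : T.Rel (T.bc (IsScalarTower.toAlgHom k V K) G) H) :
    ∃ G' : T.Obj V,
      T.Rel (T.bc (IsScalarTower.toAlgHom k V K) G') (T.twList H (List.ofFn P)) ∧
      ∀ (F : Type u) [Field F] [Algebra k F] (φ : V →ₐ[k] F),
        T.chi (T.bc φ G') = T.chi (T.bc φ G) - d := by
  obtain ⟨G', h1, h2⟩ := T.exists_extension_list (List.ofFn P) G H hGH
  exact ⟨G', h1, fun F _ _ φ => by rw [h2 F φ, List.length_ofFn]⟩

end Valuation

end PointTwistData

end Fermat.Agent.S25.helper7530
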