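import Fermat.Agent.S25.helper5047_PointFamily
import Fermat.Agent.S25.helper7530_ValExist

/-!
# S25, leaf U9b (PF3): the universal point family, interface form (helper5047)

`T : helper7530.PointTwistData D` is the abstract family of two-chart data with base change and
point twists (its instance for `helper2945.GlueDatum` is leaf U3-PT).  Given a base family
`O B : T.Obj B` compatible with base change (in the application `O(m·D∞)`), the universal family

  `univ d = O(B₀)(−Γ_{ι 0} − ⋯ − Γ_{ι (d-1)})`  over  `B₀ = Pow k D.R₀ d = R₀^{⊗d}`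

specialises, along `Pow.lift P : B₀ →ₐ[k] B`, to `O(B)(−P 0 − ⋯ − P (d-1))` for every
`k`-algebra `B` and every `d`-tuple `P` of `B`-points of chart 0 (`bc_univ`).

Consequences, all in interface form:
* `chi_bc_univ`  : the Euler characteristic of every fibre of `univ d` is `chi (O F) - d`;
* `univ_pred`    : any property stable under point twists (e.g. `IsRig`) passes to `univ d`;
* `exists_bc_univ_rel` : if every datum `G` over a field `K` is a `d`-fold point twist of `O K`
  (point decomposition, leaf U9a), it is a specialisation of the single datum `univ d`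
  (= the shape of `helper985.Stmt_AlgBounded`);
* `exists_connecting_family` : the same over the `K`-algebra `K ⊗[k] B₀` (a domain of finite type
  over `K` when `k` is algebraically closed), with two `K`-points, one giving `G` and one giving
  `G'` (= the witness family of algebraic equivalence; take `G' = unit`).
-/

set_option autoImplicit false

universe u w

open scoped TensorProduct

namespace Fermat.Agent.S25.helper5047

open Fermat.Agent.S25.helper1705 Fermat.Agent.S25.helper7530

namespace UnivFamily

variable {k : Type u} [Field k] {D : CurveDatum k} (T : PointTwistData.{u, w} D)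

/-- Base change commutes with iterated point twists. -/
theorem bc_twList {B B' : Type u} [CommRing B] [Algebra k B] [CommRing B'] [Algebra k B']
    (φ : B →ₐ[k] B') (L : List (D.R₀ →ₐ[k] B)) (G : T.Obj B) :
    T.Rel (T.bc φ (T.twList G L)) (T.twList (T.bc φ G) (L.map φ.comp)) := by
  induction L generalizing G with
  | nil => exact T.rel_refl _
  | cons p L ih =>
    simp only [PointTwistData.twList_cons, List.map_cons]
    exact T.rel_trans (ih (T.tw₀ G p)) (T.twList_congr _ (T.bc_tw₀ φ G p))

/-- Euler characteristic of an iterated point twist over a field. -/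
theorem chi_twList {F : Type u} [Field F] [Algebra k F] (L : List (D.R₀ →ₐ[k] F))
    (G : T.Obj F) : T.chi (T.twList G L) = T.chi G - L.length := by
  induction L generalizing G with
  | nil => simp
  | cons p L ih =>
    rw [PointTwistData.twList_cons, ih, T.chi_tw₀, List.length_cons]
    push_cast
    ring

/-- A property stable under point twists is stable under iterated point twists. -/
theorem twList_pred {B : Type u} [CommRing B] [Algebra k B] (Q : T.Obj B → Prop)
    (hQ : ∀ (G : T.Obj B) (p : D.R₀ →ₐ[k] B), Q G → Q (T.tw₀ G p))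
    (L : List (D.R₀ →ₐ[k] B)) (G : T.Obj B) (hG : Q G) : Q (T.twList G L) := by
  induction L generalizing G with
  | nil => exact hG
  | cons p L ih => exact ih _ (hQ G p hG)

variable (O : ∀ (B : Type u) [CommRing B] [Algebra k B], T.Obj B)

/-- The universal family `O(−Γ_{ι 0} − ⋯ − Γ_{ι (d-1)})` over `R₀^{⊗d}`. -/
noncomputable def univ (d : ℕ) : T.Obj (Pow k D.R₀ d) :=
  T.twList (O (Pow k D.R₀ d)) (List.ofFn (Pow.ι (k := k) (R := D.R₀) (d := d)))

variable (hO : ∀ (B B' : Type u) [CommRing B] [Algebra k B] [CommRing B'] [Algebra k B']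
  (φ : B →ₐ[k] B'), T.Rel (T.bc φ (O B)) (O B'))

include hO in
/-- **Universal property of the family.** Its base change along the classifying map of a
`d`-tuple of points is the iterated twist by these points. -/
theorem bc_univ (d : ℕ) {B : Type u} [CommRing B] [Algebra k B] (P : Fin d → (D.R₀ →ₐ[k] B)) :
    T.Rel (T.bc (Pow.lift P) (univ T O d)) (T.twList (O B) (List.ofFn P)) := by
  have h1 := bc_twList T (Pow.lift P) (List.ofFn (Pow.ι (k := k) (R := D.R₀) (d := d)))
    (O (Pow k D.R₀ d))
  have h2 : (List.ofFn (Pow.ι (k := k) (R := D.R₀) (d := d))).map (Pow.lift P).comp =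
      List.ofFn P := by
    rw [List.map_ofFn]
    congr 1
    funext i
    exact Pow.lift_comp_ι P i
  rw [h2] at h1
  exact T.rel_trans h1 (T.twList_congr _ (hO _ _ _))

include hO in
/-- Every fibre of the universal family has Euler characteristic `chi (O F) - d`. -/
theorem chi_bc_univ (d : ℕ) {F : Type u} [Field F] [Algebra k F] (φ : Pow k D.R₀ d →ₐ[k] F) :
    T.chi (T.bc φ (univ T O d)) = T.chi (O F) - d := by
  have h := bc_univ T O hO d (fun i => φ.comp (Pow.ι i))
  rw [← Pow.lift_unique (fun i => φ.comp (Pow.ι i)) φ (fun _ => rfl)] at h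
  rw [T.chi_congr h, chi_twList, List.length_ofFn]

/-- A property stable under point twists and true for `O` holds for the universal family. -/
theorem univ_pred (d : ℕ) (Q : T.Obj (Pow k D.R₀ d) → Prop)
    (hQ : ∀ (G : T.Obj (Pow k D.R₀ d)) (p : D.R₀ →ₐ[k] Pow k D.R₀ d), Q G → Q (T.tw₀ G p))
    (hQO : Q (O (Pow k D.R₀ d))) : Q (univ T O d) :=
  twList_pred T Q hQ _ _ hQO

include hO in
/-- **Boundedness, interface form.** If `G` over `K` is a `d`-fold point twist of `O K`, then it
is a specialisation of the universal family over `R₀^{⊗d}`. -/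
theorem exists_bc_univ_rel (d : ℕ) {K : Type u} [CommRing K] [Algebra k K] (G : T.Obj K)
    (hG : ∃ P : Fin d → (D.R₀ →ₐ[k] K), T.Rel (T.twList (O K) (List.ofFn P)) G) :
    ∃ φ : Pow k D.R₀ d →ₐ[k] K, T.Rel (T.bc φ (univ T O d)) G := by
  obtain ⟨P, hP⟩ := hG
  exact ⟨Pow.lift P, T.rel_trans (bc_univ T O hO d P) hP⟩

include hO in
/-- **Connecting family, interface form.** Two `d`-fold point twists `G`, `G'` of `O K` over `K`
are fibres, at two `K`-points, of one family over the `K`-algebra `K ⊗[k] R₀^{⊗d}`. -/
theorem exists_connecting_family (d : ℕ) {K : Type u} [CommRing K] [Algebra k K]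
    (hcomp : ∀ (B B' B'' : Type u) [CommRing B] [Algebra k B] [CommRing B'] [Algebra k B']
      [CommRing B''] [Algebra k B''] (φ : B →ₐ[k] B') (ψ : B' →ₐ[k] B'') (G : T.Obj B),
      T.Rel (T.bc ψ (T.bc φ G)) (T.bc (ψ.comp φ) G))
    (G G' : T.Obj K)
    (hG : ∃ P : Fin d → (D.R₀ →ₐ[k] K), T.Rel (T.twList (O K) (List.ofFn P)) G)
    (hG' : ∃ P : Fin d → (D.R₀ →ₐ[k] K), T.Rel (T.twList (O K) (List.ofFn P)) G') :
    ∃ (N : T.Obj (K ⊗[k] Pow k D.R₀ d)) (q q' : K ⊗[k] Pow k D.R₀ d →ₐ[K] K),
      T.Rel (T.bc (q.restrictScalars k) N) G ∧ T.Rel (T.bc (q'.restrictScalars k) N) G' := by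
  obtain ⟨P, hP⟩ := hG
  obtain ⟨P', hP'⟩ := hG'
  refine ⟨T.bc Algebra.TensorProduct.includeRight (univ T O d), Pow.pointK P, Pow.pointK P',
    ?_, ?_⟩
  · have h := hcomp _ _ _ (Algebra.TensorProduct.includeRight :
      Pow k D.R₀ d →ₐ[k] K ⊗[k] Pow k D.R₀ d) ((Pow.pointK P).restrictScalars k) (univ T O d)
    rw [Pow.pointK_comp_includeRight] at h
    exact T.rel_trans h (T.rel_trans (bc_univ T O hO d P) hP)
  · have h := hcomp _ _ _ (Algebra.TensorProduct.includeRight :
      Pow k D.R₀ d →ₐ[k] K ⊗[k] Pow k D.R₀ d) ((Pow.pointK P').restrictScalars k) (univ T O d)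
    rw [Pow.pointK_comp_includeRight] at h
    exact T.rel_trans h (T.rel_trans (bc_univ T O hO d P') hP')

end UnivFamily

end Fermat.Agent.S25.helper5047
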