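import Fermat.Agent.S25.helper3151_Frontier
import Fermat.Agent.S25.helper505_LGWiring
import Fermat.Agent.S25.helper3173_ChartOfAsm
import Fermat.Agent.S25.helper5035_CoverAsm
import Fermat.Agent.S25.helper886_PointDecomp
import Fermat.Agent.S25.helper83_CoverAsm

/-!
# S25: the leaf-level frontier (captain helper505)

`stmt_S25_of_leaves` : the frozen statement S25 (as the Prop `helper1705.Stmt_S25`) from the
leaf statements that are not yet theorems on main.  Everything else is composed from theorems
on main.  The signature is STABLE (new names are added when leaves close; nothing is edited):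

* `hSheaf`  : `helper7939.Stmt_ExistsSheaf R` for every realization (leaf U14);
* `hDrop`   : `helper505.Stmt_ChiDrop` (L1);
* `hDecomp` : `helper505.Stmt_UniformDecomp` (L2 = U9a, uniform counting form);
* `hRig`, `hDeg`, `hMono`, `hOpen`, `hImage` : the five clauses of the chart family
  `helper3173.P N s f` (root `Stmt_ChartOfAC`);
* `hField`  : `helper5035.Stmt_FieldCoverMor` (field side of the cover);
* `hCoverN` : the `N`-side arrow `Stmt_FieldCoverMor → helper8573.Stmt_CoverAC`.

`stmt_S25_of_leaves6` (03:10Z): the frontier after the closure of the cover root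
(`helper83.stmt_CoverAC`), of `Stmt_UnivRig` (`helper3173.stmt_UnivRig`) and after the reduction
of the three roots LC4, LC5, FAEZ to peeling (`helper886_PointDecomp`): S25 from SIX leaves,

* `hSheaf`  : `helper7939.Stmt_ExistsSheaf R` for every realization (leaf U14);
* `hPeel`   : `helper886.Stmt_Peel` (S-PEEL);
* `hDeg`, `hMono`, `hOpen`, `hImage` : four clauses of the chart family `helper3173.P N s f`.
-/

set_option autoImplicit false

universe u

open CategoryTheory CategoryTheory.Limits AlgebraicGeometry AlgebraicGeometry.RelPicard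
  NeronModelInfra

namespace Fermat.Agent.S25.helper505

open Fermat.Agent.S25 Fermat.Agent.S25.helper1705 Fermat.Agent.S25.helper2911
  Fermat.Agent.S25.helper2945

/-- **S25 from the leaf-level frontier.** -/
theorem stmt_S25_of_leaves
    (hSheaf : ∀ (k : Type u) [Field k] {C : Scheme.{u}} (c : C ⟶ Spec (CommRingCat.of k))
      (ε : SchemeHomOver (𝟙 (Spec (CommRingCat.of k))) c) (D : CurveDatum k)
      (R : Realization c ε D), helper7939.Stmt_ExistsSheaf R)
    (hDrop : Stmt_ChiDrop.{u}) (hDecomp : Stmt_UniformDecomp.{u})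
    (hRig : helper3173.Stmt_UnivRig.{u}) (hDeg : helper3173.Stmt_UnivDeg.{u})
    (hMono : helper3173.Stmt_UnivMono.{u}) (hOpen : helper3173.Stmt_UnivOpen.{u})
    (hImage : helper3173.Stmt_UnivImage.{u})
    (hField : helper5035.Stmt_FieldCoverMor.{u})
    (hCoverN : helper5035.Stmt_FieldCoverMor.{u} → helper8573.Stmt_CoverAC.{u}) :
    helper1705.Stmt_S25.{u} :=
  helper3151.stmt_S25_of_open5AC hSheaf
    (stmt_AlgBoundedFT_of_leaves hDrop hDecomp)
    (stmt_AlgValExistAC_of_leaves hDecomp)
    (helper3173.stmt_ChartOfAC_of hRig hDeg hMono hOpen hImage)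
    (hCoverN hField)

/-- **S25 from the six leaves open at 03:10Z.** -/
theorem stmt_S25_of_leaves6
    (hSheaf : ∀ (k : Type u) [Field k] {C : Scheme.{u}} (c : C ⟶ Spec (CommRingCat.of k))
      (ε : SchemeHomOver (𝟙 (Spec (CommRingCat.of k))) c) (D : CurveDatum k)
      (R : Realization c ε D), helper7939.Stmt_ExistsSheaf R)
    (hPeel : helper886.Stmt_Peel.{u})
    (hDeg : helper3173.Stmt_UnivDeg.{u})
    (hMono : helper3173.Stmt_UnivMono.{u}) (hOpen : helper3173.Stmt_UnivOpen.{u})
    (hImage : helper3173.Stmt_UnivImage.{u}) :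
    helper1705.Stmt_S25.{u} :=
  helper3151.stmt_S25_of_open5AC hSheaf
    (helper886.stmt_AlgBoundedFT_of_peel hPeel)
    (helper886.stmt_AlgValExistAC_of_peel hPeel)
    (helper3173.stmt_ChartOfAC_of helper3173.stmt_UnivRig hDeg hMono hOpen hImage)
    helper83.stmt_CoverAC

end Fermat.Agent.S25.helper505
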