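import Fermat.Agent.S25.helper3173_ChartOfAsm
import Fermat.Agent.S25.helper239_ChiApi
import Fermat.Agent.S25.helper4927_TwistChi

/-!
# S25, root `Stmt_ChartOfAC`, clause DEG (helper6401)

`helper3173.Stmt_UnivDeg`: the universal bundles `P N s f = N_W(−D_univ)` of the chart family of
`helper3173_ChartOfAsm` have fibrewise degree zero when the base bundle `N` has degree
`g = genus D`.

Proof. For a field-valued point `φ : W D s f →ₐ[k] K` the fibre of `P N s f` is
`N_K(−D_I)` for the chart ideal `I = (chartIdeal s f).map (D.map₀ φ)` (clause POINT,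
`helper3173.Stmt_UnivPoint`, taken as a hypothesis). The inclusion `N_K(−D_I) → N_K` is
injective, surjective modulo `y` at infinity, with image `I • N₀` on the first chart, so
`χ(N_K(−D_I)) = χ(N_K) − dim_K (A₀ K ⧸ I) = χ(N) − g = χ(𝒪)`.
-/

set_option autoImplicit false

open TensorProduct

namespace Fermat.Agent.S25.helper6401

open Fermat.Agent.S25.helper1705 Fermat.Agent.S25.helper2945

universe u

section TwistMor

variable {k : Type u} [Field k] {D : CurveDatum k} {B : Type u} [CommRing B] [Algebra k B]

/-- The inclusion `G(−E) → G` of a divisor twist (`helper1035.twist`), as a morphism of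
two-chart line bundles. -/
noncomputable def twistMor (G : GlueDatum D B) (E : helper1035.DivDatum D B) :
    helper8573.Mor (helper1035.twist G E) G where
  f₀ := helper1035.incl₀ G E
  f₁ := helper1035.incl₁ G E
  f₀₁ := helper1035.incl₀₁ G E
  comm₀ m := (helper1035.ρ₀_incl₀ G E m).symm
  comm₁ m := (helper1035.ρ₁_incl₁ G E m).symm

@[simp] theorem twistMor_f₀ (G : GlueDatum D B) (E : helper1035.DivDatum D B) :
    (twistMor G E).f₀ = helper1035.incl₀ G E := rfl

@[simp] theorem twistMor_f₁ (G : GlueDatum D B) (E : helper1035.DivDatum D B) :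
    (twistMor G E).f₁ = helper1035.incl₁ G E := rfl

/-- If the ideal at infinity of the divisor contains an element congruent to `1` modulo `y`
(the divisor does not meet `V(y)`), the inclusion `G(−E) → G` is surjective modulo `y`. -/
theorem twistMor_surjModY (G : GlueDatum D B) (E : helper1035.DivDatum D B)
    (hu : ∃ u ∈ E.I₁, u - 1 ∈ Ideal.span {yB D B}) : (twistMor G E).SurjModY := by
  intro n
  obtain ⟨u, hu, hu1⟩ := hu
  obtain ⟨w, hw⟩ := Ideal.mem_span_singleton'.mp hu1
  refine ⟨helper1035.mk₁ G E (u • n) (Submodule.smul_mem_smul hu Submodule.mem_top),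
    -(w • n), ?_⟩
  have h1 : (twistMor G E).f₁ (helper1035.mk₁ G E (u • n)
      (Submodule.smul_mem_smul hu Submodule.mem_top)) = u • n := rfl
  rw [h1, smul_neg, smul_smul, ← sub_eq_add_neg, ← sub_smul]
  have h2 : u - yB D B * w = 1 := by
    have : yB D B * w = u - 1 := by rw [mul_comm]; exact hw
    rw [this]; ring
  rw [h2, one_smul]

end TwistMor

/-- **Clause DEG of the chart family**, from clause POINT. -/
theorem stmt_UnivDeg_of (hPoint : helper3173.Stmt_UnivPoint.{u}) :
    helper3173.Stmt_UnivDeg.{u} := by
  intro k _ _ D N hN s f K _ _ φ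
  have hIK : helper1002.IsChartIdeal s ((helper3173.chartIdeal s f).map (D.map₀ φ)) :=
    (helper3173.isChartIdeal_chartIdeal s f).map φ
  have : Module.Finite K (D.A₀ K ⧸ (helper3173.chartIdeal s f).map (D.map₀ φ)) := hIK.finite
  have : Module.Projective K (D.A₀ K ⧸ (helper3173.chartIdeal s f).map (D.map₀ φ)) :=
    hIK.projective
  rw [helper743.equiv_chi_eq (hPoint k D N s f K φ)]
  have : FiniteDimensional K (helper8573.baseOver N K).H0 := helper239.finite_H0_field _
  have : FiniteDimensional K (helper8573.baseOver N K).H1 := helper239.finite_H1_field _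
  obtain ⟨-, -, hchi⟩ := helper4927.chi_of_mor_ideal
    (twistMor (helper8573.baseOver N K)
      (helper3173.divOf ((helper3173.chartIdeal s f).map (D.map₀ φ))))
    (helper1035.incl₀_injective _ _) (helper1035.incl₁_injective _ _)
    (twistMor_surjModY _ _ (helper622.exists_mem_atInfty_sub_one_mem (B := K) (xB D K) (yB D K)
      (xB_mul_yB D K) ((helper3173.chartIdeal s f).map (D.map₀ φ))))
    ((helper3173.chartIdeal s f).map (D.map₀ φ)) (helper1035.range_incl₀ _ _)
  have hfr : Module.finrank K (D.A₀ K ⧸ (helper3173.chartIdeal s f).map (D.map₀ φ)) =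
      helper8573.genus D := by
    rw [hIK.finrank_eq, Fintype.card_fin]
  have hG : (helper8573.baseOver N K).chi = N.chi :=
    helper239.chi_field_ext N (Algebra.ofId k K)
  have hN' : N.chi = (GlueDatum.unit D k).chi + (helper8573.genus D : ℤ) := hN
  change (helper1035.twist (helper8573.baseOver N K)
    (helper3173.divOf ((helper3173.chartIdeal s f).map (D.map₀ φ)))).chi = _
  rw [hchi, hfr, hG, hN', helper239.chi_unit D K]
  ring

/-- **Clause DEG of the chart family** (unconditional: clause POINT is
`helper3173.stmt_UnivPoint`). -/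
theorem stmt_UnivDeg : helper3173.Stmt_UnivDeg.{u} :=
  stmt_UnivDeg_of helper3173.stmt_UnivPoint

end Fermat.Agent.S25.helper6401
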