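import Fermat.Agent.S25.helper505_Frontier
import Fermat.Agent.S25.helper2734_PeelStmt
import Fermat.Agent.S25.helper263_StmtExistsSheaf
import Fermat.Agent.S25.helper6401_UnivDeg

/-!
# S25: the frontier at 03:15Z (captain helper505)

All roots of the S25 architecture are theorems on main except the chart root
`helper8573.Stmt_ChartOfAC`, of which the three clauses `helper3173.Stmt_UnivMono`,
`helper3173.Stmt_UnivOpen`, `helper3173.Stmt_UnivImage` are not yet proved.

* `stmt_S25_of_chartOfAC` : S25 from `helper8573.Stmt_ChartOfAC`;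
* `stmt_S25_of_leaves3`   : S25 from the three chart clauses;
* `stmt_S25_literal_of_chartOfAC`, `stmt_S25_literal_of_leaves3` : the same in the literal shape
  of the frozen statement (so `Fermat/Agent/S25.lean` is one application).

Cited closed roots: `helper3151.stmt_GlueObj`, `helper2911.stmt_Chart`, `helper263.stmt_Dict`,
`helper2734.stmt_FAEZ`, `helper2734.stmt_AlgBoundedFT`, `helper2734.stmt_AlgValExistAC`,
`helper7727.stmt_AlgLiftSqZero`, `helper6550.stmt_AlgValUniq`, `helper83.stmt_CoverAC`,
`helper3173.stmt_UnivRig`, `helper6401.stmt_UnivDeg`.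
-/

set_option autoImplicit false

universe u

open CategoryTheory CategoryTheory.Limits AlgebraicGeometry AlgebraicGeometry.RelPicard
  NeronModelInfra GoodReductionJacobian

namespace Fermat.Agent.S25.helper505

open Fermat.Agent.S25

/-- **S25 from the chart root.** -/
theorem stmt_S25_of_chartOfAC (hChartOf : helper8573.Stmt_ChartOfAC.{u}) :
    helper1705.Stmt_S25.{u} :=
  helper7736.stmt_S25_of_roots helper3151.stmt_GlueObj helper2911.stmt_Chart
    helper263.stmt_Dict helper2734.stmt_FAEZ
    (helper8573.stmt_AlgCharts_of hChartOf helper83.stmt_CoverAC)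
    helper7727.stmt_AlgLiftSqZero helper6550.stmt_AlgValUniq
    (helper985.stmt_AlgBounded_of_FT helper2734.stmt_AlgBoundedFT)
    helper2734.stmt_AlgValExistAC

/-- **S25 from the three chart clauses open at 03:15Z.** -/
theorem stmt_S25_of_leaves3
    (hMono : helper3173.Stmt_UnivMono.{u}) (hOpen : helper3173.Stmt_UnivOpen.{u})
    (hImage : helper3173.Stmt_UnivImage.{u}) :
    helper1705.Stmt_S25.{u} :=
  stmt_S25_of_chartOfAC
    (helper3173.stmt_ChartOfAC_of helper3173.stmt_UnivRig helper6401.stmt_UnivDeg
      hMono hOpen hImage)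

/-- The frozen statement S25 in its literal shape, from the chart root. -/
theorem stmt_S25_literal_of_chartOfAC (hChartOf : helper8573.Stmt_ChartOfAC.{u})
    (k : Type u) [Field k] [IsAlgClosed k] {C : Scheme.{u}} (c : C ⟶ Spec (CommRingCat.of k))
    [IsProper c] [SmoothOfRelativeDimension 1 c] [IsIntegral C]
    (ε : SchemeHomOver (𝟙 (Spec (CommRingCat.of k))) c) :
    ∃ D : RelativePic0Designation k c,
      Nonempty (RepresentsRelSubPic c ε (algEquivZeroCut c ε) D) ∧
        Smooth D.toBase ∧ IsProper D.toBase ∧ GeometricallyConnected D.toBase :=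
  stmt_S25_of_chartOfAC hChartOf k c ε

/-- The frozen statement S25 in its literal shape, from the three chart clauses. -/
theorem stmt_S25_literal_of_leaves3
    (hMono : helper3173.Stmt_UnivMono.{u}) (hOpen : helper3173.Stmt_UnivOpen.{u})
    (hImage : helper3173.Stmt_UnivImage.{u})
    (k : Type u) [Field k] [IsAlgClosed k] {C : Scheme.{u}} (c : C ⟶ Spec (CommRingCat.of k))
    [IsProper c] [SmoothOfRelativeDimension 1 c] [IsIntegral C]
    (ε : SchemeHomOver (𝟙 (Spec (CommRingCat.of k))) c) :
    ∃ D : RelativePic0Designation k c,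
      Nonempty (RepresentsRelSubPic c ε (algEquivZeroCut c ε) D) ∧
        Smooth D.toBase ∧ IsProper D.toBase ∧ GeometricallyConnected D.toBase :=
  stmt_S25_of_leaves3 hMono hOpen hImage k c ε

end Fermat.Agent.S25.helper505
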