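import Mathlib
import Fermat.Agent.S25.helper7939_TildeBaseChange

/-!
# S25, layer B, leaf U16 (helper5681): rigidification on a chart = base change of the chart module

Models-agnostic core.  `X` is any scheme, `j : Spec A ⟶ X` any morphism (in practice the open
immersion of an affine chart), `φ : A ⟶ B` a ring map and `σ : Spec B ⟶ X` a morphism with
`σ = Spec.map φ ≫ j` (in practice: the rigidifying section, which factors through the chart at
infinity).  If `L : X.Modules` restricts to `M^~` on the chart, then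

* `pullbackSectionIso`    : `σ^* L ≅ (B ⊗[A] M)^~`;
* `nonempty_pullback_iso_unit_iff` : `σ^* L ≅ 𝒪_{Spec B}`  iff  `B ⊗[A] M ≅ B` as `B`-modules.

Only Mathlib and `helper7939_TildeBaseChange` (P1, base change for tilde) are used.
-/

set_option autoImplicit false

universe u

open CategoryTheory CategoryTheory.Limits AlgebraicGeometry Opposite

namespace Fermat.Agent.S25.helper5681

noncomputable section

/-- Isomorphism classes are reflected and preserved by `tilde`. -/
theorem nonempty_tilde_iso_iff {R : CommRingCat.{u}} (M N : ModuleCat.{u} R) :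
    Nonempty ((tilde.functor R).obj M ≅ (tilde.functor R).obj N) ↔ Nonempty (M ≅ N) :=
  ⟨fun ⟨e⟩ => ⟨tilde.fullyFaithfulFunctor.preimageIso e⟩,
    fun ⟨e⟩ => ⟨(tilde.functor R).mapIso e⟩⟩

/-- A module on `Spec R` of the form `M^~` is isomorphic to the structure sheaf iff `M ≅ R`. -/
theorem nonempty_tilde_iso_unit_iff {R : CommRingCat.{u}} (M : ModuleCat.{u} R) :
    Nonempty ((tilde.functor R).obj M ≅ SheafOfModules.unit.{u} (Spec R).ringCatSheaf) ↔
      Nonempty (M ≅ ModuleCat.of R R) := by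
  rw [← nonempty_tilde_iso_iff]
  exact ⟨fun ⟨e⟩ => ⟨e ≪≫ tildeSelf.symm⟩, fun ⟨e⟩ => ⟨e ≪≫ tildeSelf⟩⟩

variable {X : Scheme.{u}} {A B : CommRingCat.{u}}

/-- If `L` restricts to `M^~` along `j : Spec A ⟶ X` and `σ = Spec.map φ ≫ j`, then
`σ^* L ≅ (B ⊗[A] M)^~`. -/
def pullbackSectionIso (j : Spec A ⟶ X) (φ : A ⟶ B) (σ : Spec B ⟶ X) (hσ : σ = Spec.map φ ≫ j)
    (L : X.Modules) (M : ModuleCat.{u} A)
    (e : (Scheme.Modules.pullback j).obj L ≅ (tilde.functor A).obj M) :
    (Scheme.Modules.pullback σ).obj L ≅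
      (tilde.functor B).obj ((ModuleCat.extendScalars φ.hom).obj M) :=
  (Scheme.Modules.pullbackCongr hσ).app L ≪≫
    ((Scheme.Modules.pullbackComp (Spec.map φ) j).app L).symm ≪≫
    (Scheme.Modules.pullback (Spec.map φ)).mapIso e ≪≫
    (Fermat.Agent.S25.helper7939.tildePullbackIso φ).app M

/-- **Rigidification on a chart** (categorical form): `σ^* L` is trivial iff the base change of
the chart module along `φ` is free of rank one. -/
theorem nonempty_pullback_iso_unit_iff (j : Spec A ⟶ X) (φ : A ⟶ B) (σ : Spec B ⟶ X)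
    (hσ : σ = Spec.map φ ≫ j) (L : X.Modules) (M : ModuleCat.{u} A)
    (e : (Scheme.Modules.pullback j).obj L ≅ (tilde.functor A).obj M) :
    Nonempty ((Scheme.Modules.pullback σ).obj L ≅ SheafOfModules.unit.{u} (Spec B).ringCatSheaf) ↔
      Nonempty ((ModuleCat.extendScalars φ.hom).obj M ≅ ModuleCat.of B B) := by
  rw [← nonempty_tilde_iso_unit_iff]
  exact ⟨fun ⟨i⟩ => ⟨(pullbackSectionIso j φ σ hσ L M e).symm ≪≫ i⟩,
    fun ⟨i⟩ => ⟨pullbackSectionIso j φ σ hσ L M e ≪≫ i⟩⟩

/-- Variant with the chart module taken to be the global sections of `j^* L` (available as soon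
as `j^* L` is quasi-coherent, e.g. for invertible `L`, by `helper845`). -/
theorem nonempty_pullback_iso_unit_iff_Γ (j : Spec A ⟶ X) (φ : A ⟶ B) (σ : Spec B ⟶ X)
    (hσ : σ = Spec.map φ ≫ j) (L : X.Modules)
    [IsIso ((Scheme.Modules.pullback j).obj L).fromTildeΓ] :
    Nonempty ((Scheme.Modules.pullback σ).obj L ≅ SheafOfModules.unit.{u} (Spec B).ringCatSheaf) ↔
      Nonempty ((ModuleCat.extendScalars φ.hom).obj
        (moduleSpecΓFunctor.obj ((Scheme.Modules.pullback j).obj L)) ≅ ModuleCat.of B B) :=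
  nonempty_pullback_iso_unit_iff j φ σ hσ L _
    (asIso ((Scheme.Modules.pullback j).obj L).fromTildeΓ).symm

end

/-! ### Unbundled form: `B ⊗[A] M ≃ₗ[B] B` -/

section Unbundled

noncomputable section

open TensorProduct ChangeOfRings

variable {A B : Type u} [CommRing A] [CommRing B] [Algebra A B] (M : Type u) [AddCommGroup M]
  [Module A M]

/-- The `A`-linear map `m ↦ 1 ⊗ m` into the restriction of scalars of `B ⊗[A] M`. -/
def unitHom : ModuleCat.of A M ⟶
    (ModuleCat.restrictScalars (algebraMap A B)).obj (ModuleCat.of B (B ⊗[A] M)) :=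
  ModuleCat.ofHom (Y := (ModuleCat.restrictScalars (algebraMap A B)).obj (ModuleCat.of B (B ⊗[A] M)))
    { toFun := fun m => (1 : B) ⊗ₜ[A] m
      map_add' := fun m m' => TensorProduct.tmul_add _ _ _
      map_smul' := fun r m => by
        change (1 : B) ⊗ₜ[A] (r • m) = algebraMap A B r • ((1 : B) ⊗ₜ[A] m)
        rw [TensorProduct.smul_tmul', smul_eq_mul, mul_one, TensorProduct.tmul_smul,
          TensorProduct.smul_tmul', Algebra.smul_def, mul_one] }

/-- The comparison map `(extendScalars (algebraMap A B)).obj M ⟶ B ⊗[A] M`. -/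
def extendScalarsToTensor : (ModuleCat.extendScalars (algebraMap A B)).obj (ModuleCat.of A M) ⟶
    ModuleCat.of B (B ⊗[A] M) :=
  ModuleCat.ExtendRestrictScalarsAdj.HomEquiv.fromExtendScalars (algebraMap A B) (unitHom M)

set_option backward.isDefEq.respectTransparency false in
/-- The carrier of `(ModuleCat.extendScalars (algebraMap A B)).obj M` is `B ⊗[A] M`. -/
def extendScalarsLinearEquiv :
    ((ModuleCat.extendScalars (algebraMap A B)).obj (ModuleCat.of A M)) ≃ₗ[B] (B ⊗[A] M) := by
  letI : Module A ((ModuleCat.extendScalars (algebraMap A B)).obj (ModuleCat.of A M)) :=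
    Module.compHom _ (algebraMap A B)
  haveI : IsScalarTower A B ((ModuleCat.extendScalars (algebraMap A B)).obj (ModuleCat.of A M)) :=
    IsScalarTower.of_compHom A B _
  let h : M →ₗ[A] ((ModuleCat.extendScalars (algebraMap A B)).obj (ModuleCat.of A M)) :=
    (ModuleCat.ExtendRestrictScalarsAdj.HomEquiv.toRestrictScalars (algebraMap A B)
      (𝟙 ((ModuleCat.extendScalars (algebraMap A B)).obj (ModuleCat.of A M)))).hom
  have h1 : ∀ m : M, h m = (1 : B) ⊗ₜ[A, algebraMap A B] m := fun m => rfl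
  have hF : ∀ m : M,
      (extendScalarsToTensor M).hom ((1 : B) ⊗ₜ[A, algebraMap A B] m) = (1 : B) ⊗ₜ[A] m := by
    intro m
    change (1 : B) • ((1 : B) ⊗ₜ[A] m) = _
    rw [one_smul]
  refine LinearEquiv.ofLinearMap (extendScalarsToTensor M).hom (h.liftBaseChange B) ?_ ?_
  · apply TensorProduct.AlgebraTensorModule.ext
    intro b m
    simp only [LinearMap.comp_apply, LinearMap.liftBaseChange_tmul, map_smul, h1, hF,
      LinearMap.id_apply, TensorProduct.smul_tmul', smul_eq_mul, mul_one]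
  · have : (extendScalarsToTensor M) ≫ ModuleCat.ofHom (h.liftBaseChange B) = 𝟙 _ := by
      apply ModuleCat.ExtendScalars.hom_ext
      intro m
      change (h.liftBaseChange B)
        ((extendScalarsToTensor M).hom ((1 : B) ⊗ₜ[A, algebraMap A B] m)) = _
      rw [hF, LinearMap.liftBaseChange_tmul, one_smul, h1]
      rfl
    exact congrArg ModuleCat.Hom.hom this

/-- `(extendScalars (algebraMap A B)).obj M ≅ B` in `ModuleCat B` iff `B ⊗[A] M ≃ₗ[B] B`. -/
theorem nonempty_extendScalars_iso_self_iff :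
    Nonempty ((ModuleCat.extendScalars (algebraMap A B)).obj (ModuleCat.of A M) ≅
        ModuleCat.of B B) ↔ Nonempty ((B ⊗[A] M) ≃ₗ[B] B) :=
  ⟨fun ⟨i⟩ => ⟨(extendScalarsLinearEquiv M).symm ≪≫ₗ i.toLinearEquiv⟩,
    fun ⟨e⟩ => ⟨((extendScalarsLinearEquiv M) ≪≫ₗ e).toModuleIso⟩⟩

/-- **Rigidification on a chart** (unbundled form).  Let `j : Spec A ⟶ X`, let `B` be an
`A`-algebra and `σ : Spec B ⟶ X` with `σ = Spec.map (A → B) ≫ j`.  If `j^* L ≅ M^~` then
`σ^* L ≅ 𝒪_{Spec B}` iff `B ⊗[A] M ≃ₗ[B] B`. -/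
theorem nonempty_pullback_iso_unit_iff_tensor {X : Scheme.{u}}
    (j : Spec (CommRingCat.of A) ⟶ X) (σ : Spec (CommRingCat.of B) ⟶ X)
    (hσ : σ = Spec.map (CommRingCat.ofHom (algebraMap A B)) ≫ j) (L : X.Modules)
    (e : (Scheme.Modules.pullback j).obj L ≅
      (tilde.functor (CommRingCat.of A)).obj (ModuleCat.of A M)) :
    Nonempty ((Scheme.Modules.pullback σ).obj L ≅
        SheafOfModules.unit.{u} (Spec (CommRingCat.of B)).ringCatSheaf) ↔
      Nonempty ((B ⊗[A] M) ≃ₗ[B] B) :=
  (nonempty_pullback_iso_unit_iff j (CommRingCat.ofHom (algebraMap A B)) σ hσ L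
    (ModuleCat.of A M) e).trans (nonempty_extendScalars_iso_self_iff M)

end

end Unbundled

end Fermat.Agent.S25.helper5681
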