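import Mathlib

set_option autoImplicit false

universe u

open CategoryTheory TopologicalSpace Opposite AlgebraicGeometry

namespace Fermat.Agent.S25.helper5733

variable {X : Scheme.{u}}

/-- The sheaf of abelian groups underlying an `𝒪_X`-module. -/
noncomputable def sheafAb (M : X.Modules) : TopCat.Sheaf Ab X := ⟨M.presheaf, M.isSheaf⟩

/-- Naturality of a morphism of modules, elementwise. -/
lemma app_map_apply {M N : X.Modules} (φ : M ⟶ N) {U V : X.Opens} (i : U ⟶ V) (x : Γ(M, V)) :
    φ.app U (M.presheaf.map i.op x) = N.presheaf.map i.op (φ.app V x) := by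
  have := φ.mapPresheaf.naturality i.op
  exact congr($this x)

/-- Build a morphism of `X.Modules` from sectionwise additive, linear, natural maps. -/
noncomputable def homOfApp (M N : X.Modules)
    (f : ∀ U : X.Opens, Γ(M, U) →+ Γ(N, U))
    (hsmul : ∀ (U : X.Opens) (r : Γ(X, U)) (x : Γ(M, U)), f U (r • x) = r • f U x)
    (hnat : ∀ {U V : X.Opens} (i : U ⟶ V) (x : Γ(M, V)),
      f U (M.presheaf.map i.op x) = N.presheaf.map i.op (f V x)) : M ⟶ N :=
  ⟨PresheafOfModules.homMk
    { app := fun U => AddCommGrpCat.ofHom (f U.unop)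
      naturality := fun U V i => by
        ext x
        exact hnat i.unop x }
    (fun U r m => hsmul U.unop r m)⟩

@[simp] lemma homOfApp_app_apply (M N : X.Modules)
    (f : ∀ U : X.Opens, Γ(M, U) →+ Γ(N, U))
    (hsmul : ∀ (U : X.Opens) (r : Γ(X, U)) (x : Γ(M, U)), f U (r • x) = r • f U x)
    (hnat : ∀ {U V : X.Opens} (i : U ⟶ V) (x : Γ(M, V)),
      f U (M.presheaf.map i.op x) = N.presheaf.map i.op (f V x))
    (U : X.Opens) (x : Γ(M, U)) :
    (homOfApp M N f hsmul hnat).app U x = f U x := rfl

/-! ## Sectionwise local data and gluing -/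

/-- Sectionwise data of a morphism `M ⟶ N` defined locally on the members of a family of opens
`U i`: compatible additive, linear maps on sections over every open contained in some `U i`. -/
structure LocalHom (M N : X.Modules) {ι : Type*} (U : ι → X.Opens) where
  /-- the map on sections over an open `W ≤ U i` -/
  app : ∀ (i : ι) (W : X.Opens), W ≤ U i → (Γ(M, W) →+ Γ(N, W))
  map_smul : ∀ (i : ι) (W : X.Opens) (hW : W ≤ U i) (r : Γ(X, W)) (x : Γ(M, W)),
    app i W hW (r • x) = r • app i W hW x
  naturality : ∀ (i : ι) (W W' : X.Opens) (hW : W ≤ U i) (h : W' ≤ W) (x : Γ(M, W)),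
    app i W' (h.trans hW) (M.presheaf.map (homOfLE h).op x) =
      N.presheaf.map (homOfLE h).op (app i W hW x)
  compat : ∀ (i j : ι) (W : X.Opens) (hi : W ≤ U i) (hj : W ≤ U j), app i W hi = app j W hj

namespace LocalHom

variable {M N : X.Modules} {ι : Type*} {U : ι → X.Opens} (D : LocalHom M N U)

lemma le_iSup_inf (hU : iSup U = ⊤) (V : X.Opens) : V ≤ ⨆ i, V ⊓ U i := by
  rw [← inf_iSup_eq, hU, inf_top_eq]

/-- The local sections to be glued. -/
noncomputable def localSection (V : X.Opens) (s : Γ(M, V)) (i : ι) : Γ(N, V ⊓ U i) :=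
  D.app i (V ⊓ U i) inf_le_right (M.presheaf.map (homOfLE (inf_le_left : V ⊓ U i ≤ V)).op s)

lemma map_map_apply (K : X.Modules) {A B C : X.Opens} (h₁ : A ≤ B) (h₂ : B ≤ C) (x : Γ(K, C)) :
    K.presheaf.map (homOfLE h₁).op (K.presheaf.map (homOfLE h₂).op x) =
      K.presheaf.map (homOfLE (h₁.trans h₂)).op x := by
  have : K.presheaf.map (homOfLE h₂).op ≫ K.presheaf.map (homOfLE h₁).op =
      K.presheaf.map (homOfLE (h₁.trans h₂)).op := by
    rw [← K.presheaf.map_comp]; rfl
  exact congr($this x)

lemma map_localSection (V : X.Opens) (s : Γ(M, V)) (i : ι) (W : X.Opens) (hW : W ≤ V ⊓ U i) :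
    N.presheaf.map (homOfLE hW).op (D.localSection V s i) =
      D.app i W (hW.trans inf_le_right)
        (M.presheaf.map (homOfLE (hW.trans inf_le_left)).op s) := by
  unfold localSection
  rw [← D.naturality i (V ⊓ U i) W inf_le_right hW, map_map_apply]

lemma isCompatible_localSection (V : X.Opens) (s : Γ(M, V)) :
    TopCat.Presheaf.IsCompatible N.presheaf (fun i => V ⊓ U i) (D.localSection V s) := by
  intro i j
  have h1 := D.map_localSection V s i ((V ⊓ U i) ⊓ (V ⊓ U j)) inf_le_left
  have h2 := D.map_localSection V s j ((V ⊓ U i) ⊓ (V ⊓ U j)) inf_le_right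
  refine (h1.trans ?_).trans h2.symm
  rw [D.compat i j]

lemma existsUnique_glue (hU : iSup U = ⊤) (V : X.Opens) (s : Γ(M, V)) :
    ∃! t : Γ(N, V), ∀ i, N.presheaf.map (homOfLE (inf_le_left : V ⊓ U i ≤ V)).op t =
      D.localSection V s i :=
  (sheafAb N).existsUnique_gluing' (fun i => V ⊓ U i) V (fun i => homOfLE inf_le_left)
    (le_iSup_inf hU V) (D.localSection V s) (D.isCompatible_localSection V s)

/-- The glued map on sections. -/
noncomputable def glueFun (hU : iSup U = ⊤) (V : X.Opens) (s : Γ(M, V)) : Γ(N, V) :=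
  (D.existsUnique_glue hU V s).exists.choose

lemma map_glueFun (hU : iSup U = ⊤) (V : X.Opens) (s : Γ(M, V)) (i : ι) :
    N.presheaf.map (homOfLE (inf_le_left : V ⊓ U i ≤ V)).op (D.glueFun hU V s) =
      D.localSection V s i :=
  (D.existsUnique_glue hU V s).exists.choose_spec i

lemma eq_glueFun (hU : iSup U = ⊤) (V : X.Opens) (s : Γ(M, V)) (t : Γ(N, V))
    (ht : ∀ i, N.presheaf.map (homOfLE (inf_le_left : V ⊓ U i ≤ V)).op t =
      D.localSection V s i) : t = D.glueFun hU V s :=
  (D.existsUnique_glue hU V s).unique ht (D.map_glueFun hU V s)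

lemma eq_of_forall_map_eq (hU : iSup U = ⊤) (K : X.Modules) (V : X.Opens) (t t' : Γ(K, V))
    (h : ∀ i, K.presheaf.map (homOfLE (inf_le_left : V ⊓ U i ≤ V)).op t =
      K.presheaf.map (homOfLE (inf_le_left : V ⊓ U i ≤ V)).op t') : t = t' :=
  (sheafAb K).eq_of_locally_eq' (fun i => V ⊓ U i) V (fun i => homOfLE inf_le_left)
    (le_iSup_inf hU V) t t' h

end LocalHom

namespace LocalHom

variable {M N : X.Modules} {ι : Type*} {U : ι → X.Opens} (D : LocalHom M N U)

lemma glueFun_add (hU : iSup U = ⊤) (V : X.Opens) (s s' : Γ(M, V)) :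
    D.glueFun hU V (s + s') = D.glueFun hU V s + D.glueFun hU V s' := by
  symm
  apply D.eq_glueFun hU
  intro i
  rw [map_add, D.map_glueFun, D.map_glueFun]
  unfold localSection
  rw [map_add, map_add]

lemma glueFun_smul (hU : iSup U = ⊤) (V : X.Opens) (r : Γ(X, V)) (s : Γ(M, V)) :
    D.glueFun hU V (r • s) = r • D.glueFun hU V s := by
  symm
  apply D.eq_glueFun hU
  intro i
  rw [Scheme.Modules.map_smul, D.map_glueFun]
  unfold localSection
  rw [Scheme.Modules.map_smul, D.map_smul]

lemma glueFun_map (hU : iSup U = ⊤) {V' V : X.Opens} (h : V' ≤ V) (s : Γ(M, V)) :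
    D.glueFun hU V' (M.presheaf.map (homOfLE h).op s) =
      N.presheaf.map (homOfLE h).op (D.glueFun hU V s) := by
  symm
  apply D.eq_glueFun hU
  intro i
  have h1 : V' ⊓ U i ≤ V ⊓ U i := inf_le_inf_right _ h
  rw [map_map_apply, ← map_map_apply N h1 inf_le_left, D.map_glueFun, D.map_localSection]
  unfold localSection
  rw [map_map_apply]

lemma glueFun_eq_app (hU : iSup U = ⊤) (i : ι) (W : X.Opens) (hW : W ≤ U i) (s : Γ(M, W)) :
    D.glueFun hU W s = D.app i W hW s := by
  symm
  apply D.eq_glueFun hU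
  intro j
  unfold localSection
  rw [← D.naturality i W (W ⊓ U j) hW inf_le_left, D.compat i j]

/-- **Gluing of morphisms**: the morphism `M ⟶ N` glued from local sectionwise data. -/
noncomputable def glue (hU : iSup U = ⊤) : M ⟶ N :=
  homOfApp M N (fun V => AddMonoidHom.mk' (D.glueFun hU V) (D.glueFun_add hU V))
    (fun V r x => D.glueFun_smul hU V r x)
    (fun {V' V} i x => by
      have hi : i = homOfLE (leOfHom i) := Subsingleton.elim _ _
      rw [hi]
      exact D.glueFun_map hU _ x)

lemma glue_app_apply (hU : iSup U = ⊤) (i : ι) (W : X.Opens) (hW : W ≤ U i) (s : Γ(M, W)) :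
    (D.glue hU).app W s = D.app i W hW s :=
  D.glueFun_eq_app hU i W hW s

end LocalHom

/-- **Morphisms of modules are determined locally** (sectionwise form). -/
lemma hom_ext_of_forall_le {M N : X.Modules} {ι : Type*} {U : ι → X.Opens} (hU : iSup U = ⊤)
    {f g : M ⟶ N}
    (h : ∀ (i : ι) (W : X.Opens), W ≤ U i → ∀ x : Γ(M, W), f.app W x = g.app W x) : f = g := by
  ext V x
  apply LocalHom.eq_of_forall_map_eq hU
  intro i
  rw [← app_map_apply, ← app_map_apply]
  exact h i _ inf_le_right _

/-- The sectionwise local data of a global morphism. -/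
noncomputable def LocalHom.ofHom {M N : X.Modules} {ι : Type*} (U : ι → X.Opens) (f : M ⟶ N) :
    LocalHom M N U where
  app _ W _ := (f.app W).hom
  map_smul _ W _ r x := Scheme.Modules.Hom.app_smul f r x
  naturality _ W W' _ h x := app_map_apply f (homOfLE h) x
  compat _ _ _ _ _ := rfl

lemma LocalHom.glue_ofHom {M N : X.Modules} {ι : Type*} (U : ι → X.Opens) (hU : iSup U = ⊤)
    (f : M ⟶ N) : (LocalHom.ofHom U f).glue hU = f :=
  hom_ext_of_forall_le hU fun i W hW x => (LocalHom.ofHom U f).glue_app_apply hU i W hW x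

/-! ## Isomorphisms are local -/

section IsIso

variable {M N : X.Modules} {ι : Type*} {U : ι → X.Opens}

/-- Local data of the inverse of a morphism which is bijective on all sufficiently small opens. -/
noncomputable def LocalHom.ofBijective (f : M ⟶ N)
    (h : ∀ (i : ι) (W : X.Opens), W ≤ U i → Function.Bijective (f.app W)) : LocalHom N M U where
  app i W hW := ((AddEquiv.ofBijective (f.app W).hom (h i W hW)).symm : Γ(N, W) →+ Γ(M, W))
  map_smul i W hW r x := by
    apply (h i W hW).1
    have h1 : ∀ y, (f.app W) ((AddEquiv.ofBijective (f.app W).hom (h i W hW)).symm y) = y :=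
      fun y => (AddEquiv.ofBijective (f.app W).hom (h i W hW)).apply_symm_apply y
    simp only [AddMonoidHom.coe_coe]
    rw [h1, Scheme.Modules.Hom.app_smul, h1]
  naturality i W W' hW hW' x := by
    apply (h i W' (hW'.trans hW)).1
    have h1 : ∀ y, (f.app W) ((AddEquiv.ofBijective (f.app W).hom (h i W hW)).symm y) = y :=
      fun y => (AddEquiv.ofBijective (f.app W).hom (h i W hW)).apply_symm_apply y
    have h2 : ∀ y, (f.app W') ((AddEquiv.ofBijective (f.app W').hom
        (h i W' (hW'.trans hW))).symm y) = y :=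
      fun y => (AddEquiv.ofBijective (f.app W').hom (h i W' (hW'.trans hW))).apply_symm_apply y
    simp only [AddMonoidHom.coe_coe]
    rw [h2, app_map_apply, h1]
  compat i j W hi hj := rfl

/-- **Being an isomorphism is local** (sectionwise form). -/
theorem isIso_of_forall_le (hU : iSup U = ⊤) (f : M ⟶ N)
    (h : ∀ (i : ι) (W : X.Opens), W ≤ U i → Function.Bijective (f.app W)) : IsIso f := by
  refine ⟨(LocalHom.ofBijective f h).glue hU, ?_, ?_⟩
  · apply hom_ext_of_forall_le hU
    intro i W hW x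
    change ((LocalHom.ofBijective f h).glue hU).app W (f.app W x) = x
    rw [LocalHom.glue_app_apply _ hU i W hW]
    exact (AddEquiv.ofBijective (f.app W).hom (h i W hW)).symm_apply_apply x
  · apply hom_ext_of_forall_le hU
    intro i W hW x
    change f.app W (((LocalHom.ofBijective f h).glue hU).app W x) = x
    rw [LocalHom.glue_app_apply _ hU i W hW]
    exact (AddEquiv.ofBijective (f.app W).hom (h i W hW)).apply_symm_apply x

end IsIso

/-! ## Morphisms over an open subscheme, sectionwise

`g : Y ⟶ X` is an open immersion; a morphism `φ : M.restrict g ⟶ N.restrict g` acts on the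
sections of `M` over every open `W ≤ g.opensRange` of `X`. -/

section AppOn

variable {M N : X.Modules} {Y : Scheme.{u}} (g : Y ⟶ X) [IsOpenImmersion g]

lemma image_preimage_eq_of_le {W : X.Opens} (hW : W ≤ g.opensRange) : g ''ᵁ (g ⁻¹ᵁ W) = W := by
  rw [Scheme.Hom.image_preimage_eq_opensRange_inf]
  exact inf_eq_right.mpr hW

lemma map_self_apply (K : X.Modules) {A : X.Opens} (h : A ≤ A) (z : Γ(K, A)) :
    K.presheaf.map (homOfLE h).op z = z := by
  have : K.presheaf.map (homOfLE h).op = 𝟙 _ := by
    rw [← K.presheaf.map_id]; rfl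
  exact congr($this z)

variable {g}

/-- `φ.app W₀` for a morphism `φ` between restrictions along the open immersion `g`, viewed as
a map between sections of the original modules over the image open `g ''ᵁ W₀`. -/
noncomputable def appImage (φ : M.restrict g ⟶ N.restrict g)
    (W₀ : Y.Opens) : Γ(M, g ''ᵁ W₀) →+ Γ(N, g ''ᵁ W₀) :=
  (φ.app W₀).hom

lemma appImage_smul (φ : M.restrict g ⟶ N.restrict g)
    (W₀ : Y.Opens) (ρ : Γ(X, g ''ᵁ W₀)) (y : Γ(M, g ''ᵁ W₀)) :
    appImage φ W₀ (ρ • y) = ρ • appImage φ W₀ y := by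
  have e : (g.appIso W₀).inv ((g.appIso W₀).hom ρ) = ρ := by
    rw [← CommRingCat.comp_apply, Iso.hom_inv_id]; rfl
  have h := Scheme.Modules.Hom.app_smul φ ((g.appIso W₀).hom ρ) (y : Γ(M.restrict g, W₀))
  change appImage φ W₀ (((g.appIso W₀).inv ((g.appIso W₀).hom ρ)) • y) =
    ((g.appIso W₀).inv ((g.appIso W₀).hom ρ)) • appImage φ W₀ y at h
  rwa [e] at h

lemma appImage_map (φ : M.restrict g ⟶ N.restrict g)
    {W₀' W₀ : Y.Opens} (h : W₀' ≤ W₀) (y : Γ(M, g ''ᵁ W₀)) :
    appImage φ W₀' (M.presheaf.map (homOfLE (g.image_mono h)).op y) =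
      N.presheaf.map (homOfLE (g.image_mono h)).op (appImage φ W₀ y) :=
  app_map_apply φ (homOfLE h) y

lemma appImage_restrictFunctor_map (f : M ⟶ N) (W₀ : Y.Opens)
    (y : Γ(M, g ''ᵁ W₀)) :
    appImage ((Scheme.Modules.restrictFunctor g).map f) W₀ y = f.app (g ''ᵁ W₀) y := rfl

lemma app_eq_appImage (φ : M.restrict g ⟶ N.restrict g)
    (W₀ : Y.Opens) (y : Γ(M.restrict g, W₀)) :
    φ.app W₀ y = appImage φ W₀ y := rfl

lemma appImage_id (W₀ : Y.Opens) (y : Γ(M, g ''ᵁ W₀)) :
    appImage (𝟙 (M.restrict g)) W₀ y = y := rfl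

lemma appImage_comp {K : X.Modules} (φ : M.restrict g ⟶ N.restrict g)
    (ψ : N.restrict g ⟶ K.restrict g) (W₀ : Y.Opens) (y : Γ(M, g ''ᵁ W₀)) :
    appImage (φ ≫ ψ) W₀ y = appImage ψ W₀ (appImage φ W₀ y) := rfl

/-- The action on sections over `W ≤ g.opensRange` of a morphism between the restrictions
along the open immersion `g`. -/
noncomputable def appOn (φ : M.restrict g ⟶ N.restrict g) (W : X.Opens)
    (hW : W ≤ g.opensRange) : Γ(M, W) →+ Γ(N, W) :=
  ((N.presheaf.map (homOfLE (image_preimage_eq_of_le g hW).ge).op).hom).comp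
    ((appImage φ (g ⁻¹ᵁ W)).comp
      ((M.presheaf.map (homOfLE (image_preimage_eq_of_le g hW).le).op).hom))

lemma appOn_apply (φ : M.restrict g ⟶ N.restrict g) (W : X.Opens)
    (hW : W ≤ g.opensRange) (x : Γ(M, W)) :
    appOn φ W hW x = N.presheaf.map (homOfLE (image_preimage_eq_of_le g hW).ge).op
      (appImage φ (g ⁻¹ᵁ W)
        (M.presheaf.map (homOfLE (image_preimage_eq_of_le g hW).le).op x)) := rfl

lemma presheaf_map_map_apply {A B C : X.Opens} (h₁ : A ≤ B) (h₂ : B ≤ C) (r : Γ(X, C)) :
    X.presheaf.map (homOfLE h₁).op (X.presheaf.map (homOfLE h₂).op r) =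
      X.presheaf.map (homOfLE (h₁.trans h₂)).op r := by
  have : X.presheaf.map (homOfLE h₂).op ≫ X.presheaf.map (homOfLE h₁).op =
      X.presheaf.map (homOfLE (h₁.trans h₂)).op := by
    rw [← X.presheaf.map_comp]; rfl
  exact congr($this r)

lemma presheaf_map_self_apply {A : X.Opens} (h : A ≤ A) (r : Γ(X, A)) :
    X.presheaf.map (homOfLE h).op r = r := by
  have : X.presheaf.map (homOfLE h).op = 𝟙 _ := by
    rw [← X.presheaf.map_id]; rfl
  exact congr($this r)

lemma appOn_smul (φ : M.restrict g ⟶ N.restrict g) (W : X.Opens)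
    (hW : W ≤ g.opensRange) (r : Γ(X, W)) (x : Γ(M, W)) :
    appOn φ W hW (r • x) = r • appOn φ W hW x := by
  rw [appOn_apply, appOn_apply, Scheme.Modules.map_smul, appImage_smul,
    Scheme.Modules.map_smul, presheaf_map_map_apply, presheaf_map_self_apply]

lemma appOn_map (φ : M.restrict g ⟶ N.restrict g) {W' W : X.Opens}
    (hW : W ≤ g.opensRange) (h : W' ≤ W) (x : Γ(M, W)) :
    appOn φ W' (h.trans hW) (M.presheaf.map (homOfLE h).op x) =
      N.presheaf.map (homOfLE h).op (appOn φ W hW x) := by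
  have h0 : g ⁻¹ᵁ W' ≤ g ⁻¹ᵁ W := g.preimage_mono h
  rw [appOn_apply, appOn_apply, LocalHom.map_map_apply,
    ← LocalHom.map_map_apply M (g.image_mono h0) (image_preimage_eq_of_le g hW).le,
    appImage_map φ h0, LocalHom.map_map_apply, LocalHom.map_map_apply]

lemma appOn_restrictFunctor_map (f : M ⟶ N) (W : X.Opens) (hW : W ≤ g.opensRange)
    (x : Γ(M, W)) :
    appOn ((Scheme.Modules.restrictFunctor g).map f) W hW x = f.app W x := by
  rw [appOn_apply, appImage_restrictFunctor_map, app_map_apply, LocalHom.map_map_apply,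
    map_self_apply]

lemma appImage_eq_appOn (φ : M.restrict g ⟶ N.restrict g)
    (W₀ : Y.Opens) (y : Γ(M, g ''ᵁ W₀)) :
    appImage φ W₀ y = appOn φ (g ''ᵁ W₀) (g.image_le_opensRange W₀) y := by
  have h0 : g ⁻¹ᵁ (g ''ᵁ W₀) ≤ W₀ := (g.preimage_image_eq W₀).le
  rw [appOn_apply]
  have h1 := appImage_map φ h0 y
  rw [h1, LocalHom.map_map_apply, map_self_apply]

lemma appOn_id (W : X.Opens) (hW : W ≤ g.opensRange) (x : Γ(M, W)) :
    appOn (𝟙 (M.restrict g)) W hW x = x := by
  rw [appOn_apply, appImage_id, LocalHom.map_map_apply, map_self_apply]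

lemma appOn_comp {K : X.Modules} (φ : M.restrict g ⟶ N.restrict g)
    (ψ : N.restrict g ⟶ K.restrict g) (W : X.Opens) (hW : W ≤ g.opensRange) (x : Γ(M, W)) :
    appOn (φ ≫ ψ) W hW x = appOn ψ W hW (appOn φ W hW x) := by
  rw [appOn_apply, appOn_apply, appOn_apply, appImage_comp, LocalHom.map_map_apply,
    map_self_apply]

lemma appOn_iso_hom_inv (e : M.restrict g ≅ N.restrict g) (W : X.Opens)
    (hW : W ≤ g.opensRange) (x : Γ(M, W)) :
    appOn e.inv W hW (appOn e.hom W hW x) = x := by
  rw [← appOn_comp, e.hom_inv_id, appOn_id]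

lemma appOn_iso_inv_hom (e : M.restrict g ≅ N.restrict g) (W : X.Opens)
    (hW : W ≤ g.opensRange) (x : Γ(N, W)) :
    appOn e.hom W hW (appOn e.inv W hW x) = x := by
  rw [← appOn_comp, e.inv_hom_id, appOn_id]

/-- Two morphisms between restrictions along `g` are equal as soon as they agree sectionwise. -/
lemma restrict_hom_ext {φ ψ : M.restrict g ⟶ N.restrict g}
    (h : ∀ (W : X.Opens) (hW : W ≤ g.opensRange) (x : Γ(M, W)), appOn φ W hW x = appOn ψ W hW x) :
    φ = ψ := by
  ext W₀ y
  rw [app_eq_appImage, app_eq_appImage, appImage_eq_appOn φ, appImage_eq_appOn ψ]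
  exact h _ _ y

end AppOn

/-! ## Gluing morphisms given on the members of an open cover

The cover is a family of open immersions `g i : Y i ⟶ X` whose ranges cover `X`
(e.g. `(U i).ι` for opens `U i`, or the maps of a `Scheme.OpenCover`). -/

section Restrict

variable {M N : X.Modules} {ι : Type*} {Y : ι → Scheme.{u}} {g : ∀ i, Y i ⟶ X}
  [∀ i, IsOpenImmersion (g i)]

/-- Sectionwise local data attached to a family of morphisms between restrictions which agree
on overlaps. -/
noncomputable def LocalHom.ofRestrict (φ : ∀ i, M.restrict (g i) ⟶ N.restrict (g i))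
    (compat : ∀ (i j : ι) (W : X.Opens) (hi : W ≤ (g i).opensRange) (hj : W ≤ (g j).opensRange)
      (x : Γ(M, W)), appOn (φ i) W hi x = appOn (φ j) W hj x) :
    LocalHom M N (fun i => (g i).opensRange) where
  app i W hW := appOn (φ i) W hW
  map_smul i W hW r x := appOn_smul (φ i) W hW r x
  naturality i W W' hW h x := appOn_map (φ i) hW h x
  compat i j W hi hj := AddMonoidHom.ext (compat i j W hi hj)

/-- **Gluing of morphisms of `𝒪_X`-modules** along an open cover. -/
noncomputable def glueHom (hg : ⨆ i, (g i).opensRange = ⊤)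
    (φ : ∀ i, M.restrict (g i) ⟶ N.restrict (g i))
    (compat : ∀ (i j : ι) (W : X.Opens) (hi : W ≤ (g i).opensRange) (hj : W ≤ (g j).opensRange)
      (x : Γ(M, W)), appOn (φ i) W hi x = appOn (φ j) W hj x) : M ⟶ N :=
  (LocalHom.ofRestrict φ compat).glue hg

lemma glueHom_app_apply (hg : ⨆ i, (g i).opensRange = ⊤)
    (φ : ∀ i, M.restrict (g i) ⟶ N.restrict (g i))
    (compat : ∀ (i j : ι) (W : X.Opens) (hi : W ≤ (g i).opensRange) (hj : W ≤ (g j).opensRange)
      (x : Γ(M, W)), appOn (φ i) W hi x = appOn (φ j) W hj x)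
    (i : ι) (W : X.Opens) (hW : W ≤ (g i).opensRange) (x : Γ(M, W)) :
    (glueHom hg φ compat).app W x = appOn (φ i) W hW x :=
  (LocalHom.ofRestrict φ compat).glue_app_apply hg i W hW x

theorem restrictFunctor_map_glueHom (hg : ⨆ i, (g i).opensRange = ⊤)
    (φ : ∀ i, M.restrict (g i) ⟶ N.restrict (g i))
    (compat : ∀ (i j : ι) (W : X.Opens) (hi : W ≤ (g i).opensRange) (hj : W ≤ (g j).opensRange)
      (x : Γ(M, W)), appOn (φ i) W hi x = appOn (φ j) W hj x) (i : ι) :
    (Scheme.Modules.restrictFunctor (g i)).map (glueHom hg φ compat) = φ i := by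
  ext W₀ y
  rw [app_eq_appImage, app_eq_appImage, appImage_restrictFunctor_map, appImage_eq_appOn (φ i)]
  exact glueHom_app_apply hg φ compat i _ ((g i).image_le_opensRange W₀) y

/-- **Morphisms of modules are determined by their restrictions to an open cover.** -/
theorem hom_ext_of_cover (hg : ⨆ i, (g i).opensRange = ⊤) {f f' : M ⟶ N}
    (h : ∀ i, (Scheme.Modules.restrictFunctor (g i)).map f =
      (Scheme.Modules.restrictFunctor (g i)).map f') : f = f' :=
  hom_ext_of_forall_le hg fun i W hW x => by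
    have := congr(appOn $(h i) W hW x)
    rwa [appOn_restrictFunctor_map, appOn_restrictFunctor_map] at this

/-- Existence and uniqueness of the glued morphism. -/
theorem existsUnique_glueHom (hg : ⨆ i, (g i).opensRange = ⊤)
    (φ : ∀ i, M.restrict (g i) ⟶ N.restrict (g i))
    (compat : ∀ (i j : ι) (W : X.Opens) (hi : W ≤ (g i).opensRange) (hj : W ≤ (g j).opensRange)
      (x : Γ(M, W)), appOn (φ i) W hi x = appOn (φ j) W hj x) :
    ∃! f : M ⟶ N, ∀ i, (Scheme.Modules.restrictFunctor (g i)).map f = φ i :=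
  ⟨glueHom hg φ compat, restrictFunctor_map_glueHom hg φ compat, fun f hf =>
    hom_ext_of_cover hg fun i => (hf i).trans (restrictFunctor_map_glueHom hg φ compat i).symm⟩

/-- **Being an isomorphism is local on an open cover.** -/
theorem isIso_of_cover (hg : ⨆ i, (g i).opensRange = ⊤) (f : M ⟶ N)
    (h : ∀ i, IsIso ((Scheme.Modules.restrictFunctor (g i)).map f)) : IsIso f := by
  refine isIso_of_forall_le hg f fun i W hW => ?_
  have key : ∀ W₁ : X.Opens, W₁ = W → Function.Bijective (f.app W₁) →
      Function.Bijective (f.app W) := by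
    rintro _ rfl h; exact h
  refine key _ (image_preimage_eq_of_le (g i) hW) ?_
  have h1 : IsIso (((Scheme.Modules.restrictFunctor (g i)).map f).app ((g i) ⁻¹ᵁ W)) :=
    Scheme.Modules.Hom.isIso_iff_isIso_app.mp (h i) _
  exact (ConcreteCategory.isIso_iff_bijective _).mp h1

/-- **Gluing of isomorphisms of `𝒪_X`-modules** along an open cover. -/
noncomputable def glueIso (hg : ⨆ i, (g i).opensRange = ⊤)
    (e : ∀ i, M.restrict (g i) ≅ N.restrict (g i))
    (compat : ∀ (i j : ι) (W : X.Opens) (hi : W ≤ (g i).opensRange) (hj : W ≤ (g j).opensRange)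
      (x : Γ(M, W)), appOn (e i).hom W hi x = appOn (e j).hom W hj x) : M ≅ N :=
  haveI : IsIso (glueHom hg (fun i => (e i).hom) compat) :=
    isIso_of_cover hg _ fun i => by
      rw [restrictFunctor_map_glueHom]; infer_instance
  asIso (glueHom hg (fun i => (e i).hom) compat)

@[simp] lemma glueIso_hom (hg : ⨆ i, (g i).opensRange = ⊤)
    (e : ∀ i, M.restrict (g i) ≅ N.restrict (g i))
    (compat : ∀ (i j : ι) (W : X.Opens) (hi : W ≤ (g i).opensRange) (hj : W ≤ (g j).opensRange)
      (x : Γ(M, W)), appOn (e i).hom W hi x = appOn (e j).hom W hj x) :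
    (glueIso hg e compat).hom = glueHom hg (fun i => (e i).hom) compat := rfl

theorem restrictFunctor_mapIso_glueIso (hg : ⨆ i, (g i).opensRange = ⊤)
    (e : ∀ i, M.restrict (g i) ≅ N.restrict (g i))
    (compat : ∀ (i j : ι) (W : X.Opens) (hi : W ≤ (g i).opensRange) (hj : W ≤ (g j).opensRange)
      (x : Γ(M, W)), appOn (e i).hom W hi x = appOn (e j).hom W hj x) (i : ι) :
    (Scheme.Modules.restrictFunctor (g i)).mapIso (glueIso hg e compat) = e i :=
  Iso.ext (restrictFunctor_map_glueHom hg (fun i => (e i).hom) compat i)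

end Restrict

/-! ## The same statements for `Scheme.Modules.pullback` -/

section Pullback

variable {M N : X.Modules}

/-- Transport a morphism between pullbacks along an open immersion to a morphism between
restrictions. -/
noncomputable def restrictHomOfPullbackHom {Y : Scheme.{u}} (g : Y ⟶ X) [IsOpenImmersion g]
    (φ : (Scheme.Modules.pullback g).obj M ⟶ (Scheme.Modules.pullback g).obj N) :
    M.restrict g ⟶ N.restrict g :=
  (Scheme.Modules.restrictFunctorIsoPullback g).hom.app M ≫ φ ≫
    (Scheme.Modules.restrictFunctorIsoPullback g).inv.app N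

/-- Transport a morphism between restrictions along an open immersion to a morphism between
pullbacks. -/
noncomputable def pullbackHomOfRestrictHom {Y : Scheme.{u}} (g : Y ⟶ X) [IsOpenImmersion g]
    (φ : M.restrict g ⟶ N.restrict g) :
    (Scheme.Modules.pullback g).obj M ⟶ (Scheme.Modules.pullback g).obj N :=
  (Scheme.Modules.restrictFunctorIsoPullback g).inv.app M ≫ φ ≫
    (Scheme.Modules.restrictFunctorIsoPullback g).hom.app N

@[simp] lemma pullbackHomOfRestrictHom_restrictHomOfPullbackHom {Y : Scheme.{u}} (g : Y ⟶ X)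
    [IsOpenImmersion g]
    (φ : (Scheme.Modules.pullback g).obj M ⟶ (Scheme.Modules.pullback g).obj N) :
    pullbackHomOfRestrictHom g (restrictHomOfPullbackHom g φ) = φ := by
  simp [pullbackHomOfRestrictHom, restrictHomOfPullbackHom]

@[simp] lemma restrictHomOfPullbackHom_pullbackHomOfRestrictHom {Y : Scheme.{u}} (g : Y ⟶ X)
    [IsOpenImmersion g] (φ : M.restrict g ⟶ N.restrict g) :
    restrictHomOfPullbackHom g (pullbackHomOfRestrictHom g φ) = φ := by
  simp [pullbackHomOfRestrictHom, restrictHomOfPullbackHom]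

lemma restrictHomOfPullbackHom_map {Y : Scheme.{u}} (g : Y ⟶ X) [IsOpenImmersion g]
    (f : M ⟶ N) :
    restrictHomOfPullbackHom g ((Scheme.Modules.pullback g).map f) =
      (Scheme.Modules.restrictFunctor g).map f := by
  simp [restrictHomOfPullbackHom]

lemma pullbackHomOfRestrictHom_map {Y : Scheme.{u}} (g : Y ⟶ X) [IsOpenImmersion g]
    (f : M ⟶ N) :
    pullbackHomOfRestrictHom g ((Scheme.Modules.restrictFunctor g).map f) =
      (Scheme.Modules.pullback g).map f := by
  simp [pullbackHomOfRestrictHom]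

/-- Transport an isomorphism between pullbacks along an open immersion to an isomorphism between
restrictions. -/
noncomputable def restrictIsoOfPullbackIso {Y : Scheme.{u}} (g : Y ⟶ X) [IsOpenImmersion g]
    (e : (Scheme.Modules.pullback g).obj M ≅ (Scheme.Modules.pullback g).obj N) :
    M.restrict g ≅ N.restrict g :=
  (Scheme.Modules.restrictFunctorIsoPullback g).app M ≪≫ e ≪≫
    ((Scheme.Modules.restrictFunctorIsoPullback g).app N).symm

lemma restrictIsoOfPullbackIso_hom {Y : Scheme.{u}} (g : Y ⟶ X) [IsOpenImmersion g]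
    (e : (Scheme.Modules.pullback g).obj M ≅ (Scheme.Modules.pullback g).obj N) :
    (restrictIsoOfPullbackIso g e).hom = restrictHomOfPullbackHom g e.hom := rfl

variable {ι : Type*} {Y : ι → Scheme.{u}} {g : ∀ i, Y i ⟶ X} [∀ i, IsOpenImmersion (g i)]

/-- **Morphisms of modules are determined by their pullbacks to an open cover.** -/
theorem hom_ext_of_cover_pullback (hg : ⨆ i, (g i).opensRange = ⊤) {f f' : M ⟶ N}
    (h : ∀ i, (Scheme.Modules.pullback (g i)).map f = (Scheme.Modules.pullback (g i)).map f') :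
    f = f' :=
  hom_ext_of_cover hg fun i => by
    rw [← restrictHomOfPullbackHom_map, ← restrictHomOfPullbackHom_map, h i]

/-- **Being an isomorphism is local on an open cover** (pullback form). -/
theorem isIso_of_cover_pullback (hg : ⨆ i, (g i).opensRange = ⊤) (f : M ⟶ N)
    (h : ∀ i, IsIso ((Scheme.Modules.pullback (g i)).map f)) : IsIso f :=
  isIso_of_cover hg f fun i => by
    rw [← restrictHomOfPullbackHom_map]
    have := h i
    unfold restrictHomOfPullbackHom
    infer_instance

/-- **Gluing of morphisms** (pullback form). -/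
noncomputable def glueHomPullback (hg : ⨆ i, (g i).opensRange = ⊤)
    (φ : ∀ i, (Scheme.Modules.pullback (g i)).obj M ⟶ (Scheme.Modules.pullback (g i)).obj N)
    (compat : ∀ (i j : ι) (W : X.Opens) (hi : W ≤ (g i).opensRange) (hj : W ≤ (g j).opensRange)
      (x : Γ(M, W)), appOn (restrictHomOfPullbackHom (g i) (φ i)) W hi x =
        appOn (restrictHomOfPullbackHom (g j) (φ j)) W hj x) : M ⟶ N :=
  glueHom hg (fun i => restrictHomOfPullbackHom (g i) (φ i)) compat

theorem pullback_map_glueHomPullback (hg : ⨆ i, (g i).opensRange = ⊤)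
    (φ : ∀ i, (Scheme.Modules.pullback (g i)).obj M ⟶ (Scheme.Modules.pullback (g i)).obj N)
    (compat : ∀ (i j : ι) (W : X.Opens) (hi : W ≤ (g i).opensRange) (hj : W ≤ (g j).opensRange)
      (x : Γ(M, W)), appOn (restrictHomOfPullbackHom (g i) (φ i)) W hi x =
        appOn (restrictHomOfPullbackHom (g j) (φ j)) W hj x) (i : ι) :
    (Scheme.Modules.pullback (g i)).map (glueHomPullback hg φ compat) = φ i := by
  rw [← pullbackHomOfRestrictHom_map, glueHomPullback, restrictFunctor_map_glueHom,
    pullbackHomOfRestrictHom_restrictHomOfPullbackHom]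

/-- **Gluing of isomorphisms** (pullback form). -/
noncomputable def glueIsoPullback (hg : ⨆ i, (g i).opensRange = ⊤)
    (e : ∀ i, (Scheme.Modules.pullback (g i)).obj M ≅ (Scheme.Modules.pullback (g i)).obj N)
    (compat : ∀ (i j : ι) (W : X.Opens) (hi : W ≤ (g i).opensRange) (hj : W ≤ (g j).opensRange)
      (x : Γ(M, W)), appOn (restrictHomOfPullbackHom (g i) (e i).hom) W hi x =
        appOn (restrictHomOfPullbackHom (g j) (e j).hom) W hj x) : M ≅ N :=
  glueIso hg (fun i => restrictIsoOfPullbackIso (g i) (e i)) compat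

theorem pullback_mapIso_glueIsoPullback (hg : ⨆ i, (g i).opensRange = ⊤)
    (e : ∀ i, (Scheme.Modules.pullback (g i)).obj M ≅ (Scheme.Modules.pullback (g i)).obj N)
    (compat : ∀ (i j : ι) (W : X.Opens) (hi : W ≤ (g i).opensRange) (hj : W ≤ (g j).opensRange)
      (x : Γ(M, W)), appOn (restrictHomOfPullbackHom (g i) (e i).hom) W hi x =
        appOn (restrictHomOfPullbackHom (g j) (e j).hom) W hj x) (i : ι) :
    (Scheme.Modules.pullback (g i)).mapIso (glueIsoPullback hg e compat) = e i := by
  apply Iso.ext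
  exact pullback_map_glueHomPullback hg (fun i => (e i).hom) compat i

end Pullback

/-! ## Covers by opens and `Scheme.OpenCover`s -/

lemma iSup_opensRange_ι {ι : Type*} {U : ι → X.Opens} (hU : iSup U = ⊤) :
    ⨆ i, (U i).ι.opensRange = ⊤ := by
  simpa only [Scheme.Opens.opensRange_ι] using hU

lemma iSup_opensRange_openCover (𝒰 : X.OpenCover) : ⨆ i, (𝒰.f i).opensRange = ⊤ :=
  𝒰.iSup_opensRange

end Fermat.Agent.S25.helper5733
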