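/-
S25, leaf LG-D-VALEX (layer LG, descent arrow D-VALEX of the LG interface).

Valuative existence for rigidified line bundles in the cut, over a valuation ring `V` with
algebraically closed fraction field `K`, from valuative existence for models.

Part 1 (this section) is generic: it is written against the abstract dictionary
`helper175.ModelSystem`, so it does not wait for the concrete dictionary.
-/
import Fermat.Agent.S25.helper985_LGSpec
import Fermat.Agent.S25.helper175_PointsDict

set_option autoImplicit false

universe w u

open CategoryTheory CategoryTheory.Limits AlgebraicGeometry AlgebraicGeometry.RelPicard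
  NeronModelInfra GoodReductionJacobian

namespace Fermat.Agent.S25.helper5766

open Fermat.Agent.S25.helper1705 Fermat.Agent.S25.helper985 Fermat.Agent.S25.helper175

section Generic

variable {k : Type u} [Field k] {C : Scheme.{u}} {c : C ⟶ Spec (CommRingCat.of k)}
  {ε : SchemeHomOver (𝟙 (Spec (CommRingCat.of k))) c}

/-- Generic descent along an algebra map `φ : B → B'`, in the vocabulary of `helper985_LGSpec`:
if every rigidified model in the cut over `B'` is equivalent to the base change of a rigidified
model in the cut over `B`, then every rigidified line bundle over `B'` that is fibrewise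
algebraically equivalent to zero extends to such a bundle over `B`. -/
theorem exists_extension_of_descends
    (S : ModelSystem.{w, u} c ε (algEquivZeroCut c ε))
    {B B' : Type u} [CommRing B] [Algebra k B] [CommRing B'] [Algebra k B'] (φ : B →ₐ[k] B')
    (hφ : ∀ G' : S.Obj B', S.IsRig G' → S.InCut G' →
      ∃ G : S.Obj B, S.IsRig G ∧ S.InCut G ∧ S.Equiv (S.baseChange φ G) G')
    (M : RigidifiedLineBundle c ε (specStr k B')) (hM : FibrewiseAlgEquivZero M) :
    ∃ M' : RigidifiedLineBundle c ε (specStr k B), FibrewiseAlgEquivZero M' ∧
      Nonempty ((M'.pullbackAlong (specHomOver φ)).L ≅ M.L) :=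
  S.exists_extension_mem_of_descends φ hφ M hM

/-- The valuative-existence property of a model system, for a fixed valuation ring `V` with
fraction field `K`: every rigidified model in the cut over `K` is equivalent to the generic
fibre of a rigidified model in the cut over `V`. -/
def ModelsExtend (S : ModelSystem.{w, u} c ε (algEquivZeroCut c ε))
    (V : Type u) [CommRing V] [Algebra k V] (K : Type u) [Field K] [Algebra V K] [Algebra k K]
    [IsScalarTower k V K] : Prop :=
  ∀ G' : S.Obj K, S.IsRig G' → S.InCut G' →
    ∃ G : S.Obj V, S.IsRig G ∧ S.InCut G ∧
      S.Equiv (S.baseChange (IsScalarTower.toAlgHom k V K) G) G'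

/-- D-VALEX, generic form: a model system for the cut whose models extend over valuation rings
with algebraically closed fraction field gives valuative existence for rigidified line
bundles in the cut (one curve). -/
theorem valExistAC_of_modelSystem
    (S : ModelSystem.{w, u} c ε (algEquivZeroCut c ε))
    (V : Type u) [CommRing V] [IsDomain V] [ValuationRing V] [Algebra k V]
    (K : Type u) [Field K] [IsAlgClosed K] [Algebra V K] [IsFractionRing V K] [Algebra k K]
    [IsScalarTower k V K] (hS : ModelsExtend S V K)
    (M : RigidifiedLineBundle c ε (specStr k K)) (hM : FibrewiseAlgEquivZero M) :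
    ∃ M' : RigidifiedLineBundle c ε (specStr k V), FibrewiseAlgEquivZero M' ∧
      Nonempty ((M'.pullbackAlong (specHomOver (IsScalarTower.toAlgHom k V K))).L ≅ M.L) :=
  exists_extension_of_descends S (IsScalarTower.toAlgHom k V K) hS M hM

end Generic

/-- D-VALEX, generic closed form: if every curve has a model system for the cut whose models
extend over valuation rings with algebraically closed fraction field, then
`helper985.Stmt_ValExistAC` holds. -/
theorem stmt_ValExistAC_of_modelSystems
    (h : ∀ (k : Type u) [Field k] {C : Scheme.{u}} (c : C ⟶ Spec (CommRingCat.of k))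
      (_ : IsCurve k c) (ε : SchemeHomOver (𝟙 (Spec (CommRingCat.of k))) c),
      ∃ S : ModelSystem.{w, u} c ε (algEquivZeroCut c ε),
        ∀ (V : Type u) [CommRing V] [IsDomain V] [ValuationRing V] [Algebra k V]
          (K : Type u) [Field K] [IsAlgClosed K] [Algebra V K] [IsFractionRing V K] [Algebra k K]
          [IsScalarTower k V K], ModelsExtend S V K) :
    Stmt_ValExistAC.{u} := by
  intro k _ C c hc ε V _ _ _ _ K _ _ _ _ _ _ M hM
  obtain ⟨S, hS⟩ := h k c hc ε
  exact valExistAC_of_modelSystem S V K (hS V K) M hM

end Fermat.Agent.S25.helper5766
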