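/-
Brick HC, part 2 (helper5871): base change of Hilbert points with an abstract quotient module.

If `Q` is a `B`-module presenting the quotient `(R ⊗[k] B) ⧸ I` (through an additive surjection
`ρ : R ⊗[k] B → Q` with kernel `I`, compatible with the action of `B` on the right factor), then
for every `B`-algebra `B'` the extended ideal is a Hilbert point of the chart `s` iff the
base change of the "column map" `(ι → B) → Q`, `c ↦ ∑ c j • ρ (s j ⊗ 1)` is bijective.
-/
import Fermat.Agent.S25.helper5871_HilbChart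

set_option autoImplicit false
set_option linter.unusedSectionVars false
set_option linter.style.haveILetI false

open TensorProduct

namespace Fermat.Agent.S25.helper5871

universe u v w x y z

section Bridge

variable {k : Type u} {R : Type v} [CommRing k] [CommRing R] [Algebra k R]
variable {ι : Type w} [Fintype ι] [DecidableEq ι]
variable {B : Type x} [CommRing B] [Algebra k B]
variable {Q : Type y} [AddCommGroup Q] [Module B Q]

/-- `ρ : R ⊗[k] B → Q` presents the `B`-module `Q` as the quotient of `R ⊗[k] B` by the ideal `I`,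
compatibly with the action of `B` through the right tensor factor. -/
structure IsQuotModel (I : Ideal (R ⊗[k] B)) (ρ : R ⊗[k] B →+ Q) : Prop where
  surj : Function.Surjective ρ
  ker : ∀ u, ρ u = 0 ↔ u ∈ I
  smul : ∀ (b : B) (u : R ⊗[k] B), ρ ((1 ⊗ₜ[k] b) * u) = b • ρ u

/-- The column map of a tuple `s` into a quotient model. -/
noncomputable def colMap (ρ : R ⊗[k] B →+ Q) (s : ι → R) : (ι → B) →ₗ[B] Q :=
  Fintype.linearCombination B (fun j => ρ (s j ⊗ₜ[k] (1 : B)))

theorem colMap_apply (ρ : R ⊗[k] B →+ Q) (s : ι → R) (c : ι → B) :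
    colMap ρ s c = ∑ j, c j • ρ (s j ⊗ₜ[k] (1 : B)) := by
  simp [colMap, Fintype.linearCombination_apply]

/-- The base-changed column map, in coordinates `ι → B'`. -/
noncomputable def colMapB (ρ : R ⊗[k] B →+ Q) (s : ι → R) (B' : Type z) [CommRing B']
    [Algebra B B'] : (ι → B') →ₗ[B'] B' ⊗[B] Q :=
  Fintype.linearCombination B' (fun j => (1 : B') ⊗ₜ[B] ρ (s j ⊗ₜ[k] (1 : B)))

theorem colMapB_apply (ρ : R ⊗[k] B →+ Q) (s : ι → R) {B' : Type z} [CommRing B']
    [Algebra B B'] (c : ι → B') :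
    colMapB ρ s B' c = ∑ j, c j ⊗ₜ[B] ρ (s j ⊗ₜ[k] (1 : B)) := by
  simp [colMapB, Fintype.linearCombination_apply, TensorProduct.smul_tmul']

/-- The base change of the column map, as a `LinearMap.baseChange`. -/
theorem colMap_baseChange (ρ : R ⊗[k] B →+ Q) (s : ι → R) (B' : Type z) [CommRing B']
    [Algebra B B'] :
    (colMap ρ s).baseChange B' =
      (colMapB ρ s B').comp (TensorProduct.piScalarRight B B' B' ι).toLinearMap := by
  apply LinearMap.ext
  intro z
  induction z using TensorProduct.induction_on with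
  | zero => simp
  | tmul b' c =>
    rw [LinearMap.baseChange_tmul, LinearMap.comp_apply, LinearEquiv.coe_coe,
      TensorProduct.piScalarRight_apply, TensorProduct.piScalarRightHom_tmul, colMapB_apply,
      colMap_apply, TensorProduct.tmul_sum]
    exact Finset.sum_congr rfl fun j _ => by
      rw [TensorProduct.tmul_smul, TensorProduct.smul_tmul']
  | add z₁ z₂ h₁ h₂ => rw [map_add, map_add, h₁, h₂]

theorem bijective_baseChange_iff (ρ : R ⊗[k] B →+ Q) (s : ι → R) (B' : Type z) [CommRing B']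
    [Algebra B B'] :
    Function.Bijective ((colMap ρ s).baseChange B') ↔ Function.Bijective (colMapB ρ s B') := by
  rw [colMap_baseChange, LinearMap.coe_comp, LinearEquiv.coe_coe]
  exact Function.Bijective.of_comp_iff _ (TensorProduct.piScalarRight B B' B' ι).bijective

namespace IsQuotModel

variable {I : Ideal (R ⊗[k] B)} {ρ : R ⊗[k] B →+ Q}
variable {B' : Type z} [CommRing B'] [Algebra k B'] [Algebra B B'] [IsScalarTower k B B']

variable (k R B B') in
/-- The base change map `R ⊗[k] B → R ⊗[k] B'`. -/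
noncomputable abbrev bc : R ⊗[k] B →ₐ[k] R ⊗[k] B' :=
  Algebra.TensorProduct.map (AlgHom.id k R) (IsScalarTower.toAlgHom k B B')

theorem rho_tmul (h : IsQuotModel I ρ) (r : R) (b : B) :
    ρ (r ⊗ₜ[k] b) = b • ρ (r ⊗ₜ[k] (1 : B)) := by
  rw [← h.smul, Algebra.TensorProduct.tmul_mul_tmul, one_mul, mul_one]

theorem rho_smul_tmul (h : IsQuotModel I ρ) (c : k) (r : R) :
    ρ ((c • r) ⊗ₜ[k] (1 : B)) = algebraMap k B c • ρ (r ⊗ₜ[k] (1 : B)) := by
  rw [← h.rho_tmul, TensorProduct.smul_tmul, Algebra.smul_def, mul_one]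

/-- The map `R ⊗[k] B' → B' ⊗[B] Q`, `r ⊗ b' ↦ b' ⊗ ρ (r ⊗ 1)`. -/
noncomputable def tauT (h : IsQuotModel I ρ) (B' : Type z) [CommRing B'] [Algebra k B']
    [Algebra B B'] [IsScalarTower k B B'] : R ⊗[k] B' →+ B' ⊗[B] Q :=
  TensorProduct.liftAddHom
    { toFun := fun r =>
        { toFun := fun b' => b' ⊗ₜ[B] ρ (r ⊗ₜ[k] (1 : B))
          map_zero' := by simp
          map_add' := fun b₁ b₂ => by rw [TensorProduct.add_tmul] }
      map_zero' := by
        ext b'
        simp
      map_add' := fun r₁ r₂ => by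
        ext b'
        simp [TensorProduct.add_tmul, TensorProduct.tmul_add] }
    (by
      intro c r b'
      change b' ⊗ₜ[B] ρ ((c • r) ⊗ₜ[k] (1 : B)) = (c • b') ⊗ₜ[B] ρ (r ⊗ₜ[k] (1 : B))
      rw [h.rho_smul_tmul, TensorProduct.tmul_smul, ← TensorProduct.smul_tmul', algebraMap_smul])

@[simp] theorem tauT_tmul (h : IsQuotModel I ρ) (r : R) (b' : B') :
    h.tauT B' (r ⊗ₜ[k] b') = b' ⊗ₜ[B] ρ (r ⊗ₜ[k] (1 : B)) := by
  simp [tauT]

theorem tauT_mul_bc (h : IsQuotModel I ρ) (b' : B') (u : R ⊗[k] B) :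
    h.tauT B' ((1 ⊗ₜ[k] b') * bc k R B B' u) = b' ⊗ₜ[B] ρ u := by
  induction u using TensorProduct.induction_on with
  | zero => simp
  | tmul r b =>
    rw [Algebra.TensorProduct.map_tmul, Algebra.TensorProduct.tmul_mul_tmul, one_mul, tauT_tmul,
      h.rho_tmul r b, TensorProduct.tmul_smul, TensorProduct.smul_tmul']
    simp [Algebra.smul_def, mul_comm]
  | add u v hu hv => rw [map_add, mul_add, map_add, hu, hv, map_add, TensorProduct.tmul_add]

theorem tauT_eq_zero (h : IsQuotModel I ρ) (v : R ⊗[k] B') (hv : v ∈ I.map (bc k R B B')) :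
    h.tauT B' v = 0 := by
  -- the ideal of all `v` with `tauT (w * v) = 0` for all `w`
  let J : Ideal (R ⊗[k] B') :=
    { carrier := {v | ∀ w, h.tauT B' (w * v) = 0}
      add_mem' := fun {a b} ha hb w => by rw [mul_add, map_add, ha w, hb w, add_zero]
      zero_mem' := fun w => by simp
      smul_mem' := fun c v hv w => by
        rw [smul_eq_mul, ← mul_assoc]
        exact hv (w * c) }
  have hle : I.map (bc k R B B') ≤ J := by
    rw [Ideal.map_le_iff_le_comap]
    intro u hu w
    induction w using TensorProduct.induction_on with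
    | zero => simp
    | tmul r b' =>
      have h1 : (r ⊗ₜ[k] b' : R ⊗[k] B') * bc k R B B' u =
          (1 ⊗ₜ[k] b') * bc k R B B' ((r ⊗ₜ[k] (1 : B)) * u) := by
        rw [map_mul, Algebra.TensorProduct.map_tmul, ← mul_assoc,
          Algebra.TensorProduct.tmul_mul_tmul]
        simp
      rw [h1, h.tauT_mul_bc, (h.ker _).mpr (Ideal.mul_mem_left _ _ hu), TensorProduct.tmul_zero]
    | add w₁ w₂ h₁ h₂ => rw [add_mul, map_add, h₁, h₂, add_zero]
  have := hle hv 1
  rwa [one_mul] at this

/-- The map `Q → (R ⊗[k] B') ⧸ I'` induced by base change. -/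
noncomputable def rhoB (h : IsQuotModel I ρ) (B' : Type z) [CommRing B'] [Algebra k B']
    [Algebra B B'] [IsScalarTower k B B'] (q : Q) : (R ⊗[k] B') ⧸ I.map (bc k R B B') :=
  Ideal.Quotient.mk _ (bc k R B B' (Function.surjInv h.surj q))

theorem rhoB_rho (h : IsQuotModel I ρ) (u : R ⊗[k] B) :
    h.rhoB B' (ρ u) = Ideal.Quotient.mk _ (bc k R B B' u) := by
  unfold rhoB
  rw [Ideal.Quotient.eq, ← map_sub]
  apply Ideal.mem_map_of_mem
  rw [← h.ker, map_sub, Function.surjInv_eq h.surj, sub_self]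

theorem rhoB_zero (h : IsQuotModel I ρ) : h.rhoB B' (0 : Q) = 0 := by
  have := h.rhoB_rho (B' := B') 0
  rw [map_zero, map_zero, map_zero] at this
  exact this

theorem rhoB_add (h : IsQuotModel I ρ) (q₁ q₂ : Q) :
    h.rhoB B' (q₁ + q₂) = h.rhoB B' q₁ + h.rhoB B' q₂ := by
  obtain ⟨u₁, rfl⟩ := h.surj q₁
  obtain ⟨u₂, rfl⟩ := h.surj q₂
  rw [← map_add, h.rhoB_rho, h.rhoB_rho, h.rhoB_rho, map_add, map_add]

/-- `rhoB` as an additive map. -/
noncomputable def rhoBHom (h : IsQuotModel I ρ) (B' : Type z) [CommRing B'] [Algebra k B']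
    [Algebra B B'] [IsScalarTower k B B'] : Q →+ (R ⊗[k] B') ⧸ I.map (bc k R B B') where
  toFun := h.rhoB B'
  map_zero' := h.rhoB_zero
  map_add' := h.rhoB_add

/-- The comparison map `B' ⊗[B] Q → (R ⊗[k] B') ⧸ I'`. -/
noncomputable def theta (h : IsQuotModel I ρ) (B' : Type z) [CommRing B'] [Algebra k B']
    [Algebra B B'] [IsScalarTower k B B'] :
    B' ⊗[B] Q →+ (R ⊗[k] B') ⧸ I.map (bc k R B B') :=
  TensorProduct.liftAddHom
    { toFun := fun b' =>
        (AddMonoidHom.mulLeft
          (Ideal.Quotient.mk (I.map (bc k R B B')) ((1 : R) ⊗ₜ[k] b'))).comp (h.rhoBHom B')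
      map_zero' := by
        ext q
        change Ideal.Quotient.mk (I.map (bc k R B B')) ((1 : R) ⊗ₜ[k] (0 : B')) * h.rhoB B' q = 0
        rw [TensorProduct.tmul_zero, map_zero, zero_mul]
      map_add' := fun b₁ b₂ => by
        ext q
        change Ideal.Quotient.mk (I.map (bc k R B B')) ((1 : R) ⊗ₜ[k] (b₁ + b₂)) * h.rhoB B' q =
          Ideal.Quotient.mk (I.map (bc k R B B')) ((1 : R) ⊗ₜ[k] b₁) * h.rhoB B' q +
            Ideal.Quotient.mk (I.map (bc k R B B')) ((1 : R) ⊗ₜ[k] b₂) * h.rhoB B' q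
        rw [TensorProduct.tmul_add, map_add, add_mul] }
    (by
      intro b b' q
      obtain ⟨u, rfl⟩ := h.surj q
      change Ideal.Quotient.mk (I.map (bc k R B B')) ((1 : R) ⊗ₜ[k] (b • b')) * h.rhoB B' (ρ u) =
        Ideal.Quotient.mk (I.map (bc k R B B')) ((1 : R) ⊗ₜ[k] b') * h.rhoB B' (b • ρ u)
      rw [← h.smul, h.rhoB_rho, h.rhoB_rho, ← map_mul, ← map_mul, map_mul (bc k R B B'),
        Algebra.TensorProduct.map_tmul, ← mul_assoc, Algebra.TensorProduct.tmul_mul_tmul]
      simp [Algebra.smul_def, mul_comm])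

theorem theta_tmul (h : IsQuotModel I ρ) (b' : B') (u : R ⊗[k] B) :
    h.theta B' (b' ⊗ₜ[B] ρ u) =
      Ideal.Quotient.mk (I.map (bc k R B B')) ((1 ⊗ₜ[k] b') * bc k R B B' u) := by
  change Ideal.Quotient.mk (I.map (bc k R B B')) ((1 : R) ⊗ₜ[k] b') * h.rhoB B' (ρ u) = _
  rw [h.rhoB_rho, ← map_mul]

theorem theta_tauT (h : IsQuotModel I ρ) (v : R ⊗[k] B') :
    h.theta B' (h.tauT B' v) = Ideal.Quotient.mk _ v := by
  induction v using TensorProduct.induction_on with
  | zero => simp
  | tmul r b' =>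
    rw [tauT_tmul, theta_tmul, Algebra.TensorProduct.map_tmul,
      Algebra.TensorProduct.tmul_mul_tmul]
    simp
  | add v₁ v₂ h₁ h₂ => rw [map_add, map_add, h₁, h₂, map_add]

theorem exists_tauT_eq (h : IsQuotModel I ρ) (z : B' ⊗[B] Q) : ∃ v, h.tauT B' v = z := by
  induction z using TensorProduct.induction_on with
  | zero => exact ⟨0, by simp⟩
  | tmul b' q =>
    obtain ⟨u, rfl⟩ := h.surj q
    exact ⟨_, h.tauT_mul_bc b' u⟩
  | add z₁ z₂ h₁ h₂ =>
    obtain ⟨v₁, rfl⟩ := h₁
    obtain ⟨v₂, rfl⟩ := h₂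
    exact ⟨v₁ + v₂, map_add _ _ _⟩

/-- `tauT` detects membership in the extended ideal. -/
theorem tauT_eq_zero_iff (h : IsQuotModel I ρ) (v : R ⊗[k] B') :
    h.tauT B' v = 0 ↔ v ∈ I.map (bc k R B B') := by
  refine ⟨fun hv => ?_, h.tauT_eq_zero v⟩
  have := h.theta_tauT (B' := B') v
  rw [hv, map_zero] at this
  exact Ideal.Quotient.eq_zero_iff_mem.mp this.symm

theorem tauT_sum (h : IsQuotModel I ρ) (s : ι → R) (c : ι → B') :
    h.tauT B' (∑ j, s j ⊗ₜ[k] c j) = colMapB ρ s B' c := by
  rw [map_sum, colMapB_apply]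
  simp

/-- **Bridge**: the extended ideal is a Hilbert point of the chart `s` iff the base-changed
column map is bijective. -/
theorem isHilbPoint_map_iff_bijective_colMapB (h : IsQuotModel I ρ) (s : ι → R) :
    IsHilbPoint k s B' (I.map (bc k R B B')) ↔ Function.Bijective (colMapB ρ s B') := by
  constructor
  · intro hP
    constructor
    · intro c c' hcc
      apply hP.1
      rw [← h.tauT_sum, ← h.tauT_sum] at hcc
      change Ideal.Quotient.mk _ _ = Ideal.Quotient.mk _ _
      rw [Ideal.Quotient.eq, ← h.tauT_eq_zero_iff, map_sub, hcc, sub_self]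
    · intro z
      obtain ⟨v, rfl⟩ := h.exists_tauT_eq z
      obtain ⟨c, hc⟩ := hP.2 (Ideal.Quotient.mk _ v)
      refine ⟨c, ?_⟩
      have h1 := Ideal.Quotient.eq.mp hc
      rw [← h.tauT_eq_zero_iff, map_sub, sub_eq_zero] at h1
      rw [← h.tauT_sum, h1]
  · intro hU
    constructor
    · intro c c' hcc
      apply hU.1
      have h1 := Ideal.Quotient.eq.mp hcc
      rw [← h.tauT_eq_zero_iff, map_sub, sub_eq_zero] at h1
      rw [← h.tauT_sum, ← h.tauT_sum, h1]
    · intro q
      obtain ⟨v, rfl⟩ := Ideal.Quotient.mk_surjective q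
      obtain ⟨c, hc⟩ := hU.2 (h.tauT B' v)
      refine ⟨c, ?_⟩
      change Ideal.Quotient.mk _ _ = Ideal.Quotient.mk _ _
      rw [Ideal.Quotient.eq, ← h.tauT_eq_zero_iff, map_sub, h.tauT_sum, hc, sub_self]

/-- Same statement for an arbitrary `k`-algebra map `φ : B → B'` (the `B`-algebra structure on
`B'` being the one induced by `φ`). -/
theorem isHilbPoint_map_iff (h : IsQuotModel I ρ) (s : ι → R) {B'' : Type z} [CommRing B'']
    [Algebra k B''] (φ : B →ₐ[k] B'') :
    IsHilbPoint k s B'' (I.map (Algebra.TensorProduct.map (AlgHom.id k R) φ)) ↔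
      (letI := φ.toRingHom.toAlgebra; Function.Bijective (colMapB ρ s B'')) := by
  letI := φ.toRingHom.toAlgebra
  haveI : IsScalarTower k B B'' := IsScalarTower.of_algebraMap_eq fun c => (φ.commutes c).symm
  have hφ : IsScalarTower.toAlgHom k B B'' = φ := by
    ext b
    rfl
  have := h.isHilbPoint_map_iff_bijective_colMapB (B' := B'') s
  unfold bc at this
  rw [hφ] at this
  exact this

/-- The column map computes the chart condition over `B` itself. -/
theorem isHilbPoint_iff_bijective_colMap (h : IsQuotModel I ρ) (s : ι → R) :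
    IsHilbPoint k s B I ↔ Function.Bijective (colMap ρ s) := by
  have hsum : ∀ c : ι → B, ρ (∑ j, s j ⊗ₜ[k] c j) = colMap ρ s c := by
    intro c
    rw [map_sum, colMap_apply]
    exact Finset.sum_congr rfl fun j _ => h.rho_tmul (s j) (c j)
  constructor
  · intro hP
    constructor
    · intro c c' hcc
      apply hP.1
      rw [← hsum, ← hsum] at hcc
      change Ideal.Quotient.mk _ _ = Ideal.Quotient.mk _ _
      rw [Ideal.Quotient.eq, ← h.ker, map_sub, hcc, sub_self]
    · intro q
      obtain ⟨u, rfl⟩ := h.surj q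
      obtain ⟨c, hc⟩ := hP.2 (Ideal.Quotient.mk _ u)
      refine ⟨c, ?_⟩
      have h1 := Ideal.Quotient.eq.mp hc
      rw [← h.ker, map_sub, sub_eq_zero] at h1
      rw [← hsum, h1]
  · intro hU
    constructor
    · intro c c' hcc
      apply hU.1
      have h1 := Ideal.Quotient.eq.mp hcc
      rw [← h.ker, map_sub, sub_eq_zero] at h1
      rw [← hsum, ← hsum, h1]
    · intro q
      obtain ⟨u, rfl⟩ := Ideal.Quotient.mk_surjective q
      obtain ⟨c, hc⟩ := hU.2 (ρ u)
      refine ⟨c, ?_⟩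
      change Ideal.Quotient.mk _ _ = Ideal.Quotient.mk _ _
      rw [Ideal.Quotient.eq, ← h.ker, map_sub, hsum, hc, sub_self]

/-- **Bridge**, `LinearMap.baseChange` form. -/
theorem isHilbPoint_map_iff_bijective_baseChange (h : IsQuotModel I ρ) (s : ι → R) :
    IsHilbPoint k s B' (I.map (bc k R B B')) ↔
      Function.Bijective ((colMap ρ s).baseChange B') := by
  rw [bijective_baseChange_iff]
  exact h.isHilbPoint_map_iff_bijective_colMapB s

/-- **Descent**: the chart condition descends along faithfully flat base change (e.g. along a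
field extension). -/
theorem isHilbPoint_of_faithfullyFlat (h : IsQuotModel I ρ) (s : ι → R)
    [Module.FaithfullyFlat B B'] (hP : IsHilbPoint k s B' (I.map (bc k R B B'))) :
    IsHilbPoint k s B I := by
  rw [h.isHilbPoint_iff_bijective_colMap]
  rw [h.isHilbPoint_map_iff_bijective_baseChange] at hP
  exact (Module.FaithfullyFlat.lTensor_bijective_iff_bijective B B' (colMap ρ s)).mp hP

/-- The classes `1 ⊗ ρ (r ⊗ 1)` span `B' ⊗[B] Q` over `B'`. -/
theorem span_range_one_tmul (h : IsQuotModel I ρ) :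
    Submodule.span B' (Set.range fun r : R => (1 : B') ⊗ₜ[B] ρ (r ⊗ₜ[k] (1 : B))) = ⊤ := by
  have key : ∀ v : R ⊗[k] B', h.tauT B' v ∈
      Submodule.span B' (Set.range fun r : R => (1 : B') ⊗ₜ[B] ρ (r ⊗ₜ[k] (1 : B))) := by
    intro v
    induction v using TensorProduct.induction_on with
    | zero => simp
    | tmul r b' =>
      rw [tauT_tmul]
      have : b' ⊗ₜ[B] ρ (r ⊗ₜ[k] (1 : B)) = b' • ((1 : B') ⊗ₜ[B] ρ (r ⊗ₜ[k] (1 : B))) := by
        rw [TensorProduct.smul_tmul', smul_eq_mul, mul_one]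
      rw [this]
      exact Submodule.smul_mem _ _ (Submodule.subset_span ⟨r, rfl⟩)
    | add v₁ v₂ h₁ h₂ =>
      rw [map_add]
      exact Submodule.add_mem _ h₁ h₂
  rw [eq_top_iff]
  intro z _
  obtain ⟨v, rfl⟩ := h.exists_tauT_eq z
  exact key v

/-- **Cover over fields**: if `K ⊗[B] Q` has dimension `|ι|` over the field `K`, some tuple
`s : ι → R` gives a basis. -/
theorem exists_bijective_colMapB (h : IsQuotModel I ρ) (K : Type z) [Field K] [Algebra k K]
    [Algebra B K] [IsScalarTower k B K] [Module.Finite K (K ⊗[B] Q)]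
    (hrank : Module.finrank K (K ⊗[B] Q) = Fintype.card ι) :
    ∃ s : ι → R, Function.Bijective (colMapB ρ s K) := by
  classical
  obtain ⟨κ, a, -, hspan, hli⟩ :=
    exists_linearIndependent' K (fun r : R => (1 : K) ⊗ₜ[B] ρ (r ⊗ₜ[k] (1 : B)))
  rw [h.span_range_one_tmul (B' := K)] at hspan
  let b : Module.Basis κ K (K ⊗[B] Q) := Module.Basis.mk hli hspan.ge
  haveI : Fintype κ := FiniteDimensional.fintypeBasisIndex b
  have hcard : Fintype.card ι = Fintype.card κ := by
    rw [← hrank, Module.finrank_eq_card_basis b]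
  let e : ι ≃ κ := Fintype.equivOfCardEq hcard
  refine ⟨fun j => a (e j), ?_⟩
  have hfun : ⇑(colMapB ρ (fun j => a (e j)) K) = ⇑(b.reindex e.symm).equivFun.symm := by
    funext c
    rw [Module.Basis.equivFun_symm_apply, colMapB]
    simp [Fintype.linearCombination_apply, b]
  rw [hfun]
  exact (b.reindex e.symm).equivFun.symm.bijective

/-- **Cover over fields**, chart form. -/
theorem exists_isHilbPoint_field (h : IsQuotModel I ρ) (K : Type z) [Field K] [Algebra k K]
    [Algebra B K] [IsScalarTower k B K] [Module.Finite K (K ⊗[B] Q)]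
    (hrank : Module.finrank K (K ⊗[B] Q) = Fintype.card ι) :
    ∃ s : ι → R, IsHilbPoint k s K (I.map (bc k R B K)) := by
  obtain ⟨s, hs⟩ := h.exists_bijective_colMapB K hrank
  exact ⟨s, (h.isHilbPoint_map_iff_bijective_colMapB s).mpr hs⟩

end IsQuotModel

/-- The `B`-module structure on `(R ⊗[k] B) ⧸ I` through the right tensor factor. -/
noncomputable abbrev quotModule (I : Ideal (R ⊗[k] B)) : Module B ((R ⊗[k] B) ⧸ I) :=
  Module.compHom _ ((Ideal.Quotient.mk I).comp
    (Algebra.TensorProduct.includeRight : B →ₐ[k] R ⊗[k] B).toRingHom)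

/-- The quotient itself is a quotient model. -/
theorem isQuotModel_mk (I : Ideal (R ⊗[k] B)) :
    @IsQuotModel k R _ _ _ B _ _ ((R ⊗[k] B) ⧸ I) _ (quotModule I) I
      (Ideal.Quotient.mk I : R ⊗[k] B →+* (R ⊗[k] B) ⧸ I).toAddMonoidHom := by
  letI := quotModule I
  refine ⟨Ideal.Quotient.mk_surjective, fun u => Ideal.Quotient.eq_zero_iff_mem, fun b u => ?_⟩
  change Ideal.Quotient.mk I ((1 ⊗ₜ[k] b) * u) = Ideal.Quotient.mk I (1 ⊗ₜ[k] b) * Ideal.Quotient.mk I u
  rw [map_mul]

/-- **Descent of the chart condition** along a faithfully flat base change `B → B'`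
(e.g. a field extension). -/
theorem IsHilbPoint.of_faithfullyFlat {I : Ideal (R ⊗[k] B)} {s : ι → R}
    {B' : Type z} [CommRing B'] [Algebra k B'] [Algebra B B'] [IsScalarTower k B B']
    [Module.FaithfullyFlat B B']
    (hP : IsHilbPoint k s B' (I.map (Algebra.TensorProduct.map (AlgHom.id k R)
      (IsScalarTower.toAlgHom k B B')))) :
    IsHilbPoint k s B I := by
  letI := quotModule I
  exact (isQuotModel_mk I).isHilbPoint_of_faithfullyFlat s hP

end Bridge

end Fermat.Agent.S25.helper5871
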