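/-
Brick HC (helper5871): Hilbert chart algebra.

For a commutative ring `k`, a `k`-algebra `R`, a finite index type `ι` and `s : ι → R`,
the functor on `k`-algebras
  `B ↦ {I : Ideal (R ⊗[k] B) // (R ⊗[k] B) ⧸ I is B-free with basis the images of the s j}`
is represented by an explicit `k`-algebra `HilbChart k R s`, of finite type when `R` is.
-/
import Mathlib

set_option autoImplicit false
set_option linter.unusedSectionVars false

open TensorProduct

namespace Fermat.Agent.S25.helper5871

universe u v w x

section Defs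

variable {k : Type u} {R : Type v} [CommRing k] [CommRing R] [Algebra k R]
variable {ι : Type w} [Fintype ι] [DecidableEq ι]

/-- `I` is a point of the Hilbert chart attached to `s`: the quotient `(R ⊗[k] B) ⧸ I` is a free
`B`-module with basis the images of the `s j ⊗ 1`. -/
def IsHilbPoint (k : Type u) {R : Type v} [CommRing k] [CommRing R] [Algebra k R]
    {ι : Type w} [Fintype ι] (s : ι → R) (B : Type x) [CommRing B] [Algebra k B]
    (I : Ideal (R ⊗[k] B)) : Prop :=
  Function.Bijective (fun c : ι → B => Ideal.Quotient.mk I (∑ j, s j ⊗ₜ[k] c j))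

/-- Linear-form description of a point of the Hilbert chart: a `k`-linear map
`lam : R → (ι → B)` (the coordinates of the class of `r ⊗ 1` in the basis `s`). -/
structure HilbForm (k : Type u) {R : Type v} [CommRing k] [CommRing R] [Algebra k R]
    {ι : Type w} [Fintype ι] [DecidableEq ι] (s : ι → R) (B : Type x) [CommRing B] [Algebra k B] where
  lam : R →ₗ[k] (ι → B)
  lam_s : ∀ j, lam (s j) = Pi.single j 1
  lam_mul : ∀ r u, lam (r * u) = ∑ j, lam u j • lam (r * s j)

namespace HilbForm

variable {s : ι → R} {B : Type x} [CommRing B] [Algebra k B]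

@[ext] theorem ext {F G : HilbForm k s B} (h : ∀ r, F.lam r = G.lam r) : F = G := by
  cases F; cases G; congr; exact LinearMap.ext h

/-- The coordinate map `R ⊗[k] B → (ι → B)`, `r ⊗ b ↦ b • lam r`. -/
noncomputable def pi (F : HilbForm k s B) : R ⊗[k] B →ₗ[k] (ι → B) :=
  TensorProduct.lift
    (LinearMap.mk₂ k (fun (r : R) (b : B) => b • F.lam r)
      (fun r r' b => by rw [map_add, smul_add])
      (fun c r b => by rw [map_smul, smul_comm])
      (fun r b b' => by rw [add_smul])
      (fun c r b => by rw [smul_assoc]))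

@[simp] theorem pi_tmul (F : HilbForm k s B) (r : R) (b : B) : F.pi (r ⊗ₜ[k] b) = b • F.lam r := by
  simp [pi]

theorem pi_one_tmul_mul (F : HilbForm k s B) (b : B) (u : R ⊗[k] B) :
    F.pi ((1 ⊗ₜ[k] b) * u) = b • F.pi u := by
  induction u using TensorProduct.induction_on with
  | zero => simp
  | tmul r b' => simp [Algebra.TensorProduct.tmul_mul_tmul, mul_smul]
  | add u v hu hv => simp [mul_add, hu, hv]

theorem pi_tmul_one_mul (F : HilbForm k s B) (r : R) (u : R ⊗[k] B) :
    F.pi ((r ⊗ₜ[k] 1) * u) = ∑ j, F.pi u j • F.lam (r * s j) := by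
  induction u using TensorProduct.induction_on with
  | zero => simp
  | tmul r' b' =>
    simp only [Algebra.TensorProduct.tmul_mul_tmul, one_mul, pi_tmul, F.lam_mul r r', Finset.smul_sum,
      Pi.smul_apply, smul_eq_mul, mul_smul]
  | add u v hu hv => simp [mul_add, hu, hv, add_smul, Finset.sum_add_distrib]

theorem pi_mul_eq_zero (F : HilbForm k s B) (c u : R ⊗[k] B) (hu : F.pi u = 0) : F.pi (c * u) = 0 := by
  induction c using TensorProduct.induction_on with
  | zero => simp
  | tmul r b =>
    have : (r ⊗ₜ[k] b : R ⊗[k] B) * u = (r ⊗ₜ[k] 1) * ((1 ⊗ₜ[k] b) * u) := by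
      rw [← mul_assoc, Algebra.TensorProduct.tmul_mul_tmul, mul_one, one_mul]
    rw [this, pi_tmul_one_mul, pi_one_tmul_mul, hu]
    simp
  | add c c' hc hc' => simp [add_mul, hc, hc']

/-- The ideal of the Hilbert point: the kernel of the coordinate map. -/
noncomputable def ideal (F : HilbForm k s B) : Ideal (R ⊗[k] B) where
  carrier := {u | F.pi u = 0}
  add_mem' := fun {a b} ha hb => by
    change F.pi a = 0 at ha
    change F.pi b = 0 at hb
    change F.pi (a + b) = 0
    rw [map_add, ha, hb, add_zero]
  zero_mem' := by simp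
  smul_mem' := fun c u hu => F.pi_mul_eq_zero c u hu

theorem mem_ideal (F : HilbForm k s B) (u : R ⊗[k] B) : u ∈ F.ideal ↔ F.pi u = 0 := Iff.rfl

theorem pi_sum_s (F : HilbForm k s B) (c : ι → B) : F.pi (∑ j, s j ⊗ₜ[k] c j) = c := by
  rw [map_sum]
  simp only [pi_tmul, F.lam_s]
  funext a
  simp [Finset.sum_apply, Pi.single_apply]

/-- Every element is congruent modulo the ideal to the combination of the `s j` given by its
coordinates. -/
theorem sub_mem_ideal (F : HilbForm k s B) (u : R ⊗[k] B) :
    u - ∑ j, s j ⊗ₜ[k] F.pi u j ∈ F.ideal := by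
  rw [mem_ideal, map_sub, pi_sum_s, sub_self]

theorem isHilbPoint (F : HilbForm k s B) : IsHilbPoint k s B F.ideal := by
  constructor
  · intro c c' h
    have h' : (∑ j, s j ⊗ₜ[k] c j : R ⊗[k] B) - ∑ j, s j ⊗ₜ[k] c' j ∈ F.ideal :=
      Ideal.Quotient.eq.mp h
    rw [mem_ideal, map_sub, pi_sum_s, pi_sum_s, sub_eq_zero] at h'
    exact h'
  · intro q
    obtain ⟨u, rfl⟩ := Ideal.Quotient.mk_surjective q
    exact ⟨F.pi u, (Ideal.Quotient.eq.mpr (F.sub_mem_ideal u)).symm⟩

/-- Uniqueness: the form is determined by its ideal. -/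
theorem ext_of_ideal {F G : HilbForm k s B} (h : F.ideal = G.ideal) : F = G := by
  apply HilbForm.ext
  intro r
  have h1 : (r ⊗ₜ[k] (1 : B)) - ∑ j, s j ⊗ₜ[k] F.pi (r ⊗ₜ[k] (1 : B)) j ∈ G.ideal :=
    h ▸ F.sub_mem_ideal _
  rw [mem_ideal, map_sub, pi_sum_s, sub_eq_zero] at h1
  simpa using h1.symm

/-- Base change of a form along `φ : B →ₐ[k] B'`. -/
noncomputable def map {B' : Type*} [CommRing B'] [Algebra k B'] (φ : B →ₐ[k] B')
    (F : HilbForm k s B) : HilbForm k s B' where
  lam := (φ.toLinearMap.compLeft ι).comp F.lam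
  lam_s := fun j => by
    funext a
    simp only [LinearMap.coe_comp, Function.comp_apply, F.lam_s, LinearMap.compLeft_apply,
      AlgHom.toLinearMap_apply, Pi.single_apply]
    split_ifs <;> simp
  lam_mul := fun r u => by
    funext a
    simp only [LinearMap.coe_comp, Function.comp_apply, F.lam_mul r u, LinearMap.compLeft_apply,
      AlgHom.toLinearMap_apply, Finset.sum_apply, Pi.smul_apply, smul_eq_mul, map_sum, map_mul]

@[simp] theorem map_lam_apply {B' : Type*} [CommRing B'] [Algebra k B'] (φ : B →ₐ[k] B')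
    (F : HilbForm k s B) (r : R) (a : ι) : (F.map φ).lam r a = φ (F.lam r a) := rfl

theorem map_pi {B' : Type*} [CommRing B'] [Algebra k B'] (φ : B →ₐ[k] B')
    (F : HilbForm k s B) (u : R ⊗[k] B) (a : ι) :
    (F.map φ).pi (Algebra.TensorProduct.map (AlgHom.id k R) φ u) a = φ (F.pi u a) := by
  induction u using TensorProduct.induction_on with
  | zero => simp
  | tmul r b => simp
  | add u v hu hv => simp only [map_add, Pi.add_apply, hu, hv]

theorem map_ideal {B' : Type*} [CommRing B'] [Algebra k B'] (φ : B →ₐ[k] B')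
    (F : HilbForm k s B) :
    (F.map φ).ideal = F.ideal.map (Algebra.TensorProduct.map (AlgHom.id k R) φ) := by
  apply le_antisymm
  · have key : ∀ v : R ⊗[k] B', v - ∑ j, s j ⊗ₜ[k] (F.map φ).pi v j ∈
        F.ideal.map (Algebra.TensorProduct.map (AlgHom.id k R) φ) := by
      intro v
      induction v using TensorProduct.induction_on with
      | zero => simp
      | tmul r b' =>
        have h1 : Algebra.TensorProduct.map (AlgHom.id k R) φ
            ((r ⊗ₜ[k] (1 : B)) - ∑ j, s j ⊗ₜ[k] F.pi (r ⊗ₜ[k] (1 : B)) j) ∈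
            F.ideal.map (Algebra.TensorProduct.map (AlgHom.id k R) φ) :=
          Ideal.mem_map_of_mem _ (F.sub_mem_ideal _)
        have h2 := Ideal.mul_mem_left _ ((1 : R) ⊗ₜ[k] b') h1
        convert h2 using 1
        simp only [pi_tmul, Pi.smul_apply, smul_eq_mul, map_lam_apply, map_sub,
          Algebra.TensorProduct.map_tmul, AlgHom.coe_id, id_eq, map_one, map_sum, mul_sub,
          Algebra.TensorProduct.tmul_mul_tmul, one_mul, mul_one, Finset.mul_sum]
      | add u v hu hv =>
        have := Ideal.add_mem _ hu hv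
        convert this using 1
        simp only [map_add, Pi.add_apply, TensorProduct.tmul_add, Finset.sum_add_distrib]
        ring
    intro v hv
    rw [mem_ideal] at hv
    have := key v
    simpa [hv] using this
  · rw [Ideal.map_le_iff_le_comap]
    intro u hu
    rw [mem_ideal] at hu
    rw [Ideal.mem_comap, mem_ideal]
    funext a
    rw [map_pi, hu]
    simp

end HilbForm

namespace IsHilbPoint

variable {s : ι → R} {B : Type x} [CommRing B] [Algebra k B] {I : Ideal (R ⊗[k] B)}

/-- Coordinates of an element of `R ⊗[k] B` modulo a Hilbert point. -/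
noncomputable def coord (h : IsHilbPoint k s B I) (u : R ⊗[k] B) : ι → B :=
  (Equiv.ofBijective _ h).symm (Ideal.Quotient.mk I u)

omit [DecidableEq ι] in
theorem coord_spec (h : IsHilbPoint k s B I) (u : R ⊗[k] B) :
    u - ∑ j, s j ⊗ₜ[k] h.coord u j ∈ I := by
  have := (Equiv.ofBijective _ h).apply_symm_apply (Ideal.Quotient.mk I u)
  exact Ideal.Quotient.eq.mp this.symm

omit [DecidableEq ι] in
theorem coord_unique (h : IsHilbPoint k s B I) (u : R ⊗[k] B) (c : ι → B)
    (hc : u - ∑ j, s j ⊗ₜ[k] c j ∈ I) : h.coord u = c := by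
  have h1 : Ideal.Quotient.mk I u = Ideal.Quotient.mk I (∑ j, s j ⊗ₜ[k] c j) :=
    Ideal.Quotient.eq.mpr hc
  unfold coord
  rw [h1]
  exact (Equiv.ofBijective _ h).symm_apply_apply c

theorem coord_add (h : IsHilbPoint k s B I) (u v : R ⊗[k] B) :
    h.coord (u + v) = h.coord u + h.coord v := by
  apply h.coord_unique
  have := Ideal.add_mem _ (h.coord_spec u) (h.coord_spec v)
  convert this using 1
  simp only [Pi.add_apply, TensorProduct.tmul_add, Finset.sum_add_distrib]
  ring

theorem coord_one_tmul_mul (h : IsHilbPoint k s B I) (b : B) (u : R ⊗[k] B) :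
    h.coord ((1 ⊗ₜ[k] b) * u) = b • h.coord u := by
  apply h.coord_unique
  have := Ideal.mul_mem_left _ ((1 : R) ⊗ₜ[k] b) (h.coord_spec u)
  convert this using 1
  simp only [Pi.smul_apply, smul_eq_mul, mul_sub, Finset.mul_sum,
    Algebra.TensorProduct.tmul_mul_tmul, one_mul]

theorem coord_smul (h : IsHilbPoint k s B I) (c : k) (u : R ⊗[k] B) :
    h.coord (c • u) = c • h.coord u := by
  have h1 : c • u = ((1 : R) ⊗ₜ[k] (algebraMap k B c)) * u := by
    rw [Algebra.algebraMap_eq_smul_one, TensorProduct.tmul_smul, ← Algebra.TensorProduct.one_def,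
      smul_mul_assoc, one_mul]
  rw [h1, coord_one_tmul_mul]
  funext a
  simp [Algebra.smul_def]

theorem coord_s (h : IsHilbPoint k s B I) (j : ι) :
    h.coord (s j ⊗ₜ[k] (1 : B)) = Pi.single j 1 := by
  apply h.coord_unique
  have : ∑ i, s i ⊗ₜ[k] (Pi.single j (1 : B) : ι → B) i = s j ⊗ₜ[k] (1 : B) := by
    rw [Finset.sum_eq_single j]
    · simp
    · intro i _ hij
      simp [hij]
    · intro hj
      exact absurd (Finset.mem_univ j) hj
  rw [this, sub_self]
  exact I.zero_mem

theorem coord_mul (h : IsHilbPoint k s B I) (r u : R) :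
    h.coord ((r * u) ⊗ₜ[k] (1 : B)) =
      ∑ j, h.coord (u ⊗ₜ[k] (1 : B)) j • h.coord ((r * s j) ⊗ₜ[k] (1 : B)) := by
  apply h.coord_unique
  -- `(r ⊗ 1) * (u ⊗ 1 - Σ s_j ⊗ c_j) ∈ I`
  have h1 := Ideal.mul_mem_left _ (r ⊗ₜ[k] (1 : B)) (h.coord_spec (u ⊗ₜ[k] (1 : B)))
  -- `Σ_j (1 ⊗ c_j) * ((r s_j) ⊗ 1 - Σ_i s_i ⊗ d^j_i) ∈ I`
  have h2 : ∑ j, ((1 : R) ⊗ₜ[k] h.coord (u ⊗ₜ[k] (1 : B)) j) *
      (((r * s j) ⊗ₜ[k] (1 : B)) -
        ∑ i, s i ⊗ₜ[k] h.coord ((r * s j) ⊗ₜ[k] (1 : B)) i) ∈ I :=
    Ideal.sum_mem _ fun j _ => Ideal.mul_mem_left _ _ (h.coord_spec _)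
  have := Ideal.add_mem _ h1 h2
  convert this using 1
  simp only [mul_sub, Finset.mul_sum, Algebra.TensorProduct.tmul_mul_tmul, one_mul, mul_one,
    Finset.sum_sub_distrib, Finset.sum_apply, Pi.smul_apply, smul_eq_mul,
    TensorProduct.tmul_sum]
  rw [Finset.sum_comm]
  ring

/-- The linear form attached to a Hilbert point. -/
noncomputable def form (h : IsHilbPoint k s B I) : HilbForm k s B where
  lam :=
    { toFun := fun r => h.coord (r ⊗ₜ[k] (1 : B))
      map_add' := fun r r' => by rw [TensorProduct.add_tmul, coord_add]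
      map_smul' := fun c r => by
        rw [← TensorProduct.smul_tmul', coord_smul]
        rfl }
  lam_s := h.coord_s
  lam_mul := h.coord_mul

theorem form_pi (h : IsHilbPoint k s B I) (u : R ⊗[k] B) : h.form.pi u = h.coord u := by
  induction u using TensorProduct.induction_on with
  | zero =>
    rw [map_zero]
    exact (h.coord_unique 0 0 (by simp)).symm
  | tmul r b =>
    have : (r ⊗ₜ[k] b : R ⊗[k] B) = (1 ⊗ₜ[k] b) * (r ⊗ₜ[k] 1) := by
      rw [Algebra.TensorProduct.tmul_mul_tmul, one_mul, mul_one]
    rw [HilbForm.pi_tmul, this, coord_one_tmul_mul]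
    rfl
  | add u v hu hv => rw [map_add, hu, hv, coord_add]

theorem form_ideal (h : IsHilbPoint k s B I) : h.form.ideal = I := by
  ext u
  rw [HilbForm.mem_ideal, form_pi]
  constructor
  · intro hu
    have := h.coord_spec u
    simpa [hu] using this
  · intro hu
    exact h.coord_unique u 0 (by simpa using hu)

end IsHilbPoint

/-- Hilbert points of the chart `s` over `B` are the same as linear forms. -/
noncomputable def HilbForm.equivPoint (s : ι → R) (B : Type x) [CommRing B] [Algebra k B] :
    HilbForm k s B ≃ {I : Ideal (R ⊗[k] B) // IsHilbPoint k s B I} where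
  toFun F := ⟨F.ideal, F.isHilbPoint⟩
  invFun I := I.2.form
  left_inv _ := HilbForm.ext_of_ideal (IsHilbPoint.form_ideal _)
  right_inv _ := Subtype.ext (IsHilbPoint.form_ideal _)

/-- Hilbert points are stable under base change. -/
theorem IsHilbPoint.map {s : ι → R} {B : Type x} [CommRing B] [Algebra k B]
    {I : Ideal (R ⊗[k] B)} (h : IsHilbPoint k s B I)
    {B' : Type*} [CommRing B'] [Algebra k B'] (φ : B →ₐ[k] B') :
    IsHilbPoint k s B' (I.map (Algebra.TensorProduct.map (AlgHom.id k R) φ)) := by
  have := (h.form.map φ).isHilbPoint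
  rwa [HilbForm.map_ideal, h.form_ideal] at this

end Defs

section Chart

variable (k : Type u) (R : Type v) [CommRing k] [CommRing R] [Algebra k R]
variable {ι : Type w} [Fintype ι] [DecidableEq ι] (s : ι → R)

/-- The relations defining the Hilbert chart algebra inside the polynomial ring on the symbols
`X (a, r)` ("`a`-th coordinate of `r`"). -/
def hilbRel : Set (MvPolynomial (ι × R) k) :=
  Set.range (fun p : ι × R × R =>
      MvPolynomial.X (p.1, p.2.1 + p.2.2) - MvPolynomial.X (p.1, p.2.1) -
        MvPolynomial.X (p.1, p.2.2)) ∪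
    Set.range (fun p : ι × k × R =>
      MvPolynomial.X (p.1, p.2.1 • p.2.2) - MvPolynomial.C p.2.1 * MvPolynomial.X (p.1, p.2.2)) ∪
    Set.range (fun p : ι × ι =>
      MvPolynomial.X (p.1, s p.2) - MvPolynomial.C (if p.1 = p.2 then (1 : k) else 0)) ∪
    Set.range (fun p : ι × R × R =>
      MvPolynomial.X (p.1, p.2.1 * p.2.2) -
        ∑ j, MvPolynomial.X (j, p.2.2) * MvPolynomial.X (p.1, p.2.1 * s j))

/-- The Hilbert chart algebra: it represents `B ↦ {I // IsHilbPoint k s B I}`. -/
def HilbChart : Type (max u v w) := MvPolynomial (ι × R) k ⧸ Ideal.span (hilbRel k R s)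

noncomputable instance : CommRing (HilbChart k R s) :=
  inferInstanceAs (CommRing (MvPolynomial (ι × R) k ⧸ Ideal.span (hilbRel k R s)))

noncomputable instance : Algebra k (HilbChart k R s) :=
  inferInstanceAs (Algebra k (MvPolynomial (ι × R) k ⧸ Ideal.span (hilbRel k R s)))

namespace HilbChart

variable {k R s}

/-- The quotient map from the polynomial ring. -/
noncomputable def mk : MvPolynomial (ι × R) k →ₐ[k] HilbChart k R s :=
  Ideal.Quotient.mkₐ k (Ideal.span (hilbRel k R s))

theorem mk_surjective : Function.Surjective (mk : MvPolynomial (ι × R) k →ₐ[k] HilbChart k R s) :=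
  Ideal.Quotient.mk_surjective

theorem mk_eq_zero_of_mem {p : MvPolynomial (ι × R) k} (hp : p ∈ hilbRel k R s) :
    (mk p : HilbChart k R s) = 0 :=
  Ideal.Quotient.eq_zero_iff_mem.mpr (Ideal.subset_span hp)

/-- The coordinate generators of the chart algebra. -/
noncomputable def gen (a : ι) (r : R) : HilbChart k R s := mk (MvPolynomial.X (a, r))

theorem gen_add (a : ι) (r r' : R) : (gen a (r + r') : HilbChart k R s) = gen a r + gen a r' := by
  have h : (MvPolynomial.X (a, r + r') - MvPolynomial.X (a, r) - MvPolynomial.X (a, r') :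
      MvPolynomial (ι × R) k) ∈ hilbRel k R s :=
    Or.inl (Or.inl (Or.inl ⟨(a, r, r'), rfl⟩))
  have := mk_eq_zero_of_mem h
  rw [map_sub, map_sub, sub_sub, sub_eq_zero] at this
  exact this

theorem gen_smul (a : ι) (c : k) (r : R) : (gen a (c • r) : HilbChart k R s) = c • gen a r := by
  have h : (MvPolynomial.X (a, c • r) - MvPolynomial.C c * MvPolynomial.X (a, r) :
      MvPolynomial (ι × R) k) ∈ hilbRel k R s :=
    Or.inl (Or.inl (Or.inr ⟨(a, c, r), rfl⟩))
  have := mk_eq_zero_of_mem h
  rw [map_sub, sub_eq_zero, ← MvPolynomial.smul_eq_C_mul, map_smul] at this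
  exact this

theorem gen_s (a j : ι) : (gen a (s j) : HilbChart k R s) = if a = j then 1 else 0 := by
  have h : (MvPolynomial.X (a, s j) - MvPolynomial.C (if a = j then (1 : k) else 0) :
      MvPolynomial (ι × R) k) ∈ hilbRel k R s :=
    Or.inl (Or.inr ⟨(a, j), rfl⟩)
  have := mk_eq_zero_of_mem h
  rw [map_sub, sub_eq_zero] at this
  rw [gen, this]
  split_ifs <;> simp

theorem gen_mul (a : ι) (r u : R) :
    (gen a (r * u) : HilbChart k R s) = ∑ j, gen j u * gen a (r * s j) := by
  have h : (MvPolynomial.X (a, r * u) -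
      ∑ j, MvPolynomial.X (j, u) * MvPolynomial.X (a, r * s j) :
      MvPolynomial (ι × R) k) ∈ hilbRel k R s :=
    Or.inr ⟨(a, r, u), rfl⟩
  have := mk_eq_zero_of_mem h
  rw [map_sub, sub_eq_zero, map_sum] at this
  rw [gen, this]
  simp only [map_mul]
  rfl

/-- The universal linear form. -/
noncomputable def univForm : HilbForm k s (HilbChart k R s) where
  lam :=
    { toFun := fun r a => gen a r
      map_add' := fun r r' => funext fun a => gen_add a r r'
      map_smul' := fun c r => funext fun a => gen_smul a c r }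
  lam_s := fun j => funext fun a => by
    simp only [LinearMap.coe_mk, AddHom.coe_mk, gen_s, Pi.single_apply]
  lam_mul := fun r u => funext fun a => by
    simp only [LinearMap.coe_mk, AddHom.coe_mk, gen_mul a r u, Finset.sum_apply, Pi.smul_apply,
      smul_eq_mul]

@[simp] theorem univForm_lam_apply (r : R) (a : ι) :
    (univForm : HilbForm k s (HilbChart k R s)).lam r a = gen a r := rfl

/-- The universal ideal of `R ⊗[k] HilbChart k R s`. -/
noncomputable def univIdeal : Ideal (R ⊗[k] HilbChart k R s) :=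
  (univForm : HilbForm k s (HilbChart k R s)).ideal

theorem isHilbPoint_univIdeal :
    IsHilbPoint k s (HilbChart k R s) (univIdeal : Ideal (R ⊗[k] HilbChart k R s)) :=
  HilbForm.isHilbPoint _

variable {B : Type x} [CommRing B] [Algebra k B]

/-- The algebra map out of the chart algebra classifying a linear form. -/
noncomputable def lift (F : HilbForm k s B) : HilbChart k R s →ₐ[k] B :=
  Ideal.Quotient.liftₐ (Ideal.span (hilbRel k R s))
    (MvPolynomial.aeval (fun p : ι × R => F.lam p.2 p.1))
    (by
      intro p hp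
      have hle : Ideal.span (hilbRel k R s) ≤
          RingHom.ker (MvPolynomial.aeval (fun p : ι × R => F.lam p.2 p.1) :
            MvPolynomial (ι × R) k →ₐ[k] B).toRingHom := by
        rw [Ideal.span_le]
        rintro _ (((⟨⟨a, r, r'⟩, rfl⟩ | ⟨⟨a, c, r⟩, rfl⟩) | ⟨⟨a, j⟩, rfl⟩) | ⟨⟨a, r, u⟩, rfl⟩)
        · simp [RingHom.mem_ker]
        · simp only [SetLike.mem_coe, RingHom.mem_ker, AlgHom.toRingHom_eq_coe, RingHom.coe_coe,
            map_sub, map_mul, MvPolynomial.aeval_X, MvPolynomial.aeval_C]
          rw [map_smul, Pi.smul_apply, Algebra.smul_def, sub_self]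
        · simp only [SetLike.mem_coe, RingHom.mem_ker, AlgHom.toRingHom_eq_coe, RingHom.coe_coe,
            map_sub, MvPolynomial.aeval_X, MvPolynomial.aeval_C, F.lam_s, Pi.single_apply]
          split_ifs <;> simp
        · simp only [SetLike.mem_coe, RingHom.mem_ker, AlgHom.toRingHom_eq_coe, RingHom.coe_coe,
            map_sub, MvPolynomial.aeval_X, map_sum, map_mul, F.lam_mul r u, Finset.sum_apply,
            Pi.smul_apply, smul_eq_mul, sub_self]
      exact hle hp)

@[simp] theorem lift_gen (F : HilbForm k s B) (a : ι) (r : R) :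
    lift F (gen a r : HilbChart k R s) = F.lam r a := by
  change (MvPolynomial.aeval (fun p : ι × R => F.lam p.2 p.1)) (MvPolynomial.X (a, r)) = _
  rw [MvPolynomial.aeval_X]

theorem algHom_ext {φ ψ : HilbChart k R s →ₐ[k] B}
    (h : ∀ a r, φ (gen a r) = ψ (gen a r)) : φ = ψ := by
  apply Ideal.Quotient.algHom_ext
  apply MvPolynomial.algHom_ext
  rintro ⟨a, r⟩
  exact h a r

/-- **Representability**: `k`-algebra maps `HilbChart k R s → B` are the same as linear forms. -/
noncomputable def homEquiv : (HilbChart k R s →ₐ[k] B) ≃ HilbForm k s B where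
  toFun φ := (univForm : HilbForm k s (HilbChart k R s)).map φ
  invFun F := lift F
  left_inv φ := algHom_ext fun a r => by simp
  right_inv F := HilbForm.ext fun r => funext fun a => by simp

/-- **Representability** in terms of ideals: `k`-algebra maps `HilbChart k R s → B` are the same as
Hilbert points of the chart `s` over `B`, via base change of the universal ideal. -/
noncomputable def homEquivPoint :
    (HilbChart k R s →ₐ[k] B) ≃ {I : Ideal (R ⊗[k] B) // IsHilbPoint k s B I} :=
  homEquiv.trans (HilbForm.equivPoint s B)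

theorem homEquivPoint_apply (φ : HilbChart k R s →ₐ[k] B) :
    (homEquivPoint φ : Ideal (R ⊗[k] B)) =
      (univIdeal : Ideal (R ⊗[k] HilbChart k R s)).map
        (Algebra.TensorProduct.map (AlgHom.id k R) φ) :=
  HilbForm.map_ideal φ univForm

/-- **Representability of the Hilbert chart**: every Hilbert point of the chart `s` over `B` is the
base change of the universal ideal along a unique `k`-algebra map `HilbChart k R s → B`. -/
theorem existsUnique_map_univIdeal_eq (I : Ideal (R ⊗[k] B)) (hI : IsHilbPoint k s B I) :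
    ∃! φ : HilbChart k R s →ₐ[k] B,
      (univIdeal : Ideal (R ⊗[k] HilbChart k R s)).map
        (Algebra.TensorProduct.map (AlgHom.id k R) φ) = I := by
  refine ⟨homEquivPoint.symm ⟨I, hI⟩, ?_, ?_⟩
  · change (univIdeal : Ideal (R ⊗[k] HilbChart k R s)).map _ = I
    rw [← homEquivPoint_apply, Equiv.apply_symm_apply]
  · intro ψ hψ
    apply homEquivPoint.injective
    rw [Equiv.apply_symm_apply]
    exact Subtype.ext ((homEquivPoint_apply ψ).trans hψ)

theorem bijective_map_univIdeal :
    Function.Bijective (fun φ : HilbChart k R s →ₐ[k] B =>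
      (⟨(univIdeal : Ideal (R ⊗[k] HilbChart k R s)).map
          (Algebra.TensorProduct.map (AlgHom.id k R) φ),
        isHilbPoint_univIdeal.map φ⟩ : {I : Ideal (R ⊗[k] B) // IsHilbPoint k s B I})) := by
  have : (fun φ : HilbChart k R s →ₐ[k] B =>
      (⟨(univIdeal : Ideal (R ⊗[k] HilbChart k R s)).map
          (Algebra.TensorProduct.map (AlgHom.id k R) φ),
        isHilbPoint_univIdeal.map φ⟩ : {I : Ideal (R ⊗[k] B) // IsHilbPoint k s B I})) =
      homEquivPoint := by
    funext φ
    exact Subtype.ext (homEquivPoint_apply φ).symm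
  rw [this]
  exact homEquivPoint.bijective

/-- Naturality of the representing bijection. -/
theorem homEquivPoint_comp {B' : Type*} [CommRing B'] [Algebra k B'] (ψ : B →ₐ[k] B')
    (φ : HilbChart k R s →ₐ[k] B) :
    (homEquivPoint (ψ.comp φ) : Ideal (R ⊗[k] B')) =
      (homEquivPoint φ : Ideal (R ⊗[k] B)).map (Algebra.TensorProduct.map (AlgHom.id k R) ψ) := by
  rw [homEquivPoint_apply, homEquivPoint_apply]
  have hcomp : Algebra.TensorProduct.map (AlgHom.id k R) (ψ.comp φ) =
      (Algebra.TensorProduct.map (AlgHom.id k R) ψ).comp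
        (Algebra.TensorProduct.map (AlgHom.id k R) φ) := by
    ext <;> simp
  rw [hcomp]
  exact (Ideal.map_map (Algebra.TensorProduct.map (AlgHom.id k R) φ).toRingHom
    (Algebra.TensorProduct.map (AlgHom.id k R) ψ).toRingHom).symm

/-- **Finiteness**: the chart algebra is of finite type over `k` when `R` is. -/
instance finiteType [Algebra.FiniteType k R] : Algebra.FiniteType k (HilbChart k R s) := by
  obtain ⟨G, hG⟩ := (Algebra.FiniteType.out : (⊤ : Subalgebra k R).FG)
  let T : Set (HilbChart k R s) :=
    Set.range (fun a : ι => (gen a (1 : R) : HilbChart k R s)) ∪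
      Set.range (fun p : ι × ι × (G : Set R) => (gen p.1 ((p.2.2 : R) * s p.2.1) : HilbChart k R s))
  have hT : T.Finite := (Set.finite_range _).union (Set.finite_range _)
  have h1 : ∀ a, (gen a (1 : R) : HilbChart k R s) ∈ Algebra.adjoin k T :=
    fun a => Algebra.subset_adjoin (Or.inl ⟨a, rfl⟩)
  have hstep : ∀ g ∈ (G : Set R), ∀ u : R,
      (∀ a, (gen a u : HilbChart k R s) ∈ Algebra.adjoin k T) →
      ∀ a, (gen a (g * u) : HilbChart k R s) ∈ Algebra.adjoin k T := by
    intro g hg u hu a
    rw [gen_mul]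
    exact Subalgebra.sum_mem _ fun j _ => Subalgebra.mul_mem _ (hu j)
      (Algebra.subset_adjoin (Or.inr ⟨(a, j, ⟨g, hg⟩), rfl⟩))
  have hall : ∀ r ∈ Algebra.adjoin k (G : Set R), ∀ u : R,
      (∀ a, (gen a u : HilbChart k R s) ∈ Algebra.adjoin k T) →
      ∀ a, (gen a (r * u) : HilbChart k R s) ∈ Algebra.adjoin k T := by
    intro r hr
    induction hr using Algebra.adjoin_induction with
    | mem g hg => exact hstep g hg
    | algebraMap c =>
      intro u hu a
      rw [← Algebra.smul_def, gen_smul]
      exact Subalgebra.smul_mem _ (hu a) c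
    | add r r' _ _ hr hr' =>
      intro u hu a
      rw [add_mul, gen_add]
      exact Subalgebra.add_mem _ (hr u hu a) (hr' u hu a)
    | mul r r' _ _ hr hr' =>
      intro u hu a
      rw [mul_assoc]
      exact hr _ (hr' u hu) a
  have hgen : ∀ (r : R) (a : ι), (gen a r : HilbChart k R s) ∈ Algebra.adjoin k T := by
    intro r a
    have := hall r (by rw [hG]; trivial) 1 h1 a
    rwa [mul_one] at this
  have htop : Algebra.adjoin k T = ⊤ := by
    have hmk : ∀ p : MvPolynomial (ι × R) k, (mk p : HilbChart k R s) ∈ Algebra.adjoin k T := by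
      intro p
      induction p using MvPolynomial.induction_on with
      | C c => exact Subalgebra.algebraMap_mem _ c
      | add p q hp hq =>
        rw [map_add]
        exact Subalgebra.add_mem _ hp hq
      | mul_X p i hp =>
        rw [map_mul]
        exact Subalgebra.mul_mem _ hp (hgen i.2 i.1)
    rw [eq_top_iff]
    intro z _
    obtain ⟨p, rfl⟩ := mk_surjective z
    exact hmk p
  exact ⟨⟨hT.toFinset, by simpa using htop⟩⟩

/-- Over a noetherian base (e.g. a field) the chart algebra is finitely presented. -/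
instance finitePresentation [IsNoetherianRing k] [Algebra.FiniteType k R] :
    Algebra.FinitePresentation k (HilbChart k R s) :=
  Algebra.FinitePresentation.of_finiteType.mp inferInstance

end HilbChart

end Chart

section Transition

variable {k : Type u} {R : Type v} [CommRing k] [CommRing R] [Algebra k R]
variable {ι : Type w} [Fintype ι] [DecidableEq ι]
variable {t : ι → R} {B : Type x} [CommRing B] [Algebra k B]

/-- The matrix of the tuple `s` in the coordinates of a point `F` of the chart `t`. -/
def HilbForm.transMatrix (F : HilbForm k t B) (s : ι → R) : Matrix ι ι B :=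
  Matrix.of fun a j => F.lam (s j) a

theorem HilbForm.pi_sum_tmul (F : HilbForm k t B) (s : ι → R) (c : ι → B) :
    F.pi (∑ j, s j ⊗ₜ[k] c j) = (F.transMatrix s).mulVec c := by
  funext a
  simp only [map_sum, HilbForm.pi_tmul, Finset.sum_apply, Pi.smul_apply, smul_eq_mul,
    Matrix.mulVec, dotProduct, HilbForm.transMatrix, Matrix.of_apply]
  exact Finset.sum_congr rfl fun j _ => mul_comm _ _

/-- **Transition between charts**: a point of the chart `t` lies in the chart `s` iff the
transition determinant is a unit. -/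
theorem HilbForm.isHilbPoint_iff_isUnit_det (F : HilbForm k t B) (s : ι → R) :
    IsHilbPoint k s B F.ideal ↔ IsUnit (F.transMatrix s).det := by
  rw [← Matrix.isUnit_iff_isUnit_det]
  constructor
  · intro h
    rw [← Matrix.mulVec_surjective_iff_isUnit]
    intro v
    obtain ⟨c, hc⟩ := h.2 (Ideal.Quotient.mk F.ideal (∑ i, t i ⊗ₜ[k] v i))
    refine ⟨c, ?_⟩
    have h1 := Ideal.Quotient.eq.mp hc
    rw [HilbForm.mem_ideal, map_sub, sub_eq_zero, F.pi_sum_tmul, F.pi_sum_s] at h1
    exact h1
  · intro hM
    constructor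
    · intro c c' hcc
      have h1 := Ideal.Quotient.eq.mp hcc
      rw [HilbForm.mem_ideal, map_sub, sub_eq_zero, F.pi_sum_tmul, F.pi_sum_tmul] at h1
      exact Matrix.mulVec_injective_of_isUnit hM h1
    · intro q
      obtain ⟨u, rfl⟩ := Ideal.Quotient.mk_surjective q
      obtain ⟨c, hc⟩ := Matrix.mulVec_surjective_iff_isUnit.mpr hM (F.pi u)
      refine ⟨c, Ideal.Quotient.eq.mpr ?_⟩
      rw [HilbForm.mem_ideal, map_sub, sub_eq_zero, F.pi_sum_tmul, hc]

theorem HilbForm.transMatrix_map {B' : Type*} [CommRing B'] [Algebra k B'] (φ : B →ₐ[k] B')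
    (F : HilbForm k t B) (s : ι → R) :
    (F.map φ).transMatrix s = (F.transMatrix s).map φ := by
  ext a j
  rfl

/-- **Openness of the chart overlap, universally**: for a point `F` of the chart `t` over `B`
and `φ : B → B'`, the base change lies in the chart `s` iff `φ` inverts the transition
determinant. -/
theorem HilbForm.isHilbPoint_map_iff {B' : Type*} [CommRing B'] [Algebra k B'] (φ : B →ₐ[k] B')
    (F : HilbForm k t B) (s : ι → R) :
    IsHilbPoint k s B' (F.ideal.map (Algebra.TensorProduct.map (AlgHom.id k R) φ)) ↔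
      IsUnit (φ (F.transMatrix s).det) := by
  rw [← HilbForm.map_ideal, HilbForm.isHilbPoint_iff_isUnit_det, HilbForm.transMatrix_map,
    show ((F.transMatrix s).map ⇑φ).det = φ (F.transMatrix s).det from (AlgHom.map_det φ _).symm]

/-- The transition determinant of a Hilbert point of the chart `t` with respect to `s`. -/
noncomputable def IsHilbPoint.transDet {I : Ideal (R ⊗[k] B)} (h : IsHilbPoint k t B I)
    (s : ι → R) : B :=
  (h.form.transMatrix s).det

/-- **Openness of the chart overlap** in terms of ideals. -/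
theorem IsHilbPoint.map_iff_isUnit_transDet {I : Ideal (R ⊗[k] B)} (h : IsHilbPoint k t B I)
    (s : ι → R) {B' : Type*} [CommRing B'] [Algebra k B'] (φ : B →ₐ[k] B') :
    IsHilbPoint k s B' (I.map (Algebra.TensorProduct.map (AlgHom.id k R) φ)) ↔
      IsUnit (φ (h.transDet s)) := by
  have := h.form.isHilbPoint_map_iff φ s
  rwa [h.form_ideal] at this

end Transition

end Fermat.Agent.S25.helper5871
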