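import Mathlib

/-!
# Weil restriction along a finite free ring map (S25, layer F engine)

`S → R` finite free, `E` an `R`-algebra.  We construct an `S`-algebra `WeilRes S R E` together
with `WeilRes.univ : E →ₐ[R] R ⊗[S] WeilRes S R E` such that for every `S`-algebra `A`
`WeilRes.homEquiv : (WeilRes S R E →ₐ[S] A) ≃ (E →ₐ[R] R ⊗[S] A)`, natural in `A`
(`WeilRes.homEquiv_comp`) and in `E` (`WeilRes.map`, `WeilRes.homEquiv_comp_map`).
Finite presentation / finite type, formal smoothness / unramifiedness / etaleness, hence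
smoothness and etaleness, pass from `E` over `R` to `WeilRes S R E` over `S` (instances).
-/

set_option autoImplicit false

namespace Fermat.Agent.S25.helper5878

open TensorProduct

universe u v w x

section Coord

variable {S : Type*} [CommRing S] {R : Type*} [CommRing R] [Algebra S R]
  {ι : Type*} [Fintype ι] (b : Module.Basis ι S R)

/-- The `j`-th coordinate `R ⊗[S] A → A` with respect to an `S`-basis `b` of `R`. -/
noncomputable def coord (A : Type*) [CommRing A] [Algebra S A] (j : ι) : R ⊗[S] A →ₗ[S] A :=
  (TensorProduct.lid S A).toLinearMap ∘ₗ LinearMap.rTensor A (b.coord j)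

variable {A : Type*} [CommRing A] [Algebra S A]

omit [Fintype ι] in
@[simp]
lemma coord_tmul (j : ι) (r : R) (a : A) : coord b A j (r ⊗ₜ[S] a) = b.repr r j • a := by
  simp [coord]

lemma sum_tmul_coord (z : R ⊗[S] A) : ∑ j, b j ⊗ₜ[S] coord b A j z = z := by
  induction z with
  | zero => simp
  | tmul r a =>
    simp only [coord_tmul]
    simp_rw [← TensorProduct.smul_tmul]
    rw [← TensorProduct.sum_tmul, b.sum_repr]
  | add x y hx hy =>
    simp only [map_add, TensorProduct.tmul_add, Finset.sum_add_distrib, hx, hy]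

lemma coord_sum_tmul [DecidableEq ι] (y : ι → A) (j : ι) :
    coord b A j (∑ i, b i ⊗ₜ[S] y i) = y j := by
  simp [coord_tmul, Finsupp.single_apply]

lemma ext_coord {z z' : R ⊗[S] A} (h : ∀ j, coord b A j z = coord b A j z') : z = z' := by
  rw [← sum_tmul_coord b z, ← sum_tmul_coord b z']
  simp_rw [h]

lemma eq_zero_of_coord {z : R ⊗[S] A} (h : ∀ j, coord b A j z = 0) : z = 0 :=
  ext_coord b (by simpa using h)

omit [Fintype ι] in
lemma coord_map {A' : Type*} [CommRing A'] [Algebra S A'] (φ : A →ₐ[S] A') (j : ι)
    (z : R ⊗[S] A) :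
    coord b A' j (Algebra.TensorProduct.map (AlgHom.id R R) φ z) = φ (coord b A j z) := by
  induction z with
  | zero => simp
  | tmul r a => simp [coord_tmul]
  | add x y hx hy => simp only [map_add, hx, hy]

end Coord

section Construction

variable (S : Type u) [CommRing S] (R : Type v) [CommRing R] [Algebra S R]
  [Module.Free S R] [Module.Finite S R]
  {E : Type w} [CommRing E] [Algebra R E]
  {σ : Type x} (p : MvPolynomial σ R →ₐ[R] E)

/-- The polynomial ring in the "coordinate variables". -/
abbrev CoordRing (σ : Type x) : Type (max x v u) :=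
  MvPolynomial (σ × Module.Free.ChooseBasisIndex S R) S

/-- The universal `R`-algebra map on the level of polynomial rings. -/
noncomputable def polyUniv (σ : Type x) : MvPolynomial σ R →ₐ[R] R ⊗[S] CoordRing S R σ :=
  MvPolynomial.aeval (fun i => ∑ j, Module.Free.chooseBasis S R j ⊗ₜ[S] MvPolynomial.X (i, j))

/-- The ideal of relations: all coordinates of the images of the elements of `ker p`. -/
noncomputable def relIdeal : Ideal (CoordRing S R σ) :=
  Ideal.span {w | ∃ f ∈ RingHom.ker p, ∃ j,
    w = coord (Module.Free.chooseBasis S R) (CoordRing S R σ) j (polyUniv S R σ f)}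

/-- The Weil restriction of `E` along `S → R`, built from a surjection `p` from a polynomial
ring onto `E`. -/
abbrev WeilResOf : Type (max x v u) := CoordRing S R σ ⧸ relIdeal S R p

variable {R}

lemma polyUniv_mem_ker {f : MvPolynomial σ R} (hf : f ∈ RingHom.ker p) :
    Algebra.TensorProduct.map (AlgHom.id R R) (Ideal.Quotient.mkₐ S (relIdeal S R p))
      (polyUniv S R σ f) = 0 := by
  refine eq_zero_of_coord (Module.Free.chooseBasis S R) fun j => ?_
  rw [coord_map]
  exact Ideal.Quotient.eq_zero_iff_mem.mpr (Ideal.subset_span ⟨f, hf, j, rfl⟩)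

/-- The universal `R`-algebra map `E → R ⊗[S] W`. -/
noncomputable def univOf (hp : Function.Surjective p) : E →ₐ[R] R ⊗[S] WeilResOf S R p :=
  AlgHom.liftOfSurjective (C := R ⊗[S] WeilResOf S R p) p hp
    ((Algebra.TensorProduct.map (AlgHom.id R R) (Ideal.Quotient.mkₐ S (relIdeal S R p))).comp
      (polyUniv S R σ))
    (fun f hf => by
      rw [RingHom.mem_ker]
      exact polyUniv_mem_ker S p hf)

lemma univOf_apply (hp : Function.Surjective p) (f : MvPolynomial σ R) :
    univOf S p hp (p f) =
      Algebra.TensorProduct.map (AlgHom.id R R) (Ideal.Quotient.mkₐ S (relIdeal S R p))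
        (polyUniv S R σ f) := by
  simp [univOf]


omit [Module.Free S R] [Module.Finite S R] in
/-- `id ⊗ -` is functorial. -/
lemma tmap_comp_apply {A A' A'' : Type*} [CommRing A] [Algebra S A] [CommRing A'] [Algebra S A']
    [CommRing A''] [Algebra S A''] (φ : A →ₐ[S] A') (φ' : A' →ₐ[S] A'') (z : R ⊗[S] A) :
    Algebra.TensorProduct.map (AlgHom.id R R) φ'
      (Algebra.TensorProduct.map (AlgHom.id R R) φ z) =
    Algebra.TensorProduct.map (AlgHom.id R R) (φ'.comp φ) z := by
  induction z with
  | zero => simp
  | tmul r a => simp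
  | add x y hx hy => simp only [map_add, hx, hy]

theorem univOf_injective (hp : Function.Surjective p) (A : Type*) [CommRing A] [Algebra S A] :
    Function.Injective (fun φ : WeilResOf S R p →ₐ[S] A =>
      (Algebra.TensorProduct.map (AlgHom.id R R) φ).comp (univOf S p hp)) := by
  classical
  intro φ φ' h
  refine Ideal.Quotient.algHom_ext _ (MvPolynomial.algHom_ext fun ⟨i, j⟩ => ?_)
  have h0 := DFunLike.congr_fun h (p (MvPolynomial.X i))
  simp only [AlgHom.comp_apply, univOf_apply, polyUniv, MvPolynomial.aeval_X, map_sum,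
    Algebra.TensorProduct.map_tmul, AlgHom.id_apply] at h0
  have h1 := congrArg (coord (Module.Free.chooseBasis S R) A j) h0
  rw [coord_sum_tmul _ (fun x => φ (Ideal.Quotient.mkₐ S _ (MvPolynomial.X (i, x)))) j,
    coord_sum_tmul _ (fun x => φ' (Ideal.Quotient.mkₐ S _ (MvPolynomial.X (i, x)))) j] at h1
  exact h1

theorem univOf_surjective (hp : Function.Surjective p) (A : Type*) [CommRing A] [Algebra S A] :
    Function.Surjective (fun φ : WeilResOf S R p →ₐ[S] A =>
      (Algebra.TensorProduct.map (AlgHom.id R R) φ).comp (univOf S p hp)) := by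
  classical
  intro ψ
  let y : σ × Module.Free.ChooseBasisIndex S R → A := fun ij =>
    coord (Module.Free.chooseBasis S R) A ij.2 (ψ (p (MvPolynomial.X ij.1)))
  let φ₀ : CoordRing S R σ →ₐ[S] A := MvPolynomial.aeval y
  have key : (Algebra.TensorProduct.map (AlgHom.id R R) φ₀).comp (polyUniv S R σ) = ψ.comp p := by
    refine MvPolynomial.algHom_ext fun i => ?_
    simp only [AlgHom.comp_apply, polyUniv, MvPolynomial.aeval_X, map_sum,
      Algebra.TensorProduct.map_tmul, AlgHom.id_apply, φ₀, y]
    exact sum_tmul_coord _ _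
  have hle : relIdeal S R p ≤ RingHom.ker φ₀.toRingHom := by
    refine Ideal.span_le.mpr ?_
    rintro w ⟨f, hf, j, rfl⟩
    change φ₀ _ = 0
    rw [← coord_map, ← AlgHom.comp_apply, key, AlgHom.comp_apply, RingHom.mem_ker.mp hf]
    simp
  refine ⟨Ideal.Quotient.liftₐ _ φ₀ hle, ?_⟩
  refine AlgHom.ext fun e => ?_
  obtain ⟨f, rfl⟩ := hp e
  simp only [AlgHom.comp_apply, univOf_apply]
  rw [tmap_comp_apply]
  have : (Ideal.Quotient.liftₐ (relIdeal S R p) φ₀ hle).comp
      (Ideal.Quotient.mkₐ S (relIdeal S R p)) = φ₀ :=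
    Ideal.Quotient.liftₐ_comp _ _ _
  rw [this, ← AlgHom.comp_apply, key]
  rfl

theorem univOf_bijective (hp : Function.Surjective p) (A : Type*) [CommRing A] [Algebra S A] :
    Function.Bijective (fun φ : WeilResOf S R p →ₐ[S] A =>
      (Algebra.TensorProduct.map (AlgHom.id R R) φ).comp (univOf S p hp)) :=
  ⟨univOf_injective S p hp A, univOf_surjective S p hp A⟩


/-- The bijection expressing the universal property of `WeilResOf S R p`. -/
noncomputable def homEquivOf (hp : Function.Surjective p) (A : Type*) [CommRing A] [Algebra S A] :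
    (WeilResOf S R p →ₐ[S] A) ≃ (E →ₐ[R] R ⊗[S] A) :=
  Equiv.ofBijective _ (univOf_bijective S p hp A)

lemma homEquivOf_apply (hp : Function.Surjective p) {A : Type*} [CommRing A] [Algebra S A]
    (φ : WeilResOf S R p →ₐ[S] A) :
    homEquivOf S p hp A φ = (Algebra.TensorProduct.map (AlgHom.id R R) φ).comp (univOf S p hp) :=
  rfl

/-- A relation ideal can be computed on generators of `ker p`. -/
lemma relIdeal_eq_span_of_span_eq {T : Set (MvPolynomial σ R)}
    (hT : Ideal.span T = RingHom.ker p) :
    relIdeal S R p = Ideal.span (Set.image2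
      (fun g j => coord (Module.Free.chooseBasis S R) (CoordRing S R σ) j (polyUniv S R σ g))
      T Set.univ) := by
  set J' : Ideal (CoordRing S R σ) := Ideal.span (Set.image2
      (fun g j => coord (Module.Free.chooseBasis S R) (CoordRing S R σ) j (polyUniv S R σ g))
      T Set.univ) with hJ'
  apply le_antisymm
  · -- the kernel of `id ⊗ mk J'` is an ideal containing `polyUniv T`
    let q : R ⊗[S] CoordRing S R σ →ₐ[R] R ⊗[S] (CoordRing S R σ ⧸ J') :=
      Algebra.TensorProduct.map (AlgHom.id R R) (Ideal.Quotient.mkₐ S J')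
    have hmem : ∀ z : R ⊗[S] CoordRing S R σ, q z = 0 →
        ∀ j, coord (Module.Free.chooseBasis S R) (CoordRing S R σ) j z ∈ J' := by
      intro z hz j
      have := congrArg (coord (Module.Free.chooseBasis S R) (CoordRing S R σ ⧸ J') j) hz
      rw [coord_map, map_zero] at this
      exact Ideal.Quotient.eq_zero_iff_mem.mp this
    have hT' : T ⊆ (RingHom.ker (q.comp (polyUniv S R σ)).toRingHom : Set (MvPolynomial σ R)) := by
      intro g hg
      change q (polyUniv S R σ g) = 0
      refine eq_zero_of_coord (Module.Free.chooseBasis S R) fun j => ?_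
      rw [coord_map]
      exact Ideal.Quotient.eq_zero_iff_mem.mpr
        (Ideal.subset_span (Set.mem_image2_of_mem hg (Set.mem_univ j)))
    have hker : RingHom.ker p ≤ RingHom.ker (q.comp (polyUniv S R σ)).toRingHom := by
      rw [← hT]
      exact Ideal.span_le.mpr hT'
    refine Ideal.span_le.mpr ?_
    rintro w ⟨f, hf, j, rfl⟩
    exact hmem _ (hker hf) j
  · refine Ideal.span_le.mpr ?_
    rintro w ⟨g, hg, j, -, rfl⟩
    refine Ideal.subset_span ⟨g, ?_, j, rfl⟩
    rw [← hT]
    exact Ideal.subset_span hg

lemma relIdeal_fg (hfg : (RingHom.ker p).FG) : (relIdeal S R p).FG := by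
  obtain ⟨T, hT⟩ := hfg
  rw [relIdeal_eq_span_of_span_eq S p hT]
  exact Submodule.fg_span (Set.Finite.image2 _ T.finite_toSet Set.finite_univ)

lemma finitePresentation_weilResOf [Finite σ] (hfg : (RingHom.ker p).FG) :
    Algebra.FinitePresentation S (WeilResOf S R p) :=
  Algebra.FinitePresentation.quotient (relIdeal_fg S p hfg)

lemma finiteType_weilResOf [Finite σ] : Algebra.FiniteType S (WeilResOf S R p) :=
  Algebra.FiniteType.of_surjective (Ideal.Quotient.mkₐ S (relIdeal S R p))
    (Ideal.Quotient.mkₐ_surjective S _)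


lemma homEquivOf_comp (hp : Function.Surjective p) {A A' : Type*} [CommRing A] [Algebra S A]
    [CommRing A'] [Algebra S A'] (φ : WeilResOf S R p →ₐ[S] A) (χ : A →ₐ[S] A') :
    homEquivOf S p hp A' (χ.comp φ) =
      (Algebra.TensorProduct.map (AlgHom.id R R) χ).comp (homEquivOf S p hp A φ) := by
  refine AlgHom.ext fun e => ?_
  simp only [homEquivOf_apply, AlgHom.comp_apply]
  rw [tmap_comp_apply]

lemma homEquivOf_id (hp : Function.Surjective p) :
    homEquivOf S p hp _ (AlgHom.id S (WeilResOf S R p)) = univOf S p hp := by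
  refine AlgHom.ext fun e => ?_
  simp [homEquivOf_apply]

/-- Two Weil restrictions built from two presentations are canonically isomorphic. -/
noncomputable def weilResOfEquiv (hp : Function.Surjective p) {σ' : Type*}
    (p' : MvPolynomial σ' R →ₐ[R] E) (hp' : Function.Surjective p') :
    WeilResOf S R p ≃ₐ[S] WeilResOf S R p' :=
  AlgEquiv.ofAlgHom
    ((homEquivOf S p hp _).symm (univOf S p' hp'))
    ((homEquivOf S p' hp' _).symm (univOf S p hp))
    (by
      apply (homEquivOf S p' hp' _).injective
      rw [homEquivOf_comp, Equiv.apply_symm_apply, ← homEquivOf_apply, Equiv.apply_symm_apply,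
        homEquivOf_id])
    (by
      apply (homEquivOf S p hp _).injective
      rw [homEquivOf_comp, Equiv.apply_symm_apply, ← homEquivOf_apply, Equiv.apply_symm_apply,
        homEquivOf_id])

end Construction

section Canonical

variable (S : Type u) [CommRing S] (R : Type v) [CommRing R] [Algebra S R]
  [Module.Free S R] [Module.Finite S R]
  (E : Type w) [CommRing E] [Algebra R E]

/-- The canonical presentation of an algebra. -/
noncomputable def canonSurj : MvPolynomial E R →ₐ[R] E := MvPolynomial.aeval id

lemma canonSurj_surjective : Function.Surjective (canonSurj R E) :=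
  fun e => ⟨MvPolynomial.X e, by simp [canonSurj]⟩

/-- The Weil restriction of the `R`-algebra `E` along a finite free ring map `S → R`:
an `S`-algebra representing the functor `A ↦ (E →ₐ[R] R ⊗[S] A)` on `S`-algebras. -/
def WeilRes : Type (max w v u) := WeilResOf S R (canonSurj R E)

noncomputable instance : CommRing (WeilRes S R E) :=
  inferInstanceAs (CommRing (WeilResOf S R (canonSurj R E)))

noncomputable instance : Algebra S (WeilRes S R E) :=
  inferInstanceAs (Algebra S (WeilResOf S R (canonSurj R E)))

namespace WeilRes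

/-- The universal `R`-algebra map `E → R ⊗[S] WeilRes S R E`. -/
noncomputable def univ : E →ₐ[R] R ⊗[S] WeilRes S R E :=
  univOf S (canonSurj R E) (canonSurj_surjective R E)

/-- The universal property of the Weil restriction: `S`-algebra maps `WeilRes S R E → A`
correspond to `R`-algebra maps `E → R ⊗[S] A`. -/
noncomputable def homEquiv (A : Type*) [CommRing A] [Algebra S A] :
    (WeilRes S R E →ₐ[S] A) ≃ (E →ₐ[R] R ⊗[S] A) :=
  homEquivOf S (canonSurj R E) (canonSurj_surjective R E) A

variable {S R E}

theorem homEquiv_apply {A : Type*} [CommRing A] [Algebra S A] (φ : WeilRes S R E →ₐ[S] A) :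
    homEquiv S R E A φ = (Algebra.TensorProduct.map (AlgHom.id R R) φ).comp (univ S R E) :=
  rfl

theorem homEquiv_id : homEquiv S R E _ (AlgHom.id S (WeilRes S R E)) = univ S R E :=
  homEquivOf_id S _ _

/-- Naturality of `homEquiv` in the test algebra. -/
theorem homEquiv_comp {A A' : Type*} [CommRing A] [Algebra S A] [CommRing A'] [Algebra S A']
    (φ : WeilRes S R E →ₐ[S] A) (χ : A →ₐ[S] A') :
    homEquiv S R E A' (χ.comp φ) =
      (Algebra.TensorProduct.map (AlgHom.id R R) χ).comp (homEquiv S R E A φ) :=
  homEquivOf_comp S _ _ φ χ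

/-- Naturality of `homEquiv.symm` in the test algebra. -/
theorem homEquiv_symm_comp {A A' : Type*} [CommRing A] [Algebra S A] [CommRing A'] [Algebra S A']
    (ψ : E →ₐ[R] R ⊗[S] A) (χ : A →ₐ[S] A') :
    (homEquiv S R E A').symm ((Algebra.TensorProduct.map (AlgHom.id R R) χ).comp ψ) =
      χ.comp ((homEquiv S R E A).symm ψ) := by
  apply (homEquiv S R E A').injective
  rw [homEquiv_comp, Equiv.apply_symm_apply, Equiv.apply_symm_apply]

variable (S R E) in
/-- The universal property, in "bijective" form. -/
theorem univ_bijective (A : Type*) [CommRing A] [Algebra S A] :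
    Function.Bijective (fun φ : WeilRes S R E →ₐ[S] A =>
      (Algebra.TensorProduct.map (AlgHom.id R R) φ).comp (univ S R E)) :=
  univOf_bijective S _ (canonSurj_surjective R E) A

variable (S) in
/-- The Weil restriction can be computed from any presentation. -/
noncomputable def equivOf {σ : Type*} (p : MvPolynomial σ R →ₐ[R] E)
    (hp : Function.Surjective p) : WeilRes S R E ≃ₐ[S] WeilResOf S R p :=
  weilResOfEquiv S (canonSurj R E) (canonSurj_surjective R E) p hp

instance finitePresentation [Algebra.FinitePresentation R E] :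
    Algebra.FinitePresentation S (WeilRes S R E) := by
  obtain ⟨n, f, hf, hfg⟩ := Algebra.FinitePresentation.out (R := R) (A := E)
  have := finitePresentation_weilResOf S f hfg
  exact Algebra.FinitePresentation.equiv (equivOf S f hf).symm

instance finiteType [Algebra.FiniteType R E] : Algebra.FiniteType S (WeilRes S R E) := by
  obtain ⟨n, f, hf⟩ := (Algebra.FiniteType.iff_quotient_mvPolynomial'' (R := R) (S := E)).mp
    inferInstance
  have := finiteType_weilResOf S f
  exact Algebra.FiniteType.equiv this (equivOf S f hf).symm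

/-- Functoriality of the Weil restriction in the algebra `E`. -/
noncomputable def map {E' : Type*} [CommRing E'] [Algebra R E'] (f : E →ₐ[R] E') :
    WeilRes S R E →ₐ[S] WeilRes S R E' :=
  (homEquiv S R E _).symm ((univ S R E').comp f)

theorem homEquiv_comp_map {E' : Type*} [CommRing E'] [Algebra R E'] (f : E →ₐ[R] E')
    {A : Type*} [CommRing A] [Algebra S A] (φ : WeilRes S R E' →ₐ[S] A) :
    homEquiv S R E A (φ.comp (map f)) = (homEquiv S R E' A φ).comp f := by
  rw [homEquiv_comp, map, Equiv.apply_symm_apply, homEquiv_apply, AlgHom.comp_assoc]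

section Formal

omit [Module.Free S R] [Module.Finite S R] in
lemma tmap_mk_surjective {B : Type*} [CommRing B] [Algebra S B] (I : Ideal B) :
    Function.Surjective
      (Algebra.TensorProduct.map (AlgHom.id R R) (Ideal.Quotient.mkₐ S I)) :=
  Algebra.TensorProduct.map_surjective (AlgHom.id R R) (Ideal.Quotient.mkₐ S I)
    Function.surjective_id (Ideal.Quotient.mkₐ_surjective S I)

omit [Module.Free S R] [Module.Finite S R] in
lemma tmap_mk_ker_isNilpotent {B : Type*} [CommRing B] [Algebra S B] (I : Ideal B)
    (hI : I ^ 2 = ⊥) :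
    IsNilpotent (RingHom.ker
      ((Algebra.TensorProduct.map (AlgHom.id R R) (Ideal.Quotient.mkₐ S I) :
        R ⊗[S] B →ₐ[R] R ⊗[S] (B ⧸ I)) : R ⊗[S] B →+* R ⊗[S] (B ⧸ I))) := by
  have h1 : RingHom.ker
      ((Algebra.TensorProduct.map (AlgHom.id R R) (Ideal.Quotient.mkₐ S I) :
        R ⊗[S] B →ₐ[R] R ⊗[S] (B ⧸ I)) : R ⊗[S] B →+* R ⊗[S] (B ⧸ I)) =
      RingHom.ker (Algebra.TensorProduct.map (AlgHom.id S R) (Ideal.Quotient.mkₐ S I)) := by
    ext z
    rw [RingHom.mem_ker, RingHom.mem_ker]
    rfl
  rw [h1, Algebra.TensorProduct.lTensor_ker _ (Ideal.Quotient.mkₐ_surjective S I)]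
  refine ⟨2, ?_⟩
  have h2 : RingHom.ker (Ideal.Quotient.mkₐ S I) = I := Ideal.Quotient.mkₐ_ker S I
  rw [h2, ← Ideal.map_pow, hI, Ideal.map_bot, Ideal.zero_eq_bot]

instance formallySmooth [Algebra.FormallySmooth R E] :
    Algebra.FormallySmooth S (WeilRes S R E) := by
  refine Algebra.FormallySmooth.of_comp_surjective fun B _ _ I hI f => ?_
  let q : R ⊗[S] B →ₐ[R] R ⊗[S] (B ⧸ I) :=
    Algebra.TensorProduct.map (AlgHom.id R R) (Ideal.Quotient.mkₐ S I)
  let l : E →ₐ[R] R ⊗[S] B :=
    Algebra.FormallySmooth.liftOfSurjective (homEquiv S R E _ f) q (tmap_mk_surjective I)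
      (tmap_mk_ker_isNilpotent I hI)
  refine ⟨(homEquiv S R E B).symm l, ?_⟩
  apply (homEquiv S R E _).injective
  rw [homEquiv_comp, Equiv.apply_symm_apply]
  exact Algebra.FormallySmooth.comp_liftOfSurjective _ _ _ _

instance formallyUnramified [Algebra.FormallyUnramified R E] :
    Algebra.FormallyUnramified S (WeilRes S R E) := by
  refine Algebra.FormallyUnramified.iff_comp_injective.mpr fun B _ _ I hI f₁ f₂ h => ?_
  apply (homEquiv S R E _).injective
  refine Algebra.FormallyUnramified.lift_unique'
    (Algebra.TensorProduct.map (AlgHom.id R R) (Ideal.Quotient.mkₐ S I))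
    (tmap_mk_ker_isNilpotent I hI) _ _ ?_
  rw [← homEquiv_comp, ← homEquiv_comp, h]

instance formallyEtale [Algebra.FormallyEtale R E] :
    Algebra.FormallyEtale S (WeilRes S R E) :=
  Algebra.FormallyEtale.of_formallyUnramified_and_formallySmooth

instance smooth [Algebra.Smooth R E] : Algebra.Smooth S (WeilRes S R E) where

instance etale [Algebra.Etale R E] : Algebra.Etale S (WeilRes S R E) where

instance unramified [Algebra.Unramified R E] : Algebra.Unramified S (WeilRes S R E) where

end Formal

end WeilRes

end Canonical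

end Fermat.Agent.S25.helper5878
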