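import Mathlib

/-!
# S25, leaf U8 (stage A): valuation-ring uniqueness, the definition-agnostic core

Everything here is plain commutative algebra over Mathlib.

* `exists_unimodular_generator`: over a valuation ring `V` (of any rank), a nonzero saturated
  submodule of rank at most one of a projective module `P` is generated by one element `w`
  admitting a linear form `ℓ : P → V` with `ℓ w = 1`.  Hence `w` stays nonzero after every
  base change `V → κ` to a nontrivial algebra (`tmul_ne_zero_of_unimodular`), in particular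
  in the fibre at EVERY prime of `V`.
* `surjective_of_forall_maximal`, `surjective_of_forall_field`: a map to a finite module is
  surjective as soon as it is surjective on all fibres.
-/

set_option autoImplicit false

universe u

open scoped TensorProduct

namespace Fermat.Agent.S25.helper6139

section ValuationRing

variable {V : Type*} [CommRing V] [IsDomain V] [ValuationRing V]

/-- In a valuation ring, a nonempty finite family contains a member dividing all the others. -/
theorem exists_dvd_all {ι : Type*} (s : Finset ι) (hs : s.Nonempty) (f : ι → V) :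
    ∃ i ∈ s, ∀ j ∈ s, f i ∣ f j := by
  classical
  induction hs using Finset.Nonempty.cons_induction with
  | singleton a => exact ⟨a, by simp, by simp⟩
  | cons a s has hs ih =>
    obtain ⟨i, his, hi⟩ := ih
    rcases ValuationRing.dvd_total (f a) (f i) with h | h
    · refine ⟨a, by simp, fun j hj => ?_⟩
      rcases Finset.mem_cons.mp hj with rfl | hj
      · exact dvd_rfl
      · exact h.trans (hi j hj)
    · refine ⟨i, by simp [his], fun j hj => ?_⟩
      rcases Finset.mem_cons.mp hj with rfl | hj
      · exact h
      · exact hi j hj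

/-- A nonzero finitely supported vector over a valuation ring is a scalar multiple of a vector
with a coordinate equal to `1`. -/
theorem exists_eq_smul_coord_one {ι : Type*} (u : ι →₀ V) (hu : u ≠ 0) :
    ∃ (a : V) (w : ι →₀ V) (i : ι), a ≠ 0 ∧ u = a • w ∧ w i = 1 := by
  classical
  have hne : u.support.Nonempty := Finsupp.support_nonempty_iff.mpr hu
  obtain ⟨i, hi, hdiv⟩ := exists_dvd_all u.support hne (fun j => u j)
  have hui : u i ≠ 0 := Finsupp.mem_support_iff.mp hi
  have hdiv' : ∀ j, u i ∣ u j := by
    intro j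
    by_cases hj : j ∈ u.support
    · exact hdiv j hj
    · rw [Finsupp.notMem_support_iff.mp hj]; exact dvd_zero _
  choose c hc using hdiv'
  have hcsupp : ∀ j, c j ≠ 0 → j ∈ u.support := by
    intro j hj
    rw [Finsupp.mem_support_iff, hc j]
    exact mul_ne_zero hui hj
  refine ⟨u i, Finsupp.onFinset u.support c hcsupp, i, hui, ?_, ?_⟩
  · ext j
    simp only [Finsupp.smul_apply, Finsupp.onFinset_apply, smul_eq_mul]
    exact hc j
  · simp only [Finsupp.onFinset_apply]
    have := hc i
    exact (mul_right_cancel₀ hui (by rw [one_mul, mul_comm]; exact this.symm) : c i = 1)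

/-- **Unimodular generator.**  Let `V` be a valuation ring, `P` a projective `V`-module and
`H ≤ P` a submodule which is saturated (`a • p ∈ H`, `a ≠ 0` imply `p ∈ H`), nonzero and of
rank at most one (any two members are linearly dependent).  Then `H = V w` for some `w`
admitting a linear form `ℓ` with `ℓ w = 1`. -/
theorem exists_unimodular_generator {P : Type*} [AddCommGroup P] [Module V P]
    [Module.Projective V P] (H : Submodule V P)
    (hsat : ∀ (a : V) (p : P), a ≠ 0 → a • p ∈ H → p ∈ H)
    (hne : H ≠ ⊥)
    (hrank : ∀ u ∈ H, ∀ v ∈ H, ∃ a b : V, (a ≠ 0 ∨ b ≠ 0) ∧ a • u = b • v) :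
    ∃ w ∈ H, H = Submodule.span V {w} ∧ ∃ ℓ : P →ₗ[V] V, ℓ w = 1 := by
  classical
  obtain ⟨s, hs⟩ := (Module.projective_def' (R := V) (P := P)).mp inferInstance
  have hs' : ∀ p, Finsupp.linearCombination V id (s p) = p := fun p => by
    simpa using LinearMap.congr_fun hs p
  have hsinj : Function.Injective s := fun p q h => by rw [← hs' p, ← hs' q, h]
  obtain ⟨u, huH, hu0⟩ := (Submodule.ne_bot_iff H).mp hne
  have hsu : s u ≠ 0 := fun h => hu0 (hsinj (by rw [h, map_zero]))
  obtain ⟨a, w', i, ha, huw, hwi⟩ := exists_eq_smul_coord_one (s u) hsu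
  set w : P := Finsupp.linearCombination V id w' with hw
  have haw : a • w = u := by
    rw [hw, ← map_smul, ← huw, hs']
  have hwH : w ∈ H := hsat a w ha (haw ▸ huH)
  have hsw : s w = w' := by
    have h1 : a • s w = a • w' := by rw [← map_smul, haw, huw]
    exact smul_right_injective _ ha h1
  let ℓ : P →ₗ[V] V := (Finsupp.lapply i).comp s
  have hℓw : ℓ w = 1 := by
    simp only [ℓ, LinearMap.comp_apply, Finsupp.lapply_apply, hsw, hwi]
  refine ⟨w, hwH, le_antisymm ?_ ?_, ℓ, hℓw⟩
  · intro v hv
    obtain ⟨a', b', hab, h⟩ := hrank w hwH v hv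
    have h2 : a' = b' * ℓ v := by
      have := congrArg ℓ h
      simpa [hℓw] using this
    have hb' : b' ≠ 0 := by
      rintro rfl
      rcases hab with h3 | h3
      · exact h3 (by rw [h2, zero_mul])
      · exact h3 rfl
    have h3 : b' • s v = b' • s (ℓ v • w) := by
      rw [← map_smul, ← map_smul, ← h, h2, mul_smul]
    have h4 : v = ℓ v • w := hsinj (smul_right_injective _ hb' h3)
    rw [h4]
    exact Submodule.smul_mem _ _ (Submodule.mem_span_singleton_self w)
  · rw [Submodule.span_singleton_le_iff_mem]
    exact hwH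

end ValuationRing

section Unimodular

/-- An element on which some linear form takes the value `1` stays nonzero after base change to
any nontrivial algebra. -/
theorem tmul_ne_zero_of_unimodular {V P : Type*} [CommRing V] [AddCommGroup P] [Module V P]
    (w : P) (ℓ : P →ₗ[V] V) (hℓ : ℓ w = 1) (κ : Type*) [CommRing κ] [Algebra V κ]
    [Nontrivial κ] : (1 : κ) ⊗ₜ[V] w ≠ 0 := by
  intro h
  have h1 := congrArg (fun z => TensorProduct.rid V κ (LinearMap.lTensor κ ℓ z)) h
  simp only [LinearMap.lTensor_tmul, hℓ, TensorProduct.rid_tmul, one_smul, map_zero] at h1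
  exact one_ne_zero h1

end Unimodular

section Fibrewise

variable {A : Type u} [CommRing A] {M N : Type*} [AddCommGroup M] [Module A M]
  [AddCommGroup N] [Module A N]

/-- Nakayama, global form: a submodule of a finite module which together with `q N` spans `N`
for every maximal ideal `q` is everything. -/
theorem eq_top_of_forall_maximal_sup_smul [Module.Finite A N] (N' : Submodule A N)
    (h : ∀ q : Ideal A, q.IsMaximal → N' ⊔ q • (⊤ : Submodule A N) = ⊤) : N' = ⊤ := by
  by_contra hN'
  -- the quotient `Q = N / N'` is finite and `q Q = Q` for every maximal ideal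
  have hfin : (⊤ : Submodule A (N ⧸ N')).FG := Module.finite_def.mp inferInstance
  have hann : Module.annihilator A (N ⧸ N') ≠ ⊤ := by
    intro htop
    have h1 : (1 : A) ∈ Module.annihilator A (N ⧸ N') := htop ▸ Submodule.mem_top
    apply hN'
    rw [eq_top_iff]
    intro n _
    have h2 := Module.mem_annihilator.mp h1 (N'.mkQ n)
    rw [one_smul] at h2
    exact (Submodule.Quotient.mk_eq_zero N').mp h2
  obtain ⟨q, hq, hle⟩ := Ideal.exists_le_maximal _ hann
  have hq' := h q hq
  have hsmul : (⊤ : Submodule A (N ⧸ N')) ≤ q • (⊤ : Submodule A (N ⧸ N')) := by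
    intro z _
    obtain ⟨n, rfl⟩ := N'.mkQ_surjective z
    have hn : n ∈ N' ⊔ q • (⊤ : Submodule A N) := by rw [hq']; exact Submodule.mem_top
    obtain ⟨n₁, hn₁, n₂, hn₂, rfl⟩ := Submodule.mem_sup.mp hn
    have h30 : N'.mkQ n₁ = 0 := by
      rw [Submodule.mkQ_apply]; exact (Submodule.Quotient.mk_eq_zero N').mpr hn₁
    have h3 : N'.mkQ (n₁ + n₂) = N'.mkQ n₂ := by
      rw [map_add, h30, zero_add]
    rw [h3]
    have h4 : (q • (⊤ : Submodule A N)).map N'.mkQ ≤ q • (⊤ : Submodule A (N ⧸ N')) := by
      rw [Submodule.map_smul'']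
      exact Submodule.smul_mono le_rfl le_top
    exact h4 (Submodule.mem_map_of_mem hn₂)
  obtain ⟨r, hr, hr0⟩ :=
    Submodule.exists_sub_one_mem_and_smul_eq_zero_of_fg_of_le_smul q _ hfin hsmul
  have hrann : r ∈ Module.annihilator A (N ⧸ N') :=
    Module.mem_annihilator.mpr fun z => hr0 z Submodule.mem_top
  have : (1 : A) ∈ q := by
    have h5 : r - (r - 1) ∈ q := q.sub_mem (hle hrann) hr
    simpa using h5
  exact hq.ne_top ((Ideal.eq_top_iff_one q).mpr this)

/-- A linear map into a finite module which is surjective modulo every maximal ideal is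
surjective. -/
theorem surjective_of_forall_maximal [Module.Finite A N] (φ : M →ₗ[A] N)
    (h : ∀ q : Ideal A, q.IsMaximal → LinearMap.range φ ⊔ q • (⊤ : Submodule A N) = ⊤) :
    Function.Surjective φ :=
  LinearMap.range_eq_top.mp (eq_top_of_forall_maximal_sup_smul _ h)

/-- **Fibrewise surjective implies surjective.**  `A` is a `B`-algebra, `φ : M → N` is
`A`-linear with `N` finite over `A`.  If `κ ⊗[B] φ` is surjective for every field `κ` over `B`
(in the universe of `A`; only the residue fields `A ⧸ q` of `A` at maximal ideals are used),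
then `φ` is surjective. -/
theorem surjective_of_forall_field {B : Type*} [CommRing B] [Algebra B A]
    [Module B M] [IsScalarTower B A M] [Module B N] [IsScalarTower B A N] [Module.Finite A N]
    (φ : M →ₗ[A] N)
    (h : ∀ (κ : Type u) [Field κ] [Algebra B κ],
      Function.Surjective (LinearMap.lTensor κ (φ.restrictScalars B))) :
    Function.Surjective φ := by
  refine surjective_of_forall_maximal φ fun q hq => ?_
  let _ : Field (A ⧸ q) := Ideal.Quotient.field q
  rw [eq_top_iff]
  intro n _
  -- the `B`-linear map `(A ⧸ q) ⊗[B] N → N ⧸ (range φ ⊔ q N)`, `ā ⊗ n ↦ a n`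
  set W : Submodule A N := LinearMap.range φ ⊔ q • (⊤ : Submodule A N) with hW
  have hqW : ∀ (a : A) (n : N), a ∈ q → W.mkQ (a • n) = 0 := by
    intro a n ha
    rw [Submodule.mkQ_apply, Submodule.Quotient.mk_eq_zero]
    exact Submodule.mem_sup_right (Submodule.smul_mem_smul ha Submodule.mem_top)
  -- bilinear map A × N → N/W factoring through A/q
  let β₀ : A →ₗ[B] N →ₗ[B] (N ⧸ W) :=
    LinearMap.mk₂ B (fun a n => W.mkQ (a • n))
      (fun a a' n => by rw [add_smul, map_add])
      (fun b a n => by rw [smul_assoc, LinearMap.map_smul_of_tower])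
      (fun a n n' => by rw [smul_add, map_add])
      (fun b a n => by rw [smul_comm, LinearMap.map_smul_of_tower])
  have hβ₀ : ∀ a ∈ (q.restrictScalars B : Submodule B A), β₀ a = 0 := by
    intro a ha
    ext n
    exact hqW a n ha
  let β : (A ⧸ q) →ₗ[B] N →ₗ[B] (N ⧸ W) :=
    (Submodule.liftQ (q.restrictScalars B) β₀ hβ₀).comp
      (LinearMap.id : (A ⧸ q) →ₗ[B] A ⧸ (q.restrictScalars B))
  let γ : (A ⧸ q) ⊗[B] N →ₗ[B] (N ⧸ W) := TensorProduct.lift β
  have hγ1 : ∀ n : N, γ ((1 : A ⧸ q) ⊗ₜ[B] n) = W.mkQ n := by
    intro n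
    have : β (Ideal.Quotient.mk q 1) n = W.mkQ ((1 : A) • n) := rfl
    simp only [γ, TensorProduct.lift.tmul]
    rw [← map_one (Ideal.Quotient.mk q), this, one_smul]
  have hγφ : ∀ (c : A ⧸ q) (m : M), γ (c ⊗ₜ[B] φ m) = 0 := by
    intro c m
    obtain ⟨a, rfl⟩ := Ideal.Quotient.mk_surjective c
    have : β (Ideal.Quotient.mk q a) (φ m) = W.mkQ (a • φ m) := rfl
    simp only [γ, TensorProduct.lift.tmul]
    rw [this, Submodule.mkQ_apply, Submodule.Quotient.mk_eq_zero, ← map_smul]
    exact Submodule.mem_sup_left (LinearMap.mem_range_self φ _)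
  have hγz : ∀ z : (A ⧸ q) ⊗[B] M,
      γ (LinearMap.lTensor (A ⧸ q) (φ.restrictScalars B) z) = 0 := by
    intro z
    induction z using TensorProduct.induction_on with
    | zero => simp
    | tmul c m => simpa using hγφ c m
    | add z₁ z₂ h₁ h₂ => rw [map_add, map_add, h₁, h₂, add_zero]
  obtain ⟨z, hz⟩ := h (A ⧸ q) ((1 : A ⧸ q) ⊗ₜ[B] n)
  have h0 : W.mkQ n = 0 := by rw [← hγ1 n, ← hz, hγz]
  exact (Submodule.Quotient.mk_eq_zero W).mp h0

/-- Fibrewise surjective maps between invertible modules are bijective. -/
theorem bijective_of_forall_field {B : Type*} [CommRing B] [Algebra B A]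
    [Module B M] [IsScalarTower B A M] [Module B N] [IsScalarTower B A N]
    [Module.Invertible A M] [Module.Invertible A N] (φ : M →ₗ[A] N)
    (h : ∀ (κ : Type u) [Field κ] [Algebra B κ],
      Function.Surjective (LinearMap.lTensor κ (φ.restrictScalars B))) :
    Function.Bijective φ :=
  Module.Invertible.bijective_of_surjective (surjective_of_forall_field φ h)

end Fibrewise

end Fermat.Agent.S25.helper6139
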