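import Fermat.Agent.S25.helper3173_ChartOfAsm
import Fermat.Agent.S25.helper6139_ValRing

/-!
# S25, chart layer (root `Stmt_ChartOf`, OPEN clause): closed fibres ⟹ global, for quot charts
(helper5903)

Generic commutative algebra on top of `helper1002_QuotChart(Api)`.  Let `I` be an ideal of
`R ⊗[k] B` whose quotient is a finite projective `B`-module (for the `B`-module structure through
the right tensor factor).

* `isChartIdeal_of_fibrewise` : if over every closed point `m` of `Spec B` SOME field valued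
  point `χ : B →ₐ[k] K` with kernel `m` makes the extension of `I` to `R ⊗[k] K` a chart ideal
  for `s`, then `I` is a chart ideal for `s`.
* `isUnit_eval_of_fibrewise` : a function `f` on the chart which is invertible at those closed
  fibres is invertible at `I`.
* `exists_chartAwayMap_of_fibrewise` : hence `I` is classified by a (unique) map
  `ψ : ChartAlg k R s [1/f] →ₐ[k] B`.
* `exists_chart_map_of_fibrewise` : the same for the chart family of `helper3173_ChartOfAsm`
  (`W D s f`, `chartIdeal s f`, `D.map₀`): if on every closed fibre `I.map (D.map₀ χ)` is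
  classified by a point of the chart `W D s f`, then `I` is classified by a map `W D s f → B`.

Auxiliary (generic): `sup_smul_top_eq_top_of_functionals` (a submodule `N` of a `B`-module `Q`
spans `Q` modulo a maximal ideal `m` as soon as every `χ`-semilinear functional `Q → K` killing
`N` vanishes, `χ : B → K` a field valued point with kernel `m`) and
`eq_bot_of_forall_maximal_le_smul` (Nakayama for all maximal ideals).
-/

set_option autoImplicit false

universe u v w t t'

namespace Fermat.Agent.S25.helper5903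

open TensorProduct

/-! ## Two generic lemmas -/

section Generic

variable {B : Type*} [CommRing B]

/-- Nakayama, global form: a finitely generated submodule `N` with `N ≤ m • N` for every maximal
ideal `m` is zero. -/
theorem eq_bot_of_forall_maximal_le_smul {Q : Type*} [AddCommGroup Q] [Module B Q]
    (N : Submodule B Q) (hfg : N.FG) (h : ∀ m : Ideal B, m.IsMaximal → N ≤ m • N) : N = ⊥ := by
  by_contra hne
  have hann : N.annihilator ≠ ⊤ := fun htop => hne (Submodule.annihilator_eq_top_iff.mp htop)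
  obtain ⟨m, hm, hle⟩ := Ideal.exists_le_maximal _ hann
  obtain ⟨r, hr, hr0⟩ :=
    Submodule.exists_sub_one_mem_and_smul_eq_zero_of_fg_of_le_smul m N hfg (h m hm)
  have hrann : r ∈ N.annihilator := Submodule.mem_annihilator.mpr fun n hn => hr0 n hn
  have h1 : (1 : B) ∈ m := by
    have h5 : r - (r - 1) ∈ m := m.sub_mem (hle hrann) hr
    simpa using h5
  exact hm.ne_top ((Ideal.eq_top_iff_one m).mpr h1)

/-- Let `χ : B → K` be a field valued point with kernel the maximal ideal `m`.  A submodule `N`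
of a `B`-module `Q` spans `Q` modulo `m` as soon as every `χ`-semilinear functional `Q → K`
which kills `N` is zero. -/
theorem sup_smul_top_eq_top_of_functionals {K : Type*} [Field K] (χ : B →+* K) (m : Ideal B)
    (hm : m.IsMaximal) (hχ : RingHom.ker χ = m) {Q : Type*} [AddCommGroup Q] [Module B Q]
    (N : Submodule B Q)
    (h : ∀ ℓ : Q →+ K, (∀ (b : B) (q : Q), ℓ (b • q) = χ b * ℓ q) → (∀ q ∈ N, ℓ q = 0) →
      ∀ q, ℓ q = 0) : N ⊔ m • (⊤ : Submodule B Q) = ⊤ := by
  classical
  by_contra hne
  set W : Submodule B Q := N ⊔ m • (⊤ : Submodule B Q) with hW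
  obtain ⟨q₀, hq₀⟩ : ∃ q₀ : Q, q₀ ∉ W := by
    by_contra hall
    push Not at hall
    exact hne (eq_top_iff.mpr fun q _ => hall q)
  have hV : Module.IsTorsionBySet B (Q ⧸ W) (m : Set B) := by
    intro x a
    obtain ⟨q, rfl⟩ := W.mkQ_surjective x
    rw [← map_smul, Submodule.mkQ_apply, Submodule.Quotient.mk_eq_zero]
    exact le_sup_right (a := N) (Submodule.smul_mem_smul a.2 Submodule.mem_top)
  let _ : Field (B ⧸ m) := Ideal.Quotient.field m
  let _ : Module (B ⧸ m) (Q ⧸ W) := hV.module
  have hv : W.mkQ q₀ ≠ 0 := by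
    rw [Submodule.mkQ_apply, Ne, Submodule.Quotient.mk_eq_zero]
    exact hq₀
  obtain ⟨f, hf⟩ := Module.Projective.exists_dual_ne_zero (B ⧸ m) hv
  let ι : B ⧸ m →+* K := Ideal.Quotient.lift m χ fun a ha => by
    rw [← RingHom.mem_ker, hχ]
    exact ha
  let ℓ : Q →+ K :=
    (ι : B ⧸ m →+ K).comp ((f : Q ⧸ W →+ B ⧸ m).comp (W.mkQ : Q →+ Q ⧸ W))
  have hℓ : ∀ q, ℓ q = ι (f (W.mkQ q)) := fun q => rfl
  have hsemi : ∀ (b : B) (q : Q), ℓ (b • q) = χ b * ℓ q := by
    intro b q
    rw [hℓ, hℓ, map_smul]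
    have h1 : b • W.mkQ q = (Ideal.Quotient.mk m b) • W.mkQ q := rfl
    rw [h1, map_smul, smul_eq_mul, map_mul]
    rfl
  have hN : ∀ q ∈ N, ℓ q = 0 := by
    intro q hq
    have h0 : W.mkQ q = 0 := by
      rw [Submodule.mkQ_apply, Submodule.Quotient.mk_eq_zero]
      exact le_sup_left (b := m • (⊤ : Submodule B Q)) hq
    rw [hℓ, h0, map_zero, map_zero]
  have h0 := h ℓ hsemi hN q₀
  rw [hℓ] at h0
  exact hf ((map_eq_zero ι).mp h0)

end Generic

/-! ## Chart ideals from their closed fibres -/

section Chart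

attribute [local instance] Algebra.TensorProduct.rightAlgebra

variable {k : Type u} [CommRing k] {R : Type v} [CommRing R] [Algebra k R]
  {n : Type w} [Fintype n] [DecidableEq n] {s : n → R}
  {B : Type t} [CommRing B] [Algebra k B]

open helper1002

theorem chartMap_single (I : Ideal (R ⊗[k] B)) (j : n) :
    chartMap s I (Pi.single j 1) = Ideal.Quotient.mk I (s j ⊗ₜ[k] (1 : B)) := by
  rw [chartMap_apply]
  congr 1
  rw [Finset.sum_eq_single j]
  · simp
  · intro i _ hij
    simp [hij]
  · intro hj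
    exact absurd (Finset.mem_univ j) hj

omit [DecidableEq n] in
/-- The key extension argument.  Let `χ : B →ₐ[k] K` be a field valued point such that the
extension of `I` to `R ⊗[k] K` is a chart ideal for `s`.  Then a `χ`-semilinear functional
on `(R ⊗[k] B) ⧸ I` which kills the classes of the `s j ⊗ 1` is zero. -/
theorem functional_eq_zero_of_isChartIdeal_map {K : Type t'} [Field K] [Algebra k K]
    (χ : B →ₐ[k] K) (I : Ideal (R ⊗[k] B))
    (hI' : IsChartIdeal s (I.map (Algebra.TensorProduct.map (AlgHom.id k R) χ)))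
    (ℓ : (R ⊗[k] B) ⧸ I →+ K)
    (hℓ : ∀ (b : B) (q : (R ⊗[k] B) ⧸ I), ℓ (b • q) = χ b * ℓ q)
    (hs : ∀ j, ℓ (Ideal.Quotient.mk I (s j ⊗ₜ[k] (1 : B))) = 0) :
    ∀ q, ℓ q = 0 := by
  set χ' : R ⊗[k] B →ₐ[k] R ⊗[k] K := Algebra.TensorProduct.map (AlgHom.id k R) χ with hχ'
  have hχ'tmul : ∀ (r : R) (b : B), χ' (r ⊗ₜ[k] b) = r ⊗ₜ[k] χ b := fun r b => by
    rw [hχ', Algebra.TensorProduct.map_tmul]
    rfl
  -- `ℓ` on pure tensors
  have hmk : ∀ (r : R) (b : B),
      ℓ (Ideal.Quotient.mk I (r ⊗ₜ[k] b)) = χ b * ℓ (Ideal.Quotient.mk I (r ⊗ₜ[k] (1 : B))) := by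
    intro r b
    rw [← hℓ]
    congr 1
    have h1 : b • Ideal.Quotient.mk I (r ⊗ₜ[k] (1 : B)) =
        Ideal.Quotient.mk I (b • (r ⊗ₜ[k] (1 : B))) := rfl
    rw [h1, rightAlgebra_smul_tmul, mul_one]
  -- the `k`-linear map `r ↦ ℓ [r ⊗ 1]`
  let lam : R →ₗ[k] K :=
    { toFun := fun r => ℓ (Ideal.Quotient.mk I (r ⊗ₜ[k] (1 : B)))
      map_add' := fun r r' => by
        rw [TensorProduct.add_tmul, map_add, map_add]
      map_smul' := fun c r => by
        have h1 : ((c • r) ⊗ₜ[k] (1 : B) : R ⊗[k] B) = r ⊗ₜ[k] (algebraMap k B c) := by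
          rw [TensorProduct.smul_tmul, Algebra.algebraMap_eq_smul_one]
        rw [h1, hmk, RingHom.id_apply, AlgHom.commutes, Algebra.smul_def] }
  have hlam : ∀ r, lam r = ℓ (Ideal.Quotient.mk I (r ⊗ₜ[k] (1 : B))) := fun r => rfl
  -- the functional over `K`
  let L : R ⊗[k] K →ₗ[k] K := TensorProduct.lift ((LinearMap.mul k K).flip.comp lam)
  have hL : ∀ (r : R) (c : K), L (r ⊗ₜ[k] c) = c * lam r := fun r c => by
    simp [L, TensorProduct.lift.tmul, mul_comm]
  -- (i) `L ∘ χ' = ℓ ∘ mk`
  have hi : ∀ x : R ⊗[k] B, L (χ' x) = ℓ (Ideal.Quotient.mk I x) := by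
    intro x
    induction x using TensorProduct.induction_on with
    | zero => simp
    | tmul r b =>
      rw [hχ'tmul, hL, hlam]
      exact (hmk r b).symm
    | add x y hx hy => rw [map_add, map_add, map_add, map_add, hx, hy]
  -- (ii) `L` is linear for the right factor
  have hii : ∀ (c : K) (z : R ⊗[k] K), L ((1 : R) ⊗ₜ[k] c * z) = c * L z := by
    intro c z
    induction z using TensorProduct.induction_on with
    | zero => simp
    | tmul r c' =>
      rw [Algebra.TensorProduct.tmul_mul_tmul, one_mul, hL, hL, mul_assoc]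
    | add x y hx hy => rw [mul_add, map_add, map_add, hx, hy, mul_add]
  -- (iii) `L` kills the extended ideal
  have hgen : ∀ i ∈ I, ∀ a : R ⊗[k] K, L (a * χ' i) = 0 := by
    intro i hi' a
    induction a using TensorProduct.induction_on with
    | zero => simp
    | tmul r c =>
      have h1 : (r ⊗ₜ[k] c : R ⊗[k] K) * χ' i =
          (1 : R) ⊗ₜ[k] c * χ' ((r ⊗ₜ[k] (1 : B)) * i) := by
        rw [map_mul, hχ'tmul, map_one, ← mul_assoc, Algebra.TensorProduct.tmul_mul_tmul,
          one_mul, mul_one]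
      rw [h1, hii, hi]
      have h2 : Ideal.Quotient.mk I ((r ⊗ₜ[k] (1 : B)) * i) = 0 :=
        Ideal.Quotient.eq_zero_iff_mem.mpr (I.mul_mem_left _ hi')
      rw [h2, map_zero, mul_zero]
    | add x y hx hy => rw [add_mul, map_add, hx, hy, add_zero]
  have hiii : ∀ z ∈ I.map χ', ∀ a : R ⊗[k] K, L (a * z) = 0 := by
    intro z hz
    have hz' : z ∈ Ideal.span ((χ' : R ⊗[k] B →+* R ⊗[k] K) '' (I : Set (R ⊗[k] B))) := hz
    refine Submodule.span_induction (p := fun z _ => ∀ a : R ⊗[k] K, L (a * z) = 0)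
      ?_ ?_ ?_ ?_ hz'
    · rintro _ ⟨i, hi', rfl⟩ a
      exact hgen i hi' a
    · intro a
      simp
    · intro x y _ _ hx hy a
      rw [mul_add, map_add, hx, hy, add_zero]
    · intro a' x _ hx a
      rw [smul_eq_mul, ← mul_assoc]
      exact hx _
  -- `L = 0` by surjectivity of the chart map over `K`
  have hLzero : ∀ z : R ⊗[k] K, L z = 0 := by
    intro z
    obtain ⟨w, hw⟩ := hI'.2 (Ideal.Quotient.mk _ z)
    have hw' : (∑ j, s j ⊗ₜ[k] w j) - z ∈ I.map χ' := Ideal.Quotient.eq.mp hw
    have h1 := hiii _ hw' 1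
    rw [one_mul, map_sub, sub_eq_zero] at h1
    rw [← h1, map_sum]
    refine Finset.sum_eq_zero fun j _ => ?_
    rw [hL, hlam, hs, mul_zero]
  intro q
  obtain ⟨x, rfl⟩ := Ideal.Quotient.mk_surjective q
  rw [← hi]
  exact hLzero _

/-- **Chart ideals from their closed fibres.**  Let `I` be an ideal of `R ⊗[k] B` whose quotient
is finite projective over `B`.  If over every maximal ideal `m` of `B` some field valued point
`χ : B →ₐ[k] K` with kernel `m` makes the extension of `I` to `R ⊗[k] K` a chart ideal for `s`,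
then `I` is a chart ideal for `s`. -/
theorem isChartIdeal_of_fibrewise (s : n → R) (I : Ideal (R ⊗[k] B))
    [Module.Finite B ((R ⊗[k] B) ⧸ I)] [Module.Projective B ((R ⊗[k] B) ⧸ I)]
    (h : ∀ m : Ideal B, m.IsMaximal → ∃ (K : Type t') (_ : Field K) (_ : Algebra k K)
      (χ : B →ₐ[k] K), RingHom.ker χ.toRingHom = m ∧
        IsChartIdeal s (I.map (Algebra.TensorProduct.map (AlgHom.id k R) χ))) :
    IsChartIdeal s I := by
  rw [isChartIdeal_iff_bijective_chartMap]
  -- surjectivity
  have hsurj : Function.Surjective (chartMap s I) := by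
    refine helper6139.surjective_of_forall_maximal (chartMap s I) fun m hm => ?_
    obtain ⟨K, _, _, χ, hχ, hI'⟩ := h m hm
    refine sup_smul_top_eq_top_of_functionals χ.toRingHom m hm hχ _ fun ℓ hℓ hN => ?_
    refine functional_eq_zero_of_isChartIdeal_map χ I hI' ℓ hℓ fun j => ?_
    rw [← chartMap_single]
    exact hN _ (LinearMap.mem_range_self _ _)
  refine ⟨?_, hsurj⟩
  -- injectivity: the kernel is a finitely generated direct summand which vanishes on fibres
  obtain ⟨σ, hσ⟩ := Module.projective_lifting_property (chartMap s I) LinearMap.id hsurj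
  let p : (n → B) →ₗ[B] (n → B) := LinearMap.id - σ.comp (chartMap s I)
  have hp_mem : ∀ v, p v ∈ LinearMap.ker (chartMap s I) := by
    intro v
    have h1 : chartMap s I (σ (chartMap s I v)) = chartMap s I v :=
      LinearMap.congr_fun hσ (chartMap s I v)
    rw [LinearMap.mem_ker]
    simp only [p, LinearMap.sub_apply, LinearMap.id_apply, LinearMap.comp_apply, map_sub, h1,
      sub_self]
  have hp_ker : ∀ v ∈ LinearMap.ker (chartMap s I), p v = v := by
    intro v hv
    simp only [p, LinearMap.sub_apply, LinearMap.id_apply, LinearMap.comp_apply,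
      LinearMap.mem_ker.mp hv, map_zero, sub_zero]
  have hfg : (LinearMap.ker (chartMap s I)).FG := by
    have hrange : LinearMap.ker (chartMap s I) = LinearMap.range p := by
      apply le_antisymm
      · intro v hv
        exact ⟨v, hp_ker v hv⟩
      · rintro _ ⟨v, rfl⟩
        exact hp_mem v
    rw [hrange]
    exact Submodule.fg_range p
  have hle : ∀ m : Ideal B, m.IsMaximal →
      LinearMap.ker (chartMap s I) ≤ m • LinearMap.ker (chartMap s I) := by
    intro m hm v hv
    obtain ⟨K, _, _, χ, hχ, hI'⟩ := h m hm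
    -- the coordinates of `v` lie in `m`
    have hcoord : ∀ j, v j ∈ m := by
      have hmem : (∑ j, s j ⊗ₜ[k] v j : R ⊗[k] B) ∈ I := by
        have := LinearMap.mem_ker.mp hv
        rw [chartMap_apply] at this
        exact Ideal.Quotient.eq_zero_iff_mem.mp this
      have h1 : (∑ j, s j ⊗ₜ[k] χ (v j) : R ⊗[k] K) ∈
          I.map (Algebra.TensorProduct.map (AlgHom.id k R) χ) := by
        have h2 := Ideal.mem_map_of_mem
          (Algebra.TensorProduct.map (AlgHom.id k R) χ : R ⊗[k] B →+* R ⊗[k] K) hmem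
        have h3 : (Algebra.TensorProduct.map (AlgHom.id k R) χ : R ⊗[k] B →+* R ⊗[k] K)
            (∑ j, s j ⊗ₜ[k] v j) = ∑ j, s j ⊗ₜ[k] χ (v j) := by
          rw [map_sum]
          refine Finset.sum_congr rfl fun j _ => ?_
          show (Algebra.TensorProduct.map (AlgHom.id k R) χ) (s j ⊗ₜ[k] v j) = _
          rw [Algebra.TensorProduct.map_tmul]
          rfl
        rwa [h3] at h2
      have h4 : (fun j => χ (v j)) = (0 : n → K) := by
        apply hI'.1
        show Ideal.Quotient.mk _ (∑ j, s j ⊗ₜ[k] χ (v j)) =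
          Ideal.Quotient.mk _ (∑ j, s j ⊗ₜ[k] (0 : n → K) j)
        rw [Ideal.Quotient.eq_zero_iff_mem.mpr h1]
        simp
      intro j
      rw [← hχ, RingHom.mem_ker]
      exact congrFun h4 j
    have hv' : v = ∑ j, v j • p (Pi.single j 1) := by
      conv_lhs => rw [← hp_ker v hv, pi_eq_sum_univ' v]
      rw [map_sum]
      refine Finset.sum_congr rfl fun j _ => ?_
      rw [map_smul]
    rw [hv']
    exact Submodule.sum_mem _ fun j _ => Submodule.smul_mem_smul (hcoord j) (hp_mem _)
  have hbot := eq_bot_of_forall_maximal_le_smul _ hfg hle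
  exact LinearMap.ker_eq_bot.mp hbot

/-- A function on the chart which is invertible at a field valued point over every closed point
is invertible. -/
theorem isUnit_eval_of_fibrewise {I : Ideal (R ⊗[k] B)} (hI : IsChartIdeal s I)
    (f : ChartAlg k R s)
    (h : ∀ m : Ideal B, m.IsMaximal → ∃ (K : Type t') (_ : Field K) (_ : Algebra k K)
      (χ : B →ₐ[k] K), RingHom.ker χ.toRingHom = m ∧ IsUnit ((hI.map χ).eval f)) :
    IsUnit (hI.eval f) := by
  by_contra hnu
  obtain ⟨m, hm, hmem⟩ := exists_max_ideal_of_mem_nonunits hnu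
  obtain ⟨K, _, _, χ, hχ, hu⟩ := h m hm
  rw [IsChartIdeal.eval_map hI χ f] at hu
  have h0 : χ (hI.eval f) = 0 := by
    have : hI.eval f ∈ RingHom.ker χ.toRingHom := hχ ▸ hmem
    exact this
  rw [h0] at hu
  exact not_isUnit_zero hu

/-- **Classifying map from closed fibres.**  Let `I` be an ideal of `R ⊗[k] B` whose quotient is
finite projective over `B`, and `f` a function on the quot chart of `s`.  If over every maximal
ideal of `B` some field valued point makes `I` a chart ideal for `s` at which `f` is invertible,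
then `I` is the pull-back of the universal ideal along a map `ChartAlg k R s [1/f] → B`. -/
theorem exists_chartAwayMap_of_fibrewise (s : n → R) (f : ChartAlg k R s) (I : Ideal (R ⊗[k] B))
    [Module.Finite B ((R ⊗[k] B) ⧸ I)] [Module.Projective B ((R ⊗[k] B) ⧸ I)]
    (h : ∀ m : Ideal B, m.IsMaximal → ∃ (K : Type t') (_ : Field K) (_ : Algebra k K)
      (χ : B →ₐ[k] K), RingHom.ker χ.toRingHom = m ∧
        ∃ hI' : IsChartIdeal s (I.map (Algebra.TensorProduct.map (AlgHom.id k R) χ)),
          IsUnit (hI'.eval f)) :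
    ∃ (hI : IsChartIdeal s I) (_ : IsUnit (hI.eval f)) (ψ : Localization.Away f →ₐ[k] B),
      Ideal.map (Algebra.TensorProduct.map (AlgHom.id k R) ψ) (univIdealAway k R s f) = I := by
  have hI : IsChartIdeal s I := isChartIdeal_of_fibrewise s I fun m hm => by
    obtain ⟨K, i1, i2, χ, hχ, hI', -⟩ := h m hm
    exact ⟨K, i1, i2, χ, hχ, hI'⟩
  have hf : IsUnit (hI.eval f) := isUnit_eval_of_fibrewise hI f fun m hm => by
    obtain ⟨K, i1, i2, χ, hχ, hI', hu⟩ := h m hm
    exact ⟨K, i1, i2, χ, hχ, hu⟩
  obtain ⟨ψ, hψ⟩ := exists_chartAwayMap f hI hf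
  exact ⟨hI, hf, ψ, hψ⟩

end Chart

/-! ## The chart family of `helper3173_ChartOfAsm` -/

section Curve

open Fermat.Agent.S25.helper1705 Fermat.Agent.S25.helper2945

variable {k : Type u} [Field k] {D : CurveDatum k}

/-- **Classifying map of a chart from closed fibres** (family of `helper3173_ChartOfAsm`).
Let `I` be an ideal of `D.A₀ B` with finite projective quotient.  If over every maximal ideal
`m` of `B` there is a field valued point `χ : B →ₐ[k] K` with kernel `m` such that `I.map χ` is
classified by a point `γ` of the chart `W D s f`, then `I` is classified by a map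
`ψ : W D s f →ₐ[k] B`. -/
theorem exists_chart_map_of_fibrewise (s : Fin (helper8573.genus D) → D.R₀)
    (f : helper1002.ChartAlg k D.R₀ s) {B : Type u} [CommRing B] [Algebra k B]
    (I : Ideal (D.A₀ B)) [Module.Finite B (D.A₀ B ⧸ I)] [Module.Projective B (D.A₀ B ⧸ I)]
    (h : ∀ m : Ideal B, m.IsMaximal → ∃ (K : Type u) (_ : Field K) (_ : Algebra k K)
      (χ : B →ₐ[k] K), RingHom.ker χ.toRingHom = m ∧
        ∃ γ : helper3173.W D s f →ₐ[k] K,
          I.map (D.map₀ χ) = (helper3173.chartIdeal s f).map (D.map₀ γ)) :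
    ∃ ψ : helper3173.W D s f →ₐ[k] B, (helper3173.chartIdeal s f).map (D.map₀ ψ) = I := by
  obtain ⟨-, -, ψ, hψ⟩ := exists_chartAwayMap_of_fibrewise s f I fun m hm => by
    obtain ⟨K, i1, i2, χ, hχ, γ, hγ⟩ := h m hm
    refine ⟨K, i1, i2, χ, hχ, ?_⟩
    have h1 : Ideal.map (Algebra.TensorProduct.map (AlgHom.id k D.R₀) χ) I =
        (helper1002.chartAwayEquiv k D.R₀ s f K γ).1 := by
      rw [helper1002.chartAwayEquiv_apply]
      exact hγ
    rw [h1]
    exact (helper1002.chartAwayEquiv k D.R₀ s f K γ).2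
  exact ⟨ψ, hψ⟩

end Curve

end Fermat.Agent.S25.helper5903
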