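import Mathlib
import Fermat.Prelude.Def_AlgebraicGeometry_RelPicardAlgEquivZeroCut
import Fermat.Agent.S25.helper6135_AEZFamily

/-!
# S25, leaf LG-FAEZ: fibrewise algebraic equivalence to zero is "degree zero" (helper5903)

Everything is stated in the frozen vocabulary, over an arbitrary base ring `R`, for an abstract
"degree theory" `DegTheory c Z`: an invariant `deg K τ L : Z` of modules `L` on the fibres
`pullback c τ`, `τ : Spec K ⟶ Spec R`, `K` a field, with three properties
* `deg_iso`      : invariance under isomorphism (of invertible modules);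
* `deg_restr`    : invariance under any morphism `Spec K' ⟶ Spec K` over `R` (field extensions);
* `deg_locConst` : for an invertible module on `pullback c β`, `β : Spec B ⟶ Spec R` with `B`
  noetherian, the degree of the fibre at `q : PrimeSpectrum B` (residue field
  `q.asIdeal.ResidueField`) is a locally constant function of `q`.

Main results (namespace `Fermat.Agent.S25.helper5903`):
* `DegTheory.deg_eq_of_familyAt` (Theorem A): a member of a family over a geometrically integral
  base, locally of finite type over a field, which has a trivial member, has the degree of the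
  trivial module;
* `DegTheory.isDegZero_of_fibrewiseAlgEquivZero` : Theorem A for the frozen predicate;
* `familyAt_of_points`, `DegTheory.HasConnectingFamilies`, `DegTheory.fibrewiseAlgEquivZero_iff`
  (Theorem B): if every degree-zero invertible module on a geometric fibre is a member of a
  family with a trivial member, then `FibrewiseAlgEquivZero M` is equivalent to degree zero
  on every geometric fibre;
* `DegTheory.degZeroCut` : the degree-zero cut as a `SubPicCondition`;
  `DegTheory.algEquivZeroCut_iff_degZeroCut`, `representsOfIff`,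
  `DegTheory.represents_algEquivZeroCut` : transfer of representability to the frozen cut;
* `fibrewiseAlgEquivZero_of_openCover` : the frozen cut is Zariski-local on the base (formal,
  no degree theory needed).
-/

set_option autoImplicit false

universe u v

open CategoryTheory CategoryTheory.Limits AlgebraicGeometry AlgebraicGeometry.RelPicard
  NeronModelInfra

namespace Fermat.Agent.S25.helper5903

noncomputable section

variable {R : Type u} [CommRing R] {C : Scheme.{u}} (c : C ⟶ Spec (CommRingCat.of R))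

/-- Restriction of a module on `C ×_R T` to `C ×_R T'` along a morphism `g : T' ⟶ T` over `R`. -/
abbrev restr {T T' : Scheme.{u}} {t : T ⟶ Spec (CommRingCat.of R)}
    {t' : T' ⟶ Spec (CommRingCat.of R)} (g : SchemeHomOver t' t) (N : (pullback c t).Modules) :
    (pullback c t').Modules :=
  (Scheme.Modules.pullback (baseChangeSnd c g)).obj N

/-- Restriction is functorial. -/
def restrCompIso {T T' T'' : Scheme.{u}} {t : T ⟶ Spec (CommRingCat.of R)}
    {t' : T' ⟶ Spec (CommRingCat.of R)} {t'' : T'' ⟶ Spec (CommRingCat.of R)}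
    (g : SchemeHomOver t' t) (g' : SchemeHomOver t'' t') (g'' : SchemeHomOver t'' t)
    (w : g'.1 ≫ g.1 = g''.1) (N : (pullback c t).Modules) :
    restr c g' (restr c g N) ≅ restr c g'' N :=
  helper6135.compIso (by
    rw [baseChangeSnd_comp]
    congr 1
    exact Subtype.ext w) N

/-- Restriction along the identity. -/
def restrIdIso {T : Scheme.{u}} {t : T ⟶ Spec (CommRingCat.of R)}
    (g : SchemeHomOver t t) (w : g.1 = 𝟙 T) (N : (pullback c t).Modules) :
    restr c g N ≅ N :=
  (Scheme.Modules.pullbackCongr (show baseChangeSnd c g = 𝟙 _ by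
    rw [← baseChangeSnd_id c t]; congr 1; exact Subtype.ext w)).app N ≪≫
    (Scheme.Modules.pullbackId _).app N

/-- A degree theory for modules on the fibres `C ×_R Spec K`, `K` a field: an invariant
of isomorphism classes of invertible modules which is insensitive to field extensions and
locally constant in families over noetherian affine bases. -/
structure DegTheory (Z : Type v) where
  /-- the invariant -/
  deg : ∀ (K : Type u) [Field K] (τ : Spec (CommRingCat.of K) ⟶ Spec (CommRingCat.of R)),
    (pullback c τ).Modules → Z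
  deg_iso : ∀ (K : Type u) [Field K] (τ : Spec (CommRingCat.of K) ⟶ Spec (CommRingCat.of R))
    (L L' : (pullback c τ).Modules), Scheme.Modules.IsInvertible L → Nonempty (L ≅ L') →
    deg K τ L = deg K τ L'
  deg_restr : ∀ (K K' : Type u) [Field K] [Field K']
    (τ : Spec (CommRingCat.of K) ⟶ Spec (CommRingCat.of R))
    (τ' : Spec (CommRingCat.of K') ⟶ Spec (CommRingCat.of R)) (g : SchemeHomOver τ' τ)
    (L : (pullback c τ).Modules), Scheme.Modules.IsInvertible L →
    deg K' τ' (restr c g L) = deg K τ L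
  deg_locConst : ∀ (B : CommRingCat.{u}) [IsNoetherianRing B]
    (β : Spec B ⟶ Spec (CommRingCat.of R)) (N : (pullback c β).Modules),
    Scheme.Modules.IsInvertible N → ∀ p : PrimeSpectrum B, ∃ U : Set (PrimeSpectrum B),
      IsOpen U ∧ p ∈ U ∧ ∀ q ∈ U,
        deg q.asIdeal.ResidueField
            (Spec.map (CommRingCat.ofHom (algebraMap B q.asIdeal.ResidueField)) ≫ β)
            (restr c ⟨Spec.map (CommRingCat.ofHom (algebraMap B q.asIdeal.ResidueField)), rfl⟩ N) =
          deg p.asIdeal.ResidueField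
            (Spec.map (CommRingCat.ofHom (algebraMap B p.asIdeal.ResidueField)) ≫ β)
            (restr c ⟨Spec.map (CommRingCat.ofHom (algebraMap B p.asIdeal.ResidueField)), rfl⟩ N)

variable {c}

/-- A `K`-point of `T'` (a section of `h`), as a morphism over `R`. -/
def secAt {K : Type u} [Field K] (τ : Spec (CommRingCat.of K) ⟶ Spec (CommRingCat.of R))
    {T' : Scheme.{u}} {h : T' ⟶ Spec (CommRingCat.of K)}
    (tt : SchemeHomOver (𝟙 (Spec (CommRingCat.of K))) h) : SchemeHomOver τ (h ≫ τ) :=
  ⟨tt.1, by rw [← Category.assoc, tt.2, Category.id_comp]⟩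

variable (c) in
/-- `L` on `C ×_R Spec K` is a member of a family of invertible modules on `C ×_R T'`
(`T'` locally of finite type and geometrically integral over `K`) with a trivial member. -/
def FamilyAt {K : Type u} [Field K] (τ : Spec (CommRingCat.of K) ⟶ Spec (CommRingCat.of R))
    (L : (pullback c τ).Modules) : Prop :=
  ∃ (T' : Scheme.{u}) (h : T' ⟶ Spec (CommRingCat.of K)) (_ : LocallyOfFiniteType h)
    (_ : GeometricallyIntegral h) (N : (pullback c (h ≫ τ)).Modules)
    (_ : Scheme.Modules.IsInvertible N)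
    (t₀ t₁ : SchemeHomOver (𝟙 (Spec (CommRingCat.of K))) h),
    Nonempty (restr c (secAt τ t₀) N ≅ SheafOfModules.unit (pullback c τ).ringCatSheaf) ∧
    Nonempty (restr c (secAt τ t₁) N ≅ L)

theorem familyForm_iff_familyAt {T : Scheme.{u}} (t : T ⟶ Spec (CommRingCat.of R))
    {K : Type u} [Field K] (s : Spec (CommRingCat.of K) ⟶ T) (L : (pullback c t).Modules) :
    helper6135.FamilyForm c t s L ↔ FamilyAt c (s ≫ t) (restr c (helper6135.pt t s) L) :=
  Iff.rfl

theorem FamilyAt.of_iso {K : Type u} [Field K]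
    {τ : Spec (CommRingCat.of K) ⟶ Spec (CommRingCat.of R)} {L L' : (pullback c τ).Modules}
    (e : L ≅ L') (hL : FamilyAt c τ L) : FamilyAt c τ L' := by
  obtain ⟨T', h, hft, hgi, N, hN, t₀, t₁, e₀, ⟨e₁⟩⟩ := hL
  exact ⟨T', h, hft, hgi, N, hN, t₀, t₁, e₀, ⟨e₁ ≪≫ e⟩⟩

/-! ### The degree is locally constant in families -/

theorem isIntegral_of_geomIntegral {K : Type u} [Field K] {T' : Scheme.{u}}
    (h : T' ⟶ Spec (CommRingCat.of K)) [GeometricallyIntegral h] : IsIntegral T' :=
  GeometricallyIntegral.isIntegral_of_subsingleton h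

theorem specMap_residueField_apply (B : CommRingCat.{u}) (q : PrimeSpectrum B)
    (x : Spec (CommRingCat.of q.asIdeal.ResidueField)) :
    (Spec.map (CommRingCat.ofHom (algebraMap B q.asIdeal.ResidueField))) x = q := by
  have h := PrimeSpectrum.residueField_comap q
  have hx : PrimeSpectrum.comap (algebraMap B q.asIdeal.ResidueField) x ∈
      Set.range (PrimeSpectrum.comap (algebraMap B q.asIdeal.ResidueField)) := Set.mem_range_self x
  rw [h] at hx
  exact hx

variable {Z : Type v} (DT : DegTheory c Z)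

/-- The value of the degree at a point `v` of the base of a family. -/
def DegTheory.degAt {T' : Scheme.{u}} (t' : T' ⟶ Spec (CommRingCat.of R))
    (N : (pullback c t').Modules) (v : T') : Z :=
  DT.deg (T'.residueField v) (T'.fromSpecResidueField v ≫ t')
    (restr c ⟨T'.fromSpecResidueField v, rfl⟩ N)

/-- Lemma A: the degree of the fibre at any field-valued point only depends on its image. -/
theorem DegTheory.deg_restr_eq_degAt {T' : Scheme.{u}} (t' : T' ⟶ Spec (CommRingCat.of R))
    (N : (pullback c t').Modules) (hN : Scheme.Modules.IsInvertible N)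
    {F : Type u} [Field F] (τ : Spec (CommRingCat.of F) ⟶ Spec (CommRingCat.of R))
    (a : SchemeHomOver τ t') :
    DT.deg F τ (restr c a N) = DT.degAt t' N (a.1 (IsLocalRing.closedPoint F)) := by
  have hfac := Scheme.descResidueField_stalkClosedPointTo_fromSpecResidueField F T' a.1
  set v := a.1 (IsLocalRing.closedPoint F) with hv
  let g : SchemeHomOver τ (T'.fromSpecResidueField v ≫ t') :=
    ⟨Spec.map (Scheme.descResidueField (Scheme.stalkClosedPointTo a.1)), by
      rw [← Category.assoc, hfac, a.2]⟩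
  have h1 := DT.deg_restr (T'.residueField v) F (T'.fromSpecResidueField v ≫ t') τ g
    (restr c ⟨T'.fromSpecResidueField v, rfl⟩ N) (hN.pullback _)
  rw [DegTheory.degAt, ← h1]
  exact DT.deg_iso F τ _ _ (hN.pullback _)
    ⟨(restrCompIso c ⟨T'.fromSpecResidueField v, rfl⟩ g a hfac N).symm⟩

theorem isNoetherianRing_of_lft {K : Type u} [Field K] (B : CommRingCat.{u})
    (f : Spec B ⟶ Spec (CommRingCat.of K)) [LocallyOfFiniteType f] : IsNoetherianRing B := by
  have h1 : LocallyOfFiniteType (Spec.map (Spec.preimage f)) := by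
    rw [Spec.map_preimage]; infer_instance
  rw [HasRingHomProperty.Spec_iff (P := @LocallyOfFiniteType)] at h1
  algebraize [(Spec.preimage f).hom]
  exact Algebra.FiniteType.isNoetherianRing K B

/-- Lemma B: in a family over a base locally of finite type over a field, the degree of the
fibres is a locally constant function on the base. -/
theorem DegTheory.isLocallyConstant_degAt {K : Type u} [Field K] {T' : Scheme.{u}}
    (h : T' ⟶ Spec (CommRingCat.of K)) [LocallyOfFiniteType h]
    (τ : Spec (CommRingCat.of K) ⟶ Spec (CommRingCat.of R))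
    (N : (pullback c (h ≫ τ)).Modules) (hN : Scheme.Modules.IsInvertible N) :
    IsLocallyConstant (DT.degAt (h ≫ τ) N) := by
  rw [IsLocallyConstant.iff_exists_open]
  intro v₀
  obtain ⟨U, hU, hv₀U, -⟩ := exists_isAffineOpen_mem_and_subset (x := v₀) (U := ⊤) trivial
  let ι : Spec Γ(T', U) ⟶ T' := hU.fromSpec
  have : IsNoetherianRing Γ(T', U) := isNoetherianRing_of_lft Γ(T', U) (ι ≫ h)
  obtain ⟨q₀, hq₀⟩ : ∃ q₀ : Spec Γ(T', U), ι q₀ = v₀ := by
    have : v₀ ∈ Set.range ι := by rw [hU.range_fromSpec]; exact hv₀U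
    exact this
  obtain ⟨V, hVo, hq₀V, hV⟩ := DT.deg_locConst Γ(T', U) (ι ≫ h ≫ τ)
    (restr c ⟨ι, rfl⟩ N) (hN.pullback _) q₀
  have key : ∀ q : PrimeSpectrum Γ(T', U),
      DT.deg q.asIdeal.ResidueField
        (Spec.map (CommRingCat.ofHom (algebraMap Γ(T', U) q.asIdeal.ResidueField)) ≫ ι ≫ h ≫ τ)
        (restr c ⟨Spec.map (CommRingCat.ofHom (algebraMap Γ(T', U) q.asIdeal.ResidueField)), rfl⟩
          (restr c ⟨ι, rfl⟩ N)) = DT.degAt (h ≫ τ) N (ι q) := by
    intro q
    let a : SchemeHomOver
        (Spec.map (CommRingCat.ofHom (algebraMap Γ(T', U) q.asIdeal.ResidueField)) ≫ ι ≫ h ≫ τ)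
        (h ≫ τ) :=
      ⟨Spec.map (CommRingCat.ofHom (algebraMap Γ(T', U) q.asIdeal.ResidueField)) ≫ ι, by
        simp only [Category.assoc]⟩
    have h1 := DT.deg_restr_eq_degAt (h ≫ τ) N hN _ a
    have h2 : a.1 (IsLocalRing.closedPoint q.asIdeal.ResidueField) = ι q :=
      congrArg ι (specMap_residueField_apply _ q _)
    rw [h2] at h1
    rw [← h1]
    exact DT.deg_iso _ _ _ _ ((hN.pullback _).pullback _) ⟨restrCompIso c _ _ a rfl N⟩
  refine ⟨ι '' V, ι.isOpenEmbedding.isOpenMap V hVo, ⟨q₀, hq₀V, hq₀⟩, ?_⟩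
  rintro _ ⟨q, hqV, rfl⟩
  rw [← hq₀, ← key q, ← key q₀]
  exact hV q hqV


/-- **Theorem A.** A member of a connected family with a trivial member has the degree of the
trivial module. -/
theorem DegTheory.deg_eq_of_familyAt {K : Type u} [Field K]
    (τ : Spec (CommRingCat.of K) ⟶ Spec (CommRingCat.of R)) (L : (pullback c τ).Modules)
    (hL : FamilyAt c τ L) :
    DT.deg K τ L = DT.deg K τ (SheafOfModules.unit (pullback c τ).ringCatSheaf) := by
  obtain ⟨T', h, hft, hgi, N, hN, t₀, t₁, ⟨e₀⟩, ⟨e₁⟩⟩ := hL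
  have : IsIntegral T' := isIntegral_of_geomIntegral h
  have hlc := DT.isLocallyConstant_degAt h τ N hN
  have h1 := DT.deg_restr_eq_degAt (h ≫ τ) N hN τ (secAt τ t₁)
  have h0 := DT.deg_restr_eq_degAt (h ≫ τ) N hN τ (secAt τ t₀)
  calc DT.deg K τ L = DT.deg K τ (restr c (secAt τ t₁) N) :=
        (DT.deg_iso K τ _ _ (hN.pullback _) ⟨e₁⟩).symm
    _ = DT.degAt (h ≫ τ) N ((secAt τ t₁).1 (IsLocalRing.closedPoint K)) := h1
    _ = DT.degAt (h ≫ τ) N ((secAt τ t₀).1 (IsLocalRing.closedPoint K)) :=
        hlc.apply_eq_of_preconnectedSpace _ _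
    _ = DT.deg K τ (restr c (secAt τ t₀) N) := h0.symm
    _ = DT.deg K τ (SheafOfModules.unit (pullback c τ).ringCatSheaf) :=
        DT.deg_iso K τ _ _ (hN.pullback _) ⟨e₀⟩

/-! ### Degree zero -/

/-- `L` has the degree of the trivial module. -/
def DegTheory.IsDegZero {K : Type u} [Field K]
    (τ : Spec (CommRingCat.of K) ⟶ Spec (CommRingCat.of R)) (L : (pullback c τ).Modules) : Prop :=
  DT.deg K τ L = DT.deg K τ (SheafOfModules.unit (pullback c τ).ringCatSheaf)

theorem DegTheory.isDegZero_unit {K : Type u} [Field K]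
    (τ : Spec (CommRingCat.of K) ⟶ Spec (CommRingCat.of R)) :
    DT.IsDegZero τ (SheafOfModules.unit (pullback c τ).ringCatSheaf) := rfl

theorem DegTheory.IsDegZero.of_iso {K : Type u} [Field K]
    {τ : Spec (CommRingCat.of K) ⟶ Spec (CommRingCat.of R)} {L L' : (pullback c τ).Modules}
    (hL : DT.IsDegZero τ L) (hinv : Scheme.Modules.IsInvertible L) (e : L ≅ L') :
    DT.IsDegZero τ L' :=
  (DT.deg_iso K τ L L' hinv ⟨e⟩).symm.trans hL

theorem DegTheory.isDegZero_restr_iff {K K' : Type u} [Field K] [Field K']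
    {τ : Spec (CommRingCat.of K) ⟶ Spec (CommRingCat.of R)}
    {τ' : Spec (CommRingCat.of K') ⟶ Spec (CommRingCat.of R)} (g : SchemeHomOver τ' τ)
    (L : (pullback c τ).Modules) (hinv : Scheme.Modules.IsInvertible L) :
    DT.IsDegZero τ' (restr c g L) ↔ DT.IsDegZero τ L := by
  have h1 := DT.deg_restr K K' τ τ' g L hinv
  have h2 := DT.deg_restr K K' τ τ' g _ (Scheme.Modules.isInvertible_unit (pullback c τ))
  have h3 := DT.deg_iso K' τ' _ _
    ((Scheme.Modules.isInvertible_unit (pullback c τ)).pullback (baseChangeSnd c g))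
    ⟨Scheme.Modules.pullbackUnitIso (baseChangeSnd c g)⟩
  unfold DegTheory.IsDegZero
  rw [h1, ← h3, h2]

/-- **Theorem A**, frozen vocabulary: fibrewise algebraic equivalence to zero implies degree
zero on every geometric fibre. -/
theorem DegTheory.isDegZero_of_fibrewiseAlgEquivZero
    {ε : SchemeHomOver (𝟙 (Spec (CommRingCat.of R))) c} {T : Scheme.{u}}
    {t : T ⟶ Spec (CommRingCat.of R)} (M : RigidifiedLineBundle c ε t)
    (hM : FibrewiseAlgEquivZero M) (K : Type u) [Field K] [IsAlgClosed K]
    (s : Spec (CommRingCat.of K) ⟶ T) :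
    DT.IsDegZero (s ≫ t) (restr c (helper6135.pt t s) M.L) :=
  DT.deg_eq_of_familyAt _ _
    ((familyForm_iff_familyAt t s M.L).1 ((helper6135.fibrewiseAlgEquivZero_iff M).1 hM K s))

/-! ### The converse, from connecting families -/

/-- Two points of a geometrically integral base of a family, one of them with trivial fibre. -/
theorem familyAt_of_points {W : Scheme.{u}} (w : W ⟶ Spec (CommRingCat.of R))
    [LocallyOfFiniteType w] [GeometricallyIntegral w] (N₀ : (pullback c w).Modules)
    (hN₀ : Scheme.Modules.IsInvertible N₀) {K : Type u} [Field K]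
    (τ : Spec (CommRingCat.of K) ⟶ Spec (CommRingCat.of R)) (t₀ t₁ : SchemeHomOver τ w)
    (e₀ : restr c t₀ N₀ ≅ SheafOfModules.unit (pullback c τ).ringCatSheaf) :
    FamilyAt c τ (restr c t₁ N₀) := by
  let p : SchemeHomOver (pullback.snd w τ ≫ τ) w := ⟨pullback.fst w τ, pullback.condition⟩
  let s₀ : SchemeHomOver (𝟙 (Spec (CommRingCat.of K))) (pullback.snd w τ) :=
    ⟨pullback.lift t₀.1 (𝟙 _) (by rw [t₀.2, Category.id_comp]), pullback.lift_snd _ _ _⟩
  let s₁ : SchemeHomOver (𝟙 (Spec (CommRingCat.of K))) (pullback.snd w τ) :=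
    ⟨pullback.lift t₁.1 (𝟙 _) (by rw [t₁.2, Category.id_comp]), pullback.lift_snd _ _ _⟩
  refine ⟨pullback w τ, pullback.snd w τ, inferInstance, inferInstance, restr c p N₀,
    hN₀.pullback _, s₀, s₁, ⟨?_⟩, ⟨?_⟩⟩
  · exact restrCompIso c p (secAt τ s₀) t₀ (pullback.lift_fst _ _ _) N₀ ≪≫ e₀
  · exact restrCompIso c p (secAt τ s₁) t₁ (pullback.lift_fst _ _ _) N₀

/-- Every degree-zero invertible module on a geometric fibre is a member of a family over a
geometrically integral base, locally of finite type over `R`, which has a trivial member over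
the same field. -/
def DegTheory.HasConnectingFamilies : Prop :=
  ∀ (K : Type u) [Field K] [IsAlgClosed K]
    (τ : Spec (CommRingCat.of K) ⟶ Spec (CommRingCat.of R)) (L : (pullback c τ).Modules),
    Scheme.Modules.IsInvertible L → DT.IsDegZero τ L →
    ∃ (W : Scheme.{u}) (w : W ⟶ Spec (CommRingCat.of R)) (_ : LocallyOfFiniteType w)
      (_ : GeometricallyIntegral w) (N₀ : (pullback c w).Modules)
      (_ : Scheme.Modules.IsInvertible N₀) (t₀ t₁ : SchemeHomOver τ w),
      Nonempty (restr c t₀ N₀ ≅ SheafOfModules.unit (pullback c τ).ringCatSheaf) ∧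
      Nonempty (restr c t₁ N₀ ≅ L)

/-- **Theorem B.** Fibrewise algebraic equivalence to zero is degree zero on every geometric
fibre. -/
theorem DegTheory.fibrewiseAlgEquivZero_iff (hCF : DT.HasConnectingFamilies)
    {ε : SchemeHomOver (𝟙 (Spec (CommRingCat.of R))) c} {T : Scheme.{u}}
    {t : T ⟶ Spec (CommRingCat.of R)} (M : RigidifiedLineBundle c ε t) :
    FibrewiseAlgEquivZero M ↔
      ∀ (K : Type u) [Field K] [IsAlgClosed K] (s : Spec (CommRingCat.of K) ⟶ T),
        DT.IsDegZero (s ≫ t) (restr c (helper6135.pt t s) M.L) := by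
  refine ⟨fun hM K _ _ s => DT.isDegZero_of_fibrewiseAlgEquivZero M hM K s, fun hdeg => ?_⟩
  rw [helper6135.fibrewiseAlgEquivZero_iff]
  intro K _ _ s
  rw [familyForm_iff_familyAt]
  obtain ⟨W, w, hft, hgi, N₀, hN₀, t₀, t₁, ⟨e₀⟩, ⟨e₁⟩⟩ :=
    hCF K (s ≫ t) (restr c (helper6135.pt t s) M.L) (M.isInvertible.pullback _) (hdeg K s)
  exact (familyAt_of_points w N₀ hN₀ (s ≫ t) t₀ t₁ e₀).of_iso e₁

/-! ### The degree-zero cut -/

/-- The cut "degree zero on every geometric fibre". -/
def DegTheory.degZeroCut (ε : SchemeHomOver (𝟙 (Spec (CommRingCat.of R))) c) :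
    SubPicCondition c ε where
  P := fun {T} t M => ∀ (K : Type u) [Field K] [IsAlgClosed K] (s : Spec (CommRingCat.of K) ⟶ T),
    DT.IsDegZero (s ≫ t) (restr c (helper6135.pt t s) M.L)
  unit_mem := fun t K _ _ s =>
    (DT.isDegZero_unit (s ≫ t)).of_iso DT (Scheme.Modules.isInvertible_unit _)
      (Scheme.Modules.pullbackUnitIso _).symm
  congr := fun t M M' h hM K _ _ s =>
    (hM K s).of_iso DT (M.isInvertible.pullback _) ((Scheme.Modules.pullback _).mapIso h.some)
  pullback_mem := fun {T T'} t t' ψ M hM K _ _ s' => by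
    let g : SchemeHomOver (s' ≫ t') ((s' ≫ ψ.1) ≫ t) :=
      ⟨𝟙 _, by rw [Category.id_comp, Category.assoc, ψ.2]⟩
    have h1 := (DT.isDegZero_restr_iff g (restr c (helper6135.pt t (s' ≫ ψ.1)) M.L)
      (M.isInvertible.pullback _)).2 (hM K (s' ≫ ψ.1))
    refine h1.of_iso DT ((M.isInvertible.pullback _).pullback _) ?_
    let a : SchemeHomOver (s' ≫ t') t := ⟨s' ≫ ψ.1, by rw [Category.assoc, ψ.2]⟩
    exact restrCompIso c (helper6135.pt t (s' ≫ ψ.1)) g a (Category.id_comp _) M.L ≪≫
      (restrCompIso c ψ (helper6135.pt t' s') a rfl M.L).symm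

/-- Given connecting families, the frozen cut `algEquivZeroCut` and the degree-zero cut have
the same members. -/
theorem DegTheory.algEquivZeroCut_iff_degZeroCut (hCF : DT.HasConnectingFamilies)
    {ε : SchemeHomOver (𝟙 (Spec (CommRingCat.of R))) c} {T : Scheme.{u}}
    (t : T ⟶ Spec (CommRingCat.of R)) (M : RigidifiedLineBundle c ε t) :
    (algEquivZeroCut c ε).P t M ↔ (DT.degZeroCut ε).P t M :=
  DT.fibrewiseAlgEquivZero_iff hCF M

/-- Representability only depends on the members of the cut. -/
def representsOfIff {ε : SchemeHomOver (𝟙 (Spec (CommRingCat.of R))) c}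
    (P P' : SubPicCondition c ε)
    (hPP' : ∀ {T : Scheme.{u}} (t : T ⟶ Spec (CommRingCat.of R)) (M : RigidifiedLineBundle c ε t),
      P.P t M ↔ P'.P t M)
    {D : GoodReductionJacobian.RelativePic0Designation R c} (h : RepresentsRelSubPic c ε P' D) :
    RepresentsRelSubPic c ε P D where
  poincare := h.poincare
  poincare_mem := (hPP' _ _).2 h.poincare_mem
  univ := fun t M hM => h.univ t M ((hPP' t M).1 hM)
  zero := h.zero

/-- A designation representing the degree-zero cut represents the frozen cut. -/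
theorem DegTheory.represents_algEquivZeroCut (hCF : DT.HasConnectingFamilies)
    {ε : SchemeHomOver (𝟙 (Spec (CommRingCat.of R))) c}
    {D : GoodReductionJacobian.RelativePic0Designation R c}
    (h : Nonempty (RepresentsRelSubPic c ε (DT.degZeroCut ε) D)) :
    Nonempty (RepresentsRelSubPic c ε (algEquivZeroCut c ε) D) :=
  h.map (representsOfIff _ _ fun t M => DT.algEquivZeroCut_iff_degZeroCut hCF t M)

/-! ### The frozen cut is Zariski-local on the base (formal) -/

theorem FamilyAt.of_eq {K : Type u} [Field K]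
    {τ τ' : Spec (CommRingCat.of K) ⟶ Spec (CommRingCat.of R)} (e : τ' = τ)
    {L : (pullback c τ).Modules} {L' : (pullback c τ').Modules}
    (i : restr c (⟨𝟙 _, by rw [Category.id_comp, e]⟩ : SchemeHomOver τ' τ) L ≅ L')
    (hL : FamilyAt c τ L) : FamilyAt c τ' L' := by
  subst e
  exact hL.of_iso ((restrIdIso c _ rfl L).symm ≪≫ i)

/-- A field-valued point factors through a member of any open cover. -/
theorem exists_lift_openCover {K : Type u} [Field K] {T : Scheme.{u}}
    (s : Spec (CommRingCat.of K) ⟶ T) (𝒰 : Scheme.OpenCover.{u} T) :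
    ∃ (i : 𝒰.I₀) (g : Spec (CommRingCat.of K) ⟶ 𝒰.X i), g ≫ 𝒰.f i = s := by
  obtain ⟨i, y, hy⟩ := 𝒰.exists_eq (s (IsLocalRing.closedPoint K))
  have hrange : Set.range s ⊆ Set.range (𝒰.f i) := by
    rintro _ ⟨x, rfl⟩
    have hx : x = IsLocalRing.closedPoint K := Subsingleton.elim _ _
    exact ⟨y, by rw [hy, hx]⟩
  exact ⟨i, IsOpenImmersion.lift (𝒰.f i) s hrange, IsOpenImmersion.lift_fac _ _ _⟩

/-- **CUT-LOCAL.** Fibrewise algebraic equivalence to zero is Zariski-local on the base. -/
theorem fibrewiseAlgEquivZero_of_openCover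
    {ε : SchemeHomOver (𝟙 (Spec (CommRingCat.of R))) c} {T : Scheme.{u}}
    (t : T ⟶ Spec (CommRingCat.of R)) (M : RigidifiedLineBundle c ε t)
    (𝒰 : Scheme.OpenCover.{u} T)
    (h : ∀ i, FibrewiseAlgEquivZero
      (M.pullbackAlong (⟨𝒰.f i, rfl⟩ : SchemeHomOver (𝒰.f i ≫ t) t))) :
    FibrewiseAlgEquivZero M := by
  rw [helper6135.fibrewiseAlgEquivZero_iff]
  intro K _ _ s
  obtain ⟨i, g, rfl⟩ := exists_lift_openCover s 𝒰
  have hi := (helper6135.fibrewiseAlgEquivZero_iff _).1 (h i) K g
  rw [familyForm_iff_familyAt] at hi ⊢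
  refine FamilyAt.of_eq (Category.assoc _ _ _) ?_ hi
  let a : SchemeHomOver ((g ≫ 𝒰.f i) ≫ t) t := helper6135.pt t (g ≫ 𝒰.f i)
  exact restrCompIso c (helper6135.pt (𝒰.f i ≫ t) g) _
      (⟨g, by rw [Category.assoc]⟩ : SchemeHomOver ((g ≫ 𝒰.f i) ≫ t) (𝒰.f i ≫ t))
      (Category.id_comp _) _ ≪≫
    restrCompIso c (⟨𝒰.f i, rfl⟩ : SchemeHomOver (𝒰.f i ≫ t) t) _ a rfl M.L

end

end Fermat.Agent.S25.helper5903
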