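import Fermat.Agent.S25.helper5903_FAEZ
import Fermat.Agent.S25.helper985_LGSpec

/-!
# S25, leaf LG-FAEZ, part 2: from a system of models to the degree theory (helper5903)

`FibreModels c` is an abstract system of "models" of invertible modules on `C ×_k Spec B`
(`B` a `k`-algebra; base maps `helper985.specStr`, `helper985.specHomOver`): objects with an
equivalence relation, base change, a trivial object, a relation `Models B L G` compatible with
isomorphisms and base change, and an Euler characteristic `chi K G : ℤ` over fields which is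
invariant under equivalence and "locally constant in families" in the following form: for a
noetherian `B` and `G` over `B` there is a locally constant `f : PrimeSpectrum B → ℤ` with
`chi K (bc φ G) = f (ker φ)` for every field-valued point `φ : B →ₐ[k] K`.
(It is meant to be instantiated by two-chart data and the dictionary.)

Main results (namespace `Fermat.Agent.S25.helper5903.FibreModels`):
* `chi_bc` : invariance of `chi` under field extensions (derived, for models of sheaves);
* `degTheory : DegTheory c ℤ` with `deg_eq_chi`, `deg_eq_chi'` (the degree of a module on a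
  fibre is the Euler characteristic of any model, for any algebra structure inducing the
  structure morphism);
* `chi_eq_of_fibrewiseAlgEquivZero` (⟹) : if `M` over `specStr k B` is fibrewise algebraically
  equivalent to zero and `G` is a model of `M.L`, then `chi K (bc φ G) = chi K (one K)` for
  EVERY field `K` over `k` and every `φ : B →ₐ[k] K`;
* `fibrewiseAlgEquivZero_of_bounded` (⟸) : if the models of `M` at the geometric points and
  the trivial models are base changes of one model `G₀` over a `k`-algebra `B₀` with `Spec B₀`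
  locally of finite type and geometrically integral, then `M` is fibrewise algebraically
  equivalent to zero.
-/

set_option autoImplicit false
universe u w
open CategoryTheory CategoryTheory.Limits AlgebraicGeometry AlgebraicGeometry.RelPicard
  NeronModelInfra
namespace Fermat.Agent.S25.helper5903
open Fermat.Agent.S25.helper985 (specStr specHomOver)
noncomputable section

variable {k : Type u} [CommRing k]

/-- The `k`-algebra structure on `K` induced by a morphism `Spec K ⟶ Spec k`. -/
@[reducible] def algOf {K : Type u} [CommRing K]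
    (τ : Spec (CommRingCat.of K) ⟶ Spec (CommRingCat.of k)) : Algebra k K :=
  (Spec.preimage τ).hom.toAlgebra

theorem specStr_algOf {K : Type u} [CommRing K]
    (τ : Spec (CommRingCat.of K) ⟶ Spec (CommRingCat.of k)) :
    @specStr k _ K _ (algOf τ) = τ :=
  Spec.map_preimage τ

/-- Two algebra structures with the same structure morphism are equal. -/
theorem algebra_eq_of_specStr_eq {K : Type u} [CommRing K] (i₁ i₂ : Algebra k K)
    (h : @specStr k _ K _ i₁ = @specStr k _ K _ i₂) : i₁ = i₂ := by
  have h1 : @algebraMap k K _ _ i₁ = @algebraMap k K _ _ i₂ := by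
    have h2 := Spec.map_injective h
    exact congrArg CommRingCat.Hom.hom h2
  exact Algebra.algebra_ext _ _ (fun r => congrFun (congrArg DFunLike.coe h1) r)

/-- A morphism `Spec K' ⟶ Spec K` over `k`, as a `k`-algebra map. -/
def algHomOfHomOver {K K' : Type u} [CommRing K] [CommRing K'] [Algebra k K] [Algebra k K']
    (g : SchemeHomOver (specStr k K') (specStr k K)) : K →ₐ[k] K' :=
  { (Spec.preimage g.1).hom with
    commutes' := fun r => by
      have h1 : Spec.map (Spec.preimage g.1) ≫ specStr k K = specStr k K' := by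
        rw [Spec.map_preimage]; exact g.2
      dsimp only [specStr] at h1
      rw [← Spec.map_comp] at h1
      have h2 := Spec.map_injective h1
      exact congrFun (congrArg (fun f => (f.hom : k → K')) h2) r }

theorem specHomOver_algHomOfHomOver {K K' : Type u} [CommRing K] [CommRing K'] [Algebra k K]
    [Algebra k K'] (g : SchemeHomOver (specStr k K') (specStr k K)) :
    specHomOver (algHomOfHomOver g) = g :=
  Subtype.ext (Spec.map_preimage g.1)

theorem isInvertible_of_iso {X : Scheme.{u}} {L L' : X.Modules} (e : L ≅ L')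
    (hL : Scheme.Modules.IsInvertible L) : Scheme.Modules.IsInvertible L' :=
  ⟨fun x => by
    obtain ⟨U, hx, ⟨t⟩⟩ := hL.1 x
    exact ⟨U, hx, ⟨(Scheme.Modules.pullback U.ι).mapIso e.symm ≪≫ t⟩⟩⟩

variable {C : Scheme.{u}} (c : C ⟶ Spec (CommRingCat.of k))

/-- An abstract system of "models" of invertible modules on `C ×_k Spec B`, with an Euler
characteristic over fields. (To be instantiated by two-chart data and the dictionary.) -/
structure FibreModels where
  /-- the models over a `k`-algebra -/
  Obj : ∀ (B : Type u) [CommRing B] [Algebra k B], Type w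
  /-- equivalence of models -/
  Eqv : ∀ {B : Type u} [CommRing B] [Algebra k B], Obj B → Obj B → Prop
  /-- base change of models -/
  bc : ∀ {B B' : Type u} [CommRing B] [Algebra k B] [CommRing B'] [Algebra k B'],
    (B →ₐ[k] B') → Obj B → Obj B'
  /-- the trivial model -/
  one : ∀ (B : Type u) [CommRing B] [Algebra k B], Obj B
  /-- the relation "is a model of" -/
  Models : ∀ (B : Type u) [CommRing B] [Algebra k B],
    (pullback c (specStr k B)).Modules → Obj B → Prop
  exists_model : ∀ (B : Type u) [CommRing B] [Algebra k B]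
    (L : (pullback c (specStr k B)).Modules), Scheme.Modules.IsInvertible L → ∃ G, Models B L G
  eqv_of_iso : ∀ (B : Type u) [CommRing B] [Algebra k B]
    (L L' : (pullback c (specStr k B)).Modules) (G G' : Obj B),
    Models B L G → Models B L' G' → Nonempty (L ≅ L') → Eqv G G'
  iso_of_eqv : ∀ (B : Type u) [CommRing B] [Algebra k B]
    (L L' : (pullback c (specStr k B)).Modules) (G G' : Obj B),
    Models B L G → Models B L' G' → Eqv G G' → Nonempty (L ≅ L')
  models_bc : ∀ {B B' : Type u} [CommRing B] [Algebra k B] [CommRing B'] [Algebra k B']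
    (φ : B →ₐ[k] B') (L : (pullback c (specStr k B)).Modules) (G : Obj B),
    Models B L G → Models B' (restr c (specHomOver φ) L) (bc φ G)
  models_one : ∀ (B : Type u) [CommRing B] [Algebra k B],
    Models B (SheafOfModules.unit (pullback c (specStr k B)).ringCatSheaf) (one B)
  /-- the Euler characteristic of a model over a field -/
  chi : ∀ (K : Type u) [Field K] [Algebra k K], Obj K → ℤ
  chi_eqv : ∀ (K : Type u) [Field K] [Algebra k K] (G G' : Obj K), Eqv G G' → chi K G = chi K G'
  chi_locConst : ∀ (B : Type u) [CommRing B] [Algebra k B] [IsNoetherianRing B] (G : Obj B),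
    ∃ f : PrimeSpectrum B → ℤ, IsLocallyConstant f ∧
      ∀ (K : Type u) [Field K] [Algebra k K] (φ : B →ₐ[k] K) (q : PrimeSpectrum B),
        q.asIdeal = RingHom.ker φ.toRingHom → chi K (bc φ G) = f q

namespace FibreModels

variable {c} (F : FibreModels.{u, w} c)

/-- Base change along the identity does not change a model of a sheaf. -/
theorem eqv_bc_id {B : Type u} [CommRing B] [Algebra k B]
    (L : (pullback c (specStr k B)).Modules) (G : F.Obj B) (hG : F.Models B L G) :
    F.Eqv (F.bc (AlgHom.id k B) G) G :=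
  F.eqv_of_iso B _ _ _ _ (F.models_bc (AlgHom.id k B) L G hG) hG
    ⟨restrIdIso c (specHomOver (AlgHom.id k B)) (by
      rw [helper985.specHomOver_val]; exact Spec.map_id _) L⟩

/-- The Euler characteristic is invariant under extension of the field. -/
theorem chi_bc {K K' : Type u} [Field K] [Field K'] [Algebra k K] [Algebra k K']
    (φ : K →ₐ[k] K') (L : (pullback c (specStr k K)).Modules) (G : F.Obj K)
    (hG : F.Models K L G) : F.chi K' (F.bc φ G) = F.chi K G := by
  obtain ⟨f, -, hf⟩ := F.chi_locConst K G
  have h1 := hf K' φ ⟨⊥, Ideal.isPrime_bot⟩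
    ((RingHom.injective_iff_ker_eq_bot _).1 φ.toRingHom.injective).symm
  have h2 := hf K (AlgHom.id k K) ⟨⊥, Ideal.isPrime_bot⟩
    ((RingHom.injective_iff_ker_eq_bot _).1 (AlgHom.id k K).toRingHom.injective).symm
  rw [h1, ← h2]
  exact F.chi_eqv K _ _ (F.eqv_bc_id L G hG)

/-- The identity of `Spec K`, from the standard structure morphism to a given one. -/
def idOver {K : Type u} [CommRing K] [Algebra k K]
    {τ : Spec (CommRingCat.of K) ⟶ Spec (CommRingCat.of k)} (hτ : specStr k K = τ) :
    SchemeHomOver (specStr k K) τ :=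
  ⟨𝟙 _, (Category.id_comp τ).trans hτ.symm⟩

/-- Auxiliary definition of the degree, for an arbitrary algebra structure inducing `τ`. -/
def degAux (K : Type u) [Field K] [Algebra k K]
    (τ : Spec (CommRingCat.of K) ⟶ Spec (CommRingCat.of k)) (hτ : specStr k K = τ)
    (L : (pullback c τ).Modules) : ℤ := by
  classical
  exact if h : ∃ G, F.Models K (restr c (idOver hτ) L) G then F.chi K h.choose else 0

theorem degAux_eq_chi (K : Type u) [Field K] [Algebra k K]
    (τ : Spec (CommRingCat.of K) ⟶ Spec (CommRingCat.of k)) (hτ : specStr k K = τ)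
    (L : (pullback c τ).Modules) (G : F.Obj K) (hG : F.Models K (restr c (idOver hτ) L) G) :
    F.degAux K τ hτ L = F.chi K G := by
  unfold degAux
  rw [dif_pos ⟨G, hG⟩]
  exact F.chi_eqv K _ _ (F.eqv_of_iso K _ _ _ _ (Classical.choose_spec ⟨G, hG⟩) hG ⟨Iso.refl _⟩)

/-- The degree of a module on a fibre: the Euler characteristic of any model. -/
def deg (K : Type u) [Field K] (τ : Spec (CommRingCat.of K) ⟶ Spec (CommRingCat.of k))
    (L : (pullback c τ).Modules) : ℤ :=
  letI := algOf τ
  F.degAux K τ (specStr_algOf τ) L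

/-- Computation of the degree from a model, for any algebra structure on `K` inducing `τ`. -/
theorem deg_eq_chi {K : Type u} [Field K] [inst : Algebra k K]
    (τ : Spec (CommRingCat.of K) ⟶ Spec (CommRingCat.of k))
    (g : SchemeHomOver (specStr k K) τ) (hg : g.1 = 𝟙 _) (L : (pullback c τ).Modules)
    (G : F.Obj K) (hG : F.Models K (restr c g L) G) : F.deg K τ L = F.chi K G := by
  have hτ : specStr k K = τ := by
    have := g.2
    rw [hg, Category.id_comp] at this
    exact this.symm
  have hinst : algOf τ = inst := algebra_eq_of_specStr_eq _ _ ((specStr_algOf τ).trans hτ.symm)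
  subst hinst
  let _ : Algebra k K := algOf τ
  have hg' : g = idOver (specStr_algOf τ) := Subtype.ext hg
  subst hg'
  exact F.degAux_eq_chi K τ _ L G hG

/-- Computation of the degree from a model of an isomorphic module. -/
theorem deg_eq_chi' {K : Type u} [Field K] [Algebra k K]
    (τ : Spec (CommRingCat.of K) ⟶ Spec (CommRingCat.of k))
    (g : SchemeHomOver (specStr k K) τ) (hg : g.1 = 𝟙 _) (L : (pullback c τ).Modules)
    (hL : Scheme.Modules.IsInvertible L) (L' : (pullback c (specStr k K)).Modules)
    (G : F.Obj K) (hG : F.Models K L' G) (e : restr c g L ≅ L') : F.deg K τ L = F.chi K G := by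
  obtain ⟨G'', hG''⟩ := F.exists_model K (restr c g L) (hL.pullback _)
  rw [F.deg_eq_chi τ g hg L G'' hG'']
  exact F.chi_eqv K _ _ (F.eqv_of_iso K _ _ _ _ hG'' hG ⟨e⟩)

theorem deg_iso (K : Type u) [Field K] (τ : Spec (CommRingCat.of K) ⟶ Spec (CommRingCat.of k))
    (L L' : (pullback c τ).Modules) (hL : Scheme.Modules.IsInvertible L) (e : Nonempty (L ≅ L')) :
    F.deg K τ L = F.deg K τ L' := by
  obtain ⟨e⟩ := e
  let _ : Algebra k K := algOf τ
  let g : SchemeHomOver (specStr k K) τ := idOver (specStr_algOf τ)
  obtain ⟨G', hG'⟩ := F.exists_model K (restr c g L') ((isInvertible_of_iso e hL).pullback _)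
  rw [F.deg_eq_chi τ g rfl L' G' hG']
  exact F.deg_eq_chi' τ g rfl L hL _ G' hG' ((Scheme.Modules.pullback _).mapIso e)

theorem deg_restr (K K' : Type u) [Field K] [Field K']
    (τ : Spec (CommRingCat.of K) ⟶ Spec (CommRingCat.of k))
    (τ' : Spec (CommRingCat.of K') ⟶ Spec (CommRingCat.of k)) (g : SchemeHomOver τ' τ)
    (L : (pullback c τ).Modules) (hL : Scheme.Modules.IsInvertible L) :
    F.deg K' τ' (restr c g L) = F.deg K τ L := by
  let _ : Algebra k K := algOf τ
  let _ : Algebra k K' := algOf τ'
  let j : SchemeHomOver (specStr k K) τ := idOver (specStr_algOf τ)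
  let j' : SchemeHomOver (specStr k K') τ' := idOver (specStr_algOf τ')
  let g₀ : SchemeHomOver (specStr k K') (specStr k K) :=
    ⟨g.1, by rw [specStr_algOf τ, specStr_algOf τ']; exact g.2⟩
  have hφ : specHomOver (algHomOfHomOver g₀) = g₀ := specHomOver_algHomOfHomOver g₀
  obtain ⟨G, hG⟩ := F.exists_model K (restr c j L) (hL.pullback _)
  have hbc := F.models_bc (algHomOfHomOver g₀) _ G hG
  let a : SchemeHomOver (specStr k K') τ := ⟨g.1, by rw [g.2]; exact (specStr_algOf τ').symm⟩
  rw [F.deg_eq_chi τ j rfl L G hG, ← F.chi_bc (algHomOfHomOver g₀) _ G hG]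
  refine F.deg_eq_chi' τ' j' rfl (restr c g L) (hL.pullback _) _ _ hbc ?_
  exact restrCompIso c g j' a (Category.id_comp _) L ≪≫
    (restrCompIso c j (specHomOver (algHomOfHomOver g₀)) a (by
      rw [hφ]; exact Category.comp_id _) L).symm

theorem deg_locConst (B : CommRingCat.{u}) [IsNoetherianRing B]
    (β : Spec B ⟶ Spec (CommRingCat.of k)) (N : (pullback c β).Modules)
    (hN : Scheme.Modules.IsInvertible N) (p : PrimeSpectrum B) :
    ∃ U : Set (PrimeSpectrum B), IsOpen U ∧ p ∈ U ∧ ∀ q ∈ U,
      F.deg q.asIdeal.ResidueField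
          (Spec.map (CommRingCat.ofHom (algebraMap B q.asIdeal.ResidueField)) ≫ β)
          (restr c ⟨Spec.map (CommRingCat.ofHom (algebraMap B q.asIdeal.ResidueField)), rfl⟩ N) =
        F.deg p.asIdeal.ResidueField
          (Spec.map (CommRingCat.ofHom (algebraMap B p.asIdeal.ResidueField)) ≫ β)
          (restr c ⟨Spec.map (CommRingCat.ofHom (algebraMap B p.asIdeal.ResidueField)), rfl⟩ N) := by
  let _ : Algebra k B := algOf (K := B) β
  let j : SchemeHomOver (specStr k B) β := idOver (specStr_algOf (K := B) β)
  obtain ⟨G, hG⟩ := F.exists_model B (restr c j N) (hN.pullback _)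
  obtain ⟨f, hf, hfφ⟩ := F.chi_locConst B G
  have key : ∀ q : PrimeSpectrum B,
      F.deg q.asIdeal.ResidueField
          (Spec.map (CommRingCat.ofHom (algebraMap B q.asIdeal.ResidueField)) ≫ β)
          (restr c ⟨Spec.map (CommRingCat.ofHom (algebraMap B q.asIdeal.ResidueField)), rfl⟩ N) =
        f q := by
    intro q
    let a : Spec (CommRingCat.of q.asIdeal.ResidueField) ⟶ Spec B :=
      Spec.map (CommRingCat.ofHom (algebraMap B q.asIdeal.ResidueField))
    let _ : Algebra k q.asIdeal.ResidueField := algOf (a ≫ β)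
    let jq : SchemeHomOver (specStr k q.asIdeal.ResidueField) (a ≫ β) :=
      idOver (specStr_algOf (a ≫ β))
    let g₀ : SchemeHomOver (specStr k q.asIdeal.ResidueField) (specStr k B) :=
      ⟨a, by rw [specStr_algOf (K := B) β, specStr_algOf (a ≫ β)]⟩
    have hφ : specHomOver (algHomOfHomOver g₀) = g₀ := specHomOver_algHomOfHomOver g₀
    have hbc := F.models_bc (algHomOfHomOver g₀) _ G hG
    have hker : q.asIdeal = RingHom.ker (algHomOfHomOver g₀).toRingHom := by
      have h1 : (algHomOfHomOver g₀).toRingHom = algebraMap B q.asIdeal.ResidueField := by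
        change (Spec.preimage a).hom = _
        rw [Spec.preimage_map]
        rfl
      rw [h1, Ideal.ker_algebraMap_residueField]
    rw [← hfφ q.asIdeal.ResidueField (algHomOfHomOver g₀) q hker]
    let b : SchemeHomOver (specStr k q.asIdeal.ResidueField) β :=
      ⟨a, by rw [specStr_algOf (a ≫ β)]⟩
    refine F.deg_eq_chi' (a ≫ β) jq rfl _ (hN.pullback _) _ _ hbc ?_
    exact restrCompIso c (⟨a, rfl⟩ : SchemeHomOver (a ≫ β) β) jq b (Category.id_comp _) N ≪≫
      (restrCompIso c j (specHomOver (algHomOfHomOver g₀)) b (by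
        rw [hφ]; exact Category.comp_id _) N).symm
  obtain ⟨U, hU, hpU, hUf⟩ := (IsLocallyConstant.iff_exists_open f).1 hf p
  exact ⟨U, hU, hpU, fun q hq => by rw [key q, key p, hUf q hq]⟩

/-- The degree theory attached to a system of models. -/
def degTheory : DegTheory c ℤ where
  deg := F.deg
  deg_iso := F.deg_iso
  deg_restr := F.deg_restr
  deg_locConst := F.deg_locConst

theorem specHomOver_comp_val {B B' B'' : Type u} [CommRing B] [Algebra k B] [CommRing B']
    [Algebra k B'] [CommRing B''] [Algebra k B''] (φ : B →ₐ[k] B') (ψ : B' →ₐ[k] B'') :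
    (specHomOver ψ).1 ≫ (specHomOver φ).1 = (specHomOver (ψ.comp φ)).1 := by
  rw [helper985.specHomOver_val, helper985.specHomOver_val, helper985.specHomOver_val,
    ← Spec.map_comp, ← CommRingCat.ofHom_comp]
  rfl

/-- (⟹) A rigidified bundle fibrewise algebraically equivalent to zero has, at every
field-valued point of the base, the Euler characteristic of the trivial model. -/
theorem chi_eq_of_fibrewiseAlgEquivZero {ε : SchemeHomOver (𝟙 (Spec (CommRingCat.of k))) c}
    {B : Type u} [CommRing B] [Algebra k B] (M : RigidifiedLineBundle c ε (specStr k B))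
    (G : F.Obj B) (hG : F.Models B M.L G) (hM : FibrewiseAlgEquivZero M)
    (K : Type u) [Field K] [Algebra k K] (φ : B →ₐ[k] K) :
    F.chi K (F.bc φ G) = F.chi K (F.one K) := by
  let ι : K →ₐ[k] AlgebraicClosure K := IsScalarTower.toAlgHom k K (AlgebraicClosure K)
  let ψ : B →ₐ[k] AlgebraicClosure K := ι.comp φ
  have hA := F.degTheory.isDegZero_of_fibrewiseAlgEquivZero M hM (AlgebraicClosure K)
    (specHomOver ψ).1
  have hs : (specHomOver ψ).1 ≫ specStr k B = specStr k (AlgebraicClosure K) := (specHomOver ψ).2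
  let g : SchemeHomOver (specStr k (AlgebraicClosure K)) ((specHomOver ψ).1 ≫ specStr k B) :=
    idOver hs.symm
  have h1 : F.deg (AlgebraicClosure K) ((specHomOver ψ).1 ≫ specStr k B)
      (restr c (helper6135.pt (specStr k B) (specHomOver ψ).1) M.L) =
        F.chi (AlgebraicClosure K) (F.bc ψ G) :=
    F.deg_eq_chi' _ g rfl _ (M.isInvertible.pullback _) _ _ (F.models_bc ψ _ G hG)
      (restrCompIso c (helper6135.pt (specStr k B) (specHomOver ψ).1) g (specHomOver ψ)
        (Category.id_comp _) M.L)
  have h2 : F.deg (AlgebraicClosure K) ((specHomOver ψ).1 ≫ specStr k B)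
      (SheafOfModules.unit _) = F.chi (AlgebraicClosure K) (F.one (AlgebraicClosure K)) :=
    F.deg_eq_chi' _ g rfl _ (Scheme.Modules.isInvertible_unit _) _ _
      (F.models_one (AlgebraicClosure K)) (Scheme.Modules.pullbackUnitIso _)
  have h3 : F.chi (AlgebraicClosure K) (F.bc ψ G) =
      F.chi (AlgebraicClosure K) (F.one (AlgebraicClosure K)) := by
    rw [← h1, ← h2]; exact hA
  have h4 : F.chi (AlgebraicClosure K) (F.bc ι (F.bc φ G)) =
      F.chi (AlgebraicClosure K) (F.bc ψ G) :=
    F.chi_eqv _ _ _ (F.eqv_of_iso _ _ _ _ _ (F.models_bc ι _ _ (F.models_bc φ _ G hG))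
      (F.models_bc ψ _ G hG)
      ⟨restrCompIso c (specHomOver φ) (specHomOver ι) (specHomOver ψ)
        (specHomOver_comp_val φ ι) M.L⟩)
  have h5 : F.chi (AlgebraicClosure K) (F.bc ι (F.one K)) =
      F.chi (AlgebraicClosure K) (F.one (AlgebraicClosure K)) :=
    F.chi_eqv _ _ _ (F.eqv_of_iso _ _ _ _ _ (F.models_bc ι _ _ (F.models_one K))
      (F.models_one (AlgebraicClosure K)) ⟨Scheme.Modules.pullbackUnitIso _⟩)
  rw [← F.chi_bc ι _ _ (F.models_bc φ _ G hG), h4, h3, ← h5, F.chi_bc ι _ _ (F.models_one K)]

/-- (⟸) If the model of `M` at every geometric point, and the trivial model, are base changes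
of one model `G₀` over a `k`-algebra `B₀` with `Spec B₀` locally of finite type and
geometrically integral over `k`, then `M` is fibrewise algebraically equivalent to zero. -/
theorem fibrewiseAlgEquivZero_of_bounded {ε : SchemeHomOver (𝟙 (Spec (CommRingCat.of k))) c}
    {B₀ : Type u} [CommRing B₀] [Algebra k B₀] [LocallyOfFiniteType (specStr k B₀)]
    [GeometricallyIntegral (specStr k B₀)] (N₀ : (pullback c (specStr k B₀)).Modules)
    (hN₀ : Scheme.Modules.IsInvertible N₀) (G₀ : F.Obj B₀) (hG₀ : F.Models B₀ N₀ G₀)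
    {B : Type u} [CommRing B] [Algebra k B] (M : RigidifiedLineBundle c ε (specStr k B))
    (G : F.Obj B) (hG : F.Models B M.L G)
    (hits : ∀ (K : Type u) [Field K] [IsAlgClosed K] [Algebra k K] (φ : B →ₐ[k] K),
      (∃ φ₁ : B₀ →ₐ[k] K, F.Eqv (F.bc φ₁ G₀) (F.bc φ G)) ∧
      (∃ φ₀ : B₀ →ₐ[k] K, F.Eqv (F.bc φ₀ G₀) (F.one K))) :
    FibrewiseAlgEquivZero M := by
  rw [helper6135.fibrewiseAlgEquivZero_iff]
  intro K _ _ s
  let ρ : B →+* K := (Spec.preimage s).hom
  let _ : Algebra k K := (ρ.comp (algebraMap k B)).toAlgebra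
  let φ : B →ₐ[k] K := { ρ with commutes' := fun _ => rfl }
  have hs : (specHomOver φ).1 = s := by
    rw [helper985.specHomOver_val]
    exact Spec.map_preimage s
  suffices h : helper6135.FamilyForm c (specStr k B) (specHomOver φ).1 M.L by rwa [hs] at h
  rw [familyForm_iff_familyAt]
  have hτ : (specHomOver φ).1 ≫ specStr k B = specStr k K := (specHomOver φ).2
  obtain ⟨⟨φ₁, h₁⟩, ⟨φ₀, h₀⟩⟩ := hits K φ
  let t₁ : SchemeHomOver ((specHomOver φ).1 ≫ specStr k B) (specStr k B₀) :=
    ⟨(specHomOver φ₁).1, (specHomOver φ₁).2.trans hτ.symm⟩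
  let t₀ : SchemeHomOver ((specHomOver φ).1 ≫ specStr k B) (specStr k B₀) :=
    ⟨(specHomOver φ₀).1, (specHomOver φ₀).2.trans hτ.symm⟩
  let j : SchemeHomOver ((specHomOver φ).1 ≫ specStr k B) (specStr k K) :=
    ⟨𝟙 _, (Category.id_comp _).trans hτ.symm⟩
  obtain ⟨i₀⟩ := F.iso_of_eqv K _ _ _ _ (F.models_bc φ₀ _ _ hG₀) (F.models_one K) h₀
  obtain ⟨i₁⟩ := F.iso_of_eqv K _ _ _ _ (F.models_bc φ₁ _ _ hG₀) (F.models_bc φ _ _ hG) h₁
  have e₀ : restr c t₀ N₀ ≅ SheafOfModules.unit _ :=
    (restrCompIso c (specHomOver φ₀) j t₀ (Category.id_comp _) N₀).symm ≪≫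
      (Scheme.Modules.pullback (baseChangeSnd c j)).mapIso i₀ ≪≫
      Scheme.Modules.pullbackUnitIso _
  have e₁ : restr c t₁ N₀ ≅ restr c (helper6135.pt (specStr k B) (specHomOver φ).1) M.L :=
    (restrCompIso c (specHomOver φ₁) j t₁ (Category.id_comp _) N₀).symm ≪≫
      (Scheme.Modules.pullback (baseChangeSnd c j)).mapIso i₁ ≪≫
      restrCompIso c (specHomOver φ) j (helper6135.pt (specStr k B) (specHomOver φ).1)
        (Category.id_comp _) M.L
  exact (familyAt_of_points (specStr k B₀) N₀ hN₀ _ t₀ t₁ e₀).of_iso e₁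

end FibreModels





end
end Fermat.Agent.S25.helper5903
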