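import Mathlib

set_option autoImplicit false

open CategoryTheory TopologicalSpace Opposite AlgebraicGeometry

universe u

namespace Fermat.Agent.S25.helper5979

variable {X : Scheme.{u}}

/-- Restriction of a section of a sheaf of modules to a smaller open. -/
noncomputable def res (N : X.Modules) {W W' : X.Opens} (h : W' ≤ W) :
    Γ(N, W) →+ Γ(N, W') :=
  (N.presheaf.map (homOfLE h).op).hom

@[simp]
theorem res_self (N : X.Modules) {W : X.Opens} (h : W ≤ W) (s : Γ(N, W)) : res N h s = s := by
  simp [res]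

@[simp]
theorem res_res (N : X.Modules) {W W' W'' : X.Opens} (h : W' ≤ W) (h' : W'' ≤ W')
    (s : Γ(N, W)) : res N h' (res N h s) = res N (h'.trans h) s := by
  have : (homOfLE (h'.trans h)).op = (homOfLE h).op ≫ (homOfLE h').op := rfl
  simp [res, this]

/-- Restriction of functions. -/
noncomputable def resO (X : Scheme.{u}) {W W' : X.Opens} (h : W' ≤ W) : Γ(X, W) →+* Γ(X, W') :=
  (X.presheaf.map (homOfLE h).op).hom

@[simp]
theorem resO_self {W : X.Opens} (h : W ≤ W) (r : Γ(X, W)) : resO X h r = r := by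
  simp [resO]

@[simp]
theorem resO_resO {W W' W'' : X.Opens} (h : W' ≤ W) (h' : W'' ≤ W')
    (r : Γ(X, W)) : resO X h' (resO X h r) = resO X (h'.trans h) r := by
  have : (homOfLE (h'.trans h)).op = (homOfLE h).op ≫ (homOfLE h').op := rfl
  simp [resO, this]

theorem res_smul (N : X.Modules) {W W' : X.Opens} (h : W' ≤ W) (r : Γ(X, W)) (s : Γ(N, W)) :
    res N h (r • s) = resO X h r • res N h s :=
  N.map_smul (homOfLE h) r s

/-- Sectionwise gluing data for sheaves of modules on a scheme. -/
structure GlueData (X : Scheme.{u}) (ι : Type u) where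
  /-- the opens -/
  U : ι → X.Opens
  /-- the modules; only the sections over opens contained in `U i` matter -/
  N : ι → X.Modules
  /-- the transition maps -/
  φ : ∀ (i j : ι) (W : X.Opens), W ≤ U i ⊓ U j → (Γ(N i, W) →+ Γ(N j, W))
  φ_smul : ∀ (i j : ι) (W : X.Opens) (h : W ≤ U i ⊓ U j) (r : Γ(X, W)) (s : Γ(N i, W)),
    φ i j W h (r • s) = r • φ i j W h s
  φ_res : ∀ (i j : ι) (W W' : X.Opens) (h : W ≤ U i ⊓ U j) (h' : W' ≤ W) (s : Γ(N i, W)),
    φ i j W' (h'.trans h) (res (N i) h' s) = res (N j) h' (φ i j W h s)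
  φ_self : ∀ (i : ι) (W : X.Opens) (h : W ≤ U i ⊓ U i) (s : Γ(N i, W)), φ i i W h s = s
  φ_comp : ∀ (i j k : ι) (W : X.Opens) (hij : W ≤ U i ⊓ U j) (hjk : W ≤ U j ⊓ U k)
    (hik : W ≤ U i ⊓ U k) (s : Γ(N i, W)), φ j k W hjk (φ i j W hij s) = φ i k W hik s

namespace GlueData

variable {ι : Type u} (D : GlueData X ι)

theorem le₁ (W : X.Opens) (i j : ι) : W ⊓ D.U i ⊓ D.U j ≤ D.U i ⊓ D.U j :=
  le_inf (inf_le_left.trans inf_le_right) inf_le_right

theorem le₂ (W : X.Opens) (i j : ι) : W ⊓ D.U i ⊓ D.U j ≤ W ⊓ D.U j :=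
  le_inf (inf_le_left.trans inf_le_left) inf_le_right

/-- The glued sections over `W`: compatible families. -/
noncomputable def sections (W : X.Opens) : AddSubgroup (∀ i, Γ(D.N i, W ⊓ D.U i)) where
  carrier := {s | ∀ i j, D.φ i j (W ⊓ D.U i ⊓ D.U j) (D.le₁ W i j)
      (res (D.N i) inf_le_left (s i)) = res (D.N j) (D.le₂ W i j) (s j)}
  add_mem' := by
    intro a b ha hb i j
    have h1 := ha i j
    have h2 := hb i j
    simp only [Pi.add_apply, map_add, h1, h2]
  zero_mem' := by
    intro i j
    simp only [Pi.zero_apply, map_zero]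
  neg_mem' := by
    intro a ha i j
    have h1 := ha i j
    simp only [Pi.neg_apply, map_neg, h1]

theorem mem_sections {W : X.Opens} {s : ∀ i, Γ(D.N i, W ⊓ D.U i)} :
    s ∈ D.sections W ↔ ∀ i j, D.φ i j (W ⊓ D.U i ⊓ D.U j) (D.le₁ W i j)
      (res (D.N i) inf_le_left (s i)) = res (D.N j) (D.le₂ W i j) (s j) := Iff.rfl

/-- General form of the compatibility of a glued section. -/
theorem sections_compat {W : X.Opens} (s : D.sections W) (i j : ι) (T : X.Opens)
    (hi : T ≤ W ⊓ D.U i) (hj : T ≤ W ⊓ D.U j) :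
    D.φ i j T (le_inf (hi.trans inf_le_right) (hj.trans inf_le_right)) (res (D.N i) hi (s.1 i)) =
      res (D.N j) hj (s.1 j) := by
  have hT : T ≤ W ⊓ D.U i ⊓ D.U j := le_inf hi (hj.trans inf_le_right)
  have h := s.2 i j
  have h1 : res (D.N i) hi (s.1 i) = res (D.N i) hT (res (D.N i) inf_le_left (s.1 i)) := by
    rw [res_res]
  have h2 : res (D.N j) hj (s.1 j) = res (D.N j) hT (res (D.N j) (D.le₂ W i j) (s.1 j)) := by
    rw [res_res]
  rw [h1, h2, ← h]
  exact D.φ_res i j _ T (D.le₁ W i j) hT _

/-- Restriction of glued sections. -/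
noncomputable def restr {W W' : X.Opens} (h : W' ≤ W) : D.sections W →+ D.sections W' where
  toFun s := ⟨fun i => res (D.N i) (inf_le_inf_right _ h) (s.1 i), by
    intro i j
    rw [res_res, res_res]
    exact D.sections_compat s i j _ _ _⟩
  map_zero' := by
    apply Subtype.ext
    funext i
    simp
  map_add' a b := by
    apply Subtype.ext
    funext i
    simp

@[simp]
theorem restr_apply {W W' : X.Opens} (h : W' ≤ W) (s : D.sections W) (i : ι) :
    (D.restr h s).1 i = res (D.N i) (inf_le_inf_right _ h) (s.1 i) := rfl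

noncomputable instance (W : X.Opens) : SMul Γ(X, W) (D.sections W) where
  smul r s := ⟨fun i => resO X (inf_le_left : W ⊓ D.U i ≤ W) r • s.1 i, by
    intro i j
    have h := s.2 i j
    rw [res_smul, res_smul, D.φ_smul, h]
    simp⟩

@[simp]
theorem smul_apply {W : X.Opens} (r : Γ(X, W)) (s : D.sections W) (i : ι) :
    (r • s).1 i = resO X (inf_le_left : W ⊓ D.U i ≤ W) r • s.1 i := rfl

noncomputable instance (W : X.Opens) : Module Γ(X, W) (D.sections W) where
  one_smul s := by
    apply Subtype.ext; funext i; simp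
  mul_smul r r' s := by
    apply Subtype.ext; funext i; simp [mul_smul]
  smul_zero r := by
    apply Subtype.ext; funext i; simp
  smul_add r s t := by
    apply Subtype.ext; funext i; simp
  add_smul r r' s := by
    apply Subtype.ext; funext i; simp [add_smul]
  zero_smul s := by
    apply Subtype.ext; funext i; simp

/-- The underlying presheaf of abelian groups of the glued module. -/
noncomputable def presheaf : TopCat.Presheaf Ab.{u} X where
  obj W := AddCommGrpCat.of (D.sections W.unop)
  map {W W'} f := AddCommGrpCat.ofHom (D.restr (leOfHom f.unop))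
  map_id W := by
    ext s i
    simp
  map_comp {W W' W''} f g := by
    ext s i
    simp

noncomputable instance (V : (Opens X)ᵒᵖ) :
    Module (X.ringCatSheaf.obj.obj V) (D.presheaf.obj V) :=
  inferInstanceAs (Module Γ(X, V.unop) (D.sections V.unop))

theorem presheaf_map_smul ⦃V V' : (Opens X)ᵒᵖ⦄ (f : V ⟶ V') (r : X.ringCatSheaf.obj.obj V)
    (m : D.presheaf.obj V) :
    D.presheaf.map f (r • m) = X.ringCatSheaf.obj.map f r • D.presheaf.map f m := by
  apply Subtype.ext
  funext i
  have key : ∀ (r' : Γ(X, V.unop)) (m' : D.sections V.unop),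
      res (D.N i) (inf_le_inf_right _ (leOfHom f.unop))
        (resO X (inf_le_left : V.unop ⊓ D.U i ≤ V.unop) r' • m'.1 i) =
      resO X (inf_le_left : V'.unop ⊓ D.U i ≤ V'.unop) (resO X (leOfHom f.unop) r') •
        res (D.N i) (inf_le_inf_right _ (leOfHom f.unop)) (m'.1 i) := by
    intro r' m'
    rw [res_smul, resO_resO, resO_resO]
  exact key r m

/-- The glued presheaf of modules. -/
noncomputable def presheafOfModules : PresheafOfModules.{u} X.ringCatSheaf.obj :=
  PresheafOfModules.ofPresheaf D.presheaf D.presheaf_map_smul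

/-- The sheaf of abelian groups underlying `N i`. -/
noncomputable def sheafN (i : ι) : TopCat.Sheaf Ab.{u} X := ⟨(D.N i).presheaf, (D.N i).isSheaf⟩

theorem isSheaf_presheaf : D.presheaf.IsSheaf := by
  rw [TopCat.Presheaf.isSheaf_iff_isSheafUniqueGluing]
  intro α V sf hsf
  -- the components of the compatible family
  have hcompat : ∀ (a b : α) (i : ι),
      res (D.N i) (inf_le_inf_right _ (inf_le_left : V a ⊓ V b ≤ V a)) ((sf a).1 i) =
      res (D.N i) (inf_le_inf_right _ (inf_le_right : V a ⊓ V b ≤ V b)) ((sf b).1 i) := by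
    intro a b i
    have := hsf a b
    exact congrFun (congrArg Subtype.val this) i
  -- glue each component
  have hglue : ∀ i : ι, ∃! t : Γ(D.N i, iSup V ⊓ D.U i), ∀ a : α,
      res (D.N i) (inf_le_inf_right _ (le_iSup V a)) t = (sf a).1 i := by
    intro i
    refine (D.sheafN i).existsUnique_gluing' (fun a => V a ⊓ D.U i) (iSup V ⊓ D.U i)
      (fun a => homOfLE (inf_le_inf_right _ (le_iSup V a))) ?_ (fun a => (sf a).1 i) ?_
    · rw [iSup_inf_eq]
    · intro a b
      have h := hcompat a b i
      have h1 := congrArg (res (D.N i)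
        (show V a ⊓ D.U i ⊓ (V b ⊓ D.U i) ≤ V a ⊓ V b ⊓ D.U i from
          le_inf (le_inf (inf_le_left.trans inf_le_left) (inf_le_right.trans inf_le_left))
            (inf_le_left.trans inf_le_right))) h
      rw [res_res, res_res] at h1
      exact h1
  choose t ht htu using hglue
  have htmem : t ∈ D.sections (iSup V) := by
    intro i j
    refine (D.sheafN j).eq_of_locally_eq' (fun a => V a ⊓ D.U i ⊓ D.U j) (iSup V ⊓ D.U i ⊓ D.U j)
      (fun a => homOfLE (inf_le_inf_right _ (inf_le_inf_right _ (le_iSup V a)))) ?_ _ _ ?_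
    · rw [iSup_inf_eq, iSup_inf_eq]
    · intro a
      change res (D.N j) _ (D.φ i j _ _ (res (D.N i) _ (t i))) = res (D.N j) _ (res (D.N j) _ (t j))
      rw [← D.φ_res, res_res, res_res]
      have h1 : res (D.N i) (show V a ⊓ D.U i ⊓ D.U j ≤ iSup V ⊓ D.U i from
            le_inf (inf_le_left.trans (inf_le_left.trans (le_iSup V a)))
              (inf_le_left.trans inf_le_right)) (t i) =
          res (D.N i) (inf_le_left : V a ⊓ D.U i ⊓ D.U j ≤ V a ⊓ D.U i) ((sf a).1 i) := by
        rw [← ht i a, res_res]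
      have h2 : res (D.N j) (show V a ⊓ D.U i ⊓ D.U j ≤ iSup V ⊓ D.U j from
            le_inf (inf_le_left.trans (inf_le_left.trans (le_iSup V a))) inf_le_right) (t j) =
          res (D.N j) (D.le₂ (V a) i j) ((sf a).1 j) := by
        rw [← ht j a, res_res]
      rw [h1, h2]
      exact (sf a).2 i j
  refine ⟨⟨t, htmem⟩, ?_, ?_⟩
  · intro a
    apply Subtype.ext
    funext i
    exact ht i a
  · intro s' hs'
    apply Subtype.ext
    funext i
    refine htu i (s'.1 i) (fun a => ?_)
    have := hs' a
    exact congrFun (congrArg Subtype.val this) i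

/-- The glued sheaf of modules. -/
noncomputable def glue : X.Modules :=
  (⟨D.presheafOfModules, D.isSheaf_presheaf⟩ : SheafOfModules.{u} X.ringCatSheaf)

/-- Sections of the glued module are compatible families. -/
noncomputable def glueSections (W : X.Opens) : Γ(D.glue, W) ≃+ D.sections W := AddEquiv.refl _

theorem glueSections_res {W W' : X.Opens} (h : W' ≤ W) (s : Γ(D.glue, W)) :
    D.glueSections W' (res D.glue h s) = D.restr h (D.glueSections W s) := rfl

theorem glueSections_smul {W : X.Opens} (r : Γ(X, W)) (s : Γ(D.glue, W)) :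
    D.glueSections W (r • s) = r • D.glueSections W s := rfl

/-- The `i`-th coordinate of a glued section over an open `W ≤ U i`. -/
noncomputable def toN (i : ι) (W : X.Opens) (hW : W ≤ D.U i) : D.sections W →+ Γ(D.N i, W) where
  toFun s := res (D.N i) (le_inf le_rfl hW) (s.1 i)
  map_zero' := by simp
  map_add' a b := by simp

/-- The glued section over `W ≤ U i` with prescribed `i`-th coordinate. -/
noncomputable def ofN (i : ι) (W : X.Opens) (hW : W ≤ D.U i) : Γ(D.N i, W) →+ D.sections W where
  toFun t := ⟨fun j => D.φ i j (W ⊓ D.U j) (le_inf (inf_le_left.trans hW) inf_le_right)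
      (res (D.N i) inf_le_left t), by
    intro j k
    rw [← D.φ_res i j (W ⊓ D.U j) (W ⊓ D.U j ⊓ D.U k) _ inf_le_left,
      ← D.φ_res i k (W ⊓ D.U k) (W ⊓ D.U j ⊓ D.U k) _ (D.le₂ W j k), res_res, res_res]
    exact D.φ_comp i j k _ _ _ _ _⟩
  map_zero' := by
    apply Subtype.ext
    funext j
    simp
  map_add' a b := by
    apply Subtype.ext
    funext j
    simp

theorem toN_ofN (i : ι) (W : X.Opens) (hW : W ≤ D.U i) (t : Γ(D.N i, W)) :
    D.toN i W hW (D.ofN i W hW t) = t := by
  change res (D.N i) _ (D.φ i i _ _ (res (D.N i) _ t)) = t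
  rw [D.φ_self, res_res, res_self]

theorem ofN_toN (i : ι) (W : X.Opens) (hW : W ≤ D.U i) (s : D.sections W) :
    D.ofN i W hW (D.toN i W hW s) = s := by
  apply Subtype.ext
  funext j
  change D.φ i j _ _ (res (D.N i) _ (res (D.N i) _ (s.1 i))) = s.1 j
  rw [res_res]
  have := D.sections_compat s i j (W ⊓ D.U j) (le_inf inf_le_left (inf_le_left.trans hW)) le_rfl
  rw [res_self] at this
  exact this

/-- The comparison between sections of the glued module and sections of `N i`,
over opens contained in `U i`. -/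
noncomputable def glueEquiv (i : ι) (W : X.Opens) (hW : W ≤ D.U i) :
    Γ(D.glue, W) ≃+ Γ(D.N i, W) :=
  (D.glueSections W).trans
    { toFun := D.toN i W hW
      invFun := D.ofN i W hW
      left_inv := D.ofN_toN i W hW
      right_inv := D.toN_ofN i W hW
      map_add' := map_add _ }

theorem glueEquiv_smul (i : ι) (W : X.Opens) (hW : W ≤ D.U i) (r : Γ(X, W)) (s : Γ(D.glue, W)) :
    D.glueEquiv i W hW (r • s) = r • D.glueEquiv i W hW s := by
  change res (D.N i) _ (resO X _ r • (D.glueSections W s).1 i) =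
    r • res (D.N i) _ ((D.glueSections W s).1 i)
  rw [res_smul, resO_resO, resO_self]

theorem glueEquiv_res (i : ι) (W W' : X.Opens) (hW : W ≤ D.U i) (h : W' ≤ W) (s : Γ(D.glue, W)) :
    D.glueEquiv i W' (h.trans hW) (res D.glue h s) = res (D.N i) h (D.glueEquiv i W hW s) := by
  change res (D.N i) _ (res (D.N i) _ ((D.glueSections W s).1 i)) =
    res (D.N i) _ (res (D.N i) _ ((D.glueSections W s).1 i))
  rw [res_res, res_res]

theorem glueEquiv_φ (i j : ι) (W : X.Opens) (h : W ≤ D.U i ⊓ D.U j) (s : Γ(D.glue, W)) :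
    D.φ i j W h (D.glueEquiv i W (h.trans inf_le_left) s) =
      D.glueEquiv j W (h.trans inf_le_right) s :=
  D.sections_compat (D.glueSections W s) i j W _ _

end GlueData

end Fermat.Agent.S25.helper5979
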