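import Mathlib
import Fermat.Agent.S25.helper1705_Curve

/-!
# S25, leaf U1b (backup copy, helper6047): the constant in the `χ`-shift of a twist

Mathlib + `helper1705_Curve` only.

For a curve datum `D` over a field `k`, `degInf D = dim_k (R₁ / y R₁)` is the degree of the
divisor at infinity.  For every field `K / k` and every invertible module `M` over
`A₁ K = R₁ ⊗[k] K`, the quotient `M / (y ⊗ 1) M` is free of rank one over `A₁ K / (y ⊗ 1)` and
has `K`-dimension `degInf D`: the `χ`-shift of a twist by `D∞` is a constant independent of the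
bundle and of the field.
-/

set_option autoImplicit false

universe u

open scoped TensorProduct

namespace Fermat.Agent.S25.helper6047

open Fermat.Agent.S25.helper1705

/-! ## General commutative algebra -/

section General

/-- An invertible module over `S`, reduced modulo an ideal `I` such that `S ⧸ I` is semilocal,
is free of rank one over `S ⧸ I` (the Picard group of a semilocal ring is trivial). -/
theorem nonempty_quot_smul_top_linearEquiv {S : Type u} [CommRing S] (I : Ideal S)
    [Finite (MaximalSpectrum (S ⧸ I))]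
    (M : Type u) [AddCommGroup M] [Module S M] [Module.Invertible S M] :
    Nonempty ((M ⧸ (I • (⊤ : Submodule S M))) ≃ₗ[S] (S ⧸ I)) := by
  have h1 : Module.Invertible (S ⧸ I) ((S ⧸ I) ⊗[S] M) := inferInstance
  have h2 : Module.Free (S ⧸ I) ((S ⧸ I) ⊗[S] M) := inferInstance
  obtain ⟨e⟩ := (Module.Invertible.free_iff_linearEquiv
    (R := S ⧸ I) (M := (S ⧸ I) ⊗[S] M)).mp h2
  exact ⟨(TensorProduct.quotTensorEquivQuotSMul M I).symm ≪≫ₗ e.restrictScalars S⟩

variable {K : Type u} [Field K] {S : Type u} [CommRing S] [Algebra K S]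

/-- A quotient of a `K`-algebra that is finite-dimensional over the field `K` is semilocal. -/
theorem finite_maximalSpectrum_quot_of_finite (I : Ideal S) [Module.Finite K (S ⧸ I)] :
    Finite (MaximalSpectrum (S ⧸ I)) := by
  have : IsArtinianRing (S ⧸ I) := IsArtinianRing.of_finite K (S ⧸ I)
  infer_instance

/-- Invertible module modulo an ideal of finite codimension: free of rank one. -/
theorem nonempty_quot_smul_top_linearEquiv_of_finite (I : Ideal S) [Module.Finite K (S ⧸ I)]
    (M : Type u) [AddCommGroup M] [Module S M] [Module.Invertible S M] :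
    Nonempty ((M ⧸ (I • (⊤ : Submodule S M))) ≃ₗ[S] (S ⧸ I)) := by
  have := finite_maximalSpectrum_quot_of_finite (K := K) I
  exact nonempty_quot_smul_top_linearEquiv I M

/-- Invertible module modulo an ideal of finite codimension: the `K`-dimension of `M ⧸ I M` is
that of `S ⧸ I`. -/
theorem finrank_quot_smul_top (I : Ideal S) [Module.Finite K (S ⧸ I)]
    (M : Type u) [AddCommGroup M] [Module S M] [Module.Invertible S M]
    [Module K M] [IsScalarTower K S M] :
    Module.finrank K (M ⧸ (I • (⊤ : Submodule S M))) = Module.finrank K (S ⧸ I) := by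
  obtain ⟨e⟩ := nonempty_quot_smul_top_linearEquiv_of_finite (K := K) I M
  exact (e.restrictScalars K).finrank_eq

/-- Same, and the quotient is a finite `K`-module. -/
theorem finite_quot_smul_top (I : Ideal S) [Module.Finite K (S ⧸ I)]
    (M : Type u) [AddCommGroup M] [Module S M] [Module.Invertible S M]
    [Module K M] [IsScalarTower K S M] :
    Module.Finite K (M ⧸ (I • (⊤ : Submodule S M))) := by
  obtain ⟨e⟩ := nonempty_quot_smul_top_linearEquiv_of_finite (K := K) I M
  exact Module.Finite.equiv (e.restrictScalars K).symm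

end General

/-! ## The curve datum: the divisor at infinity -/

section Curve

variable {k : Type u} [Field k] (D : CurveDatum k)

/-- The degree of the divisor at infinity `V(y)`: `dim_k (R₁ / y R₁)`. -/
noncomputable def degInf : ℕ := Module.finrank k (D.R₁ ⧸ Ideal.span {D.y})

/-- If `R` is finite over `k[t]` then `R ⧸ (t)` is a finite `k`-module. -/
theorem finite_quot_span_of_finite_aeval (R : Type u) [CommRing R] [Algebra k R] (t : R)
    (h : (Polynomial.aeval t : Polynomial k →ₐ[k] R).toRingHom.Finite) :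
    Module.Finite k (R ⧸ Ideal.span {t}) := by
  have h1 : ((Ideal.Quotient.mk (Ideal.span {t})).comp
      (Polynomial.aeval t : Polynomial k →ₐ[k] R).toRingHom).Finite :=
    RingHom.Finite.comp (RingHom.Finite.of_surjective _ Ideal.Quotient.mk_surjective) h
  have h2 : (Ideal.Quotient.mk (Ideal.span {t})).comp
      (Polynomial.aeval t : Polynomial k →ₐ[k] R).toRingHom =
      (algebraMap k (R ⧸ Ideal.span {t})).comp (Polynomial.evalRingHom 0) := by
    apply Polynomial.ringHom_ext
    · intro a
      simp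
    · simp
  rw [h2] at h1
  exact RingHom.finite_algebraMap.mp (RingHom.Finite.of_comp_finite h1)

/-- `R₁ / y R₁` is a finite `k`-module (because `R₁` is finite over `k[y]`). -/
instance finite_quot_y : Module.Finite k (D.R₁ ⧸ Ideal.span {D.y}) :=
  finite_quot_span_of_finite_aeval D.R₁ D.y D.finite₁

/-- `R₀ / x R₀` is a finite `k`-module (because `R₀` is finite over `k[x]`). -/
instance finite_quot_x : Module.Finite k (D.R₀ ⧸ Ideal.span {D.x}) :=
  finite_quot_span_of_finite_aeval D.R₀ D.x D.finite₀

/-- The degree of the divisor of zeros `V(x)` of `x`: `dim_k (R₀ / x R₀)`. -/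
noncomputable def degZero : ℕ := Module.finrank k (D.R₀ ⧸ Ideal.span {D.x})

/-- `y` is not a unit: the point `ε` lies on `V(y)`. -/
theorem span_y_ne_top : Ideal.span {D.y} ≠ (⊤ : Ideal D.R₁) := by
  intro h
  have h1 : (1 : D.R₁) ∈ Ideal.span {D.y} := by rw [h]; trivial
  obtain ⟨a, ha⟩ := Ideal.mem_span_singleton'.mp h1
  have h2 := congrArg D.e ha
  simp [D.ey] at h2

instance nontrivial_quot_y : Nontrivial (D.R₁ ⧸ Ideal.span {D.y}) :=
  Ideal.Quotient.nontrivial_iff.mpr (span_y_ne_top D)

/-- The divisor at infinity has positive degree. -/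
theorem degInf_pos : 0 < degInf D := Module.finrank_pos

/-- `y ≠ 0`: otherwise `R₁` would be finite over `k`, hence equal to `k` (it is a domain with a
`k`-point), and `Ω[R₁⁄k]` would vanish instead of being invertible. -/
theorem y_ne_zero : D.y ≠ 0 := by
  intro hy
  -- `R₁` is a finite `k`-module
  have hfin : Module.Finite k D.R₁ := by
    have h1 := D.finite₁
    have h2 : (Polynomial.aeval D.y : Polynomial k →ₐ[k] D.R₁).toRingHom =
        (algebraMap k D.R₁).comp (Polynomial.evalRingHom 0) := by
      apply Polynomial.ringHom_ext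
      · intro a
        simp
      · simp [hy]
    rw [h2] at h1
    exact RingHom.finite_algebraMap.mp (RingHom.Finite.of_comp_finite h1)
  -- hence a field
  have hart : IsArtinianRing D.R₁ := IsArtinianRing.of_finite k D.R₁
  have hfield : IsField D.R₁ := IsArtinianRing.isField_of_isDomain D.R₁
  -- `e` is injective, so `algebraMap k R₁` is surjective
  have hinj : Function.Injective D.e := by
    let _ := hfield.toField
    exact (D.e : D.R₁ →+* k).injective
  have hsurj : Function.Surjective (algebraMap k D.R₁) := by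
    intro r
    refine ⟨D.e r, hinj ?_⟩
    simp
  have hsub : Subsingleton (Ω[D.R₁⁄k]) := KaehlerDifferential.subsingleton_of_surjective k D.R₁ hsurj
  have hne : (1 : D.R₁) ≠ 0 := one_ne_zero
  apply hne
  apply (FaithfulSMul.eq_of_smul_eq_smul (M := D.R₁) (α := Ω[D.R₁⁄k]))
  intro m
  exact Subsingleton.elim _ _

/-- `x ≠ 0`. -/
theorem x_ne_zero : D.x ≠ 0 := by
  intro hx
  -- then `R₀₁` is the zero ring, so `y` is nilpotent in the domain `R₁`
  have hsub : Subsingleton D.R₀₁ := by
    have hu : IsUnit (algebraMap D.R₀ D.R₀₁ D.x) := IsLocalization.Away.algebraMap_isUnit D.x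
    rw [hx, map_zero] at hu
    exact (subsingleton_or_nontrivial D.R₀₁).resolve_right fun hn => not_isUnit_zero hu
  have h0 : algebraMap D.R₁ D.R₀₁ 1 = algebraMap D.R₁ D.R₀₁ 0 := Subsingleton.elim _ _
  obtain ⟨⟨c, n, rfl⟩, hc⟩ := (IsLocalization.eq_iff_exists (Submonoid.powers D.y) D.R₀₁).mp h0
  simp only [mul_one, mul_zero] at hc
  exact y_ne_zero D (eq_zero_of_pow_eq_zero hc)

end Curve

/-! ## Base change to a field `K / k` -/

section BaseChange

attribute [local instance] Algebra.TensorProduct.rightAlgebra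

section Generic

variable {k : Type u} [Field k] (R : Type u) [CommRing R] [Algebra k R] (t : R)
  (K : Type u) [Field K] [Algebra k K]

/-- `(R ⊗[k] K) ⧸ (t ⊗ 1)` has the same dimension over `K` (right algebra structure) as
`R ⧸ (t)` over `k`. -/
theorem finrank_tensor_quot_span_singleton :
    Module.finrank K ((R ⊗[k] K) ⧸ Ideal.span {t ⊗ₜ[k] (1 : K)}) =
      Module.finrank k (R ⧸ Ideal.span {t}) := by
  let J : Ideal R := Ideal.span {t}
  let I' : Ideal (K ⊗[k] R) :=
    J.map (Algebra.TensorProduct.includeRight (R := k) (A := K) (B := R))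
  have hI : I' = (Ideal.span {t ⊗ₜ[k] (1 : K)}).map
      (((Algebra.TensorProduct.commRight k K R).symm : R ⊗[k] K ≃ₐ[K] K ⊗[k] R) :
        R ⊗[k] K →+* K ⊗[k] R) := by
    simp only [I', J, Ideal.map_span, Set.image_singleton]
    rfl
  let e1 := Ideal.quotientEquivAlg (Ideal.span {t ⊗ₜ[k] (1 : K)}) I'
    (Algebra.TensorProduct.commRight k K R).symm hI
  let e2 := Algebra.TensorProduct.tensorQuotientEquiv (R := k) K R K J
  rw [e1.toLinearEquiv.finrank_eq, ← e2.toLinearEquiv.finrank_eq, Module.finrank_baseChange]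

/-- `(R ⊗[k] K) ⧸ (t ⊗ 1)` is a finite `K`-module as soon as `R ⧸ (t)` is a finite
`k`-module. -/
theorem finite_tensor_quot_span_singleton [Module.Finite k (R ⧸ Ideal.span {t})] :
    Module.Finite K ((R ⊗[k] K) ⧸ Ideal.span {t ⊗ₜ[k] (1 : K)}) := by
  let J : Ideal R := Ideal.span {t}
  let I' : Ideal (K ⊗[k] R) :=
    J.map (Algebra.TensorProduct.includeRight (R := k) (A := K) (B := R))
  have hI : I' = (Ideal.span {t ⊗ₜ[k] (1 : K)}).map
      (((Algebra.TensorProduct.commRight k K R).symm : R ⊗[k] K ≃ₐ[K] K ⊗[k] R) :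
        R ⊗[k] K →+* K ⊗[k] R) := by
    simp only [I', J, Ideal.map_span, Set.image_singleton]
    rfl
  let e1 := Ideal.quotientEquivAlg (Ideal.span {t ⊗ₜ[k] (1 : K)}) I'
    (Algebra.TensorProduct.commRight k K R).symm hI
  let e2 := Algebra.TensorProduct.tensorQuotientEquiv (R := k) K R K J
  exact Module.Finite.equiv (e2.toLinearEquiv ≪≫ₗ e1.toLinearEquiv.symm)

/-- If `t` is a non-zero-divisor of `R` then `t ⊗ 1` is a non-zero-divisor of `R ⊗[k] K`. -/
theorem tmul_one_mem_nonZeroDivisors (ht : t ∈ nonZeroDivisors R) :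
    t ⊗ₜ[k] (1 : K) ∈ nonZeroDivisors (R ⊗[k] K) := by
  have hinj : Function.Injective (LinearMap.mulLeft k t) := by
    intro a b hab
    exact (mul_cancel_left_mem_nonZeroDivisors ht).mp hab
  have h2 : Function.Injective ((LinearMap.mulLeft k t).rTensor K) :=
    Module.Flat.rTensor_preserves_injective_linearMap _ hinj
  have key : ∀ z : R ⊗[k] K, (LinearMap.mulLeft k t).rTensor K z = z * t ⊗ₜ[k] (1 : K) := by
    intro z
    induction z using TensorProduct.induction_on with
    | zero => simp
    | tmul a c => simp [mul_comm]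
    | add a b ha hb => rw [map_add, add_mul, ha, hb]
  rw [mem_nonZeroDivisors_iff_right]
  intro z hz
  apply h2
  rw [map_zero, key, hz]

end Generic

section GenericModule

variable {k : Type u} [Field k] (R : Type u) [CommRing R] [Algebra k R] (t : R)
  (K : Type u) [Field K] [Algebra k K]
  (M : Type u) [AddCommGroup M] [Module (R ⊗[k] K) M] [Module.Invertible (R ⊗[k] K) M]

/-- An invertible `R ⊗[k] K`-module modulo `t ⊗ 1` is free of rank one over
`(R ⊗[k] K) ⧸ (t ⊗ 1)`, provided `R ⧸ (t)` is finite-dimensional over `k`. -/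
theorem nonempty_quot_linearEquiv_tensor [Module.Finite k (R ⧸ Ideal.span {t})] :
    Nonempty ((M ⧸ (Ideal.span {t ⊗ₜ[k] (1 : K)} • (⊤ : Submodule (R ⊗[k] K) M)))
      ≃ₗ[R ⊗[k] K] ((R ⊗[k] K) ⧸ Ideal.span {t ⊗ₜ[k] (1 : K)})) := by
  have := finite_tensor_quot_span_singleton (k := k) R t K
  exact nonempty_quot_smul_top_linearEquiv_of_finite (K := K) _ M

/-- The `K`-dimension of an invertible `R ⊗[k] K`-module modulo `t ⊗ 1` is `dim_k (R ⧸ (t))`:
it depends neither on the module nor on the field `K`. -/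
theorem finrank_quot_tensor [Module.Finite k (R ⧸ Ideal.span {t})]
    [Module K M] [IsScalarTower K (R ⊗[k] K) M] :
    Module.finrank K (M ⧸ (Ideal.span {t ⊗ₜ[k] (1 : K)} • (⊤ : Submodule (R ⊗[k] K) M))) =
      Module.finrank k (R ⧸ Ideal.span {t}) := by
  have := finite_tensor_quot_span_singleton (k := k) R t K
  rw [finrank_quot_smul_top (K := K) _ M, finrank_tensor_quot_span_singleton]

/-- ... and it is a finite `K`-module. -/
theorem finite_quot_tensor [Module.Finite k (R ⧸ Ideal.span {t})]
    [Module K M] [IsScalarTower K (R ⊗[k] K) M] :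
    Module.Finite K (M ⧸ (Ideal.span {t ⊗ₜ[k] (1 : K)} • (⊤ : Submodule (R ⊗[k] K) M))) := by
  have := finite_tensor_quot_span_singleton (k := k) R t K
  exact finite_quot_smul_top (K := K) _ M

/-- `t ⊗ 1` acts injectively on an invertible (more generally flat) `R ⊗[k] K`-module when `t`
is a non-zero-divisor of `R`. -/
theorem isSMulRegular_tmul_one (ht : t ∈ nonZeroDivisors R) :
    IsSMulRegular M (t ⊗ₜ[k] (1 : K)) :=
  Module.Flat.isSMulRegular_of_nonZeroDivisors (tmul_one_mem_nonZeroDivisors R t K ht)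

end GenericModule

/-- `Ideal.span {a} • ⊤` is the range of multiplication by `a`. -/
theorem span_singleton_smul_top_eq_range {S : Type u} [CommRing S] (a : S)
    (M : Type u) [AddCommGroup M] [Module S M] :
    Ideal.span {a} • (⊤ : Submodule S M) = LinearMap.range (LinearMap.lsmul S M a) := by
  rw [Submodule.ideal_span_singleton_smul]
  ext m
  simp [Submodule.mem_smul_pointwise_iff_exists]

/-- A `K`-linear map `Y` acting as multiplication by `a : S` has range `a M` (as a
`K`-submodule). -/
theorem range_eq_restrictScalars_of_eq_smul {K : Type u} [Field K] {S : Type u} [CommRing S]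
    [Algebra K S] (a : S) (M : Type u) [AddCommGroup M] [Module S M] [Module K M]
    [IsScalarTower K S M] (Y : M →ₗ[K] M) (hY : ∀ m, Y m = a • m) :
    LinearMap.range Y = (Ideal.span {a} • (⊤ : Submodule S M)).restrictScalars K := by
  ext m
  rw [Submodule.restrictScalars_mem, span_singleton_smul_top_eq_range]
  simp [hY]

/-- Range form of `finrank_quot_smul_top`: if the `K`-linear endomorphism `Y` of the invertible
`S`-module `M` is multiplication by `a` and `S ⧸ (a)` is finite over `K`, then
`dim_K (M ⧸ range Y) = dim_K (S ⧸ (a))`, and the quotient is finite-dimensional. -/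
theorem finrank_quot_range_of_eq_smul {K : Type u} [Field K] {S : Type u} [CommRing S]
    [Algebra K S] (a : S) [Module.Finite K (S ⧸ Ideal.span {a})]
    (M : Type u) [AddCommGroup M] [Module S M] [Module.Invertible S M] [Module K M]
    [IsScalarTower K S M] (Y : M →ₗ[K] M) (hY : ∀ m, Y m = a • m) :
    Module.Finite K (M ⧸ LinearMap.range Y) ∧
      Module.finrank K (M ⧸ LinearMap.range Y) = Module.finrank K (S ⧸ Ideal.span {a}) := by
  rw [range_eq_restrictScalars_of_eq_smul a M Y hY]
  have e := Submodule.Quotient.restrictScalarsEquiv K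
    (Ideal.span {a} • (⊤ : Submodule S M))
  have hfin := finite_quot_smul_top (K := K) (Ideal.span {a}) M
  exact ⟨Module.Finite.equiv e.symm, by rw [e.finrank_eq, finrank_quot_smul_top]⟩

/-! ### The two charts of the curve datum -/

section Charts

variable {k : Type u} [Field k] (D : CurveDatum k) (K : Type u) [Field K] [Algebra k K]

/-- The element `y ⊗ 1` of `A₁ K = R₁ ⊗[k] K`. -/
noncomputable abbrev yK : D.A₁ K := D.y ⊗ₜ[k] (1 : K)

/-- The element `x ⊗ 1` of `A₀ K = R₀ ⊗[k] K`. -/
noncomputable abbrev xK : D.A₀ K := D.x ⊗ₜ[k] (1 : K)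

/-- (C1) `A₁ K ⧸ (y ⊗ 1)` has `K`-dimension `degInf D`. -/
theorem finrank_A₁_quot_yK :
    Module.finrank K (D.A₁ K ⧸ Ideal.span {yK D K}) = degInf D :=
  finrank_tensor_quot_span_singleton D.R₁ D.y K

/-- (C1) `A₁ K ⧸ (y ⊗ 1)` is a finite `K`-algebra (hence artinian, semilocal). -/
instance finite_A₁_quot_yK : Module.Finite K (D.A₁ K ⧸ Ideal.span {yK D K}) :=
  finite_tensor_quot_span_singleton D.R₁ D.y K

/-- (C0) `y ⊗ 1` is a non-zero-divisor of `A₁ K`. -/
theorem yK_mem_nonZeroDivisors : yK D K ∈ nonZeroDivisors (D.A₁ K) :=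
  tmul_one_mem_nonZeroDivisors D.R₁ D.y K (mem_nonZeroDivisors_of_ne_zero (y_ne_zero D))

/-- (C0) `x ⊗ 1` is a non-zero-divisor of `A₀ K`. -/
theorem xK_mem_nonZeroDivisors : xK D K ∈ nonZeroDivisors (D.A₀ K) :=
  tmul_one_mem_nonZeroDivisors D.R₀ D.x K (mem_nonZeroDivisors_of_ne_zero (x_ne_zero D))

variable (M : Type u) [AddCommGroup M] [Module (D.A₁ K) M] [Module.Invertible (D.A₁ K) M]

/-- (C2) For an invertible `A₁ K`-module `M`, the quotient `M ⧸ (y ⊗ 1) M` is free of rank one
over `A₁ K ⧸ (y ⊗ 1)`. -/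
theorem nonempty_quot_yK_linearEquiv :
    Nonempty ((M ⧸ (Ideal.span {yK D K} • (⊤ : Submodule (D.A₁ K) M))) ≃ₗ[D.A₁ K]
      (D.A₁ K ⧸ Ideal.span {yK D K})) :=
  nonempty_quot_linearEquiv_tensor D.R₁ D.y K M

/-- (C2) `y ⊗ 1` acts injectively on an invertible `A₁ K`-module. -/
theorem isSMulRegular_yK : IsSMulRegular M (yK D K) :=
  isSMulRegular_tmul_one D.R₁ D.y K M (mem_nonZeroDivisors_of_ne_zero (y_ne_zero D))

/-- (C3) THE CONSTANT: for an invertible `A₁ K`-module `M`, `dim_K (M ⧸ (y ⊗ 1) M) = degInf D`,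
independently of `M` and of the field `K`. -/
theorem finrank_quot_yK [Module K M] [IsScalarTower K (D.A₁ K) M] :
    Module.finrank K (M ⧸ (Ideal.span {yK D K} • (⊤ : Submodule (D.A₁ K) M))) = degInf D :=
  finrank_quot_tensor D.R₁ D.y K M

/-- (C3) ... and `M ⧸ (y ⊗ 1) M` is a finite `K`-module. -/
theorem finite_quot_yK [Module K M] [IsScalarTower K (D.A₁ K) M] :
    Module.Finite K (M ⧸ (Ideal.span {yK D K} • (⊤ : Submodule (D.A₁ K) M))) :=
  finite_quot_tensor D.R₁ D.y K M

/-- (C4) chart `0`: `A₀ K ⧸ (x ⊗ 1)` has `K`-dimension `degZero D` and is finite over `K`. -/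
theorem finrank_A₀_quot_xK :
    Module.finrank K (D.A₀ K ⧸ Ideal.span {xK D K}) = degZero D :=
  finrank_tensor_quot_span_singleton D.R₀ D.x K

instance finite_A₀_quot_xK : Module.Finite K (D.A₀ K ⧸ Ideal.span {xK D K}) :=
  finite_tensor_quot_span_singleton D.R₀ D.x K

/-- (C4) chart `0`: for an invertible `A₀ K`-module `M₀` and a `K`-linear endomorphism `X` acting
as multiplication by `x ⊗ 1`: `X` is injective, `M₀ ⧸ range X` is finite-dimensional over `K` of
dimension `degZero D`; moreover `M₀ ⧸ (x ⊗ 1) M₀` is free of rank one over `A₀ K ⧸ (x ⊗ 1)`. -/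
theorem finrank_quot_range_xK (M₀ : Type u) [AddCommGroup M₀] [Module (D.A₀ K) M₀]
    [Module.Invertible (D.A₀ K) M₀] [Module K M₀] [IsScalarTower K (D.A₀ K) M₀]
    (X : M₀ →ₗ[K] M₀) (hX : ∀ m, X m = xK D K • m) :
    Function.Injective X ∧ Module.Finite K (M₀ ⧸ LinearMap.range X) ∧
      Module.finrank K (M₀ ⧸ LinearMap.range X) = degZero D := by
  obtain ⟨h1, h2⟩ := finrank_quot_range_of_eq_smul (K := K) (xK D K) M₀ X hX
  refine ⟨?_, h1, by rw [h2, finrank_A₀_quot_xK]⟩
  intro m m' h
  rw [hX, hX] at h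
  exact isSMulRegular_tmul_one D.R₀ D.x K M₀ (mem_nonZeroDivisors_of_ne_zero (x_ne_zero D)) h

theorem nonempty_quot_xK_linearEquiv (M₀ : Type u) [AddCommGroup M₀] [Module (D.A₀ K) M₀]
    [Module.Invertible (D.A₀ K) M₀] :
    Nonempty ((M₀ ⧸ (Ideal.span {xK D K} • (⊤ : Submodule (D.A₀ K) M₀))) ≃ₗ[D.A₀ K]
      (D.A₀ K ⧸ Ideal.span {xK D K})) :=
  nonempty_quot_linearEquiv_tensor D.R₀ D.x K M₀

/-- (C3), RANGE FORM (the shape consumed by the `χ`-shift engine `index_family` of
`helper3115_Twist`): if `Y` is a `K`-linear endomorphism of the invertible `A₁ K`-module `M`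
acting as multiplication by `y ⊗ 1`, then `Y` is injective, `M ⧸ range Y` is finite-dimensional
over `K`, and `dim_K (M ⧸ range Y) = degInf D`. -/
theorem finrank_quot_range_yK [Module K M] [IsScalarTower K (D.A₁ K) M]
    (Y : M →ₗ[K] M) (hY : ∀ m, Y m = yK D K • m) :
    Function.Injective Y ∧ Module.Finite K (M ⧸ LinearMap.range Y) ∧
      Module.finrank K (M ⧸ LinearMap.range Y) = degInf D := by
  obtain ⟨h1, h2⟩ := finrank_quot_range_of_eq_smul (K := K) (yK D K) M Y hY
  refine ⟨?_, h1, by rw [h2, finrank_A₁_quot_yK]⟩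
  intro m m' h
  rw [hY, hY] at h
  exact isSMulRegular_yK D K M h

end Charts

end BaseChange

end Fermat.Agent.S25.helper6047
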