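import Fermat.Agent.S25.helper845_InvTilde
import Fermat.Agent.S25.helper1800_OmegaInv

/-!
# S25 brick (helper845): global sections of an invertible module on `Spec R` are an
invertible `R`-module

Completion of `helper845_InvTilde`: for `M : (Spec R).Modules` invertible in the frozen sense
(`Scheme.Modules.IsInvertible`), the `R`-module `Γ(M, ⊤)` is `Module.Invertible`.
-/

set_option autoImplicit false

open CategoryTheory AlgebraicGeometry

namespace Fermat.Agent.S25.helper845

universe u

variable {R : CommRingCat.{u}}

/-- Global sections of an invertible module on `Spec R` form an invertible `R`-module. -/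
theorem invertible_sections (M : (Spec R).Modules) (h : Scheme.Modules.IsInvertible M) :
    Module.Invertible R Γ(M, (⊤ : (Spec R).Opens)) := by
  have := fun f => isLocalizedModule_resBo M h f
  refine helper1800.invertible_of_isLocalized_span _ (span_trivializing_eq_top M h)
    (Rₚ := fun g => Γ(Spec R, bo g.1)) (Mₚ := fun g => Γ(M, bo g.1))
    (fun g => resBo M g.1) (fun g => ?_)
  obtain ⟨e⟩ := g.2
  exact Module.Invertible.congr e.symm

end Fermat.Agent.S25.helper845
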