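import Mathlib
import Fermat.Prelude.Def_AlgebraicGeometry_RelativePicardFunctor
import Fermat.Agent.S25.helper7939_TildeBaseChange
import Fermat.Agent.S25.helper5681_RigChart
import Fermat.Agent.S25.helper845_InvTilde2

/-!
# S25 bridge brick (helper6210): complement of P2

* `pullbackOpensRangeIsoUnit` (T): a trivialization along an open immersion `j` gives a
  trivialization on `j.opensRange` in the shape of the Prelude's `Scheme.Modules.IsInvertible`.
* `isInvertible_of_iso`, `isInvertible_of_locally`, `isInvertible_of_cover` (LOC).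
* `tildeIsoUnit`, `isInvertible_tilde` (I3): the tilde of an invertible module is invertible.
-/

set_option autoImplicit false

universe u

open CategoryTheory AlgebraicGeometry TopologicalSpace Opposite Limits

namespace Fermat.Agent.S25.helper6210

noncomputable section

/-- (T) A trivialization of `M` along an open immersion `j : Y ⟶ X` gives a trivialization of
`M` over the open `j.opensRange`, in the shape required by the Prelude's `IsInvertible`. -/
def pullbackOpensRangeIsoUnit {X Y : Scheme.{u}} (j : Y ⟶ X) [IsOpenImmersion j] (M : X.Modules)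
    (e : (Scheme.Modules.pullback j).obj M ≅ SheafOfModules.unit Y.ringCatSheaf) :
    (Scheme.Modules.pullback j.opensRange.ι).obj M ≅
      SheafOfModules.unit j.opensRange.toScheme.ringCatSheaf :=
  ((Scheme.Modules.pullbackCongr j.isoOpensRange_inv_comp).app M).symm ≪≫
    ((Scheme.Modules.pullbackComp j.isoOpensRange.inv j).app M).symm ≪≫
    (Scheme.Modules.pullback j.isoOpensRange.inv).mapIso e ≪≫
    Scheme.Modules.pullbackUnitIso _

/-- Invertibility (Prelude sense) is invariant under isomorphism. -/
theorem isInvertible_of_iso {X : Scheme.{u}} {M N : X.Modules} (e : M ≅ N)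
    (h : Scheme.Modules.IsInvertible M) : Scheme.Modules.IsInvertible N := by
  refine ⟨fun x => ?_⟩
  obtain ⟨U, hxU, ⟨eU⟩⟩ := h.1 x
  exact ⟨U, hxU, ⟨(Scheme.Modules.pullback U.ι).mapIso e.symm ≪≫ eU⟩⟩

theorem isInvertible_iff_of_iso {X : Scheme.{u}} {M N : X.Modules} (e : M ≅ N) :
    Scheme.Modules.IsInvertible M ↔ Scheme.Modules.IsInvertible N :=
  ⟨isInvertible_of_iso e, isInvertible_of_iso e.symm⟩

/-- (LOC), pointwise form: if every point of `X` lies in the range of an open immersion `j`
such that the pullback of `M` along `j` is invertible, then `M` is invertible. -/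
theorem isInvertible_of_locally {X : Scheme.{u}} (M : X.Modules)
    (h : ∀ x : X, ∃ (Y : Scheme.{u}) (j : Y ⟶ X) (_ : IsOpenImmersion j) (y : Y), j y = x ∧
      Scheme.Modules.IsInvertible ((Scheme.Modules.pullback j).obj M)) :
    Scheme.Modules.IsInvertible M := by
  refine ⟨fun x => ?_⟩
  obtain ⟨Y, j, hj, y, rfl, hM⟩ := h x
  obtain ⟨V, hyV, ⟨eV⟩⟩ := hM.1 y
  have e : (Scheme.Modules.pullback (V.ι ≫ j)).obj M ≅ SheafOfModules.unit V.toScheme.ringCatSheaf :=
    ((Scheme.Modules.pullbackComp V.ι j).app M).symm ≪≫ eV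
  refine ⟨(V.ι ≫ j).opensRange, ⟨⟨y, hyV⟩, rfl⟩, ⟨pullbackOpensRangeIsoUnit (V.ι ≫ j) M e⟩⟩

/-- (LOC), cover form: invertibility can be checked on a jointly surjective family of open
immersions. -/
theorem isInvertible_of_cover {X : Scheme.{u}} (M : X.Modules) {ι : Type*} (Y : ι → Scheme.{u})
    (g : ∀ i, Y i ⟶ X) [∀ i, IsOpenImmersion (g i)]
    (hg : ∀ x : X, ∃ (i : ι) (y : Y i), g i y = x)
    (h : ∀ i, Scheme.Modules.IsInvertible ((Scheme.Modules.pullback (g i)).obj M)) :
    Scheme.Modules.IsInvertible M := by
  refine isInvertible_of_locally M fun x => ?_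
  obtain ⟨i, y, hy⟩ := hg x
  exact ⟨Y i, g i, inferInstance, y, hy, h i⟩

section Tilde

open TensorProduct

variable {R : CommRingCat.{u}}

/-- A module isomorphic to the ring has tilde isomorphic to the structure sheaf. -/
def tildeIsoUnit (N : ModuleCat.{u} R) (e : N ≃ₗ[R] R) :
    tilde N ≅ SheafOfModules.unit.{u} (Spec R).ringCatSheaf :=
  (tilde.functor R).mapIso e.toModuleIso ≪≫ tildeSelf

/-- The tilde of a free module of rank one is invertible (Prelude sense). -/
theorem isInvertible_tilde_of_linearEquiv (N : ModuleCat.{u} R) (e : N ≃ₗ[R] R) :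
    Scheme.Modules.IsInvertible (tilde N) :=
  isInvertible_of_iso (tildeIsoUnit N e).symm (Scheme.Modules.isInvertible_unit _)

/-- If the base change of `N` to the localization `R[1/r]` is free of rank one, then the pullback
of `N^~` along `Spec R[1/r] ⟶ Spec R` is trivial. -/
theorem nonempty_pullback_tilde_iso_unit (N : ModuleCat.{u} R) (r : R)
    (e : (Localization.Away r ⊗[R] N) ≃ₗ[Localization.Away r] Localization.Away r) :
    Nonempty ((Scheme.Modules.pullback
        (Spec.map (CommRingCat.ofHom (algebraMap R (Localization.Away r))))).obj (tilde N) ≅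
      SheafOfModules.unit.{u} (Spec (CommRingCat.of (Localization.Away r))).ringCatSheaf) := by
  obtain ⟨i⟩ := (helper5681.nonempty_extendScalars_iso_self_iff (A := R)
    (B := Localization.Away r) N).mpr ⟨e⟩
  exact ⟨(helper7939.tildePullbackIso (CommRingCat.ofHom (algebraMap R (Localization.Away r)))).app N
    ≪≫ (tilde.functor _).mapIso i ≪≫ tildeSelf⟩

/-- (I3) The tilde of an invertible module is an invertible sheaf of modules (Prelude sense). -/
theorem isInvertible_tilde (N : ModuleCat.{u} R) [Module.Invertible R N] :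
    Scheme.Modules.IsInvertible (tilde N) := by
  obtain ⟨s, hs, hfree⟩ := Module.Invertible.exists_finset_free_localization R N
  refine isInvertible_of_locally _ fun x => ?_
  obtain ⟨r, hrs, hrx⟩ : ∃ r ∈ s, r ∉ x.asIdeal := by
    by_contra hcon
    simp only [not_exists, not_and, not_not] at hcon
    have hle : Ideal.span (s : Set R) ≤ x.asIdeal := Ideal.span_le.mpr fun r hr => hcon r hr
    rw [hs] at hle
    exact x.isPrime.ne_top (top_le_iff.mp hle)
  have hx : x ∈ (Spec.map (CommRingCat.ofHom (algebraMap R (Localization.Away r)))).opensRange := by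
    rw [Scheme.Hom.opensRange_localizationAway]
    exact hrx
  obtain ⟨y, hy⟩ := hx
  have hfr : Module.Free (Localization.Away r) (LocalizedModule.Away r N) := hfree r hrs
  obtain ⟨e2⟩ := (Module.Invertible.free_iff_linearEquiv (R := Localization.Away r)
    (M := LocalizedModule.Away r N)).mp hfr
  let e3 : (Localization.Away r ⊗[R] N) ≃ₗ[Localization.Away r] LocalizedModule.Away r N :=
    (IsLocalizedModule.isBaseChange (Submonoid.powers r) (Localization.Away r)
      (LocalizedModule.mkLinearMap (Submonoid.powers r) N)).equiv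
  obtain ⟨i⟩ := nonempty_pullback_tilde_iso_unit N r (e3 ≪≫ₗ e2)
  exact ⟨_, _, inferInstance, y, hy,
    isInvertible_of_iso i.symm (Scheme.Modules.isInvertible_unit _)⟩

/-- (I4) Scheme form: the pullback of an invertible module along any morphism from an affine
scheme `Spec R` is the tilde of an invertible `R`-module. -/
theorem exists_tilde_iso_of_isInvertible {X : Scheme.{u}} (L : X.Modules)
    (hL : Scheme.Modules.IsInvertible L) (j : Spec R ⟶ X) :
    ∃ N : ModuleCat.{u} R, Module.Invertible R N ∧
      Nonempty ((Scheme.Modules.pullback j).obj L ≅ tilde N) := by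
  have hM : Scheme.Modules.IsInvertible ((Scheme.Modules.pullback j).obj L) := hL.pullback j
  have := helper845.isIso_fromTildeΓ_of_isInvertible _ hM
  exact ⟨_, helper845.invertible_sections _ hM,
    ⟨(asIso ((Scheme.Modules.pullback j).obj L).fromTildeΓ).symm⟩⟩

/-- On `Spec R`, the invertible modules (Prelude sense) are exactly the tildes of invertible
`R`-modules. -/
theorem isInvertible_iff_exists_tilde (M : (Spec R).Modules) :
    Scheme.Modules.IsInvertible M ↔
      ∃ N : ModuleCat.{u} R, Module.Invertible R N ∧ Nonempty (M ≅ tilde N) := by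
  constructor
  · intro hM
    have := helper845.isIso_fromTildeΓ_of_isInvertible _ hM
    exact ⟨_, helper845.invertible_sections _ hM, ⟨(asIso M.fromTildeΓ).symm⟩⟩
  · rintro ⟨N, hN, ⟨e⟩⟩
    exact isInvertible_of_iso e.symm (isInvertible_tilde N)

/-- Invertibility from two affine charts: if `L` restricts to tildes of invertible modules on two
jointly surjective affine charts, then `L` is invertible. -/
theorem isInvertible_of_two_charts {X : Scheme.{u}} (L : X.Modules) {A₀ A₁ : CommRingCat.{u}}
    (J₀ : Spec A₀ ⟶ X) (J₁ : Spec A₁ ⟶ X) [IsOpenImmersion J₀] [IsOpenImmersion J₁]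
    (hcov : ∀ x : X, (∃ y, J₀ y = x) ∨ (∃ y, J₁ y = x))
    (M₀ : ModuleCat.{u} A₀) (M₁ : ModuleCat.{u} A₁)
    [Module.Invertible A₀ M₀] [Module.Invertible A₁ M₁]
    (e₀ : (Scheme.Modules.pullback J₀).obj L ≅ tilde M₀)
    (e₁ : (Scheme.Modules.pullback J₁).obj L ≅ tilde M₁) :
    Scheme.Modules.IsInvertible L := by
  refine isInvertible_of_locally L fun x => ?_
  rcases hcov x with ⟨y, hy⟩ | ⟨y, hy⟩
  · exact ⟨_, J₀, inferInstance, y, hy, isInvertible_of_iso e₀.symm (isInvertible_tilde M₀)⟩
  · exact ⟨_, J₁, inferInstance, y, hy, isInvertible_of_iso e₁.symm (isInvertible_tilde M₁)⟩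

end Tilde

end

end Fermat.Agent.S25.helper6210
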