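import Mathlib
import Fermat.Agent.S25.helper7755_TwoChart
import Fermat.Agent.S25.helper9237_CurveLocal

/-!
# S25, layer A (LA-CHARTS): the abstract chart lemma — finiteness over `k[x]` without `ℙ¹`

Backup file for LA-CHARTS (helper6392), in the vocabulary of `helper7755_TwoChart`
(`toΓ`, `polyToΓ`).

Setting: `c : C ⟶ Spec k` proper, smooth of relative dimension one, `C` integral, `k`
algebraically closed; opens `U₀`, `U₁` with `U₀ ⊔ U₁ = ⊤`, sections `x ∈ Γ(C, U₀)`,
`y ∈ Γ(C, U₁)` with `C.basicOpen y = U₀ ⊓ U₁` and `x * y = 1` on `U₀ ⊓ U₁`, `x` not constant.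

* `isClosedImmersion_lift`, `isProper_of_lift` : abstract form (any base): the graph
  `U₀ ⟶ C ×ₛ A` of `φ : U₀ ⟶ A` is a closed immersion as soon as every point over the
  complement of `U₀` has a neighbourhood missing the graph; hence `φ` is proper.
* `chartMap c U₀ x : U₀ ⟶ 𝔸¹ₖ`, `isProper_chartMap`.
* `finite_preimage_chartMap` : finite fibres.
* `chart_finite` : `IsAffineOpen U₀ ∧ (polyToΓ c U₀ x).Finite` (Zariski's main theorem).
-/

set_option autoImplicit false

namespace Fermat.Agent.S25.helper6392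

open CategoryTheory CategoryTheory.Limits AlgebraicGeometry
open Fermat.Agent.S25.helper7755 (toΓ polyToΓ)

universe u

section Abstract

variable {S C X₀ A : Scheme.{u}} (c : C ⟶ S) (a : A ⟶ S) (ι : X₀ ⟶ C) (φ : X₀ ⟶ A)
  (hφ : ι ≫ c = φ ≫ a)

/-- The graph-type morphism `X₀ ⟶ C ×ₛ A` of an open `X₀ ⊆ C` with a morphism `φ : X₀ ⟶ A`
is a closed immersion as soon as every point of `C ×ₛ A` lying over the complement of `X₀`
has an open neighbourhood missing the graph. -/
theorem isClosedImmersion_lift [IsSeparated a] [IsOpenImmersion ι]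
    (hN : ∀ z : ↥(pullback c a), (pullback.fst c a).base z ∉ Set.range ι.base →
      ∃ N : (pullback c a).Opens, z ∈ N ∧ (pullback.lift ι φ hφ) ⁻¹ᵁ N = ⊥) :
    IsClosedImmersion (pullback.lift ι φ hφ) := by
  choose N hzN hNe using hN
  let V : Option {z : ↥(pullback c a) // (pullback.fst c a).base z ∉ Set.range ι.base} →
      (pullback c a).Opens := fun o =>
    match o with
    | none => (pullback.fst c a) ⁻¹ᵁ ι.opensRange
    | some z => N z.1 z.2
  have hV : iSup V = ⊤ := by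
    rw [eq_top_iff]
    intro z _
    by_cases hz : (pullback.fst c a).base z ∈ Set.range ι.base
    · exact TopologicalSpace.Opens.mem_iSup.mpr ⟨none, hz⟩
    · exact TopologicalSpace.Opens.mem_iSup.mpr ⟨some ⟨z, hz⟩, hzN z hz⟩
  refine IsZariskiLocalAtTarget.of_iSup_eq_top (P := @IsClosedImmersion) V hV ?_
  rintro (_ | ⟨z, hz⟩)
  · -- over the open where the graph is a section of a separated morphism
    have h2 : IsIso (ι ∣_ ι.opensRange) := by
      apply isIso_of_isOpenImmersion_of_opensRange_eq_top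
      rw [eq_top_iff]
      rintro ⟨w, q, rfl⟩ _
      exact ⟨⟨q, ⟨q, rfl⟩⟩, Subtype.ext (morphismRestrict_base_coe ι ι.opensRange ⟨q, ⟨q, rfl⟩⟩)⟩
    have h3 : IsClosedImmersion ((pullback.lift ι φ hφ ≫ pullback.fst c a) ∣_ ι.opensRange) := by
      rw [pullback.lift_fst]; infer_instance
    rw [morphismRestrict_comp] at h3
    show IsClosedImmersion (pullback.lift ι φ hφ ∣_ ((pullback.fst c a) ⁻¹ᵁ ι.opensRange))
    exact @IsClosedImmersion.of_comp _ _ _ _ (pullback.fst c a ∣_ ι.opensRange) h3 inferInstance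
  · have : IsEmpty ((pullback.lift ι φ hφ) ⁻¹ᵁ N z hz).toScheme := by
      rw [hNe z hz]
      exact ⟨fun q => q.2⟩
    show IsClosedImmersion (pullback.lift ι φ hφ ∣_ N z hz)
    infer_instance

/-- In the situation of `isClosedImmersion_lift`, if `C` is proper over `S` then `φ` is proper. -/
theorem isProper_of_lift [IsSeparated a] [IsOpenImmersion ι] [IsProper c]
    (hN : ∀ z : ↥(pullback c a), (pullback.fst c a).base z ∉ Set.range ι.base →
      ∃ N : (pullback c a).Opens, z ∈ N ∧ (pullback.lift ι φ hφ) ⁻¹ᵁ N = ⊥) :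
    IsProper φ := by
  have := isClosedImmersion_lift c a ι φ hφ hN
  have h : pullback.lift ι φ hφ ≫ pullback.snd c a = φ := pullback.lift_snd _ _ _
  rw [← h]
  infer_instance

end Abstract

section Concrete

variable {k : Type u} [Field k] {C : Scheme.{u}} (c : C ⟶ Spec (CommRingCat.of k))
  (U₀ : C.Opens) (x : Γ(C, U₀))

/-- The structure morphism of the affine line over `k`. -/
noncomputable abbrev a1 (k : Type u) [Field k] :
    Spec (CommRingCat.of (Polynomial k)) ⟶ Spec (CommRingCat.of k) :=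
  Spec.map (CommRingCat.ofHom (Polynomial.C : k →+* Polynomial k))

/-- The morphism `U₀ ⟶ 𝔸¹` given by a section `x` over `U₀`. -/
noncomputable def chartMap : (U₀ : Scheme.{u}) ⟶ Spec (CommRingCat.of (Polynomial k)) :=
  U₀.toSpecΓ ≫ Spec.map (CommRingCat.ofHom (polyToΓ c U₀ x))

theorem ι_comp_eq : U₀.ι ≫ c = U₀.toSpecΓ ≫ Spec.map (CommRingCat.ofHom (toΓ c U₀)) := by
  have h : CommRingCat.ofHom (toΓ c U₀) =
      (Scheme.ΓSpecIso (CommRingCat.of k)).inv ≫ c.appTop ≫
        C.presheaf.map (homOfLE le_top).op := rfl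
  rw [h, Spec.map_comp, Spec.map_comp, Category.assoc,
    Scheme.Opens.toSpecΓ_SpecMap_presheaf_map_top_assoc,
    ← Scheme.toSpecΓ_naturality_assoc, toSpecΓ_SpecMap_ΓSpecIso_inv, Category.comp_id]

theorem chartMap_a1 : U₀.ι ≫ c = chartMap c U₀ x ≫ a1 k := by
  rw [ι_comp_eq, chartMap, Category.assoc, ← Spec.map_comp, ← CommRingCat.ofHom_comp]
  congr 3
  ext a
  simp [polyToΓ]

/-- The coordinate function of the affine line, as a global section. -/
noncomputable def coordX (k : Type u) [Field k] : Γ(Spec (CommRingCat.of (Polynomial k)), ⊤) :=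
  (Scheme.ΓSpecIso (CommRingCat.of (Polynomial k))).inv (Polynomial.X : Polynomial k)

theorem chartMap_appTop_coordX :
    (chartMap c U₀ x).appTop (coordX k) = U₀.topIso.inv x := by
  have h1 : (chartMap c U₀ x).appTop =
      (Scheme.ΓSpecIso (CommRingCat.of (Polynomial k))).hom ≫
        CommRingCat.ofHom (polyToΓ c U₀ x) ≫ U₀.topIso.inv := by
    rw [chartMap, Scheme.Hom.comp_appTop, Scheme.Opens.toSpecΓ_appTop,
      ← Category.assoc, Scheme.ΓSpecIso_naturality, Category.assoc]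
  rw [h1, coordX, CommRingCat.comp_apply, CommRingCat.comp_apply, Iso.inv_hom_id_apply]
  congr 1
  simp [polyToΓ]

theorem appLE_of_eq {X Y : Scheme.{u}} {f g : X ⟶ Y} (h : f = g) (U : Y.Opens) (V : X.Opens)
    (e : V ≤ f ⁻¹ᵁ U) : f.appLE U V e = g.appLE U V (h ▸ e) := by
  subst h; rfl

theorem appTop_comp_appLE {X Y Z : Scheme.{u}} (f : X ⟶ Y) (g : Y ⟶ Z) (W : X.Opens)
    (e : W ≤ f ⁻¹ᵁ ⊤) (e' : W ≤ (f ≫ g) ⁻¹ᵁ ⊤) :
    g.appTop ≫ f.appLE ⊤ W e = (f ≫ g).appLE ⊤ W e' := by
  simp only [Scheme.Hom.appLE, Scheme.Hom.appTop, Scheme.Hom.comp_app]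
  rfl

theorem presheaf_map_map_apply (X : Scheme.{u}) {U V W : X.Opens} (i : Opposite.op U ⟶ Opposite.op V)
    (j : Opposite.op V ⟶ Opposite.op W) (l : Opposite.op U ⟶ Opposite.op W) (s : Γ(X, U)) :
    X.presheaf.map j (X.presheaf.map i s) = X.presheaf.map l s := by
  have : i ≫ j = l := Subsingleton.elim _ _
  rw [← CommRingCat.comp_apply, ← Functor.map_comp, this]

variable (U₁ : C.Opens) (y : Γ(C, U₁))

/-- The key local computation: a point of `C ×ₖ 𝔸¹` over a pole of `x` has a neighbourhood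
missing the graph of `x`. -/
theorem exists_nbhd_of_not_mem
    (cover : U₀ ⊔ U₁ = ⊤) (hy : C.basicOpen y = U₀ ⊓ U₁)
    (xy : C.presheaf.map (homOfLE (inf_le_left : U₀ ⊓ U₁ ≤ U₀)).op x *
      C.presheaf.map (homOfLE (inf_le_right : U₀ ⊓ U₁ ≤ U₁)).op y = 1)
    (z : ↥(pullback c (a1 k))) (hz : (pullback.fst c (a1 k)).base z ∉ Set.range U₀.ι.base) :
    ∃ N : (pullback c (a1 k)).Opens, z ∈ N ∧
      (pullback.lift U₀.ι (chartMap c U₀ x) (chartMap_a1 c U₀ x)) ⁻¹ᵁ N = ⊥ := by
  have hz0 : (pullback.fst c (a1 k)).base z ∉ U₀ := by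
    rw [← SetLike.mem_coe, ← Scheme.Opens.range_ι]; exact hz
  have hz1 : (pullback.fst c (a1 k)).base z ∈ U₁ := by
    have : (pullback.fst c (a1 k)).base z ∈ U₀ ⊔ U₁ := by rw [cover]; trivial
    rcases this with h | h
    · exact absurd h hz0
    · exact h
  have hz1' : z ∈ (pullback.fst c (a1 k)) ⁻¹ᵁ U₁ := hz1
  set γ := pullback.lift U₀.ι (chartMap c U₀ x) (chartMap_a1 c U₀ x) with hγ
  let s : Γ(pullback c (a1 k), (pullback.fst c (a1 k)) ⁻¹ᵁ U₁) :=
    (pullback.fst c (a1 k)).app U₁ y *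
      (pullback c (a1 k)).presheaf.map (homOfLE le_top).op
        ((pullback.snd c (a1 k)).appTop (coordX k)) - 1
  refine ⟨(pullback c (a1 k)).basicOpen s, ?_, ?_⟩
  · rw [Scheme.mem_basicOpen _ _ _ hz1']
    have hnu : (pullback c (a1 k)).presheaf.germ _ z hz1' ((pullback.fst c (a1 k)).app U₁ y) ∈
        nonunits _ := by
      show ¬ IsUnit _
      rw [← Scheme.mem_basicOpen _ _ _ hz1', ← Scheme.preimage_basicOpen, hy]
      exact fun h => hz0 h.1
    simp only [s, map_sub, map_mul, map_one]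
    have h1 := IsLocalRing.isUnit_one_sub_self_of_mem_nonunits _
      (mul_mem_nonunits_left (b := (pullback c (a1 k)).presheaf.germ _ z hz1'
        ((pullback c (a1 k)).presheaf.map (homOfLE le_top).op
          ((pullback.snd c (a1 k)).appTop (coordX k)))) hnu)
    rw [← neg_sub]
    exact h1.neg
  · rw [Scheme.preimage_basicOpen, Scheme.Hom.app_eq_appLE]
    have H1 : (pullback.fst c (a1 k)).app U₁ ≫ γ.appLE ((pullback.fst c (a1 k)) ⁻¹ᵁ U₁)
        (γ ⁻¹ᵁ (pullback.fst c (a1 k)) ⁻¹ᵁ U₁) le_rfl =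
        U₀.ι.appLE U₁ (γ ⁻¹ᵁ (pullback.fst c (a1 k)) ⁻¹ᵁ U₁)
          (by rw [← Scheme.Hom.comp_preimage, hγ, pullback.lift_fst]) := by
      rw [Scheme.Hom.app_eq_appLE, Scheme.Hom.appLE_comp_appLE]
      exact appLE_of_eq (pullback.lift_fst _ _ _) _ _ _
    have H2 : (pullback.snd c (a1 k)).appTop ≫
        (pullback c (a1 k)).presheaf.map (homOfLE le_top).op ≫
          γ.appLE ((pullback.fst c (a1 k)) ⁻¹ᵁ U₁)
            (γ ⁻¹ᵁ (pullback.fst c (a1 k)) ⁻¹ᵁ U₁) le_rfl =
        (chartMap c U₀ x).appTop ≫ (U₀ : Scheme.{u}).presheaf.map (homOfLE le_top).op := by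
      have hγ2 : γ ≫ pullback.snd c (a1 k) = chartMap c U₀ x := pullback.lift_snd _ _ _
      have e' : γ ⁻¹ᵁ (pullback.fst c (a1 k)) ⁻¹ᵁ U₁ ≤ (γ ≫ pullback.snd c (a1 k)) ⁻¹ᵁ ⊤ :=
        fun _ _ => trivial
      rw [Scheme.Hom.map_appLE, appTop_comp_appLE _ _ _ _ e', appLE_of_eq hγ2]
      rfl
    have hγ1 : γ ≫ pullback.fst c (a1 k) = U₀.ι := pullback.lift_fst _ _ _
    have hW' : U₀.ι ''ᵁ (γ ⁻¹ᵁ (pullback.fst c (a1 k)) ⁻¹ᵁ U₁) ≤ U₀ ⊓ U₁ := by
      rintro _ ⟨q, hq, rfl⟩
      refine ⟨q.2, ?_⟩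
      have h : (γ ≫ pullback.fst c (a1 k)).base q ∈ U₁ := hq
      rw [hγ1] at h
      exact h
    have hs : γ.appLE ((pullback.fst c (a1 k)) ⁻¹ᵁ U₁)
        (γ ⁻¹ᵁ (pullback.fst c (a1 k)) ⁻¹ᵁ U₁) le_rfl s = 0 := by
      have e1 : γ.appLE ((pullback.fst c (a1 k)) ⁻¹ᵁ U₁)
          (γ ⁻¹ᵁ (pullback.fst c (a1 k)) ⁻¹ᵁ U₁) le_rfl ((pullback.fst c (a1 k)).app U₁ y) =
          C.presheaf.map (homOfLE (hW'.trans inf_le_right)).op y := by
        rw [← CommRingCat.comp_apply, H1, Scheme.Opens.ι_appLE]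
        rfl
      have e2 : γ.appLE ((pullback.fst c (a1 k)) ⁻¹ᵁ U₁)
          (γ ⁻¹ᵁ (pullback.fst c (a1 k)) ⁻¹ᵁ U₁) le_rfl
            ((pullback c (a1 k)).presheaf.map (homOfLE le_top).op
              ((pullback.snd c (a1 k)).appTop (coordX k))) =
          C.presheaf.map (homOfLE (hW'.trans inf_le_left)).op x := by
        rw [← CommRingCat.comp_apply, ← CommRingCat.comp_apply, H2, CommRingCat.comp_apply,
          chartMap_appTop_coordX, Scheme.Opens.toScheme_presheaf_map]
        exact presheaf_map_map_apply C _ _ _ x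
      have key := congrArg (C.presheaf.map (homOfLE hW').op) xy
      rw [map_mul, map_one,
        presheaf_map_map_apply C _ _ (homOfLE (hW'.trans inf_le_left)).op,
        presheaf_map_map_apply C _ _ (homOfLE (hW'.trans inf_le_right)).op] at key
      simp only [s, map_sub, map_mul, map_one]
      rw [e1, e2]
      exact sub_eq_zero.mpr ((mul_comm _ _).trans key)
    rw [hs, Scheme.basicOpen_zero]

end Concrete

section Fibre

variable {k : Type u} [Field k] [IsAlgClosed k]

/-- An element of a domain that is a root of a nonzero polynomial over an algebraically closed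
field is a constant. -/
theorem exists_eq_of_eval₂_eq_zero {A : Type*} [CommRing A] [IsDomain A] (f : k →+* A) (x : A)
    (P : Polynomial k) (hP : P ≠ 0) (h : P.eval₂ f x = 0) : ∃ a : k, x = f a := by
  have hs := IsAlgClosed.splits P
  rw [hs.eq_prod_roots, Polynomial.eval₂_mul, Polynomial.eval₂_C,
    ← Polynomial.coe_eval₂RingHom, map_multiset_prod, Multiset.map_map] at h
  rcases mul_eq_zero.mp h with h | h
  · exact absurd (f.injective (h.trans (map_zero f).symm)) (Polynomial.leadingCoeff_ne_zero.mpr hP)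
  · rw [Multiset.prod_eq_zero_iff, Multiset.mem_map] at h
    obtain ⟨a, -, ha⟩ := h
    refine ⟨a, ?_⟩
    simpa [sub_eq_zero] using ha

variable {C : Scheme.{u}} (c : C ⟶ Spec (CommRingCat.of k)) (U₀ : C.Opens) (x : Γ(C, U₀))
  [IsIntegral C] [Nonempty U₀]

/-- If `x` is not constant, the generic point of `U₀` does not map to a closed point of `𝔸¹`. -/
theorem not_isClosed_chartMap_genericPoint (hx : ∀ a : k, x ≠ toΓ c U₀ a) :
    ¬ IsClosed ({(chartMap c U₀ x).base (genericPoint (U₀ : Scheme.{u}))} :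
      Set (Spec (CommRingCat.of (Polynomial k)))) := by
  intro hcl
  set q : PrimeSpectrum (Polynomial k) :=
    (chartMap c U₀ x).base (genericPoint (U₀ : Scheme.{u})) with hq
  have hmax : q.asIdeal.IsMaximal := (PrimeSpectrum.isClosed_singleton_iff_isMaximal q).mp hcl
  have hne : q.asIdeal ≠ ⊥ :=
    Ring.ne_bot_of_isMaximal_of_not_isField hmax (Polynomial.not_isField k)
  obtain ⟨P, hPq, hP0⟩ := Submodule.exists_mem_ne_zero_of_ne_bot hne
  have hψP : polyToΓ c U₀ x P = 0 := by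
    by_contra hne0
    have h1 : C.basicOpen (polyToΓ c U₀ x P) ≠ ⊥ := fun h => hne0 ((basicOpen_eq_bot_iff _).mp h)
    have h2 : genericPoint C ∈ C.basicOpen (polyToΓ c U₀ x P) := by
      rw [← SetLike.mem_coe, (genericPoint_spec C).mem_open_set_iff (C.basicOpen _).isOpen,
        Set.univ_inter]
      exact (TopologicalSpace.Opens.ne_bot_iff_nonempty _).mp h1
    have h3 : U₀.ι.base (genericPoint (U₀ : Scheme.{u})) = genericPoint C :=
      genericPoint_eq_of_isOpenImmersion U₀.ι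
    have h4 : genericPoint (U₀ : Scheme.{u}) ∈ U₀.ι ⁻¹ᵁ C.basicOpen (polyToΓ c U₀ x P) := by
      rw [← h3] at h2; exact h2
    rw [← Scheme.Opens.toSpecΓ_preimage_basicOpen] at h4
    exact h4 hPq
  obtain ⟨a, ha⟩ := exists_eq_of_eval₂_eq_zero (toΓ c U₀) x P hP0 hψP
  exact hx a ha

variable [IsProper c] [SmoothOfRelativeDimension 1 c]

/-- The fibres of `x : U₀ ⟶ 𝔸¹` are finite when `x` is not constant. -/
theorem finite_preimage_chartMap [IsProper (chartMap c U₀ x)] (hx : ∀ a : k, x ≠ toΓ c U₀ a)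
    (q : Spec (CommRingCat.of (Polynomial k))) :
    ((chartMap c U₀ x).base ⁻¹' {q}).Finite := by
  have : Smooth c := SmoothOfRelativeDimension.smooth 1 c
  have : IsLocallyNoetherian C := LocallyOfFiniteType.isLocallyNoetherian c
  have : CompactSpace C := QuasiCompact.compactSpace_of_compactSpace c
  have : IsNoetherian C := {}
  have hsm : SmoothOfRelativeDimension 1 (U₀.ι ≫ c) :=
    smoothOfRelativeDimension_comp (n := 0) (m := 1) U₀.ι c
  have : TopologicalSpace.NoetherianSpace (U₀ : Scheme.{u}) :=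
    inferInstanceAs (TopologicalSpace.NoetherianSpace (U₀ : Set C))
  by_cases hq : IsClosed ({q} : Set (Spec (CommRingCat.of (Polynomial k))))
  · have hF : IsClosed ((chartMap c U₀ x).base ⁻¹' {q}) := hq.preimage (chartMap c U₀ x).continuous
    have hη : genericPoint (U₀ : Scheme.{u}) ∉ (chartMap c U₀ x).base ⁻¹' {q} := by
      intro h
      apply not_isClosed_chartMap_genericPoint c U₀ x hx
      rw [show (chartMap c U₀ x).base (genericPoint (U₀ : Scheme.{u})) = q from h]
      exact hq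
    exact helper9237.finite_of_isClosed_of_genericPoint_notMem k (U₀.ι ≫ c) _ hF hη
  · refine (Set.finite_singleton (genericPoint (U₀ : Scheme.{u}))).subset ?_
    intro p hp
    by_contra hpη
    have hpc := helper9237.isClosed_singleton_of_ne_genericPoint k (U₀.ι ≫ c) p hpη
    have h := (chartMap c U₀ x).isClosedMap _ hpc
    rw [Set.image_singleton, show (chartMap c U₀ x).base p = q from hp] at h
    exact hq h

end Fibre

section Main

variable {k : Type u} [Field k] [IsAlgClosed k] {C : Scheme.{u}}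
  (c : C ⟶ Spec (CommRingCat.of k)) (U₀ U₁ : C.Opens) (x : Γ(C, U₀)) (y : Γ(C, U₁))

omit [IsAlgClosed k] in
/-- `x : U₀ ⟶ 𝔸¹` is proper. -/
theorem isProper_chartMap [IsProper c]
    (cover : U₀ ⊔ U₁ = ⊤) (hy : C.basicOpen y = U₀ ⊓ U₁)
    (xy : C.presheaf.map (homOfLE (inf_le_left : U₀ ⊓ U₁ ≤ U₀)).op x *
      C.presheaf.map (homOfLE (inf_le_right : U₀ ⊓ U₁ ≤ U₁)).op y = 1) :
    IsProper (chartMap c U₀ x) :=
  isProper_of_lift c (a1 k) U₀.ι (chartMap c U₀ x) (chartMap_a1 c U₀ x)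
    (fun z hz => exists_nbhd_of_not_mem c U₀ x U₁ y cover hy xy z hz)

/-- **The abstract chart lemma.** `U₀` is affine and `Γ(C, U₀)` is finite over `k[x]`. -/
theorem chart_finite [IsProper c] [SmoothOfRelativeDimension 1 c] [IsIntegral C] [Nonempty U₀]
    (cover : U₀ ⊔ U₁ = ⊤) (hy : C.basicOpen y = U₀ ⊓ U₁)
    (xy : C.presheaf.map (homOfLE (inf_le_left : U₀ ⊓ U₁ ≤ U₀)).op x *
      C.presheaf.map (homOfLE (inf_le_right : U₀ ⊓ U₁ ≤ U₁)).op y = 1)
    (hx : ∀ a : k, x ≠ toΓ c U₀ a) :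
    IsAffineOpen U₀ ∧ (polyToΓ c U₀ x).Finite := by
  have hprop : IsProper (chartMap c U₀ x) := isProper_chartMap c U₀ U₁ x y cover hy xy
  have hqf : LocallyQuasiFinite (chartMap c U₀ x) :=
    LocallyQuasiFinite.of_finite_preimage_singleton _
      (fun q => finite_preimage_chartMap c U₀ x hx q)
  have hfin : IsFinite (chartMap c U₀ x) := IsFinite.of_isProper_of_locallyQuasiFinite _
  have haff : IsAffine (U₀ : Scheme.{u}) := isAffine_of_isAffineHom (chartMap c U₀ x)
  have hf : (chartMap c U₀ x).appTop.hom.Finite :=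
    IsFinite.finite_app (chartMap c U₀ x) ⊤ (isAffineOpen_top _)
  refine ⟨haff, ?_⟩
  have h1 : (chartMap c U₀ x).appTop =
      (Scheme.ΓSpecIso (CommRingCat.of (Polynomial k))).hom ≫
        CommRingCat.ofHom (polyToΓ c U₀ x) ≫ U₀.topIso.inv := by
    rw [chartMap, Scheme.Hom.comp_appTop, Scheme.Opens.toSpecΓ_appTop,
      ← Category.assoc, Scheme.ΓSpecIso_naturality, Category.assoc]
  have h2 : CommRingCat.ofHom (polyToΓ c U₀ x) =
      (Scheme.ΓSpecIso (CommRingCat.of (Polynomial k))).inv ≫ (chartMap c U₀ x).appTop ≫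
        U₀.topIso.hom := by
    rw [h1, Category.assoc, Category.assoc, Iso.inv_hom_id, Category.comp_id,
      Iso.inv_hom_id_assoc]
  have h3 : polyToΓ c U₀ x = (U₀.topIso.hom.hom.comp (chartMap c U₀ x).appTop.hom).comp
      (Scheme.ΓSpecIso (CommRingCat.of (Polynomial k))).inv.hom :=
    congrArg CommRingCat.Hom.hom h2
  rw [h3]
  refine RingHom.Finite.comp (RingHom.Finite.comp ?_ hf) ?_
  · exact RingHom.Finite.of_surjective _ (ConcreteCategory.bijective_of_isIso U₀.topIso.hom).2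
  · exact RingHom.Finite.of_surjective _
      (ConcreteCategory.bijective_of_isIso
        (Scheme.ΓSpecIso (CommRingCat.of (Polynomial k))).inv).2

end Main

end Fermat.Agent.S25.helper6392
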