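import Mathlib

/-!
# S25, layer A (curve datum), brick A1: local rings of a smooth curve at rational points are DVRs

Mathlib-only, statement-agnostic.

* `cotangent_gen` : for a `k`-algebra `A`, standard smooth of relative dimension one, and an ideal
  `m` with `k → A ⧸ m` surjective, there is `t ∈ m` with `m ≤ (t) ⊔ m ^ 2`
  (conormal sequence of `A → A ⧸ m`, which is split because `A ⧸ m = k`).
* `isDiscreteValuationRing_of_isLocalization` : if moreover `A` is a domain and `m` is maximal,
  every localization of `A` at `m` is a discrete valuation ring.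
* `isDedekindDomain_of_isStandardSmooth` : over an algebraically closed field such an `A` is a
  Dedekind domain.
* scheme level, for `c : C ⟶ Spec k` smooth of relative dimension one, `C` integral, `k`
  algebraically closed: `isDedekindDomain_stalk`, `valuationRing_stalk`,
  `isNoetherianRing_of_isAffineOpen`, `isDedekindDomain_of_isAffineOpen`.
-/

set_option autoImplicit false

namespace Fermat.Agent.S25.helper6392

open KaehlerDifferential TensorProduct

section Algebra

variable (k : Type*) (A : Type*) [Field k] [CommRing A] [Algebra k A]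

/-- Conormal sequence at a rational point: the map `m/m² → (A/m) ⊗ Ω[A/k]` is injective
as soon as `k → A/m` is surjective. -/
theorem kerCotangentToTensor_injective_of_surjective (m : Ideal A) (hm1 : m ≠ ⊤)
    (hm : Function.Surjective (algebraMap k (A ⧸ m))) :
    Function.Injective (kerCotangentToTensor k A (A ⧸ m)) := by
  have : Nontrivial (A ⧸ m) := Ideal.Quotient.nontrivial_iff.mpr hm1
  have hf : Function.Surjective (algebraMap A (A ⧸ m)) := Ideal.Quotient.mk_surjective
  have hbij : Function.Bijective (Algebra.ofId k (A ⧸ m)) :=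
    ⟨(algebraMap k (A ⧸ m)).injective, hm⟩
  let e : k ≃ₐ[k] (A ⧸ m) := AlgEquiv.ofBijective (Algebra.ofId k (A ⧸ m)) hbij
  let g : (A ⧸ m) →ₐ[k] A ⧸ RingHom.ker (IsScalarTower.toAlgHom k A (A ⧸ m)).toRingHom ^ 2 :=
    (Algebra.ofId k _).comp e.symm.toAlgHom
  have hg : (IsScalarTower.toAlgHom k A (A ⧸ m)).kerSquareLift.comp g = AlgHom.id k (A ⧸ m) := by
    ext b
    obtain ⟨c, rfl⟩ := hm b
    simp only [AlgHom.commutes]
  obtain ⟨l, hl⟩ := (retractionKerCotangentToTensorEquivSection (R := k) hf).symm ⟨g, hg⟩
  intro a b hab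
  have := congrArg l hab
  rwa [← LinearMap.comp_apply, ← LinearMap.comp_apply, hl] at this

/-- Conormal sequence at a rational point: the map `m/m² → (A/m) ⊗ Ω[A/k]` is surjective
as soon as `k → A/m` is surjective. -/
theorem kerCotangentToTensor_surjective_of_surjective (m : Ideal A)
    (hm : Function.Surjective (algebraMap k (A ⧸ m))) :
    Function.Surjective (kerCotangentToTensor k A (A ⧸ m)) := by
  have hf : Function.Surjective (algebraMap A (A ⧸ m)) := Ideal.Quotient.mk_surjective
  have hsub : Subsingleton Ω[(A ⧸ m)⁄k] := KaehlerDifferential.subsingleton_of_surjective k _ hm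
  intro z
  exact ((exact_kerCotangentToTensor_mapBaseChange k A (A ⧸ m) hf) z).mp (Subsingleton.elim _ _)

/-- At a rational point of a smooth curve, the maximal ideal is generated by one element
modulo its square. -/
theorem cotangent_gen [Algebra.IsStandardSmoothOfRelativeDimension 1 k A]
    (m : Ideal A) (hm1 : m ≠ ⊤) (hm : Function.Surjective (algebraMap k (A ⧸ m))) :
    ∃ t ∈ m, m ≤ Ideal.span {t} ⊔ m ^ 2 := by
  have : Nontrivial A := ⟨⟨0, 1, fun h => hm1 ((Ideal.eq_top_iff_one m).mpr (h ▸ m.zero_mem))⟩⟩
  have hinj := kerCotangentToTensor_injective_of_surjective k A m hm1 hm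
  have hsurj := kerCotangentToTensor_surjective_of_surjective k A m hm
  have hI : RingHom.ker (algebraMap A (A ⧸ m)) = m := Ideal.mk_ker
  have hrank : Module.rank A Ω[A⁄k] = 1 := by
    simpa using Algebra.IsStandardSmoothOfRelativeDimension.rank_kaehlerDifferential (R := k) (S := A) 1
  have : Algebra.IsStandardSmooth k A :=
    Algebra.IsStandardSmoothOfRelativeDimension.isStandardSmooth 1
  obtain ⟨ω₀, -, hω₀⟩ := rank_eq_one_iff.mp hrank
  obtain ⟨c, hc⟩ := hsurj (1 ⊗ₜ ω₀)
  obtain ⟨⟨t, ht⟩, rfl⟩ := Ideal.toCotangent_surjective _ c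
  have ht' : t ∈ m := by rw [← hI]; exact ht
  refine ⟨t, ht', fun s hs => ?_⟩
  have hs' : s ∈ RingHom.ker (algebraMap A (A ⧸ m)) := by rw [hI]; exact hs
  obtain ⟨r, hr⟩ := hω₀ (D k A s)
  have h1 : kerCotangentToTensor k A (A ⧸ m) (Ideal.toCotangent _ ⟨s, hs'⟩) =
      kerCotangentToTensor k A (A ⧸ m) (r • Ideal.toCotangent _ ⟨t, ht⟩) := by
    rw [map_smul, hc, kerCotangentToTensor_toCotangent, ← hr, TensorProduct.tmul_smul]
  have h2 := hinj h1
  rw [← map_smul, Ideal.toCotangent_eq] at h2
  have h3 : s - r * t ∈ m ^ 2 := by simpa [hI] using h2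
  have h4 : s = r * t + (s - r * t) := by ring
  rw [h4]
  exact Ideal.add_mem _ (Ideal.mem_sup_left (Ideal.mem_span_singleton'.mpr ⟨r, rfl⟩))
    (Ideal.mem_sup_right h3)

/-- **Local rings of a smooth curve at rational points are discrete valuation rings**
(algebraic form). -/
theorem isDiscreteValuationRing_of_isLocalization [IsDomain A]
    [Algebra.IsStandardSmoothOfRelativeDimension 1 k A]
    (m : Ideal A) [hmax : m.IsMaximal] (hm : Function.Surjective (algebraMap k (A ⧸ m)))
    (Aₘ : Type*) [CommRing Aₘ] [IsDomain Aₘ] [Algebra A Aₘ] [IsLocalization.AtPrime Aₘ m] :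
    IsDiscreteValuationRing Aₘ := by
  have : Algebra.IsStandardSmooth k A :=
    Algebra.IsStandardSmoothOfRelativeDimension.isStandardSmooth 1
  have : IsNoetherianRing A := Algebra.FiniteType.isNoetherianRing k A
  have : IsNoetherianRing Aₘ := IsLocalization.isNoetherianRing m.primeCompl Aₘ inferInstance
  have : IsLocalRing Aₘ := IsLocalization.AtPrime.isLocalRing Aₘ m
  have hinjloc : Function.Injective (algebraMap A Aₘ) :=
    IsLocalization.injective (M := m.primeCompl) Aₘ m.primeCompl_le_nonZeroDivisors
  have hmap : Ideal.map (algebraMap A Aₘ) m = IsLocalRing.maximalIdeal Aₘ :=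
    IsLocalization.AtPrime.map_eq_maximalIdeal m Aₘ
  -- `Aₘ` is not a field
  have hnf : ¬ IsField Aₘ := by
    intro hF
    have hbot : IsLocalRing.maximalIdeal Aₘ = ⊥ := IsLocalRing.isField_iff_maximalIdeal_eq.mp hF
    have hmbot : m = ⊥ := by
      rw [eq_bot_iff]
      intro a ha
      have : algebraMap A Aₘ a ∈ IsLocalRing.maximalIdeal Aₘ := hmap ▸ Ideal.mem_map_of_mem _ ha
      rw [hbot, Ideal.mem_bot] at this
      exact (Ideal.mem_bot).mpr (hinjloc (this.trans (map_zero _).symm))
    have hsA : Function.Surjective (algebraMap k A) := by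
      intro a
      obtain ⟨c, hc⟩ := hm (Ideal.Quotient.mk m a)
      refine ⟨c, ?_⟩
      have : Ideal.Quotient.mk m (algebraMap k A c) = Ideal.Quotient.mk m a := hc
      rw [Ideal.Quotient.eq, hmbot, Ideal.mem_bot, sub_eq_zero] at this
      exact this
    have hsub : Subsingleton Ω[A⁄k] := KaehlerDifferential.subsingleton_of_surjective k A hsA
    have hrank : Module.rank A Ω[A⁄k] = 1 := by
      simpa using
        Algebra.IsStandardSmoothOfRelativeDimension.rank_kaehlerDifferential (R := k) (S := A) 1
    rw [rank_subsingleton'] at hrank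
    exact zero_ne_one hrank
  obtain ⟨t, htm, hle⟩ := cotangent_gen k A m hmax.ne_top hm
  have hle' : IsLocalRing.maximalIdeal Aₘ ≤
      Ideal.span {algebraMap A Aₘ t} ⊔
        IsLocalRing.maximalIdeal Aₘ • IsLocalRing.maximalIdeal Aₘ := by
    calc IsLocalRing.maximalIdeal Aₘ = Ideal.map (algebraMap A Aₘ) m := hmap.symm
      _ ≤ Ideal.map (algebraMap A Aₘ) (Ideal.span {t} ⊔ m ^ 2) := Ideal.map_mono hle
      _ = _ := by
        rw [Ideal.map_sup, Ideal.map_span, Set.image_singleton, Ideal.map_pow, hmap, pow_two,
          smul_eq_mul]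
  have hfg : (IsLocalRing.maximalIdeal Aₘ).FG := IsNoetherian.noetherian _
  have hjac : IsLocalRing.maximalIdeal Aₘ ≤ Ideal.jacobson ⊥ :=
    (IsLocalRing.jacobson_eq_maximalIdeal ⊥ bot_ne_top).ge
  have hle'' := Submodule.le_of_le_smul_of_le_jacobson_bot hfg hjac hle'
  have hmem : algebraMap A Aₘ t ∈ IsLocalRing.maximalIdeal Aₘ :=
    hmap ▸ Ideal.mem_map_of_mem _ htm
  have hprinc : (IsLocalRing.maximalIdeal Aₘ).IsPrincipal :=
    ⟨⟨algebraMap A Aₘ t, le_antisymm hle'' ((Ideal.span_singleton_le_iff_mem _).mpr hmem)⟩⟩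
  exact ((IsDiscreteValuationRing.TFAE Aₘ hnf).out 4 0).mp hprinc

/-- Over an algebraically closed field, every maximal ideal of a finite type algebra is rational. -/
theorem algebraMap_quotient_surjective_of_isAlgClosed [IsAlgClosed k] [Algebra.FiniteType k A]
    (m : Ideal A) [hmax : m.IsMaximal] : Function.Surjective (algebraMap k (A ⧸ m)) := by
  let _ : Field (A ⧸ m) := Ideal.Quotient.field m
  have : Algebra.FiniteType k (A ⧸ m) :=
    Algebra.FiniteType.of_surjective (Ideal.Quotient.mkₐ k m) (Ideal.Quotient.mkₐ_surjective k m)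
  have : Module.Finite k (A ⧸ m) := finite_of_finite_type_of_isJacobsonRing k (A ⧸ m)
  have : Algebra.IsIntegral k (A ⧸ m) := Algebra.IsIntegral.of_finite k (A ⧸ m)
  exact (IsAlgClosed.algebraMap_bijective_of_isIntegral (k := k) (K := A ⧸ m)).2

/-- **A smooth affine curve over an algebraically closed field has a Dedekind coordinate ring.** -/
theorem isDedekindDomain_of_isStandardSmooth [IsAlgClosed k] [IsDomain A]
    [Algebra.IsStandardSmoothOfRelativeDimension 1 k A] : IsDedekindDomain A := by
  have : Algebra.IsStandardSmooth k A :=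
    Algebra.IsStandardSmoothOfRelativeDimension.isStandardSmooth 1
  have hN : IsNoetherianRing A := Algebra.FiniteType.isNoetherianRing k A
  have : IsDedekindDomainDvr A := by
    refine { toIsNoetherian := hN, is_dvr_at_nonzero_prime := ?_ }
    intro P hP0 hPprime
    obtain ⟨m, hmmax, hPm⟩ := Ideal.exists_le_maximal P hPprime.ne_top
    have hm : Function.Surjective (algebraMap k (A ⧸ m)) :=
      algebraMap_quotient_surjective_of_isAlgClosed k A m
    have hdvr : IsDiscreteValuationRing (Localization.AtPrime m) :=
      isDiscreteValuationRing_of_isLocalization k A m hm _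
    have hdisj : Disjoint (m.primeCompl : Set A) (P : Set A) := by
      rw [Set.disjoint_left]
      intro a ha haP
      exact ha (hPm haP)
    have hQprime : (Ideal.map (algebraMap A (Localization.AtPrime m)) P).IsPrime :=
      IsLocalization.isPrime_of_isPrime_disjoint m.primeCompl _ P hPprime hdisj
    have hinj : Function.Injective (algebraMap A (Localization.AtPrime m)) :=
      IsLocalization.injective (M := m.primeCompl) _ m.primeCompl_le_nonZeroDivisors
    have hQ0 : Ideal.map (algebraMap A (Localization.AtPrime m)) P ≠ ⊥ := by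
      intro h
      apply hP0
      rw [eq_bot_iff]
      intro a ha
      have : algebraMap A (Localization.AtPrime m) a ∈
          Ideal.map (algebraMap A (Localization.AtPrime m)) P := Ideal.mem_map_of_mem _ ha
      rw [h, Ideal.mem_bot] at this
      exact (Ideal.mem_bot).mpr (hinj (this.trans (map_zero _).symm))
    have hQmax := Ring.DimensionLEOne.maximalOfPrime hQ0 hQprime
    have hQ : Ideal.map (algebraMap A (Localization.AtPrime m)) P =
        Ideal.map (algebraMap A (Localization.AtPrime m)) m := by
      rw [IsLocalRing.eq_maximalIdeal hQmax, Localization.AtPrime.map_eq_maximalIdeal]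
    have hPeq : P = m := by
      have h1 := IsLocalization.under_map_of_isPrime_disjoint m.primeCompl
        (Localization.AtPrime m) hPprime hdisj
      have h2 := IsLocalization.under_map_of_isPrime_disjoint m.primeCompl
        (Localization.AtPrime m) hmmax.isPrime (Set.disjoint_left.mpr fun a ha ham => ha ham)
      rw [← h1, hQ, h2]
    subst hPeq
    exact hdvr
  exact IsDedekindDomainDvr.isDedekindDomain A

end Algebra

open AlgebraicGeometry CategoryTheory

universe u

section Scheme

variable {k : Type u} [Field k] {C : Scheme.{u}} (c : C ⟶ Spec (CommRingCat.of k))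

/-- The ring isomorphism `k ≃ Γ(Spec k, ⊤)`. -/
noncomputable def kEquivΓ (k : Type u) [Field k] : k ≃+* Γ(Spec (CommRingCat.of k), ⊤) :=
  (Scheme.ΓSpecIso (CommRingCat.of k)).symm.commRingCatIsoToRingEquiv

/-- The structure map `k → Γ(C, V)` of a `k`-scheme. -/
noncomputable def structureHom (V : C.Opens) : k →+* Γ(C, V) :=
  (c.appLE ⊤ V (fun _ _ => trivial)).hom.comp (kEquivΓ k).toRingHom

theorem opens_spec_field_eq_top (U : (Spec (CommRingCat.of k)).Opens)
    (y : Spec (CommRingCat.of k)) (hy : y ∈ U) : U = ⊤ := by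
  ext z
  have : z = y := Subsingleton.elim (α := PrimeSpectrum k) z y
  simp [this, hy]

/-- Standard smooth charts of relative dimension one over the base field. -/
theorem exists_chart [SmoothOfRelativeDimension 1 c] (x : C) :
    ∃ V : C.Opens, IsAffineOpen V ∧ x ∈ V ∧
      (structureHom c V).IsStandardSmoothOfRelativeDimension 1 := by
  obtain ⟨U, hU, V, hV, hxV, e, hstd⟩ :=
    SmoothOfRelativeDimension.exists_isStandardSmoothOfRelativeDimension (n := 1) (f := c) x
  have hUtop : U = ⊤ := opens_spec_field_eq_top U (c x) (e hxV)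
  subst hUtop
  exact ⟨V, hV, hxV,
    RingHom.isStandardSmoothOfRelativeDimension_respectsIso.2 _ (kEquivΓ k) hstd⟩

variable [IsAlgClosed k] [SmoothOfRelativeDimension 1 c] [IsIntegral C]

include c

/-- Stalks of a smooth integral curve over an algebraically closed field are Dedekind domains
(so: fields or discrete valuation rings). -/
theorem isDedekindDomain_stalk (x : C) : IsDedekindDomain (C.presheaf.stalk x) := by
  obtain ⟨V, hV, hxV, hstd⟩ := exists_chart c x
  have : Nonempty V := ⟨⟨x, hxV⟩⟩
  let _ : Algebra k Γ(C, V) := (structureHom c V).toAlgebra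
  have : Algebra.IsStandardSmoothOfRelativeDimension 1 k Γ(C, V) := hstd
  have hD : IsDedekindDomain Γ(C, V) := isDedekindDomain_of_isStandardSmooth k Γ(C, V)
  let _ := C.presheaf.algebra_section_stalk (⟨x, hxV⟩ : V)
  have := hV.isLocalization_stalk ⟨x, hxV⟩
  exact IsLocalization.AtPrime.isDedekindDomain Γ(C, V) (hV.primeIdealOf ⟨x, hxV⟩).asIdeal _

/-- Stalks of a smooth integral curve over an algebraically closed field are valuation rings. -/
theorem valuationRing_stalk (x : C) : ValuationRing (C.presheaf.stalk x) := by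
  have hD := isDedekindDomain_stalk c x
  exact ((tfae_of_isNoetherianRing_of_isLocalRing_of_isDomain (C.presheaf.stalk x)).out 2 1).mp hD

omit [IsAlgClosed k] [IsIntegral C] in
/-- Affine coordinate rings of a finite type `k`-scheme are noetherian. -/
theorem isNoetherianRing_of_isAffineOpen (W : C.Opens) (hW : IsAffineOpen W) :
    IsNoetherianRing Γ(C, W) := by
  have : Smooth c := SmoothOfRelativeDimension.smooth 1 c
  have hft := LocallyOfFiniteType.finiteType_appLE c (isAffineOpen_top _) hW
    (fun _ _ => trivial : W ≤ c ⁻¹ᵁ ⊤)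
  have : IsNoetherianRing Γ(Spec (CommRingCat.of k), ⊤) :=
    isNoetherianRing_of_ringEquiv k (kEquivΓ k)
  algebraize [(c.appLE ⊤ W (fun _ _ => trivial)).hom]
  exact Algebra.FiniteType.isNoetherianRing Γ(Spec (CommRingCat.of k), ⊤) Γ(C, W)

/-- **Affine coordinate rings of a smooth integral curve over an algebraically closed field are
Dedekind domains.** -/
theorem isDedekindDomain_of_isAffineOpen (W : C.Opens) (hW : IsAffineOpen W) [Nonempty W] :
    IsDedekindDomain Γ(C, W) := by
  have hN : IsNoetherianRing Γ(C, W) := isNoetherianRing_of_isAffineOpen c W hW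
  have : IsDedekindDomainDvr Γ(C, W) := by
    refine { toIsNoetherian := hN, is_dvr_at_nonzero_prime := ?_ }
    intro P hP0 hPprime
    let y : PrimeSpectrum Γ(C, W) := ⟨P, hPprime⟩
    have hy : hW.fromSpec y ∈ W := (hW.isoSpec.inv y).2
    let _ := TopCat.Presheaf.algebra_section_stalk C.presheaf ⟨hW.fromSpec y, hy⟩
    have hloc : IsLocalization.AtPrime (C.presheaf.stalk (hW.fromSpec y)) P :=
      hW.isLocalization_stalk' y hy
    have hD := isDedekindDomain_stalk c (hW.fromSpec y)
    have hnf : ¬ IsField (C.presheaf.stalk (hW.fromSpec y)) :=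
      IsLocalization.AtPrime.not_isField Γ(C, W) hP0 _
    have hdvr : IsDiscreteValuationRing (C.presheaf.stalk (hW.fromSpec y)) :=
      ((IsDiscreteValuationRing.TFAE _ hnf).out 2 0).mp hD
    exact IsDiscreteValuationRing.RingEquivClass.isDiscreteValuationRing
      (IsLocalization.algEquiv P.primeCompl (C.presheaf.stalk (hW.fromSpec y))
        (Localization.AtPrime P))
  exact IsDedekindDomainDvr.isDedekindDomain _

end Scheme

end Fermat.Agent.S25.helper6392
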