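import Mathlib

/-!
# S25 brick VX (helper9471): the existence part of the valuative criterion may be tested on
valuation rings whose fraction field is algebraically closed

Mathlib's `ValuativeCriterion.Existence f` asks for a lift in EVERY valuative square
(`R` a valuation ring, `K = Frac R`).  For the Jacobian the natural argument produces the lift
only when `K` is algebraically closed (then every degree-zero line bundle is `O(Σ Pᵢ - Σ Qᵢ)`
with `K`-rational points, and points of a proper curve extend over the valuation ring).
This file shows that this is enough: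

* `ExistenceAC f` : every valuative square with algebraically closed `K` has a lift;
* `ExistenceAC.existence` : `ExistenceAC f → ValuativeCriterion.Existence f`;
* `ExistenceAC.universallyClosed` : with `[QuasiCompact f]`, `f` is universally closed.

Only Mathlib is imported; the statement is independent of the rest of the S25 project.
-/

set_option autoImplicit false

universe u

open CategoryTheory CategoryTheory.Limits AlgebraicGeometry

namespace Fermat.Agent.S25.helper9471

/-- The existence part of the valuative criterion, restricted to valuative squares whose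
field of fractions is algebraically closed. -/
def ExistenceAC {X Y : Scheme.{u}} (f : X ⟶ Y) : Prop :=
  ∀ S : ValuativeCommSq f, IsAlgClosed S.K → S.commSq.HasLift

namespace ExistenceAC

variable {X Y : Scheme.{u}}

/-- `ExistenceAC` is stable under base change. -/
theorem of_isPullback {X' Y' : Scheme.{u}} {f : X ⟶ Y} {f' : X' ⟶ Y'} {g' : X' ⟶ X}
    {g : Y' ⟶ Y} (hP : IsPullback g' f' f g) (hf : ExistenceAC f) : ExistenceAC f' := by
  intro commSq hK
  let commSq' : ValuativeCommSq f :=
  { R := commSq.R
    K := commSq.K
    i₁ := commSq.i₁ ≫ g'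
    i₂ := commSq.i₂ ≫ g
    commSq := ⟨by simp only [Category.assoc, hP.w, reassoc_of% commSq.commSq.w]⟩ }
  obtain ⟨l₀, hl₁, hl₂⟩ := (hf commSq' hK).exists_lift
  refine ⟨⟨⟨hP.lift l₀ commSq.i₂ (by simp_all only [commSq']), ?_, hP.lift_snd _ _ _⟩⟩⟩
  apply hP.hom_ext
  · simpa
  · simp only [Category.assoc]
    rw [hP.lift_snd]
    rw [commSq.commSq.w]

open IsLocalRing in
set_option backward.isDefEq.respectTransparency.types false in
/-- A morphism satisfying `ExistenceAC` is specializing. -/
theorem specializingMap {f : X ⟶ Y} (H : ExistenceAC f) : SpecializingMap f := by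
  intro x' y h
  let Ω : Type u := AlgebraicClosure (X.residueField x')
  let toΩ : X.residueField x' ⟶ CommRingCat.of Ω :=
    CommRingCat.ofHom (algebraMap (X.residueField x') Ω)
  let stalk_y_to_Ω : Y.presheaf.stalk y ⟶ CommRingCat.of Ω :=
    Y.presheaf.stalkSpecializes h ≫ f.stalkMap x' ≫ X.residue x' ≫ toΩ
  obtain ⟨A, hA, hA_local⟩ := exists_factor_valuationRing stalk_y_to_Ω.hom
  let stalk_y_to_A : Y.presheaf.stalk y ⟶ .of A :=
    CommRingCat.ofHom (stalk_y_to_Ω.hom.codRestrict _ hA)
  have w : (Spec.map toΩ ≫ X.fromSpecResidueField x') ≫ f =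
      Spec.map (CommRingCat.ofHom (algebraMap A Ω)) ≫
        Spec.map stalk_y_to_A ≫ Y.fromSpecStalk y := by
    rw [Scheme.fromSpecResidueField, Category.assoc, Category.assoc,
      ← Scheme.SpecMap_stalkMap_fromSpecStalk,
      ← Scheme.SpecMap_stalkSpecializes_fromSpecStalk h]
    simp_rw [← Spec.map_comp_assoc]
    rfl
  obtain ⟨l, hl₁, hl₂⟩ :=
    (H { R := A, K := Ω, commSq := ⟨w⟩, .. } (inferInstanceAs (IsAlgClosed Ω))).exists_lift
  dsimp only at hl₁ hl₂
  refine ⟨l (closedPoint A), ?_, ?_⟩
  · have hx' : (Spec.map toΩ ≫ X.fromSpecResidueField x') (closedPoint Ω) = x' := by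
      rw [Scheme.Hom.comp_apply]
      exact Scheme.fromSpecResidueField_apply x' _
    have e1 : l (Spec.map (CommRingCat.ofHom (algebraMap A Ω)) (closedPoint Ω)) = x' := by
      rw [← Scheme.Hom.comp_apply, hl₁]
      exact hx'
    have key : l (Spec.map (CommRingCat.ofHom (algebraMap A Ω)) (closedPoint Ω)) ⤳
        l (closedPoint A) :=
      (specializes_closedPoint _).map l.continuous
    rw [e1] at key
    exact key
  · rw [← Scheme.Hom.comp_apply, hl₂]
    simp only [Scheme.Hom.comp_base, TopCat.coe_comp, Function.comp_apply]
    have : Spec.map stalk_y_to_A (closedPoint A) = closedPoint (Y.presheaf.stalk y) :=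
      comap_closedPoint (S := A) (stalk_y_to_Ω.hom.codRestrict A.toSubring hA)
    rw [this, Y.fromSpecStalk_closedPoint]

/-- **Valuative existence may be tested with algebraically closed fraction fields.** -/
theorem existence {f : X ⟶ Y} (H : ExistenceAC f) : ValuativeCriterion.Existence f := by
  apply ValuativeCriterion.Existence.of_specializingMap
  intro X' Y' i₁ i₂ f' hP
  exact specializingMap (of_isPullback hP.flip H)

/-- With quasi-compactness, `ExistenceAC` gives universal closedness. -/
theorem universallyClosed {f : X ⟶ Y} [QuasiCompact f] (H : ExistenceAC f) :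
    UniversallyClosed f :=
  UniversallyClosed.of_valuativeCriterion f H.existence

end ExistenceAC

/-- Unfolded form of the main theorem. -/
theorem existence_of_forall_isAlgClosed {X Y : Scheme.{u}} (f : X ⟶ Y)
    (H : ∀ S : ValuativeCommSq f, IsAlgClosed S.K → S.commSq.HasLift) :
    ValuativeCriterion.Existence f :=
  ExistenceAC.existence H

/-- Unfolded form of the corollary. -/
theorem universallyClosed_of_forall_isAlgClosed {X Y : Scheme.{u}} (f : X ⟶ Y) [QuasiCompact f]
    (H : ∀ S : ValuativeCommSq f, IsAlgClosed S.K → S.commSq.HasLift) :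
    UniversallyClosed f :=
  ExistenceAC.universallyClosed H

end Fermat.Agent.S25.helper9471
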