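import Mathlib
import Fermat.Agent.S25.helper1705_Spec
import Fermat.Agent.S25.helper985_LGSpec
import Fermat.Agent.S25.helper7579_AffineReduction
import Fermat.Agent.S25.helper9471_ValuativeAlgClosed

/-!
# S25, layer G, leaf LG-UC: universal closedness of any representing designation

Wiring, in the frozen vocabulary: `Stmt_ValExistAC` (line bundles in the cut extend over valuation
rings with algebraically closed fraction field) and `Stmt_QC` (quasi-compactness) of the LG
specification `helper985_LGSpec` imply `Stmt_UC` of the top-level specification.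

The valuative input is consumed through brick VX of helper9471 (`ExistenceAC`): it is enough to
lift valuative squares whose fraction field is algebraically closed.
-/

set_option autoImplicit false

universe u

open CategoryTheory CategoryTheory.Limits AlgebraicGeometry AlgebraicGeometry.RelPicard
  NeronModelInfra GoodReductionJacobian

namespace Fermat.Agent.S25.helper6505

open Fermat.Agent.S25.helper1705 Fermat.Agent.S25.helper985

/-- **Valuative existence of points from valuative existence of bundles** (general form, any
cut).  Let `D` represent the cut `P` over a field `k`.  Suppose that for every valuation ring `V`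
over `k` with algebraically closed fraction field `K`, every rigidified line bundle in the cut over
`Spec K` extends to one in the cut over `Spec V`.  Then `D.toBase` satisfies the existence part of
the valuative criterion for valuative squares with algebraically closed fraction field. -/
theorem existenceAC_of_extend {k : Type u} [Field k] {C : Scheme.{u}}
    {c : C ⟶ Spec (CommRingCat.of k)} {ε : SchemeHomOver (𝟙 (Spec (CommRingCat.of k))) c}
    {P : SubPicCondition c ε} {D : RelativePic0Designation k c}
    (h : RepresentsRelSubPic c ε P D)
    (hV : ∀ (V : Type u) [CommRing V] [IsDomain V] [ValuationRing V] [Algebra k V]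
      (K : Type u) [Field K] [IsAlgClosed K] [Algebra V K] [IsFractionRing V K] [Algebra k K]
      [IsScalarTower k V K]
      (M : RigidifiedLineBundle c ε (specStr k K)), P.P (specStr k K) M →
      ∃ M' : RigidifiedLineBundle c ε (specStr k V), P.P (specStr k V) M' ∧
        Nonempty ((M'.pullbackAlong (specHomOver (IsScalarTower.toAlgHom k V K))).L ≅ M.L)) :
    helper9471.ExistenceAC D.toBase := by
  intro S hK
  -- the `k`-algebra structures on `S.R` and `S.K` coming from `S.i₂`
  let φ : CommRingCat.of k ⟶ CommRingCat.of S.R := Spec.preimage S.i₂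
  let algV : Algebra k S.R := φ.hom.toAlgebra
  let algK : Algebra k S.K := ((algebraMap S.R S.K).comp φ.hom).toAlgebra
  have : IsScalarTower k S.R S.K := IsScalarTower.of_algebraMap_eq (fun _ => rfl)
  have e₂ : specStr k S.R = S.i₂ := Spec.map_preimage S.i₂
  have eK : specStr k S.K = Spec.map (CommRingCat.ofHom (algebraMap S.R S.K)) ≫ S.i₂ := by
    rw [← e₂, specStr, specStr, ← Spec.map_comp]
    rfl
  have e₁ : S.i₁ ≫ D.toBase = specStr k S.K := by rw [S.commSq.w, eK]
  let g₁ : SchemeHomOver (specStr k S.K) D.toBase := ⟨S.i₁, e₁⟩
  have hM : P.P (specStr k S.K) (h.poincare.pullbackAlong g₁) :=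
    P.pullback_mem _ _ g₁ _ h.poincare_mem
  obtain ⟨M', hM', ⟨e⟩⟩ := hV S.R S.K (h.poincare.pullbackAlong g₁) hM
  let g : SchemeHomOver (specStr k S.R) D.toBase := h.classify (specStr k S.R) M' hM'
  obtain ⟨eg⟩ := h.classify_spec (specStr k S.R) M' hM'
  let ψ : SchemeHomOver (specStr k S.K) (specStr k S.R) :=
    specHomOver (IsScalarTower.toAlgHom k S.R S.K)
  have hgen : postComp g ψ = g₁ := by
    apply h.ext_of_iso
    exact ⟨(helper7579.pullbackAlongCompIso h.poincare g ψ).symm ≪≫
      (Scheme.Modules.pullback (baseChangeSnd c ψ)).mapIso eg ≪≫ e⟩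
  refine ⟨⟨⟨g.1, ?_, g.2.trans e₂⟩⟩⟩
  exact congrArg Subtype.val hgen

/-- **LG-UC, general form.**  A quasi-compact scheme over a field representing a cut of the
relative Picard functor is universally closed as soon as bundles in the cut extend over valuation
rings with algebraically closed fraction field. -/
theorem universallyClosed_of_extend {k : Type u} [Field k] {C : Scheme.{u}}
    {c : C ⟶ Spec (CommRingCat.of k)} {ε : SchemeHomOver (𝟙 (Spec (CommRingCat.of k))) c}
    {P : SubPicCondition c ε} {D : RelativePic0Designation k c}
    (h : RepresentsRelSubPic c ε P D) [QuasiCompact D.toBase]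
    (hV : ∀ (V : Type u) [CommRing V] [IsDomain V] [ValuationRing V] [Algebra k V]
      (K : Type u) [Field K] [IsAlgClosed K] [Algebra V K] [IsFractionRing V K] [Algebra k K]
      [IsScalarTower k V K]
      (M : RigidifiedLineBundle c ε (specStr k K)), P.P (specStr k K) M →
      ∃ M' : RigidifiedLineBundle c ε (specStr k V), P.P (specStr k V) M' ∧
        Nonempty ((M'.pullbackAlong (specHomOver (IsScalarTower.toAlgHom k V K))).L ≅ M.L)) :
    UniversallyClosed D.toBase :=
  (existenceAC_of_extend h hV).universallyClosed

/-- **LG-UC.**  `Stmt_UC` of the Spec from `Stmt_ValExistAC` and `Stmt_QC` of the LG Spec. -/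
theorem stmt_UC_of (hVE : Stmt_ValExistAC.{u}) (hQC : Stmt_QC.{u}) : Stmt_UC.{u} := by
  intro k _ C c hc ε D hD _
  have : QuasiCompact D.toBase := hQC k c hc ε D hD
  obtain ⟨h⟩ := hD
  exact universallyClosed_of_extend h (fun V _ _ _ _ K _ _ _ _ _ _ M hM =>
    hVE k c hc ε V K M hM)

end Fermat.Agent.S25.helper6505
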