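import Mathlib
import Fermat.Agent.S25.helper4193_HomGlue

/-!
# S25 bricks (helper6538): local generators and rigidifications as evaluation maps

* `IsGen M W g` : the section `g ∈ Γ(M, W)` freely generates `M` on every open `V ≤ W`.
* (R1) `isIso_adjunct_of_isRigEv` : a morphism `ev : L ⟶ σ_* 𝒪_T` which takes unit values on
  local generators of `L` near `σ(T)` is adjoint to an isomorphism `σ^* L ≅ 𝒪_T`.
-/

set_option autoImplicit false

universe u

open CategoryTheory TopologicalSpace Opposite AlgebraicGeometry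

namespace Fermat.Agent.S25.helper6538

open Fermat.Agent.S25.helper4193

variable {X T : Scheme.{u}}

/-- Restriction of functions, as a ring homomorphism. -/
noncomputable def resO (X : Scheme.{u}) {V W : X.Opens} (h : W ≤ V) : Γ(X, V) →+* Γ(X, W) :=
  (X.presheaf.map (homOfLE h).op).hom

lemma resO_apply {V W : X.Opens} (h : W ≤ V) (r : Γ(X, V)) :
    resO X h r = X.presheaf.map (homOfLE h).op r := rfl

@[simp] lemma resO_resO {V W W' : X.Opens} (h : W ≤ V) (h' : W' ≤ W) (r : Γ(X, V)) :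
    resO X h' (resO X h r) = resO X (h'.trans h) r := by
  simp only [resO_apply]
  rw [← ConcreteCategory.comp_apply, ← X.presheaf.map_comp]
  rfl

@[simp] lemma resO_self {V : X.Opens} (h : V ≤ V) (r : Γ(X, V)) : resO X h r = r := by
  simp only [resO_apply]
  have : (homOfLE h).op = 𝟙 (op V) := rfl
  rw [this, X.presheaf.map_id]
  rfl

lemma res_smul' (M : X.Modules) {V W : X.Opens} (h : W ≤ V) (r : Γ(X, V)) (s : Γ(M, V)) :
    res M h (r • s) = resO X h r • res M h s :=
  res_smul M h r s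

/-- `g` freely generates `M` on every open contained in `W`. -/
def IsGen (M : X.Modules) (W : X.Opens) (g : Γ(M, W)) : Prop :=
  ∀ (V : X.Opens) (h : V ≤ W), Function.Bijective (fun a : Γ(X, V) => a • res M h g)

lemma IsGen.mono {M : X.Modules} {W W' : X.Opens} {g : Γ(M, W)} (hg : IsGen M W g)
    (h : W' ≤ W) : IsGen M W' (res M h g) := by
  intro V hV
  have := hg V (hV.trans h)
  simpa only [res_res] using this

/-- The coefficient of a section with respect to a generator. -/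
noncomputable def IsGen.coeff {M : X.Modules} {W : X.Opens} {g : Γ(M, W)} (hg : IsGen M W g)
    {V : X.Opens} (h : V ≤ W) (s : Γ(M, V)) : Γ(X, V) :=
  ((hg V h).2 s).choose

lemma IsGen.coeff_smul {M : X.Modules} {W : X.Opens} {g : Γ(M, W)} (hg : IsGen M W g)
    {V : X.Opens} (h : V ≤ W) (s : Γ(M, V)) : hg.coeff h s • res M h g = s :=
  ((hg V h).2 s).choose_spec

lemma IsGen.coeff_unique {M : X.Modules} {W : X.Opens} {g : Γ(M, W)} (hg : IsGen M W g)
    {V : X.Opens} (h : V ≤ W) {s : Γ(M, V)} {a : Γ(X, V)} (ha : a • res M h g = s) :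
    hg.coeff h s = a :=
  (hg V h).1 ((hg.coeff_smul h s).trans ha.symm)

lemma IsGen.coeff_res {M : X.Modules} {W : X.Opens} {g : Γ(M, W)} (hg : IsGen M W g)
    {V V' : X.Opens} (h : V ≤ W) (h' : V' ≤ V) (s : Γ(M, V)) :
    hg.coeff (h'.trans h) (res M h' s) = resO X h' (hg.coeff h s) := by
  apply hg.coeff_unique
  rw [← res_res M h h', ← res_smul', hg.coeff_smul]


/-- The structure sheaf as a module. -/
noncomputable abbrev OO (T : Scheme.{u}) : T.Modules := SheafOfModules.unit.{u} T.ringCatSheaf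

/-- Sections of the structure sheaf (as a module) are functions. -/
noncomputable def ooFun (T : Scheme.{u}) (V : T.Opens) (m : Γ(OO T, V)) : Γ(T, V) := m

/-- Functions are sections of the structure sheaf (as a module). -/
noncomputable def ooInv (T : Scheme.{u}) (V : T.Opens) (r : Γ(T, V)) : Γ(OO T, V) := r

@[simp] lemma ooFun_ooInv (V : T.Opens) (r : Γ(T, V)) : ooFun T V (ooInv T V r) = r := rfl
@[simp] lemma ooInv_ooFun (V : T.Opens) (m : Γ(OO T, V)) : ooInv T V (ooFun T V m) = m := rfl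
lemma ooFun_zero (V : T.Opens) : ooFun T V 0 = 0 := rfl
lemma ooFun_add (V : T.Opens) (m m' : Γ(OO T, V)) :
    ooFun T V (m + m') = ooFun T V m + ooFun T V m' := rfl
lemma ooFun_smul (V : T.Opens) (r : Γ(T, V)) (m : Γ(OO T, V)) :
    ooFun T V (r • m) = r * ooFun T V m := rfl
lemma ooFun_res {V V' : T.Opens} (h : V' ≤ V) (m : Γ(OO T, V)) :
    ooFun T V' (res (OO T) h m) = resO T h (ooFun T V m) := rfl

/-- The morphism `𝒪_T ⟶ F` attached to a global section of `F`, on the level of presheaves. -/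
noncomputable def ofSectionPresheafHom (F : T.Modules) (τ : Γ(F, ⊤)) :
    (OO T).presheaf ⟶ F.presheaf where
  app V := AddCommGrpCat.ofHom
    { toFun := fun r => (ooFun T V.unop r) • res F (le_top : V.unop ≤ ⊤) τ
      map_zero' := show (0 : Γ(T, V.unop)) • res F (le_top : V.unop ≤ ⊤) τ = 0 from zero_smul _ _
      map_add' := fun r r' =>
        show (ooFun T V.unop r + ooFun T V.unop r') • res F (le_top : V.unop ≤ ⊤) τ = _ from
          add_smul _ _ _ }
  naturality V V' i := by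
    ext r
    have h : V'.unop ≤ V.unop := leOfHom i.unop
    change (ooFun T V'.unop (res (OO T) h r)) • res F le_top τ =
      res F h ((ooFun T V.unop r) • res F le_top τ)
    rw [res_smul', res_res, ooFun_res]

/-- The morphism `𝒪_T ⟶ F` attached to a global section of `F`. -/
noncomputable def ofSection (F : T.Modules) (τ : Γ(F, ⊤)) : OO T ⟶ F :=
  ⟨PresheafOfModules.homMk (ofSectionPresheafHom F τ) (by
    intro V r m
    let r' : Γ(T, V.unop) := r
    let m' : Γ(OO T, V.unop) := m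
    change (ooFun T V.unop (r' • m')) • res F (le_top : V.unop ≤ ⊤) τ =
      r' • ((ooFun T V.unop m') • res F (le_top : V.unop ≤ ⊤) τ)
    rw [ooFun_smul, mul_smul])⟩

lemma ofSection_app (F : T.Modules) (τ : Γ(F, ⊤)) (V : T.Opens) (r : Γ(OO T, V)) :
    (ofSection F τ).app V r = (ooFun T V r) • res F (le_top : V ≤ ⊤) τ := rfl

/-- A morphism out of the structure sheaf is determined by the image of `1`. -/
lemma hom_oo_app (F : T.Modules) (s : OO T ⟶ F) (V : T.Opens) (r : Γ(OO T, V)) :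
    s.app V r = (ooFun T V r) • res F (le_top : V ≤ ⊤) (s.app ⊤ (ooInv T ⊤ 1)) := by
  have h1 : r = (ooFun T V r) • (ooInv T V 1) := by
    change r = ooInv T V (ooFun T V r * 1)
    rw [mul_one]; rfl
  have h2 : res (OO T) (le_top : V ≤ ⊤) (ooInv T ⊤ 1) = ooInv T V 1 := by
    change ooInv T V (resO T le_top 1) = ooInv T V 1
    rw [map_one]
  conv_lhs => rw [h1]
  rw [Scheme.Modules.Hom.app_smul, hom_app_res, h2]


section Pushforward

variable (σ : T ⟶ X)

lemma pre_mono {W W' : X.Opens} (h : W' ≤ W) : σ ⁻¹ᵁ W' ≤ σ ⁻¹ᵁ W := fun _ hx => h hx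

/-- The action of a morphism into a pushforward on sections. -/
noncomputable def pfApp {L : X.Modules} {F : T.Modules}
    (h : L ⟶ (Scheme.Modules.pushforward σ).obj F) (W : X.Opens) : Γ(L, W) →+ Γ(F, σ ⁻¹ᵁ W) :=
  (h.app W).hom

lemma pfApp_smul {L : X.Modules} {F : T.Modules}
    (h : L ⟶ (Scheme.Modules.pushforward σ).obj F) (W : X.Opens) (a : Γ(X, W)) (s : Γ(L, W)) :
    pfApp σ h W (a • s) = σ.app W a • pfApp σ h W s :=
  Scheme.Modules.Hom.app_smul h a s

lemma pfApp_res {L : X.Modules} {F : T.Modules}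
    (h : L ⟶ (Scheme.Modules.pushforward σ).obj F) {W W' : X.Opens} (hW : W' ≤ W) (s : Γ(L, W)) :
    res F (pre_mono σ hW) (pfApp σ h W s) = pfApp σ h W' (res L hW s) :=
  hom_app_res h hW s

lemma pfApp_comp_map {L : X.Modules} {F G : T.Modules}
    (h : L ⟶ (Scheme.Modules.pushforward σ).obj F) (x : F ⟶ G) (W : X.Opens) (s : Γ(L, W)) :
    pfApp σ (h ≫ (Scheme.Modules.pushforward σ).map x) W s = x.app (σ ⁻¹ᵁ W) (pfApp σ h W s) :=
  rfl

/-- `σ_* 𝒪_T`. -/
noncomputable abbrev pushOO : X.Modules := (Scheme.Modules.pushforward σ).obj (OO T)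

/-- The evaluation map on sections. -/
noncomputable def evFun {L : X.Modules} (ev : L ⟶ pushOO σ) (W : X.Opens) (s : Γ(L, W)) :
    Γ(T, σ ⁻¹ᵁ W) :=
  ooFun T (σ ⁻¹ᵁ W) (pfApp σ ev W s)

lemma evFun_smul {L : X.Modules} (ev : L ⟶ pushOO σ) (W : X.Opens) (a : Γ(X, W)) (s : Γ(L, W)) :
    evFun σ ev W (a • s) = σ.app W a * evFun σ ev W s := by
  unfold evFun
  rw [pfApp_smul, ooFun_smul]

lemma evFun_res {L : X.Modules} (ev : L ⟶ pushOO σ) {W W' : X.Opens} (hW : W' ≤ W)
    (s : Γ(L, W)) :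
    evFun σ ev W' (res L hW s) = resO T (pre_mono σ hW) (evFun σ ev W s) := by
  unfold evFun
  rw [← pfApp_res, ooFun_res]


/-- Gluing of sections of a sheaf of modules over an open cover of an open. -/
lemma exists_glue_sections (F : T.Modules) {ι : Type*} (U : ι → T.Opens) (V : T.Opens)
    (hUV : ∀ i, U i ≤ V) (hcov : V ≤ ⨆ i, U i) (sf : ∀ i, Γ(F, U i))
    (compat : ∀ i j, res F (inf_le_left : U i ⊓ U j ≤ U i) (sf i) =
      res F (inf_le_right : U i ⊓ U j ≤ U j) (sf j)) :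
    ∃ s : Γ(F, V), ∀ i, res F (hUV i) s = sf i := by
  obtain ⟨s, hs, -⟩ := TopCat.Sheaf.existsUnique_gluing' (abSheaf F) U V
    (fun i => homOfLE (hUV i)) hcov sf compat
  exact ⟨s, hs⟩

/-- `ev` takes unit values on local generators of `L` near `σ(T)`. -/
def IsRigEv {L : X.Modules} (ev : L ⟶ pushOO σ) : Prop :=
  ∀ p : T, ∃ (W : X.Opens) (g : Γ(L, W)), σ.base p ∈ W ∧ IsGen L W g ∧ IsUnit (evFun σ ev W g)

lemma iSup_preimage_eq_top {ι : Type*} (W : ι → X.Opens) (q : T → ι)
    (hq : ∀ p : T, σ.base p ∈ W (q p)) : ⨆ p : T, σ ⁻¹ᵁ (W (q p)) = ⊤ := by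
  rw [eq_top_iff]
  intro x _
  exact Opens.mem_iSup.mpr ⟨x, hq x⟩

lemma theta_injective {L : X.Modules} (ev : L ⟶ pushOO σ) (hev : IsRigEv σ ev) (F : T.Modules) :
    Function.Injective (fun x : OO T ⟶ F => ev ≫ (Scheme.Modules.pushforward σ).map x) := by
  intro x x' hxx
  choose W g hpW hg hu using hev
  have hU : ⨆ p : T, σ ⁻¹ᵁ (W p) = ⊤ := by
    rw [eq_top_iff]
    intro y _
    exact Opens.mem_iSup.mpr ⟨y, hpW y⟩
  have key : x.app ⊤ (ooInv T ⊤ 1) = x'.app ⊤ (ooInv T ⊤ 1) := by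
    refine eq_of_res_eq F (fun p => σ ⁻¹ᵁ (W p)) hU _ _ fun p => ?_
    have h1 : pfApp σ (ev ≫ (Scheme.Modules.pushforward σ).map x) (W p) (g p) =
        pfApp σ (ev ≫ (Scheme.Modules.pushforward σ).map x') (W p) (g p) := by
      have := hxx
      simp only at this
      rw [this]
    rw [pfApp_comp_map, pfApp_comp_map, hom_oo_app F x, hom_oo_app F x'] at h1
    have h2 := (hu p).smul_left_cancel.mp h1
    have h3 := congrArg (res F (inf_le_right : (⊤ : T.Opens) ⊓ σ ⁻¹ᵁ (W p) ≤ σ ⁻¹ᵁ (W p))) h2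
    rw [res_res, res_res] at h3
    exact h3
  apply Scheme.Modules.hom_ext
  intro V
  ext r
  rw [hom_oo_app F x, hom_oo_app F x', key]


/-- On an open with a generator `g`, a morphism `h : L ⟶ σ_* F` is `ev` times the section
`τ` determined by `ev g • τ = h g`. -/
lemma pfApp_eq_evFun_smul {L : X.Modules} (ev : L ⟶ pushOO σ) {F : T.Modules}
    (h : L ⟶ (Scheme.Modules.pushforward σ).obj F) {W : X.Opens} {g : Γ(L, W)}
    (hg : IsGen L W g) (τ : Γ(F, σ ⁻¹ᵁ W)) (hτ : evFun σ ev W g • τ = pfApp σ h W g)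
    {W' : X.Opens} (hW : W' ≤ W) (l : Γ(L, W')) :
    pfApp σ h W' l = evFun σ ev W' l • res F (pre_mono σ hW) τ := by
  have hb := hg.coeff_smul hW l
  set b := hg.coeff hW l with hbdef
  rw [← hb, pfApp_smul, evFun_smul, ← pfApp_res, ← hτ, res_smul', evFun_res, mul_smul]

lemma theta_surjective {L : X.Modules} (ev : L ⟶ pushOO σ) (hev : IsRigEv σ ev) (F : T.Modules) :
    Function.Surjective (fun x : OO T ⟶ F => ev ≫ (Scheme.Modules.pushforward σ).map x) := by
  intro h
  choose W g hpW hg hu using hev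
  have hU : ⨆ p : T, σ ⁻¹ᵁ (W p) = ⊤ := by
    rw [eq_top_iff]
    intro y _
    exact Opens.mem_iSup.mpr ⟨y, hpW y⟩
  -- the local sections
  let τp : ∀ p : T, Γ(F, σ ⁻¹ᵁ (W p)) := fun p =>
    (((hu p).unit⁻¹ : (Γ(T, σ ⁻¹ᵁ (W p)))ˣ) : Γ(T, σ ⁻¹ᵁ (W p))) • pfApp σ h (W p) (g p)
  have hτp : ∀ p, evFun σ ev (W p) (g p) • τp p = pfApp σ h (W p) (g p) := by
    intro p
    simp only [τp]
    rw [← mul_smul, IsUnit.mul_val_inv, one_smul]
  have compat : ∀ p q : T,
      res F (pre_mono σ (inf_le_left : W p ⊓ W q ≤ W p)) (τp p) =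
        res F (pre_mono σ (inf_le_right : W p ⊓ W q ≤ W q)) (τp q) := by
    intro p q
    have h1 := pfApp_eq_evFun_smul σ ev h (hg p) (τp p) (hτp p)
      (inf_le_left : W p ⊓ W q ≤ W p) (res L inf_le_left (g p))
    have h2 := pfApp_eq_evFun_smul σ ev h (hg q) (τp q) (hτp q)
      (inf_le_right : W p ⊓ W q ≤ W q) (res L inf_le_left (g p))
    have hunit : IsUnit (evFun σ ev (W p ⊓ W q) (res L inf_le_left (g p))) := by
      rw [evFun_res]
      exact (hu p).map _
    exact hunit.smul_left_cancel.mp (h1.symm.trans h2)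
  obtain ⟨τ, hτ⟩ := exists_glue_sections F (fun p => σ ⁻¹ᵁ (W p)) ⊤
    (fun _ => le_top) (by rw [hU]) τp compat
  refine ⟨ofSection F τ, ?_⟩
  apply Scheme.Modules.hom_ext
  intro W0
  ext l
  change pfApp σ (ev ≫ (Scheme.Modules.pushforward σ).map (ofSection F τ)) W0 l = pfApp σ h W0 l
  refine eq_of_res_eq F (fun p => σ ⁻¹ᵁ (W p)) hU _ _ fun p => ?_
  have e1 := pfApp_res σ (ev ≫ (Scheme.Modules.pushforward σ).map (ofSection F τ))
    (inf_le_left : W0 ⊓ W p ≤ W0) l
  have e2 := pfApp_res σ h (inf_le_left : W0 ⊓ W p ≤ W0) l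
  have e3 := pfApp_eq_evFun_smul σ ev h (hg p) (τp p) (hτp p)
    (inf_le_right : W0 ⊓ W p ≤ W p) (res L inf_le_left l)
  have e4 : res F (pre_mono σ (inf_le_right : W0 ⊓ W p ≤ W p)) (τp p) =
      res F (le_top : σ ⁻¹ᵁ (W0 ⊓ W p) ≤ ⊤) τ := by
    rw [← hτ p, res_res]
  refine e1.trans ?_
  refine Eq.trans ?_ e2.symm
  rw [e3, e4, pfApp_comp_map, ofSection_app]
  rfl

/-- **(R1)** A morphism `ev : L ⟶ σ_* 𝒪_T` taking unit values on local generators of `L` near
`σ(T)` is adjoint to an isomorphism `σ^* L ≅ 𝒪_T`. -/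
theorem isIso_adjunct_of_isRigEv {L : X.Modules} (ev : L ⟶ pushOO σ) (hev : IsRigEv σ ev) :
    IsIso (((Scheme.Modules.pullbackPushforwardAdjunction σ).homEquiv L (OO T)).symm ev) := by
  rw [isIso_iff_coyoneda_map_bijective]
  intro F
  rw [← ((Scheme.Modules.pullbackPushforwardAdjunction σ).homEquiv _ _).bijective.of_comp_iff']
  have key : (⇑((Scheme.Modules.pullbackPushforwardAdjunction σ).homEquiv L F) ∘
      fun x => ((Scheme.Modules.pullbackPushforwardAdjunction σ).homEquiv L (OO T)).symm ev ≫ x) =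
      fun x : OO T ⟶ F => ev ≫ (Scheme.Modules.pushforward σ).map x := by
    funext x
    simp only [Function.comp_apply]
    rw [Adjunction.homEquiv_naturality_right, Equiv.apply_symm_apply]
  rw [key]
  exact ⟨theta_injective σ ev hev F, theta_surjective σ ev hev F⟩

/-- **(R1)**, existence form. -/
theorem nonempty_pullback_iso_unit_of_isRigEv {L : X.Modules} (ev : L ⟶ pushOO σ)
    (hev : IsRigEv σ ev) :
    Nonempty ((Scheme.Modules.pullback σ).obj L ≅ SheafOfModules.unit T.ringCatSheaf) :=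
  haveI := isIso_adjunct_of_isRigEv σ ev hev
  ⟨asIso (((Scheme.Modules.pullbackPushforwardAdjunction σ).homEquiv L (OO T)).symm ev)⟩

end Pushforward

end Fermat.Agent.S25.helper6538
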