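import Fermat.Agent.S25.helper3173_ChartOfAsm
import Fermat.Agent.S25.helper1985_CechBaseChange
import Fermat.Agent.S25.helper233_HomCongr

/-!
# S25, root `Stmt_ChartOfAC`: base change of the index condition `Good` (helper7196)

Brick (X2) of the ChartOf integrator: the condition
"`(helper1397.homDatum (twistOf N I) (baseOver N B)).delta` is surjective" (`H¹(Hom) = 0`) is
stable under every base change `φ : B →ₐ[k] B'`, the ideal `I` being replaced by `I.map (D.map₀ φ)`.
In particular `Good N s f` passes to every point `γ : W D s f →ₐ[k] B` of the chart.
-/

set_option autoImplicit false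

open TensorProduct

namespace Fermat.Agent.S25.helper7196

open Fermat.Agent.S25.helper1705 Fermat.Agent.S25.helper2945

universe u

section HomBC

variable {k : Type u} [Field k] {D : CurveDatum k} {B B' : Type u} [CommRing B] [CommRing B']
  [Algebra k B] [Algebra k B']

/-- `H¹(Hom(G, H)) = 0` is preserved by base change, in the form with the base-changed data. -/
theorem surjective_delta_homDatum_baseChange (G H : GlueDatum D B) (φ : B →ₐ[k] B')
    (h : Function.Surjective (helper1397.homDatum G H).delta) :
    Function.Surjective (helper1397.homDatum (G.baseChange φ) (H.baseChange φ)).delta :=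
  (helper233.surjective_delta_iff_of_equiv (helper1397.homDatum_baseChange_equiv G H φ)).mp
    (helper1985.delta_baseChange_surjective (helper1397.homDatum G H) φ h)

/-- `H¹(Hom(G, H)) = 0` is preserved by base change, up to isomorphism of the two pulled-back
data. -/
theorem surjective_delta_homDatum_of_baseChange_equiv {G H : GlueDatum D B} (φ : B →ₐ[k] B')
    {G' H' : GlueDatum D B'} (hG : (G.baseChange φ).Equiv G') (hH : (H.baseChange φ).Equiv H')
    (h : Function.Surjective (helper1397.homDatum G H).delta) :
    Function.Surjective (helper1397.homDatum G' H').delta :=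
  (helper233.surjective_delta_homDatum_iff hG hH).mp
    (surjective_delta_homDatum_baseChange G H φ h)

end HomBC

section Good

variable {k : Type u} [Field k] [IsAlgClosed k] {D : CurveDatum k}

/-- Base change of the index condition, generic form: for `N_B(−D_I)` and any `φ : B → B'`. -/
theorem surjective_delta_homDatum_twistOf_map (N : GlueDatum D k)
    {B B' : Type u} [CommRing B] [CommRing B'] [Algebra k B] [Algebra k B']
    (φ : B →ₐ[k] B') (I : Ideal (D.A₀ B))
    [Module.Finite B (D.A₀ B ⧸ I)] [Module.Projective B (D.A₀ B ⧸ I)]
    [Module.Finite B' (D.A₀ B' ⧸ I.map (D.map₀ φ))]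
    [Module.Projective B' (D.A₀ B' ⧸ I.map (D.map₀ φ))]
    (h : Function.Surjective
      (helper1397.homDatum (helper3173.twistOf N I) (helper8573.baseOver N B)).delta) :
    Function.Surjective (helper1397.homDatum (helper3173.twistOf N (I.map (D.map₀ φ)))
      (helper8573.baseOver N B')).delta :=
  surjective_delta_homDatum_of_baseChange_equiv φ (helper3173.twistOf_baseChange N φ I)
    (helper3173.baseOver_baseChange N φ) h

/-- **(X2)** Base change of the index condition `Good N s f` along a point
`γ : W D s f →ₐ[k] B` of the chart, for the pulled-back bundle itself. -/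
theorem good_baseChange_P {N : GlueDatum D k} {s : Fin (helper8573.genus D) → D.R₀}
    {f : helper1002.ChartAlg k D.R₀ s} (hgood : helper3173.Good N s f)
    {B : Type u} [CommRing B] [Algebra k B] (γ : helper3173.W D s f →ₐ[k] B) :
    Function.Surjective (helper1397.homDatum ((helper3173.P N s f).baseChange γ)
      (helper8573.baseOver N B)).delta :=
  surjective_delta_homDatum_of_baseChange_equiv γ (GlueDatum.Equiv.refl _)
    (helper3173.baseOver_baseChange N γ) hgood

/-- **(X2)** Base change of the index condition `Good N s f`, for every bundle isomorphic to the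
pull-back of the universal one. -/
theorem good_baseChange_of_equiv {N : GlueDatum D k} {s : Fin (helper8573.genus D) → D.R₀}
    {f : helper1002.ChartAlg k D.R₀ s} (hgood : helper3173.Good N s f)
    {B : Type u} [CommRing B] [Algebra k B] (γ : helper3173.W D s f →ₐ[k] B)
    {G : GlueDatum D B} (hG : ((helper3173.P N s f).baseChange γ).Equiv G) :
    Function.Surjective (helper1397.homDatum G (helper8573.baseOver N B)).delta :=
  surjective_delta_homDatum_of_baseChange_equiv γ hG (helper3173.baseOver_baseChange N γ) hgood

/-- **(X2), the shape of the integrator**: base change of the index condition `Good N s f` along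
`γ : W D s f →ₐ[k] B`, for the twist of `N_B` by the classified chart ideal. -/
theorem good_baseChange {N : GlueDatum D k} {s : Fin (helper8573.genus D) → D.R₀}
    {f : helper1002.ChartAlg k D.R₀ s} (hgood : helper3173.Good N s f)
    {B : Type u} [CommRing B] [Algebra k B] (γ : helper3173.W D s f →ₐ[k] B)
    [Module.Finite B (D.A₀ B ⧸ (helper3173.chartIdeal s f).map (D.map₀ γ))]
    [Module.Projective B (D.A₀ B ⧸ (helper3173.chartIdeal s f).map (D.map₀ γ))] :
    Function.Surjective (helper1397.homDatum
      (helper3173.twistOf N ((helper3173.chartIdeal s f).map (D.map₀ γ)))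
      (helper8573.baseOver N B)).delta :=
  good_baseChange_of_equiv hgood γ (helper3173.stmt_UnivPoint k D N s f B γ)

end Good

end Fermat.Agent.S25.helper7196
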