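import Mathlib
import Fermat.Agent.S25.helper1705_Curve

/-!
# S25, leaf U6: endomorphisms of two-chart line bundles and uniqueness of rigidified isomorphisms

Statement-agnostic commutative algebra (Mathlib only), followed by the instantiation to the
chart rings `D.A₀ B`, `D.A₁ B`, `D.A₀₁ B` of a `CurveDatum` (section `Curve`).

A *two-chart module datum* over a commutative square of rings

```
      B ──β₀──▶ A₀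
      │          │ρ₀
      β₁         ▼
      ▼          
      A₁ ──ρ₁──▶ A₀₁
```

consists of modules `M₀ / A₀`, `M₁ / A₁`, `M₀₁ / A₀₁` with semilinear restriction maps
`r₀ : M₀ →ₛₗ[ρ₀] M₀₁`, `r₁ : M₁ →ₛₗ[ρ₁] M₀₁` whose images span `M₀₁`.
The standing hypothesis on the square (the conclusion of leaf U2: `H⁰(unit over B) = B`) is

`hEq : ∀ a₀ a₁, ρ₀ a₀ = ρ₁ a₁ → ∃ b, β₀ b = a₀ ∧ β₁ b = a₁`.

Main results (`M₀`, `M₁` invertible, `M₀₁` faithful):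

* `exists_smul_of_end` : every compatible triple of endomorphisms `(f₀, f₁, f₀₁)` is
  multiplication by some `b : B`;
* `existsUnique_smul_of_end` : the same with uniqueness of `b` when `β₀` is injective;
* `exists_unit_smul_of_equiv` : two isomorphisms between two-chart data differ by a unit of `B`;
* `equiv_eq_of_rigidified` : two isomorphisms compatible with rigidifications along a retraction
  `e : A₁ →+* B` of `β₁` are equal;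
* `aut_eq_refl_of_rigidified` : a rigidified datum has no nontrivial automorphisms.
-/

set_option autoImplicit false

namespace Fermat.Agent.S25.helper720

open Module

section Invertible

variable {R : Type*} [CommRing R] {M : Type*} [AddCommGroup M] [Module R M]

/-- Every endomorphism of an invertible module is multiplication by a unique scalar. -/
theorem existsUnique_smul_of_invertible [Module.Invertible R M] (f : M →ₗ[R] M) :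
    ∃! a : R, ∀ m, f m = a • m := by
  obtain ⟨a, ha⟩ := (Module.Invertible.toModuleEnd_bijective R M).surjective f
  refine ⟨a, fun m => ?_, fun a' ha' => ?_⟩
  · rw [← ha]; rfl
  · refine (Module.Invertible.toModuleEnd_bijective R M).injective (LinearMap.ext fun m => ?_)
    change a' • m = a • m
    rw [← ha' m, ← ha]; rfl

/-- An invertible module is faithful: a scalar acting trivially is `1`-like, elementwise form. -/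
theorem eq_of_forall_smul_eq_of_invertible [Module.Invertible R M] {a a' : R}
    (h : ∀ m : M, a • m = a' • m) : a = a' :=
  FaithfulSMul.eq_of_smul_eq_smul h

end Invertible

section TwoChart

variable {B A₀ A₁ A₀₁ : Type*} [CommRing B] [CommRing A₀] [CommRing A₁] [CommRing A₀₁]
variable (β₀ : B →+* A₀) (β₁ : B →+* A₁) {ρ₀ : A₀ →+* A₀₁} {ρ₁ : A₁ →+* A₀₁}
variable {M₀ M₁ M₀₁ : Type*} [AddCommGroup M₀] [Module A₀ M₀] [AddCommGroup M₁] [Module A₁ M₁]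
  [AddCommGroup M₀₁] [Module A₀₁ M₀₁]
variable (r₀ : M₀ →ₛₗ[ρ₀] M₀₁) (r₁ : M₁ →ₛₗ[ρ₁] M₀₁)

/-- A linear endomorphism of `M₀₁` which is multiplication by `a` on the image of a semilinear map
whose range spans is multiplication by `a`. -/
theorem eq_smul_of_span_range {A A' : Type*} [CommRing A] [CommRing A'] {ρ : A →+* A'}
    {M M' : Type*} [AddCommGroup M] [Module A M] [AddCommGroup M'] [Module A' M']
    (r : M →ₛₗ[ρ] M') (hr : Submodule.span A' (Set.range r) = ⊤)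
    (f : M' →ₗ[A'] M') (a : A') (h : ∀ m, f (r m) = a • r m) (m' : M') : f m' = a • m' := by
  have hm : m' ∈ Submodule.span A' (Set.range r) := by rw [hr]; trivial
  induction hm using Submodule.span_induction with
  | mem x hx => obtain ⟨m, rfl⟩ := hx; exact h m
  | zero => simp
  | add x y _ _ hx hy => rw [map_add, hx, hy, smul_add]
  | smul c x _ hx => rw [map_smul, hx, smul_comm]

/-- **Two-chart End theorem (existence).** Every compatible triple of endomorphisms of a two-chart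
datum with invertible chart modules is multiplication by an element of `B`. -/
theorem exists_smul_of_end
    (hEq : ∀ a₀ a₁, ρ₀ a₀ = ρ₁ a₁ → ∃ b, β₀ b = a₀ ∧ β₁ b = a₁)
    [Module.Invertible A₀ M₀] [Module.Invertible A₁ M₁] [FaithfulSMul A₀₁ M₀₁]
    (h₀ : Submodule.span A₀₁ (Set.range r₀) = ⊤) (h₁ : Submodule.span A₀₁ (Set.range r₁) = ⊤)
    (f₀ : M₀ →ₗ[A₀] M₀) (f₁ : M₁ →ₗ[A₁] M₁) (f₀₁ : M₀₁ →ₗ[A₀₁] M₀₁)
    (hf₀ : ∀ m, f₀₁ (r₀ m) = r₀ (f₀ m)) (hf₁ : ∀ m, f₀₁ (r₁ m) = r₁ (f₁ m)) :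
    ∃ b : B, (∀ m, f₀ m = β₀ b • m) ∧ (∀ m, f₁ m = β₁ b • m) ∧
      (∀ m, f₀₁ m = ρ₀ (β₀ b) • m) := by
  obtain ⟨a₀, ha₀, -⟩ := existsUnique_smul_of_invertible f₀
  obtain ⟨a₁, ha₁, -⟩ := existsUnique_smul_of_invertible f₁
  have e₀ : ∀ m, f₀₁ m = ρ₀ a₀ • m :=
    eq_smul_of_span_range r₀ h₀ f₀₁ (ρ₀ a₀) fun m => by rw [hf₀, ha₀, map_smulₛₗ]
  have e₁ : ∀ m, f₀₁ m = ρ₁ a₁ • m :=
    eq_smul_of_span_range r₁ h₁ f₀₁ (ρ₁ a₁) fun m => by rw [hf₁, ha₁, map_smulₛₗ]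
  have hρ : ρ₀ a₀ = ρ₁ a₁ :=
    FaithfulSMul.eq_of_smul_eq_smul (α := M₀₁) fun m => by rw [← e₀, ← e₁]
  obtain ⟨b, rfl, rfl⟩ := hEq a₀ a₁ hρ
  exact ⟨b, ha₀, ha₁, e₀⟩

/-- **Two-chart End theorem.** If moreover `β₀` is injective, the element of `B` is unique. -/
theorem existsUnique_smul_of_end
    (hEq : ∀ a₀ a₁, ρ₀ a₀ = ρ₁ a₁ → ∃ b, β₀ b = a₀ ∧ β₁ b = a₁)
    (hβ₀ : Function.Injective β₀)
    [Module.Invertible A₀ M₀] [Module.Invertible A₁ M₁] [FaithfulSMul A₀₁ M₀₁]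
    (h₀ : Submodule.span A₀₁ (Set.range r₀) = ⊤) (h₁ : Submodule.span A₀₁ (Set.range r₁) = ⊤)
    (f₀ : M₀ →ₗ[A₀] M₀) (f₁ : M₁ →ₗ[A₁] M₁) (f₀₁ : M₀₁ →ₗ[A₀₁] M₀₁)
    (hf₀ : ∀ m, f₀₁ (r₀ m) = r₀ (f₀ m)) (hf₁ : ∀ m, f₀₁ (r₁ m) = r₁ (f₁ m)) :
    ∃! b : B, (∀ m, f₀ m = β₀ b • m) ∧ (∀ m, f₁ m = β₁ b • m) := by
  obtain ⟨b, hb₀, hb₁, -⟩ := exists_smul_of_end β₀ β₁ r₀ r₁ hEq h₀ h₁ f₀ f₁ f₀₁ hf₀ hf₁
  refine ⟨b, ⟨hb₀, hb₁⟩, fun b' hb' => hβ₀ ?_⟩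
  exact eq_of_forall_smul_eq_of_invertible (M := M₀) fun m => by rw [← hb'.1 m, ← hb₀ m]

variable {M₀' M₁' M₀₁' : Type*} [AddCommGroup M₀'] [Module A₀ M₀'] [AddCommGroup M₁']
  [Module A₁ M₁'] [AddCommGroup M₀₁'] [Module A₀₁ M₀₁']
variable (r₀' : M₀' →ₛₗ[ρ₀] M₀₁') (r₁' : M₁' →ₛₗ[ρ₁] M₀₁')

/-- Two isomorphisms between two-chart data differ by multiplication by an element `b : B`
with `β₀ b` and `β₁ b` units; if `β₀` is injective, `b` is a unit of `B`. -/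
theorem exists_smul_of_equiv
    (hEq : ∀ a₀ a₁, ρ₀ a₀ = ρ₁ a₁ → ∃ b, β₀ b = a₀ ∧ β₁ b = a₁)
    [Module.Invertible A₀ M₀] [Module.Invertible A₁ M₁] [FaithfulSMul A₀₁ M₀₁]
    (h₀ : Submodule.span A₀₁ (Set.range r₀) = ⊤) (h₁ : Submodule.span A₀₁ (Set.range r₁) = ⊤)
    (φ₀ φ₀' : M₀ ≃ₗ[A₀] M₀') (φ₁ φ₁' : M₁ ≃ₗ[A₁] M₁') (φ₀₁ φ₀₁' : M₀₁ ≃ₗ[A₀₁] M₀₁')
    (hφ₀ : ∀ m, φ₀₁ (r₀ m) = r₀' (φ₀ m)) (hφ₁ : ∀ m, φ₀₁ (r₁ m) = r₁' (φ₁ m))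
    (hφ₀' : ∀ m, φ₀₁' (r₀ m) = r₀' (φ₀' m)) (hφ₁' : ∀ m, φ₀₁' (r₁ m) = r₁' (φ₁' m)) :
    ∃ b : B, (∀ m, φ₀' m = β₀ b • φ₀ m) ∧ (∀ m, φ₁' m = β₁ b • φ₁ m) ∧
      (∀ m, φ₀₁' m = ρ₀ (β₀ b) • φ₀₁ m) := by
  have key₀ : ∀ m, (φ₀₁.symm.toLinearMap ∘ₗ φ₀₁'.toLinearMap) (r₀ m) =
      r₀ ((φ₀.symm.toLinearMap ∘ₗ φ₀'.toLinearMap) m) := by
    intro m
    simp only [LinearMap.coe_comp, LinearEquiv.coe_coe, Function.comp_apply]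
    rw [LinearEquiv.symm_apply_eq, hφ₀', hφ₀, LinearEquiv.apply_symm_apply]
  have key₁ : ∀ m, (φ₀₁.symm.toLinearMap ∘ₗ φ₀₁'.toLinearMap) (r₁ m) =
      r₁ ((φ₁.symm.toLinearMap ∘ₗ φ₁'.toLinearMap) m) := by
    intro m
    simp only [LinearMap.coe_comp, LinearEquiv.coe_coe, Function.comp_apply]
    rw [LinearEquiv.symm_apply_eq, hφ₁', hφ₁, LinearEquiv.apply_symm_apply]
  obtain ⟨b, hb₀, hb₁, hb₀₁⟩ := exists_smul_of_end β₀ β₁ r₀ r₁ hEq h₀ h₁ _ _ _ key₀ key₁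
  refine ⟨b, fun m => ?_, fun m => ?_, fun m => ?_⟩
  · have := hb₀ m
    simp only [LinearMap.coe_comp, LinearEquiv.coe_coe, Function.comp_apply] at this
    rw [LinearEquiv.symm_apply_eq] at this
    rw [this, map_smul]
  · have := hb₁ m
    simp only [LinearMap.coe_comp, LinearEquiv.coe_coe, Function.comp_apply] at this
    rw [LinearEquiv.symm_apply_eq] at this
    rw [this, map_smul]
  · have := hb₀₁ m
    simp only [LinearMap.coe_comp, LinearEquiv.coe_coe, Function.comp_apply] at this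
    rw [LinearEquiv.symm_apply_eq] at this
    rw [this, map_smul]

/-- Two isomorphisms between two-chart data differ by a **unit** of `B` (for `β₀` injective). -/
theorem exists_unit_smul_of_equiv
    (hEq : ∀ a₀ a₁, ρ₀ a₀ = ρ₁ a₁ → ∃ b, β₀ b = a₀ ∧ β₁ b = a₁)
    (hβ₀ : Function.Injective β₀)
    [Module.Invertible A₀ M₀] [Module.Invertible A₁ M₁] [FaithfulSMul A₀₁ M₀₁]
    (h₀ : Submodule.span A₀₁ (Set.range r₀) = ⊤) (h₁ : Submodule.span A₀₁ (Set.range r₁) = ⊤)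
    (φ₀ φ₀' : M₀ ≃ₗ[A₀] M₀') (φ₁ φ₁' : M₁ ≃ₗ[A₁] M₁') (φ₀₁ φ₀₁' : M₀₁ ≃ₗ[A₀₁] M₀₁')
    (hφ₀ : ∀ m, φ₀₁ (r₀ m) = r₀' (φ₀ m)) (hφ₁ : ∀ m, φ₀₁ (r₁ m) = r₁' (φ₁ m))
    (hφ₀' : ∀ m, φ₀₁' (r₀ m) = r₀' (φ₀' m)) (hφ₁' : ∀ m, φ₀₁' (r₁ m) = r₁' (φ₁' m)) :
    ∃ b : Bˣ, (∀ m, φ₀' m = β₀ b • φ₀ m) ∧ (∀ m, φ₁' m = β₁ b • φ₁ m) ∧
      (∀ m, φ₀₁' m = ρ₀ (β₀ b) • φ₀₁ m) := by
  obtain ⟨b, hb₀, hb₁, hb₀₁⟩ := exists_smul_of_equiv β₀ β₁ r₀ r₁ r₀' r₁' hEq h₀ h₁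
    φ₀ φ₀' φ₁ φ₁' φ₀₁ φ₀₁' hφ₀ hφ₁ hφ₀' hφ₁'
  obtain ⟨b', hb₀', -, -⟩ := exists_smul_of_equiv β₀ β₁ r₀ r₁ r₀' r₁' hEq h₀ h₁
    φ₀' φ₀ φ₁' φ₁ φ₀₁' φ₀₁ hφ₀' hφ₁' hφ₀ hφ₁
  have hbb' : b * b' = 1 := by
    apply hβ₀
    apply eq_of_forall_smul_eq_of_invertible (M := M₀)
    intro m
    apply φ₀.injective
    rw [map_smul, map_one, one_smul, map_mul, mul_comm, mul_smul, ← hb₀, ← hb₀']
  exact ⟨⟨b, b', hbb', by rw [mul_comm]; exact hbb'⟩, hb₀, hb₁, hb₀₁⟩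

/-- **Uniqueness of rigidified isomorphisms.** Let `e : A₁ →+* B` be a retraction of `β₁`
(the section `ε`), and let `s : M₁ → B`, `s' : M₁' → B` be `e`-semilinear rigidifications whose
values generate the unit ideal. Two isomorphisms of two-chart data that are both compatible with
the rigidifications coincide. -/
theorem equiv_eq_of_rigidified
    (hEq : ∀ a₀ a₁, ρ₀ a₀ = ρ₁ a₁ → ∃ b, β₀ b = a₀ ∧ β₁ b = a₁)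
    [Module.Invertible A₀ M₀] [Module.Invertible A₁ M₁] [FaithfulSMul A₀₁ M₀₁]
    (h₀ : Submodule.span A₀₁ (Set.range r₀) = ⊤) (h₁ : Submodule.span A₀₁ (Set.range r₁) = ⊤)
    {e : A₁ →+* B} (he : ∀ b, e (β₁ b) = b)
    (s : M₁ →ₛₗ[e] B) (s' : M₁' →ₛₗ[e] B) (hs : Ideal.span (Set.range s) = ⊤)
    (φ₀ φ₀' : M₀ ≃ₗ[A₀] M₀') (φ₁ φ₁' : M₁ ≃ₗ[A₁] M₁') (φ₀₁ φ₀₁' : M₀₁ ≃ₗ[A₀₁] M₀₁')
    (hφ₀ : ∀ m, φ₀₁ (r₀ m) = r₀' (φ₀ m)) (hφ₁ : ∀ m, φ₀₁ (r₁ m) = r₁' (φ₁ m))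
    (hφ₀' : ∀ m, φ₀₁' (r₀ m) = r₀' (φ₀' m)) (hφ₁' : ∀ m, φ₀₁' (r₁ m) = r₁' (φ₁' m))
    (hσ : ∀ m, s' (φ₁ m) = s m) (hσ' : ∀ m, s' (φ₁' m) = s m) :
    φ₀ = φ₀' ∧ φ₁ = φ₁' ∧ φ₀₁ = φ₀₁' := by
  obtain ⟨b, hb₀, hb₁, hb₀₁⟩ := exists_smul_of_equiv β₀ β₁ r₀ r₁ r₀' r₁' hEq h₀ h₁
    φ₀ φ₀' φ₁ φ₁' φ₀₁ φ₀₁' hφ₀ hφ₁ hφ₀' hφ₁'
  have hbs : ∀ m, b * s m = s m := by
    intro m
    have h := hσ' m
    rw [hb₁, map_smulₛₗ, he, hσ, smul_eq_mul] at h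
    exact h
  have hb : b = 1 := by
    have h1 : (1 : B) ∈ Ideal.span (Set.range s) := by rw [hs]; trivial
    have : ∀ x ∈ Ideal.span (Set.range s), b * x = x := by
      intro x hx
      induction hx using Submodule.span_induction with
      | mem x hx => obtain ⟨m, rfl⟩ := hx; exact hbs m
      | zero => simp
      | add x y _ _ hx hy => rw [mul_add, hx, hy]
      | smul c x _ hx => rw [smul_eq_mul, mul_left_comm, hx]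
    simpa using this 1 h1
  subst hb
  refine ⟨LinearEquiv.ext fun m => ?_, LinearEquiv.ext fun m => ?_, LinearEquiv.ext fun m => ?_⟩
  · rw [hb₀, map_one, one_smul]
  · rw [hb₁, map_one, one_smul]
  · rw [hb₀₁, map_one, map_one, one_smul]

/-- A rigidified two-chart datum has no nontrivial automorphisms. -/
theorem aut_eq_refl_of_rigidified
    (hEq : ∀ a₀ a₁, ρ₀ a₀ = ρ₁ a₁ → ∃ b, β₀ b = a₀ ∧ β₁ b = a₁)
    [Module.Invertible A₀ M₀] [Module.Invertible A₁ M₁] [FaithfulSMul A₀₁ M₀₁]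
    (h₀ : Submodule.span A₀₁ (Set.range r₀) = ⊤) (h₁ : Submodule.span A₀₁ (Set.range r₁) = ⊤)
    {e : A₁ →+* B} (he : ∀ b, e (β₁ b) = b)
    (s : M₁ →ₛₗ[e] B) (hs : Ideal.span (Set.range s) = ⊤)
    (φ₀ : M₀ ≃ₗ[A₀] M₀) (φ₁ : M₁ ≃ₗ[A₁] M₁) (φ₀₁ : M₀₁ ≃ₗ[A₀₁] M₀₁)
    (hφ₀ : ∀ m, φ₀₁ (r₀ m) = r₀ (φ₀ m)) (hφ₁ : ∀ m, φ₀₁ (r₁ m) = r₁ (φ₁ m))
    (hσ : ∀ m, s (φ₁ m) = s m) :
    φ₀ = LinearEquiv.refl A₀ M₀ ∧ φ₁ = LinearEquiv.refl A₁ M₁ ∧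
      φ₀₁ = LinearEquiv.refl A₀₁ M₀₁ := by
  obtain ⟨h1, h2, h3⟩ := equiv_eq_of_rigidified β₀ β₁ r₀ r₁ r₀ r₁ hEq h₀ h₁ he s s hs
    (LinearEquiv.refl A₀ M₀) φ₀ (LinearEquiv.refl A₁ M₁) φ₁ (LinearEquiv.refl A₀₁ M₀₁) φ₀₁
    (fun _ => rfl) (fun _ => rfl) hφ₀ hφ₁ (fun _ => rfl) hσ
  exact ⟨h1.symm, h2.symm, h3.symm⟩

end TwoChart

/-! ### Instantiation to a `CurveDatum` -/

section Curve

open Fermat.Agent.S25.helper1705 TensorProduct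

universe u

variable {k : Type u} [Field k] (D : CurveDatum k) (B : Type u) [CommRing B] [Algebra k B]

/-- The structure map `B → A₀ B = R₀ ⊗[k] B`, `b ↦ 1 ⊗ b`. -/
noncomputable abbrev incl₀ : B →+* D.A₀ B :=
  (Algebra.TensorProduct.includeRight : B →ₐ[k] D.R₀ ⊗[k] B).toRingHom

/-- The structure map `B → A₁ B = R₁ ⊗[k] B`, `b ↦ 1 ⊗ b`. -/
noncomputable abbrev incl₁ : B →+* D.A₁ B :=
  (Algebra.TensorProduct.includeRight : B →ₐ[k] D.R₁ ⊗[k] B).toRingHom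

/-- `H⁰(unit over B) = B`: the conclusion of leaf U2 (`R₀ ∩ R₁ = k`, universally), used here as
a hypothesis. -/
def UnitSections : Prop :=
  ∀ (a₀ : D.A₀ B) (a₁ : D.A₁ B), D.res₀ B a₀ = D.res₁ B a₁ →
    ∃ b : B, a₀ = 1 ⊗ₜ[k] b ∧ a₁ = 1 ⊗ₜ[k] b

theorem incl₀_injective : Function.Injective (incl₀ D B) :=
  Algebra.TensorProduct.includeRight_injective (FaithfulSMul.algebraMap_injective k D.R₀)

theorem incl₁_injective : Function.Injective (incl₁ D B) :=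
  Algebra.TensorProduct.includeRight_injective (FaithfulSMul.algebraMap_injective k D.R₁)

theorem eB_incl₁ (b : B) : D.eB B (incl₁ D B b) = b := by
  change D.eB B ((1 : D.R₁) ⊗ₜ[k] b) = b
  simp

variable {D B}

theorem UnitSections.hEq (hU : UnitSections D B) (a₀ : D.A₀ B) (a₁ : D.A₁ B)
    (h : (D.res₀ B).toRingHom a₀ = (D.res₁ B).toRingHom a₁) :
    ∃ b, incl₀ D B b = a₀ ∧ incl₁ D B b = a₁ := by
  obtain ⟨b, rfl, rfl⟩ := hU a₀ a₁ h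
  exact ⟨b, rfl, rfl⟩

variable {M₀ M₁ M₀₁ : Type*} [AddCommGroup M₀] [Module (D.A₀ B) M₀] [AddCommGroup M₁]
  [Module (D.A₁ B) M₁] [AddCommGroup M₀₁] [Module (D.A₀₁ B) M₀₁]
variable (r₀ : M₀ →ₛₗ[(D.res₀ B).toRingHom] M₀₁) (r₁ : M₁ →ₛₗ[(D.res₁ B).toRingHom] M₀₁)

/-- **End(G) = B** for a two-chart line bundle over `C ×ₖ Spec B`: every compatible triple of
endomorphisms is multiplication by a unique `b : B`. -/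
theorem curve_existsUnique_smul_of_end (hU : UnitSections D B)
    [Module.Invertible (D.A₀ B) M₀] [Module.Invertible (D.A₁ B) M₁] [FaithfulSMul (D.A₀₁ B) M₀₁]
    (h₀ : Submodule.span (D.A₀₁ B) (Set.range r₀) = ⊤)
    (h₁ : Submodule.span (D.A₀₁ B) (Set.range r₁) = ⊤)
    (f₀ : M₀ →ₗ[D.A₀ B] M₀) (f₁ : M₁ →ₗ[D.A₁ B] M₁) (f₀₁ : M₀₁ →ₗ[D.A₀₁ B] M₀₁)
    (hf₀ : ∀ m, f₀₁ (r₀ m) = r₀ (f₀ m)) (hf₁ : ∀ m, f₀₁ (r₁ m) = r₁ (f₁ m)) :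
    ∃! b : B, (∀ m, f₀ m = ((1 : D.R₀) ⊗ₜ[k] b : D.A₀ B) • m) ∧
      (∀ m, f₁ m = ((1 : D.R₁) ⊗ₜ[k] b : D.A₁ B) • m) :=
  existsUnique_smul_of_end (incl₀ D B) (incl₁ D B) r₀ r₁ hU.hEq (incl₀_injective D B)
    h₀ h₁ f₀ f₁ f₀₁ hf₀ hf₁

variable {M₀' M₁' M₀₁' : Type*} [AddCommGroup M₀'] [Module (D.A₀ B) M₀'] [AddCommGroup M₁']
  [Module (D.A₁ B) M₁'] [AddCommGroup M₀₁'] [Module (D.A₀₁ B) M₀₁']
variable (r₀' : M₀' →ₛₗ[(D.res₀ B).toRingHom] M₀₁') (r₁' : M₁' →ₛₗ[(D.res₁ B).toRingHom] M₀₁')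

/-- Two isomorphisms of two-chart line bundles over `C ×ₖ Spec B` differ by a unit of `B`. -/
theorem curve_exists_unit_smul_of_equiv (hU : UnitSections D B)
    [Module.Invertible (D.A₀ B) M₀] [Module.Invertible (D.A₁ B) M₁] [FaithfulSMul (D.A₀₁ B) M₀₁]
    (h₀ : Submodule.span (D.A₀₁ B) (Set.range r₀) = ⊤)
    (h₁ : Submodule.span (D.A₀₁ B) (Set.range r₁) = ⊤)
    (φ₀ φ₀' : M₀ ≃ₗ[D.A₀ B] M₀') (φ₁ φ₁' : M₁ ≃ₗ[D.A₁ B] M₁')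
    (φ₀₁ φ₀₁' : M₀₁ ≃ₗ[D.A₀₁ B] M₀₁')
    (hφ₀ : ∀ m, φ₀₁ (r₀ m) = r₀' (φ₀ m)) (hφ₁ : ∀ m, φ₀₁ (r₁ m) = r₁' (φ₁ m))
    (hφ₀' : ∀ m, φ₀₁' (r₀ m) = r₀' (φ₀' m)) (hφ₁' : ∀ m, φ₀₁' (r₁ m) = r₁' (φ₁' m)) :
    ∃ b : Bˣ, (∀ m, φ₀' m = ((1 : D.R₀) ⊗ₜ[k] (b : B) : D.A₀ B) • φ₀ m) ∧
      (∀ m, φ₁' m = ((1 : D.R₁) ⊗ₜ[k] (b : B) : D.A₁ B) • φ₁ m) ∧
      (∀ m, φ₀₁' m = ((1 : D.R₀₁) ⊗ₜ[k] (b : B) : D.A₀₁ B) • φ₀₁ m) := by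
  obtain ⟨b, hb₀, hb₁, hb₀₁⟩ := exists_unit_smul_of_equiv (incl₀ D B) (incl₁ D B) r₀ r₁ r₀' r₁'
    hU.hEq (incl₀_injective D B) h₀ h₁ φ₀ φ₀' φ₁ φ₁' φ₀₁ φ₀₁' hφ₀ hφ₁ hφ₀' hφ₁'
  refine ⟨b, hb₀, hb₁, fun m => ?_⟩
  rw [hb₀₁ m]
  congr 1
  change D.res₀ B ((1 : D.R₀) ⊗ₜ[k] (b : B)) = _
  simp

/-- **Rigidified isomorphisms are unique**: two isomorphisms of two-chart line bundles over
`C ×ₖ Spec B` compatible with rigidifications along `ε` (`s`, `s'` semilinear along `D.eB B`,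
values generating the unit ideal) are equal. -/
theorem curve_equiv_eq_of_rigidified (hU : UnitSections D B)
    [Module.Invertible (D.A₀ B) M₀] [Module.Invertible (D.A₁ B) M₁] [FaithfulSMul (D.A₀₁ B) M₀₁]
    (h₀ : Submodule.span (D.A₀₁ B) (Set.range r₀) = ⊤)
    (h₁ : Submodule.span (D.A₀₁ B) (Set.range r₁) = ⊤)
    (s : M₁ →ₛₗ[(D.eB B).toRingHom] B) (s' : M₁' →ₛₗ[(D.eB B).toRingHom] B)
    (hs : Ideal.span (Set.range s) = ⊤)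
    (φ₀ φ₀' : M₀ ≃ₗ[D.A₀ B] M₀') (φ₁ φ₁' : M₁ ≃ₗ[D.A₁ B] M₁')
    (φ₀₁ φ₀₁' : M₀₁ ≃ₗ[D.A₀₁ B] M₀₁')
    (hφ₀ : ∀ m, φ₀₁ (r₀ m) = r₀' (φ₀ m)) (hφ₁ : ∀ m, φ₀₁ (r₁ m) = r₁' (φ₁ m))
    (hφ₀' : ∀ m, φ₀₁' (r₀ m) = r₀' (φ₀' m)) (hφ₁' : ∀ m, φ₀₁' (r₁ m) = r₁' (φ₁' m))
    (hσ : ∀ m, s' (φ₁ m) = s m) (hσ' : ∀ m, s' (φ₁' m) = s m) :
    φ₀ = φ₀' ∧ φ₁ = φ₁' ∧ φ₀₁ = φ₀₁' :=
  equiv_eq_of_rigidified (incl₀ D B) (incl₁ D B) r₀ r₁ r₀' r₁' hU.hEq h₀ h₁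
    (e := (D.eB B).toRingHom) (eB_incl₁ D B) s s' hs φ₀ φ₀' φ₁ φ₁' φ₀₁ φ₀₁'
    hφ₀ hφ₁ hφ₀' hφ₁' hσ hσ'

end Curve

end Fermat.Agent.S25.helper720
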