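import Mathlib
import Fermat.Agent.S25.helper720_EndUnique
import Fermat.Agent.S25.helper3610_UnitSections

/-!
# S25, leaf U6 (continued): rigidifications form a torsor, rigidified isomorphisms exist uniquely

* `exists_unit_of_rigidifications` : two rigidifications (surjective `e`-semilinear maps
  `M₁ → B` on an invertible `A₁`-module) differ by a unit of `B`;
* `existsUnique_rigidified_equiv` : if two rigidified two-chart data are isomorphic, there is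
  exactly one isomorphism compatible with the rigidifications;
* `unitSections` : for `k` algebraically closed, `UnitSections D B` holds for every `k`-algebra
  `B` (wiring of `helper3610.unit_sections`), and the unconditional `CurveDatum` forms
  `curve_existsUnique_smul_of_end'`, `curve_existsUnique_rigidified_equiv`.
-/

set_option autoImplicit false

namespace Fermat.Agent.S25.helper720

open Module TensorProduct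

section Rig

variable {A₁ B : Type*} [CommRing A₁] [CommRing B] {e : A₁ →+* B}
  {M₁ : Type*} [AddCommGroup M₁] [Module A₁ M₁]

/-- Two rigidifications of an invertible module (surjective semilinear maps to `B`) differ by a
unit of `B`. -/
theorem exists_unit_of_rigidifications [Module.Invertible A₁ M₁]
    (s s₂ : M₁ →ₛₗ[e] B) (hs : Function.Surjective s) (hs₂ : Function.Surjective s₂) :
    ∃ b : Bˣ, ∀ m, s₂ m = b * s m := by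
  let _ : Algebra A₁ B := e.toAlgebra
  have halg : ∀ (a : A₁) (b : B), a • b = e a * b := fun a b => by
    rw [Algebra.smul_def]; rfl
  -- the two `A₁`-linear maps
  let sl : M₁ →ₗ[A₁] B :=
    { toFun := s
      map_add' := map_add s
      map_smul' := fun a m => by rw [map_smulₛₗ, RingHom.id_apply, halg, smul_eq_mul] }
  let sl₂ : M₁ →ₗ[A₁] B :=
    { toFun := s₂
      map_add' := map_add s₂
      map_smul' := fun a m => by rw [map_smulₛₗ, RingHom.id_apply, halg, smul_eq_mul] }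
  let σ : B ⊗[A₁] M₁ →ₗ[B] B := sl.liftBaseChange B
  let σ₂ : B ⊗[A₁] M₁ →ₗ[B] B := sl₂.liftBaseChange B
  have hσ : ∀ m, σ (1 ⊗ₜ[A₁] m) = s m := fun m => by
    simp [σ, sl, LinearMap.liftBaseChange_tmul]
  have hσ₂ : ∀ m, σ₂ (1 ⊗ₜ[A₁] m) = s₂ m := fun m => by
    simp [σ₂, sl₂, LinearMap.liftBaseChange_tmul]
  have hσs : Function.Surjective σ := fun b => by
    obtain ⟨m, rfl⟩ := hs b; exact ⟨_, hσ m⟩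
  have hσ₂s : Function.Surjective σ₂ := fun b => by
    obtain ⟨m, rfl⟩ := hs₂ b; exact ⟨_, hσ₂ m⟩
  have hσb := Module.Invertible.bijective_of_surjective hσs
  have hσ₂b := Module.Invertible.bijective_of_surjective hσ₂s
  let E : B ⊗[A₁] M₁ ≃ₗ[B] B := LinearEquiv.ofBijective σ hσb
  let E₂ : B ⊗[A₁] M₁ ≃ₗ[B] B := LinearEquiv.ofBijective σ₂ hσ₂b
  let τ : B ≃ₗ[B] B := E.symm.trans E₂
  have hτ : ∀ x, τ x = x * τ 1 := fun x => by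
    conv_lhs => rw [← mul_one x, ← smul_eq_mul, map_smul, smul_eq_mul]
  have hτ' : ∀ x, τ.symm x = x * τ.symm 1 := fun x => by
    conv_lhs => rw [← mul_one x, ← smul_eq_mul, map_smul, smul_eq_mul]
  have h1 : τ 1 * τ.symm 1 = 1 := by
    have := τ.symm_apply_apply 1
    rw [hτ' (τ 1)] at this
    exact this
  refine ⟨⟨τ 1, τ.symm 1, h1, by rw [mul_comm]; exact h1⟩, fun m => ?_⟩
  change s₂ m = τ 1 * s m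
  rw [mul_comm, ← hτ, ← hσ, ← hσ₂]
  change σ₂ (1 ⊗ₜ[A₁] m) = E₂ (E.symm (E (1 ⊗ₜ[A₁] m)))
  rw [LinearEquiv.symm_apply_apply]
  rfl

end Rig

section TwoChart

variable {B A₀ A₁ A₀₁ : Type*} [CommRing B] [CommRing A₀] [CommRing A₁] [CommRing A₀₁]
variable (β₀ : B →+* A₀) (β₁ : B →+* A₁) {ρ₀ : A₀ →+* A₀₁} {ρ₁ : A₁ →+* A₀₁}
variable {M₀ M₁ M₀₁ : Type*} [AddCommGroup M₀] [Module A₀ M₀] [AddCommGroup M₁] [Module A₁ M₁]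
  [AddCommGroup M₀₁] [Module A₀₁ M₀₁]
variable (r₀ : M₀ →ₛₗ[ρ₀] M₀₁) (r₁ : M₁ →ₛₗ[ρ₁] M₀₁)
variable {M₀' M₁' M₀₁' : Type*} [AddCommGroup M₀'] [Module A₀ M₀'] [AddCommGroup M₁']
  [Module A₁ M₁'] [AddCommGroup M₀₁'] [Module A₀₁ M₀₁']
variable (r₀' : M₀' →ₛₗ[ρ₀] M₀₁') (r₁' : M₁' →ₛₗ[ρ₁] M₀₁')

/-- **Rigidified isomorphisms exist uniquely.** If two two-chart data with invertible chart
modules are isomorphic and both carry rigidifications along a retraction `e` of `β₁`, then there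
is exactly one isomorphism compatible with the rigidifications. -/
theorem existsUnique_rigidified_equiv
    (hsq : ρ₀.comp β₀ = ρ₁.comp β₁)
    (hEq : ∀ a₀ a₁, ρ₀ a₀ = ρ₁ a₁ → ∃ b, β₀ b = a₀ ∧ β₁ b = a₁)
    [Module.Invertible A₀ M₀] [Module.Invertible A₁ M₁] [FaithfulSMul A₀₁ M₀₁]
    (h₀ : Submodule.span A₀₁ (Set.range r₀) = ⊤) (h₁ : Submodule.span A₀₁ (Set.range r₁) = ⊤)
    {e : A₁ →+* B} (he : ∀ b, e (β₁ b) = b)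
    (s : M₁ →ₛₗ[e] B) (s' : M₁' →ₛₗ[e] B)
    (hs : Function.Surjective s) (hs' : Function.Surjective s')
    (φ₀ : M₀ ≃ₗ[A₀] M₀') (φ₁ : M₁ ≃ₗ[A₁] M₁') (φ₀₁ : M₀₁ ≃ₗ[A₀₁] M₀₁')
    (hφ₀ : ∀ m, φ₀₁ (r₀ m) = r₀' (φ₀ m)) (hφ₁ : ∀ m, φ₀₁ (r₁ m) = r₁' (φ₁ m)) :
    ∃ (ψ₀ : M₀ ≃ₗ[A₀] M₀') (ψ₁ : M₁ ≃ₗ[A₁] M₁') (ψ₀₁ : M₀₁ ≃ₗ[A₀₁] M₀₁'),
      ((∀ m, ψ₀₁ (r₀ m) = r₀' (ψ₀ m)) ∧ (∀ m, ψ₀₁ (r₁ m) = r₁' (ψ₁ m)) ∧
        (∀ m, s' (ψ₁ m) = s m)) ∧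
      ∀ (χ₀ : M₀ ≃ₗ[A₀] M₀') (χ₁ : M₁ ≃ₗ[A₁] M₁') (χ₀₁ : M₀₁ ≃ₗ[A₀₁] M₀₁'),
        (∀ m, χ₀₁ (r₀ m) = r₀' (χ₀ m)) → (∀ m, χ₀₁ (r₁ m) = r₁' (χ₁ m)) →
        (∀ m, s' (χ₁ m) = s m) → χ₀ = ψ₀ ∧ χ₁ = ψ₁ ∧ χ₀₁ = ψ₀₁ := by
  -- the defect of `φ` with respect to the rigidifications
  let t : M₁ →ₛₗ[e] B := s'.comp φ₁.toLinearMap
  have ht : Function.Surjective t := hs'.comp φ₁.surjective
  obtain ⟨b, hb⟩ := exists_unit_of_rigidifications s t hs ht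
  have hb' : ∀ m, s' (φ₁ m) = b * s m := hb
  let u₀ : A₀ˣ := Units.map β₀.toMonoidHom b⁻¹
  let u₁ : A₁ˣ := Units.map β₁.toMonoidHom b⁻¹
  let u₀₁ : A₀₁ˣ := Units.map (ρ₀.comp β₀).toMonoidHom b⁻¹
  have hu₀ : (u₀ : A₀) = β₀ ((b⁻¹ : Bˣ) : B) := rfl
  have hu₁ : (u₁ : A₁) = β₁ ((b⁻¹ : Bˣ) : B) := rfl
  have hu₀₁ : (u₀₁ : A₀₁) = ρ₀ (β₀ ((b⁻¹ : Bˣ) : B)) := rfl
  have hu₀₁' : (u₀₁ : A₀₁) = ρ₁ (β₁ ((b⁻¹ : Bˣ) : B)) := by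
    rw [hu₀₁]; exact congrArg (fun f : B →+* A₀₁ => f ((b⁻¹ : Bˣ) : B)) hsq
  let ψ₀ : M₀ ≃ₗ[A₀] M₀' := (LinearEquiv.smulOfUnit u₀).trans φ₀
  let ψ₁ : M₁ ≃ₗ[A₁] M₁' := (LinearEquiv.smulOfUnit u₁).trans φ₁
  let ψ₀₁ : M₀₁ ≃ₗ[A₀₁] M₀₁' := (LinearEquiv.smulOfUnit u₀₁).trans φ₀₁
  have hψ₀ : ∀ m, ψ₀ m = φ₀ (β₀ ((b⁻¹ : Bˣ) : B) • m) := fun m => rfl
  have hψ₁ : ∀ m, ψ₁ m = φ₁ (β₁ ((b⁻¹ : Bˣ) : B) • m) := fun m => rfl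
  have hψ₀₁ : ∀ m, ψ₀₁ m = φ₀₁ ((u₀₁ : A₀₁) • m) := fun m => rfl
  have c₀ : ∀ m, ψ₀₁ (r₀ m) = r₀' (ψ₀ m) := fun m => by
    rw [hψ₀₁, hψ₀, hu₀₁, ← map_smulₛₗ r₀, hφ₀]
  have c₁ : ∀ m, ψ₀₁ (r₁ m) = r₁' (ψ₁ m) := fun m => by
    rw [hψ₀₁, hψ₁, hu₀₁', ← map_smulₛₗ r₁, hφ₁]
  have cs : ∀ m, s' (ψ₁ m) = s m := fun m => by
    rw [hψ₁, hb', map_smulₛₗ, he, smul_eq_mul, ← mul_assoc, Units.mul_inv, one_mul]
  refine ⟨ψ₀, ψ₁, ψ₀₁, ⟨c₀, c₁, cs⟩, fun χ₀ χ₁ χ₀₁ d₀ d₁ ds => ?_⟩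
  have hspan : Ideal.span (Set.range s) = ⊤ := by
    rw [Ideal.eq_top_iff_one]
    obtain ⟨m, hm⟩ := hs 1
    exact Ideal.subset_span ⟨m, hm⟩
  exact equiv_eq_of_rigidified β₀ β₁ r₀ r₁ r₀' r₁' hEq h₀ h₁ he s s' hspan
    χ₀ ψ₀ χ₁ ψ₁ χ₀₁ ψ₀₁ d₀ d₁ c₀ c₁ ds cs

end TwoChart

/-! ### `CurveDatum` forms, unconditional for `k` algebraically closed -/

section Curve

open Fermat.Agent.S25.helper1705

universe u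

variable {k : Type u} [Field k] (D : CurveDatum k) (B : Type u) [CommRing B] [Algebra k B]

/-- `H⁰(unit over B) = B` for every `k`-algebra `B` (`k` algebraically closed);
wiring of `helper3610.unit_sections`. -/
theorem unitSections [IsAlgClosed k] : UnitSections D B :=
  fun a₀ a₁ h => helper3610.unit_sections D B a₀ a₁ h

theorem res_comp_incl :
    (D.res₀ B).toRingHom.comp (incl₀ D B) = (D.res₁ B).toRingHom.comp (incl₁ D B) := by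
  ext b
  change D.res₀ B ((1 : D.R₀) ⊗ₜ[k] b) = D.res₁ B ((1 : D.R₁) ⊗ₜ[k] b)
  simp

variable {D B}
variable {M₀ M₁ M₀₁ : Type*} [AddCommGroup M₀] [Module (D.A₀ B) M₀] [AddCommGroup M₁]
  [Module (D.A₁ B) M₁] [AddCommGroup M₀₁] [Module (D.A₀₁ B) M₀₁]
variable (r₀ : M₀ →ₛₗ[(D.res₀ B).toRingHom] M₀₁) (r₁ : M₁ →ₛₗ[(D.res₁ B).toRingHom] M₀₁)

/-- **End(G) = B**, unconditional form over an algebraically closed field. -/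
theorem curve_existsUnique_smul_of_end' [IsAlgClosed k]
    [Module.Invertible (D.A₀ B) M₀] [Module.Invertible (D.A₁ B) M₁] [FaithfulSMul (D.A₀₁ B) M₀₁]
    (h₀ : Submodule.span (D.A₀₁ B) (Set.range r₀) = ⊤)
    (h₁ : Submodule.span (D.A₀₁ B) (Set.range r₁) = ⊤)
    (f₀ : M₀ →ₗ[D.A₀ B] M₀) (f₁ : M₁ →ₗ[D.A₁ B] M₁) (f₀₁ : M₀₁ →ₗ[D.A₀₁ B] M₀₁)
    (hf₀ : ∀ m, f₀₁ (r₀ m) = r₀ (f₀ m)) (hf₁ : ∀ m, f₀₁ (r₁ m) = r₁ (f₁ m)) :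
    ∃! b : B, (∀ m, f₀ m = ((1 : D.R₀) ⊗ₜ[k] b : D.A₀ B) • m) ∧
      (∀ m, f₁ m = ((1 : D.R₁) ⊗ₜ[k] b : D.A₁ B) • m) :=
  curve_existsUnique_smul_of_end r₀ r₁ (unitSections D B) h₀ h₁ f₀ f₁ f₀₁ hf₀ hf₁

variable {M₀' M₁' M₀₁' : Type*} [AddCommGroup M₀'] [Module (D.A₀ B) M₀'] [AddCommGroup M₁']
  [Module (D.A₁ B) M₁'] [AddCommGroup M₀₁'] [Module (D.A₀₁ B) M₀₁']
variable (r₀' : M₀' →ₛₗ[(D.res₀ B).toRingHom] M₀₁') (r₁' : M₁' →ₛₗ[(D.res₁ B).toRingHom] M₀₁')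

/-- **Rigidified isomorphisms exist uniquely** for two-chart line bundles over `C ×ₖ Spec B`
(`k` algebraically closed): if two rigidified data are isomorphic, exactly one isomorphism is
compatible with the rigidifications. -/
theorem curve_existsUnique_rigidified_equiv [IsAlgClosed k]
    [Module.Invertible (D.A₀ B) M₀] [Module.Invertible (D.A₁ B) M₁] [FaithfulSMul (D.A₀₁ B) M₀₁]
    (h₀ : Submodule.span (D.A₀₁ B) (Set.range r₀) = ⊤)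
    (h₁ : Submodule.span (D.A₀₁ B) (Set.range r₁) = ⊤)
    (s : M₁ →ₛₗ[(D.eB B).toRingHom] B) (s' : M₁' →ₛₗ[(D.eB B).toRingHom] B)
    (hs : Function.Surjective s) (hs' : Function.Surjective s')
    (φ₀ : M₀ ≃ₗ[D.A₀ B] M₀') (φ₁ : M₁ ≃ₗ[D.A₁ B] M₁') (φ₀₁ : M₀₁ ≃ₗ[D.A₀₁ B] M₀₁')
    (hφ₀ : ∀ m, φ₀₁ (r₀ m) = r₀' (φ₀ m)) (hφ₁ : ∀ m, φ₀₁ (r₁ m) = r₁' (φ₁ m)) :
    ∃ (ψ₀ : M₀ ≃ₗ[D.A₀ B] M₀') (ψ₁ : M₁ ≃ₗ[D.A₁ B] M₁') (ψ₀₁ : M₀₁ ≃ₗ[D.A₀₁ B] M₀₁'),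
      ((∀ m, ψ₀₁ (r₀ m) = r₀' (ψ₀ m)) ∧ (∀ m, ψ₀₁ (r₁ m) = r₁' (ψ₁ m)) ∧
        (∀ m, s' (ψ₁ m) = s m)) ∧
      ∀ (χ₀ : M₀ ≃ₗ[D.A₀ B] M₀') (χ₁ : M₁ ≃ₗ[D.A₁ B] M₁') (χ₀₁ : M₀₁ ≃ₗ[D.A₀₁ B] M₀₁'),
        (∀ m, χ₀₁ (r₀ m) = r₀' (χ₀ m)) → (∀ m, χ₀₁ (r₁ m) = r₁' (χ₁ m)) →
        (∀ m, s' (χ₁ m) = s m) → χ₀ = ψ₀ ∧ χ₁ = ψ₁ ∧ χ₀₁ = ψ₀₁ :=
  existsUnique_rigidified_equiv (incl₀ D B) (incl₁ D B) r₀ r₁ r₀' r₁' (res_comp_incl D B)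
    (unitSections D B).hEq h₀ h₁ (e := (D.eB B).toRingHom) (eB_incl₁ D B) s s' hs hs'
    φ₀ φ₁ φ₀₁ hφ₀ hφ₁

end Curve

end Fermat.Agent.S25.helper720
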