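import Fermat.Agent.S25.helper2945_AlgDefs
import Fermat.Agent.S25.helper720_RigTorsor
import Fermat.Agent.S25.helper1397_HomBridge
import Fermat.Agent.S25.helper233_HomCongr
import Fermat.Agent.S25.helper4743_CoverAsm
import Fermat.Agent.S25.helper1985_CechBaseChange
import Fermat.Agent.S25.helper3281_GlueLattice
import Fermat.Agent.S25.helper1153_TwistConst

/-!
# S25, leaf U6 in `GlueDatum` vocabulary: `End(G) = B`, rigidified isomorphisms exist uniquely

For `G G' : helper2945.GlueDatum D B` (`k` algebraically closed, `B` any `k`-algebra):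

* `glueDatum_end` : every compatible triple of endomorphisms of `G` is `b • ·` for a unique
  `b : B`;
* `glueDatum_iso_unit` : two isomorphisms `G ≅ G'` differ by a unit of `B`;
* `isRig_iff_exists_surjective` : `G.IsRig` iff there is a surjective `ε`-semilinear map
  `G.M₁ → B` (a *rigidification*);
* `glueDatum_existsUnique_iso_of_rigidified` : if `G.Equiv G'` and both carry rigidifications,
  there is exactly one `GlueDatum.Iso G G'` compatible with them;
* `glueDatum_aut_eq_refl` : an automorphism compatible with a rigidification is the identity.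

## (FG1) Fibrewise ⟹ global for the intrinsic chart condition (root `Stmt_ChartOf`, clause OPEN)

* `inChartOf_of_fibrewise` : for `N` over `k`, `B` any `k`-algebra and `G` rigidified over `B`:
  if over one field point `χ` above every maximal ideal of `B` there is
  `σ : Mor (G.baseChange χ) (baseOver N K)` with `SurjModY`, `Generates` and
  `H¹(Hom(G_χ, N_K)) = 0`, then there is `σ : Mor G (baseOver N B)` with `SurjModY`, `Generates`
  and `H¹(Hom(G, N_B)) = 0` (`inChartOf_of_fibrewise'` : hence `InChartOf N G`);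
* `exists_mor_of_fibrewise` : the same for an arbitrary rigidified target `H` over `B`;
* `surjective_delta_of_fibrewise`, `surjModY_of_fibrewise` : `H¹ = 0` and `SurjModY` can be
  checked on closed fibres;
* `evAt m₀ s` : evaluation of a section of `Hom(G, H)` at the marked point through a
  rigidification, `rig_comp_eq`, `rig_ne_zero_of_surjModY`, `eq_zero_of_evAt_eq_zero`,
  `surjModY_of_generates_of_ne_zero`, `evAt_homBaseChangeIso` (compatibility with base change);
* generic: `mem_ker_smul_top_of_semilinear_eq_zero` (kernel of a rigidification),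
  `mem_smul_top_of_one_tmul_eq_zero`, `subsingleton_of_forall_maximal_le_smul_top` (Nakayama
  over all closed points, one field point each).
-/

set_option autoImplicit false
set_option linter.style.haveILetI false

namespace Fermat.Agent.S25.helper720

open Fermat.Agent.S25.helper1705 Fermat.Agent.S25.helper2945 TensorProduct

universe u

variable {k : Type u} [Field k] {D : CurveDatum k} {B : Type u} [CommRing B] [Algebra k B]

/-- The restriction `ρ₀` of a `GlueDatum` as a map semilinear along `D.res₀ B`. -/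
noncomputable def semi₀ (G : GlueDatum D B) : G.M₀ →ₛₗ[(D.res₀ B).toRingHom] G.M₀₁ where
  toFun := G.ρ₀
  map_add' := map_add _
  map_smul' a m := by
    rw [map_smul]
    exact (algebraMap_smul (D.A₀₁ B) a (G.ρ₀ m)).symm

/-- The restriction `ρ₁` of a `GlueDatum` as a map semilinear along `D.res₁ B`. -/
noncomputable def semi₁ (G : GlueDatum D B) : G.M₁ →ₛₗ[(D.res₁ B).toRingHom] G.M₀₁ where
  toFun := G.ρ₁
  map_add' := map_add _
  map_smul' a m := by
    rw [map_smul]
    exact (algebraMap_smul (D.A₀₁ B) a (G.ρ₁ m)).symm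

@[simp] theorem semi₀_apply (G : GlueDatum D B) (m : G.M₀) : semi₀ G m = G.ρ₀ m := rfl
@[simp] theorem semi₁_apply (G : GlueDatum D B) (m : G.M₁) : semi₁ G m = G.ρ₁ m := rfl

theorem isBaseChange_ρ₀ (G : GlueDatum D B) : IsBaseChange (D.A₀₁ B) G.ρ₀ :=
  IsLocalizedModule.isBaseChange (Submonoid.powers (xB D B)) (D.A₀₁ B) G.ρ₀

theorem isBaseChange_ρ₁ (G : GlueDatum D B) : IsBaseChange (D.A₀₁ B) G.ρ₁ :=
  IsLocalizedModule.isBaseChange (Submonoid.powers (yB D B)) (D.A₀₁ B) G.ρ₁

theorem span_range_semi₀ (G : GlueDatum D B) :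
    Submodule.span (D.A₀₁ B) (Set.range (semi₀ G)) = ⊤ := by
  rw [eq_top_iff]
  intro n _
  exact (isBaseChange_ρ₀ G).inductionOn n (· ∈ Submodule.span (D.A₀₁ B) (Set.range (semi₀ G)))
    (zero_mem _) (fun m => Submodule.subset_span ⟨m, rfl⟩)
    (fun s n hn => Submodule.smul_mem _ s hn) (fun n₁ n₂ h₁ h₂ => Submodule.add_mem _ h₁ h₂)

theorem span_range_semi₁ (G : GlueDatum D B) :
    Submodule.span (D.A₀₁ B) (Set.range (semi₁ G)) = ⊤ := by
  rw [eq_top_iff]
  intro n _
  exact (isBaseChange_ρ₁ G).inductionOn n (· ∈ Submodule.span (D.A₀₁ B) (Set.range (semi₁ G)))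
    (zero_mem _) (fun m => Submodule.subset_span ⟨m, rfl⟩)
    (fun s n hn => Submodule.smul_mem _ s hn) (fun n₁ n₂ h₁ h₂ => Submodule.add_mem _ h₁ h₂)

/-- The overlap module of a `GlueDatum` is invertible over `D.A₀₁ B`. -/
theorem invertible₀₁ (G : GlueDatum D B) : Module.Invertible (D.A₀₁ B) G.M₀₁ :=
  Module.Invertible.congr (isBaseChange_ρ₀ G).equiv

/-- Two isomorphisms of glue data with the same components are equal. -/
theorem iso_ext {G G' : GlueDatum D B} (f g : GlueDatum.Iso G G') (h₀ : f.e₀ = g.e₀)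
    (h₁ : f.e₁ = g.e₁) (h₀₁ : f.e₀₁ = g.e₀₁) : f = g := by
  cases f; cases g
  simp only at h₀ h₁ h₀₁
  subst h₀ h₁ h₀₁
  rfl

/-- **End(G) = B.** Every compatible triple of endomorphisms of a two-chart line bundle over
`C ×ₖ Spec B` is multiplication by a unique element of `B`. -/
theorem glueDatum_end [IsAlgClosed k] (G : GlueDatum D B)
    (f₀ : G.M₀ →ₗ[D.A₀ B] G.M₀) (f₁ : G.M₁ →ₗ[D.A₁ B] G.M₁) (f₀₁ : G.M₀₁ →ₗ[D.A₀₁ B] G.M₀₁)
    (h₀ : ∀ m, f₀₁ (G.ρ₀ m) = G.ρ₀ (f₀ m)) (h₁ : ∀ m, f₀₁ (G.ρ₁ m) = G.ρ₁ (f₁ m)) :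
    ∃! b : B, (∀ m, f₀ m = b • m) ∧ (∀ m, f₁ m = b • m) := by
  haveI := invertible₀₁ G
  exact curve_existsUnique_smul_of_end' (semi₀ G) (semi₁ G) (span_range_semi₀ G)
    (span_range_semi₁ G) f₀ f₁ f₀₁ h₀ h₁

/-- Two isomorphisms of two-chart line bundles differ by a unit of `B`. -/
theorem glueDatum_iso_unit [IsAlgClosed k] {G G' : GlueDatum D B} (f g : GlueDatum.Iso G G') :
    ∃ b : Bˣ, (∀ m, g.e₀ m = (b : B) • f.e₀ m) ∧ (∀ m, g.e₁ m = (b : B) • f.e₁ m) ∧
      (∀ m, g.e₀₁ m = (b : B) • f.e₀₁ m) := by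
  haveI := invertible₀₁ G
  exact curve_exists_unit_smul_of_equiv (semi₀ G) (semi₁ G) (semi₀ G') (semi₁ G')
    (unitSections D B) (span_range_semi₀ G) (span_range_semi₁ G)
    f.e₀ g.e₀ f.e₁ g.e₁ f.e₀₁ g.e₀₁ f.comm₀ f.comm₁ g.comm₀ g.comm₁

/-- A surjective semilinear map `M₁ → B` on an invertible module induces an isomorphism
`B ⊗ M₁ ≃ B`. -/
theorem exists_equiv_of_surjective_semilinear {A₁ B : Type*} [CommRing A₁] [CommRing B]
    {e : A₁ →+* B} {M₁ : Type*} [AddCommGroup M₁] [Module A₁ M₁] [Module.Invertible A₁ M₁]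
    (s : M₁ →ₛₗ[e] B) (hs : Function.Surjective s) :
    letI : Algebra A₁ B := e.toAlgebra
    ∃ σ : (B ⊗[A₁] M₁) ≃ₗ[B] B, ∀ m, σ (1 ⊗ₜ[A₁] m) = s m := by
  letI : Algebra A₁ B := e.toAlgebra
  have halg : ∀ (a : A₁) (b : B), a • b = e a * b := fun a b => by
    rw [Algebra.smul_def]; rfl
  let sl : M₁ →ₗ[A₁] B :=
    { toFun := s
      map_add' := map_add s
      map_smul' := fun a m => by rw [map_smulₛₗ, RingHom.id_apply, halg, smul_eq_mul] }
  let σ : B ⊗[A₁] M₁ →ₗ[B] B := sl.liftBaseChange B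
  have hσ : ∀ m, σ (1 ⊗ₜ[A₁] m) = s m := fun m => by
    simp [σ, sl, LinearMap.liftBaseChange_tmul]
  have hσs : Function.Surjective σ := fun b => by
    obtain ⟨m, rfl⟩ := hs b; exact ⟨_, hσ m⟩
  exact ⟨LinearEquiv.ofBijective σ (Module.Invertible.bijective_of_surjective hσs), hσ⟩

/-- `G.IsRig` iff `G` admits a *rigidification*: a surjective map `G.M₁ → B` semilinear along
the section `ε` (`D.eB B`). -/
theorem isRig_iff_exists_surjective (G : GlueDatum D B) :
    G.IsRig ↔ ∃ s : G.M₁ →ₛₗ[(D.eB B).toRingHom] B, Function.Surjective s := by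
  constructor
  · rintro ⟨σ⟩
    letI : Algebra (D.A₁ B) B := algE D B
    have halg : ∀ (a : D.A₁ B) (b : B), a • b = D.eB B a * b := fun a b => by
      rw [Algebra.smul_def]; rfl
    let s : G.M₁ →ₛₗ[(D.eB B).toRingHom] B :=
      { toFun := fun m => σ (1 ⊗ₜ[D.A₁ B] m)
        map_add' := fun m n => by rw [TensorProduct.tmul_add, map_add]
        map_smul' := fun a m => by
          change σ (1 ⊗ₜ[D.A₁ B] (a • m)) = D.eB B a • σ (1 ⊗ₜ[D.A₁ B] m)
          rw [← TensorProduct.smul_tmul, ← map_smul, TensorProduct.smul_tmul', halg, mul_one,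
            smul_eq_mul, mul_one] }
    have hs : ∀ m, s m = σ (1 ⊗ₜ[D.A₁ B] m) := fun m => rfl
    refine ⟨s, fun b => ?_⟩
    have key : ∀ z : B ⊗[D.A₁ B] G.M₁, ∃ m, s m = σ z := by
      intro z
      induction z using TensorProduct.induction_on with
      | zero => exact ⟨0, by simp⟩
      | tmul c m =>
        refine ⟨algebraMap B (D.A₁ B) c • m, ?_⟩
        rw [map_smulₛₗ, hs]
        change D.eB B (algebraMap B (D.A₁ B) c) • σ (1 ⊗ₜ[D.A₁ B] m) = σ (c ⊗ₜ[D.A₁ B] m)
        rw [eB_algebraMap, ← map_smul, TensorProduct.smul_tmul', smul_eq_mul, mul_one]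
      | add z w hz hw =>
        obtain ⟨m, hm⟩ := hz
        obtain ⟨n, hn⟩ := hw
        exact ⟨m + n, by rw [map_add, hm, hn, map_add]⟩
    obtain ⟨m, hm⟩ := key (σ.symm b)
    exact ⟨m, by rw [hm, LinearEquiv.apply_symm_apply]⟩
  · rintro ⟨s, hs⟩
    obtain ⟨σ, -⟩ := exists_equiv_of_surjective_semilinear s hs
    exact ⟨σ⟩

/-- **Rigidified isomorphisms exist uniquely.** If two two-chart line bundles over
`C ×ₖ Spec B` are equivalent and carry rigidifications `s`, `s'`, there is exactly one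
isomorphism compatible with the rigidifications. -/
theorem glueDatum_existsUnique_iso_of_rigidified [IsAlgClosed k] {G G' : GlueDatum D B}
    (s : G.M₁ →ₛₗ[(D.eB B).toRingHom] B) (s' : G'.M₁ →ₛₗ[(D.eB B).toRingHom] B)
    (hs : Function.Surjective s) (hs' : Function.Surjective s') (h : G.Equiv G') :
    ∃! f : GlueDatum.Iso G G', ∀ m, s' (f.e₁ m) = s m := by
  haveI := invertible₀₁ G
  obtain ⟨φ⟩ := h
  obtain ⟨ψ₀, ψ₁, ψ₀₁, ⟨c₀, c₁, cs⟩, huniq⟩ := curve_existsUnique_rigidified_equiv
    (semi₀ G) (semi₁ G) (semi₀ G') (semi₁ G') (span_range_semi₀ G) (span_range_semi₁ G)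
    s s' hs hs' φ.e₀ φ.e₁ φ.e₀₁ φ.comm₀ φ.comm₁
  refine ⟨⟨ψ₀, ψ₁, ψ₀₁, c₀, c₁⟩, cs, fun g hg => ?_⟩
  obtain ⟨e₀, e₁, e₀₁⟩ := huniq g.e₀ g.e₁ g.e₀₁ g.comm₀ g.comm₁ hg
  exact iso_ext _ _ e₀ e₁ e₀₁

/-- An automorphism of a two-chart line bundle compatible with a rigidification is the
identity. -/
theorem glueDatum_aut_eq_refl [IsAlgClosed k] {G : GlueDatum D B}
    (s : G.M₁ →ₛₗ[(D.eB B).toRingHom] B) (hs : Function.Surjective s)
    (f : GlueDatum.Iso G G) (hf : ∀ m, s (f.e₁ m) = s m) : f = GlueDatum.Iso.refl G := by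
  obtain ⟨g, -, hg⟩ := glueDatum_existsUnique_iso_of_rigidified s s hs hs (GlueDatum.Equiv.refl G)
  rw [hg f hf, hg (GlueDatum.Iso.refl G) fun m => rfl]

/-! ### `IsRig` API: unit, transport along isomorphisms, base change -/

/-- The canonical rigidification of the trivial bundle: the section `ε` itself. -/
noncomputable def rigUnit (D : CurveDatum k) (B : Type u) [CommRing B] [Algebra k B] :
    (GlueDatum.unit D B).M₁ →ₛₗ[(D.eB B).toRingHom] B where
  toFun := fun a => D.eB B a
  map_add' := fun a b => map_add (D.eB B) a b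
  map_smul' := fun a m => map_mul (D.eB B) a m

theorem rigUnit_apply (D : CurveDatum k) (B : Type u) [CommRing B] [Algebra k B]
    (a : D.A₁ B) : rigUnit D B a = D.eB B a := rfl

theorem rigUnit_surjective (D : CurveDatum k) (B : Type u) [CommRing B] [Algebra k B] :
    Function.Surjective (rigUnit D B) := fun b =>
  ⟨algebraMap B (D.A₁ B) b, eB_algebraMap D B b⟩

/-- The trivial bundle is rigidified. -/
theorem isRig_unit (D : CurveDatum k) (B : Type u) [CommRing B] [Algebra k B] :
    (GlueDatum.unit D B).IsRig :=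
  (isRig_iff_exists_surjective _).mpr ⟨rigUnit D B, rigUnit_surjective D B⟩

/-- Transport of a rigidification along an isomorphism. -/
noncomputable def rigOfIso {G G' : GlueDatum D B} (f : GlueDatum.Iso G G')
    (s : G.M₁ →ₛₗ[(D.eB B).toRingHom] B) : G'.M₁ →ₛₗ[(D.eB B).toRingHom] B :=
  s.comp f.e₁.symm.toLinearMap

theorem rigOfIso_apply {G G' : GlueDatum D B} (f : GlueDatum.Iso G G')
    (s : G.M₁ →ₛₗ[(D.eB B).toRingHom] B) (m : G.M₁) : rigOfIso f s (f.e₁ m) = s m := by
  change s (f.e₁.symm (f.e₁ m)) = s m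
  rw [LinearEquiv.symm_apply_apply]

theorem rigOfIso_surjective {G G' : GlueDatum D B} (f : GlueDatum.Iso G G')
    (s : G.M₁ →ₛₗ[(D.eB B).toRingHom] B) (hs : Function.Surjective s) :
    Function.Surjective (rigOfIso f s) := hs.comp f.e₁.symm.surjective

/-- `IsRig` is invariant under equivalence. -/
theorem isRig_of_equiv {G G' : GlueDatum D B} (h : G.Equiv G') (hG : G.IsRig) : G'.IsRig := by
  obtain ⟨f⟩ := h
  obtain ⟨s, hs⟩ := (isRig_iff_exists_surjective G).mp hG
  exact (isRig_iff_exists_surjective G').mpr ⟨rigOfIso f s, rigOfIso_surjective f s hs⟩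

theorem isRig_iff_of_equiv {G G' : GlueDatum D B} (h : G.Equiv G') : G.IsRig ↔ G'.IsRig :=
  ⟨isRig_of_equiv h, isRig_of_equiv h.symm⟩

section BaseChange

variable {B' : Type u} [CommRing B'] [Algebra k B']

/-- Base change of a rigidification along `φ : B → B'`: on `(G.baseChange φ).M₁ =
A₁ B' ⊗[A₁ B] M₁` it is `a' ⊗ m ↦ ε(a') * φ (s m)`. -/
theorem exists_rigBaseChange (G : GlueDatum D B) (φ : B →ₐ[k] B')
    (s : G.M₁ →ₛₗ[(D.eB B).toRingHom] B) :
    ∃ s' : (G.baseChange φ).M₁ →ₛₗ[(D.eB B').toRingHom] B',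
      ∀ (a' : D.A₁ B') (m : G.M₁),
        letI := algA₁ D φ
        s' (a' ⊗ₜ[D.A₁ B] m : D.A₁ B' ⊗[D.A₁ B] G.M₁) = D.eB B' a' * φ (s m) := by
  letI := algA₁ D φ
  letI : Algebra (D.A₁ B') B' := algE D B'
  letI : Algebra (D.A₁ B) B' := ((D.eB B').toRingHom.comp (D.map₁ φ).toRingHom).toAlgebra
  haveI : IsScalarTower (D.A₁ B) (D.A₁ B') B' := IsScalarTower.of_algebraMap_eq fun a => rfl
  have halg' : ∀ (a : D.A₁ B') (b : B'), a • b = D.eB B' a * b := fun a b => by
    rw [Algebra.smul_def]; rfl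
  have halg : ∀ (a : D.A₁ B) (b : B'), a • b = φ (D.eB B a) * b := fun a b => by
    rw [Algebra.smul_def, ← eB_map₁]; rfl
  let l : G.M₁ →ₗ[D.A₁ B] B' :=
    { toFun := fun m => φ (s m)
      map_add' := fun m n => by rw [map_add, map_add]
      map_smul' := fun a m => by
        rw [map_smulₛₗ, RingHom.id_apply, halg]
        change φ (D.eB B a * s m) = _
        rw [map_mul] }
  let σ : D.A₁ B' ⊗[D.A₁ B] G.M₁ →ₗ[D.A₁ B'] B' := l.liftBaseChange (D.A₁ B')
  have hσ : ∀ (a' : D.A₁ B') (m : G.M₁), σ (a' ⊗ₜ[D.A₁ B] m) = D.eB B' a' * φ (s m) :=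
    fun a' m => by
      simp only [σ, LinearMap.liftBaseChange_tmul]
      rw [halg']; rfl
  let s'T : D.A₁ B' ⊗[D.A₁ B] G.M₁ →ₛₗ[(D.eB B').toRingHom] B' :=
    { toFun := fun z => σ z
      map_add' := fun z w => map_add σ z w
      map_smul' := fun a z => by
        change σ (a • z) = D.eB B' a * σ z
        rw [map_smul, halg'] }
  exact ⟨s'T, hσ⟩

/-- `IsRig` is stable under base change. -/
theorem isRig_baseChange (G : GlueDatum D B) (φ : B →ₐ[k] B') (hG : G.IsRig) :
    (G.baseChange φ).IsRig := by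
  obtain ⟨s, hs⟩ := (isRig_iff_exists_surjective G).mp hG
  obtain ⟨s', hs'⟩ := exists_rigBaseChange G φ s
  refine (isRig_iff_exists_surjective _).mpr ⟨s', fun b' => ?_⟩
  obtain ⟨m, hm⟩ := hs 1
  letI := algA₁ D φ
  refine ⟨(algebraMap B' (D.A₁ B') b' ⊗ₜ[D.A₁ B] m : D.A₁ B' ⊗[D.A₁ B] G.M₁), ?_⟩
  rw [hs', hm, map_one, mul_one, eB_algebraMap]

end BaseChange

/-! ## (FG1) Fibrewise ⟹ global for the intrinsic chart condition -/

section Generic

/-- The kernel of a surjective semilinear map `s : M → B` on an invertible module (a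
rigidification) is `(ker e) • M`. -/
theorem mem_ker_smul_top_of_semilinear_eq_zero {A B : Type*} [CommRing A] [CommRing B]
    {e : A →+* B} {M : Type*} [AddCommGroup M] [Module A M] [Module.Invertible A M]
    (s : M →ₛₗ[e] B) (hs : Function.Surjective s) {m : M} (hm : s m = 0) :
    m ∈ (RingHom.ker e) • (⊤ : Submodule A M) := by
  obtain ⟨t, ht⟩ := (Module.Invertible.bijective (R := A) (M := M)).2 1
  obtain ⟨m', hm'⟩ := hs 1
  -- rank one symmetry
  have hsymm : ∀ (ψ : Module.Dual A M) (a b : M), ψ a • b = ψ b • a := by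
    intro ψ a b
    have h := congrArg (TensorProduct.lift ((LinearMap.lsmul A M).comp ψ))
      (Module.Invertible.tmul_comm (R := A) (m₁ := a) (m₂ := b))
    simpa using h
  -- every functional maps `m` into `ker e`
  have hker : ∀ ψ : Module.Dual A M, ψ m ∈ RingHom.ker e := by
    intro ψ
    rw [RingHom.mem_ker]
    have h1 : s (ψ m • m') = s (ψ m' • m) := by rw [hsymm]
    rw [map_smulₛₗ, map_smulₛₗ, hm, hm', smul_zero, smul_eq_mul, mul_one] at h1
    exact h1
  have key : ∀ z : Module.Dual A M ⊗[A] M,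
      contractLeft A M z • m ∈ (RingHom.ker e) • (⊤ : Submodule A M) := by
    intro z
    induction z using TensorProduct.induction_on with
    | zero => simp
    | tmul ψ n =>
      rw [contractLeft_apply, ← hsymm]
      exact Submodule.smul_mem_smul (hker ψ) Submodule.mem_top
    | add x y hx hy =>
      rw [map_add, add_smul]
      exact Submodule.add_mem _ hx hy
  have := key t
  rwa [ht, one_smul] at this

/-- If `1 ⊗ q = 0` in `K ⊗[B] Q` for a field `K` over `B` whose structure map has a maximal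
kernel `𝔪`, then `q ∈ 𝔪 • Q`. No flatness hypothesis on `Q`. -/
theorem mem_smul_top_of_one_tmul_eq_zero {B K : Type*} [CommRing B] [Field K] [Algebra B K]
    (hmax : (RingHom.ker (algebraMap B K)).IsMaximal)
    {Q : Type*} [AddCommGroup Q] [Module B Q] {q : Q} (h : (1 : K) ⊗ₜ[B] q = 0) :
    q ∈ RingHom.ker (algebraMap B K) • (⊤ : Submodule B Q) := by
  haveI : (RingHom.ker (algebraMap B K)).IsMaximal := hmax
  letI : Field (B ⧸ RingHom.ker (algebraMap B K)) := Ideal.Quotient.field _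
  let ι : B ⧸ RingHom.ker (algebraMap B K) →+* K := RingHom.kerLift (algebraMap B K)
  letI : Algebra (B ⧸ RingHom.ker (algebraMap B K)) K := ι.toAlgebra
  haveI : IsScalarTower B (B ⧸ RingHom.ker (algebraMap B K)) K :=
    IsScalarTower.of_algebraMap_eq (fun b => rfl)
  obtain ⟨g, hg⟩ := LinearMap.exists_leftInverse_of_injective
    (Algebra.linearMap (B ⧸ RingHom.ker (algebraMap B K)) K)
    (LinearMap.ker_eq_bot.mpr (algebraMap (B ⧸ RingHom.ker (algebraMap B K)) K).injective)
  let r : K →ₗ[B] B ⧸ RingHom.ker (algebraMap B K) := g.restrictScalars B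
  have hr1 : r 1 = 1 := by
    have := congrArg (fun f => f 1) hg
    change g 1 = 1
    simpa using this
  have h2 : (1 : B ⧸ RingHom.ker (algebraMap B K)) ⊗ₜ[B] q = 0 := by
    have := congrArg (LinearMap.rTensor Q r) h
    simpa [hr1] using this
  have h3 := congrArg (TensorProduct.quotTensorEquivQuotSMul Q (RingHom.ker (algebraMap B K))) h2
  rw [TensorProduct.quotTensorEquivQuotSMul_mk_one_tmul, map_zero] at h3
  exact (Submodule.Quotient.mk_eq_zero _).mp h3

/-- Nakayama over all maximal ideals: a finite module `M` with `M = 𝔪 M` for every maximal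
ideal `𝔪` is zero. -/
theorem subsingleton_of_forall_maximal_le_smul_top {B M : Type*} [CommRing B] [AddCommGroup M]
    [Module B M] [Module.Finite B M]
    (h : ∀ m : Ideal B, m.IsMaximal → (⊤ : Submodule B M) ≤ m • ⊤) : Subsingleton M := by
  by_contra hM
  rw [not_subsingleton_iff_nontrivial] at hM
  obtain ⟨x, hx⟩ := exists_ne (0 : M)
  have hI : Module.annihilator B M ≠ ⊤ := by
    intro hI
    have : (1 : B) ∈ Module.annihilator B M := by rw [hI]; trivial
    exact hx (by simpa using Module.mem_annihilator.mp this x)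
  obtain ⟨m, hm, hIm⟩ := Ideal.exists_le_maximal _ hI
  obtain ⟨r, hr1, hr⟩ := Submodule.exists_sub_one_mem_and_smul_eq_zero_of_fg_of_le_smul m
    (⊤ : Submodule B M) (Module.finite_def.mp inferInstance) (h m hm)
  have hrm : r ∈ m := hIm (Module.mem_annihilator.mpr fun n => hr n trivial)
  have : (1 : B) ∈ m := by
    have := m.sub_mem hrm hr1
    simpa using this
  exact hm.ne_top ((Ideal.eq_top_iff_one m).mpr this)

end Generic

section FibGlobal

open Fermat.Agent.S25.helper1397

/-! ### Rigidifications and the evaluation of a morphism at the marked point -/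

/-- A rigidification is `B`-linear for the `B`-module structure of `M₁`. -/
theorem rig_smul {G : GlueDatum D B} (s : G.M₁ →ₛₗ[(D.eB B).toRingHom] B) (b : B) (m : G.M₁) :
    s (b • m) = b * s m := by
  rw [GlueDatum.smul_def₁, map_smulₛₗ]
  change D.eB B (algebraMap B (D.A₁ B) b) * s m = b * s m
  rw [eB_algebraMap]

/-- A rigidification kills `(ker ε) • M₁`. -/
theorem rig_eq_zero_of_mem {G : GlueDatum D B} (s : G.M₁ →ₛₗ[(D.eB B).toRingHom] B) {m : G.M₁}
    (hm : m ∈ RingHom.ker (D.eB B).toRingHom • (⊤ : Submodule (D.A₁ B) G.M₁)) : s m = 0 := by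
  refine Submodule.smul_induction_on hm (fun a ha n _ => ?_) (fun x y hx hy => ?_)
  · rw [map_smulₛₗ, RingHom.mem_ker.mp ha, zero_smul]
  · rw [map_add, hx, hy, add_zero]

/-- Through rigidifications `sG`, `sH`, a linear map `f : G.M₁ → H.M₁` is multiplication by the
scalar `sH (f m₀)`, where `sG m₀ = 1`. -/
theorem rig_comp_eq {G H : GlueDatum D B} (sG : G.M₁ →ₛₗ[(D.eB B).toRingHom] B)
    (hsG : Function.Surjective sG) (sH : H.M₁ →ₛₗ[(D.eB B).toRingHom] B)
    (f : G.M₁ →ₗ[D.A₁ B] H.M₁) {m₀ : G.M₁} (hm₀ : sG m₀ = 1) (m : G.M₁) :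
    sH (f m) = sG m * sH (f m₀) := by
  have h0 : sG (m - sG m • m₀) = 0 := by rw [map_sub, rig_smul, hm₀, mul_one, sub_self]
  have h1 := mem_ker_smul_top_of_semilinear_eq_zero sG hsG h0
  have h2 : f (m - sG m • m₀) ∈
      RingHom.ker (D.eB B).toRingHom • (⊤ : Submodule (D.A₁ B) H.M₁) := by
    have h := Submodule.mem_map_of_mem (f := f) h1
    rw [Submodule.map_smul''] at h
    exact Submodule.smul_mono le_rfl le_top h
  have h3 := rig_eq_zero_of_mem sH h2
  rw [map_sub, map_sub, sub_eq_zero] at h3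
  rw [h3, helper4743.map_smulB₁, rig_smul]

/-- Evaluation of (the chart-at-infinity component of) a section of the Hom datum at `m₀`,
read through a rigidification `s` of the target. -/
noncomputable def evAt {G H : GlueDatum D B} (m₀ : G.M₁) (s : H.M₁ →ₛₗ[(D.eB B).toRingHom] B) :
    ((homDatum G H).M₀ × (homDatum G H).M₁) →ₗ[B] B where
  toFun p := s (pairSnd p m₀)
  map_add' p q := by
    have h : pairSnd (p + q) m₀ = pairSnd p m₀ + pairSnd q m₀ := rfl
    rw [h, map_add]
  map_smul' c p := by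
    rw [pairSnd_smul_apply, rig_smul]
    rfl

theorem evAt_apply {G H : GlueDatum D B} (m₀ : G.M₁) (s : H.M₁ →ₛₗ[(D.eB B).toRingHom] B)
    (p : (homDatum G H).M₀ × (homDatum G H).M₁) : evAt m₀ s p = s (pairSnd p m₀) := rfl

theorem evAt_specMorPair {G H : GlueDatum D B} (m₀ : G.M₁)
    (s : H.M₁ →ₛₗ[(D.eB B).toRingHom] B) (σ : helper8573.Mor G H) :
    evAt m₀ s (specMorPair σ) = s (σ.f₁ m₀) := rfl

/-- A morphism which is surjective modulo `y` does not vanish at the marked point. -/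
theorem rig_ne_zero_of_surjModY [Nontrivial B] {G H : GlueDatum D B}
    (sG : G.M₁ →ₛₗ[(D.eB B).toRingHom] B) (hsG : Function.Surjective sG)
    (sH : H.M₁ →ₛₗ[(D.eB B).toRingHom] B) (hsH : Function.Surjective sH)
    {m₀ : G.M₁} (hm₀ : sG m₀ = 1) (σ : helper8573.Mor G H) (hσ : σ.SurjModY) :
    sH (σ.f₁ m₀) ≠ 0 := by
  intro h0
  obtain ⟨n, hn⟩ := hsH 1
  obtain ⟨m, n', hmn⟩ := hσ n
  have h1 : sH (σ.f₁ m) = 0 := by rw [rig_comp_eq sG hsG sH σ.f₁ hm₀ m, h0, mul_zero]
  have h2 : sH n = 0 := by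
    rw [hmn, map_add, h1, map_smulₛₗ, zero_add]
    change D.eB B (yB D B) * _ = 0
    rw [eB_yB, zero_mul]
  rw [hn] at h2
  exact one_ne_zero h2

/-- Over a field: if `σ` is surjective modulo `y` and generates all morphisms, a section of the
Hom datum vanishing at the marked point is zero. -/
theorem eq_zero_of_evAt_eq_zero {K : Type u} [Field K] [Algebra k K] {G H : GlueDatum D K}
    (sG : G.M₁ →ₛₗ[(D.eB K).toRingHom] K) (hsG : Function.Surjective sG)
    (sH : H.M₁ →ₛₗ[(D.eB K).toRingHom] K) (hsH : Function.Surjective sH)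
    {m₀ : G.M₁} (hm₀ : sG m₀ = 1) (σ : helper8573.Mor G H) (hσ : σ.SurjModY)
    (hgen : σ.Generates) (p : (homDatum G H).M₀ × (homDatum G H).M₁)
    (hp : p ∈ (homDatum G H).H0) (h0 : evAt m₀ sH p = 0) : p = 0 := by
  obtain ⟨c, rfl⟩ := (specMor_generates_iff_forall σ).mp hgen p hp
  rw [map_smul, evAt_specMorPair, smul_eq_mul] at h0
  have hc : c = 0 :=
    (mul_eq_zero.mp h0).resolve_right (rig_ne_zero_of_surjModY sG hsG sH hsH hm₀ σ hσ)
  rw [hc, zero_smul]

/-- Over a field: if `σ` is surjective modulo `y` and generates all morphisms, then every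
morphism which is nonzero on the chart at infinity is surjective modulo `y`. -/
theorem surjModY_of_generates_of_ne_zero {K : Type u} [Field K] [Algebra k K]
    {G H : GlueDatum D K} (σ : helper8573.Mor G H) (h1 : σ.SurjModY) (h2 : σ.Generates)
    (τ : helper8573.Mor G H) (hτ : ∃ m, τ.f₁ m ≠ 0) : τ.SurjModY := by
  obtain ⟨c, -, hc⟩ := h2 τ
  obtain ⟨m₁, hm₁⟩ := hτ
  have hc0 : c ≠ 0 := by
    rintro rfl
    exact hm₁ (by rw [hc m₁, zero_smul])
  intro n
  obtain ⟨m, n', hn⟩ := h1 n
  refine ⟨c⁻¹ • m, n', ?_⟩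
  rw [helper4743.map_smulB₁, hc m, inv_smul_smul₀ hc0]
  exact hn

end FibGlobal

section FibBaseChange

variable {B' : Type u} [CommRing B'] [Algebra k B']

open Fermat.Agent.S25.helper1397

/-- Compatibility of the evaluation with base change: the evaluation of the base change of a
section `p` of `Hom(G, H)` is the image of the evaluation of `p`. -/
theorem evAt_homBaseChangeIso (G H : GlueDatum D B) (χ : B →ₐ[k] B') (m₀ : G.M₁)
    (sH : H.M₁ →ₛₗ[(D.eB B).toRingHom] B)
    (sH' : (H.baseChange χ).M₁ →ₛₗ[(D.eB B').toRingHom] B')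
    (hsH' : ∀ (a' : D.A₁ B') (n : H.M₁),
      letI := algA₁ D χ
      sH' (a' ⊗ₜ[D.A₁ B] n : D.A₁ B' ⊗[D.A₁ B] H.M₁) = D.eB B' a' * χ (sH n))
    (p : (homDatum G H).M₀ × (homDatum G H).M₁) :
    evAt (helper8108.bcMap₁ G χ m₀) sH'
      (helper743.isoCochainEquiv (homBaseChangeIso G H χ)
        (helper8108.bcMap₀ (homDatum G H) χ p.1, helper8108.bcMap₁ (homDatum G H) χ p.2)) =
      χ (evAt m₀ sH p) := by
  letI := algA₁ D χ
  have h : evAt (helper8108.bcMap₁ G χ m₀) sH'
      (helper743.isoCochainEquiv (homBaseChangeIso G H χ)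
        (helper8108.bcMap₀ (homDatum G H) χ p.1, helper8108.bcMap₁ (homDatum G H) χ p.2)) =
      sH' ((1 : D.A₁ B') • ((1 : D.A₁ B') ⊗ₜ[D.A₁ B] (pairSnd p m₀) :
        D.A₁ B' ⊗[D.A₁ B] H.M₁)) := rfl
  rw [h, one_smul, hsH', map_one, one_mul]
  rfl

/-- The evaluation on the image of `s ⊗ τ` under `B' ⊗ H⁰(Hom(G, H)) → H⁰(Hom(G_B', H_B'))`. -/
theorem evAt_h0Map_tmul (G H : GlueDatum D B) (χ : B →ₐ[k] B') (m₀ : G.M₁)
    (sH : H.M₁ →ₛₗ[(D.eB B).toRingHom] B)
    (sH' : (H.baseChange χ).M₁ →ₛₗ[(D.eB B').toRingHom] B')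
    (hsH' : ∀ (a' : D.A₁ B') (n : H.M₁),
      letI := algA₁ D χ
      sH' (a' ⊗ₜ[D.A₁ B] n : D.A₁ B' ⊗[D.A₁ B] H.M₁) = D.eB B' a' * χ (sH n))
    (s : B') (τ : (homDatum G H).H0) :
    letI := helper1985.algPhi χ
    evAt (helper8108.bcMap₁ G χ m₀) sH'
      ((helper743.isoH0Equiv (homBaseChangeIso G H χ)
        (helper1985.h0Map (homDatum G H) χ (s ⊗ₜ[B] τ)) :
          (homDatum (G.baseChange χ) (H.baseChange χ)).H0) :
        (homDatum (G.baseChange χ) (H.baseChange χ)).M₀ ×
          (homDatum (G.baseChange χ) (H.baseChange χ)).M₁) =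
      s * χ (evAt m₀ sH (τ : (homDatum G H).M₀ × (homDatum G H).M₁)) := by
  letI := helper1985.algPhi χ
  have h1 : ((helper743.isoH0Equiv (homBaseChangeIso G H χ)
        (helper1985.h0Map (homDatum G H) χ (s ⊗ₜ[B] τ)) :
          (homDatum (G.baseChange χ) (H.baseChange χ)).H0) :
        (homDatum (G.baseChange χ) (H.baseChange χ)).M₀ ×
          (homDatum (G.baseChange χ) (H.baseChange χ)).M₁) =
      helper743.isoCochainEquiv (homBaseChangeIso G H χ)
        ((helper1985.h0Map (homDatum G H) χ (s ⊗ₜ[B] τ) : ((homDatum G H).baseChange χ).H0) :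
          ((homDatum G H).baseChange χ).M₀ × ((homDatum G H).baseChange χ).M₁) := rfl
  rw [h1, helper1985.h0Map_tmul, map_smul, map_smul,
    evAt_homBaseChangeIso G H χ m₀ sH sH' hsH', smul_eq_mul]

/-- If the evaluation vanishes on all global sections modulo `ker χ`, it vanishes on all sections
of the fibre (when `H¹ = 0`). -/
theorem evAt_eq_zero_of_fibre (G H : GlueDatum D B) (χ : B →ₐ[k] B') (m₀ : G.M₁)
    (sH : H.M₁ →ₛₗ[(D.eB B).toRingHom] B)
    (sH' : (H.baseChange χ).M₁ →ₛₗ[(D.eB B').toRingHom] B')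
    (hsH' : ∀ (a' : D.A₁ B') (n : H.M₁),
      letI := algA₁ D χ
      sH' (a' ⊗ₜ[D.A₁ B] n : D.A₁ B' ⊗[D.A₁ B] H.M₁) = D.eB B' a' * χ (sH n))
    (hH1 : Subsingleton (homDatum G H).H1)
    (h : ∀ p ∈ (homDatum G H).H0, χ (evAt m₀ sH p) = 0)
    (q : (homDatum (G.baseChange χ) (H.baseChange χ)).M₀ ×
      (homDatum (G.baseChange χ) (H.baseChange χ)).M₁)
    (hq : q ∈ (homDatum (G.baseChange χ) (H.baseChange χ)).H0) :
    evAt (helper8108.bcMap₁ G χ m₀) sH' q = 0 := by
  letI := helper1985.algPhi χ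
  have key : ∀ z : B' ⊗[B] (homDatum G H).H0,
      evAt (helper8108.bcMap₁ G χ m₀) sH'
        ((helper743.isoH0Equiv (homBaseChangeIso G H χ)
          (helper1985.h0Map (homDatum G H) χ z) :
            (homDatum (G.baseChange χ) (H.baseChange χ)).H0) :
          (homDatum (G.baseChange χ) (H.baseChange χ)).M₀ ×
            (homDatum (G.baseChange χ) (H.baseChange χ)).M₁) = 0 := by
    intro z
    induction z using TensorProduct.induction_on with
    | zero => simp
    | tmul s τ => rw [evAt_h0Map_tmul G H χ m₀ sH sH' hsH', h _ τ.2, mul_zero]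
    | add x y hx hy => rw [map_add, map_add, Submodule.coe_add, map_add, hx, hy, add_zero]
  obtain ⟨z, hz⟩ := (helper1985.h0Map_bijective (homDatum G H) χ hH1).2
    ((helper743.isoH0Equiv (homBaseChangeIso G H χ)).symm ⟨q, hq⟩)
  have h2 := key z
  rw [hz, LinearEquiv.apply_symm_apply] at h2
  exact h2

/-- A global section whose evaluation vanishes modulo `ker χ` dies in the fibre `B' ⊗ H⁰`,
provided the evaluation is injective on the sections of the fibre (and `H¹ = 0`). -/
theorem one_tmul_eq_zero_of_fibre (G H : GlueDatum D B) (χ : B →ₐ[k] B') (m₀ : G.M₁)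
    (sH : H.M₁ →ₛₗ[(D.eB B).toRingHom] B)
    (sH' : (H.baseChange χ).M₁ →ₛₗ[(D.eB B').toRingHom] B')
    (hsH' : ∀ (a' : D.A₁ B') (n : H.M₁),
      letI := algA₁ D χ
      sH' (a' ⊗ₜ[D.A₁ B] n : D.A₁ B' ⊗[D.A₁ B] H.M₁) = D.eB B' a' * χ (sH n))
    (hH1 : Subsingleton (homDatum G H).H1)
    (hinj : ∀ q ∈ (homDatum (G.baseChange χ) (H.baseChange χ)).H0,
      evAt (helper8108.bcMap₁ G χ m₀) sH' q = 0 → q = 0)
    (τ : (homDatum G H).H0)
    (hτ : χ (evAt m₀ sH (τ : (homDatum G H).M₀ × (homDatum G H).M₁)) = 0) :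
    letI := helper1985.algPhi χ
    (1 : B') ⊗ₜ[B] τ = 0 := by
  letI := helper1985.algPhi χ
  have h1 := evAt_h0Map_tmul G H χ m₀ sH sH' hsH' 1 τ
  rw [hτ, mul_zero] at h1
  have h2 := hinj _ (Subtype.property _) h1
  have h3 : helper743.isoH0Equiv (homBaseChangeIso G H χ)
      (helper1985.h0Map (homDatum G H) χ ((1 : B') ⊗ₜ[B] τ)) = 0 := Subtype.ext h2
  have h4 : helper1985.h0Map (homDatum G H) χ ((1 : B') ⊗ₜ[B] τ) = 0 :=
    (LinearEquiv.map_eq_zero_iff _).mp h3
  exact (helper1985.h0Map_bijective (homDatum G H) χ hH1).1 (h4.trans (map_zero _).symm)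

end FibBaseChange

section FibMain

open scoped Pointwise

open Fermat.Agent.S25.helper1397

/-- **`H¹ = 0` can be checked on the closed fibres** (one field point above every maximal ideal
suffices). -/
theorem surjective_delta_of_fibrewise [IsAlgClosed k] (E : GlueDatum D B)
    (hfib : ∀ m : Ideal B, m.IsMaximal → ∃ (K : Type u) (_ : Field K) (_ : Algebra k K)
      (χ : B →ₐ[k] K), RingHom.ker χ.toRingHom = m ∧
        Function.Surjective (E.baseChange χ).delta) :
    Function.Surjective E.delta := by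
  rw [← helper1985.subsingleton_H1_iff]
  haveI := helper3281.finite_H1 E
  refine subsingleton_of_forall_maximal_le_smul_top (B := B) fun m hm => ?_
  obtain ⟨K, _, _, χ, hker, hsurj⟩ := hfib m hm
  letI := helper1985.algPhi χ
  haveI : Subsingleton (K ⊗[B] E.H1) :=
    (helper1985.subsingleton_H1_baseChange_iff E χ).mp
      ((helper1985.subsingleton_H1_iff _).mpr hsurj)
  intro h _
  have hk : RingHom.ker (algebraMap B K) = m := hker
  have hmax : (RingHom.ker (algebraMap B K)).IsMaximal := by rw [hk]; exact hm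
  have h1 := mem_smul_top_of_one_tmul_eq_zero hmax (Q := E.H1) (q := h) (Subsingleton.elim _ _)
  rw [hk] at h1
  exact h1

/-- **Surjectivity modulo `y` can be checked on the closed fibres.** -/
theorem surjModY_of_fibrewise {G H : GlueDatum D B} (σ : helper8573.Mor G H)
    (hfib : ∀ m : Ideal B, m.IsMaximal → ∃ (K : Type u) (_ : Field K) (_ : Algebra k K)
      (χ : B →ₐ[k] K), RingHom.ker χ.toRingHom = m ∧ (specMorBaseChange σ χ).SurjModY) :
    σ.SurjModY := by
  rw [specMor_surjModY_iff]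
  generalize hS : LinearMap.range σ.f₁ ⊔ Ideal.span {yB D B} • (⊤ : Submodule (D.A₁ B) H.M₁) = S
  have hrange : ∀ x, σ.f₁ x ∈ S := fun x =>
    hS ▸ Submodule.mem_sup_left (LinearMap.mem_range_self _ x)
  have hy : ∀ n : H.M₁, yB D B • n ∈ S := fun n =>
    hS ▸ Submodule.mem_sup_right
      (Submodule.smul_mem_smul (Ideal.mem_span_singleton_self _) Submodule.mem_top)
  haveI : Module.Finite B (H.M₁ ⧸ S) := by
    have hle : (helper1153.yB D B ^ 1) • (⊤ : Submodule (D.A₁ B) H.M₁) ≤ S := by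
      intro x hx
      obtain ⟨n, -, rfl⟩ := (Submodule.mem_smul_pointwise_iff_exists _ _ _).mp hx
      rw [pow_one]
      exact hy n
    haveI := helper1153.finite_quot_yB_pow_smul D B H.M₁ 1
    exact Module.Finite.of_surjective ((Submodule.factor hle).restrictScalars B)
      (Submodule.factor_surjective hle)
  have hQ : Subsingleton (H.M₁ ⧸ S) := by
    refine subsingleton_of_forall_maximal_le_smul_top (B := B) fun m hm => ?_
    obtain ⟨K, _, _, χ, hker, hsurj⟩ := hfib m hm
    letI := helper1985.algPhi χ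
    letI := algA₁ D χ
    intro q _
    obtain ⟨n, rfl⟩ := Submodule.mkQ_surjective S q
    obtain ⟨m', n', hn⟩ := hsurj (helper8108.bcMap₁ H χ n)
    have hn' : ((1 : D.A₁ K) ⊗ₜ[D.A₁ B] n : D.A₁ K ⊗[D.A₁ B] H.M₁) =
        (σ.f₁.baseChange (D.A₁ K)) (show D.A₁ K ⊗[D.A₁ B] G.M₁ from m') +
          yB D K • (show D.A₁ K ⊗[D.A₁ B] H.M₁ from n') := hn
    have hg := congrArg (S.mkQ.baseChange (D.A₁ K)) hn'
    rw [LinearMap.baseChange_tmul, map_add, map_smul] at hg
    have e1 : S.mkQ.baseChange (D.A₁ K) ((σ.f₁.baseChange (D.A₁ K))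
        (show D.A₁ K ⊗[D.A₁ B] G.M₁ from m')) = 0 := by
      rw [← LinearMap.comp_apply, ← LinearMap.baseChange_comp]
      have h0 : S.mkQ ∘ₗ σ.f₁ = 0 :=
        LinearMap.ext fun x => (Submodule.Quotient.mk_eq_zero S).mpr (hrange x)
      rw [h0, LinearMap.baseChange_zero, LinearMap.zero_apply]
    have e2 : ∀ w : D.A₁ K ⊗[D.A₁ B] (H.M₁ ⧸ S), yB D K • w = 0 := by
      intro w
      induction w using TensorProduct.induction_on with
      | zero => rw [smul_zero]
      | tmul a q =>
        obtain ⟨n, rfl⟩ := Submodule.mkQ_surjective S q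
        have h1 : yB D K • (a ⊗ₜ[D.A₁ B] S.mkQ n : D.A₁ K ⊗[D.A₁ B] (H.M₁ ⧸ S)) =
            a ⊗ₜ[D.A₁ B] (yB D B • S.mkQ n) := by
          rw [TensorProduct.smul_tmul', smul_eq_mul, ← map₁_yB D χ, ← TensorProduct.smul_tmul,
            Algebra.smul_def]
          rfl
        have h2 : yB D B • S.mkQ n = 0 := by
          rw [← map_smul]
          exact (Submodule.Quotient.mk_eq_zero S).mpr (hy n)
        rw [h1, h2, TensorProduct.tmul_zero]
      | add x y hx hy => rw [smul_add, hx, hy, add_zero]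
    rw [e1, e2, add_zero] at hg
    have h3 : (1 : K) ⊗ₜ[B] (S.mkQ n) = 0 := by
      have h4 := helper1985.chartCmpAux_symm_tmul D.R₁ χ (H.M₁ ⧸ S) (1 : K) (S.mkQ n)
      rw [map_one] at h4
      apply (helper1985.chartCmpAux D.R₁ χ (H.M₁ ⧸ S)).symm.injective
      rw [h4, map_zero]
      exact hg
    have hk : RingHom.ker (algebraMap B K) = m := hker
    have hmax : (RingHom.ker (algebraMap B K)).IsMaximal := by rw [hk]; exact hm
    have h5 := mem_smul_top_of_one_tmul_eq_zero hmax h3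
    rw [hk] at h5
    exact h5
  exact Submodule.Quotient.subsingleton_iff.mp hQ

/-- **Fibrewise ⟹ global for morphisms of rigidified bundles.** Let `G`, `H` be rigidified
two-chart line bundles over an arbitrary `k`-algebra `B`. If over one field point above every
maximal ideal of `B` there is a morphism `G_χ → H_χ` which is surjective modulo `y`, generates
all morphisms, and `H¹(Hom(G_χ, H_χ)) = 0`, then the same holds over `B`. -/
theorem exists_mor_of_fibrewise [IsAlgClosed k] (G H : GlueDatum D B) (hG : G.IsRig)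
    (hH : H.IsRig)
    (hfib : ∀ m : Ideal B, m.IsMaximal → ∃ (K : Type u) (_ : Field K) (_ : Algebra k K)
      (χ : B →ₐ[k] K), RingHom.ker χ.toRingHom = m ∧
        ∃ σ : helper8573.Mor (G.baseChange χ) (H.baseChange χ), σ.SurjModY ∧ σ.Generates ∧
          Function.Surjective (homDatum (G.baseChange χ) (H.baseChange χ)).delta) :
    ∃ σ : helper8573.Mor G H, σ.SurjModY ∧ σ.Generates ∧
      Function.Surjective (homDatum G H).delta := by
  obtain ⟨sG, hsG⟩ := (isRig_iff_exists_surjective G).mp hG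
  obtain ⟨sH, hsH⟩ := (isRig_iff_exists_surjective H).mp hH
  obtain ⟨m₀, hm₀⟩ := hsG 1
  obtain ⟨n₁, hn₁⟩ := hsH 1
  -- Step I: `H¹(Hom(G, H)) = 0`
  have hdelta : Function.Surjective (homDatum G H).delta := by
    refine surjective_delta_of_fibrewise _ fun m hm => ?_
    obtain ⟨K, _, _, χ, hker, σ', -, -, h3⟩ := hfib m hm
    exact ⟨K, inferInstance, inferInstance, χ, hker,
      helper233.surjective_delta_of_iso (homBaseChangeIso G H χ).symm h3⟩
  have hH1 : Subsingleton (homDatum G H).H1 := (helper1985.subsingleton_H1_iff _).mpr hdelta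
  -- the fibre package
  have hpack : ∀ m : Ideal B, m.IsMaximal → ∃ (K : Type u) (_ : Field K) (_ : Algebra k K)
      (χ : B →ₐ[k] K), RingHom.ker χ.toRingHom = m ∧
      (¬ ∀ p ∈ (homDatum G H).H0, χ (evAt m₀ sH p) = 0) ∧
      (∀ τ : (homDatum G H).H0,
        χ (evAt m₀ sH (τ : (homDatum G H).M₀ × (homDatum G H).M₁)) = 0 →
          letI := helper1985.algPhi χ
          (1 : K) ⊗ₜ[B] τ = 0) ∧
      (∀ σ : helper8573.Mor G H, χ (sH (σ.f₁ m₀)) ≠ 0 →
        (specMorBaseChange σ χ).SurjModY) := by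
    intro m hm
    obtain ⟨K, _, _, χ, hker, σ', h1, h2, -⟩ := hfib m hm
    refine ⟨K, inferInstance, inferInstance, χ, hker, ?_⟩
    obtain ⟨sG', hsG'⟩ := exists_rigBaseChange G χ sG
    obtain ⟨sH', hsH'⟩ := exists_rigBaseChange H χ sH
    letI := algA₁ D χ
    have hm₀' : sG' (helper8108.bcMap₁ G χ m₀) = 1 := by
      have h := hsG' 1 m₀
      rw [hm₀, map_one, map_one, one_mul] at h
      exact h
    have hn₁' : sH' (helper8108.bcMap₁ H χ n₁) = 1 := by
      have h := hsH' 1 n₁
      rw [hn₁, map_one, map_one, one_mul] at h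
      exact h
    have hsurjG' : Function.Surjective sG' := fun c =>
      ⟨c • helper8108.bcMap₁ G χ m₀, by rw [rig_smul, hm₀', mul_one]⟩
    have hsurjH' : Function.Surjective sH' := fun c =>
      ⟨c • helper8108.bcMap₁ H χ n₁, by rw [rig_smul, hn₁', mul_one]⟩
    have hinj : ∀ q ∈ (homDatum (G.baseChange χ) (H.baseChange χ)).H0,
        evAt (helper8108.bcMap₁ G χ m₀) sH' q = 0 → q = 0 := fun q hq h0 =>
      eq_zero_of_evAt_eq_zero sG' hsurjG' sH' hsurjH' hm₀' σ' h1 h2 q hq h0
    refine ⟨?_, ?_, ?_⟩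
    · intro hall
      have h := evAt_eq_zero_of_fibre G H χ m₀ sH sH' hsH' hH1 hall (specMorPair σ')
        (specMorPair_mem_H0 σ')
      rw [evAt_specMorPair] at h
      exact rig_ne_zero_of_surjModY sG' hsurjG' sH' hsurjH' hm₀' σ' h1 h
    · intro τ hτ
      exact one_tmul_eq_zero_of_fibre G H χ m₀ sH sH' hsH' hH1 hinj τ hτ
    · intro σ hσ
      refine surjModY_of_generates_of_ne_zero σ' h1 h2 _ ⟨helper8108.bcMap₁ G χ m₀, ?_⟩
      intro h0
      apply hσ
      have h4 : (specMorBaseChange σ χ).f₁ (helper8108.bcMap₁ G χ m₀) =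
          ((1 : D.A₁ K) ⊗ₜ[D.A₁ B] σ.f₁ m₀ : D.A₁ K ⊗[D.A₁ B] H.M₁) := rfl
      have h5 := hsH' 1 (σ.f₁ m₀)
      rw [← h4, h0, map_zero, map_one, one_mul] at h5
      exact h5.symm
  -- Step II: a section `t` with evaluation `1`
  have ht : ∃ t ∈ (homDatum G H).H0, evAt m₀ sH t = 1 := by
    by_contra hcon
    have hI : Submodule.map (evAt m₀ sH) (homDatum G H).H0 ≠ (⊤ : Ideal B) := by
      intro htop
      have h1 : (1 : B) ∈ Submodule.map (evAt m₀ sH) (homDatum G H).H0 := by
        rw [htop]; exact Submodule.mem_top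
      obtain ⟨t, ht, ht1⟩ := h1
      exact hcon ⟨t, ht, ht1⟩
    obtain ⟨m, hm, hIm⟩ := Ideal.exists_le_maximal _ hI
    obtain ⟨K, _, _, χ, hker, ha, -, -⟩ := hpack m hm
    apply ha
    intro p hp
    have h2 : evAt m₀ sH p ∈ m := hIm ⟨p, hp, rfl⟩
    rw [← hker] at h2
    exact h2
  obtain ⟨t, ht, ht1⟩ := ht
  -- Step III: every section is a multiple of `t`
  have hgenAll : ∀ p ∈ (homDatum G H).H0, p = evAt m₀ sH p • t := by
    let evP : (homDatum G H).H0 →ₗ[B] B := (evAt m₀ sH).comp (homDatum G H).H0.subtype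
    let t' : (homDatum G H).H0 := ⟨t, ht⟩
    have ht' : evP t' = 1 := ht1
    let π₀ : (homDatum G H).H0 →ₗ[B] (homDatum G H).H0 :=
      LinearMap.id - (LinearMap.toSpanSingleton B _ t').comp evP
    have hπ₀ : ∀ p, π₀ p = p - evP p • t' := fun p => rfl
    have hπ₀mem : ∀ p, π₀ p ∈ LinearMap.ker evP := fun p => by
      rw [LinearMap.mem_ker, hπ₀, map_sub, map_smul, ht', smul_eq_mul, mul_one, sub_self]
    let π : (homDatum G H).H0 →ₗ[B] LinearMap.ker evP :=
      LinearMap.codRestrict (LinearMap.ker evP) π₀ hπ₀mem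
    have hπ : ∀ z : LinearMap.ker evP, π (z : (homDatum G H).H0) = z := fun z => by
      apply Subtype.ext
      change π₀ (z : (homDatum G H).H0) = z
      rw [hπ₀, LinearMap.mem_ker.mp z.2, zero_smul, sub_zero]
    haveI : Module.Finite B (homDatum G H).H0 := helper9607.H0_finite _ hdelta
    haveI : Module.Finite B (LinearMap.ker evP) :=
      Module.Finite.of_surjective π (fun z => ⟨z, hπ z⟩)
    have hZ : Subsingleton (LinearMap.ker evP) := by
      refine subsingleton_of_forall_maximal_le_smul_top (B := B) fun m hm => ?_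
      obtain ⟨K, _, _, χ, hker, -, hc, -⟩ := hpack m hm
      letI := helper1985.algPhi χ
      intro z _
      have h1 : (1 : K) ⊗ₜ[B] (z : (homDatum G H).H0) = 0 := by
        refine hc z ?_
        have h0 : evAt m₀ sH ((z : (homDatum G H).H0) : (homDatum G H).M₀ × (homDatum G H).M₁)
            = 0 := LinearMap.mem_ker.mp z.2
        rw [h0, map_zero]
      have hk : RingHom.ker (algebraMap B K) = m := hker
      have hmax : (RingHom.ker (algebraMap B K)).IsMaximal := by rw [hk]; exact hm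
      have h2 := mem_smul_top_of_one_tmul_eq_zero hmax h1
      rw [hk] at h2
      have h3 := Submodule.mem_map_of_mem (f := π) h2
      rw [Submodule.map_smul'', hπ z] at h3
      exact Submodule.smul_mono le_rfl le_top h3
    intro p hp
    have h1 : π ⟨p, hp⟩ = 0 := Subsingleton.elim _ _
    have h2 : π₀ ⟨p, hp⟩ = 0 := congrArg Subtype.val h1
    rw [hπ₀, sub_eq_zero] at h2
    exact congrArg Subtype.val h2
  -- Step IV: the morphism
  refine ⟨specMorEquivH0.symm ⟨t, ht⟩, ?_, ?_, hdelta⟩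
  · refine surjModY_of_fibrewise _ fun m hm => ?_
    obtain ⟨K, _, _, χ, hker, -, -, hP3⟩ := hpack m hm
    refine ⟨K, inferInstance, inferInstance, χ, hker, hP3 _ ?_⟩
    have h1 : sH ((specMorEquivH0.symm ⟨t, ht⟩ : helper8573.Mor G H).f₁ m₀) = 1 := ht1
    rw [h1, map_one]
    exact one_ne_zero
  · rw [specMor_generates_iff_forall]
    intro p hp
    exact ⟨evAt m₀ sH p, hgenAll p hp⟩

/-- **(FG1) Fibrewise ⟹ global for the intrinsic chart condition.** Let `N` be a two-chart line
bundle over `k`, `B` any `k`-algebra and `G` a rigidified bundle over `B`. If over one field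
point `χ` above every maximal ideal of `B` the bundle `G_χ` satisfies the chart condition
`InChartOf N` with `H¹(Hom(G_χ, N_K)) = 0`, then `G` satisfies it over `B`, with
`H¹(Hom(G, N_B)) = 0`. -/
theorem inChartOf_of_fibrewise [IsAlgClosed k] (N : GlueDatum D k) (G : GlueDatum D B)
    (hG : G.IsRig)
    (hfib : ∀ m : Ideal B, m.IsMaximal → ∃ (K : Type u) (_ : Field K) (_ : Algebra k K)
      (χ : B →ₐ[k] K), RingHom.ker χ.toRingHom = m ∧
        ∃ σ : helper8573.Mor (G.baseChange χ) (helper8573.baseOver N K), σ.SurjModY ∧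
          σ.Generates ∧
          Function.Surjective (homDatum (G.baseChange χ) (helper8573.baseOver N K)).delta) :
    ∃ σ : helper8573.Mor G (helper8573.baseOver N B), σ.SurjModY ∧ σ.Generates ∧
      Function.Surjective (homDatum G (helper8573.baseOver N B)).delta := by
  have hNB : (helper8573.baseOver N B).IsRig :=
    isRig_baseChange N _ (helper743.isRig_of_field N)
  refine exists_mor_of_fibrewise G (helper8573.baseOver N B) hG hNB fun m hm => ?_
  obtain ⟨K, _, _, χ, hker, σ', h1, h2, h3⟩ := hfib m hm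
  have hj : ((helper8573.baseOver N B).baseChange χ).Equiv (helper8573.baseOver N K) := by
    have h := helper743.baseChange_comp N (Algebra.ofId k B) χ
    have he : χ.comp (Algebra.ofId k B) = Algebra.ofId k K :=
      AlgHom.ext fun c => by simp [Algebra.ofId_apply]
    rw [he] at h
    exact h
  obtain ⟨j⟩ := hj
  exact ⟨K, inferInstance, inferInstance, χ, hker, (helper8573.Mor.ofIso j.symm).comp σ',
    helper4743.surjModY_comp_iso h1 j.symm, helper4743.generates_comp_iso h2 j.symm,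
    (helper233.surjective_delta_homDatum_iff (GlueDatum.Equiv.refl _) ⟨j⟩).mpr h3⟩

/-- The conclusion of `inChartOf_of_fibrewise` in the form `InChartOf`. -/
theorem inChartOf_of_fibrewise' [IsAlgClosed k] (N : GlueDatum D k) (G : GlueDatum D B)
    (hG : G.IsRig)
    (hfib : ∀ m : Ideal B, m.IsMaximal → ∃ (K : Type u) (_ : Field K) (_ : Algebra k K)
      (χ : B →ₐ[k] K), RingHom.ker χ.toRingHom = m ∧
        ∃ σ : helper8573.Mor (G.baseChange χ) (helper8573.baseOver N K), σ.SurjModY ∧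
          σ.Generates ∧
          Function.Surjective (homDatum (G.baseChange χ) (helper8573.baseOver N K)).delta) :
    helper8573.InChartOf N G := by
  obtain ⟨σ, h1, h2, -⟩ := inChartOf_of_fibrewise N G hG hfib
  exact ⟨σ, h1, h2⟩

end FibMain

end Fermat.Agent.S25.helper720
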