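import Fermat.Agent.S25.helper69_ChartGlue
import Fermat.Agent.S25.helper3173_ChartOfAsm
import Fermat.Agent.S25.helper1397_HomBridge
import Fermat.Agent.S25.helper743_LCSpecApi
import Fermat.Agent.S25.helper9743_FibreCapstone
import Fermat.Agent.S25.helper7196_GoodBC
import Fermat.Agent.S25.helper233_HomCongr
import Fermat.Agent.S25.helper25_FieldGenerates
import Fermat.Agent.S25.helper174_ChartFibre
import Fermat.Agent.S25.helper4755_ChartSpread
import Fermat.Agent.S25.helper720_EndGlue

/-!
# S25, root `Stmt_ChartOfAC`, clause OPEN: "fibrewise ⟹ global" for the chart family (helper653)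

Vocabulary: `helper8573.Mor` / `SurjModY` / `Generates`, the chart family of
`helper3173_ChartOfAsm` (`twistOf`, `twistOfIncl`, `P`, `Good`), the chart theorem
`helper69.chart_of_mor`. `k` algebraically closed, `B` any `k`-algebra.

* (FG2) `equiv_twist_of_mor`, `equiv_twistOf_of_mor` : a morphism `σ : G → N` which is onto
  modulo `y` at infinity identifies `G` with the twist of `N` by the divisor of `σ`
  (reference twist `helper1035.twist`, resp. `helper3173.twistOf`).
* transport of `SurjModY` / `Generates` along isomorphisms of the source or the target.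
* `range_eq_of_generates` : uniqueness of the divisor: if `σ` generates all morphisms and `τ`
  is onto modulo `y` then `τ = c • σ` for a unit `c`, so both have the same images.
* base change: `surjModY_specMorBaseChange`, `range_specMorBaseChange_f₀`
  (`range_baseChange_eq_smul_top`: right exactness, no flatness).
* `map_eq_of_fibre` : identification of the fibre ideal: if `σ : G → N_B` has image `I • ⊤` and
  the fibre `G ⊗ B'` is `N_{B'}(−D_J)` with generating inclusion, then `J = I B'`.
* (FG3) `fibGlobal_P_of` : `(helper9743.InChart (helper3173.P N s f)).FibGlobal`, in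
  hypothesis-passing form over the bricks (FG1), (X1), (X2), Hom congruence and the field
  converse of (N1).
* `fibGlobal_P_of_fg1`, `chartOpenIdeal_P_of_fg1`, `stmt_UnivOpen_of_fg1` : (FG3) and the clause
  OPEN of `Stmt_ChartOfAC` with all bricks discharged except (FG1) (`FG1 N`).
* `fg1`, `fibGlobal_P`, `chartOpenIdeal_P`, **`stmt_UnivOpen : helper3173.Stmt_UnivOpen`** : the
  clause OPEN, unconditional ((FG1) = `helper720.inChartOf_of_fibrewise`).
-/

set_option autoImplicit false

open TensorProduct

namespace Fermat.Agent.S25.helper653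

open Fermat.Agent.S25.helper1705 Fermat.Agent.S25.helper2945
open Fermat.Agent.S25.helper8573 (Mor)

universe u

/-! ## (FG2) `G ≈ N(−D_σ)` on the reference twist -/

section Divisor

variable {k : Type u} [Field k] [IsAlgClosed k] {D : CurveDatum k} {B : Type u} [CommRing B]
  [Algebra k B]

/-- **`G ≈ N(−D_σ)`** (reference twist `helper1035.twist`). Let `σ : G → N` be a morphism of
two-chart line bundles over `B` which is onto modulo `y` at infinity. For every divisor datum
`E` whose chart ideals are the colon ideal `I` of `σ` and `atInfty I`, `σ` identifies `G` with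
the twist `N(−E)`. -/
theorem equiv_twist_of_mor {G N : GlueDatum D B} (σ : Mor G N) (hσ : σ.SurjModY)
    (E : helper1035.DivDatum D B)
    (h₀ : E.I₀ = (LinearMap.range σ.f₀).colon (Set.univ : Set N.M₀))
    (h₁ : E.I₁ = helper622.atInfty (D.A₁ B) (D.A₀₁ B) E.I₀) :
    G.Equiv (helper1035.twist N E) := by
  obtain ⟨I, -, -, -, hI, -, -, hinj₀, hinj₁, hr₀, hr₁, -, -⟩ := helper69.chart_of_mor σ hσ
  have hI₀ : E.I₀ = I := h₀.trans hI.symm
  have hI₁ : E.I₁ = helper622.atInfty (D.A₁ B) (D.A₀₁ B) I := by rw [h₁, hI₀]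
  have hr₀' : LinearMap.range σ.f₀ = (E.I₀ • ⊤ : Submodule (D.A₀ B) N.M₀) := by rw [hr₀, hI₀]
  have hr₁' : LinearMap.range σ.f₁ = (E.I₁ • ⊤ : Submodule (D.A₁ B) N.M₁) := by rw [hr₁, hI₁]
  have hr₀₁ : LinearMap.range σ.f₀₁ = (E.I₀₁ • ⊤ : Submodule (D.A₀₁ B) N.M₀₁) := by
    rw [← helper6121.GlueDatum.span₀_range σ.f₀ σ.f₀₁ σ.comm₀, hr₀',
      helper6121.GlueDatum.span₀_smul_top, E.map₀]
  let j₀ : G.M₀ →ₗ[D.A₀ B] (helper1035.twist N E).M₀ :=
    σ.f₀.codRestrict (E.I₀ • ⊤ : Submodule (D.A₀ B) N.M₀) (fun m => hr₀' ▸ ⟨m, rfl⟩)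
  let j₁ : G.M₁ →ₗ[D.A₁ B] (helper1035.twist N E).M₁ :=
    σ.f₁.codRestrict (E.I₁ • ⊤ : Submodule (D.A₁ B) N.M₁) (fun m => hr₁' ▸ ⟨m, rfl⟩)
  let j₀₁ : G.M₀₁ →ₗ[D.A₀₁ B] (helper1035.twist N E).M₀₁ :=
    σ.f₀₁.codRestrict (E.I₀₁ • ⊤ : Submodule (D.A₀₁ B) N.M₀₁) (fun m => hr₀₁ ▸ ⟨m, rfl⟩)
  have hc₀ : ∀ m, j₀₁ (G.ρ₀ m) = (helper1035.twist N E).ρ₀ (j₀ m) :=
    fun m => Subtype.ext (σ.comm₀ m)
  have hc₁ : ∀ m, j₀₁ (G.ρ₁ m) = (helper1035.twist N E).ρ₁ (j₁ m) :=
    fun m => Subtype.ext (σ.comm₁ m)
  have hb₀ : Function.Bijective j₀ := by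
    refine ⟨fun a b hab => hinj₀ (congrArg Subtype.val hab), fun z => ?_⟩
    have hz : helper1035.incl₀ N E z ∈ LinearMap.range σ.f₀ :=
      hr₀'.symm ▸ helper1035.incl₀_mem N E z
    obtain ⟨m, hm⟩ := hz
    exact ⟨m, Subtype.ext hm⟩
  have hb₁ : Function.Bijective j₁ := by
    refine ⟨fun a b hab => hinj₁ (congrArg Subtype.val hab), fun z => ?_⟩
    have hz : helper1035.incl₁ N E z ∈ LinearMap.range σ.f₁ :=
      hr₁'.symm ▸ helper1035.incl₁_mem N E z
    obtain ⟨m, hm⟩ := hz
    exact ⟨m, Subtype.ext hm⟩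
  exact ⟨helper6121.GlueDatum.isoOfBijective j₀ j₁ j₀₁ hc₀ hc₁ hb₀ hb₁⟩

/-- **`G ≈ N_B(−D_σ)`** in the vocabulary of the chart family: a morphism `σ : G → N_B` which is
onto modulo `y` at infinity identifies `G` with `helper3173.twistOf N I`, `I` the colon ideal of
`σ`. -/
theorem equiv_twistOf_of_mor (N : GlueDatum D k) {G : GlueDatum D B}
    (σ : Mor G (helper8573.baseOver N B)) (hσ : σ.SurjModY) (I : Ideal (D.A₀ B))
    [Module.Finite B (D.A₀ B ⧸ I)] [Module.Projective B (D.A₀ B ⧸ I)]
    (hI : I = (LinearMap.range σ.f₀).colon (Set.univ : Set (helper8573.baseOver N B).M₀)) :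
    G.Equiv (helper3173.twistOf N I) :=
  equiv_twist_of_mor σ hσ (helper3173.divOf I) hI rfl

end Divisor

/-! ## Transport along isomorphisms and uniqueness of the divisor -/

section Unique

variable {k : Type u} [Field k] {D : CurveDatum k} {B : Type u} [CommRing B] [Algebra k B]

/-- `SurjModY` is stable under composition with an isomorphism of the source. -/
theorem surjModY_comp_ofIso {G G' N : GlueDatum D B} (σ : Mor G' N) (e : GlueDatum.Iso G G')
    (h : σ.SurjModY) : (σ.comp (Mor.ofIso e)).SurjModY := by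
  intro n
  obtain ⟨m, n', hn⟩ := h n
  exact ⟨e.e₁.symm m, n', by simpa [Mor.comp, Mor.ofIso] using hn⟩

/-- `SurjModY` is stable under composition with an isomorphism of the target. -/
theorem surjModY_ofIso_comp {G N N' : GlueDatum D B} (σ : Mor G N) (e : GlueDatum.Iso N N')
    (h : σ.SurjModY) : ((Mor.ofIso e).comp σ).SurjModY := by
  intro n
  obtain ⟨m, n', hn⟩ := h (e.e₁.symm n)
  refine ⟨m, e.e₁ n', ?_⟩
  have := congrArg e.e₁ hn
  simpa [Mor.comp, Mor.ofIso] using this

/-- `Generates` is stable under composition with an isomorphism of the source. -/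
theorem generates_comp_ofIso {G G' N : GlueDatum D B} (σ : Mor G' N) (e : GlueDatum.Iso G G')
    (h : σ.Generates) : (σ.comp (Mor.ofIso e)).Generates := by
  intro τ
  obtain ⟨c, h₀, h₁⟩ := h (τ.comp (Mor.ofIso e.symm))
  refine ⟨c, fun m => ?_, fun m => ?_⟩
  · have := h₀ (e.e₀ m)
    simpa [Mor.comp, Mor.ofIso, GlueDatum.Iso.symm] using this
  · have := h₁ (e.e₁ m)
    simpa [Mor.comp, Mor.ofIso, GlueDatum.Iso.symm] using this

/-- `Generates` is stable under composition with an isomorphism of the target. -/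
theorem generates_ofIso_comp {G N N' : GlueDatum D B} (σ : Mor G N) (e : GlueDatum.Iso N N')
    (h : σ.Generates) : ((Mor.ofIso e).comp σ).Generates := by
  intro τ
  obtain ⟨c, h₀, h₁⟩ := h ((Mor.ofIso e.symm).comp τ)
  refine ⟨c, fun m => ?_, fun m => ?_⟩
  · have := congrArg e.e₀ (h₀ m)
    have hc : e.e₀ (c • σ.f₀ m) = c • e.e₀ (σ.f₀ m) := LinearMap.map_smul_of_tower _ c _
    simpa [Mor.comp, Mor.ofIso, GlueDatum.Iso.symm, hc] using this
  · have := congrArg e.e₁ (h₁ m)
    have hc : e.e₁ (c • σ.f₁ m) = c • e.e₁ (σ.f₁ m) := LinearMap.map_smul_of_tower _ c _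
    simpa [Mor.comp, Mor.ofIso, GlueDatum.Iso.symm, hc] using this

/-- The image on the first chart is unchanged by composition with an isomorphism of the
source. -/
theorem range_comp_ofIso_f₀ {G G' N : GlueDatum D B} (σ : Mor G' N) (e : GlueDatum.Iso G G') :
    LinearMap.range (σ.comp (Mor.ofIso e)).f₀ = LinearMap.range σ.f₀ := by
  apply le_antisymm
  · rintro _ ⟨m, rfl⟩
    exact ⟨e.e₀ m, rfl⟩
  · rintro _ ⟨m, rfl⟩
    exact ⟨e.e₀.symm m, by simp [Mor.comp, Mor.ofIso]⟩

/-- The image on the first chart of a composition with an isomorphism of the target: `I • ⊤`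
is preserved. -/
theorem range_ofIso_comp_f₀ {G N N' : GlueDatum D B} (σ : Mor G N) (e : GlueDatum.Iso N N')
    (I : Ideal (D.A₀ B)) (h : LinearMap.range σ.f₀ = I • (⊤ : Submodule (D.A₀ B) N.M₀)) :
    LinearMap.range ((Mor.ofIso e).comp σ).f₀ = I • (⊤ : Submodule (D.A₀ B) N'.M₀) := by
  have h1 : LinearMap.range ((Mor.ofIso e).comp σ).f₀ =
      (LinearMap.range σ.f₀).map e.e₀.toLinearMap := by
    change LinearMap.range (e.e₀.toLinearMap ∘ₗ σ.f₀) = _
    rw [LinearMap.range_comp]
  rw [h1, h, Submodule.map_smul'', Submodule.map_top, LinearEquiv.range]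

variable [IsAlgClosed k]

/-- **Uniqueness of the divisor.** If `σ` generates all morphisms `G → N` and `τ : G → N` is
onto modulo `y` at infinity, then `τ = c • σ` for a UNIT `c` of `B`; in particular `σ` and `τ`
have the same images on both charts. -/
theorem range_eq_of_generates {G N : GlueDatum D B} (σ τ : Mor G N) (hσ : σ.Generates)
    (hτ : τ.SurjModY) :
    LinearMap.range τ.f₀ = LinearMap.range σ.f₀ ∧ LinearMap.range τ.f₁ = LinearMap.range σ.f₁ := by
  obtain ⟨c, hc₀, hc₁⟩ := hσ τ
  have hunit : IsUnit c := by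
    by_contra hc
    obtain ⟨𝔪, h𝔪, hmem⟩ := exists_max_ideal_of_mem_nonunits (mem_nonunits_iff.mpr hc)
    obtain ⟨z, hz⟩ := helper69.exists_notMem_smul_top_of_surjModY τ hτ 𝔪 h𝔪
    exact hz (hc₀ z ▸ Submodule.smul_mem_smul hmem Submodule.mem_top)
  obtain ⟨d, hd⟩ := hunit.exists_left_inv
  constructor
  · apply le_antisymm
    · rintro _ ⟨m, rfl⟩
      exact ⟨c • m, by rw [hc₀, LinearMap.map_smul_of_tower]⟩
    · rintro _ ⟨m, rfl⟩
      refine ⟨d • m, ?_⟩
      rw [hc₀, LinearMap.map_smul_of_tower, ← mul_smul, mul_comm, hd, one_smul]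
  · apply le_antisymm
    · rintro _ ⟨m, rfl⟩
      exact ⟨c • m, by rw [hc₁, LinearMap.map_smul_of_tower]⟩
    · rintro _ ⟨m, rfl⟩
      refine ⟨d • m, ?_⟩
      rw [hc₁, LinearMap.map_smul_of_tower, ← mul_smul, mul_comm, hd, one_smul]

end Unique

/-! ## Base change of a morphism -/

section BaseChangeGeneric

variable {R R' : Type*} [CommRing R] [CommRing R'] [Algebra R R'] {M N : Type*}
  [AddCommGroup M] [Module R M] [AddCommGroup N] [Module R N]

/-- If the image of `f : M → N` is `I • N`, the image of its base change is `(I R') • (R' ⊗ N)`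
(right exactness; no flatness). -/
theorem range_baseChange_eq_smul_top (f : M →ₗ[R] N) (I : Ideal R)
    (hf : LinearMap.range f = I • (⊤ : Submodule R N)) :
    LinearMap.range (f.baseChange R') =
      I.map (algebraMap R R') • (⊤ : Submodule R' (R' ⊗[R] N)) := by
  apply le_antisymm
  · rintro _ ⟨z, rfl⟩
    induction z using TensorProduct.induction_on with
    | zero => simp
    | tmul a m =>
      rw [LinearMap.baseChange_tmul]
      have h1 : f m ∈ I • (⊤ : Submodule R N) := hf ▸ ⟨m, rfl⟩
      have h2 := helper1035.map_mem_smul_top (A := R') (TensorProduct.mk R R' N 1) I h1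
      have h3 : a ⊗ₜ[R] f m = a • ((1 : R') ⊗ₜ[R] f m) := by
        rw [TensorProduct.smul_tmul', smul_eq_mul, mul_one]
      rw [h3]
      exact Submodule.smul_mem _ _ h2
    | add x y hx hy => rw [map_add]; exact add_mem hx hy
  · rw [Submodule.smul_le]
    intro a ha n _
    have key : ∀ a ∈ I.map (algebraMap R R'), ∀ n : R' ⊗[R] N,
        a • n ∈ LinearMap.range (f.baseChange R') := by
      intro a ha
      refine Submodule.span_induction ?_ ?_ ?_ ?_ ha
      · rintro _ ⟨i, hi, rfl⟩ n
        induction n using TensorProduct.induction_on with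
        | zero => simp
        | tmul s m =>
          have h1 : i • m ∈ LinearMap.range f :=
            hf ▸ Submodule.smul_mem_smul hi Submodule.mem_top
          obtain ⟨m', hm'⟩ := h1
          refine ⟨s ⊗ₜ[R] m', ?_⟩
          rw [LinearMap.baseChange_tmul, hm', algebraMap_smul, TensorProduct.tmul_smul]
        | add x y hx hy => rw [smul_add]; exact add_mem hx hy
      · intro n; simp
      · intro x y _ _ hx hy n; rw [add_smul]; exact add_mem (hx n) (hy n)
      · intro c x _ hx n
        rw [smul_eq_mul, mul_smul]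
        exact Submodule.smul_mem _ c (hx n)
    exact key a ha n

end BaseChangeGeneric

section BaseChange

variable {k : Type u} [Field k] {D : CurveDatum k} {B : Type u} [CommRing B] [Algebra k B]
  {B' : Type u} [CommRing B'] [Algebra k B']

/-- `SurjModY` is stable under base change. -/
theorem surjModY_specMorBaseChange {G N : GlueDatum D B} (σ : Mor G N) (hσ : σ.SurjModY)
    (φ : B →ₐ[k] B') : (helper1397.specMorBaseChange σ φ).SurjModY := by
  let _ := algA₁ D φ
  intro n
  change ∃ (m : D.A₁ B' ⊗[D.A₁ B] G.M₁) (n' : D.A₁ B' ⊗[D.A₁ B] N.M₁),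
    n = (σ.f₁.baseChange (D.A₁ B')) m + yB D B' • n'
  induction n using TensorProduct.induction_on with
  | zero => exact ⟨0, 0, by simp⟩
  | tmul a n₀ =>
    obtain ⟨m, n', rfl⟩ := hσ n₀
    refine ⟨a ⊗ₜ[D.A₁ B] m, a ⊗ₜ[D.A₁ B] n', ?_⟩
    rw [LinearMap.baseChange_tmul, TensorProduct.tmul_add, ← TensorProduct.smul_tmul,
      TensorProduct.smul_tmul', Algebra.smul_def]
    congr 2
    rw [smul_eq_mul]
    congr 1
    exact map₁_yB D φ
  | add x y hx hy =>
    obtain ⟨m, n', rfl⟩ := hx
    obtain ⟨m₂, n₂, rfl⟩ := hy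
    exact ⟨m + m₂, n' + n₂, by rw [map_add, smul_add]; abel⟩

/-- The image on the first chart of the base change of a morphism with image `I • ⊤`. -/
theorem range_specMorBaseChange_f₀ {G N : GlueDatum D B} (σ : Mor G N) (I : Ideal (D.A₀ B))
    (h : LinearMap.range σ.f₀ = I • (⊤ : Submodule (D.A₀ B) N.M₀)) (φ : B →ₐ[k] B') :
    LinearMap.range (helper1397.specMorBaseChange σ φ).f₀ =
      I.map (D.map₀ φ) • (⊤ : Submodule (D.A₀ B') (N.baseChange φ).M₀) := by
  let _ := algA₀ D φ
  exact range_baseChange_eq_smul_top (R' := D.A₀ B') σ.f₀ I h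

end BaseChange

/-! ## Identification of the fibre ideal -/

section Fibre

variable {k : Type u} [Field k] [IsAlgClosed k] {D : CurveDatum k} {B : Type u} [CommRing B]
  [Algebra k B] {B' : Type u} [CommRing B'] [Algebra k B']

/-- The twist `N_B(−D_I)` only depends on the ideal. -/
theorem twistOf_congr (N : GlueDatum D k) {I J : Ideal (D.A₀ B)}
    [Module.Finite B (D.A₀ B ⧸ I)] [Module.Projective B (D.A₀ B ⧸ I)]
    [Module.Finite B (D.A₀ B ⧸ J)] [Module.Projective B (D.A₀ B ⧸ J)] (h : I = J) :
    (helper3173.twistOf N I).Equiv (helper3173.twistOf N J) := by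
  subst h
  exact GlueDatum.Equiv.refl _

/-- **Identification of the fibre ideal.** Let `σ : G → N_B` be onto modulo `y` at infinity,
with image `I • ⊤` on the first chart, and let `χ : B → B'`. If the pulled-back bundle
`G ⊗ B'` is isomorphic to `N_{B'}(−D_J)` and the inclusion `N_{B'}(−D_J) → N_{B'}` generates all
morphisms, then `J` is the extension of `I`. -/
theorem map_eq_of_fibre (N : GlueDatum D k) {G : GlueDatum D B}
    (σ : Mor G (helper8573.baseOver N B)) (hσ : σ.SurjModY) (I : Ideal (D.A₀ B))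
    (hI : LinearMap.range σ.f₀ = I • (⊤ : Submodule (D.A₀ B) (helper8573.baseOver N B).M₀))
    (χ : B →ₐ[k] B') (J : Ideal (D.A₀ B'))
    [Module.Finite B' (D.A₀ B' ⧸ J)] [Module.Projective B' (D.A₀ B' ⧸ J)]
    (e : (helper3173.twistOf N J).Equiv (G.baseChange χ))
    (hgen : (helper3173.twistOfIncl N J).Generates) : I.map (D.map₀ χ) = J := by
  obtain ⟨iso⟩ := e.symm
  obtain ⟨t⟩ := helper3173.baseOver_baseChange N χ
  have h₁gen : ((helper3173.twistOfIncl N J).comp (Mor.ofIso iso)).Generates :=
    generates_comp_ofIso _ iso hgen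
  have h₂Y : ((Mor.ofIso t).comp (helper1397.specMorBaseChange σ χ)).SurjModY :=
    surjModY_ofIso_comp _ t (surjModY_specMorBaseChange σ hσ χ)
  have hr₁ : LinearMap.range ((helper3173.twistOfIncl N J).comp (Mor.ofIso iso)).f₀ =
      J • (⊤ : Submodule (D.A₀ B') (helper8573.baseOver N B').M₀) :=
    (range_comp_ofIso_f₀ _ iso).trans (helper3173.range_twistOfIncl_f₀ N J)
  have hr₂ : LinearMap.range ((Mor.ofIso t).comp (helper1397.specMorBaseChange σ χ)).f₀ =
      I.map (D.map₀ χ) • (⊤ : Submodule (D.A₀ B') (helper8573.baseOver N B').M₀) :=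
    range_ofIso_comp_f₀ _ t _ (range_specMorBaseChange_f₀ σ I hI χ)
  have h := (range_eq_of_generates _ _ h₁gen h₂Y).1
  rw [hr₁, hr₂] at h
  exact helper69.ideal_smul_top_injective (N := (helper8573.baseOver N B').M₀) h

end Fibre

/-! ## (FG3) fibrewise ⟹ global for the chart family -/

section FG3

variable {k : Type u} [Field k] [IsAlgClosed k] {D : CurveDatum k}

/-- A morphism over a field which is onto modulo `y` at infinity is nonzero on the first
chart. -/
theorem f₀_ne_zero_of_surjModY {K : Type u} [Field K] [Algebra k K] {G N : GlueDatum D K}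
    (σ : Mor G N) (hσ : σ.SurjModY) : σ.f₀ ≠ 0 := by
  intro h0
  obtain ⟨z, hz⟩ := helper69.exists_notMem_smul_top_of_surjModY σ hσ ⊥ Ideal.bot_isMaximal
  rw [h0] at hz
  exact hz (Submodule.zero_mem _)

/-- **(FG3), hypothesis-passing form.** For a good chart `(s, f)` of the base bundle `N`, the
property "`G` is pulled back from the chart `P N s f`" is fibrewise-global: if over every closed
point of `Spec B` some field-valued point of the rigidified degree-zero bundle `G` is in the
chart, then `G` is in the chart.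

The hypotheses are the bricks of the other owners, in their announced shapes:
* `hFG1` : (FG1) a global morphism `G → N_B` (onto modulo `y`, generating, `H¹ = 0`) from such
  morphisms on the closed fibres;
* `hX1`  : chart ideals descend from closed fibres;
* `hX2`  : base change of the index condition `Good` to any point of the chart;
* `hHC`  : transport of the vanishing of `H¹(Hom(-, N))` along an isomorphism of the source;
* `hGEN` : over a field, `H¹(Hom(G, N_K)) = 0` implies that every nonzero morphism generates. -/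
theorem fibGlobal_P_of (N : GlueDatum D k) (s : Fin (helper8573.genus D) → D.R₀)
    (f : helper1002.ChartAlg k D.R₀ s)
    (hFG1 : ∀ (B : Type u) [CommRing B] [Algebra k B] (G : GlueDatum D B), G.IsRig →
      (∀ m : Ideal B, m.IsMaximal → ∃ (K : Type u) (_ : Field K) (_ : Algebra k K)
        (χ : B →ₐ[k] K), RingHom.ker χ.toRingHom = m ∧
        ∃ σ : Mor (G.baseChange χ) (helper8573.baseOver N K), σ.SurjModY ∧ σ.Generates ∧
          Function.Surjective
            (helper1397.homDatum (G.baseChange χ) (helper8573.baseOver N K)).delta) →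
      ∃ σ : Mor G (helper8573.baseOver N B), σ.SurjModY ∧ σ.Generates ∧
        Function.Surjective (helper1397.homDatum G (helper8573.baseOver N B)).delta)
    (hX1 : ∀ (B : Type u) [CommRing B] [Algebra k B] (I : Ideal (D.A₀ B))
      [Module.Finite B (D.A₀ B ⧸ I)] [Module.Projective B (D.A₀ B ⧸ I)],
      (∀ m : Ideal B, m.IsMaximal → ∃ (K : Type u) (_ : Field K) (_ : Algebra k K)
        (χ : B →ₐ[k] K), RingHom.ker χ.toRingHom = m ∧
        helper1002.IsChartIdeal s (I.map (D.map₀ χ))) → helper1002.IsChartIdeal s I)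
    (hX2 : ∀ (K : Type u) [Field K] [Algebra k K] (γ : helper3173.W D s f →ₐ[k] K)
      [Module.Finite K (D.A₀ K ⧸ (helper3173.chartIdeal s f).map (D.map₀ γ))]
      [Module.Projective K (D.A₀ K ⧸ (helper3173.chartIdeal s f).map (D.map₀ γ))],
      Function.Surjective (helper1397.homDatum
        (helper3173.twistOf N ((helper3173.chartIdeal s f).map (D.map₀ γ)))
        (helper8573.baseOver N K)).delta)
    (hHC : ∀ (K : Type u) [Field K] [Algebra k K] (G G' : GlueDatum D K), G.Equiv G' →
      Function.Surjective (helper1397.homDatum G (helper8573.baseOver N K)).delta →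
      Function.Surjective (helper1397.homDatum G' (helper8573.baseOver N K)).delta)
    (hGEN : ∀ (K : Type u) [Field K] [Algebra k K] (G : GlueDatum D K), G.DegZero →
      Function.Surjective (helper1397.homDatum G (helper8573.baseOver N K)).delta →
      ∀ σ : Mor G (helper8573.baseOver N K), σ.f₀ ≠ 0 → σ.Generates) :
    (helper9743.InChart (helper3173.P N s f)).FibGlobal := by
  intro B _ _ G hrig hdeg hfib
  -- the fibre data: at every closed point the fibre is `N_K(−D_J)` for a chart ideal `J`
  have hpt : ∀ m : Ideal B, m.IsMaximal → ∃ (K : Type u) (_ : Field K) (_ : Algebra k K)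
      (χ : B →ₐ[k] K), RingHom.ker χ.toRingHom = m ∧
      ∃ (J : Ideal (D.A₀ K)) (hJ : helper1002.IsChartIdeal s J)
        (_ : Module.Finite K (D.A₀ K ⧸ J)) (_ : Module.Projective K (D.A₀ K ⧸ J)),
        IsUnit (hJ.eval f) ∧ (helper3173.twistOf N J).Equiv (G.baseChange χ) ∧
        Function.Surjective
          (helper1397.homDatum (helper3173.twistOf N J) (helper8573.baseOver N K)).delta := by
    intro m hm
    obtain ⟨K, _, _, χ, hχ, γ, hγ⟩ := hfib m hm
    have hJ : helper1002.IsChartIdeal s ((helper3173.chartIdeal s f).map (D.map₀ γ)) :=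
      (helper3173.isChartIdeal_chartIdeal s f).map γ
    have hfin := helper3173.finite_of_isChartIdeal hJ
    have hproj := helper3173.projective_of_isChartIdeal hJ
    refine ⟨K, inferInstance, inferInstance, χ, hχ, _, hJ, hfin, hproj, ?_, ?_, hX2 K γ⟩
    · have h1 := (helper3173.isChartIdeal_chartIdeal s f).eval_map γ f
      rw [h1]
      exact (helper1002.isUnit_eval_univIdealAway f).map γ
    · exact ((helper3173.stmt_UnivPoint k D N s f K γ).symm).trans hγ
  -- (FG1): a global morphism
  obtain ⟨σ, hY, -, -⟩ := hFG1 B G hrig (fun m hm => by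
    obtain ⟨K, _, _, χ, hχ, J, hJ, _, _, -, e, h1⟩ := hpt m hm
    obtain ⟨iso⟩ := e.symm
    have hY' : ((helper3173.twistOfIncl N J).comp (Mor.ofIso iso)).SurjModY :=
      surjModY_comp_ofIso _ iso (helper3173.twistOfIncl_surjModY N J)
    have h1' := hHC K _ _ e h1
    exact ⟨K, inferInstance, inferInstance, χ, hχ, _, hY',
      hGEN K _ (helper743.degZero_baseChange hdeg χ) h1' _ (f₀_ne_zero_of_surjModY _ hY'), h1'⟩)
  -- (FG2): the divisor of `σ`
  obtain ⟨I, -, -, -, hI, hfin, hproj, -, -, hr₀, -, -, -⟩ := helper69.chart_of_mor σ hY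
  have hG : G.Equiv (helper3173.twistOf N I) := equiv_twistOf_of_mor N σ hY I hI
  -- the fibres of `I` are the chart ideals of the fibres
  have hmap : ∀ m : Ideal B, m.IsMaximal → ∃ (K : Type u) (_ : Field K) (_ : Algebra k K)
      (χ : B →ₐ[k] K), RingHom.ker χ.toRingHom = m ∧
      ∃ hIχ : helper1002.IsChartIdeal s (I.map (D.map₀ χ)), IsUnit (hIχ.eval f) := by
    intro m hm
    obtain ⟨K, _, _, χ, hχ, J, hJ, _, _, hu, e, h1⟩ := hpt m hm
    have hJdeg : (helper3173.twistOf N J).DegZero :=
      helper743.degZero_of_equiv e.symm (helper743.degZero_baseChange hdeg χ)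
    have hgen : (helper3173.twistOfIncl N J).Generates :=
      hGEN K _ hJdeg h1 _ (f₀_ne_zero_of_surjModY _ (helper3173.twistOfIncl_surjModY N J))
    have hIJ : I.map (D.map₀ χ) = J := map_eq_of_fibre N σ hY I hr₀ χ J e hgen
    refine ⟨K, inferInstance, inferInstance, χ, hχ, hIJ ▸ hJ, ?_⟩
    rw [helper1002.IsChartIdeal.eval_congr (hIJ ▸ hJ) hJ hIJ f]
    exact hu
  have hIchart : helper1002.IsChartIdeal s I := hX1 B I (fun m hm => by
    obtain ⟨K, _, _, χ, hχ, hIχ, -⟩ := hmap m hm
    exact ⟨K, inferInstance, inferInstance, χ, hχ, hIχ⟩)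
  have hunit : IsUnit (hIchart.eval f) := by
    by_contra hc
    obtain ⟨m, hm, hmem⟩ := exists_max_ideal_of_mem_nonunits (mem_nonunits_iff.mpr hc)
    obtain ⟨K, _, _, χ, hχ, hIχ, hu⟩ := hmap m hm
    have h1 : (hIchart.map χ).eval f = χ (hIchart.eval f) := hIchart.eval_map χ f
    have h2 : χ (hIchart.eval f) = 0 := by
      have : hIchart.eval f ∈ RingHom.ker χ.toRingHom := hχ ▸ hmem
      exact this
    have h3 : hIχ.eval f = 0 := by
      rw [helper1002.IsChartIdeal.eval_congr hIχ (hIchart.map χ) rfl f, h1, h2]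
    rw [h3] at hu
    exact not_isUnit_zero hu
  -- the classifying map
  obtain ⟨ψ, hψ⟩ := helper1002.exists_chartAwayMap f hIchart hunit
  have hψ' : (helper3173.chartIdeal s f).map (D.map₀ ψ) = I := hψ
  have hJψ : helper1002.IsChartIdeal s ((helper3173.chartIdeal s f).map (D.map₀ ψ)) :=
    (helper3173.isChartIdeal_chartIdeal s f).map ψ
  have := helper3173.finite_of_isChartIdeal hJψ
  have := helper3173.projective_of_isChartIdeal hJψ
  exact ⟨ψ, ((helper3173.stmt_UnivPoint k D N s f B ψ).trans (twistOf_congr N hψ')).trans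
    hG.symm⟩

end FG3

end Fermat.Agent.S25.helper653

namespace Fermat.Agent.S25.helper653

open Fermat.Agent.S25.helper1705 Fermat.Agent.S25.helper2945
open Fermat.Agent.S25.helper8573 (Mor)

universe u

/-! ## (FG3) and the clause OPEN, with only (FG1) left as a hypothesis -/

section Open

variable {k : Type u} [Field k] [IsAlgClosed k] {D : CurveDatum k}

/-- The statement (FG1) for the base bundle `N`: a rigidified bundle `G` over `B` which has, on
every closed fibre, a morphism to `N` that is onto modulo `y`, generates, and has `H¹ = 0`,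
has such a morphism globally. -/
def FG1 (N : GlueDatum D k) : Prop :=
  ∀ (B : Type u) [CommRing B] [Algebra k B] (G : GlueDatum D B), G.IsRig →
    (∀ m : Ideal B, m.IsMaximal → ∃ (K : Type u) (_ : Field K) (_ : Algebra k K)
      (χ : B →ₐ[k] K), RingHom.ker χ.toRingHom = m ∧
      ∃ σ : Mor (G.baseChange χ) (helper8573.baseOver N K), σ.SurjModY ∧ σ.Generates ∧
        Function.Surjective
          (helper1397.homDatum (G.baseChange χ) (helper8573.baseOver N K)).delta) →
    ∃ σ : Mor G (helper8573.baseOver N B), σ.SurjModY ∧ σ.Generates ∧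
      Function.Surjective (helper1397.homDatum G (helper8573.baseOver N B)).delta

/-- **(FG3)** for a good chart of a base bundle of degree `g`, from (FG1) alone: the bricks
(X1) `helper174.isChartIdeal_of_fibrewise`, (X2) `helper7196.good_baseChange`, Hom congruence
`helper233.surjective_delta_homDatum_iff` and the field converse of (N1)
`helper25.generates_baseOver_of_surjective_delta` are discharged. -/
theorem fibGlobal_P_of_fg1 {N : GlueDatum D k} (hN : helper8573.HasDegreeGenus N)
    {s : Fin (helper8573.genus D) → D.R₀} {f : helper1002.ChartAlg k D.R₀ s}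
    (hgood : helper3173.Good N s f) (hFG1 : FG1 N) :
    (helper9743.InChart (helper3173.P N s f)).FibGlobal :=
  fibGlobal_P_of N s f hFG1
    (fun _ _ _ I _ _ h => helper174.isChartIdeal_of_fibrewise I h)
    (fun _ _ _ γ _ _ => helper7196.good_baseChange hgood γ)
    (fun _ _ _ _ _ h =>
      (helper233.surjective_delta_homDatum_iff h (GlueDatum.Equiv.refl _)).mp)
    (fun _ _ _ G hG h1 σ hσ =>
      helper25.generates_baseOver_of_surjective_delta N hN G hG h1 σ hσ)

/-- **The clause OPEN for one good chart**, from (FG1): the chart `P N s f` is an open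
subfunctor (ideal form). -/
theorem chartOpenIdeal_P_of_fg1 {N : GlueDatum D k} (hN : helper8573.HasDegreeGenus N)
    {s : Fin (helper8573.genus D) → D.R₀} {f : helper1002.ChartAlg k D.R₀ s}
    (hgood : helper3173.Good N s f) (hFG1 : FG1 N) :
    helper8573.ChartOpenIdeal (helper3173.P N s f) := by
  have := helper1800.finiteType₀ D
  exact helper4755.chartOpenIdeal_of_fibGlobal (helper3173.P N s f)
    (fibGlobal_P_of_fg1 hN hgood hFG1)

end Open

/-- **The clause OPEN of `Stmt_ChartOfAC`**, from (FG1) for every base bundle of degree `g`. -/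
theorem stmt_UnivOpen_of_fg1
    (hFG1 : ∀ (k : Type u) [Field k] [IsAlgClosed k] (D : CurveDatum k) (N : GlueDatum D k),
      helper8573.HasDegreeGenus N → FG1 N) :
    helper3173.Stmt_UnivOpen.{u} :=
  fun k _ _ D N hN _ _ hgood => chartOpenIdeal_P_of_fg1 hN hgood (hFG1 k D N hN)

end Fermat.Agent.S25.helper653

namespace Fermat.Agent.S25.helper653

open Fermat.Agent.S25.helper1705 Fermat.Agent.S25.helper2945
open Fermat.Agent.S25.helper8573 (Mor)

universe u

/-! ## The clause OPEN of `Stmt_ChartOfAC`, unconditional -/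

section OpenFinal

variable {k : Type u} [Field k] [IsAlgClosed k] {D : CurveDatum k}

/-- (FG1) holds for every base bundle: `helper720.inChartOf_of_fibrewise`. -/
theorem fg1 (N : GlueDatum D k) : FG1 N :=
  fun _ _ _ G hG hfib => helper720.inChartOf_of_fibrewise N G hG hfib

/-- **(FG3), unconditional.** For a good chart `(s, f)` of a base bundle `N` of degree `g`, the
property "`G` is pulled back from the chart `P N s f`" is fibrewise-global. -/
theorem fibGlobal_P {N : GlueDatum D k} (hN : helper8573.HasDegreeGenus N)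
    {s : Fin (helper8573.genus D) → D.R₀} {f : helper1002.ChartAlg k D.R₀ s}
    (hgood : helper3173.Good N s f) :
    (helper9743.InChart (helper3173.P N s f)).FibGlobal :=
  fibGlobal_P_of_fg1 hN hgood (fg1 N)

/-- A good chart `P N s f` is an open subfunctor (ideal form). -/
theorem chartOpenIdeal_P {N : GlueDatum D k} (hN : helper8573.HasDegreeGenus N)
    {s : Fin (helper8573.genus D) → D.R₀} {f : helper1002.ChartAlg k D.R₀ s}
    (hgood : helper3173.Good N s f) :
    helper8573.ChartOpenIdeal (helper3173.P N s f) :=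
  chartOpenIdeal_P_of_fg1 hN hgood (fg1 N)

end OpenFinal

/-- **The clause OPEN of `Stmt_ChartOfAC`.** -/
theorem stmt_UnivOpen : helper3173.Stmt_UnivOpen.{u} :=
  stmt_UnivOpen_of_fg1 fun _ _ _ _ N _ => fg1 N

end Fermat.Agent.S25.helper653
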