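import Mathlib

set_option autoImplicit false

open scoped TensorProduct

namespace Fermat.Agent.S25.helper653

section Content

variable {V : Type*} [CommRing V] [IsDomain V] [ValuationRing V]

/-- In a valuation ring every nonempty finite set has an element dividing all the others. -/
theorem exists_dvd_all (T : Finset V) (hT : T.Nonempty) : ∃ c ∈ T, ∀ t ∈ T, c ∣ t := by
  classical
  induction hT using Finset.Nonempty.cons_induction with
  | singleton a => exact ⟨a, by simp, by simp⟩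
  | cons a s ha hs ih =>
    obtain ⟨c, hc, hdiv⟩ := ih
    rcases ValuationRing.dvd_total a c with h | h
    · refine ⟨a, by simp, fun t ht => ?_⟩
      rcases Finset.mem_cons.mp ht with rfl | ht
      · exact dvd_rfl
      · exact h.trans (hdiv t ht)
    · refine ⟨c, by simp [hc], fun t ht => ?_⟩
      rcases Finset.mem_cons.mp ht with rfl | ht
      · exact h
      · exact hdiv t ht

omit [ValuationRing V] in
/-- A projective module over a domain is torsion-free (elementwise form). -/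
theorem eq_zero_of_smul_eq_zero_of_projective {M' : Type*} [AddCommGroup M'] [Module V M']
    [Module.Projective V M'] {c : V} (hc : c ≠ 0) {m : M'} (h : c • m = 0) : m = 0 := by
  obtain ⟨s, hs⟩ := (Module.projective_def (R := V) (P := M')).mp inferInstance
  have h1 : c • s m = 0 := by rw [← map_smul, h, map_zero]
  have h2 : s m = 0 := by
    ext b
    have := DFunLike.congr_fun h1 b
    simp only [Finsupp.smul_apply, smul_eq_mul, Finsupp.zero_apply] at this
    rcases mul_eq_zero.mp this with h | h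
    · exact absurd h hc
    · simpa using h
  have h3 := hs m
  rw [h2, map_zero] at h3
  exact h3.symm

omit [ValuationRing V] in
theorem smul_right_injective_of_projective {M' : Type*} [AddCommGroup M'] [Module V M']
    [Module.Projective V M'] {c : V} (hc : c ≠ 0) {m m' : M'} (h : c • m = c • m') : m = m' := by
  have : c • (m - m') = 0 := by rw [smul_sub, h, sub_self]
  exact sub_eq_zero.mp (eq_zero_of_smul_eq_zero_of_projective hc this)

/-- **Content lemma.** Over a valuation ring `V`, a linear map `f : M → M'` of `A`-modules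
(`M` finite over `A`, `M'` projective as a `V`-module) is `c • g` with `c ≠ 0` and `g`
primitive (not divisible by the maximal ideal of `V`) unless `f = 0`. -/
theorem exists_primitive_factor {A : Type*} [CommRing A] [Algebra V A]
    {M M' : Type*} [AddCommGroup M] [Module A M] [AddCommGroup M'] [Module A M'] [Module V M']
    [IsScalarTower V A M'] [Module.Finite A M] [Module.Projective V M'] (f : M →ₗ[A] M') :
    ∃ (c : V) (g : M →ₗ[A] M'), c ≠ 0 ∧ (∀ m, f m = c • g m) ∧
      (f ≠ 0 → ∃ m, g m ∉ (IsLocalRing.maximalIdeal V) • (⊤ : Submodule V M')) := by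
  classical
  obtain ⟨s, hs⟩ := (Module.projective_def (R := V) (P := M')).mp inferInstance
  obtain ⟨G, hG⟩ := (Module.Finite.fg_top : (⊤ : Submodule A M).FG)
  by_cases hf : f = 0
  · exact ⟨1, 0, one_ne_zero, by simp [hf], fun h => absurd hf h⟩
  let T : Finset V := G.biUnion (fun m => (s (f m)).support.image (fun b => s (f m) b))
  have hmemT : ∀ m ∈ G, ∀ b ∈ (s (f m)).support, s (f m) b ∈ T := fun m hm b hb =>
    Finset.mem_biUnion.mpr ⟨m, hm, Finset.mem_image.mpr ⟨b, hb, rfl⟩⟩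
  have hT : T.Nonempty := by
    by_contra hne
    rw [Finset.not_nonempty_iff_eq_empty] at hne
    apply hf
    have hz : ∀ m ∈ G, f m = 0 := by
      intro m hm
      have hsupp : (s (f m)).support = ∅ := by
        by_contra h
        obtain ⟨b, hb⟩ := Finset.nonempty_iff_ne_empty.mpr h
        have := hmemT m hm b hb
        rw [hne] at this
        exact absurd this (Finset.notMem_empty _)
      have h0 : s (f m) = 0 := Finsupp.support_eq_empty.mp hsupp
      have := hs (f m)
      rw [h0, map_zero] at this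
      exact this.symm
    apply LinearMap.ext_on hG
    intro m hm
    simpa using hz m hm
  obtain ⟨c, hcT, hdiv⟩ := exists_dvd_all T hT
  obtain ⟨m0, hm0, hc0⟩ := Finset.mem_biUnion.mp hcT
  obtain ⟨b0, hb0, hcb0⟩ := Finset.mem_image.mp hc0
  have hc : c ≠ 0 := by
    rw [← hcb0]
    exact Finsupp.mem_support_iff.mp hb0
  -- divisibility on generators
  have key : ∀ m ∈ G, ∃ u, f m = c • u := by
    intro m hm
    have hd : ∀ b, c ∣ s (f m) b := by
      intro b
      by_cases hb : b ∈ (s (f m)).support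
      · exact hdiv _ (hmemT m hm b hb)
      · rw [Finsupp.notMem_support_iff.mp hb]
        exact dvd_zero c
    choose q hq using hd
    refine ⟨∑ b ∈ (s (f m)).support, q b • b, ?_⟩
    have h1 := hs (f m)
    rw [Finsupp.linearCombination_apply, Finsupp.sum] at h1
    rw [Finset.smul_sum]
    refine h1.symm.trans (Finset.sum_congr rfl fun b _ => ?_)
    rw [hq b, mul_smul]
    rfl
  -- divisibility everywhere
  have key2 : ∀ m, ∃ u, f m = c • u := by
    intro m
    have hm : m ∈ Submodule.span A (G : Set M) := by rw [hG]; trivial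
    induction hm using Submodule.span_induction with
    | mem x hx => exact key x hx
    | zero => exact ⟨0, by simp⟩
    | add x y _ _ hx hy =>
      obtain ⟨u, hu⟩ := hx
      obtain ⟨v, hv⟩ := hy
      exact ⟨u + v, by rw [map_add, hu, hv, smul_add]⟩
    | smul a x _ hx =>
      obtain ⟨u, hu⟩ := hx
      exact ⟨a • u, by rw [map_smul, hu, smul_comm]⟩
  choose u hu using key2
  let g : M →ₗ[A] M' :=
    { toFun := u
      map_add' := fun x y => by
        apply smul_right_injective_of_projective hc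
        rw [← hu, smul_add, ← hu, ← hu, map_add]
      map_smul' := fun a x => by
        apply smul_right_injective_of_projective hc
        rw [← hu, RingHom.id_apply, smul_comm, ← hu, map_smul] }
  refine ⟨c, g, hc, hu, fun _ => ⟨m0, fun hmem => ?_⟩⟩
  -- the coefficient of `g m0` at `b0` is `1`
  have h1 : s (f m0) = c • s (g m0) := by rw [← map_smul]; exact congrArg s (hu m0)
  have h2 : c * s (g m0) b0 = c * 1 := by
    have := DFunLike.congr_fun h1 b0
    simp only [Finsupp.smul_apply, smul_eq_mul] at this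
    rw [← this, hcb0, mul_one]
  have h3 : s (g m0) b0 = 1 := mul_left_cancel₀ hc h2
  let φ : M' →ₗ[V] V := (Finsupp.lapply b0).comp s
  have h4 : ∀ x ∈ (IsLocalRing.maximalIdeal V) • (⊤ : Submodule V M'),
      φ x ∈ IsLocalRing.maximalIdeal V := by
    intro x hx
    refine Submodule.smul_induction_on hx (fun r hr n _ => ?_) (fun x y hx hy => ?_)
    · rw [map_smul, smul_eq_mul]
      exact Ideal.mul_mem_right _ _ hr
    · rw [map_add]; exact Ideal.add_mem _ hx hy
  have h5 : (1 : V) ∈ IsLocalRing.maximalIdeal V := by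
    have := h4 _ hmem
    simp only [φ, LinearMap.comp_apply, Finsupp.lapply_apply, h3] at this
    exact this
  exact (Ideal.ne_top_iff_one _).mp (IsLocalRing.maximalIdeal.isMaximal V).ne_top h5

end Content

section Fibre

variable {V : Type*} [CommRing V] {A : Type*} [CommRing A] [Algebra V A]

/-- A finitely generated module `N` with `N = 𝔫 N` for every maximal ideal `𝔫` is zero. -/
theorem subsingleton_of_forall_maximal_smul_top {N : Type*} [AddCommGroup N] [Module A N]
    [Module.Finite A N]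
    (h : ∀ n : Ideal A, n.IsMaximal → ∀ x : N, x ∈ n • (⊤ : Submodule A N)) : Subsingleton N := by
  by_contra hN
  rw [not_subsingleton_iff_nontrivial] at hN
  have hann : Module.annihilator A N ≠ ⊤ := by
    intro htop
    obtain ⟨x, hx⟩ := exists_ne (0 : N)
    have h1 : (1 : A) ∈ Module.annihilator A N := by rw [htop]; trivial
    have := Module.mem_annihilator.mp h1 x
    rw [one_smul] at this
    exact hx this
  obtain ⟨n, hn, hle⟩ := Ideal.exists_le_maximal _ hann
  obtain ⟨r, hr1, hr2⟩ := Submodule.exists_sub_one_mem_and_smul_eq_zero_of_fg_of_le_smul n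
    (⊤ : Submodule A N) Module.Finite.fg_top (fun x _ => h n hn x)
  have hr : r ∈ n := hle (Module.mem_annihilator.mpr fun x => hr2 x trivial)
  have h1 : (1 : A) ∈ n := by
    have := n.sub_mem hr hr1
    simpa using this
  exact (Ideal.ne_top_iff_one _).mp hn.ne_top h1

/-- If `a ∉ 𝔫` (maximal) and `a • x ∈ 𝔫 N` then `x ∈ 𝔫 N`. -/
theorem mem_smul_top_of_smul_mem {N : Type*} [AddCommGroup N] [Module A N] {n : Ideal A}
    (hn : n.IsMaximal) {a : A} (ha : a ∉ n) {x : N} (h : a • x ∈ n • (⊤ : Submodule A N)) :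
    x ∈ n • (⊤ : Submodule A N) := by
  obtain ⟨y, i, hi, hyi⟩ := hn.exists_inv ha
  have hx : x = y • (a • x) + i • x := by
    rw [smul_smul, ← add_smul, hyi, one_smul]
  rw [hx]
  exact Submodule.add_mem _ (Submodule.smul_mem _ _ h) (Submodule.smul_mem_smul hi trivial)

/-- `p M ⊆ 𝔫 M` when `p` is the contraction of `𝔫`. -/
theorem smul_top_le_of_comap {N : Type*} [AddCommGroup N] [Module A N] [Module V N]
    [IsScalarTower V A N] (n : Ideal A) {x : N}
    (hx : x ∈ (n.comap (algebraMap V A)) • (⊤ : Submodule V N)) :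
    x ∈ n • (⊤ : Submodule A N) := by
  refine Submodule.smul_induction_on hx (fun r hr y _ => ?_) (fun x y hx hy => ?_)
  · rw [← algebraMap_smul A r y]
    exact Submodule.smul_mem_smul (Ideal.mem_comap.mp hr) trivial
  · exact Submodule.add_mem _ hx hy

variable {M M' : Type*} [AddCommGroup M] [Module A M] [AddCommGroup M'] [Module A M']

/-- Fibrewise surjectivity (at every prime of the base `V`) implies surjectivity. -/
theorem surjective_of_fibrewise [Module V M'] [IsScalarTower V A M'] [Module.Finite A M']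
    (g : M →ₗ[A] M')
    (h : ∀ p : Ideal V, p.IsPrime → ∀ m' : M', ∃ s : V, s ∉ p ∧
      ∃ m : M, s • m' - g m ∈ p • (⊤ : Submodule V M')) :
    Function.Surjective g := by
  have hsub : Subsingleton (M' ⧸ LinearMap.range g) := by
    apply subsingleton_of_forall_maximal_smul_top (A := A)
    intro n hn q
    obtain ⟨m', rfl⟩ := Submodule.Quotient.mk_surjective _ q
    have hp : (n.comap (algebraMap V A)).IsPrime := Ideal.comap_isPrime _ _
    obtain ⟨s, hs, m, hm⟩ := h _ hp m'
    have h1 : s • m' - g m ∈ n • (⊤ : Submodule A M') := smul_top_le_of_comap n hm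
    have h2 : (LinearMap.range g).mkQ (s • m' - g m) ∈ n • (⊤ : Submodule A (M' ⧸ LinearMap.range g)) := by
      have := Submodule.mem_map_of_mem (f := (LinearMap.range g).mkQ) h1
      rw [Submodule.map_smul''] at this
      exact Submodule.smul_mono le_rfl le_top this
    have h3 : (LinearMap.range g).mkQ (s • m' - g m) =
        algebraMap V A s • (Submodule.Quotient.mk m' : M' ⧸ LinearMap.range g) := by
      rw [map_sub, Submodule.mkQ_apply, Submodule.mkQ_apply,
        (Submodule.Quotient.mk_eq_zero _).mpr (LinearMap.mem_range_self g m), sub_zero,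
        ← algebraMap_smul A s m', Submodule.Quotient.mk_smul]
    rw [h3] at h2
    exact mem_smul_top_of_smul_mem hn (fun hmem => hs (Ideal.mem_comap.mpr hmem)) h2
  have : LinearMap.range g = ⊤ := Submodule.Quotient.subsingleton_iff.mp hsub
  exact LinearMap.range_eq_top.mp this

/-- Fibrewise injectivity (at every prime of the base `V`) of a surjection onto a projective
module implies injectivity. -/
theorem injective_of_fibrewise [Module V M] [IsScalarTower V A M] [Module V M']
    [Module.Finite A M] [Module.Projective A M'] (g : M →ₗ[A] M') (hsurj : Function.Surjective g)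
    (h : ∀ p : Ideal V, p.IsPrime → ∀ m : M, g m ∈ p • (⊤ : Submodule V M') →
      ∃ s : V, s ∉ p ∧ s • m ∈ p • (⊤ : Submodule V M)) :
    Function.Injective g := by
  obtain ⟨σ, hσ⟩ := g.exists_rightInverse_of_surjective (LinearMap.range_eq_top.mpr hsurj)
  let π : M →ₗ[A] M := LinearMap.id - σ.comp g
  have hπker : ∀ m, π m ∈ LinearMap.ker g := by
    intro m
    have h1 : g (σ (g m)) = g m := DFunLike.congr_fun hσ (g m)
    simp [π, LinearMap.mem_ker, h1]
  have hπid : ∀ m ∈ LinearMap.ker g, π m = m := by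
    intro m hm
    simp [π, LinearMap.mem_ker.mp hm]
  let π' : M →ₗ[A] LinearMap.ker g := π.codRestrict _ hπker
  have hπ'surj : Function.Surjective π' := fun x => ⟨x.1, Subtype.ext (hπid x.1 x.2)⟩
  have hfin : Module.Finite A (LinearMap.ker g) := Module.Finite.of_surjective π' hπ'surj
  have hsub : Subsingleton (LinearMap.ker g) := by
    apply subsingleton_of_forall_maximal_smul_top (A := A)
    intro n hn x
    have hp : (n.comap (algebraMap V A)).IsPrime := Ideal.comap_isPrime _ _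
    have hx0 : g x.1 ∈ (n.comap (algebraMap V A)) • (⊤ : Submodule V M') := by
      rw [LinearMap.mem_ker.mp x.2]; exact Submodule.zero_mem _
    obtain ⟨s, hs, hm⟩ := h _ hp x.1 hx0
    have h1 : s • x.1 ∈ n • (⊤ : Submodule A M) := smul_top_le_of_comap n hm
    have h2 : π' (s • x.1) ∈ n • (⊤ : Submodule A (LinearMap.ker g)) := by
      have := Submodule.mem_map_of_mem (f := π') h1
      rw [Submodule.map_smul''] at this
      exact Submodule.smul_mono le_rfl le_top this
    have h3 : π' (s • x.1) = algebraMap V A s • x := by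
      apply Subtype.ext
      rw [← algebraMap_smul A s x.1]
      change π (algebraMap V A s • x.1) = algebraMap V A s • x.1
      rw [map_smul, hπid x.1 x.2]
    rw [h3] at h2
    exact mem_smul_top_of_smul_mem hn (fun hmem => hs (Ideal.mem_comap.mpr hmem)) h2
  rw [← LinearMap.ker_eq_bot]
  exact Submodule.eq_bot_of_subsingleton

end Fibre

section TwoChart

/-- `g` is bijective on the fibre at the prime `p` of the base ring `V`, in elementwise form:
`κ(p) ⊗ g` is surjective and injective. -/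
def FibBij {V : Type*} [CommRing V] {A : Type*} [CommRing A] (p : Ideal V)
    {M M' : Type*} [AddCommGroup M] [Module A M] [Module V M] [AddCommGroup M'] [Module A M']
    [Module V M'] (g : M →ₗ[A] M') : Prop :=
  (∀ m' : M', ∃ s : V, s ∉ p ∧ ∃ m : M, s • m' - g m ∈ p • (⊤ : Submodule V M')) ∧
  (∀ m : M, g m ∈ p • (⊤ : Submodule V M') → ∃ s : V, s ∉ p ∧ s • m ∈ p • (⊤ : Submodule V M))

variable {V : Type*} [CommRing V] [IsDomain V] [ValuationRing V]
  {A₀ A₁ A₀₁ : Type*} [CommRing A₀] [CommRing A₁] [CommRing A₀₁]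
  [Algebra V A₀] [Algebra V A₁] [Algebra V A₀₁]
  {M₀ M₀' : Type*} [AddCommGroup M₀] [Module A₀ M₀] [Module V M₀] [IsScalarTower V A₀ M₀]
  [AddCommGroup M₀'] [Module A₀ M₀'] [Module V M₀'] [IsScalarTower V A₀ M₀']
  {M₁ M₁' : Type*} [AddCommGroup M₁] [Module A₁ M₁] [Module V M₁] [IsScalarTower V A₁ M₁]
  [AddCommGroup M₁'] [Module A₁ M₁'] [Module V M₁'] [IsScalarTower V A₁ M₁']
  {M₀₁ M₀₁' : Type*} [AddCommGroup M₀₁] [Module A₀₁ M₀₁]
  [AddCommGroup M₀₁'] [Module A₀₁ M₀₁'] [Module V M₀₁'] [IsScalarTower V A₀₁ M₀₁']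

/-- **Valuation-ring uniqueness, unbundled core.**
`V` a valuation ring; two two-chart modules `(M₀, M₁, M₀₁; ρ₀, ρ₁)` and `(M₀', M₁', M₀₁'; ρ₀', ρ₁')`
with finite projective chart modules; `(f₀, f₁, f₀₁)` a nonzero morphism.  If every morphism
that is nonzero modulo a prime `p` of `V` is bijective on the fibres at `p` (`hFIB`, the field
case), then `f = c • g` with `c ≠ 0` and `g` an isomorphism on both charts. -/
theorem exists_iso_of_nonzero_hom
    [Module.Finite A₀ M₀] [Module.Finite A₁ M₁] [Module.Finite A₀ M₀'] [Module.Finite A₁ M₁']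
    [Module.Projective A₀ M₀'] [Module.Projective A₁ M₁']
    [Module.Projective V M₀'] [Module.Projective V M₁']
    (ρ₀ : M₀ → M₀₁) (ρ₁ : M₁ → M₀₁) (ρ₀' : M₀' → M₀₁') (ρ₁' : M₁' → M₀₁')
    (hρ₀' : ∀ (c : V) (w : M₀'), ρ₀' (c • w) = c • ρ₀' w)
    (hρ₁' : ∀ (c : V) (w : M₁'), ρ₁' (c • w) = c • ρ₁' w)
    (hgen : Submodule.span A₀₁ (Set.range ρ₀) = ⊤)
    (htf : ∀ (c : V) (z : M₀₁'), c ≠ 0 → c • z = 0 → z = 0)
    (f₀ : M₀ →ₗ[A₀] M₀') (f₁ : M₁ →ₗ[A₁] M₁') (f₀₁ : M₀₁ →ₗ[A₀₁] M₀₁')
    (hf₀ : ∀ m, f₀₁ (ρ₀ m) = ρ₀' (f₀ m)) (hf₁ : ∀ m, f₀₁ (ρ₁ m) = ρ₁' (f₁ m))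
    (hne : f₀ ≠ 0 ∨ f₁ ≠ 0)
    (hFIB : ∀ p : Ideal V, p.IsPrime → ∀ (g₀ : M₀ →ₗ[A₀] M₀') (g₁ : M₁ →ₗ[A₁] M₁')
      (g₀₁ : M₀₁ →ₗ[A₀₁] M₀₁'), (∀ m, g₀₁ (ρ₀ m) = ρ₀' (g₀ m)) → (∀ m, g₀₁ (ρ₁ m) = ρ₁' (g₁ m)) →
      ((∃ m, g₀ m ∉ p • (⊤ : Submodule V M₀')) ∨ (∃ m, g₁ m ∉ p • (⊤ : Submodule V M₁'))) →
      FibBij p g₀ ∧ FibBij p g₁) :
    ∃ (c : V) (g₀ : M₀ →ₗ[A₀] M₀') (g₁ : M₁ →ₗ[A₁] M₁') (g₀₁ : M₀₁ →ₗ[A₀₁] M₀₁'),
      c ≠ 0 ∧ (∀ m, f₀ m = c • g₀ m) ∧ (∀ m, f₁ m = c • g₁ m) ∧ (∀ z, f₀₁ z = c • g₀₁ z) ∧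
      (∀ m, g₀₁ (ρ₀ m) = ρ₀' (g₀ m)) ∧ (∀ m, g₀₁ (ρ₁ m) = ρ₁' (g₁ m)) ∧
      Function.Bijective g₀ ∧ Function.Bijective g₁ := by
  have hcancel : ∀ {c : V} {z z' : M₀₁'}, c ≠ 0 → c • z = c • z' → z = z' := by
    intro c z z' hc h
    have : c • (z - z') = 0 := by rw [smul_sub, h, sub_self]
    exact sub_eq_zero.mp (htf c _ hc this)
  -- assembly, once both chart maps are divided by the same `c`
  have asm : ∀ (c : V) (g₀ : M₀ →ₗ[A₀] M₀') (g₁ : M₁ →ₗ[A₁] M₁'), c ≠ 0 →
      (∀ m, f₀ m = c • g₀ m) → (∀ m, f₁ m = c • g₁ m) →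
      ((∃ m, g₀ m ∉ (IsLocalRing.maximalIdeal V) • (⊤ : Submodule V M₀')) ∨
        (∃ m, g₁ m ∉ (IsLocalRing.maximalIdeal V) • (⊤ : Submodule V M₁'))) →
      ∃ (c : V) (g₀ : M₀ →ₗ[A₀] M₀') (g₁ : M₁ →ₗ[A₁] M₁') (g₀₁ : M₀₁ →ₗ[A₀₁] M₀₁'),
      c ≠ 0 ∧ (∀ m, f₀ m = c • g₀ m) ∧ (∀ m, f₁ m = c • g₁ m) ∧ (∀ z, f₀₁ z = c • g₀₁ z) ∧
      (∀ m, g₀₁ (ρ₀ m) = ρ₀' (g₀ m)) ∧ (∀ m, g₀₁ (ρ₁ m) = ρ₁' (g₁ m)) ∧
      Function.Bijective g₀ ∧ Function.Bijective g₁ := by
    intro c g₀ g₁ hc h₀ h₁ hprim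
    have hdiv : ∀ z, ∃ w, f₀₁ z = c • w := by
      intro z
      have hz : z ∈ Submodule.span A₀₁ (Set.range ρ₀) := by rw [hgen]; trivial
      induction hz using Submodule.span_induction with
      | mem x hx =>
        obtain ⟨m, rfl⟩ := hx
        exact ⟨ρ₀' (g₀ m), by rw [hf₀, h₀, hρ₀']⟩
      | zero => exact ⟨0, by simp⟩
      | add x y _ _ hx hy =>
        obtain ⟨u, hu⟩ := hx
        obtain ⟨v, hv⟩ := hy
        exact ⟨u + v, by rw [map_add, hu, hv, smul_add]⟩
      | smul a x _ hx =>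
        obtain ⟨u, hu⟩ := hx
        exact ⟨a • u, by rw [map_smul, hu, smul_comm]⟩
    choose w hw using hdiv
    let g₀₁ : M₀₁ →ₗ[A₀₁] M₀₁' :=
      { toFun := w
        map_add' := fun x y => by
          apply hcancel hc
          rw [← hw, smul_add, ← hw, ← hw, map_add]
        map_smul' := fun a x => by
          apply hcancel hc
          rw [← hw, RingHom.id_apply, smul_comm, ← hw, map_smul] }
    have hg₀₁ : ∀ z, f₀₁ z = c • g₀₁ z := hw
    have hc₀ : ∀ m, g₀₁ (ρ₀ m) = ρ₀' (g₀ m) := by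
      intro m
      apply hcancel hc
      rw [← hg₀₁, hf₀, h₀, hρ₀']
    have hc₁ : ∀ m, g₀₁ (ρ₁ m) = ρ₁' (g₁ m) := by
      intro m
      apply hcancel hc
      rw [← hg₀₁, hf₁, h₁, hρ₁']
    have hF : ∀ p : Ideal V, p.IsPrime → FibBij p g₀ ∧ FibBij p g₁ := by
      intro p hp
      have hle : p ≤ IsLocalRing.maximalIdeal V := IsLocalRing.le_maximalIdeal hp.ne_top
      refine hFIB p hp g₀ g₁ g₀₁ hc₀ hc₁ ?_
      rcases hprim with ⟨m, hm⟩ | ⟨m, hm⟩
      · exact Or.inl ⟨m, fun h => hm (Submodule.smul_mono hle le_rfl h)⟩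
      · exact Or.inr ⟨m, fun h => hm (Submodule.smul_mono hle le_rfl h)⟩
    have hs₀ : Function.Surjective g₀ := surjective_of_fibrewise g₀ fun p hp => (hF p hp).1.1
    have hs₁ : Function.Surjective g₁ := surjective_of_fibrewise g₁ fun p hp => (hF p hp).2.1
    have hi₀ : Function.Injective g₀ :=
      injective_of_fibrewise g₀ hs₀ fun p hp => (hF p hp).1.2
    have hi₁ : Function.Injective g₁ :=
      injective_of_fibrewise g₁ hs₁ fun p hp => (hF p hp).2.2
    exact ⟨c, g₀, g₁, g₀₁, hc, h₀, h₁, hg₀₁, hc₀, hc₁, ⟨hi₀, hs₀⟩, ⟨hi₁, hs₁⟩⟩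
  obtain ⟨c₀, g₀, hc₀, hfg₀, hprim₀⟩ := exists_primitive_factor (V := V) f₀
  obtain ⟨c₁, g₁, hc₁, hfg₁, hprim₁⟩ := exists_primitive_factor (V := V) f₁
  by_cases h0 : f₀ = 0
  · have h1 : f₁ ≠ 0 := hne.resolve_left (fun h => h h0)
    exact asm c₁ 0 g₁ hc₁ (fun m => by simp [h0]) hfg₁ (Or.inr (hprim₁ h1))
  · by_cases h1 : f₁ = 0
    · exact asm c₀ g₀ 0 hc₀ hfg₀ (fun m => by simp [h1]) (Or.inl (hprim₀ h0))
    · rcases ValuationRing.dvd_total c₀ c₁ with ⟨d, hd⟩ | ⟨d, hd⟩
      · refine asm c₀ g₀ (algebraMap V A₁ d • g₁) hc₀ hfg₀ (fun m => ?_) (Or.inl (hprim₀ h0))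
        rw [hfg₁, hd, mul_smul, LinearMap.smul_apply, algebraMap_smul]
      · refine asm c₁ (algebraMap V A₀ d • g₀) g₁ hc₁ (fun m => ?_) hfg₁ (Or.inr (hprim₁ h1))
        rw [hfg₀, hd, mul_smul, LinearMap.smul_apply, algebraMap_smul]

end TwoChart

end Fermat.Agent.S25.helper653
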