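/-
S25 (Jacobian moonshot), generic algebra brick, Mathlib only.

(FS) "fibrewise injective => split": a linear map `φ : P → Q` from a finite module to a finite
     projective module which is injective modulo every maximal ideal has a retraction; its
     cokernel is finite projective.  (Globalisation of Mathlib's
     `IsLocalRing.split_injective_iff_lTensor_residueField_injective`.)
-/
import Mathlib
import Fermat.Agent.S25.helper6546_KerProj

set_option autoImplicit false

namespace Fermat.Agent.S25.helper6546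

open TensorProduct

section QuotCriterion

variable {R : Type*} [CommRing R] {M N : Type*} [AddCommGroup M] [Module R M]
  [AddCommGroup N] [Module R N]

/-- Every element of `(R ⧸ I) ⊗ M` is of the form `1 ⊗ m`. -/
theorem exists_one_tmul_eq (I : Ideal R) (z : (R ⧸ I) ⊗[R] M) :
    ∃ m : M, z = (1 : R ⧸ I) ⊗ₜ[R] m := by
  obtain ⟨m, hm⟩ := Submodule.Quotient.mk_surjective _ (quotTensorEquivQuotSMul M I z)
  refine ⟨m, ?_⟩
  apply (quotTensorEquivQuotSMul M I).injective
  rw [quotTensorEquivQuotSMul_mk_one_tmul, hm]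

theorem one_tmul_eq_zero_iff (I : Ideal R) (m : M) :
    (1 : R ⧸ I) ⊗ₜ[R] m = 0 ↔ m ∈ I • (⊤ : Submodule R M) := by
  rw [← (quotTensorEquivQuotSMul M I).map_eq_zero_iff, quotTensorEquivQuotSMul_mk_one_tmul,
    Submodule.Quotient.mk_eq_zero]

/-- Injectivity of `(R ⧸ I) ⊗ f` is the elementwise statement `f u ∈ I N → u ∈ I M`. -/
theorem lTensor_quotient_injective_iff (I : Ideal R) (f : M →ₗ[R] N) :
    Function.Injective (f.lTensor (R ⧸ I)) ↔
      ∀ u : M, f u ∈ I • (⊤ : Submodule R N) → u ∈ I • (⊤ : Submodule R M) := by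
  constructor
  · intro h u hu
    rw [← one_tmul_eq_zero_iff] at hu ⊢
    apply h
    rw [LinearMap.lTensor_tmul, hu, map_zero]
  · intro h
    rw [injective_iff_map_eq_zero]
    intro z hz
    obtain ⟨m, rfl⟩ := exists_one_tmul_eq I z
    rw [LinearMap.lTensor_tmul, one_tmul_eq_zero_iff] at hz
    rw [one_tmul_eq_zero_iff]
    exact h m hz

theorem baseChange_quotient_injective_iff (I : Ideal R) (f : M →ₗ[R] N) :
    Function.Injective (f.baseChange (R ⧸ I)) ↔
      ∀ u : M, f u ∈ I • (⊤ : Submodule R N) → u ∈ I • (⊤ : Submodule R M) := by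
  rw [← lTensor_quotient_injective_iff, LinearMap.baseChange_eq_ltensor]

end QuotCriterion

section Local

variable {B : Type*} [CommRing B] {P Q : Type*} [AddCommGroup P] [Module B P]
  [AddCommGroup Q] [Module B Q]

/-- Elements of `𝔪' • ⊤` in a module localised at the prime `𝔪` have a numerator in `𝔪 • ⊤`. -/
theorem exists_mk_of_mem_maximalIdeal_smul_top (𝔪 : Ideal B) [𝔪.IsPrime]
    (x : LocalizedModule 𝔪.primeCompl P)
    (hx : x ∈ IsLocalRing.maximalIdeal (Localization.AtPrime 𝔪) •
      (⊤ : Submodule (Localization.AtPrime 𝔪) (LocalizedModule 𝔪.primeCompl P))) :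
    ∃ q ∈ 𝔪 • (⊤ : Submodule B P), ∃ s : 𝔪.primeCompl, x = LocalizedModule.mk q s := by
  refine Submodule.smul_induction_on hx ?_ ?_
  · intro r hr n _
    obtain ⟨a, s1, rfl⟩ := IsLocalization.exists_mk'_eq 𝔪.primeCompl r
    rw [IsLocalization.AtPrime.mk'_mem_maximal_iff (Localization.AtPrime 𝔪) 𝔪] at hr
    induction n with | _ n s2
    refine ⟨a • n, Submodule.smul_mem_smul hr Submodule.mem_top, s1 * s2, ?_⟩
    rw [← Localization.mk_eq_mk', LocalizedModule.mk_smul_mk]
  · rintro x y ⟨q1, hq1, s1, rfl⟩ ⟨q2, hq2, s2, rfl⟩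
    refine ⟨s2 • q1 + s1 • q2, ?_, s1 * s2, LocalizedModule.mk_add_mk⟩
    exact Submodule.add_mem _ (Submodule.smul_mem _ _ hq1) (Submodule.smul_mem _ _ hq2)

theorem mk_mem_maximalIdeal_smul_top (𝔪 : Ideal B) [𝔪.IsPrime] {u : P}
    (hu : u ∈ 𝔪 • (⊤ : Submodule B P)) (s : 𝔪.primeCompl) :
    LocalizedModule.mk u s ∈ IsLocalRing.maximalIdeal (Localization.AtPrime 𝔪) •
      (⊤ : Submodule (Localization.AtPrime 𝔪) (LocalizedModule 𝔪.primeCompl P)) := by
  revert s
  refine Submodule.smul_induction_on hu ?_ ?_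
  · intro a ha n _ s
    have h1 : LocalizedModule.mk (a • n) s =
        (IsLocalization.mk' (Localization.AtPrime 𝔪) a (1 : 𝔪.primeCompl)) •
          LocalizedModule.mk n s := by
      rw [← Localization.mk_eq_mk', LocalizedModule.mk_smul_mk, one_mul]
    rw [h1]
    refine Submodule.smul_mem_smul ?_ Submodule.mem_top
    rw [IsLocalization.AtPrime.mk'_mem_maximal_iff (Localization.AtPrime 𝔪) 𝔪]
    exact ha
  · intro x y hx hy s
    have h1 : LocalizedModule.mk (x + y) s = LocalizedModule.mk x s + LocalizedModule.mk y s := by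
      rw [LocalizedModule.mk_add_mk, ← smul_add, LocalizedModule.mk_cancel_common_left]
    rw [h1]
    exact Submodule.add_mem _ (hx s) (hy s)

/-- The fibre criterion passes to the localisation at `𝔪`. -/
theorem localized_lTensor_residueField_injective (𝔪 : Ideal B) [𝔪.IsPrime] (φ : P →ₗ[B] Q)
    (h : ∀ u : P, φ u ∈ 𝔪 • (⊤ : Submodule B Q) → u ∈ 𝔪 • (⊤ : Submodule B P)) :
    Function.Injective ((LocalizedModule.map 𝔪.primeCompl φ).lTensor
      (IsLocalRing.ResidueField (Localization.AtPrime 𝔪))) := by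
  change Function.Injective ((LocalizedModule.map 𝔪.primeCompl φ).lTensor
    (Localization.AtPrime 𝔪 ⧸ IsLocalRing.maximalIdeal (Localization.AtPrime 𝔪)))
  rw [lTensor_quotient_injective_iff]
  intro x hx
  induction x with | _ u s
  rw [LocalizedModule.map_mk] at hx
  obtain ⟨q, hq, s', hqs⟩ := exists_mk_of_mem_maximalIdeal_smul_top 𝔪 _ hx
  obtain ⟨t, ht⟩ := LocalizedModule.mk_eq.mp hqs
  -- `t • s' • φ u = t • s • q ∈ 𝔪 • ⊤`
  have h1 : φ ((t * s' : 𝔪.primeCompl) • u) ∈ 𝔪 • (⊤ : Submodule B Q) := by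
    have : φ ((t * s' : 𝔪.primeCompl) • u) = t • s • q := by
      rw [← ht, mul_smul]
      simp only [Submonoid.smul_def, map_smul]
    rw [this]
    exact Submodule.smul_mem _ _ (Submodule.smul_mem _ _ hq)
  have h2 := h _ h1
  have h3 := mk_mem_maximalIdeal_smul_top 𝔪 h2 ((t * s') * s)
  rwa [LocalizedModule.mk_cancel_common_left] at h3

end Local

section Global

variable {B : Type*} [CommRing B] {P Q : Type*} [AddCommGroup P] [Module B P]
  [AddCommGroup Q] [Module B Q]

/-- (FS), cokernel form: `P` finite, `Q` finite projective, `φ : P → Q` injective modulo every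
maximal ideal (elementwise form).  Then `coker φ` is projective. -/
theorem projective_coker_of_forall_maximal [Module.Finite B P] [Module.Finite B Q]
    [Module.Projective B Q] (φ : P →ₗ[B] Q)
    (h : ∀ 𝔪 : Ideal B, 𝔪.IsMaximal → ∀ u : P, φ u ∈ 𝔪 • (⊤ : Submodule B Q) →
      u ∈ 𝔪 • (⊤ : Submodule B P)) :
    Module.Projective B (Q ⧸ LinearMap.range φ) := by
  have hfp' : Module.FinitePresentation B Q := Module.finitePresentation_of_projective B Q
  have hfp : Module.FinitePresentation B (Q ⧸ LinearMap.range φ) := by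
    refine Module.finitePresentation_of_surjective (LinearMap.range φ).mkQ
      (Submodule.mkQ_surjective _) ?_
    rw [Submodule.ker_mkQ]
    exact Submodule.fg_range φ
  apply Module.projective_of_localization_maximal
  intro 𝔪 h𝔪
  have := h𝔪
  have : Module.Free (Localization.AtPrime 𝔪) (LocalizedModule 𝔪.primeCompl Q) :=
    Module.free_of_flat_of_isLocalRing
  have hex : Function.Exact (LocalizedModule.map 𝔪.primeCompl φ)
      (LocalizedModule.map 𝔪.primeCompl (LinearMap.range φ).mkQ) :=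
    LocalizedModule.map_exact 𝔪.primeCompl φ _ (LinearMap.exact_map_mkQ_range φ)
  have hsurj := LocalizedModule.map_surjective 𝔪.primeCompl _
    (Submodule.mkQ_surjective (LinearMap.range φ))
  have hfree := Module.free_of_lTensor_residueField_injective
    (LocalizedModule.map 𝔪.primeCompl φ)
    (LocalizedModule.map 𝔪.primeCompl (LinearMap.range φ).mkQ) hsurj hex
    (localized_lTensor_residueField_injective 𝔪 φ (h 𝔪 h𝔪))
  infer_instance

/-- (FS): `P` finite, `Q` finite projective, `φ : P → Q` injective modulo every maximal ideal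
(elementwise form).  Then `φ` has a retraction. -/
theorem exists_leftInverse_of_forall_maximal [Module.Finite B P] [Module.Finite B Q]
    [Module.Projective B Q] (φ : P →ₗ[B] Q)
    (h : ∀ 𝔪 : Ideal B, 𝔪.IsMaximal → ∀ u : P, φ u ∈ 𝔪 • (⊤ : Submodule B Q) →
      u ∈ 𝔪 • (⊤ : Submodule B P)) :
    ∃ ψ : Q →ₗ[B] P, ψ ∘ₗ φ = LinearMap.id := by
  have := projective_coker_of_forall_maximal φ h
  obtain ⟨σ, hσ⟩ := exists_genInv_of_projective_coker φ
  have hK : LinearMap.ker φ = ⊥ := by
    have hfin : (LinearMap.ker φ).FG := by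
      have := finite_ker_of_genInv φ σ hσ
      exact Module.Finite.iff_fg.mp inferInstance
    by_contra hne
    have hann : (LinearMap.ker φ).annihilator ≠ ⊤ := by
      intro htop
      exact hne (Submodule.annihilator_eq_top_iff.mp htop)
    obtain ⟨𝔪, h𝔪, hle⟩ := Ideal.exists_le_maximal _ hann
    have hsub : LinearMap.ker φ ≤ 𝔪 • LinearMap.ker φ := by
      intro k hk
      have hk0 : φ k ∈ 𝔪 • (⊤ : Submodule B Q) := by
        rw [LinearMap.mem_ker.mp hk]
        exact zero_mem _
      have hk1 := h 𝔪 h𝔪 k hk0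
      have key : ∀ x ∈ 𝔪 • (⊤ : Submodule B P),
          ((kerProj φ σ hσ x : LinearMap.ker φ) : P) ∈ 𝔪 • LinearMap.ker φ := by
        intro x hx
        refine Submodule.smul_induction_on hx ?_ ?_
        · intro a ha n _
          rw [map_smul]
          exact Submodule.smul_mem_smul ha (kerProj φ σ hσ n).2
        · intro x y hx hy
          rw [map_add]
          exact Submodule.add_mem _ hx hy
      have h2 := key k hk1
      have h3 : ((kerProj φ σ hσ k : LinearMap.ker φ) : P) = k := by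
        rw [kerProj_apply_coe, LinearMap.mem_ker.mp hk, map_zero, sub_zero]
      rwa [h3] at h2
    obtain ⟨r, hr, hr'⟩ :=
      Submodule.exists_sub_one_mem_and_smul_eq_zero_of_fg_of_le_smul 𝔪 _ hfin hsub
    have hrann : r ∈ (LinearMap.ker φ).annihilator := by
      rw [Submodule.mem_annihilator]
      exact hr'
    have hr𝔪 : r ∈ 𝔪 := hle hrann
    have h1 : (1 : B) ∈ 𝔪 := by
      have := 𝔪.sub_mem hr𝔪 hr
      simpa using this
    exact h𝔪.ne_top ((Ideal.eq_top_iff_one _).mpr h1)
  refine ⟨σ, ?_⟩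
  ext u
  have h1 := LinearMap.congr_fun hσ u
  simp only [LinearMap.comp_apply] at h1
  have h2 : σ (φ u) - u ∈ LinearMap.ker φ := by
    rw [LinearMap.mem_ker, map_sub, h1, sub_self]
  rw [hK, Submodule.mem_bot, sub_eq_zero] at h2
  simpa using h2

/-- (FS), tensor form of the hypothesis: `(B ⧸ 𝔪) ⊗ φ` injective for every maximal `𝔪`. -/
theorem exists_leftInverse_of_baseChange_injective [Module.Finite B P] [Module.Finite B Q]
    [Module.Projective B Q] (φ : P →ₗ[B] Q)
    (h : ∀ 𝔪 : Ideal B, 𝔪.IsMaximal → Function.Injective (φ.baseChange (B ⧸ 𝔪))) :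
    ∃ ψ : Q →ₗ[B] P, ψ ∘ₗ φ = LinearMap.id :=
  exists_leftInverse_of_forall_maximal φ fun 𝔪 h𝔪 =>
    (baseChange_quotient_injective_iff 𝔪 φ).mp (h 𝔪 h𝔪)

/-- (FS), packaged: retraction, projective cokernel, and injectivity after every base change. -/
theorem fibrewise_injective_split [Module.Finite B P] [Module.Finite B Q]
    [Module.Projective B Q] (φ : P →ₗ[B] Q)
    (h : ∀ 𝔪 : Ideal B, 𝔪.IsMaximal → Function.Injective (φ.baseChange (B ⧸ 𝔪))) :
    (∃ ψ : Q →ₗ[B] P, ψ ∘ₗ φ = LinearMap.id) ∧ Function.Injective φ ∧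
    Module.Projective B (Q ⧸ LinearMap.range φ) ∧ Module.Finite B (Q ⧸ LinearMap.range φ) ∧
    Module.Projective B P ∧
    ∀ (A : Type*) [CommRing A] [Algebra B A], Function.Injective (φ.baseChange A) := by
  have h' : ∀ 𝔪 : Ideal B, 𝔪.IsMaximal → ∀ u : P, φ u ∈ 𝔪 • (⊤ : Submodule B Q) →
      u ∈ 𝔪 • (⊤ : Submodule B P) := fun 𝔪 h𝔪 =>
    (baseChange_quotient_injective_iff 𝔪 φ).mp (h 𝔪 h𝔪)
  obtain ⟨ψ, hψ⟩ := exists_leftInverse_of_forall_maximal φ h'
  refine ⟨⟨ψ, hψ⟩, Function.HasLeftInverse.injective ⟨ψ, LinearMap.congr_fun hψ⟩,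
    projective_coker_of_forall_maximal φ h', inferInstance,
    Module.Projective.of_split φ ψ hψ, ?_⟩
  intro A _ _
  have h1 : ψ.baseChange A ∘ₗ φ.baseChange A = LinearMap.id := by
    rw [← LinearMap.baseChange_comp, hψ, LinearMap.baseChange_id]
  exact Function.HasLeftInverse.injective ⟨_, LinearMap.congr_fun h1⟩

end Global

end Fermat.Agent.S25.helper6546
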