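import Mathlib

/-!
# S25, leaf U13: smooth + geometrically connected over a field ⟹ geometrically integral

Owner: helper6730.  Mathlib only.

* `exists_isDomain_away_of_smooth` : a smooth algebra `S` over a field is, locally around every
  prime, a domain (`∃ h ∉ p, IsDomain (Localization.Away h)`).
* `isDomain_of_isLocalization_atPrime_of_smooth` : all local rings of `S` are domains.
* `isIntegral_of_smooth_of_connectedSpace` : a connected scheme smooth over a field is integral.
* `geometricallyIntegral_of_smooth_of_geometricallyConnected` : the leaf.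
-/

set_option autoImplicit false

universe u

open TensorProduct

namespace Fermat.Agent.S25.helper6730

section Detect

variable {A : Type*} [CommRing A]

/-- A ring hom `π` to a field which is nonzero on a submonoid `M` and whose kernel is killed by
elements of `M`: every localization of `A` at `M` is a domain. -/
theorem isDomain_of_isLocalization_of_detect {F : Type*} [Field F] (π : A →+* F)
    (M : Submonoid A) (hM : ∀ m ∈ M, π m ≠ 0)
    (hker : ∀ a, π a = 0 → ∃ m ∈ M, a * m = 0)
    (Aₘ : Type*) [CommRing Aₘ] [Algebra A Aₘ] [IsLocalization M Aₘ] : IsDomain Aₘ := by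
  have hnt : Nontrivial Aₘ := by
    refine ⟨⟨0, 1, fun h => ?_⟩⟩
    have h1 : (algebraMap A Aₘ) 1 = 0 := by rw [map_one]; exact h.symm
    obtain ⟨m, hm⟩ := (IsLocalization.map_eq_zero_iff M Aₘ 1).mp h1
    exact hM m m.2 (by simpa using congrArg π hm)
  have hnzd : NoZeroDivisors Aₘ := by
    refine ⟨fun {x y} hxy => ?_⟩
    obtain ⟨a, s, rfl⟩ := IsLocalization.exists_mk'_eq M x
    obtain ⟨b, t, rfl⟩ := IsLocalization.exists_mk'_eq M y
    rw [← IsLocalization.mk'_mul, IsLocalization.mk'_eq_zero_iff] at hxy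
    obtain ⟨m, hm⟩ := hxy
    have h2 : π m * (π a * π b) = 0 := by
      simpa [map_mul] using congrArg π hm
    rcases mul_eq_zero.mp h2 with h | h
    · exact absurd h (hM m m.2)
    · rcases mul_eq_zero.mp h with h | h
      · left
        obtain ⟨ε, hε, h0⟩ := hker a h
        rw [IsLocalization.mk'_eq_zero_iff]
        exact ⟨⟨ε, hε⟩, by simpa [mul_comm] using h0⟩
      · right
        obtain ⟨ε, hε, h0⟩ := hker b h
        rw [IsLocalization.mk'_eq_zero_iff]
        exact ⟨⟨ε, hε⟩, by simpa [mul_comm] using h0⟩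
  exact @NoZeroDivisors.to_isDomain _ _ hnt hnzd

/-- Detection data around a prime `p`: an element `h ∉ p` and a ring hom `π` to a field with
`π h ≠ 0` whose kernel is killed by powers of `h`. -/
def DetectAt (p : Ideal A) (h : A) {F : Type*} [Field F] (π : A →+* F) : Prop :=
  h ∉ p ∧ π h ≠ 0 ∧ ∀ a, π a = 0 → ∃ j : ℕ, a * h ^ j = 0

theorem DetectAt.isDomain_away {p : Ideal A} {h : A} {F : Type*} [Field F] {π : A →+* F}
    (H : DetectAt p h π) (Aₕ : Type*) [CommRing Aₕ] [Algebra A Aₕ] [IsLocalization.Away h Aₕ] :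
    IsDomain Aₕ := by
  refine isDomain_of_isLocalization_of_detect π (Submonoid.powers h) ?_ ?_ Aₕ
  · rintro _ ⟨j, rfl⟩
    rw [map_pow]
    exact pow_ne_zero j H.2.1
  · intro a ha
    obtain ⟨j, hj⟩ := H.2.2 a ha
    exact ⟨h ^ j, ⟨j, rfl⟩, hj⟩

theorem DetectAt.isDomain_atPrime {p : Ideal A} [p.IsPrime] {h : A} {F : Type*} [Field F]
    {π : A →+* F} (H : DetectAt p h π) (Aₚ : Type*) [CommRing Aₚ] [Algebra A Aₚ]
    [IsLocalization.AtPrime Aₚ p] : IsDomain Aₚ := by
  have hpow : ∀ j : ℕ, h ^ j ∉ p := fun j hj => H.1 (Ideal.IsPrime.mem_of_pow_mem ‹_› j hj)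
  refine isDomain_of_isLocalization_of_detect π p.primeCompl ?_ ?_ Aₚ
  · intro m hm hπ
    obtain ⟨j, hj⟩ := H.2.2 m hπ
    have : m * h ^ j ∈ p := hj ▸ p.zero_mem
    rcases Ideal.IsPrime.mem_or_mem ‹_› this with h' | h'
    · exact hm h'
    · exact hpow j h'
  · intro a ha
    obtain ⟨j, hj⟩ := H.2.2 a ha
    exact ⟨h ^ j, hpow j, hj⟩

end Detect

section PiFields

variable {A T : Type*} [CommRing A] [CommRing T] (φ : A →+* T)
  {I : Type*} {L : I → Type*} [∀ i, Field (L i)]

/-- A ring `A` embedded in a finite product of fields `T` and containing all idempotents of `T`: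
every prime `p` of `A` avoids an idempotent `ε` cut out by one factor `L i`, whose projection
`π` detects zero away from `ε`. -/
theorem exists_detect_of_pi [Finite I] (hinj : Function.Injective φ)
    (hidem : ∀ t : T, t * t = t → t ∈ φ.range) (e : T ≃+* (Π i, L i))
    (p : Ideal A) [p.IsPrime] :
    ∃ (ε : A) (i : I) (π : A →+* L i), ε ∉ p ∧ π ε = 1 ∧ ∀ a, π a = 0 → a * ε = 0 := by
  classical
  have := Fintype.ofFinite I
  have hex : ∀ i : I, ∃ a : A, φ a = e.symm (Pi.single i 1) := by
    intro i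
    refine hidem _ ?_
    rw [← map_mul, ← Pi.single_mul, mul_one]
  choose η hη using hex
  have hsum : ∑ i, η i = 1 := by
    apply hinj
    rw [map_sum, map_one]
    simp_rw [hη]
    rw [← map_sum, Finset.univ_sum_single]
    exact map_one e.symm
  obtain ⟨i, hi⟩ : ∃ i, η i ∉ p := by
    by_contra hcon
    simp only [not_exists, not_not] at hcon
    have : (1 : A) ∈ p := hsum ▸ p.sum_mem (fun i _ => hcon i)
    exact (Ideal.IsPrime.ne_top ‹_›) ((Ideal.eq_top_iff_one p).mpr this)
  let π : A →+* L i := (Pi.evalRingHom L i).comp (e.toRingHom.comp φ)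
  have hπ : ∀ a, π a = e (φ a) i := fun a => rfl
  refine ⟨η i, i, π, hi, ?_, ?_⟩
  · rw [hπ, hη, RingEquiv.apply_symm_apply, Pi.single_eq_same]
  · intro a ha
    apply hinj
    apply e.injective
    rw [map_mul, map_mul, hη, RingEquiv.apply_symm_apply, map_zero, map_zero]
    ext j
    by_cases hj : j = i
    · subst hj
      rw [hπ] at ha
      simp [ha]
    · simp [Pi.single_eq_of_ne hj]

end PiFields

section EtaleOverPoly

/-- An étale algebra over a polynomial ring over a field embeds into a finite product of fields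
(its generic fibre) and contains all idempotents of it, because it is integrally closed there. -/
theorem exists_detect_of_etale_mvPolynomial (k : Type u) [Field k] (n : ℕ) (A : Type u)
    [CommRing A] [Algebra (MvPolynomial (Fin n) k) A] [Algebra.Etale (MvPolynomial (Fin n) k) A]
    (p : Ideal A) [p.IsPrime] :
    ∃ (ε : A) (F : Type u) (_ : Field F) (π : A →+* F),
      ε ∉ p ∧ π ε = 1 ∧ ∀ a, π a = 0 → a * ε = 0 := by
  have hnt : Nontrivial A :=
    nontrivial_of_ne (0 : A) 1 fun h =>
      (Ideal.IsPrime.ne_top ‹p.IsPrime›) ((Ideal.eq_top_iff_one p).mpr (h ▸ p.zero_mem))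
  let P := MvPolynomial (Fin n) k
  let K := FractionRing P
  let T := A ⊗[P] K
  let φ : A →+* T := (Algebra.TensorProduct.includeLeft : A →ₐ[P] A ⊗[P] K).toRingHom
  have hφ : ∀ a : A, φ a = a ⊗ₜ[P] (1 : K) := fun a => rfl
  have hinj : Function.Injective φ :=
    Algebra.TensorProduct.includeLeft_injective (R := P) (S := P) (A := A) (B := K)
      (IsFractionRing.injective P K)
  -- elements of `A ⊗ integralClosure P K` are pure tensors `a ⊗ 1`
  have hpure : ∀ z : A ⊗[P] integralClosure P K,
      ∃ a : A, ((TensorProduct.toIntegralClosure P A K z : integralClosure A T) : T) = φ a := by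
    intro z
    induction z using TensorProduct.induction_on with
    | zero => exact ⟨0, by simp⟩
    | tmul a y =>
      have hy : (y : K) ∈ (⊥ : Subalgebra P K) := by
        rw [← IsIntegrallyClosed.integralClosure_eq_bot P K]
        exact y.2
      obtain ⟨q, hq⟩ := Algebra.mem_bot.mp hy
      refine ⟨q • a, ?_⟩
      rw [hφ, TensorProduct.smul_tmul, Algebra.smul_def, mul_one, hq]
      simp [TensorProduct.toIntegralClosure]
    | add z₁ z₂ h₁ h₂ =>
      obtain ⟨a₁, h₁⟩ := h₁
      obtain ⟨a₂, h₂⟩ := h₂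
      exact ⟨a₁ + a₂, by rw [map_add, map_add, ← h₁, ← h₂]; rfl⟩
  have hidem : ∀ t : T, t * t = t → t ∈ φ.range := by
    intro t ht
    have hint : IsIntegral A t := by
      refine ⟨Polynomial.X ^ 2 - Polynomial.X, ?_, ?_⟩
      · exact Polynomial.monic_X_pow_sub (by rw [Polynomial.degree_X]; norm_num)
      · simp [pow_two, ht]
    obtain ⟨z, hz⟩ := (TensorProduct.toIntegralClosure_bijective_of_smooth
      (R := P) (S := A) (B := K)).2 ⟨t, hint⟩
    obtain ⟨a, ha⟩ := hpure z
    exact ⟨a, by rw [← ha, hz]⟩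
  obtain ⟨I, hI, L, hL, hA, e, -⟩ :=
    (Algebra.Etale.iff_exists_algEquiv_prod K (K ⊗[P] A)).mp inferInstance
  let e' : T ≃+* (Π i, L i) :=
    (Algebra.TensorProduct.comm P A K).toRingEquiv.trans e.toRingEquiv
  obtain ⟨ε, i, π, h1, h2, h3⟩ := exists_detect_of_pi φ hinj hidem e' p
  exact ⟨ε, L i, inferInstance, π, h1, h2, h3⟩

end EtaleOverPoly

section SmoothField

/-- Around every prime, a smooth algebra over a field admits detection data. -/
theorem exists_detectAt_of_smooth (k : Type u) [Field k] (S : Type u) [CommRing S] [Algebra k S]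
    [Algebra.Smooth k S] (p : Ideal S) [p.IsPrime] :
    ∃ (h : S) (F : Type u) (_ : Field F) (π : S →+* F), DetectAt p h π := by
  obtain ⟨f, hfp, n, _, _, _⟩ :=
    Algebra.IsSmoothAt.exists_isStandardEtale_mvPolynomial (R := k) (p := p)
  have hp' : (Ideal.map (algebraMap S (Localization.Away f)) p).IsPrime :=
    IsLocalization.isPrime_of_isPrime_disjoint (.powers f) _ _ ‹_›
      ((Ideal.disjoint_powers_iff_notMem_of_isPrime _).mpr hfp)
  obtain ⟨ε', F, _, π', h1, h2, h3⟩ :=
    exists_detect_of_etale_mvPolynomial k n (Localization.Away f)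
      (Ideal.map (algebraMap S (Localization.Away f)) p)
  obtain ⟨s, t, hs⟩ := IsLocalization.exists_mk'_eq (.powers f) ε'
  obtain ⟨m, hm⟩ := t.2
  have hsp : s ∉ p := by
    intro hsp
    apply h1
    rw [← hs, IsLocalization.mk'_mem_map_algebraMap_iff]
    exact ⟨1, one_mem _, by simpa using hsp⟩
  have hfu : IsUnit (algebraMap S (Localization.Away f) f) :=
    IsLocalization.Away.algebraMap_isUnit f
  have hπf : π' (algebraMap S (Localization.Away f) f) ≠ 0 := (hfu.map π').ne_zero
  have hsε : algebraMap S (Localization.Away f) s =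
      ε' * algebraMap S (Localization.Away f) f ^ m := by
    rw [← hs, ← map_pow]
    have := IsLocalization.mk'_spec (Localization.Away f) s t
    rw [← this]
    congr 2
    exact hm.symm
  refine ⟨f * s, F, inferInstance, π'.comp (algebraMap S (Localization.Away f)), ?_, ?_, ?_⟩
  · exact fun hmem => (Ideal.IsPrime.mem_or_mem ‹_› hmem).elim hfp hsp
  · rw [RingHom.comp_apply, map_mul, map_mul, hsε, map_mul, h2, one_mul, map_pow]
    exact mul_ne_zero hπf (pow_ne_zero m hπf)
  · intro a ha
    have h0 : algebraMap S (Localization.Away f) (a * s) = 0 := by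
      rw [map_mul, hsε, ← mul_assoc, h3 _ ha, zero_mul]
    obtain ⟨⟨_, j, rfl⟩, hj⟩ := (IsLocalization.map_eq_zero_iff (.powers f) _ _).mp h0
    refine ⟨j + 1, ?_⟩
    have hj' : f ^ j * (a * s) = 0 := hj
    calc a * (f * s) ^ (j + 1) = (f ^ j * (a * s)) * (f * s ^ j) := by ring
      _ = 0 := by rw [hj', zero_mul]

/-- A smooth algebra over a field is a domain locally around every prime. -/
theorem exists_isDomain_away_of_smooth (k : Type u) [Field k] (S : Type u) [CommRing S]
    [Algebra k S] [Algebra.Smooth k S] (p : Ideal S) [p.IsPrime] :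
    ∃ h : S, h ∉ p ∧ ∀ (Sₕ : Type u) [CommRing Sₕ] [Algebra S Sₕ] [IsLocalization.Away h Sₕ],
      IsDomain Sₕ := by
  obtain ⟨h, F, _, π, H⟩ := exists_detectAt_of_smooth k S p
  exact ⟨h, H.1, fun Sₕ _ _ _ => H.isDomain_away Sₕ⟩

/-- The local rings of a smooth algebra over a field are domains. -/
theorem isDomain_of_isLocalization_atPrime_of_smooth (k : Type u) [Field k] (S : Type u)
    [CommRing S] [Algebra k S] [Algebra.Smooth k S] (p : Ideal S) [p.IsPrime]
    (Sₚ : Type u) [CommRing Sₚ] [Algebra S Sₚ] [IsLocalization.AtPrime Sₚ p] : IsDomain Sₚ := by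
  obtain ⟨h, F, _, π, H⟩ := exists_detectAt_of_smooth k S p
  exact H.isDomain_atPrime Sₚ

/-- A smooth algebra over a field is reduced. -/
theorem isReduced_of_smooth (k : Type u) [Field k] (S : Type u) [CommRing S] [Algebra k S]
    [Algebra.Smooth k S] : IsReduced S := by
  refine ⟨fun x hx => ?_⟩
  by_contra hne
  -- the annihilator of `x` is a proper ideal, contained in a maximal ideal `m`
  have htop : (Ideal.span {x}).annihilator ≠ ⊤ := by
    intro htop
    apply hne
    have h1 : (1 : S) ∈ (Ideal.span {x}).annihilator := htop ▸ Submodule.mem_top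
    rw [Submodule.mem_annihilator_span_singleton] at h1
    simpa using h1
  obtain ⟨m, hm, hle⟩ := Ideal.exists_le_maximal _ htop
  have : IsDomain (Localization.AtPrime m) :=
    isDomain_of_isLocalization_atPrime_of_smooth k S m _
  have hx0 : algebraMap S (Localization.AtPrime m) x = 0 := (hx.map _).eq_zero
  obtain ⟨⟨c, hc⟩, hcx⟩ := (IsLocalization.map_eq_zero_iff m.primeCompl _ _).mp hx0
  exact hc (hle (by
    rw [Submodule.mem_annihilator_span_singleton]
    simpa [smul_eq_mul] using hcx))

end SmoothField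

section Topology

/-- A connected space in which every point has an irreducible open neighbourhood is
irreducible. -/
theorem irreducibleSpace_of_connectedSpace_of_locally_irreducible {Z : Type*} [TopologicalSpace Z]
    [ConnectedSpace Z] (h : ∀ z : Z, ∃ V : Set Z, IsOpen V ∧ z ∈ V ∧ IsIrreducible V) :
    IrreducibleSpace Z := by
  obtain ⟨z₀⟩ := (inferInstance : Nonempty Z)
  obtain ⟨W₀, hW₀o, hz₀, hW₀⟩ := h z₀
  let 𝒲 : Set (Set Z) := {W | IsOpen W ∧ IsIrreducible W ∧ (W ∩ W₀).Nonempty}
  let A : Set Z := ⋃₀ 𝒲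
  have hAo : IsOpen A := isOpen_sUnion fun W hW => hW.1
  have hW₀mem : W₀ ∈ 𝒲 := ⟨hW₀o, hW₀, ⟨z₀, hz₀, hz₀⟩⟩
  have hkey : ∀ O : Set Z, IsOpen O → (O ∩ A).Nonempty → (O ∩ W₀).Nonempty := by
    rintro O hO ⟨a, haO, W, hW, haW⟩
    obtain ⟨b, hbW, hbO, hbW₀⟩ := hW.2.1.2 O W₀ hO hW₀o ⟨a, haW, haO⟩ hW.2.2
    exact ⟨b, hbO, hbW₀⟩
  have hAc : IsClosed A := by
    rw [← isOpen_compl_iff, isOpen_iff_forall_mem_open]
    intro z hz
    obtain ⟨W', hW'o, hzW', hW'⟩ := h z
    refine ⟨W', ?_, hW'o, hzW'⟩
    intro w hw hwA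
    exact hz ⟨W', ⟨hW'o, hW', hkey W' hW'o ⟨w, hw, hwA⟩⟩, hzW'⟩
  have hAuniv : A = Set.univ :=
    IsClopen.eq_univ ⟨hAc, hAo⟩ ⟨z₀, W₀, hW₀mem, hz₀⟩
  refine @IrreducibleSpace.mk Z _ ⟨?_⟩ ⟨z₀⟩
  intro u v hu hv hune hvne
  have h1 : (u ∩ W₀).Nonempty := by
    apply hkey u hu
    rw [hAuniv]
    simpa using hune
  have h2 : (v ∩ W₀).Nonempty := by
    apply hkey v hv
    rw [hAuniv]
    simpa using hvne
  obtain ⟨b, hbW₀, hbu, hbv⟩ := hW₀.2 u v hu hv (by rwa [Set.inter_comm]) (by rwa [Set.inter_comm])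
  exact ⟨b, Set.mem_univ b, hbu, hbv⟩

end Topology

section Scheme

open AlgebraicGeometry CategoryTheory

/-- Local structure of a scheme smooth over a field: every point has an affine open neighbourhood
whose ring of sections is a domain, and its stalk is a domain. -/
theorem exists_affine_domain_nhd {K : Type u} [Field K] {Z : Scheme.{u}}
    (g : Z ⟶ Spec (.of K)) [Smooth g] (z : Z) :
    IsDomain (Z.presheaf.stalk z) ∧
      ∃ V : Z.Opens, z ∈ V ∧ IsAffineOpen V ∧ IsDomain Γ(Z, V) := by
  obtain ⟨U, hU, hzU, -⟩ := exists_isAffineOpen_mem_and_subset (x := z) (U := ⊤) trivial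
  have h1 : (g.appLE ⊤ U le_top).hom.Smooth :=
    Smooth.smooth_appLE (f := g) (isAffineOpen_top (Spec (.of K))) hU le_top
  have h2 : (Scheme.ΓSpecIso (.of K)).inv.hom.Smooth :=
    RingHom.Smooth.of_bijective
      (ConcreteCategory.bijective_of_isIso (Scheme.ΓSpecIso (.of K)).inv)
  let ψ : K →+* Γ(Z, U) := (g.appLE ⊤ U le_top).hom.comp (Scheme.ΓSpecIso (.of K)).inv.hom
  have hψ : ψ.Smooth := h2.comp h1
  let _ : Algebra K Γ(Z, U) := ψ.toAlgebra
  have : Algebra.Smooth K Γ(Z, U) := hψ
  let p : Ideal Γ(Z, U) := (hU.primeIdealOf ⟨z, hzU⟩).asIdeal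
  let _ : Algebra Γ(Z, U) (Z.presheaf.stalk z) := Z.presheaf.algebra_section_stalk ⟨z, hzU⟩
  have : IsLocalization.AtPrime (Z.presheaf.stalk z) p := hU.isLocalization_stalk ⟨z, hzU⟩
  refine ⟨isDomain_of_isLocalization_atPrime_of_smooth K Γ(Z, U) p _, ?_⟩
  obtain ⟨h, hhp, hdom⟩ := exists_isDomain_away_of_smooth K Γ(Z, U) p
  refine ⟨Z.basicOpen h, ?_, hU.basicOpen h, ?_⟩
  · have h3 : hU.fromSpec (hU.primeIdealOf ⟨z, hzU⟩) ∈ Z.basicOpen h := by
      change hU.primeIdealOf ⟨z, hzU⟩ ∈ hU.fromSpec ⁻¹ᵁ Z.basicOpen h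
      rw [hU.fromSpec_preimage_basicOpen]
      exact hhp
    rwa [hU.fromSpec_primeIdealOf] at h3
  · have := hU.isLocalization_basicOpen h
    exact hdom Γ(Z, Z.basicOpen h)

/-- Every stalk of a scheme smooth over a field is a domain. -/
theorem isDomain_stalk_of_smooth {K : Type u} [Field K] {Z : Scheme.{u}}
    (g : Z ⟶ Spec (.of K)) [Smooth g] (z : Z) : IsDomain (Z.presheaf.stalk z) :=
  (exists_affine_domain_nhd g z).1

/-- A scheme smooth over a field is reduced. -/
theorem isReduced_of_smooth_field {K : Type u} [Field K] {Z : Scheme.{u}}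
    (g : Z ⟶ Spec (.of K)) [Smooth g] : IsReduced Z := by
  have : ∀ z : Z, _root_.IsReduced (Z.presheaf.stalk z) := fun z =>
    have := isDomain_stalk_of_smooth g z
    inferInstance
  exact isReduced_of_isReduced_stalk Z

/-- A connected scheme smooth over a field is integral. -/
theorem isIntegral_of_smooth_of_connectedSpace {K : Type u} [Field K] {Z : Scheme.{u}}
    (g : Z ⟶ Spec (.of K)) [Smooth g] [ConnectedSpace Z] : IsIntegral Z := by
  have : IsReduced Z := isReduced_of_smooth_field g
  have : IrreducibleSpace Z := by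
    apply irreducibleSpace_of_connectedSpace_of_locally_irreducible
    intro z
    obtain ⟨V, hzV, hV, hdom⟩ := (exists_affine_domain_nhd g z).2
    refine ⟨V, V.isOpen, hzV, ?_⟩
    have : IsAffine (V : Scheme) := hV
    have : Nonempty (V : Scheme) := ⟨⟨z, hzV⟩⟩
    have : IsDomain Γ(V, ⊤) := V.topIso.commRingCatIsoToRingEquiv.toMulEquiv.isDomain Γ(Z, V)
    have : IsIntegral (V : Scheme) := isIntegral_of_isAffine_of_isDomain _
    have hirr : IrreducibleSpace (V : Scheme) := inferInstance
    exact @IsIrreducible.of_subtype _ _ (V : Set Z) hirr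
  exact isIntegral_of_irreducibleSpace_of_isReduced Z

/-- **Leaf U13.** A morphism to the spectrum of a field that is smooth and geometrically
connected is geometrically integral. -/
theorem geometricallyIntegral_of_smooth_of_geometricallyConnected {k : Type u} [Field k]
    {X : Scheme.{u}} (f : X ⟶ Spec (.of k)) [Smooth f] [GeometricallyConnected f] :
    GeometricallyIntegral f := by
  refine ⟨fun K _ y Z fst snd h => ?_⟩
  have : Smooth snd := MorphismProperty.of_isPullback h ‹Smooth f›
  have : ConnectedSpace Z := GeometricallyConnected.geometrically_connectedSpace y fst snd h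
  exact isIntegral_of_smooth_of_connectedSpace snd

end Scheme

end Fermat.Agent.S25.helper6730
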