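import Fermat.Agent.S25.helper6743_SecPullback
import Fermat.Agent.S25.helper4193_HomGlue

/-!
# Rigidifications from evaluations that are units on local generators (S25 brick (R1))

* `isIso_of_unit_on_gens` : a morphism `h : σ^*N ⟶ 𝒪_T` which sends the pullbacks of local
  generators of `N` (near `σ(T)`) to units is an isomorphism.
* `isUnit_of_isIso` : conversely an isomorphism `σ^*N ≅ 𝒪_T` sends pulled-back generators to units.
-/

set_option autoImplicit false

universe u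

open CategoryTheory TopologicalSpace Opposite AlgebraicGeometry

namespace Fermat.Agent.S25.helper6743

variable {X T : Scheme.{u}}

/-- sections of the unit module, viewed as sections of the structure sheaf -/
def ofUnit (W : X.Opens) (r : Γ(unitM X, W)) : Γ(X, W) := r

@[simp] lemma ofUnit_toUnit (W : X.Opens) (r : Γ(X, W)) : ofUnit W (toUnit W r) = r := rfl

@[simp] lemma toUnit_ofUnit (W : X.Opens) (r : Γ(unitM X, W)) : toUnit W (ofUnit W r) = r := rfl

lemma ofUnit_smul (W : X.Opens) (r : Γ(X, W)) (s : Γ(unitM X, W)) :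
    ofUnit W (r • s) = r * ofUnit W s := rfl

lemma ofUnit_rs {V W : X.Opens} (h : W ≤ V) (s : Γ(unitM X, V)) :
    ofUnit W (rs (unitM X) h s) = (X.presheaf.map (homOfLE h).op).hom (ofUnit V s) := rfl

/-- **(R1)** A morphism `σ^*N ⟶ 𝒪_T` sending pullbacks of local generators to units is an
isomorphism. -/
theorem isIso_of_unit_on_gens (σ : T ⟶ X) (N : X.Modules)
    (h : (Scheme.Modules.pullback σ).obj N ⟶ unitM T)
    (hloc : ∀ p : T, ∃ (W : X.Opens) (g : Γ(N, W)), σ p ∈ W ∧ IsGenOn N W g ∧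
      IsUnit (ofUnit (σ ⁻¹ᵁ W) (h.app (σ ⁻¹ᵁ W) (pbSec σ N W g)))) : IsIso h := by
  choose W g hmem hgen hunit using hloc
  have hU : ⨆ p : T, σ ⁻¹ᵁ (W p) = ⊤ := by
    rw [eq_top_iff]
    intro p _
    exact Opens.mem_iSup.mpr ⟨p, hmem p⟩
  refine helper4193.isIso_of_cover hU h ?_
  rintro S ⟨p, hS⟩
  have hb := ((hgen p).pullback σ) S hS
  set v : Γ(T, σ ⁻¹ᵁ W p) := ofUnit (σ ⁻¹ᵁ W p) (h.app (σ ⁻¹ᵁ W p) (pbSec σ N (W p) (g p))) with hv
  have hw : IsUnit ((T.presheaf.map (homOfLE hS).op).hom v) := (hunit p).map _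
  have hcomp : (h.app S) ∘ (fun r : Γ(T, S) =>
        r • rs ((Scheme.Modules.pullback σ).obj N) hS (pbSec σ N (W p) (g p))) =
      fun r : Γ(T, S) => toUnit S (r * (T.presheaf.map (homOfLE hS).op).hom v) := by
    funext r
    simp only [Function.comp]
    rw [Scheme.Modules.Hom.app_smul, hom_app_rs]
    rfl
  have hbij : Function.Bijective
      (fun r : Γ(T, S) => toUnit S (r * (T.presheaf.map (homOfLE hS).op).hom v)) :=
    hw.unit.mulRight_bijective
  rw [← hcomp] at hbij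
  exact (Function.Bijective.of_comp_iff _ hb).mp hbij

/-- Conversely, an isomorphism `σ^*N ≅ 𝒪_T` sends the pullback of a local generator to a unit. -/
theorem isUnit_of_isIso (σ : T ⟶ X) (N : X.Modules)
    (h : (Scheme.Modules.pullback σ).obj N ⟶ unitM T) [IsIso h] {W : X.Opens} {g : Γ(N, W)}
    (hg : IsGenOn N W g) :
    IsUnit (ofUnit (σ ⁻¹ᵁ W) (h.app (σ ⁻¹ᵁ W) (pbSec σ N W g))) := by
  have h1 : IsGenOn (unitM T) (σ ⁻¹ᵁ W) (h.app (σ ⁻¹ᵁ W) (pbSec σ N W g)) :=
    (hg.pullback σ).map_iso h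
  have h2 := h1 (σ ⁻¹ᵁ W) le_rfl
  obtain ⟨r, hr⟩ := h2.2 (toUnit _ 1)
  simp only [rs_self] at hr
  refine IsUnit.of_mul_eq_one r ?_
  have := congrArg (ofUnit (σ ⁻¹ᵁ W)) hr
  rw [ofUnit_smul] at this
  rw [mul_comm]
  exact this

/-- **(R1), adjoint form.** An evaluation `E : N ⟶ σ_* 𝒪_T` which is a unit on local generators
of `N` near `σ(T)` is adjoint to an isomorphism `σ^*N ≅ 𝒪_T`. (The generator hypothesis is
written unfolded.) -/
theorem isIso_adjoint_of_isUnit (σ : T ⟶ X) {N : X.Modules}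
    (E : N ⟶ (Scheme.Modules.pushforward σ).obj (SheafOfModules.unit T.ringCatSheaf))
    (h : ∀ p : T, ∃ (W : X.Opens) (m₀ : Γ(N, W)), σ.base p ∈ W ∧
      (∀ (V : X.Opens) (hV : V ≤ W), Function.Bijective
        (fun r : Γ(X, V) => r • N.presheaf.map (homOfLE hV).op m₀)) ∧
      IsUnit (show Γ(T, σ ⁻¹ᵁ W) from E.app W m₀)) :
    IsIso (((Scheme.Modules.pullbackPushforwardAdjunction σ).homEquiv N _).symm E) := by
  refine isIso_of_unit_on_gens σ N _ fun p => ?_
  obtain ⟨W, m₀, hp, hgen, hu⟩ := h p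
  refine ⟨W, m₀, hp, hgen, ?_⟩
  have e := homEquiv_app σ
    (((Scheme.Modules.pullbackPushforwardAdjunction σ).homEquiv N _).symm E) W m₀
  rw [Equiv.apply_symm_apply] at e
  rw [← e]
  exact hu

/-- **(R1), `Nonempty` form.** -/
theorem nonempty_iso_unit_of_isUnit (σ : T ⟶ X) {N : X.Modules}
    (E : N ⟶ (Scheme.Modules.pushforward σ).obj (SheafOfModules.unit T.ringCatSheaf))
    (h : ∀ p : T, ∃ (W : X.Opens) (m₀ : Γ(N, W)), σ.base p ∈ W ∧
      (∀ (V : X.Opens) (hV : V ≤ W), Function.Bijective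
        (fun r : Γ(X, V) => r • N.presheaf.map (homOfLE hV).op m₀)) ∧
      IsUnit (show Γ(T, σ ⁻¹ᵁ W) from E.app W m₀)) :
    Nonempty ((Scheme.Modules.pullback σ).obj N ≅ SheafOfModules.unit T.ringCatSheaf) := by
  have := isIso_adjoint_of_isUnit σ E h
  exact ⟨asIso (((Scheme.Modules.pullbackPushforwardAdjunction σ).homEquiv N _).symm E)⟩

end Fermat.Agent.S25.helper6743
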