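import Mathlib

/-!
# Sectionwise pullback of sections for sheaves of modules on schemes (S25 generic brick)

Mathlib-only, statement-agnostic. For a morphism of schemes `f : Y ⟶ X`, an `𝒪_X`-module `M` and an
open `W ⊆ X`:

* `pbSec f M W : Γ(M, W) →+ Γ(f^*M, f⁻¹W)` : the unit of `pullback f ⊣ pushforward f` on `W`;
* `pbSec_smul` (semilinear over `f.app W`), `pbSec_rs` (restriction), `pbSec_naturality` (in `M`);
* `homEquiv_app` : `(homEquiv h).app W s = h.app (f⁻¹W) (pbSec f M W s)` (maps out of `f^*M` are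
  tested on pulled-back sections);
* `pbSec_bijective_of_isOpenImmersion` : bijective for `f` an open immersion and `W ≤ f.opensRange`;
* `pbSec_comp` : compatibility with composition through `pullbackComp`; `pbSec_congr`;
* `pullbackUnitHom_pbSec` : on the unit module, `f^*𝒪_X ⟶ 𝒪_Y` sends `pbSec r` to `f.app W r`;
* `IsGenOn M W g` : `g` freely generates `M` over `W`; `IsGenOn.map`, `isGenOn_unit`, `unitHom`;
* `isGenOn_pbSec_iff_of_isOpenImmersion`;
* `IsGenOn.pullback` : **the pullback of a local generator is a local generator**.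
-/

set_option autoImplicit false

universe u

open CategoryTheory TopologicalSpace Opposite AlgebraicGeometry

namespace Fermat.Agent.S25.helper6743

variable {X Y Z : Scheme.{u}}

/-- Pullback of sections: the unit of `pullback f ⊣ pushforward f` on sections over `W`. -/
noncomputable def pbSec (f : Y ⟶ X) (M : X.Modules) (W : X.Opens) :
    Γ(M, W) →+ Γ((Scheme.Modules.pullback f).obj M, f ⁻¹ᵁ W) :=
  (((Scheme.Modules.pullbackPushforwardAdjunction f).unit.app M).app W).hom

lemma pbSec_apply (f : Y ⟶ X) (M : X.Modules) (W : X.Opens) (s : Γ(M, W)) :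
    pbSec f M W s = ((Scheme.Modules.pullbackPushforwardAdjunction f).unit.app M).app W s := rfl

/-- the module structure on sections of a pushforward -/
lemma pushforward_smul (f : Y ⟶ X) (N : Y.Modules) (W : X.Opens) (r : Γ(X, W))
    (s : Γ((Scheme.Modules.pushforward f).obj N, W)) :
    r • s = ((f.app W).hom r • (show Γ(N, f ⁻¹ᵁ W) from s) : Γ(N, f ⁻¹ᵁ W)) := rfl

lemma pbSec_smul (f : Y ⟶ X) (M : X.Modules) (W : X.Opens) (r : Γ(X, W)) (s : Γ(M, W)) :
    pbSec f M W (r • s) = (f.app W).hom r • pbSec f M W s := by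
  rw [pbSec_apply, Scheme.Modules.Hom.app_smul]
  rfl

/-- Restriction of sections, as an additive map. -/
noncomputable def rs (M : X.Modules) {V W : X.Opens} (h : W ≤ V) : Γ(M, V) →+ Γ(M, W) :=
  (M.presheaf.map (homOfLE h).op).hom

lemma rs_apply (M : X.Modules) {V W : X.Opens} (h : W ≤ V) (s : Γ(M, V)) :
    rs M h s = M.presheaf.map (homOfLE h).op s := rfl

@[simp] lemma rs_rs (M : X.Modules) {V W W' : X.Opens} (h : W ≤ V) (h' : W' ≤ W)
    (s : Γ(M, V)) : rs M h' (rs M h s) = rs M (h'.trans h) s := by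
  simp only [rs_apply]
  rw [← ConcreteCategory.comp_apply, ← M.presheaf.map_comp]
  rfl

@[simp] lemma rs_self (M : X.Modules) {V : X.Opens} (h : V ≤ V) (s : Γ(M, V)) :
    rs M h s = s := by
  simp only [rs_apply]
  have : (homOfLE h).op = 𝟙 (op V) := rfl
  rw [this, M.presheaf.map_id]
  rfl

lemma rs_bijective_of_le (M : X.Modules) {V W : X.Opens} (h : W ≤ V) (h' : V ≤ W) :
    Function.Bijective (rs M h) := by
  refine ⟨fun a b hab => ?_, fun c => ⟨rs M h' c, ?_⟩⟩
  · have := congrArg (rs M h') hab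
    simpa using this
  · simp

lemma rs_smul (M : X.Modules) {V W : X.Opens} (h : W ≤ V) (r : Γ(X, V)) (s : Γ(M, V)) :
    rs M h (r • s) = X.presheaf.map (homOfLE h).op r • rs M h s :=
  Scheme.Modules.map_smul M (homOfLE h) r s

lemma hom_app_rs {M N : X.Modules} (φ : M ⟶ N) {V W : X.Opens} (h : W ≤ V) (s : Γ(M, V)) :
    φ.app W (rs M h s) = rs N h (φ.app V s) := by
  have := congrArg (fun k => k.hom s) (φ.mapPresheaf.naturality (homOfLE h).op)
  exact this

lemma preimage_mono (f : Y ⟶ X) {V W : X.Opens} (h : W ≤ V) : f ⁻¹ᵁ W ≤ f ⁻¹ᵁ V :=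
  fun _ hx => h hx

lemma pbSec_rs (f : Y ⟶ X) (M : X.Modules) {V W : X.Opens} (h : W ≤ V) (s : Γ(M, V)) :
    pbSec f M W (rs M h s) = rs _ (preimage_mono f h) (pbSec f M V s) :=
  hom_app_rs ((Scheme.Modules.pullbackPushforwardAdjunction f).unit.app M) h s

/-- naturality of `pbSec` in the module -/
lemma pbSec_naturality (f : Y ⟶ X) {M N : X.Modules} (φ : M ⟶ N) (W : X.Opens) (s : Γ(M, W)) :
    pbSec f N W (φ.app W s) = ((Scheme.Modules.pullback f).map φ).app (f ⁻¹ᵁ W) (pbSec f M W s) := by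
  have h := (Scheme.Modules.pullbackPushforwardAdjunction f).unit.naturality φ
  have h2 := congrArg (fun k => (Scheme.Modules.Hom.app k W).hom s) h
  exact h2

/-- adjunction property: testing a morphism out of a pullback on pulled-back sections -/
lemma homEquiv_app (f : Y ⟶ X) {M : X.Modules} {N : Y.Modules}
    (h : (Scheme.Modules.pullback f).obj M ⟶ N) (W : X.Opens) (s : Γ(M, W)) :
    (((Scheme.Modules.pullbackPushforwardAdjunction f).homEquiv M N h).app W s : Γ(N, f ⁻¹ᵁ W)) =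
      h.app (f ⁻¹ᵁ W) (pbSec f M W s) := by
  rw [Adjunction.homEquiv_unit]
  rfl

section OpenImmersion

variable (f : Y ⟶ X) [IsOpenImmersion f]

/-- For an open immersion, `pbSec` factors as restriction followed by the comparison iso
`restrictFunctorIsoPullback`. -/
lemma pbSec_eq_of_isOpenImmersion (M : X.Modules) (W : X.Opens) (s : Γ(M, W)) :
    pbSec f M W s =
      ((Scheme.Modules.restrictFunctorIsoPullback f).hom.app M).app (f ⁻¹ᵁ W)
        (M.presheaf.map (homOfLE (f.image_preimage_le W)).op s) := by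
  have h := Adjunction.unit_leftAdjointUniq_hom_app (Scheme.Modules.restrictAdjunction f)
    (Scheme.Modules.pullbackPushforwardAdjunction f) M
  have h2 := congrArg (fun k => (Scheme.Modules.Hom.app k W).hom s) h
  exact h2.symm

lemma image_preimage_eq_of_le {W : X.Opens} (hW : W ≤ f.opensRange) : f ''ᵁ f ⁻¹ᵁ W = W := by
  rw [Scheme.Hom.image_preimage_eq_opensRange_inf]
  exact inf_eq_right.mpr hW

/-- For an open immersion `f` and `W` inside its range, pullback of sections is bijective. -/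
lemma pbSec_bijective_of_isOpenImmersion (M : X.Modules) {W : X.Opens} (hW : W ≤ f.opensRange) :
    Function.Bijective (pbSec f M W) := by
  have h1 : Function.Bijective
      (((Scheme.Modules.restrictFunctorIsoPullback f).hom.app M).app (f ⁻¹ᵁ W)).hom :=
    ConcreteCategory.bijective_of_isIso _
  have hEq : f ''ᵁ f ⁻¹ᵁ W = W := image_preimage_eq_of_le f hW
  have h2 : Function.Bijective (rs M (f.image_preimage_le W)) :=
    rs_bijective_of_le M _ hEq.ge
  have : (pbSec f M W : Γ(M, W) → _) =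
      (((Scheme.Modules.restrictFunctorIsoPullback f).hom.app M).app (f ⁻¹ᵁ W)).hom ∘
        (rs M (f.image_preimage_le W)) := by
    funext s
    exact pbSec_eq_of_isOpenImmersion f M W s
  rw [this]
  exact h1.comp h2

end OpenImmersion

section Comp

variable (f : X ⟶ Y) (g : Y ⟶ Z)

/-- `pbSec` is compatible with composition, via `pullbackComp`. -/
lemma pbSec_comp (M : Z.Modules) (W : Z.Opens) (s : Γ(M, W)) :
    ((Scheme.Modules.pullbackComp f g).inv.app M).app ((f ≫ g) ⁻¹ᵁ W) (pbSec (f ≫ g) M W s) =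
      pbSec f ((Scheme.Modules.pullback g).obj M) (g ⁻¹ᵁ W) (pbSec g M W s) := by
  have h := unit_conjugateEquiv
    ((Scheme.Modules.pullbackPushforwardAdjunction g).comp
      (Scheme.Modules.pullbackPushforwardAdjunction f))
    (Scheme.Modules.pullbackPushforwardAdjunction (f ≫ g))
    (Scheme.Modules.pullbackComp f g).inv M
  rw [Scheme.Modules.conjugateEquiv_pullbackComp_inv] at h
  have h2 := congrArg (fun k => (Scheme.Modules.Hom.app k W).hom s) h
  exact h2.symm

end Comp

section Congr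

/-- `pbSec` along equal morphisms, via `pullbackCongr`. -/
lemma pbSec_congr {f g : Y ⟶ X} (h : f = g) (M : X.Modules) (W : X.Opens) (s : Γ(M, W)) :
    ((Scheme.Modules.pullbackCongr h).hom.app M).app (f ⁻¹ᵁ W) (pbSec f M W s) =
      rs ((Scheme.Modules.pullback g).obj M) (le_of_eq (by rw [h])) (pbSec g M W s) := by
  subst h
  rw [rs_self]
  rfl

end Congr

section Unit

/-- The structure sheaf as a module over itself, as an object of `X.Modules`. -/
noncomputable abbrev unitM (X : Scheme.{u}) : X.Modules := SheafOfModules.unit X.ringCatSheaf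

variable (f : Y ⟶ X)

/-- sections of the structure sheaf, viewed as sections of the unit module -/
def toUnit (W : X.Opens) (r : Γ(X, W)) : Γ(unitM X, W) := r

/-- The canonical morphism `f^* 𝒪_X ⟶ 𝒪_Y`, as a morphism of `𝒪_Y`-modules. -/
noncomputable def pullbackUnitHom :
    (Scheme.Modules.pullback f).obj (unitM X) ⟶ unitM Y :=
  SheafOfModules.pullbackObjUnitToUnit f.toRingCatSheafHom

instance isIso_pullbackUnitHom : IsIso (pullbackUnitHom f) := by
  have : (TopologicalSpace.Opens.map f.base).Final := CategoryTheory.final_of_representablyFlat _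
  exact inferInstanceAs (IsIso (SheafOfModules.pullbackObjUnitToUnit f.toRingCatSheafHom))

/-- `pbSec` on the unit module, followed by `pullbackUnitHom`, is the ring map `f.app`. -/
lemma pullbackUnitHom_pbSec (W : X.Opens) (r : Γ(X, W)) :
    (pullbackUnitHom f).app (f ⁻¹ᵁ W)
      (pbSec f (unitM X) W (toUnit W r)) =
      toUnit (f ⁻¹ᵁ W) ((f.app W).hom r) := by
  have h := homEquiv_app f (pullbackUnitHom f) W (toUnit W r)
  refine h.symm.trans ?_
  have h2 : (Scheme.Modules.pullbackPushforwardAdjunction f).homEquiv _ _ (pullbackUnitHom f) =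
      SheafOfModules.unitToPushforwardObjUnit f.toRingCatSheafHom :=
    SheafOfModules.pullbackPushforwardAdjunction_homEquiv_pullbackObjUnitToUnit _
  rw [h2]
  rfl

end Unit

section Generators

/-- `g` freely generates `M` over `W`: for every open `W' ≤ W`, `r ↦ r • g|_{W'}` is a bijection
`Γ(X, W') → Γ(M, W')`. -/
def IsGenOn (M : X.Modules) (W : X.Opens) (g : Γ(M, W)) : Prop :=
  ∀ (W' : X.Opens) (h : W' ≤ W), Function.Bijective (fun r : Γ(X, W') => r • rs M h g)

lemma IsGenOn.mono {M : X.Modules} {W W₁ : X.Opens} {g : Γ(M, W)} (hg : IsGenOn M W g)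
    (h : W₁ ≤ W) : IsGenOn M W₁ (rs M h g) := by
  intro W' h'
  have := hg W' (h'.trans h)
  simpa using this

lemma exists_isGenOn_of_eq {M : X.Modules} {V V' : X.Opens} (h : V = V') :
    (∃ g, IsGenOn M V g) → ∃ g, IsGenOn M V' g := by
  subst h; exact id

/-- Transfer of a generator along a morphism that is bijective on sections over opens in `W`. -/
lemma IsGenOn.map {M N : X.Modules} (φ : M ⟶ N) {W : X.Opens} {g : Γ(M, W)}
    (hφ : ∀ W' : X.Opens, W' ≤ W → Function.Bijective (φ.app W')) (hg : IsGenOn M W g) :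
    IsGenOn N W (φ.app W g) := by
  intro W' h
  have h1 := hg W' h
  have : (fun r : Γ(X, W') => r • rs N h (φ.app W g)) =
      (φ.app W') ∘ (fun r : Γ(X, W') => r • rs M h g) := by
    funext r
    simp only [Function.comp]
    rw [Scheme.Modules.Hom.app_smul, hom_app_rs]
  rw [this]
  exact (hφ W' h).comp h1

lemma IsGenOn.map_iso {M N : X.Modules} (φ : M ⟶ N) [IsIso φ] {W : X.Opens} {g : Γ(M, W)}
    (hg : IsGenOn M W g) : IsGenOn N W (φ.app W g) :=
  hg.map φ (fun _ _ => ConcreteCategory.bijective_of_isIso _)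

lemma isGenOn_unit (W : X.Opens) : IsGenOn (unitM X) W (toUnit W 1) := by
  intro W' h
  have : (fun r : Γ(X, W') => r • rs (unitM X) h (toUnit W 1)) =
      fun r => toUnit W' r := by
    funext r
    have h1 : rs (unitM X) h (toUnit W 1) = toUnit W' 1 :=
      map_one (X.presheaf.map (homOfLE h).op).hom
    rw [h1]
    exact mul_one r
  rw [this]
  exact Function.bijective_id

end Generators

section UnitHom

/-- The compatible family of restrictions of a global section. -/
noncomputable def sectionsOfTop (M : X.Modules) (g : Γ(M, ⊤)) : SheafOfModules.sections M :=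
  PresheafOfModules.sectionsMk (M := M.val) (fun U => rs M (le_top : U.unop ≤ ⊤) g) (by
    intro U V f
    exact rs_rs M (le_top : U.unop ≤ ⊤) (leOfHom f.unop) g)

/-- The morphism `𝒪_X ⟶ M` attached to a global section of `M`. -/
noncomputable def unitHom (M : X.Modules) (g : Γ(M, ⊤)) :
    unitM X ⟶ M :=
  (SheafOfModules.unitHomEquiv M).symm (sectionsOfTop M g)

lemma unitHom_app_one (M : X.Modules) (g : Γ(M, ⊤)) (U : X.Opens) :
    (unitHom M g).app U (toUnit U 1) = rs M le_top g := by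
  have h := SheafOfModules.unitHomEquiv_apply_coe M (unitHom M g) (op U)
  rw [unitHom, Equiv.apply_symm_apply] at h
  exact h.symm

lemma unitHom_app (M : X.Modules) (g : Γ(M, ⊤)) (U : X.Opens) (r : Γ(X, U)) :
    (unitHom M g).app U (toUnit U r) = r • rs M le_top g := by
  have h1 : toUnit U r = r • toUnit U 1 := (mul_one r).symm
  rw [h1, Scheme.Modules.Hom.app_smul, unitHom_app_one]

lemma isIso_unitHom_of_isGenOn {M : X.Modules} {g : Γ(M, ⊤)} (hg : IsGenOn M ⊤ g) :
    IsIso (unitHom M g) := by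
  rw [Scheme.Modules.Hom.isIso_iff_isIso_app]
  intro U
  rw [ConcreteCategory.isIso_iff_bijective]
  have key : Function.Bijective (fun r : Γ(X, U) => (unitHom M g).app U (toUnit U r)) := by
    simp only [unitHom_app]
    exact hg U le_top
  exact key

lemma isGenOn_top_of_iso {M : X.Modules} (τ : unitM X ⟶ M) [IsIso τ] :
    IsGenOn M ⊤ (τ.app ⊤ (toUnit ⊤ 1)) :=
  (isGenOn_unit ⊤).map_iso τ

end UnitHom

section GeneratorsPullback

lemma inv_app_app {M N : X.Modules} (φ : M ⟶ N) [IsIso φ] (U : X.Opens) (s : Γ(M, U)) :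
    (inv φ).app U (φ.app U s) = s := by
  have h : φ ≫ inv φ = 𝟙 M := IsIso.hom_inv_id φ
  exact congrArg (fun k => (Scheme.Modules.Hom.app k U).hom s) h

lemma app_inv_app {M N : X.Modules} (φ : M ⟶ N) [IsIso φ] (U : X.Opens) (s : Γ(N, U)) :
    φ.app U ((inv φ).app U s) = s := by
  have h : inv φ ≫ φ = 𝟙 N := IsIso.inv_hom_id φ
  exact congrArg (fun k => (Scheme.Modules.Hom.app k U).hom s) h

lemma iso_hom_inv_app {M N : X.Modules} (e : M ≅ N) (U : X.Opens) (s : Γ(N, U)) :
    e.hom.app U (e.inv.app U s) = s := by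
  have h : e.inv ≫ e.hom = 𝟙 N := e.inv_hom_id
  exact congrArg (fun k => (Scheme.Modules.Hom.app k U).hom s) h

lemma iso_inv_hom_app {M N : X.Modules} (e : M ≅ N) (U : X.Opens) (s : Γ(M, U)) :
    e.inv.app U (e.hom.app U s) = s := by
  have h : e.hom ≫ e.inv = 𝟙 M := e.hom_inv_id
  exact congrArg (fun k => (Scheme.Modules.Hom.app k U).hom s) h

/-- The pullback of a global generator is a global generator. -/
lemma IsGenOn.pullback_top (f : Y ⟶ X) {M : X.Modules} {g : Γ(M, ⊤)} (hg : IsGenOn M ⊤ g) :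
    IsGenOn ((Scheme.Modules.pullback f).obj M) (f ⁻¹ᵁ ⊤) (pbSec f M ⊤ g) := by
  have := isIso_unitHom_of_isGenOn hg
  let ψ : unitM Y ⟶ (Scheme.Modules.pullback f).obj M :=
    inv (pullbackUnitHom f) ≫ (Scheme.Modules.pullback f).map (unitHom M g)
  have h1 : IsGenOn ((Scheme.Modules.pullback f).obj M) ⊤ (ψ.app ⊤ (toUnit ⊤ 1)) :=
    isGenOn_top_of_iso ψ
  have h2 : (pullbackUnitHom f).app (f ⁻¹ᵁ ⊤) (pbSec f (unitM X) ⊤ (toUnit ⊤ 1)) =
      toUnit (f ⁻¹ᵁ ⊤) 1 := by
    rw [pullbackUnitHom_pbSec]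
    exact congrArg (toUnit (f ⁻¹ᵁ ⊤)) (map_one (f.app ⊤).hom)
  have h3 : (inv (pullbackUnitHom f)).app (f ⁻¹ᵁ ⊤) (toUnit (f ⁻¹ᵁ ⊤) 1) =
      pbSec f (unitM X) ⊤ (toUnit ⊤ 1) := by
    rw [← h2, inv_app_app]
  have h4 : ψ.app (f ⁻¹ᵁ ⊤) (toUnit (f ⁻¹ᵁ ⊤) 1) = pbSec f M ⊤ g := by
    have : ψ.app (f ⁻¹ᵁ ⊤) (toUnit (f ⁻¹ᵁ ⊤) 1) =
        ((Scheme.Modules.pullback f).map (unitHom M g)).app (f ⁻¹ᵁ ⊤)
          ((inv (pullbackUnitHom f)).app (f ⁻¹ᵁ ⊤) (toUnit (f ⁻¹ᵁ ⊤) 1)) := rfl
    rw [this, h3, ← pbSec_naturality, unitHom_app_one, rs_self]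
  rw [← h4]
  exact h1

lemma IsGenOn.pullback_of_eq_top (f : Y ⟶ X) {M : X.Modules} (W : X.Opens) (hW : W = ⊤)
    (g : Γ(M, W)) (hg : IsGenOn M W g) :
    IsGenOn ((Scheme.Modules.pullback f).obj M) (f ⁻¹ᵁ W) (pbSec f M W g) := by
  subst hW
  exact hg.pullback_top f

/-- For an open immersion `j` and `W` inside its range: `g` generates `M` over `W` iff its
pullback generates `j^*M` over `j⁻¹W`. -/
lemma isGenOn_pbSec_iff_of_isOpenImmersion (j : Y ⟶ X) [IsOpenImmersion j] (M : X.Modules)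
    {W : X.Opens} (hW : W ≤ j.opensRange) (g : Γ(M, W)) :
    IsGenOn ((Scheme.Modules.pullback j).obj M) (j ⁻¹ᵁ W) (pbSec j M W g) ↔ IsGenOn M W g := by
  have key : ∀ (V : X.Opens) (hV : V ≤ W),
      Function.Bijective (fun r' : Γ(Y, j ⁻¹ᵁ V) =>
        r' • rs ((Scheme.Modules.pullback j).obj M) (preimage_mono j hV) (pbSec j M W g)) ↔
      Function.Bijective (fun r : Γ(X, V) => r • rs M hV g) := by
    intro V hV
    have hA : Function.Bijective (j.app V).hom := by
      have := j.isIso_app V (hV.trans hW)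
      exact ConcreteCategory.bijective_of_isIso _
    have hP : Function.Bijective (pbSec j M V) :=
      pbSec_bijective_of_isOpenImmersion j M (hV.trans hW)
    have hcomm : (pbSec j M V) ∘ (fun r : Γ(X, V) => r • rs M hV g) =
        (fun r' : Γ(Y, j ⁻¹ᵁ V) =>
          r' • rs ((Scheme.Modules.pullback j).obj M) (preimage_mono j hV) (pbSec j M W g)) ∘
        (j.app V).hom := by
      funext r
      simp only [Function.comp]
      rw [pbSec_smul, pbSec_rs]
    constructor
    · intro h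
      have h' := h.comp hA
      rw [← hcomm] at h'
      exact (Function.Bijective.of_comp_iff' hP _).mp h'
    · intro h
      have h' := hP.comp h
      rw [hcomm] at h'
      exact (Function.Bijective.of_comp_iff _ hA).mp h'
  constructor
  · intro hg V hV
    exact (key V hV).mp (hg (j ⁻¹ᵁ V) (preimage_mono j hV))
  · intro hg V' hV'
    obtain ⟨V, hVW, rfl⟩ : ∃ V : X.Opens, V ≤ W ∧ V' = j ⁻¹ᵁ V :=
      ⟨j ''ᵁ V', (j.image_mono hV').trans (j.image_preimage_le W),
        (j.preimage_image_eq V').symm⟩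
    exact (key V hVW).mpr (hg V hVW)

lemma isGenOn_pbSec_congr {f₁ f₂ : Y ⟶ X} (h : f₁ = f₂) {M : X.Modules} {W : X.Opens}
    {g : Γ(M, W)} (hg : IsGenOn ((Scheme.Modules.pullback f₁).obj M) (f₁ ⁻¹ᵁ W) (pbSec f₁ M W g)) :
    IsGenOn ((Scheme.Modules.pullback f₂).obj M) (f₂ ⁻¹ᵁ W) (pbSec f₂ M W g) := by
  subst h
  exact hg

/-- **Pullback of a local generator is a local generator.** -/
theorem IsGenOn.pullback (f : Y ⟶ X) {M : X.Modules} {W : X.Opens} {g : Γ(M, W)}
    (hg : IsGenOn M W g) :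
    IsGenOn ((Scheme.Modules.pullback f).obj M) (f ⁻¹ᵁ W) (pbSec f M W g) := by
  -- restrict to `W` and `f⁻¹W`
  have hjW : W ≤ W.ι.opensRange := by rw [Scheme.Opens.opensRange_ι]
  have hj'W : f ⁻¹ᵁ W ≤ (f ⁻¹ᵁ W).ι.opensRange := by rw [Scheme.Opens.opensRange_ι]
  -- step 1: generator of `j^*M` on `j⁻¹W = ⊤`
  have h1 : IsGenOn ((Scheme.Modules.pullback W.ι).obj M) (W.ι ⁻¹ᵁ W) (pbSec W.ι M W g) :=
    (isGenOn_pbSec_iff_of_isOpenImmersion W.ι M hjW g).mpr hg
  -- step 2: pull back along `f ∣_ W`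
  have h2 := IsGenOn.pullback_of_eq_top (f ∣_ W) (W.ι ⁻¹ᵁ W) W.ι_preimage_self _ h1
  -- step 3: composition
  have h3 : IsGenOn ((Scheme.Modules.pullback ((f ∣_ W) ≫ W.ι)).obj M) (((f ∣_ W) ≫ W.ι) ⁻¹ᵁ W)
      (pbSec ((f ∣_ W) ≫ W.ι) M W g) := by
    have e := pbSec_comp (f ∣_ W) W.ι M W g
    rw [← e] at h2
    have h2' := h2.map_iso ((Scheme.Modules.pullbackComp (f ∣_ W) W.ι).hom.app M)
    have e2 : ((Scheme.Modules.pullbackComp (f ∣_ W) W.ι).hom.app M).app _
        (((Scheme.Modules.pullbackComp (f ∣_ W) W.ι).inv.app M).app (((f ∣_ W) ≫ W.ι) ⁻¹ᵁ W)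
          (pbSec ((f ∣_ W) ≫ W.ι) M W g)) = pbSec ((f ∣_ W) ≫ W.ι) M W g :=
      iso_hom_inv_app ((Scheme.Modules.pullbackComp (f ∣_ W) W.ι).app M) _ _
    rw [← e2]
    exact h2'
  -- step 4: `(f ∣_ W) ≫ W.ι = (f ⁻¹ᵁ W).ι ≫ f`
  have h4 := isGenOn_pbSec_congr (morphismRestrict_ι f W) h3
  -- step 5: composition again
  have h5 : IsGenOn ((Scheme.Modules.pullback (f ⁻¹ᵁ W).ι).obj ((Scheme.Modules.pullback f).obj M))
      ((f ⁻¹ᵁ W).ι ⁻¹ᵁ (f ⁻¹ᵁ W))
      (pbSec (f ⁻¹ᵁ W).ι ((Scheme.Modules.pullback f).obj M) (f ⁻¹ᵁ W)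
        (pbSec f M W g)) := by
    have e := pbSec_comp (f ⁻¹ᵁ W).ι f M W g
    rw [← e]
    exact h4.map_iso ((Scheme.Modules.pullbackComp (f ⁻¹ᵁ W).ι f).inv.app M)
  -- step 6: descend along the open immersion
  exact (isGenOn_pbSec_iff_of_isOpenImmersion (f ⁻¹ᵁ W).ι _ hj'W _).mp h5

end GeneratorsPullback

end Fermat.Agent.S25.helper6743
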