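/-
helper6774 — S25 brick LR: Zariski-local representability over a base, any value universe,
elementary hypotheses.  Mathlib only.
-/
import Mathlib

set_option autoImplicit false

universe w u

open CategoryTheory CategoryTheory.Limits Opposite AlgebraicGeometry TopologicalSpace

namespace Fermat.Agent.S25.helper6774

noncomputable section

variable {S : Scheme.{u}}

/-- The open subscheme `V` of `T`, as an object over `S`. -/
abbrev overOpen (T : Over S) (V : T.left.Opens) : Over S := Over.mk (V.ι ≫ T.hom)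

/-- The inclusion of an open subscheme, as a morphism over `S`. -/
abbrev overOpenι (T : Over S) (V : T.left.Opens) : overOpen T V ⟶ T := Over.homMk V.ι rfl

variable (F : (Over S)ᵒᵖ ⥤ Type w)

/-- Pullback of an element of `F` along a morphism of schemes compatible with the
structure maps. -/
def pull {T Y : Over S} (a : T.left ⟶ Y.left) (ha : a ≫ Y.hom = T.hom) (η : F.obj (op Y)) :
    F.obj (op T) :=
  F.map (Over.homMk a ha).op η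

lemma pull_hom {T Y : Over S} (g : T ⟶ Y) (η : F.obj (op Y)) :
    pull F g.left (Over.w g) η = F.map g.op η := rfl

lemma pull_congr {T Y : Over S} {a a' : T.left ⟶ Y.left} (h : a = a') (ha : a ≫ Y.hom = T.hom)
    (ha' : a' ≫ Y.hom = T.hom) (η : F.obj (op Y)) : pull F a ha η = pull F a' ha' η := by
  subst h; rfl

lemma pull_id {T : Over S} (η : F.obj (op T)) (h : 𝟙 T.left ≫ T.hom = T.hom) :
    pull F (𝟙 T.left) h η = η := by
  have : (Over.homMk (𝟙 T.left) h : T ⟶ T) = 𝟙 T := by ext; simp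
  simp [pull, this]

lemma pull_comp {T Y Z : Over S} (a : T.left ⟶ Y.left) (ha : a ≫ Y.hom = T.hom)
    (b : Y.left ⟶ Z.left) (hb : b ≫ Z.hom = Y.hom) (η : F.obj (op Z))
    (hab : (a ≫ b) ≫ Z.hom = T.hom) :
    pull F (a ≫ b) hab η = pull F a ha (pull F b hb η) := by
  have : (Over.homMk (a ≫ b) hab : T ⟶ Z) = Over.homMk a ha ≫ Over.homMk b hb := by ext; simp
  simp [pull, this]

/-- A family of charts of `F`: objects `X i` over `S` with elements `ξ i ∈ F (X i)` such that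
`X i` classifies, injectively, the elements of `F` lying over an open "locus of type `i`". -/
structure ChartFamily (F : (Over S)ᵒᵖ ⥤ Type w) where
  /-- index type of the charts -/
  ι : Type u
  /-- the charts -/
  X : ι → Over S
  /-- the universal element of each chart -/
  ξ : ∀ i, F.obj (op (X i))
  /-- the locus of type `i` of an element -/
  locus : ∀ (_ : ι) (T : Over S) (_ : F.obj (op T)), T.left.Opens
  inj : ∀ i (T : Over S) (a b : T ⟶ X i), F.map a.op (ξ i) = F.map b.op (ξ i) → a = b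
  locus_spec : ∀ i (T : Over S) (η : F.obj (op T)) (T' : Over S) (g : T' ⟶ T),
    Set.range g.left ⊆ (locus i T η : Set T.left) ↔
      ∃ a : T' ⟶ X i, F.map a.op (ξ i) = F.map g.op η
  cover : ∀ (T : Over S) (η : F.obj (op T)) (x : T.left), ∃ i, x ∈ locus i T η

namespace ChartFamily

variable {F}
variable (𝒞 : ChartFamily F)

/-- injectivity of the classifying maps, in terms of `pull`. -/
lemma inj' (i : 𝒞.ι) {T : Over S} (a b : T.left ⟶ (𝒞.X i).left)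
    (ha : a ≫ (𝒞.X i).hom = T.hom) (hb : b ≫ (𝒞.X i).hom = T.hom)
    (h : pull F a ha (𝒞.ξ i) = pull F b hb (𝒞.ξ i)) : a = b :=
  congrArg CommaMorphism.left (𝒞.inj i T (Over.homMk a ha) (Over.homMk b hb) h)

/-- the locus criterion, in terms of `pull`. -/
lemma range_subset_locus_iff (i : 𝒞.ι) {T : Over S} (η : F.obj (op T)) {T' : Over S}
    (g : T'.left ⟶ T.left) (hg : g ≫ T.hom = T'.hom) :
    Set.range g ⊆ (𝒞.locus i T η : Set T.left) ↔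
      ∃ (a : T'.left ⟶ (𝒞.X i).left) (ha : a ≫ (𝒞.X i).hom = T'.hom),
        pull F a ha (𝒞.ξ i) = pull F g hg η := by
  rw [show Set.range g = Set.range (Over.homMk g hg : T' ⟶ T).left from rfl, 𝒞.locus_spec i T η T']
  constructor
  · rintro ⟨a, ha⟩
    exact ⟨a.left, Over.w a, ha⟩
  · rintro ⟨a, ha, h⟩
    exact ⟨Over.homMk a ha, h⟩

lemma exists_cl (i : 𝒞.ι) (T : Over S) (η : F.obj (op T)) :
    ∃ (a : (𝒞.locus i T η).toScheme ⟶ (𝒞.X i).left)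
      (ha : a ≫ (𝒞.X i).hom = (𝒞.locus i T η).ι ≫ T.hom),
      pull F (T := overOpen T (𝒞.locus i T η)) a ha (𝒞.ξ i) =
        pull F (T := overOpen T (𝒞.locus i T η)) (𝒞.locus i T η).ι rfl η :=
  (𝒞.range_subset_locus_iff i η (T' := overOpen T (𝒞.locus i T η)) (𝒞.locus i T η).ι rfl).mp
    (by simp)

/-- The classifying map of `η` on its locus of type `i`. -/
def cl (i : 𝒞.ι) (T : Over S) (η : F.obj (op T)) :
    (𝒞.locus i T η).toScheme ⟶ (𝒞.X i).left :=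
  (𝒞.exists_cl i T η).choose

lemma cl_w (i : 𝒞.ι) (T : Over S) (η : F.obj (op T)) :
    𝒞.cl i T η ≫ (𝒞.X i).hom = (𝒞.locus i T η).ι ≫ T.hom :=
  (𝒞.exists_cl i T η).choose_spec.choose

lemma pull_cl (i : 𝒞.ι) (T : Over S) (η : F.obj (op T)) :
    pull F (T := overOpen T (𝒞.locus i T η)) (𝒞.cl i T η) (𝒞.cl_w i T η) (𝒞.ξ i) =
      pull F (T := overOpen T (𝒞.locus i T η)) (𝒞.locus i T η).ι rfl η :=
  (𝒞.exists_cl i T η).choose_spec.choose_spec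

/-- The overlap: the open of `X i` on which `ξ i` is of type `j`. -/
def V (i j : 𝒞.ι) : (𝒞.X i).left.Opens := 𝒞.locus j (𝒞.X i) (𝒞.ξ i)

lemma V_self (i : 𝒞.ι) : 𝒞.V i i = ⊤ := by
  have h := (𝒞.range_subset_locus_iff i (𝒞.ξ i) (T' := 𝒞.X i) (𝟙 _) (Category.id_comp _)).mpr
    ⟨𝟙 _, Category.id_comp _, rfl⟩
  ext x
  simp only [Opens.coe_top, Set.mem_univ, iff_true]
  exact h ⟨x, rfl⟩

/-- The transition map `V i j ⟶ X j`. -/
def tAux (i j : 𝒞.ι) : (𝒞.V i j).toScheme ⟶ (𝒞.X j).left := 𝒞.cl j (𝒞.X i) (𝒞.ξ i)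

lemma tAux_w (i j : 𝒞.ι) : 𝒞.tAux i j ≫ (𝒞.X j).hom = (𝒞.V i j).ι ≫ (𝒞.X i).hom :=
  𝒞.cl_w _ _ _

lemma pull_tAux (i j : 𝒞.ι) :
    pull F (T := overOpen (𝒞.X i) (𝒞.V i j)) (𝒞.tAux i j) (𝒞.tAux_w i j) (𝒞.ξ j) =
      pull F (T := overOpen (𝒞.X i) (𝒞.V i j)) (𝒞.V i j).ι rfl (𝒞.ξ i) :=
  𝒞.pull_cl _ _ _

lemma pull_tAux_comp (i j : 𝒞.ι) {Z : Over S} (φ : Z.left ⟶ (𝒞.V i j).toScheme)
    (hφ : φ ≫ (𝒞.V i j).ι ≫ (𝒞.X i).hom = Z.hom)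
    (h1 : (φ ≫ 𝒞.tAux i j) ≫ (𝒞.X j).hom = Z.hom)
    (h2 : (φ ≫ (𝒞.V i j).ι) ≫ (𝒞.X i).hom = Z.hom) :
    pull F (φ ≫ 𝒞.tAux i j) h1 (𝒞.ξ j) = pull F (φ ≫ (𝒞.V i j).ι) h2 (𝒞.ξ i) := by
  rw [pull_comp F (Y := overOpen (𝒞.X i) (𝒞.V i j)) φ hφ (𝒞.tAux i j) (𝒞.tAux_w i j),
    pull_tAux, ← pull_comp]

lemma range_tAux (i j : 𝒞.ι) : Set.range (𝒞.tAux i j) ⊆ Set.range (𝒞.V j i).ι := by
  rw [Scheme.Opens.range_ι]
  exact (𝒞.range_subset_locus_iff i (𝒞.ξ j) (T' := overOpen (𝒞.X i) (𝒞.V i j)) (𝒞.tAux i j)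
    (𝒞.tAux_w i j)).mpr ⟨(𝒞.V i j).ι, rfl, (𝒞.pull_tAux i j).symm⟩

/-- The transition map `V i j ⟶ V j i`. -/
def t (i j : 𝒞.ι) : (𝒞.V i j).toScheme ⟶ (𝒞.V j i).toScheme :=
  IsOpenImmersion.lift (𝒞.V j i).ι (𝒞.tAux i j) (𝒞.range_tAux i j)

@[reassoc]
lemma t_fac (i j : 𝒞.ι) : 𝒞.t i j ≫ (𝒞.V j i).ι = 𝒞.tAux i j :=
  IsOpenImmersion.lift_fac _ _ _

lemma tAux_self (i : 𝒞.ι) : 𝒞.tAux i i = (𝒞.V i i).ι :=
  𝒞.inj' i (T := overOpen (𝒞.X i) (𝒞.V i i)) _ _ (𝒞.tAux_w i i) rfl (𝒞.pull_tAux i i)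

lemma t_id (i : 𝒞.ι) : 𝒞.t i i = 𝟙 _ := by
  rw [← cancel_mono (𝒞.V i i).ι, t_fac, tAux_self, Category.id_comp]

/-- Key lemma: two maps into charts classifying the same element factor through the overlap
and are intertwined by the transition map. -/
lemma exists_lift_of_pull_eq (i j : 𝒞.ι) {Z : Over S} (a : Z.left ⟶ (𝒞.X i).left)
    (ha : a ≫ (𝒞.X i).hom = Z.hom) (b : Z.left ⟶ (𝒞.X j).left) (hb : b ≫ (𝒞.X j).hom = Z.hom)
    (h : pull F a ha (𝒞.ξ i) = pull F b hb (𝒞.ξ j)) :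
    ∃ φ : Z.left ⟶ (𝒞.V i j).toScheme, φ ≫ (𝒞.V i j).ι = a ∧ φ ≫ 𝒞.tAux i j = b := by
  have hr : Set.range a ⊆ Set.range (𝒞.V i j).ι := by
    rw [Scheme.Opens.range_ι]
    exact (𝒞.range_subset_locus_iff j (𝒞.ξ i) a ha).mpr ⟨b, hb, h.symm⟩
  refine ⟨IsOpenImmersion.lift (𝒞.V i j).ι a hr, IsOpenImmersion.lift_fac _ _ _, ?_⟩
  have hfac : IsOpenImmersion.lift (𝒞.V i j).ι a hr ≫ (𝒞.V i j).ι = a :=
    IsOpenImmersion.lift_fac _ _ _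
  have h0 : IsOpenImmersion.lift (𝒞.V i j).ι a hr ≫ (𝒞.V i j).ι ≫ (𝒞.X i).hom = Z.hom := by
    rw [reassoc_of% hfac, ha]
  have h1 : (IsOpenImmersion.lift (𝒞.V i j).ι a hr ≫ 𝒞.tAux i j) ≫ (𝒞.X j).hom = Z.hom := by
    rw [Category.assoc, tAux_w, h0]
  have h2 : (IsOpenImmersion.lift (𝒞.V i j).ι a hr ≫ (𝒞.V i j).ι) ≫ (𝒞.X i).hom = Z.hom := by
    rw [Category.assoc, h0]
  refine 𝒞.inj' j _ _ h1 hb ?_
  rw [𝒞.pull_tAux_comp i j _ h0 h1 h2, pull_congr F hfac h2 ha, h]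

/-- The triple overlap `V i j ×[X i] V i k`, as an object over `S`. -/
abbrev overP (i j k : 𝒞.ι) : Over S :=
  Over.mk (pullback.fst (𝒞.V i j).ι (𝒞.V i k).ι ≫ (𝒞.V i j).ι ≫ (𝒞.X i).hom)

/-- The restriction of `ξ i` to the triple overlap. -/
def θ (i j k : 𝒞.ι) : F.obj (op (𝒞.overP i j k)) :=
  pull F (T := 𝒞.overP i j k) (pullback.fst (𝒞.V i j).ι (𝒞.V i k).ι ≫ (𝒞.V i j).ι)
    (Category.assoc _ _ _) (𝒞.ξ i)

lemma range_fst_tAux (i j k : 𝒞.ι) :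
    Set.range (pullback.fst (𝒞.V i j).ι (𝒞.V i k).ι ≫ 𝒞.tAux i j) ⊆
      Set.range (𝒞.V j k).ι := by
  rw [Scheme.Opens.range_ι]
  have hw : (pullback.fst (𝒞.V i j).ι (𝒞.V i k).ι ≫ 𝒞.tAux i j) ≫ (𝒞.X j).hom =
      (𝒞.overP i j k).hom := by
    simp [tAux_w]
  have hc : pullback.snd (𝒞.V i j).ι (𝒞.V i k).ι ≫ (𝒞.V i k).ι ≫ (𝒞.X i).hom =
      (𝒞.overP i j k).hom := by
    simp [pullback.condition_assoc]
  have hw' : (pullback.snd (𝒞.V i j).ι (𝒞.V i k).ι ≫ 𝒞.tAux i k) ≫ (𝒞.X k).hom =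
      (𝒞.overP i j k).hom := by
    rw [Category.assoc, tAux_w, hc]
  refine (𝒞.range_subset_locus_iff k (𝒞.ξ j) (T' := 𝒞.overP i j k) _ hw).mpr
    ⟨pullback.snd _ _ ≫ 𝒞.tAux i k, hw', ?_⟩
  have hc2 : (pullback.snd (𝒞.V i j).ι (𝒞.V i k).ι ≫ (𝒞.V i k).ι) ≫ (𝒞.X i).hom =
      (𝒞.overP i j k).hom := by
    rw [Category.assoc, hc]
  have hd : pullback.fst (𝒞.V i j).ι (𝒞.V i k).ι ≫ (𝒞.V i j).ι ≫ (𝒞.X i).hom =
      (𝒞.overP i j k).hom := rfl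
  have hd2 : (pullback.fst (𝒞.V i j).ι (𝒞.V i k).ι ≫ (𝒞.V i j).ι) ≫ (𝒞.X i).hom =
      (𝒞.overP i j k).hom := Category.assoc _ _ _
  rw [𝒞.pull_tAux_comp i k (Z := 𝒞.overP i j k) (pullback.snd _ _) hc hw' hc2,
    𝒞.pull_tAux_comp i j (Z := 𝒞.overP i j k) (pullback.fst _ _) hd hw hd2]
  exact pull_congr F pullback.condition.symm hc2 hd2 _

/-- The transition map on triple overlaps. -/
def t' (i j k : 𝒞.ι) :
    pullback (𝒞.V i j).ι (𝒞.V i k).ι ⟶ pullback (𝒞.V j k).ι (𝒞.V j i).ι :=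
  pullback.lift
    (IsOpenImmersion.lift (𝒞.V j k).ι (pullback.fst _ _ ≫ 𝒞.tAux i j) (𝒞.range_fst_tAux i j k))
    (pullback.fst _ _ ≫ 𝒞.t i j)
    (by rw [IsOpenImmersion.lift_fac, Category.assoc, t_fac])

@[reassoc]
lemma t'_fst_ι (i j k : 𝒞.ι) :
    𝒞.t' i j k ≫ pullback.fst _ _ ≫ (𝒞.V j k).ι = pullback.fst _ _ ≫ 𝒞.tAux i j := by
  rw [t', pullback.lift_fst_assoc, IsOpenImmersion.lift_fac]

lemma t'_w (i j k : 𝒞.ι) : 𝒞.t' i j k ≫ (𝒞.overP j k i).hom = (𝒞.overP i j k).hom := by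
  simp only [Over.mk_hom]
  rw [t'_fst_ι_assoc, tAux_w]

lemma pull_t'_θ (i j k : 𝒞.ι) :
    pull F (𝒞.t' i j k) (𝒞.t'_w i j k) (𝒞.θ j k i) = 𝒞.θ i j k := by
  have hw : (𝒞.t' i j k ≫ pullback.fst _ _ ≫ (𝒞.V j k).ι) ≫ (𝒞.X j).hom =
      (𝒞.overP i j k).hom := by
    rw [t'_fst_ι, Category.assoc, tAux_w]; rfl
  have hw2 : (pullback.fst (𝒞.V i j).ι (𝒞.V i k).ι ≫ 𝒞.tAux i j) ≫ (𝒞.X j).hom =
      (𝒞.overP i j k).hom := by
    rw [Category.assoc, tAux_w]; rfl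
  have hd : pullback.fst (𝒞.V i j).ι (𝒞.V i k).ι ≫ (𝒞.V i j).ι ≫ (𝒞.X i).hom =
      (𝒞.overP i j k).hom := rfl
  have hd2 : (pullback.fst (𝒞.V i j).ι (𝒞.V i k).ι ≫ (𝒞.V i j).ι) ≫ (𝒞.X i).hom =
      (𝒞.overP i j k).hom := Category.assoc _ _ _
  have he2 : (pullback.fst (𝒞.V j k).ι (𝒞.V j i).ι ≫ (𝒞.V j k).ι) ≫ (𝒞.X j).hom =
      (𝒞.overP j k i).hom := Category.assoc _ _ _
  have h1 : pull F (𝒞.t' i j k) (𝒞.t'_w i j k) (𝒞.θ j k i) =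
      pull F (T := 𝒞.overP i j k) (𝒞.t' i j k ≫ pullback.fst _ _ ≫ (𝒞.V j k).ι) hw (𝒞.ξ j) :=
    (pull_comp F (T := 𝒞.overP i j k) (Y := 𝒞.overP j k i) (Z := 𝒞.X j) (𝒞.t' i j k)
      (𝒞.t'_w i j k) (pullback.fst _ _ ≫ (𝒞.V j k).ι) he2 (𝒞.ξ j) hw).symm
  rw [h1, pull_congr F (𝒞.t'_fst_ι i j k) hw hw2,
    𝒞.pull_tAux_comp i j (Z := 𝒞.overP i j k) (pullback.fst _ _) hd hw2 hd2]
  rfl

lemma cocycle (i j k : 𝒞.ι) : 𝒞.t' i j k ≫ 𝒞.t' j k i ≫ 𝒞.t' k i j = 𝟙 _ := by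
  have hw : (𝒞.t' j k i ≫ 𝒞.t' k i j) ≫ (𝒞.overP i j k).hom = (𝒞.overP j k i).hom := by
    rw [Category.assoc, t'_w, t'_w]
  have hw' : (𝒞.t' i j k ≫ 𝒞.t' j k i ≫ 𝒞.t' k i j) ≫ (𝒞.overP i j k).hom =
      (𝒞.overP i j k).hom := by
    rw [Category.assoc, Category.assoc, t'_w, t'_w, t'_w]
  have key : pull F (T := 𝒞.overP i j k) (Y := 𝒞.overP i j k)
      (𝒞.t' i j k ≫ 𝒞.t' j k i ≫ 𝒞.t' k i j) hw' (𝒞.θ i j k) = 𝒞.θ i j k := by
    rw [pull_comp F (T := 𝒞.overP i j k) (Y := 𝒞.overP j k i) (Z := 𝒞.overP i j k)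
        (𝒞.t' i j k) (𝒞.t'_w i j k) (𝒞.t' j k i ≫ 𝒞.t' k i j) hw (𝒞.θ i j k) hw',
      pull_comp F (T := 𝒞.overP j k i) (Y := 𝒞.overP k i j) (Z := 𝒞.overP i j k)
        (𝒞.t' j k i) (𝒞.t'_w j k i) (𝒞.t' k i j) (𝒞.t'_w k i j) (𝒞.θ i j k) hw,
      pull_t'_θ, pull_t'_θ, pull_t'_θ]
  rw [← cancel_mono (pullback.fst (𝒞.V i j).ι (𝒞.V i k).ι), ← cancel_mono (𝒞.V i j).ι]
  have hd2 : (pullback.fst (𝒞.V i j).ι (𝒞.V i k).ι ≫ (𝒞.V i j).ι) ≫ (𝒞.X i).hom =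
      (𝒞.overP i j k).hom := Category.assoc _ _ _
  have h1 : (((𝒞.t' i j k ≫ 𝒞.t' j k i ≫ 𝒞.t' k i j) ≫ pullback.fst _ _) ≫ (𝒞.V i j).ι) ≫
      (𝒞.X i).hom = (𝒞.overP i j k).hom := by
    rw [Category.assoc, Category.assoc]; exact hw'
  have h2 : ((𝒞.t' i j k ≫ 𝒞.t' j k i ≫ 𝒞.t' k i j) ≫ pullback.fst _ _ ≫ (𝒞.V i j).ι) ≫
      (𝒞.X i).hom = (𝒞.overP i j k).hom := by
    rw [Category.assoc]; exact hw'
  have h3 : ((𝟙 _ ≫ pullback.fst (𝒞.V i j).ι (𝒞.V i k).ι) ≫ (𝒞.V i j).ι) ≫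
      (𝒞.X i).hom = (𝒞.overP i j k).hom := by
    rw [Category.id_comp]; exact hd2
  refine 𝒞.inj' i (T := 𝒞.overP i j k) _ _ h1 h3 ?_
  rw [pull_congr F (T := 𝒞.overP i j k) (Y := 𝒞.X i) (Category.assoc _ _ _) h1 h2 (𝒞.ξ i),
    pull_comp F (T := 𝒞.overP i j k) (Y := 𝒞.overP i j k) (Z := 𝒞.X i)
      (𝒞.t' i j k ≫ 𝒞.t' j k i ≫ 𝒞.t' k i j) hw' (pullback.fst _ _ ≫ (𝒞.V i j).ι) hd2
      (𝒞.ξ i) h2]
  change pull F (T := 𝒞.overP i j k) (Y := 𝒞.overP i j k) _ hw' (𝒞.θ i j k) = _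
  rw [key]
  exact pull_congr F (T := 𝒞.overP i j k) (Y := 𝒞.X i) (by rw [Category.id_comp]) hd2 h3 (𝒞.ξ i)

/-- The gluing data defined by a chart family. -/
def glueData : Scheme.GlueData.{u} where
  J := 𝒞.ι
  U i := (𝒞.X i).left
  V ij := (𝒞.V ij.1 ij.2).toScheme
  f i j := (𝒞.V i j).ι
  f_id i := 𝒞.V_self i ▸ (Scheme.topIso _).isIso_hom
  f_hasPullback := inferInstance
  f_open := inferInstance
  t i j := 𝒞.t i j
  t_id i := 𝒞.t_id i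
  t' i j k := 𝒞.t' i j k
  t_fac i j k := pullback.lift_snd _ _ _
  cocycle i j k := 𝒞.cocycle i j k

lemma pull_cl_comp (i : 𝒞.ι) (T : Over S) (η : F.obj (op T)) {Z : Over S}
    (φ : Z.left ⟶ (𝒞.locus i T η).toScheme)
    (hφ : φ ≫ (𝒞.locus i T η).ι ≫ T.hom = Z.hom)
    (h1 : (φ ≫ 𝒞.cl i T η) ≫ (𝒞.X i).hom = Z.hom)
    (h2 : (φ ≫ (𝒞.locus i T η).ι) ≫ T.hom = Z.hom) :
    pull F (φ ≫ 𝒞.cl i T η) h1 (𝒞.ξ i) = pull F (φ ≫ (𝒞.locus i T η).ι) h2 η := by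
  rw [pull_comp F (Y := overOpen T (𝒞.locus i T η)) φ hφ (𝒞.cl i T η) (𝒞.cl_w i T η),
    pull_cl, ← pull_comp]

/-- The glued scheme. -/
def glued : Scheme.{u} := 𝒞.glueData.glued

/-- The chart inclusions into the glued scheme. -/
def chartι (i : 𝒞.ι) : (𝒞.X i).left ⟶ 𝒞.glued := 𝒞.glueData.ι i

instance (i : 𝒞.ι) : IsOpenImmersion (𝒞.chartι i) :=
  Scheme.GlueData.ι_isOpenImmersion 𝒞.glueData i

lemma chartι_jointly_surjective (x : 𝒞.glued) : ∃ (i : 𝒞.ι) (y : (𝒞.X i).left), 𝒞.chartι i y = x :=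
  𝒞.glueData.ι_jointly_surjective x

@[reassoc]
lemma tAux_chartι (i j : 𝒞.ι) : 𝒞.tAux i j ≫ 𝒞.chartι j = (𝒞.V i j).ι ≫ 𝒞.chartι i := by
  have h := 𝒞.glueData.glue_condition i j
  rw [← 𝒞.t_fac i j, Category.assoc]
  exact h

lemma toBase_aux (i j : 𝒞.ι) :
    (𝒞.V i j).ι ≫ (𝒞.X i).hom = (𝒞.t i j ≫ (𝒞.V j i).ι) ≫ (𝒞.X j).hom := by
  rw [t_fac, tAux_w]

/-- The structure map of the glued scheme. -/
def toBase : 𝒞.glued ⟶ S :=
  Multicoequalizer.desc 𝒞.glueData.diagram S (fun i ↦ (𝒞.X i).hom)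
    (fun a ↦ 𝒞.toBase_aux a.1 a.2)

@[reassoc]
lemma chartι_toBase (i : 𝒞.ι) : 𝒞.chartι i ≫ 𝒞.toBase = (𝒞.X i).hom :=
  Multicoequalizer.π_desc _ _ _ _ _

/-- The glued scheme as an object over `S`. -/
abbrev J : Over S := Over.mk 𝒞.toBase

/-- Two maps into charts which agree in the glued scheme classify the same element. -/
lemma pull_eq_of_comp_chartι_eq (i j : 𝒞.ι) {Z : Over S} (a : Z.left ⟶ (𝒞.X i).left)
    (ha : a ≫ (𝒞.X i).hom = Z.hom) (b : Z.left ⟶ (𝒞.X j).left) (hb : b ≫ (𝒞.X j).hom = Z.hom)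
    (h : a ≫ 𝒞.chartι i = b ≫ 𝒞.chartι j) :
    pull F a ha (𝒞.ξ i) = pull F b hb (𝒞.ξ j) := by
  obtain ⟨φ₀, h1, h2⟩ := PullbackCone.IsLimit.lift' (𝒞.glueData.vPullbackConeIsLimit i j) a b h
  obtain ⟨φ, hφ⟩ : ∃ φ : Z.left ⟶ (𝒞.V i j).toScheme, φ = φ₀ := ⟨φ₀, rfl⟩
  subst hφ
  replace h1 : φ ≫ (𝒞.V i j).ι = a := h1
  replace h2 : φ ≫ 𝒞.tAux i j = b := by
    rw [← 𝒞.t_fac i j]; exact h2
  have h0 : φ ≫ (𝒞.V i j).ι ≫ (𝒞.X i).hom = Z.hom := by rw [reassoc_of% h1, ha]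
  have h3 : (φ ≫ 𝒞.tAux i j) ≫ (𝒞.X j).hom = Z.hom := by rw [h2, hb]
  have h4 : (φ ≫ (𝒞.V i j).ι) ≫ (𝒞.X i).hom = Z.hom := by rw [h1, ha]
  rw [← pull_congr F h1 h4 ha, ← pull_congr F h2 h3 hb]
  exact (𝒞.pull_tAux_comp i j φ h0 h3 h4).symm

/-- Two maps into charts classifying the same element agree in the glued scheme. -/
lemma comp_chartι_eq_of_pull_eq (i j : 𝒞.ι) {Z : Over S} (a : Z.left ⟶ (𝒞.X i).left)
    (ha : a ≫ (𝒞.X i).hom = Z.hom) (b : Z.left ⟶ (𝒞.X j).left) (hb : b ≫ (𝒞.X j).hom = Z.hom)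
    (h : pull F a ha (𝒞.ξ i) = pull F b hb (𝒞.ξ j)) :
    a ≫ 𝒞.chartι i = b ≫ 𝒞.chartι j := by
  obtain ⟨φ, rfl, rfl⟩ := 𝒞.exists_lift_of_pull_eq i j a ha b hb h
  rw [Category.assoc, Category.assoc, tAux_chartι]

end ChartFamily

/-- Separatedness of `F` for covers by open subschemes. -/
def IsSeparatedPresheaf (F : (Over S)ᵒᵖ ⥤ Type w) : Prop :=
  ∀ (T : Over S) (κ : Type u) (U : κ → T.left.Opens), (⨆ i, U i = ⊤) →
    ∀ s t : F.obj (op T),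
      (∀ i, F.map (overOpenι T (U i)).op s = F.map (overOpenι T (U i)).op t) → s = t

/-- Existence of gluings in `F` for covers by open subschemes. -/
def HasOpenGluing (F : (Over S)ᵒᵖ ⥤ Type w) : Prop :=
  ∀ (T : Over S) (κ : Type u) (U : κ → T.left.Opens), (⨆ i, U i = ⊤) →
    ∀ s : ∀ i, F.obj (op (overOpen T (U i))),
      (∀ (i j : κ) (Z : Over S) (p : Z ⟶ overOpen T (U i)) (q : Z ⟶ overOpen T (U j)),
        p.left ≫ (U i).ι = q.left ≫ (U j).ι → F.map p.op (s i) = F.map q.op (s j)) →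
      ∃ t : F.obj (op T), ∀ i, F.map (overOpenι T (U i)).op t = s i

namespace ChartFamily

variable {F}
variable (𝒞 : ChartFamily F)

lemma iSup_opensRange_chartι : ⨆ i, (𝒞.chartι i).opensRange = ⊤ := by
  ext x
  simp only [Opens.coe_top, Set.mem_univ, iff_true]
  obtain ⟨i, y, rfl⟩ := 𝒞.chartι_jointly_surjective x
  exact Opens.mem_iSup.mpr ⟨i, ⟨y, rfl⟩⟩

lemma isoOpensRange_inv_w (i : 𝒞.ι) :
    (𝒞.chartι i).isoOpensRange.inv ≫ (𝒞.X i).hom =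
      (overOpen 𝒞.J (𝒞.chartι i).opensRange).hom := by
  simp only [Over.mk_hom]
  rw [← Scheme.Hom.isoOpensRange_inv_comp, Category.assoc, chartι_toBase]

lemma exists_univ (hglue : HasOpenGluing F) :
    ∃ ξJ : F.obj (op 𝒞.J), ∀ i,
      pull F (T := 𝒞.X i) (Y := 𝒞.J) (𝒞.chartι i) (𝒞.chartι_toBase i) ξJ = 𝒞.ξ i := by
  obtain ⟨ξJ, hξJ⟩ := hglue 𝒞.J 𝒞.ι (fun i ↦ (𝒞.chartι i).opensRange) 𝒞.iSup_opensRange_chartι
    (fun i ↦ pull F (T := overOpen 𝒞.J (𝒞.chartι i).opensRange) (Y := 𝒞.X i)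
      (𝒞.chartι i).isoOpensRange.inv (𝒞.isoOpensRange_inv_w i) (𝒞.ξ i)) (by
    intro i j Z p q hpq
    rw [← pull_hom, ← pull_hom, ← pull_comp F (T := Z) p.left (Over.w p) _ _ (𝒞.ξ i)
        (by rw [Category.assoc, isoOpensRange_inv_w]; exact Over.w p),
      ← pull_comp F (T := Z) q.left (Over.w q) _ _ (𝒞.ξ j)
        (by rw [Category.assoc, isoOpensRange_inv_w]; exact Over.w q)]
    apply 𝒞.pull_eq_of_comp_chartι_eq
    rw [Category.assoc, Category.assoc, Scheme.Hom.isoOpensRange_inv_comp,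
      Scheme.Hom.isoOpensRange_inv_comp]
    exact hpq)
  refine ⟨ξJ, fun i ↦ ?_⟩
  have h1 : (𝒞.chartι i).isoOpensRange.hom ≫ (overOpen 𝒞.J (𝒞.chartι i).opensRange).hom =
      (𝒞.X i).hom := by
    simp only [Over.mk_hom]
    rw [Scheme.Hom.isoOpensRange_hom_ι_assoc, chartι_toBase]
  have h2 : ((𝒞.chartι i).isoOpensRange.hom ≫ (𝒞.chartι i).opensRange.ι) ≫ 𝒞.J.hom =
      (𝒞.X i).hom := by
    rw [Category.assoc]; exact h1
  have hξJ' : pull F (T := overOpen 𝒞.J (𝒞.chartι i).opensRange) (Y := 𝒞.J)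
      (𝒞.chartι i).opensRange.ι rfl ξJ =
      pull F (T := overOpen 𝒞.J (𝒞.chartι i).opensRange) (Y := 𝒞.X i)
        (𝒞.chartι i).isoOpensRange.inv (𝒞.isoOpensRange_inv_w i) (𝒞.ξ i) := hξJ i
  have h3 : ((𝒞.chartι i).isoOpensRange.hom ≫ (𝒞.chartι i).isoOpensRange.inv) ≫ (𝒞.X i).hom =
      (𝒞.X i).hom := by
    rw [Iso.hom_inv_id, Category.id_comp]
  rw [← pull_congr F (T := 𝒞.X i) (Y := 𝒞.J) (Scheme.Hom.isoOpensRange_hom_ι (𝒞.chartι i)) h2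
      (𝒞.chartι_toBase i) ξJ,
    pull_comp F (T := 𝒞.X i) (Y := overOpen 𝒞.J (𝒞.chartι i).opensRange) (Z := 𝒞.J)
      (𝒞.chartι i).isoOpensRange.hom h1 (𝒞.chartι i).opensRange.ι rfl ξJ h2,
    hξJ',
    ← pull_comp F (T := 𝒞.X i) (Y := overOpen 𝒞.J (𝒞.chartι i).opensRange) (Z := 𝒞.X i)
      (𝒞.chartι i).isoOpensRange.hom h1 (𝒞.chartι i).isoOpensRange.inv
      (𝒞.isoOpensRange_inv_w i) (𝒞.ξ i) h3,
    pull_congr F (T := 𝒞.X i) (Y := 𝒞.X i) (Iso.hom_inv_id _) h3 (Category.id_comp _) (𝒞.ξ i),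
    pull_id]

lemma iSup_locus (T : Over S) (η : F.obj (op T)) : ⨆ i, 𝒞.locus i T η = ⊤ := by
  ext x
  simp only [Opens.coe_top, Set.mem_univ, iff_true]
  obtain ⟨i, hi⟩ := 𝒞.cover T η x
  exact Opens.mem_iSup.mpr ⟨i, hi⟩

/-- The open cover of `T` by the loci of an element. -/
def locusCover (T : Over S) (η : F.obj (op T)) : T.left.OpenCover :=
  T.left.openCoverOfIsOpenCover (fun i ↦ 𝒞.locus i T η) (𝒞.iSup_locus T η)

lemma classify_aux (T : Over S) (η : F.obj (op T)) (i j : 𝒞.ι) :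
    pullback.fst (𝒞.locus i T η).ι (𝒞.locus j T η).ι ≫ 𝒞.cl i T η ≫ 𝒞.chartι i =
      pullback.snd (𝒞.locus i T η).ι (𝒞.locus j T η).ι ≫ 𝒞.cl j T η ≫ 𝒞.chartι j := by
  rw [← Category.assoc, ← Category.assoc]
  have hi : pullback.fst (𝒞.locus i T η).ι (𝒞.locus j T η).ι ≫ (𝒞.locus i T η).ι ≫ T.hom =
      (Over.mk (pullback.fst (𝒞.locus i T η).ι (𝒞.locus j T η).ι ≫
        (𝒞.locus i T η).ι ≫ T.hom)).hom := rfl
  have hj : pullback.snd (𝒞.locus i T η).ι (𝒞.locus j T η).ι ≫ (𝒞.locus j T η).ι ≫ T.hom =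
      (Over.mk (pullback.fst (𝒞.locus i T η).ι (𝒞.locus j T η).ι ≫
        (𝒞.locus i T η).ι ≫ T.hom)).hom := by
    simp [pullback.condition_assoc]
  have hi1 : (pullback.fst (𝒞.locus i T η).ι (𝒞.locus j T η).ι ≫ 𝒞.cl i T η) ≫ (𝒞.X i).hom =
      (Over.mk (pullback.fst (𝒞.locus i T η).ι (𝒞.locus j T η).ι ≫
        (𝒞.locus i T η).ι ≫ T.hom)).hom := by
    rw [Category.assoc, cl_w]; rfl
  have hj1 : (pullback.snd (𝒞.locus i T η).ι (𝒞.locus j T η).ι ≫ 𝒞.cl j T η) ≫ (𝒞.X j).hom =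
      (Over.mk (pullback.fst (𝒞.locus i T η).ι (𝒞.locus j T η).ι ≫
        (𝒞.locus i T η).ι ≫ T.hom)).hom := by
    rw [Category.assoc, cl_w]; exact hj
  have hi2 : (pullback.fst (𝒞.locus i T η).ι (𝒞.locus j T η).ι ≫ (𝒞.locus i T η).ι) ≫ T.hom =
      (Over.mk (pullback.fst (𝒞.locus i T η).ι (𝒞.locus j T η).ι ≫
        (𝒞.locus i T η).ι ≫ T.hom)).hom := Category.assoc _ _ _
  have hj2 : (pullback.snd (𝒞.locus i T η).ι (𝒞.locus j T η).ι ≫ (𝒞.locus j T η).ι) ≫ T.hom =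
      (Over.mk (pullback.fst (𝒞.locus i T η).ι (𝒞.locus j T η).ι ≫
        (𝒞.locus i T η).ι ≫ T.hom)).hom := by
    rw [Category.assoc]; exact hj
  refine 𝒞.comp_chartι_eq_of_pull_eq i j
    (Z := Over.mk (pullback.fst (𝒞.locus i T η).ι (𝒞.locus j T η).ι ≫
      (𝒞.locus i T η).ι ≫ T.hom)) _ hi1 _ hj1 ?_
  rw [𝒞.pull_cl_comp i T η (Z := Over.mk (pullback.fst (𝒞.locus i T η).ι (𝒞.locus j T η).ι ≫
      (𝒞.locus i T η).ι ≫ T.hom)) (pullback.fst _ _) hi hi1 hi2,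
    𝒞.pull_cl_comp j T η (Z := Over.mk (pullback.fst (𝒞.locus i T η).ι (𝒞.locus j T η).ι ≫
      (𝒞.locus i T η).ι ≫ T.hom)) (pullback.snd _ _) hj hj1 hj2]
  exact pull_congr F pullback.condition hi2 hj2 η

/-- The classifying map of an element, as a morphism of schemes. -/
def classify₀ (T : Over S) (η : F.obj (op T)) : T.left ⟶ 𝒞.glued :=
  (𝒞.locusCover T η).glueMorphisms (fun i ↦ 𝒞.cl i T η ≫ 𝒞.chartι i)
    (fun i j ↦ 𝒞.classify_aux T η i j)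

@[reassoc]
lemma ι_classify₀ (T : Over S) (η : F.obj (op T)) (i : 𝒞.ι) :
    (𝒞.locus i T η).ι ≫ 𝒞.classify₀ T η = 𝒞.cl i T η ≫ 𝒞.chartι i :=
  (𝒞.locusCover T η).ι_glueMorphisms _ _ i

lemma classify₀_toBase_aux (T : Over S) (η : F.obj (op T)) (i : 𝒞.ι) :
    (𝒞.locus i T η).ι ≫ 𝒞.classify₀ T η ≫ 𝒞.toBase = (𝒞.locus i T η).ι ≫ T.hom := by
  rw [ι_classify₀_assoc, chartι_toBase, cl_w]

lemma classify₀_toBase (T : Over S) (η : F.obj (op T)) :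
    𝒞.classify₀ T η ≫ 𝒞.toBase = T.hom :=
  (𝒞.locusCover T η).hom_ext _ _ (fun i ↦ 𝒞.classify₀_toBase_aux T η i)

/-- The classifying map of an element. -/
def classify (T : Over S) (η : F.obj (op T)) : T ⟶ 𝒞.J :=
  Over.homMk (𝒞.classify₀ T η) (𝒞.classify₀_toBase T η)

lemma map_classify (hsep : IsSeparatedPresheaf F) (ξJ : F.obj (op 𝒞.J))
    (hξJ : ∀ i, pull F (T := 𝒞.X i) (Y := 𝒞.J) (𝒞.chartι i) (𝒞.chartι_toBase i) ξJ = 𝒞.ξ i)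
    (T : Over S) (η : F.obj (op T)) : F.map (𝒞.classify T η).op ξJ = η := by
  refine hsep T 𝒞.ι (fun i ↦ 𝒞.locus i T η) (𝒞.iSup_locus T η) _ _ fun i ↦ ?_
  have h1 : (𝒞.cl i T η ≫ 𝒞.chartι i) ≫ 𝒞.J.hom = (overOpen T (𝒞.locus i T η)).hom := by
    rw [Category.assoc]
    change 𝒞.cl i T η ≫ 𝒞.chartι i ≫ 𝒞.toBase = _
    rw [chartι_toBase, cl_w]; rfl
  have h2 : ((𝒞.locus i T η).ι ≫ 𝒞.classify₀ T η) ≫ 𝒞.J.hom =
      (overOpen T (𝒞.locus i T η)).hom := by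
    rw [ι_classify₀]; exact h1
  calc F.map (overOpenι T (𝒞.locus i T η)).op (F.map (𝒞.classify T η).op ξJ)
      = pull F (T := overOpen T (𝒞.locus i T η)) (Y := 𝒞.J)
          ((𝒞.locus i T η).ι ≫ 𝒞.classify₀ T η) h2 ξJ :=
        (pull_comp F (T := overOpen T (𝒞.locus i T η)) (Y := T) (Z := 𝒞.J)
          (𝒞.locus i T η).ι rfl (𝒞.classify₀ T η) (𝒞.classify₀_toBase T η) ξJ h2).symm
    _ = pull F (T := overOpen T (𝒞.locus i T η)) (Y := 𝒞.J) (𝒞.cl i T η ≫ 𝒞.chartι i) h1 ξJ :=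
        pull_congr F (𝒞.ι_classify₀ T η i) h2 h1 ξJ
    _ = pull F (T := overOpen T (𝒞.locus i T η)) (Y := 𝒞.X i) (𝒞.cl i T η) (𝒞.cl_w i T η)
          (𝒞.ξ i) := by
        rw [pull_comp F (T := overOpen T (𝒞.locus i T η)) (Y := 𝒞.X i) (Z := 𝒞.J)
          (𝒞.cl i T η) (𝒞.cl_w i T η) (𝒞.chartι i) (𝒞.chartι_toBase i) ξJ h1, hξJ i]
    _ = F.map (overOpenι T (𝒞.locus i T η)).op η := 𝒞.pull_cl i T η

lemma classify_unique (ξJ : F.obj (op 𝒞.J))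
    (hξJ : ∀ i, pull F (T := 𝒞.X i) (Y := 𝒞.J) (𝒞.chartι i) (𝒞.chartι_toBase i) ξJ = 𝒞.ξ i)
    (T : Over S) (g g' : T ⟶ 𝒞.J) (h : F.map g.op ξJ = F.map g'.op ξJ) : g = g' := by
  ext : 1
  refine Scheme.hom_ext_of_forall _ _ fun x ↦ ?_
  obtain ⟨i, y, hy⟩ := 𝒞.chartι_jointly_surjective (g.left x)
  obtain ⟨j, y', hy'⟩ := 𝒞.chartι_jointly_surjective (g'.left x)
  let U : T.left.Opens := g.left ⁻¹ᵁ (𝒞.chartι i).opensRange ⊓ g'.left ⁻¹ᵁ (𝒞.chartι j).opensRange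
  have hxU : x ∈ U := ⟨⟨y, hy⟩, ⟨y', hy'⟩⟩
  refine ⟨U, hxU, ?_⟩
  have hU : ∀ z, U.ι z ∈ U := by
    intro z
    have := Set.mem_range_self (f := U.ι) z
    rwa [Scheme.Opens.range_ι] at this
  have hra : Set.range (U.ι ≫ g.left) ⊆ Set.range (𝒞.chartι i) := by
    rintro _ ⟨z, rfl⟩
    rw [← Scheme.Hom.coe_opensRange]
    exact (hU z).1
  have hrb : Set.range (U.ι ≫ g'.left) ⊆ Set.range (𝒞.chartι j) := by
    rintro _ ⟨z, rfl⟩
    rw [← Scheme.Hom.coe_opensRange]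
    exact (hU z).2
  have ha : IsOpenImmersion.lift (𝒞.chartι i) (U.ι ≫ g.left) hra ≫ 𝒞.chartι i = U.ι ≫ g.left :=
    IsOpenImmersion.lift_fac _ _ _
  have hb : IsOpenImmersion.lift (𝒞.chartι j) (U.ι ≫ g'.left) hrb ≫ 𝒞.chartι j =
      U.ι ≫ g'.left :=
    IsOpenImmersion.lift_fac _ _ _
  have hgw : g.left ≫ 𝒞.toBase = T.hom := Over.w g
  have hgw' : g'.left ≫ 𝒞.toBase = T.hom := Over.w g'
  have haw : IsOpenImmersion.lift (𝒞.chartι i) (U.ι ≫ g.left) hra ≫ (𝒞.X i).hom =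
      (overOpen T U).hom := by
    rw [← chartι_toBase, reassoc_of% ha, hgw]; rfl
  have hbw : IsOpenImmersion.lift (𝒞.chartι j) (U.ι ≫ g'.left) hrb ≫ (𝒞.X j).hom =
      (overOpen T U).hom := by
    rw [← chartι_toBase, reassoc_of% hb, hgw']; rfl
  rw [← ha, ← hb]
  refine 𝒞.comp_chartι_eq_of_pull_eq i j (Z := overOpen T U) _ haw _ hbw ?_
  have h1 : (IsOpenImmersion.lift (𝒞.chartι i) (U.ι ≫ g.left) hra ≫ 𝒞.chartι i) ≫ 𝒞.J.hom =
      (overOpen T U).hom := by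
    rw [Category.assoc]
    change _ ≫ 𝒞.chartι i ≫ 𝒞.toBase = _
    rw [chartι_toBase]; exact haw
  have h2 : (IsOpenImmersion.lift (𝒞.chartι j) (U.ι ≫ g'.left) hrb ≫ 𝒞.chartι j) ≫ 𝒞.J.hom =
      (overOpen T U).hom := by
    rw [Category.assoc]
    change _ ≫ 𝒞.chartι j ≫ 𝒞.toBase = _
    rw [chartι_toBase]; exact hbw
  have h3 : (U.ι ≫ g.left) ≫ 𝒞.J.hom = (overOpen T U).hom := by
    rw [Category.assoc]
    change U.ι ≫ g.left ≫ 𝒞.toBase = _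
    rw [hgw]; rfl
  have h4 : (U.ι ≫ g'.left) ≫ 𝒞.J.hom = (overOpen T U).hom := by
    rw [Category.assoc]
    change U.ι ≫ g'.left ≫ 𝒞.toBase = _
    rw [hgw']; rfl
  calc pull F (T := overOpen T U) (Y := 𝒞.X i) _ haw (𝒞.ξ i)
      = pull F (T := overOpen T U) (Y := 𝒞.J) _ h1 ξJ := by
        rw [pull_comp F (T := overOpen T U) (Y := 𝒞.X i) (Z := 𝒞.J) _ haw (𝒞.chartι i)
          (𝒞.chartι_toBase i) ξJ h1, hξJ i]
    _ = pull F (T := overOpen T U) (Y := 𝒞.J) (U.ι ≫ g.left) h3 ξJ := pull_congr F ha h1 h3 ξJ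
    _ = pull F (T := overOpen T U) (Y := T) U.ι rfl (F.map g.op ξJ) :=
        pull_comp F (T := overOpen T U) (Y := T) (Z := 𝒞.J) U.ι rfl g.left hgw ξJ h3
    _ = pull F (T := overOpen T U) (Y := T) U.ι rfl (F.map g'.op ξJ) := by rw [h]
    _ = pull F (T := overOpen T U) (Y := 𝒞.J) (U.ι ≫ g'.left) h4 ξJ :=
        (pull_comp F (T := overOpen T U) (Y := T) (Z := 𝒞.J) U.ι rfl g'.left hgw' ξJ h4).symm
    _ = pull F (T := overOpen T U) (Y := 𝒞.J) _ h2 ξJ := (pull_congr F hb h2 h4 ξJ).symm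
    _ = pull F (T := overOpen T U) (Y := 𝒞.X j) _ hbw (𝒞.ξ j) := by
        rw [pull_comp F (T := overOpen T U) (Y := 𝒞.X j) (Z := 𝒞.J) _ hbw (𝒞.chartι j)
          (𝒞.chartι_toBase j) ξJ h2, hξJ j]

/-- The chart inclusions, as morphisms over `S`. -/
def chartHom (i : 𝒞.ι) : 𝒞.X i ⟶ 𝒞.J := Over.homMk (𝒞.chartι i) (𝒞.chartι_toBase i)

instance (i : 𝒞.ι) : IsOpenImmersion (𝒞.chartHom i).left :=
  inferInstanceAs (IsOpenImmersion (𝒞.chartι i))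

/-- **Local representability, structure form.**  A separated presheaf with gluing which admits
a chart family is represented by the scheme glued from the charts. -/
theorem exists_representing (hsep : IsSeparatedPresheaf F) (hglue : HasOpenGluing F) :
    ∃ ξJ : F.obj (op 𝒞.J),
      (∀ (T : Over S) (η : F.obj (op T)), ∃! g : T ⟶ 𝒞.J, F.map g.op ξJ = η) ∧
      (∀ i, F.map (𝒞.chartHom i).op ξJ = 𝒞.ξ i) := by
  obtain ⟨ξJ, hξJ⟩ := 𝒞.exists_univ hglue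
  refine ⟨ξJ, fun T η ↦ ⟨𝒞.classify T η, 𝒞.map_classify hsep ξJ hξJ T η, fun g hg ↦ ?_⟩, hξJ⟩
  exact 𝒞.classify_unique ξJ hξJ T g _ (hg.trans (𝒞.map_classify hsep ξJ hξJ T η).symm)

end ChartFamily

/-- **Local representability over a base, any value universe, elementary hypotheses.**

Let `F` be a presheaf on `Over S` with values in any universe which is separated and has gluing
for covers by open subschemes.  Let `(X i, ξ i)` be a `u`-small family of objects over `S` with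
elements `ξ i ∈ F (X i)` such that
* (`hinj`) a morphism into `X i` is determined by the pullback of `ξ i`;
* (`hopen`) for every `η ∈ F T` there is an open `V ⊆ T` such that `g : T' ⟶ T` factors through
  `V` iff `g^* η` is a pullback of `ξ i`;
* (`hcover`) every `η ∈ F T` is, locally on `T`, a pullback of some `ξ i`.

Then `F` is representable by an object `J` glued from the `X i`: the classifying maps
`X i ⟶ J` are open immersions and jointly surjective. -/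
theorem exists_representing (F : (Over S)ᵒᵖ ⥤ Type w)
    (hsep : IsSeparatedPresheaf F) (hglue : HasOpenGluing F)
    {ι : Type u} (X : ι → Over S) (ξ : ∀ i, F.obj (op (X i)))
    (hinj : ∀ i (T : Over S) (a b : T ⟶ X i), F.map a.op (ξ i) = F.map b.op (ξ i) → a = b)
    (hopen : ∀ i (T : Over S) (η : F.obj (op T)), ∃ V : T.left.Opens,
      ∀ (T' : Over S) (g : T' ⟶ T), Set.range g.left ⊆ (V : Set T.left) ↔
        ∃ a : T' ⟶ X i, F.map a.op (ξ i) = F.map g.op η)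
    (hcover : ∀ (T : Over S) (η : F.obj (op T)) (x : T.left),
      ∃ (i : ι) (V : T.left.Opens) (a : overOpen T V ⟶ X i),
        x ∈ V ∧ F.map a.op (ξ i) = F.map (overOpenι T V).op η) :
    ∃ (J : Over S) (ξJ : F.obj (op J)),
      (∀ (T : Over S) (η : F.obj (op T)), ∃! g : T ⟶ J, F.map g.op ξJ = η) ∧
      ∃ u : ∀ i, X i ⟶ J, (∀ i, IsOpenImmersion (u i).left) ∧
        (∀ i, F.map (u i).op ξJ = ξ i) ∧ (∀ x : J.left, ∃ i, x ∈ Set.range (u i).left) := by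
  choose V hV using hopen
  let 𝒞 : ChartFamily F :=
    { ι := ι
      X := X
      ξ := ξ
      locus := V
      inj := hinj
      locus_spec := hV
      cover := by
        intro T η x
        obtain ⟨i, W, a, hxW, ha⟩ := hcover T η x
        refine ⟨i, ?_⟩
        have h := (hV i T η (overOpen T W) (overOpenι T W)).mpr ⟨a, ha⟩
        apply h
        change x ∈ Set.range W.ι
        rw [Scheme.Opens.range_ι]
        exact hxW }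
  obtain ⟨ξJ, h1, h2⟩ := 𝒞.exists_representing hsep hglue
  refine ⟨𝒞.J, ξJ, h1, 𝒞.chartHom, fun i ↦ inferInstance, h2, fun x ↦ ?_⟩
  obtain ⟨i, y, hy⟩ := 𝒞.chartι_jointly_surjective x
  exact ⟨i, y, hy⟩

end

end Fermat.Agent.S25.helper6774
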