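import Mathlib
import Fermat.Agent.S25.helper1705_Curve

/-!
# S25 / U18 (backup helper6871): extension of `K`-points of the curve to `V`-points

`V` a valuation ring over `k` with fraction field `K`.  A `K`-point of a `k`-algebra `R` that is
finite over `k[x]` and whose `x`-coordinate lies in `V` is a `V`-point (valuation rings are
integrally closed).  For a curve datum this gives the dichotomy: a `K`-point of the chart `R₀`
is a `V`-point of the chart `R₀`, or it lies in the overlap and is a `V`-point of the chart `R₁`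
whose `y`-coordinate lies in the maximal ideal of `V`.
-/

set_option autoImplicit false

universe u

open Polynomial

namespace Fermat.Agent.S25.helper6871

open Fermat.Agent.S25.helper1705

section PointExt

variable {k : Type u} [Field k]

/-- Every value of a `K`-point of `R` (finite over `k[x]`) whose `x`-coordinate is in `V`
is integral over `V`. -/
theorem isIntegral_apply_of_finite {R : Type u} [CommRing R] [Algebra k R] (x : R)
    (hfin : (Polynomial.aeval x : k[X] →ₐ[k] R).toRingHom.Finite)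
    {V K : Type u} [CommRing V] [Field K]
    [Algebra k V] [Algebra V K] [Algebra k K] [IsScalarTower k V K]
    (P : R →ₐ[k] K) (hx : P x ∈ (algebraMap V K).range) (r : R) :
    IsIntegral V (P r) := by
  obtain ⟨v, hv⟩ := hx
  obtain ⟨p, hp, hpr⟩ := hfin.to_isIntegral r
  refine ⟨p.map (Polynomial.aeval v : k[X] →ₐ[k] V).toRingHom, hp.map _, ?_⟩
  have hcomp : (algebraMap V K).comp (Polynomial.aeval v : k[X] →ₐ[k] V).toRingHom =
      (P : R →+* K).comp (Polynomial.aeval x : k[X] →ₐ[k] R).toRingHom := by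
    apply Polynomial.ringHom_ext
    · intro a
      simp [← IsScalarTower.algebraMap_apply k V K]
    · simp [hv]
  rw [Polynomial.eval₂_map, hcomp]
  have := congrArg P hpr
  rw [map_zero] at this
  rw [← this]
  exact (Polynomial.hom_eval₂ p _ (P : R →+* K) r).symm

/-- (PE1) A `K`-point of `R` (finite over `k[x]`) whose `x`-coordinate is in `V` factors
through `V`. -/
theorem exists_algHom_valuationRing {R : Type u} [CommRing R] [Algebra k R] (x : R)
    (hfin : (Polynomial.aeval x : k[X] →ₐ[k] R).toRingHom.Finite)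
    {V K : Type u} [CommRing V] [IsDomain V] [ValuationRing V] [Field K]
    [Algebra k V] [Algebra V K] [Algebra k K] [IsScalarTower k V K] [IsFractionRing V K]
    (P : R →ₐ[k] K) (hx : P x ∈ (algebraMap V K).range) :
    ∃ ρ : R →ₐ[k] V, (IsScalarTower.toAlgHom k V K).comp ρ = P := by
  have hmem : ∀ r : R, P r ∈ (IsScalarTower.toAlgHom k V K).range := by
    intro r
    obtain ⟨w, hw⟩ := (IsIntegrallyClosed.isIntegral_iff (R := V) (K := K)).mp
      (isIntegral_apply_of_finite x hfin P hx r)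
    exact ⟨w, hw⟩
  have hinj : Function.Injective (IsScalarTower.toAlgHom k V K) :=
    IsFractionRing.injective V K
  let e : V ≃ₐ[k] (IsScalarTower.toAlgHom k V K).range := AlgEquiv.ofInjective _ hinj
  refine ⟨(e.symm : _ →ₐ[k] V).comp (P.codRestrict _ hmem), ?_⟩
  ext r
  have h2 := AlgEquiv.apply_symm_apply e (P.codRestrict _ hmem r)
  exact congrArg Subtype.val h2

/-- (PE2) Dichotomy for a curve datum: a `K`-point of the chart `R₀` is a `V`-point of the
chart `R₀`, or it lies in the overlap and is a `V`-point of the chart `R₁` whose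
`y`-coordinate lies in the maximal ideal of `V`. -/
theorem exists_point_valuationRing (D : CurveDatum k)
    {V K : Type u} [CommRing V] [IsDomain V] [ValuationRing V] [Field K]
    [Algebra k V] [Algebra V K] [Algebra k K] [IsScalarTower k V K] [IsFractionRing V K]
    (P : D.R₀ →ₐ[k] K) :
    (∃ ρ : D.R₀ →ₐ[k] V, (IsScalarTower.toAlgHom k V K).comp ρ = P) ∨
    (∃ (ρ : D.R₁ →ₐ[k] V) (P₀₁ : D.R₀₁ →ₐ[k] K),
        P₀₁.comp (IsScalarTower.toAlgHom k D.R₀ D.R₀₁) = P ∧
        P₀₁.comp (IsScalarTower.toAlgHom k D.R₁ D.R₀₁) = (IsScalarTower.toAlgHom k V K).comp ρ ∧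
        ρ D.y ∈ IsLocalRing.maximalIdeal V) := by
  by_cases h : P D.x ∈ (algebraMap V K).range
  · exact Or.inl (exists_algHom_valuationRing D.x D.finite₀ P h)
  · right
    have ha0 : P D.x ≠ 0 := by
      intro h0
      exact h ⟨0, by rw [map_zero, h0]⟩
    obtain ⟨t, ht⟩ : ∃ t : V, algebraMap V K t = (P D.x)⁻¹ := by
      rcases ValuationRing.isInteger_or_isInteger V (P D.x) with h1 | h1
      · exact absurd h1 h
      · exact h1
    have htm : t ∈ IsLocalRing.maximalIdeal V := by
      rw [IsLocalRing.mem_maximalIdeal, mem_nonunits_iff]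
      intro hu
      obtain ⟨w, hw⟩ := hu.exists_left_inv
      apply h
      refine ⟨w, ?_⟩
      have : algebraMap V K w * algebraMap V K t = 1 := by
        rw [← map_mul, hw, map_one]
      rw [ht] at this
      field_simp at this
      exact this
    have hunit : IsUnit ((P : D.R₀ →+* K) D.x) := isUnit_iff_ne_zero.mpr ha0
    let f : D.R₀₁ →+* K := IsLocalization.Away.lift (S := D.R₀₁) D.x hunit
    have hf : ∀ a : D.R₀, f (algebraMap D.R₀ D.R₀₁ a) = P a := fun a =>
      IsLocalization.Away.lift_eq D.x hunit a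
    let P₀₁ : D.R₀₁ →ₐ[k] K :=
      { f with
        commutes' := fun c => by
          change f (algebraMap k D.R₀₁ c) = algebraMap k K c
          rw [IsScalarTower.algebraMap_apply k D.R₀ D.R₀₁, hf, AlgHom.commutes] }
    have hP₀ : P₀₁.comp (IsScalarTower.toAlgHom k D.R₀ D.R₀₁) = P := by
      ext a
      exact hf a
    have hy : (P₀₁.comp (IsScalarTower.toAlgHom k D.R₁ D.R₀₁)) D.y = algebraMap V K t := by
      have h1 := congrArg P₀₁ D.xy
      rw [map_mul, map_one] at h1
      have h2 : P₀₁ (algebraMap D.R₀ D.R₀₁ D.x) = P D.x := hf D.x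
      rw [h2] at h1
      rw [ht]
      change P₀₁ (algebraMap D.R₁ D.R₀₁ D.y) = _
      exact eq_inv_of_mul_eq_one_right h1
    obtain ⟨ρ, hρ⟩ := exists_algHom_valuationRing D.y D.finite₁
      (P₀₁.comp (IsScalarTower.toAlgHom k D.R₁ D.R₀₁)) ⟨t, hy.symm⟩
    refine ⟨ρ, P₀₁, hP₀, hρ.symm, ?_⟩
    have h3 : algebraMap V K (ρ D.y) = algebraMap V K t := by
      have := congrArg (fun g : D.R₁ →ₐ[k] K => g D.y) hρ
      simp only [AlgHom.comp_apply] at this
      rw [← hy]
      exact this
    rw [IsFractionRing.injective V K h3]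
    exact htm

/-- In the second case of `exists_point_valuationRing` the `y`-coordinate is nonzero. -/
theorem apply_y_ne_zero_of_overlap (D : CurveDatum k)
    {V K : Type u} [CommRing V] [IsDomain V] [Field K]
    [Algebra k V] [Algebra V K] [Algebra k K] [IsScalarTower k V K]
    (ρ : D.R₁ →ₐ[k] V) (P₀₁ : D.R₀₁ →ₐ[k] K)
    (h : P₀₁.comp (IsScalarTower.toAlgHom k D.R₁ D.R₀₁) = (IsScalarTower.toAlgHom k V K).comp ρ) :
    ρ D.y ≠ 0 := by
  intro h0
  have h1 := congrArg P₀₁ D.xy
  rw [map_mul, map_one] at h1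
  have h2 : P₀₁ (algebraMap D.R₁ D.R₀₁ D.y) = algebraMap V K (ρ D.y) :=
    congrArg (fun g : D.R₁ →ₐ[k] K => g D.y) h
  rw [h2, h0, map_zero, mul_zero] at h1
  exact zero_ne_one h1

/-- `q` (a `V`-point of chart `0` or of chart `1`) extends the `K`-point `P` of chart `0`. -/
def ExtendsPoint (D : CurveDatum k) (V K : Type u) [CommRing V] [IsDomain V] [ValuationRing V]
    [Field K] [Algebra k V] [Algebra V K] [Algebra k K] [IsScalarTower k V K]
    (q : (D.R₀ →ₐ[k] V) ⊕ (D.R₁ →ₐ[k] V)) (P : D.R₀ →ₐ[k] K) : Prop :=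
  Sum.elim (fun ρ : D.R₀ →ₐ[k] V => (IsScalarTower.toAlgHom k V K).comp ρ = P)
    (fun ρ : D.R₁ →ₐ[k] V => ∃ P₀₁ : D.R₀₁ →ₐ[k] K,
      P₀₁.comp (IsScalarTower.toAlgHom k D.R₀ D.R₀₁) = P ∧
      P₀₁.comp (IsScalarTower.toAlgHom k D.R₁ D.R₀₁) = (IsScalarTower.toAlgHom k V K).comp ρ ∧
      ρ D.y ∈ IsLocalRing.maximalIdeal V) q

/-- (PE3) Family form: finitely (or arbitrarily) many `K`-points of chart `0` extend to
`V`-points of chart `0` or chart `1`. -/
theorem exists_points_valuationRing (D : CurveDatum k)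
    {V K : Type u} [CommRing V] [IsDomain V] [ValuationRing V] [Field K]
    [Algebra k V] [Algebra V K] [Algebra k K] [IsScalarTower k V K] [IsFractionRing V K]
    {ι : Type*} (P : ι → (D.R₀ →ₐ[k] K)) :
    ∃ q : ι → (D.R₀ →ₐ[k] V) ⊕ (D.R₁ →ₐ[k] V), ∀ i, ExtendsPoint D V K (q i) (P i) := by
  have h : ∀ i, ∃ q : (D.R₀ →ₐ[k] V) ⊕ (D.R₁ →ₐ[k] V), ExtendsPoint D V K q (P i) := by
    intro i
    rcases exists_point_valuationRing (V := V) D (P i) with ⟨ρ, hρ⟩ | ⟨ρ, P₀₁, h1, h2, h3⟩
    · exact ⟨Sum.inl ρ, hρ⟩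
    · exact ⟨Sum.inr ρ, P₀₁, h1, h2, h3⟩
  exact ⟨fun i => (h i).choose, fun i => (h i).choose_spec⟩

end PointExt

end Fermat.Agent.S25.helper6871
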