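import Fermat.Agent.S25.helper985_LGAlg
import Fermat.Agent.S25.helper7530_ValExist

/-!
# S25, leaf U18 / LC4: capstone of the valuative existence algebra, hypothesis-passing form
(helper6871, backup of LC4)

* `isRig_of_isLocalRing` : a two-chart line bundle over a LOCAL ring is rigidified
  (the pullback along the section is an invertible module over a local ring, hence free).
* `algValExistAC_of` : the body of `helper985.Stmt_AlgValExistAC` for one curve datum, from
  exactly the list of facts about `GlueDatum`-level point twists and the base family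
  `O(m · D∞)` that the interface theorem `helper7530.PointTwistData.exists_extension_list`
  consumes, plus the point decomposition (U9a) of the given datum over `K`.
* `stmt_AlgValExistAC_of` : the closed Prop `helper985.Stmt_AlgValExistAC` from the same list,
  quantified over all curve data.
-/

set_option autoImplicit false
set_option linter.style.haveILetI false

universe u

open TensorProduct

namespace Fermat.Agent.S25.helper6871

open Fermat.Agent.S25.helper1705 Fermat.Agent.S25.helper2945

section Rig

variable {k : Type u} [Field k] {D : CurveDatum k} {B : Type u} [CommRing B] [Algebra k B]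

/-- Over a local ring every two-chart line bundle is rigidified: `B ⊗_{ε} M₁` is an invertible
`B`-module, hence free of rank one. -/
theorem isRig_of_isLocalRing [IsLocalRing B] (G : GlueDatum D B) : G.IsRig := by
  letI := algE D B
  have hfree : Module.Free B (B ⊗[D.A₁ B] G.M₁) := inferInstance
  exact Module.Invertible.free_iff_linearEquiv.mp hfree

end Rig

section Capstone

variable {k : Type u} [Field k] (D : CurveDatum k)

/-- The package of `GlueDatum`-level facts consumed by the valuative existence argument: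
point twists in both charts with their compatibilities, and a base family `O B`
(in the application `O(m · D∞)`) of Euler characteristic `χ(unit) + d`. -/
structure TwistKit where
  /-- twist `G(−P)` by a point of chart 0 -/
  tw₀ : ∀ {B : Type u} [CommRing B] [Algebra k B], GlueDatum D B → (D.R₀ →ₐ[k] B) → GlueDatum D B
  /-- twist `G(−Q)` by a point of chart 1 -/
  tw₁ : ∀ {B : Type u} [CommRing B] [Algebra k B], GlueDatum D B → (D.R₁ →ₐ[k] B) → GlueDatum D B
  bc_congr : ∀ {B B' : Type u} [CommRing B] [Algebra k B] [CommRing B'] [Algebra k B']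
    (φ : B →ₐ[k] B') {G G' : GlueDatum D B}, G.Equiv G' →
      (G.baseChange φ).Equiv (G'.baseChange φ)
  tw₀_congr : ∀ {B : Type u} [CommRing B] [Algebra k B] {G G' : GlueDatum D B}
    (p : D.R₀ →ₐ[k] B), G.Equiv G' → (tw₀ G p).Equiv (tw₀ G' p)
  bc_tw₀ : ∀ {B B' : Type u} [CommRing B] [Algebra k B] [CommRing B'] [Algebra k B']
    (φ : B →ₐ[k] B') (G : GlueDatum D B) (p : D.R₀ →ₐ[k] B),
    ((tw₀ G p).baseChange φ).Equiv (tw₀ (G.baseChange φ) (φ.comp p))
  bc_tw₁ : ∀ {B B' : Type u} [CommRing B] [Algebra k B] [CommRing B'] [Algebra k B']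
    (φ : B →ₐ[k] B') (G : GlueDatum D B) (q : D.R₁ →ₐ[k] B),
    ((tw₁ G q).baseChange φ).Equiv (tw₁ (G.baseChange φ) (φ.comp q))
  tw_same : ∀ {B : Type u} [CommRing B] [Algebra k B] (G : GlueDatum D B) (r : D.R₀₁ →ₐ[k] B),
    (tw₀ G (r.comp (IsScalarTower.toAlgHom k D.R₀ D.R₀₁))).Equiv
      (tw₁ G (r.comp (IsScalarTower.toAlgHom k D.R₁ D.R₀₁)))
  chi_congr : ∀ {F : Type u} [Field F] [Algebra k F] {G G' : GlueDatum D F},
    G.Equiv G' → G.chi = G'.chi
  chi_tw₀ : ∀ {F : Type u} [Field F] [Algebra k F] (G : GlueDatum D F) (p : D.R₀ →ₐ[k] F),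
    (tw₀ G p).chi = G.chi - 1
  chi_tw₁ : ∀ {F : Type u} [Field F] [Algebra k F] (G : GlueDatum D F) (q : D.R₁ →ₐ[k] F),
    (tw₁ G q).chi = G.chi - 1
  /-- the base family, in the application `O(m · D∞)` -/
  O : ∀ (B : Type u) [CommRing B] [Algebra k B], GlueDatum D B
  bc_O : ∀ {B B' : Type u} [CommRing B] [Algebra k B] [CommRing B'] [Algebra k B']
    (φ : B →ₐ[k] B'), ((O B).baseChange φ).Equiv (O B')
  /-- the number of points, in the application `m · n` -/
  d : ℕ
  chi_O : ∀ (F : Type u) [Field F] [Algebra k F], (O F).chi = (GlueDatum.unit D F).chi + d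

variable {D}

/-- The interface structure of `helper7530_ValExist` built from a `TwistKit`. -/
noncomputable def TwistKit.toPointTwistData (T : TwistKit D) :
    Fermat.Agent.S25.helper7530.PointTwistData.{u, u + 1} D where
  Obj := fun B _ _ => GlueDatum D B
  Rel := fun G G' => G.Equiv G'
  rel_refl := fun G => GlueDatum.Equiv.refl G
  rel_symm := fun h => h.symm
  rel_trans := fun h h' => h.trans h'
  bc := fun φ G => G.baseChange φ
  bc_congr := fun φ _ _ h => T.bc_congr φ h
  tw₀ := fun G p => T.tw₀ G p
  tw₁ := fun G q => T.tw₁ G q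
  tw₀_congr := fun p h => T.tw₀_congr p h
  bc_tw₀ := fun φ G p => T.bc_tw₀ φ G p
  bc_tw₁ := fun φ G q => T.bc_tw₁ φ G q
  tw_same := fun G r => T.tw_same G r
  chi := fun G => G.chi
  chi_congr := fun h => T.chi_congr h
  chi_tw₀ := fun G p => T.chi_tw₀ G p
  chi_tw₁ := fun G q => T.chi_tw₁ G q

/-- Iterated chart-0 point twist `G(−P₁ − ⋯ − P_d)` of a `TwistKit`. -/
noncomputable def TwistKit.twList (T : TwistKit D) {B : Type u} [CommRing B] [Algebra k B]
    (G : GlueDatum D B) (L : List (D.R₀ →ₐ[k] B)) : GlueDatum D B :=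
  L.foldl (fun G p => T.tw₀ G p) G

theorem TwistKit.twList_eq (T : TwistKit D) {B : Type u} [CommRing B] [Algebra k B]
    (G : GlueDatum D B) (L : List (D.R₀ →ₐ[k] B)) :
    T.twList G L = T.toPointTwistData.twList G L := rfl

/-- **Valuative existence, `GlueDatum` form, from a `TwistKit` and the point decomposition.**
`V` a valuation ring over `k` with fraction field `K`; a datum `G` over `K` which is the twist
of `O K` by `d` points of chart 0 extends to a rigidified degree-zero datum over `V`. -/
theorem TwistKit.exists_extension (T : TwistKit D)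
    (V : Type u) [CommRing V] [IsDomain V] [ValuationRing V] [Algebra k V]
    (K : Type u) [Field K] [Algebra V K] [IsFractionRing V K] [Algebra k K]
    [IsScalarTower k V K] (G : GlueDatum D K)
    (hG : ∃ L : List (D.R₀ →ₐ[k] K), L.length = T.d ∧ (T.twList (T.O K) L).Equiv G) :
    ∃ G' : GlueDatum D V, G'.IsRig ∧ G'.DegZero ∧
      (G'.baseChange (IsScalarTower.toAlgHom k V K)).Equiv G := by
  obtain ⟨L, hL, hLG⟩ := hG
  obtain ⟨G', h1, h2⟩ := T.toPointTwistData.exists_extension_list (V := V) (K := K) L (T.O V)
    (T.O K) (T.bc_O _)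
  refine ⟨G', isRig_of_isLocalRing G', fun F _ _ φ => ?_, GlueDatum.Equiv.trans h1 hLG⟩
  have h3 : (G'.baseChange φ).chi = ((T.O V).baseChange φ).chi - L.length := h2 F φ
  rw [h3, T.chi_congr (T.bc_O φ), T.chi_O F, hL]
  ring

/-- The body of `helper985.Stmt_AlgValExistAC` for one curve datum, from a `TwistKit` and the
point decomposition (U9a) of rigidified degree-zero data over algebraically closed fields. -/
theorem algValExistAC_of (T : TwistKit D)
    (hU9a : ∀ (K : Type u) [Field K] [IsAlgClosed K] [Algebra k K] (G : GlueDatum D K),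
      G.IsRig → G.DegZero →
      ∃ L : List (D.R₀ →ₐ[k] K), L.length = T.d ∧ (T.twList (T.O K) L).Equiv G)
    (V : Type u) [CommRing V] [IsDomain V] [ValuationRing V] [Algebra k V]
    (K : Type u) [Field K] [IsAlgClosed K] [Algebra V K] [IsFractionRing V K] [Algebra k K]
    [IsScalarTower k V K] (G : GlueDatum D K) (hrig : G.IsRig) (hdeg : G.DegZero) :
    ∃ G' : GlueDatum D V, G'.IsRig ∧ G'.DegZero ∧
      (G'.baseChange (IsScalarTower.toAlgHom k V K)).Equiv G :=
  T.exists_extension V K G (hU9a K G hrig hdeg)

end Capstone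

/-- **`Stmt_AlgValExistAC` from the twist kit and the point decomposition.** -/
theorem stmt_AlgValExistAC_of
    (H : ∀ (k : Type u) [Field k] [IsAlgClosed k] (D : CurveDatum k),
      ∃ T : TwistKit D,
        ∀ (K : Type u) [Field K] [IsAlgClosed K] [Algebra k K] (G : GlueDatum D K),
          G.IsRig → G.DegZero →
          ∃ L : List (D.R₀ →ₐ[k] K), L.length = T.d ∧ (T.twList (T.O K) L).Equiv G) :
    Fermat.Agent.S25.helper985.Stmt_AlgValExistAC.{u} := by
  intro k _ _ D V _ _ _ _ K _ _ _ _ _ _ G hrig hdeg
  obtain ⟨T, hT⟩ := H k D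
  exact algValExistAC_of T hT V K G hrig hdeg

end Fermat.Agent.S25.helper6871
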