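import Fermat.Agent.S25.helper1227_RelDivisor
import Fermat.Agent.S25.helper1567_RelDivisor
import Fermat.Agent.S25.helper69_ChartThm

/-!
# S25, leaf U4 (chart theorem), part 2: CT1 "section ⟹ divisor" in sub-pair form (helper69)

Definition-agnostic (plain rings and modules; imports only the RED cores of helper1227 and
helper1567 and part 1).

Setting: `B → A₀, A₁ → A₀₁`, `x : A₀`, `y : A₁`, `A₀₁ = A₀[1/x] = A₁[1/y]`, `x y = 1`;
`(N₀, N₁, N₀₁; ρ₀, ρ₁)` a two-chart module.

* `quotient_finite_of_chart` : a sub-pair `G₀ ⊆ N₀`, `G₁ ⊆ N₁` agreeing on the overlap with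
  `G₁ + y N₁ = N₁` has `N₀ ⧸ G₀` finite over `B` (no flatness, no presentation hypotheses).
* `quotient_finite_projective_of_chart` : if moreover `N₀ ⧸ G₀` is `B`-flat, `G₀` is finitely
  generated, `N₀` is finitely presented and `A₀` is a finitely presented `B`-algebra, then
  `N₀ ⧸ G₀` is finite projective over `B`.
* `mem_smul_top_of_map_mem_smul_top` : a map of invertible modules which is nonzero modulo a
  prime `P` is injective modulo `P`.
* `flat_quotient_range_of_fibrewise` : a map `t₀ : M₀ → N₀` of invertible `A₀`-modules which is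
  nonzero on every closed fibre of `Spec B` (fibres integral) is injective with `B`-flat
  cokernel.
* `chart_of_morphism` : CT1 in one statement. A morphism `(t₀, t₁)` of invertible two-chart
  modules, onto modulo `y` on the chart at infinity, with `t₀` injective and `B`-flat cokernel,
  has image the sub-pair `(I • N₀, atInfty I • N₁)` of an invertible ideal `I` with `A₀ ⧸ I`
  finite projective over `B`, and `atInfty I` contains some `u ≡ 1 mod y`.
-/

set_option autoImplicit false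

open Polynomial

namespace Fermat.Agent.S25.helper69

section AEvalMul

variable {B A Q : Type*} [CommRing B] [CommRing A] [Algebra B A] [AddCommGroup Q] [Module B Q]
  [Module A Q] [IsScalarTower B A Q]

/-- Multiplication by `a : A` as a `B`-linear endomorphism of the `A`-module `Q`. -/
noncomputable def mulEnd (B : Type*) {A : Type*} (Q : Type*) [CommRing B] [CommRing A]
    [Algebra B A] [AddCommGroup Q] [Module B Q] [Module A Q] [IsScalarTower B A Q] (a : A) :
    Module.End B Q :=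
  Algebra.lsmul B B Q a

@[simp] theorem mulEnd_apply (a : A) (q : Q) : mulEnd B Q a q = a • q := rfl

theorem aeval_mulEnd (x : A) (p : B[X]) : aeval (mulEnd B Q x) p = mulEnd B Q (aeval x p) := by
  have := Polynomial.aeval_algHom_apply (Algebra.lsmul B B Q) x p
  exact this

theorem aeval_mulEnd_apply (x : A) (p : B[X]) (q : Q) :
    aeval (mulEnd B Q x) p q = aeval x p • q := by
  rw [aeval_mulEnd]; rfl

/-- If `A` is a finitely presented `B[X]`-module via `X ↦ x` and `Q` is a finitely presented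
`A`-module, then `Q` with `X` acting as multiplication by `x` is a finitely presented
`B[X]`-module. -/
theorem finitePresentation_aeval'_mulEnd (x : A)
    (hA : letI := (aeval x : B[X] →ₐ[B] A).toRingHom.toAlgebra
      Module.FinitePresentation B[X] A)
    [Module.FinitePresentation A Q] :
    Module.FinitePresentation B[X] (Module.AEval' (mulEnd B Q x)) := by
  let _ : Algebra B[X] A := (aeval x : B[X] →ₐ[B] A).toRingHom.toAlgebra
  have : Module.FinitePresentation B[X] A := hA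
  have halg : ∀ p : B[X], algebraMap B[X] A p = aeval x p := fun p => rfl
  let _ : Module A (Module.AEval' (mulEnd B Q x)) :=
    (Module.AEval'.of (mulEnd B Q x)).symm.toAddEquiv.module A
  have hsmul : ∀ (a : A) (m : Module.AEval' (mulEnd B Q x)),
      a • m = Module.AEval'.of (mulEnd B Q x) (a • (Module.AEval'.of (mulEnd B Q x)).symm m) :=
    fun a m => rfl
  have hpsmul : ∀ (p : B[X]) (m : Module.AEval' (mulEnd B Q x)),
      p • m = Module.AEval'.of (mulEnd B Q x)
        (aeval x p • (Module.AEval'.of (mulEnd B Q x)).symm m) := by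
    intro p m
    apply (Module.AEval'.of (mulEnd B Q x)).symm.injective
    rw [Module.AEval.of_symm_smul, LinearEquiv.symm_apply_apply]
    exact aeval_mulEnd_apply x p _
  have : IsScalarTower B[X] A (Module.AEval' (mulEnd B Q x)) := ⟨fun p a m => by
    rw [hsmul, hpsmul, hsmul, LinearEquiv.symm_apply_apply, Algebra.smul_def, halg, mul_smul]⟩
  let e : Q ≃ₗ[A] Module.AEval' (mulEnd B Q x) :=
    { (Module.AEval'.of (mulEnd B Q x)).toAddEquiv with
      map_smul' := fun a q => by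
        change Module.AEval'.of (mulEnd B Q x) (a • q) = a • Module.AEval'.of (mulEnd B Q x) q
        rw [hsmul, LinearEquiv.symm_apply_apply] }
  have : Module.FinitePresentation A (Module.AEval' (mulEnd B Q x)) :=
    Module.FinitePresentation.of_equiv e
  exact Module.FinitePresentation.trans B[X] (Module.AEval' (mulEnd B Q x)) A

/-- If `A` is a finite `B[X]`-module via `X ↦ x` and `Q` is a finite `A`-module, then `Q` with
`X` acting as multiplication by `x` is a finite `B[X]`-module. -/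
theorem finite_aeval'_mulEnd (x : A)
    (hA : letI := (aeval x : B[X] →ₐ[B] A).toRingHom.toAlgebra
      Module.Finite B[X] A)
    [Module.Finite A Q] :
    Module.Finite B[X] (Module.AEval' (mulEnd B Q x)) := by
  let _ : Algebra B[X] A := (aeval x : B[X] →ₐ[B] A).toRingHom.toAlgebra
  have : Module.Finite B[X] A := hA
  have halg : ∀ p : B[X], algebraMap B[X] A p = aeval x p := fun p => rfl
  let _ : Module A (Module.AEval' (mulEnd B Q x)) :=
    (Module.AEval'.of (mulEnd B Q x)).symm.toAddEquiv.module A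
  have hsmul : ∀ (a : A) (m : Module.AEval' (mulEnd B Q x)),
      a • m = Module.AEval'.of (mulEnd B Q x) (a • (Module.AEval'.of (mulEnd B Q x)).symm m) :=
    fun a m => rfl
  have hpsmul : ∀ (p : B[X]) (m : Module.AEval' (mulEnd B Q x)),
      p • m = Module.AEval'.of (mulEnd B Q x)
        (aeval x p • (Module.AEval'.of (mulEnd B Q x)).symm m) := by
    intro p m
    apply (Module.AEval'.of (mulEnd B Q x)).symm.injective
    rw [Module.AEval.of_symm_smul, LinearEquiv.symm_apply_apply]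
    exact aeval_mulEnd_apply x p _
  have : IsScalarTower B[X] A (Module.AEval' (mulEnd B Q x)) := ⟨fun p a m => by
    rw [hsmul, hpsmul, hsmul, LinearEquiv.symm_apply_apply, Algebra.smul_def, halg, mul_smul]⟩
  let e : Q ≃ₗ[A] Module.AEval' (mulEnd B Q x) :=
    { (Module.AEval'.of (mulEnd B Q x)).toAddEquiv with
      map_smul' := fun a q => by
        change Module.AEval'.of (mulEnd B Q x) (a • q) = a • Module.AEval'.of (mulEnd B Q x) q
        rw [hsmul, LinearEquiv.symm_apply_apply] }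
  have : Module.Finite A (Module.AEval' (mulEnd B Q x)) := Module.Finite.equiv e
  exact Module.Finite.trans A (Module.AEval' (mulEnd B Q x))

end AEvalMul

section TwoChartFinite

variable {B A₀ A₁ A₀₁ : Type*} [CommRing B] [CommRing A₀] [CommRing A₁] [CommRing A₀₁]
  [Algebra B A₀] [Algebra B A₁] [Algebra B A₀₁] [Algebra A₀ A₀₁] [Algebra A₁ A₀₁]
  (x : A₀) (y : A₁) [IsLocalization.Away x A₀₁] [IsLocalization.Away y A₀₁]
  (hxy : algebraMap A₀ A₀₁ x * algebraMap A₁ A₀₁ y = 1)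
  {N₀ N₁ N₀₁ : Type*} [AddCommGroup N₀] [Module A₀ N₀] [Module B N₀] [IsScalarTower B A₀ N₀]
  [AddCommGroup N₁] [Module A₁ N₁] [Module B N₁] [IsScalarTower B A₁ N₁]
  [AddCommGroup N₀₁] [Module A₀₁ N₀₁] [Module A₀ N₀₁] [Module A₁ N₀₁] [Module B N₀₁]
  [IsScalarTower A₀ A₀₁ N₀₁] [IsScalarTower A₁ A₀₁ N₀₁] [IsScalarTower B A₀₁ N₀₁]
  [IsScalarTower B A₀ N₀₁] [IsScalarTower B A₁ N₀₁]
  (ρ₀ : N₀ →ₗ[A₀] N₀₁) (ρ₁ : N₁ →ₗ[A₁] N₀₁)
  [IsLocalizedModule (Submonoid.powers x) ρ₀] [IsLocalizedModule (Submonoid.powers y) ρ₁]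

include hxy in
/-- CHART THEOREM, finiteness (RED1 in sub-pair form). Let `G₀ ⊆ N₀`, `G₁ ⊆ N₁` be a sub-pair
of a two-chart module agreeing on the overlap, with `G₁ + y N₁ = N₁`. If the chart rings are
finite over `B[x]`, `B[y]` and `N₀`, `N₁` are finite modules, then `N₀ ⧸ G₀` is a finite
`B`-module. -/
theorem quotient_finite_of_chart
    (hfin₀ : (aeval x : B[X] →ₐ[B] A₀).toRingHom.Finite)
    (hfin₁ : (aeval y : B[X] →ₐ[B] A₁).toRingHom.Finite)
    [Module.Finite A₀ N₀] [Module.Finite A₁ N₁]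
    (G₀ : Submodule A₀ N₀) (G₁ : Submodule A₁ N₁)
    (hG : Submodule.span A₀₁ (ρ₀ '' (G₀ : Set N₀)) = Submodule.span A₀₁ (ρ₁ '' (G₁ : Set N₁)))
    (hy : G₁ ⊔ Ideal.span {y} • (⊤ : Submodule A₁ N₁) = ⊤) :
    Module.Finite B (N₀ ⧸ G₀) := by
  -- the overlap submodule
  set P : Submodule A₀₁ N₀₁ := G₀.localized' A₀₁ (Submonoid.powers x) ρ₀ with hP
  have hP₁ : P = G₁.localized' A₀₁ (Submonoid.powers y) ρ₁ := by
    rw [hP, Submodule.localized'_eq_span, Submodule.localized'_eq_span, hG]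
  -- the three quotients and the maps
  let pA : N₀ ⧸ G₀ →ₗ[A₀] N₀₁ ⧸ P := G₀.toLocalizedQuotient' A₀₁ (Submonoid.powers x) ρ₀
  have hρ₁ : G₁ ≤ Submodule.comap ρ₁ (P.restrictScalars A₁) := by
    intro g hg
    rw [Submodule.mem_comap, Submodule.restrictScalars_mem, hP₁]
    exact ⟨g, hg, 1, by simp⟩
  let qA : N₁ ⧸ G₁ →ₗ[A₁] N₀₁ ⧸ P := Submodule.mapQ G₁ (P.restrictScalars A₁) ρ₁ hρ₁
  have hqA_mk : ∀ n : N₁, qA (Submodule.Quotient.mk n) = Submodule.Quotient.mk (ρ₁ n) :=
    fun n => rfl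
  let p : N₀ ⧸ G₀ →ₗ[B] N₀₁ ⧸ P := pA.restrictScalars B
  let q : N₁ ⧸ G₁ →ₗ[B] N₀₁ ⧸ P := qA.restrictScalars B
  let ξ : Module.End B (N₀ ⧸ G₀) := mulEnd B (N₀ ⧸ G₀) x
  let η : Module.End B (N₁ ⧸ G₁) := mulEnd B (N₁ ⧸ G₁) y
  let ξW : Module.End B (N₀₁ ⧸ P) := mulEnd B (N₀₁ ⧸ P) x
  let ηW : Module.End B (N₀₁ ⧸ P) := mulEnd B (N₀₁ ⧸ P) y
  have hpξ : p ∘ₗ ξ = ξW ∘ₗ p := LinearMap.ext fun a => map_smul pA x a
  have hqη : q ∘ₗ η = ηW ∘ₗ q := LinearMap.ext fun a => map_smul qA y a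
  have hxyN : ∀ n : N₀₁, x • (y • n) = n := by
    intro n
    have h1 : y • n = algebraMap A₁ A₀₁ y • n := (algebraMap_smul A₀₁ y n).symm
    have h2 : x • (algebraMap A₁ A₀₁ y • n) =
        algebraMap A₀ A₀₁ x • (algebraMap A₁ A₀₁ y • n) := (algebraMap_smul A₀₁ x _).symm
    rw [h1, h2, ← mul_smul, hxy, one_smul]
  have hyxN : ∀ n : N₀₁, y • (x • n) = n := by
    intro n
    have h1 : x • n = algebraMap A₀ A₀₁ x • n := (algebraMap_smul A₀₁ x n).symm
    have h2 : y • (algebraMap A₀ A₀₁ x • n) =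
        algebraMap A₁ A₀₁ y • (algebraMap A₀ A₀₁ x • n) := (algebraMap_smul A₀₁ y _).symm
    rw [h1, h2, ← mul_smul, mul_comm, hxy, one_smul]
  have hxyW : ∀ w : N₀₁ ⧸ P, x • (y • w) = w := by
    intro w
    obtain ⟨n, rfl⟩ := Submodule.Quotient.mk_surjective P w
    have e1 : y • (Submodule.Quotient.mk n : N₀₁ ⧸ P) = Submodule.Quotient.mk (y • n) :=
      (Submodule.Quotient.mk_smul P y n).symm
    have e2 : x • (Submodule.Quotient.mk (y • n) : N₀₁ ⧸ P) =
        Submodule.Quotient.mk (x • (y • n)) := (Submodule.Quotient.mk_smul P x (y • n)).symm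
    rw [e1, e2, hxyN]
  have hyxW : ∀ w : N₀₁ ⧸ P, y • (x • w) = w := by
    intro w
    obtain ⟨n, rfl⟩ := Submodule.Quotient.mk_surjective P w
    have e1 : x • (Submodule.Quotient.mk n : N₀₁ ⧸ P) = Submodule.Quotient.mk (x • n) :=
      (Submodule.Quotient.mk_smul P x n).symm
    have e2 : y • (Submodule.Quotient.mk (x • n) : N₀₁ ⧸ P) =
        Submodule.Quotient.mk (y • (x • n)) := (Submodule.Quotient.mk_smul P y (x • n)).symm
    rw [e1, e2, hyxN]
  have hξη : ξW * ηW = 1 := LinearMap.ext fun w => hxyW w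
  have hηξ : ηW * ξW = 1 := LinearMap.ext fun w => hyxW w
  have hfinQ : Module.Finite B[X] (Module.AEval' ξ) := finite_aeval'_mulEnd x hfin₀
  have hfinZ : Module.Finite B[X] (Module.AEval' η) := finite_aeval'_mulEnd y hfin₁
  have hQ : helper1227.OpFG ξ := helper1227.OpFG.of_finite_aeval ξ
  have hZ : helper1227.OpFG η := helper1227.OpFG.of_finite_aeval η
  have hpow : ∀ (n : ℕ) (a : N₀ ⧸ G₀), (ξ ^ n) a = x ^ n • a := by
    intro n a
    have : ξ ^ n = mulEnd B (N₀ ⧸ G₀) (x ^ n) := (map_pow (Algebra.lsmul B B (N₀ ⧸ G₀)) x n).symm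
    rw [this]; rfl
  have hpowW : ∀ (n : ℕ) (w : N₀₁ ⧸ P), (ηW ^ n) w = y ^ n • w := by
    intro n w
    have : ηW ^ n = mulEnd B (N₀₁ ⧸ P) (y ^ n) := (map_pow (Algebra.lsmul B B (N₀₁ ⧸ P)) y n).symm
    rw [this]; rfl
  have hker : ∀ a : N₀ ⧸ G₀, p a = 0 → ∃ n : ℕ, (ξ ^ n) a = 0 := by
    intro a ha
    obtain ⟨⟨_, n, rfl⟩, hs⟩ := (IsLocalizedModule.eq_zero_iff (Submonoid.powers x) pA).mp ha
    exact ⟨n, by rw [hpow]; exact hs⟩
  have hgen : ∀ w : N₀₁ ⧸ P, ∃ n : ℕ, ∃ z : N₁ ⧸ G₁, (ηW ^ n) w = q z := by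
    intro w
    obtain ⟨m, rfl⟩ := Submodule.Quotient.mk_surjective P w
    obtain ⟨⟨n₁, ⟨_, n, rfl⟩⟩, hs⟩ := IsLocalizedModule.surj (Submonoid.powers y) ρ₁ m
    refine ⟨n, Submodule.Quotient.mk n₁, ?_⟩
    rw [hpowW]
    change y ^ n • Submodule.Quotient.mk m = qA (Submodule.Quotient.mk n₁)
    rw [hqA_mk, ← hs, ← Submodule.Quotient.mk_smul]
    rfl
  have hsurj : Function.Surjective η := by
    intro z
    obtain ⟨n, rfl⟩ := Submodule.Quotient.mk_surjective G₁ z
    have hn : n ∈ G₁ ⊔ Ideal.span {y} • (⊤ : Submodule A₁ N₁) := by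
      rw [hy]; exact Submodule.mem_top
    obtain ⟨g, hg, w, hw, rfl⟩ := Submodule.mem_sup.mp hn
    rw [Submodule.ideal_span_singleton_smul y (⊤ : Submodule A₁ N₁)] at hw
    obtain ⟨n', -, rfl⟩ := (Submodule.mem_smul_pointwise_iff_exists w y ⊤).mp hw
    refine ⟨Submodule.Quotient.mk n', ?_⟩
    change y • (Submodule.Quotient.mk n' : N₁ ⧸ G₁) = Submodule.Quotient.mk (g + y • n')
    rw [Submodule.Quotient.mk_add, (Submodule.Quotient.mk_eq_zero G₁).mpr hg, zero_add,
      Submodule.Quotient.mk_smul]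
  exact helper1227.finite_of_surjective_at_infinity ξ η ξW ηW p q hpξ hqη hξη hηξ hQ hZ hker hgen
    hsurj

include hxy in
/-- CHART THEOREM, finite projectivity (RED in sub-pair form). In the situation of
`quotient_finite_of_chart`, if moreover `A₀` is a finitely presented `B`-algebra, `N₀` is a
finitely presented `A₀`-module, `G₀` is finitely generated and `N₀ ⧸ G₀` is flat over `B`, then
`N₀ ⧸ G₀` is a finite projective `B`-module. -/
theorem quotient_finite_projective_of_chart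
    (hfin₀ : (aeval x : B[X] →ₐ[B] A₀).toRingHom.Finite)
    (hfin₁ : (aeval y : B[X] →ₐ[B] A₁).toRingHom.Finite)
    [Algebra.FinitePresentation B A₀]
    [Module.FinitePresentation A₀ N₀] [Module.Finite A₁ N₁]
    (G₀ : Submodule A₀ N₀) (G₁ : Submodule A₁ N₁) (hG₀ : G₀.FG)
    (hG : Submodule.span A₀₁ (ρ₀ '' (G₀ : Set N₀)) = Submodule.span A₀₁ (ρ₁ '' (G₁ : Set N₁)))
    (hy : G₁ ⊔ Ideal.span {y} • (⊤ : Submodule A₁ N₁) = ⊤)
    [Module.Flat B (N₀ ⧸ G₀)] :
    Module.Finite B (N₀ ⧸ G₀) ∧ Module.Projective B (N₀ ⧸ G₀) := by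
  have hfin : Module.Finite B (N₀ ⧸ G₀) :=
    quotient_finite_of_chart x y hxy ρ₀ ρ₁ hfin₀ hfin₁ G₀ G₁ hG hy
  have hfpQ : Module.FinitePresentation A₀ (N₀ ⧸ G₀) :=
    Module.finitePresentation_of_surjective G₀.mkQ (Submodule.mkQ_surjective _)
      (by rwa [Submodule.ker_mkQ])
  exact ⟨hfin, helper1567.projective_of_flat_of_finite_of_finitePresentation B A₀ (N₀ ⧸ G₀)⟩

end TwoChartFinite

section Fibre

variable {A : Type*} [CommRing A] {M N : Type*} [AddCommGroup M] [Module A M]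
  [AddCommGroup N] [Module A N]

/-- A linear functional maps `P • N` into `P`. -/
theorem dual_apply_mem_of_mem_smul_top (P : Ideal A) (ψ : Module.Dual A N) {n : N}
    (hn : n ∈ P • (⊤ : Submodule A N)) : ψ n ∈ P := by
  have h1 : ψ n ∈ (P • (⊤ : Submodule A N)).map ψ := Submodule.mem_map_of_mem hn
  rw [Submodule.map_smul''] at h1
  have h2 : P • Submodule.map ψ (⊤ : Submodule A N) ≤ P := by
    rw [Submodule.smul_le]
    intro r hr a _
    exact P.mul_mem_right a hr
  exact h2 h1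

/-- In a projective module, membership in `P • N` is detected by linear functionals. -/
theorem mem_smul_top_of_forall_dual_mem [Module.Projective A N] (P : Ideal A) (n : N)
    (h : ∀ ψ : Module.Dual A N, ψ n ∈ P) : n ∈ P • (⊤ : Submodule A N) := by
  obtain ⟨s, hs⟩ := Module.projective_def'.mp (inferInstance : Module.Projective A N)
  have hn : n = Finsupp.linearCombination A id (s n) := by
    have := LinearMap.congr_fun hs n
    simpa using this.symm
  rw [hn, Finsupp.linearCombination_apply, Finsupp.sum]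
  refine Submodule.sum_mem _ fun m _ => Submodule.smul_mem_smul ?_ Submodule.mem_top
  exact h ((Finsupp.lapply m).comp s)

/-- For a prime ideal `P` and a projective module `N`: `a • n ∈ P • N` and `n ∉ P • N` imply
`a ∈ P` (`N ⧸ P N` is torsion-free over the domain `A ⧸ P`). -/
theorem mem_of_smul_mem_smul_top [Module.Projective A N] (P : Ideal A) [hP : P.IsPrime] {a : A}
    {n : N} (hn : n ∉ P • (⊤ : Submodule A N)) (h : a • n ∈ P • (⊤ : Submodule A N)) :
    a ∈ P := by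
  by_contra ha
  refine hn (mem_smul_top_of_forall_dual_mem P n fun ψ => ?_)
  have h1 := dual_apply_mem_of_mem_smul_top P ψ h
  rw [map_smul, smul_eq_mul] at h1
  exact (hP.mem_or_mem h1).resolve_left ha

/-- FIBRE LEMMA. Let `t : M → N` be a linear map from an invertible module to a projective
module and `P` a prime ideal. If `t` is nonzero modulo `P` (some `t m₀ ∉ P • N`) then `t` is
injective modulo `P`: `t u ∈ P • N` implies `u ∈ P • M`. -/
theorem mem_smul_top_of_map_mem_smul_top [Module.Invertible A M] [Module.Projective A N]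
    (P : Ideal A) [P.IsPrime] (t : M →ₗ[A] N) {m₀ : M}
    (hm₀ : t m₀ ∉ P • (⊤ : Submodule A N)) {u : M} (hu : t u ∈ P • (⊤ : Submodule A N)) :
    u ∈ P • (⊤ : Submodule A M) := by
  refine mem_smul_top_of_forall_dual_mem P u fun φ => ?_
  have h1 : φ u • t m₀ = φ m₀ • t u := by
    rw [← map_smul, ← map_smul, dual_apply_smul_comm]
  have h2 : φ u • t m₀ ∈ P • (⊤ : Submodule A N) := by
    rw [h1]
    exact Submodule.smul_mem _ _ hu
  exact mem_of_smul_mem_smul_top P hm₀ h2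

end Fibre

section FlatFibre

variable {B A : Type*} [CommRing B] [CommRing A] [Algebra B A]
  {M N : Type*} [AddCommGroup M] [Module A M] [Module B M] [IsScalarTower B A M]
  [AddCommGroup N] [Module A N] [Module B N] [IsScalarTower B A N]

/-- `J • M` computed over `B` and `(J A) • M` computed over `A` have the same elements. -/
theorem mem_smul_top_iff_mem_map_smul_top (J : Ideal B) (m : M) :
    m ∈ J • (⊤ : Submodule B M) ↔ m ∈ J.map (algebraMap B A) • (⊤ : Submodule A M) := by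
  have h := Ideal.smul_restrictScalars (R := B) (S := A) J (⊤ : Submodule A M)
  rw [Submodule.restrictScalars_top] at h
  rw [← h, Submodule.restrictScalars_mem]

/-- A map of invertible `A`-modules which is nonzero on every closed fibre of `Spec B`
(the fibre rings `A ⧸ 𝔪 A` being domains) is fibrewise injective. -/
theorem fibInj_of_fibrewise_ne_zero [Module.Invertible A M] [Module.Projective A N]
    (t : M →ₗ[A] N)
    (hprime : ∀ 𝔪 : Ideal B, 𝔪.IsMaximal → (𝔪.map (algebraMap B A)).IsPrime)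
    (hfib : ∀ 𝔪 : Ideal B, 𝔪.IsMaximal → ∃ m : M, t m ∉ 𝔪 • (⊤ : Submodule B N)) :
    helper1567.FibInj (t.restrictScalars B) := by
  intro 𝔪 h𝔪 u hu
  have := hprime 𝔪 h𝔪
  obtain ⟨m₀, hm₀⟩ := hfib 𝔪 h𝔪
  rw [mem_smul_top_iff_mem_map_smul_top (A := A)]
  refine mem_smul_top_of_map_mem_smul_top (𝔪.map (algebraMap B A)) t (m₀ := m₀) ?_ ?_
  · exact fun h => hm₀ ((mem_smul_top_iff_mem_map_smul_top (A := A) 𝔪 _).mpr h)
  · exact (mem_smul_top_iff_mem_map_smul_top (A := A) 𝔪 _).mp hu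

/-- The cokernel of an `A`-linear map which is fibrewise injective over `B` is `B`-flat
(quotient by the `A`-submodule `range t`). -/
theorem flat_quotient_range_of_fibInj [Module.Projective B M] [Module.Projective B N]
    (t : M →ₗ[A] N) (ht : helper1567.FibInj (t.restrictScalars B)) :
    Function.Injective t ∧ Module.Flat B (N ⧸ LinearMap.range t) := by
  refine ⟨ht.injective, ?_⟩
  have : Module.Flat B (N ⧸ LinearMap.range (t.restrictScalars B)) := ht.flat_coker
  have hrange : LinearMap.range (t.restrictScalars B) =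
      (LinearMap.range t).restrictScalars B := by
    ext m
    simp only [LinearMap.mem_range, Submodule.restrictScalars_mem]
    rfl
  let e : (N ⧸ LinearMap.range (t.restrictScalars B)) ≃ₗ[B] (N ⧸ LinearMap.range t) :=
    (Submodule.quotEquivOfEq _ _ hrange).trans (Submodule.Quotient.restrictScalarsEquiv B _)
  exact Module.Flat.of_linearEquiv e.symm

/-- FLATNESS OF THE DIVISOR. A map `t : M → N` of invertible `A`-modules (projective over `B`)
which is nonzero on every closed fibre of `Spec B`, the fibre rings `A ⧸ 𝔪 A` being domains,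
is injective with `B`-flat cokernel. -/
theorem flat_quotient_range_of_fibrewise [Module.Projective B M] [Module.Projective B N]
    [Module.Invertible A M] [Module.Projective A N] (t : M →ₗ[A] N)
    (hprime : ∀ 𝔪 : Ideal B, 𝔪.IsMaximal → (𝔪.map (algebraMap B A)).IsPrime)
    (hfib : ∀ 𝔪 : Ideal B, 𝔪.IsMaximal → ∃ m : M, t m ∉ 𝔪 • (⊤ : Submodule B N)) :
    Function.Injective t ∧ Module.Flat B (N ⧸ LinearMap.range t) :=
  flat_quotient_range_of_fibInj t (fibInj_of_fibrewise_ne_zero t hprime hfib)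

end FlatFibre

section ChartOfMorphism

variable {B A₀ A₁ A₀₁ : Type*} [CommRing B] [CommRing A₀] [CommRing A₁] [CommRing A₀₁]
  [Algebra B A₀] [Algebra B A₁] [Algebra B A₀₁] [Algebra A₀ A₀₁] [Algebra A₁ A₀₁]
  (x : A₀) (y : A₁) [IsLocalization.Away x A₀₁] [IsLocalization.Away y A₀₁]
  (hxy : algebraMap A₀ A₀₁ x * algebraMap A₁ A₀₁ y = 1)
  {N₀ N₁ N₀₁ : Type*} [AddCommGroup N₀] [Module A₀ N₀] [Module B N₀] [IsScalarTower B A₀ N₀]
  [AddCommGroup N₁] [Module A₁ N₁] [Module B N₁] [IsScalarTower B A₁ N₁]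
  [AddCommGroup N₀₁] [Module A₀₁ N₀₁] [Module A₀ N₀₁] [Module A₁ N₀₁] [Module B N₀₁]
  [IsScalarTower A₀ A₀₁ N₀₁] [IsScalarTower A₁ A₀₁ N₀₁] [IsScalarTower B A₀₁ N₀₁]
  [IsScalarTower B A₀ N₀₁] [IsScalarTower B A₁ N₀₁]
  (ρ₀ : N₀ →ₗ[A₀] N₀₁) (ρ₁ : N₁ →ₗ[A₁] N₀₁)
  [IsLocalizedModule (Submonoid.powers x) ρ₀] [IsLocalizedModule (Submonoid.powers y) ρ₁]
  {M₀ M₁ M₀₁ : Type*} [AddCommGroup M₀] [Module A₀ M₀] [AddCommGroup M₁] [Module A₁ M₁]
  [AddCommGroup M₀₁] [Module A₀₁ M₀₁] [Module A₀ M₀₁] [Module A₁ M₀₁]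
  [IsScalarTower A₀ A₀₁ M₀₁] [IsScalarTower A₁ A₀₁ M₀₁]

omit [Algebra B A₀] [Algebra B A₁] [Algebra B A₀₁] [Module B N₀] [IsScalarTower B A₀ N₀]
  [Module B N₁] [IsScalarTower B A₁ N₁] [Module B N₀₁] [IsScalarTower B A₀₁ N₀₁]
  [IsScalarTower B A₀ N₀₁] [IsScalarTower B A₁ N₀₁] [IsLocalizedModule (Submonoid.powers x) ρ₀]
  [IsLocalizedModule (Submonoid.powers y) ρ₁] [IsScalarTower A₀ A₀₁ N₀₁]
  [IsScalarTower A₁ A₀₁ N₀₁] in
/-- The images of the two chart components of a morphism `(t₀, t₁, t₀₁)` of two-chart modules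
agree on the overlap (both span `range t₀₁`). -/
theorem span_image_range_eq_of_comm (σ₀ : M₀ →ₗ[A₀] M₀₁) (σ₁ : M₁ →ₗ[A₁] M₀₁)
    [IsLocalizedModule (Submonoid.powers x) σ₀] [IsLocalizedModule (Submonoid.powers y) σ₁]
    (t₀ : M₀ →ₗ[A₀] N₀) (t₁ : M₁ →ₗ[A₁] N₁) (t₀₁ : M₀₁ →ₗ[A₀₁] N₀₁)
    (h₀ : ∀ m, t₀₁ (σ₀ m) = ρ₀ (t₀ m)) (h₁ : ∀ m, t₀₁ (σ₁ m) = ρ₁ (t₁ m)) :
    Submodule.span A₀₁ (ρ₀ '' (LinearMap.range t₀ : Set N₀)) =
      Submodule.span A₀₁ (ρ₁ '' (LinearMap.range t₁ : Set N₁)) := by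
  have key₀ : Submodule.span A₀₁ (ρ₀ '' (LinearMap.range t₀ : Set N₀)) = LinearMap.range t₀₁ := by
    have h : ρ₀ '' (LinearMap.range t₀ : Set N₀) = t₀₁ '' (σ₀ '' (Set.univ : Set M₀)) := by
      ext z
      constructor
      · rintro ⟨_, ⟨m, rfl⟩, rfl⟩
        exact ⟨σ₀ m, ⟨m, Set.mem_univ _, rfl⟩, h₀ m⟩
      · rintro ⟨_, ⟨m, -, rfl⟩, rfl⟩
        exact ⟨t₀ m, ⟨m, rfl⟩, (h₀ m).symm⟩
    have htop := Submodule.localized'_top A₀₁ (Submonoid.powers x) σ₀
    rw [Submodule.localized'_eq_span] at htop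
    rw [h, Submodule.span_image, ← Submodule.top_coe (R := A₀) (M := M₀), htop,
      Submodule.map_top]
  have key₁ : Submodule.span A₀₁ (ρ₁ '' (LinearMap.range t₁ : Set N₁)) = LinearMap.range t₀₁ := by
    have h : ρ₁ '' (LinearMap.range t₁ : Set N₁) = t₀₁ '' (σ₁ '' (Set.univ : Set M₁)) := by
      ext z
      constructor
      · rintro ⟨_, ⟨m, rfl⟩, rfl⟩
        exact ⟨σ₁ m, ⟨m, Set.mem_univ _, rfl⟩, h₁ m⟩
      · rintro ⟨_, ⟨m, -, rfl⟩, rfl⟩
        exact ⟨t₁ m, ⟨m, rfl⟩, (h₁ m).symm⟩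
    have htop := Submodule.localized'_top A₀₁ (Submonoid.powers y) σ₁
    rw [Submodule.localized'_eq_span] at htop
    rw [h, Submodule.span_image, ← Submodule.top_coe (R := A₁) (M := M₁), htop,
      Submodule.map_top]
  rw [key₀, key₁]

omit [Module A₀ M₀₁] [Module A₁ M₀₁] [IsScalarTower A₀ A₀₁ M₀₁] [IsScalarTower A₁ A₀₁ M₀₁]
  [AddCommGroup M₀₁] [Module A₀₁ M₀₁] in
include hxy in
/-- CHART THEOREM (CT1, section ⟹ divisor), sub-pair form, all in one.
Let `(t₀, t₁)` be the chart components of a morphism of invertible two-chart modules whose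
images agree on the overlap (`span_image_range_eq_of_comm`), with `t₁` onto modulo `y` and `t₀`
injective with `B`-flat cokernel (`flat_quotient_range_of_fibrewise`). Then the colon ideal
`I = (range t₀ : N₀)` is invertible, `A₀ ⧸ I` is finite projective over `B`,
`range t₀ = I • N₀`, `range t₁ = atInfty I • N₁`, and `atInfty I` contains some `u ≡ 1 mod y`. -/
theorem chart_of_morphism
    (hfin₀ : (aeval x : B[X] →ₐ[B] A₀).toRingHom.Finite)
    (hfin₁ : (aeval y : B[X] →ₐ[B] A₁).toRingHom.Finite)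
    [Algebra.FinitePresentation B A₀]
    [Module.Invertible A₀ M₀] [Module.Invertible A₀ N₀] [Module.Invertible A₁ N₁]
    (t₀ : M₀ →ₗ[A₀] N₀) (t₁ : M₁ →ₗ[A₁] N₁)
    (ht : Submodule.span A₀₁ (ρ₀ '' (LinearMap.range t₀ : Set N₀)) =
      Submodule.span A₀₁ (ρ₁ '' (LinearMap.range t₁ : Set N₁)))
    (hy : ∀ n : N₁, ∃ (m : M₁) (n' : N₁), n = t₁ m + y • n')
    (hinj : Function.Injective t₀) [Module.Flat B (N₀ ⧸ LinearMap.range t₀)] :
    ∃ I : Ideal A₀, I = (LinearMap.range t₀).colon (Set.univ : Set N₀) ∧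
      Module.Invertible A₀ I ∧ Module.Finite B (A₀ ⧸ I) ∧ Module.Projective B (A₀ ⧸ I) ∧
      Module.Finite B (N₀ ⧸ LinearMap.range t₀) ∧ Module.Projective B (N₀ ⧸ LinearMap.range t₀) ∧
      LinearMap.range t₀ = I • (⊤ : Submodule A₀ N₀) ∧
      LinearMap.range t₁ =
        (I.map (algebraMap A₀ A₀₁)).comap (algebraMap A₁ A₀₁) • (⊤ : Submodule A₁ N₁) ∧
      ∃ u ∈ (I.map (algebraMap A₀ A₀₁)).comap (algebraMap A₁ A₀₁), u - 1 ∈ Ideal.span {y} := by
  have hy' : LinearMap.range t₁ ⊔ Ideal.span {y} • (⊤ : Submodule A₁ N₁) = ⊤ := by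
    rw [eq_top_iff]
    rintro n -
    obtain ⟨m, n', rfl⟩ := hy n
    exact Submodule.add_mem_sup ⟨m, rfl⟩
      (Submodule.smul_mem_smul (Ideal.mem_span_singleton_self y) Submodule.mem_top)
  have hfg : (LinearMap.range t₀).FG := by
    rw [LinearMap.range_eq_map]
    exact Module.Finite.fg_top.map t₀
  have : Module.FinitePresentation A₀ N₀ := Module.finitePresentation_of_projective A₀ N₀
  obtain ⟨hfin, hproj⟩ := quotient_finite_projective_of_chart x y hxy ρ₀ ρ₁ hfin₀ hfin₁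
    (LinearMap.range t₀) (LinearMap.range t₁) hfg ht hy'
  obtain ⟨hu, hcolon⟩ := colon_eq_comap_map_colon x y ρ₀ ρ₁ (LinearMap.range t₀)
    (LinearMap.range t₁) ht hy'
  have h₀ := colon_smul_top (LinearMap.range t₀)
  have h₁ := colon_smul_top (LinearMap.range t₁)
  have : Module.Finite B
      (N₀ ⧸ (LinearMap.range t₀).colon (Set.univ : Set N₀) • (⊤ : Submodule A₀ N₀)) := by
    rw [h₀]; exact hfin
  have : Module.Projective B
      (N₀ ⧸ (LinearMap.range t₀).colon (Set.univ : Set N₀) • (⊤ : Submodule A₀ N₀)) := by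
    rw [h₀]; exact hproj
  obtain ⟨hfinI, hprojI⟩ := quotient_finite_projective_of_quotient_smul (B := B) (N := N₀)
    ((LinearMap.range t₀).colon (Set.univ : Set N₀))
  refine ⟨_, rfl, invertible_colon_range t₀ hinj, hfinI, hprojI, hfin, hproj, h₀.symm, ?_, ?_⟩
  · rw [← hcolon, h₁]
  · rw [← hcolon]; exact hu

end ChartOfMorphism

end Fermat.Agent.S25.helper69
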