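import Fermat.Agent.S25.helper239_ChiApi
import Fermat.Agent.S25.helper8703_FieldGlue
import Fermat.Agent.S25.helper1397_HomBridge
import Fermat.Agent.S25.helper4927_TwistChi
import Fermat.Agent.S25.helper3045_HomChi
import Fermat.Agent.S25.helper1985_CechBaseChange
import Fermat.Agent.S25.helper3281_GlueLattice
import Fermat.Agent.S25.helper9598_OpenLocus
import Fermat.Agent.S25.helper3173_ChartOfAsm
import Fermat.Agent.S25.helper233_HomCongr

/-!
# S25, chart layer (root `Stmt_ChartOf`): the IMAGE clause, numerics and the index `f` (helper905)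

`k` algebraically closed, `D : CurveDatum k`, `g := helper8573.genus D`, `K` any field over `k`.

## Numerics
* `chi_unit_eq` : `χ(𝒪_K) = 1 - g`;
* `chi_baseOver` : `χ(N_K) = χ(N)` for a base bundle `N` over `k`;
  `chi_baseOver_of_hasDegreeGenus` : `χ(N_K) = χ(𝒪_K) + g` if `N` has degree `g`;
* `surjective_delta_homDatum_of_generates` (N1): if `G` has degree zero, `N'` has degree `g`
  and `Hom(G, N')` is spanned by one morphism `σ` (`σ.Generates`), then `H¹(Hom(G, N')) = 0`
  (hypothesis-passing on the Euler characteristic of the Hom datum);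
  `surjective_delta_homDatum_of_generates_field` : the same, unconditional;
  `surjective_delta_homDatum_of_inChartOf` : the same from `helper8573.InChartOf N G`;
* `finrank_quotient_eq_genus` (N2): if `σ : G → N_K` is injective on both charts, surjective
  modulo `y`, with `σ₀(G₀) = I • N₀`, `G` of degree zero and `N` of degree `g`, then
  `dim_K (A₀ K ⧸ I) = g`.

(Congruence of the Hom datum under `Equiv` is `helper233.homDatum_congr`.)

## Spreading out `H¹ = 0`
* `exists_away_delta_surjective` : if `H¹` of the fibre of `H` at a field point `γ₀ : E → K`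
  vanishes, there is `f : E` with `γ₀ f ≠ 0` such that `H¹(H ⊗ B') = 0` for every `ψ : E → B'`
  inverting `f`.

## The index `f` of the chart family of `helper3173_ChartOfAsm`
* `homDatum_twistOf_baseChange` : `Hom(N_B(−D_I), N_B) ⊗ B' ≅ Hom(N_B'(−D_I'), N_B')`;
* `exists_good_of_point` (F): a chart ideal `I` over a field with `H¹(Hom(N_K(−D_I), N_K)) = 0`
  lies in a good chart `(s, f)`;
* `exists_good_inChart_of_equiv_twistOf` : the IMAGE clause for `G ≅ N_K(−D_I)`, `I` a chart
  ideal.
-/

set_option autoImplicit false
set_option linter.style.haveILetI false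

universe u

namespace Fermat.Agent.S25.helper905

open Fermat.Agent.S25.helper1705 Fermat.Agent.S25.helper2945
open scoped TensorProduct

section Numerics

variable {k : Type u} [Field k] [IsAlgClosed k] {D : CurveDatum k}

/-- `χ(𝒪_C) = 1 - g` over the base field. -/
theorem chi_unit_base (D : CurveDatum k) :
    (GlueDatum.unit D k).chi = 1 - (helper8573.genus D : ℤ) := by
  have h0 : Module.finrank k (GlueDatum.unit D k).H0 = 1 := helper8703.finrank_H0_unit
  have h : (GlueDatum.unit D k).chi =
      (Module.finrank k (GlueDatum.unit D k).H0 : ℤ) -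
        (Module.finrank k (GlueDatum.unit D k).H1 : ℤ) := rfl
  rw [h, h0]
  rfl

/-- `χ(𝒪_{C_K}) = 1 - g` over every field `K` over `k`. -/
theorem chi_unit_eq (D : CurveDatum k) (K : Type u) [Field K] [Algebra k K] :
    (GlueDatum.unit D K).chi = 1 - (helper8573.genus D : ℤ) := by
  rw [helper239.chi_unit D K, chi_unit_base D]

variable {K : Type u} [Field K] [Algebra k K]

/-- `χ(N_K) = χ(N)` for a bundle `N` over `k`. -/
theorem chi_baseOver (N : GlueDatum D k) (K : Type u) [Field K] [Algebra k K] :
    (helper8573.baseOver N K).chi = N.chi :=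
  helper239.chi_field_ext N (Algebra.ofId k K)

/-- A base bundle of degree `g`, pulled back to `K`, has `χ = χ(𝒪_K) + g = 1`. -/
theorem chi_baseOver_of_hasDegreeGenus {N : GlueDatum D k} (hN : helper8573.HasDegreeGenus N)
    (K : Type u) [Field K] [Algebra k K] :
    (helper8573.baseOver N K).chi = (GlueDatum.unit D K).chi + (helper8573.genus D : ℤ) := by
  rw [chi_baseOver N K, hN, helper239.chi_unit D K]

/-- **(N1)** If `G` has degree zero, `N'` has degree `g` and all morphisms `G → N'` are
multiples of one morphism `σ`, then `H¹(Hom(G, N')) = 0`.  (`hchi` is the Euler characteristic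
of the Hom datum, `helper3045.chi_homDatum`; see `surjective_delta_homDatum_of_generates_field`
for the form without this hypothesis.) -/
theorem surjective_delta_homDatum_of_generates (G N' : GlueDatum D K) (hG : G.DegZero)
    (hN : N'.chi = (GlueDatum.unit D K).chi + (helper8573.genus D : ℤ))
    (hchi : (helper1397.homDatum G N').chi = N'.chi - G.chi + (GlueDatum.unit D K).chi)
    (σ : helper8573.Mor G N') (hgen : σ.Generates) :
    Function.Surjective (helper1397.homDatum G N').delta := by
  set E := helper1397.homDatum G N' with hE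
  haveI : Module.Finite K E.H0 := helper239.finite_H0_field E
  haveI : Module.Finite K E.H1 := helper239.finite_H1_field E
  have hGchi : G.chi = (GlueDatum.unit D K).chi := (helper239.degZero_iff_chi G).mp hG
  have hU := chi_unit_eq D K
  -- `h⁰ ≤ 1`
  have hH0 : E.H0 = Submodule.span K {helper1397.specMorPair σ} :=
    (helper1397.specMor_generates_iff σ).mp hgen
  have h0 : Module.finrank K E.H0 ≤ 1 := by
    rw [hH0]
    by_cases hv : helper1397.specMorPair σ = 0
    · rw [hv, Submodule.span_zero_singleton, finrank_bot]
      exact Nat.zero_le 1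
    · exact (finrank_span_singleton hv).le
  -- `χ = 1`
  have hdef : E.chi = (Module.finrank K E.H0 : ℤ) - (Module.finrank K E.H1 : ℤ) := rfl
  have h1 : Module.finrank K E.H1 = 0 := by omega
  have hsub : Subsingleton E.H1 := Module.finrank_zero_iff.mp h1
  have hrange : LinearMap.range E.delta = ⊤ := Submodule.Quotient.subsingleton_iff.mp hsub
  exact LinearMap.range_eq_top.mp hrange

/-- (N1) for the pulled back base bundle `N_K` of a bundle `N` of degree `g` over `k`. -/
theorem surjective_delta_homDatum_baseOver {N : GlueDatum D k} (hN : helper8573.HasDegreeGenus N)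
    (G : GlueDatum D K) (hG : G.DegZero)
    (hchi : (helper1397.homDatum G (helper8573.baseOver N K)).chi =
      (helper8573.baseOver N K).chi - G.chi + (GlueDatum.unit D K).chi)
    (σ : helper8573.Mor G (helper8573.baseOver N K)) (hgen : σ.Generates) :
    Function.Surjective (helper1397.homDatum G (helper8573.baseOver N K)).delta :=
  surjective_delta_homDatum_of_generates G _ hG (chi_baseOver_of_hasDegreeGenus hN K) hchi σ hgen

/-- **(N1), unconditional.**  If `G` has degree zero, `N'` has degree `g` and all morphisms
`G → N'` are multiples of one morphism `σ`, then `H¹(Hom(G, N')) = 0`. -/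
theorem surjective_delta_homDatum_of_generates_field (G N' : GlueDatum D K) (hG : G.DegZero)
    (hN : N'.chi = (GlueDatum.unit D K).chi + (helper8573.genus D : ℤ))
    (σ : helper8573.Mor G N') (hgen : σ.Generates) :
    Function.Surjective (helper1397.homDatum G N').delta :=
  surjective_delta_homDatum_of_generates G N' hG hN (helper3045.chi_homDatum G N') σ hgen

/-- (N1) in the vocabulary of the chart spec: the intrinsic chart condition forces
`H¹(Hom(G, N_K)) = 0`. -/
theorem surjective_delta_homDatum_of_inChartOf {N : GlueDatum D k}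
    (hN : helper8573.HasDegreeGenus N) (G : GlueDatum D K) (hG : G.DegZero)
    (h : helper8573.InChartOf N G) :
    Function.Surjective (helper1397.homDatum G (helper8573.baseOver N K)).delta := by
  obtain ⟨σ, -, hgen⟩ := h
  exact surjective_delta_homDatum_baseOver hN G hG (helper3045.chi_homDatum G _) σ hgen

/-- **(N2)** The divisor of a morphism `σ : G → N'` which is an isomorphism along `V(y)`, from
a bundle of degree zero to a bundle of degree `g`, has degree `g`:
`dim_K (A₀ K ⧸ I) = g` when `σ₀(G₀) = I • N'₀`. -/
theorem finrank_quotient_eq_genus (G N' : GlueDatum D K) (hG : G.DegZero)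
    (hN : N'.chi = (GlueDatum.unit D K).chi + (helper8573.genus D : ℤ))
    (σ : helper8573.Mor G N') (h₀ : Function.Injective σ.f₀) (h₁ : Function.Injective σ.f₁)
    (hY : σ.SurjModY) (I : Ideal (D.A₀ K)) (hI : LinearMap.range σ.f₀ = I • ⊤)
    [Module.Finite K (D.A₀ K ⧸ I)] :
    Module.finrank K (D.A₀ K ⧸ I) = helper8573.genus D := by
  haveI : Module.Finite K N'.H0 := helper239.finite_H0_field N'
  haveI : Module.Finite K N'.H1 := helper239.finite_H1_field N'
  obtain ⟨-, -, h⟩ := helper4927.chi_of_mor_ideal σ h₀ h₁ hY I hI
  have hGchi : G.chi = (GlueDatum.unit D K).chi := (helper239.degZero_iff_chi G).mp hG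
  omega

end Numerics

section Brick

variable {k : Type u} [Field k] [IsAlgClosed k] {D : CurveDatum k}

/-- **Spreading out the vanishing of `H¹`.**  Let `H` be a glue datum over a `k`-algebra `E` and
`γ₀ : E → K` a field-valued point at which `H¹` of the fibre vanishes.  Then there is `f : E`
with `γ₀ f ≠ 0` such that `H¹` of EVERY base change `ψ : E → B'` inverting `f` vanishes. -/
theorem exists_away_delta_surjective {E : Type u} [CommRing E] [Algebra k E]
    (H : GlueDatum D E) {K : Type u} [Field K] [Algebra k K] (γ₀ : E →ₐ[k] K)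
    (h : Function.Surjective (H.baseChange γ₀).delta) :
    ∃ f : E, γ₀ f ≠ 0 ∧ ∀ (B' : Type u) [CommRing B'] [Algebra k B'] (ψ : E →ₐ[k] B'),
      IsUnit (ψ f) → Function.Surjective (H.baseChange ψ).delta := by
  haveI : Module.Finite E H.H1 := helper3281.finite_H1 H
  have hmem : (letI := helper1985.algPhi γ₀; helper9598.fieldPoint E K) ∈
      helper9598.zeroFibreLocus (B := E) H.H1 := by
    letI := helper1985.algPhi γ₀
    rw [← helper9598.subsingleton_field_tensor_iff]
    exact (helper1985.subsingleton_H1_baseChange_iff H γ₀).mp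
      ((helper1985.subsingleton_H1_iff (H.baseChange γ₀)).mpr h)
  obtain ⟨U, ⟨f, rfl⟩, hfU, hUsub⟩ :=
    PrimeSpectrum.isTopologicalBasis_basic_opens.exists_subset_of_mem_open hmem
      (helper9598.isOpen_zeroFibreLocus (B := E) H.H1)
  refine ⟨f, fun h0 => hfU ?_, ?_⟩
  · letI := helper1985.algPhi γ₀
    exact (helper9598.mem_fieldPoint_iff (K := K) f).mpr h0
  · intro B' _ _ ψ hψ
    letI := helper1985.algPhi ψ
    rw [← helper1985.subsingleton_H1_iff, helper1985.subsingleton_H1_baseChange_iff,
      helper9598.subsingleton_baseChange_iff]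
    intro q
    apply hUsub
    change f ∉ (PrimeSpectrum.comap (algebraMap E B') q).asIdeal
    rw [PrimeSpectrum.comap_asIdeal, Ideal.mem_comap]
    intro hq
    exact q.isPrime.ne_top (Ideal.eq_top_of_isUnit_mem _ hq hψ)

end Brick


section GoodIndex

variable {k : Type u} [Field k] [IsAlgClosed k] {D : CurveDatum k}

/-- `twistOf N I` only depends on the ideal `I`. -/
theorem twistOf_equiv_of_eq (N : GlueDatum D k) {B : Type u} [CommRing B] [Algebra k B]
    {I I' : Ideal (D.A₀ B)} [Module.Finite B (D.A₀ B ⧸ I)] [Module.Projective B (D.A₀ B ⧸ I)]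
    [Module.Finite B (D.A₀ B ⧸ I')] [Module.Projective B (D.A₀ B ⧸ I')] (h : I = I') :
    (helper3173.twistOf N I).Equiv (helper3173.twistOf N I') := by
  subst h
  exact GlueDatum.Equiv.refl _

/-- The Hom datum `Hom(N_B(−D_I), N_B)` commutes with base change. -/
theorem homDatum_twistOf_baseChange (N : GlueDatum D k) {B B' : Type u} [CommRing B]
    [Algebra k B] [CommRing B'] [Algebra k B'] (φ : B →ₐ[k] B') (I : Ideal (D.A₀ B))
    [Module.Finite B (D.A₀ B ⧸ I)] [Module.Projective B (D.A₀ B ⧸ I)]
    (I' : Ideal (D.A₀ B')) [Module.Finite B' (D.A₀ B' ⧸ I')] [Module.Projective B' (D.A₀ B' ⧸ I')]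
    (h : I.map (D.map₀ φ) = I') :
    ((helper1397.homDatum (helper3173.twistOf N I) (helper8573.baseOver N B)).baseChange φ).Equiv
      (helper1397.homDatum (helper3173.twistOf N I') (helper8573.baseOver N B')) := by
  subst h
  exact (helper1397.homDatum_baseChange_equiv _ _ φ).trans
    (helper233.homDatum_congr (helper3173.twistOf_baseChange N φ I)
      (helper3173.baseOver_baseChange N φ))

/-- **(F) Existence of the index `f`.**  Let `I` be a chart ideal (for `s`) over a field `K` such
that `H¹(Hom(N_K(−D_I), N_K)) = 0`.  Then there is a function `f` on the chart of `s`, invertible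
at `I`, such that the index `(s, f)` is good: `H¹(Hom(P, N_W)) = 0` over `W = ChartAlg[1/f]`. -/
theorem exists_good_of_point (N : GlueDatum D k) (s : Fin (helper8573.genus D) → D.R₀)
    {K : Type u} [Field K] [Algebra k K] (I : Ideal (D.A₀ K)) (hI : helper1002.IsChartIdeal s I)
    [Module.Finite K (D.A₀ K ⧸ I)] [Module.Projective K (D.A₀ K ⧸ I)]
    (hH1 : Function.Surjective
      (helper1397.homDatum (helper3173.twistOf N I) (helper8573.baseOver N K)).delta) :
    ∃ f : helper1002.ChartAlg k D.R₀ s, IsUnit (hI.eval f) ∧ helper3173.Good N s f := by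
  have hIu : helper1002.IsChartIdeal s (helper1002.univIdeal k D.R₀ s) :=
    helper1002.isChartIdeal_univIdeal
  haveI := hIu.finite
  haveI := hIu.projective
  obtain ⟨f, hf0, hf⟩ := exists_away_delta_surjective
    (helper1397.homDatum (helper3173.twistOf N (helper1002.univIdeal k D.R₀ s))
      (helper8573.baseOver N (helper1002.ChartAlg k D.R₀ s)))
    ((helper1002.chartEquiv k D.R₀ s K).symm ⟨I, hI⟩)
    ((helper233.surjective_delta_iff_of_equiv (homDatum_twistOf_baseChange N _ _ I (by
      have h := helper1002.chartEquiv_apply (s := s) ((helper1002.chartEquiv k D.R₀ s K).symm ⟨I, hI⟩)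
      rw [Equiv.apply_symm_apply] at h
      exact h.symm))).mpr hH1)
  refine ⟨f, isUnit_iff_ne_zero.mpr hf0, ?_⟩
  haveI := helper3173.finite_of_isChartIdeal (helper3173.isChartIdeal_chartIdeal s f)
  haveI := helper3173.projective_of_isChartIdeal (helper3173.isChartIdeal_chartIdeal s f)
  have h2 := hf (helper3173.W D s f) (helper1002.toAway k f) (helper1002.isUnit_toAway k f)
  exact (helper233.surjective_delta_iff_of_equiv
    (homDatum_twistOf_baseChange N (helper1002.toAway k f) _ (helper3173.chartIdeal s f) rfl)).mp h2

/-- **IMAGE, last step.**  If `G` over a field `K` has degree zero, satisfies the intrinsic chart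
condition for `N` (of degree `g`) and is isomorphic to `N_K(−D_I)` for a chart ideal `I` (for
`s`), then `G` is pulled back from a good chart `(s, f)` of the family `helper3173.P N`. -/
theorem exists_good_inChart_of_equiv_twistOf {N : GlueDatum D k}
    (hN : helper8573.HasDegreeGenus N) (s : Fin (helper8573.genus D) → D.R₀)
    {K : Type u} [Field K] [Algebra k K] (G : GlueDatum D K) (hG : G.DegZero)
    (hch : helper8573.InChartOf N G) (I : Ideal (D.A₀ K)) (hI : helper1002.IsChartIdeal s I)
    [Module.Finite K (D.A₀ K ⧸ I)] [Module.Projective K (D.A₀ K ⧸ I)]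
    (hGI : G.Equiv (helper3173.twistOf N I)) :
    ∃ f : helper1002.ChartAlg k D.R₀ s,
      helper3173.Good N s f ∧ helper8573.InChart (helper3173.P N s f) G := by
  have h1 := surjective_delta_homDatum_of_inChartOf hN G hG hch
  have h2 := (helper233.surjective_delta_homDatum_iff hGI (GlueDatum.Equiv.refl _)).mp h1
  obtain ⟨f, hf, hgood⟩ := exists_good_of_point N s I hI h2
  refine ⟨f, hgood, ?_⟩
  obtain ⟨ψ, hψ⟩ := helper1002.exists_chartAwayMap f hI hf
  haveI := helper3173.finite_of_isChartIdeal (helper3173.isChartIdeal_chartIdeal s f)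
  haveI := helper3173.projective_of_isChartIdeal (helper3173.isChartIdeal_chartIdeal s f)
  haveI := ((helper3173.isChartIdeal_chartIdeal s f).map ψ).finite
  haveI := ((helper3173.isChartIdeal_chartIdeal s f).map ψ).projective
  have hψ' : (helper3173.chartIdeal s f).map (D.map₀ ψ) = I := hψ
  exact ⟨ψ, (helper3173.twistOf_baseChange N ψ (helper3173.chartIdeal s f)).trans
    ((twistOf_equiv_of_eq N hψ').trans hGI.symm)⟩

end GoodIndex

end Fermat.Agent.S25.helper905
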