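import Fermat.Agent.S25.helper69_ChartGlue
import Fermat.Agent.S25.helper3173_ChartOfAsm
import Fermat.Agent.S25.helper905_ChartNumerics
import Fermat.Agent.S25.helper3045_HomChi
import Fermat.Agent.S25.helper1985_CechBaseChange
import Fermat.Agent.S25.helper233_HomCongr
import Fermat.Agent.S25.helper1035_TwistBridge
import Fermat.Agent.S25.helper6401_UnivDeg
import Fermat.Agent.S25.helper4743_CoverAsm
import Fermat.Agent.S25.helper7196_GoodBC
import Fermat.Agent.S25.helper25_FieldGenerates
import Fermat.Agent.S25.helper653_ChartFibGlobal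
import Fermat.Agent.S25.helper5903_ChartFibre
import Fermat.Agent.S25.helper4755_ChartSpread
import Fermat.Agent.S25.helper720_EndGlue

/-!
# S25, root `Stmt_ChartOfAC`: the IMAGE clause, MONO and OPEN from (FG1), and the root theorem
(helper69, LC1 integrator)

The chart family is the one of `helper3173_ChartOfAsm` (captain's ruling R12): charts indexed by
`(s, f)`, chart algebra `W D s f`, universal bundle `P N s f = N_W(−D_univ)`, index condition
`Good N s f` (`H¹(Hom(P, N_W)) = 0`).

* `twistOf_congr` : `twistOf N I` only depends on the ideal;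
* `univImage_of`, `stmt_UnivImage` : the IMAGE clause `helper3173.Stmt_UnivImage`;
* `Stmt_FG1` : "fibrewise ⟹ global" for the intrinsic chart condition with `H¹ = 0`;
* `univMono_of`, `univMono_of_fg1` : the MONO clause `helper3173.Stmt_UnivMono` from (FG1);
* `univOpen_of_fg1` : the OPEN clause `helper3173.Stmt_UnivOpen` from (FG1);
* `stmt_ChartOfAC_of_fg1` : the root `helper8573.Stmt_ChartOfAC` from (FG1);
* `stmt_FG1` (= `helper720.inChartOf_of_fibrewise`) and **`stmt_ChartOfAC`**, the root theorem.
-/

set_option autoImplicit false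

open TensorProduct

namespace Fermat.Agent.S25.helper69

open Fermat.Agent.S25.helper1705 Fermat.Agent.S25.helper2945

universe u

section Point

variable {k : Type u} [Field k] [IsAlgClosed k] {D : CurveDatum k}

/-- `twistOf N I` only depends on the ideal `I`. -/
theorem twistOf_congr (N : GlueDatum D k) {B : Type u} [CommRing B] [Algebra k B]
    {I J : Ideal (D.A₀ B)} (h : I = J)
    [Module.Finite B (D.A₀ B ⧸ I)] [Module.Projective B (D.A₀ B ⧸ I)]
    [Module.Finite B (D.A₀ B ⧸ J)] [Module.Projective B (D.A₀ B ⧸ J)] :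
    helper3173.twistOf N I = helper3173.twistOf N J := by
  subst h
  rfl

end Point

/-- **IMAGE clause** of the chart family, from the existence of the index `f` (hypothesis `hF`):
a field-valued chart ideal `I` for `s` with `H¹(Hom(N_K(−D_I), N_K)) = 0` lies in a good chart
`(s, f)`. -/
theorem univImage_of
    (hF : ∀ (k : Type u) [Field k] [IsAlgClosed k] (D : CurveDatum k) (N : GlueDatum D k),
      helper8573.HasDegreeGenus N → ∀ (s : Fin (helper8573.genus D) → D.R₀)
      (K : Type u) [Field K] [Algebra k K] (I : Ideal (D.A₀ K)) (hI : helper1002.IsChartIdeal s I)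
      [Module.Finite K (D.A₀ K ⧸ I)] [Module.Projective K (D.A₀ K ⧸ I)],
      Function.Surjective
        (helper1397.homDatum (helper3173.twistOf N I) (helper8573.baseOver N K)).delta →
      ∃ f : helper1002.ChartAlg k D.R₀ s, IsUnit (hI.eval f) ∧ helper3173.Good N s f) :
    helper3173.Stmt_UnivImage.{u} := by
  intro k _ _ D N hN K _ _ _ G hG hG0 hin
  obtain ⟨σ, hY, hgen⟩ := hin
  obtain ⟨I, hIinv, hI₁inv, hmap, -, hfin, hproj, hinj₀, hinj₁, hr₀, -, -, hequiv⟩ :=
    chart_of_mor σ hY
  -- `G ≈ N_K(−D_I)` in the reference vocabulary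
  have hGI : G.Equiv (helper3173.twistOf N I) :=
    hequiv.trans (helper1035.twist_equiv_twist6121 (helper8573.baseOver N K)
      (helper3173.divOf I) I _ hmap rfl rfl).symm
  -- the divisor has degree `g`
  have hchiN := helper905.chi_baseOver_of_hasDegreeGenus hN K
  have hg : Module.finrank K (D.A₀ K ⧸ I) = helper8573.genus D :=
    helper905.finrank_quotient_eq_genus G _ hG0 hchiN σ hinj₀ hinj₁ hY I hr₀
  obtain ⟨s, hs⟩ := helper1002.exists_isChartIdeal_of_finrank (k := k) (R := D.R₀) I
    (helper8573.genus D) hg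
  -- `H¹(Hom(G, N_K)) = 0`, transported to the twist
  have hH1 : Function.Surjective (helper1397.homDatum G (helper8573.baseOver N K)).delta :=
    helper905.surjective_delta_homDatum_baseOver hN G hG0 (helper3045.chi_homDatum G _) σ hgen
  have hH1' : Function.Surjective
      (helper1397.homDatum (helper3173.twistOf N I) (helper8573.baseOver N K)).delta :=
    (helper233.surjective_delta_homDatum_iff hGI (GlueDatum.Equiv.refl _)).mp hH1
  obtain ⟨f, hf, hgood⟩ := hF k D N hN s K I hs hH1'
  obtain ⟨ψ, hψ⟩ := helper1002.exists_chartAwayMap f hs hf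
  refine ⟨s, f, hgood, ψ, ?_⟩
  have hψ' : (helper3173.chartIdeal s f).map (D.map₀ ψ) = I := hψ
  have : Module.Finite K (D.A₀ K ⧸ (helper3173.chartIdeal s f).map (D.map₀ ψ)) := by
    rw [hψ']; exact hfin
  have : Module.Projective K (D.A₀ K ⧸ (helper3173.chartIdeal s f).map (D.map₀ ψ)) := by
    rw [hψ']; exact hproj
  have h1 := helper3173.stmt_UnivPoint k D N s f K ψ
  rw [twistOf_congr N hψ'] at h1
  exact h1.trans hGI.symm

/-- **IMAGE clause** of the chart family `P N s f`. -/
theorem stmt_UnivImage : helper3173.Stmt_UnivImage.{u} :=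
  univImage_of (fun _ _ _ _ N _ s _ _ _ I hI _ _ h => helper905.exists_good_of_point N s I hI h)

/-- **(FG1) Fibrewise ⟹ global**: if over every closed point of `Spec B` some field-valued
fibre of the rigidified bundle `G` has a morphism to `N` which is onto modulo `y` at infinity,
generates all morphisms and has `H¹(Hom(G, N)) = 0`, then the same holds over `B`. -/
def Stmt_FG1 : Prop :=
  ∀ (k : Type u) [Field k] [IsAlgClosed k] (D : CurveDatum k) (N : GlueDatum D k),
    helper8573.HasDegreeGenus N →
    ∀ (B : Type u) [CommRing B] [Algebra k B] (G : GlueDatum D B), G.IsRig →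
      (∀ m : Ideal B, m.IsMaximal → ∃ (K : Type u) (_ : Field K) (_ : Algebra k K)
        (χ : B →ₐ[k] K), RingHom.ker χ.toRingHom = m ∧
          ∃ σ : helper8573.Mor (G.baseChange χ) (helper8573.baseOver N K), σ.SurjModY ∧
            σ.Generates ∧ Function.Surjective
              (helper1397.homDatum (G.baseChange χ) (helper8573.baseOver N K)).delta) →
      ∃ σ : helper8573.Mor G (helper8573.baseOver N B), σ.SurjModY ∧ σ.Generates ∧
        Function.Surjective (helper1397.homDatum G (helper8573.baseOver N B)).delta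

/-- **MONO clause** of the chart family (second route, without the snake sequence), from:
* `hFG1` : fibrewise ⟹ global for the intrinsic chart condition with `H¹ = 0`;
* `hM1f` : over a field, `H¹(Hom(G, N')) = 0` implies that every nonzero morphism generates;
* `hRG`  : a morphism which is an isomorphism along `V(y)` has the same image as a generating
  morphism. -/
theorem univMono_of
    (hFG1 : Stmt_FG1.{u})
    (hM1f : ∀ (k : Type u) [Field k] [IsAlgClosed k] (D : CurveDatum k) (K : Type u) [Field K]
      [Algebra k K] (G N' : GlueDatum D K), G.DegZero →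
      N'.chi = (GlueDatum.unit D K).chi + (helper8573.genus D : ℤ) →
      Function.Surjective (helper1397.homDatum G N').delta →
      ∀ σ : helper8573.Mor G N', σ.f₀ ≠ 0 → σ.Generates)
    (hRG : ∀ (k : Type u) [Field k] [IsAlgClosed k] (D : CurveDatum k) (B : Type u) [CommRing B]
      [Algebra k B] (G N : GlueDatum D B) (σ τ : helper8573.Mor G N), σ.Generates → τ.SurjModY →
      LinearMap.range τ.f₀ = LinearMap.range σ.f₀) :
    helper3173.Stmt_UnivMono.{u} := by
  intro k _ _ D N hN s f hgood B _ _ φ φ' h
  have hc := helper3173.isChartIdeal_chartIdeal (D := D) s f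
  have hI : helper1002.IsChartIdeal s ((helper3173.chartIdeal s f).map (D.map₀ φ)) := hc.map φ
  have hI' : helper1002.IsChartIdeal s ((helper3173.chartIdeal s f).map (D.map₀ φ')) :=
    hc.map φ'
  have := hI.finite
  have := hI.projective
  have := hI'.finite
  have := hI'.projective
  have e1 := helper3173.stmt_UnivPoint k D N s f B φ
  have e2 := helper3173.stmt_UnivPoint k D N s f B φ'
  obtain ⟨e⟩ := e1.symm.trans (h.trans e2)
  -- a generating morphism `N_B(−D_I) → N_B`, by (FG1)
  obtain ⟨σ, -, hσgen, -⟩ := hFG1 k D N hN B _ (helper3173.isRig_twistOf N _) (fun m hm => by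
    let _ : Field (B ⧸ m) := Ideal.Quotient.field m
    let χ : B →ₐ[k] B ⧸ m := Ideal.Quotient.mkₐ k m
    refine ⟨B ⧸ m, inferInstance, inferInstance, χ, Ideal.Quotient.mkₐ_ker k m, ?_⟩
    have hJ : helper1002.IsChartIdeal s ((helper3173.chartIdeal s f).map (D.map₀ (χ.comp φ))) :=
      hc.map (χ.comp φ)
    have hIJ : ((helper3173.chartIdeal s f).map (D.map₀ φ)).map (D.map₀ χ) =
        (helper3173.chartIdeal s f).map (D.map₀ (χ.comp φ)) := by
      rw [Ideal.map_mapₐ]
      congr 1
      exact AlgHom.ext fun a => (helper743.map₀_comp φ χ a).symm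
    have := hJ.finite
    have := hJ.projective
    have : Module.Finite (B ⧸ m) (D.A₀ (B ⧸ m) ⧸
        ((helper3173.chartIdeal s f).map (D.map₀ φ)).map (D.map₀ χ)) := by
      rw [hIJ]; exact hJ.finite
    have : Module.Projective (B ⧸ m) (D.A₀ (B ⧸ m) ⧸
        ((helper3173.chartIdeal s f).map (D.map₀ φ)).map (D.map₀ χ)) := by
      rw [hIJ]; exact hJ.projective
    have eG := helper3173.twistOf_baseChange N χ ((helper3173.chartIdeal s f).map (D.map₀ φ))
    rw [twistOf_congr N hIJ] at eG
    have hH1 := helper7196.good_baseChange hgood (χ.comp φ)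
    have hdeg : (helper3173.twistOf N
        ((helper3173.chartIdeal s f).map (D.map₀ (χ.comp φ)))).DegZero :=
      helper743.degZero_of_equiv (helper3173.stmt_UnivPoint k D N s f (B ⧸ m) (χ.comp φ))
        (helper743.degZero_baseChange (helper6401.stmt_UnivDeg k D N hN s f) (χ.comp φ))
    have hY := helper3173.twistOfIncl_surjModY N
      ((helper3173.chartIdeal s f).map (D.map₀ (χ.comp φ)))
    have hne : (helper3173.twistOfIncl N
        ((helper3173.chartIdeal s f).map (D.map₀ (χ.comp φ)))).f₀ ≠ 0 := by
      intro h0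
      obtain ⟨z, hz⟩ := exists_notMem_smul_top_of_surjModY _ hY (⊥ : Ideal (B ⧸ m))
        Ideal.bot_isMaximal
      rw [h0] at hz
      exact hz (Submodule.zero_mem _)
    have hgen := hM1f k D (B ⧸ m) _ _ hdeg (helper905.chi_baseOver_of_hasDegreeGenus hN (B ⧸ m))
      hH1 _ hne
    obtain ⟨eG'⟩ := eG
    exact ⟨_, helper4743.surjModY_comp_iso_source hY eG',
      helper4743.generates_comp_iso_source hgen eG',
      (helper233.surjective_delta_homDatum_iff ⟨eG'⟩ (GlueDatum.Equiv.refl _)).mpr hH1⟩)
  -- the two inclusions have the image of `σ`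
  have hτ := helper3173.twistOfIncl_surjModY N ((helper3173.chartIdeal s f).map (D.map₀ φ))
  have hτ' := helper4743.surjModY_comp_iso_source
    (helper3173.twistOfIncl_surjModY N ((helper3173.chartIdeal s f).map (D.map₀ φ'))) e
  have h1 := hRG k D B _ _ σ _ hσgen hτ
  have h2 := hRG k D B _ _ σ _ hσgen hτ'
  have h3 : LinearMap.range (((helper3173.twistOfIncl N
      ((helper3173.chartIdeal s f).map (D.map₀ φ'))).comp (helper8573.Mor.ofIso e)).f₀) =
      LinearMap.range (helper3173.twistOfIncl N
        ((helper3173.chartIdeal s f).map (D.map₀ φ'))).f₀ := by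
    change LinearMap.range ((helper3173.twistOfIncl N
      ((helper3173.chartIdeal s f).map (D.map₀ φ'))).f₀.comp e.e₀.toLinearMap) = _
    rw [LinearMap.range_comp, LinearEquiv.range, Submodule.map_top]
  have h4 : ((helper3173.chartIdeal s f).map (D.map₀ φ) •
      (⊤ : Submodule (D.A₀ B) (helper8573.baseOver N B).M₀)) =
      (helper3173.chartIdeal s f).map (D.map₀ φ') • ⊤ := by
    rw [← helper3173.range_twistOfIncl_f₀ N ((helper3173.chartIdeal s f).map (D.map₀ φ)), h1,
      ← h2, h3, helper3173.range_twistOfIncl_f₀]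
  exact helper1002.chartAway_hom_ext f (ideal_smul_top_injective h4)

/-- **MONO clause** of the chart family from (FG1). -/
theorem univMono_of_fg1 (hFG1 : Stmt_FG1.{u}) : helper3173.Stmt_UnivMono.{u} :=
  univMono_of hFG1
    (fun _ _ _ _ _ _ _ G N' hG hN' h1 σ hσ =>
      helper25.generates_of_surjective_delta G N' hG hN' h1 σ hσ)
    (fun _ _ _ _ _ _ _ _ _ σ τ hσ hτ => (helper653.range_eq_of_generates σ τ hσ hτ).1)

/-- **OPEN clause** of the chart family from (FG1): fibrewise ⟹ global for the chart
(`helper653.fibGlobal_P_of`) and spreading out (`helper4755.chartOpenIdeal_of_fibGlobal`). -/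
theorem univOpen_of_fg1 (hFG1 : Stmt_FG1.{u}) : helper3173.Stmt_UnivOpen.{u} := by
  intro k _ _ D N hN s f hgood
  have := helper1800.finiteType₀ D
  exact helper4755.chartOpenIdeal_of_fibGlobal (helper3173.P N s f)
    (helper653.fibGlobal_P_of N s f (hFG1 k D N hN)
      (fun _ _ _ I _ _ h => helper5903.isChartIdeal_of_fibrewise s I h)
      (fun _ _ _ γ _ _ => helper7196.good_baseChange hgood γ)
      (fun _ _ _ _ _ e h =>
        (helper233.surjective_delta_homDatum_iff e (GlueDatum.Equiv.refl _)).mp h)
      (fun K _ _ G hG h σ hσ => helper25.generates_of_surjective_delta G _ hG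
        (helper905.chi_baseOver_of_hasDegreeGenus hN K) h σ hσ))

/-- **ROOT `Stmt_ChartOfAC`**, from the three remaining clauses (RIG, DEG are theorems:
`helper3173.stmt_UnivRig`, `helper6401.stmt_UnivDeg`). -/
theorem stmt_ChartOfAC_of (hMono : helper3173.Stmt_UnivMono.{u})
    (hOpen : helper3173.Stmt_UnivOpen.{u}) (hImage : helper3173.Stmt_UnivImage.{u}) :
    helper8573.Stmt_ChartOfAC.{u} :=
  helper3173.stmt_ChartOfAC_of helper3173.stmt_UnivRig helper6401.stmt_UnivDeg hMono hOpen hImage

/-- **ROOT `Stmt_ChartOfAC`** from (FG1) alone. -/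
theorem stmt_ChartOfAC_of_fg1 (hFG1 : Stmt_FG1.{u}) : helper8573.Stmt_ChartOfAC.{u} :=
  stmt_ChartOfAC_of (univMono_of_fg1 hFG1) (univOpen_of_fg1 hFG1) stmt_UnivImage

/-- **(FG1)** is `helper720.inChartOf_of_fibrewise`. -/
theorem stmt_FG1 : Stmt_FG1.{u} :=
  fun _ _ _ _ N _ _ _ _ G hG hfib => helper720.inChartOf_of_fibrewise N G hG hfib

/-- **ROOT `Stmt_ChartOfAC`** (LC1): for every base bundle `N` of degree `g` over an
algebraically closed field, the good charts `(W D s f, P N s f)` form a chart family of the
rigidified degree-zero bundles with the intrinsic chart condition `InChartOf N`. -/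
theorem stmt_ChartOfAC : helper8573.Stmt_ChartOfAC.{u} :=
  stmt_ChartOfAC_of_fg1 stmt_FG1

end Fermat.Agent.S25.helper69
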