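import Fermat.Agent.S25.helper7084_RigCore
import Fermat.Agent.S25.helper2911_ProdChart
import Fermat.Agent.S25.helper2945_AlgDefs

/-!
# S25, leaf U16 (helper7084), part 2: the dictionary field `rig_iff` in opens form

`helper7084_RigCore` proves: `L` on `C ×ₖ Spec B` is rigidified along `ε` iff
`B ⊗[R₁ ⊗ B] Γ(J₁^* L) ≅ B`, where `J₁` is the chart at infinity.  Here we identify
`Γ(J^* L)` with the sections `Γ(L, J.opensRange)` of `L` over the chart (form (E)), and deduce
the field `rig_iff` of the dictionary for a model in opens form.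

* `sectionsPullbackEquiv` (E1) : for an open immersion `f : Y ⟶ X`,
  `Γ(L, f ''ᵁ U) ≃+ Γ(f^* L, U)`, semilinear along `f.appIso U`.
* `chartΓHom`, `chartΓEquiv` : the ring isomorphism `Γ(X, J.opensRange) ≃ A` of an affine chart
  `J : Spec A ⟶ X`.
* `chartSections` (E2) : `Γ(L, J.opensRange) ≃+ Γ(J^* L, ⊤)`, semilinear along `chartΓHom J`.
* `chartLinearEquiv` (E3) : an `A`-module `M` identified with `Γ(L, J.opensRange)` semilinearly
  along a section of `chartΓHom J` is `A`-linearly `Γ(J^* L)`.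
* `rigidified_iff_tensor_of_linearEquiv` (G1), `rigidified_iff_isRig` (G2) : the field `rig_iff`.
-/

set_option autoImplicit false

universe u

open CategoryTheory CategoryTheory.Limits AlgebraicGeometry Opposite TensorProduct
open AlgebraicGeometry.RelPicard NeronModelInfra

namespace Fermat.Agent.S25.helper7084

noncomputable section

/-! ## (E1): sections of a pullback along an open immersion -/

section Sections

variable {X Y : Scheme.{u}} (f : Y ⟶ X) [IsOpenImmersion f] (L : X.Modules)

/-- (E1) For an open immersion `f`, the sections of `L` over `f ''ᵁ U` are the sections of the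
pullback `f^* L` over `U`. -/
def sectionsPullbackEquiv (U : Y.Opens) :
    Γ(L, f ''ᵁ U) ≃+ Γ((Scheme.Modules.pullback f).obj L, U) :=
  let e' : L.restrict f ≅ (Scheme.Modules.pullback f).obj L :=
    (Scheme.Modules.restrictFunctorIsoPullback f).app L
  let φ : Γ(L.restrict f, U) ⟶ Γ((Scheme.Modules.pullback f).obj L, U) := e'.hom.app U
  let ψ : Γ((Scheme.Modules.pullback f).obj L, U) ⟶ Γ(L.restrict f, U) := e'.inv.app U
  have hφψ : φ ≫ ψ = 𝟙 _ := by
    have := Scheme.Modules.Hom.comp_app (U := U) e'.hom e'.inv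
    rw [e'.hom_inv_id] at this
    exact this.symm
  have hψφ : ψ ≫ φ = 𝟙 _ := by
    have := Scheme.Modules.Hom.comp_app (U := U) e'.inv e'.hom
    rw [e'.inv_hom_id] at this
    exact this.symm
  ((L.restrictAppIso f U).symm.addCommGroupIsoToAddEquiv).trans
    (Iso.mk φ ψ hφψ hψφ).addCommGroupIsoToAddEquiv

/-- (E1) is semilinear along `f.appIso U : Γ(X, f ''ᵁ U) ≅ Γ(Y, U)`. -/
theorem sectionsPullbackEquiv_smul (U : Y.Opens) (s : Γ(X, f ''ᵁ U)) (m : Γ(L, f ''ᵁ U)) :
    sectionsPullbackEquiv f L U (s • m) =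
      (f.appIso U).hom s • sectionsPullbackEquiv f L U m := by
  have h1 : (L.restrictAppIso f U).symm.addCommGroupIsoToAddEquiv (s • m) =
      (f.appIso U).hom s • (L.restrictAppIso f U).symm.addCommGroupIsoToAddEquiv m :=
    Scheme.Modules.smul_restrictAppIso_inv_apply f L U s m
  show ((Scheme.Modules.restrictFunctorIsoPullback f).app L).hom.app U
      ((L.restrictAppIso f U).symm.addCommGroupIsoToAddEquiv (s • m)) = _
  rw [h1]
  exact Scheme.Modules.Hom.app_smul ((Scheme.Modules.restrictFunctorIsoPullback f).app L).hom _ _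

/-- Transport of sections along an equality of opens. -/
def sectionsCongr {U V : X.Opens} (h : U = V) : Γ(L, V) ≃+ Γ(L, U) :=
  (L.presheaf.mapIso (eqToIso h).op).addCommGroupIsoToAddEquiv

theorem sectionsCongr_smul {U V : X.Opens} (h : U = V) (s : Γ(X, V)) (m : Γ(L, V)) :
    sectionsCongr L h (s • m) = X.presheaf.map (eqToHom h).op s • sectionsCongr L h m :=
  Scheme.Modules.map_smul L (eqToHom h) s m

end Sections

/-! ## (E2), (E3): sections over an affine chart -/

section Chart

variable {A : CommRingCat.{u}} {X : Scheme.{u}} (J : Spec A ⟶ X) [IsOpenImmersion J]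
  (L : X.Modules)

/-- The canonical ring homomorphism (an isomorphism) `Γ(X, J.opensRange) → A` of an affine
chart `J : Spec A ⟶ X`. -/
def chartΓHom : Γ(X, J.opensRange) →+* A :=
  (J.appLE J.opensRange ⊤ (by simp) ≫ (Scheme.ΓSpecIso A).hom).hom

theorem chartΓHom_apply (s : Γ(X, J.opensRange)) :
    chartΓHom J s = (Scheme.ΓSpecIso A).hom (J.appLE J.opensRange ⊤ (by simp) s) := rfl

/-- `chartΓHom` is inverse to Mathlib's `IsOpenImmersion.ΓIsoTop`. -/
theorem chartΓHom_ΓIsoTop_hom (t : Γ(Spec A, ⊤)) :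
    chartΓHom J ((IsOpenImmersion.ΓIsoTop J).hom t) = (Scheme.ΓSpecIso A).hom t := by
  have h : (IsOpenImmersion.ΓIsoTop J).hom ≫ J.appLE J.opensRange ⊤ (by simp) = 𝟙 _ := by
    simp [IsOpenImmersion.ΓIsoTop, Scheme.Hom.map_appLE]
  rw [chartΓHom_apply]
  exact congrArg (Scheme.ΓSpecIso A).hom congr($(h) t)

/-- The canonical ring isomorphism `A ≃+* Γ(X, J.opensRange)` of an affine chart. -/
def chartΓEquiv : A ≃+* Γ(X, J.opensRange) :=
  ((Scheme.ΓSpecIso A).symm ≪≫ IsOpenImmersion.ΓIsoTop J).commRingCatIsoToRingEquiv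

theorem chartΓHom_chartΓEquiv (a : A) : chartΓHom J (chartΓEquiv J a) = a := by
  show chartΓHom J ((IsOpenImmersion.ΓIsoTop J).hom ((Scheme.ΓSpecIso A).inv a)) = a
  rw [chartΓHom_ΓIsoTop_hom]
  exact congr($((Scheme.ΓSpecIso A).inv_hom_id) a)

theorem chartΓEquiv_chartΓHom (s : Γ(X, J.opensRange)) : chartΓEquiv J (chartΓHom J s) = s := by
  obtain ⟨a, rfl⟩ := (chartΓEquiv J).surjective s
  rw [chartΓHom_chartΓEquiv]

theorem chartΓHom_bijective : Function.Bijective (chartΓHom J) :=
  ⟨fun s t h => by rw [← chartΓEquiv_chartΓHom J s, h, chartΓEquiv_chartΓHom],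
    fun a => ⟨chartΓEquiv J a, chartΓHom_chartΓEquiv J a⟩⟩

/-- A ring homomorphism `γ : A → Γ(X, J.opensRange)` is a section of `chartΓHom` as soon as it
is a section of `J.appLE` up to `ΓSpecIso`. -/
theorem chartΓHom_of_appLE (γ : A →+* Γ(X, J.opensRange))
    (h : ∀ a, J.appLE J.opensRange ⊤ (by simp) (γ a) = (Scheme.ΓSpecIso A).inv a) (a : A) :
    chartΓHom J (γ a) = a := by
  rw [chartΓHom_apply, h]
  exact congr($((Scheme.ΓSpecIso A).inv_hom_id) a)

/-- A section of `chartΓHom` is the canonical isomorphism. -/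
theorem eq_chartΓEquiv_of_section (γ : A →+* Γ(X, J.opensRange))
    (h : ∀ a, chartΓHom J (γ a) = a) (a : A) : γ a = chartΓEquiv J a :=
  (chartΓHom_bijective J).1 ((h a).trans (chartΓHom_chartΓEquiv J a).symm)

/-- (E2) The sections of `L` over the chart are the global sections of the pullback of `L` to
the chart. -/
def chartSections : Γ(L, J.opensRange) ≃+ Γ((Scheme.Modules.pullback J).obj L, ⊤) :=
  (sectionsCongr L J.image_top_eq_opensRange).trans (sectionsPullbackEquiv J L ⊤)

/-- (E2) is semilinear along `chartΓHom J`, for the `A`-module structure of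
`Γ(J^* L, ⊤)` (the one of `moduleSpecΓFunctor`). -/
theorem chartSections_smul (s : Γ(X, J.opensRange)) (m : Γ(L, J.opensRange)) :
    chartSections J L (s • m) = chartΓHom J s • chartSections J L m := by
  show sectionsPullbackEquiv J L ⊤ (sectionsCongr L J.image_top_eq_opensRange (s • m)) = _
  rw [sectionsCongr_smul, sectionsPullbackEquiv_smul, Scheme.Modules.smul_Spec_def]
  congr 1
  have h1 : X.presheaf.map (eqToHom J.image_top_eq_opensRange).op ≫ (J.appIso ⊤).hom =
      J.appLE J.opensRange ⊤ (by simp) := by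
    rw [Scheme.Hom.appIso_hom', Scheme.Hom.map_appLE]
  have h2 : (J.appLE J.opensRange ⊤ (by simp) ≫ (Scheme.ΓSpecIso A).hom) ≫
      (Scheme.ΓSpecIso A).inv ≫ (Spec A).presheaf.map (⊤ : (Spec A).Opens).leTop.op =
      J.appLE J.opensRange ⊤ (by simp) := by
    have h3 : (Spec A).presheaf.map (⊤ : (Spec A).Opens).leTop.op = 𝟙 _ :=
      (Spec A).presheaf.map_id _
    rw [h3, Category.comp_id, Category.assoc, Iso.hom_inv_id, Category.comp_id]
  have h4 := congr($(h1) s)
  have h5 := congr($(h2) s)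
  exact h4.trans h5.symm

/-- (E3) A module `M` over `A` which is identified, semilinearly along a section `γ` of
`chartΓHom J`, with the sections of `L` over the chart, is `A`-linearly the module of global
sections of the pullback of `L` to the chart. -/
def chartLinearEquiv (M : Type u) [AddCommGroup M] [Module A M]
    (γ : A →+* Γ(X, J.opensRange)) (hγ : ∀ a, chartΓHom J (γ a) = a)
    (e : M ≃+ Γ(L, J.opensRange)) (he : ∀ a m, e (a • m) = γ a • e m) :
    M ≃ₗ[A] (ΓMod ((Scheme.Modules.pullback J).obj L) : Type u) where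
  toFun m := chartSections J L (e m)
  invFun n := e.symm ((chartSections J L).symm n)
  map_add' m m' := by
    rw [map_add, map_add]
    rfl
  map_smul' a m := by
    rw [he, chartSections_smul, hγ]
    rfl
  left_inv m :=
    (congrArg e.symm ((chartSections J L).symm_apply_apply (e m))).trans (e.symm_apply_apply m)
  right_inv n :=
    (congrArg (chartSections J L) (e.apply_symm_apply _)).trans
      ((chartSections J L).apply_symm_apply n)

theorem chartLinearEquiv_apply (M : Type u) [AddCommGroup M] [Module A M]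
    (γ : A →+* Γ(X, J.opensRange)) (hγ : ∀ a, chartΓHom J (γ a) = a)
    (e : M ≃+ Γ(L, J.opensRange)) (he : ∀ a m, e (a • m) = γ a • e m) (m : M) :
    chartLinearEquiv J L M γ hγ e he m = chartSections J L (e m) := rfl

end Chart

/-! ## (G): the field `rig_iff` -/

section Algebra

variable (A B : Type u) [CommRing A] [CommRing B] [Algebra A B]

/-- `B ⊗[A] M ≅ B` only depends on the isomorphism class of `M`. -/
theorem tensor_equiv_self_congr {M N : Type u} [AddCommGroup M] [Module A M] [AddCommGroup N]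
    [Module A N] (e : M ≃ₗ[A] N) :
    Nonempty (B ⊗[A] M ≃ₗ[B] B) ↔ Nonempty (B ⊗[A] N ≃ₗ[B] B) :=
  ⟨fun ⟨i⟩ => ⟨(TensorProduct.AlgebraTensorModule.congr (LinearEquiv.refl B B) e.symm).trans i⟩,
    fun ⟨i⟩ => ⟨(TensorProduct.AlgebraTensorModule.congr (LinearEquiv.refl B B) e).trans i⟩⟩

end Algebra

section Rig

open Fermat.Agent.S25.helper1705 Fermat.Agent.S25.helper2945 Fermat.Agent.S25.helper2911

variable {k : Type u} [Field k] {C : Scheme.{u}} {c : C ⟶ Spec (CommRingCat.of k)}
  {ε : SchemeHomOver (𝟙 (Spec (CommRingCat.of k))) c} {D : CurveDatum k}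
  (R : Realization c ε D) (B : Type u) [CommRing B] [Algebra k B]

/-- (G1) `L` is rigidified along `ε` iff `B ⊗ M₁ ≅ B`, for any `R₁ ⊗[k] B`-module `M₁`
linearly identified with the global sections of the pullback of `L` to the chart at infinity
`helper2911.realChart₁ R B`. -/
theorem rigidified_iff_tensor_of_linearEquiv
    (L : (pullback c (specStr k B)).Modules) (hL : Scheme.Modules.IsInvertible L)
    (M₁ : Type u) [AddCommGroup M₁] [Module (D.A₁ B) M₁]
    (e : M₁ ≃ₗ[D.A₁ B]
      (ΓMod ((Scheme.Modules.pullback (realChart₁ R B)).obj L) : Type u)) :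
    Nonempty ((Scheme.Modules.pullback (rigSection c (specStr k B) ε)).obj L ≅
        SheafOfModules.unit.{u} (Spec (CommRingCat.of B)).ringCatSheaf) ↔
      letI := algE D B
      Nonempty ((B ⊗[D.A₁ B] M₁) ≃ₗ[B] B) := by
  rw [pullback_iso_unit_iff_of_chart_of_isInvertible
    (CommRingCat.ofHom (D.eB B).toRingHom) (realChart₁ R B) _ (realChart₁_rigSection R B).symm L hL]
  exact (@extendScalars_obj_iso_self_iff (D.A₁ B) B _ _ (algE D B)
    (ΓMod ((Scheme.Modules.pullback (realChart₁ R B)).obj L))).trans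
    (@tensor_equiv_self_congr (D.A₁ B) B _ _ (algE D B) _ _ _ _ _ _ e).symm

/-- (G2) The dictionary entry `rig_iff` in opens form: if the module `G.M₁` of a glue datum is
identified with the sections of `L` over the chart at infinity
`U₁ = (realChart₁ R B).opensRange`, semilinearly along a section `γ₁` of `chartΓHom`
(e.g. `γ₁ = chartΓEquiv (realChart₁ R B)`), then `L` is rigidified along `ε` iff `G.IsRig`. -/
theorem rigidified_iff_isRig [IsOpenImmersion (realChart₁ R B)]
    (L : (pullback c (specStr k B)).Modules) (hL : Scheme.Modules.IsInvertible L)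
    (G : GlueDatum D B)
    (γ₁ : D.A₁ B →+* Γ(pullback c (specStr k B), (realChart₁ R B).opensRange))
    (hγ₁ : ∀ a, chartΓHom (realChart₁ R B) (γ₁ a) = a)
    (e₁ : G.M₁ ≃+ Γ(L, (realChart₁ R B).opensRange))
    (he₁ : ∀ (a : D.A₁ B) (m : G.M₁), e₁ (a • m) = γ₁ a • e₁ m) :
    Nonempty ((Scheme.Modules.pullback (rigSection c (specStr k B) ε)).obj L ≅
        SheafOfModules.unit.{u} (Spec (CommRingCat.of B)).ringCatSheaf) ↔ G.IsRig :=
  rigidified_iff_tensor_of_linearEquiv R B L hL G.M₁
    (chartLinearEquiv (realChart₁ R B) L G.M₁ γ₁ hγ₁ e₁ he₁)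

/-- (G2) for a ring isomorphism `γ₁ : R₁ ⊗[k] B ≃+* Γ(X, U₁)`. -/
theorem rigidified_iff_isRig_of_ringEquiv [IsOpenImmersion (realChart₁ R B)]
    (L : (pullback c (specStr k B)).Modules) (hL : Scheme.Modules.IsInvertible L)
    (G : GlueDatum D B)
    (γ₁ : D.A₁ B ≃+* Γ(pullback c (specStr k B), (realChart₁ R B).opensRange))
    (hγ₁ : ∀ a, chartΓHom (realChart₁ R B) (γ₁ a) = a)
    (e₁ : G.M₁ ≃+ Γ(L, (realChart₁ R B).opensRange))
    (he₁ : ∀ (a : D.A₁ B) (m : G.M₁), e₁ (a • m) = γ₁ a • e₁ m) :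
    Nonempty ((Scheme.Modules.pullback (rigSection c (specStr k B) ε)).obj L ≅
        SheafOfModules.unit.{u} (Spec (CommRingCat.of B)).ringCatSheaf) ↔ G.IsRig :=
  rigidified_iff_isRig R B L hL G γ₁.toRingHom (fun a => hγ₁ a) e₁ (fun a m => he₁ a m)

/-- (G2) for the canonical ring isomorphism `chartΓEquiv (realChart₁ R B)`. -/
theorem rigidified_iff_isRig_chartΓEquiv [IsOpenImmersion (realChart₁ R B)]
    (L : (pullback c (specStr k B)).Modules) (hL : Scheme.Modules.IsInvertible L)
    (G : GlueDatum D B)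
    (e₁ : G.M₁ ≃+ Γ(L, (realChart₁ R B).opensRange))
    (he₁ : ∀ (a : D.A₁ B) (m : G.M₁),
      e₁ (a • m) = chartΓEquiv (realChart₁ R B) a • e₁ m) :
    Nonempty ((Scheme.Modules.pullback (rigSection c (specStr k B) ε)).obj L ≅
        SheafOfModules.unit.{u} (Spec (CommRingCat.of B)).ringCatSheaf) ↔ G.IsRig :=
  rigidified_iff_isRig_of_ringEquiv R B L hL G (chartΓEquiv (realChart₁ R B))
    (fun a => chartΓHom_chartΓEquiv (realChart₁ R B) a) e₁ he₁

end Rig

end

end Fermat.Agent.S25.helper7084
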