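import Fermat.Agent.S25.helper1705_Spec2
import Fermat.Agent.S25.helper7939_TildeBaseChange
import Fermat.Agent.S25.helper845_InvTilde

/-!
# S25, leaf U16 (helper7084): rigidification of a line bundle `⟺` `IsRig` of its model

Def-agnostic core of the dictionary entry "`L` is rigidified along `ε` iff the module of the chart
at infinity becomes free of rank one after base change along `e ⊗ B : R₁ ⊗[k] B → B`".

* `pullback_tilde_iso_unit_iff` (A) : `(Spec φ)^* (M^~) ≅ 𝒪` iff `B ⊗[A] M ≅ B` (bundled form).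
* `pullback_iso_unit_iff_of_isQuasicoherent` (B) : the same for a quasi-coherent module on `Spec A`.
* `pullback_iso_unit_iff_of_chart` (C) : `s^* L ≅ 𝒪` for a section `s` factoring through a chart
  `j : Spec A ⟶ X` (no open-immersion hypothesis is needed).
* `extendScalarsEquiv`, `extendScalars_iso_self_iff` (D) : unbundling of `ModuleCat.extendScalars`.
* `chart₁`, `rigSection_eq_of_chart` (F) : for a `Realization` of the curve, the rigidifying
  section of `C ×ₖ Spec B` factors through the chart at infinity as `Spec (e ⊗ B)`.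
* `rigidified_iff_of_chart`, `rigidified_iff_tensor_of_chart` (G) : the dictionary entry.
-/

set_option autoImplicit false

universe u

open CategoryTheory CategoryTheory.Limits AlgebraicGeometry Opposite TensorProduct
open AlgebraicGeometry.RelPicard NeronModelInfra

namespace Fermat.Agent.S25.helper7084

open Fermat.Agent.S25.helper1705

noncomputable section

/-! ## (A), (B), (C): pullbacks to `Spec B` that are trivial -/

section Core

variable {A B : CommRingCat.{u}} (φ : A ⟶ B)

/-- (A) The pullback of `M^~` along `Spec φ` is trivial iff `B ⊗[A] M` is free of rank one. -/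
theorem pullback_tilde_iso_unit_iff (M : ModuleCat.{u} A) :
    Nonempty ((Scheme.Modules.pullback (Spec.map φ)).obj ((tilde.functor A).obj M) ≅
        SheafOfModules.unit.{u} (Spec B).ringCatSheaf) ↔
      Nonempty ((ModuleCat.extendScalars φ.hom).obj M ≅ ModuleCat.of B B) := by
  have e1 : (Scheme.Modules.pullback (Spec.map φ)).obj ((tilde.functor A).obj M) ≅
      (tilde.functor B).obj ((ModuleCat.extendScalars φ.hom).obj M) :=
    (Fermat.Agent.S25.helper7939.tildePullbackIso φ).app M
  have e2 : (tilde.functor B).obj (ModuleCat.of B B) ≅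
      SheafOfModules.unit.{u} (Spec B).ringCatSheaf := tildeSelf
  constructor
  · rintro ⟨e⟩
    exact ⟨(tilde.fullyFaithfulFunctor (R := B)).preimageIso (e1.symm ≪≫ e ≪≫ e2.symm)⟩
  · rintro ⟨e⟩
    exact ⟨e1 ≪≫ (tilde.functor B).mapIso e ≪≫ e2⟩

/-- The `A`-module of global sections of a module on `Spec A`. -/
abbrev ΓMod (N : (Spec A).Modules) : ModuleCat.{u} A := moduleSpecΓFunctor.obj N

/-- (B) The pullback of a quasi-coherent module on `Spec A` along `Spec φ` is trivial iff
`B ⊗[A] Γ(N)` is free of rank one. -/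
theorem pullback_iso_unit_iff_of_isQuasicoherent (N : (Spec A).Modules) [N.IsQuasicoherent] :
    Nonempty ((Scheme.Modules.pullback (Spec.map φ)).obj N ≅
        SheafOfModules.unit.{u} (Spec B).ringCatSheaf) ↔
      Nonempty ((ModuleCat.extendScalars φ.hom).obj (ΓMod N) ≅ ModuleCat.of B B) := by
  rw [← pullback_tilde_iso_unit_iff]
  have e0 := asIso N.fromTildeΓ
  have e : (tilde.functor A).obj (ΓMod N) ≅ N := e0
  constructor
  · rintro ⟨i⟩
    exact ⟨(Scheme.Modules.pullback (Spec.map φ)).mapIso e ≪≫ i⟩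
  · rintro ⟨i⟩
    exact ⟨(Scheme.Modules.pullback (Spec.map φ)).mapIso e.symm ≪≫ i⟩

/-- (C) If the section `s : Spec B ⟶ X` factors as `Spec φ ≫ j` through a chart
`j : Spec A ⟶ X` on which `L` is quasi-coherent, then `s^* L` is trivial iff
`B ⊗[A] Γ(j^* L)` is free of rank one. -/
theorem pullback_iso_unit_iff_of_chart {X : Scheme.{u}} (j : Spec A ⟶ X) (s : Spec B ⟶ X)
    (hs : Spec.map φ ≫ j = s) (L : X.Modules)
    [((Scheme.Modules.pullback j).obj L).IsQuasicoherent] :
    Nonempty ((Scheme.Modules.pullback s).obj L ≅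
        SheafOfModules.unit.{u} (Spec B).ringCatSheaf) ↔
      Nonempty ((ModuleCat.extendScalars φ.hom).obj (ΓMod ((Scheme.Modules.pullback j).obj L)) ≅
        ModuleCat.of B B) := by
  rw [← pullback_iso_unit_iff_of_isQuasicoherent]
  have e : (Scheme.Modules.pullback (Spec.map φ)).obj ((Scheme.Modules.pullback j).obj L) ≅
      (Scheme.Modules.pullback s).obj L :=
    (Scheme.Modules.pullbackComp (Spec.map φ) j).app L ≪≫ (Scheme.Modules.pullbackCongr hs).app L
  constructor
  · rintro ⟨i⟩
    exact ⟨e ≪≫ i⟩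
  · rintro ⟨i⟩
    exact ⟨e.symm ≪≫ i⟩

/-- (C') The same for a Prelude-invertible `L`. -/
theorem pullback_iso_unit_iff_of_chart_of_isInvertible {X : Scheme.{u}} (j : Spec A ⟶ X)
    (s : Spec B ⟶ X) (hs : Spec.map φ ≫ j = s) (L : X.Modules)
    (hL : Scheme.Modules.IsInvertible L) :
    Nonempty ((Scheme.Modules.pullback s).obj L ≅
        SheafOfModules.unit.{u} (Spec B).ringCatSheaf) ↔
      Nonempty ((ModuleCat.extendScalars φ.hom).obj (ΓMod ((Scheme.Modules.pullback j).obj L)) ≅
        ModuleCat.of B B) :=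
  have := Fermat.Agent.S25.helper845.isQuasicoherent_of_isInvertible _ (hL.pullback j)
  pullback_iso_unit_iff_of_chart φ j s hs L

end Core

/-! ## (D): unbundling `ModuleCat.extendScalars` -/

section Unbundle

variable (A B : Type u) [CommRing A] [CommRing B] [Algebra A B]
  (M : Type u) [AddCommGroup M] [Module A M]

set_option backward.isDefEq.respectTransparency false in
/-- The `A`-linear identification of `B` with restricted scalars and `B`. -/
def restrictSelfEquiv :
    ((ModuleCat.restrictScalars (algebraMap A B)).obj (ModuleCat.of B B)) ≃ₗ[A] B where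
  toFun b := b
  invFun b := b
  map_add' _ _ := rfl
  map_smul' r b := (Algebra.smul_def r (show B from b)).symm
  left_inv _ := rfl
  right_inv _ := rfl

/-- The underlying `A`-linear identification of `extendScalars` with the tensor product. -/
def extendScalarsAux :
    (((ModuleCat.restrictScalars (algebraMap A B)).obj (ModuleCat.of B B)) ⊗[A] M) ≃ₗ[A]
      B ⊗[A] M :=
  TensorProduct.congr (restrictSelfEquiv A B) (LinearEquiv.refl A M)

set_option backward.isDefEq.respectTransparency false in
theorem extendScalarsAux_tmul (b : B) (m : M) :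
    extendScalarsAux A B M
      ((show ((ModuleCat.restrictScalars (algebraMap A B)).obj (ModuleCat.of B B)) from b) ⊗ₜ[A] m) =
      b ⊗ₜ[A] m := rfl

set_option backward.isDefEq.respectTransparency false in
theorem extendScalarsAux_smul (b : B)
    (x : ((ModuleCat.extendScalars (algebraMap A B)).obj (ModuleCat.of A M))) :
    extendScalarsAux A B M (b • x) = b • extendScalarsAux A B M x := by
  induction x using TensorProduct.induction_on with
  | zero =>
    rw [smul_zero]
    erw [map_zero]
    rw [smul_zero]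
  | tmul n m =>
    erw [ModuleCat.ExtendScalars.smul_tmul]
    erw [extendScalarsAux_tmul, extendScalarsAux_tmul]
    rw [TensorProduct.smul_tmul']
    rfl
  | add x y hx hy =>
    rw [smul_add]
    erw [map_add, map_add]
    erw [hx, hy]
    rw [smul_add]

set_option backward.isDefEq.respectTransparency false in
/-- (D) `ModuleCat.extendScalars` along `algebraMap A B` is `B ⊗[A] -`, `B`-linearly. -/
def extendScalarsEquiv :
    ((ModuleCat.extendScalars (algebraMap A B)).obj (ModuleCat.of A M)) ≃ₗ[B] B ⊗[A] M where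
  toFun x := extendScalarsAux A B M x
  map_add' x y := map_add (extendScalarsAux A B M) x y
  map_smul' b x := extendScalarsAux_smul A B M b x
  invFun y := (extendScalarsAux A B M).symm y
  left_inv x := (extendScalarsAux A B M).symm_apply_apply x
  right_inv y := (extendScalarsAux A B M).apply_symm_apply y

/-- (D) `extendScalars M ≅ B` in `ModuleCat B` iff `B ⊗[A] M ≃ₗ[B] B`. -/
theorem extendScalars_iso_self_iff :
    Nonempty ((ModuleCat.extendScalars (algebraMap A B)).obj (ModuleCat.of A M) ≅
        ModuleCat.of B B) ↔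
      Nonempty (B ⊗[A] M ≃ₗ[B] B) := by
  constructor
  · rintro ⟨e⟩
    exact ⟨(extendScalarsEquiv A B M).symm.trans e.toLinearEquiv⟩
  · rintro ⟨e⟩
    exact ⟨((extendScalarsEquiv A B M).trans e).toModuleIso⟩

/-- (D) for an object of `ModuleCat A`. -/
theorem extendScalars_obj_iso_self_iff (N : ModuleCat.{u} A) :
    Nonempty ((ModuleCat.extendScalars (algebraMap A B)).obj N ≅ ModuleCat.of B B) ↔
      Nonempty (B ⊗[A] N ≃ₗ[B] B) :=
  extendScalars_iso_self_iff A B N

end Unbundle

/-! ## (F): the rigidifying section factors through the chart at infinity -/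

section Chart

variable {k : Type u} [Field k] {C : Scheme.{u}} {c : C ⟶ Spec (CommRingCat.of k)}
  {ε : SchemeHomOver (𝟙 (Spec (CommRingCat.of k))) c} {D : CurveDatum k}
  (Rz : Realization c ε D) (B : Type u) [CommRing B] [Algebra k B]

/-- The structure morphism of `Spec B` for a `k`-algebra `B`. -/
abbrev tB (k : Type u) [Field k] (B : Type u) [CommRing B] [Algebra k B] :
    Spec (CommRingCat.of B) ⟶ Spec (CommRingCat.of k) :=
  Spec.map (CommRingCat.ofHom (algebraMap k B))

/-- `R₁ → R₁ ⊗[k] B`. -/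
abbrev inl₁ (D : CurveDatum k) (B : Type u) [CommRing B] [Algebra k B] : D.R₁ →+* D.A₁ B :=
  (Algebra.TensorProduct.includeLeft : D.R₁ →ₐ[k] D.R₁ ⊗[k] B).toRingHom

/-- `B → R₁ ⊗[k] B`. -/
abbrev inr₁ (D : CurveDatum k) (B : Type u) [CommRing B] [Algebra k B] : B →+* D.A₁ B :=
  (Algebra.TensorProduct.includeRight : B →ₐ[k] D.R₁ ⊗[k] B).toRingHom

theorem chart₁_aux :
    (Spec.map (CommRingCat.ofHom (inl₁ D B)) ≫ Rz.j₁) ≫ c =
      Spec.map (CommRingCat.ofHom (inr₁ D B)) ≫ tB k B := by
  rw [Category.assoc, Rz.fac₁, ← Spec.map_comp, ← Spec.map_comp]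
  congr 1
  ext x
  simp [inl₁, inr₁, Algebra.algebraMap_eq_smul_one]

/-- The chart at infinity of `C ×ₖ Spec B`, as a morphism `Spec (R₁ ⊗[k] B) ⟶ C ×ₖ Spec B`. -/
def chart₁ : Spec (CommRingCat.of (D.A₁ B)) ⟶ pullback c (tB k B) :=
  pullback.lift (Spec.map (CommRingCat.ofHom (inl₁ D B)) ≫ Rz.j₁)
    (Spec.map (CommRingCat.ofHom (inr₁ D B))) (chart₁_aux Rz B)

@[reassoc]
theorem chart₁_fst : chart₁ Rz B ≫ pullback.fst c (tB k B) =
    Spec.map (CommRingCat.ofHom (inl₁ D B)) ≫ Rz.j₁ :=
  pullback.lift_fst _ _ _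

@[reassoc]
theorem chart₁_snd : chart₁ Rz B ≫ pullback.snd c (tB k B) =
    Spec.map (CommRingCat.ofHom (inr₁ D B)) :=
  pullback.lift_snd _ _ _

/-- Any morphism with the two projections of `chart₁` is `chart₁`. -/
theorem eq_chart₁ (J : Spec (CommRingCat.of (D.A₁ B)) ⟶ pullback c (tB k B))
    (h1 : J ≫ pullback.fst c (tB k B) = Spec.map (CommRingCat.ofHom (inl₁ D B)) ≫ Rz.j₁)
    (h2 : J ≫ pullback.snd c (tB k B) = Spec.map (CommRingCat.ofHom (inr₁ D B))) :
    J = chart₁ Rz B := by
  apply pullback.hom_ext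
  · rw [h1, chart₁_fst]
  · rw [h2, chart₁_snd]

/-- (F) The rigidifying section of `C ×ₖ Spec B` is `Spec (e ⊗ B)` followed by the chart at
infinity (stated for any morphism `J` with the projections of the chart). -/
theorem rigSection_eq_of_chart
    (J : Spec (CommRingCat.of (D.A₁ B)) ⟶ pullback c (tB k B))
    (h1 : J ≫ pullback.fst c (tB k B) = Spec.map (CommRingCat.ofHom (inl₁ D B)) ≫ Rz.j₁)
    (h2 : J ≫ pullback.snd c (tB k B) = Spec.map (CommRingCat.ofHom (inr₁ D B))) :
    Spec.map (CommRingCat.ofHom (D.eB B).toRingHom) ≫ J = rigSection c (tB k B) ε := by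
  unfold rigSection
  apply pullback.hom_ext
  · rw [Category.assoc, h1, pullback.lift_fst, Rz.eps, ← Category.assoc, ← Category.assoc,
      ← Spec.map_comp, ← Spec.map_comp]
    congr 2
    ext x
    simp [inl₁, Algebra.algebraMap_eq_smul_one]
  · rw [Category.assoc, h2, pullback.lift_snd, ← Spec.map_comp]
    rw [← Spec.map_id]
    congr 1
    ext x
    simp [inr₁]

/-- (F) for the canonical chart. -/
theorem rigSection_eq_chart₁ :
    Spec.map (CommRingCat.ofHom (D.eB B).toRingHom) ≫ chart₁ Rz B = rigSection c (tB k B) ε :=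
  rigSection_eq_of_chart Rz B _ (chart₁_fst Rz B) (chart₁_snd Rz B)

/-! ## (G): the dictionary entry -/

/-- (G), bundled form. For an invertible `L` on `C ×ₖ Spec B`: `L` is rigidified along `ε` iff
the module `Γ(J^* L)` of the chart at infinity becomes free of rank one after extension of
scalars along `e ⊗ B : R₁ ⊗[k] B → B`. -/
theorem rigidified_iff_of_chart
    (J : Spec (CommRingCat.of (D.A₁ B)) ⟶ pullback c (tB k B))
    (h1 : J ≫ pullback.fst c (tB k B) = Spec.map (CommRingCat.ofHom (inl₁ D B)) ≫ Rz.j₁)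
    (h2 : J ≫ pullback.snd c (tB k B) = Spec.map (CommRingCat.ofHom (inr₁ D B)))
    (L : (pullback c (tB k B)).Modules) (hL : Scheme.Modules.IsInvertible L) :
    Nonempty ((Scheme.Modules.pullback (rigSection c (tB k B) ε)).obj L ≅
        SheafOfModules.unit.{u} (Spec (CommRingCat.of B)).ringCatSheaf) ↔
      Nonempty ((ModuleCat.extendScalars (D.eB B).toRingHom).obj
          (ΓMod ((Scheme.Modules.pullback J).obj L)) ≅ ModuleCat.of B B) :=
  pullback_iso_unit_iff_of_chart_of_isInvertible
    (CommRingCat.ofHom (D.eB B).toRingHom) J _ (rigSection_eq_of_chart Rz B J h1 h2) L hL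

/-- (G), unbundled form: `B ⊗[R₁ ⊗[k] B] Γ(J^* L) ≃ₗ[B] B`, where `B` is an `R₁ ⊗[k] B`-algebra
through `e ⊗ B`. -/
theorem rigidified_iff_tensor_of_chart
    (J : Spec (CommRingCat.of (D.A₁ B)) ⟶ pullback c (tB k B))
    (h1 : J ≫ pullback.fst c (tB k B) = Spec.map (CommRingCat.ofHom (inl₁ D B)) ≫ Rz.j₁)
    (h2 : J ≫ pullback.snd c (tB k B) = Spec.map (CommRingCat.ofHom (inr₁ D B)))
    (L : (pullback c (tB k B)).Modules) (hL : Scheme.Modules.IsInvertible L) :
    Nonempty ((Scheme.Modules.pullback (rigSection c (tB k B) ε)).obj L ≅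
        SheafOfModules.unit.{u} (Spec (CommRingCat.of B)).ringCatSheaf) ↔
      letI : Algebra (D.A₁ B) B := (D.eB B).toRingHom.toAlgebra
      Nonempty (B ⊗[D.A₁ B] (ΓMod ((Scheme.Modules.pullback J).obj L) : Type u) ≃ₗ[B] B) := by
  rw [rigidified_iff_of_chart Rz B J h1 h2 L hL]
  exact @extendScalars_obj_iso_self_iff (D.A₁ B) B _ _ (D.eB B).toRingHom.toAlgebra
    (ΓMod ((Scheme.Modules.pullback J).obj L))

end Chart

end

end Fermat.Agent.S25.helper7084
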