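import Fermat.Agent.S25.helper505_LCSpec
import Fermat.Agent.S25.helper5047_UnivFamily
import Fermat.Agent.S25.helper743_AlgApi
import Fermat.Agent.S25.helper1800_CurveDatumBasics

/-!
# S25, leaf LG-ALG-U9 / LC5: final assembly of `Stmt_AlgBoundedDom`, interface form (helper7196)

The bounding family of LC5 is the universal point family `univ T O d` of
`helper5047_UnivFamily` over `B₀ = R₀^{⊗d}`.  This file proves the strengthened boundedness
statement `helper505.Stmt_AlgBoundedDom` from

* a point-twist structure `T : helper7530.PointTwistData D` (leaf U3-PT) together with a
  *realization* `real` of its objects as two-chart line bundles (`GlueDatum`), compatible with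
  isomorphism, base change, Euler characteristic and rigidification (`GlueRealization`; for the
  instance whose objects ARE glue data, `real` is the identity and all fields are the API);
* a base family `O` (in the application `𝒪(m'·D∞)`), compatible with base change, rigidified, of
  Euler characteristic `χ(𝒪) + d` on every fibre;
* the point decomposition over algebraically closed fields (leaf U9a): every rigidified
  degree-zero `G` over `K` is a `d`-fold point twist of `O K`.

Nothing here depends on how the twists are constructed.
-/

set_option autoImplicit false

universe u w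

namespace Fermat.Agent.S25.helper7196

open Fermat.Agent.S25.helper1705 Fermat.Agent.S25.helper2945 Fermat.Agent.S25.helper7530
  Fermat.Agent.S25.helper5047

/-- A realization of the objects of a point-twist structure as two-chart line bundles. -/
structure GlueRealization {k : Type u} [Field k] {D : CurveDatum k}
    (T : PointTwistData.{u, w} D) where
  /-- the two-chart line bundle underlying an object -/
  real : ∀ {B : Type u} [CommRing B] [Algebra k B], T.Obj B → GlueDatum D B
  /-- related objects have equivalent realizations -/
  rel : ∀ {B : Type u} [CommRing B] [Algebra k B] {G G' : T.Obj B},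
    T.Rel G G' → (real G).Equiv (real G')
  /-- realization commutes with base change -/
  bc : ∀ {B B' : Type u} [CommRing B] [Algebra k B] [CommRing B'] [Algebra k B']
    (φ : B →ₐ[k] B') (G : T.Obj B), (real (T.bc φ G)).Equiv ((real G).baseChange φ)
  /-- realization preserves the Euler characteristic over fields -/
  chi : ∀ {F : Type u} [Field F] [Algebra k F] (G : T.Obj F), T.chi G = (real G).chi
  /-- point twists preserve rigidifiability -/
  rig_tw₀ : ∀ {B : Type u} [CommRing B] [Algebra k B] (G : T.Obj B) (p : D.R₀ →ₐ[k] B),
    (real G).IsRig → (real (T.tw₀ G p)).IsRig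

/-- The hypotheses of the final assembly for one curve datum: a realized point-twist structure,
a base family and a number of points `d` such that the `d`-fold point twists of the base family
have degree zero, are rigidified, and exhaust the rigidified degree-zero two-chart line bundles
over algebraically closed fields. -/
structure BoundingInput {k : Type u} [Field k] (D : CurveDatum k) where
  /-- the point-twist structure (leaf U3-PT) -/
  T : PointTwistData.{u, w} D
  /-- its realization in glue data -/
  R : GlueRealization T
  /-- the base family (`𝒪(m'·D∞)` in the application) -/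
  O : ∀ (B : Type u) [CommRing B] [Algebra k B], T.Obj B
  /-- the number of points -/
  d : ℕ
  /-- the base family is compatible with base change -/
  hO : ∀ (B B' : Type u) [CommRing B] [Algebra k B] [CommRing B'] [Algebra k B']
    (φ : B →ₐ[k] B'), T.Rel (T.bc φ (O B)) (O B')
  /-- the base family is rigidified -/
  rigO : ∀ (B : Type u) [CommRing B] [Algebra k B], (R.real (O B)).IsRig
  /-- the base family has Euler characteristic `χ(𝒪) + d` on every fibre -/
  chiO : ∀ (F : Type u) [Field F] [Algebra k F], T.chi (O F) = (GlueDatum.unit D F).chi + d
  /-- point decomposition over algebraically closed fields (leaf U9a) -/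
  decomp : ∀ (K : Type u) [Field K] [IsAlgClosed K] [Algebra k K] (G : GlueDatum D K),
    G.IsRig → G.DegZero →
    ∃ P : Fin d → (D.R₀ →ₐ[k] K), (R.real (T.twList (O K) (List.ofFn P))).Equiv G

namespace BoundingInput

variable {k : Type u} [Field k] {D : CurveDatum k} (I : BoundingInput.{u, w} D)

/-- The bounding family: the realization of the universal point family over `R₀^{⊗d}`. -/
noncomputable def family : GlueDatum D (Pow k D.R₀ I.d) :=
  I.R.real (UnivFamily.univ I.T I.O I.d)

/-- The bounding family is rigidified. -/
theorem family_isRig : I.family.IsRig :=
  UnivFamily.univ_pred I.T I.O I.d (fun G => (I.R.real G).IsRig)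
    (fun G p h => I.R.rig_tw₀ G p h) (I.rigO _)

/-- The bounding family has degree zero. -/
theorem family_degZero : I.family.DegZero := by
  intro F _ _ φ
  have h1 : (I.R.real (I.T.bc φ (UnivFamily.univ I.T I.O I.d))).chi =
      (I.family.baseChange φ).chi := helper743.equiv_chi_eq (I.R.bc φ _)
  rw [← h1, ← I.R.chi, UnivFamily.chi_bc_univ I.T I.O I.hO I.d φ, I.chiO F]
  ring

/-- Every rigidified degree-zero two-chart line bundle over an algebraically closed field is a
specialisation of the bounding family. -/
theorem exists_family_equiv (K : Type u) [Field K] [IsAlgClosed K] [Algebra k K]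
    (G : GlueDatum D K) (hrig : G.IsRig) (hdeg : G.DegZero) :
    ∃ φ : Pow k D.R₀ I.d →ₐ[k] K, (I.family.baseChange φ).Equiv G := by
  obtain ⟨P, hP⟩ := I.decomp K G hrig hdeg
  refine ⟨Pow.lift P, ?_⟩
  have h1 := I.R.bc (Pow.lift P) (UnivFamily.univ I.T I.O I.d)
  have h2 := I.R.rel (UnivFamily.bc_univ I.T I.O I.hO I.d P)
  exact (h1.symm.trans h2).trans hP

end BoundingInput

/-- **LC5, final assembly (interface form).** If every curve datum over an algebraically closed
field has a `BoundingInput`, then `helper505.Stmt_AlgBoundedDom` holds: the bounding family lives
over the tensor power `R₀^{⊗d}`, a finitely generated `k`-domain. -/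
theorem stmt_AlgBoundedDom_of
    (H : ∀ (k : Type u) [Field k] [IsAlgClosed k] (D : CurveDatum k),
      Nonempty (BoundingInput.{u, w} D)) :
    helper505.Stmt_AlgBoundedDom.{u} := by
  intro k _ _ D
  obtain ⟨I⟩ := H k D
  have hft : Algebra.FiniteType k D.R₀ := helper1800.finiteType₀ D
  exact ⟨Pow k D.R₀ I.d, inferInstance, inferInstance, Pow.isDomain k D.R₀ I.d,
    Pow.finiteType k D.R₀ I.d, I.family, I.family_isRig, I.family_degZero,
    fun K _ _ _ G hrig hdeg => I.exists_family_equiv K G hrig hdeg⟩

/-- The same for the statement consumed by the descent arrow D-BOUNDED. -/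
theorem stmt_AlgBounded_of
    (H : ∀ (k : Type u) [Field k] [IsAlgClosed k] (D : CurveDatum k),
      Nonempty (BoundingInput.{u, w} D)) :
    Fermat.Agent.S25.helper985.Stmt_AlgBounded.{u} :=
  helper505.stmt_AlgBounded_of_dom (stmt_AlgBoundedDom_of H)

end Fermat.Agent.S25.helper7196
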