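/-
S25, layer LG, leaf LG-D-BOUNDED (owner helper7196): the DESCENT arrow

    (dictionary + translation of the cut, as a `helper175.ModelSystem`)
      + (one universal rigidified model in the cut, meeting every model over every
         algebraically closed field)
    ⟹ `helper985.Stmt_Bounded`.

Only the frozen vocabulary, `helper985_LGSpec` (statement) and `helper175_PointsDict`
(abstract dictionary) are imported; nothing here depends on `CurveDatum` / `GlueDatum`.
The instantiation (`Obj B := GlueDatum D B`, `InCut := DegZero`, the universal family of U9)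
is a field-for-field application of `stmt_Bounded_of_modelSystem`.
-/
import Fermat.Agent.S25.helper985_LGSpec
import Fermat.Agent.S25.helper175_PointsDict

set_option autoImplicit false

universe w u

open CategoryTheory CategoryTheory.Limits AlgebraicGeometry AlgebraicGeometry.RelPicard
  NeronModelInfra GoodReductionJacobian

namespace Fermat.Agent.S25.helper7196

open Fermat.Agent.S25.helper1705 Fermat.Agent.S25.helper985 Fermat.Agent.S25.helper175

section

variable {k : Type u} [Field k] {C : Scheme.{u}} {c : C ⟶ Spec (CommRingCat.of k)}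
  {ε : SchemeHomOver (𝟙 (Spec (CommRingCat.of k))) c}

/-- ALGEBRA INPUT of the arrow, in `ModelSystem` language: there is ONE rigidified model `G₀`
in the cut, over some `k`-algebra `B₀`, such that every rigidified model in the cut over an
algebraically closed field `K/k` is (equivalent to) a base change of `G₀` along some
`φ : B₀ →ₐ[k] K`.  (For S25: `G₀ = O(m·D∞ − Σ Γ_i)` over `B₀ = R₀^{⊗ d}`, leaf U9.) -/
def HasBoundingModel (S : ModelSystem.{w, u} c ε (algEquivZeroCut c ε)) : Prop :=
  ∃ (B₀ : Type u) (_ : CommRing B₀) (_ : Algebra k B₀) (G₀ : S.Obj B₀),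
    S.IsRig G₀ ∧ S.InCut G₀ ∧
      ∀ (K : Type u) [Field K] [IsAlgClosed K] [Algebra k K] (G : S.Obj K),
        S.IsRig G → S.InCut G → ∃ φ : B₀ →ₐ[k] K, S.Equiv (S.baseChange φ G₀) G

/-- The conclusion of `helper985.Stmt_Bounded` for one curve `(k, c, ε)`. -/
def BoundedAt (c : C ⟶ Spec (CommRingCat.of k))
    (ε : SchemeHomOver (𝟙 (Spec (CommRingCat.of k))) c) : Prop :=
  ∃ (B₀ : Type u) (_ : CommRing B₀) (_ : Algebra k B₀)
    (M₀ : RigidifiedLineBundle c ε (specStr k B₀)), FibrewiseAlgEquivZero M₀ ∧
    ∀ (K : Type u) [Field K] [IsAlgClosed K] [Algebra k K]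
      (M : RigidifiedLineBundle c ε (specStr k K)), FibrewiseAlgEquivZero M →
      ∃ φ : B₀ →ₐ[k] K, Nonempty ((M₀.pullbackAlong (specHomOver φ)).L ≅ M.L)

/-- DESCENT, one curve: a dictionary (`ModelSystem`) for the cut "fibrewise algebraically
equivalent to zero" together with a bounding model gives a bounding family of rigidified line
bundles. -/
theorem boundedAt_of_modelSystem (S : ModelSystem.{w, u} c ε (algEquivZeroCut c ε))
    (h : HasBoundingModel S) : BoundedAt c ε := by
  obtain ⟨B₀, iR, iA, G₀, hr₀, hc₀, hK⟩ := h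
  obtain ⟨M₀, hM₀, -, hfam⟩ := S.exists_bounding G₀ hr₀ hc₀
  refine ⟨B₀, iR, iA, M₀, hM₀, ?_⟩
  intro K _ _ _ M hM
  exact hfam K (fun G hr hc => hK K G hr hc) M hM

end

/-- DESCENT arrow `D-BOUNDED`, abstract form: if every curve of S25 admits a dictionary
(`ModelSystem`, i.e. `Dictionary` + `Stmt_FAEZ`) with a bounding model (leaf U9), then
`helper985.Stmt_Bounded` holds. -/
theorem stmt_Bounded_of_modelSystem
    (H : ∀ (k : Type u) [Field k] {C : Scheme.{u}} (c : C ⟶ Spec (CommRingCat.of k))
      (_ : IsCurve k c) (ε : SchemeHomOver (𝟙 (Spec (CommRingCat.of k))) c),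
      ∃ S : ModelSystem.{w, u} c ε (algEquivZeroCut c ε), HasBoundingModel S) :
    Stmt_Bounded.{u} := by
  intro k _ C c hc ε
  obtain ⟨S, hS⟩ := H k c hc ε
  exact boundedAt_of_modelSystem S hS

end Fermat.Agent.S25.helper7196
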