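import Mathlib

/-!
# S25, leaf U4 (chart theorem), def-agnostic core (helper7244)

Pure commutative algebra, Mathlib only.

* Part 1: submodules of an invertible module `N` over `A` correspond to ideals of `A`
  (`P = (P : N) • N`, `(J • N : N) = J`); if `P` is the image of an injective map from an
  invertible module then `(P : N)` is an invertible ideal; if `N ⧸ P` is finite projective over a
  base ring `B` then so is `A ⧸ (P : N)`.
* Part 2: the chart at infinity of a two-chart atlas.  A sub-datum `(Λ₀, Λ₁)` of a two-chart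
  datum `(N₀, N₁, N₀₁)` which is everything along `V(y)` (`Λ₁ ⊔ y • N₁ = ⊤`) is determined by the
  ideal `J₀ = (Λ₀ : N₀)`: `(Λ₁ : N₁) = res₁⁻¹ (J₀ · A₀₁)`.
-/

set_option autoImplicit false

open scoped TensorProduct

namespace Fermat.Agent.S25.helper7244

section Colon

variable {A : Type*} [CommRing A] {N : Type*} [AddCommGroup N] [Module A N]

/-- The ideal `(P : N) = {a | a • N ⊆ P}`. -/
abbrev colonTop (P : Submodule A N) : Ideal A := P.colon (Set.univ : Set N)

theorem mem_colonTop {P : Submodule A N} {a : A} : a ∈ colonTop P ↔ ∀ n : N, a • n ∈ P := by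
  simp [colonTop, Submodule.mem_colon]

variable [Module.Invertible A N]

/-- The rank-one identity `ψ m • p = ψ p • m` in an invertible module. -/
theorem dual_apply_smul_comm (ψ : Module.Dual A N) (m p : N) : ψ m • p = ψ p • m := by
  have h := congrArg (TensorProduct.lift ((LinearMap.lsmul A N).comp ψ))
    (Module.Invertible.tmul_comm (R := A) (m₁ := m) (m₂ := p))
  simpa using h

/-- A finite "partition of unity" `∑ ψ j (m j) = 1` in an invertible module. -/
theorem exists_dual_family (A : Type*) [CommRing A] (N : Type*) [AddCommGroup N] [Module A N]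
    [Module.Invertible A N] :
    ∃ (n : ℕ) (ψ : Fin n → Module.Dual A N) (m : Fin n → N), ∑ j, ψ j (m j) = 1 := by
  obtain ⟨t, ht⟩ := (Module.Invertible.bijective (R := A) (M := N)).2 1
  obtain ⟨S, hS⟩ := TensorProduct.exists_finset t
  classical
  refine ⟨S.card, fun j => (S.equivFin.symm j).1.1, fun j => (S.equivFin.symm j).1.2, ?_⟩
  rw [hS, map_sum] at ht
  rw [← ht]
  rw [← Finset.sum_coe_sort S]
  exact Fintype.sum_equiv S.equivFin.symm _ _ (fun j => by simp [contractLeft_apply])

/-- Every submodule of an invertible module is `(P : N) • N`. -/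
theorem colonTop_smul_top (P : Submodule A N) : colonTop P • (⊤ : Submodule A N) = P := by
  apply le_antisymm
  · rw [Submodule.smul_le]
    intro a ha n _
    exact mem_colonTop.mp ha n
  · intro p hp
    obtain ⟨n, ψ, m, h1⟩ := exists_dual_family A N
    have hp' : p = ∑ j, ψ j p • m j := by
      calc p = (∑ j, ψ j (m j)) • p := by rw [h1, one_smul]
        _ = ∑ j, ψ j (m j) • p := Finset.sum_smul
        _ = ∑ j, ψ j p • m j := Finset.sum_congr rfl fun j _ => dual_apply_smul_comm _ _ _
    rw [hp']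
    refine Submodule.sum_mem _ fun j _ => Submodule.smul_mem_smul ?_ Submodule.mem_top
    rw [mem_colonTop]
    intro n'
    rw [← dual_apply_smul_comm]
    exact P.smul_mem _ hp

omit [Module.Invertible A N] in
/-- A linear form maps `J • N` into `J`. -/
theorem dual_apply_mem_of_mem_smul_top (J : Ideal A) (ψ : Module.Dual A N) {z : N}
    (hz : z ∈ J • (⊤ : Submodule A N)) : ψ z ∈ J := by
  refine Submodule.smul_induction_on hz (fun a ha n _ => ?_) (fun x y hx hy => ?_)
  · rw [map_smul, smul_eq_mul]; exact J.mul_mem_right _ ha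
  · rw [map_add]; exact J.add_mem hx hy

/-- `(J • N : N) = J` for an invertible module `N`. -/
theorem colonTop_smul_top' (J : Ideal A) : colonTop (J • (⊤ : Submodule A N)) = J := by
  apply le_antisymm
  · intro a ha
    obtain ⟨n, ψ, m, h1⟩ := exists_dual_family A N
    have : a = ∑ j, ψ j (a • m j) := by
      simp only [map_smul, smul_eq_mul, ← Finset.mul_sum, h1, mul_one]
    rw [this]
    exact J.sum_mem fun j _ => dual_apply_mem_of_mem_smul_top J _ (mem_colonTop.mp ha _)
  · intro a ha
    rw [mem_colonTop]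
    intro n
    exact Submodule.smul_mem_smul ha Submodule.mem_top

/-- The correspondence `J ↦ J • N` is injective. -/
theorem smul_top_injective {J J' : Ideal A}
    (h : J • (⊤ : Submodule A N) = J' • (⊤ : Submodule A N)) : J = J' := by
  rw [← colonTop_smul_top' (N := N) J, h, colonTop_smul_top']

theorem smul_top_le_iff {J J' : Ideal A} :
    J • (⊤ : Submodule A N) ≤ J' • (⊤ : Submodule A N) ↔ J ≤ J' := by
  constructor
  · intro h a ha
    rw [← colonTop_smul_top' (N := N) J', mem_colonTop]
    intro n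
    exact h (Submodule.smul_mem_smul ha Submodule.mem_top)
  · intro h
    exact Submodule.smul_mono_left h

/-- A linear form maps `P` into `(P : N)`. -/
theorem dual_apply_mem_colonTop (P : Submodule A N) (ψ : Module.Dual A N) {p : N} (hp : p ∈ P) :
    ψ p ∈ colonTop P := by
  rw [mem_colonTop]
  intro n
  rw [← dual_apply_smul_comm]
  exact P.smul_mem _ hp

/-- If `P` is the image of an injective map from an invertible module, then `(P : N)` is an
invertible ideal (it is isomorphic to `N^∨ ⊗ L`). -/
theorem invertible_colonTop_range {L : Type*} [AddCommGroup L] [Module A L]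
    [Module.Invertible A L] (σ : L →ₗ[A] N) (hσ : Function.Injective σ) :
    Module.Invertible A (colonTop (LinearMap.range σ)) := by
  let Φ : Module.Dual A N ⊗[A] L →ₗ[A] A := (contractLeft A N).comp (LinearMap.lTensor _ σ)
  have hΦinj : Function.Injective Φ :=
    (Module.Invertible.bijective (R := A) (M := N)).1.comp
      (Module.Flat.lTensor_preserves_injective_linearMap σ hσ)
  have hΦrange : LinearMap.range Φ = colonTop (LinearMap.range σ) := by
    apply le_antisymm
    · rintro _ ⟨t, rfl⟩
      induction t using TensorProduct.induction_on with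
      | zero => simp
      | tmul ψ l =>
        have : Φ (ψ ⊗ₜ[A] l) = ψ (σ l) := by simp [Φ, contractLeft_apply]
        rw [this]
        exact dual_apply_mem_colonTop _ ψ ⟨l, rfl⟩
      | add t₁ t₂ h₁ h₂ => rw [map_add]; exact Ideal.add_mem _ h₁ h₂
    · intro a ha
      obtain ⟨n, ψ, m, h1⟩ := exists_dual_family A N
      have hl : ∀ j, ∃ l : L, σ l = a • m j := fun j => mem_colonTop.mp ha (m j)
      choose l hl using hl
      refine ⟨∑ j, ψ j ⊗ₜ[A] l j, ?_⟩
      simp only [map_sum, Φ, LinearMap.comp_apply, LinearMap.lTensor_tmul, contractLeft_apply, hl,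
        map_smul, smul_eq_mul, ← Finset.mul_sum, h1, mul_one]
  exact Module.Invertible.congr ((LinearEquiv.ofInjective Φ hΦinj).trans (LinearEquiv.ofEq _ _ hΦrange))

theorem projective_pi_fin {R : Type*} [Ring R] {M : Type*} [AddCommGroup M] [Module R M]
    [Module.Projective R M] (n : ℕ) : Module.Projective R (Fin n → M) :=
  Module.Projective.of_equiv (DirectSum.linearEquivFunOnFintype R (Fin n) (fun _ => M))

/-- If `N ⧸ P` is finite projective over a base ring `B`, so is `A ⧸ (P : N)`:
it is a direct summand of `(N ⧸ P)^n`. -/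
theorem finite_projective_quotient_colonTop {B : Type*} [CommRing B] [Algebra B A] [Module B N]
    [IsScalarTower B A N] (P : Submodule A N) [Module.Finite B (N ⧸ P)]
    [Module.Projective B (N ⧸ P)] :
    Module.Finite B (A ⧸ colonTop P) ∧ Module.Projective B (A ⧸ colonTop P) := by
  obtain ⟨n, ψ, m, h1⟩ := exists_dual_family A N
  -- the inclusion `A ⧸ J → (N ⧸ P)^n`
  let i : (A ⧸ colonTop P) →ₗ[A] (Fin n → N ⧸ P) :=
    Submodule.liftQ (colonTop P)
      (LinearMap.pi fun j => P.mkQ.comp (LinearMap.toSpanSingleton A N (m j)))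
      (by
        intro a ha
        rw [LinearMap.mem_ker]
        ext j
        simp only [LinearMap.pi_apply, LinearMap.comp_apply, LinearMap.toSpanSingleton_apply,
          Submodule.mkQ_apply, Pi.zero_apply, Submodule.Quotient.mk_eq_zero]
        exact mem_colonTop.mp ha (m j))
  -- the retraction `(N ⧸ P)^n → A ⧸ J`
  let r : (Fin n → N ⧸ P) →ₗ[A] (A ⧸ colonTop P) :=
    ∑ j, (P.liftQ ((colonTop P).mkQ.comp (ψ j))
      (by
        intro p hp
        rw [LinearMap.mem_ker, LinearMap.comp_apply, Submodule.mkQ_apply,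
          Submodule.Quotient.mk_eq_zero]
        exact dual_apply_mem_colonTop P (ψ j) hp)).comp (LinearMap.proj j)
  have hri' : ∀ z, r (i z) = z := by
    intro z
    obtain ⟨a, rfl⟩ := Submodule.Quotient.mk_surjective _ z
    have hi : i (Submodule.Quotient.mk a) = fun j => Submodule.Quotient.mk (a • m j) := by
      ext j
      exact congrFun (Submodule.liftQ_apply (colonTop P)
        (LinearMap.pi fun j => P.mkQ.comp (LinearMap.toSpanSingleton A N (m j))) a) j
    rw [hi]
    have hr : ∀ v : Fin n → N, r (fun j => Submodule.Quotient.mk (v j)) =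
        Submodule.Quotient.mk (∑ j, ψ j (v j)) := by
      intro v
      simp only [r, LinearMap.sum_apply, LinearMap.comp_apply, LinearMap.proj_apply]
      rw [← Submodule.mkQ_apply (colonTop P), map_sum]
      refine Finset.sum_congr rfl fun j _ => ?_
      exact Submodule.liftQ_apply P _ (v j)
    rw [hr]
    congr 1
    simp only [map_smul, smul_eq_mul, ← Finset.mul_sum, h1, mul_one]
  have : Module.Projective B (Fin n → N ⧸ P) := projective_pi_fin n
  refine ⟨Module.Finite.of_surjective (r.restrictScalars B) fun z => ⟨i z, hri' z⟩, ?_⟩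
  exact Module.Projective.of_split (i.restrictScalars B) (r.restrictScalars B)
    (LinearMap.ext fun z => hri' z)

end Colon

section Saturated

variable {A : Type*} [CommRing A]

/-- An ideal containing an element `u ≡ 1 mod y` is saturated with respect to `y`. -/
theorem mem_of_pow_mul_mem {J : Ideal A} {y u : A} (hu : u ∈ J) (huy : u - 1 ∈ Ideal.span {y})
    (m : ℕ) {a : A} (ha : y ^ m * a ∈ J) : a ∈ J := by
  obtain ⟨c, hc⟩ := Ideal.mem_span_singleton'.mp huy
  induction m with
  | zero => simpa using ha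
  | succ m ih =>
    apply ih
    have : y ^ m * a = u * (y ^ m * a) - c * (y ^ (m + 1) * a) := by
      have h1 : (1 : A) = u - c * y := by rw [hc]; ring
      calc y ^ m * a = 1 * (y ^ m * a) := by ring
        _ = (u - c * y) * (y ^ m * a) := by rw [← h1]
        _ = u * (y ^ m * a) - c * (y ^ (m + 1) * a) := by ring
    rw [this]
    exact J.sub_mem (J.mul_mem_right _ hu) (J.mul_mem_left _ ha)

/-- An ideal containing an element `u ≡ 1 mod y` is the contraction of its extension to the
localisation away from `y`. -/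
theorem comap_map_away_eq {A' : Type*} [CommRing A'] [Algebra A A'] (y : A)
    [IsLocalization.Away y A'] {J : Ideal A} {u : A} (hu : u ∈ J)
    (huy : u - 1 ∈ Ideal.span {y}) :
    (J.map (algebraMap A A')).comap (algebraMap A A') = J := by
  apply le_antisymm
  · intro a ha
    rw [Ideal.mem_comap, IsLocalization.mem_map_algebraMap_iff (Submonoid.powers y)] at ha
    obtain ⟨⟨⟨b, hb⟩, ⟨s, m, rfl⟩⟩, h⟩ := ha
    simp only at h
    rw [← map_mul] at h
    obtain ⟨⟨t, m', rfl⟩, ht⟩ := (IsLocalization.eq_iff_exists (Submonoid.powers y) A').mp h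
    simp only at ht
    refine mem_of_pow_mul_mem hu huy (m' + m) ?_
    have : y ^ (m' + m) * a = y ^ m' * b := by rw [← ht]; ring
    rw [this]
    exact J.mul_mem_left _ hb
  · exact Ideal.le_comap_map

end Saturated

section TwoChart

variable {A₀ A₁ A₀₁ : Type*} [CommRing A₀] [CommRing A₁] [CommRing A₀₁]
  [Algebra A₀ A₀₁] [Algebra A₁ A₀₁]
  (x : A₀) (y : A₁) [IsLocalization.Away x A₀₁] [IsLocalization.Away y A₀₁]
  {N₀ N₁ N₀₁ : Type*} [AddCommGroup N₀] [AddCommGroup N₁] [AddCommGroup N₀₁]
  [Module A₀ N₀] [Module A₁ N₁] [Module A₀₁ N₀₁] [Module A₀ N₀₁] [Module A₁ N₀₁]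
  [IsScalarTower A₀ A₀₁ N₀₁] [IsScalarTower A₁ A₀₁ N₀₁]
  (ρ₀ : N₀ →ₗ[A₀] N₀₁) (ρ₁ : N₁ →ₗ[A₁] N₀₁)
  [IsLocalizedModule (Submonoid.powers x) ρ₀] [IsLocalizedModule (Submonoid.powers y) ρ₁]

/-- The localisation of `J • N` is `(J · A') • N'`. -/
theorem localized'_smul_top {A A' : Type*} [CommRing A] [CommRing A'] [Algebra A A']
    (S : Submonoid A) [IsLocalization S A'] {N N' : Type*} [AddCommGroup N] [AddCommGroup N']
    [Module A N] [Module A N'] [Module A' N'] [IsScalarTower A A' N'] (ρ : N →ₗ[A] N')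
    [IsLocalizedModule S ρ] (J : Ideal A) :
    (J • (⊤ : Submodule A N)).localized' A' S ρ = J.map (algebraMap A A') • (⊤ : Submodule A' N') := by
  rw [Submodule.localized'_smul, Submodule.localized'_top, Ideal.localized'_eq_map]

variable [Module.Invertible A₀ N₀] [Module.Invertible A₁ N₁]

/-- Two sub-lattices with the same localisation on the overlap have colon ideals with the same
extension to the overlap ring. -/
theorem map_colonTop_eq_of_localized'_eq (Λ₀ : Submodule A₀ N₀) (Λ₁ : Submodule A₁ N₁)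
    (hΛ : Λ₀.localized' A₀₁ (Submonoid.powers x) ρ₀ = Λ₁.localized' A₀₁ (Submonoid.powers y) ρ₁) :
    (colonTop Λ₀).map (algebraMap A₀ A₀₁) = (colonTop Λ₁).map (algebraMap A₁ A₀₁) := by
  have : Module.Invertible A₀₁ N₀₁ := Module.Invertible.of_isLocalization (Submonoid.powers x) ρ₀
  apply smul_top_injective (N := N₀₁)
  rw [← localized'_smul_top (Submonoid.powers x) ρ₀, ← localized'_smul_top (Submonoid.powers y) ρ₁,
    colonTop_smul_top, colonTop_smul_top, hΛ]

omit [Module.Invertible A₁ N₁] in
/-- If `Λ₁` is everything along `V(y)`, its colon ideal contains an element `u ≡ 1 mod y`. -/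
theorem exists_mem_colonTop_sub_one_mem [Module.Finite A₁ N₁] (Λ₁ : Submodule A₁ N₁)
    (hy : Λ₁ ⊔ Ideal.span {y} • (⊤ : Submodule A₁ N₁) = ⊤) :
    ∃ u ∈ colonTop Λ₁, u - 1 ∈ Ideal.span {y} := by
  have hfg : (⊤ : Submodule A₁ (N₁ ⧸ Λ₁)).FG := Module.Finite.fg_top
  have hle : (⊤ : Submodule A₁ (N₁ ⧸ Λ₁)) ≤ Ideal.span {y} • (⊤ : Submodule A₁ (N₁ ⧸ Λ₁)) := by
    intro z _
    obtain ⟨n, rfl⟩ := Submodule.Quotient.mk_surjective _ z
    have hn : n ∈ Λ₁ ⊔ Ideal.span {y} • (⊤ : Submodule A₁ N₁) := by rw [hy]; exact Submodule.mem_top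
    obtain ⟨l, hl, w, hw, rfl⟩ := Submodule.mem_sup.mp hn
    rw [Submodule.Quotient.mk_add, (Submodule.Quotient.mk_eq_zero _).mpr hl, zero_add]
    refine Submodule.smul_induction_on hw (fun a ha n' _ => ?_) (fun v w hv hw => ?_)
    · rw [Submodule.Quotient.mk_smul]
      exact Submodule.smul_mem_smul ha Submodule.mem_top
    · rw [Submodule.Quotient.mk_add]
      exact Submodule.add_mem _ hv hw
  obtain ⟨u, hu1, hu⟩ :=
    Submodule.exists_sub_one_mem_and_smul_eq_zero_of_fg_of_le_smul (Ideal.span {y}) ⊤ hfg hle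
  refine ⟨u, ?_, hu1⟩
  rw [mem_colonTop]
  intro n
  have := hu (Submodule.Quotient.mk n) Submodule.mem_top
  rwa [← Submodule.Quotient.mk_smul, Submodule.Quotient.mk_eq_zero] at this

/-- **The chart at infinity.** A sub-datum `(Λ₀, Λ₁)` of a two-chart datum `(N₀, N₁, N₀₁)` which
is everything along `V(y)` is determined by the ideal `(Λ₀ : N₀)`:
`(Λ₁ : N₁) = res₁⁻¹ ((Λ₀ : N₀) · A₀₁)`. -/
theorem colonTop_eq_comap_map (Λ₀ : Submodule A₀ N₀) (Λ₁ : Submodule A₁ N₁)
    (hΛ : Λ₀.localized' A₀₁ (Submonoid.powers x) ρ₀ = Λ₁.localized' A₀₁ (Submonoid.powers y) ρ₁)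
    (hy : Λ₁ ⊔ Ideal.span {y} • (⊤ : Submodule A₁ N₁) = ⊤) :
    colonTop Λ₁ = ((colonTop Λ₀).map (algebraMap A₀ A₀₁)).comap (algebraMap A₁ A₀₁) := by
  obtain ⟨u, hu, huy⟩ := exists_mem_colonTop_sub_one_mem y Λ₁ hy
  rw [map_colonTop_eq_of_localized'_eq x y ρ₀ ρ₁ Λ₀ Λ₁ hΛ, comap_map_away_eq y hu huy]

omit [Module.Invertible A₀ N₀] [Module.Invertible A₁ N₁] in
/-- Conversely, for every ideal `I` of `A₀`, the pair `(I • N₀, res₁⁻¹(I · A₀₁) • N₁)` has equal
localisations on the overlap. -/
theorem localized'_smul_top_eq_localized'_comap (I : Ideal A₀) :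
    (I • (⊤ : Submodule A₀ N₀)).localized' A₀₁ (Submonoid.powers x) ρ₀ =
      (((I.map (algebraMap A₀ A₀₁)).comap (algebraMap A₁ A₀₁)) • (⊤ : Submodule A₁ N₁)).localized'
        A₀₁ (Submonoid.powers y) ρ₁ := by
  rw [localized'_smul_top (Submonoid.powers x) ρ₀, localized'_smul_top (Submonoid.powers y) ρ₁,
    IsLocalization.map_under (Submonoid.powers y) A₀₁]

end TwoChart

end Fermat.Agent.S25.helper7244
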