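import Fermat.Agent.S25.helper8108_GlueRecog
import Fermat.Agent.S25.helper7244_ChartCore

/-!
# S25, leaf U4, part (F1): the rigidification makes `H⁰` free (helper7244)

Vocabulary: `helper2945_AlgDefs` (`GlueDatum`, `H0`, `eB`, `algE`), `helper8108_GlueRecog`
(`bcMap₁`).  Let `E` be a two-chart line bundle over `B` (in the application `E = Hom(G, N_B)`,
`helper1397.homDatum`), `ε : D.A₁ B → B` the marked section.

* `epsIdeal D 𝔪 = {a | ε(a) ∈ 𝔪}`; a section `m ∈ E₁` "vanishes at `ε(𝔪)`" iff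
  `m ∈ epsIdeal D 𝔪 • ⊤`.  `one_tmul_mem_smul_top_iff` : this is the same as
  `1 ⊗ m ∈ 𝔪 • (B ⊗[A₁] E₁)` (the tensor form used by `GlueDatum.IsRig`).
* `evEps E : E.H0 →ₗ[B] B ⊗[A₁] E₁` : evaluation of global sections at `ε`.
* `evEps_surjective`, `evEps_bijective`, `exists_generator` (**F1**) : for a rigidification
  `r : B ⊗[A₁] E₁ ≃ₗ[B] B`, if `H⁰(E)` is finite flat of rank `≤ 1` at the closed points and at
  every closed point some section does not vanish at `ε`, then `r ∘ evEps` is an isomorphism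
  `H⁰(E) ≅ B`: there is a canonical generator `σ` with `r(σ(ε)) = 1` and every section `τ` is
  `r(τ(ε)) • σ`.
* `notMem_epsIdeal_smul_top` : that generator vanishes at no point of `ε`.
* `span_singleton_sup_eq_top` : if the sections generate `E₁` modulo `P` (e.g. `P = y E₁`), so
  does `σ₁` alone.
* `bcMap₁_mem_epsIdeal_smul_top`, `exists_notMem_of_baseChange` (**F1b/c**) : the hypothesis
  "some section does not vanish at `ε(𝔪)`" may be checked on a field-valued point above `𝔪`.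
* `linearMap_mem_smul_top_iff`, `notMem_epsIdeal_smul_top_of_surjModY` : for the Hom datum, a
  morphism which is surjective modulo `y` on the chart at infinity does not vanish at `ε`.
* `bijective_of_surjective_of_rankAtStalk_le`, `rankAtStalk_eq_finrank_of_isBaseChange` :
  generic helpers (rank at a point from any field-valued fibre).
-/

set_option autoImplicit false

open TensorProduct
open Fermat.Agent.S25.helper1705 Fermat.Agent.S25.helper2945

namespace Fermat.Agent.S25.helper7244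

universe u

section Generic

variable {R : Type*} [CommRing R] {M N : Type*} [AddCommGroup M] [Module R M] [Module.Finite R M]
  [Module.Flat R M] [AddCommGroup N] [Module R N] [Module.Finite R N] [Module.Flat R N]

attribute [local instance] Module.free_of_flat_of_isLocalRing in
/-- A surjection of finite flat modules whose source has rank at most the rank of the target at
every closed point is bijective. (Mathlib's `Module.bijective_of_surjective_of_rankAtStalk_eq`
with `≤` instead of `=`.) -/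
theorem bijective_of_surjective_of_rankAtStalk_le {φ : M →ₗ[R] N} (hs : Function.Surjective φ)
    (h : ∀ (m : Ideal R) [m.IsMaximal],
      Module.rankAtStalk M ⟨m, inferInstance⟩ ≤ Module.rankAtStalk N ⟨m, inferInstance⟩) :
    Function.Bijective φ :=
  bijective_of_localized_maximal φ fun m _ ↦
    OrzechProperty.bijective_of_surjective_of_finrank_le (LocalizedModule.map m.primeCompl φ)
      (LocalizedModule.map_surjective m.primeCompl φ hs) (h m)

/-- The rank at a point of a finite flat module is the dimension of ANY field-valued fibre at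
that point (in `IsBaseChange` form). -/
theorem rankAtStalk_eq_finrank_of_isBaseChange (L : Type*) [Field L] [Algebra R L] {V : Type*}
    [AddCommGroup V] [Module R V] [Module L V] [IsScalarTower R L V] {f : M →ₗ[R] V}
    (hf : IsBaseChange L f) (p : PrimeSpectrum R) (hp : RingHom.ker (algebraMap R L) = p.asIdeal) :
    Module.rankAtStalk M p = Module.finrank L V := by
  have h1 := Module.rankAtStalk_isBaseChange hf ⟨⊥, Ideal.isPrime_bot⟩
  have h2 : (⟨⊥, Ideal.isPrime_bot⟩ : PrimeSpectrum L).comap (algebraMap R L) = p := by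
    ext1
    rw [← hp]
    rfl
  rw [h2] at h1
  rw [← h1, Module.rankAtStalk_eq_finrank_of_free]
  rfl

/-- The same for the standard base change `L ⊗[R] M`. -/
theorem rankAtStalk_eq_finrank_tensor (L : Type*) [Field L] [Algebra R L] (p : PrimeSpectrum R)
    (hp : RingHom.ker (algebraMap R L) = p.asIdeal) :
    Module.rankAtStalk M p = Module.finrank L (TensorProduct R L M) :=
  rankAtStalk_eq_finrank_of_isBaseChange L (TensorProduct.isBaseChange R M L) p hp

end Generic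

section Invertible

variable {A : Type*} [CommRing A] {M N : Type*} [AddCommGroup M] [Module A M] [AddCommGroup N]
  [Module A N]

/-- For `M` invertible, a linear map `t : M → N` lies in `𝔫 • Hom(M, N)` iff it takes values in
`𝔫 N` ("`t` vanishes at `𝔫`"). -/
theorem linearMap_mem_smul_top_iff [Module.Invertible A M] (𝔫 : Ideal A) (t : M →ₗ[A] N) :
    t ∈ (𝔫 • ⊤ : Submodule A (M →ₗ[A] N)) ↔ ∀ m, t m ∈ (𝔫 • ⊤ : Submodule A N) := by
  constructor
  · intro h
    refine Submodule.smul_induction_on h (fun a ha t' _ m => ?_) (fun t' t'' h' h'' m => ?_)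
    · rw [LinearMap.smul_apply]
      exact Submodule.smul_mem_smul ha Submodule.mem_top
    · rw [LinearMap.add_apply]
      exact Submodule.add_mem _ (h' m) (h'' m)
  · intro h
    obtain ⟨n, ψ, m, hψ⟩ := exists_dual_family A M
    have ht : t = ∑ j : Fin n, (ψ j).smulRight (t (m j)) := by
      ext m'
      simp only [LinearMap.coe_sum, Finset.sum_apply, LinearMap.smulRight_apply]
      calc t m' = t ((∑ j, ψ j (m j)) • m') := by rw [hψ, one_smul]
        _ = ∑ j, ψ j m' • t (m j) := by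
          rw [Finset.sum_smul, map_sum]
          refine Finset.sum_congr rfl fun j _ => ?_
          rw [dual_apply_smul_comm, map_smul]
    rw [ht]
    refine Submodule.sum_mem _ fun j _ => ?_
    refine Submodule.smul_induction_on (h (m j)) (fun a ha n' _ => ?_) (fun n' n'' h' h'' => ?_)
    · have : (ψ j).smulRight (a • n') = a • (ψ j).smulRight n' := by
        ext m'
        simp only [LinearMap.smulRight_apply, LinearMap.smul_apply]
        rw [smul_comm]
      rw [this]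
      exact Submodule.smul_mem_smul ha Submodule.mem_top
    · have : (ψ j).smulRight (n' + n'') = (ψ j).smulRight n' + (ψ j).smulRight n'' := by
        ext m'
        simp
      rw [this]
      exact Submodule.add_mem _ h' h''

end Invertible

variable {k : Type u} [Field k] {D : CurveDatum k} {B : Type u} [CommRing B] [Algebra k B]

/-- The ideal of `D.A₁ B` of functions whose value along the section `ε` lies in the ideal
`𝔪` of `B`. For `𝔪` maximal this is the maximal ideal of the point `ε(𝔪)`. -/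
noncomputable def epsIdeal (D : CurveDatum k) (𝔪 : Ideal B) : Ideal (D.A₁ B) :=
  𝔪.comap (D.eB B).toRingHom

theorem mem_epsIdeal (𝔪 : Ideal B) (a : D.A₁ B) : a ∈ epsIdeal D 𝔪 ↔ D.eB B a ∈ 𝔪 := Iff.rfl

theorem algebraMap_mem_epsIdeal (𝔪 : Ideal B) {b : B} (hb : b ∈ 𝔪) :
    algebraMap B (D.A₁ B) b ∈ epsIdeal D 𝔪 := by
  rw [mem_epsIdeal, eB_algebraMap]; exact hb

theorem algebraMap_eB_sub_mem_epsIdeal (𝔪 : Ideal B) (a : D.A₁ B) :
    algebraMap B (D.A₁ B) (D.eB B a) - a ∈ epsIdeal D 𝔪 := by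
  rw [mem_epsIdeal, map_sub, eB_algebraMap, sub_self]; exact 𝔪.zero_mem

theorem yB_mem_epsIdeal (𝔪 : Ideal B) : yB D B ∈ epsIdeal D 𝔪 := by
  rw [mem_epsIdeal, eB_yB]; exact 𝔪.zero_mem

section Eps

attribute [local instance] algE

variable (E : GlueDatum D B)

theorem algE_smul (a : D.A₁ B) (b : B) : a • b = D.eB B a * b := rfl

/-- Evaluation at `ε` of a global section: `τ ↦ 1 ⊗ τ₁ ∈ ε^* E`. -/
noncomputable def evEps : E.H0 →ₗ[B] B ⊗[D.A₁ B] E.M₁ where
  toFun τ := (1 : B) ⊗ₜ[D.A₁ B] τ.1.2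
  map_add' τ τ' := by simp [TensorProduct.tmul_add]
  map_smul' b τ := by
    simp only [RingHom.id_apply, Submodule.coe_smul, Prod.smul_snd]
    rw [GlueDatum.smul_def₁, ← TensorProduct.smul_tmul, TensorProduct.smul_tmul']
    congr 1
    rw [algE_smul, eB_algebraMap, mul_one, smul_eq_mul, mul_one]

@[simp] theorem evEps_apply (τ : E.H0) : evEps E τ = (1 : B) ⊗ₜ[D.A₁ B] τ.1.2 := rfl

/-- Reduction modulo the point `ε(𝔪)`: the map `ε^* E → E₁ / 𝔫 E₁`, `b ⊗ m ↦ [b m]`, where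
`𝔫 = epsIdeal D 𝔪`. -/
noncomputable def redEps (𝔪 : Ideal B) :
    B ⊗[D.A₁ B] E.M₁ →ₗ[D.A₁ B] E.M₁ ⧸ (epsIdeal D 𝔪 • ⊤ : Submodule (D.A₁ B) E.M₁) :=
  TensorProduct.lift
    { toFun := fun b => (Submodule.mkQ _).comp
        (LinearMap.lsmul (D.A₁ B) E.M₁ (algebraMap B (D.A₁ B) b))
      map_add' := fun b b' => by
        ext m
        simp
      map_smul' := fun a b => by
        ext m
        simp only [LinearMap.coe_comp, Function.comp_apply, LinearMap.lsmul_apply,
          Submodule.mkQ_apply, RingHom.id_apply, LinearMap.smul_apply]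
        rw [← Submodule.Quotient.mk_smul, Submodule.Quotient.eq, algE_smul, map_mul, mul_smul,
          ← sub_smul]
        exact Submodule.smul_mem_smul (algebraMap_eB_sub_mem_epsIdeal 𝔪 a) Submodule.mem_top }

@[simp] theorem redEps_tmul (𝔪 : Ideal B) (b : B) (m : E.M₁) :
    redEps E 𝔪 (b ⊗ₜ m) = Submodule.Quotient.mk (algebraMap B (D.A₁ B) b • m) := rfl

theorem smul_eq_algebraMap_smul (b : B) (z : B ⊗[D.A₁ B] E.M₁) :
    b • z = algebraMap B (D.A₁ B) b • z := by
  induction z using TensorProduct.induction_on with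
  | zero => simp
  | tmul b' m =>
    rw [TensorProduct.smul_tmul', TensorProduct.smul_tmul', algE_smul, eB_algebraMap, smul_eq_mul]
  | add z z' hz hz' => rw [smul_add, smul_add, hz, hz']

/-- A section of `E₁` vanishes at `ε(𝔪)` (tensor form) iff it lies in `𝔫 E₁` (ideal form). -/
theorem one_tmul_mem_smul_top_iff (𝔪 : Ideal B) (m : E.M₁) :
    (1 : B) ⊗ₜ[D.A₁ B] m ∈ (𝔪 • ⊤ : Submodule B (B ⊗[D.A₁ B] E.M₁)) ↔
      m ∈ (epsIdeal D 𝔪 • ⊤ : Submodule (D.A₁ B) E.M₁) := by
  constructor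
  · intro h
    have key : ∀ z ∈ (𝔪 • ⊤ : Submodule B (B ⊗[D.A₁ B] E.M₁)), redEps E 𝔪 z = 0 := by
      intro z hz
      refine Submodule.smul_induction_on hz (fun b hb z _ => ?_) (fun z z' hz hz' => ?_)
      · rw [smul_eq_algebraMap_smul, map_smul]
        obtain ⟨m', hm'⟩ := Submodule.Quotient.mk_surjective _ (redEps E 𝔪 z)
        rw [← hm', ← Submodule.Quotient.mk_smul, Submodule.Quotient.mk_eq_zero]
        exact Submodule.smul_mem_smul (algebraMap_mem_epsIdeal 𝔪 hb) Submodule.mem_top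
      · rw [map_add, hz, hz', add_zero]
    have := key _ h
    rw [redEps_tmul, map_one, one_smul, Submodule.Quotient.mk_eq_zero] at this
    exact this
  · intro h
    refine Submodule.smul_induction_on h (fun a ha m' _ => ?_) (fun m' m'' h' h'' => ?_)
    · rw [← TensorProduct.smul_tmul, algE_smul, mul_one]
      have : (D.eB B a) ⊗ₜ[D.A₁ B] m' = (D.eB B a) • ((1 : B) ⊗ₜ[D.A₁ B] m') := by
        rw [TensorProduct.smul_tmul', smul_eq_mul, mul_one]
      rw [this]
      exact Submodule.smul_mem_smul ha Submodule.mem_top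
    · rw [TensorProduct.tmul_add]
      exact Submodule.add_mem _ h' h''

/-- (F1, surjectivity) If at every closed point of `Spec B` some global section of `E` does not
vanish at `ε`, then evaluation at `ε` maps `H⁰(E)` ONTO the rigidification line. -/
theorem evEps_surjective (r : (B ⊗[D.A₁ B] E.M₁) ≃ₗ[B] B)
    (hgen : ∀ 𝔪 : Ideal B, 𝔪.IsMaximal →
      ∃ τ ∈ E.H0, τ.2 ∉ (epsIdeal D 𝔪 • ⊤ : Submodule (D.A₁ B) E.M₁)) :
    Function.Surjective (r.toLinearMap ∘ₗ evEps E) := by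
  rw [← LinearMap.range_eq_top]
  by_contra hne
  obtain ⟨𝔪, h𝔪, hle⟩ := Ideal.exists_le_maximal (LinearMap.range (r.toLinearMap ∘ₗ evEps E)) hne
  obtain ⟨τ, hτ, hτ2⟩ := hgen 𝔪 h𝔪
  apply hτ2
  rw [← one_tmul_mem_smul_top_iff]
  have h1 : r ((1 : B) ⊗ₜ[D.A₁ B] τ.2) ∈ 𝔪 := hle ⟨⟨τ, hτ⟩, rfl⟩
  have h2 : (1 : B) ⊗ₜ[D.A₁ B] τ.2 = r ((1 : B) ⊗ₜ[D.A₁ B] τ.2) • r.symm 1 := by
    rw [← map_smul, smul_eq_mul, mul_one, r.symm_apply_apply]
  rw [h2]
  exact Submodule.smul_mem_smul h1 Submodule.mem_top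

/-- (F1) If `H⁰(E)` is finite flat of rank `≤ 1` at every closed point and at every closed point
some global section does not vanish at `ε`, then evaluation at `ε` is an ISOMORPHISM of `H⁰(E)`
onto the rigidification line `ε^* E ≅ B`. -/
theorem evEps_bijective (r : (B ⊗[D.A₁ B] E.M₁) ≃ₗ[B] B)
    [Module.Finite B E.H0] [Module.Flat B E.H0]
    (hrank : ∀ (𝔪 : Ideal B) [𝔪.IsMaximal], Module.rankAtStalk E.H0 ⟨𝔪, inferInstance⟩ ≤ 1)
    (hgen : ∀ 𝔪 : Ideal B, 𝔪.IsMaximal →
      ∃ τ ∈ E.H0, τ.2 ∉ (epsIdeal D 𝔪 • ⊤ : Submodule (D.A₁ B) E.M₁)) :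
    Function.Bijective (r.toLinearMap ∘ₗ evEps E) := by
  refine bijective_of_surjective_of_rankAtStalk_le (evEps_surjective E r hgen) fun 𝔪 _ => ?_
  have : Nontrivial B := ⟨⟨0, 1, fun h => (Ideal.IsMaximal.ne_top ‹𝔪.IsMaximal›)
    ((Ideal.eq_top_iff_one _).mpr (h ▸ 𝔪.zero_mem))⟩⟩
  have h1 : Module.rankAtStalk (R := B) B ⟨𝔪, inferInstance⟩ = 1 := by
    rw [Module.rankAtStalk_self]; rfl
  exact (hrank 𝔪).trans h1.ge

/-- (F1, generator) Under the hypotheses of `evEps_bijective`, `H⁰(E)` is FREE OF RANK ONE over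
`B`, with a canonical generator `σ`: the unique section whose value at `ε` is the rigidification
`r⁻¹(1)`; every section `τ` is `r(τ(ε)) • σ`. -/
theorem exists_generator (r : (B ⊗[D.A₁ B] E.M₁) ≃ₗ[B] B)
    [Module.Finite B E.H0] [Module.Flat B E.H0]
    (hrank : ∀ (𝔪 : Ideal B) [𝔪.IsMaximal], Module.rankAtStalk E.H0 ⟨𝔪, inferInstance⟩ ≤ 1)
    (hgen : ∀ 𝔪 : Ideal B, 𝔪.IsMaximal →
      ∃ τ ∈ E.H0, τ.2 ∉ (epsIdeal D 𝔪 • ⊤ : Submodule (D.A₁ B) E.M₁)) :
    ∃ σ ∈ E.H0, r ((1 : B) ⊗ₜ[D.A₁ B] σ.2) = 1 ∧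
      ∀ τ ∈ E.H0, τ = r ((1 : B) ⊗ₜ[D.A₁ B] τ.2) • σ := by
  obtain ⟨hinj, hsurj⟩ := evEps_bijective E r hrank hgen
  obtain ⟨σ, hσ⟩ := hsurj 1
  refine ⟨σ.1, σ.2, hσ, fun τ hτ => ?_⟩
  have h1 : (r.toLinearMap ∘ₗ evEps E) ⟨τ, hτ⟩ =
      (r.toLinearMap ∘ₗ evEps E) (r ((1 : B) ⊗ₜ[D.A₁ B] τ.2) • σ) := by
    rw [map_smul, hσ, smul_eq_mul, mul_one]
    rfl
  exact congrArg Subtype.val (hinj h1)

/-- A section whose value at `ε` is the rigidification does not vanish at `ε(𝔭)` for any proper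
ideal `𝔭` of `B`. -/
theorem notMem_epsIdeal_smul_top (r : (B ⊗[D.A₁ B] E.M₁) ≃ₗ[B] B) {m : E.M₁}
    (hm : r ((1 : B) ⊗ₜ[D.A₁ B] m) = 1) (𝔭 : Ideal B) (h𝔭 : 𝔭 ≠ ⊤) :
    m ∉ (epsIdeal D 𝔭 • ⊤ : Submodule (D.A₁ B) E.M₁) := by
  intro h
  rw [← one_tmul_mem_smul_top_iff] at h
  have key : ∀ z ∈ (𝔭 • ⊤ : Submodule B (B ⊗[D.A₁ B] E.M₁)), r z ∈ 𝔭 := by
    intro z hz
    refine Submodule.smul_induction_on hz (fun b hb z _ => ?_) (fun z z' hz hz' => ?_)
    · rw [map_smul, smul_eq_mul]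
      exact 𝔭.mul_mem_right _ hb
    · rw [map_add]
      exact 𝔭.add_mem hz hz'
  exact h𝔭 ((Ideal.eq_top_iff_one _).mpr (hm ▸ key _ h))

/-- If `H⁰(E)` is generated over `B` by `σ` (every section is a `B`-multiple of `σ`) and the
sections generate `E₁` modulo a submodule `P` (e.g. `P = y E₁`), then `σ₁` alone generates `E₁`
modulo `P`. -/
theorem span_singleton_sup_eq_top {σ : E.M₀ × E.M₁} (hσ : ∀ τ ∈ E.H0, ∃ b : B, τ = b • σ)
    (P : Submodule (D.A₁ B) E.M₁)
    (hP : Submodule.span (D.A₁ B) {m | ∃ τ ∈ E.H0, τ.2 = m} ⊔ P = ⊤) :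
    Submodule.span (D.A₁ B) {σ.2} ⊔ P = ⊤ := by
  rw [eq_top_iff, ← hP]
  refine sup_le_sup_right (Submodule.span_le.mpr ?_) P
  rintro _ ⟨τ, hτ, rfl⟩
  obtain ⟨b, rfl⟩ := hσ τ hτ
  rw [Prod.smul_snd, GlueDatum.smul_def₁]
  exact Submodule.smul_mem _ _ (Submodule.subset_span rfl)

end Eps

section BaseChange

open Fermat.Agent.S25.helper8108

variable {B' : Type u} [CommRing B'] [Algebra k B'] (E : GlueDatum D B) (φ : B →ₐ[k] B')

/-- Base change of a global section is a global section. -/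
theorem bcMap_mem_H0 {τ : E.M₀ × E.M₁} (hτ : τ ∈ E.H0) :
    (bcMap₀ E φ τ.1, bcMap₁ E φ τ.2) ∈ (E.baseChange φ).H0 := by
  rw [GlueDatum.mem_H0] at hτ ⊢
  rw [baseChange_ρ₀_bcMap₀, baseChange_ρ₁_bcMap₁, hτ]

/-- (F1b) Vanishing at `ε` is preserved by base change: if `m` vanishes at `ε` over the
preimage of `𝔮`, then `1 ⊗ m` vanishes at `ε(𝔮)`. -/
theorem bcMap₁_mem_epsIdeal_smul_top (𝔮 : Ideal B') {m : E.M₁}
    (hm : m ∈ (epsIdeal D (𝔮.comap φ.toRingHom) • ⊤ : Submodule (D.A₁ B) E.M₁)) :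
    bcMap₁ E φ m ∈ (epsIdeal D 𝔮 • ⊤ : Submodule (D.A₁ B') (E.baseChange φ).M₁) := by
  refine Submodule.smul_induction_on hm (fun a ha m' _ => ?_) (fun m' m'' h' h'' => ?_)
  · rw [map_smulₛₗ]
    refine Submodule.smul_mem_smul ?_ Submodule.mem_top
    change D.eB B' (D.map₁ φ a) ∈ 𝔮
    rw [eB_map₁]
    exact ha
  · rw [map_add]
    exact Submodule.add_mem _ h' h''

/-- (F1c) Field-point criterion for the hypothesis `hgen` of `evEps_bijective`: if the sections
of the base change `E.baseChange φ` are spanned (on the chart at infinity) by base changes of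
sections of `E`, and some section of the base change does not vanish at `ε(𝔮)`, then some
section of `E` does not vanish at `ε` over the preimage of `𝔮`. -/
theorem exists_notMem_of_baseChange (𝔮 : Ideal B')
    (hspan : ∀ τ' ∈ (E.baseChange φ).H0,
      τ'.2 ∈ Submodule.span (D.A₁ B') {m' | ∃ τ ∈ E.H0, bcMap₁ E φ τ.2 = m'})
    (hτ' : ∃ τ' ∈ (E.baseChange φ).H0,
      τ'.2 ∉ (epsIdeal D 𝔮 • ⊤ : Submodule (D.A₁ B') (E.baseChange φ).M₁)) :
    ∃ τ ∈ E.H0, τ.2 ∉ (epsIdeal D (𝔮.comap φ.toRingHom) • ⊤ : Submodule (D.A₁ B) E.M₁) := by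
  by_contra hcon
  simp only [not_exists, not_and, not_not] at hcon
  obtain ⟨τ', hτ', hne⟩ := hτ'
  refine hne (Submodule.span_le.mpr ?_ (hspan τ' hτ'))
  rintro _ ⟨τ, hτ, rfl⟩
  exact bcMap₁_mem_epsIdeal_smul_top E φ 𝔮 (hcon τ hτ)

end BaseChange

section Hom

variable {G H : GlueDatum D B}

/-- A linear map `f₁ : G₁ → H₁` on the chart at infinity which is surjective modulo `y` does not
vanish at `ε(𝔭)` for any proper ideal `𝔭` of `B` (as an element of `Hom(G₁, H₁)`, the chart at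
infinity of the Hom datum). -/
theorem notMem_epsIdeal_smul_top_of_surjModY (f₁ : G.M₁ →ₗ[D.A₁ B] H.M₁)
    (hf : ∀ n : H.M₁, ∃ (m : G.M₁) (n' : H.M₁), n = f₁ m + yB D B • n')
    (𝔭 : Ideal B) (h𝔭 : 𝔭 ≠ ⊤) :
    f₁ ∉ (epsIdeal D 𝔭 • ⊤ : Submodule (D.A₁ B) (G.M₁ →ₗ[D.A₁ B] H.M₁)) := by
  intro h
  rw [linearMap_mem_smul_top_iff] at h
  have htop : (epsIdeal D 𝔭 • ⊤ : Submodule (D.A₁ B) H.M₁) = ⊤ := by
    rw [eq_top_iff]
    intro n _
    obtain ⟨m, n', rfl⟩ := hf n
    exact Submodule.add_mem _ (h m)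
      (Submodule.smul_mem_smul (yB_mem_epsIdeal 𝔭) Submodule.mem_top)
  have h1 : epsIdeal D 𝔭 = ⊤ := by
    apply smul_top_injective (A := D.A₁ B) (N := H.M₁)
    rw [htop, Submodule.top_smul]
  apply h𝔭
  rw [Ideal.eq_top_iff_one]
  have : (1 : D.A₁ B) ∈ epsIdeal D 𝔭 := h1 ▸ Submodule.mem_top
  rw [mem_epsIdeal, map_one] at this
  exact this

end Hom

end Fermat.Agent.S25.helper7244
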