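import Fermat.Agent.S25.helper985_LGSpec
import Fermat.Agent.S25.helper7579_AffineReduction
import Fermat.Agent.S25.helper7343_QcptSurj

/-!
# S25, layer G, arrow W-QC: `Stmt_Bounded → Stmt_QC` (and the fallback for `Stmt_GC`)

Frozen vocabulary + landed bricks only (no dictionary, no algebra).

If ONE affine family `M₀` over `Spec B₀` (in the cut) meets every geometric point of the functor,
then for every representing designation `D` the classifying map `Spec B₀ ⟶ D.P` of `M₀` is
surjective; hence `D.P` is quasi-compact. If moreover `B₀ ⊗[k] K` is a domain for every field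
`K/k`, then `D.toBase` is geometrically irreducible, in particular geometrically connected.
-/

set_option autoImplicit false

universe u

open CategoryTheory CategoryTheory.Limits AlgebraicGeometry AlgebraicGeometry.RelPicard
  NeronModelInfra GoodReductionJacobian TensorProduct

namespace Fermat.Agent.S25.helper7343

open Fermat.Agent.S25.helper1705 Fermat.Agent.S25.helper985 Fermat.Agent.S25.helper7579

section Classify

variable {k : Type u} [Field k] {C : Scheme.{u}} {c : C ⟶ Spec (CommRingCat.of k)}
  {ε : SchemeHomOver (𝟙 (Spec (CommRingCat.of k))) c} {P : SubPicCondition c ε}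
  {D : RelativePic0Designation k c}

/-- Every geometric point of a representing designation lifts through the classifying map of a
family `M₀` over `Spec B₀` that meets every geometric point of the functor. -/
theorem exists_lift_classify (h : RepresentsRelSubPic c ε P D)
    (B₀ : Type u) [CommRing B₀] [Algebra k B₀] (M₀ : RigidifiedLineBundle c ε (specStr k B₀))
    (hM₀ : P.P (specStr k B₀) M₀)
    (H : ∀ (K : Type u) [Field K] [IsAlgClosed K] [Algebra k K]
      (M : RigidifiedLineBundle c ε (specStr k K)), P.P (specStr k K) M →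
      ∃ φ : B₀ →ₐ[k] K, Nonempty ((M₀.pullbackAlong (specHomOver φ)).L ≅ M.L))
    (K : Type u) [Field K] [IsAlgClosed K] (s : Spec (CommRingCat.of K) ⟶ D.P) :
    ∃ s' : Spec (CommRingCat.of K) ⟶ Spec (CommRingCat.of B₀),
      s' ≫ (h.classify (specStr k B₀) M₀ hM₀).1 = s := by
  obtain ⟨ψ, hψ⟩ := Spec.map_surjective (s ≫ D.toBase)
  letI : Algebra k K := ψ.hom.toAlgebra
  have hs : s ≫ D.toBase = specStr k K := hψ.symm
  let sO : SchemeHomOver (specStr k K) D.toBase := ⟨s, hs⟩
  obtain ⟨φ, ⟨e⟩⟩ := H K (h.poincare.pullbackAlong sO) (P.pullback_mem _ _ sO _ h.poincare_mem)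
  have key : postComp (h.classify (specStr k B₀) M₀ hM₀) (specHomOver φ) = sO := by
    refine h.ext_of_iso _ _ _ ⟨?_⟩
    exact (pullbackAlongCompIso h.poincare (h.classify (specStr k B₀) M₀ hM₀)
        (specHomOver φ)).symm ≪≫
      (RigidifiedLineBundle.pullbackAlong_congr (specHomOver φ)
        (h.classify_spec (specStr k B₀) M₀ hM₀)).some ≪≫ e
  exact ⟨(specHomOver φ).1, congrArg Subtype.val key⟩

/-- The classifying map of a family meeting every geometric point of the functor is
surjective. -/
theorem surjective_classify (h : RepresentsRelSubPic c ε P D)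
    (B₀ : Type u) [CommRing B₀] [Algebra k B₀] (M₀ : RigidifiedLineBundle c ε (specStr k B₀))
    (hM₀ : P.P (specStr k B₀) M₀)
    (H : ∀ (K : Type u) [Field K] [IsAlgClosed K] [Algebra k K]
      (M : RigidifiedLineBundle c ε (specStr k K)), P.P (specStr k K) M →
      ∃ φ : B₀ →ₐ[k] K, Nonempty ((M₀.pullbackAlong (specHomOver φ)).L ≅ M.L)) :
    Surjective (h.classify (specStr k B₀) M₀ hM₀).1 :=
  surjective_of_geometric_points' _ fun K _ _ s => exists_lift_classify h B₀ M₀ hM₀ H K s

/-- A representing designation that receives a family meeting every geometric point of the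
functor is quasi-compact over the base field. -/
theorem quasiCompact_toBase (h : RepresentsRelSubPic c ε P D)
    (B₀ : Type u) [CommRing B₀] [Algebra k B₀] (M₀ : RigidifiedLineBundle c ε (specStr k B₀))
    (hM₀ : P.P (specStr k B₀) M₀)
    (H : ∀ (K : Type u) [Field K] [IsAlgClosed K] [Algebra k K]
      (M : RigidifiedLineBundle c ε (specStr k K)), P.P (specStr k K) M →
      ∃ φ : B₀ →ₐ[k] K, Nonempty ((M₀.pullbackAlong (specHomOver φ)).L ≅ M.L)) :
    QuasiCompact D.toBase := by
  have := surjective_classify h B₀ M₀ hM₀ H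
  exact quasiCompact_of_surjective_of_compactSpace (h.classify (specStr k B₀) M₀ hM₀).1 D.toBase

/-- If moreover `B₀ ⊗[k] K` is a domain for every field `K/k`, a representing designation is
irreducible, geometrically irreducible and geometrically connected. -/
theorem geometricallyIrreducible_toBase (h : RepresentsRelSubPic c ε P D)
    (B₀ : Type u) [CommRing B₀] [Algebra k B₀]
    (hB₀ : ∀ (K : Type u) [Field K] [Algebra k K], IsDomain (B₀ ⊗[k] K))
    (M₀ : RigidifiedLineBundle c ε (specStr k B₀))
    (hM₀ : P.P (specStr k B₀) M₀)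
    (H : ∀ (K : Type u) [Field K] [IsAlgClosed K] [Algebra k K]
      (M : RigidifiedLineBundle c ε (specStr k K)), P.P (specStr k K) M →
      ∃ φ : B₀ →ₐ[k] K, Nonempty ((M₀.pullbackAlong (specHomOver φ)).L ≅ M.L)) :
    IrreducibleSpace D.P ∧ GeometricallyIrreducible D.toBase ∧
      GeometricallyConnected D.toBase := by
  have hsurj := surjective_classify h B₀ M₀ hM₀ H
  have hgi : GeometricallyIrreducible ((h.classify (specStr k B₀) M₀ hM₀).1 ≫ D.toBase) := by
    rw [(h.classify (specStr k B₀) M₀ hM₀).2]
    exact geometricallyIrreducible_Spec_of_isDomain k B₀ hB₀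
  have hirr : GeometricallyIrreducible D.toBase :=
    geometricallyIrreducible_of_surjective_comp (h.classify (specStr k B₀) M₀ hM₀).1 D.toBase
  have hdom : IsDomain (CommRingCat.of B₀) := by
    have h1 := hB₀ k
    exact (Algebra.TensorProduct.rid k k B₀).symm.toMulEquiv.isDomain (B₀ ⊗[k] k)
  have hirrB : IrreducibleSpace ↥(Spec (CommRingCat.of B₀)) := inferInstance
  exact ⟨irreducibleSpace_of_surjective (h.classify (specStr k B₀) M₀ hM₀).1, hirr,
    geometricallyConnected_of_geometricallyIrreducible D.toBase⟩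

end Classify

/-- W-QC: `Stmt_Bounded → Stmt_QC`. -/
theorem stmt_QC_of_bounded (hB : Stmt_Bounded.{u}) : Stmt_QC.{u} := by
  intro k _ C c hc ε D hD
  obtain ⟨h⟩ := hD
  obtain ⟨B₀, _, _, M₀, hM₀, H⟩ := hB k c hc ε
  exact quasiCompact_toBase h B₀ M₀ hM₀ H

/-- BOUNDED, integral version: the affine family of `Stmt_Bounded` can be chosen over a
`k`-algebra `B₀` such that `B₀ ⊗[k] K` is a domain for every field `K/k`. -/
def Stmt_BoundedIntegral : Prop :=
  ∀ (k : Type u) [Field k] {C : Scheme.{u}} (c : C ⟶ Spec (CommRingCat.of k)) (_ : IsCurve k c)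
    (ε : SchemeHomOver (𝟙 (Spec (CommRingCat.of k))) c),
    ∃ (B₀ : Type u) (_ : CommRing B₀) (_ : Algebra k B₀)
      (M₀ : RigidifiedLineBundle c ε (specStr k B₀)),
      (∀ (K : Type u) [Field K] [Algebra k K], IsDomain (B₀ ⊗[k] K)) ∧
      FibrewiseAlgEquivZero M₀ ∧
      ∀ (K : Type u) [Field K] [IsAlgClosed K] [Algebra k K]
        (M : RigidifiedLineBundle c ε (specStr k K)), FibrewiseAlgEquivZero M →
        ∃ φ : B₀ →ₐ[k] K, Nonempty ((M₀.pullbackAlong (specHomOver φ)).L ≅ M.L)

/-- The integral version implies the plain one. -/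
theorem stmt_Bounded_of_boundedIntegral (hB : Stmt_BoundedIntegral.{u}) : Stmt_Bounded.{u} := by
  intro k _ C c hc ε
  obtain ⟨B₀, i1, i2, M₀, _, hM₀, H⟩ := hB k c hc ε
  exact ⟨B₀, i1, i2, M₀, hM₀, H⟩

/-- Fallback arrow for W-GC: `Stmt_BoundedIntegral → Stmt_GC`. -/
theorem stmt_GC_of_boundedIntegral (hB : Stmt_BoundedIntegral.{u}) : Stmt_GC.{u} := by
  intro k _ C c hc ε D hD _
  obtain ⟨h⟩ := hD
  obtain ⟨B₀, _, _, M₀, hB₀, hM₀, H⟩ := hB k c hc ε
  exact (geometricallyIrreducible_toBase h B₀ hB₀ M₀ hM₀ H).2.2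

end Fermat.Agent.S25.helper7343
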