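import Mathlib
import Fermat.Prelude.Def_AlgebraicGeometry_NeronModelPropertyBundleCarrier
import Fermat.Prelude.Def_JacJ1Iface
import Fermat.Prelude.Def_AlgebraicGeometry_RelativePicardFunctor
import Fermat.Prelude.Def_AlgebraicGeometry_RepresentsRelSubPic
import Fermat.Prelude.Def_AlgebraicGeometry_RelPicardAlgEquivZeroCut
import Fermat.Agent.S25.helper263_SmoothConnected
import Fermat.Agent.S25.helper6784_GeomIntegral
import Fermat.Agent.S25.helper9344_PoincareMem
import Fermat.Agent.S25.helper6135_AEZFamily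
import Fermat.Agent.S25.helper7579_AffineReduction

/-!
# S25, brick IDCOMP: the Jacobian as the identity component (helper7382)

Let `k` be an algebraically closed field, `c : C ⟶ Spec k`, `ε` a section, and let `Pc₀` be ANY
cut of the rigidified Picard functor containing the cut `algEquivZeroCut c ε`
(for instance the trivial cut `SubPicCondition.top`, or a "degree zero" cut).  If `D₀`
represents `Pc₀` and `D₀.toBase` is smooth, then the connected component `J` of the zero point
of `D₀.P` represents `algEquivZeroCut c ε`.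

Consequently the statement "degree zero implies algebraically equivalent to zero" (an explicit
connected family through every degree-zero bundle) is not needed for the representability of
the frozen cut: only "algebraically equivalent to zero implies `Pc₀`" is, and for
`Pc₀ = SubPicCondition.top` even that is void.

Main declarations (namespace `Fermat.Agent.S25.helper7382`):
* `isOpen_connectedComponent_of_locally_irreducible` (topology);
* `familyPiece_fibrewiseAlgEquivZero` : every rigidified restriction of a witness family of the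
  frozen predicate `IsAlgEquivZero` is itself fibrewise algebraically equivalent to zero;
* `classify_mem_connectedComponent` (any base ring) : the classifying map of a bundle in
  `algEquivZeroCut` sends each point into the connected component of the zero point;
* `idDesignation`, `idIncl`, `representsIdComponent` : the identity component and its universal
  property;
* `exists_represents_algEquivZero` : the theorem above, with smoothness, integrality,
  geometric integrality and geometric connectedness of the representing designation;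
* `exists_represents_algEquivZero_of_top` : the special case `Pc₀ = SubPicCondition.top`.
-/

set_option autoImplicit false

universe u

open CategoryTheory CategoryTheory.Limits AlgebraicGeometry AlgebraicGeometry.RelPicard
  NeronModelInfra GoodReductionJacobian

namespace Fermat.Agent.S25.helper7382

/-! ### Topology -/

/-- In a space in which every point has an irreducible open neighbourhood, connected components
are open. -/
theorem isOpen_connectedComponent_of_locally_irreducible {X : Type*} [TopologicalSpace X]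
    (h : ∀ x : X, ∃ U : Set X, IsOpen U ∧ x ∈ U ∧ IsIrreducible U) (x : X) :
    IsOpen (connectedComponent x) := by
  rw [isOpen_iff_forall_mem_open]
  intro y hy
  obtain ⟨U, hU, hyU, hirr⟩ := h y
  refine ⟨U, ?_, hU, hyU⟩
  have h1 : U ⊆ connectedComponent y :=
    hirr.isPreirreducible.isPreconnected.subset_connectedComponent hyU
  rwa [connectedComponent_eq hy]

/-- Two preconnected sets with a common point, one containing `a`, the other `b`: then `a`
lies in the connected component of `b`. -/
theorem mem_connectedComponent_of_two_preconnected {X : Type*} [TopologicalSpace X]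
    {S S' : Set X} (hS : _root_.IsPreconnected S) (hS' : _root_.IsPreconnected S') {a b m : X}
    (ha : a ∈ S) (hm : m ∈ S) (hm' : m ∈ S') (hb : b ∈ S') : a ∈ connectedComponent b := by
  have hU : _root_.IsPreconnected (S ∪ S') := hS.union m hm hm' hS'
  exact hU.subset_connectedComponent (Or.inr hb) (Or.inl ha)

/-! ### Restriction of modules on `C ×_R T` along morphisms of the base -/

section Restr

variable {R : Type u} [CommRing R] {C : Scheme.{u}} {c : C ⟶ Spec (CommRingCat.of R)}
  {ε : SchemeHomOver (𝟙 (Spec (CommRingCat.of R))) c}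

/-- The restriction of a module on `C ×_R T'` to `C ×_R V`, for `v : V ⟶ T'` over `R`. -/
noncomputable abbrev restr {T' V : Scheme.{u}} {τ : T' ⟶ Spec (CommRingCat.of R)}
    {ν : V ⟶ Spec (CommRingCat.of R)} (v : SchemeHomOver ν τ) (N : (pullback c τ).Modules) :
    (pullback c ν).Modules :=
  (Scheme.Modules.pullback (baseChangeSnd c v)).obj N

/-- Restriction is compatible with composition. -/
noncomputable def restrCompIso {T' V W : Scheme.{u}} {τ : T' ⟶ Spec (CommRingCat.of R)}
    {ν : V ⟶ Spec (CommRingCat.of R)} {ω : W ⟶ Spec (CommRingCat.of R)}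
    (v : SchemeHomOver ν τ) (r : SchemeHomOver ω ν) (N : (pullback c τ).Modules) :
    restr r (restr v N) ≅ restr (postComp v r) N :=
  helper6135.compIso (baseChangeSnd_comp c v r) N

/-- Restrictions along two factorizations of the same morphism are isomorphic. -/
noncomputable def restrSqIso {T' V V' W : Scheme.{u}} {τ : T' ⟶ Spec (CommRingCat.of R)}
    {ν : V ⟶ Spec (CommRingCat.of R)} {ν' : V' ⟶ Spec (CommRingCat.of R)}
    {ω : W ⟶ Spec (CommRingCat.of R)}
    (v : SchemeHomOver ν τ) (r : SchemeHomOver ω ν) (v' : SchemeHomOver ν' τ)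
    (r' : SchemeHomOver ω ν') (w : r.1 ≫ v.1 = r'.1 ≫ v'.1) (N : (pullback c τ).Modules) :
    restr r (restr v N) ≅ restr r' (restr v' N) :=
  helper6135.sqIso (by
    rw [baseChangeSnd_comp, baseChangeSnd_comp]
    exact congrArg (baseChangeSnd c) (Subtype.ext w)) N

/-- A rigidified line bundle on `C ×_R V` from an invertible module on `C ×_R T'` whose
pullback along the section `ε` is trivial over `V`. -/
noncomputable def rigOfRestr {T' V : Scheme.{u}} {τ : T' ⟶ Spec (CommRingCat.of R)}
    {ν : V ⟶ Spec (CommRingCat.of R)} (v : SchemeHomOver ν τ) (N : (pullback c τ).Modules)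
    (hN : Scheme.Modules.IsInvertible N)
    (e : Nonempty ((Scheme.Modules.pullback v.1).obj
      ((Scheme.Modules.pullback (rigSection c τ ε)).obj N) ≅
        SheafOfModules.unit V.ringCatSheaf)) :
    RigidifiedLineBundle c ε ν where
  L := restr v N
  isInvertible := hN.pullback _
  rigidified := ⟨helper6135.sqIso (rigSection_baseChangeSnd c ε v) N ≪≫ e.some⟩

/-- Every invertible module on `C ×_R T'` is rigidifiable locally on `T'`. -/
theorem exists_local_rig {T' : Scheme.{u}} {τ : T' ⟶ Spec (CommRingCat.of R)}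
    (N : (pullback c τ).Modules) (hN : Scheme.Modules.IsInvertible N) (w : T') :
    ∃ V : T'.Opens, w ∈ V ∧ ∃ M : RigidifiedLineBundle c ε (V.ι ≫ τ),
      M.L = restr (⟨V.ι, rfl⟩ : SchemeHomOver (V.ι ≫ τ) τ) N := by
  obtain ⟨V, hwV, ⟨e⟩⟩ := (hN.pullback (rigSection c τ ε)).1 w
  exact ⟨V, hwV, rigOfRestr (ε := ε) ⟨V.ι, rfl⟩ N hN ⟨e⟩, rfl⟩

/-- **Family pieces.** Let `(T', h, N, t₀)` be a witness family as in the frozen predicate
`IsAlgEquivZero` over a field `K` (in the normal form of `helper6135.FamilyForm`): `N` is an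
invertible module on `C ×_R T'` whose fibre at the `K`-point `t₀` is trivial. Then every
rigidified line bundle which is a restriction of `N` along some `v : V ⟶ T'` is fibrewise
algebraically equivalent to zero (witness: a base change of `T'` with the same `N`). -/
theorem familyPiece_fibrewiseAlgEquivZero {K : Type u} [Field K]
    (σ : Spec (CommRingCat.of K) ⟶ Spec (CommRingCat.of R))
    {T' : Scheme.{u}} (h : T' ⟶ Spec (CommRingCat.of K)) [LocallyOfFiniteType h]
    [GeometricallyIntegral h] (N : (pullback c (h ≫ σ)).Modules)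
    (hN : Scheme.Modules.IsInvertible N)
    (t₀ : SchemeHomOver (𝟙 (Spec (CommRingCat.of K))) h)
    (e₀ : Nonempty (restr (⟨t₀.1, by rw [← Category.assoc, t₀.2, Category.id_comp]⟩ :
        SchemeHomOver σ (h ≫ σ)) N ≅ SheafOfModules.unit (pullback c σ).ringCatSheaf))
    {V : Scheme.{u}} (v : V ⟶ T') (M : RigidifiedLineBundle c ε (v ≫ h ≫ σ))
    (eM : Nonempty (M.L ≅ restr (⟨v, rfl⟩ : SchemeHomOver (v ≫ h ≫ σ) (h ≫ σ)) N)) :
    FibrewiseAlgEquivZero M := by
  rw [helper6135.fibrewiseAlgEquivZero_iff]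
  intro Ω _ _ u
  obtain ⟨e₀⟩ := e₀
  obtain ⟨eM⟩ := eM
  let κ : Spec (CommRingCat.of Ω) ⟶ Spec (CommRingCat.of K) := u ≫ v ≫ h
  let π : pullback h κ ⟶ T' := pullback.fst h κ
  let h'' : pullback h κ ⟶ Spec (CommRingCat.of Ω) := pullback.snd h κ
  have hπ : π ≫ h ≫ σ = h'' ≫ u ≫ v ≫ h ≫ σ := by
    rw [← Category.assoc, pullback.condition]
    simp only [κ, h'', Category.assoc]
  let Φ : SchemeHomOver (h'' ≫ u ≫ v ≫ h ≫ σ) (h ≫ σ) := ⟨π, hπ⟩
  let t₁'' : SchemeHomOver (𝟙 (Spec (CommRingCat.of Ω))) h'' :=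
    ⟨pullback.lift (u ≫ v) (𝟙 _) (by simp only [κ, Category.assoc, Category.id_comp]),
      pullback.lift_snd _ _ _⟩
  let t₀'' : SchemeHomOver (𝟙 (Spec (CommRingCat.of Ω))) h'' :=
    ⟨pullback.lift (κ ≫ t₀.1) (𝟙 _) (by
        rw [Category.assoc, t₀.2, Category.comp_id, Category.id_comp]),
      pullback.lift_snd _ _ _⟩
  let κ' : SchemeHomOver (u ≫ v ≫ h ≫ σ) σ := ⟨κ, by simp only [κ, Category.assoc]⟩
  refine ⟨pullback h κ, h'', inferInstance, inferInstance, restr Φ N, hN.pullback _, t₀'', t₁'',
    ⟨?_⟩, ⟨?_⟩⟩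
  · refine restrSqIso Φ (helper6135.sec (v ≫ h ≫ σ) u t₀'')
      (⟨t₀.1, by rw [← Category.assoc, t₀.2, Category.id_comp]⟩ : SchemeHomOver σ (h ≫ σ)) κ'
      ?_ N ≪≫ (Scheme.Modules.pullback (baseChangeSnd c κ')).mapIso e₀ ≪≫
      Scheme.Modules.pullbackUnitIso _
    exact pullback.lift_fst _ _ _
  · refine restrSqIso Φ (helper6135.sec (v ≫ h ≫ σ) u t₁'')
      (⟨v, rfl⟩ : SchemeHomOver (v ≫ h ≫ σ) (h ≫ σ)) (helper6135.pt (v ≫ h ≫ σ) u) ?_ N ≪≫
      (Scheme.Modules.pullback (baseChangeSnd c (helper6135.pt (v ≫ h ≫ σ) u))).mapIso eM.symm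
    exact pullback.lift_fst _ _ _

end Restr

/-! ### Classifying maps of restrictions of a family -/

section Classify

variable {R : Type u} [CommRing R] {C : Scheme.{u}} {c : C ⟶ Spec (CommRingCat.of R)}
  {ε : SchemeHomOver (𝟙 (Spec (CommRingCat.of R))) c} {Pc₀ : SubPicCondition c ε}
  {D₀ : RelativePic0Designation R c}

/-- `g` classifies (in `D₀`) the restriction of the module `N` along `v`. -/
def Classifies (h₀ : RepresentsRelSubPic c ε Pc₀ D₀) {T' : Scheme.{u}}
    {τ : T' ⟶ Spec (CommRingCat.of R)} (N : (pullback c τ).Modules) {V : Scheme.{u}}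
    {ν : V ⟶ Spec (CommRingCat.of R)} (v : SchemeHomOver ν τ)
    (g : SchemeHomOver ν D₀.toBase) : Prop :=
  Nonempty ((h₀.poincare.pullbackAlong g).L ≅ restr v N)

variable {h₀ : RepresentsRelSubPic c ε Pc₀ D₀} {T' : Scheme.{u}}
  {τ : T' ⟶ Spec (CommRingCat.of R)} {N : (pullback c τ).Modules} {V : Scheme.{u}}
  {ν : V ⟶ Spec (CommRingCat.of R)} {v : SchemeHomOver ν τ}

theorem Classifies.restrict {g : SchemeHomOver ν D₀.toBase} (hg : Classifies h₀ N v g)
    {W : Scheme.{u}} {ω : W ⟶ Spec (CommRingCat.of R)} (r : SchemeHomOver ω ν) :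
    Classifies h₀ N (postComp v r) (postComp g r) := by
  obtain ⟨e⟩ := hg
  exact ⟨(helper7579.pullbackAlongCompIso h₀.poincare g r).symm ≪≫
    (Scheme.Modules.pullback (baseChangeSnd c r)).mapIso e ≪≫ restrCompIso v r N⟩

theorem Classifies.unique {g g' : SchemeHomOver ν D₀.toBase} (hg : Classifies h₀ N v g)
    (hg' : Classifies h₀ N v g') : g = g' := by
  obtain ⟨e⟩ := hg
  obtain ⟨e'⟩ := hg'
  exact h₀.ext_of_iso _ g g' ⟨e ≪≫ e'.symm⟩

/-- Two classifying maps of restrictions of the same module agree at points with the same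
image in the base of the family. -/
theorem Classifies.apply_eq {V' : Scheme.{u}} {ν' : V' ⟶ Spec (CommRingCat.of R)}
    {v' : SchemeHomOver ν' τ} {g : SchemeHomOver ν D₀.toBase} {g' : SchemeHomOver ν' D₀.toBase}
    (hg : Classifies h₀ N v g) (hg' : Classifies h₀ N v' g') (a : V) (a' : V')
    (haa' : v.1 a = v'.1 a') : g.1 a = g'.1 a' := by
  obtain ⟨z, hz, hz'⟩ := Scheme.Pullback.exists_preimage_pullback a a' haa'
  let r : SchemeHomOver (pullback.fst v.1 v'.1 ≫ ν) ν := ⟨pullback.fst v.1 v'.1, rfl⟩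
  have hv' := v'.2
  have hv := v.2
  let r' : SchemeHomOver (pullback.fst v.1 v'.1 ≫ ν) ν' := ⟨pullback.snd v.1 v'.1, by
    calc pullback.snd v.1 v'.1 ≫ ν' = pullback.snd v.1 v'.1 ≫ v'.1 ≫ τ := by rw [hv']
      _ = pullback.fst v.1 v'.1 ≫ v.1 ≫ τ := by
          rw [← Category.assoc, ← pullback.condition, Category.assoc]
      _ = pullback.fst v.1 v'.1 ≫ ν := by rw [hv]⟩
  have hrr' : postComp v r = postComp v' r' := Subtype.ext pullback.condition
  have h1 := hg.restrict r
  have h2 := hg'.restrict r'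
  rw [← hrr'] at h2
  have h3 : (postComp g r).1 = (postComp g' r').1 := congrArg Subtype.val (h1.unique h2)
  have h4 : (pullback.fst v.1 v'.1 ≫ g.1) z = (pullback.snd v.1 v'.1 ≫ g'.1) z :=
    congrArg (fun f : pullback v.1 v'.1 ⟶ D₀.P => f z) h3
  rw [Scheme.Hom.comp_apply, Scheme.Hom.comp_apply, hz, hz'] at h4
  exact h4

end Classify

/-! ### Classifying maps of bundles algebraically equivalent to zero land in the identity
component -/

section Component

variable {R : Type u} [CommRing R] {C : Scheme.{u}} {c : C ⟶ Spec (CommRingCat.of R)}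
  {ε : SchemeHomOver (𝟙 (Spec (CommRingCat.of R))) c} {Pc₀ : SubPicCondition c ε}
  {D₀ : RelativePic0Designation R c}

/-- Locally on the base of a witness family, the family is classified by a map to `D₀`. -/
theorem exists_classifies_nhds (h₀ : RepresentsRelSubPic c ε Pc₀ D₀)
    (hle : ∀ {T : Scheme.{u}} (t : T ⟶ Spec (CommRingCat.of R)) (M : RigidifiedLineBundle c ε t),
      FibrewiseAlgEquivZero M → Pc₀.P t M)
    {K : Type u} [Field K] (σ : Spec (CommRingCat.of K) ⟶ Spec (CommRingCat.of R))
    {T' : Scheme.{u}} (h : T' ⟶ Spec (CommRingCat.of K)) [LocallyOfFiniteType h]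
    [GeometricallyIntegral h] (N : (pullback c (h ≫ σ)).Modules)
    (hN : Scheme.Modules.IsInvertible N)
    (t₀ : SchemeHomOver (𝟙 (Spec (CommRingCat.of K))) h)
    (e₀ : Nonempty (restr (⟨t₀.1, by rw [← Category.assoc, t₀.2, Category.id_comp]⟩ :
        SchemeHomOver σ (h ≫ σ)) N ≅ SheafOfModules.unit (pullback c σ).ringCatSheaf))
    (w : T') :
    ∃ V : T'.Opens, w ∈ V ∧ ∃ G : SchemeHomOver (V.ι ≫ h ≫ σ) D₀.toBase,
      Classifies h₀ N (⟨V.ι, rfl⟩ : SchemeHomOver (V.ι ≫ h ≫ σ) (h ≫ σ)) G := by
  obtain ⟨V, hwV, M, hML⟩ := exists_local_rig (ε := ε) N hN w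
  have hM : FibrewiseAlgEquivZero M :=
    familyPiece_fibrewiseAlgEquivZero σ h N hN t₀ e₀ V.ι M ⟨eqToIso hML⟩
  refine ⟨V, hwV, h₀.classify _ M (hle _ M hM), ?_⟩
  obtain ⟨e⟩ := h₀.classify_spec _ M (hle _ M hM)
  exact ⟨e ≪≫ eqToIso hML⟩

/-- **Key lemma.** If `D₀` represents a cut `Pc₀` containing the cut "fibrewise algebraically
equivalent to zero", then the classifying map of any bundle `M` which is fibrewise
algebraically equivalent to zero sends every point `p` into the connected component of the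
zero point (over the image of `p` in the base). -/
theorem classify_mem_connectedComponent (h₀ : RepresentsRelSubPic c ε Pc₀ D₀)
    (hle : ∀ {T : Scheme.{u}} (t : T ⟶ Spec (CommRingCat.of R)) (M : RigidifiedLineBundle c ε t),
      FibrewiseAlgEquivZero M → Pc₀.P t M)
    {T : Scheme.{u}} (t : T ⟶ Spec (CommRingCat.of R)) (M : RigidifiedLineBundle c ε t)
    (hM : FibrewiseAlgEquivZero M) (g : SchemeHomOver t D₀.toBase)
    (hg : Nonempty ((h₀.poincare.pullbackAlong g).L ≅ M.L)) (p : T) :
    g.1 p ∈ connectedComponent (D₀.zeroSection (t p)) := by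
  obtain ⟨eg⟩ := hg
  let K : Type u := AlgebraicClosure (T.residueField p)
  let s : Spec (CommRingCat.of K) ⟶ T :=
    Spec.map (CommRingCat.ofHom (algebraMap (T.residueField p) K)) ≫ T.fromSpecResidueField p
  have hs : ∀ x : Spec (CommRingCat.of K), s x = p := fun x => by
    simp only [s, Scheme.Hom.comp_apply]
    exact Scheme.fromSpecResidueField_apply _ _
  obtain ⟨T', h, hft, hgi, N, hN, t₀, t₁, e₀, ⟨e₁⟩⟩ :=
    (helper6135.fibrewiseAlgEquivZero_iff M).mp hM K s
  have hT' : IsIntegral T' := GeometricallyIntegral.isIntegral_of_subsingleton h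
  obtain ⟨x⟩ : Nonempty (Spec (CommRingCat.of K)) := inferInstance
  obtain ⟨V₁, hw₁, G₁, hG₁⟩ := exists_classifies_nhds h₀ hle (s ≫ t) h N hN t₀ e₀ (t₁.1 x)
  obtain ⟨V₀, hw₀, G₀, hG₀⟩ := exists_classifies_nhds h₀ hle (s ≫ t) h N hN t₀ e₀ (t₀.1 x)
  -- the two ends of the family
  have hcl₁ : Classifies h₀ N (helper6135.sec t s t₁) (postComp g (helper6135.pt t s)) :=
    ⟨(helper7579.pullbackAlongCompIso h₀.poincare g (helper6135.pt t s)).symm ≪≫
      (Scheme.Modules.pullback (baseChangeSnd c (helper6135.pt t s))).mapIso eg ≪≫ e₁.symm⟩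
  have hcl₀ : Classifies h₀ N (helper6135.sec t s t₀)
      (postComp (⟨D₀.zeroSection, D₀.zeroSection_toBase⟩ : SchemeHomOver (𝟙 _) D₀.toBase)
        (⟨s ≫ t, Category.comp_id _⟩ : SchemeHomOver (s ≫ t) (𝟙 _))) := by
    obtain ⟨ez⟩ := h₀.zero
    obtain ⟨e₀⟩ := e₀
    exact ⟨(helper7579.pullbackAlongCompIso h₀.poincare _ _).symm ≪≫
      (Scheme.Modules.pullback (baseChangeSnd c _)).mapIso ez ≪≫
      Scheme.Modules.pullbackUnitIso _ ≪≫ e₀.symm⟩
  have h1 : G₁.1 ⟨t₁.1 x, hw₁⟩ = g.1 p := by
    have h := hG₁.apply_eq hcl₁ ⟨t₁.1 x, hw₁⟩ x rfl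
    rw [h]
    exact congrArg (fun q => g.1 q) (hs x)
  have h0 : G₀.1 ⟨t₀.1 x, hw₀⟩ = D₀.zeroSection (t p) := by
    have h := hG₀.apply_eq hcl₀ ⟨t₀.1 x, hw₀⟩ x rfl
    rw [h]
    exact congrArg (fun q => D₀.zeroSection (t q)) (hs x)
  -- a common point of the two neighbourhoods
  obtain ⟨y, hy₁, hy₀⟩ : ∃ y, y ∈ V₁ ∧ y ∈ V₀ := by
    obtain ⟨y, -, hy⟩ := (PreirreducibleSpace.isPreirreducible_univ (X := T')) V₁ V₀ V₁.2 V₀.2
      ⟨_, trivial, hw₁⟩ ⟨_, trivial, hw₀⟩
    exact ⟨y, hy⟩
  have hm : G₁.1 ⟨y, hy₁⟩ = G₀.1 ⟨y, hy₀⟩ := hG₁.apply_eq hG₀ _ _ rfl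
  -- the two pieces are irreducible, hence have preconnected images
  have hne₁ : Nonempty V₁ := ⟨⟨_, hw₁⟩⟩
  have hne₀ : Nonempty V₀ := ⟨⟨_, hw₀⟩⟩
  have hS₁ : _root_.IsPreconnected (Set.range G₁.1) := isPreconnected_range G₁.1.continuous
  have hS₀ : _root_.IsPreconnected (Set.range G₀.1) := isPreconnected_range G₀.1.continuous
  rw [← h1, ← h0]
  exact mem_connectedComponent_of_two_preconnected hS₁ hS₀ ⟨_, rfl⟩ ⟨⟨y, hy₁⟩, rfl⟩
    ⟨⟨y, hy₀⟩, hm.symm⟩ ⟨_, rfl⟩

end Component

/-! ### The identity component represents `algEquivZeroCut` -/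

section Main

variable {k : Type u} [Field k] {C : Scheme.{u}} {c : C ⟶ Spec (CommRingCat.of k)}
  {ε : SchemeHomOver (𝟙 (Spec (CommRingCat.of k))) c} {Pc₀ : SubPicCondition c ε}

/-- The connected component of the zero point of a smooth designation, as an open subscheme. -/
noncomputable def idOpen (D₀ : RelativePic0Designation k c) [Smooth D₀.toBase]
    (x₀ : Spec (CommRingCat.of k)) : D₀.P.Opens :=
  ⟨connectedComponent (D₀.zeroSection x₀),
    isOpen_connectedComponent_of_locally_irreducible
      (helper263.exists_isOpen_isIrreducible_of_smooth D₀.toBase) _⟩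

theorem mem_idOpen_iff (D₀ : RelativePic0Designation k c) [Smooth D₀.toBase]
    (x₀ : Spec (CommRingCat.of k)) (p : D₀.P) :
    p ∈ idOpen D₀ x₀ ↔ p ∈ connectedComponent (D₀.zeroSection x₀) :=
  Iff.rfl

theorem range_zeroSection_subset (D₀ : RelativePic0Designation k c) [Smooth D₀.toBase]
    (x₀ : Spec (CommRingCat.of k)) :
    Set.range D₀.zeroSection ⊆ Set.range (idOpen D₀ x₀).ι := by
  rw [Scheme.Opens.range_ι]
  rintro _ ⟨x, rfl⟩
  rw [Subsingleton.elim x x₀]
  exact mem_connectedComponent

/-- The identity component of a smooth designation, as a designation. -/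
noncomputable def idDesignation (D₀ : RelativePic0Designation k c) [Smooth D₀.toBase]
    (x₀ : Spec (CommRingCat.of k)) : RelativePic0Designation k c where
  P := (idOpen D₀ x₀ : Scheme.{u})
  toBase := (idOpen D₀ x₀).ι ≫ D₀.toBase
  zeroSection := IsOpenImmersion.lift (idOpen D₀ x₀).ι D₀.zeroSection
    (range_zeroSection_subset D₀ x₀)
  zeroSection_toBase := by
    rw [← Category.assoc, IsOpenImmersion.lift_fac, D₀.zeroSection_toBase]

/-- The inclusion of the identity component, as a morphism over the base. -/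
noncomputable def idIncl (D₀ : RelativePic0Designation k c) [Smooth D₀.toBase]
    (x₀ : Spec (CommRingCat.of k)) : SchemeHomOver (idDesignation D₀ x₀).toBase D₀.toBase :=
  ⟨(idOpen D₀ x₀).ι, rfl⟩

theorem idDesignation_zeroSection_ι (D₀ : RelativePic0Designation k c) [Smooth D₀.toBase]
    (x₀ : Spec (CommRingCat.of k)) :
    (idDesignation D₀ x₀).zeroSection ≫ (idIncl D₀ x₀).1 = D₀.zeroSection :=
  IsOpenImmersion.lift_fac (idOpen D₀ x₀).ι D₀.zeroSection (range_zeroSection_subset D₀ x₀)

instance idIncl_isOpenImmersion (D₀ : RelativePic0Designation k c) [Smooth D₀.toBase]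
    (x₀ : Spec (CommRingCat.of k)) : IsOpenImmersion (idIncl D₀ x₀).1 :=
  inferInstanceAs (IsOpenImmersion (idOpen D₀ x₀).ι)

theorem range_idIncl (D₀ : RelativePic0Designation k c) [Smooth D₀.toBase]
    (x₀ : Spec (CommRingCat.of k)) :
    Set.range (idIncl D₀ x₀).1 = connectedComponent (D₀.zeroSection x₀) :=
  Scheme.Opens.range_ι (idOpen D₀ x₀)

/-- Morphisms landing in the identity component factor through it. -/
noncomputable def idLift (D₀ : RelativePic0Designation k c) [Smooth D₀.toBase]
    (x₀ : Spec (CommRingCat.of k)) {T : Scheme.{u}} (f : T ⟶ D₀.P)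
    (hf : Set.range f ⊆ Set.range (idIncl D₀ x₀).1) : T ⟶ (idDesignation D₀ x₀).P :=
  IsOpenImmersion.lift (idIncl D₀ x₀).1 f hf

theorem idLift_fac (D₀ : RelativePic0Designation k c) [Smooth D₀.toBase]
    (x₀ : Spec (CommRingCat.of k)) {T : Scheme.{u}} (f : T ⟶ D₀.P)
    (hf : Set.range f ⊆ Set.range (idIncl D₀ x₀).1) :
    idLift D₀ x₀ f hf ≫ (idIncl D₀ x₀).1 = f :=
  IsOpenImmersion.lift_fac _ _ _

instance idDesignation_smooth (D₀ : RelativePic0Designation k c) [Smooth D₀.toBase]
    (x₀ : Spec (CommRingCat.of k)) : Smooth (idDesignation D₀ x₀).toBase :=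
  inferInstanceAs (Smooth ((idOpen D₀ x₀).ι ≫ D₀.toBase))

instance idDesignation_connectedSpace (D₀ : RelativePic0Designation k c) [Smooth D₀.toBase]
    (x₀ : Spec (CommRingCat.of k)) : ConnectedSpace (idDesignation D₀ x₀).P :=
  isConnected_iff_connectedSpace.mp (isConnected_connectedComponent (x := D₀.zeroSection x₀))

theorem idDesignation_isIntegral (D₀ : RelativePic0Designation k c) [Smooth D₀.toBase]
    (x₀ : Spec (CommRingCat.of k)) : IsIntegral (idDesignation D₀ x₀).P :=
  helper263.isIntegral_of_smooth_of_connectedSpace (idDesignation D₀ x₀).toBase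

variable {D₀ : RelativePic0Designation k c}

/-- The restriction of the Poincaré bundle to the identity component is trivial along the zero
section. -/
theorem idPoincare_zero (h₀ : RepresentsRelSubPic c ε Pc₀ D₀) [Smooth D₀.toBase]
    (x₀ : Spec (CommRingCat.of k)) :
    Nonempty (((h₀.poincare.pullbackAlong (idIncl D₀ x₀)).pullbackAlong
      ⟨(idDesignation D₀ x₀).zeroSection, (idDesignation D₀ x₀).zeroSection_toBase⟩).L ≅
        (RigidifiedLineBundle.unit (c := c) (ε := ε) (𝟙 _)).L) := by
  obtain ⟨ez⟩ := h₀.zero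
  obtain ⟨e⟩ := helper7579.pullbackAlong_congr_val h₀.poincare
    (ψ := postComp (idIncl D₀ x₀)
      ⟨(idDesignation D₀ x₀).zeroSection, (idDesignation D₀ x₀).zeroSection_toBase⟩)
    (ψ' := ⟨D₀.zeroSection, D₀.zeroSection_toBase⟩) (idDesignation_zeroSection_ι D₀ x₀)
  exact ⟨helper7579.pullbackAlongCompIso h₀.poincare _ _ ≪≫ e ≪≫ ez⟩

/-- **IDCOMP.** Over an algebraically closed field, if a smooth designation `D₀` represents a
cut `Pc₀` containing `algEquivZeroCut c ε`, then the identity component of `D₀` represents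
`algEquivZeroCut c ε`. -/
noncomputable def representsIdComponent [IsAlgClosed k] (h₀ : RepresentsRelSubPic c ε Pc₀ D₀)
    (hle : ∀ {T : Scheme.{u}} (t : T ⟶ Spec (CommRingCat.of k)) (M : RigidifiedLineBundle c ε t),
      FibrewiseAlgEquivZero M → Pc₀.P t M)
    [Smooth D₀.toBase] (x₀ : Spec (CommRingCat.of k)) :
    RepresentsRelSubPic c ε (algEquivZeroCut c ε) (idDesignation D₀ x₀) where
  poincare := h₀.poincare.pullbackAlong (idIncl D₀ x₀)
  poincare_mem := by
    have := idDesignation_isIntegral D₀ x₀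
    have : GeometricallyIntegral (idDesignation D₀ x₀).toBase :=
      helper6784.geometricallyIntegral_of_isAlgClosed _
    have : LocallyOfFiniteType (idDesignation D₀ x₀).toBase := inferInstance
    exact helper9344.fibrewiseAlgEquivZero_of_designation (idDesignation D₀ x₀) _
      (idPoincare_zero h₀ x₀)
  univ := by
    intro T t M hM
    have hM' : FibrewiseAlgEquivZero M := hM
    let g₀ := h₀.classify t M (hle t M hM')
    have hg₀ := h₀.classify_spec t M (hle t M hM')
    have hrange : Set.range g₀.1 ⊆ Set.range (idIncl D₀ x₀).1 := by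
      rw [range_idIncl]
      rintro _ ⟨p, rfl⟩
      have hp := classify_mem_connectedComponent h₀ hle t M hM' g₀ hg₀ p
      rwa [Subsingleton.elim (t p) x₀] at hp
    have hfac := (idIncl D₀ x₀).2
    let g : SchemeHomOver t (idDesignation D₀ x₀).toBase :=
      ⟨idLift D₀ x₀ g₀.1 hrange, by
        rw [← hfac, ← Category.assoc, idLift_fac, g₀.2]⟩
    have hgg₀ : postComp (idIncl D₀ x₀) g = g₀ :=
      Subtype.ext (idLift_fac D₀ x₀ g₀.1 hrange)
    refine ⟨g, ?_, ?_⟩
    · obtain ⟨e⟩ := hg₀
      obtain ⟨e'⟩ := helper7579.pullbackAlong_congr_hom h₀.poincare hgg₀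
      exact ⟨helper7579.pullbackAlongCompIso h₀.poincare (idIncl D₀ x₀) g ≪≫ e' ≪≫ e⟩
    · rintro g' ⟨e'⟩
      have h1 : postComp (idIncl D₀ x₀) g' = g₀ :=
        h₀.classify_unique t M _ _
          ⟨(helper7579.pullbackAlongCompIso h₀.poincare (idIncl D₀ x₀) g').symm ≪≫ e'⟩
      apply Subtype.ext
      rw [← cancel_mono (idIncl D₀ x₀).1]
      exact (congrArg Subtype.val h1).trans (congrArg Subtype.val hgg₀).symm
  zero := idPoincare_zero h₀ x₀

/-- **IDCOMP**, existence form. The representing designation is smooth, integral, locally of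
finite type, geometrically integral and geometrically connected, and it is an open and closed
subscheme of `D₀`. -/
theorem exists_represents_algEquivZero [IsAlgClosed k] (h₀ : RepresentsRelSubPic c ε Pc₀ D₀)
    (hle : ∀ {T : Scheme.{u}} (t : T ⟶ Spec (CommRingCat.of k)) (M : RigidifiedLineBundle c ε t),
      FibrewiseAlgEquivZero M → Pc₀.P t M)
    [Smooth D₀.toBase] :
    ∃ D : RelativePic0Designation k c,
      Nonempty (RepresentsRelSubPic c ε (algEquivZeroCut c ε) D) ∧ Smooth D.toBase ∧
        LocallyOfFiniteType D.toBase ∧ IsIntegral D.P ∧ GeometricallyIntegral D.toBase ∧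
        GeometricallyConnected D.toBase ∧
        ∃ i : SchemeHomOver D.toBase D₀.toBase, IsOpenImmersion i.1 ∧ IsClosed (Set.range i.1) ∧
          D.zeroSection ≫ i.1 = D₀.zeroSection := by
  obtain ⟨x₀⟩ : Nonempty (Spec (CommRingCat.of k)) := inferInstance
  have := idDesignation_isIntegral D₀ x₀
  refine ⟨idDesignation D₀ x₀, ⟨representsIdComponent h₀ hle x₀⟩, inferInstance, inferInstance,
    inferInstance, helper6784.geometricallyIntegral_of_isAlgClosed _,
    helper6784.geometricallyConnected_of_isAlgClosed _, idIncl D₀ x₀,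
    inferInstance, ?_, idDesignation_zeroSection_ι D₀ x₀⟩
  rw [range_idIncl]
  exact isClosed_connectedComponent

/-- **IDCOMP for the full Picard scheme.** If a smooth designation represents ALL rigidified
line bundles, its identity component represents `algEquivZeroCut c ε`. -/
theorem exists_represents_algEquivZero_of_top [IsAlgClosed k]
    (h₀ : RepresentsRelSubPic c ε (SubPicCondition.top c ε) D₀) [Smooth D₀.toBase] :
    ∃ D : RelativePic0Designation k c,
      Nonempty (RepresentsRelSubPic c ε (algEquivZeroCut c ε) D) ∧ Smooth D.toBase ∧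
        LocallyOfFiniteType D.toBase ∧ IsIntegral D.P ∧ GeometricallyIntegral D.toBase ∧
        GeometricallyConnected D.toBase ∧
        ∃ i : SchemeHomOver D.toBase D₀.toBase, IsOpenImmersion i.1 ∧ IsClosed (Set.range i.1) ∧
          D.zeroSection ≫ i.1 = D₀.zeroSection :=
  exists_represents_algEquivZero h₀ (fun _ _ _ => trivial)

end Main

end Fermat.Agent.S25.helper7382
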