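import Mathlib
import Fermat.Agent.Lib.helper9007_TensorDomain

/-!
# S25 brick TP: the tensor-power algebra `R^{⊗d}` (helper7470)

For a commutative `k`-algebra `R` and `d : ℕ`, the `d`-fold tensor power
`TPow k R d = ⨂[k] _ : Fin d, R` is the commutative `k`-algebra representing `d`-tuples of points:
`(TPow k R d →ₐ[k] B) ≃ (Fin d → (R →ₐ[k] B))` for every commutative `k`-algebra `B`.

It is the ring `B₀ = R₀^{⊗d}` of the universal family `O(m·D∞ − ΣΓ_i)` used for
quasi-compactness (`Stmt_Bounded`), for the point decomposition (U9) and for the witness of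
algebraic equivalence to zero (LG-FAEZ).

Main results (Mathlib + the tensor-domain brick only):
* `TPow.pt i : R →ₐ[k] TPow k R d`, the `i`-th universal point;
* `TPow.lift`, `TPow.lift_comp_pt`, `TPow.algHom_ext`, `TPow.homEquiv` : the universal property;
* `TPow.adjoin_range_pt` : the universal points generate;
* `TPow.finiteType` : finite type is inherited;
* `TPow.zeroEquiv : TPow k R 0 ≃ₐ[k] k`, `TPow.succEquiv : TPow k R (d+1) ≃ₐ[k] R ⊗[k] TPow k R d`;
* `TPow.isDomain` : over an algebraically closed field, the tensor power of a domain is a domain;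
* `TPow.isDomain_tensor_field`, `TPow.isDomain_field_tensor` : it stays a domain after every field
  extension (geometric integrality, in the hypothesis shape of `helper7343` (Q4)/(Q5)).
-/

set_option autoImplicit false

universe u v

open scoped TensorProduct

namespace Fermat.Agent.S25.helper7470

section Basic

variable (k : Type u) [CommRing k] (R : Type u) [CommRing R] [Algebra k R] (d : ℕ)

/-- The `d`-fold tensor power `R ⊗ ⋯ ⊗ R` of a commutative `k`-algebra, a commutative
`k`-algebra (instances from Mathlib's `PiTensorProduct`). -/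
abbrev TPow : Type u := ⨂[k] _ : Fin d, R

namespace TPow

variable {k R d}

/-- The `i`-th universal point `R → R^{⊗d}`, `a ↦ 1 ⊗ ⋯ ⊗ a ⊗ ⋯ ⊗ 1`. -/
noncomputable def pt (i : Fin d) : R →ₐ[k] TPow k R d :=
  PiTensorProduct.singleAlgHom (R := k) (A := fun _ : Fin d => R) i

theorem pt_apply (i : Fin d) (a : R) :
    pt (k := k) i a = PiTensorProduct.tprod k (Pi.mulSingle i a : Fin d → R) := rfl

variable {B : Type v} [CommRing B] [Algebra k B]

/-- The multilinear map `x ↦ ∏ i, p i (x i)`. -/
noncomputable def liftMultilinear (p : Fin d → (R →ₐ[k] B)) :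
    MultilinearMap k (fun _ : Fin d => R) B :=
  (MultilinearMap.mkPiAlgebra k (Fin d) B).compLinearMap (fun i => (p i).toLinearMap)

@[simp]
theorem liftMultilinear_apply (p : Fin d → (R →ₐ[k] B)) (x : Fin d → R) :
    liftMultilinear p x = ∏ i, p i (x i) := by
  simp [liftMultilinear]

/-- The algebra map out of the tensor power determined by a `d`-tuple of points. -/
noncomputable def lift (p : Fin d → (R →ₐ[k] B)) : TPow k R d →ₐ[k] B :=
  PiTensorProduct.liftAlgHom (liftMultilinear p)
    (by simp)
    (fun x y => by simp [Finset.prod_mul_distrib])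

@[simp]
theorem lift_tprod (p : Fin d → (R →ₐ[k] B)) (x : Fin d → R) :
    lift p (PiTensorProduct.tprod k x) = ∏ i, p i (x i) := by
  simp [lift]

@[simp]
theorem lift_pt (p : Fin d → (R →ₐ[k] B)) (i : Fin d) (a : R) :
    lift p (pt i a) = p i a := by
  rw [pt_apply, lift_tprod]
  rw [Fintype.prod_eq_single i (fun j hj => by rw [Pi.mulSingle_eq_of_ne hj, map_one])]
  rw [Pi.mulSingle_eq_same]

@[simp]
theorem lift_comp_pt (p : Fin d → (R →ₐ[k] B)) (i : Fin d) :
    (lift p).comp (pt i) = p i :=
  AlgHom.ext fun a => lift_pt p i a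

/-- Two algebra maps out of the tensor power that agree on the universal points are equal. -/
theorem algHom_ext {S : Type v} [Semiring S] [Algebra k S] {f g : TPow k R d →ₐ[k] S}
    (h : ∀ i, f.comp (pt i) = g.comp (pt i)) : f = g :=
  PiTensorProduct.algHom_ext h

theorem lift_unique (p : Fin d → (R →ₐ[k] B)) (φ : TPow k R d →ₐ[k] B)
    (h : ∀ i, φ.comp (pt i) = p i) : φ = lift p :=
  algHom_ext fun i => by rw [h i, lift_comp_pt]

/-- **Universal property of the tensor power**: algebra maps `R^{⊗d} → B` are `d`-tuples of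
algebra maps `R → B`. -/
noncomputable def homEquiv (B : Type v) [CommRing B] [Algebra k B] :
    (TPow k R d →ₐ[k] B) ≃ (Fin d → (R →ₐ[k] B)) where
  toFun φ i := φ.comp (pt i)
  invFun p := lift p
  left_inv φ := (lift_unique _ φ fun _ => rfl).symm
  right_inv p := funext fun i => lift_comp_pt p i

@[simp]
theorem homEquiv_apply (φ : TPow k R d →ₐ[k] B) (i : Fin d) :
    homEquiv B φ i = φ.comp (pt i) := rfl

@[simp]
theorem homEquiv_symm_apply (p : Fin d → (R →ₐ[k] B)) :
    (homEquiv B).symm p = lift p := rfl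

/-- Naturality of `lift` in the target. -/
theorem comp_lift {B' : Type v} [CommRing B'] [Algebra k B'] (ψ : B →ₐ[k] B')
    (p : Fin d → (R →ₐ[k] B)) : ψ.comp (lift p) = lift (fun i => ψ.comp (p i)) :=
  lift_unique _ _ fun i => by rw [AlgHom.comp_assoc, lift_comp_pt]

/-- Existence and uniqueness form of the universal property. -/
theorem existsUnique_lift (p : Fin d → (R →ₐ[k] B)) :
    ∃! φ : TPow k R d →ₐ[k] B, ∀ i, φ.comp (pt i) = p i :=
  ⟨lift p, lift_comp_pt p, fun φ h => lift_unique p φ h⟩

/-- The universal points generate the tensor power as an algebra. -/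
theorem adjoin_range_pt :
    Algebra.adjoin k (⋃ i : Fin d, Set.range (pt (k := k) (R := R) (d := d) i)) = ⊤ := by
  set S : Subalgebra k (TPow k R d) :=
    Algebra.adjoin k (⋃ i : Fin d, Set.range (pt (k := k) (R := R) (d := d) i)) with hS
  have hmem : ∀ (i : Fin d) (a : R), pt (k := k) i a ∈ S := fun i a =>
    Algebra.subset_adjoin (Set.mem_iUnion.mpr ⟨i, a, rfl⟩)
  let p : Fin d → (R →ₐ[k] S) := fun i => (pt i).codRestrict S (hmem i)
  have h : S.val.comp (lift p) = AlgHom.id k (TPow k R d) := by
    refine algHom_ext fun i => ?_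
    rw [AlgHom.comp_assoc, lift_comp_pt]
    exact AlgHom.ext fun a => rfl
  refine eq_top_iff.mpr fun x _ => ?_
  have hx : S.val (lift p x) = x := congrArg (fun f : TPow k R d →ₐ[k] TPow k R d => f x) h
  rw [← hx]
  exact (lift p x).2

/-- Finite type is inherited by tensor powers. -/
theorem finiteType [h : Algebra.FiniteType k R] : Algebra.FiniteType k (TPow k R d) := by
  obtain ⟨s, hs⟩ := h.out
  refine ⟨(Subalgebra.fg_def).mpr
    ⟨⋃ i : Fin d, (pt (k := k) (R := R) (d := d) i) '' (s : Set R),
      Set.finite_iUnion fun i => (s.finite_toSet).image _, ?_⟩⟩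
  rw [eq_top_iff, ← adjoin_range_pt]
  refine Algebra.adjoin_le ?_
  rintro _ ⟨_, ⟨i, rfl⟩, ⟨a, rfl⟩⟩
  have ha : a ∈ Algebra.adjoin k (s : Set R) := by rw [hs]; trivial
  have h1 : pt (k := k) (d := d) i a ∈ (Algebra.adjoin k (s : Set R)).map (pt i) := ⟨a, ha, rfl⟩
  rw [AlgHom.map_adjoin] at h1
  exact Algebra.adjoin_mono (Set.subset_iUnion (fun i : Fin d => (pt (k := k) (R := R) i) '' (s : Set R)) i) h1

end TPow

end Basic

section Equivs

variable (k : Type u) [CommRing k] (R : Type u) [CommRing R] [Algebra k R]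

namespace TPow

/-- The zeroth tensor power is the base ring. -/
noncomputable def zeroEquiv : TPow k R 0 ≃ₐ[k] k :=
  AlgEquiv.ofAlgHom (lift (fun i : Fin 0 => i.elim0)) (Algebra.ofId k (TPow k R 0))
    (AlgHom.ext fun r => by simp)
    (algHom_ext fun i => i.elim0)

variable (d : ℕ)

/-- `R^{⊗(d+1)} → R ⊗ R^{⊗d}`. -/
noncomputable def succToTensor : TPow k R (d + 1) →ₐ[k] R ⊗[k] TPow k R d :=
  lift (Fin.cases (Algebra.TensorProduct.includeLeft : R →ₐ[k] R ⊗[k] TPow k R d)
    (fun j => (Algebra.TensorProduct.includeRight : TPow k R d →ₐ[k] R ⊗[k] TPow k R d).comp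
      (pt j)))

/-- `R ⊗ R^{⊗d} → R^{⊗(d+1)}`. -/
noncomputable def tensorToSucc : R ⊗[k] TPow k R d →ₐ[k] TPow k R (d + 1) :=
  Algebra.TensorProduct.lift (pt 0) (lift (fun j : Fin d => pt j.succ))
    (fun _ _ => Commute.all _ _)

@[simp]
theorem succToTensor_pt_zero (a : R) :
    succToTensor k R d (pt 0 a) = a ⊗ₜ[k] (1 : TPow k R d) := by
  simp [succToTensor]

@[simp]
theorem succToTensor_pt_succ (j : Fin d) (a : R) :
    succToTensor k R d (pt j.succ a) = (1 : R) ⊗ₜ[k] pt j a := by
  simp [succToTensor]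

@[simp]
theorem tensorToSucc_tmul (a : R) (t : TPow k R d) :
    tensorToSucc k R d (a ⊗ₜ[k] t) =
      pt 0 a * (lift (fun j : Fin d => pt j.succ) : TPow k R d →ₐ[k] TPow k R (d + 1)) t := by
  simp [tensorToSucc]

/-- The tensor power of order `d + 1` is `R ⊗ R^{⊗d}`. -/
noncomputable def succEquiv : TPow k R (d + 1) ≃ₐ[k] R ⊗[k] TPow k R d :=
  AlgEquiv.ofAlgHom (succToTensor k R d) (tensorToSucc k R d)
    (by
      refine Algebra.TensorProduct.ext (AlgHom.ext fun a => ?_) (algHom_ext fun j => ?_)
      · simp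
      · refine AlgHom.ext fun a => ?_
        simp)
    (by
      refine algHom_ext fun i => AlgHom.ext fun a => ?_
      refine Fin.cases ?_ (fun j => ?_) i
      · simp
      · simp)

@[simp]
theorem succEquiv_pt_zero (a : R) :
    succEquiv k R d (pt 0 a) = a ⊗ₜ[k] (1 : TPow k R d) :=
  succToTensor_pt_zero k R d a

@[simp]
theorem succEquiv_pt_succ (j : Fin d) (a : R) :
    succEquiv k R d (pt j.succ a) = (1 : R) ⊗ₜ[k] pt j a :=
  succToTensor_pt_succ k R d j a

end TPow

end Equivs

section Domain

variable (k : Type u) [Field k] [IsAlgClosed k] (R : Type u) [CommRing R] [Algebra k R]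
  [IsDomain R]

namespace TPow

/-- **Tensor powers of a domain over an algebraically closed field are domains.** -/
theorem isDomain : ∀ d : ℕ, IsDomain (TPow k R d)
  | 0 => (zeroEquiv k R).toMulEquiv.isDomain k
  | d + 1 => by
    have := isDomain d
    have : IsDomain (R ⊗[k] TPow k R d) :=
      Fermat.Agent.Lib.helper9007.isDomain_tensorProduct k R (TPow k R d)
    exact (succEquiv k R d).toMulEquiv.isDomain (R ⊗[k] TPow k R d)

instance instIsDomain (d : ℕ) : IsDomain (TPow k R d) := isDomain k R d

/-- Geometric integrality, right-hand form: `R^{⊗d} ⊗ K` is a domain for every field `K/k`. -/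
theorem isDomain_tensor_field (d : ℕ) (K : Type v) [Field K] [Algebra k K] :
    IsDomain (TPow k R d ⊗[k] K) :=
  Fermat.Agent.Lib.helper9007.isDomain_tensorProduct k (TPow k R d) K

/-- Geometric integrality, left-hand form: `K ⊗ R^{⊗d}` is a domain for every field `K/k`. -/
theorem isDomain_field_tensor (d : ℕ) (K : Type v) [Field K] [Algebra k K] :
    IsDomain (K ⊗[k] TPow k R d) :=
  Fermat.Agent.Lib.helper9007.isDomain_tensorProduct k K (TPow k R d)

end TPow

end Domain

end Fermat.Agent.S25.helper7470
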