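/-
S25, layer L0: assembly.

`Stmt_Rep` (a representing designation exists and is locally of finite type) from the three
remaining inputs: `Stmt_LocIso`, `Stmt_GlueObj` (the rigidified Picard functor of the curve is a
Zariski sheaf) and `Stmt_ChartsAff` (affine chart family).  The formal leaves of the layer
(`Stmt_GlueRep`, `Stmt_AffRed`, `Stmt_CutLocal`) are discharged here from the files on main.
-/
import Fermat.Agent.S25.helper7579_GlueRepWrap
import Fermat.Agent.S25.helper8470_LRGen
import Fermat.Agent.S25.helper6523_AffRed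
import Fermat.Agent.S25.helper8915_CutLocal
import Fermat.Agent.S25.helper2952_LocIso

set_option autoImplicit false

universe u

namespace Fermat.Agent.S25.helper7579

/-- GLUE-REP of the Spec (formal gluing of charts), fully proved. -/
theorem stmt_GlueRep : helper1705.Stmt_GlueRep.{u} :=
  stmt_GlueRep_of_LRGen helper8470.stmt_LRGen

/-- **L0 assembly.** `Stmt_Rep` from `Stmt_LocIso`, `Stmt_GlueObj` and `Stmt_ChartsAff`. -/
theorem stmt_Rep_of_L0 (hLocIso : helper1705.Stmt_LocIso.{u})
    (hGlueObj : helper1705.Stmt_GlueObj.{u}) (hCharts : helper1705.Stmt_ChartsAff.{u}) :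
    helper1705.Stmt_Rep.{u} :=
  helper1705.stmt_Rep_of stmt_GlueRep helper6523.stmt_AffRed hLocIso hGlueObj
    helper8915.stmt_CutLocal hCharts

/-- **L0 assembly, with `Stmt_LocIso` discharged** (helper2952): `Stmt_Rep` from `Stmt_GlueObj`
and `Stmt_ChartsAff`. -/
theorem stmt_Rep_of_glueObj_chartsAff (hGlueObj : helper1705.Stmt_GlueObj.{u})
    (hCharts : helper1705.Stmt_ChartsAff.{u}) : helper1705.Stmt_Rep.{u} :=
  stmt_Rep_of_L0 helper2952.stmt_LocIso hGlueObj hCharts

end Fermat.Agent.S25.helper7579
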