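/-
S25, layer L0: generic local representability over a base (statement only).

`Stmt_LRGen` is the Mathlib-only statement behind `helper1705.Stmt_GlueRep`: a presheaf on
`Over S` (values in any universe) which satisfies the elementary Zariski-sheaf conditions and
is covered by a `Type u`-indexed family of charts that are monomorphisms and open, is
representable, and the charts form an open cover of the representing object.

The wrapper `Stmt_LRGen → helper1705.Stmt_GlueRep` is in `helper7579_GlueRepWrap.lean`.
-/
import Mathlib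

set_option autoImplicit false

universe w u

open CategoryTheory CategoryTheory.Limits AlgebraicGeometry Opposite

namespace Fermat.Agent.S25.helper7579

noncomputable section

variable {S : Scheme.{u}} (F : (Over S)ᵒᵖ ⥤ Type w)

/-- A morphism of schemes into `T.left`, as a morphism of `Over S`. -/
abbrev overRestr (T : Over S) {Y : Scheme.{u}} (g : Y ⟶ T.left) : Over.mk (g ≫ T.hom) ⟶ T :=
  Over.homMk g rfl

/-- First projection of an overlap of an open cover, over `S`. -/
abbrev overFst (T : Over S) (𝒰 : Scheme.OpenCover.{u} T.left) (i j : 𝒰.I₀) :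
    Over.mk (pullback.fst (𝒰.f i) (𝒰.f j) ≫ 𝒰.f i ≫ T.hom) ⟶ Over.mk (𝒰.f i ≫ T.hom) :=
  Over.homMk (pullback.fst (𝒰.f i) (𝒰.f j)) rfl

/-- Second projection of an overlap of an open cover, over `S`. -/
abbrev overSnd (T : Over S) (𝒰 : Scheme.OpenCover.{u} T.left) (i j : 𝒰.I₀) :
    Over.mk (pullback.fst (𝒰.f i) (𝒰.f j) ≫ 𝒰.f i ≫ T.hom) ⟶ Over.mk (𝒰.f j ≫ T.hom) :=
  Over.homMk (pullback.snd (𝒰.f i) (𝒰.f j)) (pullback.condition_assoc T.hom).symm

/-- Elementary Zariski-sheaf condition, separation part: sections agreeing on an open cover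
are equal. -/
def PresheafSep : Prop :=
  ∀ (T : Over S) (𝒰 : Scheme.OpenCover.{u} T.left) (s s' : F.obj (op T)),
    (∀ i, F.map (overRestr T (𝒰.f i)).op s = F.map (overRestr T (𝒰.f i)).op s') → s = s'

/-- Elementary Zariski-sheaf condition, gluing part: sections on the members of an open cover
agreeing on the pairwise overlaps glue. -/
def PresheafGlue : Prop :=
  ∀ (T : Over S) (𝒰 : Scheme.OpenCover.{u} T.left)
    (s : ∀ i, F.obj (op (Over.mk (𝒰.f i ≫ T.hom)))),
    (∀ i j, F.map (overFst T 𝒰 i j).op (s i) = F.map (overSnd T 𝒰 i j).op (s j)) →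
    ∃ s₀ : F.obj (op T), ∀ i, F.map (overRestr T (𝒰.f i)).op s₀ = s i

variable {ι : Type u} (X : ι → Over S) (ξ : ∀ i, F.obj (op (X i)))

/-- The restriction of `η` along `g` comes from the chart `i`. -/
def FromChart (i : ι) (T : Over S) (η : F.obj (op T)) {Y : Scheme.{u}} (g : Y ⟶ T.left) : Prop :=
  ∃ a : Over.mk (g ≫ T.hom) ⟶ X i, F.map a.op (ξ i) = F.map (overRestr T g).op η

/-- (mono): each chart is a subfunctor. -/
def ChartsMono : Prop :=
  ∀ (i : ι) (T : Over S) (a b : T ⟶ X i), F.map a.op (ξ i) = F.map b.op (ξ i) → a = b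

/-- (open + cover): for every section `η` over `T` the loci where `η` comes from the charts are
open subschemes of `T`, and they cover `T`. -/
def ChartsOpenCover : Prop :=
  ∀ (T : Over S) (η : F.obj (op T)), ∃ U : ι → T.left.Opens,
    (∀ (i : ι) {T' : Scheme.{u}} (ψ : T' ⟶ T.left),
      (∀ p : T', ψ.base p ∈ U i) ↔ FromChart F X ξ i T η ψ) ∧ (⨆ i, U i) = ⊤

end

/-- **LR** (local representability over a base, any value universe).
A presheaf on `Over S` satisfying the elementary Zariski-sheaf conditions and covered by a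
`Type u`-indexed family of charts which are monomorphisms, open and jointly covering is
representable, and the charts form an open cover of the representing object. -/
def Stmt_LRGen : Prop :=
  ∀ (S : Scheme.{u}) (F : (Over S)ᵒᵖ ⥤ Type w), PresheafSep F → PresheafGlue F →
    ∀ (ι : Type u) (X : ι → Over S) (ξ : ∀ i, F.obj (op (X i))),
      ChartsMono F X ξ → ChartsOpenCover F X ξ →
      ∃ (J : Over S) (ξJ : F.obj (op J)),
        (∀ (T : Over S) (η : F.obj (op T)), ∃! g : T ⟶ J, F.map g.op ξJ = η) ∧
        ∃ v : ∀ i, X i ⟶ J, (∀ i, IsOpenImmersion (v i).left) ∧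
          (∀ i, F.map (v i).op ξJ = ξ i) ∧
          (∀ p : J.left, ∃ i, ∃ q : (X i).left, (v i).left.base q = p)

end Fermat.Agent.S25.helper7579
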