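import Mathlib

/-!
# S25 generic brick WVC: the weak valuative criterion for universally closed morphisms

Mathlib's `UniversallyClosed.of_valuativeCriterion` asks for a lift of every valuative square
over the *given* valuation ring.  Here we show that it is enough to find a lift after enlarging
the valuation ring along a local homomorphism (e.g. to a valuation ring of an algebraic closure
of the fraction field).

Main statements (namespace `Fermat.Agent.S25.helper7602`):

* `WeakExistence f` : every valuative square over `f` has a lift after a local extension of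
  the valuation ring;
* `WeakExistence.specializingMap`, `WeakExistence.isStableUnderBaseChange`;
* `universallyClosed_of_weakExistence` : `[QuasiCompact f]`, `WeakExistence f` ⟹
  `UniversallyClosed f`;
* `existence_of_weakExistence`, `isProper_of_weakExistence`.
-/

set_option autoImplicit false

universe u

open CategoryTheory CategoryTheory.Limits AlgebraicGeometry IsLocalRing

namespace Fermat.Agent.S25.helper7602

/-- A lift of a valuative square after enlarging the valuation ring: a valuation ring `R'` with
fraction field `K'`, a local homomorphism `φ : S.R →+* R'` compatible with `ψ : S.K →+* K'`,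
and a morphism `l : Spec R' ⟶ X` lifting the enlarged square. -/
def WeakLift {X Y : Scheme.{u}} {f : X ⟶ Y} (S : ValuativeCommSq f) : Prop :=
  ∃ (R' K' : Type u) (_ : CommRing R') (_ : IsDomain R') (_ : ValuationRing R')
    (_ : Field K') (_ : Algebra R' K') (_ : IsFractionRing R' K')
    (φ : S.R →+* R') (ψ : S.K →+* K') (l : Spec (CommRingCat.of R') ⟶ X),
    IsLocalHom φ ∧ ψ.comp (algebraMap S.R S.K) = (algebraMap R' K').comp φ ∧
    Spec.map (CommRingCat.ofHom (algebraMap R' K')) ≫ l =
      Spec.map (CommRingCat.ofHom ψ) ≫ S.i₁ ∧
    l ≫ f = Spec.map (CommRingCat.ofHom φ) ≫ S.i₂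

/-- The weak existence part of the valuative criterion: every valuative square has a lift
after a local extension of the valuation ring. -/
def WeakExistence : MorphismProperty Scheme.{u} :=
  fun _ _ f ↦ ∀ S : ValuativeCommSq f, WeakLift S

variable {X Y : Scheme.{u}} (f : X ⟶ Y)

/-- The (strong) existence part of the valuative criterion implies the weak one. -/
lemma weakExistence_of_existence (H : ValuativeCriterion.Existence f) : WeakExistence f := by
  intro S
  obtain ⟨l, hl₁, hl₂⟩ := (H S).exists_lift
  refine ⟨S.R, S.K, inferInstance, inferInstance, inferInstance, inferInstance, inferInstance,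
    inferInstance, RingHom.id _, RingHom.id _, l, ?_, ?_, ?_, ?_⟩
  · exact ⟨fun a ha => ha⟩
  · rfl
  · rw [hl₁]
    have : CommRingCat.ofHom (RingHom.id S.K) = 𝟙 (CommRingCat.of S.K) := rfl
    rw [this, Spec.map_id, Category.id_comp]
  · rw [hl₂]
    have : CommRingCat.ofHom (RingHom.id S.R) = 𝟙 (CommRingCat.of S.R) := rfl
    rw [this, Spec.map_id, Category.id_comp]

set_option backward.isDefEq.respectTransparency.types false in
/-- The weak existence part of the valuative criterion implies that `f` is specializing. -/
lemma WeakExistence.specializingMap (H : WeakExistence f) : SpecializingMap f := by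
  intro x' y h
  let stalk_y_to_residue_x' : Y.presheaf.stalk y ⟶ X.residueField x' :=
    Y.presheaf.stalkSpecializes h ≫ f.stalkMap x' ≫ X.residue x'
  obtain ⟨A, hA, hA_local⟩ := exists_factor_valuationRing stalk_y_to_residue_x'.hom
  let stalk_y_to_A : Y.presheaf.stalk y ⟶ .of A :=
    CommRingCat.ofHom (stalk_y_to_residue_x'.hom.codRestrict _ hA)
  have w : X.fromSpecResidueField x' ≫ f =
      Spec.map (CommRingCat.ofHom (algebraMap A (X.residueField x'))) ≫
        Spec.map stalk_y_to_A ≫ Y.fromSpecStalk y := by
    rw [Scheme.fromSpecResidueField, Category.assoc, ← Scheme.SpecMap_stalkMap_fromSpecStalk,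
      ← Scheme.SpecMap_stalkSpecializes_fromSpecStalk h]
    simp_rw [← Spec.map_comp_assoc]
    rfl
  obtain ⟨R', K', _, _, _, _, _, _, φ, ψ, l, hφ, hcomm, hl₁, hl₂⟩ :=
    H { R := A, K := X.residueField x', commSq := ⟨w⟩, .. }
  dsimp only at φ ψ hφ hcomm hl₁ hl₂
  refine ⟨l (closedPoint R'), ?_, ?_⟩
  · have h1 : x' = l (Spec.map (CommRingCat.ofHom (algebraMap R' K')) (closedPoint K')) := by
      rw [← Scheme.Hom.comp_apply, hl₁, Scheme.Hom.comp_apply]
      have : Spec.map (CommRingCat.ofHom ψ) (closedPoint K') =
          closedPoint (X.residueField x') := Subsingleton.elim _ _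
      rw [this, Scheme.fromSpecResidueField_apply]
    rw [h1]
    exact (specializes_closedPoint _).map l.continuous
  · rw [← Scheme.Hom.comp_apply, hl₂]
    simp only [Scheme.Hom.comp_base, TopCat.coe_comp, Function.comp_apply]
    have h2 : Spec.map (CommRingCat.ofHom φ) (closedPoint R') = closedPoint A :=
      comap_closedPoint φ
    have : Spec.map stalk_y_to_A (closedPoint A) = closedPoint (Y.presheaf.stalk y) :=
      comap_closedPoint (S := A) (stalk_y_to_residue_x'.hom.codRestrict A.toSubring hA)
    rw [h2, this, Y.fromSpecStalk_closedPoint]

/-- The weak existence part of the valuative criterion is stable under base change. -/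
instance WeakExistence.isStableUnderBaseChange :
    WeakExistence.{u}.IsStableUnderBaseChange := by
  constructor
  intro Y' X X' Y Y'_to_Y f X'_to_X f' hP hf commSq
  let commSq' : ValuativeCommSq f :=
  { R := commSq.R
    K := commSq.K
    i₁ := commSq.i₁ ≫ X'_to_X
    i₂ := commSq.i₂ ≫ Y'_to_Y
    commSq := ⟨by simp only [Category.assoc, hP.w, reassoc_of% commSq.commSq.w]⟩ }
  obtain ⟨R', K', _, _, _, _, _, _, φ, ψ, l₀, hφ, hcomm, hl₁, hl₂⟩ := hf commSq'
  dsimp only [commSq'] at φ ψ hφ hcomm hl₁ hl₂
  refine ⟨R', K', inferInstance, inferInstance, inferInstance, inferInstance, inferInstance,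
    inferInstance, φ, ψ,
    hP.lift l₀ (Spec.map (CommRingCat.ofHom φ) ≫ commSq.i₂) (by rw [hl₂, Category.assoc]),
    hφ, hcomm, ?_, hP.lift_snd _ _ _⟩
  apply hP.hom_ext
  · rw [Category.assoc, hP.lift_fst, hl₁, Category.assoc]
  · rw [Category.assoc, hP.lift_snd, Category.assoc, commSq.commSq.w,
      ← Spec.map_comp_assoc, ← Spec.map_comp_assoc, ← CommRingCat.ofHom_comp,
      ← CommRingCat.ofHom_comp, hcomm]

/-- The weak existence part of the valuative criterion implies that `f` is universally
specializing. -/
lemma WeakExistence.universally_specializingMap (H : WeakExistence f) :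
    (topologically @SpecializingMap).universally f := by
  have h1 : WeakExistence.{u}.universally f := by
    rwa [MorphismProperty.IsStableUnderBaseChange.universally_eq]
  exact MorphismProperty.universally_mono (fun _ _ g hg => WeakExistence.specializingMap g hg) _ h1

/-- The weak existence part of the valuative criterion implies the usual existence part. -/
theorem existence_of_weakExistence (H : WeakExistence f) : ValuativeCriterion.Existence f := by
  rw [ValuativeCriterion.Existence.eq]
  exact H.universally_specializingMap

/-- The weak and the usual existence parts of the valuative criterion coincide. -/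
theorem weakExistence_eq_existence : WeakExistence.{u} = ValuativeCriterion.Existence := by
  ext X Y f
  exact ⟨existence_of_weakExistence f, weakExistence_of_existence f⟩

/-- **Weak valuative criterion for universally closed morphisms**: a quasi-compact morphism
such that every valuative square has a lift after a local extension of the valuation ring is
universally closed. -/
theorem universallyClosed_of_weakExistence [QuasiCompact f] (H : WeakExistence f) :
    UniversallyClosed f :=
  UniversallyClosed.of_valuativeCriterion f (existence_of_weakExistence f H)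

/-- **Weak valuative criterion for proper morphisms**: existence only after enlarging the
valuation ring, uniqueness as usual. -/
theorem isProper_of_weakExistence [QuasiCompact f] [QuasiSeparated f] [LocallyOfFiniteType f]
    (H : WeakExistence f) (H' : ValuativeCriterion.Uniqueness f) : IsProper f :=
  IsProper.of_valuativeCriterion f
    (ValuativeCriterion.iff.mpr ⟨existence_of_weakExistence f H, H'⟩)

/-- Every valuation ring `R` with fraction field `K` admits a local extension to a valuation
ring `R'` whose fraction field `K'` is algebraically closed (an algebraic closure of `K`). -/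
theorem exists_valuationRing_algClosed (R K : Type u) [CommRing R] [IsDomain R] [ValuationRing R]
    [Field K] [Algebra R K] [IsFractionRing R K] :
    ∃ (R' K' : Type u) (_ : CommRing R') (_ : IsDomain R') (_ : ValuationRing R')
      (_ : Field K') (_ : IsAlgClosed K') (_ : Algebra R' K') (_ : IsFractionRing R' K')
      (φ : R →+* R') (ψ : K →+* K'),
      IsLocalHom φ ∧ ψ.comp (algebraMap R K) = (algebraMap R' K').comp φ := by
  let g : R →+* AlgebraicClosure K := (algebraMap K (AlgebraicClosure K)).comp (algebraMap R K)
  obtain ⟨A, hA, hA_local⟩ := exists_factor_valuationRing g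
  exact ⟨A, AlgebraicClosure K, inferInstance, inferInstance, inferInstance, inferInstance,
    inferInstance, inferInstance, inferInstance, g.codRestrict A.toSubring hA,
    algebraMap K (AlgebraicClosure K), hA_local, rfl⟩

/-- **Valuative criterion with algebraically closed fraction fields**: a quasi-compact
morphism is universally closed as soon as the existence part of the valuative criterion holds
for all valuation rings whose fraction field is algebraically closed. -/
theorem universallyClosed_of_algClosed_valuative [QuasiCompact f]
    (H : ∀ (R K : Type u) [CommRing R] [IsDomain R] [ValuationRing R] [Field K] [IsAlgClosed K]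
      [Algebra R K] [IsFractionRing R K] (i₁ : Spec (CommRingCat.of K) ⟶ X)
      (i₂ : Spec (CommRingCat.of R) ⟶ Y),
      i₁ ≫ f = Spec.map (CommRingCat.ofHom (algebraMap R K)) ≫ i₂ →
      ∃ l : Spec (CommRingCat.of R) ⟶ X,
        Spec.map (CommRingCat.ofHom (algebraMap R K)) ≫ l = i₁ ∧ l ≫ f = i₂) :
    UniversallyClosed f := by
  refine universallyClosed_of_weakExistence f fun S => ?_
  obtain ⟨R', K', _, _, _, _, _, _, _, φ, ψ, hφ, hcomm⟩ := exists_valuationRing_algClosed S.R S.K
  obtain ⟨l, hl₁, hl₂⟩ := H R' K' (Spec.map (CommRingCat.ofHom ψ) ≫ S.i₁)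
    (Spec.map (CommRingCat.ofHom φ) ≫ S.i₂) (by
      rw [Category.assoc, S.commSq.w, ← Spec.map_comp_assoc, ← Spec.map_comp_assoc,
        ← CommRingCat.ofHom_comp, ← CommRingCat.ofHom_comp, hcomm])
  exact ⟨R', K', inferInstance, inferInstance, inferInstance, inferInstance, inferInstance,
    inferInstance, φ, ψ, l, hφ, hcomm, hl₁, hl₂⟩

/-- **Valuative criterion over a field, points form**: for `j : J ⟶ Spec k` quasi-compact,
`j` is universally closed as soon as every `K`-point of `J` (over `k`), `K` an algebraically
closed field which is the fraction field of a valuation ring `R` containing `k`, extends to an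
`R`-point of `J` (over `k`). -/
theorem universallyClosed_of_algClosed_valuative_over_field (k : Type u) [Field k]
    {J : Scheme.{u}} (j : J ⟶ Spec (CommRingCat.of k)) [QuasiCompact j]
    (H : ∀ (R K : Type u) [CommRing R] [IsDomain R] [ValuationRing R] [Field K] [IsAlgClosed K]
      [Algebra R K] [IsFractionRing R K] [Algebra k R] [Algebra k K] [IsScalarTower k R K]
      (g : Spec (CommRingCat.of K) ⟶ J),
      g ≫ j = Spec.map (CommRingCat.ofHom (algebraMap k K)) →
      ∃ l : Spec (CommRingCat.of R) ⟶ J,
        Spec.map (CommRingCat.ofHom (algebraMap R K)) ≫ l = g ∧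
          l ≫ j = Spec.map (CommRingCat.ofHom (algebraMap k R))) :
    UniversallyClosed j := by
  refine universallyClosed_of_algClosed_valuative j ?_
  intro R K _ _ _ _ _ _ _ i₁ i₂ w
  obtain ⟨σ, rfl⟩ := Spec.map_surjective i₂
  let _ : Algebra k R := σ.hom.toAlgebra
  let _ : Algebra k K := ((algebraMap R K).comp σ.hom).toAlgebra
  have : IsScalarTower k R K := IsScalarTower.of_algebraMap_eq (fun _ => rfl)
  have hσ : CommRingCat.ofHom (algebraMap k R) = σ := rfl
  have hσK : CommRingCat.ofHom (algebraMap k K) = σ ≫ CommRingCat.ofHom (algebraMap R K) := rfl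
  obtain ⟨l, hl₁, hl₂⟩ := H R K i₁ (by rw [w, hσK, Spec.map_comp])
  exact ⟨l, hl₁, by rw [hl₂, hσ]⟩

end Fermat.Agent.S25.helper7602
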