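import Fermat.Agent.S25.helper2945_AlgDefs
import Fermat.Agent.S25.helper1803_TwoChartLift

/-!
# S25, leaf U7: square-zero (nil) lifting of rigidified two-chart line bundles

`φ : B →ₐ[k] B'` a surjective map of `k`-algebras with nilpotent kernel (e.g. `B → B ⧸ I` with
`I ^ 2 = ⊥`).  Every rigidified `GlueDatum` over `B'` is, up to `Equiv`, the base change of a
rigidified `GlueDatum` over `B`.

* `nonempty_rig_lift` : abstract lifting of a rigidification (free of rank one along a section).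
* `exists_glueDatum_lift` : the lifting theorem for `GlueDatum`.
* `algLiftSqZero` : the square-zero form consumed by the LG layer.
-/

set_option autoImplicit false

open TensorProduct

namespace Fermat.Agent.S25.helper7727

universe u

open Fermat.Agent.S25.helper1705 Fermat.Agent.S25.helper2945

section Abstract

/-- `S → S'` surjective: the structure map `S → S'` is a base change of `S`. -/
theorem isBaseChange_linearMap_of_surjective {S S' : Type*} [CommRing S] [CommRing S']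
    [Algebra S S'] (hS : Function.Surjective (algebraMap S S')) :
    IsBaseChange S' (Algebra.linearMap S S') := by
  refine helper1803.isBaseChange_of_surjective_of_ker_le hS _ hS ?_
  intro x hx
  have h1 : x = x • (1 : S) := by simp
  rw [h1]
  exact Submodule.smul_mem_smul hx Submodule.mem_top

/-- Lifting of a rigidification: in a commutative square of rings `R → S`, `R → R'`, `R' → S'`,
`S → S'` with `R' → S'` surjective with nil kernel, if `N` is the base change to `S` of the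
finite projective `R`-module `M` and `S' ⊗[S] N` is free of rank one, then so is `R' ⊗[R] M`. -/
theorem nonempty_rig_lift {R S R' S' : Type*} [CommRing R] [CommRing S] [CommRing R']
    [CommRing S'] [Algebra R S] [Algebra R R'] [Algebra R' S'] [Algebra S S'] [Algebra R S']
    [IsScalarTower R S S'] [IsScalarTower R R' S']
    (hS : Function.Surjective (algebraMap R' S'))
    (hnil : RingHom.ker (algebraMap R' S') ≤ nilradical R')
    {M N : Type*} [AddCommGroup M] [AddCommGroup N] [Module R M] [Module S N] [Module R N]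
    [IsScalarTower R S N] [Module.Finite R M] [Module.Projective R M]
    (π : M →ₗ[R] N) (hπ : IsBaseChange S π) (e : S' ⊗[S] N ≃ₗ[S'] S') :
    Nonempty (R' ⊗[R] M ≃ₗ[R'] R') := by
  have hP : IsBaseChange S' (sqBaseChange (S := S) (R' := R') (S' := S') π) :=
    isBaseChange_sqBaseChange π hπ
  have hQ : IsBaseChange S' (Algebra.linearMap R' S') := isBaseChange_linearMap_of_surjective hS
  obtain ⟨e', -⟩ := helper1803.exists_linearEquiv_lift hS hnil hP hQ e
  exact ⟨e'⟩

end Abstract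

section Rings

variable {k : Type u} [Field k] {B B' : Type u} [CommRing B] [Algebra k B] [CommRing B']
  [Algebra k B'] (φ : B →ₐ[k] B')

theorem tensorMap_surjective (R : Type u) [CommRing R] [Algebra k R]
    (hφ : Function.Surjective φ) :
    Function.Surjective (Algebra.TensorProduct.map (AlgHom.id k R) φ) :=
  TensorProduct.map_surjective Function.surjective_id hφ

theorem tensorMap_ker_le_nilradical (R : Type u) [CommRing R] [Algebra k R]
    (hφ : Function.Surjective φ) (hnil : IsNilpotent (RingHom.ker φ)) :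
    RingHom.ker (Algebra.TensorProduct.map (AlgHom.id k R) φ) ≤ nilradical (R ⊗[k] B) := by
  obtain ⟨n, hn⟩ := hnil
  have h0 : RingHom.ker (Algebra.TensorProduct.map (AlgHom.id k R) φ) ^ n = ⊥ := by
    rw [Algebra.TensorProduct.lTensor_ker φ hφ, ← Ideal.map_pow, hn]
    simp
  intro a ha
  refine ⟨n, ?_⟩
  have h1 := Ideal.pow_mem_pow ha n
  rw [h0] at h1
  simpa using h1

theorem ker_mkₐ_eq (I : Ideal B) : RingHom.ker (Ideal.Quotient.mkₐ k I) = I := by
  ext x
  rw [RingHom.mem_ker, Ideal.Quotient.mkₐ_eq_mk, Ideal.Quotient.eq_zero_iff_mem]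

end Rings

section Lift

variable {k : Type u} [Field k] (D : CurveDatum k) {B B' : Type u} [CommRing B] [Algebra k B]
  [CommRing B'] [Algebra k B']

/-- **Leaf U7 (nil form).** Along a surjection `φ : B → B'` of `k`-algebras with nilpotent
kernel, every rigidified two-chart line bundle over `B'` lifts to a rigidified two-chart line
bundle over `B`. -/
theorem exists_glueDatum_lift (φ : B →ₐ[k] B') (hφ : Function.Surjective φ)
    (hnil : IsNilpotent (RingHom.ker φ)) (G : GlueDatum D B') (hG : G.IsRig) :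
    ∃ G' : GlueDatum D B, G'.IsRig ∧ (G'.baseChange φ).Equiv G := by
  letI := algA₀ D φ
  letI := algA₁ D φ
  letI := algA₀₁ D φ
  letI := algA₀A₀₁ D φ
  letI := algA₁A₀₁ D φ
  haveI := tower_A₀_A₀₁_A₀₁' D φ
  haveI := tower_A₀_A₀'_A₀₁' D φ
  haveI := tower_A₁_A₀₁_A₀₁' D φ
  haveI := tower_A₁_A₁'_A₀₁' D φ
  -- the reduction maps of the three rings are surjective with nil kernel
  have h₀ : Function.Surjective (algebraMap (D.A₀ B) (D.A₀ B')) := tensorMap_surjective φ D.R₀ hφ
  have n₀ : RingHom.ker (algebraMap (D.A₀ B) (D.A₀ B')) ≤ nilradical (D.A₀ B) :=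
    tensorMap_ker_le_nilradical φ D.R₀ hφ hnil
  have h₁ : Function.Surjective (algebraMap (D.A₁ B) (D.A₁ B')) := tensorMap_surjective φ D.R₁ hφ
  have n₁ : RingHom.ker (algebraMap (D.A₁ B) (D.A₁ B')) ≤ nilradical (D.A₁ B) :=
    tensorMap_ker_le_nilradical φ D.R₁ hφ hnil
  have h₀₁ : Function.Surjective (algebraMap (D.A₀₁ B) (D.A₀₁ B')) :=
    tensorMap_surjective φ D.R₀₁ hφ
  have n₀₁ : RingHom.ker (algebraMap (D.A₀₁ B) (D.A₀₁ B')) ≤ nilradical (D.A₀₁ B) :=
    tensorMap_ker_le_nilradical φ D.R₀₁ hφ hnil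
  -- the downstairs modules as modules over the upstairs rings
  letI m₀ : Module (D.A₀ B) G.M₀ := Module.compHom G.M₀ (algebraMap (D.A₀ B) (D.A₀ B'))
  haveI t₀ : IsScalarTower (D.A₀ B) (D.A₀ B') G.M₀ :=
    IsScalarTower.of_algebraMap_smul fun _ _ => rfl
  letI m₁ : Module (D.A₁ B) G.M₁ := Module.compHom G.M₁ (algebraMap (D.A₁ B) (D.A₁ B'))
  haveI t₁ : IsScalarTower (D.A₁ B) (D.A₁ B') G.M₁ :=
    IsScalarTower.of_algebraMap_smul fun _ _ => rfl
  letI m₀₁ : Module (D.A₀₁ B) G.M₀₁ := Module.compHom G.M₀₁ (algebraMap (D.A₀₁ B) (D.A₀₁ B'))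
  haveI t₀₁ : IsScalarTower (D.A₀₁ B) (D.A₀₁ B') G.M₀₁ :=
    IsScalarTower.of_algebraMap_smul fun _ _ => rfl
  letI m₀' : Module (D.A₀ B) G.M₀₁ := Module.compHom G.M₀₁ (algebraMap (D.A₀ B) (D.A₀₁ B'))
  haveI t₀a : IsScalarTower (D.A₀ B) (D.A₀₁ B') G.M₀₁ :=
    IsScalarTower.of_algebraMap_smul fun _ _ => rfl
  haveI t₀b : IsScalarTower (D.A₀ B) (D.A₀ B') G.M₀₁ :=
    IsScalarTower.of_algebraMap_smul fun r x => by
      rw [← algebraMap_smul (D.A₀₁ B') (algebraMap (D.A₀ B) (D.A₀ B') r) x]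
      rfl
  haveI t₀c : IsScalarTower (D.A₀ B) (D.A₀₁ B) G.M₀₁ :=
    IsScalarTower.of_algebraMap_smul fun r x => by
      change (algebraMap (D.A₀₁ B) (D.A₀₁ B') (algebraMap (D.A₀ B) (D.A₀₁ B) r)) • x =
        (algebraMap (D.A₀ B) (D.A₀₁ B') r) • x
      rw [← IsScalarTower.algebraMap_apply]
  letI m₁' : Module (D.A₁ B) G.M₀₁ := Module.compHom G.M₀₁ (algebraMap (D.A₁ B) (D.A₀₁ B'))
  haveI t₁a : IsScalarTower (D.A₁ B) (D.A₀₁ B') G.M₀₁ :=
    IsScalarTower.of_algebraMap_smul fun _ _ => rfl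
  haveI t₁b : IsScalarTower (D.A₁ B) (D.A₁ B') G.M₀₁ :=
    IsScalarTower.of_algebraMap_smul fun r x => by
      rw [← algebraMap_smul (D.A₀₁ B') (algebraMap (D.A₁ B) (D.A₁ B') r) x]
      rfl
  haveI t₁c : IsScalarTower (D.A₁ B) (D.A₀₁ B) G.M₀₁ :=
    IsScalarTower.of_algebraMap_smul fun r x => by
      change (algebraMap (D.A₀₁ B) (D.A₀₁ B') (algebraMap (D.A₁ B) (D.A₀₁ B) r)) • x =
        (algebraMap (D.A₁ B) (D.A₀₁ B') r) • x
      rw [← IsScalarTower.algebraMap_apply]
  have hρ₀' : IsBaseChange (D.A₀₁ B') G.ρ₀ :=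
    IsLocalizedModule.isBaseChange (Submonoid.powers (xB D B')) (D.A₀₁ B') G.ρ₀
  have hρ₁' : IsBaseChange (D.A₀₁ B') G.ρ₁ :=
    IsLocalizedModule.isBaseChange (Submonoid.powers (yB D B')) (D.A₀₁ B') G.ρ₁
  obtain ⟨M₀, _, _, _, _, M₁, _, _, _, _, M₀₁, _, _, _, _, _, _, ρ₀, ρ₁, π₀, π₁, π₀₁,
    hρ₀, hρ₁, hπ₀, hπ₁, hπ₀₁, hc₀, hc₁, hinv₀, hinv₁⟩ :=
    helper1803.exists_twoChart_lift_aux h₀ n₀ h₁ n₁ h₀₁ n₀₁ G.ρ₀ hρ₀' G.ρ₁ hρ₁'
  haveI : Module.Invertible (D.A₀ B) M₀ := hinv₀ inferInstance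
  haveI : Module.Invertible (D.A₁ B) M₁ := hinv₁ inferInstance
  haveI : IsLocalizedModule (Submonoid.powers (xB D B)) ρ₀ :=
    (isLocalizedModule_iff_isBaseChange (S := Submonoid.powers (xB D B)) (A := D.A₀₁ B) ρ₀).mpr hρ₀
  haveI : IsLocalizedModule (Submonoid.powers (yB D B)) ρ₁ :=
    (isLocalizedModule_iff_isBaseChange (S := Submonoid.powers (yB D B)) (A := D.A₀₁ B) ρ₁).mpr hρ₁
  let G' : GlueDatum D B := { M₀ := M₀, M₁ := M₁, M₀₁ := M₀₁, ρ₀ := ρ₀, ρ₁ := ρ₁ }
  refine ⟨G', ?_, ?_⟩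
  · -- the rigidification lifts
    obtain ⟨e⟩ := hG
    letI := algE D B
    letI := algE D B'
    letI : Algebra B B' := φ.toRingHom.toAlgebra
    letI : Algebra (D.A₁ B) B' := ((D.eB B').toRingHom.comp (D.map₁ φ).toRingHom).toAlgebra
    haveI : IsScalarTower (D.A₁ B) (D.A₁ B') B' := IsScalarTower.of_algebraMap_eq fun _ => rfl
    haveI : IsScalarTower (D.A₁ B) B B' := IsScalarTower.of_algebraMap_eq fun a => eB_map₁ D φ a
    have hS : Function.Surjective (algebraMap B B') := hφ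
    have hn : RingHom.ker (algebraMap B B') ≤ nilradical B := by
      obtain ⟨n, hn⟩ := hnil
      intro a ha
      refine ⟨n, ?_⟩
      have h1 := Ideal.pow_mem_pow ha n
      have h2 : RingHom.ker (algebraMap B B') ^ n = ⊥ := hn
      rw [h2] at h1
      simpa using h1
    exact nonempty_rig_lift (R := D.A₁ B) (S := D.A₁ B') (R' := B) (S' := B') hS hn π₁ hπ₁ e
  · -- the base change of the lift is the original datum
    refine ⟨{ e₀ := hπ₀.equiv, e₁ := hπ₁.equiv, e₀₁ := hπ₀₁.equiv, comm₀ := ?_, comm₁ := ?_ }⟩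
    · intro m
      change hπ₀₁.equiv (sqBaseChange (S := D.A₀₁ B) (S' := D.A₀₁ B') ρ₀ m) = G.ρ₀ (hπ₀.equiv m)
      induction m using TensorProduct.induction_on with
      | zero => simp
      | tmul a m =>
        rw [sqBaseChange_tmul, IsBaseChange.equiv_tmul, IsBaseChange.equiv_tmul, hc₀, map_smul,
          algebraMap_smul]
      | add x y hx hy => rw [map_add, map_add, map_add, map_add, hx, hy]
    · intro m
      change hπ₀₁.equiv (sqBaseChange (S := D.A₀₁ B) (S' := D.A₀₁ B') ρ₁ m) = G.ρ₁ (hπ₁.equiv m)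
      induction m using TensorProduct.induction_on with
      | zero => simp
      | tmul a m =>
        rw [sqBaseChange_tmul, IsBaseChange.equiv_tmul, IsBaseChange.equiv_tmul, hc₁, map_smul,
          algebraMap_smul]
      | add x y hx hy => rw [map_add, map_add, map_add, map_add, hx, hy]

/-- **Leaf U7 (square-zero form, = `Stmt_AlgLiftSqZero`).** Rigidified two-chart line bundles
lift along `B → B ⧸ I` when `I ^ 2 = ⊥`. -/
theorem algLiftSqZero (B : Type u) [CommRing B] [Algebra k B] (I : Ideal B) (hI : I ^ 2 = ⊥)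
    (G : GlueDatum D (B ⧸ I)) (hG : G.IsRig) :
    ∃ G' : GlueDatum D B, G'.IsRig ∧ (G'.baseChange (Ideal.Quotient.mkₐ k I)).Equiv G :=
  exists_glueDatum_lift D (Ideal.Quotient.mkₐ k I) (Ideal.Quotient.mkₐ_surjective k I)
    ⟨2, by rw [ker_mkₐ_eq]; exact hI⟩ G hG

/-- Nilpotent form: rigidified two-chart line bundles lift along `B → B ⧸ I` for nilpotent `I`. -/
theorem algLiftNilpotent (B : Type u) [CommRing B] [Algebra k B] (I : Ideal B)
    (hI : IsNilpotent I) (G : GlueDatum D (B ⧸ I)) (hG : G.IsRig) :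
    ∃ G' : GlueDatum D B, G'.IsRig ∧ (G'.baseChange (Ideal.Quotient.mkₐ k I)).Equiv G :=
  exists_glueDatum_lift D (Ideal.Quotient.mkₐ k I) (Ideal.Quotient.mkₐ_surjective k I)
    (by rw [ker_mkₐ_eq]; exact hI) G hG

end Lift

end Fermat.Agent.S25.helper7727
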