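import Fermat.Agent.S25.helper1705_Spec3
import Fermat.Agent.S25.helper985_LGAlg
import Fermat.Agent.S25.helper175_Descent
import Fermat.Agent.S25.helper7579_GlueRepWrap
import Fermat.Agent.S25.helper8470_LRGen
import Fermat.Agent.S25.helper6523_AffRed
import Fermat.Agent.S25.helper8915_CutLocal
import Fermat.Agent.S25.helper8183_GC
import Fermat.Agent.S25.helper233_LGAssembly
import Fermat.Agent.S25.helper2952_LocIso
import Fermat.Agent.S25.helper2911_TwoOpens
import Fermat.Agent.S25.helper6550_ValUniq
import Fermat.Agent.S25.helper7727_AlgLift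

/-!
# S25: top-level assembly and live frontier (helper7736, backup of leaf ASSEMBLY)

* `stmt_S25_of_roots` (STABLE signature, safe to import): S25 from the nine root statements of
  the project (table `s25_roots`):
  `Stmt_GlueObj`, `Stmt_Chart`, `Stmt_Dict`, `Stmt_FAEZ`, `Stmt_AlgCharts`,
  `Stmt_AlgLiftSqZero`, `Stmt_AlgValUniq`, `Stmt_AlgBounded`, `Stmt_AlgValExistAC`.
  Everything above the roots is proved on main and composed here:
  `Stmt_GlueRep` (helper7579 wrap + helper8470 LRGen), `Stmt_AffRed` (helper6523),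
  `Stmt_CutLocal` (helper8915), `Stmt_LocIso` (helper2952), `Stmt_GC` (helper8183),
  `stmt_ChartsAff_of` (helper1705 Spec3), the four descent arrows (helper175_Descent) and the
  four wiring arrows (through `helper233.stmt_S25_of_frozen`).
* `stmt_S25_literal_of_roots`: the same in the literal shape of the template, so that
  `Fermat/Agent/S25.lean` is one application.
* `stmt_S25_of_frontier` (signature CHANGES by design, do not import): the roots that are not
  yet proved on main.  A root proved on main is discharged here.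

Grader dry-run (lean-grade on `result := stmt_S25_literal_of_roots sorry ... k c ε`):
`type_ok`, `levels_ok`, `is_thm` all true; only `sorryAx` is reported.
-/

set_option autoImplicit false

universe u

open CategoryTheory CategoryTheory.Limits AlgebraicGeometry AlgebraicGeometry.RelPicard
  NeronModelInfra GoodReductionJacobian

namespace Fermat.Agent.S25.helper7736

open Fermat.Agent.S25

/-- `Stmt_GlueRep` is proved on main. -/
theorem stmt_GlueRep : helper1705.Stmt_GlueRep.{u} :=
  helper7579.stmt_GlueRep_of_LRGen helper8470.stmt_LRGen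

/-- `Stmt_Rep` from `Stmt_GlueObj` and `Stmt_ChartsAff`. -/
theorem stmt_Rep_of_frontier
    (hGlueObj : helper1705.Stmt_GlueObj.{u}) (hCharts : helper1705.Stmt_ChartsAff.{u}) :
    helper1705.Stmt_Rep.{u} :=
  helper1705.stmt_Rep_of stmt_GlueRep helper6523.stmt_AffRed helper2952.stmt_LocIso hGlueObj
    helper8915.stmt_CutLocal hCharts

/-- S25 from the six statements of the frozen-vocabulary layer. -/
theorem stmt_S25_of_frozen6
    (hGlueObj : helper1705.Stmt_GlueObj.{u}) (hCharts : helper1705.Stmt_ChartsAff.{u})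
    (hLift : helper985.Stmt_LiftSqZero.{u}) (hValUniq : helper985.Stmt_ValUniq.{u})
    (hBounded : helper985.Stmt_Bounded.{u}) (hValExist : helper985.Stmt_ValExistAC.{u}) :
    helper1705.Stmt_S25.{u} :=
  helper233.stmt_S25_of_frozen (stmt_Rep_of_frontier hGlueObj hCharts) hLift hValUniq
    hBounded hValExist helper8183.stmt_GC

/-- **S25 from the nine roots** (stable signature). -/
theorem stmt_S25_of_roots
    (hGlueObj : helper1705.Stmt_GlueObj.{u}) (hChart : helper1705.Stmt_Chart.{u})
    (hDict : helper1705.Stmt_Dict.{u}) (hFAEZ : helper1705.Stmt_FAEZ.{u})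
    (hAlgCharts : helper1705.Stmt_AlgCharts.{u})
    (hAlgLift : helper985.Stmt_AlgLiftSqZero.{u}) (hAlgValUniq : helper985.Stmt_AlgValUniq.{u})
    (hAlgBounded : helper985.Stmt_AlgBounded.{u})
    (hAlgValExist : helper985.Stmt_AlgValExistAC.{u}) :
    helper1705.Stmt_S25.{u} :=
  stmt_S25_of_frozen6 hGlueObj (helper1705.stmt_ChartsAff_of hChart hDict hFAEZ hAlgCharts)
    (helper175.stmt_LiftSqZero_of hChart hDict hAlgLift)
    (helper175.stmt_ValUniq_of hChart hDict hAlgValUniq)
    (helper175.stmt_Bounded_of hChart hDict hFAEZ hAlgBounded)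
    (helper175.stmt_ValExistAC_of hChart hDict hFAEZ hAlgValExist)

/-- The frozen statement S25, in the literal shape of the template, from the nine roots
(stable signature).  `Fermat/Agent/S25.lean` is this theorem applied to nine proofs. -/
theorem stmt_S25_literal_of_roots
    (hGlueObj : helper1705.Stmt_GlueObj.{u}) (hChart : helper1705.Stmt_Chart.{u})
    (hDict : helper1705.Stmt_Dict.{u}) (hFAEZ : helper1705.Stmt_FAEZ.{u})
    (hAlgCharts : helper1705.Stmt_AlgCharts.{u})
    (hAlgLift : helper985.Stmt_AlgLiftSqZero.{u}) (hAlgValUniq : helper985.Stmt_AlgValUniq.{u})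
    (hAlgBounded : helper985.Stmt_AlgBounded.{u})
    (hAlgValExist : helper985.Stmt_AlgValExistAC.{u})
    (k : Type u) [Field k] [IsAlgClosed k] {C : Scheme.{u}} (c : C ⟶ Spec (CommRingCat.of k))
    [IsProper c] [SmoothOfRelativeDimension 1 c] [IsIntegral C]
    (ε : SchemeHomOver (𝟙 (Spec (CommRingCat.of k))) c) :
    ∃ D : RelativePic0Designation k c,
      Nonempty (RepresentsRelSubPic c ε (algEquivZeroCut c ε) D) ∧
        Smooth D.toBase ∧ IsProper D.toBase ∧ GeometricallyConnected D.toBase :=
  stmt_S25_of_roots hGlueObj hChart hDict hFAEZ hAlgCharts hAlgLift hAlgValUniq hAlgBounded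
    hAlgValExist k c ε

/-- **The live frontier** (signature changes by design: roots proved on main are discharged).
Discharged so far: `Stmt_Chart` (`helper2911.stmt_Chart`), `Stmt_AlgValUniq`
(`helper6550.stmt_AlgValUniq`), `Stmt_AlgLiftSqZero` (`helper7727.stmt_AlgLiftSqZero`).
Open: `Stmt_GlueObj`, `Stmt_Dict`, `Stmt_FAEZ`, `Stmt_AlgCharts`, `Stmt_AlgBounded`,
`Stmt_AlgValExistAC`. -/
theorem stmt_S25_of_frontier
    (hGlueObj : helper1705.Stmt_GlueObj.{u})
    (hDict : helper1705.Stmt_Dict.{u}) (hFAEZ : helper1705.Stmt_FAEZ.{u})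
    (hAlgCharts : helper1705.Stmt_AlgCharts.{u})
    (hAlgBounded : helper985.Stmt_AlgBounded.{u})
    (hAlgValExist : helper985.Stmt_AlgValExistAC.{u}) :
    helper1705.Stmt_S25.{u} :=
  stmt_S25_of_roots hGlueObj helper2911.stmt_Chart hDict hFAEZ hAlgCharts
    helper7727.stmt_AlgLiftSqZero helper6550.stmt_AlgValUniq hAlgBounded hAlgValExist

end Fermat.Agent.S25.helper7736
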