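import Fermat.Agent.S25.helper7810_ChiConn
import Fermat.Agent.S25.helper985_LGSpec
import Fermat.Agent.S25.helper5903_FAEZ
import Fermat.Agent.S25.helper175_PointsDict

/-!
# S25: the (⟹) half of FAEZ ⟺ DegZero in algebra-instance form (helper7810)

`ChiAlg c` is the provider-friendly form of `ChiTheory c`: the invariant is only defined on
the affine test objects `specStr R K` (`K` a field with `[Algebra R K]`), and its three axioms
are stated with `specHomOver`, exactly the vocabulary of the dictionary / `ModelSystem`.

* `ChiAlg.toChiTheory` : a `ChiAlg` gives a `ChiTheory` (all transports between arbitrary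
  morphisms `Spec K ⟶ Spec R` and algebra instances are done here, once);
* `ChiAlg.eq_unit_of_fibrewiseAlgEquivZero` (FAEZ ⟹, consumer form): for a rigidified `M` over
  `specStr R B` which is fibrewise algebraically equivalent to zero and EVERY `R`-algebra map
  `φ : B →ₐ[R] K` to a field, `χ K (M restricted along φ) = χ K (unit)`.
-/

set_option autoImplicit false

universe w u

open CategoryTheory CategoryTheory.Limits AlgebraicGeometry AlgebraicGeometry.RelPicard
  NeronModelInfra

namespace Fermat.Agent.S25.helper7810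

open Fermat.Agent.S25.helper985 (specStr specHomOver)

noncomputable section

variable {R : Type u} [CommRing R] {C : Scheme.{u}}

/-- An Euler characteristic on the affine field-valued test objects, in algebra-instance form. -/
structure ChiAlg (c : C ⟶ Spec (CommRingCat.of R)) : Type (u + 1) where
  /-- the invariant -/
  χ : ∀ (K : Type u) [Field K] [Algebra R K], (pullback c (specStr R K)).Modules → ℤ
  iso : ∀ (K : Type u) [Field K] [Algebra R K] (L L' : (pullback c (specStr R K)).Modules),
    Nonempty (L ≅ L') → χ K L = χ K L'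
  ext : ∀ (K K' : Type u) [Field K] [Field K'] [Algebra R K] [Algebra R K'] (φ : K →ₐ[R] K')
    (L : (pullback c (specStr R K)).Modules), Scheme.Modules.IsInvertible L →
    χ K' (restr c (specHomOver φ) L) = χ K L
  loc : ∀ (B : Type u) [CommRing B] [Algebra R B] [IsNoetherianRing B]
    (N : (pullback c (specStr R B)).Modules), Scheme.Modules.IsInvertible N →
    IsLocallyConstant (fun q : PrimeSpectrum B =>
      χ q.asIdeal.ResidueField
        (restr c (specHomOver (IsScalarTower.toAlgHom R B q.asIdeal.ResidueField)) N))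

namespace ChiAlg

variable {c : C ⟶ Spec (CommRingCat.of R)} (X : ChiAlg c)

/-- The invariant in ring-hom form: the structure map of `K` is an explicit ring hom. -/
def chiF (K : Type u) [Field K] (f : R →+* K)
    (L : (pullback c (Spec.map (CommRingCat.ofHom f))).Modules) : ℤ :=
  @ChiAlg.χ R _ C c X K _ f.toAlgebra L

theorem chi_eq_chiF (K : Type u) [Field K] [inst : Algebra R K]
    (L : (pullback c (specStr R K)).Modules) :
    X.χ K L = X.chiF K (algebraMap R K) L := by
  revert L
  obtain ⟨f, rfl⟩ : ∃ f : R →+* K, inst = f.toAlgebra :=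
    ⟨algebraMap R K, Algebra.algebra_ext _ _ fun _ => rfl⟩
  intro L
  rfl

theorem chiF_iso {K : Type u} [Field K] (f : R →+* K)
    (L L' : (pullback c (Spec.map (CommRingCat.ofHom f))).Modules) (h : Nonempty (L ≅ L')) :
    X.chiF K f L = X.chiF K f L' :=
  @ChiAlg.iso R _ C c X K _ f.toAlgebra L L' h

theorem chiF_congr {K : Type u} [Field K] {f₁ f₂ : R →+* K} (h : f₁ = f₂) {T : Scheme.{u}}
    {τ : T ⟶ Spec (CommRingCat.of R)} (N : (pullback c τ).Modules)
    (a₁ : SchemeHomOver (Spec.map (CommRingCat.ofHom f₁)) τ)
    (a₂ : SchemeHomOver (Spec.map (CommRingCat.ofHom f₂)) τ) (ha : a₁.1 = a₂.1) :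
    X.chiF K f₁ (restr c a₁ N) = X.chiF K f₂ (restr c a₂ N) := by
  subst h
  have : a₁ = a₂ := Subtype.ext ha
  subst this
  rfl

theorem chiF_unit_congr {K : Type u} [Field K] {f₁ f₂ : R →+* K} (h : f₁ = f₂) :
    X.chiF K f₁ (SheafOfModules.unit _) = X.chiF K f₂ (SheafOfModules.unit _) := by
  subst h
  rfl

end ChiAlg

/-- The morphism `Spec B' ⟶ Spec B` over `Spec R` given by a ring hom `g : B → B'`, where the
structure maps are given by ring homs `f` and `g.comp f`. -/
def homOver {B B' : Type u} [CommRing B] [CommRing B'] (f : R →+* B) (g : B →+* B') :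
    SchemeHomOver (Spec.map (CommRingCat.ofHom (g.comp f))) (Spec.map (CommRingCat.ofHom f)) :=
  ⟨Spec.map (CommRingCat.ofHom g), by rw [← Spec.map_comp]; rfl⟩

/-- The identity of `Spec S`, from the structure map `Spec.map (preimage σ)` to `σ`. -/
def idTo {S : Type u} [CommRing S] (σ : Spec (CommRingCat.of S) ⟶ Spec (CommRingCat.of R)) :
    SchemeHomOver (Spec.map (CommRingCat.ofHom (Spec.preimage σ).hom)) σ :=
  ⟨𝟙 _, by rw [Category.id_comp]; exact (Spec.map_preimage σ).symm⟩

namespace ChiAlg

variable {c : C ⟶ Spec (CommRingCat.of R)} (X : ChiAlg c)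

theorem chiF_ext {K K' : Type u} [Field K] [Field K'] (f : R →+* K) (g : K →+* K')
    (L : (pullback c (Spec.map (CommRingCat.ofHom f))).Modules)
    (hL : Scheme.Modules.IsInvertible L) :
    X.chiF K' (g.comp f) (restr c (homOver f g) L) = X.chiF K f L := by
  let _ : Algebra R K := f.toAlgebra
  let _ : Algebra R K' := (g.comp f).toAlgebra
  let φ : K →ₐ[R] K' := { g with commutes' := fun r => rfl }
  exact X.ext K K' φ L hL

theorem spec_map_ofHom_preimage {S : Type u} [CommRing S]
    (σ : Spec (CommRingCat.of S) ⟶ Spec (CommRingCat.of R)) :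
    Spec.map (CommRingCat.ofHom (Spec.preimage σ).hom) = σ :=
  Spec.map_preimage σ

theorem preimage_hom_eq {S : Type u} [CommRing S]
    (σ : Spec (CommRingCat.of S) ⟶ Spec (CommRingCat.of R)) (f : R →+* S)
    (h : σ = Spec.map (CommRingCat.ofHom f)) : (Spec.preimage σ).hom = f := by
  subst h
  rw [Spec.preimage_map]
  rfl

/-- A `ChiAlg` gives a `ChiTheory`. -/
def toChiTheory : ChiTheory c where
  χ K _ σ L := X.chiF K (Spec.preimage σ).hom (restr c (idTo σ) L)
  iso K _ σ L L' h := X.chiF_iso _ _ _ (h.map fun e => (Scheme.Modules.pullback _).mapIso e)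
  ext K K' _ _ σ σ' ψ L hL := by
    have hψ : Spec.map (CommRingCat.ofHom (Spec.preimage ψ.1).hom) = ψ.1 :=
      Spec.map_preimage ψ.1
    have hg : (Spec.preimage σ').hom = (Spec.preimage ψ.1).hom.comp (Spec.preimage σ).hom := by
      apply preimage_hom_eq
      rw [CommRingCat.ofHom_comp, Spec.map_comp, hψ, spec_map_ofHom_preimage, ψ.2]
    calc X.chiF K' (Spec.preimage σ').hom (restr c (idTo σ') (restr c ψ L))
        = X.chiF K' (Spec.preimage σ').hom (restr c (postComp ψ (idTo σ')) L) :=
          X.chiF_iso _ _ _ ⟨restrComp c ψ (idTo σ') L⟩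
      _ = X.chiF K' ((Spec.preimage ψ.1).hom.comp (Spec.preimage σ).hom)
            (restr c (postComp (idTo σ) (homOver (Spec.preimage σ).hom (Spec.preimage ψ.1).hom))
              L) :=
          X.chiF_congr hg L _ _ (by
            simp only [postComp, idTo, homOver, Category.id_comp, Category.comp_id, hψ])
      _ = X.chiF K' ((Spec.preimage ψ.1).hom.comp (Spec.preimage σ).hom)
            (restr c (homOver (Spec.preimage σ).hom (Spec.preimage ψ.1).hom)
              (restr c (idTo σ) L)) :=
          X.chiF_iso _ _ _ ⟨(restrComp c (idTo σ) (homOver _ _) L).symm⟩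
      _ = X.chiF K (Spec.preimage σ).hom (restr c (idTo σ) L) :=
          X.chiF_ext _ _ _ (hL.pullback _)
  loc B _ _ τ N hN := by
    let _ : Algebra R B := (Spec.preimage τ).hom.toAlgebra
    have h0 := X.loc B (restr c (idTo τ) N) (hN.pullback _)
    convert h0 using 2 with q
    rw [chi_eq_chiF]
    have hf : (Spec.preimage (ptOf B q ≫ τ)).hom = algebraMap R q.asIdeal.ResidueField := by
      apply preimage_hom_eq
      refine Eq.trans ?_ (specHomOver (IsScalarTower.toAlgHom R B q.asIdeal.ResidueField)).2
      exact congrArg (ptOf B q ≫ ·) (spec_map_ofHom_preimage τ).symm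
    calc X.chiF q.asIdeal.ResidueField (Spec.preimage (ptOf B q ≫ τ)).hom
          (restr c (idTo (ptOf B q ≫ τ))
            (restr c (⟨ptOf B q, rfl⟩ : SchemeHomOver (ptOf B q ≫ τ) τ) N))
        = X.chiF q.asIdeal.ResidueField (Spec.preimage (ptOf B q ≫ τ)).hom
          (restr c (postComp (⟨ptOf B q, rfl⟩ : SchemeHomOver (ptOf B q ≫ τ) τ)
            (idTo (ptOf B q ≫ τ))) N) :=
          X.chiF_iso _ _ _ ⟨restrComp c _ (idTo (ptOf B q ≫ τ)) N⟩
      _ = X.chiF q.asIdeal.ResidueField (algebraMap R q.asIdeal.ResidueField)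
          (restr c (postComp (idTo τ)
            (specHomOver (IsScalarTower.toAlgHom R B q.asIdeal.ResidueField))) N) :=
          X.chiF_congr hf N _ _ (by
            simp only [postComp, idTo, Category.id_comp, Category.comp_id]
            rfl)
      _ = X.chiF q.asIdeal.ResidueField (algebraMap R q.asIdeal.ResidueField)
          (restr c (specHomOver (IsScalarTower.toAlgHom R B q.asIdeal.ResidueField))
            (restr c (idTo τ) N)) :=
          X.chiF_iso _ _ _ ⟨(restrComp c (idTo τ) _ N).symm⟩

/-- **FAEZ ⟹, consumer form.** If the rigidified line bundle `M` over `specStr R B` is fibrewise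
algebraically equivalent to zero, then for every `R`-algebra map `φ : B →ₐ[R] K` to a field `K`
(not necessarily algebraically closed) the invariant of the restriction of `M` along `φ`
equals the invariant of the unit module. -/
theorem eq_unit_of_fibrewiseAlgEquivZero
    {ε : SchemeHomOver (𝟙 (Spec (CommRingCat.of R))) c} {B : Type u} [CommRing B] [Algebra R B]
    (M : RigidifiedLineBundle c ε (specStr R B)) (hM : FibrewiseAlgEquivZero M)
    (K : Type u) [Field K] [Algebra R K] (φ : B →ₐ[R] K) :
    X.χ K (restr c (specHomOver φ) M.L) =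
      X.χ K (SheafOfModules.unit (pullback c (specStr R K)).ringCatSheaf) := by
  have h := X.toChiTheory.eq_unit_of_fibrewiseAlgEquivZero M hM K (specHomOver φ).1
  have hf : (Spec.preimage ((specHomOver φ).1 ≫ specStr R B)).hom = algebraMap R K :=
    preimage_hom_eq _ _ (specHomOver φ).2
  refine (X.chi_eq_chiF K _).trans (Eq.trans ?_ (X.chi_eq_chiF K _).symm)
  calc X.chiF K (algebraMap R K) (restr c (specHomOver φ) M.L)
      = X.chiF K (Spec.preimage ((specHomOver φ).1 ≫ specStr R B)).hom
          (restr c (postComp (helper6135.pt (specStr R B) (specHomOver φ).1)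
            (idTo ((specHomOver φ).1 ≫ specStr R B))) M.L) :=
        (X.chiF_congr hf M.L _ _ (by
          simp only [postComp, idTo, helper6135.pt, Category.id_comp])).symm
    _ = X.chiF K (Spec.preimage ((specHomOver φ).1 ≫ specStr R B)).hom
          (restr c (idTo ((specHomOver φ).1 ≫ specStr R B))
            (restr c (helper6135.pt (specStr R B) (specHomOver φ).1) M.L)) :=
        X.chiF_iso _ _ _ ⟨(restrComp c _ (idTo _) M.L).symm⟩
    _ = X.chiF K (Spec.preimage ((specHomOver φ).1 ≫ specStr R B)).hom
          (restr c (idTo ((specHomOver φ).1 ≫ specStr R B))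
            (SheafOfModules.unit (pullback c ((specHomOver φ).1 ≫ specStr R B)).ringCatSheaf)) := h
    _ = X.chiF K (Spec.preimage ((specHomOver φ).1 ≫ specStr R B)).hom
          (SheafOfModules.unit _) :=
        X.chiF_iso _ _ _ ⟨Scheme.Modules.pullbackUnitIso _⟩
    _ = X.chiF K (algebraMap R K) (SheafOfModules.unit _) := X.chiF_unit_congr hf

end ChiAlg

/-! ### Bridges: to `helper5903.DegTheory`, and from an abstract dictionary (`helper175.ModelSystem`) -/

/-- A `ChiTheory` is a `DegTheory` (the interface of `helper5903_FAEZ`) with values in `ℤ`. -/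
def ChiTheory.toDegTheory {c : C ⟶ Spec (CommRingCat.of R)} (X : ChiTheory c) :
    helper5903.DegTheory c ℤ where
  deg := X.χ
  deg_iso K _ τ L L' _ h := X.iso K τ L L' h
  deg_restr K K' _ _ τ τ' g L hL := X.ext K K' τ τ' g L hL
  deg_locConst B _ β N hN p := (IsLocallyConstant.iff_exists_open _).1 (X.loc B β N hN) p

/-- Invertibility (in the frozen sense) is invariant under isomorphism. -/
theorem isInvertible_of_iso {Y : Scheme.{u}} {L L' : Y.Modules} (e : L ≅ L')
    (h : Scheme.Modules.IsInvertible L) : Scheme.Modules.IsInvertible L' :=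
  ⟨fun x => by
    obtain ⟨U, hx, ⟨i⟩⟩ := h.1 x
    exact ⟨U, hx, ⟨(Scheme.Modules.pullback U.ι).mapIso e.symm ≪≫ i⟩⟩⟩

namespace ChiAlg

variable {c : C ⟶ Spec (CommRingCat.of R)}
  {ε : SchemeHomOver (𝟙 (Spec (CommRingCat.of R))) c} {Pc : SubPicCondition c ε}

open Classical in
/-- The invariant attached to an abstract dictionary `S` and an integer invariant `chi` of its
models over fields: `χ K L := chi` of any model of `L` (and `0` if `L` is not invertible). -/
def chiOfModels (S : helper175.ModelSystem.{w, u} c ε Pc)
    (chi : ∀ (K : Type u) [Field K] [Algebra R K], S.Obj K → ℤ)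
    (K : Type u) [Field K] [Algebra R K] (L : (pullback c (specStr R K)).Modules) : ℤ :=
  if h : Scheme.Modules.IsInvertible L then chi K (S.exists_model K L h).choose else 0

theorem chiOfModels_eq (S : helper175.ModelSystem.{w, u} c ε Pc)
    (chi : ∀ (K : Type u) [Field K] [Algebra R K], S.Obj K → ℤ)
    (chi_equiv : ∀ (K : Type u) [Field K] [Algebra R K] (G G' : S.Obj K),
      S.Equiv G G' → chi K G = chi K G')
    (K : Type u) [Field K] [Algebra R K] (L : (pullback c (specStr R K)).Modules)
    (hL : Scheme.Modules.IsInvertible L) (G : S.Obj K) (hG : S.Models K L G) :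
    chiOfModels S chi K L = chi K G := by
  rw [chiOfModels, dif_pos hL]
  exact chi_equiv K _ _
    ((S.iso_iff K (S.exists_model K L hL).choose_spec hG).1 ⟨Iso.refl _⟩)

/-- A `ChiAlg` from an abstract dictionary and an invariant of models over fields which is
invariant under equivalence and under extension of the field, and locally constant in
families over noetherian bases. -/
def ofModelSystem (S : helper175.ModelSystem.{w, u} c ε Pc)
    (chi : ∀ (K : Type u) [Field K] [Algebra R K], S.Obj K → ℤ)
    (chi_equiv : ∀ (K : Type u) [Field K] [Algebra R K] (G G' : S.Obj K),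
      S.Equiv G G' → chi K G = chi K G')
    (chi_ext : ∀ (K K' : Type u) [Field K] [Field K'] [Algebra R K] [Algebra R K']
      (φ : K →ₐ[R] K') (G : S.Obj K), chi K' (S.baseChange φ G) = chi K G)
    (chi_loc : ∀ (B : Type u) [CommRing B] [Algebra R B] [IsNoetherianRing B] (G : S.Obj B),
      IsLocallyConstant (fun q : PrimeSpectrum B =>
        chi q.asIdeal.ResidueField
          (S.baseChange (IsScalarTower.toAlgHom R B q.asIdeal.ResidueField) G))) :
    ChiAlg c where
  χ := chiOfModels S chi
  iso K _ _ L L' h := by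
    obtain ⟨e⟩ := h
    by_cases hL : Scheme.Modules.IsInvertible L
    · have hL' := isInvertible_of_iso e hL
      obtain ⟨G, hG⟩ := S.exists_model K L hL
      obtain ⟨G', hG'⟩ := S.exists_model K L' hL'
      rw [chiOfModels_eq S chi chi_equiv K L hL G hG,
        chiOfModels_eq S chi chi_equiv K L' hL' G' hG']
      exact chi_equiv K _ _ ((S.iso_iff K hG hG').1 ⟨e⟩)
    · have hL' : ¬ Scheme.Modules.IsInvertible L' := fun h' => hL (isInvertible_of_iso e.symm h')
      rw [chiOfModels, chiOfModels, dif_neg hL, dif_neg hL']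
  ext K K' _ _ _ _ φ L hL := by
    obtain ⟨G, hG⟩ := S.exists_model K L hL
    exact (chiOfModels_eq S chi chi_equiv K' (restr c (specHomOver φ) L) (hL.pullback _) _
      (S.models_baseChange φ hG)).trans
        ((chi_ext K K' φ G).trans (chiOfModels_eq S chi chi_equiv K L hL G hG).symm)
  loc B _ _ _ N hN := by
    obtain ⟨G, hG⟩ := S.exists_model B N hN
    convert chi_loc B G using 2 with q
    exact chiOfModels_eq S chi chi_equiv _ _ (hN.pullback _) _ (S.models_baseChange _ hG)

/-- **FAEZ ⟹ degree zero, dictionary form.** Let `S` be an abstract dictionary and `chi` an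
invariant of models over fields as in `ofModelSystem`. If the rigidified line bundle `M` over
`specStr R B` is fibrewise algebraically equivalent to zero and `G` is a model of `M.L`, then
for EVERY `R`-algebra map `φ : B →ₐ[R] K` to a field, `chi (G ⊗ K) = chi (U₀)` for any model
`U₀` of the unit module over `K`. -/
theorem chi_baseChange_eq_of_fibrewiseAlgEquivZero (S : helper175.ModelSystem.{w, u} c ε Pc)
    (chi : ∀ (K : Type u) [Field K] [Algebra R K], S.Obj K → ℤ)
    (chi_equiv : ∀ (K : Type u) [Field K] [Algebra R K] (G G' : S.Obj K),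
      S.Equiv G G' → chi K G = chi K G')
    (chi_ext : ∀ (K K' : Type u) [Field K] [Field K'] [Algebra R K] [Algebra R K']
      (φ : K →ₐ[R] K') (G : S.Obj K), chi K' (S.baseChange φ G) = chi K G)
    (chi_loc : ∀ (B : Type u) [CommRing B] [Algebra R B] [IsNoetherianRing B] (G : S.Obj B),
      IsLocallyConstant (fun q : PrimeSpectrum B =>
        chi q.asIdeal.ResidueField
          (S.baseChange (IsScalarTower.toAlgHom R B q.asIdeal.ResidueField) G)))
    {B : Type u} [CommRing B] [Algebra R B] (M : RigidifiedLineBundle c ε (specStr R B))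
    {G : S.Obj B} (hG : S.Models B M.L G) (hM : FibrewiseAlgEquivZero M)
    (K : Type u) [Field K] [Algebra R K] (φ : B →ₐ[R] K) {U₀ : S.Obj K}
    (hU : S.Models K (SheafOfModules.unit (pullback c (specStr R K)).ringCatSheaf) U₀) :
    chi K (S.baseChange φ G) = chi K U₀ := by
  have h := (ofModelSystem S chi chi_equiv chi_ext chi_loc).eq_unit_of_fibrewiseAlgEquivZero
    M hM K φ
  have h1 : chiOfModels S chi K (restr c (specHomOver φ) M.L) = chi K (S.baseChange φ G) :=
    chiOfModels_eq S chi chi_equiv K _ (M.isInvertible.pullback _) _ (S.models_baseChange φ hG)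
  have h2 : chiOfModels S chi K (SheafOfModules.unit (pullback c (specStr R K)).ringCatSheaf) =
      chi K U₀ :=
    chiOfModels_eq S chi chi_equiv K _ (Scheme.Modules.isInvertible_unit _) _ hU
  rw [← h1, ← h2]
  exact h

end ChiAlg

end

end Fermat.Agent.S25.helper7810
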