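import Mathlib
import Fermat.Prelude.Def_AlgebraicGeometry_RelPicardAlgEquivZeroCut
import Fermat.Agent.S25.helper6135_AEZFamily

/-!
# S25, brick CONN: the (⟹) half of FAEZ ⟺ DegZero, independently of the dictionary (helper7810)

`ChiTheory c` is an abstract integer invariant `χ K σ L` of modules `L` on the fibres
`pullback c σ`, `σ : Spec K ⟶ Spec R`, `K` a field, which is
* `iso`: invariant under isomorphism,
* `ext`: invariant under extension of the field (for invertible modules),
* `loc`: locally constant in families over noetherian affine bases (for invertible modules).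
It is meant to be instantiated by "Euler characteristic of any two-chart model".

Main results (namespace `Fermat.Agent.S25.helper7810.ChiTheory`):
* `chi_point` : the invariant at a field-valued point depends only on the image point;
* `chiAt_isLocallyConstant` : `x ↦ χ` at `Spec κ(x) ⟶ T` is locally constant on a locally
  noetherian scheme `T`;
* `const_of_preconnected` (CONN) : over a preconnected locally noetherian base the invariant
  takes the same value at any two points with values in the same field;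
* `eq_unit_of_familyForm` (FAM) : `helper6135.FamilyForm c t s L → χ (L on the fibre at s) = χ (unit)`;
* `eq_unit_of_fibrewiseAlgEquivZero` (FAEZ ⟹) : a fibrewise algebraically trivial rigidified
  line bundle has `χ = χ (unit)` on the fibre over EVERY field-valued point.
-/

set_option autoImplicit false

universe u

open CategoryTheory CategoryTheory.Limits AlgebraicGeometry AlgebraicGeometry.RelPicard
  NeronModelInfra

namespace Fermat.Agent.S25.helper7810

noncomputable section

variable {R : Type u} [CommRing R] {C : Scheme.{u}}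

/-- Restriction of a module on `C ×_R T` along a morphism of `R`-schemes `S ⟶ T`. -/
abbrev restr (c : C ⟶ Spec (CommRingCat.of R)) {S T : Scheme.{u}}
    {σ : S ⟶ Spec (CommRingCat.of R)} {τ : T ⟶ Spec (CommRingCat.of R)}
    (ψ : SchemeHomOver σ τ) (N : (pullback c τ).Modules) : (pullback c σ).Modules :=
  (Scheme.Modules.pullback (baseChangeSnd c ψ)).obj N

/-- Restriction is compatible with composition. -/
def restrComp (c : C ⟶ Spec (CommRingCat.of R)) {S' S T : Scheme.{u}}
    {σ' : S' ⟶ Spec (CommRingCat.of R)} {σ : S ⟶ Spec (CommRingCat.of R)}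
    {τ : T ⟶ Spec (CommRingCat.of R)} (ψ : SchemeHomOver σ τ) (φ : SchemeHomOver σ' σ)
    (N : (pullback c τ).Modules) :
    restr c φ (restr c ψ N) ≅ restr c (postComp ψ φ) N :=
  (Scheme.Modules.pullbackComp _ _).app N ≪≫
    (Scheme.Modules.pullbackCongr (baseChangeSnd_comp c ψ φ)).app N

/-- The point `Spec κ(q) ⟶ Spec B` attached to a prime `q` of `B`. -/
abbrev ptOf (B : Type u) [CommRing B] (q : PrimeSpectrum B) :
    Spec (CommRingCat.of q.asIdeal.ResidueField) ⟶ Spec (CommRingCat.of B) :=
  Spec.map (CommRingCat.ofHom (algebraMap B q.asIdeal.ResidueField))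

/-- An abstract Euler characteristic for modules on the fibres `C ×_R Spec K`, `K` a field. -/
structure ChiTheory (c : C ⟶ Spec (CommRingCat.of R)) : Type (u + 1) where
  /-- the invariant -/
  χ : ∀ (K : Type u) [Field K] (σ : Spec (CommRingCat.of K) ⟶ Spec (CommRingCat.of R)),
    (pullback c σ).Modules → ℤ
  iso : ∀ (K : Type u) [Field K] (σ : Spec (CommRingCat.of K) ⟶ Spec (CommRingCat.of R))
    (L L' : (pullback c σ).Modules), Nonempty (L ≅ L') → χ K σ L = χ K σ L'
  ext : ∀ (K K' : Type u) [Field K] [Field K']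
    (σ : Spec (CommRingCat.of K) ⟶ Spec (CommRingCat.of R))
    (σ' : Spec (CommRingCat.of K') ⟶ Spec (CommRingCat.of R)) (ψ : SchemeHomOver σ' σ)
    (L : (pullback c σ).Modules), Scheme.Modules.IsInvertible L →
    χ K' σ' (restr c ψ L) = χ K σ L
  loc : ∀ (B : Type u) [CommRing B] [IsNoetherianRing B]
    (τ : Spec (CommRingCat.of B) ⟶ Spec (CommRingCat.of R)) (N : (pullback c τ).Modules),
    Scheme.Modules.IsInvertible N →
    IsLocallyConstant (fun q : PrimeSpectrum B =>
      χ q.asIdeal.ResidueField (ptOf B q ≫ τ)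
        (restr c (⟨ptOf B q, rfl⟩ : SchemeHomOver (ptOf B q ≫ τ) τ) N))

namespace ChiTheory

variable {c : C ⟶ Spec (CommRingCat.of R)} (X : ChiTheory c)

/-- The value of the invariant on the fibre over a point `x` of `T`. -/
def chiAt {T : Scheme.{u}} (τ : T ⟶ Spec (CommRingCat.of R)) (N : (pullback c τ).Modules)
    (x : T) : ℤ :=
  X.χ (T.residueField x) (T.fromSpecResidueField x ≫ τ)
    (restr c (⟨T.fromSpecResidueField x, rfl⟩ :
      SchemeHomOver (T.fromSpecResidueField x ≫ τ) τ) N)

/-- The invariant of the fibre at a field-valued point only depends on the image point. -/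
theorem chi_point {T : Scheme.{u}} (τ : T ⟶ Spec (CommRingCat.of R)) (N : (pullback c τ).Modules)
    (hN : Scheme.Modules.IsInvertible N) {K : Type u} [Field K]
    (σ : Spec (CommRingCat.of K) ⟶ Spec (CommRingCat.of R)) (a : SchemeHomOver σ τ) :
    X.χ K σ (restr c a N) = X.chiAt τ N (a.1 (IsLocalRing.closedPoint K)) := by
  set x : T := a.1 (IsLocalRing.closedPoint K) with hx
  let φ : T.residueField x ⟶ CommRingCat.of K :=
    Scheme.descResidueField (Scheme.stalkClosedPointTo a.1)
  have hφ : Spec.map φ ≫ T.fromSpecResidueField x = a.1 :=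
    Scheme.descResidueField_stalkClosedPointTo_fromSpecResidueField K T a.1
  let b : SchemeHomOver (T.fromSpecResidueField x ≫ τ) τ := ⟨T.fromSpecResidueField x, rfl⟩
  let ψ : SchemeHomOver σ (T.fromSpecResidueField x ≫ τ) :=
    ⟨Spec.map φ, by rw [← Category.assoc, hφ, a.2]⟩
  have h1 := X.ext (T.residueField x) K (T.fromSpecResidueField x ≫ τ) σ ψ (restr c b N)
    (hN.pullback _)
  have h2 : postComp b ψ = a := Subtype.ext hφ
  have e : restr c ψ (restr c b N) ≅ restr c a N :=
    restrComp c b ψ N ≪≫
      (Scheme.Modules.pullbackCongr (congrArg (baseChangeSnd c) h2)).app N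
  rw [← X.iso K σ _ _ ⟨e⟩, h1]
  rfl

/-- The invariant is locally constant along the points of a locally noetherian base. -/
theorem chiAt_isLocallyConstant {T : Scheme.{u}} [IsLocallyNoetherian T]
    (τ : T ⟶ Spec (CommRingCat.of R)) (N : (pullback c τ).Modules)
    (hN : Scheme.Modules.IsInvertible N) : IsLocallyConstant (X.chiAt τ N) := by
  rw [IsLocallyConstant.iff_exists_open]
  intro x
  obtain ⟨U, hU, hxU, -⟩ := exists_isAffineOpen_mem_and_subset (X := T) (x := x) (U := ⊤) trivial
  have : IsNoetherianRing Γ(T, U) := IsLocallyNoetherian.component_noetherian ⟨U, hU⟩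
  let ι : Spec Γ(T, U) ⟶ T := hU.fromSpec
  let bι : SchemeHomOver (ι ≫ τ) τ := ⟨ι, rfl⟩
  have hloc := X.loc Γ(T, U) (ι ≫ τ) (restr c bι N) (hN.pullback _)
  have key : ∀ q : PrimeSpectrum Γ(T, U),
      X.χ q.asIdeal.ResidueField (ptOf Γ(T, U) q ≫ ι ≫ τ)
        (restr c (⟨ptOf Γ(T, U) q, rfl⟩ : SchemeHomOver (ptOf Γ(T, U) q ≫ ι ≫ τ) (ι ≫ τ))
          (restr c bι N)) = X.chiAt τ N (ι.base q) := by
    intro q
    let bq : SchemeHomOver (ptOf Γ(T, U) q ≫ ι ≫ τ) (ι ≫ τ) := ⟨ptOf Γ(T, U) q, rfl⟩
    rw [X.iso _ _ _ _ ⟨restrComp c bι bq N⟩, X.chi_point τ N hN]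
    congr 1
    have hq : (ptOf Γ(T, U) q).base (IsLocalRing.closedPoint q.asIdeal.ResidueField) = q := by
      have := PrimeSpectrum.residueField_comap q
      have h3 : (ptOf Γ(T, U) q).base (IsLocalRing.closedPoint q.asIdeal.ResidueField) ∈
          Set.range (PrimeSpectrum.comap (algebraMap Γ(T, U) q.asIdeal.ResidueField)) :=
        ⟨_, rfl⟩
      rw [this] at h3
      exact h3
    change ι.base ((ptOf Γ(T, U) q).base _) = _
    rw [hq]
  have hx : x ∈ Set.range ι.base := by
    rw [hU.range_fromSpec]; exact hxU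
  obtain ⟨q₀, rfl⟩ := hx
  obtain ⟨W, hW, hq₀W, hWc⟩ := (IsLocallyConstant.iff_exists_open _).1 hloc q₀
  refine ⟨ι.base '' W, ι.isOpenEmbedding.isOpenMap W hW, ⟨q₀, hq₀W, rfl⟩, ?_⟩
  rintro _ ⟨q, hqW, rfl⟩
  rw [← key q, ← key q₀]
  exact hWc q hqW

/-- **CONN.** On a preconnected, locally noetherian base the invariant of an invertible module
takes the same value at any two points with values in the same field. -/
theorem const_of_preconnected {T : Scheme.{u}} [PreconnectedSpace T] [IsLocallyNoetherian T]
    (τ : T ⟶ Spec (CommRingCat.of R)) (N : (pullback c τ).Modules)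
    (hN : Scheme.Modules.IsInvertible N) {K : Type u} [Field K]
    (σ : Spec (CommRingCat.of K) ⟶ Spec (CommRingCat.of R)) (ψ₀ ψ₁ : SchemeHomOver σ τ) :
    X.χ K σ (restr c ψ₀ N) = X.χ K σ (restr c ψ₁ N) := by
  rw [X.chi_point τ N hN, X.chi_point τ N hN]
  exact (X.chiAt_isLocallyConstant τ N hN).apply_eq_of_preconnectedSpace _ _

/-- **FAM.** A module which, on the fibre over `s`, is a member of a connected family with a
trivial member (the family form of `IsAlgEquivZero`, `helper6135.FamilyForm`) has the same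
invariant as the unit module on that fibre. -/
theorem eq_unit_of_familyForm {T : Scheme.{u}} (t : T ⟶ Spec (CommRingCat.of R))
    {K : Type u} [Field K] (s : Spec (CommRingCat.of K) ⟶ T) (L : (pullback c t).Modules)
    (hL : helper6135.FamilyForm c t s L) :
    X.χ K (s ≫ t) (restr c (helper6135.pt t s) L) =
      X.χ K (s ≫ t) (SheafOfModules.unit (pullback c (s ≫ t)).ringCatSheaf) := by
  obtain ⟨T', h, hft, hgi, N, hN, t₀, t₁, ⟨e₀⟩, ⟨e₁⟩⟩ := hL
  have : IsLocallyNoetherian T' := LocallyOfFiniteType.isLocallyNoetherian h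
  have : IrreducibleSpace T' := GeometricallyIrreducible.irreducibleSpace_of_subsingleton h
  have hc := X.const_of_preconnected (h ≫ s ≫ t) N hN (s ≫ t) (helper6135.sec t s t₀)
    (helper6135.sec t s t₁)
  rw [← X.iso _ _ _ _ ⟨e₁⟩, ← hc, X.iso _ _ _ _ ⟨e₀⟩]

/-- **FAEZ ⟹.** If `M` is fibrewise algebraically equivalent to zero, then on the fibre over
EVERY field-valued point `s` of the base (the field need not be algebraically closed) the
invariant of `M` equals the invariant of the unit module. -/
theorem eq_unit_of_fibrewiseAlgEquivZero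
    {ε : SchemeHomOver (𝟙 (Spec (CommRingCat.of R))) c} {T : Scheme.{u}}
    {t : T ⟶ Spec (CommRingCat.of R)} (M : RigidifiedLineBundle c ε t)
    (hM : FibrewiseAlgEquivZero M) (K : Type u) [Field K] (s : Spec (CommRingCat.of K) ⟶ T) :
    X.χ K (s ≫ t) (restr c (helper6135.pt t s) M.L) =
      X.χ K (s ≫ t) (SheafOfModules.unit (pullback c (s ≫ t)).ringCatSheaf) := by
  let ψ₀ : Spec (CommRingCat.of (AlgebraicClosure K)) ⟶ Spec (CommRingCat.of K) :=
    Spec.map (CommRingCat.ofHom (algebraMap K (AlgebraicClosure K)))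
  let s' : Spec (CommRingCat.of (AlgebraicClosure K)) ⟶ T := ψ₀ ≫ s
  have h1 := X.eq_unit_of_familyForm t s' M.L
    ((helper6135.fibrewiseAlgEquivZero_iff M).1 hM (AlgebraicClosure K) s')
  let ψ : SchemeHomOver (s' ≫ t) (s ≫ t) := ⟨ψ₀, (Category.assoc _ _ _).symm⟩
  have h2 := X.ext K (AlgebraicClosure K) (s ≫ t) (s' ≫ t) ψ (restr c (helper6135.pt t s) M.L)
    (M.isInvertible.pullback _)
  have h3 := X.ext K (AlgebraicClosure K) (s ≫ t) (s' ≫ t) ψ
    (SheafOfModules.unit (pullback c (s ≫ t)).ringCatSheaf)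
    (Scheme.Modules.isInvertible_unit _)
  have h4 : postComp (helper6135.pt t s) ψ = helper6135.pt t s' := Subtype.ext rfl
  have e : restr c ψ (restr c (helper6135.pt t s) M.L) ≅ restr c (helper6135.pt t s') M.L :=
    restrComp c (helper6135.pt t s) ψ M.L ≪≫
      (Scheme.Modules.pullbackCongr (congrArg (baseChangeSnd c) h4)).app M.L
  rw [← h2, ← h3, X.iso _ _ _ _ ⟨e⟩, h1]
  exact (X.iso _ _ _ _ ⟨Scheme.Modules.pullbackUnitIso _⟩).symm

end ChiTheory

end

end Fermat.Agent.S25.helper7810
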