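import Mathlib

/-!
# S25, layer G brick WVC: the weak valuative criterion (helper784)

Mathlib's `UniversallyClosed.of_valuativeCriterion` asks for a lift of every valuative square
over the given valuation ring itself.  In applications (e.g. extending a point of the Jacobian,
where a line bundle is only a difference of rational points after passing to an algebraically
closed field) one only gets a lift after *enlarging* the valuation ring.  This file shows that this
is enough.

Main results (`f : X ⟶ Y` a morphism of schemes):

* `WeakExistence f` : every valuative square over `f` is dominated by a valuative square over `f`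
  that has a lift.
* `WeakExistence.specializingMap`, `WeakExistence.existence` :
  `WeakExistence f → ValuativeCriterion.Existence f`.
* `universallyClosed_of_weakExistence` : quasi-compact + `WeakExistence` ⟹ universally closed.
* `weakExistence_of_algClosed_lift`, `existence_of_algClosed_lift`,
  `universallyClosed_of_algClosed_lift` : it suffices to lift the valuative squares whose
  fraction field is algebraically closed.

Only Mathlib is imported.
-/

set_option autoImplicit false

universe u

open CategoryTheory CategoryTheory.Limits AlgebraicGeometry IsLocalRing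

namespace Fermat.Agent.S25.helper784

variable {X Y : Scheme.{u}}

/-- `S'` dominates `S`: there are a local ring homomorphism `S.R → S'.R` and a field homomorphism
`S.K → S'.K`, compatible with the structure maps, through which the two maps of `S'` factor. -/
def Dominates {f : X ⟶ Y} (S' S : ValuativeCommSq f) : Prop :=
  ∃ (φ : S.R →+* S'.R) (ψ : S.K →+* S'.K), IsLocalHom φ ∧
    (algebraMap S'.R S'.K).comp φ = ψ.comp (algebraMap S.R S.K) ∧
    S'.i₁ = Spec.map (CommRingCat.ofHom ψ) ≫ S.i₁ ∧
    S'.i₂ = Spec.map (CommRingCat.ofHom φ) ≫ S.i₂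

/-- The weak existence part of the valuative criterion: every valuative square over `f` is
dominated by a valuative square over `f` which has a lift. -/
def WeakExistence : MorphismProperty Scheme.{u} :=
  fun _ _ f ↦ ∀ S : ValuativeCommSq f, ∃ S' : ValuativeCommSq f, Dominates S' S ∧ S'.commSq.HasLift

lemma weakExistence_of_existence {f : X ⟶ Y} (H : ValuativeCriterion.Existence f) :
    WeakExistence f := by
  intro S
  refine ⟨S, ⟨RingHom.id _, RingHom.id _, ⟨fun a ha ↦ ha⟩, rfl, ?_, ?_⟩, H S⟩
  · change S.i₁ = Spec.map (𝟙 _) ≫ S.i₁
    simp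
  · change S.i₂ = Spec.map (𝟙 _) ≫ S.i₂
    simp

namespace WeakExistence

set_option backward.isDefEq.respectTransparency.types false in
/-- Weak existence implies that specializations lift along `f`. -/
lemma specializingMap (f : X ⟶ Y) (H : WeakExistence f) : SpecializingMap f := by
  intro x' y h
  let stalk_y_to_residue_x' : Y.presheaf.stalk y ⟶ X.residueField x' :=
    Y.presheaf.stalkSpecializes h ≫ f.stalkMap x' ≫ X.residue x'
  obtain ⟨A, hA, hA_local⟩ := exists_factor_valuationRing stalk_y_to_residue_x'.hom
  let stalk_y_to_A : Y.presheaf.stalk y ⟶ .of A :=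
    CommRingCat.ofHom (stalk_y_to_residue_x'.hom.codRestrict _ hA)
  have w : X.fromSpecResidueField x' ≫ f =
      Spec.map (CommRingCat.ofHom (algebraMap A (X.residueField x'))) ≫
        Spec.map stalk_y_to_A ≫ Y.fromSpecStalk y := by
    rw [Scheme.fromSpecResidueField, Category.assoc, ← Scheme.SpecMap_stalkMap_fromSpecStalk,
      ← Scheme.SpecMap_stalkSpecializes_fromSpecStalk h]
    simp_rw [← Spec.map_comp_assoc]
    rfl
  let S : ValuativeCommSq f := { R := A, K := X.residueField x', commSq := ⟨w⟩, .. }
  obtain ⟨S', ⟨φ, ψ, hφ, hcomm, h₁, h₂⟩, hlift⟩ := H S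
  obtain ⟨l, hl₁, hl₂⟩ := hlift.exists_lift
  refine ⟨l (closedPoint S'.R), ?_, ?_⟩
  · -- the generic point of `Spec S'.R` is sent to `x'`
    have hgen : l (Spec.map (CommRingCat.ofHom (algebraMap S'.R S'.K)) (closedPoint S'.K)) = x' := by
      rw [← Scheme.Hom.comp_apply, hl₁, h₁, Scheme.Hom.comp_apply]
      exact Scheme.fromSpecResidueField_apply x' _
    rw [← hgen]
    exact (specializes_closedPoint _).map l.continuous
  · rw [← Scheme.Hom.comp_apply, hl₂, h₂]
    simp only [Scheme.Hom.comp_base, TopCat.coe_comp, Function.comp_apply]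
    have h3 : Spec.map (CommRingCat.ofHom φ) (closedPoint S'.R) = closedPoint S.R :=
      comap_closedPoint φ
    have : Spec.map stalk_y_to_A (closedPoint A) = closedPoint (Y.presheaf.stalk y) :=
      comap_closedPoint (S := A) (stalk_y_to_residue_x'.hom.codRestrict A.toSubring hA)
    rw [h3]
    change Y.fromSpecStalk y (Spec.map stalk_y_to_A (closedPoint A)) = y
    rw [this, Y.fromSpecStalk_closedPoint]

instance stableUnderBaseChange : WeakExistence.{u}.IsStableUnderBaseChange := by
  constructor
  intro Y' X X' Y Y'_to_Y f X'_to_X f' hP hf S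
  let S₀ : ValuativeCommSq f :=
  { R := S.R
    K := S.K
    i₁ := S.i₁ ≫ X'_to_X
    i₂ := S.i₂ ≫ Y'_to_Y
    commSq := ⟨by simp only [Category.assoc, hP.w, reassoc_of% S.commSq.w]⟩ }
  obtain ⟨S₁, ⟨φ, ψ, hφ, hcomm, h₁, h₂⟩, hlift⟩ := hf S₀
  obtain ⟨l₀, hl₁, hl₂⟩ := hlift.exists_lift
  have hcomm' : Spec.map (CommRingCat.ofHom (algebraMap S₁.R S₁.K)) ≫
      Spec.map (CommRingCat.ofHom φ) =
      Spec.map (CommRingCat.ofHom ψ) ≫ Spec.map (CommRingCat.ofHom (algebraMap S.R S.K)) := by
    rw [← Spec.map_comp, ← Spec.map_comp, ← CommRingCat.ofHom_comp, ← CommRingCat.ofHom_comp,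
      hcomm]
  let S' : ValuativeCommSq f' :=
  { R := S₁.R
    K := S₁.K
    i₁ := Spec.map (CommRingCat.ofHom ψ) ≫ S.i₁
    i₂ := Spec.map (CommRingCat.ofHom φ) ≫ S.i₂
    commSq := ⟨by rw [Category.assoc, S.commSq.w, reassoc_of% hcomm']⟩ }
  refine ⟨S', ⟨φ, ψ, hφ, hcomm, rfl, rfl⟩, ?_⟩
  have hw : l₀ ≫ f = (Spec.map (CommRingCat.ofHom φ) ≫ S.i₂) ≫ Y'_to_Y := by
    rw [hl₂, h₂, Category.assoc]
  refine ⟨⟨⟨hP.lift l₀ (Spec.map (CommRingCat.ofHom φ) ≫ S.i₂) hw, ?_, hP.lift_snd _ _ _⟩⟩⟩
  apply hP.hom_ext
  · rw [Category.assoc, hP.lift_fst, hl₁, h₁, Category.assoc]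
  · rw [Category.assoc, hP.lift_snd, Category.assoc, S.commSq.w, reassoc_of% hcomm']

/-- Weak existence implies the existence part of the valuative criterion. -/
lemma existence {f : X ⟶ Y} (H : WeakExistence f) : ValuativeCriterion.Existence f := by
  rw [ValuativeCriterion.Existence.eq]
  have hmono : WeakExistence.{u} ≤ topologically @SpecializingMap := fun _ _ g hg ↦
    specializingMap g hg
  refine MorphismProperty.universally_mono hmono _ ?_
  rwa [MorphismProperty.IsStableUnderBaseChange.universally_eq]

end WeakExistence

/-- `WeakExistence` and `ValuativeCriterion.Existence` are the same property. -/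
lemma weakExistence_eq : WeakExistence.{u} = ValuativeCriterion.Existence := by
  ext X Y f
  exact ⟨WeakExistence.existence, weakExistence_of_existence⟩

/-- The weak valuative criterion for universally closed morphisms: it is enough to find lifts of
valuative squares after enlarging the valuation ring. -/
theorem universallyClosed_of_weakExistence (f : X ⟶ Y) [QuasiCompact f] (H : WeakExistence f) :
    UniversallyClosed f :=
  UniversallyClosed.of_valuativeCriterion f H.existence

/-- Every valuative square is dominated by a valuative square whose fraction field is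
algebraically closed (an algebraic closure of the original fraction field, with any valuation
ring of it dominating the original valuation ring). -/
lemma exists_dominates_algClosed {f : X ⟶ Y} (S : ValuativeCommSq f) :
    ∃ S' : ValuativeCommSq f, Dominates S' S ∧ IsAlgClosed S'.K := by
  let K' := AlgebraicClosure S.K
  let g : S.R →+* K' := (algebraMap S.K K').comp (algebraMap S.R S.K)
  obtain ⟨A, hA, hA_local⟩ := exists_factor_valuationRing g
  let φ : S.R →+* A := g.codRestrict A.toSubring hA
  let ψ : S.K →+* K' := algebraMap S.K K'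
  have hcomm : (algebraMap A K').comp φ = ψ.comp (algebraMap S.R S.K) := by
    ext a
    rfl
  have hcomm' : Spec.map (CommRingCat.ofHom (algebraMap A K')) ≫
      Spec.map (CommRingCat.ofHom φ) =
      Spec.map (CommRingCat.ofHom ψ) ≫ Spec.map (CommRingCat.ofHom (algebraMap S.R S.K)) := by
    rw [← Spec.map_comp, ← Spec.map_comp, ← CommRingCat.ofHom_comp, ← CommRingCat.ofHom_comp,
      hcomm]
  let S' : ValuativeCommSq f :=
  { R := A
    K := K'
    i₁ := Spec.map (CommRingCat.ofHom ψ) ≫ S.i₁
    i₂ := Spec.map (CommRingCat.ofHom φ) ≫ S.i₂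
    commSq := ⟨by rw [Category.assoc, S.commSq.w, reassoc_of% hcomm']⟩ }
  exact ⟨S', ⟨φ, ψ, hA_local, hcomm, rfl, rfl⟩, inferInstanceAs (IsAlgClosed (AlgebraicClosure S.K))⟩

/-- To check weak existence it suffices to lift the valuative squares whose fraction field is
algebraically closed. -/
theorem weakExistence_of_algClosed_lift {f : X ⟶ Y}
    (h : ∀ S : ValuativeCommSq f, IsAlgClosed S.K → S.commSq.HasLift) : WeakExistence f := by
  intro S
  obtain ⟨S', hdom, hK⟩ := exists_dominates_algClosed S
  exact ⟨S', hdom, h S' hK⟩

/-- To check the existence part of the valuative criterion it suffices to lift the valuative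
squares whose fraction field is algebraically closed. -/
theorem existence_of_algClosed_lift {f : X ⟶ Y}
    (h : ∀ S : ValuativeCommSq f, IsAlgClosed S.K → S.commSq.HasLift) :
    ValuativeCriterion.Existence f :=
  (weakExistence_of_algClosed_lift h).existence

/-- **Weak valuative criterion, consumer form**: a quasi-compact morphism is universally closed as
soon as every valuative square whose fraction field is algebraically closed has a lift. -/
theorem universallyClosed_of_algClosed_lift (f : X ⟶ Y) [QuasiCompact f]
    (h : ∀ S : ValuativeCommSq f, IsAlgClosed S.K → S.commSq.HasLift) : UniversallyClosed f :=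
  universallyClosed_of_weakExistence f (weakExistence_of_algClosed_lift h)

end Fermat.Agent.S25.helper784
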