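import Mathlib
import Fermat.Agent.S25.helper7939_TildeBaseChange

set_option autoImplicit false

universe u

open CategoryTheory CategoryTheory.Limits AlgebraicGeometry Opposite

namespace Fermat.Agent.S25.helper7939

noncomputable section

variable (X : Scheme.{u})

/-- Global sections of a sheaf of modules on an arbitrary scheme, as a module over `Γ(X, ⊤)`. -/
def ΓFunctor : X.Modules ⥤ ModuleCat Γ(X, ⊤) :=
  Scheme.Modules.pushforward X.toSpecΓ ⋙ moduleSpecΓFunctor (R := Γ(X, ⊤))

/-- The left adjoint of global sections: `N ↦ N ⊗ 𝒪_X`. -/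
def fromΓ : ModuleCat Γ(X, ⊤) ⥤ X.Modules :=
  tilde.functor Γ(X, ⊤) ⋙ Scheme.Modules.pullback X.toSpecΓ

/-- `fromΓ X ⊣ ΓFunctor X`. -/
def fromΓAdj : fromΓ X ⊣ ΓFunctor X :=
  (tilde.adjunction (R := Γ(X, ⊤))).comp (Scheme.Modules.pullbackPushforwardAdjunction X.toSpecΓ)

variable {X} {Y : Scheme.{u}} (f : Y ⟶ X)

/-- Global sections of a pushforward are global sections, with restricted scalars. -/
def pushforwardCompΓFunctorIso :
    Scheme.Modules.pushforward f ⋙ ΓFunctor X ≅
      ΓFunctor Y ⋙ ModuleCat.restrictScalars f.appTop.hom :=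
  (Functor.associator _ _ _).symm ≪≫
    Functor.isoWhiskerRight
      (Scheme.Modules.pushforwardComp f X.toSpecΓ ≪≫
        Scheme.Modules.pushforwardCongr (Scheme.toSpecΓ_naturality f) ≪≫
        (Scheme.Modules.pushforwardComp Y.toSpecΓ (Spec.map f.appTop)).symm)
      (moduleSpecΓFunctor (R := Γ(X, ⊤))) ≪≫
    Functor.associator _ _ _ ≪≫
    Functor.isoWhiskerLeft _ (pushforwardCompΓIso f.appTop) ≪≫
    (Functor.associator _ _ _).symm

/-- **Base change for `fromΓ`** on arbitrary schemes. -/
def fromΓPullbackIso :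
    fromΓ X ⋙ Scheme.Modules.pullback f ≅
      ModuleCat.extendScalars f.appTop.hom ⋙ fromΓ Y :=
  ((conjugateIsoEquiv ((fromΓAdj X).comp (Scheme.Modules.pullbackPushforwardAdjunction f))
    ((ModuleCat.extendRestrictScalarsAdj f.appTop.hom).comp (fromΓAdj Y))).symm
      (pushforwardCompΓFunctorIso f)).symm

/-- The canonical base-change map `Γ(Y, ⊤) ⊗ Γ(X, M) ⟶ Γ(Y, f^* M)`, natural in `M`:
the mate of `pushforwardCompΓFunctorIso` for the adjunctions `f^* ⊣ f_*` and
`extendScalars ⊣ restrictScalars`. -/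
def ΓPullbackMap :
    ΓFunctor X ⋙ ModuleCat.extendScalars f.appTop.hom ⟶
      Scheme.Modules.pullback f ⋙ ΓFunctor Y :=
  ((mateEquiv (Scheme.Modules.pullbackPushforwardAdjunction f)
    (ModuleCat.extendRestrictScalarsAdj f.appTop.hom)).symm
      (TwoSquare.mk _ _ _ _ (pushforwardCompΓFunctorIso f).hom)).natTrans

/-- The canonical base-change map is also the mate of the inverse of `fromΓPullbackIso`
for the adjunctions `fromΓ ⊣ Γ`. -/
lemma ΓPullbackMap_eq :
    ΓPullbackMap f =
      (mateEquiv (fromΓAdj X) (fromΓAdj Y)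
        (TwoSquare.mk _ _ _ _ (fromΓPullbackIso f).inv)).natTrans := by
  have h := iterated_mateEquiv_conjugateEquiv (fromΓAdj X) (fromΓAdj Y)
    (ModuleCat.extendRestrictScalarsAdj f.appTop.hom)
    (Scheme.Modules.pullbackPushforwardAdjunction f)
    (TwoSquare.mk _ _ _ _ (fromΓPullbackIso f).inv)
  have h2 : (conjugateEquiv ((fromΓAdj X).comp (Scheme.Modules.pullbackPushforwardAdjunction f))
      ((ModuleCat.extendRestrictScalarsAdj f.appTop.hom).comp (fromΓAdj Y)))
        (fromΓPullbackIso f).inv = (pushforwardCompΓFunctorIso f).hom := by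
    simp [fromΓPullbackIso, conjugateIsoEquiv]
  unfold ΓPullbackMap
  congr 1
  rw [Equiv.symm_apply_eq]
  exact (h.trans h2).symm

section Affine

/-- Pushforward along an isomorphism of schemes is an equivalence of categories. -/
def pushforwardEquivOfIsIso {X Y : Scheme.{u}} (e : Y ⟶ X) [IsIso e] : Y.Modules ≌ X.Modules :=
  CategoryTheory.Equivalence.mk (Scheme.Modules.pushforward e) (Scheme.Modules.pushforward (inv e))
    ((Scheme.Modules.pushforwardId Y).symm ≪≫
      Scheme.Modules.pushforwardCongr (IsIso.hom_inv_id e).symm ≪≫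
      (Scheme.Modules.pushforwardComp e (inv e)).symm)
    (Scheme.Modules.pushforwardComp (inv e) e ≪≫
      Scheme.Modules.pushforwardCongr (IsIso.inv_hom_id e) ≪≫
      Scheme.Modules.pushforwardId X)

instance isEquivalence_pushforward_of_isIso {X Y : Scheme.{u}} (e : Y ⟶ X) [IsIso e] :
    (Scheme.Modules.pushforward e).IsEquivalence :=
  (pushforwardEquivOfIsIso e).isEquivalence_functor

instance isEquivalence_pullback_of_isIso {X Y : Scheme.{u}} (e : Y ⟶ X) [IsIso e] :
    (Scheme.Modules.pullback e).IsEquivalence :=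
  (Scheme.Modules.pullbackPushforwardAdjunction e).isEquivalence_left_of_isEquivalence_right

/-- Pushforward along an isomorphism is restriction along its inverse. -/
def restrictInvIsoPushforward {X Y : Scheme.{u}} (e : Y ⟶ X) [IsIso e] :
    Scheme.Modules.restrictFunctor (inv e) ≅ Scheme.Modules.pushforward e :=
  (Scheme.Modules.restrictAdjunction (inv e)).leftAdjointUniq
    (pushforwardEquivOfIsIso e).toAdjunction

instance isQuasicoherent_pushforward_of_isIso {X Y : Scheme.{u}} (e : Y ⟶ X) [IsIso e]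
    (M : Y.Modules) [M.IsQuasicoherent] :
    ((Scheme.Modules.pushforward e).obj M).IsQuasicoherent :=
  (SheafOfModules.isQuasicoherent X.ringCatSheaf).prop_of_iso
    ((restrictInvIsoPushforward e).app M)
    (inferInstanceAs ((Scheme.Modules.restrictFunctor (inv e)).obj M).IsQuasicoherent)

variable (X : Scheme.{u}) [IsAffine X]

instance : (fromΓ X).Full := by unfold fromΓ; infer_instance

instance : (fromΓ X).Faithful := by unfold fromΓ; infer_instance

/-- On an affine scheme, quasi-coherent modules are generated by their global sections. -/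
instance isIso_fromΓAdj_counit_app (M : X.Modules) [M.IsQuasicoherent] :
    IsIso ((fromΓAdj X).counit.app M) := by
  rw [(fromΓAdj X).isIso_counit_app_iff_mem_essImage]
  let M' := (Scheme.Modules.pushforward X.toSpecΓ).obj M
  have hq : M'.IsQuasicoherent := isQuasicoherent_pushforward_of_isIso X.toSpecΓ M
  have h1 : IsIso M'.fromTildeΓ := Scheme.Modules.isIso_fromTildeΓ_of_isQuasicoherent M'
  refine ⟨(moduleSpecΓFunctor (R := Γ(X, ⊤))).obj M', ⟨?_⟩⟩
  exact (Scheme.Modules.pullback X.toSpecΓ).mapIso (@asIso _ _ _ _ M'.fromTildeΓ h1) ≪≫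
    asIso ((Scheme.Modules.pullbackPushforwardAdjunction X.toSpecΓ).counit.app M)

end Affine

/-- Component formula for a mate. -/
lemma mateEquiv_natTrans_app {C D E F : Type*} [Category C] [Category D] [Category E]
    [Category F] {G : C ⥤ E} {H : D ⥤ F} {L₁ : C ⥤ D} {R₁ : D ⥤ C} {L₂ : E ⥤ F} {R₂ : F ⥤ E}
    (adj₁ : L₁ ⊣ R₁) (adj₂ : L₂ ⊣ R₂) (α : G ⋙ L₂ ⟶ L₁ ⋙ H) (d : D) :
    (mateEquiv adj₁ adj₂ (TwoSquare.mk _ _ _ _ α)).natTrans.app d =
      adj₂.unit.app (G.obj (R₁.obj d)) ≫ R₂.map (α.app (R₁.obj d)) ≫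
        R₂.map (H.map (adj₁.counit.app d)) := by
  simp [mateEquiv]

/-- **Affine base change for sections**: for a morphism `f : Y ⟶ X` of affine schemes and a
quasi-coherent module `M` on `X`, the canonical map `Γ(Y, ⊤) ⊗[Γ(X, ⊤)] Γ(X, M) ⟶ Γ(Y, f^* M)`
is an isomorphism. -/
instance isIso_ΓPullbackMap_app [IsAffine X] [IsAffine Y] (M : X.Modules) [M.IsQuasicoherent] :
    IsIso ((ΓPullbackMap f).app M) := by
  rw [ΓPullbackMap_eq, mateEquiv_natTrans_app]
  infer_instance

end

end Fermat.Agent.S25.helper7939
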