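import Mathlib
import Fermat.Agent.S25.helper7973_TensorDomain
import Fermat.Agent.S25.helper5597_DivisorIdealCurve

/-!
# Factorisation into point ideals (S25, sub-lemma PF of leaf U9a)

* Generic part (Mathlib only): `K` an algebraically closed field, `A` a finitely generated
  `K`-algebra all of whose maximal ideals are invertible modules, `N` an invertible `A`-module and
  `Λ ≤ N` a submodule of finite `K`-codimension `d`.  Then `Λ = (𝔪₁ ⋯ 𝔪_d) • N` for kernels `𝔪ᵢ`
  of `K`-points of `A` (`exists_list_ker_prod_smul_top`).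
* Curve part: for a `CurveDatum` over an algebraically closed field `k` and an algebraically
  closed field `K` over `k`, every submodule of finite codimension `d` of an invertible
  `D.A₀ K`-module `N` is `(∏ ptIdeal pᵢ) • N` for `d` points `pᵢ : D.R₀ →ₐ[k] K`
  (`exists_points_smul_top_eq`), in particular every ideal of finite codimension of `D.A₀ K` is a
  product of point ideals (`exists_points_prod_eq`).
-/

set_option autoImplicit false

namespace Fermat.Agent.S25.helper7973

open TensorProduct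

universe u v w

section Generic

variable {K : Type u} [Field K] {A : Type v} [CommRing A] [Algebra K A]

/-- An invertible module modulo an ideal of finite codimension has the codimension of the
ideal. -/
theorem finite_and_finrank_quotient_smul_top (N : Type w) [AddCommGroup N] [Module A N]
    [Module K N] [IsScalarTower K A N] [Module.Invertible A N] (I : Ideal A)
    [Module.Finite K (A ⧸ I)] :
    Module.Finite K (N ⧸ (I • ⊤ : Submodule A N)) ∧
      Module.finrank K (N ⧸ (I • ⊤ : Submodule A N)) = Module.finrank K (A ⧸ I) := by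
  have hart : IsArtinianRing (A ⧸ I) := IsArtinianRing.of_finite K (A ⧸ I)
  have hfree : Module.Free (A ⧸ I) ((A ⧸ I) ⊗[A] N) := inferInstance
  obtain ⟨e₂⟩ := Module.Invertible.free_iff_linearEquiv.mp hfree
  have e₁ : ((A ⧸ I) ⊗[A] N) ≃ₗ[A] N ⧸ (I • ⊤ : Submodule A N) :=
    TensorProduct.quotTensorEquivQuotSMul N I
  let e : (A ⧸ I) ≃ₗ[K] N ⧸ (I • ⊤ : Submodule A N) :=
    (e₂.restrictScalars K).symm.trans (e₁.restrictScalars K)
  exact ⟨Module.Finite.equiv e, e.finrank_eq.symm⟩

/-- A product of an invertible ideal with an invertible module is invertible. -/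
theorem invertible_smul_top' (I : Ideal A) (N : Type w) [AddCommGroup N] [Module A N]
    [Module.Invertible A I] [Module.Invertible A N] :
    Module.Invertible A (I • ⊤ : Submodule A N) := by
  let f : I ⊗[A] N →ₗ[A] N := (TensorProduct.lid A N).toLinearMap ∘ₗ LinearMap.rTensor N I.subtype
  have hf : Function.Injective f :=
    (TensorProduct.lid A N).injective.comp
      (Module.Flat.rTensor_preserves_injective_linearMap I.subtype Subtype.val_injective)
  have hr : LinearMap.range f = (I • ⊤ : Submodule A N) := by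
    apply le_antisymm
    · rintro _ ⟨t, rfl⟩
      induction t with
      | zero => simp
      | tmul i m =>
        have : f (i ⊗ₜ m) = (i : A) • m := by simp [f]
        rw [this]
        exact Submodule.smul_mem_smul i.2 Submodule.mem_top
      | add a b ha hb =>
        rw [map_add]
        exact Submodule.add_mem _ ha hb
    · rw [Submodule.smul_le]
      intro r hr m _
      exact ⟨(⟨r, hr⟩ : I) ⊗ₜ m, by simp [f]⟩
  exact Module.Invertible.congr
    ((LinearEquiv.ofInjective f hf).trans (LinearEquiv.ofEq _ _ hr))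

/-- Nakayama: a proper submodule of a finitely generated module is contained, modulo some
maximal ideal, in a proper submodule. -/
theorem exists_maximal_sup_smul_top_ne_top {N : Type w} [AddCommGroup N] [Module A N]
    [Module.Finite A N] (Λ : Submodule A N) (hΛ : Λ ≠ ⊤) :
    ∃ 𝔪 : Ideal A, 𝔪.IsMaximal ∧ Λ ⊔ (𝔪 • ⊤ : Submodule A N) ≠ ⊤ := by
  obtain ⟨n, hn⟩ : ∃ n : N, n ∉ Λ := by
    by_contra h
    exact hΛ (eq_top_iff.mpr fun x _ => by_contra fun hx => h ⟨x, hx⟩)
  let J : Ideal A := Λ.comap (LinearMap.toSpanSingleton A N n)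
  have hJ : J ≠ ⊤ := by
    intro h
    have h1 : (1 : A) ∈ J := h ▸ Submodule.mem_top
    have h2 : (1 : A) • n ∈ Λ := h1
    rw [one_smul] at h2
    exact hn h2
  obtain ⟨𝔪, h𝔪, hJ𝔪⟩ := Ideal.exists_le_maximal J hJ
  refine ⟨𝔪, h𝔪, fun htop => ?_⟩
  have hfg : (⊤ : Submodule A (N ⧸ Λ)).FG := Module.finite_def.mp inferInstance
  have hle : (⊤ : Submodule A (N ⧸ Λ)) ≤ 𝔪 • (⊤ : Submodule A (N ⧸ Λ)) := by
    have h1 : Submodule.map Λ.mkQ (Λ ⊔ (𝔪 • ⊤ : Submodule A N)) = ⊤ := by
      rw [htop, Submodule.map_top, Submodule.range_mkQ]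
    rw [Submodule.map_sup, Submodule.map_smul'', Submodule.map_top, Submodule.range_mkQ] at h1
    have h2 : Submodule.map Λ.mkQ Λ = ⊥ := Submodule.mkQ_map_self Λ
    rw [h2, bot_sup_eq] at h1
    rw [h1]
  obtain ⟨r, hr1, hr0⟩ :=
    Submodule.exists_sub_one_mem_and_smul_eq_zero_of_fg_of_le_smul 𝔪 ⊤ hfg hle
  have h3 : r • Λ.mkQ n = 0 := hr0 _ Submodule.mem_top
  have h4 : r • n ∈ Λ := by
    rw [← map_smul] at h3
    exact (Submodule.Quotient.mk_eq_zero Λ).mp h3
  have h5 : r ∈ 𝔪 := hJ𝔪 h4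
  have h6 : (1 : A) ∈ 𝔪 := by
    have := 𝔪.sub_mem h5 hr1
    simpa using this
  exact h𝔪.ne_top ((Ideal.eq_top_iff_one 𝔪).mpr h6)

/-- Codimension is additive along `Λ ≤ P ≤ N`. -/
theorem finrank_quotient_eq_add {N : Type w} [AddCommGroup N] [Module A N] [Module K N]
    [IsScalarTower K A N] (Λ P : Submodule A N) (h : Λ ≤ P) [Module.Finite K (N ⧸ Λ)] :
    Module.Finite K (P ⧸ Λ.comap P.subtype) ∧ Module.Finite K (N ⧸ P) ∧
      Module.finrank K (N ⧸ Λ) =
        Module.finrank K (N ⧸ P) + Module.finrank K (P ⧸ Λ.comap P.subtype) := by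
  let f : (P ⧸ Λ.comap P.subtype) →ₗ[A] (N ⧸ Λ) :=
    Submodule.mapQ (Λ.comap P.subtype) Λ P.subtype le_rfl
  let g : (N ⧸ Λ) →ₗ[A] (N ⧸ P) := Submodule.mapQ Λ P LinearMap.id h
  have hf : Function.Injective f := by
    rw [← LinearMap.ker_eq_bot, LinearMap.ker_eq_bot']
    intro z hz
    obtain ⟨x, rfl⟩ := Submodule.mkQ_surjective _ z
    have h1 : Λ.mkQ (P.subtype x) = 0 := hz
    have h2 : P.subtype x ∈ Λ := (Submodule.Quotient.mk_eq_zero Λ).mp h1
    exact (Submodule.Quotient.mk_eq_zero _).mpr h2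
  have hg : Function.Surjective g := by
    intro z
    obtain ⟨x, rfl⟩ := Submodule.mkQ_surjective _ z
    exact ⟨Λ.mkQ x, rfl⟩
  have hker : LinearMap.ker g = LinearMap.range f := by
    ext z
    obtain ⟨x, rfl⟩ := Submodule.mkQ_surjective _ z
    constructor
    · intro hz
      have h1 : P.mkQ x = 0 := hz
      have h2 : x ∈ P := (Submodule.Quotient.mk_eq_zero P).mp h1
      exact ⟨(Λ.comap P.subtype).mkQ ⟨x, h2⟩, rfl⟩
    · rintro ⟨w, hw⟩
      obtain ⟨y, rfl⟩ := Submodule.mkQ_surjective _ w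
      have h1 : Λ.mkQ (y : N) = Λ.mkQ x := hw
      have h2 : P.mkQ (y : N) = P.mkQ x := congrArg g h1
      have h3 : P.mkQ (y : N) = 0 := (Submodule.Quotient.mk_eq_zero P).mpr y.2
      rw [LinearMap.mem_ker]
      change P.mkQ x = 0
      rw [← h2, h3]
  let fK : (P ⧸ Λ.comap P.subtype) →ₗ[K] (N ⧸ Λ) := f.restrictScalars K
  let gK : (N ⧸ Λ) →ₗ[K] (N ⧸ P) := g.restrictScalars K
  have hfin1 : Module.Finite K (P ⧸ Λ.comap P.subtype) := Module.Finite.of_injective fK hf
  have hfin2 : Module.Finite K (N ⧸ P) := Module.Finite.of_surjective gK hg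
  refine ⟨hfin1, hfin2, ?_⟩
  have h1 := LinearMap.finrank_range_add_finrank_ker gK
  have h2 : Module.finrank K (LinearMap.range gK) = Module.finrank K (N ⧸ P) := by
    have hr : LinearMap.range gK = ⊤ := LinearMap.range_eq_top.mpr hg
    rw [hr, finrank_top]
  have h3 : Module.finrank K (LinearMap.ker gK) =
      Module.finrank K (P ⧸ Λ.comap P.subtype) := by
    have h4 : LinearMap.ker gK = LinearMap.range fK := by
      ext z
      have h5 : z ∈ LinearMap.ker g ↔ z ∈ LinearMap.range f := by rw [hker]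
      exact h5
    rw [h4]
    exact LinearMap.finrank_range_of_inj hf
  omega

/-- **Factorisation into kernels of points** (module form).  `K` algebraically closed, `A` a
finitely generated `K`-algebra whose maximal ideals are invertible, `N` an invertible
`A`-module, `Λ` a submodule of finite codimension `d`: then `Λ = (𝔪₁ ⋯ 𝔪_d) • N` for kernels
`𝔪ᵢ` of `K`-points of `A`. -/
theorem exists_list_ker_prod_smul_top_aux [IsAlgClosed K] [Algebra.FiniteType K A]
    (hinv : ∀ 𝔪 : Ideal A, 𝔪.IsMaximal → Module.Invertible A 𝔪) (d : ℕ) :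
    ∀ (N : Type w) [AddCommGroup N] [Module A N] [Module K N] [IsScalarTower K A N]
      [Module.Invertible A N] (Λ : Submodule A N) [Module.Finite K (N ⧸ Λ)],
      Module.finrank K (N ⧸ Λ) = d →
      ∃ L : List (A →ₐ[K] K), L.length = d ∧
        Λ = ((L.map fun q : A →ₐ[K] K => RingHom.ker q).prod • ⊤ : Submodule A N) := by
  induction d with
  | zero =>
    intro N _ _ _ _ _ Λ _ h0
    refine ⟨[], rfl, ?_⟩
    have hs : Subsingleton (N ⧸ Λ) := Module.finrank_zero_iff.mp h0
    have hΛ : Λ = ⊤ := Submodule.Quotient.subsingleton_iff.mp hs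
    rw [hΛ, List.map_nil, List.prod_nil, Ideal.one_eq_top, Submodule.top_smul]
  | succ d ih =>
    intro N _ _ _ _ _ Λ _ hd
    have hΛ : Λ ≠ ⊤ := by
      intro hΛ
      have hs : Subsingleton (N ⧸ Λ) := Submodule.Quotient.subsingleton_iff.mpr hΛ
      rw [Module.finrank_zero_of_subsingleton] at hd
      omega
    obtain ⟨𝔪, h𝔪, hne⟩ := exists_maximal_sup_smul_top_ne_top Λ hΛ
    obtain ⟨q, hq⟩ := exists_algHom_ker_eq_of_isMaximal (k := K) 𝔪 (hm := h𝔪)
    have hq' : RingHom.ker q = 𝔪 := by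
      rw [← hq]
      rfl
    subst hq'
    have hqs : Function.Surjective q := fun c => ⟨algebraMap K A c, by simp⟩
    let e : (A ⧸ RingHom.ker q) ≃ₗ[K] K :=
      (Ideal.quotientKerAlgEquivOfSurjective hqs).toLinearEquiv
    have hfin𝔪 : Module.Finite K (A ⧸ RingHom.ker q) := Module.Finite.equiv e.symm
    have h1 : Module.finrank K (A ⧸ RingHom.ker q) = 1 := by
      rw [e.finrank_eq, Module.finrank_self]
    obtain ⟨hfinP, hrkP⟩ := finite_and_finrank_quotient_smul_top (K := K) N (RingHom.ker q)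
    -- `Λ` is contained in `𝔪 • N`
    have hle : Λ ≤ (RingHom.ker q • ⊤ : Submodule A N) := by
      let P : Submodule A N := RingHom.ker q • ⊤
      let W : Submodule K (N ⧸ P) := (Submodule.map P.mkQ (Λ ⊔ P)).restrictScalars K
      have hW : W ≠ ⊤ := by
        intro hW
        apply hne
        have h2 : Submodule.map P.mkQ (Λ ⊔ P) = ⊤ :=
          (Submodule.restrictScalars_eq_top_iff K A (N ⧸ P)).mp hW
        rw [Submodule.map_mkQ_eq_top] at h2
        exact (sup_eq_right.mpr le_sup_right).symm.trans h2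
      have hlt : Module.finrank K W < Module.finrank K (N ⧸ P) := Submodule.finrank_lt hW
      rw [hrkP, h1] at hlt
      have hW0 : W = ⊥ := Submodule.finrank_eq_zero.mp (by omega)
      intro z hz
      have hz' : P.mkQ z ∈ W := Submodule.mem_map_of_mem (Submodule.mem_sup_left hz)
      rw [hW0, Submodule.mem_bot] at hz'
      exact (Submodule.Quotient.mk_eq_zero P).mp hz'
    have hinv𝔪 : Module.Invertible A (RingHom.ker q) := hinv _ h𝔪
    have hinvP : Module.Invertible A (RingHom.ker q • ⊤ : Submodule A N) :=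
      invertible_smul_top' (RingHom.ker q) N
    obtain ⟨hfin', -, hadd⟩ :=
      finrank_quotient_eq_add (K := K) Λ (RingHom.ker q • ⊤ : Submodule A N) hle
    have hd' : Module.finrank K
        ((RingHom.ker q • ⊤ : Submodule A N) ⧸
          Λ.comap (RingHom.ker q • ⊤ : Submodule A N).subtype) = d := by
      rw [hd, hrkP, h1] at hadd
      omega
    obtain ⟨L, hL, hLeq⟩ := ih (RingHom.ker q • ⊤ : Submodule A N)
      (Λ.comap (RingHom.ker q • ⊤ : Submodule A N).subtype) hd'
    refine ⟨q :: L, by simp [hL], ?_⟩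
    have h2 : Λ = Submodule.map (RingHom.ker q • ⊤ : Submodule A N).subtype
        (Λ.comap (RingHom.ker q • ⊤ : Submodule A N).subtype) := by
      rw [Submodule.map_comap_subtype, inf_eq_right.mpr hle]
    rw [h2, hLeq, Submodule.map_smul'', Submodule.map_subtype_top, List.map_cons,
      List.prod_cons, mul_comm, Submodule.mul_smul]

/-- **Factorisation into kernels of points** (module form). -/
theorem exists_list_ker_prod_smul_top [IsAlgClosed K] [Algebra.FiniteType K A]
    (hinv : ∀ 𝔪 : Ideal A, 𝔪.IsMaximal → Module.Invertible A 𝔪)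
    (N : Type w) [AddCommGroup N] [Module A N] [Module K N] [IsScalarTower K A N]
    [Module.Invertible A N] (Λ : Submodule A N) [Module.Finite K (N ⧸ Λ)] :
    ∃ L : List (A →ₐ[K] K), L.length = Module.finrank K (N ⧸ Λ) ∧
      Λ = ((L.map fun q : A →ₐ[K] K => RingHom.ker q).prod • ⊤ : Submodule A N) :=
  exists_list_ker_prod_smul_top_aux hinv _ N Λ rfl

end Generic

section Curve

open Fermat.Agent.S25.helper1705 Fermat.Agent.S25.helper2945

variable {k : Type u} [Field k] (D : CurveDatum k) (K : Type u) [Field K] [Algebra k K]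

/-- Evaluation of the functions on chart 0 of `C_K` at the `K`-point `p`:
`r ⊗ b ↦ p r * b`, as a `K`-algebra map (for the right `K`-algebra structure of `D.A₀ K`). -/
noncomputable def evPt (p : D.R₀ →ₐ[k] K) : D.A₀ K →ₐ[K] K :=
  { (Algebra.TensorProduct.lift p (AlgHom.id k K) (fun _ _ => Commute.all _ _) :
      D.A₀ K →ₐ[k] K).toRingHom with
    commutes' := fun b => by
      change (Algebra.TensorProduct.lift p (AlgHom.id k K) (fun _ _ => Commute.all _ _) :
        D.A₀ K →ₐ[k] K) ((1 : D.R₀) ⊗ₜ[k] b) = b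
      simp }

@[simp] theorem evPt_tmul (p : D.R₀ →ₐ[k] K) (r : D.R₀) (b : K) :
    evPt D K p (r ⊗ₜ[k] b) = p r * b := by
  change (Algebra.TensorProduct.lift p (AlgHom.id k K) (fun _ _ => Commute.all _ _) :
    D.A₀ K →ₐ[k] K) (r ⊗ₜ[k] b) = p r * b
  simp

theorem evPt_apply (p : D.R₀ →ₐ[k] K) (a : D.A₀ K) :
    evPt D K p a = (Algebra.TensorProduct.lift p (AlgHom.id k K) (fun _ _ => Commute.all _ _) :
      D.A₀ K →ₐ[k] K) a := rfl

theorem evPt_surjective (p : D.R₀ →ₐ[k] K) : Function.Surjective (evPt D K p) :=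
  fun b => ⟨(1 : D.R₀) ⊗ₜ[k] b, by simp⟩

/-- The ideal of the `K`-point `p` of chart 0 of `C_K`. -/
noncomputable def ptIdeal (p : D.R₀ →ₐ[k] K) : Ideal (D.A₀ K) := RingHom.ker (evPt D K p)

theorem mem_ptIdeal (p : D.R₀ →ₐ[k] K) (a : D.A₀ K) : a ∈ ptIdeal D K p ↔ evPt D K p a = 0 :=
  Iff.rfl

theorem ptIdeal_isMaximal (p : D.R₀ →ₐ[k] K) : (ptIdeal D K p).IsMaximal :=
  RingHom.ker_isMaximal_of_surjective _ (evPt_surjective D K p)

/-- The point of chart 0 underlying a `K`-algebra map `D.A₀ K → K`. -/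
noncomputable def pointOf (q : D.A₀ K →ₐ[K] K) : D.R₀ →ₐ[k] K :=
  (q.restrictScalars k).comp (Algebra.TensorProduct.includeLeft : D.R₀ →ₐ[k] D.A₀ K)

theorem pointOf_apply (q : D.A₀ K →ₐ[K] K) (r : D.R₀) :
    pointOf D K q r = q (r ⊗ₜ[k] (1 : K)) := rfl

theorem evPt_pointOf (q : D.A₀ K →ₐ[K] K) : evPt D K (pointOf D K q) = q := by
  ext a
  induction a using TensorProduct.induction_on with
  | zero => simp
  | tmul r b =>
    rw [evPt_tmul, pointOf_apply]
    have h1 : (r ⊗ₜ[k] b : D.A₀ K) = (r ⊗ₜ[k] (1 : K)) * algebraMap K (D.A₀ K) b := by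
      rw [algebraMap_B_A₀, Algebra.TensorProduct.tmul_mul_tmul, mul_one, one_mul]
    rw [h1, map_mul, AlgHom.commutes]
    rfl
  | add a b ha hb => rw [map_add, map_add, ha, hb]

theorem pointOf_evPt (p : D.R₀ →ₐ[k] K) : pointOf D K (evPt D K p) = p := by
  ext r
  rw [pointOf_apply, evPt_tmul, mul_one]

theorem ptIdeal_pointOf (q : D.A₀ K →ₐ[K] K) : ptIdeal D K (pointOf D K q) = RingHom.ker q := by
  rw [ptIdeal, evPt_pointOf]

/-- `D.A₀ K` is a finitely generated `K`-algebra. -/
theorem finiteType_A₀ : Algebra.FiniteType K (D.A₀ K) := by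
  have h0 : Algebra.FiniteType k D.R₀ := helper1800.finiteType₀ D
  let f : K ⊗[k] D.R₀ →ₐ[K] D.A₀ K :=
    { (Algebra.TensorProduct.comm k K D.R₀ : K ⊗[k] D.R₀ →ₐ[k] D.R₀ ⊗[k] K).toRingHom with
      commutes' := fun b => by
        change Algebra.TensorProduct.comm k K D.R₀ (b ⊗ₜ[k] (1 : D.R₀)) = (1 : D.R₀) ⊗ₜ[k] b
        simp }
  have hf : Function.Surjective f := (Algebra.TensorProduct.comm k K D.R₀).surjective
  exact Algebra.FiniteType.of_surjective f hf

/-- Every maximal ideal of `D.A₀ K` is the ideal of a `K`-point (`K` algebraically closed). -/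
theorem exists_ptIdeal_eq_of_isMaximal [IsAlgClosed K] (𝔪 : Ideal (D.A₀ K)) (h𝔪 : 𝔪.IsMaximal) :
    ∃ p : D.R₀ →ₐ[k] K, 𝔪 = ptIdeal D K p := by
  have := finiteType_A₀ D K
  obtain ⟨q, hq⟩ := exists_algHom_ker_eq_of_isMaximal (k := K) 𝔪 (hm := h𝔪)
  refine ⟨pointOf D K q, ?_⟩
  rw [ptIdeal_pointOf, ← hq]
  rfl

variable [IsAlgClosed k]

/-- The ideal of a point is an invertible module. -/
theorem invertible_ptIdeal (p : D.R₀ →ₐ[k] K) : Module.Invertible (D.A₀ K) (ptIdeal D K p) :=
  helper5597.ker_invertible₀ D (evPt D K p) (evPt_surjective D K p)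

/-- Every maximal ideal of `D.A₀ K` is an invertible module (`K` algebraically closed). -/
theorem invertible_of_isMaximal [IsAlgClosed K] (𝔪 : Ideal (D.A₀ K)) (h𝔪 : 𝔪.IsMaximal) :
    Module.Invertible (D.A₀ K) 𝔪 := by
  obtain ⟨p, rfl⟩ := exists_ptIdeal_eq_of_isMaximal D K 𝔪 h𝔪
  exact invertible_ptIdeal D K p

/-- **Factorisation into point ideals, module form.**  `K` algebraically closed over `k`, `N` an
invertible `D.A₀ K`-module (e.g. `G.M₀` for a glue datum `G` over `K`), `Λ ≤ N` a submodule of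
finite `K`-codimension `d`.  Then `Λ = (𝔪_{p₁} ⋯ 𝔪_{p_d}) • N` for `d` points `pᵢ` of chart 0. -/
theorem exists_points_smul_top_eq [IsAlgClosed K] (N : Type w) [AddCommGroup N]
    [Module (D.A₀ K) N] [Module K N] [IsScalarTower K (D.A₀ K) N] [Module.Invertible (D.A₀ K) N]
    (Λ : Submodule (D.A₀ K) N) [Module.Finite K (N ⧸ Λ)] :
    ∃ L : List (D.R₀ →ₐ[k] K), L.length = Module.finrank K (N ⧸ Λ) ∧
      Λ = ((L.map (ptIdeal D K)).prod • ⊤ : Submodule (D.A₀ K) N) := by
  have := finiteType_A₀ D K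
  obtain ⟨L, hL, hΛ⟩ := exists_list_ker_prod_smul_top (K := K) (invertible_of_isMaximal D K) N Λ
  refine ⟨L.map (pointOf D K), by rw [List.length_map, hL], ?_⟩
  rw [List.map_map]
  have h : (ptIdeal D K ∘ pointOf D K) = fun q : D.A₀ K →ₐ[K] K => RingHom.ker q :=
    funext fun q => ptIdeal_pointOf D K q
  rw [h]
  exact hΛ

/-- **Factorisation into point ideals, ideal form.**  Every ideal of finite codimension `d` of
`D.A₀ K` (`K` algebraically closed over `k`) is a product of `d` point ideals. -/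
theorem exists_points_prod_eq [IsAlgClosed K] (I : Ideal (D.A₀ K))
    [Module.Finite K (D.A₀ K ⧸ I)] :
    ∃ L : List (D.R₀ →ₐ[k] K), L.length = Module.finrank K (D.A₀ K ⧸ I) ∧
      I = (L.map (ptIdeal D K)).prod := by
  obtain ⟨L, hL, hI⟩ := exists_points_smul_top_eq D K (D.A₀ K) I
  refine ⟨L, hL, ?_⟩
  rw [hI, Ideal.smul_eq_mul, Ideal.mul_top]

end Curve

end Fermat.Agent.S25.helper7973
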