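/-
S25, layer L0: generic local representability over a base — proof of `helper7579.Stmt_LRGen`.

A presheaf `F` on `Over S` (values in any universe) satisfying the elementary Zariski-sheaf
conditions and covered by a `Type u`-indexed family of charts `(X i, ξ i)` that are
monomorphisms and open, is representable by a scheme glued from the `X i` along the chart
loci, and the charts form an open cover of the representing object.
-/
import Fermat.Agent.S25.helper7579_LRSpec

set_option autoImplicit false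

universe w u

open CategoryTheory CategoryTheory.Limits AlgebraicGeometry Opposite

namespace Fermat.Agent.S25.helper8031

open Fermat.Agent.S25.helper7579

noncomputable section

variable {S : Scheme.{u}}

lemma map_comp_apply' (F : (Over S)ᵒᵖ ⥤ Type w) {A B C : Over S} (f : A ⟶ B) (g : B ⟶ C)
    (x : F.obj (op C)) : F.map (f ≫ g).op x = F.map f.op (F.map g.op x) := by
  rw [op_comp, F.map_comp]
  rfl

lemma map_id_apply' (F : (Over S)ᵒᵖ ⥤ Type w) {A : Over S} (x : F.obj (op A)) :
    F.map (𝟙 A).op x = x := by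
  rw [op_id, F.map_id]
  rfl

/-- `FromChart` for the left part of a morphism of `Over S`, phrased with morphisms of
`Over S` only. -/
lemma fromChart_iff (F : (Over S)ᵒᵖ ⥤ Type w) {ι : Type u} (X : ι → Over S)
    (ξ : ∀ i, F.obj (op (X i))) (i : ι) (T : Over S) (η : F.obj (op T)) {T' : Over S}
    (g : T' ⟶ T) :
    FromChart F X ξ i T η g.left ↔ ∃ a : T' ⟶ X i, F.map a.op (ξ i) = F.map g.op η := by
  let e : Over.mk (g.left ≫ T.hom) ≅ T' := Over.isoMk (Iso.refl _) (by simp)
  have he : overRestr T g.left = e.hom ≫ g := by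
    apply Over.OverMorphism.ext
    simp [e]
  constructor
  · rintro ⟨a, ha⟩
    refine ⟨e.inv ≫ a, ?_⟩
    rw [map_comp_apply', ha, he, map_comp_apply', ← map_comp_apply', e.inv_hom_id, map_id_apply']
  · rintro ⟨a, ha⟩
    refine ⟨e.hom ≫ a, ?_⟩
    rw [map_comp_apply', ha, he, map_comp_apply']

/-- The data of a local representability problem over `S`. -/
structure Setup (S : Scheme.{u}) : Type (max (w + 1) (u + 1)) where
  /-- the presheaf -/
  F : (Over S)ᵒᵖ ⥤ Type w
  /-- the index type of the charts -/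
  ι : Type u
  /-- the charts -/
  X : ι → Over S
  /-- the universal sections of the charts -/
  ξ : ∀ i, F.obj (op (X i))
  mono : ChartsMono F X ξ
  oc : ChartsOpenCover F X ξ

namespace Setup

variable (A : Setup.{w, u} S)

/-- The chart loci of a section. -/
def locus (T : Over S) (η : A.F.obj (op T)) : A.ι → T.left.Opens := (A.oc T η).choose

lemma locus_iff (T : Over S) (η : A.F.obj (op T)) (i : A.ι) {T' : Over S} (g : T' ⟶ T) :
    (∀ p : T'.left, g.left.base p ∈ A.locus T η i) ↔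
      ∃ a : T' ⟶ A.X i, A.F.map a.op (A.ξ i) = A.F.map g.op η :=
  ((A.oc T η).choose_spec.1 i g.left).trans (fromChart_iff A.F A.X A.ξ i T η g)

lemma iSup_locus (T : Over S) (η : A.F.obj (op T)) : ⨆ i, A.locus T η i = ⊤ :=
  (A.oc T η).choose_spec.2

/-- The chart locus as an object over `S`. -/
abbrev locusOver (T : Over S) (η : A.F.obj (op T)) (i : A.ι) : Over S :=
  Over.mk ((A.locus T η i).ι ≫ T.hom)

/-- The inclusion of the chart locus. -/
abbrev locusι (T : Over S) (η : A.F.obj (op T)) (i : A.ι) : A.locusOver T η i ⟶ T :=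
  Over.homMk (A.locus T η i).ι rfl

lemma exists_cl (T : Over S) (η : A.F.obj (op T)) (i : A.ι) :
    ∃ a : A.locusOver T η i ⟶ A.X i, A.F.map a.op (A.ξ i) = A.F.map (A.locusι T η i).op η :=
  (A.locus_iff T η i (A.locusι T η i)).1 (fun p => p.2)

/-- The classifying map of the chart locus. -/
def cl (T : Over S) (η : A.F.obj (op T)) (i : A.ι) : A.locusOver T η i ⟶ A.X i :=
  (A.exists_cl T η i).choose

lemma cl_spec (T : Over S) (η : A.F.obj (op T)) (i : A.ι) :
    A.F.map (A.cl T η i).op (A.ξ i) = A.F.map (A.locusι T η i).op η :=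
  (A.exists_cl T η i).choose_spec

lemma exists_factor (T : Over S) (η : A.F.obj (op T)) (i : A.ι) {T' : Over S} (g : T' ⟶ T)
    (a : T' ⟶ A.X i) (h : A.F.map a.op (A.ξ i) = A.F.map g.op η) :
    ∃ l : T' ⟶ A.locusOver T η i, l ≫ A.locusι T η i = g ∧ l ≫ A.cl T η i = a := by
  have hr : Set.range g.left.base ⊆ Set.range (A.locus T η i).ι.base := by
    rw [Scheme.Opens.range_ι]
    rintro _ ⟨p, rfl⟩
    exact (A.locus_iff T η i g).2 ⟨a, h⟩ p
  let l₀ : T'.left ⟶ (A.locus T η i).toScheme :=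
    IsOpenImmersion.lift (A.locus T η i).ι g.left hr
  have hl₀ : l₀ ≫ (A.locus T η i).ι = g.left := IsOpenImmersion.lift_fac _ _ _
  let l : T' ⟶ A.locusOver T η i := Over.homMk l₀ (by
    change l₀ ≫ (A.locus T η i).ι ≫ T.hom = T'.hom
    rw [← Category.assoc, hl₀, Over.w])
  have hl : l ≫ A.locusι T η i = g := Over.OverMorphism.ext (by simpa [l, locusι] using hl₀)
  refine ⟨l, hl, A.mono i T' _ _ ?_⟩
  rw [map_comp_apply', A.cl_spec, ← map_comp_apply', hl, h]

/-! ### The gluing data -/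

/-- The overlap `V i j ⊆ X i`, over `S`. -/
abbrev Vo (i j : A.ι) : Over S := A.locusOver (A.X i) (A.ξ i) j

/-- The inclusion `V i j ⟶ X i`. -/
abbrev fo (i j : A.ι) : A.Vo i j ⟶ A.X i := A.locusι (A.X i) (A.ξ i) j

/-- The classifying map `V i j ⟶ X j`. -/
abbrev ao (i j : A.ι) : A.Vo i j ⟶ A.X j := A.cl (A.X i) (A.ξ i) j

lemma ao_spec (i j : A.ι) :
    A.F.map (A.ao i j).op (A.ξ j) = A.F.map (A.fo i j).op (A.ξ i) :=
  A.cl_spec _ _ _

lemma exists_tt (i j : A.ι) :
    ∃ l : A.Vo i j ⟶ A.Vo j i, l ≫ A.fo j i = A.ao i j ∧ l ≫ A.ao j i = A.fo i j :=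
  A.exists_factor (A.X j) (A.ξ j) i (A.ao i j) (A.fo i j) (A.ao_spec i j).symm

/-- The transition map `V i j ⟶ V j i`. -/
def tt (i j : A.ι) : A.Vo i j ⟶ A.Vo j i := (A.exists_tt i j).choose

lemma tt_fo (i j : A.ι) : A.tt i j ≫ A.fo j i = A.ao i j := (A.exists_tt i j).choose_spec.1

lemma tt_ao (i j : A.ι) : A.tt i j ≫ A.ao j i = A.fo i j := (A.exists_tt i j).choose_spec.2

/-- The overlap as a scheme. -/
abbrev Vs (i j : A.ι) : Scheme.{u} := (A.locus (A.X i) (A.ξ i) j).toScheme

/-- The inclusion of the overlap as a morphism of schemes. -/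
abbrev fs (i j : A.ι) : A.Vs i j ⟶ (A.X i).left := (A.locus (A.X i) (A.ξ i) j).ι

lemma locus_self (i : A.ι) : A.locus (A.X i) (A.ξ i) i = ⊤ := by
  rw [eq_top_iff]
  intro p _
  exact (A.locus_iff (A.X i) (A.ξ i) i (𝟙 (A.X i))).2 ⟨𝟙 _, rfl⟩ p

lemma ao_self (i : A.ι) : A.ao i i = A.fo i i := A.mono i _ _ _ (A.ao_spec i i)

lemma tt_self_left (i : A.ι) : (A.tt i i).left = 𝟙 (A.Vs i i) := by
  have h := congrArg (fun f => f.left) (A.tt_fo i i)
  rw [A.ao_self i] at h
  simp only [Over.comp_left, Over.homMk_left] at h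
  rw [← cancel_mono (A.fs i i)]
  exact h.trans (Category.id_comp _).symm

/-- The triple overlap `V i j ×_{X i} V i k`, over `S`. -/
abbrev Wo (i j k : A.ι) : Over S :=
  Over.mk (pullback.fst (A.fs i j) (A.fs i k) ≫ (A.Vo i j).hom)

/-- First projection of the triple overlap. -/
abbrev p₁ (i j k : A.ι) : A.Wo i j k ⟶ A.Vo i j := Over.homMk (pullback.fst _ _) rfl

/-- Second projection of the triple overlap. -/
abbrev p₂ (i j k : A.ι) : A.Wo i j k ⟶ A.Vo i k :=
  Over.homMk (pullback.snd _ _) (by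
    change pullback.snd (A.fs i j) (A.fs i k) ≫ A.fs i k ≫ (A.X i).hom =
      pullback.fst (A.fs i j) (A.fs i k) ≫ A.fs i j ≫ (A.X i).hom
    rw [pullback.condition_assoc])

lemma p₁_fo (i j k : A.ι) : A.p₁ i j k ≫ A.fo i j = A.p₂ i j k ≫ A.fo i k :=
  Over.OverMorphism.ext (by simpa using pullback.condition)

lemma exists_q (i j k : A.ι) :
    ∃ q : A.Wo i j k ⟶ A.Vo j k, q ≫ A.fo j k = A.p₁ i j k ≫ A.ao i j ∧
      q ≫ A.ao j k = A.p₂ i j k ≫ A.ao i k := by
  refine A.exists_factor (A.X j) (A.ξ j) k (A.p₁ i j k ≫ A.ao i j) (A.p₂ i j k ≫ A.ao i k) ?_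
  rw [map_comp_apply', A.ao_spec, ← map_comp_apply', ← A.p₁_fo, map_comp_apply', ← A.ao_spec,
    ← map_comp_apply']

/-- The map from the triple overlap `V i j ×_{X i} V i k` to `V j k`. -/
def q (i j k : A.ι) : A.Wo i j k ⟶ A.Vo j k := (A.exists_q i j k).choose

lemma q_fo (i j k : A.ι) : A.q i j k ≫ A.fo j k = A.p₁ i j k ≫ A.ao i j :=
  (A.exists_q i j k).choose_spec.1

lemma q_ao (i j k : A.ι) : A.q i j k ≫ A.ao j k = A.p₂ i j k ≫ A.ao i k :=
  (A.exists_q i j k).choose_spec.2

/-- The cocycle map of the gluing data. -/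
def t' (i j k : A.ι) : pullback (A.fs i j) (A.fs i k) ⟶ pullback (A.fs j k) (A.fs j i) :=
  pullback.lift (A.q i j k).left (pullback.fst _ _ ≫ (A.tt i j).left) (by
    have h1 := congrArg (fun f => f.left) (A.q_fo i j k)
    have h2 := congrArg (fun f => f.left) (A.tt_fo i j)
    simp only [Over.comp_left, Over.homMk_left] at h1 h2
    rw [h1, Category.assoc, h2])

lemma t'_fst (i j k : A.ι) : A.t' i j k ≫ pullback.fst _ _ = (A.q i j k).left :=
  pullback.lift_fst _ _ _

lemma t'_snd (i j k : A.ι) :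
    A.t' i j k ≫ pullback.snd _ _ = pullback.fst _ _ ≫ (A.tt i j).left :=
  pullback.lift_snd _ _ _

/-- The cocycle map as a morphism over `S`. -/
def t'o (i j k : A.ι) : A.Wo i j k ⟶ A.Wo j k i :=
  Over.homMk (A.t' i j k) (by
    change A.t' i j k ≫ pullback.fst (A.fs j k) (A.fs j i) ≫ (A.Vo j k).hom = (A.Wo i j k).hom
    rw [← Category.assoc, A.t'_fst]
    exact Over.w (A.q i j k))

lemma t'o_p₁ (i j k : A.ι) : A.t'o i j k ≫ A.p₁ j k i = A.q i j k :=
  Over.OverMorphism.ext (by simpa [t'o] using A.t'_fst i j k)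

/-- The canonical section on the triple overlap. -/
def σ (i j k : A.ι) : A.F.obj (op (A.Wo i j k)) := A.F.map (A.p₁ i j k ≫ A.fo i j).op (A.ξ i)

lemma map_t'o_σ (i j k : A.ι) : A.F.map (A.t'o i j k).op (A.σ j k i) = A.σ i j k := by
  unfold σ
  rw [← map_comp_apply', ← Category.assoc, A.t'o_p₁, A.q_fo, map_comp_apply', A.ao_spec,
    ← map_comp_apply']

lemma cocycle (i j k : A.ι) : A.t' i j k ≫ A.t' j k i ≫ A.t' k i j = 𝟙 _ := by
  have h : (A.t'o i j k ≫ A.t'o j k i ≫ A.t'o k i j) ≫ A.p₁ i j k ≫ A.fo i j =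
      A.p₁ i j k ≫ A.fo i j := by
    apply A.mono i
    rw [map_comp_apply']
    change A.F.map (A.t'o i j k ≫ A.t'o j k i ≫ A.t'o k i j).op (A.σ i j k) = A.σ i j k
    rw [map_comp_apply', map_comp_apply', A.map_t'o_σ, A.map_t'o_σ, A.map_t'o_σ]
  have h' := congrArg (fun f => f.left) h
  simp only [Over.comp_left, Over.homMk_left, t'o] at h'
  have : Mono (pullback.fst (A.fs i j) (A.fs i k) ≫ A.fs i j) := mono_comp _ _
  rw [← cancel_mono (pullback.fst (A.fs i j) (A.fs i k) ≫ A.fs i j), Category.id_comp]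
  simpa only [Category.assoc] using h'

lemma isIso_ι_of_eq_top {Y : Scheme.{u}} (U : Y.Opens) (h : U = ⊤) : IsIso U.ι := by
  subst h
  exact (Scheme.topIso _).isIso_hom

lemma isIso_fs_self (i : A.ι) : IsIso (A.fs i i) :=
  isIso_ι_of_eq_top _ (A.locus_self i)

/-- The gluing data: the charts glued along the chart loci. -/
abbrev glueData : Scheme.GlueData.{u} where
  J := A.ι
  U i := (A.X i).left
  V ij := A.Vs ij.1 ij.2
  f i j := A.fs i j
  f_mono _ _ := inferInstance
  f_hasPullback := inferInstance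
  f_id i := A.isIso_fs_self i
  t i j := (A.tt i j).left
  t_id i := A.tt_self_left i
  t' i j k := A.t' i j k
  t_fac i j k := A.t'_snd i j k
  cocycle i j k := A.cocycle i j k
  f_open _ _ := inferInstance

/-! ### The glued scheme over `S` -/

lemma tt_fs (i j : A.ι) : (A.tt i j).left ≫ A.fs j i = (A.ao i j).left := by
  have h := congrArg (fun f => f.left) (A.tt_fo i j)
  simpa only [Over.comp_left, Over.homMk_left] using h

lemma ao_hom (i j : A.ι) : (A.ao i j).left ≫ (A.X j).hom = A.fs i j ≫ (A.X i).hom :=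
  Over.w (A.ao i j)

/-- The comparison map from the intersection of two charts in the glued scheme to the
overlap. -/
def overlapLift (i j : A.ι) : pullback (A.glueData.ι i) (A.glueData.ι j) ⟶ A.Vs i j :=
  (A.glueData.vPullbackConeIsLimit i j).lift
    (PullbackCone.mk (pullback.fst _ _) (pullback.snd _ _) pullback.condition)

lemma overlapLift_fs (i j : A.ι) :
    A.overlapLift i j ≫ A.fs i j = pullback.fst (A.glueData.ι i) (A.glueData.ι j) :=
  (A.glueData.vPullbackConeIsLimit i j).fac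
    (PullbackCone.mk (pullback.fst _ _) (pullback.snd _ _) pullback.condition) WalkingCospan.left

lemma overlapLift_ao (i j : A.ι) :
    A.overlapLift i j ≫ (A.ao i j).left = pullback.snd (A.glueData.ι i) (A.glueData.ι j) := by
  have h := (A.glueData.vPullbackConeIsLimit i j).fac
    (PullbackCone.mk (pullback.fst _ _) (pullback.snd _ _) pullback.condition) WalkingCospan.right
  rw [← A.tt_fs]
  exact h

lemma toS_compat (i j : A.ι) :
    pullback.fst (A.glueData.ι i) (A.glueData.ι j) ≫ (A.X i).hom =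
      pullback.snd (A.glueData.ι i) (A.glueData.ι j) ≫ (A.X j).hom := by
  rw [← A.overlapLift_fs, ← A.overlapLift_ao, Category.assoc, Category.assoc, A.ao_hom]

/-- The canonical open cover of the glued scheme, indexed by `A.ι`. -/
abbrev gluedCover : Scheme.OpenCover.{u} A.glueData.glued where
  I₀ := A.ι
  X i := (A.X i).left
  f i := A.glueData.ι i
  mem₀ := by
    rw [Scheme.presieve₀_mem_precoverage_iff]
    exact ⟨fun x => by
      obtain ⟨i, y, hy⟩ := A.glueData.ι_jointly_surjective x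
      exact ⟨i, y, hy⟩, fun i => Scheme.GlueData.ι_isOpenImmersion A.glueData i⟩

/-- The structure morphism of the glued scheme. -/
def toS : A.glueData.glued ⟶ S :=
  A.gluedCover.glueMorphisms (fun i => (A.X i).hom) (fun i j => A.toS_compat i j)

lemma ι_toS (i : A.ι) : A.glueData.ι i ≫ A.toS = (A.X i).hom :=
  A.gluedCover.ι_glueMorphisms _ _ i

/-- The glued scheme as an object over `S`. -/
abbrev Jo : Over S := Over.mk A.toS

/-- The chart maps into the glued scheme, over `S`. -/
def v (i : A.ι) : A.X i ⟶ A.Jo := Over.homMk (A.glueData.ι i) (A.ι_toS i)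

/-- Identification of the members of the canonical cover of the glued scheme with the charts,
over `S`. -/
def ev (i : A.ι) : Over.mk (A.gluedCover.f i ≫ A.Jo.hom) ≅ A.X i :=
  Over.isoMk (Iso.refl _) (by
    change 𝟙 _ ≫ (A.X i).hom = A.glueData.ι i ≫ A.toS
    rw [Category.id_comp, A.ι_toS])

lemma v_eq (i : A.ι) : A.v i = (A.ev i).inv ≫ overRestr A.Jo (A.gluedCover.f i) := by
  apply Over.OverMorphism.ext
  change A.glueData.ι i = 𝟙 _ ≫ A.glueData.ι i
  rw [Category.id_comp]

lemma exists_ξJ (hGlue : PresheafGlue A.F) :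
    ∃ ξJ : A.F.obj (op A.Jo), ∀ i, A.F.map (A.v i).op ξJ = A.ξ i := by
  obtain ⟨s₀, hs₀⟩ := hGlue A.Jo A.gluedCover
    (fun i => A.F.map (A.ev i).hom.op (A.ξ i)) (by
      intro i j
      let ro : Over.mk (pullback.fst (A.gluedCover.f i) (A.gluedCover.f j) ≫
          A.gluedCover.f i ≫ A.Jo.hom) ⟶ A.Vo i j :=
        Over.homMk (A.overlapLift i j) (by
          change A.overlapLift i j ≫ A.fs i j ≫ (A.X i).hom =
            pullback.fst (A.glueData.ι i) (A.glueData.ι j) ≫ A.glueData.ι i ≫ A.toS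
          rw [← Category.assoc, A.overlapLift_fs, A.ι_toS])
      have h1 : overFst A.Jo A.gluedCover i j ≫ (A.ev i).hom = ro ≫ A.fo i j := by
        apply Over.OverMorphism.ext
        change pullback.fst (A.glueData.ι i) (A.glueData.ι j) ≫ 𝟙 _ = A.overlapLift i j ≫ A.fs i j
        rw [Category.comp_id, A.overlapLift_fs]
      have h2 : overSnd A.Jo A.gluedCover i j ≫ (A.ev j).hom = ro ≫ A.ao i j := by
        apply Over.OverMorphism.ext
        change pullback.snd (A.glueData.ι i) (A.glueData.ι j) ≫ 𝟙 _ =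
          A.overlapLift i j ≫ (A.ao i j).left
        rw [Category.comp_id, A.overlapLift_ao]
      rw [← map_comp_apply', ← map_comp_apply', h1, h2, map_comp_apply', map_comp_apply',
        A.ao_spec])
  refine ⟨s₀, fun i => ?_⟩
  rw [A.v_eq, map_comp_apply', hs₀, ← map_comp_apply', Iso.inv_hom_id, map_id_apply']

/-! ### The universal property -/

/-- The open cover of `T` by the chart loci of a section. -/
abbrev locusCover (T : Over S) (η : A.F.obj (op T)) : Scheme.OpenCover.{u} T.left where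
  I₀ := A.ι
  X i := (A.locus T η i).toScheme
  f i := (A.locus T η i).ι
  mem₀ := by
    rw [Scheme.presieve₀_mem_precoverage_iff]
    exact ⟨fun x => by
      have hx : x ∈ (⨆ i, A.locus T η i) := by
        rw [A.iSup_locus]
        trivial
      obtain ⟨i, hi⟩ := TopologicalSpace.Opens.mem_iSup.1 hx
      exact ⟨i, ⟨x, hi⟩, rfl⟩, fun i => (inferInstance : IsOpenImmersion (A.locus T η i).ι)⟩

lemma glue_compat (T : Over S) (η : A.F.obj (op T)) (i j : A.ι) :
    pullback.fst (A.locus T η i).ι (A.locus T η j).ι ≫ (A.cl T η i).left ≫ A.glueData.ι i =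
      pullback.snd (A.locus T η i).ι (A.locus T η j).ι ≫ (A.cl T η j).left ≫ A.glueData.ι j := by
  let Po : Over S :=
    Over.mk (pullback.fst (A.locus T η i).ι (A.locus T η j).ι ≫ (A.locusOver T η i).hom)
  let π₁ : Po ⟶ A.locusOver T η i := Over.homMk (pullback.fst _ _) rfl
  let π₂ : Po ⟶ A.locusOver T η j := Over.homMk (pullback.snd _ _) (by
    change pullback.snd (A.locus T η i).ι (A.locus T η j).ι ≫ (A.locus T η j).ι ≫ T.hom =
      pullback.fst (A.locus T η i).ι (A.locus T η j).ι ≫ (A.locus T η i).ι ≫ T.hom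
    rw [pullback.condition_assoc])
  have hπ : π₁ ≫ A.locusι T η i = π₂ ≫ A.locusι T η j :=
    Over.OverMorphism.ext (by simpa [π₁, π₂] using pullback.condition)
  obtain ⟨l, hl1, hl2⟩ := A.exists_factor (A.X i) (A.ξ i) j (π₁ ≫ A.cl T η i)
    (π₂ ≫ A.cl T η j) (by
      rw [map_comp_apply', A.cl_spec, ← map_comp_apply', ← hπ, map_comp_apply', ← A.cl_spec,
        ← map_comp_apply'])
  have e1 : l.left ≫ A.fs i j = pullback.fst _ _ ≫ (A.cl T η i).left :=
    congrArg (fun f => f.left) hl1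
  have e2 : l.left ≫ (A.ao i j).left = pullback.snd _ _ ≫ (A.cl T η j).left :=
    congrArg (fun f => f.left) hl2
  have hg : (A.tt i j).left ≫ A.fs j i ≫ A.glueData.ι j = A.fs i j ≫ A.glueData.ι i :=
    A.glueData.glue_condition i j
  calc pullback.fst (A.locus T η i).ι (A.locus T η j).ι ≫ (A.cl T η i).left ≫ A.glueData.ι i
      = l.left ≫ A.fs i j ≫ A.glueData.ι i := by
        rw [← Category.assoc, ← e1, Category.assoc]
    _ = l.left ≫ (A.ao i j).left ≫ A.glueData.ι j := by
        rw [← hg, ← A.tt_fs, Category.assoc]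
    _ = pullback.snd (A.locus T η i).ι (A.locus T η j).ι ≫ (A.cl T η j).left ≫
          A.glueData.ι j := by
        rw [← Category.assoc, e2, Category.assoc]

/-- The classifying morphism of a section, as a morphism of schemes. -/
def classify (T : Over S) (η : A.F.obj (op T)) : T.left ⟶ A.glueData.glued :=
  (A.locusCover T η).glueMorphisms (fun i => (A.cl T η i).left ≫ A.glueData.ι i)
    (fun i j => A.glue_compat T η i j)

lemma ι_classify (T : Over S) (η : A.F.obj (op T)) (i : A.ι) :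
    (A.locus T η i).ι ≫ A.classify T η = (A.cl T η i).left ≫ A.glueData.ι i :=
  (A.locusCover T η).ι_glueMorphisms _ _ i

lemma classify_toS (T : Over S) (η : A.F.obj (op T)) : A.classify T η ≫ A.toS = T.hom := by
  apply (A.locusCover T η).hom_ext
  intro i
  change (A.locus T η i).ι ≫ A.classify T η ≫ A.toS = (A.locus T η i).ι ≫ T.hom
  rw [← Category.assoc, A.ι_classify, Category.assoc, A.ι_toS]
  exact Over.w (A.cl T η i)

/-- The classifying morphism of a section, over `S`. -/
def classifyo (T : Over S) (η : A.F.obj (op T)) : T ⟶ A.Jo :=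
  Over.homMk (A.classify T η) (A.classify_toS T η)

lemma locusι_classifyo (T : Over S) (η : A.F.obj (op T)) (i : A.ι) :
    A.locusι T η i ≫ A.classifyo T η = A.cl T η i ≫ A.v i :=
  Over.OverMorphism.ext (A.ι_classify T η i)

lemma map_classifyo (hSep : PresheafSep A.F) (ξJ : A.F.obj (op A.Jo))
    (hξJ : ∀ i, A.F.map (A.v i).op ξJ = A.ξ i) (T : Over S) (η : A.F.obj (op T)) :
    A.F.map (A.classifyo T η).op ξJ = η := by
  apply hSep T (A.locusCover T η)
  intro i
  change A.F.map (A.locusι T η i).op _ = A.F.map (A.locusι T η i).op η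
  rw [← map_comp_apply', A.locusι_classifyo, map_comp_apply', hξJ, A.cl_spec]

lemma range_locusι_comp_subset (ξJ : A.F.obj (op A.Jo))
    (hξJ : ∀ i, A.F.map (A.v i).op ξJ = A.ξ i) (T : Over S) (η : A.F.obj (op T))
    (g' : T ⟶ A.Jo) (hg' : A.F.map g'.op ξJ = η) (i : A.ι) :
    Set.range ((A.locus T η i).ι ≫ g'.left).base ⊆ Set.range (A.glueData.ι i).base := by
  rintro _ ⟨p, rfl⟩
  obtain ⟨j, y, hy⟩ := A.glueData.ι_jointly_surjective (((A.locus T η i).ι ≫ g'.left).base p)
  have : IsOpenImmersion (A.glueData.ι j) := Scheme.GlueData.ι_isOpenImmersion A.glueData j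
  let W : (A.locus T η i).toScheme.Opens :=
    ((A.locus T η i).ι ≫ g'.left) ⁻¹ᵁ (A.glueData.ι j).opensRange
  have hpW : p ∈ W := ⟨y, hy⟩
  have hrW : Set.range (W.ι ≫ (A.locus T η i).ι ≫ g'.left).base ⊆
      Set.range (A.glueData.ι j).base := by
    rintro _ ⟨w, rfl⟩
    exact w.2
  let k : W.toScheme ⟶ (A.X j).left :=
    IsOpenImmersion.lift (A.glueData.ι j) (W.ι ≫ (A.locus T η i).ι ≫ g'.left) hrW
  have hk : k ≫ A.glueData.ι j = W.ι ≫ (A.locus T η i).ι ≫ g'.left :=
    IsOpenImmersion.lift_fac _ _ _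
  let Wo : Over S := Over.mk (W.ι ≫ (A.locusOver T η i).hom)
  let wo : Wo ⟶ A.locusOver T η i := Over.homMk W.ι rfl
  let ko : Wo ⟶ A.X j := Over.homMk k (by
    change k ≫ (A.X j).hom = W.ι ≫ (A.locus T η i).ι ≫ T.hom
    rw [← A.ι_toS j, ← Category.assoc, hk, Category.assoc, Category.assoc]
    congr 2
    exact Over.w g')
  have hko : ko ≫ A.v j = wo ≫ A.locusι T η i ≫ g' := Over.OverMorphism.ext hk
  obtain ⟨l, hl1, -⟩ := A.exists_factor (A.X j) (A.ξ j) i ko (wo ≫ A.cl T η i) (by
    have h1 : A.F.map (wo ≫ A.cl T η i).op (A.ξ i) = A.F.map (wo ≫ A.locusι T η i).op η := by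
      rw [map_comp_apply', A.cl_spec, ← map_comp_apply']
    have h2 : A.F.map ko.op (A.ξ j) = A.F.map (wo ≫ A.locusι T η i).op η := by
      rw [← hξJ j, ← map_comp_apply', hko, ← Category.assoc, map_comp_apply', hg']
    exact h1.trans h2.symm)
  have e1 : l.left ≫ A.fs j i = k := congrArg (fun f => f.left) hl1
  have hg : (A.tt j i).left ≫ A.fs i j ≫ A.glueData.ι i = A.fs j i ≫ A.glueData.ι j :=
    A.glueData.glue_condition j i
  have hfin : W.ι ≫ (A.locus T η i).ι ≫ g'.left =
      (l.left ≫ (A.tt j i).left ≫ A.fs i j) ≫ A.glueData.ι i := by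
    rw [← hk, ← e1, Category.assoc, Category.assoc, Category.assoc, hg]
  refine ⟨(l.left ≫ (A.tt j i).left ≫ A.fs i j).base ⟨p, hpW⟩, ?_⟩
  have h := congrArg (fun f => f.base ⟨p, hpW⟩) hfin
  exact h.symm

lemma classifyo_unique (ξJ : A.F.obj (op A.Jo))
    (hξJ : ∀ i, A.F.map (A.v i).op ξJ = A.ξ i) (T : Over S) (η : A.F.obj (op T))
    (g' : T ⟶ A.Jo) (hg' : A.F.map g'.op ξJ = η) : g' = A.classifyo T η := by
  apply Over.OverMorphism.ext
  apply (A.locusCover T η).hom_ext
  intro i
  change (A.locus T η i).ι ≫ g'.left = (A.locus T η i).ι ≫ A.classify T η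
  rw [A.ι_classify]
  have : IsOpenImmersion (A.glueData.ι i) := Scheme.GlueData.ι_isOpenImmersion A.glueData i
  have hr := A.range_locusι_comp_subset ξJ hξJ T η g' hg' i
  let m : (A.locus T η i).toScheme ⟶ (A.X i).left :=
    IsOpenImmersion.lift (A.glueData.ι i) ((A.locus T η i).ι ≫ g'.left) hr
  have hm : m ≫ A.glueData.ι i = (A.locus T η i).ι ≫ g'.left := IsOpenImmersion.lift_fac _ _ _
  let mo : A.locusOver T η i ⟶ A.X i := Over.homMk m (by
    change m ≫ (A.X i).hom = (A.locus T η i).ι ≫ T.hom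
    rw [← A.ι_toS i, ← Category.assoc, hm, Category.assoc]
    congr 1
    exact Over.w g')
  have hmo : mo ≫ A.v i = A.locusι T η i ≫ g' := Over.OverMorphism.ext hm
  have hmc : mo = A.cl T η i := by
    apply A.mono i
    rw [A.cl_spec, ← hξJ i, ← map_comp_apply', hmo, map_comp_apply', hg']
  rw [← hm, ← hmc]
  rfl

end Setup

/-- **LR** (local representability over a base, any value universe): proof of
`helper7579.Stmt_LRGen`. -/
theorem stmt_LRGen : Stmt_LRGen.{w, u} := by
  intro S F hSep hGlue ι X ξ hMono hOC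
  let A : Setup.{w, u} S := ⟨F, ι, X, ξ, hMono, hOC⟩
  obtain ⟨ξJ, hξJ⟩ := A.exists_ξJ hGlue
  refine ⟨A.Jo, ξJ, fun T η => ⟨A.classifyo T η, A.map_classifyo hSep ξJ hξJ T η,
    fun g' hg' => A.classifyo_unique ξJ hξJ T η g' hg'⟩, A.v, fun i => ?_, hξJ, fun p => ?_⟩
  · exact Scheme.GlueData.ι_isOpenImmersion A.glueData i
  · obtain ⟨i, y, hy⟩ := A.glueData.ι_jointly_surjective p
    exact ⟨i, y, hy⟩

end

end Fermat.Agent.S25.helper8031
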