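/-
S25, layer C, brick for U9 (point decomposition): over an algebraically closed field `K`, an
ideal `I` of finite `K`-codimension `d` in a `K`-algebra `A` all of whose ideals of finite
codimension are invertible modules is a product of `d` kernels of `K`-points `A →ₐ[K] K`.

Mathlib only.  No Dedekind-domain theory is used: division by an invertible maximal ideal is
done with the dual-basis lemma, the count of points by an exact sequence.
-/
import Mathlib

set_option autoImplicit false

open Module

namespace Fermat.Agent.S25.helper8105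

section Division

variable {A : Type*} [CommRing A]

/-- **Division by a projective ideal.** If `m` is an ideal which is projective as a module and
`I ≤ m`, then `I = m * J` for an ideal `J ≥ I`. -/
theorem exists_mul_eq_of_le_of_projective (m I : Ideal A) [Module.Projective A m] (h : I ≤ m) :
    ∃ J : Ideal A, I ≤ J ∧ m * J = I := by
  classical
  obtain ⟨s, hs⟩ := (Module.projective_def' (R := A) (P := m)).mp inferInstance
  let J : Ideal A := Ideal.span {b | ∃ (φ : m →ₗ[A] A) (a : m), (a : A) ∈ I ∧ φ a = b}
  have h1 : m * J ≤ I := by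
    rw [Ideal.mul_le]
    intro c hc b hb
    refine Submodule.span_induction (p := fun b _ => c * b ∈ I) ?_ ?_ ?_ ?_ hb
    · rintro _ ⟨φ, a, ha, rfl⟩
      have e : c * φ a = (a : A) * φ ⟨c, hc⟩ := by
        have e1 : c • a = (a : A) • (⟨c, hc⟩ : m) := by
          ext
          simp [mul_comm]
        calc c * φ a = φ (c • a) := by rw [map_smul, smul_eq_mul]
          _ = φ ((a : A) • (⟨c, hc⟩ : m)) := by rw [e1]
          _ = (a : A) * φ ⟨c, hc⟩ := by rw [map_smul, smul_eq_mul]
      rw [e]
      exact I.mul_mem_right _ ha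
    · simp
    · intro x y _ _ hx hy
      rw [mul_add]
      exact I.add_mem hx hy
    · intro r x _ hx
      rw [smul_eq_mul, mul_left_comm]
      exact I.mul_mem_left _ hx
  have h2 : I ≤ m * J := by
    intro a ha
    let a' : m := ⟨a, h ha⟩
    have e : Finsupp.linearCombination A (id : m → m) (s a') = a' := LinearMap.congr_fun hs a'
    have e' : a = ∑ x ∈ (s a').support, (s a') x * (x : A) := by
      have := congrArg (Subtype.val : m → A) e
      rw [Finsupp.linearCombination_apply, Finsupp.sum] at this
      simpa using this.symm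
    rw [e']
    refine Ideal.sum_mem _ fun x _ => ?_
    rw [mul_comm ((s a') x) (x : A)]
    refine Ideal.mul_mem_mul x.2 (Ideal.subset_span ?_)
    exact ⟨(Finsupp.lapply x).comp s, a', ha, rfl⟩
  exact ⟨J, h2.trans Ideal.mul_le_right, le_antisymm h1 h2⟩

end Division

section Count

variable (K : Type*) [Field K] {A : Type*} [CommRing A] [Algebra K A]

/-- An invertible module over a `K`-algebra has the same `K`-dimension modulo an ideal of finite
codimension as the algebra itself. -/
theorem finrank_quotient_smul_top_eq_finrank_quotient (M : Type*) [AddCommGroup M] [Module A M]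
    [Module K M] [IsScalarTower K A M] [Module.Invertible A M] (I : Ideal A)
    [Module.Finite K (A ⧸ I)] :
    Module.finrank K (M ⧸ (I • ⊤ : Submodule A M)) = Module.finrank K (A ⧸ I) := by
  have hart : IsArtinianRing (A ⧸ I) := IsArtinianRing.of_finite K (A ⧸ I)
  have hfree : Module.Free (A ⧸ I) (TensorProduct A (A ⧸ I) M) := inferInstance
  obtain ⟨e₂⟩ := Module.Invertible.free_iff_linearEquiv.mp hfree
  have e₁ : (TensorProduct A (A ⧸ I) M) ≃ₗ[A] M ⧸ (I • ⊤ : Submodule A M) :=
    TensorProduct.quotTensorEquivQuotSMul M I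
  rw [← (e₁.restrictScalars K).finrank_eq, (e₂.restrictScalars K).finrank_eq]

/-- The quotient by the kernel of a `K`-point is one-dimensional. -/
theorem finrank_quotient_ker_algHom (p : A →ₐ[K] K) :
    Module.Finite K (A ⧸ RingHom.ker p) ∧ Module.finrank K (A ⧸ RingHom.ker p) = 1 := by
  have hp : Function.Surjective p := fun c => ⟨algebraMap K A c, by simp⟩
  let e : (A ⧸ RingHom.ker p) ≃ₐ[K] K := Ideal.quotientKerAlgEquivOfSurjective hp
  exact ⟨Module.Finite.equiv e.toLinearEquiv.symm, by
    rw [e.toLinearEquiv.finrank_eq, Module.finrank_self]⟩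

/-- **Counting.** Multiplying an invertible ideal `J` of finite codimension by the kernel of a
`K`-point raises the codimension by one. -/
theorem finrank_quotient_ker_mul (p : A →ₐ[K] K) (J : Ideal A) [Module.Invertible A J]
    [Module.Finite K (A ⧸ J)] :
    Module.Finite K (A ⧸ (RingHom.ker p * J)) ∧
      Module.finrank K (A ⧸ (RingHom.ker p * J)) = Module.finrank K (A ⧸ J) + 1 := by
  set m : Ideal A := RingHom.ker p with hm
  obtain ⟨hfin, h1⟩ := finrank_quotient_ker_algHom K p
  have hle : m * J ≤ J := Ideal.mul_le_right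
  -- the projection `A ⧸ m * J → A ⧸ J`
  let g : (A ⧸ (m * J)) →ₗ[K] (A ⧸ J) := (Ideal.Quotient.factorₐ K hle).toLinearMap
  have hg : Function.Surjective g := Ideal.Quotient.factor_surjective hle
  -- the map `J → A ⧸ m * J`
  let h₀ : J →ₗ[A] (A ⧸ (m * J)) := (Submodule.mkQ (m * J)).comp J.subtype
  have hker : LinearMap.ker h₀ = (m • ⊤ : Submodule A J) := by
    have e1 : (m • ⊤ : Submodule A J) = Submodule.comap J.subtype (m * J) := by
      have : Submodule.map J.subtype (m • ⊤ : Submodule A J) = m * J := by
        rw [Submodule.map_smul'', Submodule.map_top, Submodule.range_subtype, smul_eq_mul]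
      rw [← this, Submodule.comap_map_eq_of_injective J.injective_subtype]
    rw [e1]
    ext j
    simp only [h₀, LinearMap.mem_ker, LinearMap.coe_comp, Function.comp_apply,
      Submodule.subtype_apply, Submodule.mem_comap]
    exact Ideal.Quotient.eq_zero_iff_mem
  have hrange : ∀ v : A ⧸ (m * J), v ∈ LinearMap.range h₀ ↔ g v = 0 := by
    intro v
    obtain ⟨a, rfl⟩ := Ideal.Quotient.mk_surjective v
    constructor
    · rintro ⟨j, hj⟩
      have : (Ideal.Quotient.mk (m * J)) (j : A) = Ideal.Quotient.mk (m * J) a := hj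
      change Ideal.Quotient.factor hle (Ideal.Quotient.mk (m * J) a) = 0
      rw [← this, Ideal.Quotient.factor_mk, Ideal.Quotient.eq_zero_iff_mem]
      exact j.2
    · intro hv
      have : a ∈ J := by
        have hv' : Ideal.Quotient.factor hle (Ideal.Quotient.mk (m * J) a) = 0 := hv
        rwa [Ideal.Quotient.factor_mk, Ideal.Quotient.eq_zero_iff_mem] at hv'
      exact ⟨⟨a, this⟩, rfl⟩
  -- the kernel of `g` is `J ⧸ m J`, of dimension one
  let E : (J ⧸ (m • ⊤ : Submodule A J)) ≃ₗ[A] LinearMap.range h₀ :=
    (Submodule.quotEquivOfEq _ _ hker.symm).trans h₀.quotKerEquivRange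
  let F : LinearMap.range h₀ ≃ₗ[K] LinearMap.ker g :=
    { toFun := fun v => ⟨v.1, (hrange v.1).mp v.2⟩
      invFun := fun v => ⟨v.1, (hrange v.1).mpr v.2⟩
      map_add' := fun _ _ => rfl
      map_smul' := fun _ _ => rfl
      left_inv := fun _ => rfl
      right_inv := fun _ => rfl }
  have hJ1 : Module.finrank K (J ⧸ (m • ⊤ : Submodule A J)) = 1 := by
    rw [finrank_quotient_smul_top_eq_finrank_quotient K J m, h1]
  have hk1 : Module.finrank K (LinearMap.ker g) = 1 := by
    rw [← F.finrank_eq, ← (E.restrictScalars K).finrank_eq, hJ1]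
  have hkfin : Module.Finite K (LinearMap.ker g) := Module.finite_of_finrank_pos (by omega)
  have hqfin : Module.Finite K ((A ⧸ (m * J)) ⧸ LinearMap.ker g) :=
    Module.Finite.equiv (g.quotKerEquivOfSurjective hg).symm
  have hVfin : Module.Finite K (A ⧸ (m * J)) := Module.Finite.of_submodule_quotient (LinearMap.ker g)
  refine ⟨hVfin, ?_⟩
  have := g.finrank_range_add_finrank_ker
  rw [LinearMap.range_eq_top.mpr hg, finrank_top, hk1] at this
  exact this.symm

end Count

section Main

variable (K : Type*) [Field K] [IsAlgClosed K] {A : Type*} [CommRing A] [Algebra K A]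

/-- Over an algebraically closed field, a proper ideal of finite codimension is contained in the
kernel of a `K`-point. -/
theorem exists_algHom_le_ker (I : Ideal A) [Module.Finite K (A ⧸ I)] (hI : I ≠ ⊤) :
    ∃ p : A →ₐ[K] K, I ≤ RingHom.ker p := by
  obtain ⟨m, hm, hIm⟩ := Ideal.exists_le_maximal I hI
  let _ : Field (A ⧸ m) := Ideal.Quotient.field m
  have hfin : Module.Finite K (A ⧸ m) :=
    Module.Finite.of_surjective (Ideal.Quotient.factorₐ K hIm).toLinearMap
      (Ideal.Quotient.factor_surjective hIm)
  have hbij : Function.Bijective (algebraMap K (A ⧸ m)) :=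
    IsAlgClosed.algebraMap_bijective_of_isIntegral
  let e : K ≃ₐ[K] (A ⧸ m) := AlgEquiv.ofBijective (Algebra.ofId K (A ⧸ m)) hbij
  refine ⟨(e.symm : (A ⧸ m) →ₐ[K] K).comp (Ideal.Quotient.mkₐ K m), fun a ha => ?_⟩
  rw [RingHom.mem_ker]
  have : Ideal.Quotient.mk m a = 0 := Ideal.Quotient.eq_zero_iff_mem.mpr (hIm ha)
  simp [this]

/-- **Point factorisation.** Let `K` be an algebraically closed field and `A` a `K`-algebra in
which every ideal of finite codimension is an invertible module. Then an ideal of codimension
`d` is a product of `d` kernels of `K`-points. -/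
theorem exists_algHom_prod_ker_eq
    (hinv : ∀ J : Ideal A, Module.Finite K (A ⧸ J) → Module.Invertible A J) :
    ∀ (d : ℕ) (I : Ideal A) [Module.Finite K (A ⧸ I)], Module.finrank K (A ⧸ I) = d →
      ∃ P : Fin d → (A →ₐ[K] K), I = ∏ i, RingHom.ker (P i)
  | 0, I, _, hd => by
    have hsub : Subsingleton (A ⧸ I) := Module.finrank_zero_iff.mp hd
    have hI : I = ⊤ := Ideal.Quotient.subsingleton_iff.mp hsub
    exact ⟨Fin.elim0, by simp [hI]⟩
  | d + 1, I, _, hd => by
    have hI : I ≠ ⊤ := by
      rintro rfl
      have : Subsingleton (A ⧸ (⊤ : Ideal A)) := Ideal.Quotient.subsingleton_iff.mpr rfl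
      rw [Module.finrank_zero_of_subsingleton] at hd
      omega
    obtain ⟨p, hp⟩ := exists_algHom_le_ker K I hI
    have : Module.Finite K (A ⧸ RingHom.ker p) := (finrank_quotient_ker_algHom K p).1
    have : Module.Invertible A (RingHom.ker p) := hinv _ inferInstance
    obtain ⟨J, hIJ, hJ⟩ := exists_mul_eq_of_le_of_projective (RingHom.ker p) I hp
    have hJfin : Module.Finite K (A ⧸ J) :=
      Module.Finite.of_surjective (Ideal.Quotient.factorₐ K hIJ).toLinearMap
        (Ideal.Quotient.factor_surjective hIJ)
    have : Module.Invertible A J := hinv J hJfin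
    have hcount := (finrank_quotient_ker_mul K p J).2
    rw [hJ, hd] at hcount
    obtain ⟨P, hP⟩ := exists_algHom_prod_ker_eq hinv d J (by omega)
    refine ⟨Fin.cons p P, ?_⟩
    rw [Fin.prod_univ_succ]
    simp only [Fin.cons_zero, Fin.cons_succ]
    rw [← hP, hJ]

end Main

end Fermat.Agent.S25.helper8105
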