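/-
S25, layer C, brick for U9 (point decomposition), curve form: for a curve datum `D` over an
algebraically closed field `k` and an algebraically closed field `K ⊇ k`, an ideal of
`D.A₀ K = R₀ ⊗ K` (resp. `D.A₁ K`) of finite codimension `d` is the product of the ideals of
`d` `K`-points of the chart (`helper6871.pointIdeal₀`, resp. `pointIdeal₁`).
-/
import Fermat.Agent.S25.helper8105_PointFactor
import Fermat.Agent.S25.helper5597_DivisorIdealCurve
import Fermat.Agent.S25.helper6871_PointIdeal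

set_option autoImplicit false

universe u

open TensorProduct

namespace Fermat.Agent.S25.helper8105

open Fermat.Agent.S25.helper1705 Fermat.Agent.S25.helper2945

variable {k : Type u} [Field k] (D : CurveDatum k) {K : Type u} [Field K] [Algebra k K]

/-- The `K`-point of chart `0` underlying a `K`-algebra map `R₀ ⊗ K → K`. -/
noncomputable def pointOfAlgHom₀ (q : D.A₀ K →ₐ[K] K) : D.R₀ →ₐ[k] K :=
  (q.restrictScalars k).comp Algebra.TensorProduct.includeLeft

/-- The `K`-point of chart `1` underlying a `K`-algebra map `R₁ ⊗ K → K`. -/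
noncomputable def pointOfAlgHom₁ (q : D.A₁ K →ₐ[K] K) : D.R₁ →ₐ[k] K :=
  (q.restrictScalars k).comp Algebra.TensorProduct.includeLeft

@[simp] theorem pointOfAlgHom₀_apply (q : D.A₀ K →ₐ[K] K) (r : D.R₀) :
    pointOfAlgHom₀ D q r = q (r ⊗ₜ 1) := rfl

@[simp] theorem pointOfAlgHom₁_apply (q : D.A₁ K →ₐ[K] K) (r : D.R₁) :
    pointOfAlgHom₁ D q r = q (r ⊗ₜ 1) := rfl

theorem evB₀_pointOfAlgHom₀ (q : D.A₀ K →ₐ[K] K) :
    helper6871.evB₀ D (pointOfAlgHom₀ D q) = q := by
  ext z
  induction z using TensorProduct.induction_on with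
  | zero => simp
  | tmul r c =>
    have h1 : (r ⊗ₜ[k] c : D.A₀ K) = (r ⊗ₜ[k] (1 : K)) * algebraMap K (D.A₀ K) c := by
      rw [algebraMap_B_A₀, Algebra.TensorProduct.tmul_mul_tmul, mul_one, one_mul]
    have h2 : q (r ⊗ₜ[k] c) = q (r ⊗ₜ[k] (1 : K)) * c := by
      rw [h1, map_mul, AlgHom.commutes]
      rfl
    rw [h2, helper6871.evB₀_apply, helper6871.evPoint_tmul, pointOfAlgHom₀_apply]
  | add a b ha hb => rw [map_add, map_add, ha, hb]

theorem evB₁_pointOfAlgHom₁ (q : D.A₁ K →ₐ[K] K) :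
    helper6871.evB₁ D (pointOfAlgHom₁ D q) = q := by
  ext z
  induction z using TensorProduct.induction_on with
  | zero => simp
  | tmul r c =>
    have h1 : (r ⊗ₜ[k] c : D.A₁ K) = (r ⊗ₜ[k] (1 : K)) * algebraMap K (D.A₁ K) c := by
      rw [algebraMap_B_A₁, Algebra.TensorProduct.tmul_mul_tmul, mul_one, one_mul]
    have h2 : q (r ⊗ₜ[k] c) = q (r ⊗ₜ[k] (1 : K)) * c := by
      rw [h1, map_mul, AlgHom.commutes]
      rfl
    rw [h2, helper6871.evB₁_apply, helper6871.evPoint_tmul, pointOfAlgHom₁_apply]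
  | add a b ha hb => rw [map_add, map_add, ha, hb]

/-- The kernel of a `K`-algebra map `R₀ ⊗ K → K` is the ideal of a `K`-point of chart `0`. -/
theorem ker_eq_pointIdeal₀ (q : D.A₀ K →ₐ[K] K) :
    RingHom.ker q = helper6871.pointIdeal₀ D (pointOfAlgHom₀ D q) := by
  rw [← helper6871.ker_evB₀, evB₀_pointOfAlgHom₀]

/-- The kernel of a `K`-algebra map `R₁ ⊗ K → K` is the ideal of a `K`-point of chart `1`. -/
theorem ker_eq_pointIdeal₁ (q : D.A₁ K →ₐ[K] K) :
    RingHom.ker q = helper6871.pointIdeal₁ D (pointOfAlgHom₁ D q) := by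
  rw [← helper6871.ker_evB₁, evB₁_pointOfAlgHom₁]

variable [IsAlgClosed k] [IsAlgClosed K]

/-- **Point factorisation on chart `0`.** An ideal of `R₀ ⊗ K` of codimension `d` is the product
of the ideals of `d` `K`-points of chart `0`. -/
theorem exists_points_prod_eq₀ (I : Ideal (D.A₀ K)) [Module.Finite K (D.A₀ K ⧸ I)] (d : ℕ)
    (hd : Module.finrank K (D.A₀ K ⧸ I) = d) :
    ∃ P : Fin d → (D.R₀ →ₐ[k] K), I = ∏ i, helper6871.pointIdeal₀ D (P i) := by
  obtain ⟨Q, hQ⟩ := exists_algHom_prod_ker_eq K (A := D.A₀ K)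
    (fun J hJ => helper5597.ideal_invertible₀ D J) d I hd
  exact ⟨fun i => pointOfAlgHom₀ D (Q i), by
    rw [hQ]; exact Finset.prod_congr rfl fun i _ => ker_eq_pointIdeal₀ D (Q i)⟩

/-- **Point factorisation on chart `1`.** An ideal of `R₁ ⊗ K` of codimension `d` is the product
of the ideals of `d` `K`-points of chart `1`. -/
theorem exists_points_prod_eq₁ (I : Ideal (D.A₁ K)) [Module.Finite K (D.A₁ K ⧸ I)] (d : ℕ)
    (hd : Module.finrank K (D.A₁ K ⧸ I) = d) :
    ∃ P : Fin d → (D.R₁ →ₐ[k] K), I = ∏ i, helper6871.pointIdeal₁ D (P i) := by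
  obtain ⟨Q, hQ⟩ := exists_algHom_prod_ker_eq K (A := D.A₁ K)
    (fun J hJ => helper5597.ideal_invertible₁ D J) d I hd
  exact ⟨fun i => pointOfAlgHom₁ D (Q i), by
    rw [hQ]; exact Finset.prod_congr rfl fun i _ => ker_eq_pointIdeal₁ D (Q i)⟩

end Fermat.Agent.S25.helper8105
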