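import Mathlib.AlgebraicGeometry.ValuativeCriterion

/-!
# Weak valuative criterion (existence after enlarging the valuation ring)

`WeakExistence f`: every valuative commutative square over `f` admits a lift after replacing the
valuation ring `R` by a valuation ring `R'` dominating it.  Main result:
`universallyClosed_of_weakExistence`: a quasi-compact morphism satisfying `WeakExistence` is
universally closed.
-/

open CategoryTheory CategoryTheory.Limits AlgebraicGeometry

universe u

namespace Fermat.Agent.S25.helper8162

variable {X Y : Scheme.{u}}

/-- A lift of a valuative commutative square after enlarging the valuation ring. -/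
structure WeakLift {X Y : Scheme.{u}} {f : X ⟶ Y} (S : ValuativeCommSq f) where
  /-- the larger valuation ring -/
  R' : Type u
  [commRing : CommRing R']
  [domain : IsDomain R']
  [valuationRing : ValuationRing R']
  /-- its fraction field -/
  K' : Type u
  [field : Field K']
  [algebra : Algebra R' K']
  [isFractionRing : IsFractionRing R' K']
  /-- the map of valuation rings -/
  φ : S.R →+* R'
  /-- the map of fraction fields -/
  ψ : S.K →+* K'
  [isLocalHom : IsLocalHom φ]
  comm : ψ.comp (algebraMap S.R S.K) = (algebraMap R' K').comp φ
  /-- the lift -/
  l : Spec (.of R') ⟶ X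
  fac_left : Spec.map (CommRingCat.ofHom (algebraMap R' K')) ≫ l =
    Spec.map (CommRingCat.ofHom ψ) ≫ S.i₁
  fac_right : l ≫ f = Spec.map (CommRingCat.ofHom φ) ≫ S.i₂

attribute [instance] WeakLift.commRing WeakLift.domain WeakLift.valuationRing WeakLift.field
  WeakLift.algebra WeakLift.isFractionRing WeakLift.isLocalHom

/-- The weak existence part of the valuative criterion: every valuative commutative square
has a lift after enlarging the valuation ring. -/
def WeakExistence : MorphismProperty Scheme.{u} :=
  fun _ _ f ↦ ∀ S : ValuativeCommSq f, Nonempty (WeakLift S)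

open IsLocalRing

variable (f : X ⟶ Y)

/-- The existence part of the valuative criterion implies the weak existence part. -/
lemma weakExistence_of_existence (H : ValuativeCriterion.Existence f) : WeakExistence f := by
  intro S
  obtain ⟨l, hl₁, hl₂⟩ := (H S).exists_lift
  exact ⟨{ R' := S.R, K' := S.K, φ := RingHom.id _, ψ := RingHom.id _
           isLocalHom := ⟨fun _ h ↦ h⟩
           comm := rfl
           l := l
           fac_left := by simpa using hl₁
           fac_right := by simpa using hl₂ }⟩

set_option backward.isDefEq.respectTransparency.types false in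
/-- A morphism satisfying the weak existence part of the valuative criterion is specializing. -/
lemma WeakExistence.specializingMap (H : WeakExistence f) : SpecializingMap f := by
  intro x' y h
  let stalk_y_to_residue_x' : Y.presheaf.stalk y ⟶ X.residueField x' :=
    Y.presheaf.stalkSpecializes h ≫ f.stalkMap x' ≫ X.residue x'
  obtain ⟨A, hA, hA_local⟩ := exists_factor_valuationRing stalk_y_to_residue_x'.hom
  let stalk_y_to_A : Y.presheaf.stalk y ⟶ .of A :=
    CommRingCat.ofHom (stalk_y_to_residue_x'.hom.codRestrict _ hA)
  have w : X.fromSpecResidueField x' ≫ f =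
      Spec.map (CommRingCat.ofHom (algebraMap A (X.residueField x'))) ≫
        Spec.map stalk_y_to_A ≫ Y.fromSpecStalk y := by
    rw [Scheme.fromSpecResidueField, Category.assoc, ← Scheme.SpecMap_stalkMap_fromSpecStalk,
      ← Scheme.SpecMap_stalkSpecializes_fromSpecStalk h]
    simp_rw [← Spec.map_comp_assoc]
    rfl
  obtain ⟨W⟩ := H { R := A, K := X.residueField x', commSq := ⟨w⟩, .. }
  have hl₁ := W.fac_left
  have hl₂ := W.fac_right
  dsimp only at hl₁ hl₂
  refine ⟨W.l (closedPoint W.R'), ?_, ?_⟩
  · have hx' : x' = W.l (Spec.map (CommRingCat.ofHom (algebraMap W.R' W.K')) (closedPoint W.K')) := by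
      rw [← Scheme.Hom.comp_apply, hl₁, Scheme.Hom.comp_apply]
      have : Spec.map (CommRingCat.ofHom W.ψ) (closedPoint W.K') =
          closedPoint (X.residueField x') := Subsingleton.elim _ _
      rw [this, Scheme.fromSpecResidueField_apply]
    have key : W.l (Spec.map (CommRingCat.ofHom (algebraMap W.R' W.K')) (closedPoint W.K')) ⤳
        W.l (closedPoint W.R') := (specializes_closedPoint _).map W.l.continuous
    rwa [← hx'] at key
  · rw [← Scheme.Hom.comp_apply, hl₂]
    simp only [Scheme.Hom.comp_base, TopCat.coe_comp, Function.comp_apply]
    have : IsLocalHom W.φ := W.isLocalHom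
    have h1 : Spec.map (CommRingCat.ofHom W.φ) (closedPoint W.R') = closedPoint A :=
      comap_closedPoint W.φ
    have h2 : Spec.map stalk_y_to_A (closedPoint A) = closedPoint (Y.presheaf.stalk y) :=
      comap_closedPoint (S := A) (stalk_y_to_residue_x'.hom.codRestrict A.toSubring hA)
    rw [h1, h2, Y.fromSpecStalk_closedPoint]

/-- The weak existence part of the valuative criterion is stable under base change. -/
instance WeakExistence.isStableUnderBaseChange :
    WeakExistence.{u}.IsStableUnderBaseChange := by
  constructor
  intro Y' X X' Y Y'_to_Y f X'_to_X f' hP hf commSq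
  let commSq' : ValuativeCommSq f :=
  { R := commSq.R
    K := commSq.K
    i₁ := commSq.i₁ ≫ X'_to_X
    i₂ := commSq.i₂ ≫ Y'_to_Y
    commSq := ⟨by simp only [Category.assoc, hP.w, reassoc_of% commSq.commSq.w]⟩ }
  obtain ⟨W⟩ := hf commSq'
  have hl₁ := W.fac_left
  have hl₂ := W.fac_right
  dsimp only [commSq'] at hl₁ hl₂
  have hw : W.l ≫ f = (Spec.map (CommRingCat.ofHom W.φ) ≫ commSq.i₂) ≫ Y'_to_Y :=
    hl₂.trans (Category.assoc _ _ _).symm
  have hcomm : Spec.map (CommRingCat.ofHom (algebraMap W.R' W.K')) ≫
      Spec.map (CommRingCat.ofHom W.φ) =
      Spec.map (CommRingCat.ofHom W.ψ) ≫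
        Spec.map (CommRingCat.ofHom (algebraMap commSq.R commSq.K)) := by
    rw [← Spec.map_comp, ← Spec.map_comp, ← CommRingCat.ofHom_comp, ← CommRingCat.ofHom_comp]
    exact congrArg (fun g ↦ Spec.map (CommRingCat.ofHom g)) W.comm.symm
  refine ⟨{ R' := W.R', K' := W.K', φ := W.φ, ψ := W.ψ
            isLocalHom := W.isLocalHom
            comm := W.comm
            l := hP.lift W.l (Spec.map (CommRingCat.ofHom W.φ) ≫ commSq.i₂) hw
            fac_left := ?_
            fac_right := hP.lift_snd _ _ _ }⟩
  apply hP.hom_ext
  · simp only [Category.assoc, hP.lift_fst, hl₁]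
  · simp only [Category.assoc, hP.lift_snd]
    rw [reassoc_of% hcomm, commSq.commSq.w]

/-- A morphism satisfying the weak existence part of the valuative criterion is universally
specializing. -/
lemma WeakExistence.universally_specializingMap (H : WeakExistence f) :
    (topologically @SpecializingMap).universally f := by
  have h1 : WeakExistence.{u} ≤ topologically @SpecializingMap :=
    fun _ _ g hg ↦ WeakExistence.specializingMap g hg
  have h2 := MorphismProperty.universally_mono h1
  rw [MorphismProperty.IsStableUnderBaseChange.universally_eq] at h2
  exact h2 _ H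

/-- The weak existence part of the valuative criterion is equivalent to the usual one. -/
lemma weakExistence_eq : WeakExistence.{u} = ValuativeCriterion.Existence := by
  ext X Y f
  refine ⟨fun H ↦ ?_, weakExistence_of_existence f⟩
  rw [ValuativeCriterion.Existence.eq]
  exact WeakExistence.universally_specializingMap f H

/-- **Weak valuative criterion** for universally closed morphisms: a quasi-compact morphism such
that every valuative commutative square has a lift after enlarging the valuation ring is
universally closed. -/
theorem universallyClosed_of_weakExistence [QuasiCompact f] (H : WeakExistence f) :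
    UniversallyClosed f :=
  UniversallyClosed.of_valuativeCriterion f (weakExistence_eq ▸ H)

end Fermat.Agent.S25.helper8162
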