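import Fermat.Agent.S25.helper8183_GC

/-!
# S25: families through a point land in the component of zero, for any cut containing FAEZ
(helper8183)

Generalisation of the proof of `stmt_GC` (`helper8183_GC.lean`), for the "identity component"
route: let `Pc₀` be ANY cut containing the cut of bundles fibrewise algebraically equivalent to
zero, and let `D` represent `Pc₀`. If `M` is fibrewise algebraically equivalent to zero over
`t : T ⟶ Spec R` and `g : T ⟶ D.P` classifies `M`, then every point `g p` is joined to the zero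
point `D.zeroSection (t p)` by a preconnected subset of `D.P` (the image of the irreducible
parameter scheme of the family supplied by the definition of algebraic equivalence).

Main results:
* `exists_classifying_of_family_of_le` : B2 of `helper8183_GC` for any cut `Pc₀ ⊇ FAEZ`;
* `exists_irreducible_family_of_fibrewiseAlgEquivZero` : for a geometric point `s` of `T`, an
  irreducible `T'` with a morphism `G : T' ⟶ D.P` and two points `τ₀ τ₁` with
  `τ₁ ≫ G = s ≫ g` and `τ₀ ≫ G = (s ≫ t) ≫ D.zeroSection`;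
* `exists_isPreconnected_of_fibrewiseAlgEquivZero` : the statement on points;
* `mem_connectedComponent_of_fibrewiseAlgEquivZero` : the same with `connectedComponent`.
-/

set_option autoImplicit false

universe u

open CategoryTheory CategoryTheory.Limits AlgebraicGeometry AlgebraicGeometry.RelPicard
  NeronModelInfra GoodReductionJacobian

namespace Fermat.Agent.S25.helper8183

noncomputable section

variable {R : Type u} [CommRing R] {C : Scheme.{u}} {c : C ⟶ Spec (CommRingCat.of R)}
  {ε : SchemeHomOver (𝟙 (Spec (CommRingCat.of R))) c}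

/-- A family as in `fibrewiseAlgEquivZero_of_family` has a classifying morphism to the
object representing any cut `Pc₀` that contains the fibrewise-algebraically-equivalent-to-zero
cut. -/
theorem exists_classifying_of_family_of_le {Pc₀ : SubPicCondition c ε}
    (hle : ∀ {T : Scheme.{u}} (t : T ⟶ Spec (CommRingCat.of R)) (M : RigidifiedLineBundle c ε t),
      FibrewiseAlgEquivZero M → Pc₀.P t M)
    {D : RelativePic0Designation R c} (h : RepresentsRelSubPic c ε Pc₀ D)
    {T' : Scheme.{u}} {t' : T' ⟶ Spec (CommRingCat.of R)} (M' : (pullback c t').Modules)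
    (hM' : Scheme.Modules.IsInvertible M')
    {Ω : Type u} [Field Ω] (hT : T' ⟶ Spec (CommRingCat.of Ω)) [LocallyOfFiniteType hT]
    [GeometricallyIntegral hT] (ω : Spec (CommRingCat.of Ω) ⟶ Spec (CommRingCat.of R))
    (hω : hT ≫ ω = t') (t₀ : SchemeHomOver ω t') (ht₀ : t₀.1 ≫ hT = 𝟙 _)
    (e₀ : Nonempty (pb (baseChangeSnd c t₀) M' ≅
      SheafOfModules.unit (pullback c ω).ringCatSheaf)) :
    ∃ G : SchemeHomOver t' D.toBase, ClassifiesLocally h M' G := by
  have hN0 := (hM'.pullback (rigSection c t' ε)).exists_trivialization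
  choose U hxU hU using hN0
  let N : ∀ x : T', RigidifiedLineBundle c ε ((U x).ι ≫ t') := fun x =>
    { L := pb (baseChangeSnd c (opensHom t' (U x))) M'
      isInvertible := hM'.pullback _
      rigidified := ⟨pbSquare _ _ _ _ (rigSection_baseChangeSnd c ε (opensHom t' (U x))) M' ≪≫
        (hU x).some⟩ }
  have hNmem : ∀ x, FibrewiseAlgEquivZero (N x) := fun x =>
    fibrewiseAlgEquivZero_of_family M' hM' hT ω hω t₀ ht₀ e₀ (opensHom t' (U x)) (N x)
      ⟨Iso.refl _⟩
  have hg := fun x => h.univ ((U x).ι ≫ t') (N x) (hle _ _ (hNmem x))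
  choose g hg hguniq using hg
  let 𝒰 : T'.OpenCover := {
    I₀ := T', X i := (U i), f i := (U i).ι,
    mem₀ := by
      rw [Scheme.presieve₀_mem_precoverage_iff]
      refine ⟨fun x ↦ ⟨x, by simpa using hxU x⟩, inferInstance⟩ }
  have hcompat : ∀ x y, pullback.fst (𝒰.f x) (𝒰.f y) ≫ (g x).1 =
      pullback.snd (𝒰.f x) (𝒰.f y) ≫ (g y).1 := by
    intro x y
    let a₁ : SchemeHomOver (pullback.fst (𝒰.f x) (𝒰.f y) ≫ (U x).ι ≫ t') ((U x).ι ≫ t') :=
      ⟨pullback.fst (𝒰.f x) (𝒰.f y), rfl⟩
    let a₂ : SchemeHomOver (pullback.fst (𝒰.f x) (𝒰.f y) ≫ (U x).ι ≫ t') ((U y).ι ≫ t') :=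
      ⟨pullback.snd (𝒰.f x) (𝒰.f y), by
        rw [← Category.assoc, ← Category.assoc]
        congr 1
        exact pullback.condition.symm⟩
    have hw : baseChangeSnd c a₁ ≫ baseChangeSnd c (opensHom t' (U x)) =
        baseChangeSnd c a₂ ≫ baseChangeSnd c (opensHom t' (U y)) :=
      baseChangeSnd_comp_eq _ _ _ _ pullback.condition
    exact comp_eq_of_iso h a₁ a₂ (g x) (g y)
      ⟨pbMap _ (hg x).some ≪≫ pbSquare _ _ _ _ hw M' ≪≫ pbMap _ (hg y).some.symm⟩
  let G : T' ⟶ D.P := 𝒰.glueMorphisms (fun x => (g x).1) hcompat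
  have hG : ∀ x, (U x).ι ≫ G = (g x).1 := fun x => 𝒰.ι_glueMorphisms _ hcompat x
  have hGj : G ≫ D.toBase = t' := by
    refine 𝒰.hom_ext _ _ fun x => ?_
    change (U x).ι ≫ G ≫ D.toBase = (U x).ι ≫ t'
    rw [← Category.assoc, hG, (g x).2]
  refine ⟨⟨G, hGj⟩, fun x => ⟨U x, hxU x, ⟨?_⟩⟩⟩
  have hw : baseChangeSnd c (opensHom t' (U x)) ≫
      baseChangeSnd c (⟨G, hGj⟩ : SchemeHomOver t' D.toBase) = baseChangeSnd c (g x) :=
    baseChangeSnd_comp_eq' _ _ _ (hG x)
  exact pbComp _ _ _ ≪≫ pbCongr hw _ ≪≫ (hg x).some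

/-- Let `D` represent a cut `Pc₀` containing the cut of bundles fibrewise algebraically
equivalent to zero, let `M` be such a bundle over `T` with classifying map `g`, and let `s` be a
geometric point of `T`. Then there are an irreducible scheme `T'`, a morphism `G : T' ⟶ D.P`
and two points `τ₀`, `τ₁` of `T'` such that `G` maps `τ₁` to `g(s)` and `τ₀` to the zero
point. -/
theorem exists_irreducible_family_of_fibrewiseAlgEquivZero {Pc₀ : SubPicCondition c ε}
    (hle : ∀ {T : Scheme.{u}} (t : T ⟶ Spec (CommRingCat.of R)) (M : RigidifiedLineBundle c ε t),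
      FibrewiseAlgEquivZero M → Pc₀.P t M)
    {D : RelativePic0Designation R c} (h : RepresentsRelSubPic c ε Pc₀ D)
    {T : Scheme.{u}} {t : T ⟶ Spec (CommRingCat.of R)} (M : RigidifiedLineBundle c ε t)
    (hM : FibrewiseAlgEquivZero M) (g : SchemeHomOver t D.toBase)
    (hg : Nonempty ((h.poincare.pullbackAlong g).L ≅ M.L))
    (Ω : Type u) [Field Ω] [IsAlgClosed Ω] (s : Spec (CommRingCat.of Ω) ⟶ T) :
    ∃ (T' : Scheme.{u}) (_ : IrreducibleSpace T') (G : T' ⟶ D.P)
      (τ₀ τ₁ : Spec (CommRingCat.of Ω) ⟶ T'),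
      τ₁ ≫ G = s ≫ g.1 ∧ τ₀ ≫ G = (s ≫ t) ≫ D.zeroSection := by
  obtain ⟨eg⟩ := hg
  let ω : Spec (CommRingCat.of Ω) ⟶ Spec (CommRingCat.of R) := s ≫ t
  obtain ⟨T', hT, hft, hgi, N, hN, t₀, t₁, ⟨e₀⟩, ⟨e₁⟩⟩ := hM Ω s
  have := hft
  have := hgi
  -- transport the family to `C ×_R T'`
  let a : pullback (pullback.snd c t) s ⟶ Spec (CommRingCat.of Ω) := fibreAt c t s
  let t' : T' ⟶ Spec (CommRingCat.of R) := hT ≫ ω
  have hcondCt : pullback.fst c t' ≫ c = pullback.snd c t' ≫ hT ≫ s ≫ t :=
    pullback.condition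
  let toCs : pullback c t' ⟶ pullback (pullback.snd c t) s :=
    pullback.lift (pullback.lift (pullback.fst c t') (pullback.snd c t' ≫ hT ≫ s)
      (by simpa only [Category.assoc] using hcondCt)) (pullback.snd c t' ≫ hT)
      (by rw [pullback.lift_snd, Category.assoc])
  let θ : pullback c t' ⟶ pullback a hT :=
    pullback.lift toCs (pullback.snd c t') (pullback.lift_snd _ _ _)
  have hθ₁ : θ ≫ pullback.fst a hT = toCs := pullback.lift_fst _ _ _
  have hθ₂ : θ ≫ pullback.snd a hT = pullback.snd c t' := pullback.lift_snd _ _ _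
  have htoCs₁ : toCs ≫ pullback.fst (pullback.snd c t) s ≫ pullback.fst c t =
      pullback.fst c t' := by
    simp only [toCs, pullback.lift_fst_assoc, pullback.lift_fst]
  have htoCs₂ : toCs ≫ pullback.fst (pullback.snd c t) s ≫ pullback.snd c t =
      pullback.snd c t' ≫ hT ≫ s := by
    simp only [toCs, pullback.lift_fst_assoc, pullback.lift_snd]
  have htoCs₃ : toCs ≫ pullback.snd (pullback.snd c t) s = pullback.snd c t' ≫ hT :=
    pullback.lift_snd _ _ _
  let M' : (pullback c t').Modules := pb θ N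
  have hM' : Scheme.Modules.IsInvertible M' := hN.pullback θ
  let τ₀ : SchemeHomOver ω t' := ⟨t₀.1, by
    simp only [t', ← Category.assoc, t₀.2, Category.id_comp]⟩
  let τ₁ : SchemeHomOver ω t' := ⟨t₁.1, by
    simp only [t', ← Category.assoc, t₁.2, Category.id_comp]⟩
  -- the comparison map on the fibre over a section
  have hcondCω : pullback.fst c ω ≫ c = pullback.snd c ω ≫ s ≫ t := pullback.condition
  let toCs' : pullback c ω ⟶ pullback (pullback.snd c t) s :=
    pullback.lift (pullback.lift (pullback.fst c ω) (pullback.snd c ω ≫ s)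
      (by simpa only [Category.assoc] using hcondCω)) (pullback.snd c ω)
      (by rw [pullback.lift_snd])
  let ρ : pullback c ω ⟶ pullback a (𝟙 (Spec (CommRingCat.of Ω))) :=
    pullback.lift toCs' (pullback.snd c ω) (by
      rw [Category.comp_id]; exact pullback.lift_snd _ _ _)
  have hρ₁ : ρ ≫ pullback.fst a (𝟙 _) = toCs' := pullback.lift_fst _ _ _
  have hρ₂ : ρ ≫ pullback.snd a (𝟙 _) = pullback.snd c ω := pullback.lift_snd _ _ _
  have htoCs'₁ : toCs' ≫ pullback.fst (pullback.snd c t) s ≫ pullback.fst c t =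
      pullback.fst c ω := by
    simp only [toCs', pullback.lift_fst_assoc, pullback.lift_fst]
  have htoCs'₂ : toCs' ≫ pullback.fst (pullback.snd c t) s ≫ pullback.snd c t =
      pullback.snd c ω ≫ s := by
    simp only [toCs', pullback.lift_fst_assoc, pullback.lift_snd]
  have htoCs'₃ : toCs' ≫ pullback.snd (pullback.snd c t) s = pullback.snd c ω :=
    pullback.lift_snd _ _ _
  have hsq : ∀ (τ : SchemeHomOver ω t') (tt : SchemeHomOver (𝟙 (Spec (CommRingCat.of Ω))) hT),
      τ.1 = tt.1 → baseChangeSnd c τ ≫ θ = ρ ≫ baseChangeSnd a tt := by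
    intro τ tt hτ
    apply pullback.hom_ext
    · rw [Category.assoc, hθ₁, Category.assoc, baseChangeSnd_fst, hρ₁]
      apply pullback.hom_ext
      · apply pullback.hom_ext
        · simp only [Category.assoc]
          rw [htoCs₁, htoCs'₁, baseChangeSnd_fst]
        · simp only [Category.assoc]
          rw [htoCs₂, htoCs'₂, baseChangeSnd_snd_assoc, hτ, reassoc_of% tt.2]
      · simp only [Category.assoc]
        rw [htoCs₃, htoCs'₃, baseChangeSnd_snd_assoc, hτ, tt.2, Category.comp_id]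
    · simp only [Category.assoc]
      rw [hθ₂, baseChangeSnd_snd, baseChangeSnd_snd, reassoc_of% hρ₂, hτ]
  have e₀' : pb (baseChangeSnd c τ₀) M' ≅ SheafOfModules.unit (pullback c ω).ringCatSheaf :=
    pbSquare _ _ _ _ (hsq τ₀ t₀ rfl) N ≪≫ pbMap ρ e₀ ≪≫ pbUnit ρ
  obtain ⟨G, hG⟩ := exists_classifying_of_family_of_le hle h M' hM' hT ω rfl τ₀ t₀.2 ⟨e₀'⟩
  -- the classifying map sends `t₁` to the image of the geometric point
  let sT : SchemeHomOver ω t := ⟨s, rfl⟩
  let gs : SchemeHomOver ω D.toBase := ⟨s ≫ g.1, by rw [Category.assoc, g.2]⟩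
  have hgs : baseChangeSnd c sT ≫ baseChangeSnd c g = baseChangeSnd c gs :=
    baseChangeSnd_comp_eq' sT g gs rfl
  have hcomp : (ρ ≫ pullback.fst a (𝟙 _)) ≫ pullback.fst (pullback.snd c t) s =
      baseChangeSnd c sT := by
    rw [hρ₁]
    apply pullback.hom_ext
    · simp only [Category.assoc]
      rw [htoCs'₁, baseChangeSnd_fst]
    · simp only [Category.assoc]
      rw [htoCs'₂, baseChangeSnd_snd]
  have h1 : τ₁.1 ≫ G.1 = s ≫ g.1 :=
    comp_eq_of_classifiesLocally h M' G hG τ₁ gs
      ⟨(pbCongr hgs _).symm ≪≫ (pbComp _ _ _).symm ≪≫ pbMap _ eg ≪≫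
        (pbSquare _ _ _ _ (hsq τ₁ t₁ rfl) N ≪≫ pbMap ρ e₁ ≪≫ pbComp _ _ _ ≪≫ pbComp _ _ _ ≪≫
          pbCongr hcomp _).symm⟩
  -- ... and `t₀` to the zero point
  let g0 : SchemeHomOver ω D.toBase := ⟨ω ≫ D.zeroSection, by
    rw [Category.assoc, D.zeroSection_toBase, Category.comp_id]⟩
  let zs : SchemeHomOver (𝟙 (Spec (CommRingCat.of R))) D.toBase :=
    ⟨D.zeroSection, D.zeroSection_toBase⟩
  let ωh : SchemeHomOver ω (𝟙 (Spec (CommRingCat.of R))) := ⟨ω, Category.comp_id _⟩
  have hg0 : baseChangeSnd c ωh ≫ baseChangeSnd c zs = baseChangeSnd c g0 :=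
    baseChangeSnd_comp_eq' ωh zs g0 rfl
  have h0 : τ₀.1 ≫ G.1 = ω ≫ D.zeroSection :=
    comp_eq_of_classifiesLocally h M' G hG τ₀ g0
      ⟨(pbCongr hg0 _).symm ≪≫ (pbComp _ _ _).symm ≪≫ pbMap _ h.zero.some ≪≫ pbUnit _ ≪≫
        e₀'.symm⟩
  exact ⟨T', GeometricallyIrreducible.irreducibleSpace_of_subsingleton hT, G.1, τ₀.1, τ₁.1,
    h1, h0⟩

/-- Let `D` represent a cut `Pc₀` containing the cut of bundles fibrewise algebraically
equivalent to zero. If `g : T ⟶ D.P` classifies a bundle fibrewise algebraically equivalent to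
zero, then every point `g p` is joined to the zero point over `t p` by a preconnected subset
of `D.P`. -/
theorem exists_isPreconnected_of_fibrewiseAlgEquivZero {Pc₀ : SubPicCondition c ε}
    (hle : ∀ {T : Scheme.{u}} (t : T ⟶ Spec (CommRingCat.of R)) (M : RigidifiedLineBundle c ε t),
      FibrewiseAlgEquivZero M → Pc₀.P t M)
    {D : RelativePic0Designation R c} (h : RepresentsRelSubPic c ε Pc₀ D)
    {T : Scheme.{u}} {t : T ⟶ Spec (CommRingCat.of R)} (M : RigidifiedLineBundle c ε t)
    (hM : FibrewiseAlgEquivZero M) (g : SchemeHomOver t D.toBase)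
    (hg : Nonempty ((h.poincare.pullbackAlong g).L ≅ M.L)) (p : T) :
    ∃ S : Set D.P, _root_.IsPreconnected S ∧ g.1 p ∈ S ∧ D.zeroSection (t p) ∈ S := by
  let Ω : Type u := AlgebraicClosure (T.residueField p)
  obtain ⟨s, hs⟩ : ∃ s : Spec (CommRingCat.of Ω) ⟶ T, ∀ q, s q = p :=
    ⟨Spec.map (CommRingCat.ofHom (algebraMap (T.residueField p) Ω)) ≫ T.fromSpecResidueField p,
      fun q => by
        simp only [Scheme.Hom.comp_apply]
        exact Scheme.fromSpecResidueField_apply _ _⟩
  obtain ⟨T', hT', G, τ₀, τ₁, h1, h0⟩ :=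
    exists_irreducible_family_of_fibrewiseAlgEquivZero hle h M hM g hg Ω s
  refine ⟨Set.range G, isPreconnected_range G.continuous, ⟨τ₁ default, ?_⟩, ⟨τ₀ default, ?_⟩⟩
  · rw [← Scheme.Hom.comp_apply, h1, Scheme.Hom.comp_apply, hs]
  · rw [← Scheme.Hom.comp_apply, h0, Scheme.Hom.comp_apply, Scheme.Hom.comp_apply, hs]

/-- The same statement in terms of connected components. -/
theorem mem_connectedComponent_of_fibrewiseAlgEquivZero {Pc₀ : SubPicCondition c ε}
    (hle : ∀ {T : Scheme.{u}} (t : T ⟶ Spec (CommRingCat.of R)) (M : RigidifiedLineBundle c ε t),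
      FibrewiseAlgEquivZero M → Pc₀.P t M)
    {D : RelativePic0Designation R c} (h : RepresentsRelSubPic c ε Pc₀ D)
    {T : Scheme.{u}} {t : T ⟶ Spec (CommRingCat.of R)} (M : RigidifiedLineBundle c ε t)
    (hM : FibrewiseAlgEquivZero M) (g : SchemeHomOver t D.toBase)
    (hg : Nonempty ((h.poincare.pullbackAlong g).L ≅ M.L)) (p : T) :
    g.1 p ∈ connectedComponent (D.zeroSection (t p)) := by
  obtain ⟨S, hS, h1, h0⟩ := exists_isPreconnected_of_fibrewiseAlgEquivZero hle h M hM g hg p
  exact hS.subset_connectedComponent h0 h1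

end

end Fermat.Agent.S25.helper8183
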