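import Fermat.Agent.S25.helper7939_Models

/-!
# S25, layer B (helper8243): the `unit` field of the two-chart dictionary

`stmt_Unit R : helper7939.Stmt_Unit R`: the structure sheaf of `C ×ₖ Spec B` is modelled
(in the opens form of `helper7939.Models`) by the trivial two-chart datum `GlueDatum.unit D B`.
-/

set_option autoImplicit false

universe u

open CategoryTheory CategoryTheory.Limits AlgebraicGeometry Opposite

namespace Fermat.Agent.S25.helper8243

open AlgebraicGeometry.RelPicard NeronModelInfra Fermat.Agent.S25.helper1705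
  Fermat.Agent.S25.helper2911 Fermat.Agent.S25.helper2945 Fermat.Agent.S25.helper7939

variable {k : Type u} [Field k] {C : Scheme.{u}} {c : C ⟶ Spec (CommRingCat.of k)}
  {ε : SchemeHomOver (𝟙 (Spec (CommRingCat.of k))) c} {D : CurveDatum k}

/-- The section model of the structure sheaf: the trivial two-chart datum. -/
noncomputable def secIsoUnit (R : Realization c ε D) (B : Type u) [CommRing B] [Algebra k B] :
    SecIso R (SheafOfModules.unit (pullback c (specStr k B)).ringCatSheaf)
      (GlueDatum.unit D B) where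
  e₀ := (γ₀ R B).toAddEquiv
  e₁ := (γ₁ R B).toAddEquiv
  e₀₁ := (γ₀₁ R B).toAddEquiv
  smul₀ r s := map_mul (γ₀ R B) r s
  smul₁ r s := map_mul (γ₁ R B) r s
  smul₀₁ r s := map_mul (γ₀₁ R B) r s
  comm₀ s := γ₀₁_res₀ R B s
  comm₁ s := γ₀₁_res₁ R B s

/-- Field `unit` of the dictionary. -/
theorem stmt_Unit (R : Realization c ε D) : Stmt_Unit R := fun B _ _ =>
  ⟨Scheme.Modules.isInvertible_unit _, ⟨secIsoUnit R B⟩⟩

end Fermat.Agent.S25.helper8243
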