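/-
S25 generic brick P8, backup copy in ELEMENTWISE form (helper8328):
sections of a pullback over affine charts = base change.

Imports Mathlib and P1 (`helper7939_TildeBaseChange`). All declarations live in
`Fermat.Agent.S25.helper8328`.

Main declarations (`X Y Z : Scheme.{u}`):

* `secPullback (f : Y ⟶ X) (M : X.Modules) (U : X.Opens) :
    Γ(M, U) →+ Γ((pullback f).obj M, f ⁻¹ᵁ U)` : the canonical pullback of sections (unit of
  `pullback f ⊣ pushforward f`), and `secPullbackLE f M U V e` (followed by restriction to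
  `V ≤ f ⁻¹ᵁ U`).  Semilinear along `f.app U` / `f.appLE U V e`, natural in `M`, compatible with
  restrictions, with `pullbackComp`, `pullbackCongr` and `restrictFunctorIsoPullback`.
* `IsSLBaseChange σ g` : `g : M →+ N` is a base change along the ring hom `σ` (universal
  `σ`-semilinear map), instance-free version of Mathlib's `IsBaseChange`, with conversions
  `IsSLBaseChange.isBaseChange`, `IsSLBaseChange.of_isBaseChange` and transport along linear
  equivalences.
* `secLin φ M : (extendScalars φ.hom).obj Γ(M) ⟶ Γ((pullback (Spec.map φ)).obj M)` with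
  `secLin_one_tmul`, and `isIso_secLin` when `M ≅ (Γ M)^~` (e.g. `M` quasi-coherent).
* `isSLBaseChange_Spec` : for `φ : R ⟶ S` and `M` on `Spec R` with `IsIso M.fromTildeΓ`, the
  pullback of global sections `Γ(M, ⊤) → Γ((Spec.map φ)^* M, ⊤)` is a base change along `φ`;
  `isBaseChange_Spec` is the same in Mathlib's `IsBaseChange` form.
* `squareIso`, `squareIso_hom_secPullbackLE` : pulling a section back along the two paths of a
  commutative square of schemes agrees up to the comparison isomorphism.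
* `chartPullback`, `chartPullback_secPullbackLE`, `isSLBaseChange_chartPullback` : for charts
  `a : Spec R ⟶ X`, `b : Spec S ⟶ Y` of `f : Y ⟶ X` with `b ≫ f = Spec.map φ ≫ a`, the global
  sections of `b^* f^* L` are the base change along `φ` of those of `a^* L`.
* `affineSecEquiv hU L : Γ(L, U) ≃ₗ[Γ(X, U)] Γ((pullback hU.fromSpec).obj L, ⊤)`.
* `isSLBaseChange_secPullbackLE` (P8, opens form): for ANY `f : Y ⟶ X`, `L` quasi-coherent on
  `X`, `U ⊆ X` and `V ⊆ Y` affine opens with `V ≤ f ⁻¹ᵁ U`, the map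
  `secPullbackLE f L U V e : Γ(L, U) → Γ(f^* L, V)` is a base change along `f.appLE U V e`;
  `isBaseChange_secPullbackLE` is the same in Mathlib's `IsBaseChange` form.
-/
import Mathlib
import Fermat.Agent.S25.helper7939_TildeBaseChange

set_option autoImplicit false

universe u

open CategoryTheory CategoryTheory.Limits AlgebraicGeometry Opposite

namespace Fermat.Agent.S25.helper8328

/-! ## Base change along a ring homomorphism, without instances -/

section SLBaseChange

/-- `g : M →+ N` is a *base change along `σ : A →+* B`*: it is `σ`-semilinear and universal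
among `σ`-semilinear additive maps from `M` to `B`-modules. This is `IsBaseChange` without any
`Algebra A B` / `Module A N` instances. -/
structure IsSLBaseChange {A B : Type u} [CommRing A] [CommRing B] (σ : A →+* B)
    {M N : Type u} [AddCommGroup M] [Module A M] [AddCommGroup N] [Module B N]
    (g : M →+ N) : Prop where
  map_smul : ∀ (a : A) (m : M), g (a • m) = σ a • g m
  existsUnique_lift : ∀ (P : Type u) [AddCommGroup P] [Module B P] (h : M →+ P),
    (∀ (a : A) (m : M), h (a • m) = σ a • h m) → ∃! h' : N →ₗ[B] P, ∀ m, h' (g m) = h m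

variable {A B : Type u} [CommRing A] [CommRing B] {σ : A →+* B}
  {M N : Type u} [AddCommGroup M] [Module A M] [AddCommGroup N] [Module B N] {g : M →+ N}

/-- Post-composition with a `B`-linear bijection. -/
lemma IsSLBaseChange.comp_right (hg : IsSLBaseChange σ g) {N' : Type u} [AddCommGroup N']
    [Module B N'] (ε : N ≃ₗ[B] N') (g' : M →+ N') (hg' : ∀ m, g' m = ε (g m)) :
    IsSLBaseChange σ g' where
  map_smul a m := by rw [hg', hg', hg.map_smul, ε.map_smul]
  existsUnique_lift P _ _ h hh := by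
    obtain ⟨h', h1, h2⟩ := hg.existsUnique_lift P h hh
    refine ⟨h'.comp ε.symm.toLinearMap, fun m => by simp [hg', h1], fun k hk => ?_⟩
    have := h2 (k.comp ε.toLinearMap) (fun m => by simpa [hg'] using hk m)
    rw [← this]
    ext n
    simp

/-- Pre-composition with an `A`-linear bijection. -/
lemma IsSLBaseChange.comp_left (hg : IsSLBaseChange σ g) {M' : Type u} [AddCommGroup M']
    [Module A M'] (ε : M' ≃ₗ[A] M) (g' : M' →+ N) (hg' : ∀ m, g' m = g (ε m)) :
    IsSLBaseChange σ g' where
  map_smul a m := by rw [hg', hg', ε.map_smul, hg.map_smul]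
  existsUnique_lift P _ _ h hh := by
    obtain ⟨h', h1, h2⟩ := hg.existsUnique_lift P (h.comp ε.symm.toLinearMap.toAddMonoidHom)
      (fun a m => by simp [hh])
    refine ⟨h', fun m => by simp [hg', h1], fun k hk => ?_⟩
    refine h2 k (fun m => ?_)
    have := hk (ε.symm m)
    simpa [hg'] using this

/-- A base change along `algebraMap A B` in the above sense is a base change in Mathlib's
sense, for arbitrary compatible instances. -/
lemma IsSLBaseChange.isBaseChange [Algebra A B] [Module A N] [IsScalarTower A B N]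
    (hg : IsSLBaseChange (algebraMap A B) g) (g' : M →ₗ[A] N) (hg' : ∀ m, g' m = g m) :
    IsBaseChange B g' := by
  refine IsBaseChange.of_lift_unique g' (fun Q iQ iA iB iT k => ?_)
  let iG : AddCommGroup Q := Module.addCommMonoidToAddCommGroup B
  obtain ⟨h', h1, h2⟩ := hg.existsUnique_lift Q k.toAddMonoidHom
    (fun a m => by simp)
  refine ⟨h', ?_, fun k' hk' => h2 k' (fun m => ?_)⟩
  · ext m
    simpa [hg'] using h1 m
  · have := congr($hk' m)
    simpa [hg'] using this

/-- Conversely, Mathlib's `IsBaseChange` gives a base change in the above sense. -/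
lemma IsSLBaseChange.of_isBaseChange [Algebra A B] [Module A N] [IsScalarTower A B N]
    (g' : M →ₗ[A] N) (hg' : IsBaseChange B g') :
    IsSLBaseChange (algebraMap A B) g'.toAddMonoidHom where
  map_smul a m := by simp
  existsUnique_lift P _ _ h hh := by
    let _ : Module A P := Module.compHom P (algebraMap A B)
    have : IsScalarTower A B P := IsScalarTower.of_algebraMap_smul fun _ _ => rfl
    let k : M →ₗ[A] P := { toFun := h, map_add' := h.map_add, map_smul' := fun a m => hh a m }
    refine ⟨hg'.lift k, fun m => hg'.lift_eq k m, fun k' hk' => ?_⟩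
    refine hg'.algHom_ext' _ _ ?_
    ext m
    have h3 := hk' m
    simp only [LinearMap.toAddMonoidHom_coe] at h3
    simp [h3, hg'.lift_eq, k]

end SLBaseChange

/-! ## An abstract mate computation -/

section Abstract

universe v₁ v₂ v₃ v₄ u₁ u₂ u₃ u₄

variable {C : Type u₁} [Category.{v₁} C] {D : Type u₂} [Category.{v₂} D]
  {C' : Type u₃} [Category.{v₃} C'] {D' : Type u₄} [Category.{v₄} D']
  {F : C ⥤ D} {G : D ⥤ C} (adjT : F ⊣ G)
  {P : D ⥤ D'} {Q : D' ⥤ D} (adjP : P ⊣ Q)
  {E : C ⥤ C'} {Rs : C' ⥤ C} (adjE : E ⊣ Rs)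
  {F' : C' ⥤ D'} {G' : D' ⥤ C'} (adjT' : F' ⊣ G')
  (τ : Q ⋙ G ⟶ G' ⋙ Rs)

/-- The mate `E (G M) ⟶ G' (P M)` of `τ : Q ⋙ G ⟶ G' ⋙ Rs` with respect to the adjunctions
`P ⊣ Q` and `E ⊣ Rs`. -/
def mateApp (M : D) : E.obj (G.obj M) ⟶ G'.obj (P.obj M) :=
  (adjE.homEquiv _ _).symm (G.map (adjP.unit.app M) ≫ τ.app (P.obj M))

lemma mateApp_naturality {M M' : D} (g : M ⟶ M') :
    E.map (G.map g) ≫ mateApp adjP adjE τ M' = mateApp adjP adjE τ M ≫ G'.map (P.map g) := by
  apply (adjE.homEquiv _ _).injective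
  rw [mateApp, mateApp, Adjunction.homEquiv_naturality_left, Equiv.apply_symm_apply,
    Adjunction.homEquiv_naturality_right, Equiv.apply_symm_apply, ← Category.assoc,
    ← G.map_comp]
  have h1 := adjP.unit.naturality g
  have h2 := τ.naturality (P.map g)
  simp only [Functor.id_obj, Functor.id_map, Functor.comp_obj, Functor.comp_map] at h1 h2
  rw [h1, G.map_comp, Category.assoc, Category.assoc, h2]

lemma mateApp_unit (θ : E ⋙ F' ⟶ F ⋙ P)
    (hθ : conjugateEquiv (adjT.comp adjP) (adjE.comp adjT') θ = τ) (N : C) :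
    E.map (adjT.unit.app N) ≫ mateApp adjP adjE τ (F.obj N) =
      adjT'.unit.app (E.obj N) ≫ G'.map (θ.app N) := by
  apply (adjE.homEquiv _ _).injective
  have h1 := unit_conjugateEquiv (adjT.comp adjP) (adjE.comp adjT') θ N
  rw [hθ] at h1
  simp only [Adjunction.comp_unit_app, Functor.comp_obj, Functor.comp_map, Category.assoc] at h1
  rw [mateApp, Adjunction.homEquiv_naturality_left]
  dsimp only [Functor.comp_obj, Functor.id_obj]
  rw [Equiv.apply_symm_apply, h1, Adjunction.homEquiv_unit, Rs.map_comp]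

/-- If `τ` is conjugate to an isomorphism `θ` for the composite adjunctions, the unit of
`F' ⊣ G'` is an isomorphism and the counit of `F ⊣ G` is an isomorphism at `M`, then the mate
of `τ` at `M` is an isomorphism. -/
lemma isIso_mateApp (θ : E ⋙ F' ⟶ F ⋙ P) [IsIso θ] [IsIso adjT'.unit]
    (hθ : conjugateEquiv (adjT.comp adjP) (adjE.comp adjT') θ = τ) (M : D)
    [IsIso (adjT.counit.app M)] : IsIso (mateApp adjP adjE τ M) := by
  have h1 := mateApp_unit adjT adjP adjE adjT' τ θ hθ (G.obj M)
  have h2 := mateApp_naturality adjP adjE τ (adjT.counit.app M)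
  dsimp only [Functor.comp_obj, Functor.id_obj] at h2
  have h3 : E.map (adjT.unit.app (G.obj M)) ≫ E.map (G.map (adjT.counit.app M)) = 𝟙 _ := by
    rw [← E.map_comp, adjT.right_triangle_components]
    exact E.map_id _
  have h4 : mateApp adjP adjE τ M =
      adjT'.unit.app (E.obj (G.obj M)) ≫ G'.map (θ.app (G.obj M)) ≫
        G'.map (P.map (adjT.counit.app M)) := by
    rw [← Category.assoc, ← h1, Category.assoc, ← h2, ← Category.assoc, h3]
    exact (Category.id_comp _).symm
  rw [h4]
  infer_instance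

end Abstract

noncomputable section

/-! ## Pullback of sections -/

variable {X Y Z : Scheme.{u}}

/-- The canonical pullback of sections `Γ(M, U) → Γ(f^* M, f⁻¹ U)`: the unit of the adjunction
`pullback f ⊣ pushforward f` on sections. -/
def secPullback (f : Y ⟶ X) (M : X.Modules) (U : X.Opens) :
    Γ(M, U) →+ Γ((Scheme.Modules.pullback f).obj M, f ⁻¹ᵁ U) :=
  (((Scheme.Modules.pullbackPushforwardAdjunction f).unit.app M).app U).hom

lemma secPullback_smul (f : Y ⟶ X) (M : X.Modules) (U : X.Opens) (r : Γ(X, U)) (m : Γ(M, U)) :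
    secPullback f M U (r • m) = f.app U r • secPullback f M U m :=
  Scheme.Modules.Hom.app_smul ((Scheme.Modules.pullbackPushforwardAdjunction f).unit.app M) r m

/-- Restriction of sections of a module, as an additive map. -/
def resM (M : X.Modules) {U V : X.Opens} (h : V ≤ U) : Γ(M, U) →+ Γ(M, V) :=
  (M.presheaf.map (homOfLE h).op).hom

lemma resM_resM (M : X.Modules) {U V W : X.Opens} (h : V ≤ U) (h' : W ≤ V) (m : Γ(M, U)) :
    resM M h' (resM M h m) = resM M (h'.trans h) m := by
  simp only [resM]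
  rw [← ConcreteCategory.comp_apply, ← Functor.map_comp]
  rfl

lemma resM_self (M : X.Modules) {U : X.Opens} (m : Γ(M, U)) : resM M (le_refl U) m = m := by
  simp only [resM]
  have : (homOfLE (le_refl U)).op = 𝟙 (op U) := rfl
  rw [this, M.presheaf.map_id]
  rfl

lemma resM_smul (M : X.Modules) {U V : X.Opens} (h : V ≤ U) (r : Γ(X, U)) (m : Γ(M, U)) :
    resM M h (r • m) = X.presheaf.map (homOfLE h).op r • resM M h m :=
  M.map_smul (homOfLE h) r m

lemma hom_app_resM {M N : X.Modules} (ψ : M ⟶ N) {U V : X.Opens} (h : V ≤ U) (m : Γ(M, U)) :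
    ψ.app V (resM M h m) = resM N h (ψ.app U m) := by
  have := ψ.mapPresheaf.naturality (homOfLE h).op
  exact congr($this m)

/-- Pullback of sections followed by restriction to an open `V ≤ f⁻¹ U`. -/
def secPullbackLE (f : Y ⟶ X) (M : X.Modules) (U : X.Opens) (V : Y.Opens) (e : V ≤ f ⁻¹ᵁ U) :
    Γ(M, U) →+ Γ((Scheme.Modules.pullback f).obj M, V) :=
  (resM _ e).comp (secPullback f M U)

lemma secPullbackLE_smul (f : Y ⟶ X) (M : X.Modules) (U : X.Opens) (V : Y.Opens)
    (e : V ≤ f ⁻¹ᵁ U) (r : Γ(X, U)) (m : Γ(M, U)) :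
    secPullbackLE f M U V e (r • m) = f.appLE U V e r • secPullbackLE f M U V e m := by
  simp only [secPullbackLE, AddMonoidHom.comp_apply, secPullback_smul, resM_smul]
  rfl

lemma secPullback_resM (f : Y ⟶ X) (M : X.Modules) {U U' : X.Opens} (h : U' ≤ U) (m : Γ(M, U)) :
    secPullback f M U' (resM M h m) =
      resM _ (f.preimage_mono h) (secPullback f M U m) :=
  hom_app_resM ((Scheme.Modules.pullbackPushforwardAdjunction f).unit.app M) h m

lemma secPullbackLE_resM (f : Y ⟶ X) (M : X.Modules) {U U' : X.Opens} (h : U' ≤ U)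
    (V : Y.Opens) (e : V ≤ f ⁻¹ᵁ U') (m : Γ(M, U)) :
    secPullbackLE f M U' V e (resM M h m) =
      secPullbackLE f M U V (e.trans (f.preimage_mono h)) m := by
  simp only [secPullbackLE, AddMonoidHom.comp_apply, secPullback_resM, resM_resM]

lemma resM_secPullbackLE (f : Y ⟶ X) (M : X.Modules) (U : X.Opens) {V V' : Y.Opens}
    (e : V ≤ f ⁻¹ᵁ U) (h : V' ≤ V) (m : Γ(M, U)) :
    resM _ h (secPullbackLE f M U V e m) = secPullbackLE f M U V' (h.trans e) m := by
  simp only [secPullbackLE, AddMonoidHom.comp_apply, resM_resM]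

lemma secPullbackLE_self (f : Y ⟶ X) (M : X.Modules) (U : X.Opens) (m : Γ(M, U)) :
    secPullbackLE f M U (f ⁻¹ᵁ U) le_rfl m = secPullback f M U m := by
  simp only [secPullbackLE, AddMonoidHom.comp_apply, resM_self]

/-- Naturality of the pullback of sections in the module. -/
lemma secPullback_naturality (f : Y ⟶ X) {M N : X.Modules} (ψ : M ⟶ N) (U : X.Opens)
    (m : Γ(M, U)) :
    ((Scheme.Modules.pullback f).map ψ).app (f ⁻¹ᵁ U) (secPullback f M U m) =
      secPullback f N U (ψ.app U m) := by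
  have h := (Scheme.Modules.pullbackPushforwardAdjunction f).unit.naturality ψ
  have h2 := congr(($h).app U)
  exact congr($h2 m).symm

lemma secPullbackLE_naturality (f : Y ⟶ X) {M N : X.Modules} (ψ : M ⟶ N) (U : X.Opens)
    (V : Y.Opens) (e : V ≤ f ⁻¹ᵁ U) (m : Γ(M, U)) :
    ((Scheme.Modules.pullback f).map ψ).app V (secPullbackLE f M U V e m) =
      secPullbackLE f N U V e (ψ.app U m) := by
  simp only [secPullbackLE, AddMonoidHom.comp_apply, hom_app_resM, secPullback_naturality]

/-- Compatibility of the pullback of sections with composition. -/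
lemma secPullback_comp (g : Z ⟶ Y) (f : Y ⟶ X) (M : X.Modules) (U : X.Opens) (m : Γ(M, U)) :
    ((Scheme.Modules.pullbackComp g f).inv.app M).app ((g ≫ f) ⁻¹ᵁ U)
        (secPullback (g ≫ f) M U m) =
      secPullback g ((Scheme.Modules.pullback f).obj M) (f ⁻¹ᵁ U) (secPullback f M U m) := by
  have h := unit_conjugateEquiv
    ((Scheme.Modules.pullbackPushforwardAdjunction f).comp
      (Scheme.Modules.pullbackPushforwardAdjunction g))
    (Scheme.Modules.pullbackPushforwardAdjunction (g ≫ f))
    (Scheme.Modules.pullbackComp g f).inv M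
  rw [Scheme.Modules.conjugateEquiv_pullbackComp_inv] at h
  have h2 := congr(($h).app U)
  have h3 := congr($h2 m)
  exact h3.symm

lemma le_comp_preimage (g : Z ⟶ Y) (f : Y ⟶ X) {U : X.Opens} {V : Y.Opens}
    {W : Z.Opens} (e₁ : V ≤ f ⁻¹ᵁ U) (e₂ : W ≤ g ⁻¹ᵁ V) : W ≤ (g ≫ f) ⁻¹ᵁ U :=
  e₂.trans (g.preimage_mono e₁)

/-- Compatibility of the pullback of sections with composition, `LE` form (`inv` direction). -/
lemma secPullbackLE_comp_inv (g : Z ⟶ Y) (f : Y ⟶ X) (M : X.Modules) {U : X.Opens}
    {V : Y.Opens} {W : Z.Opens} (e₁ : V ≤ f ⁻¹ᵁ U) (e₂ : W ≤ g ⁻¹ᵁ V) (m : Γ(M, U)) :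
    ((Scheme.Modules.pullbackComp g f).inv.app M).app W
        (secPullbackLE (g ≫ f) M U W (le_comp_preimage g f e₁ e₂) m) =
      secPullbackLE g ((Scheme.Modules.pullback f).obj M) V W e₂ (secPullbackLE f M U V e₁ m) := by
  have h1 : secPullbackLE g ((Scheme.Modules.pullback f).obj M) V W e₂ (secPullbackLE f M U V e₁ m)
      = resM _ (le_comp_preimage g f e₁ e₂)
        (secPullback g ((Scheme.Modules.pullback f).obj M) (f ⁻¹ᵁ U) (secPullback f M U m)) := by
    simp only [secPullbackLE, AddMonoidHom.comp_apply]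
    have := hom_app_resM ((Scheme.Modules.pullbackPushforwardAdjunction g).unit.app
      ((Scheme.Modules.pullback f).obj M)) e₁ (secPullback f M U m)
    change secPullback g _ V (resM _ e₁ (secPullback f M U m)) =
      resM _ (g.preimage_mono e₁) (secPullback g _ (f ⁻¹ᵁ U) (secPullback f M U m)) at this
    rw [this, resM_resM]
    rfl
  rw [h1, ← secPullback_comp]
  simp only [secPullbackLE, AddMonoidHom.comp_apply]
  exact hom_app_resM _ _ _

/-- Compatibility of the pullback of sections with composition, `LE` form (`hom` direction). -/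
lemma secPullbackLE_comp_hom (g : Z ⟶ Y) (f : Y ⟶ X) (M : X.Modules) {U : X.Opens}
    {V : Y.Opens} {W : Z.Opens} (e₁ : V ≤ f ⁻¹ᵁ U) (e₂ : W ≤ g ⁻¹ᵁ V) (m : Γ(M, U)) :
    ((Scheme.Modules.pullbackComp g f).hom.app M).app W
        (secPullbackLE g ((Scheme.Modules.pullback f).obj M) V W e₂ (secPullbackLE f M U V e₁ m)) =
      secPullbackLE (g ≫ f) M U W (le_comp_preimage g f e₁ e₂) m := by
  rw [← secPullbackLE_comp_inv g f M e₁ e₂ m]
  have : (Scheme.Modules.pullbackComp g f).inv.app M ≫ (Scheme.Modules.pullbackComp g f).hom.app M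
      = 𝟙 _ := by simp
  have h2 := congr(($this).app W)
  exact congr($h2 _)

/-- Compatibility of the pullback of sections with equality of morphisms. -/
lemma secPullbackLE_congr {f g : Y ⟶ X} (h : f = g) (M : X.Modules) {U : X.Opens} {V : Y.Opens}
    (e : V ≤ f ⁻¹ᵁ U) (m : Γ(M, U)) :
    ((Scheme.Modules.pullbackCongr h).hom.app M).app V (secPullbackLE f M U V e m) =
      secPullbackLE g M U V (h ▸ e) m := by
  subst h
  simp [Scheme.Modules.pullbackCongr]

/-- For an open immersion `j`, the pullback of sections along `j` is restriction of sections,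
via `restrictFunctorIsoPullback`. -/
lemma secPullbackLE_openImmersion (j : Y ⟶ X) [IsOpenImmersion j] (M : X.Modules) {U : X.Opens}
    {V : Y.Opens} (e : V ≤ j ⁻¹ᵁ U) (m : Γ(M, U)) :
    ((Scheme.Modules.restrictFunctorIsoPullback j).hom.app M).app V
        (resM M (show j ''ᵁ V ≤ U from (j.image_mono e).trans (j.image_preimage_le U)) m) =
      secPullbackLE j M U V e m := by
  have h := Adjunction.unit_leftAdjointUniq_hom_app (Scheme.Modules.restrictAdjunction j)
    (Scheme.Modules.pullbackPushforwardAdjunction j) M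
  have h2 := congr(($h).app U)
  have h3 := congr($h2 m)
  simp only [secPullbackLE, AddMonoidHom.comp_apply]
  change _ = resM _ e (((Scheme.Modules.pullbackPushforwardAdjunction j).unit.app M).app U m)
  rw [← h3]
  change _ = resM _ e (((Scheme.Modules.restrictFunctorIsoPullback j).hom.app M).app (j ⁻¹ᵁ U)
    (resM M (j.image_preimage_le U) m))
  refine Eq.trans ?_ (hom_app_resM ((Scheme.Modules.restrictFunctorIsoPullback j).hom.app M) e
    (show Γ(M.restrict j, j ⁻¹ᵁ U) from resM M (j.image_preimage_le U) m))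
  refine congrArg _ ?_
  exact (resM_resM M (j.image_preimage_le U) (j.image_mono e) m).symm

/-! ## The affine case: global sections of a pullback along `Spec.map φ` -/

open Fermat.Agent.S25.helper7939

variable {R S : CommRingCat.{u}} (φ : R ⟶ S)

/-- The `S`-linear map `S ⊗[R] Γ(M) ⟶ Γ(f^* M)`, `s ⊗ m ↦ s • f^* m`, for `f = Spec.map φ`. -/
def secLin (M : (Spec R).Modules) :
    (ModuleCat.extendScalars φ.hom).obj (moduleSpecΓFunctor.obj M) ⟶
      moduleSpecΓFunctor.obj ((Scheme.Modules.pullback (Spec.map φ)).obj M) :=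
  mateApp (Scheme.Modules.pullbackPushforwardAdjunction (Spec.map φ))
    (ModuleCat.extendRestrictScalarsAdj φ.hom) (pushforwardCompΓIso φ).hom M

lemma conjugateEquiv_tildePullbackIso_inv :
    conjugateEquiv (tildePullbackAdj φ) (extendTildeAdj φ) (tildePullbackIso φ).inv =
      (pushforwardCompΓIso φ).hom := by
  simp [tildePullbackIso]

/-- **Affine base change for sections**: if `M ≅ (Γ M)^~` (e.g. `M` quasi-coherent) then
`S ⊗[R] Γ(M) ⟶ Γ((Spec.map φ)^* M)` is an isomorphism. -/
instance isIso_secLin (M : (Spec R).Modules) [IsIso M.fromTildeΓ] : IsIso (secLin φ M) := by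
  have : IsIso ((tilde.adjunction (R := R)).counit.app M) := ‹IsIso M.fromTildeΓ›
  exact isIso_mateApp tilde.adjunction (Scheme.Modules.pullbackPushforwardAdjunction (Spec.map φ))
    (ModuleCat.extendRestrictScalarsAdj φ.hom) tilde.adjunction (pushforwardCompΓIso φ).hom
    (tildePullbackIso φ).inv (conjugateEquiv_tildePullbackIso_inv φ) M

lemma secLin_one_tmul (M : (Spec R).Modules) (m : Γ(M, (⊤ : (Spec R).Opens))) :
    (secLin φ M).hom ((1 : S) ⊗ₜ[R] m) = secPullback (Spec.map φ) M ⊤ m := by
  have h := ModuleCat.extendRestrictScalarsAdj_homEquiv_apply (f := φ.hom) (secLin φ M) m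
  rw [secLin, mateApp, Equiv.apply_symm_apply] at h
  exact h.symm.trans rfl

/-- An isomorphism `B ⊗[A] M ≅ N` in `ModuleCat B` exhibits `m ↦ β (1 ⊗ m)` as a base change. -/
lemma isSLBaseChange_of_isIso_extendScalars {A B : Type u} [CommRing A] [CommRing B]
    (σ : A →+* B) {M : ModuleCat.{u} A} {N : ModuleCat.{u} B}
    (β : (ModuleCat.extendScalars σ).obj M ⟶ N) [IsIso β] (g : M →+ N)
    (hg : ∀ m : M, g m = β.hom ((1 : B) ⊗ₜ[A] m)) : IsSLBaseChange σ g where
  map_smul a m := by
    have h := ((ModuleCat.extendRestrictScalarsAdj σ).homEquiv _ _ β).hom.map_smul a m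
    rw [hg, hg]
    exact h
  existsUnique_lift P _ _ h hh := by
    let h₁ : M ⟶ (ModuleCat.restrictScalars σ).obj (ModuleCat.of B P) :=
      ModuleCat.ofHom (Y := (ModuleCat.restrictScalars σ).obj (ModuleCat.of B P))
        { toFun := h, map_add' := h.map_add, map_smul' := fun r m => hh r m }
    let h₂ : (ModuleCat.extendScalars σ).obj M ⟶ ModuleCat.of B P :=
      ((ModuleCat.extendRestrictScalarsAdj σ).homEquiv _ _).symm h₁
    have h₂_one : ∀ m : M, h₂.hom ((1 : B) ⊗ₜ[A] m) = h m := by
      intro m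
      have h3 := ModuleCat.extendRestrictScalarsAdj_homEquiv_apply (f := σ) h₂ m
      rw [Equiv.apply_symm_apply] at h3
      exact h3.symm
    refine ⟨(inv β ≫ h₂).hom, fun m => ?_, fun k hk => ?_⟩
    · rw [hg, ← h₂_one m]
      change (β ≫ inv β ≫ h₂).hom _ = _
      rw [IsIso.hom_inv_id_assoc]
    · have h4 : β ≫ ModuleCat.ofHom k = h₂ := by
        apply ModuleCat.ExtendScalars.hom_ext
        intro m
        rw [h₂_one m, ← hk m, hg]
        rfl
      rw [← h4, IsIso.inv_hom_id_assoc]
      rfl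

/-- **Affine base change for sections**, universal form: for `M` on `Spec R` with
`M ≅ (Γ M)^~`, the pullback of global sections along `Spec.map φ` is a base change along `φ`. -/
theorem isSLBaseChange_Spec (M : (Spec R).Modules) [IsIso M.fromTildeΓ] :
    IsSLBaseChange φ.hom (secPullback (Spec.map φ) M ⊤) :=
  isSLBaseChange_of_isIso_extendScalars φ.hom (secLin φ M) _ (fun m => (secLin_one_tmul φ M m).symm)

/-- The `S`-linear bijection on global sections induced by an isomorphism of modules on
`Spec S`. -/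
def sectionsLinearEquiv {N₁ N₂ : (Spec S).Modules} (i : N₁ ≅ N₂) :
    Γ(N₁, (⊤ : (Spec S).Opens)) ≃ₗ[S] Γ(N₂, (⊤ : (Spec S).Opens)) :=
  (moduleSpecΓFunctor.mapIso i).toLinearEquiv

lemma sectionsLinearEquiv_apply {N₁ N₂ : (Spec S).Modules} (i : N₁ ≅ N₂)
    (x : Γ(N₁, (⊤ : (Spec S).Opens))) : sectionsLinearEquiv i x = i.hom.app ⊤ x := rfl

/-- The comparison isomorphism `b^* f^* ≅ a^* g^*` of a commutative square `b ≫ f = g ≫ a`
(this is `helper2321.pullbackSquareIso`). -/
def squareIso {A B : Scheme.{u}} (f : Y ⟶ X) (a : A ⟶ X) (b : B ⟶ Y) (g : B ⟶ A)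
    (w : b ≫ f = g ≫ a) :
    Scheme.Modules.pullback f ⋙ Scheme.Modules.pullback b ≅
      Scheme.Modules.pullback a ⋙ Scheme.Modules.pullback g :=
  Scheme.Modules.pullbackComp b f ≪≫ Scheme.Modules.pullbackCongr w ≪≫
    (Scheme.Modules.pullbackComp g a).symm

/-- Pulling a section back along the two paths of a commutative square gives the same result,
up to the comparison isomorphism. -/
lemma squareIso_hom_secPullbackLE {A B : Scheme.{u}} (f : Y ⟶ X) (a : A ⟶ X) (b : B ⟶ Y)
    (g : B ⟶ A) (w : b ≫ f = g ≫ a) (L : X.Modules) {U : X.Opens} {V : Y.Opens} {V' : A.Opens}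
    {W : B.Opens} (e₁ : V ≤ f ⁻¹ᵁ U) (e₂ : W ≤ b ⁻¹ᵁ V) (e₁' : V' ≤ a ⁻¹ᵁ U)
    (e₂' : W ≤ g ⁻¹ᵁ V') (m : Γ(L, U)) :
    ((squareIso f a b g w).hom.app L).app W
        (secPullbackLE b ((Scheme.Modules.pullback f).obj L) V W e₂ (secPullbackLE f L U V e₁ m)) =
      secPullbackLE g ((Scheme.Modules.pullback a).obj L) V' W e₂'
        (secPullbackLE a L U V' e₁' m) := by
  rw [← secPullbackLE_comp_inv g a L e₁' e₂' m]
  have h1 := secPullbackLE_comp_hom b f L e₁ e₂ m
  have h2 := secPullbackLE_congr w L (le_comp_preimage b f e₁ e₂) m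
  simp only [squareIso, Iso.trans_hom, Iso.symm_hom, NatTrans.comp_app,
    Scheme.Modules.Hom.comp_app]
  change ((Scheme.Modules.pullbackComp g a).inv.app L).app W
    (((Scheme.Modules.pullbackCongr w).hom.app L).app W
      (((Scheme.Modules.pullbackComp b f).hom.app L).app W _)) = _
  rw [h1, h2]

lemma secPullbackLE_top_top (M : (Spec R).Modules) (m : Γ(M, (⊤ : (Spec R).Opens))) :
    secPullbackLE (Spec.map φ) M ⊤ ⊤ le_top m = secPullback (Spec.map φ) M ⊤ m :=
  resM_self _ _

/-- Pullback of global sections between two affine charts `a : Spec R ⟶ X`, `b : Spec S ⟶ Y`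
of a morphism `f : Y ⟶ X`, with `b ≫ f = Spec.map φ ≫ a`. -/
def chartPullback (f : Y ⟶ X) (a : Spec R ⟶ X) (b : Spec S ⟶ Y)
    (w : b ≫ f = Spec.map φ ≫ a) (L : X.Modules) :
    Γ((Scheme.Modules.pullback a).obj L, (⊤ : (Spec R).Opens)) →+
      Γ((Scheme.Modules.pullback b).obj ((Scheme.Modules.pullback f).obj L),
        (⊤ : (Spec S).Opens)) :=
  (((squareIso f a b (Spec.map φ) w).inv.app L).app ⊤).hom.comp
    (secPullbackLE (Spec.map φ) ((Scheme.Modules.pullback a).obj L) ⊤ ⊤ le_top)

/-- `chartPullback` is the pullback of sections in charts. -/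
lemma chartPullback_secPullbackLE (f : Y ⟶ X) (a : Spec R ⟶ X) (b : Spec S ⟶ Y)
    (w : b ≫ f = Spec.map φ ≫ a) (L : X.Modules) {U : X.Opens} {V : Y.Opens}
    (e₁ : V ≤ f ⁻¹ᵁ U) (e₂ : ⊤ ≤ b ⁻¹ᵁ V) (e₁' : ⊤ ≤ a ⁻¹ᵁ U) (m : Γ(L, U)) :
    chartPullback φ f a b w L (secPullbackLE a L U ⊤ e₁' m) =
      secPullbackLE b ((Scheme.Modules.pullback f).obj L) V ⊤ e₂ (secPullbackLE f L U V e₁ m) := by
  have h := squareIso_hom_secPullbackLE f a b (Spec.map φ) w L e₁ e₂ e₁' le_top m
  simp only [chartPullback, AddMonoidHom.comp_apply]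
  rw [← h]
  have h2 : (squareIso f a b (Spec.map φ) w).hom.app L ≫ (squareIso f a b (Spec.map φ) w).inv.app L
      = 𝟙 _ := by simp
  have h3 := congr(($h2).app ⊤)
  exact congr($h3 _)

/-- **Base change between affine charts**: for a commutative square `b ≫ f = Spec.map φ ≫ a`
and `L` on `X` with `a^* L ≅ (Γ (a^* L))^~` (e.g. `a^* L` quasi-coherent), the global sections
of `b^* f^* L` are the base change along `φ` of the global sections of `a^* L`. -/
theorem isSLBaseChange_chartPullback (f : Y ⟶ X) (a : Spec R ⟶ X) (b : Spec S ⟶ Y)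
    (w : b ≫ f = Spec.map φ ≫ a) (L : X.Modules)
    [IsIso ((Scheme.Modules.pullback a).obj L).fromTildeΓ] :
    IsSLBaseChange φ.hom (chartPullback φ f a b w L) :=
  (isSLBaseChange_Spec φ ((Scheme.Modules.pullback a).obj L)).comp_right
    (sectionsLinearEquiv ((squareIso f a b (Spec.map φ) w).symm.app L)) _
    (fun m => by
      have h := secPullbackLE_top_top φ ((Scheme.Modules.pullback a).obj L) m
      simp only [chartPullback, AddMonoidHom.comp_apply]
      exact congrArg (((squareIso f a b (Spec.map φ) w).inv.app L).app ⊤).hom h)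

/-- Mathlib's `IsBaseChange` form of `isSLBaseChange_Spec`, for arbitrary compatible instances. -/
theorem isBaseChange_Spec (M : (Spec R).Modules) [IsIso M.fromTildeΓ] [Algebra R S]
    (halg : algebraMap R S = φ.hom)
    [Module R Γ((Scheme.Modules.pullback (Spec.map φ)).obj M, (Spec.map φ) ⁻¹ᵁ ⊤)]
    [IsScalarTower R S Γ((Scheme.Modules.pullback (Spec.map φ)).obj M, (Spec.map φ) ⁻¹ᵁ ⊤)]
    (g : Γ(M, (⊤ : (Spec R).Opens)) →ₗ[R]
      Γ((Scheme.Modules.pullback (Spec.map φ)).obj M, (Spec.map φ) ⁻¹ᵁ ⊤))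
    (hg : ∀ m, g m = secPullback (Spec.map φ) M ⊤ m) :
    IsBaseChange S g := by
  have h := isSLBaseChange_Spec φ M
  rw [← halg] at h
  exact h.isBaseChange g hg

/-! ## Opens form: sections over affine opens -/

/-- Restriction of sections along an equality of opens is bijective. -/
lemma bijective_resM_of_eq (M : X.Modules) {U V : X.Opens} (h : V ≤ U) (h' : V = U) :
    Function.Bijective (resM M h) := by
  subst h'
  have : (resM M h : Γ(M, V) → Γ(M, V)) = id := by
    funext m
    exact resM_self M m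
  rw [this]
  exact Function.bijective_id

/-- A morphism of modules which is an isomorphism is bijective on sections. -/
lemma bijective_app_of_isIso {M N : X.Modules} (ψ : M ⟶ N) [IsIso ψ] (U : X.Opens) :
    Function.Bijective (ψ.app U) := by
  have h1 : ∀ m, (inv ψ).app U (ψ.app U m) = m := fun m => by
    have := congr((($(IsIso.hom_inv_id ψ)).app U) m)
    exact this
  have h2 : ∀ n, ψ.app U ((inv ψ).app U n) = n := fun n => by
    have := congr((($(IsIso.inv_hom_id ψ)).app U) n)
    exact this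
  exact ⟨fun x y hxy => by rw [← h1 x, hxy, h1], fun n => ⟨_, h2 n⟩⟩

/-- For an open immersion `j` and opens with `j ''ᵁ V = U`, pullback of sections
`Γ(M, U) → Γ(j^* M, V)` is bijective. -/
lemma bijective_secPullbackLE_openImmersion (j : Y ⟶ X) [IsOpenImmersion j] (M : X.Modules)
    {U : X.Opens} {V : Y.Opens} (e : V ≤ j ⁻¹ᵁ U) (h : j ''ᵁ V = U) :
    Function.Bijective (secPullbackLE j M U V e) := by
  have h1 : (secPullbackLE j M U V e : Γ(M, U) → _) =
      (fun x => ((Scheme.Modules.restrictFunctorIsoPullback j).hom.app M).app V x) ∘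
        (resM M (show j ''ᵁ V ≤ U from h.le)) := by
    funext m
    exact (secPullbackLE_openImmersion j M e m).symm
  rw [h1]
  exact (bijective_app_of_isIso ((Scheme.Modules.restrictFunctorIsoPullback j).hom.app M) V).comp
    (bijective_resM_of_eq M _ h)

lemma fromSpec_appLE_top {U : X.Opens} (hU : IsAffineOpen U) (e : ⊤ ≤ hU.fromSpec ⁻¹ᵁ U) :
    hU.fromSpec.appLE U ⊤ e = (Scheme.ΓSpecIso Γ(X, U)).inv := by
  rw [Scheme.Hom.appLE, hU.fromSpec_app_self, Category.assoc, ← Functor.map_comp]
  have : (eqToHom hU.fromSpec_preimage_self).op ≫ (homOfLE e).op = 𝟙 _ := Subsingleton.elim _ _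
  rw [this, CategoryTheory.Functor.map_id, Category.comp_id]

lemma top_le_fromSpec_preimage {U : X.Opens} (hU : IsAffineOpen U) :
    (⊤ : (Spec Γ(X, U)).Opens) ≤ hU.fromSpec ⁻¹ᵁ U := by
  rw [hU.fromSpec_preimage_self]

lemma fromSpec_image_top' {U : X.Opens} (hU : IsAffineOpen U) :
    hU.fromSpec ''ᵁ (⊤ : (Spec Γ(X, U)).Opens) = U := by
  rw [Scheme.Hom.image_top_eq_opensRange, hU.opensRange_fromSpec]

/-- Sections of `L` over an affine open `U` are the global sections of the pullback of `L` to
`Spec Γ(X, U)`, linearly over `Γ(X, U)`. -/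
def affineSecEquiv {U : X.Opens} (hU : IsAffineOpen U) (L : X.Modules) :
    Γ(L, U) ≃ₗ[Γ(X, U)]
      Γ((Scheme.Modules.pullback hU.fromSpec).obj L, (⊤ : (Spec Γ(X, U)).Opens)) :=
  LinearEquiv.ofBijective
    { toFun := secPullbackLE hU.fromSpec L U ⊤ (top_le_fromSpec_preimage hU)
      map_add' := map_add _
      map_smul' := fun r m => by
        rw [secPullbackLE_smul, fromSpec_appLE_top]
        rfl }
    (bijective_secPullbackLE_openImmersion hU.fromSpec L _ (fromSpec_image_top' hU))

lemma affineSecEquiv_apply {U : X.Opens} (hU : IsAffineOpen U) (L : X.Modules) (m : Γ(L, U)) :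
    affineSecEquiv hU L m = secPullbackLE hU.fromSpec L U ⊤ (top_le_fromSpec_preimage hU) m := rfl

instance isIso_fromTildeΓ_pullback_fromSpec {U : X.Opens} (hU : IsAffineOpen U) (L : X.Modules)
    [L.IsQuasicoherent] : IsIso ((Scheme.Modules.pullback hU.fromSpec).obj L).fromTildeΓ := by
  have h1 : (L.restrict hU.fromSpec).IsQuasicoherent := inferInstance
  have h2 : ((Scheme.Modules.pullback hU.fromSpec).obj L).IsQuasicoherent :=
    (SheafOfModules.isQuasicoherent (Spec Γ(X, U)).ringCatSheaf).prop_of_iso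
      ((Scheme.Modules.restrictFunctorIsoPullback hU.fromSpec).app L) h1
  infer_instance

/-- **Affine base change for sections, opens form**: for any morphism `f : Y ⟶ X`, a
quasi-coherent module `L` on `X` and affine opens `U ⊆ X`, `V ⊆ Y` with `V ≤ f ⁻¹ᵁ U`, the
pullback of sections `Γ(L, U) → Γ(f^* L, V)` is a base change along `Γ(X, U) → Γ(Y, V)`. -/
theorem isSLBaseChange_secPullbackLE (f : Y ⟶ X) (L : X.Modules) [L.IsQuasicoherent]
    {U : X.Opens} {V : Y.Opens} (hU : IsAffineOpen U) (hV : IsAffineOpen V) (e : V ≤ f ⁻¹ᵁ U) :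
    IsSLBaseChange (f.appLE U V e).hom (secPullbackLE f L U V e) := by
  have w : hV.fromSpec ≫ f = Spec.map (f.appLE U V e) ≫ hU.fromSpec :=
    (IsAffineOpen.SpecMap_appLE_fromSpec f hU hV e).symm
  have H := isSLBaseChange_chartPullback (f.appLE U V e) f hU.fromSpec hV.fromSpec w L
  have H1 := H.comp_left (affineSecEquiv hU L)
    ((chartPullback (f.appLE U V e) f hU.fromSpec hV.fromSpec w L).comp
      (affineSecEquiv hU L).toLinearMap.toAddMonoidHom) (fun m => rfl)
  refine H1.comp_right (affineSecEquiv hV ((Scheme.Modules.pullback f).obj L)).symm _ (fun m => ?_)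
  rw [LinearEquiv.eq_symm_apply, affineSecEquiv_apply]
  exact (chartPullback_secPullbackLE (f.appLE U V e) f hU.fromSpec hV.fromSpec w L e
    (top_le_fromSpec_preimage hV) (top_le_fromSpec_preimage hU) m).symm

/-- Mathlib's `IsBaseChange` form of `isSLBaseChange_secPullbackLE`, for arbitrary compatible
instances. -/
theorem isBaseChange_secPullbackLE (f : Y ⟶ X) (L : X.Modules) [L.IsQuasicoherent]
    {U : X.Opens} {V : Y.Opens} (hU : IsAffineOpen U) (hV : IsAffineOpen V) (e : V ≤ f ⁻¹ᵁ U)
    [Algebra Γ(X, U) Γ(Y, V)] (halg : algebraMap Γ(X, U) Γ(Y, V) = (f.appLE U V e).hom)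
    [Module Γ(X, U) Γ((Scheme.Modules.pullback f).obj L, V)]
    [IsScalarTower Γ(X, U) Γ(Y, V) Γ((Scheme.Modules.pullback f).obj L, V)]
    (g : Γ(L, U) →ₗ[Γ(X, U)] Γ((Scheme.Modules.pullback f).obj L, V))
    (hg : ∀ m, g m = secPullbackLE f L U V e m) : IsBaseChange Γ(Y, V) g := by
  have h := isSLBaseChange_secPullbackLE f L hU hV e
  rw [← halg] at h
  exact h.isBaseChange g hg

end

end Fermat.Agent.S25.helper8328
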