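import Mathlib

/-!
# S25 brick SZ: deformation of projective modules along nilpotent ideals (helper839)

Let `A' → A` be a surjective ring homomorphism (given as an algebra) whose kernel `I` is a
nilpotent ideal.  Mathlib only, statement-agnostic.

* `ker_mk_one`, `mk_one_surjective` : `P' → A ⊗[A'] P'` is onto with kernel `I • ⊤`.
* `liftBaseChange_bijective_of_ker_eq`, `isBaseChange_of_surjective_of_ker_eq` : a surjection
  `π : P' → P` with kernel `I • ⊤` is a base change.
* `exists_lift_linearMap` : maps between base changes lift (source projective).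
* `bijective_of_baseChange_bijective` : a map into a projective module which is bijective
  after base change is bijective.
* `exists_lift_linearEquiv` : isomorphisms between base changes lift.
* `exists_lift_finite_projective` : finite projective modules lift.
* `nonempty_linearEquiv_of_baseChange` : rank one free lifts to rank one free.
* `invertible_of_baseChange` : invertibility descends from `A ⊗[A'] P'` to `P'`.
-/

set_option autoImplicit false

open scoped TensorProduct

namespace Fermat.Agent.S25.helper839

universe u v w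

section Basic

variable {A' : Type u} {A : Type v} [CommRing A'] [CommRing A] [Algebra A' A]

/-- `P' → A ⊗[A'] P'` is surjective when `A' → A` is. -/
theorem mk_one_surjective (hA : Function.Surjective (algebraMap A' A))
    (P' : Type w) [AddCommGroup P'] [Module A' P'] :
    Function.Surjective (TensorProduct.mk A' A P' 1) := by
  intro z
  induction z with
  | zero => exact ⟨0, map_zero _⟩
  | tmul a p =>
    obtain ⟨a', rfl⟩ := hA a
    refine ⟨a' • p, ?_⟩
    simp only [TensorProduct.mk_apply, TensorProduct.tmul_smul]
    rw [TensorProduct.smul_tmul', Algebra.smul_def, mul_one]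
  | add x y hx hy =>
    obtain ⟨x', rfl⟩ := hx
    obtain ⟨y', rfl⟩ := hy
    exact ⟨x' + y', map_add _ _ _⟩

/-- The kernel of `P' → A ⊗[A'] P'` is `I • P'` for `I = ker (A' → A)`, when `A' → A` is onto. -/
theorem ker_mk_one (hA : Function.Surjective (algebraMap A' A))
    (P' : Type w) [AddCommGroup P'] [Module A' P'] :
    LinearMap.ker (TensorProduct.mk A' A P' 1) =
      (RingHom.ker (algebraMap A' A)) • (⊤ : Submodule A' P') := by
  apply le_antisymm
  · intro p hp
    rw [LinearMap.mem_ker, TensorProduct.mk_apply] at hp
    have hex : Function.Exact ((RingHom.ker (algebraMap A' A)).subtype : _ →ₗ[A'] A')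
        (Algebra.linearMap A' A) := by
      intro a
      simp only [Algebra.linearMap_apply, Set.mem_range, Submodule.coe_subtype, Subtype.exists,
        exists_prop, exists_eq_right]
      exact Iff.rfl
    have hex2 := rTensor_exact P' hex (show Function.Surjective (Algebra.linearMap A' A) from hA)
    have h1 : (LinearMap.rTensor P' (Algebra.linearMap A' A)) ((1 : A') ⊗ₜ[A'] p) = 0 := by
      simpa using hp
    obtain ⟨z, hz⟩ := (hex2 _).mp h1
    have key : ∀ z : (RingHom.ker (algebraMap A' A)) ⊗[A'] P',
        TensorProduct.lid A' P' (LinearMap.rTensor P' ((RingHom.ker (algebraMap A' A)).subtype) z) ∈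
          (RingHom.ker (algebraMap A' A)) • (⊤ : Submodule A' P') := by
      intro z
      induction z with
      | zero => simp
      | tmul i q =>
        simp only [LinearMap.rTensor_tmul, Submodule.coe_subtype, TensorProduct.lid_tmul]
        exact Submodule.smul_mem_smul i.2 Submodule.mem_top
      | add x y hx hy =>
        simp only [map_add]
        exact Submodule.add_mem _ hx hy
    have := key z
    rw [hz] at this
    simpa using this
  · rw [Submodule.smul_le]
    intro i hi p _
    rw [LinearMap.mem_ker, TensorProduct.mk_apply, ← TensorProduct.smul_tmul, Algebra.smul_def,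
      mul_one, (RingHom.mem_ker).mp hi, TensorProduct.zero_tmul]

/-- A surjection `π : P' → P` onto an `A`-module with kernel `I • P'` induces a bijection
`A ⊗[A'] P' → P`. -/
theorem liftBaseChange_bijective_of_ker_eq (hA : Function.Surjective (algebraMap A' A))
    {P' : Type w} [AddCommGroup P'] [Module A' P']
    {P : Type*} [AddCommGroup P] [Module A' P] [Module A P] [IsScalarTower A' A P]
    (π : P' →ₗ[A'] P) (hπ : Function.Surjective π)
    (hker : LinearMap.ker π = (RingHom.ker (algebraMap A' A)) • (⊤ : Submodule A' P')) :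
    Function.Bijective (π.liftBaseChange A) := by
  constructor
  · rw [injective_iff_map_eq_zero]
    intro z hz
    obtain ⟨p, rfl⟩ := mk_one_surjective hA P' z
    rw [TensorProduct.mk_apply, LinearMap.liftBaseChange_tmul, one_smul] at hz
    have hp : p ∈ LinearMap.ker π := hz
    rw [hker, ← ker_mk_one hA P'] at hp
    exact hp
  · intro x
    obtain ⟨p, rfl⟩ := hπ x
    exact ⟨1 ⊗ₜ p, by rw [LinearMap.liftBaseChange_tmul, one_smul]⟩

/-- A surjection `π : P' → P` onto an `A`-module with kernel `I • P'` is a base change. -/
theorem isBaseChange_of_surjective_of_ker_eq (hA : Function.Surjective (algebraMap A' A))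
    {P' : Type w} [AddCommGroup P'] [Module A' P']
    {P : Type*} [AddCommGroup P] [Module A' P] [Module A P] [IsScalarTower A' A P]
    (π : P' →ₗ[A'] P) (hπ : Function.Surjective π)
    (hker : LinearMap.ker π = (RingHom.ker (algebraMap A' A)) • (⊤ : Submodule A' P')) :
    IsBaseChange A π :=
  IsBaseChange.of_equiv
    (LinearEquiv.ofBijective (π.liftBaseChange A) (liftBaseChange_bijective_of_ker_eq hA π hπ hker))
    (fun x => by
      rw [LinearEquiv.ofBijective_apply, LinearMap.liftBaseChange_tmul, one_smul])

/-- A base change along a surjection `A' → A` is surjective. -/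
theorem IsBaseChange.surjective_of_surjective (hA : Function.Surjective (algebraMap A' A))
    {P' : Type w} [AddCommGroup P'] [Module A' P']
    {P : Type*} [AddCommGroup P] [Module A' P] [Module A P] [IsScalarTower A' A P]
    {π : P' →ₗ[A'] P} (h : IsBaseChange A π) : Function.Surjective π := by
  intro x
  obtain ⟨p, hp⟩ := mk_one_surjective hA P' (h.equiv.symm x)
  refine ⟨p, ?_⟩
  have := congrArg h.equiv hp
  rwa [TensorProduct.mk_apply, h.equiv_tmul, one_smul, LinearEquiv.apply_symm_apply] at this

/-- The kernel of a base change along a surjection `A' → A` with kernel `I` is `I • P'`. -/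
theorem IsBaseChange.ker_eq_smul_top (hA : Function.Surjective (algebraMap A' A))
    {P' : Type w} [AddCommGroup P'] [Module A' P']
    {P : Type*} [AddCommGroup P] [Module A' P] [Module A P] [IsScalarTower A' A P]
    {π : P' →ₗ[A'] P} (h : IsBaseChange A π) :
    LinearMap.ker π = (RingHom.ker (algebraMap A' A)) • (⊤ : Submodule A' P') := by
  rw [← ker_mk_one hA P']
  ext p
  simp only [LinearMap.mem_ker, TensorProduct.mk_apply]
  constructor
  · intro hp
    have : h.equiv ((1 : A) ⊗ₜ[A'] p) = 0 := by rw [h.equiv_tmul, one_smul, hp]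
    exact h.equiv.map_eq_zero_iff.mp this
  · intro hp
    have : h.equiv ((1 : A) ⊗ₜ[A'] p) = π p := by rw [h.equiv_tmul, one_smul]
    rw [← this, hp, map_zero]

/-- An endomorphism with image in `I • ⊤`, `I` nilpotent, is nilpotent. -/
theorem isNilpotent_of_range_le_smul_top {I : Ideal A'} (hI : IsNilpotent I)
    {P' : Type w} [AddCommGroup P'] [Module A' P'] (u : P' →ₗ[A'] P')
    (hu : LinearMap.range u ≤ I • (⊤ : Submodule A' P')) : IsNilpotent u := by
  obtain ⟨n, hn⟩ := hI
  refine ⟨n, ?_⟩
  have key : ∀ m : ℕ, LinearMap.range (u ^ m) ≤ (I ^ m) • (⊤ : Submodule A' P') := by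
    intro m
    induction m with
    | zero => simp
    | succ m ih =>
      rw [pow_succ', Module.End.mul_eq_comp, LinearMap.range_comp]
      calc Submodule.map u (LinearMap.range (u ^ m))
          ≤ Submodule.map u ((I ^ m) • (⊤ : Submodule A' P')) := Submodule.map_mono ih
        _ = (I ^ m) • Submodule.map u ⊤ := Submodule.map_smul'' _ _ _
        _ ≤ (I ^ m) • (I • (⊤ : Submodule A' P')) := by
            rw [Submodule.map_top]
            exact Submodule.smul_mono le_rfl hu
        _ = (I ^ (m + 1)) • (⊤ : Submodule A' P') := by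
            rw [← Submodule.mul_smul, ← pow_succ]
  have h0 := key n
  rw [hn] at h0
  ext p
  have hp : (u ^ n) p ∈ (⊥ : Ideal A') • (⊤ : Submodule A' P') := h0 ⟨p, rfl⟩
  rw [Submodule.bot_smul] at hp
  simpa using hp

end Basic

section Lift

variable {A' : Type u} {A : Type v} [CommRing A'] [CommRing A] [Algebra A' A]

/-- **Maps lift.** If `P'` is projective and `A' → A` is onto, every `A`-linear map
`A ⊗ P' → A ⊗ Q'` is the base change of an `A'`-linear map `P' → Q'`. -/
theorem exists_lift_linearMap (hA : Function.Surjective (algebraMap A' A))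
    {P' : Type w} [AddCommGroup P'] [Module A' P'] [Module.Projective A' P']
    {Q' : Type*} [AddCommGroup Q'] [Module A' Q']
    (g : A ⊗[A'] P' →ₗ[A] A ⊗[A'] Q') :
    ∃ g' : P' →ₗ[A'] Q', g'.baseChange A = g := by
  obtain ⟨g', hg'⟩ := Module.projective_lifting_property (TensorProduct.mk A' A Q' 1)
    ((g.restrictScalars A').comp (TensorProduct.mk A' A P' 1)) (mk_one_surjective hA Q')
  refine ⟨g', ?_⟩
  apply TensorProduct.AlgebraTensorModule.curry_injective
  ext p
  have := LinearMap.congr_fun hg' p
  simpa using this

/-- A lift in the elementary form: `1 ⊗ g' p = g (1 ⊗ p)`. -/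
theorem exists_lift_linearMap' (hA : Function.Surjective (algebraMap A' A))
    {P' : Type w} [AddCommGroup P'] [Module A' P'] [Module.Projective A' P']
    {Q' : Type*} [AddCommGroup Q'] [Module A' Q']
    (g : A ⊗[A'] P' →ₗ[A] A ⊗[A'] Q') :
    ∃ g' : P' →ₗ[A'] Q', ∀ p, (1 : A) ⊗ₜ[A'] g' p = g (1 ⊗ₜ p) := by
  obtain ⟨g', rfl⟩ := exists_lift_linearMap hA g
  exact ⟨g', fun p => by rw [LinearMap.baseChange_tmul]⟩

/-- **Nakayama for nilpotent ideals, isomorphism form.** Let `A' → A` be onto with nilpotent
kernel. A linear map `g' : P' → Q'` with `Q'` projective which becomes bijective after base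
change to `A` is bijective. -/
theorem bijective_of_baseChange_bijective (hA : Function.Surjective (algebraMap A' A))
    (hnil : IsNilpotent (RingHom.ker (algebraMap A' A)))
    {P' : Type w} [AddCommGroup P'] [Module A' P']
    {Q' : Type*} [AddCommGroup Q'] [Module A' Q'] [Module.Projective A' Q']
    (g' : P' →ₗ[A'] Q') (h : Function.Bijective (g'.baseChange A)) :
    Function.Bijective g' := by
  let e : A ⊗[A'] P' ≃ₗ[A] A ⊗[A'] Q' := LinearEquiv.ofBijective (g'.baseChange A) h
  have he : ∀ p, e ((1 : A) ⊗ₜ[A'] p) = (1 : A) ⊗ₜ[A'] g' p := fun p => by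
    rw [LinearEquiv.ofBijective_apply, LinearMap.baseChange_tmul]
  obtain ⟨h', hh'⟩ := Module.projective_lifting_property (TensorProduct.mk A' A P' 1)
    ((e.symm.toLinearMap.restrictScalars A').comp (TensorProduct.mk A' A Q' 1))
    (mk_one_surjective hA P')
  have hh : ∀ q, (1 : A) ⊗ₜ[A'] h' q = e.symm ((1 : A) ⊗ₜ[A'] q) := fun q => by
    have := LinearMap.congr_fun hh' q
    simpa using this
  -- `h' ∘ g' - 1` and `g' ∘ h' - 1` are nilpotent
  have hu : IsNilpotent (h' ∘ₗ g' - 1) := by
    apply isNilpotent_of_range_le_smul_top hnil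
    rintro _ ⟨p, rfl⟩
    rw [← ker_mk_one hA P', LinearMap.mem_ker, TensorProduct.mk_apply]
    simp only [LinearMap.sub_apply, LinearMap.comp_apply, Module.End.one_apply,
      TensorProduct.tmul_sub]
    rw [hh, ← he, LinearEquiv.symm_apply_apply, sub_self]
  have hv : IsNilpotent (g' ∘ₗ h' - 1) := by
    apply isNilpotent_of_range_le_smul_top hnil
    rintro _ ⟨q, rfl⟩
    rw [← ker_mk_one hA Q', LinearMap.mem_ker, TensorProduct.mk_apply]
    simp only [LinearMap.sub_apply, LinearMap.comp_apply, Module.End.one_apply,
      TensorProduct.tmul_sub]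
    rw [← he, hh, LinearEquiv.apply_symm_apply, sub_self]
  have hu' : IsUnit (h' ∘ₗ g') := by
    have := hu.isUnit_add_one
    simpa using this
  have hv' : IsUnit (g' ∘ₗ h') := by
    have := hv.isUnit_add_one
    simpa using this
  constructor
  · have : Function.Injective (h' ∘ₗ g') := ((Module.End.isUnit_iff _).mp hu').injective
    exact Function.Injective.of_comp (f := h') (by simpa using this)
  · have : Function.Surjective (g' ∘ₗ h') := ((Module.End.isUnit_iff _).mp hv').surjective
    exact Function.Surjective.of_comp (g := h') (by simpa using this)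

/-- **Isomorphisms lift.** Let `A' → A` be onto with nilpotent kernel, `P'`, `Q'` projective.
Every `A`-linear isomorphism `A ⊗ P' ≃ A ⊗ Q'` is the base change of an isomorphism
`P' ≃ Q'`. -/
theorem exists_lift_linearEquiv (hA : Function.Surjective (algebraMap A' A))
    (hnil : IsNilpotent (RingHom.ker (algebraMap A' A)))
    {P' : Type w} [AddCommGroup P'] [Module A' P'] [Module.Projective A' P']
    {Q' : Type*} [AddCommGroup Q'] [Module A' Q'] [Module.Projective A' Q']
    (e : A ⊗[A'] P' ≃ₗ[A] A ⊗[A'] Q') :
    ∃ e' : P' ≃ₗ[A'] Q', e'.toLinearMap.baseChange A = e.toLinearMap := by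
  obtain ⟨g', hg'⟩ := exists_lift_linearMap hA e.toLinearMap
  have hb : Function.Bijective g' :=
    bijective_of_baseChange_bijective hA hnil g' (by rw [hg']; exact e.bijective)
  exact ⟨LinearEquiv.ofBijective g' hb, by rw [← hg']; rfl⟩

/-- Two projective lifts of the same module are isomorphic. -/
theorem nonempty_linearEquiv_of_baseChange_linearEquiv
    (hA : Function.Surjective (algebraMap A' A))
    (hnil : IsNilpotent (RingHom.ker (algebraMap A' A)))
    {P' : Type w} [AddCommGroup P'] [Module A' P'] [Module.Projective A' P']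
    {Q' : Type*} [AddCommGroup Q'] [Module A' Q'] [Module.Projective A' Q']
    (e : A ⊗[A'] P' ≃ₗ[A] A ⊗[A'] Q') : Nonempty (P' ≃ₗ[A'] Q') :=
  let ⟨e', _⟩ := exists_lift_linearEquiv hA hnil e
  ⟨e'⟩

/-- **Rank one free lifts.** If `P'` is projective and `A ⊗ P'` is free of rank one, then `P'` is
free of rank one. -/
theorem nonempty_linearEquiv_self_of_baseChange (hA : Function.Surjective (algebraMap A' A))
    (hnil : IsNilpotent (RingHom.ker (algebraMap A' A)))
    {P' : Type w} [AddCommGroup P'] [Module A' P'] [Module.Projective A' P']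
    (e : A ⊗[A'] P' ≃ₗ[A] A) : Nonempty (P' ≃ₗ[A'] A') :=
  nonempty_linearEquiv_of_baseChange_linearEquiv hA hnil
    (e ≪≫ₗ (TensorProduct.AlgebraTensorModule.rid A' A A).symm)

end Lift

section Existence

variable {A' : Type u} {A : Type v} [CommRing A'] [CommRing A] [Algebra A' A]

/-- A square matrix with entries in a nilpotent ideal is nilpotent. -/
theorem matrix_isNilpotent_of_entries_mem {I : Ideal A'} (hI : IsNilpotent I) {n : ℕ}
    (M : Matrix (Fin n) (Fin n) A') (hM : ∀ i j, M i j ∈ I) : IsNilpotent M := by
  obtain ⟨N, hN⟩ := hI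
  refine ⟨N, ?_⟩
  have key : ∀ m : ℕ, ∀ i j, (M ^ m) i j ∈ I ^ m := by
    intro m
    induction m with
    | zero => intro i j; simp
    | succ m ih =>
      intro i j
      rw [pow_succ M, Matrix.mul_apply, pow_succ I]
      exact Ideal.sum_mem _ fun l _ => Ideal.mul_mem_mul (ih i l) (hM l j)
  ext i j
  have := key N i j
  rw [hN] at this
  simpa using this

/-- **Finite projective modules lift** along a surjection `A' → A` with nilpotent kernel. -/
theorem exists_lift_finite_projective (hA : Function.Surjective (algebraMap A' A))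
    (hnil : IsNilpotent (RingHom.ker (algebraMap A' A)))
    (P : Type w) [AddCommGroup P] [Module A P] [Module.Finite A P] [Module.Projective A P] :
    ∃ (P' : Type u) (_ : AddCommGroup P') (_ : Module A' P'),
      Module.Finite A' P' ∧ Module.Projective A' P' ∧ Nonempty (A ⊗[A'] P' ≃ₗ[A] P) := by
  classical
  obtain ⟨n, f, g, -, -, hfg⟩ := Module.Finite.exists_comp_eq_id_of_projective A P
  have hfg' : ∀ x, f (g x) = x := fun x => LinearMap.congr_fun hfg x
  -- the idempotent matrix of `g ∘ f`
  let E : Matrix (Fin n) (Fin n) A := LinearMap.toMatrix' (g ∘ₗ f)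
  have hE : ∀ w, E.mulVec w = g (f w) := fun w => by
    have : Matrix.toLin' E = g ∘ₗ f := Matrix.toLin'_toMatrix' _
    rw [← Matrix.toLin'_apply, this, LinearMap.comp_apply]
  have hEidem : IsIdempotentElem E := by
    change E * E = E
    rw [← LinearMap.toMatrix'_comp]
    congr 1
    ext w
    simp only [LinearMap.comp_apply, hfg']
  let Φ : Matrix (Fin n) (Fin n) A' →+* Matrix (Fin n) (Fin n) A := (algebraMap A' A).mapMatrix
  have hΦ : ∀ x ∈ RingHom.ker Φ, IsNilpotent x := by
    intro M hM
    apply matrix_isNilpotent_of_entries_mem hnil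
    intro i j
    rw [RingHom.mem_ker]
    have h0 : Φ M = 0 := (RingHom.mem_ker).mp hM
    have := Matrix.ext_iff.mpr h0 i j
    simpa [Φ] using this
  have hErange : E ∈ Φ.range := by
    refine ⟨Matrix.of fun i j => Classical.choose (hA (E i j)), ?_⟩
    ext i j
    simp only [Φ, RingHom.mapMatrix_apply, Matrix.map_apply, Matrix.of_apply]
    exact Classical.choose_spec (hA (E i j))
  obtain ⟨E', hE'idem, hE'⟩ := exists_isIdempotentElem_eq_of_ker_isNilpotent Φ hΦ E hErange hEidem
  let e' : (Fin n → A') →ₗ[A'] (Fin n → A') := Matrix.toLin' E'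
  have he'idem : ∀ v, e' (e' v) = e' v := fun v => by
    change (Matrix.toLin' E') ((Matrix.toLin' E') v) = (Matrix.toLin' E') v
    rw [← LinearMap.comp_apply, ← Matrix.toLin'_mul, hE'idem.eq]
  let φ : (Fin n → A') →ₗ[A'] (Fin n → A) := (Algebra.linearMap A' A).compLeft (Fin n)
  have hφ : ∀ v, φ (e' v) = E.mulVec (φ v) := fun v => by
    ext i
    rw [← hE']
    exact RingHom.map_mulVec (algebraMap A' A) E' v i
  have hφsurj : Function.Surjective φ := fun w =>
    ⟨fun i => Classical.choose (hA (w i)), funext fun i => Classical.choose_spec (hA (w i))⟩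
  let P' : Submodule A' (Fin n → A') := LinearMap.range e'
  have hP'fix : ∀ p : P', e' p.1 = p.1 := by
    rintro ⟨_, v, rfl⟩
    exact he'idem v
  let s : (Fin n → A') →ₗ[A'] P' := e'.rangeRestrict
  have hs : ∀ p : P', s p.1 = p := fun p => Subtype.ext (hP'fix p)
  have : Module.Projective A' P' :=
    Module.Projective.of_split P'.subtype s (LinearMap.ext fun p => hs p)
  let : Module A' P := Module.compHom P (algebraMap A' A)
  have : IsScalarTower A' A P := IsScalarTower.of_algebraMap_smul fun _ _ => rfl
  let π : P' →ₗ[A'] P := (f.restrictScalars A').comp (φ.comp P'.subtype)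
  have hπ : ∀ p : P', π p = f (φ p.1) := fun _ => rfl
  have hπsurj : Function.Surjective π := by
    intro x
    obtain ⟨v, hv⟩ := hφsurj (g x)
    refine ⟨⟨e' v, v, rfl⟩, ?_⟩
    rw [hπ, hφ, hv, hE, hfg', hfg']
  have hker : LinearMap.ker π = (RingHom.ker (algebraMap A' A)) • (⊤ : Submodule A' P') := by
    apply le_antisymm
    · intro p hp
      rw [LinearMap.mem_ker, hπ] at hp
      have h0 : φ p.1 = 0 := by
        rw [← hP'fix p, hφ, hE, hp, map_zero]
      have hcoord : ∀ j, p.1 j ∈ RingHom.ker (algebraMap A' A) := fun j => by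
        have := congrFun h0 j
        simpa [φ] using this
      have hmem : p.1 ∈ (RingHom.ker (algebraMap A' A)) • (⊤ : Submodule A' (Fin n → A')) := by
        have hsum : p.1 = ∑ j, p.1 j • (Pi.single j (1 : A') : Fin n → A') := by
          ext l
          simp [Finset.sum_apply, Pi.single_apply]
        rw [hsum]
        exact Submodule.sum_mem _ fun j _ => Submodule.smul_mem_smul (hcoord j) Submodule.mem_top
      have h2 : s p.1 ∈ Submodule.map s
          ((RingHom.ker (algebraMap A' A)) • (⊤ : Submodule A' (Fin n → A'))) :=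
        Submodule.mem_map_of_mem hmem
      rw [Submodule.map_smul'', hs] at h2
      exact Submodule.smul_mono le_rfl le_top h2
    · rw [Submodule.smul_le]
      intro i hi p _
      rw [LinearMap.mem_ker, map_smul, ← algebraMap_smul A i (π p), (RingHom.mem_ker).mp hi,
        zero_smul]
  exact ⟨P', inferInstance, inferInstance, inferInstance, inferInstance,
    ⟨LinearEquiv.ofBijective (π.liftBaseChange A)
      (liftBaseChange_bijective_of_ker_eq hA π hπsurj hker)⟩⟩

/-- **Invertibility descends.** If `P'` is projective over `A'` and `A ⊗[A'] P'` is an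
invertible `A`-module, then `P'` is an invertible `A'`-module (`A' → A` onto with nilpotent
kernel). -/
theorem invertible_of_baseChange (hA : Function.Surjective (algebraMap A' A))
    (hnil : IsNilpotent (RingHom.ker (algebraMap A' A)))
    (P' : Type w) [AddCommGroup P'] [Module A' P'] [Module.Projective A' P']
    [Module.Invertible A (A ⊗[A'] P')] : Module.Invertible A' P' := by
  obtain ⟨N', _, _, -, _, ⟨eN⟩⟩ :=
    exists_lift_finite_projective hA hnil (Module.Dual A (A ⊗[A'] P'))
  let e : A ⊗[A'] (P' ⊗[A'] N') ≃ₗ[A] A :=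
    TensorProduct.AlgebraTensorModule.distribBaseChange A' A P' N' ≪≫ₗ
      TensorProduct.congr (LinearEquiv.refl A (A ⊗[A'] P')) eN ≪≫ₗ
      TensorProduct.comm A _ _ ≪≫ₗ Module.Invertible.linearEquiv A (A ⊗[A'] P')
  obtain ⟨e'⟩ := nonempty_linearEquiv_self_of_baseChange hA hnil e
  exact Module.Invertible.left e'

/-- The same with a base-change map `π : P' → P` instead of the tensor product. -/
theorem invertible_of_isBaseChange (hA : Function.Surjective (algebraMap A' A))
    (hnil : IsNilpotent (RingHom.ker (algebraMap A' A)))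
    {P' : Type w} [AddCommGroup P'] [Module A' P'] [Module.Projective A' P']
    {P : Type*} [AddCommGroup P] [Module A' P] [Module A P] [IsScalarTower A' A P]
    [Module.Invertible A P] {π : P' →ₗ[A'] P} (h : IsBaseChange A π) :
    Module.Invertible A' P' := by
  have : Module.Invertible A (A ⊗[A'] P') := Module.Invertible.congr h.equiv.symm
  exact invertible_of_baseChange hA hnil P'

end Existence

section Tensor

/-- Base change of a surjection with nilpotent kernel: `R ⊗[k] B' → R ⊗[k] B` is onto. -/
theorem tensor_map_surjective {k : Type*} [CommRing k] (R : Type*) [CommRing R] [Algebra k R]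
    {B' B : Type*} [CommRing B'] [CommRing B] [Algebra k B'] [Algebra k B]
    (φ : B' →ₐ[k] B) (hφ : Function.Surjective φ) :
    Function.Surjective (Algebra.TensorProduct.map (AlgHom.id k R) φ) :=
  TensorProduct.map_surjective Function.surjective_id hφ

/-- Base change of a surjection with nilpotent kernel: the kernel of `R ⊗[k] B' → R ⊗[k] B`
is nilpotent (no flatness needed). -/
theorem tensor_map_ker_isNilpotent {k : Type*} [CommRing k] (R : Type*) [CommRing R] [Algebra k R]
    {B' B : Type*} [CommRing B'] [CommRing B] [Algebra k B'] [Algebra k B]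
    (φ : B' →ₐ[k] B) (hφ : Function.Surjective φ) (hnil : IsNilpotent (RingHom.ker φ)) :
    IsNilpotent (RingHom.ker (Algebra.TensorProduct.map (AlgHom.id k R) φ)) := by
  obtain ⟨n, hn⟩ := hnil
  refine ⟨n, ?_⟩
  rw [Algebra.TensorProduct.lTensor_ker φ hφ, ← Ideal.map_pow, hn]
  simp

end Tensor

end Fermat.Agent.S25.helper839
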