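import Fermat.Agent.S25.helper3173_ChartOfAsm
import Fermat.Agent.S25.helper233_HomCongr
import Fermat.Agent.S25.helper6401_UnivDeg
import Fermat.Agent.S25.helper69_ChartGlue
import Fermat.Agent.S25.helper4743_CoverAsm
import Fermat.Agent.S25.helper239_ChiApi
import Fermat.Agent.S25.helper7244_ChartCore
import Fermat.Agent.S25.helper25_FieldGenerates
import Fermat.Agent.S25.helper1985_CechBaseChange

/-!
# S25, root `Stmt_ChartOfAC`, clause MONO: a route through the fibrewise criterion (helper83)

The clause `helper3173.Stmt_UnivMono` (a good chart is a monomorphism of functors) as a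
corollary of the bricks of the OPEN clause; no snake sequence is used.

Let `φ, φ' : W D s f →ₐ[k] B` with `(P.baseChange φ).Equiv (P.baseChange φ')` and let
`I, I'` be the chart ideals classified by `φ, φ'`. Then `G := twistOf N I` is isomorphic to
`twistOf N I'`, so `G` carries two morphisms to `N_B` which are surjective modulo `y`, with
images `I • N₀` and `I' • N₀` on the first chart. By the fibrewise criterion (`Stmt_FibGlobalMor`)
there is `σ : G → N_B`, surjective modulo `y`, generating all morphisms `G → N_B`; a morphism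
`c • σ` which is surjective modulo `y` has `c` a unit, hence the same image as `σ`
(`range_eq_of_generates`). So `I • N₀ = I' • N₀`, `I = I'` and `φ = φ'`.

The three inputs are stated as Props in the shapes fixed by their owners:
* `Stmt_FibGlobalMor`   : (FG1) the chart condition with `H¹(Hom) = 0` holds globally if it
  holds on the closed fibres;
* `Stmt_GoodBaseChange` : (X2) the index condition `Good` after base change;
* `Stmt_FieldGenerates` : over a field, `H¹(Hom(G, N')) = 0` for `G` of degree zero and `N'` of
  degree `g` implies that every nonzero morphism generates.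
-/

set_option autoImplicit false
set_option linter.style.haveILetI false

namespace Fermat.Agent.S25.helper83

open Fermat.Agent.S25.helper1705 Fermat.Agent.S25.helper2945 Fermat.Agent.S25.helper8573
open Fermat.Agent.S25.helper3173

universe u

/-- (FG1) The chart condition, with vanishing `H¹(Hom)`, is global as soon as it holds on the
closed fibres. -/
def Stmt_FibGlobalMor : Prop :=
  ∀ (k : Type u) [Field k] [IsAlgClosed k] (D : CurveDatum k) (N : GlueDatum D k)
    (B : Type u) [CommRing B] [Algebra k B] (G : GlueDatum D B), G.IsRig →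
    (∀ m : Ideal B, m.IsMaximal → ∃ (K : Type u) (_ : Field K) (_ : Algebra k K)
      (χ : B →ₐ[k] K), RingHom.ker χ.toRingHom = m ∧
        ∃ σ : Mor (G.baseChange χ) (baseOver N K), σ.SurjModY ∧ σ.Generates ∧
          Function.Surjective (helper1397.homDatum (G.baseChange χ) (baseOver N K)).delta) →
    ∃ σ : Mor G (baseOver N B), σ.SurjModY ∧ σ.Generates ∧
      Function.Surjective (helper1397.homDatum G (baseOver N B)).delta

/-- (X2) The index condition of a good chart after base change. -/
def Stmt_GoodBaseChange : Prop :=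
  ∀ (k : Type u) [Field k] [IsAlgClosed k] (D : CurveDatum k) (N : GlueDatum D k)
    (s : Fin (genus D) → D.R₀) (f : helper1002.ChartAlg k D.R₀ s), Good N s f →
    ∀ (B : Type u) [CommRing B] [Algebra k B] (γ : W D s f →ₐ[k] B)
      [Module.Finite B (D.A₀ B ⧸ (chartIdeal s f).map (D.map₀ γ))]
      [Module.Projective B (D.A₀ B ⧸ (chartIdeal s f).map (D.map₀ γ))],
      Function.Surjective (helper1397.homDatum (twistOf N ((chartIdeal s f).map (D.map₀ γ)))
        (baseOver N B)).delta

/-- (GEN) Over a field: if `H¹(Hom(G, N')) = 0`, `G` has degree zero and `N'` has degree `g`,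
then every nonzero morphism `G → N'` generates. -/
def Stmt_FieldGenerates : Prop :=
  ∀ (k : Type u) [Field k] [IsAlgClosed k] (D : CurveDatum k) (K : Type u) [Field K]
    [Algebra k K] (G N' : GlueDatum D K), G.DegZero →
    N'.chi = (GlueDatum.unit D K).chi + (genus D : ℤ) →
    Function.Surjective (helper1397.homDatum G N').delta →
    ∀ σ : Mor G N', σ.f₀ ≠ 0 → σ.Generates

section

variable {k : Type u} [Field k] [IsAlgClosed k] {D : CurveDatum k}
  {B : Type u} [CommRing B] [Algebra k B]

/-- **Uniqueness of the divisor.** If `σ` generates the morphisms `G → N'` and `τ` is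
surjective modulo `y`, then `τ` is a unit multiple of `σ`; in particular they have the same
image on the first chart. -/
theorem range_eq_of_generates {G N' : GlueDatum D B} (σ τ : Mor G N') (hσ : σ.Generates)
    (hτ : τ.SurjModY) : LinearMap.range τ.f₀ = LinearMap.range σ.f₀ := by
  obtain ⟨c, h₀, -⟩ := hσ τ
  have hc : IsUnit c := by
    by_contra hc
    obtain ⟨m, hm, hcm⟩ := exists_max_ideal_of_mem_nonunits (show c ∈ nonunits B from hc)
    obtain ⟨z, hz⟩ := helper69.exists_notMem_smul_top_of_surjModY τ hτ m hm
    apply hz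
    rw [h₀ z]
    exact Submodule.smul_mem_smul hcm Submodule.mem_top
  apply le_antisymm
  · rintro _ ⟨z, rfl⟩
    rw [h₀ z]
    exact ⟨c • z, helper4743.map_smulB₀ σ.f₀ c z⟩
  · rintro _ ⟨z, rfl⟩
    obtain ⟨d, hd⟩ := hc.exists_left_inv
    refine ⟨d • z, ?_⟩
    rw [helper4743.map_smulB₀, h₀ z, smul_smul, hd, one_smul]

/-- `twistOf N I` only depends on the ideal `I`. -/
theorem twistOf_congr (N : GlueDatum D k) {I I' : Ideal (D.A₀ B)}
    [Module.Finite B (D.A₀ B ⧸ I)] [Module.Projective B (D.A₀ B ⧸ I)]
    [Module.Finite B (D.A₀ B ⧸ I')] [Module.Projective B (D.A₀ B ⧸ I')] (h : I = I') :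
    (twistOf N I).Equiv (twistOf N I') := by
  subst h
  exact GlueDatum.Equiv.refl _

/-- The fibre input of (FG1) at a field-valued point of a good chart: the inclusion
`N_K(−D_I) → N_K` generates, and `H¹(Hom) = 0`. -/
theorem generates_twistOfIncl_field (hX2 : Stmt_GoodBaseChange.{u})
    (hGen : Stmt_FieldGenerates.{u}) (N : GlueDatum D k) (hN : HasDegreeGenus N)
    (s : Fin (genus D) → D.R₀) (f : helper1002.ChartAlg k D.R₀ s) (hgood : Good N s f)
    (K : Type u) [Field K] [Algebra k K] (γ : W D s f →ₐ[k] K)
    [Module.Finite K (D.A₀ K ⧸ (chartIdeal s f).map (D.map₀ γ))]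
    [Module.Projective K (D.A₀ K ⧸ (chartIdeal s f).map (D.map₀ γ))] :
    (twistOfIncl N ((chartIdeal s f).map (D.map₀ γ))).Generates ∧
      Function.Surjective (helper1397.homDatum (twistOf N ((chartIdeal s f).map (D.map₀ γ)))
        (baseOver N K)).delta := by
  have hδ := hX2 k D N s f hgood K γ
  refine ⟨hGen k D K _ _ ?_ ?_ hδ _ ?_, hδ⟩
  · exact helper743.degZero_of_equiv (stmt_UnivPoint k D N s f K γ)
      (helper743.degZero_baseChange (helper6401.stmt_UnivDeg k D N hN s f) γ)
  · rw [helper239.chi_field_ext N (Algebra.ofId k K), helper239.chi_unit D K]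
    exact hN
  · intro h0
    obtain ⟨z, hz⟩ := helper69.exists_notMem_smul_top_of_surjModY
      (twistOfIncl N ((chartIdeal s f).map (D.map₀ γ))) (twistOfIncl_surjModY N _) ⊥
      Ideal.bot_isMaximal
    apply hz
    rw [h0]
    exact Submodule.zero_mem _

end

/-- **Clause MONO of the chart family**, from the fibrewise criterion (FG1), the base change
of the index condition (X2) and the field statement (GEN). -/
theorem stmt_UnivMono_of (hFG1 : Stmt_FibGlobalMor.{u}) (hX2 : Stmt_GoodBaseChange.{u})
    (hGen : Stmt_FieldGenerates.{u}) : Stmt_UnivMono.{u} := by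
  intro k _ _ D N hN s f hgood B _ _ φ φ' hEq
  have hI : helper1002.IsChartIdeal s ((chartIdeal s f).map (D.map₀ φ)) :=
    (isChartIdeal_chartIdeal s f).map φ
  have hI' : helper1002.IsChartIdeal s ((chartIdeal s f).map (D.map₀ φ')) :=
    (isChartIdeal_chartIdeal s f).map φ'
  haveI := hI.finite
  haveI := hI.projective
  haveI := hI'.finite
  haveI := hI'.projective
  have e1 := stmt_UnivPoint k D N s f B φ
  have e2 := stmt_UnivPoint k D N s f B φ'
  have e : (twistOf N ((chartIdeal s f).map (D.map₀ φ))).Equiv
      (twistOf N ((chartIdeal s f).map (D.map₀ φ'))) := e1.symm.trans (hEq.trans e2)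
  -- the global generator
  obtain ⟨σ, -, hσg, -⟩ := hFG1 k D N B (twistOf N ((chartIdeal s f).map (D.map₀ φ)))
    (isRig_twistOf N _) (by
      intro m hm
      haveI := hm
      letI : Field (B ⧸ m) := Ideal.Quotient.field m
      let χ : B →ₐ[k] B ⧸ m := Ideal.Quotient.mkₐ k m
      have hIK : helper1002.IsChartIdeal s
          (((chartIdeal s f).map (D.map₀ φ)).map (D.map₀ χ)) := hI.map χ
      haveI := hIK.finite
      haveI := hIK.projective
      have hIK' : helper1002.IsChartIdeal s ((chartIdeal s f).map (D.map₀ (χ.comp φ))) :=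
        (isChartIdeal_chartIdeal s f).map (χ.comp φ)
      haveI := hIK'.finite
      haveI := hIK'.projective
      have hcomp : ((chartIdeal s f).map (D.map₀ φ)).map (D.map₀ χ) =
          (chartIdeal s f).map (D.map₀ (χ.comp φ)) := by
        have hc : (D.map₀ χ).comp (D.map₀ φ) = D.map₀ (χ.comp φ) := by
          apply Algebra.TensorProduct.ext' 
          intro r b
          rfl
        change Ideal.map (D.map₀ χ).toRingHom (Ideal.map (D.map₀ φ).toRingHom _) =
          Ideal.map (D.map₀ (χ.comp φ)).toRingHom _
        rw [Ideal.map_map, ← hc]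
        rfl
      obtain ⟨hgen, hδ⟩ :=
        generates_twistOfIncl_field hX2 hGen N hN s f hgood (B ⧸ m) (χ.comp φ)
      obtain ⟨ι⟩ : ((twistOf N ((chartIdeal s f).map (D.map₀ φ))).baseChange χ).Equiv
          (twistOf N ((chartIdeal s f).map (D.map₀ (χ.comp φ)))) :=
        (twistOf_baseChange N χ _).trans (twistOf_congr N hcomp)
      exact ⟨B ⧸ m, inferInstance, inferInstance, χ, Ideal.mk_ker,
        (twistOfIncl N _).comp (Mor.ofIso ι),
        helper4743.surjModY_comp_iso_source (twistOfIncl_surjModY N _) ι,
        helper4743.generates_comp_iso_source hgen ι,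
        (helper233.surjective_delta_homDatum_iff ⟨ι⟩ (GlueDatum.Equiv.refl _)).mpr hδ⟩)
  -- the two morphisms which are surjective modulo `y`
  obtain ⟨ι⟩ := e
  have h1 := range_eq_of_generates σ (twistOfIncl N ((chartIdeal s f).map (D.map₀ φ))) hσg
    (twistOfIncl_surjModY N _)
  have h2 := range_eq_of_generates σ
    ((twistOfIncl N ((chartIdeal s f).map (D.map₀ φ'))).comp (Mor.ofIso ι)) hσg
    (helper4743.surjModY_comp_iso_source (twistOfIncl_surjModY N _) ι)
  have h3 : LinearMap.range
      ((twistOfIncl N ((chartIdeal s f).map (D.map₀ φ'))).comp (Mor.ofIso ι)).f₀ =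
      LinearMap.range (twistOfIncl N ((chartIdeal s f).map (D.map₀ φ'))).f₀ :=
    LinearMap.range_comp_of_range_eq_top _ (LinearEquiv.range ι.e₀)
  have h4 : ((chartIdeal s f).map (D.map₀ φ)) • (⊤ : Submodule (D.A₀ B) (baseOver N B).M₀) =
      ((chartIdeal s f).map (D.map₀ φ')) • ⊤ := by
    rw [← range_twistOfIncl_f₀ N, ← range_twistOfIncl_f₀ N, h1, ← h3, h2]
  exact helper1002.chartAway_hom_ext f (helper7244.smul_top_injective h4)

/-- (X2) holds: the index condition of a good chart after base change
(`helper1985.delta_baseChange_surjective`, `helper1397.homDatum_baseChange_equiv`,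
`helper3173.stmt_UnivPoint`, `helper3173.baseOver_baseChange`). -/
theorem stmt_GoodBaseChange : Stmt_GoodBaseChange.{u} := by
  intro k _ _ D N s f hgood B _ _ γ _ _
  have h1 := helper1985.delta_baseChange_surjective
    (helper1397.homDatum (P N s f) (baseOver N (W D s f))) γ hgood
  have h2 := (helper233.surjective_delta_iff_of_equiv
    (helper1397.homDatum_baseChange_equiv (P N s f) (baseOver N (W D s f)) γ)).mp h1
  exact (helper233.surjective_delta_homDatum_iff (stmt_UnivPoint k D N s f B γ)
    (baseOver_baseChange N γ)).mp h2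

/-- (GEN) is `helper25.generates_of_surjective_delta`. -/
theorem stmt_FieldGenerates : Stmt_FieldGenerates.{u} :=
  fun _ _ _ _ _ _ _ G N' hG hN h1 σ hσ =>
    helper25.generates_of_surjective_delta G N' hG hN h1 σ hσ

/-- **Clause MONO of the chart family**, from the fibrewise criterion (FG1) and the base change
of the index condition (X2). -/
theorem stmt_UnivMono_of_fibGlobal (hFG1 : Stmt_FibGlobalMor.{u})
    (hX2 : Stmt_GoodBaseChange.{u}) : Stmt_UnivMono.{u} :=
  stmt_UnivMono_of hFG1 hX2 stmt_FieldGenerates

/-- **Clause MONO of the chart family**, from the fibrewise criterion (FG1) alone. -/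
theorem stmt_UnivMono_of_fg1 (hFG1 : Stmt_FibGlobalMor.{u}) : Stmt_UnivMono.{u} :=
  stmt_UnivMono_of hFG1 stmt_GoodBaseChange stmt_FieldGenerates

end Fermat.Agent.S25.helper83
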