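import Fermat.Agent.S25.helper2531_FieldCoverMor

/-!
# S25, root `Stmt_CoverAC`: the contract between the field side and the base-bundle side (helper83)

Ruling R10 of the S25 project splits the covering statement `helper8573.Stmt_CoverAC` into

* the FIELD side: for a rigidified degree-zero bundle `G` over an algebraically closed field
  `K ⊇ k` there are `n`, a finite set `S` of `k`-rational points of the first chart and a morphism
  `σ : G → 𝒪_K(n · D∞)` vanishing on `S`, spanning all such morphisms, and an isomorphism along
  `V(y)`, with `S.card + 1 = χ(𝒪) + n · degInf D`;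
* the BASE-BUNDLE side: this implies the covering statement, with the base bundles
  `𝒪_C(n · D∞ − S)` over `k`.

`Stmt_FieldCoverMor` is the interface: it is, word for word, the conclusion of
`helper2531.exists_fieldCoverMor_of`, quantified over all rigidified degree-zero bundles.
-/

set_option autoImplicit false

namespace Fermat.Agent.S25.helper83

open Fermat.Agent.S25.helper1705 Fermat.Agent.S25.helper2945

universe u

/-- **Contract of the root `Stmt_CoverAC`** (field side ⟹ base-bundle side). For every
rigidified degree-zero two-chart bundle `G` over an algebraically closed field `K ⊇ k` there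
are `n : ℕ`, a finite set `S` of `k`-rational points of the first chart and a morphism
`σ : G → 𝒪_K(n · D∞)` such that
* `S.card + 1 = χ(𝒪_K) + n · degInf D`;
* `σ` vanishes at every point of `S` (on the first chart);
* every morphism `G → 𝒪_K(n · D∞)` vanishing on `S` is a scalar multiple of `σ`;
* `σ` is surjective modulo `y` on the chart at infinity. -/
def Stmt_FieldCoverMor : Prop :=
  ∀ (k : Type u) [Field k] [IsAlgClosed k] (D : CurveDatum k) (K : Type u) [Field K]
    [Algebra k K] [IsAlgClosed K] (G : GlueDatum D K), G.IsRig → G.DegZero →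
    ∃ (n : ℕ) (S : Finset (D.R₀ →ₐ[k] k))
      (σ : helper8573.Mor G (helper3115.twist (GlueDatum.unit D K) (n : ℤ))),
      (S.card : ℤ) + 1 = (GlueDatum.unit D K).chi + (n : ℤ) * (helper1153.degInf D : ℤ) ∧
      (∀ Q ∈ S, ∀ m, σ.f₀ m ∈ helper2531.mQ D K Q) ∧
      (∀ τ : helper8573.Mor G (helper3115.twist (GlueDatum.unit D K) (n : ℤ)),
        (∀ Q ∈ S, ∀ m, τ.f₀ m ∈ helper2531.mQ D K Q) →
        ∃ c : K, (∀ m, τ.f₀ m = c • σ.f₀ m) ∧ (∀ m, τ.f₁ m = c • σ.f₁ m)) ∧
      σ.SurjModY

/-- The contract from the two inputs of `helper2531.exists_fieldCoverMor_of`: the Serre /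
count package `hS4` for the dual datum and the Euler characteristic of the dual of a
degree-zero bundle. -/
theorem stmt_FieldCoverMor_of
    (hS4 : ∀ (k : Type u) [Field k] [IsAlgClosed k] (D : CurveDatum k) (K : Type u) [Field K]
      [Algebra k K] (G : GlueDatum D K),
      ∃ n₀ : ℕ, ∀ n : ℕ, n₀ ≤ n → helper2531.DualSerre G n ∧
        FiniteDimensional K ↥(helper2531.secSub (helper2531.dualDatum G) (n + 1)) ∧
        (Module.finrank K ↥(helper2531.secSub (helper2531.dualDatum G) (n + 1)) : ℤ) =
          (helper2531.dualDatum G).chi + ((n + 1 : ℕ) : ℤ) * (helper1153.degInf D : ℤ))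
    (hchi : ∀ (k : Type u) [Field k] [IsAlgClosed k] (D : CurveDatum k) (K : Type u) [Field K]
      [Algebra k K] (G : GlueDatum D K), G.DegZero →
      (helper2531.dualDatum G).chi = (GlueDatum.unit D K).chi) :
    Stmt_FieldCoverMor.{u} := by
  intro k _ _ D K _ _ _ G _ hG0
  exact helper2531.exists_fieldCoverMor_of G (hS4 k D K G) (hchi k D K G hG0)

end Fermat.Agent.S25.helper83
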