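import Fermat.Agent.S25.helper845_InvTilde2

/-!
# S25 brick (helper845): sections of an invertible module over a two-chart scheme

Def-agnostic core of the field `exists_model` of the two-chart dictionary.

* `appAddEquiv`, `secEquiv` : sections of `L` over `J ''ᵁ W` versus sections of the pullback of
  `L` along an open immersion `J` over `W` (semilinear, compatible with restriction, natural).
* `chartRingEquiv` : `A ≃+* Γ(X, J ''ᵁ ⊤)` for an open immersion `J : Spec A ⟶ X`.
* `ChartModel` : a triple of modules with two maps models the sections of `L` over the two charts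
  and their overlap.
-/

set_option autoImplicit false

open CategoryTheory AlgebraicGeometry

namespace Fermat.Agent.S25.helper845

universe u

section AppAddEquiv

variable {X : Scheme.{u}} {M N : X.Modules}

/-- An isomorphism of modules induces an additive equivalence on sections. -/
noncomputable def appAddEquiv (e : M ≅ N) (W : X.Opens) : Γ(M, W) ≃+ Γ(N, W) :=
  (Iso.mk (e.hom.app W) (e.inv.app W)
    (by rw [← Scheme.Modules.Hom.comp_app, e.hom_inv_id]; rfl)
    (by rw [← Scheme.Modules.Hom.comp_app, e.inv_hom_id]; rfl)).addCommGroupIsoToAddEquiv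

theorem appAddEquiv_apply (e : M ≅ N) (W : X.Opens) (s : Γ(M, W)) :
    appAddEquiv e W s = e.hom.app W s := rfl

theorem appAddEquiv_symm_apply (e : M ≅ N) (W : X.Opens) (s : Γ(N, W)) :
    (appAddEquiv e W).symm s = e.inv.app W s := rfl

theorem appAddEquiv_smul (e : M ≅ N) (W : X.Opens) (r : Γ(X, W)) (s : Γ(M, W)) :
    appAddEquiv e W (r • s) = r • appAddEquiv e W s :=
  Scheme.Modules.Hom.app_smul e.hom r s

theorem hom_app_res (φ : M ⟶ N) {W' W : X.Opens} (h : W' ≤ W) (s : Γ(M, W)) :
    φ.app W' (M.presheaf.map (homOfLE h).op s) = N.presheaf.map (homOfLE h).op (φ.app W s) := by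
  have := φ.mapPresheaf.naturality (homOfLE h).op
  exact congr($this s)

theorem appAddEquiv_res (e : M ≅ N) {W' W : X.Opens} (h : W' ≤ W) (s : Γ(M, W)) :
    appAddEquiv e W' (M.presheaf.map (homOfLE h).op s) =
      N.presheaf.map (homOfLE h).op (appAddEquiv e W s) :=
  hom_app_res e.hom h s

end AppAddEquiv

section SecEquiv

variable {X Y : Scheme.{u}} (J : Y ⟶ X) [IsOpenImmersion J]

/-- Sections of `L` over the image of `W` are the sections over `W` of the pullback of `L`
along the open immersion `J`. -/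
noncomputable def secEquiv (L : X.Modules) (W : Y.Opens) :
    Γ(L, J ''ᵁ W) ≃+ Γ((Scheme.Modules.pullback J).obj L, W) :=
  (L.restrictAppIso J W).symm.addCommGroupIsoToAddEquiv.trans
    (appAddEquiv ((Scheme.Modules.restrictFunctorIsoPullback J).app L) W)

theorem secEquiv_smul (L : X.Modules) (W : Y.Opens) (r : Γ(X, J ''ᵁ W)) (s : Γ(L, J ''ᵁ W)) :
    secEquiv J L W (r • s) = (J.appIso W).hom r • secEquiv J L W s := by
  unfold secEquiv
  simp only [AddEquiv.trans_apply]
  rw [← appAddEquiv_smul]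
  congr 1
  exact Scheme.Modules.smul_restrictAppIso_inv_apply J L W r s

theorem secEquiv_res (L : X.Modules) {W' W : Y.Opens} (h : W' ≤ W) (s : Γ(L, J ''ᵁ W)) :
    secEquiv J L W' (L.presheaf.map (homOfLE (J.image_mono h)).op s) =
      ((Scheme.Modules.pullback J).obj L).presheaf.map (homOfLE h).op (secEquiv J L W s) := by
  unfold secEquiv
  simp only [AddEquiv.trans_apply]
  rw [← appAddEquiv_res]
  rfl

theorem secEquiv_naturality {L L' : X.Modules} (φ : L ⟶ L') (W : Y.Opens) (s : Γ(L, J ''ᵁ W)) :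
    secEquiv J L' W (φ.app (J ''ᵁ W) s) =
      ((Scheme.Modules.pullback J).map φ).app W (secEquiv J L W s) := by
  unfold secEquiv
  simp only [AddEquiv.trans_apply, appAddEquiv_apply]
  have h := (Scheme.Modules.restrictFunctorIsoPullback J).hom.naturality φ
  have h2 := congr(Scheme.Modules.Hom.app $h W)
  simp only [Scheme.Modules.Hom.comp_app] at h2
  exact congr($h2 ((L.restrictAppIso J W).symm.addCommGroupIsoToAddEquiv s))

end SecEquiv

section ChartRing

variable {X : Scheme.{u}} {A : CommRingCat.{u}} (J : Spec A ⟶ X) [IsOpenImmersion J]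

/-- The canonical identification of the ring of a chart with the sections of the structure
sheaf over the image of the chart. -/
noncomputable def chartRingEquiv : A ≃+* Γ(X, J ''ᵁ ⊤) :=
  ((Scheme.ΓSpecIso A).symm ≪≫ (J.appIso ⊤).symm).commRingCatIsoToRingEquiv

theorem chartRingEquiv_apply (a : A) :
    chartRingEquiv J a = (J.appIso ⊤).inv ((Scheme.ΓSpecIso A).inv a) := rfl

/-- The element of `Γ(X, J ''ᵁ W)` corresponding to `a : A`. -/
noncomputable def chartElem (W : (Spec A).Opens) (a : A) : Γ(X, J ''ᵁ W) :=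
  X.presheaf.map (homOfLE (J.image_mono (le_top : W ≤ ⊤))).op (chartRingEquiv J a)

theorem appIso_chartElem (W : (Spec A).Opens) (a : A) :
    (J.appIso W).hom (chartElem J W a) =
      (Spec A).presheaf.map W.leTop.op ((Scheme.ΓSpecIso A).inv a) := by
  unfold chartElem
  rw [chartRingEquiv_apply]
  have h := J.appIso_inv_naturality (U := ⊤) (V := W) (homOfLE (le_top : W ≤ ⊤)).op
  have h2 := congr($h ((Scheme.ΓSpecIso A).inv a))
  simp only [CommRingCat.comp_apply] at h2
  change (J.appIso W).hom (X.presheaf.map _ ((J.appIso ⊤).inv ((Scheme.ΓSpecIso A).inv a))) = _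
  erw [← h2]
  simp
  rfl

/-- `secEquiv` is semilinear for the `A`-module structures. -/
theorem secEquiv_chartElem_smul (L : X.Modules) (W : (Spec A).Opens) (a : A)
    (s : Γ(L, J ''ᵁ W)) :
    secEquiv J L W (chartElem J W a • s) = a • secEquiv J L W s := by
  rw [secEquiv_smul, appIso_chartElem]
  rfl

theorem chartElem_top (a : A) : chartElem J ⊤ a = chartRingEquiv J a := by
  unfold chartElem
  have : (homOfLE (J.image_mono (le_top : (⊤ : (Spec A).Opens) ≤ ⊤))).op = 𝟙 _ := rfl
  rw [this, X.presheaf.map_id]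
  rfl

end ChartRing

section ChartRes

variable {X : Scheme.{u}} {A A' : CommRingCat.{u}} (r : A ⟶ A') (J : Spec A ⟶ X)
  (J' : Spec A' ⟶ X) [IsOpenImmersion J] [IsOpenImmersion J'] (h : Spec.map r ≫ J = J')

include h in
theorem image_top_le : J' ''ᵁ ⊤ ≤ J ''ᵁ ⊤ := by
  subst h
  rintro p ⟨q, -, rfl⟩
  exact ⟨(Spec.map r).base q, trivial, by simp⟩

theorem chartRingEquiv_res (a : A) :
    X.presheaf.map (homOfLE (image_top_le r J J' h)).op (chartRingEquiv J a) =
      chartRingEquiv J' (r a) := by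
  subst h
  have e₁ : (⊤ : (Spec A).Opens) ≤ J ⁻¹ᵁ (J ''ᵁ ⊤) := by rw [J.preimage_image_eq]
  have e₂ : (⊤ : (Spec A').Opens) ≤ (Spec.map r) ⁻¹ᵁ ⊤ := le_rfl
  have key : (J.appIso ⊤).inv ≫ X.presheaf.map (homOfLE (image_top_le r J _ rfl)).op ≫
      ((Spec.map r ≫ J).appIso ⊤).hom = (Spec.map r).appTop := by
    rw [Scheme.Hom.appIso_hom', Scheme.Hom.map_appLE,
      ← Scheme.Hom.appLE_comp_appLE _ _ _ ⊤ ⊤ e₁ e₂, Scheme.Hom.appIso_inv_appLE_assoc]
    rw [Scheme.Hom.map_appLE]
    rfl
  have key2 := congr($key ((Scheme.ΓSpecIso A).inv a))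
  have nat := congr($(Scheme.ΓSpecIso_inv_naturality r) a)
  simp only [CommRingCat.comp_apply] at key2 nat
  rw [chartRingEquiv_apply, chartRingEquiv_apply, nat, ← key2]
  simp

/-- The restriction map from the sections of (the pullback of) `L` over the chart `J` to the
sections over the smaller chart `J'`. -/
noncomputable def chartRes (L : X.Modules) :
    Γ((Scheme.Modules.pullback J).obj L, (⊤ : (Spec A).Opens)) →ₛₗ[r.hom]
      Γ((Scheme.Modules.pullback J').obj L, (⊤ : (Spec A').Opens)) where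
  toFun m := secEquiv J' L ⊤
    (L.presheaf.map (homOfLE (image_top_le r J J' h)).op ((secEquiv J L ⊤).symm m))
  map_add' m m' := by simp
  map_smul' a m := by
    obtain ⟨s, rfl⟩ := (secEquiv J L ⊤).surjective m
    rw [← secEquiv_chartElem_smul, AddEquiv.symm_apply_apply, AddEquiv.symm_apply_apply,
      chartElem_top]
    erw [Scheme.Modules.map_smul L (homOfLE (image_top_le r J J' h))]
    rw [chartRingEquiv_res r J J' h, ← chartElem_top, secEquiv_chartElem_smul]

theorem chartRes_secEquiv (L : X.Modules) (s : Γ(L, J ''ᵁ ⊤)) :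
    chartRes r J J' h L (secEquiv J L ⊤ s) =
      secEquiv J' L ⊤ (L.presheaf.map (homOfLE (image_top_le r J J' h)).op s) := by
  change secEquiv J' L ⊤ (L.presheaf.map _ ((secEquiv J L ⊤).symm (secEquiv J L ⊤ s))) = _
  rw [AddEquiv.symm_apply_apply]

end ChartRes

section Model

variable {X : Scheme.{u}} {A₀ A₁ A₀₁ : CommRingCat.{u}} (r₀ : A₀ ⟶ A₀₁) (r₁ : A₁ ⟶ A₀₁)
  (J₀ : Spec A₀ ⟶ X) (J₁ : Spec A₁ ⟶ X) (J₀₁ : Spec A₀₁ ⟶ X)
  [IsOpenImmersion J₀] [IsOpenImmersion J₁] [IsOpenImmersion J₀₁]
  (h₀ : Spec.map r₀ ≫ J₀ = J₀₁) (h₁ : Spec.map r₁ ≫ J₁ = J₀₁)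

/-- `(M₀, M₁, M₀₁, ρ₀, ρ₁)` models the invertible module `L` on the two-chart scheme `X`:
the three modules are identified, semilinearly along the canonical ring isomorphisms
`chartRingEquiv`, with the sections of `L` over the images of the two charts and of their
overlap, and `ρ₀`, `ρ₁` correspond to the restriction maps of `L`. -/
def ChartModel (L : X.Modules) {M₀ M₁ M₀₁ : Type u}
    [AddCommGroup M₀] [Module A₀ M₀] [AddCommGroup M₁] [Module A₁ M₁]
    [AddCommGroup M₀₁] [Module A₀₁ M₀₁] (ρ₀ : M₀ → M₀₁) (ρ₁ : M₁ → M₀₁) : Prop :=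
  Scheme.Modules.IsInvertible L ∧
  ∃ (a₀ : Γ(L, J₀ ''ᵁ ⊤) ≃+ M₀) (a₁ : Γ(L, J₁ ''ᵁ ⊤) ≃+ M₁) (a₀₁ : Γ(L, J₀₁ ''ᵁ ⊤) ≃+ M₀₁),
    (∀ (a : A₀) (s : Γ(L, J₀ ''ᵁ ⊤)), a₀ (chartRingEquiv J₀ a • s) = a • a₀ s) ∧
    (∀ (a : A₁) (s : Γ(L, J₁ ''ᵁ ⊤)), a₁ (chartRingEquiv J₁ a • s) = a • a₁ s) ∧
    (∀ (a : A₀₁) (s : Γ(L, J₀₁ ''ᵁ ⊤)), a₀₁ (chartRingEquiv J₀₁ a • s) = a • a₀₁ s) ∧
    (∀ s : Γ(L, J₀ ''ᵁ ⊤),
      a₀₁ (L.presheaf.map (homOfLE (image_top_le r₀ J₀ J₀₁ h₀)).op s) = ρ₀ (a₀ s)) ∧
    (∀ s : Γ(L, J₁ ''ᵁ ⊤),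
      a₀₁ (L.presheaf.map (homOfLE (image_top_le r₁ J₁ J₀₁ h₁)).op s) = ρ₁ (a₁ s))

/-- The sections of the pullbacks of `L` to the charts, with the restriction maps, model `L`. -/
theorem chartModel_sections (L : X.Modules) (hL : Scheme.Modules.IsInvertible L) :
    ChartModel r₀ r₁ J₀ J₁ J₀₁ h₀ h₁ L (chartRes r₀ J₀ J₀₁ h₀ L) (chartRes r₁ J₁ J₀₁ h₁ L) := by
  refine ⟨hL, secEquiv J₀ L ⊤, secEquiv J₁ L ⊤, secEquiv J₀₁ L ⊤, ?_, ?_, ?_, ?_, ?_⟩
  · intro a s
    rw [← chartElem_top, secEquiv_chartElem_smul]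
  · intro a s
    rw [← chartElem_top, secEquiv_chartElem_smul]
  · intro a s
    rw [← chartElem_top, secEquiv_chartElem_smul]
  · intro s
    rw [chartRes_secEquiv]
  · intro s
    rw [chartRes_secEquiv]

end Model

section Loc

variable {X : Scheme.{u}}

theorem res_res (L : X.Modules) {V'' V' V : X.Opens} (h₁ : V'' ≤ V') (h₂ : V' ≤ V)
    (s : Γ(L, V)) :
    L.presheaf.map (homOfLE h₁).op (L.presheaf.map (homOfLE h₂).op s) =
      L.presheaf.map (homOfLE (h₁.trans h₂)).op s := by
  rw [← ConcreteCategory.comp_apply, ← Functor.map_comp]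
  rfl

theorem res_self (L : X.Modules) {V : X.Opens} (h : V ≤ V) (s : Γ(L, V)) :
    L.presheaf.map (homOfLE h).op s = s := by
  have : (homOfLE h).op = 𝟙 _ := rfl
  rw [this, L.presheaf.map_id]
  rfl

variable {A A' : CommRingCat.{u}} (r : A ⟶ A') (J : Spec A ⟶ X)
  (J' : Spec A' ⟶ X) [IsOpenImmersion J] [IsOpenImmersion J'] (h : Spec.map r ≫ J = J')

include h in
theorem image_bo_eq (x : A) (hx : letI := r.hom.toAlgebra; IsLocalization.Away x A') :
    J ''ᵁ (bo x) = J' ''ᵁ ⊤ := by
  subst h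
  let _ := r.hom.toAlgebra
  have hr : Set.range (PrimeSpectrum.comap (algebraMap A A')) = PrimeSpectrum.basicOpen x :=
    PrimeSpectrum.localization_away_comap_range A' x
  ext p
  constructor
  · rintro ⟨q, hq, rfl⟩
    have hq' : q ∈ Set.range (PrimeSpectrum.comap (algebraMap A A')) := by
      rw [hr]; exact hq
    obtain ⟨q', rfl⟩ := hq'
    exact ⟨q', trivial, by simp; rfl⟩
  · rintro ⟨q', -, rfl⟩
    refine ⟨(Spec.map r).base q', ?_, by simp⟩
    have : (Spec.map r).base q' ∈ Set.range (PrimeSpectrum.comap (algebraMap A A')) :=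
      ⟨q', rfl⟩
    rw [hr] at this
    exact this

/-- Key comparison: restricting to the basic open `D(x)` of the chart `J` and then transporting
to the chart `J'` is the restriction map `chartRes`. -/
theorem chartRes_eq (L : X.Modules) (x : A)
    (hV : J ''ᵁ (bo x) = J' ''ᵁ ⊤)
    (m : Γ((Scheme.Modules.pullback J).obj L, (⊤ : (Spec A).Opens))) :
    chartRes r J J' h L m = secEquiv J' L ⊤ (L.presheaf.map (homOfLE hV.ge).op
      ((secEquiv J L (bo x)).symm (resBo ((Scheme.Modules.pullback J).obj L) x m))) := by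
  obtain ⟨s, rfl⟩ := (secEquiv J L ⊤).surjective m
  rw [chartRes_secEquiv]
  congr 1
  have h1 : resBo ((Scheme.Modules.pullback J).obj L) x (secEquiv J L ⊤ s) =
      secEquiv J L (bo x) (L.presheaf.map (homOfLE (J.image_mono (le_top : bo x ≤ ⊤))).op s) :=
    (secEquiv_res J L (le_top : bo x ≤ ⊤) s).symm
  rw [h1, AddEquiv.symm_apply_apply, res_res]

/-- Restriction along an equality of opens, as an additive equivalence. -/
noncomputable def resEquiv (L : X.Modules) {V V' : X.Opens} (hV : V = V') : Γ(L, V) ≃+ Γ(L, V') where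
  toFun s := L.presheaf.map (homOfLE hV.ge).op s
  invFun s := L.presheaf.map (homOfLE hV.le).op s
  left_inv s := (res_res L _ _ s).trans (res_self L _ s)
  right_inv s := (res_res L _ _ s).trans (res_self L _ s)
  map_add' s s' := by simp

/-- Sections over `D(x)` of the pullback to the chart `J` are the global sections of the
pullback to the chart `J'`, when `J'` is the chart `D(x)` of `J`. -/
noncomputable def boEquiv (L : X.Modules) (x : A) (hV : J ''ᵁ (bo x) = J' ''ᵁ ⊤) :
    Γ((Scheme.Modules.pullback J).obj L, bo x) ≃+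
      Γ((Scheme.Modules.pullback J').obj L, (⊤ : (Spec A').Opens)) :=
  (secEquiv J L (bo x)).symm.trans ((resEquiv L hV).trans (secEquiv J' L ⊤))

theorem chartRes_eq_boEquiv (L : X.Modules) (x : A) (hV : J ''ᵁ (bo x) = J' ''ᵁ ⊤)
    (m : Γ((Scheme.Modules.pullback J).obj L, (⊤ : (Spec A).Opens))) :
    chartRes r J J' h L m =
      boEquiv J J' L x hV (resBo ((Scheme.Modules.pullback J).obj L) x m) :=
  chartRes_eq r J J' h L x hV m

include h in
theorem boEquiv_smul (L : X.Modules) (x : A) (hV : J ''ᵁ (bo x) = J' ''ᵁ ⊤) (a : A)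
    (t : Γ((Scheme.Modules.pullback J).obj L, bo x)) :
    boEquiv J J' L x hV (a • t) = r a • boEquiv J J' L x hV t := by
  obtain ⟨s, rfl⟩ := (secEquiv J L (bo x)).surjective t
  rw [← secEquiv_chartElem_smul]
  unfold boEquiv
  simp only [AddEquiv.trans_apply, AddEquiv.symm_apply_apply]
  change secEquiv J' L ⊤ (L.presheaf.map (homOfLE hV.ge).op (chartElem J (bo x) a • s)) =
    r a • secEquiv J' L ⊤ (L.presheaf.map (homOfLE hV.ge).op s)
  erw [Scheme.Modules.map_smul L (homOfLE hV.ge)]
  have key : X.presheaf.map (homOfLE hV.ge).op (chartElem J (bo x) a) =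
      chartRingEquiv J' (r a) := by
    rw [← chartRingEquiv_res r J J' h]
    unfold chartElem
    rw [← CommRingCat.comp_apply, ← Functor.map_comp]
    rfl
  rw [key, ← chartElem_top, secEquiv_chartElem_smul]

/-- `chartRes` is a localization at `x`, surjectivity part. -/
theorem chartRes_surj (L : X.Modules) (hL : Scheme.Modules.IsInvertible L) (x : A)
    (hx : letI := r.hom.toAlgebra; IsLocalization.Away x A')
    (m' : Γ((Scheme.Modules.pullback J').obj L, (⊤ : (Spec A').Opens))) :
    ∃ (n : ℕ) (m : Γ((Scheme.Modules.pullback J).obj L, (⊤ : (Spec A).Opens))),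
      r x ^ n • m' = chartRes r J J' h L m := by
  have hV := image_bo_eq r J J' h x hx
  have loc := isLocalizedModule_resBo ((Scheme.Modules.pullback J).obj L) (hL.pullback J) x
  obtain ⟨⟨m, ⟨_, n, rfl⟩⟩, hm⟩ := IsLocalizedModule.surj (Submonoid.powers x)
    (resBo ((Scheme.Modules.pullback J).obj L) x) ((boEquiv J J' L x hV).symm m')
  refine ⟨n, m, ?_⟩
  rw [chartRes_eq_boEquiv r J J' h L x hV]
  change x ^ n • (boEquiv J J' L x hV).symm m' = _ at hm
  rw [← hm, boEquiv_smul r J J' h, AddEquiv.apply_symm_apply, map_pow]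

/-- `chartRes` is a localization at `x`, kernel part. -/
theorem chartRes_ker (L : X.Modules) (hL : Scheme.Modules.IsInvertible L) (x : A)
    (hx : letI := r.hom.toAlgebra; IsLocalization.Away x A')
    (m : Γ((Scheme.Modules.pullback J).obj L, (⊤ : (Spec A).Opens)))
    (hm : chartRes r J J' h L m = 0) : ∃ n : ℕ, x ^ n • m = 0 := by
  have hV := image_bo_eq r J J' h x hx
  have loc := isLocalizedModule_resBo ((Scheme.Modules.pullback J).obj L) (hL.pullback J) x
  rw [chartRes_eq_boEquiv r J J' h L x hV] at hm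
  have hm' : resBo ((Scheme.Modules.pullback J).obj L) x m =
      resBo ((Scheme.Modules.pullback J).obj L) x 0 := by
    rw [map_zero]
    exact (boEquiv J J' L x hV).map_eq_zero_iff.mp hm
  obtain ⟨⟨_, n, rfl⟩, hc⟩ := IsLocalizedModule.exists_of_eq (S := Submonoid.powers x) hm'
  refine ⟨n, ?_⟩
  rw [smul_zero] at hc
  exact hc

omit [IsOpenImmersion J] in
/-- The sections of an invertible module over a chart form an invertible module. -/
theorem invertible_chart (L : X.Modules) (hL : Scheme.Modules.IsInvertible L) :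
    Module.Invertible A Γ((Scheme.Modules.pullback J).obj L, (⊤ : (Spec A).Opens)) :=
  invertible_sections _ (hL.pullback J)

end Loc

section UnitModel

variable {X : Scheme.{u}} {A₀ A₁ A₀₁ : CommRingCat.{u}} (r₀ : A₀ ⟶ A₀₁) (r₁ : A₁ ⟶ A₀₁)
  (J₀ : Spec A₀ ⟶ X) (J₁ : Spec A₁ ⟶ X) (J₀₁ : Spec A₀₁ ⟶ X)
  [IsOpenImmersion J₀] [IsOpenImmersion J₁] [IsOpenImmersion J₀₁]
  (h₀ : Spec.map r₀ ≫ J₀ = J₀₁) (h₁ : Spec.map r₁ ≫ J₁ = J₀₁)

/-- The sections of the structure sheaf over the image of a chart, identified with the ring of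
the chart. -/
noncomputable def unitEquiv {A : CommRingCat.{u}} (J : Spec A ⟶ X) [IsOpenImmersion J] :
    Γ(OO X, J ''ᵁ ⊤) ≃+ A :=
  (AddEquiv.refl Γ(X, J ''ᵁ ⊤)).trans (chartRingEquiv J).symm.toAddEquiv

/-- The triple `(A₀, A₁, A₀₁)` with the ring maps models the structure sheaf. -/
theorem chartModel_unit :
    ChartModel r₀ r₁ J₀ J₁ J₀₁ h₀ h₁ (SheafOfModules.unit.{u} X.ringCatSheaf)
      (M₀ := A₀) (M₁ := A₁) (M₀₁ := A₀₁) r₀.hom r₁.hom := by
  refine ⟨Scheme.Modules.isInvertible_unit X, unitEquiv J₀, unitEquiv J₁, unitEquiv J₀₁,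
    ?_, ?_, ?_, ?_, ?_⟩
  · intro a (s : Γ(X, J₀ ''ᵁ ⊤))
    change (chartRingEquiv J₀).symm (chartRingEquiv J₀ a * s) = a * (chartRingEquiv J₀).symm s
    simp
  · intro a (s : Γ(X, J₁ ''ᵁ ⊤))
    change (chartRingEquiv J₁).symm (chartRingEquiv J₁ a * s) = a * (chartRingEquiv J₁).symm s
    simp
  · intro a (s : Γ(X, J₀₁ ''ᵁ ⊤))
    change (chartRingEquiv J₀₁).symm (chartRingEquiv J₀₁ a * s) =
      a * (chartRingEquiv J₀₁).symm s
    simp
  · intro (s : Γ(X, J₀ ''ᵁ ⊤))
    obtain ⟨b, rfl⟩ := (chartRingEquiv J₀).surjective s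
    change (chartRingEquiv J₀₁).symm (X.presheaf.map (homOfLE (image_top_le r₀ J₀ J₀₁ h₀)).op
      (chartRingEquiv J₀ b)) = r₀.hom ((chartRingEquiv J₀).symm (chartRingEquiv J₀ b))
    rw [chartRingEquiv_res r₀ J₀ J₀₁ h₀]
    simp
  · intro (s : Γ(X, J₁ ''ᵁ ⊤))
    obtain ⟨b, rfl⟩ := (chartRingEquiv J₁).surjective s
    change (chartRingEquiv J₀₁).symm (X.presheaf.map (homOfLE (image_top_le r₁ J₁ J₀₁ h₁)).op
      (chartRingEquiv J₁ b)) = r₁.hom ((chartRingEquiv J₁).symm (chartRingEquiv J₁ b))
    rw [chartRingEquiv_res r₁ J₁ J₀₁ h₁]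
    simp

end UnitModel

section AffineOpen

variable {X : Scheme.{u}} (L : X.Modules) {U : X.Opens} (hU : IsAffineOpen U)

theorem fromSpec_image_top : hU.fromSpec ''ᵁ ⊤ = U := by
  rw [Scheme.Hom.image_top_eq_opensRange, hU.opensRange_fromSpec]

theorem chartRingEquiv_fromSpec (a : Γ(X, U)) :
    chartRingEquiv hU.fromSpec a =
      X.presheaf.map (homOfLE (fromSpec_image_top hU).le).op a := by
  have key : X.presheaf.map (homOfLE (fromSpec_image_top hU).le).op ≫
      (hU.fromSpec.appIso ⊤).hom = (Scheme.ΓSpecIso Γ(X, U)).inv := by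
    rw [Scheme.Hom.appIso_hom', Scheme.Hom.map_appLE, Scheme.Hom.appLE,
      hU.fromSpec_app_self, Category.assoc, ← Functor.map_comp]
    have hid : ((eqToHom hU.fromSpec_preimage_self).op ≫
        (homOfLE (show (⊤ : (Spec Γ(X, U)).Opens) ≤ hU.fromSpec ⁻¹ᵁ U from
          hU.fromSpec_preimage_self.ge)).op) = 𝟙 _ := Subsingleton.elim _ _
    erw [hid, CategoryTheory.Functor.map_id, Category.comp_id]
  have key2 := congr($key a)
  rw [chartRingEquiv_apply, ← key2]
  simp

/-- Sections of `L` over an affine open `U`, as a `Γ(X, U)`-module, are the global sections of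
the pullback of `L` to `Spec Γ(X, U)`. -/
noncomputable def affineSecEquiv :
    Γ(L, U) ≃ₗ[Γ(X, U)]
      Γ((Scheme.Modules.pullback hU.fromSpec).obj L, (⊤ : (Spec Γ(X, U)).Opens)) where
  __ := (resEquiv L (fromSpec_image_top hU).symm).trans (secEquiv hU.fromSpec L ⊤)
  map_smul' a s := by
    change secEquiv hU.fromSpec L ⊤ (L.presheaf.map
      (homOfLE (fromSpec_image_top hU).symm.ge).op (a • s)) =
      a • secEquiv hU.fromSpec L ⊤ (L.presheaf.map
        (homOfLE (fromSpec_image_top hU).symm.ge).op s)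
    erw [Scheme.Modules.map_smul L (homOfLE (fromSpec_image_top hU).symm.ge)]
    rw [← secEquiv_chartElem_smul, chartElem_top, chartRingEquiv_fromSpec]

theorem affineSecEquiv_apply (s : Γ(L, U)) :
    affineSecEquiv L hU s = secEquiv hU.fromSpec L ⊤
      (L.presheaf.map (homOfLE (fromSpec_image_top hU).le).op s) := rfl

include hU in
/-- **P2', opens form.** Sections of an invertible module over an affine open form an invertible
module over the ring of functions on that open. -/
theorem invertible_sections_of_isAffineOpen (hL : Scheme.Modules.IsInvertible L) :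
    Module.Invertible Γ(X, U) Γ(L, U) :=
  haveI := invertible_chart hU.fromSpec L hL
  Module.Invertible.congr (affineSecEquiv L hU).symm

theorem fromSpec_image_bo (f : Γ(X, U)) : hU.fromSpec ''ᵁ (bo f) = X.basicOpen f :=
  hU.fromSpec_image_basicOpen f

/-- Sections of `L` over `V = D(f) ⊆ U` are the sections over `D(f)` of the pullback of `L` to
`Spec Γ(X, U)`. -/
noncomputable def affineBoEquiv (f : Γ(X, U)) {V : X.Opens} (hV : V = X.basicOpen f) :
    Γ(L, V) ≃+ Γ((Scheme.Modules.pullback hU.fromSpec).obj L, bo f) :=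
  (resEquiv L (hV.trans (fromSpec_image_bo hU f).symm)).trans (secEquiv hU.fromSpec L (bo f))

theorem affineBoEquiv_res (f : Γ(X, U)) {V : X.Opens} (hV : V = X.basicOpen f) (hVU : V ≤ U)
    (s : Γ(L, U)) :
    affineBoEquiv L hU f hV (L.presheaf.map (homOfLE hVU).op s) =
      resBo ((Scheme.Modules.pullback hU.fromSpec).obj L) f (affineSecEquiv L hU s) := by
  have h1 : resBo ((Scheme.Modules.pullback hU.fromSpec).obj L) f (affineSecEquiv L hU s) =
      secEquiv hU.fromSpec L (bo f) (L.presheaf.map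
        (homOfLE (hU.fromSpec.image_mono (le_top : bo f ≤ ⊤))).op
        (L.presheaf.map (homOfLE (fromSpec_image_top hU).le).op s)) :=
    (secEquiv_res hU.fromSpec L (le_top : bo f ≤ ⊤) _).symm
  rw [h1, res_res]
  change secEquiv hU.fromSpec L (bo f) (L.presheaf.map _ (L.presheaf.map (homOfLE hVU).op s)) = _
  rw [res_res]

theorem affineBoEquiv_smul (f : Γ(X, U)) {V : X.Opens} (hV : V = X.basicOpen f) (hVU : V ≤ U)
    (a : Γ(X, U)) (t : Γ(L, V)) :
    affineBoEquiv L hU f hV (X.presheaf.map (homOfLE hVU).op a • t) =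
      a • affineBoEquiv L hU f hV t := by
  change secEquiv hU.fromSpec L (bo f) (L.presheaf.map
      (homOfLE (hV.trans (fromSpec_image_bo hU f).symm).ge).op
      (X.presheaf.map (homOfLE hVU).op a • t)) =
    a • secEquiv hU.fromSpec L (bo f) (L.presheaf.map
      (homOfLE (hV.trans (fromSpec_image_bo hU f).symm).ge).op t)
  erw [Scheme.Modules.map_smul L (homOfLE (hV.trans (fromSpec_image_bo hU f).symm).ge)]
  rw [← secEquiv_chartElem_smul]
  congr 2
  unfold chartElem
  rw [chartRingEquiv_fromSpec, ← CommRingCat.comp_apply, ← Functor.map_comp,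
    ← CommRingCat.comp_apply, ← Functor.map_comp]
  rfl

include hU in
/-- **P2', opens form, localization (surjectivity part).** For `L` invertible, `U` affine and
`V = D(f)`: every section over `V` becomes the restriction of a section over `U` after
multiplication by a power of `f`. -/
theorem res_basicOpen_surj (hL : Scheme.Modules.IsInvertible L) (f : Γ(X, U)) {V : X.Opens}
    (hV : V = X.basicOpen f) (hVU : V ≤ U) (t : Γ(L, V)) :
    ∃ (n : ℕ) (s : Γ(L, U)),
      X.presheaf.map (homOfLE hVU).op f ^ n • t = L.presheaf.map (homOfLE hVU).op s := by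
  have loc := isLocalizedModule_resBo ((Scheme.Modules.pullback hU.fromSpec).obj L)
    (hL.pullback hU.fromSpec) f
  obtain ⟨⟨m, ⟨_, n, rfl⟩⟩, hm⟩ := IsLocalizedModule.surj (Submonoid.powers f)
    (resBo ((Scheme.Modules.pullback hU.fromSpec).obj L) f) (affineBoEquiv L hU f hV t)
  refine ⟨n, (affineSecEquiv L hU).symm m, ?_⟩
  apply (affineBoEquiv L hU f hV).injective
  change f ^ n • affineBoEquiv L hU f hV t = _ at hm
  rw [affineBoEquiv_res L hU f hV hVU, LinearEquiv.apply_symm_apply, ← hm, ← map_pow,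
    affineBoEquiv_smul L hU f hV hVU]

include hU in
/-- **P2', opens form, localization (kernel part).** For `L` invertible, `U` affine and
`V = D(f)`: a section over `U` vanishing on `V` is killed by a power of `f`. -/
theorem res_basicOpen_ker (hL : Scheme.Modules.IsInvertible L) (f : Γ(X, U)) {V : X.Opens}
    (hV : V = X.basicOpen f) (hVU : V ≤ U) (s : Γ(L, U))
    (hs : L.presheaf.map (homOfLE hVU).op s = 0) : ∃ n : ℕ, f ^ n • s = 0 := by
  have loc := isLocalizedModule_resBo ((Scheme.Modules.pullback hU.fromSpec).obj L)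
    (hL.pullback hU.fromSpec) f
  have h0 : resBo ((Scheme.Modules.pullback hU.fromSpec).obj L) f (affineSecEquiv L hU s) =
      resBo ((Scheme.Modules.pullback hU.fromSpec).obj L) f 0 := by
    rw [← affineBoEquiv_res L hU f hV hVU, hs, map_zero, map_zero]
  obtain ⟨⟨_, n, rfl⟩, hc⟩ := IsLocalizedModule.exists_of_eq (S := Submonoid.powers f) h0
  refine ⟨n, ?_⟩
  rw [smul_zero] at hc
  apply (affineSecEquiv L hU).injective
  rw [map_smul, map_zero]
  exact hc

end AffineOpen

section Transport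

open TensorProduct in
/-- Invertibility of a module transports along a semilinear equivalence over a ring
isomorphism. -/
theorem invertible_of_semilinearEquiv {A R : Type*} [CommRing A] [CommRing R] (γ : A ≃+* R)
    {M N : Type*} [AddCommGroup M] [Module A M] [AddCommGroup N] [Module R N]
    [Module.Invertible R N] (e : M ≃+ N) (he : ∀ (a : A) (m : M), e (a • m) = γ a • e m) :
    Module.Invertible A M := by
  have he' : ∀ (r : R) (n : N), e.symm (r • n) = γ.symm r • e.symm n := by
    intro r n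
    apply e.injective
    rw [he, AddEquiv.apply_symm_apply, AddEquiv.apply_symm_apply, RingEquiv.apply_symm_apply]
  -- functionals on `M` from functionals on `N` and conversely
  let toN : Module.Dual A M → Module.Dual R N := fun φ =>
    { toFun := fun n => γ (φ (e.symm n))
      map_add' := fun n n' => by simp
      map_smul' := fun r n => by simp [he'] }
  let toM : Module.Dual R N → Module.Dual A M := fun ψ =>
    { toFun := fun m => γ.symm (ψ (e m))
      map_add' := fun m m' => by simp
      map_smul' := fun a m => by simp [he] }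
  refine helper1800.invertible_of_contract_eq_one_of_smul_comm ?_ ?_
  · obtain ⟨s', hs'⟩ := (Module.Invertible.bijective (R := R) (M := N)).2 1
    have key : ∀ t : Module.Dual R N ⊗[R] N, ∃ s : Module.Dual A M ⊗[A] M,
        contractLeft A M s = γ.symm (contractLeft R N t) := by
      intro t
      induction t using TensorProduct.induction_on with
      | zero => exact ⟨0, by simp⟩
      | tmul ψ n =>
        refine ⟨toM ψ ⊗ₜ[A] e.symm n, ?_⟩
        simp [toM]
      | add t t' ht ht' =>
        obtain ⟨s, hs⟩ := ht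
        obtain ⟨s₂, hs₂⟩ := ht'
        exact ⟨s + s₂, by simp [hs, hs₂]⟩
    obtain ⟨s, hs⟩ := key s'
    exact ⟨s, by rw [hs, hs', map_one]⟩
  · intro φ m m'
    have h := helper1800.dual_apply_smul_comm_of_invertible (toN φ) (e m) (e m')
    apply e.injective
    simpa [toN, he] using h

end Transport

section Transported

variable {X : Scheme.{u}} (L : X.Modules) {U : X.Opens} (hU : IsAffineOpen U)
  {A : Type*} [CommRing A] (γ : A ≃+* Γ(X, U))

include hU in
/-- **P2', transported form.** If `M` is identified, semilinearly along a ring isomorphism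
`γ : A ≃+* Γ(X, U)`, with the sections over the affine open `U` of an invertible module, then
`M` is an invertible `A`-module. -/
theorem invertible_of_sections (hL : Scheme.Modules.IsInvertible L) {M : Type*}
    [AddCommGroup M] [Module A M] (e : M ≃+ Γ(L, U))
    (he : ∀ (a : A) (m : M), e (a • m) = γ a • e m) : Module.Invertible A M :=
  haveI := invertible_sections_of_isAffineOpen L hU hL
  invertible_of_semilinearEquiv γ e he

include hU in
/-- **P2', transported form, localization.** If `M`, `M'` are identified (semilinearly along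
`γ : A ≃+* Γ(X, U)`) with the sections of an invertible module over the affine open `U` and over
`V = D(γ x)`, and `ρ : M →ₗ[A] M'` corresponds to the restriction map, then `ρ` is a
localization at `x`. -/
theorem isLocalizedModule_of_sections (hL : Scheme.Modules.IsInvertible L) (x : A)
    {V : X.Opens} (hV : V = X.basicOpen (γ x)) (hVU : V ≤ U)
    {M M' : Type*} [AddCommGroup M] [Module A M] [AddCommGroup M'] [Module A M']
    (e : M ≃+ Γ(L, U)) (he : ∀ (a : A) (m : M), e (a • m) = γ a • e m)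
    (e' : M' ≃+ Γ(L, V))
    (he' : ∀ (a : A) (m : M'), e' (a • m) = X.presheaf.map (homOfLE hVU).op (γ a) • e' m)
    (ρ : M →ₗ[A] M') (hρ : ∀ m, e' (ρ m) = L.presheaf.map (homOfLE hVU).op (e m)) :
    IsLocalizedModule (Submonoid.powers x) ρ := by
  have hpow : ∀ (n : ℕ) (m' : M'),
      e' (x ^ n • m') = X.presheaf.map (homOfLE hVU).op (γ x) ^ n • e' m' := by
    intro n m'
    rw [he', map_pow, map_pow]
  have hu : IsUnit (X.presheaf.map (homOfLE hVU).op (γ x)) := by
    subst hV
    exact X.toRingedSpace.isUnit_res_basicOpen (γ x)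
  refine ⟨?_, ?_, ?_⟩
  · rintro ⟨_, n, rfl⟩
    rw [Module.End.isUnit_iff]
    obtain ⟨u, hu⟩ := hu
    constructor
    · intro m₁ m₂ h
      have h' : x ^ n • m₁ = x ^ n • m₂ := h
      have h2 := congrArg e' h'
      rw [hpow, hpow, ← hu, ← Units.val_pow_eq_pow_val] at h2
      apply e'.injective
      have h3 := congrArg (fun t => ((u ^ n)⁻¹ : Γ(X, V)ˣ) • t) h2
      simpa only [Units.smul_def, smul_smul, Units.inv_mul, one_smul] using h3
    · intro m'
      refine ⟨e'.symm ((((u ^ n)⁻¹ : Γ(X, V)ˣ) : Γ(X, V)) • e' m'), ?_⟩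
      change x ^ n • e'.symm _ = m'
      apply e'.injective
      rw [hpow, AddEquiv.apply_symm_apply, ← hu, ← Units.val_pow_eq_pow_val, smul_smul,
        Units.mul_inv, one_smul]
  · intro m'
    obtain ⟨n, s, hs⟩ := res_basicOpen_surj L hU hL (γ x) hV hVU (e' m')
    refine ⟨(e.symm s, ⟨x ^ n, n, rfl⟩), ?_⟩
    change x ^ n • m' = ρ (e.symm s)
    apply e'.injective
    rw [hρ, AddEquiv.apply_symm_apply, ← hs, hpow]
  · intro m₁ m₂ h
    have h0 : L.presheaf.map (homOfLE hVU).op (e (m₁ - m₂)) = 0 := by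
      rw [← hρ, map_sub, h, sub_self, map_zero]
    obtain ⟨n, hn⟩ := res_basicOpen_ker L hU hL (γ x) hV hVU _ h0
    refine ⟨⟨x ^ n, n, rfl⟩, ?_⟩
    change x ^ n • m₁ = x ^ n • m₂
    rw [← sub_eq_zero, ← smul_sub]
    apply e.injective
    rw [he, map_pow, hn, map_zero]

end Transported

end Fermat.Agent.S25.helper845
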