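import Mathlib

/-!
# S25 (helper8663): point decomposition of an ideal of finite codimension

`K` an algebraically closed field, `A` a commutative `K`-algebra in which the ideal of every
`K`-point is an invertible module (for the chart rings of a curve datum this is the invertibility of
divisor ideals).  Then every ideal `I` of `A` with `A ⧸ I` finite-dimensional over `K` is the
product of exactly `finrank K (A ⧸ I)` ideals of `K`-points.

* `exists_mul_eq_of_le` : `I ≤ m`, `m` an invertible ideal `⟹ ∃ J, m * J = I`.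
* `finrank_quotient_mul` : `finrank K (A ⧸ m * J) = finrank K (A ⧸ m) + finrank K (A ⧸ J)` for an
  invertible ideal `m`.
* `exists_list_ker_prod_eq` : the decomposition.
-/

set_option autoImplicit false

open Module

namespace Fermat.Agent.S25.helper8663

section Ring

variable {A : Type*} [CommRing A]

/-- For a linear form `φ` on an ideal: `φ a * b = φ b * a`. -/
theorem dual_ideal_mul_comm (m : Ideal A) (φ : Module.Dual A m) (a b : m) :
    φ a * (b : A) = φ b * (a : A) := by
  have h1 : φ ((b : A) • a) = (b : A) * φ a := by rw [map_smul, smul_eq_mul]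
  have h2 : φ ((a : A) • b) = (a : A) * φ b := by rw [map_smul, smul_eq_mul]
  have h3 : (b : A) • a = (a : A) • b := by
    ext
    simp [mul_comm]
  rw [mul_comm, ← h1, h3, h2, mul_comm]

/-- An invertible ideal has a dual partition of unity. -/
theorem exists_dual_partition (m : Ideal A) [Module.Invertible A m] :
    ∃ s : Finset (Module.Dual A m × m), ∑ p ∈ s, p.1 p.2 = 1 := by
  obtain ⟨t, ht⟩ := (Module.Invertible.bijective (R := A) (M := m)).2 1
  obtain ⟨s, rfl⟩ := TensorProduct.exists_finset t
  refine ⟨s, ?_⟩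
  rw [map_sum] at ht
  simpa using ht

/-- **Division by an invertible ideal.** An ideal contained in an invertible ideal `m` is a
multiple of `m`. -/
theorem exists_mul_eq_of_le (m I : Ideal A) [Module.Invertible A m] (h : I ≤ m) :
    ∃ J : Ideal A, m * J = I := by
  classical
  obtain ⟨s, hs⟩ := exists_dual_partition m
  let J : Ideal A :=
    { carrier := {b | ∀ n ∈ m, b * n ∈ I}
      add_mem' := fun {a b} ha hb n hn => by
        rw [add_mul]
        exact I.add_mem (ha n hn) (hb n hn)
      zero_mem' := fun n _ => by simp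
      smul_mem' := fun c b hb n hn => by
        rw [smul_eq_mul, mul_assoc]
        exact I.mul_mem_left c (hb n hn) }
  refine ⟨J, le_antisymm ?_ ?_⟩
  · rw [Ideal.mul_le]
    intro n hn b hb
    rw [mul_comm]
    exact hb n hn
  · intro a ha
    have ham : a ∈ m := h ha
    have key : a = ∑ p ∈ s, (p.2 : A) * p.1 ⟨a, ham⟩ := by
      calc a = (∑ p ∈ s, p.1 p.2) * a := by rw [hs, one_mul]
        _ = ∑ p ∈ s, p.1 p.2 * a := Finset.sum_mul _ _ _
        _ = ∑ p ∈ s, (p.2 : A) * p.1 ⟨a, ham⟩ := by
          refine Finset.sum_congr rfl fun p _ => ?_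
          have := dual_ideal_mul_comm m p.1 p.2 ⟨a, ham⟩
          rw [this, mul_comm]
    rw [key]
    refine Ideal.sum_mem _ fun p _ => Ideal.mul_mem_mul p.2.2 ?_
    intro n hn
    have := dual_ideal_mul_comm m p.1 ⟨a, ham⟩ ⟨n, hn⟩
    change p.1 ⟨a, ham⟩ * n ∈ I
    rw [this]
    exact I.mul_mem_left _ ha

end Ring

section Dim

variable (K : Type*) [Field K] {A : Type*} [CommRing A] [Algebra K A]

/-- An invertible module has the same `K`-dimension modulo an ideal `J` of finite codimension as
the ring itself (Picard group of an Artinian ring is trivial). -/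
theorem finrank_quotient_smul_top (M : Type*) [AddCommGroup M] [Module A M] [Module K M]
    [IsScalarTower K A M] [Module.Invertible A M] (J : Ideal A) [Module.Finite K (A ⧸ J)] :
    Module.Finite K (M ⧸ (J • ⊤ : Submodule A M)) ∧
      finrank K (M ⧸ (J • ⊤ : Submodule A M)) = finrank K (A ⧸ J) := by
  have hart : IsArtinianRing (A ⧸ J) := IsArtinianRing.of_finite K (A ⧸ J)
  have hfree : Module.Free (A ⧸ J) (TensorProduct A (A ⧸ J) M) := inferInstance
  obtain ⟨e₂⟩ := Module.Invertible.free_iff_linearEquiv.mp hfree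
  have e₁ : (TensorProduct A (A ⧸ J) M) ≃ₗ[A] M ⧸ (J • ⊤ : Submodule A M) :=
    TensorProduct.quotTensorEquivQuotSMul M J
  have e : (M ⧸ (J • ⊤ : Submodule A M)) ≃ₗ[K] (A ⧸ J) :=
    (e₁.restrictScalars K).symm ≪≫ₗ (e₂.restrictScalars K)
  exact ⟨Module.Finite.equiv e.symm, e.finrank_eq⟩

/-- **Additivity of the codimension** for a product with an invertible ideal. -/
theorem finrank_quotient_mul (m J : Ideal A) [Module.Invertible A m] [Module.Finite K (A ⧸ m)]
    [Module.Finite K (A ⧸ J)] :
    Module.Finite K (A ⧸ m * J) ∧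
      finrank K (A ⧸ m * J) = finrank K (A ⧸ m) + finrank K (A ⧸ J) := by
  have hle : m * J ≤ m := Ideal.mul_le_left
  -- the projection `A ⧸ m * J → A ⧸ m`
  let π : (A ⧸ m * J) →ₗ[K] (A ⧸ m) := (Ideal.Quotient.factorₐ K hle).toLinearMap
  have hπ : Function.Surjective π := Ideal.Quotient.factor_surjective hle
  -- the map `m → A ⧸ m * J`
  let f : m →ₗ[A] (A ⧸ m * J) := (Submodule.mkQ (m * J)) ∘ₗ m.subtype
  have hker : LinearMap.ker f = (J • ⊤ : Submodule A m) := by
    ext a
    rw [LinearMap.mem_ker, Submodule.mem_smul_top_iff]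
    change Submodule.Quotient.mk (a : A) = 0 ↔ _
    rw [Submodule.Quotient.mk_eq_zero, mul_comm, ← Ideal.smul_eq_mul]
  have hrange : ∀ y : A ⧸ m * J, y ∈ LinearMap.range f ↔ y ∈ LinearMap.ker π := by
    intro y
    obtain ⟨a, rfl⟩ := Ideal.Quotient.mk_surjective y
    rw [LinearMap.mem_ker]
    change _ ↔ Ideal.Quotient.factorₐ K hle (Ideal.Quotient.mk _ a) = 0
    rw [Ideal.Quotient.factorₐ_apply_mk, Ideal.Quotient.eq_zero_iff_mem]
    constructor
    · rintro ⟨b, hb⟩
      have hb' : Ideal.Quotient.mk (m * J) (b : A) = Ideal.Quotient.mk (m * J) a := hb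
      rw [Ideal.Quotient.eq] at hb'
      have : a = (b : A) - ((b : A) - a) := by ring
      rw [this]
      exact m.sub_mem b.2 (hle hb')
    · intro ha
      exact ⟨⟨a, ha⟩, rfl⟩
  -- `ker π ≃ m ⧸ J • ⊤`
  obtain ⟨hfin, hdim⟩ := finrank_quotient_smul_top K m J
  let e₁ : (m ⧸ LinearMap.ker f) ≃ₗ[K] LinearMap.range f := f.quotKerEquivRange.restrictScalars K
  let e₂ : LinearMap.range f ≃ₗ[K] LinearMap.ker π :=
    { toFun := fun y => ⟨y.1, (hrange y.1).mp y.2⟩
      map_add' := fun _ _ => rfl
      map_smul' := fun _ _ => rfl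
      invFun := fun y => ⟨y.1, (hrange y.1).mpr y.2⟩
      left_inv := fun _ => rfl
      right_inv := fun _ => rfl }
  have e₃ : (m ⧸ (J • ⊤ : Submodule A m)) ≃ₗ[K] LinearMap.ker π :=
    (Submodule.quotEquivOfEq _ _ hker.symm).restrictScalars K ≪≫ₗ e₁ ≪≫ₗ e₂
  have hkerfin : Module.Finite K (LinearMap.ker π) := Module.Finite.equiv e₃
  have hkerdim : finrank K (LinearMap.ker π) = finrank K (A ⧸ J) := by
    rw [← e₃.finrank_eq, hdim]
  have hq : Module.Finite K ((A ⧸ m * J) ⧸ LinearMap.ker π) :=
    Module.Finite.equiv (π.quotKerEquivOfSurjective hπ).symm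
  have hA : Module.Finite K (A ⧸ m * J) := Module.Finite.of_submodule_quotient (LinearMap.ker π)
  refine ⟨hA, ?_⟩
  have h := π.finrank_range_add_finrank_ker
  rw [LinearMap.range_eq_top.mpr hπ, finrank_top, hkerdim] at h
  exact h.symm

end Dim

section Main

variable (K : Type*) [Field K] [IsAlgClosed K] {A : Type*} [CommRing A] [Algebra K A]

/-- A maximal ideal of finite codimension over an algebraically closed field is the kernel of a
`K`-point, and has codimension one. -/
theorem exists_algHom_ker_eq (m : Ideal A) [m.IsMaximal] [Module.Finite K (A ⧸ m)] :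
    ∃ χ : A →ₐ[K] K, RingHom.ker χ = m ∧ finrank K (A ⧸ m) = 1 := by
  have hbij : Function.Bijective (algebraMap K (A ⧸ m)) :=
    IsAlgClosed.algebraMap_bijective_of_isIntegral
  let e : K ≃ₐ[K] (A ⧸ m) := AlgEquiv.ofBijective (Algebra.ofId K (A ⧸ m)) hbij
  refine ⟨(e.symm : (A ⧸ m) →ₐ[K] K).comp (Ideal.Quotient.mkₐ K m), ?_, ?_⟩
  · ext a
    rw [RingHom.mem_ker]
    change e.symm (Ideal.Quotient.mk m a) = 0 ↔ a ∈ m
    rw [map_eq_zero_iff _ e.symm.injective, Ideal.Quotient.eq_zero_iff_mem]
  · rw [← e.toLinearEquiv.finrank_eq, Module.finrank_self]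

/-- **Point decomposition**, inductive form. -/
theorem exists_list_ker_prod_eq_aux
    (hinv : ∀ χ : A →ₐ[K] K, Module.Invertible A (RingHom.ker χ)) :
    ∀ (n : ℕ) (I : Ideal A) [Module.Finite K (A ⧸ I)], finrank K (A ⧸ I) = n →
      ∃ l : List (A →ₐ[K] K), l.length = n ∧
        (l.map fun χ : A →ₐ[K] K => RingHom.ker χ).prod = I := by
  intro n
  induction n with
  | zero =>
    intro I _ hI
    have hsub : Subsingleton (A ⧸ I) := Module.finrank_zero_iff.mp hI
    refine ⟨[], rfl, ?_⟩
    rw [List.map_nil, List.prod_nil, Ideal.one_eq_top]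
    exact (Ideal.Quotient.subsingleton_iff.mp hsub).symm
  | succ n ih =>
    intro I _ hI
    have hne : I ≠ ⊤ := by
      rintro rfl
      have hsub : Subsingleton (A ⧸ (⊤ : Ideal A)) := Ideal.Quotient.subsingleton_iff.mpr rfl
      rw [Module.finrank_zero_iff.mpr hsub] at hI
      exact absurd hI (Nat.succ_ne_zero n).symm
    obtain ⟨m, hm, hIm⟩ := Ideal.exists_le_maximal I hne
    have hfinm : Module.Finite K (A ⧸ m) :=
      Module.Finite.of_surjective (Ideal.Quotient.factorₐ K hIm).toLinearMap
        (Ideal.Quotient.factor_surjective hIm)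
    obtain ⟨χ, hχ, hone⟩ := exists_algHom_ker_eq K m
    have hminv : Module.Invertible A m := hχ ▸ hinv χ
    obtain ⟨J, rfl⟩ := exists_mul_eq_of_le m I hIm
    have hJ : m * J ≤ J := Ideal.mul_le_right
    have hfinJ : Module.Finite K (A ⧸ J) :=
      Module.Finite.of_surjective (Ideal.Quotient.factorₐ K hJ).toLinearMap
        (Ideal.Quotient.factor_surjective hJ)
    obtain ⟨-, hdim⟩ := finrank_quotient_mul K m J
    have hJn : finrank K (A ⧸ J) = n := by
      rw [hdim, hone] at hI
      omega
    obtain ⟨l, hl, hprod⟩ := ih J hJn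
    refine ⟨χ :: l, by simp [hl], ?_⟩
    rw [List.map_cons, List.prod_cons, hprod, hχ]

/-- **Point decomposition of an ideal of finite codimension.** If the ideals of all `K`-points of
`A` are invertible (`K` algebraically closed), every ideal `I` with `A ⧸ I` finite-dimensional is the
product of exactly `finrank K (A ⧸ I)` ideals of `K`-points. -/
theorem exists_list_ker_prod_eq
    (hinv : ∀ χ : A →ₐ[K] K, Module.Invertible A (RingHom.ker χ))
    (I : Ideal A) [Module.Finite K (A ⧸ I)] :
    ∃ l : List (A →ₐ[K] K), l.length = finrank K (A ⧸ I) ∧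
      (l.map fun χ : A →ₐ[K] K => RingHom.ker χ).prod = I :=
  exists_list_ker_prod_eq_aux K hinv _ I rfl

/-- `Fin d`-indexed form of `exists_list_ker_prod_eq`. -/
theorem exists_fin_ker_prod_eq
    (hinv : ∀ χ : A →ₐ[K] K, Module.Invertible A (RingHom.ker χ))
    (I : Ideal A) [Module.Finite K (A ⧸ I)] :
    ∃ χ : Fin (finrank K (A ⧸ I)) → (A →ₐ[K] K), ∏ i, RingHom.ker (χ i) = I := by
  obtain ⟨l, hl, hprod⟩ := exists_list_ker_prod_eq K hinv I
  refine ⟨fun i => l.get (i.cast hl.symm), ?_⟩
  calc ∏ i, RingHom.ker (l.get (Fin.cast hl.symm i))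
      = ∏ j : Fin l.length, RingHom.ker (l.get j) :=
        Fin.prod_congr' (fun j => RingHom.ker (l.get j)) hl.symm
    _ = (List.ofFn fun j => RingHom.ker (l.get j)).prod := (List.prod_ofFn).symm
    _ = (l.map fun χ : A →ₐ[K] K => RingHom.ker χ).prod := by
        have h : (List.ofFn fun j => RingHom.ker (l.get j)) =
            (List.ofFn l.get).map fun χ : A →ₐ[K] K => RingHom.ker χ := by
          rw [List.map_ofFn]
          rfl
        rw [h, List.ofFn_get]
    _ = I := hprod

end Main

end Fermat.Agent.S25.helper8663
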