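import Mathlib

/-!
# S25 / U2b: field case of the two-chart degree theory (helper8703)

Def-agnostic core (Mathlib only).  Nothing here depends on the shape of `GlueDatum`.

## Layer 1: linear algebra over a field `K`
* `IsFred d`: finite-dimensional kernel and cokernel.
* `index_square`: for a commutative square with injective vertical maps `u`, `v` of finite
  codimension, `index d' = index d + codim u - codim v` (built on Mathlib `LinearMap.index_comp`).
* `sup_eq_top_of_stable`, `range_sup_range_eq_top`: a finite-dimensional module surjects onto its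
  localization (lattice form).
* `index_morphism`, `index_morphism_le`, `surjective_of_index_eq`: morphisms of two-chart
  complexes `d (a, b) = l₀ a - l₁ b`.

## Layer 2: one chart
* `dual_smul_comm`: rank one identity `φ m₁ • m₂ = φ m₂ • m₁` in an invertible module.
* `injective_and_exists_smul_mem_range`: a nonzero map of invertible modules over a domain is
  injective with cokernel killed by a nonzero element.
* `finite_of_forall_smul_eq_zero`, `finite_quotient_of_smul_mem`: finiteness of torsion quotients.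

## Layer 3: two charts (modules `M₀ / A₀`, `M₁ / A₁`, `M₀₁ / A₀₁`, `l₀ : M₀ → M₀₁`, `l₁ : M₁ → M₀₁`)
* `IsLocAt A' x l`: elementwise form of "`l` is the localization at `x`, no `x`-torsion".
* `morphism_injective`, `morphism_finite_coker`, `morphism_index`, `morphism_index_le`,
  `morphism_bijective_of_index_le`: a nonzero morphism `G → G'` of two-chart invertible data over
  a field is injective, `χ(G') = χ(G) + dim Q₀ + dim Q₁ - dim Q₀₁ ≥ χ(G)`, and it is an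
  isomorphism as soon as `χ(G') ≤ χ(G)`.

The ring hypothesis used is `∀ a ≠ 0, Module.Finite K (A ⧸ Ideal.span {a})` for the two chart
rings (true for `R ⊗[k] K` with `R` a domain finite over `k[x]`, `k` algebraically closed).
-/

set_option autoImplicit false
set_option linter.style.haveILetI false

namespace Fermat.Agent.S25.helper8703

open Module Function

section LinearAlgebra

variable {K : Type*} [Field K]
variable {E F E' F' : Type*} [AddCommGroup E] [Module K E] [AddCommGroup F] [Module K F]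
  [AddCommGroup E'] [Module K E'] [AddCommGroup F'] [Module K F']

/-- A linear map with finite-dimensional kernel and cokernel. -/
def IsFred (d : E →ₗ[K] F) : Prop :=
  FiniteDimensional K (LinearMap.ker d) ∧ FiniteDimensional K (F ⧸ LinearMap.range d)

theorem IsFred.of_injective {u : E →ₗ[K] F} (hu : Injective u)
    [FiniteDimensional K (F ⧸ LinearMap.range u)] : IsFred u := by
  refine ⟨?_, inferInstance⟩
  rw [LinearMap.ker_eq_bot.mpr hu]
  infer_instance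

/-- Index of a commutative square with injective vertical maps of finite codimension. -/
theorem index_square (d : E →ₗ[K] F) (d' : E' →ₗ[K] F') (u : E →ₗ[K] E') (v : F →ₗ[K] F')
    (hsq : d' ∘ₗ u = v ∘ₗ d) (hu : Injective u) (hv : Injective v)
    (hd : IsFred d) (hd' : IsFred d')
    [FiniteDimensional K (E' ⧸ LinearMap.range u)] [FiniteDimensional K (F' ⧸ LinearMap.range v)] :
    d'.index = d.index + finrank K (E' ⧸ LinearMap.range u) - finrank K (F' ⧸ LinearMap.range v) := by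
  obtain ⟨hd1, hd2⟩ := hd
  obtain ⟨hd'1, hd'2⟩ := hd'
  obtain ⟨hu1, hu2⟩ := IsFred.of_injective hu
  obtain ⟨hv1, hv2⟩ := IsFred.of_injective hv
  have h1 := LinearMap.index_comp (f := u) d'
  have h2 := LinearMap.index_comp (f := d) v
  rw [LinearMap.index_of_injective hu] at h1
  rw [LinearMap.index_of_injective hv] at h2
  rw [hsq] at h1
  omega

/-- If the overlap cokernel is covered by a chart, it is a quotient of the chart cokernel. -/
theorem finrank_coker_le_of_sup_eq_top (l : E →ₗ[K] F) (l' : E' →ₗ[K] F') (ψ₀ : E →ₗ[K] E')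
    (ψ : F →ₗ[K] F') (h : ψ ∘ₗ l = l' ∘ₗ ψ₀) [FiniteDimensional K (E' ⧸ LinearMap.range ψ₀)]
    (hc : LinearMap.range l' ⊔ LinearMap.range ψ = ⊤) :
    FiniteDimensional K (F' ⧸ LinearMap.range ψ) ∧
      finrank K (F' ⧸ LinearMap.range ψ) ≤ finrank K (E' ⧸ LinearMap.range ψ₀) := by
  set g : E' →ₗ[K] F' ⧸ LinearMap.range ψ := (LinearMap.range ψ).mkQ ∘ₗ l' with hg
  have hgker : LinearMap.range ψ₀ ≤ LinearMap.ker g := by
    rintro _ ⟨e, rfl⟩
    have := LinearMap.congr_fun h e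
    simp only [LinearMap.comp_apply] at this
    simp [hg, ← this]
  have hgsurj : Surjective g := by
    rw [← LinearMap.range_eq_top, hg, LinearMap.range_comp]
    have : Submodule.map (LinearMap.range ψ).mkQ (LinearMap.range l' ⊔ LinearMap.range ψ) = ⊤ := by
      rw [hc, Submodule.map_top, Submodule.range_mkQ]
    rw [Submodule.map_sup] at this
    simpa using this
  have hsurj : Surjective ((LinearMap.range ψ₀).liftQ g hgker) := by
    rw [← LinearMap.range_eq_top, Submodule.range_liftQ, LinearMap.range_eq_top]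
    exact hgsurj
  have hfin : FiniteDimensional K (F' ⧸ LinearMap.range ψ) := Module.Finite.of_surjective _ hsurj
  exact ⟨hfin, LinearMap.finrank_le_finrank_of_surjective hsurj⟩

/-- Cokernel of a product map. -/
theorem finrank_coker_prodMap {E₀ E₁ E₀' E₁' : Type*} [AddCommGroup E₀] [Module K E₀]
    [AddCommGroup E₁] [Module K E₁] [AddCommGroup E₀'] [Module K E₀'] [AddCommGroup E₁']
    [Module K E₁'] (ψ₀ : E₀ →ₗ[K] E₀') (ψ₁ : E₁ →ₗ[K] E₁')
    [FiniteDimensional K (E₀' ⧸ LinearMap.range ψ₀)]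
    [FiniteDimensional K (E₁' ⧸ LinearMap.range ψ₁)] :
    FiniteDimensional K ((E₀' × E₁') ⧸ LinearMap.range (ψ₀.prodMap ψ₁)) ∧
      finrank K ((E₀' × E₁') ⧸ LinearMap.range (ψ₀.prodMap ψ₁)) =
        finrank K (E₀' ⧸ LinearMap.range ψ₀) + finrank K (E₁' ⧸ LinearMap.range ψ₁) := by
  set f : (E₀' × E₁') →ₗ[K] (E₀' ⧸ LinearMap.range ψ₀) × (E₁' ⧸ LinearMap.range ψ₁) :=
    (LinearMap.range ψ₀).mkQ.prodMap (LinearMap.range ψ₁).mkQ with hf
  have hfs : Surjective f := by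
    rw [← LinearMap.range_eq_top, hf, LinearMap.range_prodMap]
    simp
  have hker : LinearMap.ker f = LinearMap.range (ψ₀.prodMap ψ₁) := by
    rw [hf, LinearMap.ker_prodMap, LinearMap.range_prodMap]
    simp
  let e : ((E₀' × E₁') ⧸ LinearMap.range (ψ₀.prodMap ψ₁)) ≃ₗ[K]
      (E₀' ⧸ LinearMap.range ψ₀) × (E₁' ⧸ LinearMap.range ψ₁) :=
    (Submodule.quotEquivOfEq _ _ hker.symm).trans (f.quotKerEquivOfSurjective hfs)
  refine ⟨Module.Finite.equiv e.symm, ?_⟩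
  rw [e.finrank_eq, Module.finrank_prod]

/-- An injective endomorphism-stable finite-dimensional subspace that absorbs every vector after
finitely many steps is everything. -/
theorem eq_top_of_stable_of_absorbing {V : Type*} [AddCommGroup V] [Module K V]
    (T : V →ₗ[K] V) (hT : Injective T) (I : Submodule K V) [FiniteDimensional K I]
    (hI : ∀ v ∈ I, T v ∈ I) (hex : ∀ v, ∃ j : ℕ, (T ^ j) v ∈ I) : I = ⊤ := by
  have hsurj : Surjective (T.restrict hI) := by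
    apply LinearMap.surjective_of_injective
    intro a b hab
    apply Subtype.ext
    apply hT
    simpa using congrArg Subtype.val hab
  have key : ∀ j : ℕ, ∀ v, (T ^ j) v ∈ I → v ∈ I := by
    intro j
    induction j with
    | zero => intro v hv; simpa using hv
    | succ j ih =>
      intro v hv
      have h1 : T v ∈ I := by
        apply ih
        rw [pow_succ] at hv
        simpa using hv
      obtain ⟨i, hi⟩ := hsurj ⟨T v, h1⟩
      have h2 : T i = T v := by simpa using congrArg Subtype.val hi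
      have h3 := hT h2
      rw [← h3]
      exact i.2
  rw [eq_top_iff]
  intro v _
  obtain ⟨j, hj⟩ := hex v
  exact key j v hj

/-- Lattice form of "a finite-dimensional module surjects onto its localization". -/
theorem sup_eq_top_of_stable {N : Type*} [AddCommGroup N] [Module K N] (T : N →ₗ[K] N)
    (Λ S : Submodule K N) (hΛ : ∀ z ∈ Λ, T z ∈ Λ) (hS : ∀ z ∈ S, T z ∈ S)
    (hS' : ∀ z, T z ∈ S → z ∈ S) (hex : ∀ z, ∃ j : ℕ, (T ^ j) z ∈ Λ)
    [FiniteDimensional K (Λ.map S.mkQ)] : Λ ⊔ S = ⊤ := by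
  have hSle : S ≤ S.comap T := fun z hz => hS z hz
  set Tq : (N ⧸ S) →ₗ[K] (N ⧸ S) := S.mapQ S T hSle with hTq
  have hTq_mk : ∀ z, Tq (S.mkQ z) = S.mkQ (T z) := fun z => by simp [hTq]
  have hTqpow : ∀ (j : ℕ) (z : N), (Tq ^ j) (S.mkQ z) = S.mkQ ((T ^ j) z) := by
    intro j
    induction j with
    | zero => intro z; simp
    | succ j ih =>
      intro z
      rw [pow_succ, pow_succ, Module.End.mul_apply, Module.End.mul_apply, hTq_mk, ih]
  have hinj : Injective Tq := by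
    rw [injective_iff_map_eq_zero]
    intro v hv
    obtain ⟨z, rfl⟩ := S.mkQ_surjective v
    rw [hTq_mk] at hv
    have : T z ∈ S := by simpa using hv
    have := hS' z this
    simpa using this
  have htop : Λ.map S.mkQ = ⊤ := by
    apply eq_top_of_stable_of_absorbing Tq hinj
    · rintro _ ⟨z, hz, rfl⟩
      exact ⟨T z, hΛ z hz, (hTq_mk z).symm⟩
    · intro v
      obtain ⟨z, rfl⟩ := S.mkQ_surjective v
      obtain ⟨j, hj⟩ := hex z
      exact ⟨j, (T ^ j) z, hj, (hTqpow j z).symm⟩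
  rw [Submodule.map_mkQ_eq_top] at htop
  rw [sup_comm]
  exact htop

/-- The overlap cokernel of a morphism is covered by a chart with finite-dimensional cokernel,
provided the overlap is obtained from the chart by inverting an operator `T`. -/
theorem range_sup_range_eq_top (l : E →ₗ[K] F) (l' : E' →ₗ[K] F') (ψ₀ : E →ₗ[K] E')
    (ψ : F →ₗ[K] F') (h : ψ ∘ₗ l = l' ∘ₗ ψ₀) [FiniteDimensional K (E' ⧸ LinearMap.range ψ₀)]
    (T : F' →ₗ[K] F') (hΛ : ∀ z ∈ LinearMap.range l', T z ∈ LinearMap.range l')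
    (hS : ∀ z ∈ LinearMap.range ψ, T z ∈ LinearMap.range ψ)
    (hS' : ∀ z, T z ∈ LinearMap.range ψ → z ∈ LinearMap.range ψ)
    (hex : ∀ z, ∃ j : ℕ, (T ^ j) z ∈ LinearMap.range l') :
    LinearMap.range l' ⊔ LinearMap.range ψ = ⊤ := by
  set g : E' →ₗ[K] F' ⧸ LinearMap.range ψ := (LinearMap.range ψ).mkQ ∘ₗ l' with hg
  have hgker : LinearMap.range ψ₀ ≤ LinearMap.ker g := by
    rintro _ ⟨e, rfl⟩
    have := LinearMap.congr_fun h e
    simp only [LinearMap.comp_apply] at this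
    simp [hg, ← this]
  have hrange : (LinearMap.range l').map (LinearMap.range ψ).mkQ
      = LinearMap.range ((LinearMap.range ψ₀).liftQ g hgker) := by
    rw [Submodule.range_liftQ, hg, LinearMap.range_comp]
  haveI : FiniteDimensional K ((LinearMap.range l').map (LinearMap.range ψ).mkQ) := by
    rw [hrange]
    infer_instance
  exact sup_eq_top_of_stable T _ _ hΛ hS hS' hex

section TwoChart

variable {E₀ E₁ E₀' E₁' : Type*} [AddCommGroup E₀] [Module K E₀]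
    [AddCommGroup E₁] [Module K E₁] [AddCommGroup E₀'] [Module K E₀'] [AddCommGroup E₁']
    [Module K E₁']

/-- **Index formula for a morphism of two-chart complexes** (pure linear algebra).
`d (a, b) = l₀ a - l₁ b` and `d' (a, b) = l₀' a - l₁' b` are the Čech differentials of two
two-chart data, `(ψ₀, ψ₁, ψ)` is an injective morphism with finite-dimensional chart
cokernels, and the overlap cokernel is covered by chart `0`.
Then `χ' = χ + dim Q₀ + dim Q₁ - dim Q₀₁`. -/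
theorem index_morphism
    (l₀ : E₀ →ₗ[K] F) (l₁ : E₁ →ₗ[K] F) (l₀' : E₀' →ₗ[K] F') (l₁' : E₁' →ₗ[K] F')
    (d : E₀ × E₁ →ₗ[K] F) (d' : E₀' × E₁' →ₗ[K] F')
    (hdf : ∀ a b, d (a, b) = l₀ a - l₁ b) (hdf' : ∀ a b, d' (a, b) = l₀' a - l₁' b)
    (ψ₀ : E₀ →ₗ[K] E₀') (ψ₁ : E₁ →ₗ[K] E₁') (ψ : F →ₗ[K] F')
    (h₀ : ψ ∘ₗ l₀ = l₀' ∘ₗ ψ₀) (h₁ : ψ ∘ₗ l₁ = l₁' ∘ₗ ψ₁)
    (hψ₀ : Injective ψ₀) (hψ₁ : Injective ψ₁) (hψ : Injective ψ)
    [FiniteDimensional K (E₀' ⧸ LinearMap.range ψ₀)]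
    [FiniteDimensional K (E₁' ⧸ LinearMap.range ψ₁)]
    (hc₀ : LinearMap.range l₀' ⊔ LinearMap.range ψ = ⊤)
    (hd : IsFred d) (hd' : IsFred d') :
    d'.index = d.index + finrank K (E₀' ⧸ LinearMap.range ψ₀)
      + finrank K (E₁' ⧸ LinearMap.range ψ₁) - finrank K (F' ⧸ LinearMap.range ψ) := by
  obtain ⟨hfin, -⟩ := finrank_coker_le_of_sup_eq_top l₀ l₀' ψ₀ ψ h₀ hc₀
  obtain ⟨hfin2, hrk⟩ := finrank_coker_prodMap ψ₀ ψ₁
  have hsq : d' ∘ₗ (ψ₀.prodMap ψ₁) = ψ ∘ₗ d := by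
    apply LinearMap.ext
    rintro ⟨a, b⟩
    have e0 := LinearMap.congr_fun h₀ a
    have e1 := LinearMap.congr_fun h₁ b
    simp only [LinearMap.comp_apply] at e0 e1
    simp [hdf, hdf', e0, e1]
  have hu : Injective (ψ₀.prodMap ψ₁) := by
    rw [LinearMap.coe_prodMap]
    exact hψ₀.prodMap hψ₁
  have := index_square d d' (ψ₀.prodMap ψ₁) ψ hsq hu hψ hd hd'
  rw [this, hrk]
  push_cast
  ring

/-- Monotonicity of the index along an injective morphism, with both chart cokernels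
bounding the defect. -/
theorem index_morphism_le
    (l₀ : E₀ →ₗ[K] F) (l₁ : E₁ →ₗ[K] F) (l₀' : E₀' →ₗ[K] F') (l₁' : E₁' →ₗ[K] F')
    (d : E₀ × E₁ →ₗ[K] F) (d' : E₀' × E₁' →ₗ[K] F')
    (hdf : ∀ a b, d (a, b) = l₀ a - l₁ b) (hdf' : ∀ a b, d' (a, b) = l₀' a - l₁' b)
    (ψ₀ : E₀ →ₗ[K] E₀') (ψ₁ : E₁ →ₗ[K] E₁') (ψ : F →ₗ[K] F')
    (h₀ : ψ ∘ₗ l₀ = l₀' ∘ₗ ψ₀) (h₁ : ψ ∘ₗ l₁ = l₁' ∘ₗ ψ₁)
    (hψ₀ : Injective ψ₀) (hψ₁ : Injective ψ₁) (hψ : Injective ψ)
    [FiniteDimensional K (E₀' ⧸ LinearMap.range ψ₀)]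
    [FiniteDimensional K (E₁' ⧸ LinearMap.range ψ₁)]
    (hc₀ : LinearMap.range l₀' ⊔ LinearMap.range ψ = ⊤)
    (hc₁ : LinearMap.range l₁' ⊔ LinearMap.range ψ = ⊤)
    (hd : IsFred d) (hd' : IsFred d') :
    d.index + finrank K (E₀' ⧸ LinearMap.range ψ₀) ≤ d'.index ∧
      d.index + finrank K (E₁' ⧸ LinearMap.range ψ₁) ≤ d'.index := by
  have key := index_morphism l₀ l₁ l₀' l₁' d d' hdf hdf' ψ₀ ψ₁ ψ h₀ h₁ hψ₀ hψ₁ hψ hc₀ hd hd'
  obtain ⟨-, hle0⟩ := finrank_coker_le_of_sup_eq_top l₀ l₀' ψ₀ ψ h₀ hc₀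
  obtain ⟨-, hle1⟩ := finrank_coker_le_of_sup_eq_top l₁ l₁' ψ₁ ψ h₁ hc₁
  constructor <;> omega

/-- Equal index forces the chart maps of an injective morphism to be surjective. -/
theorem surjective_of_index_eq
    (l₀ : E₀ →ₗ[K] F) (l₁ : E₁ →ₗ[K] F) (l₀' : E₀' →ₗ[K] F') (l₁' : E₁' →ₗ[K] F')
    (d : E₀ × E₁ →ₗ[K] F) (d' : E₀' × E₁' →ₗ[K] F')
    (hdf : ∀ a b, d (a, b) = l₀ a - l₁ b) (hdf' : ∀ a b, d' (a, b) = l₀' a - l₁' b)
    (ψ₀ : E₀ →ₗ[K] E₀') (ψ₁ : E₁ →ₗ[K] E₁') (ψ : F →ₗ[K] F')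
    (h₀ : ψ ∘ₗ l₀ = l₀' ∘ₗ ψ₀) (h₁ : ψ ∘ₗ l₁ = l₁' ∘ₗ ψ₁)
    (hψ₀ : Injective ψ₀) (hψ₁ : Injective ψ₁) (hψ : Injective ψ)
    [FiniteDimensional K (E₀' ⧸ LinearMap.range ψ₀)]
    [FiniteDimensional K (E₁' ⧸ LinearMap.range ψ₁)]
    (hc₀ : LinearMap.range l₀' ⊔ LinearMap.range ψ = ⊤)
    (hc₁ : LinearMap.range l₁' ⊔ LinearMap.range ψ = ⊤)
    (hd : IsFred d) (hd' : IsFred d') (hχ : d'.index ≤ d.index) :
    Surjective ψ₀ ∧ Surjective ψ₁ ∧ Surjective ψ := by
  obtain ⟨hA, hB⟩ := index_morphism_le l₀ l₁ l₀' l₁' d d' hdf hdf' ψ₀ ψ₁ ψ h₀ h₁ hψ₀ hψ₁ hψ hc₀ hc₁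
    hd hd'
  have z0 : finrank K (E₀' ⧸ LinearMap.range ψ₀) = 0 := by omega
  have z1 : finrank K (E₁' ⧸ LinearMap.range ψ₁) = 0 := by omega
  have s0 : Surjective ψ₀ := by
    rw [← LinearMap.range_eq_top, ← Submodule.Quotient.subsingleton_iff]
    exact Module.finrank_zero_iff.mp z0
  have s1 : Surjective ψ₁ := by
    rw [← LinearMap.range_eq_top, ← Submodule.Quotient.subsingleton_iff]
    exact Module.finrank_zero_iff.mp z1
  refine ⟨s0, s1, ?_⟩
  obtain ⟨hfin, hle⟩ := finrank_coker_le_of_sup_eq_top l₀ l₀' ψ₀ ψ h₀ hc₀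
  have z2 : finrank K (F' ⧸ LinearMap.range ψ) = 0 := by omega
  rw [← LinearMap.range_eq_top, ← Submodule.Quotient.subsingleton_iff]
  exact Module.finrank_zero_iff.mp z2

end TwoChart

end LinearAlgebra

section Chart

/-- Rank one: in an invertible module any two elements are proportional through any functional. -/
theorem dual_smul_comm {R M : Type*} [CommRing R] [AddCommGroup M] [Module R M]
    [Module.Invertible R M] (φ : Module.Dual R M) (m₁ m₂ : M) : φ m₁ • m₂ = φ m₂ • m₁ := by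
  have h := congrArg (TensorProduct.lift ((LinearMap.lsmul R M).comp φ))
    (Module.Invertible.tmul_comm (R := R) (m₁ := m₁) (m₂ := m₂))
  simpa using h

/-- A projective module over a domain is torsion-free. -/
theorem smul_eq_zero_of_projective {R M : Type*} [CommRing R] [IsDomain R] [AddCommGroup M]
    [Module R M] [Module.Projective R M] {a : R} {m : M} (h : a • m = 0) : a = 0 ∨ m = 0 := by
  by_cases hm : m = 0
  · exact Or.inr hm
  · left
    obtain ⟨φ, hφ⟩ := Module.Projective.exists_dual_ne_zero R hm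
    have : a * φ m = 0 := by rw [← smul_eq_mul, ← map_smul, h, map_zero]
    rcases mul_eq_zero.mp this with h1 | h1
    · exact h1
    · exact absurd h1 hφ

/-- **Chart lemma.** A nonzero map between invertible modules over a domain is injective and its
cokernel is killed by a nonzero element. -/
theorem injective_and_exists_smul_mem_range {A M N : Type*} [CommRing A] [IsDomain A]
    [AddCommGroup M] [Module A M] [Module.Invertible A M]
    [AddCommGroup N] [Module A N] [Module.Invertible A N] (ψ : M →ₗ[A] N) (hψ : ψ ≠ 0) :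
    Injective ψ ∧ ∃ a : A, a ≠ 0 ∧ ∀ n : N, a • n ∈ LinearMap.range ψ := by
  obtain ⟨m₀, hm₀⟩ : ∃ m₀, ψ m₀ ≠ 0 := by
    by_contra hcon
    push Not at hcon
    exact hψ (LinearMap.ext hcon)
  constructor
  · rw [injective_iff_map_eq_zero]
    intro m hm
    by_contra hne
    obtain ⟨φ, hφ⟩ := Module.Projective.exists_dual_ne_zero A hne
    have h1 := congrArg ψ (dual_smul_comm φ m₀ m)
    rw [map_smul, map_smul, hm, smul_zero] at h1
    rcases smul_eq_zero_of_projective h1.symm with h2 | h2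
    · exact hφ h2
    · exact hm₀ h2
  · obtain ⟨φ', hφ'⟩ := Module.Projective.exists_dual_ne_zero A hm₀
    refine ⟨φ' (ψ m₀), hφ', fun n => ⟨φ' n • m₀, ?_⟩⟩
    rw [map_smul]
    exact (dual_smul_comm φ' (ψ m₀) n).symm

/-- A finitely generated module killed by an ideal of finite-dimensional quotient is
finite-dimensional. -/
theorem finite_of_forall_smul_eq_zero {K R Q : Type*} [CommRing K] [CommRing R] [Algebra K R]
    [AddCommGroup Q] [Module R Q] [Module K Q] [IsScalarTower K R Q] [Module.Finite R Q]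
    (I : Ideal R) [Module.Finite K (R ⧸ I)] (h : ∀ r ∈ I, ∀ q : Q, r • q = 0) :
    Module.Finite K Q := by
  have htors : Module.IsTorsionBySet R Q (I : Set R) := fun q r => h r.1 r.2 q
  letI := htors.module
  haveI : IsScalarTower R (R ⧸ I) Q := htors.isScalarTower
  haveI : Module.Finite (R ⧸ I) Q := Module.Finite.of_restrictScalars_finite R (R ⧸ I) Q
  haveI : IsScalarTower K (R ⧸ I) Q := htors.isScalarTower
  exact Module.Finite.trans (R ⧸ I) Q

/-- Finite-dimensional cokernel from an annihilating element with finite-dimensional quotient. -/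
theorem finite_quotient_of_smul_mem {K A N : Type*} [CommRing K] [CommRing A] [Algebra K A]
    [AddCommGroup N] [Module A N] [Module.Finite A N] [Module K N] [IsScalarTower K A N]
    (P : Submodule A N) (a : A) [Module.Finite K (A ⧸ Ideal.span {a})] (h : ∀ n, a • n ∈ P) :
    Module.Finite K (N ⧸ P) := by
  apply finite_of_forall_smul_eq_zero (R := A) (Ideal.span {a})
  intro r hr q
  obtain ⟨b, rfl⟩ := Ideal.mem_span_singleton'.mp hr
  induction q using Submodule.Quotient.induction_on with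
  | H n =>
    rw [← Submodule.Quotient.mk_smul, Submodule.Quotient.mk_eq_zero, mul_smul]
    exact P.smul_mem b (h n)

end Chart

section OneChart

/-- Elementwise form of "`l : M → M'` is the localization of the `A`-module `M` at `x`, and `M`
has no `x`-torsion", for a module `M'` over an `A`-algebra `A'` in which `x` becomes invertible.
`l` is a plain function, so any bundled (semi)linear map can be used. -/
structure IsLocAt {A : Type*} (A' : Type*) [CommRing A] [CommRing A'] [Algebra A A'] (x : A)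
    {M M' : Type*} [AddCommGroup M] [Module A M] [AddCommGroup M'] [Module A' M']
    (l : M → M') : Prop where
  map_add : ∀ m₁ m₂, l (m₁ + m₂) = l m₁ + l m₂
  map_smul : ∀ (a : A) (m : M), l (a • m) = algebraMap A A' a • l m
  injective : Injective l
  surj : ∀ z : M', ∃ (n : ℕ) (m : M), algebraMap A A' x ^ n • z = l m

variable {K A A' : Type*} [Field K] [CommRing A] [CommRing A'] [Algebra K A] [Algebra K A']
  [Algebra A A'] [IsScalarTower K A A']
  {M N M' N' : Type*} [AddCommGroup M] [Module A M] [Module K M] [IsScalarTower K A M]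
  [AddCommGroup N] [Module A N] [Module K N] [IsScalarTower K A N]
  [AddCommGroup M'] [Module A' M'] [Module K M'] [IsScalarTower K A' M']
  [AddCommGroup N'] [Module A' N'] [Module K N'] [IsScalarTower K A' N']

/-- The `K`-linear map underlying a localization map. -/
def IsLocAt.toLinearMap (K : Type*) [Field K] [Algebra K A] [Algebra K A'] [IsScalarTower K A A']
    [Module K M] [IsScalarTower K A M] [Module K M'] [IsScalarTower K A' M']
    {x : A} {l : M → M'} (h : IsLocAt A' x l) : M →ₗ[K] M' where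
  toFun := l
  map_add' := h.map_add
  map_smul' c m := by
    rw [← algebraMap_smul A c m, h.map_smul, ← IsScalarTower.algebraMap_apply, algebraMap_smul]
    rfl

@[simp] theorem IsLocAt.toLinearMap_apply {x : A} {l : M → M'} (h : IsLocAt A' x l) (m : M) :
    h.toLinearMap K m = l m := rfl

theorem IsLocAt.map_zero {x : A} {l : M → M'} (h : IsLocAt A' x l) : l 0 = 0 := by
  have := h.map_add 0 0
  simpa using this

variable {x : A} {l : M → M'} {l' : N → N'}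

/-- The overlap map of a morphism is injective if the chart map is. -/
theorem overlap_injective (hl : IsLocAt A' x l) (hl' : IsLocAt A' x l')
    (hx : IsUnit (algebraMap A A' x)) (ψ₀ : M →ₗ[A] N) (ψ : M' →ₗ[A'] N')
    (h : ∀ m, ψ (l m) = l' (ψ₀ m)) (hψ₀ : Injective ψ₀) : Injective ψ := by
  rw [injective_iff_map_eq_zero]
  intro z hz
  obtain ⟨n, m, hm⟩ := hl.surj z
  have h1 : l' (ψ₀ m) = 0 := by rw [← h, ← hm, map_smul, hz, smul_zero]
  have h2 : ψ₀ m = 0 := hl'.injective (h1.trans hl'.map_zero.symm)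
  have h3 : m = 0 := hψ₀ (h2.trans (map_zero ψ₀).symm)
  rw [h3, hl.map_zero] at hm
  exact ((hx.pow n).smul_eq_zero).mp hm

/-- The overlap map of a morphism vanishes iff the chart map does. -/
theorem overlap_eq_zero_iff (hl : IsLocAt A' x l) (hl' : IsLocAt A' x l')
    (hx : IsUnit (algebraMap A A' x)) (ψ₀ : M →ₗ[A] N) (ψ : M' →ₗ[A'] N')
    (h : ∀ m, ψ (l m) = l' (ψ₀ m)) : ψ = 0 ↔ ψ₀ = 0 := by
  constructor
  · intro hψ
    apply LinearMap.ext
    intro m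
    apply hl'.injective
    rw [← h, hψ, LinearMap.zero_apply, LinearMap.zero_apply, hl'.map_zero]
  · intro hψ₀
    apply LinearMap.ext
    intro z
    obtain ⟨n, m, hm⟩ := hl.surj z
    have h1 : algebraMap A A' x ^ n • ψ z = 0 := by
      rw [← map_smul, hm, h, hψ₀, LinearMap.zero_apply, hl'.map_zero]
    exact ((hx.pow n).smul_eq_zero).mp h1

/-- The chart covers the overlap cokernel. -/
theorem chart_sup_overlap_eq_top (hl : IsLocAt A' x l) (hl' : IsLocAt A' x l')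
    (hx : IsUnit (algebraMap A A' x)) (ψ₀ : M →ₗ[A] N) (ψ : M' →ₗ[A'] N')
    (h : ∀ m, ψ (l m) = l' (ψ₀ m))
    [FiniteDimensional K (N ⧸ LinearMap.range (ψ₀.restrictScalars K))] :
    LinearMap.range (hl'.toLinearMap K) ⊔ LinearMap.range (ψ.restrictScalars K) = ⊤ := by
  have hsq : (ψ.restrictScalars K) ∘ₗ (hl.toLinearMap K)
      = (hl'.toLinearMap K) ∘ₗ (ψ₀.restrictScalars K) := by
    apply LinearMap.ext
    intro m
    simp [h]
  haveI : SMulCommClass A' K N' := IsScalarTower.to_smulCommClass'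
  set T : N' →ₗ[K] N' := Algebra.lsmul K K N' (algebraMap A A' x) with hT
  have hTpow : ∀ (j : ℕ) (z : N'), (T ^ j) z = algebraMap A A' x ^ j • z := by
    intro j z
    rw [hT, ← map_pow]
    rfl
  apply range_sup_range_eq_top (hl.toLinearMap K) (hl'.toLinearMap K) (ψ₀.restrictScalars K)
    (ψ.restrictScalars K) hsq T
  · rintro _ ⟨n, rfl⟩
    exact ⟨x • n, by simp [hT, hl'.map_smul]⟩
  · rintro _ ⟨w, rfl⟩
    exact ⟨algebraMap A A' x • w, by simp [hT]⟩
  · rintro z ⟨w, hw⟩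
    obtain ⟨u, hu⟩ := hx
    refine ⟨(↑u⁻¹ : A') • w, ?_⟩
    have hw' : ψ w = algebraMap A A' x • z := by simpa [hT] using hw
    simp only [LinearMap.coe_restrictScalars, map_smul, hw', ← hu]
    rw [smul_smul, Units.inv_mul, one_smul]
  · intro z
    obtain ⟨n, m, hm⟩ := hl'.surj z
    exact ⟨n, m, by rw [hTpow, hm]; rfl⟩

end OneChart

section RestrictScalars

variable {K A : Type*} [Field K] [CommRing A] [Algebra K A]
  {M N : Type*} [AddCommGroup M] [Module A M] [Module K M] [IsScalarTower K A M]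
  [AddCommGroup N] [Module A N] [Module K N] [IsScalarTower K A N]

/-- The cokernel of an `A`-linear map, computed `K`-linearly. -/
noncomputable def cokerRestrictEquiv (K : Type*) [Field K] [Algebra K A] [Module K M]
    [IsScalarTower K A M] [Module K N] [IsScalarTower K A N] (ψ : M →ₗ[A] N) :
    (N ⧸ LinearMap.range (ψ.restrictScalars K)) ≃ₗ[K] (N ⧸ LinearMap.range ψ) :=
  (Submodule.quotEquivOfEq _ _ (LinearMap.range_restrictScalars (R := K) ψ)).trans
    (Submodule.Quotient.restrictScalarsEquiv K (LinearMap.range ψ))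

theorem finrank_coker_restrictScalars (ψ : M →ₗ[A] N) :
    finrank K (N ⧸ LinearMap.range (ψ.restrictScalars K)) = finrank K (N ⧸ LinearMap.range ψ) :=
  (cokerRestrictEquiv K ψ).finrank_eq

theorem finite_coker_restrictScalars (ψ : M →ₗ[A] N) [Module.Finite K (N ⧸ LinearMap.range ψ)] :
    Module.Finite K (N ⧸ LinearMap.range (ψ.restrictScalars K)) :=
  Module.Finite.equiv (cokerRestrictEquiv K ψ).symm

end RestrictScalars

section TwoChartModules

variable {K : Type*} [Field K]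
  {A₀ A₁ A₀₁ : Type*} [CommRing A₀] [CommRing A₁] [CommRing A₀₁] [IsDomain A₀] [IsDomain A₁]
  [Algebra K A₀] [Algebra K A₁] [Algebra K A₀₁] [Algebra A₀ A₀₁] [Algebra A₁ A₀₁]
  [IsScalarTower K A₀ A₀₁] [IsScalarTower K A₁ A₀₁]
  {M₀ M₁ M₀₁ N₀ N₁ N₀₁ : Type*}
  [AddCommGroup M₀] [Module A₀ M₀] [Module K M₀] [IsScalarTower K A₀ M₀]
  [Module.Invertible A₀ M₀]
  [AddCommGroup M₁] [Module A₁ M₁] [Module K M₁] [IsScalarTower K A₁ M₁]
  [Module.Invertible A₁ M₁]
  [AddCommGroup M₀₁] [Module A₀₁ M₀₁] [Module K M₀₁] [IsScalarTower K A₀₁ M₀₁]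
  [AddCommGroup N₀] [Module A₀ N₀] [Module K N₀] [IsScalarTower K A₀ N₀]
  [Module.Invertible A₀ N₀]
  [AddCommGroup N₁] [Module A₁ N₁] [Module K N₁] [IsScalarTower K A₁ N₁]
  [Module.Invertible A₁ N₁]
  [AddCommGroup N₀₁] [Module A₀₁ N₀₁] [Module K N₀₁] [IsScalarTower K A₀₁ N₀₁]
  {x : A₀} {y : A₁} {l₀ : M₀ → M₀₁} {l₁ : M₁ → M₀₁} {l₀' : N₀ → N₀₁} {l₁' : N₁ → N₀₁}

/-- A morphism of two-chart invertible data over a field which is nonzero on chart `0` is
injective on both charts and on the overlap. -/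
theorem morphism_injective
    (hl₀ : IsLocAt A₀₁ x l₀) (hl₁ : IsLocAt A₀₁ y l₁)
    (hl₀' : IsLocAt A₀₁ x l₀') (hl₁' : IsLocAt A₀₁ y l₁')
    (hx : IsUnit (algebraMap A₀ A₀₁ x)) (hy : IsUnit (algebraMap A₁ A₀₁ y))
    (ψ₀ : M₀ →ₗ[A₀] N₀) (ψ₁ : M₁ →ₗ[A₁] N₁) (ψ : M₀₁ →ₗ[A₀₁] N₀₁)
    (h₀ : ∀ m, ψ (l₀ m) = l₀' (ψ₀ m)) (h₁ : ∀ m, ψ (l₁ m) = l₁' (ψ₁ m)) (hne : ψ₀ ≠ 0) :
    Injective ψ₀ ∧ Injective ψ₁ ∧ Injective ψ ∧ ψ₁ ≠ 0 := by
  have i0 := (injective_and_exists_smul_mem_range ψ₀ hne).1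
  have hψ : ψ ≠ 0 := fun h => hne ((overlap_eq_zero_iff hl₀ hl₀' hx ψ₀ ψ h₀).mp h)
  have hne1 : ψ₁ ≠ 0 := fun h => hψ ((overlap_eq_zero_iff hl₁ hl₁' hy ψ₁ ψ h₁).mpr h)
  exact ⟨i0, (injective_and_exists_smul_mem_range ψ₁ hne1).1,
    overlap_injective hl₀ hl₀' hx ψ₀ ψ h₀ i0, hne1⟩

omit [Algebra K A₀₁] [IsScalarTower K A₀ A₀₁] [IsScalarTower K A₁ A₀₁] [Module K M₀]
  [IsScalarTower K A₀ M₀] [Module K M₁] [IsScalarTower K A₁ M₁] [Module K M₀₁]
  [IsScalarTower K A₀₁ M₀₁] [Module K N₀₁] [IsScalarTower K A₀₁ N₀₁] in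
/-- The chart cokernels of a nonzero morphism of two-chart invertible data are
finite-dimensional. -/
theorem morphism_finite_coker
    (hl₀ : IsLocAt A₀₁ x l₀) (hl₁ : IsLocAt A₀₁ y l₁)
    (hl₀' : IsLocAt A₀₁ x l₀') (hl₁' : IsLocAt A₀₁ y l₁')
    (hx : IsUnit (algebraMap A₀ A₀₁ x)) (hy : IsUnit (algebraMap A₁ A₀₁ y))
    (hA₀ : ∀ a : A₀, a ≠ 0 → Module.Finite K (A₀ ⧸ Ideal.span {a}))
    (hA₁ : ∀ a : A₁, a ≠ 0 → Module.Finite K (A₁ ⧸ Ideal.span {a}))
    (ψ₀ : M₀ →ₗ[A₀] N₀) (ψ₁ : M₁ →ₗ[A₁] N₁) (ψ : M₀₁ →ₗ[A₀₁] N₀₁)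
    (h₀ : ∀ m, ψ (l₀ m) = l₀' (ψ₀ m)) (h₁ : ∀ m, ψ (l₁ m) = l₁' (ψ₁ m)) (hne : ψ₀ ≠ 0) :
    Module.Finite K (N₀ ⧸ LinearMap.range ψ₀) ∧ Module.Finite K (N₁ ⧸ LinearMap.range ψ₁) := by
  obtain ⟨-, -, -, hne1⟩ := morphism_injective hl₀ hl₁ hl₀' hl₁' hx hy ψ₀ ψ₁ ψ h₀ h₁ hne
  obtain ⟨a, ha, hmem⟩ := (injective_and_exists_smul_mem_range ψ₀ hne).2
  obtain ⟨b, hb, hmem'⟩ := (injective_and_exists_smul_mem_range ψ₁ hne1).2
  haveI := hA₀ a ha
  haveI := hA₁ b hb
  exact ⟨finite_quotient_of_smul_mem _ a hmem, finite_quotient_of_smul_mem _ b hmem'⟩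

/-- **Degree formula for a nonzero morphism of two-chart invertible data over a field.**
`χ(G') = χ(G) + dim Q₀ + dim Q₁ - dim Q₀₁`, where `Q_i` are the cokernels, and
`dim Q₀₁ ≤ dim Q₀`, `dim Q₀₁ ≤ dim Q₁` (all three finite-dimensional). -/
theorem morphism_index
    (hl₀ : IsLocAt A₀₁ x l₀) (hl₁ : IsLocAt A₀₁ y l₁)
    (hl₀' : IsLocAt A₀₁ x l₀') (hl₁' : IsLocAt A₀₁ y l₁')
    (hx : IsUnit (algebraMap A₀ A₀₁ x)) (hy : IsUnit (algebraMap A₁ A₀₁ y))
    (hA₀ : ∀ a : A₀, a ≠ 0 → Module.Finite K (A₀ ⧸ Ideal.span {a}))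
    (hA₁ : ∀ a : A₁, a ≠ 0 → Module.Finite K (A₁ ⧸ Ideal.span {a}))
    (ψ₀ : M₀ →ₗ[A₀] N₀) (ψ₁ : M₁ →ₗ[A₁] N₁) (ψ : M₀₁ →ₗ[A₀₁] N₀₁)
    (h₀ : ∀ m, ψ (l₀ m) = l₀' (ψ₀ m)) (h₁ : ∀ m, ψ (l₁ m) = l₁' (ψ₁ m)) (hne : ψ₀ ≠ 0)
    (d : M₀ × M₁ →ₗ[K] M₀₁) (d' : N₀ × N₁ →ₗ[K] N₀₁)
    (hdf : ∀ a b, d (a, b) = l₀ a - l₁ b) (hdf' : ∀ a b, d' (a, b) = l₀' a - l₁' b)
    (hd : IsFred d) (hd' : IsFred d') :
    d'.index = d.index + finrank K (N₀ ⧸ LinearMap.range ψ₀)
        + finrank K (N₁ ⧸ LinearMap.range ψ₁) - finrank K (N₀₁ ⧸ LinearMap.range ψ) ∧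
      finrank K (N₀₁ ⧸ LinearMap.range ψ) ≤ finrank K (N₀ ⧸ LinearMap.range ψ₀) ∧
      finrank K (N₀₁ ⧸ LinearMap.range ψ) ≤ finrank K (N₁ ⧸ LinearMap.range ψ₁) ∧
      Module.Finite K (N₀₁ ⧸ LinearMap.range ψ) := by
  obtain ⟨i0, i1, i01, hne1⟩ := morphism_injective hl₀ hl₁ hl₀' hl₁' hx hy ψ₀ ψ₁ ψ h₀ h₁ hne
  obtain ⟨f0, f1⟩ := morphism_finite_coker hl₀ hl₁ hl₀' hl₁' hx hy hA₀ hA₁ ψ₀ ψ₁ ψ h₀ h₁ hne
  haveI := finite_coker_restrictScalars (K := K) ψ₀
  haveI := finite_coker_restrictScalars (K := K) ψ₁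
  have hc₀ := chart_sup_overlap_eq_top (K := K) hl₀ hl₀' hx ψ₀ ψ h₀
  have hc₁ := chart_sup_overlap_eq_top (K := K) hl₁ hl₁' hy ψ₁ ψ h₁
  have hs₀ : (ψ.restrictScalars K) ∘ₗ (hl₀.toLinearMap K)
      = (hl₀'.toLinearMap K) ∘ₗ (ψ₀.restrictScalars K) := by
    apply LinearMap.ext; intro m; simp [h₀]
  have hs₁ : (ψ.restrictScalars K) ∘ₗ (hl₁.toLinearMap K)
      = (hl₁'.toLinearMap K) ∘ₗ (ψ₁.restrictScalars K) := by
    apply LinearMap.ext; intro m; simp [h₁]
  have key := index_morphism (hl₀.toLinearMap K) (hl₁.toLinearMap K) (hl₀'.toLinearMap K)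
    (hl₁'.toLinearMap K) d d' hdf hdf' (ψ₀.restrictScalars K) (ψ₁.restrictScalars K)
    (ψ.restrictScalars K) hs₀ hs₁ i0 i1 i01 hc₀ hd hd'
  obtain ⟨fin01, le0⟩ := finrank_coker_le_of_sup_eq_top (hl₀.toLinearMap K) (hl₀'.toLinearMap K)
    (ψ₀.restrictScalars K) (ψ.restrictScalars K) hs₀ hc₀
  obtain ⟨-, le1⟩ := finrank_coker_le_of_sup_eq_top (hl₁.toLinearMap K) (hl₁'.toLinearMap K)
    (ψ₁.restrictScalars K) (ψ.restrictScalars K) hs₁ hc₁
  rw [finrank_coker_restrictScalars] at key le0 le1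
  rw [finrank_coker_restrictScalars] at key le0 le1
  rw [finrank_coker_restrictScalars] at key
  exact ⟨key, le0, le1, Module.Finite.equiv (cokerRestrictEquiv K ψ)⟩

/-- **Monotonicity of `χ`** along a nonzero morphism of two-chart invertible data over a field;
the defect bounds each chart cokernel ("a nonzero section has at most `deg` zeros"). -/
theorem morphism_index_le
    (hl₀ : IsLocAt A₀₁ x l₀) (hl₁ : IsLocAt A₀₁ y l₁)
    (hl₀' : IsLocAt A₀₁ x l₀') (hl₁' : IsLocAt A₀₁ y l₁')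
    (hx : IsUnit (algebraMap A₀ A₀₁ x)) (hy : IsUnit (algebraMap A₁ A₀₁ y))
    (hA₀ : ∀ a : A₀, a ≠ 0 → Module.Finite K (A₀ ⧸ Ideal.span {a}))
    (hA₁ : ∀ a : A₁, a ≠ 0 → Module.Finite K (A₁ ⧸ Ideal.span {a}))
    (ψ₀ : M₀ →ₗ[A₀] N₀) (ψ₁ : M₁ →ₗ[A₁] N₁) (ψ : M₀₁ →ₗ[A₀₁] N₀₁)
    (h₀ : ∀ m, ψ (l₀ m) = l₀' (ψ₀ m)) (h₁ : ∀ m, ψ (l₁ m) = l₁' (ψ₁ m)) (hne : ψ₀ ≠ 0)
    (d : M₀ × M₁ →ₗ[K] M₀₁) (d' : N₀ × N₁ →ₗ[K] N₀₁)
    (hdf : ∀ a b, d (a, b) = l₀ a - l₁ b) (hdf' : ∀ a b, d' (a, b) = l₀' a - l₁' b)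
    (hd : IsFred d) (hd' : IsFred d') :
    d.index + finrank K (N₀ ⧸ LinearMap.range ψ₀) ≤ d'.index ∧
      d.index + finrank K (N₁ ⧸ LinearMap.range ψ₁) ≤ d'.index ∧ d.index ≤ d'.index := by
  obtain ⟨key, le0, le1, -⟩ := morphism_index hl₀ hl₁ hl₀' hl₁' hx hy hA₀ hA₁ ψ₀ ψ₁ ψ h₀ h₁ hne
    d d' hdf hdf' hd hd'
  refine ⟨?_, ?_, ?_⟩ <;> omega

/-- **A nonzero morphism between two-chart invertible data of equal `χ` over a field is an
isomorphism** (on both charts and on the overlap). -/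
theorem morphism_bijective_of_index_le
    (hl₀ : IsLocAt A₀₁ x l₀) (hl₁ : IsLocAt A₀₁ y l₁)
    (hl₀' : IsLocAt A₀₁ x l₀') (hl₁' : IsLocAt A₀₁ y l₁')
    (hx : IsUnit (algebraMap A₀ A₀₁ x)) (hy : IsUnit (algebraMap A₁ A₀₁ y))
    (hA₀ : ∀ a : A₀, a ≠ 0 → Module.Finite K (A₀ ⧸ Ideal.span {a}))
    (hA₁ : ∀ a : A₁, a ≠ 0 → Module.Finite K (A₁ ⧸ Ideal.span {a}))
    (ψ₀ : M₀ →ₗ[A₀] N₀) (ψ₁ : M₁ →ₗ[A₁] N₁) (ψ : M₀₁ →ₗ[A₀₁] N₀₁)
    (h₀ : ∀ m, ψ (l₀ m) = l₀' (ψ₀ m)) (h₁ : ∀ m, ψ (l₁ m) = l₁' (ψ₁ m)) (hne : ψ₀ ≠ 0)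
    (d : M₀ × M₁ →ₗ[K] M₀₁) (d' : N₀ × N₁ →ₗ[K] N₀₁)
    (hdf : ∀ a b, d (a, b) = l₀ a - l₁ b) (hdf' : ∀ a b, d' (a, b) = l₀' a - l₁' b)
    (hd : IsFred d) (hd' : IsFred d') (hχ : d'.index ≤ d.index) :
    Bijective ψ₀ ∧ Bijective ψ₁ ∧ Bijective ψ := by
  obtain ⟨i0, i1, i01, -⟩ := morphism_injective hl₀ hl₁ hl₀' hl₁' hx hy ψ₀ ψ₁ ψ h₀ h₁ hne
  obtain ⟨f0, f1⟩ := morphism_finite_coker hl₀ hl₁ hl₀' hl₁' hx hy hA₀ hA₁ ψ₀ ψ₁ ψ h₀ h₁ hne
  obtain ⟨key, le0, le1, f01⟩ := morphism_index hl₀ hl₁ hl₀' hl₁' hx hy hA₀ hA₁ ψ₀ ψ₁ ψ h₀ h₁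
    hne d d' hdf hdf' hd hd'
  have z0 : finrank K (N₀ ⧸ LinearMap.range ψ₀) = 0 := by omega
  have z1 : finrank K (N₁ ⧸ LinearMap.range ψ₁) = 0 := by omega
  have z01 : finrank K (N₀₁ ⧸ LinearMap.range ψ) = 0 := by omega
  refine ⟨⟨i0, ?_⟩, ⟨i1, ?_⟩, ⟨i01, ?_⟩⟩
  · rw [← LinearMap.range_eq_top, ← Submodule.Quotient.subsingleton_iff]
    exact Module.finrank_zero_iff.mp z0
  · rw [← LinearMap.range_eq_top, ← Submodule.Quotient.subsingleton_iff]
    exact Module.finrank_zero_iff.mp z1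
  · rw [← LinearMap.range_eq_top, ← Submodule.Quotient.subsingleton_iff]
    exact Module.finrank_zero_iff.mp z01

end TwoChartModules

end Fermat.Agent.S25.helper8703
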