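import Mathlib

/-!
# S25, leaf UV (backup implementation, helper8740): uniform vanishing of `H¹` under twisting

Pure linear algebra over an algebraically closed field `K`, in lattice form, Mathlib only.

A two-chart line bundle on a curve over `K` is seen through `N = M₀₁` (a `K`-vector space),
`T` = multiplication by `x` (an automorphism of `N`), `Λ₀` = the image of `M₀` and
`Λ₁` = the image of `M₁`.  The twist by `m • D∞` replaces `Λ₁` by `T ^ m Λ₁`, and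
`H¹(m) = N ⧸ (Λ₀ ⊔ T ^ m Λ₁)`.

Main results (no duality, no Riemann–Roch):

* `pencil_finrank_lt` (UV0): a pencil `τ - c • ι` of surjections `V → W` with `ι` surjective and
  `V ≠ 0` finite-dimensional forces `finrank W < finrank V`;
* `finrank_quotient_twist_succ_lt` : `h¹(m + 1) < h¹(m)` as long as `h¹(m) > 0`;
* `sup_map_pow_eq_top` (UV1): if `h¹(0) ≤ r` then `Λ₀ ⊔ T ^ m Λ₁ = ⊤` for all `m ≥ r`;
* `sup_map_zpow_eq_top` : the same with integer twists, starting from any `m₀ : ℤ`;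
* `sup_eq_top_of_map_le` (STAB, any commutative ring): `T Λ₁ ≤ Λ₀ ⊔ Λ₁` and `N = ⋃ T ^ j Λ₁`
  force `Λ₀ ⊔ Λ₁ = ⊤`;
* `sup_map_zpow_eq_top_of_exhaust` : uniform vanishing over an ARBITRARY field (hypothesis
  `N = ⋃ T ^ j Λ₁` instead of `N = ⋃ T ^ (-j) Λ₀`), no algebraic closedness;
* `range_sup_range_pow_comp_eq_top` : operator form for two-chart modules.
-/

set_option autoImplicit false

namespace Fermat.Agent.S25.helper8740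

open Module

section Pencil

variable {K : Type*} [Field K] [IsAlgClosed K]
variable {V W : Type*} [AddCommGroup V] [Module K V] [AddCommGroup W] [Module K W]

/-- (UV0) **Pencil lemma.** Let `ι τ : V → W` be linear maps of vector spaces over an
algebraically closed field, `V` finite-dimensional, such that `ι` and every `τ - c • ι` is
surjective. Then `V = 0` or `dim W < dim V`. -/
theorem pencil_finrank_lt [FiniteDimensional K V] (ι τ : V →ₗ[K] W)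
    (hι : Function.Surjective ι) (hτ : ∀ c : K, Function.Surjective (τ - c • ι)) :
    Subsingleton V ∨ finrank K W < finrank K V := by
  have : FiniteDimensional K W := Module.Finite.of_surjective ι hι
  by_cases hV : Subsingleton V
  · exact Or.inl hV
  right
  rw [not_subsingleton_iff_nontrivial] at hV
  have hle : finrank K W ≤ finrank K V := LinearMap.finrank_le_finrank_of_surjective hι
  by_contra hlt
  have heq : finrank K V = finrank K W := le_antisymm (not_lt.mp hlt) hle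
  have hιinj : Function.Injective ι :=
    (LinearMap.injective_iff_surjective_of_finrank_eq_finrank heq).mpr hι
  let e : V ≃ₗ[K] W := LinearEquiv.ofBijective ι ⟨hιinj, hι⟩
  obtain ⟨c, hc⟩ := Module.End.exists_eigenvalue (e.symm.toLinearMap ∘ₗ τ)
  obtain ⟨v, hv⟩ := hc.exists_hasEigenvector
  have h1 : e.symm (τ v) = c • v := by
    have := hv.apply_eq_smul
    simpa using this
  have h2 : τ v = c • ι v := by
    have h := congrArg e h1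
    rw [LinearEquiv.apply_symm_apply, map_smul] at h
    exact h
  have hinj : Function.Injective (τ - c • ι) :=
    (LinearMap.injective_iff_surjective_of_finrank_eq_finrank heq).mpr (hτ c)
  have h3 : (τ - c • ι) v = 0 := by simp [h2]
  exact hv.2 (hinj (by rw [h3, map_zero]))

end Pencil

section Lattice

variable {K : Type*} [Field K] {N : Type*} [AddCommGroup N] [Module K N]

/-- If `T ^ j z ∈ Λ₀` and `c ≠ 0` then `z ∈ (T - c) N + Λ₀`. -/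
theorem exists_sub_mem_of_pow_mem (T : N ≃ₗ[K] N) (Λ₀ : Submodule K N) {c : K} (hc : c ≠ 0)
    (j : ℕ) : ∀ z : N, (T ^ j) z ∈ Λ₀ → ∃ y : N, z - (T y - c • y) ∈ Λ₀ := by
  induction j with
  | zero =>
    intro z hz
    exact ⟨0, by simpa using hz⟩
  | succ j ih =>
    intro z hz
    have hz' : (T ^ j) (T z) ∈ Λ₀ := by
      have : (T ^ (j + 1)) z = (T ^ j) (T z) := by
        rw [pow_succ, LinearEquiv.mul_apply]
      rwa [this] at hz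
    obtain ⟨y', hy'⟩ := ih (T z) hz'
    refine ⟨c⁻¹ • y' - c⁻¹ • z, ?_⟩
    have : z - (T (c⁻¹ • y' - c⁻¹ • z) - c • (c⁻¹ • y' - c⁻¹ • z)) =
        c⁻¹ • (T z - (T y' - c • y')) := by
      simp only [map_sub, map_smul, smul_sub, smul_smul, mul_inv_cancel₀ hc, inv_mul_cancel₀ hc,
        one_smul]
      abel
    rw [this]
    exact Λ₀.smul_mem _ hy'

variable [IsAlgClosed K]

/-- **One twisting step.** `N` a `K`-vector space with an automorphism `T`, `Λ₀` a `T`-stable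
subspace such that every vector is moved into `Λ₀` by a power of `T`, `Λ₁` a `T⁻¹`-stable
subspace, `N ⧸ (Λ₀ ⊔ Λ₁)` finite-dimensional. Then either `Λ₀ ⊔ Λ₁ = ⊤` or the dimension of the
quotient drops strictly when `Λ₁` is replaced by `T Λ₁`. -/
theorem finrank_quotient_sup_map_lt (T : N ≃ₗ[K] N) (Λ₀ Λ₁ : Submodule K N)
    (h₀ : ∀ z ∈ Λ₀, T z ∈ Λ₀) (h₁ : ∀ z ∈ Λ₁, T.symm z ∈ Λ₁)
    (hloc : ∀ z : N, ∃ j : ℕ, (T ^ j) z ∈ Λ₀)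
    [FiniteDimensional K (N ⧸ (Λ₀ ⊔ Λ₁))] :
    Λ₀ ⊔ Λ₁ = ⊤ ∨
      finrank K (N ⧸ (Λ₀ ⊔ Λ₁.map T.toLinearMap)) < finrank K (N ⧸ (Λ₀ ⊔ Λ₁)) := by
  set W : Submodule K N := Λ₀ ⊔ Λ₁ with hW
  set W' : Submodule K N := Λ₀ ⊔ Λ₁.map T.toLinearMap with hW'
  have hΛ₁ : Λ₁ ≤ Λ₁.map T.toLinearMap := by
    intro z hz
    exact ⟨T.symm z, h₁ z hz, by simp⟩
  have hWW' : W ≤ W' := sup_le_sup_left hΛ₁ _
  have hTW : W ≤ W'.comap T.toLinearMap := by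
    rw [hW, sup_le_iff]
    refine ⟨fun z hz => ?_, fun z hz => ?_⟩
    · exact Submodule.mem_sup_left (h₀ z hz)
    · exact Submodule.mem_sup_right ⟨z, hz, rfl⟩
  let ι : (N ⧸ W) →ₗ[K] (N ⧸ W') := Submodule.mapQ W W' LinearMap.id (by simpa using hWW')
  let τ : (N ⧸ W) →ₗ[K] (N ⧸ W') := Submodule.mapQ W W' T.toLinearMap hTW
  have hι : Function.Surjective ι := by
    intro w
    obtain ⟨z, rfl⟩ := Submodule.mkQ_surjective W' w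
    exact ⟨Submodule.mkQ W z, by simp [ι]⟩
  have hτ : ∀ c : K, Function.Surjective (τ - c • ι) := by
    intro c w
    obtain ⟨z, rfl⟩ := Submodule.mkQ_surjective W' w
    by_cases hc : c = 0
    · refine ⟨Submodule.mkQ W (T.symm z), ?_⟩
      simp [hc, τ]
    · obtain ⟨j, hj⟩ := hloc z
      obtain ⟨y, hy⟩ := exists_sub_mem_of_pow_mem T Λ₀ hc j z hj
      refine ⟨Submodule.mkQ W y, ?_⟩
      have h1 : (τ - c • ι) (Submodule.mkQ W y) = Submodule.mkQ W' (T y - c • y) := by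
        simp [τ, ι]
      rw [h1]
      have h2 : z - (T y - c • y) ∈ W' := Submodule.mem_sup_left hy
      have h3 : Submodule.mkQ W' (z - (T y - c • y)) = 0 := by
        rw [Submodule.mkQ_apply, Submodule.Quotient.mk_eq_zero]
        exact h2
      rw [map_sub, sub_eq_zero] at h3
      exact h3.symm
  rcases pencil_finrank_lt ι τ hι hτ with h | h
  · left
    exact Submodule.Quotient.subsingleton_iff.mp h
  · right
    exact h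

omit [IsAlgClosed K] in
/-- The image of a `T⁻¹`-stable subspace under a (linear) automorphism commuting with `T` is
`T⁻¹`-stable. -/
theorem symm_mem_map_of_commute (T S : N ≃ₗ[K] N) (hTS : Commute T S) (Λ₁ : Submodule K N)
    (h₁ : ∀ z ∈ Λ₁, T.symm z ∈ Λ₁) :
    ∀ z ∈ Λ₁.map S.toLinearMap, T.symm z ∈ Λ₁.map S.toLinearMap := by
  rintro _ ⟨w, hw, rfl⟩
  refine ⟨T.symm w, h₁ w hw, ?_⟩
  have h : (T * S) (T.symm w) = (S * T) (T.symm w) := by rw [hTS.eq]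
  simp only [LinearEquiv.mul_apply, LinearEquiv.apply_symm_apply] at h
  change S (T.symm w) = T.symm (S w)
  rw [← h, LinearEquiv.symm_apply_apply]

omit [IsAlgClosed K] in
/-- `T ^ (j + 1) Λ₁ = T ^ j (T Λ₁)`. -/
theorem map_pow_succ_eq (T : N ≃ₗ[K] N) (Λ₁ : Submodule K N) (j : ℕ) :
    Λ₁.map ((T ^ (j + 1) : N ≃ₗ[K] N) : N →ₗ[K] N) =
      (Λ₁.map T.toLinearMap).map ((T ^ j : N ≃ₗ[K] N) : N →ₗ[K] N) := by
  ext z
  constructor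
  · rintro ⟨w, hw, rfl⟩
    exact ⟨T w, ⟨w, hw, rfl⟩, by
      change (T ^ j) (T w) = (T ^ (j + 1)) w
      rw [pow_succ, LinearEquiv.mul_apply]⟩
  · rintro ⟨_, ⟨w, hw, rfl⟩, rfl⟩
    exact ⟨w, hw, by
      change (T ^ (j + 1)) w = (T ^ j) (T w)
      rw [pow_succ, LinearEquiv.mul_apply]⟩

omit [IsAlgClosed K] in
/-- A `T⁻¹`-stable subspace is contained in all its images under powers of `T`. -/
theorem le_map_pow (T : N ≃ₗ[K] N) (Λ₁ : Submodule K N) (h₁ : ∀ z ∈ Λ₁, T.symm z ∈ Λ₁) (j : ℕ) :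
    Λ₁ ≤ Λ₁.map ((T ^ j : N ≃ₗ[K] N) : N →ₗ[K] N) := by
  intro z hz
  have key : ∀ i : ℕ, ∀ w ∈ Λ₁, ∃ v ∈ Λ₁, (T ^ i : N ≃ₗ[K] N) v = w := by
    intro i
    induction i with
    | zero => intro w hw; exact ⟨w, hw, by simp⟩
    | succ i ih =>
      intro w hw
      obtain ⟨v, hv, rfl⟩ := ih w hw
      exact ⟨T.symm v, h₁ v hv, by
        rw [pow_succ, LinearEquiv.mul_apply, LinearEquiv.apply_symm_apply]⟩
  obtain ⟨v, hv, rfl⟩ := key j z hz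
  exact ⟨v, hv, rfl⟩

/-- (UV1) **Uniform vanishing, lattice form.** In the situation of
`finrank_quotient_sup_map_lt`: if `dim N ⧸ (Λ₀ ⊔ Λ₁) ≤ r` then `Λ₀ ⊔ T ^ m Λ₁ = ⊤` for all
`m ≥ r`. (`H¹` of a twist vanishes as soon as the twist is at least `h¹`.) -/
theorem sup_map_pow_eq_top (T : N ≃ₗ[K] N) (Λ₀ : Submodule K N)
    (h₀ : ∀ z ∈ Λ₀, T z ∈ Λ₀) (hloc : ∀ z : N, ∃ j : ℕ, (T ^ j) z ∈ Λ₀) (m : ℕ) :
    ∀ (Λ₁ : Submodule K N), (∀ z ∈ Λ₁, T.symm z ∈ Λ₁) →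
      FiniteDimensional K (N ⧸ (Λ₀ ⊔ Λ₁)) → finrank K (N ⧸ (Λ₀ ⊔ Λ₁)) ≤ m →
      Λ₀ ⊔ Λ₁.map ((T ^ m : N ≃ₗ[K] N) : N →ₗ[K] N) = ⊤ := by
  induction m with
  | zero =>
    intro Λ₁ _ hfin hr
    have h0 : finrank K (N ⧸ (Λ₀ ⊔ Λ₁)) = 0 := Nat.le_zero.mp hr
    have hsub : Subsingleton (N ⧸ (Λ₀ ⊔ Λ₁)) := Module.finrank_zero_iff.mp h0
    have htop : Λ₀ ⊔ Λ₁ = ⊤ := Submodule.Quotient.subsingleton_iff.mp hsub
    have hle := le_map_pow T Λ₁ (by assumption) 0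
    exact top_le_iff.mp (htop ▸ sup_le_sup_left hle Λ₀)
  | succ m ih =>
    intro Λ₁ h₁ hfin hr
    rcases finrank_quotient_sup_map_lt T Λ₀ Λ₁ h₀ h₁ hloc with htop | hlt
    · have hle := le_map_pow T Λ₁ h₁ (m + 1)
      exact top_le_iff.mp (htop ▸ sup_le_sup_left hle Λ₀)
    · rw [map_pow_succ_eq]
      have hΛ₁ : Λ₁ ≤ Λ₁.map T.toLinearMap := fun z hz => ⟨T.symm z, h₁ z hz, by simp⟩
      have hfin' : FiniteDimensional K (N ⧸ (Λ₀ ⊔ Λ₁.map T.toLinearMap)) :=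
        Module.Finite.of_surjective
          (Submodule.mapQ (Λ₀ ⊔ Λ₁) (Λ₀ ⊔ Λ₁.map T.toLinearMap) LinearMap.id
            (by simpa using sup_le_sup_left hΛ₁ Λ₀))
          (by
            intro w
            obtain ⟨z, rfl⟩ := Submodule.mkQ_surjective _ w
            exact ⟨Submodule.mkQ _ z, by simp⟩)
      refine ih (Λ₁.map T.toLinearMap) ?_ hfin' (by omega)
      exact symm_mem_map_of_commute T T (Commute.refl T) Λ₁ h₁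

omit [IsAlgClosed K] in
/-- `T ^ (m₀ + j) Λ₁ = T ^ j (T ^ m₀ Λ₁)` for an integer `m₀` and a natural number `j`. -/
theorem map_zpow_add_natCast_eq (T : N ≃ₗ[K] N) (Λ₁ : Submodule K N) (m₀ : ℤ) (j : ℕ) :
    Λ₁.map ((T ^ (m₀ + j) : N ≃ₗ[K] N) : N →ₗ[K] N) =
      (Λ₁.map ((T ^ m₀ : N ≃ₗ[K] N) : N →ₗ[K] N)).map ((T ^ j : N ≃ₗ[K] N) : N →ₗ[K] N) := by
  have hmul : (T ^ (m₀ + j) : N ≃ₗ[K] N) = T ^ j * T ^ m₀ := by
    rw [add_comm, zpow_add, zpow_natCast]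
  ext z
  constructor
  · rintro ⟨w, hw, rfl⟩
    exact ⟨(T ^ m₀ : N ≃ₗ[K] N) w, ⟨w, hw, rfl⟩, by
      change (T ^ j) ((T ^ m₀ : N ≃ₗ[K] N) w) = (T ^ (m₀ + j) : N ≃ₗ[K] N) w
      rw [hmul, LinearEquiv.mul_apply]⟩
  · rintro ⟨_, ⟨w, hw, rfl⟩, rfl⟩
    exact ⟨w, hw, by
      change (T ^ (m₀ + j) : N ≃ₗ[K] N) w = (T ^ j) ((T ^ m₀ : N ≃ₗ[K] N) w)
      rw [hmul, LinearEquiv.mul_apply]⟩

/-- (UV1, integer twists) **Uniform vanishing, lattice form.** `N` a vector space over an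
algebraically closed field with an automorphism `T` (multiplication by `x`), `Λ₀` a `T`-stable
subspace with `N = ⋃ T ^ (-j) Λ₀`, `Λ₁` a `T⁻¹`-stable subspace. If
`H¹(m₀) = N ⧸ (Λ₀ ⊔ T ^ m₀ Λ₁)` has dimension `≤ r`, then `H¹(m) = 0` for all `m ≥ m₀ + r`. -/
theorem sup_map_zpow_eq_top (T : N ≃ₗ[K] N) (Λ₀ Λ₁ : Submodule K N)
    (h₀ : ∀ z ∈ Λ₀, T z ∈ Λ₀) (h₁ : ∀ z ∈ Λ₁, T.symm z ∈ Λ₁)
    (hloc : ∀ z : N, ∃ j : ℕ, (T ^ j) z ∈ Λ₀) (m₀ : ℤ) (r : ℕ)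
    [FiniteDimensional K (N ⧸ (Λ₀ ⊔ Λ₁.map ((T ^ m₀ : N ≃ₗ[K] N) : N →ₗ[K] N)))]
    (hr : finrank K (N ⧸ (Λ₀ ⊔ Λ₁.map ((T ^ m₀ : N ≃ₗ[K] N) : N →ₗ[K] N))) ≤ r)
    (m : ℤ) (hm : m₀ + r ≤ m) :
    Λ₀ ⊔ Λ₁.map ((T ^ m : N ≃ₗ[K] N) : N →ₗ[K] N) = ⊤ := by
  obtain ⟨j, rfl⟩ : ∃ j : ℕ, m = m₀ + j := ⟨(m - m₀).toNat, by omega⟩
  have hj : r ≤ j := by omega
  rw [map_zpow_add_natCast_eq]
  refine sup_map_pow_eq_top T Λ₀ h₀ hloc j _ ?_ inferInstance (hr.trans hj)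
  have hcomm : Commute T (T ^ m₀) := (Commute.refl T).zpow_right m₀
  exact symm_mem_map_of_commute T (T ^ m₀) hcomm Λ₁ h₁

/-- **Strict decrease of `h¹` under twisting** (integer twists): either `H¹(m) = 0` or
`h¹(m + 1) < h¹(m)`. -/
theorem finrank_quotient_sup_map_zpow_succ_lt (T : N ≃ₗ[K] N) (Λ₀ Λ₁ : Submodule K N)
    (h₀ : ∀ z ∈ Λ₀, T z ∈ Λ₀) (h₁ : ∀ z ∈ Λ₁, T.symm z ∈ Λ₁)
    (hloc : ∀ z : N, ∃ j : ℕ, (T ^ j) z ∈ Λ₀) (m : ℤ)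
    [FiniteDimensional K (N ⧸ (Λ₀ ⊔ Λ₁.map ((T ^ m : N ≃ₗ[K] N) : N →ₗ[K] N)))] :
    Λ₀ ⊔ Λ₁.map ((T ^ m : N ≃ₗ[K] N) : N →ₗ[K] N) = ⊤ ∨
      finrank K (N ⧸ (Λ₀ ⊔ Λ₁.map ((T ^ (m + 1) : N ≃ₗ[K] N) : N →ₗ[K] N))) <
        finrank K (N ⧸ (Λ₀ ⊔ Λ₁.map ((T ^ m : N ≃ₗ[K] N) : N →ₗ[K] N))) := by
  have hcomm : Commute T (T ^ m) := (Commute.refl T).zpow_right m
  have h := finrank_quotient_sup_map_lt T Λ₀ (Λ₁.map ((T ^ m : N ≃ₗ[K] N) : N →ₗ[K] N)) h₀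
    (symm_mem_map_of_commute T (T ^ m) hcomm Λ₁ h₁) hloc
  have hmap : Λ₁.map ((T ^ (m + 1) : N ≃ₗ[K] N) : N →ₗ[K] N) =
      (Λ₁.map ((T ^ m : N ≃ₗ[K] N) : N →ₗ[K] N)).map T.toLinearMap := by
    have := map_zpow_add_natCast_eq T Λ₁ m 1
    simpa using this
  rw [hmap]
  exact h

end Lattice

section AnyRing

/-! ### The stabilisation argument (valid over any ring; no eigenvalue needed)

If `T Λ₁ ≤ Λ₀ ⊔ Λ₁` (i.e. `H¹` does not change under one twist) then `Λ₀ ⊔ Λ₁` is `T`-stable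
up to `Λ₀`, hence contains every `T ^ j Λ₁`; if these exhaust `N`, then `Λ₀ ⊔ Λ₁ = ⊤`. -/

variable {R : Type*} [CommRing R] {N : Type*} [AddCommGroup N] [Module R N]

/-- `T ^ (j + 1) Λ₁ = T (T ^ j Λ₁)`. -/
theorem map_pow_succ_eq' (T : N ≃ₗ[R] N) (Λ₁ : Submodule R N) (j : ℕ) :
    Λ₁.map ((T ^ (j + 1) : N ≃ₗ[R] N) : N →ₗ[R] N) =
      (Λ₁.map ((T ^ j : N ≃ₗ[R] N) : N →ₗ[R] N)).map T.toLinearMap := by
  ext z
  constructor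
  · rintro ⟨w, hw, rfl⟩
    exact ⟨(T ^ j : N ≃ₗ[R] N) w, ⟨w, hw, rfl⟩, by
      change T ((T ^ j : N ≃ₗ[R] N) w) = (T ^ (j + 1) : N ≃ₗ[R] N) w
      rw [pow_succ', LinearEquiv.mul_apply]⟩
  · rintro ⟨_, ⟨w, hw, rfl⟩, rfl⟩
    exact ⟨w, hw, by
      change (T ^ (j + 1) : N ≃ₗ[R] N) w = T ((T ^ j : N ≃ₗ[R] N) w)
      rw [pow_succ', LinearEquiv.mul_apply]⟩

/-- (STAB) If `T Λ₀ ≤ Λ₀` and `T Λ₁ ≤ Λ₀ ⊔ Λ₁` then `T ^ j Λ₁ ≤ Λ₀ ⊔ Λ₁` for all `j`. -/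
theorem map_pow_le_sup_of_map_le (T : N ≃ₗ[R] N) (Λ₀ Λ₁ : Submodule R N)
    (h₀ : ∀ z ∈ Λ₀, T z ∈ Λ₀) (h : Λ₁.map T.toLinearMap ≤ Λ₀ ⊔ Λ₁) (j : ℕ) :
    Λ₁.map ((T ^ j : N ≃ₗ[R] N) : N →ₗ[R] N) ≤ Λ₀ ⊔ Λ₁ := by
  induction j with
  | zero =>
    rintro _ ⟨w, hw, rfl⟩
    exact Submodule.mem_sup_right (by simpa using hw)
  | succ j ih =>
    rw [map_pow_succ_eq']
    have hT₀ : Λ₀.map T.toLinearMap ≤ Λ₀ := by
      rintro _ ⟨w, hw, rfl⟩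
      exact h₀ w hw
    calc (Λ₁.map ((T ^ j : N ≃ₗ[R] N) : N →ₗ[R] N)).map T.toLinearMap
        ≤ (Λ₀ ⊔ Λ₁).map T.toLinearMap := Submodule.map_mono ih
      _ = Λ₀.map T.toLinearMap ⊔ Λ₁.map T.toLinearMap := Submodule.map_sup _ _ _
      _ ≤ Λ₀ ⊔ Λ₁ := sup_le (hT₀.trans le_sup_left) h

/-- (STAB) **Stabilisation implies vanishing**, over any commutative ring: if `T Λ₀ ≤ Λ₀`,
`N = ⋃ T ^ j Λ₁` and `T Λ₁ ≤ Λ₀ ⊔ Λ₁`, then `Λ₀ ⊔ Λ₁ = ⊤`. In words: if `H¹(m) → H¹(m + 1)`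
is injective then `H¹(m) = 0`. -/
theorem sup_eq_top_of_map_le (T : N ≃ₗ[R] N) (Λ₀ Λ₁ : Submodule R N)
    (h₀ : ∀ z ∈ Λ₀, T z ∈ Λ₀)
    (hloc₁ : ∀ z : N, ∃ j : ℕ, z ∈ Λ₁.map ((T ^ j : N ≃ₗ[R] N) : N →ₗ[R] N))
    (h : Λ₁.map T.toLinearMap ≤ Λ₀ ⊔ Λ₁) : Λ₀ ⊔ Λ₁ = ⊤ := by
  rw [eq_top_iff]
  intro z _
  obtain ⟨j, hj⟩ := hloc₁ z
  exact map_pow_le_sup_of_map_le T Λ₀ Λ₁ h₀ h j hj

end AnyRing

section AnyField

/-! ### Uniform vanishing over an arbitrary field -/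

variable {K : Type*} [Field K] {N : Type*} [AddCommGroup N] [Module K N]

/-- **One twisting step, any field.** `T Λ₀ ≤ Λ₀`, `Λ₁ ≤ T Λ₁`, `N = ⋃ T ^ j Λ₁`, and
`N ⧸ (Λ₀ ⊔ Λ₁)` finite-dimensional. Then either `Λ₀ ⊔ Λ₁ = ⊤` or the dimension of the quotient
drops strictly when `Λ₁` is replaced by `T Λ₁`. -/
theorem finrank_quotient_sup_map_lt_of_exhaust (T : N ≃ₗ[K] N) (Λ₀ Λ₁ : Submodule K N)
    (h₀ : ∀ z ∈ Λ₀, T z ∈ Λ₀) (h₁ : ∀ z ∈ Λ₁, T.symm z ∈ Λ₁)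
    (hloc₁ : ∀ z : N, ∃ j : ℕ, z ∈ Λ₁.map ((T ^ j : N ≃ₗ[K] N) : N →ₗ[K] N))
    [FiniteDimensional K (N ⧸ (Λ₀ ⊔ Λ₁))] :
    Λ₀ ⊔ Λ₁ = ⊤ ∨
      finrank K (N ⧸ (Λ₀ ⊔ Λ₁.map T.toLinearMap)) < finrank K (N ⧸ (Λ₀ ⊔ Λ₁)) := by
  set W : Submodule K N := Λ₀ ⊔ Λ₁ with hW
  set W' : Submodule K N := Λ₀ ⊔ Λ₁.map T.toLinearMap with hW'
  have hΛ₁ : Λ₁ ≤ Λ₁.map T.toLinearMap := fun z hz => ⟨T.symm z, h₁ z hz, by simp⟩
  have hWW' : W ≤ W' := sup_le_sup_left hΛ₁ _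
  let ι : (N ⧸ W) →ₗ[K] (N ⧸ W') := Submodule.mapQ W W' LinearMap.id (by simpa using hWW')
  have hι : Function.Surjective ι := by
    intro w
    obtain ⟨z, rfl⟩ := Submodule.mkQ_surjective W' w
    exact ⟨Submodule.mkQ W z, by simp [ι]⟩
  have : FiniteDimensional K (N ⧸ W') := Module.Finite.of_surjective ι hι
  have hle : finrank K (N ⧸ W') ≤ finrank K (N ⧸ W) :=
    LinearMap.finrank_le_finrank_of_surjective hι
  rcases hle.lt_or_eq with hlt | heq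
  · exact Or.inr hlt
  · left
    have hinj : Function.Injective ι :=
      (LinearMap.injective_iff_surjective_of_finrank_eq_finrank heq.symm).mpr hι
    apply sup_eq_top_of_map_le T Λ₀ Λ₁ h₀ hloc₁
    intro z hz
    have hz' : z ∈ W' := Submodule.mem_sup_right hz
    have h1 : ι (Submodule.mkQ W z) = 0 := by
      have : ι (Submodule.mkQ W z) = Submodule.mkQ W' z := by simp [ι]
      rw [this, Submodule.mkQ_apply, Submodule.Quotient.mk_eq_zero]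
      exact hz'
    have h2 : Submodule.mkQ W z = 0 := hinj (by rw [h1, map_zero])
    rw [Submodule.mkQ_apply, Submodule.Quotient.mk_eq_zero] at h2
    exact h2

/-- (UV1, any field) **Uniform vanishing, lattice form.** If `dim N ⧸ (Λ₀ ⊔ Λ₁) ≤ m` then
`Λ₀ ⊔ T ^ m Λ₁ = ⊤`. -/
theorem sup_map_pow_eq_top_of_exhaust (T : N ≃ₗ[K] N) (Λ₀ : Submodule K N)
    (h₀ : ∀ z ∈ Λ₀, T z ∈ Λ₀) (m : ℕ) :
    ∀ (Λ₁ : Submodule K N), (∀ z ∈ Λ₁, T.symm z ∈ Λ₁) →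
      (∀ z : N, ∃ j : ℕ, z ∈ Λ₁.map ((T ^ j : N ≃ₗ[K] N) : N →ₗ[K] N)) →
      FiniteDimensional K (N ⧸ (Λ₀ ⊔ Λ₁)) → finrank K (N ⧸ (Λ₀ ⊔ Λ₁)) ≤ m →
      Λ₀ ⊔ Λ₁.map ((T ^ m : N ≃ₗ[K] N) : N →ₗ[K] N) = ⊤ := by
  induction m with
  | zero =>
    intro Λ₁ h₁ _ hfin hr
    have h0 : finrank K (N ⧸ (Λ₀ ⊔ Λ₁)) = 0 := Nat.le_zero.mp hr
    have hsub : Subsingleton (N ⧸ (Λ₀ ⊔ Λ₁)) := Module.finrank_zero_iff.mp h0
    have htop : Λ₀ ⊔ Λ₁ = ⊤ := Submodule.Quotient.subsingleton_iff.mp hsub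
    have hle := le_map_pow T Λ₁ h₁ 0
    exact top_le_iff.mp (htop ▸ sup_le_sup_left hle Λ₀)
  | succ m ih =>
    intro Λ₁ h₁ hloc₁ hfin hr
    rcases finrank_quotient_sup_map_lt_of_exhaust T Λ₀ Λ₁ h₀ h₁ hloc₁ with htop | hlt
    · have hle := le_map_pow T Λ₁ h₁ (m + 1)
      exact top_le_iff.mp (htop ▸ sup_le_sup_left hle Λ₀)
    · rw [map_pow_succ_eq]
      have hΛ₁ : Λ₁ ≤ Λ₁.map T.toLinearMap := fun z hz => ⟨T.symm z, h₁ z hz, by simp⟩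
      have hfin' : FiniteDimensional K (N ⧸ (Λ₀ ⊔ Λ₁.map T.toLinearMap)) :=
        Module.Finite.of_surjective
          (Submodule.mapQ (Λ₀ ⊔ Λ₁) (Λ₀ ⊔ Λ₁.map T.toLinearMap) LinearMap.id
            (by simpa using sup_le_sup_left hΛ₁ Λ₀))
          (by
            intro w
            obtain ⟨z, rfl⟩ := Submodule.mkQ_surjective _ w
            exact ⟨Submodule.mkQ _ z, by simp⟩)
      refine ih (Λ₁.map T.toLinearMap) ?_ ?_ hfin' (by omega)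
      · exact symm_mem_map_of_commute T T (Commute.refl T) Λ₁ h₁
      · intro z
        obtain ⟨j, hj⟩ := hloc₁ z
        exact ⟨j, Submodule.map_mono hΛ₁ hj⟩

/-- (UV1, any field, integer twists) **Uniform vanishing, lattice form.** `N` a vector space
over a field with an automorphism `T` (multiplication by `x`), `Λ₀` a `T`-stable subspace,
`Λ₁` a `T⁻¹`-stable subspace with `N = ⋃ T ^ j Λ₁`. If `H¹(m₀) = N ⧸ (Λ₀ ⊔ T ^ m₀ Λ₁)` has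
dimension `≤ r`, then `H¹(m) = 0` for all `m ≥ m₀ + r`. -/
theorem sup_map_zpow_eq_top_of_exhaust (T : N ≃ₗ[K] N) (Λ₀ Λ₁ : Submodule K N)
    (h₀ : ∀ z ∈ Λ₀, T z ∈ Λ₀) (h₁ : ∀ z ∈ Λ₁, T.symm z ∈ Λ₁)
    (hloc₁ : ∀ z : N, ∃ j : ℕ, z ∈ Λ₁.map ((T ^ j : N ≃ₗ[K] N) : N →ₗ[K] N)) (m₀ : ℤ) (r : ℕ)
    [FiniteDimensional K (N ⧸ (Λ₀ ⊔ Λ₁.map ((T ^ m₀ : N ≃ₗ[K] N) : N →ₗ[K] N)))]
    (hr : finrank K (N ⧸ (Λ₀ ⊔ Λ₁.map ((T ^ m₀ : N ≃ₗ[K] N) : N →ₗ[K] N))) ≤ r)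
    (m : ℤ) (hm : m₀ + r ≤ m) :
    Λ₀ ⊔ Λ₁.map ((T ^ m : N ≃ₗ[K] N) : N →ₗ[K] N) = ⊤ := by
  obtain ⟨j, rfl⟩ : ∃ j : ℕ, m = m₀ + j := ⟨(m - m₀).toNat, by omega⟩
  have hj : r ≤ j := by omega
  rw [map_zpow_add_natCast_eq]
  have hcomm : Commute T (T ^ m₀) := (Commute.refl T).zpow_right m₀
  refine sup_map_pow_eq_top_of_exhaust T Λ₀ h₀ j _ ?_ ?_ inferInstance (hr.trans hj)
  · exact symm_mem_map_of_commute T (T ^ m₀) hcomm Λ₁ h₁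
  · -- exhaustion for the twisted lattice: `z = T ^ m₀ (T ^ (-m₀) z)`
    intro z
    obtain ⟨j', w, hw, hwz⟩ := hloc₁ ((T ^ m₀ : N ≃ₗ[K] N).symm z)
    refine ⟨j', (T ^ m₀ : N ≃ₗ[K] N) w, ⟨w, hw, rfl⟩, ?_⟩
    have hc : Commute (T ^ j') (T ^ m₀) := ((Commute.refl T).pow_left j').zpow_right m₀
    have h2 : (T ^ j' * T ^ m₀) w = (T ^ m₀ * T ^ j') w := by rw [hc.eq]
    simp only [LinearEquiv.mul_apply] at h2
    change (T ^ j' : N ≃ₗ[K] N) ((T ^ m₀ : N ≃ₗ[K] N) w) = z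
    rw [h2]
    have hwz' : (T ^ j' : N ≃ₗ[K] N) w = (T ^ m₀ : N ≃ₗ[K] N).symm z := hwz
    rw [hwz', LinearEquiv.apply_symm_apply]

end AnyField

section Operator

variable {K : Type*} [Field K] [IsAlgClosed K]
variable {M₀ M₁ M₀₁ : Type*} [AddCommGroup M₀] [Module K M₀] [AddCommGroup M₁] [Module K M₁]
  [AddCommGroup M₀₁] [Module K M₀₁]

/-- (UV1, operator form, in the conventions of the two-chart Čech bricks.) `M₀`, `M₁`, `M₀₁`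
vector spaces over an algebraically closed field; `X₀` acts on `M₀`, `Y₁` on `M₁`, and `X₀₁`,
`Y₀₁` are mutually inverse on `M₀₁`; the restriction maps `r₀`, `r₁` are equivariant and every
element of `M₀₁` is moved into the image of `M₀` by a power of `X₀₁`. If
`H¹ = M₀₁ ⧸ (range r₀ ⊔ range r₁)` has dimension `≤ r`, then for every `m ≥ r` the twisted
`H¹` vanishes: `range r₀ ⊔ range (X₀₁ ^ m ∘ r₁) = ⊤`. -/
theorem range_sup_range_pow_comp_eq_top (X₀ : M₀ →ₗ[K] M₀) (Y₁ : M₁ →ₗ[K] M₁)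
    (X₀₁ Y₀₁ : M₀₁ →ₗ[K] M₀₁) (hXY : X₀₁ ∘ₗ Y₀₁ = LinearMap.id) (hYX : Y₀₁ ∘ₗ X₀₁ = LinearMap.id)
    (r₀ : M₀ →ₗ[K] M₀₁) (r₁ : M₁ →ₗ[K] M₀₁)
    (hr₀ : r₀ ∘ₗ X₀ = X₀₁ ∘ₗ r₀) (hr₁ : r₁ ∘ₗ Y₁ = Y₀₁ ∘ₗ r₁)
    (hloc : ∀ z : M₀₁, ∃ j : ℕ, (X₀₁ ^ j) z ∈ LinearMap.range r₀) (r : ℕ)
    [FiniteDimensional K (M₀₁ ⧸ (LinearMap.range r₀ ⊔ LinearMap.range r₁))]
    (hr : finrank K (M₀₁ ⧸ (LinearMap.range r₀ ⊔ LinearMap.range r₁)) ≤ r)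
    (m : ℕ) (hm : r ≤ m) :
    LinearMap.range r₀ ⊔ LinearMap.range ((X₀₁ ^ m) ∘ₗ r₁) = ⊤ := by
  let T : M₀₁ ≃ₗ[K] M₀₁ := LinearEquiv.ofLinearMap X₀₁ Y₀₁ hXY hYX
  have hTpow : ∀ (j : ℕ) (z : M₀₁), (T ^ j : M₀₁ ≃ₗ[K] M₀₁) z = (X₀₁ ^ j) z := by
    intro j
    induction j with
    | zero => intro z; simp
    | succ j ih =>
      intro z
      rw [pow_succ, LinearEquiv.mul_apply, ih, pow_succ, Module.End.mul_apply]
      rfl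
  have h₀ : ∀ z ∈ LinearMap.range r₀, T z ∈ LinearMap.range r₀ := by
    rintro _ ⟨a, rfl⟩
    exact ⟨X₀ a, LinearMap.congr_fun hr₀ a⟩
  have h₁ : ∀ z ∈ LinearMap.range r₁, T.symm z ∈ LinearMap.range r₁ := by
    rintro _ ⟨a, rfl⟩
    exact ⟨Y₁ a, LinearMap.congr_fun hr₁ a⟩
  have hloc' : ∀ z : M₀₁, ∃ j : ℕ, (T ^ j) z ∈ LinearMap.range r₀ := by
    intro z
    obtain ⟨j, hj⟩ := hloc z
    exact ⟨j, by rwa [hTpow]⟩
  have key := sup_map_pow_eq_top T (LinearMap.range r₀) h₀ hloc' m (LinearMap.range r₁) h₁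
    inferInstance (hr.trans hm)
  have hmap : (LinearMap.range r₁).map ((T ^ m : M₀₁ ≃ₗ[K] M₀₁) : M₀₁ →ₗ[K] M₀₁) =
      LinearMap.range ((X₀₁ ^ m) ∘ₗ r₁) := by
    ext z
    constructor
    · rintro ⟨_, ⟨a, rfl⟩, rfl⟩
      exact ⟨a, by
        change (X₀₁ ^ m) (r₁ a) = (T ^ m : M₀₁ ≃ₗ[K] M₀₁) (r₁ a)
        rw [hTpow]⟩
    · rintro ⟨a, rfl⟩
      exact ⟨r₁ a, ⟨a, rfl⟩, by
        change (T ^ m : M₀₁ ≃ₗ[K] M₀₁) (r₁ a) = (X₀₁ ^ m) (r₁ a)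
        rw [hTpow]⟩
  rw [← hmap]
  exact key

end Operator

section OperatorAnyField

variable {K : Type*} [Field K]
variable {M₀ M₁ M₀₁ : Type*} [AddCommGroup M₀] [Module K M₀] [AddCommGroup M₁] [Module K M₁]
  [AddCommGroup M₀₁] [Module K M₀₁]

/-- (UV1, operator form, ANY field.) Same as `range_sup_range_pow_comp_eq_top`, without
algebraic closedness; the localisation hypothesis is the one at infinity: every element of `M₀₁`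
is moved into the image of `M₁` by a power of `Y₀₁`. If
`H¹ = M₀₁ ⧸ (range r₀ ⊔ range r₁)` has dimension `≤ r`, then for every `m ≥ r` the twisted
`H¹` vanishes: `range r₀ ⊔ range (X₀₁ ^ m ∘ r₁) = ⊤`. -/
theorem range_sup_range_pow_comp_eq_top_of_exhaust (X₀ : M₀ →ₗ[K] M₀) (Y₁ : M₁ →ₗ[K] M₁)
    (X₀₁ Y₀₁ : M₀₁ →ₗ[K] M₀₁) (hXY : X₀₁ ∘ₗ Y₀₁ = LinearMap.id) (hYX : Y₀₁ ∘ₗ X₀₁ = LinearMap.id)
    (r₀ : M₀ →ₗ[K] M₀₁) (r₁ : M₁ →ₗ[K] M₀₁)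
    (hr₀ : r₀ ∘ₗ X₀ = X₀₁ ∘ₗ r₀) (hr₁ : r₁ ∘ₗ Y₁ = Y₀₁ ∘ₗ r₁)
    (hloc₁ : ∀ z : M₀₁, ∃ j : ℕ, (Y₀₁ ^ j) z ∈ LinearMap.range r₁) (r : ℕ)
    [FiniteDimensional K (M₀₁ ⧸ (LinearMap.range r₀ ⊔ LinearMap.range r₁))]
    (hr : finrank K (M₀₁ ⧸ (LinearMap.range r₀ ⊔ LinearMap.range r₁)) ≤ r)
    (m : ℕ) (hm : r ≤ m) :
    LinearMap.range r₀ ⊔ LinearMap.range ((X₀₁ ^ m) ∘ₗ r₁) = ⊤ := by
  let T : M₀₁ ≃ₗ[K] M₀₁ := LinearEquiv.ofLinearMap X₀₁ Y₀₁ hXY hYX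
  have hTpow : ∀ (j : ℕ) (z : M₀₁), (T ^ j : M₀₁ ≃ₗ[K] M₀₁) z = (X₀₁ ^ j) z := by
    intro j
    induction j with
    | zero => intro z; simp
    | succ j ih =>
      intro z
      rw [pow_succ, LinearEquiv.mul_apply, ih, pow_succ, Module.End.mul_apply]
      rfl
  have hTY : ∀ (j : ℕ) (z : M₀₁), (T ^ j : M₀₁ ≃ₗ[K] M₀₁) ((Y₀₁ ^ j) z) = z := by
    intro j
    induction j with
    | zero => intro z; simp
    | succ j ih =>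
      intro z
      rw [pow_succ, LinearEquiv.mul_apply, pow_succ', Module.End.mul_apply]
      have : T (Y₀₁ ((Y₀₁ ^ j) z)) = (Y₀₁ ^ j) z := LinearMap.congr_fun hXY _
      rw [this, ih]
  have h₀ : ∀ z ∈ LinearMap.range r₀, T z ∈ LinearMap.range r₀ := by
    rintro _ ⟨a, rfl⟩
    exact ⟨X₀ a, LinearMap.congr_fun hr₀ a⟩
  have h₁ : ∀ z ∈ LinearMap.range r₁, T.symm z ∈ LinearMap.range r₁ := by
    rintro _ ⟨a, rfl⟩
    exact ⟨Y₁ a, LinearMap.congr_fun hr₁ a⟩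
  have hloc' : ∀ z : M₀₁, ∃ j : ℕ,
      z ∈ (LinearMap.range r₁).map ((T ^ j : M₀₁ ≃ₗ[K] M₀₁) : M₀₁ →ₗ[K] M₀₁) := by
    intro z
    obtain ⟨j, hj⟩ := hloc₁ z
    exact ⟨j, (Y₀₁ ^ j) z, hj, hTY j z⟩
  have key := sup_map_pow_eq_top_of_exhaust T (LinearMap.range r₀) h₀ m (LinearMap.range r₁) h₁
    hloc' inferInstance (hr.trans hm)
  have hmap : (LinearMap.range r₁).map ((T ^ m : M₀₁ ≃ₗ[K] M₀₁) : M₀₁ →ₗ[K] M₀₁) =
      LinearMap.range ((X₀₁ ^ m) ∘ₗ r₁) := by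
    ext z
    constructor
    · rintro ⟨_, ⟨a, rfl⟩, rfl⟩
      exact ⟨a, by
        change (X₀₁ ^ m) (r₁ a) = (T ^ m : M₀₁ ≃ₗ[K] M₀₁) (r₁ a)
        rw [hTpow]⟩
    · rintro ⟨a, rfl⟩
      exact ⟨r₁ a, ⟨a, rfl⟩, by
        change (T ^ m : M₀₁ ≃ₗ[K] M₀₁) (r₁ a) = (X₀₁ ^ m) (r₁ a)
        rw [hTpow]⟩
  rw [← hmap]
  exact key

end OperatorAnyField

end Fermat.Agent.S25.helper8740
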