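import Fermat.Agent.S25.helper2945_AlgDefs
import Fermat.Agent.S25.helper8740_UniformVanishing

/-!
# S25, leaf UV, part 2 (helper8740): uniform vanishing for `GlueDatum`

`GlueDatum`-level wrapper of the lattice statements of `helper8740_UniformVanishing`, stated
WITHOUT a twist operation on `GlueDatum` (so that it can be consumed by whatever definition of
`G.twist m` lands): the `m`-th twist of `G` has `H¹ = M₀₁ ⧸ twistRange G m`, where

`twistRange G m = { ρ₀ a + x ^ m • ρ₁ b }`  (`x ^ m` the `m`-th power of the unit `x` of `A₀₁`).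

* `xU D B : (D.A₀₁ B)ˣ` : the unit `x` of the overlap ring;
* `GlueDatum.twistRange G m` (`m : ℤ`), `mem_twistRange`, `twistRange_zero : = range G.delta`;
* `GlueDatum.twistRange_eq_top_of_stable` (any base ring `B`): if `H¹(m) → H¹(m+1)` is
  injective then `H¹(m) = 0`;
* `GlueDatum.twistRange_eq_top` (UV2, `B = K` ANY field): if `h¹(m₀) ≤ r` then `H¹(m) = 0` for
  all `m ≥ m₀ + r`;
* `GlueDatum.exists_eq_add_of_finrank_H1_le` : the same starting from `m₀ = 0`, in terms of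
  `G.H1`: if `dim H¹(G) ≤ r` then every `z : M₀₁` is `ρ₀ a + x ^ m • ρ₁ b` for all `m ≥ r`.
-/

set_option autoImplicit false

open TensorProduct

namespace Fermat.Agent.S25.helper8740

open Fermat.Agent.S25.helper1705 Fermat.Agent.S25.helper2945

universe u

variable {k : Type u} [Field k] (D : CurveDatum k) (B : Type u) [CommRing B] [Algebra k B]

/-- The coordinate `x` as a unit of the overlap ring `D.A₀₁ B` (inverse `y`). -/
noncomputable def xU : (D.A₀₁ B)ˣ where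
  val := algebraMap (D.A₀ B) (D.A₀₁ B) (xB D B)
  inv := algebraMap (D.A₁ B) (D.A₀₁ B) (yB D B)
  val_inv := xB_mul_yB D B
  inv_val := by rw [mul_comm]; exact xB_mul_yB D B

@[simp] theorem xU_val : ((xU D B : (D.A₀₁ B)ˣ) : D.A₀₁ B) = algebraMap (D.A₀ B) (D.A₀₁ B) (xB D B) :=
  rfl

@[simp] theorem xU_inv_val :
    (((xU D B)⁻¹ : (D.A₀₁ B)ˣ) : D.A₀₁ B) = algebraMap (D.A₁ B) (D.A₀₁ B) (yB D B) := rfl

variable {D B}

section Defs

variable (G : GlueDatum D B)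

/-- Multiplication by the unit `x ^ m` of `A₀₁` on `M₀₁`, as a `B`-linear automorphism. -/
noncomputable def xAut (m : ℤ) : G.M₀₁ ≃ₗ[B] G.M₀₁ :=
  DistribMulAction.toModuleAut B G.M₀₁ ((xU D B) ^ m)

theorem xAut_apply (m : ℤ) (z : G.M₀₁) :
    xAut G m z = (((xU D B) ^ m : (D.A₀₁ B)ˣ) : D.A₀₁ B) • z := rfl

theorem xAut_eq_zpow (m : ℤ) : xAut G m = (xAut G 1) ^ m := by
  unfold xAut
  rw [zpow_one, map_zpow]

theorem xAut_one_apply (z : G.M₀₁) : xAut G 1 z = xB D B • z := by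
  rw [xAut_apply, zpow_one, xU_val, algebraMap_smul]

theorem xAut_one_symm_apply (z : G.M₀₁) : (xAut G 1).symm z = yB D B • z := by
  rw [LinearEquiv.symm_apply_eq, xAut_one_apply, ← algebraMap_smul (D.A₀₁ B) (xB D B),
    ← algebraMap_smul (D.A₀₁ B) (yB D B), smul_smul, xB_mul_yB, one_smul]

/-- The range of the Čech differential of the `m`-th twist of `G`:
`{ρ₀ a + x ^ m • ρ₁ b}` as a `B`-submodule of `M₀₁`; `H¹(G(m)) = M₀₁ ⧸ twistRange G m`. -/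
noncomputable def twistRange (m : ℤ) : Submodule B G.M₀₁ :=
  LinearMap.range G.ρ₀B ⊔ (LinearMap.range G.ρ₁B).map ((xAut G m : G.M₀₁ ≃ₗ[B] G.M₀₁) : G.M₀₁ →ₗ[B] G.M₀₁)

theorem mem_twistRange (m : ℤ) (z : G.M₀₁) :
    z ∈ twistRange G m ↔
      ∃ (a : G.M₀) (b : G.M₁), z = G.ρ₀ a + (((xU D B) ^ m : (D.A₀₁ B)ˣ) : D.A₀₁ B) • G.ρ₁ b := by
  unfold twistRange
  rw [Submodule.mem_sup]
  constructor
  · rintro ⟨_, ⟨a, rfl⟩, _, ⟨_, ⟨b, rfl⟩, rfl⟩, rfl⟩
    exact ⟨a, b, rfl⟩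
  · rintro ⟨a, b, rfl⟩
    exact ⟨_, ⟨a, rfl⟩, _, ⟨_, ⟨b, rfl⟩, rfl⟩, rfl⟩

theorem range_delta_eq : LinearMap.range G.delta = LinearMap.range G.ρ₀B ⊔ LinearMap.range G.ρ₁B := by
  unfold GlueDatum.delta
  rw [LinearMap.range_coprod, LinearMap.range_neg]

theorem twistRange_zero : twistRange G 0 = LinearMap.range G.delta := by
  rw [range_delta_eq]
  unfold twistRange
  congr 1
  ext z
  constructor
  · rintro ⟨w, hw, rfl⟩
    have : xAut G 0 w = w := by rw [xAut_apply, zpow_zero, Units.val_one, one_smul]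
    change xAut G 0 w ∈ _
    rwa [this]
  · intro hz
    refine ⟨z, hz, ?_⟩
    change xAut G 0 z = z
    rw [xAut_apply, zpow_zero, Units.val_one, one_smul]

theorem xAut_natCast_apply (j : ℕ) (z : G.M₀₁) : xAut G (j : ℤ) z = (xB D B) ^ j • z := by
  rw [xAut_apply, zpow_natCast, Units.val_pow_eq_pow_val, xU_val, ← map_pow, algebraMap_smul]

theorem xAut_one_pow_apply (j : ℕ) (z : G.M₀₁) : ((xAut G 1) ^ j) z = (xB D B) ^ j • z := by
  rw [← xAut_natCast_apply, xAut_eq_zpow G (j : ℤ), zpow_natCast]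

theorem xAut_one_mem_range_ρ₀B : ∀ z ∈ LinearMap.range G.ρ₀B, xAut G 1 z ∈ LinearMap.range G.ρ₀B := by
  rintro _ ⟨a, rfl⟩
  exact ⟨xB D B • a, by rw [xAut_one_apply, GlueDatum.ρ₀B_apply, GlueDatum.ρ₀B_apply, map_smul]⟩

theorem xAut_one_symm_mem_range_ρ₁B :
    ∀ z ∈ LinearMap.range G.ρ₁B, (xAut G 1).symm z ∈ LinearMap.range G.ρ₁B := by
  rintro _ ⟨b, rfl⟩
  exact ⟨yB D B • b, by
    rw [xAut_one_symm_apply, GlueDatum.ρ₁B_apply, GlueDatum.ρ₁B_apply, map_smul]⟩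

/-- Every element of `M₀₁` is `x ^ j • ρ₁ b` for some `j` (localisation at `y`). -/
theorem exists_mem_map_xAut_pow (z : G.M₀₁) : ∃ j : ℕ,
    z ∈ (LinearMap.range G.ρ₁B).map
      (((xAut G 1) ^ j : G.M₀₁ ≃ₗ[B] G.M₀₁) : G.M₀₁ →ₗ[B] G.M₀₁) := by
  obtain ⟨⟨b, ⟨_, ⟨j, rfl⟩⟩⟩, hb⟩ := IsLocalizedModule.surj (Submonoid.powers (yB D B)) G.ρ₁ z
  refine ⟨j, G.ρ₁ b, ⟨b, rfl⟩, ?_⟩
  change ((xAut G 1) ^ j) (G.ρ₁ b) = z
  have hb' : (yB D B) ^ j • z = G.ρ₁ b := hb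
  rw [xAut_one_pow_apply, ← hb', ← algebraMap_smul (D.A₀₁ B) ((xB D B) ^ j),
    ← algebraMap_smul (D.A₀₁ B) ((yB D B) ^ j), smul_smul, map_pow, map_pow, ← mul_pow,
    xB_mul_yB, one_pow, one_smul]

end Defs

section AnyBase

variable (G : GlueDatum D B)

theorem twistRange_eq (m : ℤ) : twistRange G m =
    LinearMap.range G.ρ₀B ⊔ (LinearMap.range G.ρ₁B).map
      (((xAut G 1) ^ m : G.M₀₁ ≃ₗ[B] G.M₀₁) : G.M₀₁ →ₗ[B] G.M₀₁) := by
  unfold twistRange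
  rw [xAut_eq_zpow]

/-- `H¹(G(m)) ↠ H¹(G(m+1))`: the twisted ranges increase with `m`. -/
theorem twistRange_le_succ (m : ℤ) : twistRange G m ≤ twistRange G (m + 1) := by
  intro z hz
  rw [mem_twistRange] at hz ⊢
  obtain ⟨a, b, rfl⟩ := hz
  refine ⟨a, yB D B • b, ?_⟩
  rw [map_smul, zpow_add_one, Units.val_mul, xU_val, ← algebraMap_smul (D.A₀₁ B) (yB D B),
    smul_smul, mul_assoc, xB_mul_yB, mul_one]

/-- (STAB) Over ANY base ring `B`: if `H¹(G(m)) → H¹(G(m+1))` is injective, i.e.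
`twistRange G (m + 1) ≤ twistRange G m`, then `H¹(G(m)) = 0`. -/
theorem twistRange_eq_top_of_succ_le (m : ℤ) (h : twistRange G (m + 1) ≤ twistRange G m) :
    twistRange G m = ⊤ := by
  rw [twistRange_eq G (m + 1), twistRange_eq G m] at h
  rw [twistRange_eq G m]
  set T : G.M₀₁ ≃ₗ[B] G.M₀₁ := xAut G 1 with hT
  have hcomm : Commute T (T ^ m) := (Commute.refl T).zpow_right m
  have hmap : (LinearMap.range G.ρ₁B).map ((T ^ (m + 1) : G.M₀₁ ≃ₗ[B] G.M₀₁) : G.M₀₁ →ₗ[B] G.M₀₁) =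
      ((LinearMap.range G.ρ₁B).map ((T ^ m : G.M₀₁ ≃ₗ[B] G.M₀₁) : G.M₀₁ →ₗ[B] G.M₀₁)).map
        T.toLinearMap := by
    ext z
    constructor
    · rintro ⟨w, hw, rfl⟩
      exact ⟨(T ^ m : G.M₀₁ ≃ₗ[B] G.M₀₁) w, ⟨w, hw, rfl⟩, by
        change T ((T ^ m : G.M₀₁ ≃ₗ[B] G.M₀₁) w) = (T ^ (m + 1) : G.M₀₁ ≃ₗ[B] G.M₀₁) w
        rw [zpow_add_one, hcomm.symm.eq, LinearEquiv.mul_apply]⟩
    · rintro ⟨_, ⟨w, hw, rfl⟩, rfl⟩
      exact ⟨w, hw, by
        change (T ^ (m + 1) : G.M₀₁ ≃ₗ[B] G.M₀₁) w = T ((T ^ m : G.M₀₁ ≃ₗ[B] G.M₀₁) w)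
        rw [zpow_add_one, hcomm.symm.eq, LinearEquiv.mul_apply]⟩
  refine sup_eq_top_of_map_le T _ _ (xAut_one_mem_range_ρ₀B G) ?_ ?_
  · intro z
    obtain ⟨j, w, hw, hwz⟩ := exists_mem_map_xAut_pow G ((T ^ m : G.M₀₁ ≃ₗ[B] G.M₀₁).symm z)
    refine ⟨j, (T ^ m : G.M₀₁ ≃ₗ[B] G.M₀₁) w, ⟨w, hw, rfl⟩, ?_⟩
    have hc : Commute (T ^ j) (T ^ m) := ((Commute.refl T).pow_left j).zpow_right m
    have h2 : (T ^ j * T ^ m) w = (T ^ m * T ^ j) w := by rw [hc.eq]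
    simp only [LinearEquiv.mul_apply] at h2
    change (T ^ j : G.M₀₁ ≃ₗ[B] G.M₀₁) ((T ^ m : G.M₀₁ ≃ₗ[B] G.M₀₁) w) = z
    rw [h2]
    have hwz' : (T ^ j : G.M₀₁ ≃ₗ[B] G.M₀₁) w = (T ^ m : G.M₀₁ ≃ₗ[B] G.M₀₁).symm z := hwz
    rw [hwz', LinearEquiv.apply_symm_apply]
  · rw [← hmap]
    exact le_sup_right.trans h

end AnyBase

section Field

variable {K : Type u} [Field K] [Algebra k K] (G : GlueDatum D K)

/-- (UV2) **Uniform vanishing for two-chart line bundles over ANY field `K/k`.**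
If `H¹(G(m₀)) = M₀₁ ⧸ twistRange G m₀` has dimension `≤ r`, then `H¹(G(m)) = 0`, i.e.
`twistRange G m = ⊤`, for all `m ≥ m₀ + r`. -/
theorem twistRange_eq_top (m₀ : ℤ) (r : ℕ) [hfin : FiniteDimensional K (G.M₀₁ ⧸ twistRange G m₀)]
    (hr : Module.finrank K (G.M₀₁ ⧸ twistRange G m₀) ≤ r) (m : ℤ) (hm : m₀ + r ≤ m) :
    twistRange G m = ⊤ := by
  rw [twistRange_eq]
  have e := twistRange_eq G m₀
  rw [e] at hr
  have : FiniteDimensional K (G.M₀₁ ⧸ (LinearMap.range G.ρ₀B ⊔ (LinearMap.range G.ρ₁B).map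
      (((xAut G 1) ^ m₀ : G.M₀₁ ≃ₗ[K] G.M₀₁) : G.M₀₁ →ₗ[K] G.M₀₁))) := e ▸ hfin
  exact sup_map_zpow_eq_top_of_exhaust (xAut G 1) _ _ (xAut_one_mem_range_ρ₀B G)
    (xAut_one_symm_mem_range_ρ₁B G) (exists_mem_map_xAut_pow G) m₀ r hr m hm

/-- **Strict decrease of `h¹` under twisting**, any field: either `H¹(G(m)) = 0` or
`h¹(G(m+1)) < h¹(G(m))`. -/
theorem finrank_quotient_twistRange_succ_lt (m : ℤ)
    [hfin : FiniteDimensional K (G.M₀₁ ⧸ twistRange G m)] :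
    twistRange G m = ⊤ ∨
      Module.finrank K (G.M₀₁ ⧸ twistRange G (m + 1)) <
        Module.finrank K (G.M₀₁ ⧸ twistRange G m) := by
  by_cases h : twistRange G (m + 1) ≤ twistRange G m
  · exact Or.inl (twistRange_eq_top_of_succ_le G m h)
  · right
    have hle := twistRange_le_succ G m
    let ι : (G.M₀₁ ⧸ twistRange G m) →ₗ[K] (G.M₀₁ ⧸ twistRange G (m + 1)) :=
      Submodule.mapQ _ _ LinearMap.id (by simpa using hle)
    have hι : Function.Surjective ι := by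
      intro w
      obtain ⟨z, rfl⟩ := Submodule.mkQ_surjective _ w
      exact ⟨Submodule.mkQ _ z, by simp [ι]⟩
    have : FiniteDimensional K (G.M₀₁ ⧸ twistRange G (m + 1)) := Module.Finite.of_surjective ι hι
    have hle' := LinearMap.finrank_le_finrank_of_surjective hι
    rcases hle'.lt_or_eq with hlt | heq
    · exact hlt
    · exfalso
      apply h
      have hinj : Function.Injective ι :=
        (LinearMap.injective_iff_surjective_of_finrank_eq_finrank heq.symm).mpr hι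
      intro z hz
      have h1 : ι (Submodule.mkQ _ z) = 0 := by
        have : ι (Submodule.mkQ _ z) = Submodule.mkQ (twistRange G (m + 1)) z := by simp [ι]
        rw [this, Submodule.mkQ_apply, Submodule.Quotient.mk_eq_zero]
        exact hz
      have h2 : Submodule.mkQ (twistRange G m) z = 0 := hinj (by rw [h1, map_zero])
      rw [Submodule.mkQ_apply, Submodule.Quotient.mk_eq_zero] at h2
      exact h2

/-- (UV2, from `m₀ = 0`) If `dim H¹(G) ≤ r` then for every `m ≥ r` every element of `M₀₁` is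
of the form `ρ₀ a + x ^ m • ρ₁ b`: the `m`-th twist of `G` has vanishing `H¹`. -/
theorem exists_eq_add_of_finrank_H1_le (r : ℕ) [hfin : FiniteDimensional K G.H1]
    (hr : Module.finrank K G.H1 ≤ r) (m : ℕ) (hm : r ≤ m) (z : G.M₀₁) :
    ∃ (a : G.M₀) (b : G.M₁), z = G.ρ₀ a + (xB D K) ^ m • G.ρ₁ b := by
  have e := twistRange_zero G
  have : FiniteDimensional K (G.M₀₁ ⧸ twistRange G 0) := e ▸ hfin
  have hr' : Module.finrank K (G.M₀₁ ⧸ twistRange G 0) ≤ r := by rw [e]; exact hr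
  have htop := twistRange_eq_top G 0 r hr' (m : ℤ) (by simpa using hm)
  have hz : z ∈ twistRange G (m : ℤ) := htop ▸ Submodule.mem_top
  rw [mem_twistRange] at hz
  obtain ⟨a, b, rfl⟩ := hz
  refine ⟨a, b, ?_⟩
  rw [zpow_natCast, Units.val_pow_eq_pow_val, xU_val, ← map_pow, algebraMap_smul]

end Field

end Fermat.Agent.S25.helper8740
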