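import Mathlib

set_option autoImplicit false
set_option linter.style.haveILetI false

/-!
# Local rings of smooth curves are discrete valuation rings

Mathlib-only commutative algebra brick for S25 (Layer A).

* `map_comap_eq_maximalIdeal`: for an essentially finite type, formally unramified algebra
  `D → S` and a prime `q` of `S`, the maximal ideal of `S_q` is generated by `q ∩ D`.
* `isDedekindDomain_of_formallyUnramified`: a domain of finite type and formally unramified
  over a Dedekind domain is a Dedekind domain.
* `isDedekindDomain_of_isStandardSmoothOfRelativeDimension_one`: a domain which is standard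
  smooth of relative dimension one over a field is a Dedekind domain.
-/

namespace Fermat.Agent.S25.helper893

open IsLocalRing

/-- For an essentially finite type, formally unramified algebra `D → S` and a prime `q` of `S`,
the maximal ideal of `S_q` is generated by `q ∩ D`. -/
theorem map_comap_eq_maximalIdeal (D S : Type*) [CommRing D] [CommRing S] [Algebra D S]
    [Algebra.EssFiniteType D S] [Algebra.FormallyUnramified D S] (q : Ideal S) [q.IsPrime] :
    (q.comap (algebraMap D S)).map (algebraMap D (Localization.AtPrime q)) =
      maximalIdeal (Localization.AtPrime q) := by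
  haveI : q.LiesOver (q.comap (algebraMap D S)) := ⟨rfl⟩
  letI := Localization.AtPrime.algebraOfLiesOver (q.comap (algebraMap D S)) q
  have h : Algebra.IsUnramifiedAt D q := inferInstance
  exact ((Algebra.isUnramifiedAt_iff_map_eq D (q.comap (algebraMap D S)) q).mp h).2

/-- A domain of finite type and formally unramified over a Dedekind domain is a Dedekind
domain. -/
theorem isDedekindDomain_of_formallyUnramified (D S : Type*) [CommRing D]
    [IsDedekindDomain D] [CommRing S] [IsDomain S] [Algebra D S] [Algebra.FiniteType D S]
    [Algebra.FormallyUnramified D S] : IsDedekindDomain S := by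
  haveI : IsNoetherianRing S := Algebra.FiniteType.isNoetherianRing D S
  haveI : IsDedekindDomainDvr S := by
    refine { is_dvr_at_nonzero_prime := fun q hq hqp => ?_ }
    haveI := hqp
    have hmax := map_comap_eq_maximalIdeal D S q
    have hnf : ¬ IsField (Localization.AtPrime q) :=
      IsLocalization.AtPrime.not_isField S hq _
    have hprin : (maximalIdeal (Localization.AtPrime q)).IsPrincipal := by
      rw [← hmax]
      haveI : q.LiesOver (q.comap (algebraMap D S)) := ⟨rfl⟩
      letI := Localization.AtPrime.algebraOfLiesOver (q.comap (algebraMap D S)) q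
      have h1 : (q.comap (algebraMap D S)).map (algebraMap D (Localization.AtPrime q)) =
          (maximalIdeal (Localization.AtPrime (q.comap (algebraMap D S)))).map
            (algebraMap (Localization.AtPrime (q.comap (algebraMap D S)))
              (Localization.AtPrime q)) := by
        rw [← Localization.AtPrime.map_eq_maximalIdeal, Ideal.map_map,
          ← IsScalarTower.algebraMap_eq]
      rw [h1]
      obtain ⟨π, hπ⟩ := (IsPrincipalIdealRing.principal
        (maximalIdeal (Localization.AtPrime (q.comap (algebraMap D S))))).principal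
      rw [hπ, Ideal.submodule_span_eq, Ideal.map_span, Set.image_singleton]
      exact ⟨⟨_, rfl⟩⟩
    exact ((IsDiscreteValuationRing.TFAE (Localization.AtPrime q) hnf).out 0 4).mpr hprin
  infer_instance

theorem isPrincipalIdealRing_mvPolynomial_fin_one (K : Type*) [Field K] :
    IsPrincipalIdealRing (MvPolynomial (Fin 1) K) :=
  IsPrincipalIdealRing.of_surjective
    (MvPolynomial.uniqueAlgEquiv K (Fin 1)).symm.toRingEquiv.toRingHom
    (MvPolynomial.uniqueAlgEquiv K (Fin 1)).symm.surjective

/-- A domain which is standard smooth of relative dimension one over a field is a Dedekind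
domain. -/
theorem isDedekindDomain_of_isStandardSmoothOfRelativeDimension_one (K R : Type*) [Field K]
    [CommRing R] [IsDomain R] [Algebra K R] [Algebra.IsStandardSmoothOfRelativeDimension 1 K R] :
    IsDedekindDomain R := by
  obtain ⟨g, hg⟩ := Algebra.IsStandardSmoothOfRelativeDimension.exists_etale_mvPolynomial 1 K R
  algebraize [g.toRingHom]
  haveI := isPrincipalIdealRing_mvPolynomial_fin_one K
  exact isDedekindDomain_of_formallyUnramified (MvPolynomial (Fin 1) K) R

/-- A nontrivial ring which is standard smooth of relative dimension one over a field is not a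
field. -/
theorem not_isField_of_isStandardSmoothOfRelativeDimension_one (K R : Type*) [Field K]
    [CommRing R] [Nontrivial R] [Algebra K R]
    [Algebra.IsStandardSmoothOfRelativeDimension 1 K R] : ¬ IsField R := by
  intro hR
  obtain ⟨g, hg⟩ := Algebra.IsStandardSmoothOfRelativeDimension.exists_etale_mvPolynomial 1 K R
  letI := hR.toField
  haveI : Algebra.IsStandardSmooth K R :=
    Algebra.IsStandardSmoothOfRelativeDimension.isStandardSmooth 1
  haveI : Module.Finite K R := finite_of_finite_type_of_isJacobsonRing K R
  have hinj : Function.Injective g := by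
    algebraize [g.toRingHom]
    haveI : Module.Flat (MvPolynomial (Fin 1) K) R := inferInstance
    exact FaithfulSMul.algebraMap_injective (MvPolynomial (Fin 1) K) R
  have halg : IsAlgebraic K (g (MvPolynomial.X 0)) := Algebra.IsAlgebraic.isAlgebraic _
  obtain ⟨p, hp0, hp⟩ := halg
  have htr := MvPolynomial.transcendental_X (R := K) (0 : Fin 1)
  apply htr
  refine ⟨p, hp0, hinj ?_⟩
  rw [map_zero, ← hp, Polynomial.aeval_algHom_apply]

section SchemeForm

open AlgebraicGeometry CategoryTheory TopologicalSpace

universe u

variable {K : Type u} [Field K]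

/-- Sections of `Spec K` over a nonempty open form a field. -/
theorem isField_sections_spec_field (U : (Spec (CommRingCat.of K)).Opens)
    (x : Spec (CommRingCat.of K)) (hx : x ∈ U) : IsField Γ(Spec (CommRingCat.of K), U) := by
  have hU : U = ⊤ := by
    ext y
    simp only [Opens.coe_top, Set.mem_univ, iff_true, SetLike.mem_coe]
    rw [Subsingleton.elim y x]
    exact hx
  subst hU
  exact MulEquiv.isField (Field.toIsField K)
    (Scheme.ΓSpecIso (CommRingCat.of K)).commRingCatIsoToRingEquiv.toMulEquiv

variable {C : Scheme.{u}}

/-- Every point of a smooth integral curve over a field has an affine open neighbourhood whose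
coordinate ring is a Dedekind domain which is not a field. -/
theorem exists_isAffineOpen_isDedekindDomain (c : C ⟶ Spec (CommRingCat.of K))
    [SmoothOfRelativeDimension 1 c] [IsIntegral C] (x : C) :
    ∃ V : C.Opens, IsAffineOpen V ∧ x ∈ V ∧ IsDedekindDomain Γ(C, V) ∧ ¬ IsField Γ(C, V) := by
  obtain ⟨U, hU, V, hV, hx, e, hf⟩ :=
    SmoothOfRelativeDimension.exists_isStandardSmoothOfRelativeDimension (n := 1) (f := c) x
  refine ⟨V, hV, hx, ?_⟩
  haveI : Nonempty V := ⟨⟨x, hx⟩⟩
  letI : Field Γ(Spec (CommRingCat.of K), U) :=
    (isField_sections_spec_field U (c x) (e hx)).toField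
  algebraize [(c.appLE U V e).hom]
  haveI : Algebra.IsStandardSmoothOfRelativeDimension 1 Γ(Spec (CommRingCat.of K), U) Γ(C, V) :=
    hf
  exact ⟨isDedekindDomain_of_isStandardSmoothOfRelativeDimension_one
      Γ(Spec (CommRingCat.of K), U) Γ(C, V),
    not_isField_of_isStandardSmoothOfRelativeDimension_one Γ(Spec (CommRingCat.of K), U) Γ(C, V)⟩

/-- The local ring of a smooth integral curve over a field at a point different from the
generic point is a discrete valuation ring. -/
theorem isDiscreteValuationRing_stalk_of_ne_genericPoint (c : C ⟶ Spec (CommRingCat.of K))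
    [SmoothOfRelativeDimension 1 c] [IsIntegral C] (x : C) (hx : x ≠ genericPoint C) :
    IsDiscreteValuationRing (C.presheaf.stalk x) := by
  obtain ⟨V, hV, hxV, hDed, -⟩ := exists_isAffineOpen_isDedekindDomain c x
  haveI : Nonempty V := ⟨⟨x, hxV⟩⟩
  letI := TopCat.Presheaf.algebra_section_stalk C.presheaf (⟨x, hxV⟩ : V)
  haveI := hV.isLocalization_stalk ⟨x, hxV⟩
  refine IsLocalization.AtPrime.isDiscreteValuationRing_of_dedekind_domain Γ(C, V)
    (P := (hV.primeIdealOf ⟨x, hxV⟩).asIdeal) ?_ (C.presheaf.stalk x)
  intro hbot
  apply hx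
  have h1 : hV.primeIdealOf ⟨x, hxV⟩ = genericPoint (Spec Γ(C, V)) := by
    rw [genericPoint_eq_bot_of_affine]
    exact PrimeSpectrum.ext hbot
  rw [← hV.primeIdealOf_genericPoint] at h1
  have h2 := congrArg hV.fromSpec h1
  rw [hV.fromSpec_primeIdealOf, hV.fromSpec_primeIdealOf] at h2
  exact h2

/-- A smooth curve over a field is locally noetherian. -/
theorem isLocallyNoetherian_of_smooth (c : C ⟶ Spec (CommRingCat.of K))
    [SmoothOfRelativeDimension 1 c] : IsLocallyNoetherian C := by
  haveI : Smooth c := SmoothOfRelativeDimension.smooth 1 c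
  exact LocallyOfFiniteType.isLocallyNoetherian c

/-- A closed point of a smooth integral curve over a field is not the generic point. -/
theorem ne_genericPoint_of_isClosed (c : C ⟶ Spec (CommRingCat.of K))
    [SmoothOfRelativeDimension 1 c] [IsIntegral C] (x : C) (hx : IsClosed {x}) :
    x ≠ genericPoint C := by
  intro hgen
  obtain ⟨V, hV, hxV, -, hnf⟩ := exists_isAffineOpen_isDedekindDomain c x
  haveI : Nonempty V := ⟨⟨x, hxV⟩⟩
  apply hnf
  rw [Ring.isField_iff_maximal_bot]
  have h1 := hV.primeIdealOf_isMaximal_of_isClosed ⟨x, hxV⟩ hx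
  have h2 : hV.primeIdealOf ⟨x, hxV⟩ = genericPoint (Spec Γ(C, V)) := by
    rw [← hV.primeIdealOf_genericPoint]
    congr 1
    exact Subtype.ext hgen
  rw [h2, genericPoint_eq_bot_of_affine] at h1
  exact h1

/-- The local ring of a smooth integral curve over a field at a closed point is a discrete
valuation ring. -/
theorem isDiscreteValuationRing_stalk_of_isClosed (c : C ⟶ Spec (CommRingCat.of K))
    [SmoothOfRelativeDimension 1 c] [IsIntegral C] (x : C) (hx : IsClosed {x}) :
    IsDiscreteValuationRing (C.presheaf.stalk x) :=
  isDiscreteValuationRing_stalk_of_ne_genericPoint c x (ne_genericPoint_of_isClosed c x hx)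

/-- The coordinate ring of a nonempty affine open of a smooth integral curve over a field is a
Dedekind domain. -/
theorem isDedekindDomain_of_isAffineOpen (c : C ⟶ Spec (CommRingCat.of K))
    [SmoothOfRelativeDimension 1 c] [IsIntegral C] {U : C.Opens} (hU : IsAffineOpen U)
    [Nonempty U] : IsDedekindDomain Γ(C, U) := by
  haveI := isLocallyNoetherian_of_smooth c
  haveI : IsNoetherianRing Γ(C, U) := IsLocallyNoetherian.component_noetherian ⟨U, hU⟩
  haveI : IsDedekindDomainDvr Γ(C, U) := by
    refine { is_dvr_at_nonzero_prime := fun q hq hqp => ?_ }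
    haveI := hqp
    have hy : hU.fromSpec (⟨q, hqp⟩ : PrimeSpectrum Γ(C, U)) ∈ U := by
      rw [← SetLike.mem_coe, ← hU.range_fromSpec]
      exact ⟨_, rfl⟩
    have hy' : hU.primeIdealOf ⟨hU.fromSpec (⟨q, hqp⟩ : PrimeSpectrum Γ(C, U)), hy⟩ =
        (⟨q, hqp⟩ : PrimeSpectrum Γ(C, U)) :=
      hU.fromSpec.isOpenEmbedding.injective (hU.fromSpec_primeIdealOf _)
    have hne : hU.fromSpec (⟨q, hqp⟩ : PrimeSpectrum Γ(C, U)) ≠ genericPoint C := by
      intro hgen
      apply hq
      have h2 : hU.primeIdealOf ⟨hU.fromSpec (⟨q, hqp⟩ : PrimeSpectrum Γ(C, U)), hy⟩ =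
          genericPoint (Spec Γ(C, U)) := by
        rw [← hU.primeIdealOf_genericPoint]
        congr 1
        exact Subtype.ext hgen
      rw [hy', genericPoint_eq_bot_of_affine] at h2
      exact congrArg PrimeSpectrum.asIdeal h2
    haveI := isDiscreteValuationRing_stalk_of_ne_genericPoint c _ hne
    letI := TopCat.Presheaf.algebra_section_stalk C.presheaf
      (⟨hU.fromSpec (⟨q, hqp⟩ : PrimeSpectrum Γ(C, U)), hy⟩ : U)
    haveI : IsLocalization.AtPrime
        (C.presheaf.stalk (hU.fromSpec (⟨q, hqp⟩ : PrimeSpectrum Γ(C, U)))) q :=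
      hU.isLocalization_stalk' ⟨q, hqp⟩ hy
    exact IsDiscreteValuationRing.RingEquivClass.isDiscreteValuationRing
      (IsLocalization.algEquiv q.primeCompl
        (C.presheaf.stalk (hU.fromSpec (⟨q, hqp⟩ : PrimeSpectrum Γ(C, U))))
        (Localization.AtPrime q)).toRingEquiv
  infer_instance

end SchemeForm

end Fermat.Agent.S25.helper893
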