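/-
S25 (existence of the Jacobian), layer A, sub-lemmas of LA-CHARTS (owner helper7755).

For a proper `k`-scheme `c : C ⟶ Spec k` and a two-chart datum `(U₀, U₁, x, y)` in the shape of
`helper7755.TwoChart` (cover, `D(y) = U₀ ⊓ U₁`, `x * y = 1` on the overlap), the chart map
`chartMap c U₀ x : ↑U₀ ⟶ Spec k[X]` satisfies the existence part of the valuative criterion,
hence is proper; if its fibres are finite it is finite, so `U₀` is affine and `Γ(C, U₀)` is
finite over `k[x]`.

Author: helper9237.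
-/
import Mathlib
import Fermat.Agent.S25.helper7755_TwoChart

set_option autoImplicit false

namespace Fermat.Agent.S25.helper9237

open AlgebraicGeometry CategoryTheory Fermat.Agent.S25.helper7755

universe u

variable {k : Type u} [Field k] {C : Scheme.{u}} (c : C ⟶ Spec (CommRingCat.of k))

/-- The chart map `↑U ⟶ 𝔸¹ = Spec k[X]` defined by a section `s ∈ Γ(C, U)`. -/
noncomputable def chartMap (U : C.Opens) (s : Γ(C, U)) :
    (U : Scheme.{u}) ⟶ Spec (CommRingCat.of (Polynomial k)) :=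
  U.toSpecΓ ≫ Spec.map (CommRingCat.ofHom (polyToΓ c U s))

/-- The structure morphism of the affine line. -/
noncomputable def affineLineStr :
    Spec (CommRingCat.of (Polynomial k)) ⟶ Spec (CommRingCat.of k) :=
  Spec.map (CommRingCat.ofHom (Polynomial.C : k →+* Polynomial k))

theorem le_preimage_top (U : C.Opens) : U ≤ c ⁻¹ᵁ ⊤ := fun _ _ => trivial

theorem toΓ_eq (U : C.Opens) :
    CommRingCat.ofHom (toΓ c U) =
      (Scheme.ΓSpecIso (CommRingCat.of k)).inv ≫ c.appLE ⊤ U (le_preimage_top c U) := by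
  rfl

theorem chartMap_comp (U : C.Opens) (s : Γ(C, U)) :
    chartMap c U s ≫ affineLineStr = U.ι ≫ c := by
  have h1 : CommRingCat.ofHom (Polynomial.C : k →+* Polynomial k) ≫
      CommRingCat.ofHom (polyToΓ c U s) = CommRingCat.ofHom (toΓ c U) := by
    ext a
    simp [polyToΓ]
  rw [chartMap, affineLineStr, Category.assoc, ← Spec.map_comp, h1, toΓ_eq, Spec.map_comp,
    Scheme.Opens.toSpecΓ_SpecMap_appLE_assoc]
  simp

variable (U₀ U₁ : C.Opens) (x : Γ(C, U₀)) (y : Γ(C, U₁))

theorem chartMap_valuativeExistence [UniversallyClosed c]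
    (cover : U₀ ⊔ U₁ = ⊤) (hy : C.basicOpen y = U₀ ⊓ U₁)
    (xy : C.presheaf.map (homOfLE (inf_le_left : U₀ ⊓ U₁ ≤ U₀)).op x *
      C.presheaf.map (homOfLE (inf_le_right : U₀ ⊓ U₁ ≤ U₁)).op y = 1) :
    ValuativeCriterion.Existence (chartMap c U₀ x) := by
  intro S
  have hc : ValuativeCriterion.Existence c := by
    have h := ‹UniversallyClosed c›
    rw [UniversallyClosed.eq_valuativeCriterion] at h
    exact h.1
  have w : (S.i₁ ≫ U₀.ι) ≫ c =
      Spec.map (CommRingCat.ofHom (algebraMap S.R S.K)) ≫ (S.i₂ ≫ affineLineStr) := by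
    rw [Category.assoc, ← chartMap_comp c U₀ x, ← Category.assoc, S.commSq.w, Category.assoc]
  obtain ⟨⟨l0, hl0, -⟩⟩ :=
    (hc ⟨S.R, S.K, S.i₁ ≫ U₀.ι, S.i₂ ≫ affineLineStr, ⟨w⟩⟩).exists_lift
  let l : Spec (CommRingCat.of S.R) ⟶ C := l0
  have hl₁ : Spec.map (CommRingCat.ofHom (algebraMap S.R S.K)) ≫ l = S.i₁ ≫ U₀.ι := hl0
  -- Step 2: the lift lands in `U₀`
  have hrange : Set.range l ⊆ Set.range U₀.ι := by
    rw [Scheme.Opens.range_ι]
    by_contra hcon
    have hs : l (IsLocalRing.closedPoint S.R) ∉ U₀ := by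
      intro hs
      have htop := Scheme.preimage_eq_top_of_closedPoint_mem l hs
      apply hcon
      rintro _ ⟨p, rfl⟩
      have : p ∈ l ⁻¹ᵁ U₀ := by rw [htop]; trivial
      exact this
    have hs1 : l (IsLocalRing.closedPoint S.R) ∈ U₁ := by
      have : l (IsLocalRing.closedPoint S.R) ∈ U₀ ⊔ U₁ := by rw [cover]; trivial
      exact this.resolve_left hs
    have htop := Scheme.preimage_eq_top_of_closedPoint_mem l hs1
    have hrange1 : Set.range l ⊆ Set.range U₁.ι := by
      rw [Scheme.Opens.range_ι]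
      rintro _ ⟨p, rfl⟩
      have : p ∈ l ⁻¹ᵁ U₁ := by rw [htop]; trivial
      exact this
    let l1 : Spec (CommRingCat.of S.R) ⟶ (U₁ : Scheme.{u}) := IsOpenImmersion.lift U₁.ι l hrange1
    have hl1 : l1 ≫ U₁.ι = l := IsOpenImmersion.lift_fac _ _ _
    let β : Γ(C, U₁) ⟶ CommRingCat.of S.R := Spec.preimage (l1 ≫ U₁.toSpecΓ)
    have hβ : Spec.map β = l1 ≫ U₁.toSpecΓ := Spec.map_preimage _
    let α : Γ(C, U₀) ⟶ CommRingCat.of S.K := Spec.preimage (S.i₁ ≫ U₀.toSpecΓ)
    have hα : Spec.map α = S.i₁ ≫ U₀.toSpecΓ := Spec.map_preimage _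
    let θ : CommRingCat.of (Polynomial k) ⟶ CommRingCat.of S.R := Spec.preimage S.i₂
    have hθ : Spec.map θ = S.i₂ := Spec.map_preimage _
    have hrange01 : Set.range (S.i₁ ≫ U₀.ι) ⊆ Set.range (U₀ ⊓ U₁).ι := by
      rw [Scheme.Opens.range_ι]
      rintro _ ⟨p, rfl⟩
      refine ⟨?_, ?_⟩
      · exact (S.i₁ p).2
      · have h6 : (S.i₁ ≫ U₀.ι) p = l ((Spec.map (CommRingCat.ofHom (algebraMap S.R S.K))) p) := by
          rw [← hl₁]; rfl
        rw [h6]
        have : (Spec.map (CommRingCat.ofHom (algebraMap S.R S.K))) p ∈ l ⁻¹ᵁ U₁ := by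
          rw [htop]; trivial
        exact this
    let i01 : Spec (CommRingCat.of S.K) ⟶ ((U₀ ⊓ U₁ : C.Opens) : Scheme.{u}) :=
      IsOpenImmersion.lift (U₀ ⊓ U₁).ι (S.i₁ ≫ U₀.ι) hrange01
    have hi01 : i01 ≫ (U₀ ⊓ U₁).ι = S.i₁ ≫ U₀.ι := IsOpenImmersion.lift_fac _ _ _
    let γ : Γ(C, U₀ ⊓ U₁) ⟶ CommRingCat.of S.K := Spec.preimage (i01 ≫ (U₀ ⊓ U₁).toSpecΓ)
    have hγ : Spec.map γ = i01 ≫ (U₀ ⊓ U₁).toSpecΓ := Spec.map_preimage _
    have e0 : i01 ≫ C.homOfLE inf_le_left = S.i₁ := by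
      rw [← cancel_mono U₀.ι, Category.assoc, Scheme.homOfLE_ι, hi01]
    have e1 : i01 ≫ C.homOfLE inf_le_right =
        Spec.map (CommRingCat.ofHom (algebraMap S.R S.K)) ≫ l1 := by
      rw [← cancel_mono U₁.ι, Category.assoc, Scheme.homOfLE_ι, hi01, Category.assoc, hl1, hl₁]
    have r0 : C.presheaf.map (homOfLE (inf_le_left : U₀ ⊓ U₁ ≤ U₀)).op ≫ γ = α := by
      apply Spec.map_injective
      rw [Spec.map_comp, hγ, Category.assoc, Scheme.Opens.toSpecΓ_SpecMap_presheaf_map,
        ← Category.assoc, e0, hα]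
    have r1 : C.presheaf.map (homOfLE (inf_le_right : U₀ ⊓ U₁ ≤ U₁)).op ≫ γ =
        β ≫ CommRingCat.ofHom (algebraMap S.R S.K) := by
      apply Spec.map_injective
      rw [Spec.map_comp, hγ, Category.assoc, Scheme.Opens.toSpecΓ_SpecMap_presheaf_map,
        ← Category.assoc, e1, Spec.map_comp, hβ, Category.assoc]
    have r2 : CommRingCat.ofHom (polyToΓ c U₀ x) ≫ α =
        θ ≫ CommRingCat.ofHom (algebraMap S.R S.K) := by
      apply Spec.map_injective
      rw [Spec.map_comp, hα, Category.assoc, Spec.map_comp, hθ]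
      exact S.commSq.w
    have h0 : α.hom x = algebraMap S.R S.K (θ.hom Polynomial.X) := by
      have := congrArg (fun f => f.hom Polynomial.X) r2
      simpa [polyToΓ] using this
    have h1 : γ.hom (C.presheaf.map (homOfLE (inf_le_right : U₀ ⊓ U₁ ≤ U₁)).op y) =
        algebraMap S.R S.K (β.hom y) := congrArg (fun f => f.hom y) r1
    have h2 : γ.hom (C.presheaf.map (homOfLE (inf_le_left : U₀ ⊓ U₁ ≤ U₀)).op x) = α.hom x :=
      congrArg (fun f => f.hom x) r0
    have hunit : algebraMap S.R S.K (θ.hom Polynomial.X * β.hom y) = 1 := by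
      rw [map_mul, ← h0, ← h1, ← h2, ← map_mul, xy, map_one]
    have hu : θ.hom Polynomial.X * β.hom y = 1 :=
      (IsFractionRing.injective S.R S.K) (by rw [hunit, map_one])
    have hmem : β.hom y ∈ IsLocalRing.maximalIdeal S.R := by
      have h3 : l1 (IsLocalRing.closedPoint S.R) ∉
          U₁.toSpecΓ ⁻¹ᵁ PrimeSpectrum.basicOpen y := by
        rw [Scheme.Opens.toSpecΓ_preimage_basicOpen]
        intro h4
        have h7 : l (IsLocalRing.closedPoint S.R) ∈ C.basicOpen y := by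
          rw [← hl1]; exact h4
        rw [hy] at h7
        exact hs h7.1
      have h5 : (Spec.map β) (IsLocalRing.closedPoint S.R) ∉ PrimeSpectrum.basicOpen y := by
        rw [hβ]; exact h3
      by_contra hnot
      exact h5 hnot
    exact (IsLocalRing.mem_maximalIdeal _).mp hmem (IsUnit.of_mul_eq_one _ (by rw [mul_comm]; exact hu))
  -- Step 3: the lift through `U₀` is a lift of the original square
  let l' : Spec (CommRingCat.of S.R) ⟶ (U₀ : Scheme.{u}) := IsOpenImmersion.lift U₀.ι l hrange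
  have hl' : l' ≫ U₀.ι = l := IsOpenImmersion.lift_fac _ _ _
  have hfac : Spec.map (CommRingCat.ofHom (algebraMap S.R S.K)) ≫ l' = S.i₁ := by
    rw [← cancel_mono U₀.ι, Category.assoc, hl', hl₁]
  refine ⟨⟨⟨l', hfac, ?_⟩⟩⟩
  obtain ⟨θ', hθ'⟩ := Spec.map_surjective (l' ≫ chartMap c U₀ x)
  obtain ⟨θ, hθ⟩ := Spec.map_surjective S.i₂
  have h8 : Spec.map (θ' ≫ CommRingCat.ofHom (algebraMap S.R S.K)) =
      Spec.map (θ ≫ CommRingCat.ofHom (algebraMap S.R S.K)) := by
    rw [Spec.map_comp, Spec.map_comp, hθ', hθ, ← Category.assoc, hfac, S.commSq.w]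
  have h9 := Spec.map_injective h8
  rw [← hθ', ← hθ]
  congr 1
  refine CommRingCat.hom_ext (RingHom.ext fun a => ?_)
  exact IsFractionRing.injective S.R S.K (congrArg (fun f => f.hom a) h9)

section Proper

theorem noetherianSpace_of_isProper [IsProper c] : TopologicalSpace.NoetherianSpace C := by
  have : IsLocallyNoetherian C := LocallyOfFiniteType.isLocallyNoetherian c
  have : CompactSpace C := QuasiCompact.compactSpace_of_compactSpace c
  have : IsNoetherian C := {}
  infer_instance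

/-- The chart map `↑U₀ ⟶ 𝔸¹` of a two-chart datum on a proper `k`-scheme is proper. -/
theorem isProper_chartMap [IsProper c]
    (cover : U₀ ⊔ U₁ = ⊤) (hy : C.basicOpen y = U₀ ⊓ U₁)
    (xy : C.presheaf.map (homOfLE (inf_le_left : U₀ ⊓ U₁ ≤ U₀)).op x *
      C.presheaf.map (homOfLE (inf_le_right : U₀ ⊓ U₁ ≤ U₁)).op y = 1) :
    IsProper (chartMap c U₀ x) := by
  have hns := noetherianSpace_of_isProper c
  have : TopologicalSpace.NoetherianSpace (U₀ : Scheme.{u}) :=
    TopologicalSpace.NoetherianSpace.set (U₀ : Set C)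
  have hsep : IsSeparated (chartMap c U₀ x) := by
    have : IsSeparated (chartMap c U₀ x ≫ affineLineStr) := by
      rw [chartMap_comp]; infer_instance
    exact IsSeparated.of_comp _ affineLineStr
  have hft : LocallyOfFiniteType (chartMap c U₀ x) := by
    have : LocallyOfFiniteType (chartMap c U₀ x ≫ affineLineStr) := by
      rw [chartMap_comp]; infer_instance
    exact locallyOfFiniteType_of_comp _ affineLineStr
  have hqc : QuasiCompact (chartMap c U₀ x) := inferInstance
  have huc : UniversallyClosed (chartMap c U₀ x) :=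
    UniversallyClosed.of_valuativeCriterion _
      (chartMap_valuativeExistence c U₀ U₁ x y cover hy xy)
  exact {}

/-- If moreover the fibres of the chart map are finite, then `U₀` is affine and `Γ(C, U₀)` is
finite over `k[x]`. -/
theorem isAffineOpen_and_finite_of_finite_fibers [IsProper c]
    (cover : U₀ ⊔ U₁ = ⊤) (hy : C.basicOpen y = U₀ ⊓ U₁)
    (xy : C.presheaf.map (homOfLE (inf_le_left : U₀ ⊓ U₁ ≤ U₀)).op x *
      C.presheaf.map (homOfLE (inf_le_right : U₀ ⊓ U₁ ≤ U₁)).op y = 1)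
    (hfib : ∀ p, (chartMap c U₀ x ⁻¹' {p}).Finite) :
    IsAffineOpen U₀ ∧ (polyToΓ c U₀ x).Finite := by
  have hprop := isProper_chartMap c U₀ U₁ x y cover hy xy
  have hqf : LocallyQuasiFinite (chartMap c U₀ x) :=
    LocallyQuasiFinite.of_finite_preimage_singleton _ hfib
  have hfin : IsFinite (chartMap c U₀ x) := IsFinite.of_isProper_of_locallyQuasiFinite _
  have haff : IsAffine (U₀ : Scheme.{u}) := isAffine_of_isAffineHom (chartMap c U₀ x)
  refine ⟨haff, ?_⟩
  have h1 := (chartMap c U₀ x).finite_appTop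
  have h2 : (chartMap c U₀ x).appTop =
      (Scheme.ΓSpecIso (CommRingCat.of (Polynomial k))).hom ≫
        CommRingCat.ofHom (polyToΓ c U₀ x) ≫ U₀.topIso.inv := by
    rw [chartMap, Scheme.Hom.comp_appTop, Scheme.Opens.toSpecΓ_appTop,
      Scheme.ΓSpecIso_naturality_assoc]
  rw [h2] at h1
  have h3 := (RingHom.finite_respectsIso.cancel_left_isIso _ _).mp h1
  exact (RingHom.finite_respectsIso.cancel_right_isIso _ _).mp h3

end Proper

end Fermat.Agent.S25.helper9237
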