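/-
S25 (existence of the Jacobian), layer A, LA-CHARTS: chart finiteness.

For a smooth proper integral curve `c : C ⟶ Spec k` over an algebraically closed field and a
two-chart datum `(U₀, U₁, x, y)` (shape of `helper7755.TwoChart`) with `x` non-constant, the
chart map `↑U₀ ⟶ Spec k[X]` has finite fibres; hence (with `helper9237_ChartProper`) `U₀` is
affine and `Γ(C, U₀)` is a finite `k[x]`-module (`chart_finite`, and `chart_finite'` for the
chart at infinity).

Author: helper9237.
-/
import Mathlib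
import Fermat.Agent.S25.helper9237_CurveLocal
import Fermat.Agent.S25.helper9237_ChartProper

set_option autoImplicit false

namespace Fermat.Agent.S25.helper9237

open AlgebraicGeometry CategoryTheory Fermat.Agent.S25.helper7755

universe u

variable {k : Type u} [Field k] {C : Scheme.{u}} (c : C ⟶ Spec (CommRingCat.of k))

/-- A section which is not a constant is transcendental over the algebraically closed `k`:
the evaluation map `k[X] → Γ(C, U)` is injective. -/
theorem polyToΓ_injective [IsAlgClosed k] [IsIntegral C] (U : C.Opens) [Nonempty U]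
    (x : Γ(C, U)) (hx : ∀ a : k, x ≠ toΓ c U a) : Function.Injective (polyToΓ c U x) := by
  let _ : Algebra k Γ(C, U) := (toΓ c U).toAlgebra
  rw [injective_iff_map_eq_zero]
  intro g hg
  by_contra hg0
  have halg : IsAlgebraic k x := ⟨g, hg0, hg⟩
  have hint : IsIntegral k x := halg.isIntegral
  have hq : (minpoly k x).leadingCoeff = 1 := minpoly.monic hint
  have h : (minpoly k x).degree = 1 :=
    IsAlgClosed.degree_eq_one_of_irreducible k (minpoly.irreducible hint)
  have h0 : Polynomial.aeval x (minpoly k x) = 0 := minpoly.aeval k x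
  rw [Polynomial.eq_X_add_C_of_degree_eq_one h, hq, Polynomial.C_1, one_mul, Polynomial.aeval_add,
    Polynomial.aeval_X, Polynomial.aeval_C, add_eq_zero_iff_eq_neg] at h0
  refine hx (-(minpoly k x).coeff 0) ?_
  rw [map_neg]
  exact h0

section Fibers

variable [IsAlgClosed k] [IsIntegral C] [SmoothOfRelativeDimension 1 c]
variable (U : C.Opens) [Nonempty U] (x : Γ(C, U))

omit [IsAlgClosed k] [IsIntegral C] [Nonempty U] in
theorem smoothOfRelativeDimension_ι_comp : SmoothOfRelativeDimension 1 (U.ι ≫ c) := by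
  have : SmoothOfRelativeDimension (0 + 1) (U.ι ≫ c) := inferInstance
  simpa using this

/-- The chart map sends a non-generic point to a closed point of the affine line. -/
theorem chartMap_asIdeal_ne_bot (z : (U : Scheme.{u})) (hz : z ≠ genericPoint (U : Scheme.{u})) :
    (chartMap c U x z).asIdeal ≠ ⊥ := by
  have hsm := smoothOfRelativeDimension_ι_comp c U
  have hzc : IsClosed ({z} : Set (U : Scheme.{u})) :=
    isClosed_singleton_of_ne_genericPoint k (U.ι ≫ c) z hz
  have : Smooth (U.ι ≫ c) := SmoothOfRelativeDimension.smooth 1 _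
  have hpt : pointOfClosedPoint (U.ι ≫ c) z hzc ≫ U.ι ≫ c = 𝟙 _ :=
    pointOfClosedPoint_comp _ _ _
  obtain ⟨ev, hev⟩ := Spec.map_surjective (pointOfClosedPoint (U.ι ≫ c) z hzc ≫ chartMap c U x)
  have hevC : CommRingCat.ofHom (Polynomial.C : k →+* Polynomial k) ≫ ev = 𝟙 _ := by
    apply Spec.map_injective
    rw [Spec.map_comp, hev, Category.assoc]
    change _ ≫ chartMap c U x ≫ affineLineStr = _
    rw [chartMap_comp, hpt]
    simp
  intro hbot
  obtain ⟨a⟩ : Nonempty (Spec (CommRingCat.of k)) := inferInstance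
  have hmem : (Polynomial.X - Polynomial.C (ev.hom Polynomial.X)) ∈ (chartMap c U x z).asIdeal := by
    have h1 : chartMap c U x z = (Spec.map ev) a := by
      rw [hev, Scheme.Hom.comp_apply, pointOfClosedPoint_apply]
    rw [h1]
    change ev.hom (Polynomial.X - Polynomial.C (ev.hom Polynomial.X)) ∈ a.asIdeal
    have h2 : ev.hom (Polynomial.C (ev.hom Polynomial.X)) = ev.hom Polynomial.X :=
      congrArg (fun f => f.hom (ev.hom Polynomial.X)) hevC
    rw [map_sub, h2, sub_self]
    exact zero_mem _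
  rw [hbot] at hmem
  exact Polynomial.X_sub_C_ne_zero _ hmem

/-- The chart map of a non-constant section has finite fibres. -/
theorem finite_fiber_chartMap [TopologicalSpace.NoetherianSpace C]
    (hx : ∀ a : k, x ≠ toΓ c U a) (p : Spec (CommRingCat.of (Polynomial k))) :
    (chartMap c U x ⁻¹' {p}).Finite := by
  by_cases hp : p.asIdeal = ⊥
  · refine (Set.finite_singleton (genericPoint (U : Scheme.{u}))).subset fun z hz => ?_
    by_contra hne
    refine chartMap_asIdeal_ne_bot c U x z hne ?_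
    rw [show chartMap c U x z = p from hz]
    exact hp
  · obtain ⟨g, hgp, hg0⟩ : ∃ g ∈ p.asIdeal, g ≠ 0 := Submodule.exists_mem_ne_zero_of_ne_bot hp
    have hs0 : polyToΓ c U x g ≠ 0 := fun h =>
      hg0 (polyToΓ_injective c U x hx (by rw [map_zero]; exact h))
    have hsm := smoothOfRelativeDimension_ι_comp c U
    have : TopologicalSpace.NoetherianSpace (U : Scheme.{u}) :=
      TopologicalSpace.NoetherianSpace.set (U : Set C)
    have hZc : IsClosed ((U.ι ⁻¹ᵁ C.basicOpen (polyToΓ c U x g) : Set (U : Scheme.{u}))ᶜ) :=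
      (U.ι ⁻¹ᵁ C.basicOpen (polyToΓ c U x g)).isOpen.isClosed_compl
    have hη : genericPoint (U : Scheme.{u}) ∉
        ((U.ι ⁻¹ᵁ C.basicOpen (polyToΓ c U x g) : Set (U : Scheme.{u}))ᶜ) := by
      intro h
      apply h
      change U.ι (genericPoint _) ∈ C.basicOpen (polyToΓ c U x g)
      rw [genericPoint_eq_of_isOpenImmersion U.ι]
      refine ((genericPoint_spec C).mem_open_set_iff
        (C.basicOpen (polyToΓ c U x g)).isOpen).mpr ?_
      have hne : C.basicOpen (polyToΓ c U x g) ≠ ⊥ := fun h => hs0 ((basicOpen_eq_bot_iff _).mp h)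
      rw [Set.univ_inter]
      exact (TopologicalSpace.Opens.ne_bot_iff_nonempty _).mp hne
    have hfin := finite_of_isClosed_of_genericPoint_notMem k (U.ι ≫ c) _ hZc hη
    refine hfin.subset fun z hz hzb => ?_
    have hzb' : z ∈ U.toSpecΓ ⁻¹ᵁ PrimeSpectrum.basicOpen (polyToΓ c U x g) := by
      rw [Scheme.Opens.toSpecΓ_preimage_basicOpen]; exact hzb
    apply hzb'
    have h3 : chartMap c U x z = p := hz
    rw [← h3] at hgp
    exact hgp

end Fibers

/-- **Chart finiteness.** For a smooth proper integral curve over an algebraically closed field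
and a two-chart datum `(U₀, U₁, x, y)` with `x` non-constant: `U₀` is affine and `Γ(C, U₀)` is
a finite `k[x]`-module. -/
theorem chart_finite [IsAlgClosed k] [IsProper c] [SmoothOfRelativeDimension 1 c] [IsIntegral C]
    (U₀ U₁ : C.Opens) [Nonempty U₀] (x : Γ(C, U₀)) (y : Γ(C, U₁))
    (cover : U₀ ⊔ U₁ = ⊤) (hy : C.basicOpen y = U₀ ⊓ U₁)
    (xy : C.presheaf.map (homOfLE (inf_le_left : U₀ ⊓ U₁ ≤ U₀)).op x *
      C.presheaf.map (homOfLE (inf_le_right : U₀ ⊓ U₁ ≤ U₁)).op y = 1)
    (hx : ∀ a : k, x ≠ toΓ c U₀ a) :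
    IsAffineOpen U₀ ∧ (polyToΓ c U₀ x).Finite := by
  have := noetherianSpace_of_isProper c
  exact isAffineOpen_and_finite_of_finite_fibers c U₀ U₁ x y cover hy xy
    (finite_fiber_chartMap c U₀ x hx)

/-- The symmetric statement for the chart at infinity. -/
theorem chart_finite' [IsAlgClosed k] [IsProper c] [SmoothOfRelativeDimension 1 c] [IsIntegral C]
    (U₀ U₁ : C.Opens) [Nonempty U₁] (x : Γ(C, U₀)) (y : Γ(C, U₁))
    (cover : U₀ ⊔ U₁ = ⊤) (hx' : C.basicOpen x = U₀ ⊓ U₁)
    (xy : C.presheaf.map (homOfLE (inf_le_left : U₀ ⊓ U₁ ≤ U₀)).op x *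
      C.presheaf.map (homOfLE (inf_le_right : U₀ ⊓ U₁ ≤ U₁)).op y = 1)
    (hy : ∀ a : k, y ≠ toΓ c U₁ a) :
    IsAffineOpen U₁ ∧ (polyToΓ c U₁ y).Finite := by
  have hinf : U₁ ⊓ U₀ = U₀ ⊓ U₁ := inf_comm _ _
  refine chart_finite c U₁ U₀ y x (by rw [sup_comm]; exact cover) (by rw [hx', hinf]) ?_ hy
  have e1 : C.presheaf.map (homOfLE (inf_le_left : U₁ ⊓ U₀ ≤ U₁)).op =
      C.presheaf.map (homOfLE (inf_le_right : U₀ ⊓ U₁ ≤ U₁)).op ≫
        C.presheaf.map (eqToHom hinf).op := by
    rw [← Functor.map_comp]; rfl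
  have e0 : C.presheaf.map (homOfLE (inf_le_right : U₁ ⊓ U₀ ≤ U₀)).op =
      C.presheaf.map (homOfLE (inf_le_left : U₀ ⊓ U₁ ≤ U₀)).op ≫
        C.presheaf.map (eqToHom hinf).op := by
    rw [← Functor.map_comp]; rfl
  rw [e1, e0, CommRingCat.comp_apply, CommRingCat.comp_apply, ← map_mul, mul_comm, xy, map_one]

end Fermat.Agent.S25.helper9237
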