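/-
S25 (existence of the Jacobian), layer A, LA-CHARTS: final assembly of the two-chart atlas.

For a smooth proper integral curve `c : C ⟶ Spec k` over an algebraically closed field with a
`k`-point `e`, the structure `helper7755.TwoChart c e` is inhabited.  Inputs (all on main):
`helper2911.exists_two_opens` (regular loci of a uniformizer at the point and of its inverse),
`helper9237.chart_finite`, `helper9237.chart_finite'` (chart finiteness), the DVR property of
the stalks (`helper9237.isDiscreteValuationRing_stalk`).  New here: non-constancy of the two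
coordinate functions, and the evaluation homomorphism at the marked point.

Author: helper8826.
-/
import Mathlib
import Fermat.Agent.S25.helper7755_TwoChart
import Fermat.Agent.S25.helper2911_RegLocus
import Fermat.Agent.S25.helper893_Dedekind
import Fermat.Agent.S25.helper9237_CurveLocal
import Fermat.Agent.S25.helper9237_ChartFinite

set_option autoImplicit false

namespace Fermat.Agent.S25.helper8826

open CategoryTheory AlgebraicGeometry Fermat.Agent.S25.helper7755

universe u

variable {k : Type u} [Field k] {C : Scheme.{u}} (c : C ⟶ Spec (CommRingCat.of k))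

/-- Restriction of a constant is the constant. -/
theorem map_toΓ {U V : C.Opens} (h : V ≤ U) (a : k) :
    C.presheaf.map (homOfLE h).op (toΓ c U a) = toΓ c V a := by
  have h1 : C.presheaf.map (homOfLE (le_top : U ≤ ⊤)).op ≫ C.presheaf.map (homOfLE h).op =
      C.presheaf.map (homOfLE (le_top : V ≤ ⊤)).op := by
    rw [← Functor.map_comp]; rfl
  have h2 : CommRingCat.ofHom (toΓ c U) ≫ C.presheaf.map (homOfLE h).op =
      CommRingCat.ofHom (toΓ c V) := by
    simp only [toΓ, CommRingCat.ofHom_hom, Category.assoc, h1]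
  exact congrArg (fun f => f.hom a) h2

theorem isUnit_toΓ (U : C.Opens) {a : k} (ha : a ≠ 0) : IsUnit (toΓ c U a) :=
  (IsUnit.mk0 a ha).map (toΓ c U)

/-- The coordinate at infinity is not a constant. -/
theorem y_ne_const [IsIntegral C] {U₀ U₁ : C.Opens} (y : Γ(C, U₁)) {p₀ : C} (hp₁ : p₀ ∈ U₁)
    (hpy : p₀ ∉ C.basicOpen y) (hby : C.basicOpen y = U₀ ⊓ U₁) (hne0 : Nonempty U₀) (b : k) :
    y ≠ toΓ c U₁ b := by
  intro h
  by_cases hb : b = 0
  · subst hb
    rw [map_zero] at h
    subst h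
    rw [Scheme.basicOpen_zero] at hby
    obtain ⟨⟨q, hq⟩⟩ := hne0
    have hη : genericPoint C ∈ U₀ ⊓ U₁ :=
      ⟨helper2911.genericPoint_mem_of_mem hq, helper2911.genericPoint_mem_of_mem hp₁⟩
    rw [← hby] at hη
    exact hη
  · apply hpy
    rw [h, Scheme.basicOpen_of_isUnit _ (isUnit_toΓ c U₁ hb)]
    exact hp₁

/-- The affine coordinate is not a constant. -/
theorem x_ne_const [IsIntegral C] {U₀ U₁ : C.Opens} (x : Γ(C, U₀)) (y : Γ(C, U₁)) {p₀ : C}
    (hp₁ : p₀ ∈ U₁) (hpy : p₀ ∉ C.basicOpen y) (hbx : C.basicOpen x = U₀ ⊓ U₁)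
    (hby : C.basicOpen y = U₀ ⊓ U₁)
    (hxy : C.presheaf.map (homOfLE (inf_le_left : U₀ ⊓ U₁ ≤ U₀)).op x *
      C.presheaf.map (homOfLE (inf_le_right : U₀ ⊓ U₁ ≤ U₁)).op y = 1)
    (hne0 : Nonempty U₀) (a : k) : x ≠ toΓ c U₀ a := by
  intro h
  obtain ⟨⟨q, hq⟩⟩ := hne0
  have hη : genericPoint C ∈ U₀ ⊓ U₁ :=
    ⟨helper2911.genericPoint_mem_of_mem hq, helper2911.genericPoint_mem_of_mem hp₁⟩
  by_cases ha : a = 0
  · subst ha
    rw [map_zero] at h
    subst h
    rw [Scheme.basicOpen_zero] at hbx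
    rw [← hbx] at hη
    exact hη
  · refine y_ne_const c y hp₁ hpy hby ⟨⟨q, hq⟩⟩ a⁻¹ ?_
    have hne : Nonempty (U₀ ⊓ U₁ : C.Opens) := ⟨⟨_, hη⟩⟩
    apply map_injective_of_isIntegral C (homOfLE (inf_le_right : U₀ ⊓ U₁ ≤ U₁))
    rw [map_toΓ]
    rw [h, map_toΓ] at hxy
    calc C.presheaf.map (homOfLE (inf_le_right : U₀ ⊓ U₁ ≤ U₁)).op y
        = toΓ c (U₀ ⊓ U₁) a⁻¹ * (toΓ c (U₀ ⊓ U₁) a *
            C.presheaf.map (homOfLE (inf_le_right : U₀ ⊓ U₁ ≤ U₁)).op y) := by
          rw [← mul_assoc, ← map_mul, inv_mul_cancel₀ ha, map_one, one_mul]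
      _ = toΓ c (U₀ ⊓ U₁) a⁻¹ := by rw [hxy, mul_one]

theorem toSpecΓ_comp_SpecMap_toΓ (U : C.Opens) :
    U.toSpecΓ ≫ Spec.map (CommRingCat.ofHom (toΓ c U)) = U.ι ≫ c := by
  rw [helper9237.toΓ_eq, Spec.map_comp, Scheme.Opens.toSpecΓ_SpecMap_appLE_assoc]
  simp

/-- The image of a `k`-point of a separated `k`-scheme is a closed point. -/
theorem isClosed_singleton_point [IsSeparated c] (e : Spec (CommRingCat.of k) ⟶ C)
    (he : e ≫ c = 𝟙 _) (pt : Spec (CommRingCat.of k)) : IsClosed ({e pt} : Set C) := by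
  have h1 : IsClosedImmersion (e ≫ c) := by rw [he]; infer_instance
  have h2 : IsClosedImmersion e := IsClosedImmersion.of_comp e c
  have h := e.isClosedEmbedding.isClosed_range
  have hsub : Subsingleton (PrimeSpectrum k) := inferInstance
  have hr : Set.range e = {e pt} := by
    ext z
    constructor
    · rintro ⟨q, rfl⟩
      have hq : q = pt := Subsingleton.elim (α := PrimeSpectrum k) _ _
      rw [hq]; rfl
    · rintro rfl
      exact ⟨pt, rfl⟩
  rw [← hr]
  exact h

/-- **EV.** The evaluation homomorphism at a `k`-point lying in an affine open. -/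
theorem exists_ev (e : Spec (CommRingCat.of k) ⟶ C) (he : e ≫ c = 𝟙 _) {U₁ : C.Opens}
    (hU₁ : IsAffineOpen U₁) (pt : Spec (CommRingCat.of k)) (hp₁ : e pt ∈ U₁) :
    ∃ ev : Γ(C, U₁) →+* k, ev.comp (toΓ c U₁) = RingHom.id k ∧
      e = Spec.map (CommRingCat.ofHom ev) ≫ hU₁.fromSpec ∧
      ∀ s : Γ(C, U₁), e pt ∉ C.basicOpen s → ev s = 0 := by
  have hsub : Subsingleton (PrimeSpectrum k) := inferInstance
  have hrange : Set.range e ⊆ Set.range U₁.ι := by
    rw [Scheme.Opens.range_ι]
    rintro _ ⟨q, rfl⟩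
    have hq : q = pt := Subsingleton.elim (α := PrimeSpectrum k) _ _
    rw [hq]
    exact hp₁
  let e' : Spec (CommRingCat.of k) ⟶ (U₁ : Scheme.{u}) := IsOpenImmersion.lift U₁.ι e hrange
  have he' : e' ≫ U₁.ι = e := IsOpenImmersion.lift_fac _ _ _
  let φ : Γ(C, U₁) ⟶ CommRingCat.of k := Spec.preimage (e' ≫ U₁.toSpecΓ)
  have hφ : Spec.map φ = e' ≫ U₁.toSpecΓ := Spec.map_preimage _
  refine ⟨φ.hom, ?_, ?_, ?_⟩
  · have h1 : Spec.map (CommRingCat.ofHom (toΓ c U₁) ≫ φ) = Spec.map (𝟙 _) := by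
      rw [Spec.map_comp, hφ, Category.assoc, toSpecΓ_comp_SpecMap_toΓ, ← Category.assoc, he', he,
        Spec.map_id]
    have h2 := Spec.map_injective h1
    ext a
    exact congrArg (fun f => f.hom a) h2
  · rw [CommRingCat.ofHom_hom, hφ, Category.assoc, hU₁.toSpecΓ_fromSpec, he']
  · intro s hs
    have h3 : (Spec.map φ) pt ∉ PrimeSpectrum.basicOpen s := by
      rw [hφ]
      intro h4
      have h5 : e' pt ∈ U₁.toSpecΓ ⁻¹ᵁ PrimeSpectrum.basicOpen s := h4
      rw [Scheme.Opens.toSpecΓ_preimage_basicOpen] at h5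
      apply hs
      rw [← he']
      exact h5
    have h6 : φ.hom s ∈ pt.asIdeal := by
      by_contra hnot
      exact h3 hnot
    have h7 : pt.asIdeal = ⊥ :=
      (Ideal.eq_bot_or_top pt.asIdeal).resolve_right pt.2.ne_top
    rw [h7] at h6
    exact h6

/-- **LA-CHARTS.** A smooth proper integral curve over an algebraically closed field with a
`k`-point has a two-chart atlas. -/
theorem nonempty_twoChart [IsAlgClosed k] (c : C ⟶ Spec (CommRingCat.of k)) [IsProper c]
    [SmoothOfRelativeDimension 1 c] [IsIntegral C] (e : Spec (CommRingCat.of k) ⟶ C)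
    (he : e ≫ c = 𝟙 _) : Nonempty (TwoChart c e) := by
  obtain ⟨pt⟩ : Nonempty (Spec (CommRingCat.of k)) := inferInstance
  have hcl : IsClosed ({e pt} : Set C) := isClosed_singleton_point c e he pt
  have hgen : e pt ≠ genericPoint C := helper893.ne_genericPoint_of_isClosed c (e pt) hcl
  have hval : ∀ p : C, p ≠ genericPoint C → ValuationRing (C.presheaf.stalk p) := by
    intro p hp
    have := helper9237.isDiscreteValuationRing_stalk k c p hp
    infer_instance
  have hp₀ : ¬ IsField (C.presheaf.stalk (e pt)) := by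
    have := helper9237.isDiscreteValuationRing_stalk k c (e pt) hgen
    exact IsDiscreteValuationRing.not_isField _
  obtain ⟨U₀, U₁, x, y, hp₁, hpy, -, cover, hbx, hby, hxy, hne0, hne1⟩ :=
    helper2911.exists_two_opens (e pt) hval hp₀
  have hyc : ∀ b : k, y ≠ toΓ c U₁ b := y_ne_const c y hp₁ hpy hby hne0
  have hxc : ∀ a : k, x ≠ toΓ c U₀ a := x_ne_const c x y hp₁ hpy hbx hby hxy hne0
  obtain ⟨haff0, hfin0⟩ := helper9237.chart_finite c U₀ U₁ x y cover hby hxy hxc
  obtain ⟨haff1, hfin1⟩ := helper9237.chart_finite' c U₀ U₁ x y cover hbx hxy hyc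
  obtain ⟨ev, hev1, heps, hev0⟩ := exists_ev c e he haff1 pt hp₁
  exact ⟨{ U₀ := U₀, U₁ := U₁, x := x, y := y, affine₀ := haff0, affine₁ := haff1,
           nonempty₀ := hne0, nonempty₁ := hne1, cover := cover, basicOpen_x := hbx,
           basicOpen_y := hby, xy := hxy, finite₀ := hfin0, finite₁ := hfin1, ev := ev,
           ev_toΓ := hev1, ev_y := hev0 y hpy, eps := heps }⟩

end Fermat.Agent.S25.helper8826
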