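/-
S25 (existence of the Jacobian): the root `helper1705.Stmt_Chart` of the Spec, closed.

`helper9007.stmt_Chart_of` reduces `Stmt_Chart` to the existence of a two-chart atlas on every
smooth proper integral curve with a rational point over an algebraically closed field; that is
`helper8826.nonempty_twoChart`.

Author: helper8826.
-/
import Mathlib
import Fermat.Agent.S25.helper8826_TwoChartAsm
import Fermat.Agent.S25.helper9007_Realization

set_option autoImplicit false

namespace Fermat.Agent.S25.helper8826

universe u

/-- **Stmt_Chart** of the S25 Spec. -/
theorem stmt_Chart : helper1705.Stmt_Chart.{u} :=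
  helper9007.stmt_Chart_of (fun _ _ _ _ c _ _ _ e he => nonempty_twoChart c e he)

end Fermat.Agent.S25.helper8826
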