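import Fermat.Agent.S25.helper3115_TwistGlue
import Fermat.Agent.S25.helper8622_UniformVanishingGlue
import Fermat.Agent.S25.helper8703_FieldGlue
import Fermat.Agent.S25.helper8628_ChiGlue
import Fermat.Agent.S25.helper7530_ValExistAlg
import Fermat.Agent.S25.helper3477_PolyMor
import Fermat.Agent.S25.helper4927_TwistChi

/-!
# S25, leaf U9a (LC5): point decomposition over an algebraically closed field, integration
(helper886)

`K` a field over the algebraically closed field `k`, `G : GlueDatum D K`, `n = degInf D`.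

* `exists_section` (A) : if `H¹(G((m-1)·D∞)) = 0` there is a section `(a, b)` of `G(m·D∞)` with
  `a ≠ 0` and `b` generating `M₁` modulo `y`.
* `chi_add_finrank_of_mor` (C1) : for a nonzero morphism `τ : G ⟶ N` which is surjective modulo
  `y`, `χ(N) = χ(G) + dim_K (N₀ / τ₀ M₀)`.
* `finrank_quot_section` (C2) : `dim_K (M₀ / A₀ a) = m·n` for such a section when `χ(G) = χ(𝒪)`.
* `exists_mor_of_h1` (A + S-POLY + C) : if `χ(G) = χ(𝒪)` and `H¹(G((m-1)·D∞)) = 0` there is a
  nonzero morphism `τ : G ⟶ 𝒪((m·n - m)·D∞)`, surjective modulo `y`, with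
  `dim_K (A₀ / τ₀ M₀) = (m·n - m)·n`.
-/

set_option autoImplicit false
set_option linter.style.haveILetI false
set_option linter.unusedSectionVars false

open TensorProduct
open scoped Pointwise

namespace Fermat.Agent.S25.helper886

open Fermat.Agent.S25.helper1705 Fermat.Agent.S25.helper2945

universe u

section Field

variable {k : Type u} [Field k] [IsAlgClosed k] {D : CurveDatum k} {K : Type u} [Field K]
  [Algebra k K]

/-- **Finiteness of cohomology over a field** (no hypothesis). -/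
theorem finite_H0_H1 (G : GlueDatum D K) : Module.Finite K G.H0 ∧ Module.Finite K G.H1 := by
  obtain ⟨h0, h1, -⟩ := helper8628.baseChange_finite_and_chi G K (AlgHom.id k K)
  obtain ⟨f⟩ := helper743.baseChange_id G
  exact ⟨Module.Finite.equiv (helper743.isoH0Equiv f),
    Module.Finite.equiv (helper743.isoH1Equiv f)⟩

omit [IsAlgClosed k] in
/-- `M₁ / y M₁` is cyclic: some `t` generates `M₁` modulo `y`. -/
theorem exists_gen_mod_y (G : GlueDatum D K) :
    ∃ t : G.M₁, Submodule.span (D.A₁ K) {t} ⊔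
      Ideal.span {yB D K} • (⊤ : Submodule (D.A₁ K) G.M₁) = ⊤ := by
  obtain ⟨e⟩ := helper1153.nonempty_quot_yB_linearEquiv D K G.M₁
  obtain ⟨t, ht⟩ := Submodule.mkQ_surjective _ (e.symm (Ideal.Quotient.mk _ 1))
  refine ⟨t, ?_⟩
  rw [eq_top_iff]
  rintro z -
  obtain ⟨c, hc⟩ := Ideal.Quotient.mk_surjective (e (Submodule.mkQ _ z))
  have ht' : e (Submodule.mkQ _ t) = Ideal.Quotient.mk _ 1 := by
    have := congrArg e ht
    simpa using this
  have h1 : Submodule.mkQ _ (z - c • t) = (0 : QuotSMulTop (helper1153.yB D K) G.M₁) := by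
    apply e.injective
    rw [map_sub, map_smul, map_sub, map_smul, ht', ← hc, map_zero, sub_eq_zero]
    change Ideal.Quotient.mk _ c = Ideal.Quotient.mk _ (c • (1 : D.A₁ K))
    rw [smul_eq_mul, mul_one]
  obtain ⟨w, -, hw⟩ := (Submodule.mem_smul_pointwise_iff_exists _ _ _).mp
    ((Submodule.Quotient.mk_eq_zero _).mp h1)
  have hw' : yB D K • w = z - c • t := hw
  have hz : z = c • t + yB D K • w := by rw [hw']; abel
  rw [hz]
  exact Submodule.add_mem_sup (Submodule.smul_mem _ c (Submodule.mem_span_singleton_self t))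
    (Submodule.smul_mem_smul (Ideal.mem_span_singleton_self _) Submodule.mem_top)

/-- `y M₁ ≠ M₁`: the fibre of `M₁` along `V(y)` is nonzero. -/
theorem span_y_smul_top_ne_top (G : GlueDatum D K) :
    Ideal.span {yB D K} • (⊤ : Submodule (D.A₁ K) G.M₁) ≠ ⊤ := by
  intro h
  have h1 := helper1153.finrank_quot_yB_smul D K G.M₁
  have h2 : (helper1153.yB D K • (⊤ : Submodule (D.A₁ K) G.M₁)) = ⊤ := by
    rw [← Submodule.ideal_span_singleton_smul]; exact h
  have h3 : Subsingleton (QuotSMulTop (helper1153.yB D K) G.M₁) :=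
    Submodule.Quotient.subsingleton_iff.mpr h2
  have h4 : Module.finrank K (QuotSMulTop (helper1153.yB D K) G.M₁) = 0 :=
    Module.finrank_zero_of_subsingleton
  have := helper1153.degInf_pos D
  omega

/-- The two forms of "`b` generates `M₁` modulo `y`". -/
theorem gen_of_sup_eq_top (G : GlueDatum D K) (b : G.M₁)
    (hgen : Submodule.span (D.A₁ K) {b} ⊔
      Ideal.span {yB D K} • (⊤ : Submodule (D.A₁ K) G.M₁) = ⊤) :
    ∀ z : G.M₁, ∃ (c : D.A₁ K) (z' : G.M₁), z = c • b + yB D K • z' := by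
  intro n
  have hn : n ∈ Submodule.span (D.A₁ K) {b} ⊔
      Ideal.span {yB D K} • (⊤ : Submodule (D.A₁ K) G.M₁) := by
    rw [hgen]; exact Submodule.mem_top
  obtain ⟨v, hv, w, hw, rfl⟩ := Submodule.mem_sup.mp hn
  obtain ⟨c, rfl⟩ := Submodule.mem_span_singleton.mp hv
  rw [Submodule.ideal_span_singleton_smul] at hw
  obtain ⟨w', -, rfl⟩ := (Submodule.mem_smul_pointwise_iff_exists _ _ _).mp hw
  exact ⟨c, w', rfl⟩

/-- **(A) Section generating along `V(y)`.** If `H¹(G((m-1)·D∞)) = 0`, then `G(m·D∞)` has a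
section `(a, b)` with `a ≠ 0` and `b` generating `M₁` modulo `y`. -/
theorem exists_section (G : GlueDatum D K) (m : ℤ)
    (h : helper8622.H1TwistVanishes G (m - 1)) :
    ∃ (a : G.M₀) (b : G.M₁), a ≠ 0 ∧
      G.ρ₀ a = ((helper3115.xU D K ^ m : (D.A₀₁ K)ˣ) : D.A₀₁ K) • G.ρ₁ b ∧
      ∀ z : G.M₁, ∃ (c : D.A₁ K) (z' : G.M₁), z = c • b + yB D K • z' := by
  obtain ⟨t, ht⟩ := exists_gen_mod_y G
  obtain ⟨a, b, hab, -, hgen⟩ := helper3477.exists_section_generating (xB D K) (yB D K)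
    G.ρ₀ G.ρ₁ (xB_mul_yB D K) ((helper3115.xU D K ^ (m - 1) : (D.A₀₁ K)ˣ) : D.A₀₁ K)
    (fun z => by
      obtain ⟨a, b, hz⟩ := h z
      exact ⟨a, b, hz⟩) t ht
  have hab' : G.ρ₀ a = ((helper3115.xU D K ^ m : (D.A₀₁ K)ˣ) : D.A₀₁ K) • G.ρ₁ b := by
    rw [hab, ← helper3115.xU_val, ← Units.val_mul, ← zpow_add_one, sub_add_cancel]
  refine ⟨a, b, ?_, hab', gen_of_sup_eq_top G b hgen⟩
  intro ha
  rw [ha, map_zero] at hab'
  have hb0 : G.ρ₁ b = 0 := by
    have := congrArg (fun z => (((helper3115.xU D K ^ m)⁻¹ : (D.A₀₁ K)ˣ) : D.A₀₁ K) • z) hab'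
    simpa [smul_smul] using this.symm
  have hb : b = 0 := helper1804.Lattice.ρ₁_injective G (hb0.trans (map_zero _).symm)
  rw [hb] at hgen
  apply span_y_smul_top_ne_top G
  simpa using hgen

/-- **Index of a nonzero morphism which is surjective modulo `y`**: the cokernel on the first
chart is finite-dimensional and `χ(N) = χ(G) + dim_K (N₀ / τ₀ M₀)`. -/
theorem chi_add_finrank_of_mor (G N : GlueDatum D K) (τ : helper8573.Mor G N) (h0 : τ.f₀ ≠ 0)
    (hy : τ.SurjModY) :
    Module.Finite K (N.M₀ ⧸ LinearMap.range τ.f₀) ∧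
      N.chi = G.chi + (Module.finrank K (N.M₀ ⧸ LinearMap.range τ.f₀) : ℤ) := by
  haveI := helper8703.isDomain_A₀ D K
  haveI := helper8703.isDomain_A₁ D K
  obtain ⟨i₀, i₁, -, -⟩ := helper8703.hom_injective G N τ.f₀ τ.f₁ τ.f₀₁ τ.comm₀ τ.comm₁ h0
  obtain ⟨f₀, -⟩ := helper8703.morphism_finite_coker (K := K) (helper8703.isLocAt_ρ₀ G)
    (helper8703.isLocAt_ρ₁ G) (helper8703.isLocAt_ρ₀ N) (helper8703.isLocAt_ρ₁ N)
    (helper8703.isUnit_algebraMap_xB D K) (helper8703.isUnit_algebraMap_yB D K)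
    (helper8703.finQuot_A₀ D K) (helper8703.finQuot_A₁ D K) τ.f₀ τ.f₁ τ.f₀₁ τ.comm₀ τ.comm₁ h0
  obtain ⟨hN0, hN1⟩ := finite_H0_H1 N
  obtain ⟨-, -, hchi⟩ := helper4927.chi_of_mor_surjModY τ i₀ i₁ hy (LinearMap.range τ.f₀) rfl
  exact ⟨f₀, by rw [hchi]; ring⟩

/-- The section `(a, b)` of `G(m·D∞)` as a morphism `𝒪 ⟶ G(m·D∞)`. -/
noncomputable def secMor (G : GlueDatum D K) (m : ℤ) (a : G.M₀) (b : G.M₁)
    (hab : G.ρ₀ a = ((helper3115.xU D K ^ m : (D.A₀₁ K)ˣ) : D.A₀₁ K) • G.ρ₁ b) :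
    helper8573.Mor (GlueDatum.unit D K) (helper3115.twist G m) where
  f₀ := helper8703.secHom₀ (helper3115.twist G m) a
  f₁ := helper8703.secHom₁ (helper3115.twist G m) b
  f₀₁ := helper8703.secHom₀₁ (helper3115.twist G m) ((helper3115.twist G m).ρ₀ a)
  comm₀ c := helper8703.secHom_comm₀ (helper3115.twist G m) (a, b) c
  comm₁ c := helper8703.secHom_comm₁ (helper3115.twist G m) (p := (a, b))
    ((helper3115.mem_H0_twist G m a b).mpr hab) c

/-- **The number `d = m·n`.** For `G` with `χ(G) = χ(𝒪)` and a section `(a, b)` of `G(m·D∞)`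
with `a ≠ 0` and `b` generating `M₁` modulo `y`: `dim_K (M₀ / A₀ a) = m · degInf D`. -/
theorem finrank_quot_section (G : GlueDatum D K) (hchi : G.chi = (GlueDatum.unit D K).chi)
    (m : ℤ) (a : G.M₀) (b : G.M₁) (ha : a ≠ 0)
    (hab : G.ρ₀ a = ((helper3115.xU D K ^ m : (D.A₀₁ K)ˣ) : D.A₀₁ K) • G.ρ₁ b)
    (hgen : ∀ z : G.M₁, ∃ (c : D.A₁ K) (z' : G.M₁), z = c • b + yB D K • z') :
    (Module.finrank K (G.M₀ ⧸ Submodule.span (D.A₀ K) {a}) : ℤ) = m * helper1153.degInf D := by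
  have hsurj : (secMor G m a b hab).SurjModY := hgen
  obtain ⟨-, h1⟩ := chi_add_finrank_of_mor (GlueDatum.unit D K) (helper3115.twist G m)
    (secMor G m a b hab) (helper8703.secHom₀_ne_zero (helper3115.twist G m) ha) hsurj
  have h2 : LinearMap.range (secMor G m a b hab).f₀ = Submodule.span (D.A₀ K) {a} :=
    helper8703.range_secHom₀ (helper3115.twist G m) a
  have h3 := (helper3115.chi_twist_degInf G (finite_H0_H1 G) m).2
  have h4 : Module.finrank K ((helper3115.twist G m).M₀ ⧸ LinearMap.range (secMor G m a b hab).f₀)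
      = Module.finrank K (G.M₀ ⧸ Submodule.span (D.A₀ K) {a}) := by
    rw [h2]; rfl
  rw [h4] at h1
  linarith

/-- **(A) + (S-POLY) + (C).** If `χ(G) = χ(𝒪)` and `H¹(G((m-1)·D∞)) = 0`, there is a nonzero
morphism `τ : G ⟶ 𝒪(j·D∞)`, `j = m·n - m`, surjective modulo `y`, whose cokernel on the first
chart has dimension `j·n` (`n = degInf D`). -/
theorem exists_mor_of_h1 (G : GlueDatum D K) (hchi : G.chi = (GlueDatum.unit D K).chi) (m : ℤ)
    (h : helper8622.H1TwistVanishes G (m - 1)) :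
    ∃ τ : helper8573.Mor G (helper3115.twist (GlueDatum.unit D K) (m * helper1153.degInf D - m)),
      τ.f₀ ≠ 0 ∧ τ.SurjModY ∧
      Module.Finite K ((helper3115.twist (GlueDatum.unit D K) (m * helper1153.degInf D - m)).M₀ ⧸
        LinearMap.range τ.f₀) ∧
      (Module.finrank K ((helper3115.twist (GlueDatum.unit D K) (m * helper1153.degInf D - m)).M₀ ⧸
        LinearMap.range τ.f₀) : ℤ) = (m * helper1153.degInf D - m) * helper1153.degInf D := by
  obtain ⟨a, b, ha, hab, hgen⟩ := exists_section G m h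
  have hd := finrank_quot_section G hchi m a b ha hab hgen
  have key := helper3477.poly_mor G m a b ha hab hgen
  rw [hd] at key
  obtain ⟨τ, h0, hy⟩ := key
  obtain ⟨hfin, h1⟩ := chi_add_finrank_of_mor G _ τ h0 hy
  refine ⟨τ, h0, hy, hfin, ?_⟩
  have h2 := (helper3115.chi_twist_degInf (GlueDatum.unit D K)
    (finite_H0_H1 (GlueDatum.unit D K)) (m * helper1153.degInf D - m)).2
  rw [h2, hchi] at h1
  linarith

end Field

end Fermat.Agent.S25.helper886
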