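import Fermat.Agent.S25.helper7939_Models
import Fermat.Agent.S25.helper8492_PullSec
import Fermat.Agent.S25.helper845_InvTilde

/-!
# S25, dictionary field `models_baseChange`: the formal core (helper8915)

* `IsBaseChangeAlong g p` : the additive map `p : N →+ N'` is `g`-semilinear and exhibits the
  `S'`-module `N'` as the base change of the `S`-module `N` along `g : S →+* S'`
  (universal property, no instances needed in the statement).
* `exists_tensor_addEquiv` : transport of a base change along ring isomorphisms.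
* `U₀_le_preimage`, `γ₀_appLE`, ... : the chart opens and the ring isomorphisms `γ` of
  `helper7939_Models` are compatible with `baseChangeSnd`.
* `nonempty_secIso_baseChange` : the sections datum of a pullback, given that the three
  pullback-of-sections maps are base changes.
* `stmt_BaseChange_of` : `Stmt_PullSecOpens → helper7939.Stmt_BaseChange R`.
-/

set_option autoImplicit false

universe u

open TensorProduct

namespace Fermat.Agent.S25.helper8915

section Algebra

variable {S S' : Type u} [CommRing S] [CommRing S'] {N N' : Type u} [AddCommGroup N] [Module S N]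
  [AddCommGroup N'] [Module S' N']

/-- The additive map `p : N →+ N'` is semilinear over the ring homomorphism `g : S →+* S'` and
exhibits the `S'`-module `N'` as the base change of the `S`-module `N` along `g`: every
`g`-semilinear additive map from `N` to an `S'`-module factors uniquely through `p`. -/
def IsBaseChangeAlong (g : S →+* S') (p : N →+ N') : Prop :=
  (∀ (s : S) (n : N), p (s • n) = g s • p n) ∧
    ∀ (Q : Type u) [AddCommGroup Q] [Module S' Q] (q : N →+ Q),
      (∀ (s : S) (n : N), q (s • n) = g s • q n) →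
        ∃! q' : N' →ₗ[S'] Q, ∀ n, q' (p n) = q n

/-- Mathlib's `IsBaseChange` (for any choice of instances) gives `IsBaseChangeAlong`. -/
theorem IsBaseChangeAlong.of_isBaseChange [Algebra S S'] [Module S N'] [IsScalarTower S S' N']
    (f : N →ₗ[S] N') (hf : IsBaseChange S' f) :
    IsBaseChangeAlong (algebraMap S S') f.toAddMonoidHom := by
  refine ⟨fun s n => ?_, fun Q _ _ q hq => ?_⟩
  · change f (s • n) = algebraMap S S' s • f n
    rw [f.map_smul, algebraMap_smul]
  · let _ : Module S Q := Module.compHom Q (algebraMap S S')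
    have : IsScalarTower S S' Q := ⟨fun s s' x => by
      change (s • s') • x = algebraMap S S' s • (s' • x)
      rw [Algebra.smul_def, mul_smul]⟩
    let ql : N →ₗ[S] Q := { toFun := q, map_add' := q.map_add, map_smul' := fun s n => hq s n }
    refine ⟨hf.lift ql, fun n => hf.lift_eq ql n, fun q' hq' => ?_⟩
    apply hf.algHom_ext'
    ext n
    simp only [LinearMap.coe_comp, LinearMap.coe_restrictScalars, Function.comp_apply]
    rw [hf.lift_eq]
    exact hq' n

/-- **Transport of a base change along ring isomorphisms.** If `p : N →+ N'` is a base change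
along `g : S →+* S'`, the rings `S`, `S'` are identified with `A`, `A'` compatibly with
`A → A'` and `g`, and `e : M ≃+ N` is semilinear, then `N'` is `A' ⊗[A] M`. -/
theorem exists_tensor_addEquiv {A A' : Type u} [CommRing A] [CommRing A'] [Algebra A A']
    {M : Type u} [AddCommGroup M] [Module A M]
    (γ : A ≃+* S) (γ' : A' ≃+* S') (g : S →+* S')
    (hγ : ∀ a, γ' (algebraMap A A' a) = g (γ a))
    (e : M ≃+ N) (he : ∀ (a : A) (m : M), e (a • m) = γ a • e m)
    (p : N →+ N') (hp : IsBaseChangeAlong g p) :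
    ∃ e' : A' ⊗[A] M ≃+ N', (∀ (a' : A') (m : M), e' (a' ⊗ₜ[A] m) = γ' a' • p (e m)) ∧
      ∀ (a' : A') (z : A' ⊗[A] M), e' (a' • z) = γ' a' • e' z := by
  obtain ⟨hsemi, huniv⟩ := hp
  -- the forward map
  let f : A' →+ M →+ N' :=
    AddMonoidHom.mk' (fun a' => AddMonoidHom.mk' (fun m => γ' a' • p (e m))
      (fun m m' => by simp [smul_add]))
      (fun a' b' => by ext m; simp [add_smul])
  have hf : ∀ (r : A) (a' : A') (m : M), f (r • a') m = f a' (r • m) := by
    intro r a' m
    change γ' (r • a') • p (e m) = γ' a' • p (e (r • m))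
    rw [he, hsemi, Algebra.smul_def, map_mul, hγ, mul_smul, smul_smul, smul_smul, mul_comm]
  let F : A' ⊗[A] M →+ N' := TensorProduct.liftAddHom f hf
  have hF : ∀ (a' : A') (m : M), F (a' ⊗ₜ[A] m) = γ' a' • p (e m) := fun a' m => rfl
  have hFsemi : ∀ (a' : A') (z : A' ⊗[A] M), F (a' • z) = γ' a' • F z := by
    intro a' z
    induction z using TensorProduct.induction_on with
    | zero => simp
    | tmul b m => rw [TensorProduct.smul_tmul', hF, hF, smul_eq_mul, map_mul, mul_smul]
    | add x y hx hy => rw [smul_add, map_add, map_add, hx, hy, smul_add]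
  -- the backward map, from the universal property
  let _ : Module S' (A' ⊗[A] M) := Module.compHom (A' ⊗[A] M) (γ'.symm : S' →+* A')
  have hsmul : ∀ (s' : S') (z : A' ⊗[A] M), s' • z = γ'.symm s' • z := fun _ _ => rfl
  let q : N →+ A' ⊗[A] M :=
    AddMonoidHom.mk' (fun n => (1 : A') ⊗ₜ[A] e.symm n) (fun n n' => by simp [TensorProduct.tmul_add])
  have hesymm : ∀ (s : S) (n : N), e.symm (s • n) = γ.symm s • e.symm n := by
    intro s n
    apply e.injective
    rw [he]
    simp
  have hγsymm : ∀ s : S, γ'.symm (g s) = algebraMap A A' (γ.symm s) := by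
    intro s
    apply γ'.injective
    rw [hγ]
    simp
  have hq : ∀ (s : S) (n : N), q (s • n) = g s • q n := by
    intro s n
    change (1 : A') ⊗ₜ[A] e.symm (s • n) = γ'.symm (g s) • ((1 : A') ⊗ₜ[A] e.symm n)
    rw [hesymm, hγsymm, TensorProduct.smul_tmul', smul_eq_mul, mul_one,
      ← TensorProduct.smul_tmul, Algebra.smul_def, mul_one]
  obtain ⟨q', hq', -⟩ := huniv (A' ⊗[A] M) q hq
  have hq'F : ∀ z : A' ⊗[A] M, q' (F z) = z := by
    intro z
    induction z using TensorProduct.induction_on with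
    | zero => simp
    | tmul a' m =>
      rw [hF, q'.map_smul, hq', hsmul]
      change γ'.symm (γ' a') • ((1 : A') ⊗ₜ[A] e.symm (e m)) = a' ⊗ₜ[A] m
      rw [RingEquiv.symm_apply_apply, AddEquiv.symm_apply_apply, TensorProduct.smul_tmul',
        smul_eq_mul, mul_one]
    | add x y hx hy => rw [map_add, map_add, hx, hy]
  have hFq' : ∀ n' : N', F (q' n') = n' := by
    obtain ⟨r, -, hr⟩ := huniv N' p hsemi
    let Fq : N' →ₗ[S'] N' :=
      { toFun := fun n' => F (q' n')
        map_add' := fun x y => by rw [map_add, map_add]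
        map_smul' := fun s' x => by
          rw [q'.map_smul, hsmul, hFsemi, RingEquiv.apply_symm_apply]
          rfl }
    have h1 : Fq = r := hr Fq (fun n => by
      change F (q' (p n)) = p n
      rw [hq']
      change γ' 1 • p (e (e.symm n)) = p n
      rw [map_one, one_smul, AddEquiv.apply_symm_apply])
    have h2 : LinearMap.id = r := hr LinearMap.id (fun n => rfl)
    intro n'
    have h3 : Fq = LinearMap.id := h1.trans h2.symm
    exact congrArg (fun φ : N' →ₗ[S'] N' => φ n') h3
  refine ⟨{ toFun := F, invFun := q', left_inv := hq'F, right_inv := hFq', map_add' := F.map_add },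
    hF, hFsemi⟩

/-- The `letI`-form of `helper8492` gives the universal-property form. -/
theorem isBaseChangeAlong_of_pullSecForm (g : S →+* S') (p : N →+ N')
    (H : helper8492.IsBaseChangeAlong g p) : IsBaseChangeAlong g p := by
  letI := g.toAlgebra
  letI : Module S N' := Module.compHom N' g
  haveI : IsScalarTower S S' N' := IsScalarTower.of_algebraMap_smul fun _ _ => rfl
  obtain ⟨hs, hbc⟩ := H
  exact IsBaseChangeAlong.of_isBaseChange
    ({ toFun := p, map_add' := p.map_add, map_smul' := hs } : N →ₗ[S] N') hbc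

end Algebra

/-! ## The chart opens and their rings under base change -/

section Geometry

open CategoryTheory CategoryTheory.Limits AlgebraicGeometry Opposite
open AlgebraicGeometry.RelPicard NeronModelInfra Fermat.Agent.S25.helper1705
  Fermat.Agent.S25.helper2911 Fermat.Agent.S25.helper2945 Fermat.Agent.S25.helper7939

variable {k : Type u} [Field k] {C : Scheme.{u}} {c : C ⟶ Spec (CommRingCat.of k)}
  {ε : SchemeHomOver (𝟙 (Spec (CommRingCat.of k))) c} {D : CurveDatum k}
  (R : Realization c ε D) {B B' : Type u} [CommRing B] [Algebra k B] [CommRing B'] [Algebra k B']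
  (φ : B →ₐ[k] B')

/-- The base change morphism `C ×ₖ Spec B' ⟶ C ×ₖ Spec B` of the dictionary. -/
noncomputable abbrev bcMap (c : C ⟶ Spec (CommRingCat.of k)) (φ : B →ₐ[k] B') :
    pullback c (specStr k B') ⟶ pullback c (specStr k B) :=
  baseChangeSnd c (⟨Spec.map (CommRingCat.ofHom φ.toRingHom), specAlg_specStr φ⟩ :
    SchemeHomOver (specStr k B') (specStr k B))

theorem U₀_le_preimage : U₀ R B' ≤ bcMap c φ ⁻¹ᵁ U₀ R B :=
  opensRange_le_preimage (realChart₀_baseChangeSnd R B φ)

theorem U₁_le_preimage : U₁ R B' ≤ bcMap c φ ⁻¹ᵁ U₁ R B :=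
  opensRange_le_preimage (realChart₁_baseChangeSnd R B φ)

theorem U₀₁_le_preimage : U₀₁ R B' ≤ bcMap c φ ⁻¹ᵁ U₀₁ R B :=
  fun _ hp => ⟨U₀_le_preimage R φ hp.1, U₁_le_preimage R φ hp.2⟩

theorem γ₀_appLE (r : Γ(pullback c (specStr k B), U₀ R B)) :
    γ₀ R B' ((bcMap c φ).appLE (U₀ R B) (U₀ R B') (U₀_le_preimage R φ) r) =
      D.map₀ φ (γ₀ R B r) := by
  have h := appLE_chartRingHom (realChart₀ R B) (realChart₀ R B') (bcMap c φ)
    (CommRingCat.ofHom (D.map₀ φ).toRingHom) (realChart₀_baseChangeSnd R B φ)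
  exact congrArg (fun f => f.hom r) h

theorem γ₁_appLE (r : Γ(pullback c (specStr k B), U₁ R B)) :
    γ₁ R B' ((bcMap c φ).appLE (U₁ R B) (U₁ R B') (U₁_le_preimage R φ) r) =
      D.map₁ φ (γ₁ R B r) := by
  have h := appLE_chartRingHom (realChart₁ R B) (realChart₁ R B') (bcMap c φ)
    (CommRingCat.ofHom (D.map₁ φ).toRingHom) (realChart₁_baseChangeSnd R B φ)
  exact congrArg (fun f => f.hom r) h

theorem realChart₀₁_bcMap :
    realChart₀₁ R B' ≫ bcMap c φ =
      Spec.map (CommRingCat.ofHom (D.map₀₁ φ).toRingHom) ≫ realChart₀₁ R B := by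
  unfold realChart₀₁
  rw [Category.assoc, realChart₀_baseChangeSnd R B φ, ← Category.assoc, ← Category.assoc,
    ← Spec.map_comp, ← Spec.map_comp]
  congr 2
  refine CommRingCat.hom_ext (RingHom.ext fun a => ?_)
  exact res₀_map₀ D φ a

theorem γ₀₁_appLE (r : Γ(pullback c (specStr k B), U₀₁ R B)) :
    γ₀₁ R B' ((bcMap c φ).appLE (U₀₁ R B) (U₀₁ R B') (U₀₁_le_preimage R φ) r) =
      D.map₀₁ φ (γ₀₁ R B r) := by
  have h := appLE_chartRingHom (realChart₀₁ R B) (realChart₀₁ R B') (bcMap c φ)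
    (CommRingCat.ofHom (D.map₀₁ φ).toRingHom) (realChart₀₁_bcMap R φ)
  have h1 : (bcMap c φ).appLE (U₀₁ R B) (U₀₁ R B') (U₀₁_le_preimage R φ) ≫
      (pullback c (specStr k B')).presheaf.map (eqToHom (opensRange_realChart₀₁ R B')).op ≫
        chartRingHom (realChart₀₁ R B') =
      (pullback c (specStr k B)).presheaf.map (eqToHom (opensRange_realChart₀₁ R B)).op ≫
        chartRingHom (realChart₀₁ R B) ≫ CommRingCat.ofHom (D.map₀₁ φ).toRingHom := by
    rw [← h, Scheme.Hom.appLE_map_assoc, Scheme.Hom.map_appLE_assoc]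
  exact congrArg (fun f => f.hom r) h1

/-! ## Base change of the sections datum -/

open Fermat.Agent.S25.helper8492 in
/-- **Core of `models_baseChange`.** If the canonical pullback-of-sections maps over the three
chart opens are base changes, then a sections datum of `L` for `G` induces a sections datum of
the pullback of `L` for `G.baseChange φ`. -/
theorem nonempty_secIso_baseChange (L : (pullback c (specStr k B)).Modules) (G : GlueDatum D B)
    (s : SecIso R L G)
    (h₀ : helper8492.IsBaseChangeAlong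
      ((bcMap c φ).appLE (U₀ R B) (U₀ R B') (U₀_le_preimage R φ)).hom
      (pullSec (bcMap c φ) L (U₀ R B) (U₀ R B') (U₀_le_preimage R φ)))
    (h₁ : helper8492.IsBaseChangeAlong
      ((bcMap c φ).appLE (U₁ R B) (U₁ R B') (U₁_le_preimage R φ)).hom
      (pullSec (bcMap c φ) L (U₁ R B) (U₁ R B') (U₁_le_preimage R φ)))
    (h₀₁ : helper8492.IsBaseChangeAlong
      ((bcMap c φ).appLE (U₀₁ R B) (U₀₁ R B') (U₀₁_le_preimage R φ)).hom
      (pullSec (bcMap c φ) L (U₀₁ R B) (U₀₁ R B') (U₀₁_le_preimage R φ))) :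
    Nonempty (SecIso R ((Scheme.Modules.pullback (bcMap c φ)).obj L) (G.baseChange φ)) := by
  letI := algA₀ D φ
  letI := algA₁ D φ
  letI := algA₀₁ D φ
  letI := algA₀A₀₁ D φ
  letI := algA₁A₀₁ D φ
  haveI := tower_A₀_A₀₁_A₀₁' D φ
  haveI := tower_A₀_A₀'_A₀₁' D φ
  haveI := tower_A₁_A₀₁_A₀₁' D φ
  haveI := tower_A₁_A₁'_A₀₁' D φ
  -- the three comparison isomorphisms
  obtain ⟨E₀, hE₀t, hE₀s⟩ := exists_tensor_addEquiv (A := D.A₀ B) (A' := D.A₀ B') (M := G.M₀)
    (γ₀ R B).symm (γ₀ R B').symm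
    ((bcMap c φ).appLE (U₀ R B) (U₀ R B') (U₀_le_preimage R φ)).hom
    (fun a => by
      apply (γ₀ R B').injective
      rw [RingEquiv.apply_symm_apply]
      exact ((γ₀_appLE R φ _).trans (congrArg _ ((γ₀ R B).apply_symm_apply a))).symm)
    s.e₀.symm
    (fun a m => by
      apply s.e₀.injective
      rw [AddEquiv.apply_symm_apply, s.smul₀, AddEquiv.apply_symm_apply,
        RingEquiv.apply_symm_apply])
    (pullSec (bcMap c φ) L (U₀ R B) (U₀ R B') (U₀_le_preimage R φ))
    (isBaseChangeAlong_of_pullSecForm _ _ h₀)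
  obtain ⟨E₁, hE₁t, hE₁s⟩ := exists_tensor_addEquiv (A := D.A₁ B) (A' := D.A₁ B') (M := G.M₁)
    (γ₁ R B).symm (γ₁ R B').symm
    ((bcMap c φ).appLE (U₁ R B) (U₁ R B') (U₁_le_preimage R φ)).hom
    (fun a => by
      apply (γ₁ R B').injective
      rw [RingEquiv.apply_symm_apply]
      exact ((γ₁_appLE R φ _).trans (congrArg _ ((γ₁ R B).apply_symm_apply a))).symm)
    s.e₁.symm
    (fun a m => by
      apply s.e₁.injective
      rw [AddEquiv.apply_symm_apply, s.smul₁, AddEquiv.apply_symm_apply,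
        RingEquiv.apply_symm_apply])
    (pullSec (bcMap c φ) L (U₁ R B) (U₁ R B') (U₁_le_preimage R φ))
    (isBaseChangeAlong_of_pullSecForm _ _ h₁)
  obtain ⟨E₀₁, hE₀₁t, hE₀₁s⟩ := exists_tensor_addEquiv (A := D.A₀₁ B) (A' := D.A₀₁ B')
    (M := G.M₀₁) (γ₀₁ R B).symm (γ₀₁ R B').symm
    ((bcMap c φ).appLE (U₀₁ R B) (U₀₁ R B') (U₀₁_le_preimage R φ)).hom
    (fun a => by
      apply (γ₀₁ R B').injective
      rw [RingEquiv.apply_symm_apply]
      exact ((γ₀₁_appLE R φ _).trans (congrArg _ ((γ₀₁ R B).apply_symm_apply a))).symm)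
    s.e₀₁.symm
    (fun a m => by
      apply s.e₀₁.injective
      rw [AddEquiv.apply_symm_apply, s.smul₀₁, AddEquiv.apply_symm_apply,
        RingEquiv.apply_symm_apply])
    (pullSec (bcMap c φ) L (U₀₁ R B) (U₀₁ R B') (U₀₁_le_preimage R φ))
    (isBaseChangeAlong_of_pullSecForm _ _ h₀₁)
  -- compatibility with the restriction maps
  have hle₀ : U₀₁ R B ≤ U₀ R B := inf_le_left
  have hle₁ : U₀₁ R B ≤ U₁ R B := inf_le_right
  have hle₀' : U₀₁ R B' ≤ U₀ R B' := inf_le_left
  have hle₁' : U₀₁ R B' ≤ U₁ R B' := inf_le_right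
  have hρ₀ : ∀ z : D.A₀ B' ⊗[D.A₀ B] G.M₀,
      E₀₁ ((G.baseChange φ).ρ₀ z) =
        res ((Scheme.Modules.pullback (bcMap c φ)).obj L) hle₀' (E₀ z) := by
    intro z
    refine TensorProduct.induction_on z ?_ ?_ ?_
    · rw [map_zero E₀, map_zero]
      exact (congrArg E₀₁ (map_zero (G.baseChange φ).ρ₀)).trans (map_zero E₀₁)
    · intro a m
      have e1 : (G.baseChange φ).ρ₀ (a ⊗ₜ[D.A₀ B] m) =
          (algebraMap (D.A₀ B') (D.A₀₁ B') a ⊗ₜ[D.A₀₁ B] G.ρ₀ m :
            D.A₀₁ B' ⊗[D.A₀₁ B] G.M₀₁) :=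
        sqBaseChange_tmul (S := D.A₀₁ B) (S' := D.A₀₁ B') G.ρ₀ a m
      have e2 : s.e₀₁.symm (G.ρ₀ m) = res L hle₀ (s.e₀.symm m) := by
        apply s.e₀₁.injective
        rw [AddEquiv.apply_symm_apply]
        exact ((s.comm₀ _).trans (congrArg _ (s.e₀.apply_symm_apply m))).symm
      have e3 : (γ₀₁ R B').symm (algebraMap (D.A₀ B') (D.A₀₁ B') a) =
          ((pullback c (specStr k B')).presheaf.map (homOfLE hle₀').op).hom
            ((γ₀ R B').symm a) := by
        apply (γ₀₁ R B').injective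
        rw [RingEquiv.apply_symm_apply]
        exact ((γ₀₁_res₀ R B' _).trans (congrArg _ ((γ₀ R B').apply_symm_apply a))).symm
      calc E₀₁ ((G.baseChange φ).ρ₀ (a ⊗ₜ[D.A₀ B] m))
          = E₀₁ (algebraMap (D.A₀ B') (D.A₀₁ B') a ⊗ₜ[D.A₀₁ B] G.ρ₀ m) := congrArg E₀₁ e1
        _ = (γ₀₁ R B').symm (algebraMap (D.A₀ B') (D.A₀₁ B') a) •
              pullSec (bcMap c φ) L (U₀₁ R B) (U₀₁ R B') (U₀₁_le_preimage R φ)
                (s.e₀₁.symm (G.ρ₀ m)) := hE₀₁t _ _
        _ = ((pullback c (specStr k B')).presheaf.map (homOfLE hle₀').op).hom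
              ((γ₀ R B').symm a) •
              pullSec (bcMap c φ) L (U₀₁ R B) (U₀₁ R B') (U₀₁_le_preimage R φ)
                (res L hle₀ (s.e₀.symm m)) := by rw [e2, e3]
        _ = ((pullback c (specStr k B')).presheaf.map (homOfLE hle₀').op).hom
              ((γ₀ R B').symm a) •
              res ((Scheme.Modules.pullback (bcMap c φ)).obj L) hle₀'
                (pullSec (bcMap c φ) L (U₀ R B) (U₀ R B') (U₀_le_preimage R φ)
                  (s.e₀.symm m)) := by
            rw [pullSec_res (bcMap c φ) L (U₀_le_preimage R φ) (U₀₁_le_preimage R φ) hle₀ hle₀']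
        _ = res ((Scheme.Modules.pullback (bcMap c φ)).obj L) hle₀'
              ((γ₀ R B').symm a •
                pullSec (bcMap c φ) L (U₀ R B) (U₀ R B') (U₀_le_preimage R φ)
                  (s.e₀.symm m)) := (res_smul _ _ _ _).symm
        _ = res ((Scheme.Modules.pullback (bcMap c φ)).obj L) hle₀' (E₀ (a ⊗ₜ[D.A₀ B] m)) := by
            rw [hE₀t]
    · intro x y hx hy
      rw [map_add E₀, map_add, ← hx, ← hy]
      exact (congrArg E₀₁ (map_add (G.baseChange φ).ρ₀ x y)).trans (map_add E₀₁ _ _)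
  have hρ₁ : ∀ z : D.A₁ B' ⊗[D.A₁ B] G.M₁,
      E₀₁ ((G.baseChange φ).ρ₁ z) =
        res ((Scheme.Modules.pullback (bcMap c φ)).obj L) hle₁' (E₁ z) := by
    intro z
    refine TensorProduct.induction_on z ?_ ?_ ?_
    · rw [map_zero E₁, map_zero]
      exact (congrArg E₀₁ (map_zero (G.baseChange φ).ρ₁)).trans (map_zero E₀₁)
    · intro a m
      have e1 : (G.baseChange φ).ρ₁ (a ⊗ₜ[D.A₁ B] m) =
          (algebraMap (D.A₁ B') (D.A₀₁ B') a ⊗ₜ[D.A₀₁ B] G.ρ₁ m :
            D.A₀₁ B' ⊗[D.A₀₁ B] G.M₀₁) :=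
        sqBaseChange_tmul (S := D.A₀₁ B) (S' := D.A₀₁ B') G.ρ₁ a m
      have e2 : s.e₀₁.symm (G.ρ₁ m) = res L hle₁ (s.e₁.symm m) := by
        apply s.e₀₁.injective
        rw [AddEquiv.apply_symm_apply]
        exact ((s.comm₁ _).trans (congrArg _ (s.e₁.apply_symm_apply m))).symm
      have e3 : (γ₀₁ R B').symm (algebraMap (D.A₁ B') (D.A₀₁ B') a) =
          ((pullback c (specStr k B')).presheaf.map (homOfLE hle₁').op).hom
            ((γ₁ R B').symm a) := by
        apply (γ₀₁ R B').injective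
        rw [RingEquiv.apply_symm_apply]
        exact ((γ₀₁_res₁ R B' _).trans (congrArg _ ((γ₁ R B').apply_symm_apply a))).symm
      calc E₀₁ ((G.baseChange φ).ρ₁ (a ⊗ₜ[D.A₁ B] m))
          = E₀₁ (algebraMap (D.A₁ B') (D.A₀₁ B') a ⊗ₜ[D.A₀₁ B] G.ρ₁ m) := congrArg E₀₁ e1
        _ = (γ₀₁ R B').symm (algebraMap (D.A₁ B') (D.A₀₁ B') a) •
              pullSec (bcMap c φ) L (U₀₁ R B) (U₀₁ R B') (U₀₁_le_preimage R φ)
                (s.e₀₁.symm (G.ρ₁ m)) := hE₀₁t _ _
        _ = ((pullback c (specStr k B')).presheaf.map (homOfLE hle₁').op).hom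
              ((γ₁ R B').symm a) •
              pullSec (bcMap c φ) L (U₀₁ R B) (U₀₁ R B') (U₀₁_le_preimage R φ)
                (res L hle₁ (s.e₁.symm m)) := by rw [e2, e3]
        _ = ((pullback c (specStr k B')).presheaf.map (homOfLE hle₁').op).hom
              ((γ₁ R B').symm a) •
              res ((Scheme.Modules.pullback (bcMap c φ)).obj L) hle₁'
                (pullSec (bcMap c φ) L (U₁ R B) (U₁ R B') (U₁_le_preimage R φ)
                  (s.e₁.symm m)) := by
            rw [pullSec_res (bcMap c φ) L (U₁_le_preimage R φ) (U₀₁_le_preimage R φ) hle₁ hle₁']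
        _ = res ((Scheme.Modules.pullback (bcMap c φ)).obj L) hle₁'
              ((γ₁ R B').symm a •
                pullSec (bcMap c φ) L (U₁ R B) (U₁ R B') (U₁_le_preimage R φ)
                  (s.e₁.symm m)) := (res_smul _ _ _ _).symm
        _ = res ((Scheme.Modules.pullback (bcMap c φ)).obj L) hle₁' (E₁ (a ⊗ₜ[D.A₁ B] m)) := by
            rw [hE₁t]
    · intro x y hx hy
      rw [map_add E₁, map_add, ← hx, ← hy]
      exact (congrArg E₀₁ (map_add (G.baseChange φ).ρ₁ x y)).trans (map_add E₀₁ _ _)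
  exact ⟨{
    e₀ := E₀.symm
    e₁ := E₁.symm
    e₀₁ := E₀₁.symm
    smul₀ := fun r t => E₀.injective ((E₀.apply_symm_apply _).trans
      (((hE₀s _ _).trans (congrArg₂ (· • ·) ((γ₀ R B').symm_apply_apply r)
        (E₀.apply_symm_apply t))).symm))
    smul₁ := fun r t => E₁.injective ((E₁.apply_symm_apply _).trans
      (((hE₁s _ _).trans (congrArg₂ (· • ·) ((γ₁ R B').symm_apply_apply r)
        (E₁.apply_symm_apply t))).symm))
    smul₀₁ := fun r t => E₀₁.injective ((E₀₁.apply_symm_apply _).trans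
      (((hE₀₁s _ _).trans (congrArg₂ (· • ·) ((γ₀₁ R B').symm_apply_apply r)
        (E₀₁.apply_symm_apply t))).symm))
    comm₀ := fun t => E₀₁.injective ((E₀₁.apply_symm_apply _).trans
      (((hρ₀ (E₀.symm t)).trans (congrArg _ (E₀.apply_symm_apply t))).symm))
    comm₁ := fun t => E₀₁.injective ((E₀₁.apply_symm_apply _).trans
      (((hρ₁ (E₁.symm t)).trans (congrArg _ (E₁.apply_symm_apply t))).symm)) }⟩

/-- **P8-opens**, the one input of `models_baseChange` (statement only): for a morphism of schemes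
`f : Y ⟶ X`, a quasi-coherent module `M` on `X` and affine opens `V ⊆ X`, `W ⊆ Y` with
`W ≤ f ⁻¹ᵁ V`, the canonical map `Γ(M, V) → Γ(f^* M, W)` is a base change along
`Γ(X, V) → Γ(Y, W)`. -/
def Stmt_PullSecOpens : Prop :=
  ∀ {X Y : Scheme.{u}} (f : Y ⟶ X) (M : X.Modules) [M.IsQuasicoherent] (V : X.Opens)
    (W : Y.Opens) (h : W ≤ f ⁻¹ᵁ V), IsAffineOpen V → IsAffineOpen W →
      helper8492.IsBaseChangeAlong (f.appLE V W h).hom (helper8492.pullSec f M V W h)

/-- **Field `models_baseChange` of the dictionary**, from P8-opens. -/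
theorem stmt_BaseChange_of (hS5 : Stmt_PullSecOpens.{u}) (R : Realization c ε D) :
    Stmt_BaseChange R := by
  intro B B' _ _ _ _ φ L G hLG
  obtain ⟨hL, ⟨s⟩⟩ := hLG
  haveI := helper845.isQuasicoherent_of_isInvertible L hL
  exact ⟨hL.pullback _, nonempty_secIso_baseChange R φ L G s
    (hS5 _ L _ _ _ (isAffineOpen_U₀ R B) (isAffineOpen_U₀ R B'))
    (hS5 _ L _ _ _ (isAffineOpen_U₁ R B) (isAffineOpen_U₁ R B'))
    (hS5 _ L _ _ _ (isAffineOpen_U₀₁ R B) (isAffineOpen_U₀₁ R B'))⟩

end Geometry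

end Fermat.Agent.S25.helper8915
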