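import Fermat.Agent.S25.helper905_LatticeCoh

/-!
# S25 brick LC8: the Euler characteristic of a two-chart lattice pair is locally constant
(helper905; independent route for registry leaf LC-CHI)

Setting of `helper905_LatticeCoh`: `B` a commutative ring, `N` a `B`-module with an automorphism
`T`, lattices `Λ₀`, `Λ₁` with trivializations `c₀ : LatticeTriv T Λ₀`, `c₁ : LatticeTriv T.symm Λ₁`.

Main result `LatticeTriv.exists_isLocallyConstant_chi`: there is a locally constant function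
`f : PrimeSpectrum B → ℤ` such that for EVERY field `K` over `B` and EVERY base change
`β : N → N'` of `N` to `K`, the spaces `H⁰ = Λ₀' ⊓ Λ₁'` and `H¹ = N' ⧸ (Λ₀' ⊔ Λ₁')` of the
base-changed lattices are finite dimensional and `dim H⁰ - dim H¹ = f (ker (B → K))`.

No noetherian hypothesis, no flatness lemma: for `m ≫ 0` one has `B`-linear splittings
`N = Λ₀ ⊕ T^(-m)Λ₁ ⊕ C` and `Λ₁ = T^(-m)Λ₁ ⊕ E` with `E`, `C` finite projective, and
`f = rank E - rank C`.
-/

set_option autoImplicit false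

open Submodule

namespace Fermat.Agent.S25.helper905

section ChiData

universe u v

variable {B : Type u} [CommRing B] {N : Type v} [AddCommGroup N] [Module B N]

/-- Splitting data computing the Euler characteristic of a pair of lattices `Λ₀`, `Λ₁`:
a sublattice `Λ' ≤ Λ₁` in direct sum position with `Λ₀` (complementary projections `d`) and an
idempotent `ε` with `Λ₁ = Λ' ⊕ range ε`. -/
structure ChiData (Λ₀ Λ₁ : Submodule B N) : Type v where
  Λ' : Submodule B N
  le : Λ' ≤ Λ₁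
  d : DirectData Λ₀ Λ'
  ε : N →ₗ[B] N
  ε_mem : ∀ n, ε n ∈ Λ₁
  ε_zero : ∀ n ∈ Λ', ε n = 0
  ε_sub : ∀ n ∈ Λ₁, n - ε n ∈ Λ'
  ε_idem : ∀ n, ε (ε n) = ε n

namespace ChiData

variable {Λ₀ Λ₁ : Submodule B N} (cd : ChiData Λ₀ Λ₁)

/-- The complement of `Λ'` in `Λ₁`. -/
def E : Submodule B N := LinearMap.range cd.ε

/-- The projection onto the complement of `Λ₀ ⊕ Λ'` in `N`. -/
def κ : N →ₗ[B] N := LinearMap.id - (cd.d.π + cd.d.π')

/-- The complement of `Λ₀ ⊕ Λ'` in `N`. -/
def C : Submodule B N := LinearMap.range cd.κ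

theorem κ_apply (n : N) : cd.κ n = n - (cd.d.π n + cd.d.π' n) := rfl

theorem κ_eq_zero {n : N} (hn : n ∈ Λ₀ ⊔ cd.Λ') : cd.κ n = 0 := by
  rw [κ_apply, cd.d.add_eq hn, sub_self]

theorem κ_idem (n : N) : cd.κ (cd.κ n) = cd.κ n := by
  have h : cd.κ (cd.d.π n + cd.d.π' n) = 0 := cd.κ_eq_zero (cd.d.add_mem n)
  conv_lhs => rw [κ_apply cd n, map_sub, h, sub_zero]

theorem ker_κ : LinearMap.ker cd.κ = Λ₀ ⊔ cd.Λ' := by
  apply le_antisymm
  · intro n hn
    rw [LinearMap.mem_ker, κ_apply, sub_eq_zero] at hn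
    rw [hn]
    exact cd.d.add_mem n
  · intro n hn
    exact cd.κ_eq_zero hn

theorem ε_eq_self {n : N} (hn : n ∈ cd.E) : cd.ε n = n := by
  obtain ⟨x, rfl⟩ := hn
  exact cd.ε_idem x

theorem E_le : cd.E ≤ Λ₁ := by
  rintro _ ⟨x, rfl⟩
  exact cd.ε_mem x

theorem sup_E : cd.Λ' ⊔ cd.E = Λ₁ := by
  apply le_antisymm
  · exact sup_le cd.le cd.E_le
  · intro l hl
    have : l = (l - cd.ε l) + cd.ε l := by abel
    rw [this]
    exact Submodule.add_mem_sup (cd.ε_sub l hl) ⟨l, rfl⟩

include cd in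
theorem projective_E [Module.Projective B N] : Module.Projective B ↥cd.E :=
  Module.Projective.of_split cd.E.subtype (cd.ε.codRestrict cd.E (fun n => ⟨n, rfl⟩)) (by
    ext x
    simp only [LinearMap.coe_comp, Submodule.coe_subtype, Function.comp_apply,
      LinearMap.id_coe, id_eq]
    exact cd.ε_eq_self x.2)

include cd in
theorem projective_C [Module.Projective B N] : Module.Projective B ↥cd.C :=
  Module.Projective.of_split cd.C.subtype (cd.κ.codRestrict cd.C (fun n => ⟨n, rfl⟩)) (by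
    ext x
    simp only [LinearMap.coe_comp, Submodule.coe_subtype, Function.comp_apply,
      LinearMap.id_coe, id_eq]
    obtain ⟨y, hy⟩ := x.2
    rw [← hy]
    exact cd.κ_idem y)

end ChiData

end ChiData

/-! ### The index over a field -/

section FieldIndex

variable {K : Type*} [Field K] {V : Type*} [AddCommGroup V] [Module K V]

/-- Lattice index lemma over a field: for subspaces `U`, `F` of `V` with `F` and `V ⧸ U` finite
dimensional, `dim (U ⊓ F) - dim (V ⧸ (U ⊔ F)) = dim F - dim (V ⧸ U)`. -/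
theorem finrank_inf_sub_finrank_quotient_sup' (U F : Submodule K V) [FiniteDimensional K F]
    [FiniteDimensional K (V ⧸ U)] :
    ((Module.finrank K (U ⊓ F : Submodule K V) : ℤ) - Module.finrank K (V ⧸ (U ⊔ F))
      = Module.finrank K F - Module.finrank K (V ⧸ U)) := by
  set g : F →ₗ[K] V ⧸ U := U.mkQ ∘ₗ F.subtype with hg
  have h1 := LinearMap.finrank_range_add_finrank_ker g
  have hker : LinearMap.ker g = Submodule.comap F.subtype U := by
    rw [hg, LinearMap.ker_comp, Submodule.ker_mkQ]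
  have h2 : Module.finrank K (LinearMap.ker g) = Module.finrank K (U ⊓ F : Submodule K V) := by
    rw [hker, ← Submodule.finrank_map_subtype_eq F (Submodule.comap F.subtype U),
      Submodule.map_comap_subtype, inf_comm]
  have hrange : LinearMap.range g = Submodule.map U.mkQ F := by
    rw [hg, LinearMap.range_comp, Submodule.range_subtype]
  have h3 := Submodule.finrank_quotient_add_finrank (LinearMap.range g)
  have h4 : Module.finrank K ((V ⧸ U) ⧸ LinearMap.range g) =
      Module.finrank K (V ⧸ (U ⊔ F)) := by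
    rw [hrange]
    exact (Submodule.quotientQuotientEquivQuotientSup U F).finrank_eq
  omega

/-- **Index of a pair of lattices over a field from splitting data**: if the complements `E`
and `C` are finite dimensional then so are `H⁰ = A ⊓ L` and `H¹ = V ⧸ (A ⊔ L)`, and
`dim H⁰ - dim H¹ = dim E - dim C`. -/
theorem ChiData.index_field {A L : Submodule K V} (cd : ChiData A L)
    [FiniteDimensional K cd.E] [FiniteDimensional K cd.C] :
    FiniteDimensional K ↥(A ⊓ L) ∧ FiniteDimensional K (V ⧸ (A ⊔ L)) ∧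
      ((Module.finrank K ↥(A ⊓ L) : ℤ) - Module.finrank K (V ⧸ (A ⊔ L))
        = Module.finrank K cd.E - Module.finrank K cd.C) := by
  -- `V ⧸ (A ⊔ Λ') ≃ C`
  let eC : (V ⧸ (A ⊔ cd.Λ')) ≃ₗ[K] cd.C :=
    (Submodule.quotEquivOfEq _ _ cd.ker_κ.symm) ≪≫ₗ cd.κ.quotKerEquivRange
  have hfinU : FiniteDimensional K (V ⧸ (A ⊔ cd.Λ')) := Module.Finite.equiv eC.symm
  -- `(A ⊔ Λ') ⊔ E = A ⊔ L`
  have hsup : (A ⊔ cd.Λ') ⊔ cd.E = A ⊔ L := by
    rw [sup_assoc, cd.sup_E]
  -- `A ⊓ L ≃ (A ⊔ Λ') ⊓ E` via `ε`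
  have hmem : ∀ h : ↥(A ⊓ L), cd.ε h ∈ (A ⊔ cd.Λ') ⊓ cd.E := by
    intro h
    refine ⟨?_, ⟨h, rfl⟩⟩
    have e : cd.ε (h : V) = (h : V) - ((h : V) - cd.ε h) := by abel
    rw [SetLike.mem_coe, e]
    exact Submodule.sub_mem _ (Submodule.mem_sup_left h.2.1)
      (Submodule.mem_sup_right (cd.ε_sub _ h.2.2))
  let φ : ↥(A ⊓ L) →ₗ[K] ↥((A ⊔ cd.Λ') ⊓ cd.E) :=
    (cd.ε.domRestrict (A ⊓ L)).codRestrict _ hmem
  have hφinj : Function.Injective φ := by
    intro h h' hh
    have h1 : cd.ε (h : V) = cd.ε (h' : V) := congrArg Subtype.val hh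
    have h2 : ((h : V) - (h' : V)) ∈ A ⊓ cd.Λ' := by
      refine ⟨A.sub_mem h.2.1 h'.2.1, ?_⟩
      have e : (h : V) - (h' : V) = ((h : V) - (h' : V)) - cd.ε ((h : V) - (h' : V)) := by
        rw [map_sub, h1, sub_self, sub_zero]
      rw [SetLike.mem_coe, e]
      exact cd.ε_sub _ (L.sub_mem h.2.2 h'.2.2)
    rw [cd.d.inf_eq_bot, Submodule.mem_bot, sub_eq_zero] at h2
    exact Subtype.ext h2
  have hφsurj : Function.Surjective φ := by
    rintro ⟨e, he1, he2⟩
    obtain ⟨a, ha, t, ht, hat⟩ := Submodule.mem_sup.mp he1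
    have haL : a ∈ L := by
      have : a = e - t := by rw [← hat]; abel
      rw [this]
      exact L.sub_mem (cd.E_le he2) (cd.le ht)
    refine ⟨⟨a, ha, haL⟩, Subtype.ext ?_⟩
    change cd.ε a = e
    have : a = e - t := by rw [← hat]; abel
    rw [this, map_sub, cd.ε_zero t ht, sub_zero, cd.ε_eq_self he2]
  let eφ : ↥(A ⊓ L) ≃ₗ[K] ↥((A ⊔ cd.Λ') ⊓ cd.E) := LinearEquiv.ofBijective φ ⟨hφinj, hφsurj⟩
  have : FiniteDimensional K ↥((A ⊔ cd.Λ') ⊓ cd.E) :=
    Submodule.finiteDimensional_of_le inf_le_right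
  have hfin0 : FiniteDimensional K ↥(A ⊓ L) := Module.Finite.equiv eφ.symm
  have hfin1 : FiniteDimensional K (V ⧸ (A ⊔ L)) := by
    have hle : A ⊔ cd.Λ' ≤ A ⊔ L := sup_le_sup_left cd.le A
    exact Module.Finite.of_surjective (Submodule.factor hle) (Submodule.factor_surjective hle)
  refine ⟨hfin0, hfin1, ?_⟩
  have key := finrank_inf_sub_finrank_quotient_sup' (A ⊔ cd.Λ') cd.E
  rw [hsup] at key
  rw [eφ.finrank_eq, key, eC.finrank_eq]

end FieldIndex


/-! ### Existence of splitting data -/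

section Existence

universe u v

variable {B : Type u} [CommRing B] {N : Type v} [AddCommGroup N] [Module B N]
  {T : N ≃ₗ[B] N} {Λ₀ Λ₁ : Submodule B N}

theorem tw_symm (T : N ≃ₗ[B] N) (Λ : Submodule B N) (m : ℤ) : tw T.symm Λ m = tw T Λ (-m) := by
  ext n
  rw [mem_tw, mem_tw, symm_zpow]

/-- A trivialization maps degrees `≥ m` into the `m`-th twist of the lattice. -/
theorem LatticeTriv.p_mem_tw {Λ : Submodule B N} (c : LatticeTriv T Λ) (m : ℤ)
    {w : Std B c.r} (hw : w ∈ Dg B c.r (Set.Ici m)) : c.p w ∈ tw T Λ m := by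
  have h1 : (shift B c.r ^ (-m)) w ∈ Dg B c.r (Set.Ici 0) :=
    shift_zpow_mem_Dg (-m) (fun j hj => by simp only [Set.mem_Ici] at hj ⊢; omega) hw
  have h2 : w = (shift B c.r ^ m) ((shift B c.r ^ (-m)) w) := (zpow_apply_zpow_neg _ m w).symm
  rw [h2, c.p_zpow]
  exact zpow_mem_tw m (c.p_mem _ h1)

theorem sub_trunc_mem_Dg {r : ℕ} (m : ℤ) {v : Std B r} (hv : v ∈ Dg B r (Set.Ici 0)) :
    v - trunc B r (Set.Ico 0 m) v ∈ Dg B r (Set.Ici m) := by
  rw [mem_Dg] at hv ⊢
  intro j a hj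
  rw [Finsupp.sub_apply]
  by_cases h0 : j ∈ Set.Ico 0 m
  · rw [trunc_apply_of_mem v h0 a, sub_self]
  · rw [trunc_apply_of_notMem v h0 a, sub_zero]
    apply hv
    simp only [Set.mem_Ici, Set.mem_Ico, not_le, not_and, not_lt] at hj h0 ⊢
    omega

/-- **Existence of Euler characteristic splitting data** with finitely generated complements. -/
theorem LatticeTriv.exists_chiData (c₀ : LatticeTriv T Λ₀) (c₁ : LatticeTriv T.symm Λ₁) :
    ∃ cd : ChiData Λ₀ Λ₁, cd.E.FG ∧ cd.C.FG := by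
  obtain ⟨m₀, h⟩ := c₀.exists_directData c₁
  obtain ⟨d⟩ := h (m₀ : ℤ) le_rfl
  have hle : tw T Λ₁ (-(m₀ : ℤ)) ≤ Λ₁ := by
    have := tw_mono (T := T) (Λ := Λ₁) c₁.stable (m := -(m₀ : ℤ)) (m' := 0) (by omega)
    rwa [tw_zero] at this
  have hππ : ∀ x, d.π' (d.π' x) = d.π' x := fun x => d.π'_eq _ (d.π'_mem x)
  let ε : N →ₗ[B] N := c₁.retr - d.π' ∘ₗ c₁.retr
  have hε : ∀ n, ε n = c₁.retr n - d.π' (c₁.retr n) := fun n => rfl
  have hε_mem : ∀ n, ε n ∈ Λ₁ := fun n =>
    Λ₁.sub_mem (c₁.retr_mem n) (hle (d.π'_mem _))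
  have hε_retr : ∀ n, ε (c₁.retr n) = ε n := by
    intro n
    rw [hε, hε, c₁.retr_eq (c₁.retr_mem n)]
  have hε_zero : ∀ n ∈ tw T Λ₁ (-(m₀ : ℤ)), ε n = 0 := by
    intro n hn
    rw [hε, c₁.retr_eq (hle hn), d.π'_eq n hn, sub_self]
  let cd : ChiData Λ₀ Λ₁ :=
    { Λ' := tw T Λ₁ (-(m₀ : ℤ))
      le := hle
      d := d
      ε := ε
      ε_mem := hε_mem
      ε_zero := hε_zero
      ε_sub := by
        intro n hn
        have : n - ε n = d.π' n := by
          rw [hε, c₁.retr_eq hn]; abel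
        rw [this]
        exact d.π'_mem n
      ε_idem := by
        intro n
        have h1 : d.π' (ε n) = 0 := by
          rw [hε, map_sub, hππ, sub_self]
        rw [hε (ε n), c₁.retr_eq (hε_mem n), h1, sub_zero] }
  refine ⟨cd, ?_, ?_⟩
  · -- `E` is the image of the finite free module of degrees in `[0, m₀)`
    have hEq : cd.E = (Dg B c₁.r (Set.Ico 0 (m₀ : ℤ))).map (ε ∘ₗ c₁.p) := by
      apply le_antisymm
      · rintro _ ⟨n, rfl⟩
        change ε n ∈ _
        rw [← hε_retr n]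
        set v := trunc B c₁.r (Set.Ici 0) (c₁.i n) with hv
        have hvmem : v ∈ Dg B c₁.r (Set.Ici 0) := trunc_mem _ _
        have hretr : c₁.retr n = c₁.p v := rfl
        have h2 : c₁.p (v - trunc B c₁.r (Set.Ico 0 (m₀ : ℤ)) v) ∈ tw T Λ₁ (-(m₀ : ℤ)) := by
          have := c₁.p_mem_tw (m₀ : ℤ) (sub_trunc_mem_Dg (m₀ : ℤ) hvmem)
          rwa [tw_symm] at this
        have h3 : ε (c₁.p v) = ε (c₁.p (trunc B c₁.r (Set.Ico 0 (m₀ : ℤ)) v)) := by
          have e : c₁.p v = c₁.p (trunc B c₁.r (Set.Ico 0 (m₀ : ℤ)) v) +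
              c₁.p (v - trunc B c₁.r (Set.Ico 0 (m₀ : ℤ)) v) := by
            rw [← map_add]; congr 1; abel
          rw [e, map_add, hε_zero _ h2, add_zero]
        rw [hretr, h3]
        exact ⟨_, trunc_mem _ _, rfl⟩
      · rintro _ ⟨w, -, rfl⟩
        exact ⟨c₁.p w, rfl⟩
    rw [hEq]
    exact (Dg_fg (Set.finite_Ico _ _)).map _
  · -- `C` is the image of a finite set of generators of `H¹` of the negative twist
    obtain ⟨G, hG⟩ := ((c₀.isLatticePair c₁).tw_right (-(m₀ : ℤ))).exists_finset_sup_eq_top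
    have hEq : cd.C = (Submodule.span B (G : Set N)).map cd.κ := by
      apply le_antisymm
      · rintro _ ⟨n, rfl⟩
        have hn : n ∈ Λ₀ ⊔ tw T Λ₁ (-(m₀ : ℤ)) ⊔ Submodule.span B (G : Set N) := by
          rw [hG]; trivial
        obtain ⟨u, hu, g, hg, rfl⟩ := Submodule.mem_sup.mp hn
        refine ⟨g, hg, ?_⟩
        rw [map_add, cd.κ_eq_zero hu, zero_add]
      · rintro _ ⟨g, -, rfl⟩
        exact ⟨g, rfl⟩
    rw [hEq]
    exact (Submodule.fg_span G.finite_toSet).map _

end Existence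

/-! ### Base change and the main theorem -/

section BaseChange

universe u v u' v'

variable {B : Type u} [CommRing B] {N : Type v} [AddCommGroup N] [Module B N]
  {B' : Type u'} [CommRing B'] [Algebra B B'] {N' : Type v'} [AddCommGroup N']
  [Module B N'] [Module B' N'] [IsScalarTower B B' N'] {β : N →ₗ[B] N'}

theorem range_bcEnd (hβ : IsBaseChange B' β) (f : N →ₗ[B] N) :
    LinearMap.range (bcEnd hβ f) = bcSub B' β (LinearMap.range f) := by
  apply le_antisymm
  · rintro _ ⟨x, rfl⟩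
    exact bcEnd_mem hβ (fun n => LinearMap.mem_range_self f n) x
  · unfold bcSub
    rw [Submodule.span_le]
    rintro _ ⟨_, ⟨n, rfl⟩, rfl⟩
    exact ⟨β n, bcEnd_apply hβ f n⟩

/-- Base change of Euler characteristic splitting data. -/
noncomputable def ChiData.baseChange {Λ₀ Λ₁ : Submodule B N} (cd : ChiData Λ₀ Λ₁)
    (hβ : IsBaseChange B' β) : ChiData (bcSub B' β Λ₀) (bcSub B' β Λ₁) where
  Λ' := bcSub B' β cd.Λ'
  le := bcSub_mono cd.le
  d := cd.d.baseChange hβ
  ε := bcEnd hβ cd.ε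
  ε_mem := bcEnd_mem hβ cd.ε_mem
  ε_zero := fun _ hx => bcEnd_eq_zero hβ cd.ε_zero hx
  ε_sub := by
    intro x hx
    induction hx using Submodule.span_induction with
    | mem x hx =>
      obtain ⟨n, hn, rfl⟩ := hx
      rw [bcEnd_apply, ← map_sub]
      exact mem_bcSub_of_mem (cd.ε_sub n hn)
    | zero => simp
    | add x y _ _ hx hy =>
      have : x + y - bcEnd hβ cd.ε (x + y) = (x - bcEnd hβ cd.ε x) + (y - bcEnd hβ cd.ε y) := by
        rw [map_add]; abel
      rw [this]
      exact Submodule.add_mem _ hx hy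
    | smul b x _ hx =>
      have : b • x - bcEnd hβ cd.ε (b • x) = b • (x - bcEnd hβ cd.ε x) := by
        rw [map_smul, smul_sub]
      rw [this]
      exact Submodule.smul_mem _ b hx
  ε_idem := by
    intro x
    induction x using hβ.inductionOn with
    | zero => simp
    | tmul n => rw [bcEnd_apply, bcEnd_apply, cd.ε_idem]
    | smul b x hx => rw [map_smul, map_smul, hx]
    | add x y hx hy => rw [map_add, map_add, hx, hy]

theorem ChiData.baseChange_E {Λ₀ Λ₁ : Submodule B N} (cd : ChiData Λ₀ Λ₁)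
    (hβ : IsBaseChange B' β) : (cd.baseChange hβ).E = bcSub B' β cd.E :=
  range_bcEnd hβ cd.ε

theorem ChiData.baseChange_C {Λ₀ Λ₁ : Submodule B N} (cd : ChiData Λ₀ Λ₁)
    (hβ : IsBaseChange B' β) : (cd.baseChange hβ).C = bcSub B' β cd.C := by
  have h : (cd.baseChange hβ).κ = bcEnd hβ cd.κ := by
    apply hβ.algHom_ext
    intro n
    rw [bcEnd_apply, ChiData.κ_apply, ChiData.κ_apply]
    simp only [ChiData.baseChange, DirectData.baseChange, bcEnd_apply, map_sub, map_add]
  unfold ChiData.C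
  rw [h]
  exact range_bcEnd hβ cd.κ

/-- The dimension of the base change to a field of a finite projective direct summand is its
rank at the corresponding point of the spectrum. -/
theorem finrank_bcSub_eq_rankAtStalk {K : Type u'} [Field K] [Algebra B K] {N' : Type v'}
    [AddCommGroup N'] [Module B N'] [Module K N'] [IsScalarTower B K N'] {β : N →ₗ[B] N'}
    (hβ : IsBaseChange K β) (H : Submodule B N) (e : N →ₗ[B] N) (he : ∀ n, e n ∈ H)
    (he' : ∀ n ∈ H, e n = n) [Module.Finite B H] [Module.Projective B H] :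
    FiniteDimensional K ↥(bcSub K β H) ∧
      Module.finrank K ↥(bcSub K β H) =
        Module.rankAtStalk ↥H ⟨RingHom.ker (algebraMap B K), RingHom.ker_isPrime _⟩ := by
  have hb := isBaseChange_bcRestrict hβ H e he he'
  have hfin : FiniteDimensional K ↥(bcSub K β H) := Module.Finite.equiv hb.equiv
  refine ⟨hfin, ?_⟩
  have h1 := Module.rankAtStalk_isBaseChange hb ⟨⊥, Ideal.isPrime_bot⟩
  have h2 := congrFun (Module.rankAtStalk_eq_finrank_of_free (R := K) (M := ↥(bcSub K β H)))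
    ⟨⊥, Ideal.isPrime_bot⟩
  have h3 : Module.rankAtStalk ↥(bcSub K β H) ⟨⊥, Ideal.isPrime_bot⟩ =
      Module.finrank K ↥(bcSub K β H) := h2
  rw [← h3, h1]
  rfl

/-- **(LC8) The Euler characteristic is locally constant.** For lattices with trivializations
over an arbitrary commutative ring `B` there is a locally constant function `f` on `Spec B` such
that for every field `K` over `B` and every base change `β : N → N'` of `N` to `K`, the
cohomology of the base-changed lattice pair is finite dimensional with Euler characteristic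
`f (ker (B → K))`. -/
theorem LatticeTriv.exists_isLocallyConstant_chi {T : N ≃ₗ[B] N} {Λ₀ Λ₁ : Submodule B N}
    (c₀ : LatticeTriv T Λ₀) (c₁ : LatticeTriv T.symm Λ₁) :
    ∃ f : PrimeSpectrum B → ℤ, IsLocallyConstant f ∧
      ∀ (K : Type u') [Field K] [Algebra B K] (N' : Type v') [AddCommGroup N'] [Module B N']
        [Module K N'] [IsScalarTower B K N'] (β : N →ₗ[B] N'), IsBaseChange K β →
        FiniteDimensional K ↥(bcSub K β Λ₀ ⊓ bcSub K β Λ₁) ∧
        FiniteDimensional K (N' ⧸ (bcSub K β Λ₀ ⊔ bcSub K β Λ₁)) ∧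
        ((Module.finrank K ↥(bcSub K β Λ₀ ⊓ bcSub K β Λ₁) : ℤ) -
            Module.finrank K (N' ⧸ (bcSub K β Λ₀ ⊔ bcSub K β Λ₁))
          = f ⟨RingHom.ker (algebraMap B K), RingHom.ker_isPrime _⟩) := by
  obtain ⟨cd, hE, hC⟩ := c₀.exists_chiData c₁
  have hproj := c₀.projective
  have : Module.Finite B ↥cd.E := Module.Finite.iff_fg.mpr hE
  have : Module.Finite B ↥cd.C := Module.Finite.iff_fg.mpr hC
  have : Module.Projective B ↥cd.E := cd.projective_E
  have : Module.Projective B ↥cd.C := cd.projective_C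
  have : Module.FinitePresentation B ↥cd.E := Module.finitePresentation_of_projective B _
  have : Module.FinitePresentation B ↥cd.C := Module.finitePresentation_of_projective B _
  refine ⟨fun p => (Module.rankAtStalk ↥cd.E p : ℤ) - Module.rankAtStalk ↥cd.C p, ?_, ?_⟩
  · have h1 : IsLocallyConstant (Module.rankAtStalk (R := B) ↥cd.E) :=
      Module.isLocallyConstant_rankAtStalk
    have h2 : IsLocallyConstant (Module.rankAtStalk (R := B) ↥cd.C) :=
      Module.isLocallyConstant_rankAtStalk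
    exact (h1.comp (Nat.cast : ℕ → ℤ)).sub (h2.comp (Nat.cast : ℕ → ℤ))
  · intro K _ _ N' _ _ _ _ β hβ
    obtain ⟨hfE, hrE⟩ := finrank_bcSub_eq_rankAtStalk hβ cd.E cd.ε (fun n => ⟨n, rfl⟩)
      (fun n hn => cd.ε_eq_self hn)
    obtain ⟨hfC, hrC⟩ := finrank_bcSub_eq_rankAtStalk hβ cd.C cd.κ (fun n => ⟨n, rfl⟩)
      (fun n hn => by obtain ⟨y, rfl⟩ := hn; exact cd.κ_idem y)
    have hfE' : FiniteDimensional K ↥(cd.baseChange hβ).E := by
      rw [cd.baseChange_E hβ]; exact hfE
    have hfC' : FiniteDimensional K ↥(cd.baseChange hβ).C := by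
      rw [cd.baseChange_C hβ]; exact hfC
    obtain ⟨h0, h1, hidx⟩ := (cd.baseChange hβ).index_field
    refine ⟨h0, h1, ?_⟩
    have e1 : Module.finrank K ↥(cd.baseChange hβ).E = Module.finrank K ↥(bcSub K β cd.E) := by
      rw [cd.baseChange_E hβ]
    have e2 : Module.finrank K ↥(cd.baseChange hβ).C = Module.finrank K ↥(bcSub K β cd.C) := by
      rw [cd.baseChange_C hβ]
    rw [hidx, e1, e2, hrE, hrC]

end BaseChange

end Fermat.Agent.S25.helper905
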