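import Fermat.Agent.S25.helper1705_Spec2

/-!
# S25, Spec II leaf `Stmt_CutLocal` (helper9095)

The cut `algEquivZeroCut c ε` (fibrewise algebraic equivalence to zero) is Zariski-local on the
base, for any commutative base ring `R`, any `c : C ⟶ Spec R` and any section `ε`.

Proof: a geometric point `s : Spec K ⟶ T` factors through a member `𝒰.f i` of the open cover
(`Spec K` is a point and `𝒰.f i` is an open immersion), the fibre of `C ×_R T` over `s` maps to
the fibre of `C ×_R 𝒰.X i` over the lifted point compatibly with all the structure, and the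
frozen lemmas `IsAlgEquivZero.pullback` and `IsAlgEquivZero.of_iso` transport the witness.
-/

set_option autoImplicit false

universe u

open CategoryTheory CategoryTheory.Limits AlgebraicGeometry AlgebraicGeometry.RelPicard
  NeronModelInfra GoodReductionJacobian

namespace Fermat.Agent.S25.helper9095

/-- A morphism from the spectrum of a field factors through some member of an open cover. -/
theorem exists_fac_of_field {T : Scheme.{u}} (𝒰 : Scheme.OpenCover.{u} T) (K : Type u) [Field K]
    (s : Spec (CommRingCat.of K) ⟶ T) :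
    ∃ (i : 𝒰.I₀) (s' : Spec (CommRingCat.of K) ⟶ 𝒰.X i), s' ≫ 𝒰.f i = s := by
  let p : Spec (CommRingCat.of K) := (default : PrimeSpectrum K)
  obtain ⟨i, y, hy⟩ := 𝒰.exists_eq (s p)
  have hrange : Set.range s ⊆ Set.range (𝒰.f i) := by
    rintro _ ⟨q, rfl⟩
    have hq : q = p := Subsingleton.elim (α := PrimeSpectrum K) _ _
    rw [hq]
    exact ⟨y, hy⟩
  exact ⟨i, IsOpenImmersion.lift (𝒰.f i) s hrange, IsOpenImmersion.lift_fac _ _ _⟩

variable {R : Type u} [CommRing R] {C : Scheme.{u}}

/-- The cut "fibrewise algebraically equivalent to zero" is Zariski-local on the base. -/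
theorem isLocalCut_algEquivZeroCut (c : C ⟶ Spec (CommRingCat.of R))
    (ε : SchemeHomOver (𝟙 (Spec (CommRingCat.of R))) c) :
    helper1705.IsLocalCut (algEquivZeroCut c ε) := by
  intro T t M 𝒰 h
  change FibrewiseAlgEquivZero M
  intro K _ _ s
  obtain ⟨i, s', hs⟩ := exists_fac_of_field 𝒰 K s
  subst hs
  have hi : IsAlgEquivZero (fibreAt c (𝒰.f i ≫ t) s')
      ((Scheme.Modules.pullback (pullback.fst (pullback.snd c (𝒰.f i ≫ t)) s')).obj
        (M.pullbackAlong (⟨𝒰.f i, rfl⟩ : SchemeHomOver (𝒰.f i ≫ t) t)).L) := h i K s'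
  let α : pullback (pullback.snd c t) (s' ≫ 𝒰.f i) ⟶ pullback c (𝒰.f i ≫ t) :=
    pullback.lift (pullback.fst _ _ ≫ pullback.fst c t) (pullback.snd _ _ ≫ s') (by
      rw [Category.assoc, pullback.condition, ← Category.assoc, pullback.condition]
      simp only [Category.assoc])
  let e : pullback (pullback.snd c t) (s' ≫ 𝒰.f i) ⟶
      pullback (pullback.snd c (𝒰.f i ≫ t)) s' :=
    pullback.lift α (pullback.snd _ _) (by simp only [α, pullback.lift_snd])
  have he : e ≫ fibreAt c (𝒰.f i ≫ t) s' = fibreAt c t (s' ≫ 𝒰.f i) := by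
    simp only [e, fibreAt, pullback.lift_snd]
  have hfst : (e ≫ pullback.fst (pullback.snd c (𝒰.f i ≫ t)) s') ≫
      baseChangeSnd c (⟨𝒰.f i, rfl⟩ : SchemeHomOver (𝒰.f i ≫ t) t) =
      pullback.fst (pullback.snd c t) (s' ≫ 𝒰.f i) := by
    apply pullback.hom_ext
    · simp only [e, α, baseChangeSnd, Category.assoc, pullback.lift_fst, Category.comp_id]
    · simp only [e, α, baseChangeSnd, Category.assoc, pullback.lift_snd, pullback.lift_fst_assoc,
        pullback.lift_snd_assoc, pullback.condition]
  refine IsAlgEquivZero.of_iso ?_ (hi.pullback e he)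
  exact (Scheme.Modules.pullbackComp _ _).app _ ≪≫
    (Scheme.Modules.pullbackComp _ _).app M.L ≪≫
    (Scheme.Modules.pullbackCongr hfst).app M.L

/-- The Spec II leaf `Stmt_CutLocal`. -/
theorem stmt_CutLocal : helper1705.Stmt_CutLocal.{u} :=
  fun _ _ _ c ε => isLocalCut_algEquivZeroCut c ε

end Fermat.Agent.S25.helper9095
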