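import Fermat.Agent.S25.helper9237_TwoChartAssembly
import Fermat.Agent.S25.helper9007_Realization

/-!
S25 (existence of the Jacobian): layer A is complete.

`stmt_Chart : helper1705.Stmt_Chart`: every smooth proper integral curve over an algebraically
closed field with a rational point has a `CurveDatum` and a `Realization`
(`helper9007.stmt_Chart_of` applied to `nonempty_twoChart`).
-/

set_option autoImplicit false

namespace Fermat.Agent.S25.helper9237

universe u

/-- **Layer A of S25** (`Stmt_Chart` of the Spec), with no hypotheses left. -/
theorem stmt_Chart : helper1705.Stmt_Chart.{u} :=
  helper9007.stmt_Chart_of (fun _ _ _ _ c _ _ _ e he => nonempty_twoChart c e he)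

end Fermat.Agent.S25.helper9237
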