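import Mathlib
import Fermat.Agent.S25.helper9237_ChartFinite
import Fermat.Agent.S25.helper2911_RegLocus
import Fermat.Agent.S25.helper893_Dedekind

/-!
S25 (existence of the Jacobian), layer A, leaf LA-CHARTS: assembly of the two-chart atlas.

`nonempty_twoChart`: a smooth proper integral curve `c : C ⟶ Spec k` over an algebraically
closed field with a section `e` has a `helper7755.TwoChart c e`.

Ingredients: `helper2911.exists_two_opens` (the two opens from a uniformizer at the marked
point), `chart_finite` / `chart_finite'` (affineness and finiteness over `k[x]`, `k[y]`),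
`isDiscreteValuationRing_stalk` (local rings are DVRs).
-/

set_option autoImplicit false

namespace Fermat.Agent.S25.helper9237

open AlgebraicGeometry CategoryTheory Fermat.Agent.S25.helper7755

universe u

variable {k : Type u} [Field k] {C : Scheme.{u}} (c : C ⟶ Spec (CommRingCat.of k))

/-- On a smooth integral curve over an algebraically closed field a closed point is not the
generic point. -/
theorem ne_genericPoint_of_isClosed [IsIntegral C] [SmoothOfRelativeDimension 1 c]
    (p : C) (hp : IsClosed ({p} : Set C)) : p ≠ genericPoint C := by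
  rintro rfl
  obtain ⟨V, hV, hxV, hstd⟩ := exists_isStandardSmooth_chart k c (genericPoint C)
  have : Nonempty V := ⟨⟨_, hxV⟩⟩
  let _ : Algebra k Γ(C, V) := (sectionsRingHom k c V).toAlgebra
  have hstd' : Algebra.IsStandardSmoothOfRelativeDimension 1 k Γ(C, V) := hstd
  have hmax := hV.primeIdealOf_isMaximal_of_isClosed ⟨genericPoint C, hxV⟩ hp
  rw [hV.primeIdealOf_genericPoint, genericPoint_eq_bot_of_affine] at hmax
  have hfield : IsField Γ(C, V) := Ring.isField_iff_maximal_bot.mpr hmax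
  exact helper893.not_isField_of_isStandardSmoothOfRelativeDimension_one k Γ(C, V) hfield

/-- The structure maps `toΓ` are compatible with restriction. -/
theorem toΓ_comp_map {U V : C.Opens} (h : V ≤ U) :
    CommRingCat.ofHom (toΓ c U) ≫ C.presheaf.map (homOfLE h).op =
      CommRingCat.ofHom (toΓ c V) := by
  rw [toΓ_eq, toΓ_eq, Category.assoc, Scheme.Hom.appLE_map]

theorem map_toΓ {U V : C.Opens} (h : V ≤ U) (a : k) :
    C.presheaf.map (homOfLE h).op (toΓ c U a) = toΓ c V a :=
  congrArg (fun f => f.hom a) (toΓ_comp_map c h)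

/-- A constant section is zero or a unit. -/
theorem basicOpen_toΓ (U : C.Opens) (a : k) (ha : a ≠ 0) : C.basicOpen (toΓ c U a) = U := by
  have hu : IsUnit (toΓ c U a) := (IsUnit.mk0 a ha).map (toΓ c U)
  exact C.basicOpen_of_isUnit hu

section NonConstant

variable [IsIntegral C] (U₀ U₁ : C.Opens) (x : Γ(C, U₀)) (y : Γ(C, U₁))

theorem genericPoint_mem_of_nonempty (U : C.Opens) [Nonempty U] : genericPoint C ∈ U :=
  ((genericPoint_spec C).mem_open_set_iff U.isOpen).mpr
    (by rw [Set.univ_inter]; exact Set.nonempty_coe_sort.mp ‹Nonempty U›)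

theorem inf_ne_bot [Nonempty U₀] [Nonempty U₁] : U₀ ⊓ U₁ ≠ ⊥ := by
  intro h
  have : genericPoint C ∈ U₀ ⊓ U₁ :=
    ⟨genericPoint_mem_of_nonempty U₀, genericPoint_mem_of_nonempty U₁⟩
  rw [h] at this
  exact this

/-- `y` is not constant: it vanishes at `p₀` but not identically. -/
theorem ne_toΓ_of_notMem_basicOpen [Nonempty U₀] [Nonempty U₁] (p₀ : C) (hp₁ : p₀ ∈ U₁)
    (hp₀ : p₀ ∉ C.basicOpen y) (hy : C.basicOpen y = U₀ ⊓ U₁) (b : k) : y ≠ toΓ c U₁ b := by
  rintro rfl
  by_cases hb : b = 0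
  · subst hb
    rw [map_zero] at hy
    exact inf_ne_bot U₀ U₁ (hy.symm.trans (by simp))
  · rw [basicOpen_toΓ c U₁ b hb] at hp₀
    exact hp₀ hp₁

/-- `x` is not constant as soon as its inverse `y` is not. -/
theorem ne_toΓ_of_mul_eq_one [Nonempty U₀] [Nonempty U₁]
    (hx : C.basicOpen x = U₀ ⊓ U₁)
    (xy : C.presheaf.map (homOfLE (inf_le_left : U₀ ⊓ U₁ ≤ U₀)).op x *
      C.presheaf.map (homOfLE (inf_le_right : U₀ ⊓ U₁ ≤ U₁)).op y = 1)
    (hy : ∀ b : k, y ≠ toΓ c U₁ b) (a : k) : x ≠ toΓ c U₀ a := by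
  rintro rfl
  by_cases ha : a = 0
  · subst ha
    rw [map_zero] at hx
    exact inf_ne_bot U₀ U₁ (hx.symm.trans (by simp))
  · apply hy a⁻¹
    have hη : genericPoint C ∈ U₀ ⊓ U₁ :=
      ⟨genericPoint_mem_of_nonempty U₀, genericPoint_mem_of_nonempty U₁⟩
    apply helper2911.section_ext_of_germ hη.2
    rw [← TopCat.Presheaf.germ_res_apply C.presheaf (homOfLE inf_le_right) _ hη,
      ← TopCat.Presheaf.germ_res_apply C.presheaf (homOfLE inf_le_right) _ hη]
    congr 1
    rw [map_toΓ] at xy ⊢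
    calc C.presheaf.map (homOfLE (inf_le_right : U₀ ⊓ U₁ ≤ U₁)).op y
        = toΓ c (U₀ ⊓ U₁) a⁻¹ * (toΓ c (U₀ ⊓ U₁) a *
            C.presheaf.map (homOfLE (inf_le_right : U₀ ⊓ U₁ ≤ U₁)).op y) := by
          rw [← mul_assoc, ← map_mul, inv_mul_cancel₀ ha, map_one, one_mul]
      _ = toΓ c (U₀ ⊓ U₁) a⁻¹ := by rw [xy, mul_one]

end NonConstant

section Ev

/-- An affine open chart of a `k`-scheme is a `k`-morphism for the structure map `toΓ`. -/
theorem fromSpec_comp_eq {U : C.Opens} (hU : IsAffineOpen U) :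
    hU.fromSpec ≫ c = Spec.map (CommRingCat.ofHom (toΓ c U)) := by
  have h := IsAffineOpen.SpecMap_appLE_fromSpec c
    (isAffineOpen_top (Spec (CommRingCat.of k))) hU (le_preimage_top c U)
  rw [← h, IsAffineOpen.fromSpec_top, Scheme.isoSpec_Spec_inv, ← Spec.map_comp]
  rfl

/-- A section `e` of `c` landing in the affine open `U` is the `Spec` of a ring hom
`Γ(C, U) →+* k`, which kills every function vanishing at the point. -/
theorem exists_ev {U : C.Opens} (hU : IsAffineOpen U) (e : Spec (CommRingCat.of k) ⟶ C)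
    (he : e ≫ c = 𝟙 _) (hmem : e (IsLocalRing.closedPoint k) ∈ U) (y : Γ(C, U))
    (hy : e (IsLocalRing.closedPoint k) ∉ C.basicOpen y) :
    ∃ ev : Γ(C, U) →+* k, ev.comp (toΓ c U) = RingHom.id k ∧ ev y = 0 ∧
      e = Spec.map (CommRingCat.ofHom ev) ≫ hU.fromSpec := by
  have hrange : Set.range e ⊆ Set.range U.ι := by
    rw [Scheme.Opens.range_ι]
    rintro _ ⟨z, rfl⟩
    rw [Subsingleton.elim z (IsLocalRing.closedPoint k)]
    exact hmem
  let e₁ : Spec (CommRingCat.of k) ⟶ U := IsOpenImmersion.lift U.ι e hrange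
  have he₁ : e₁ ≫ U.ι = e := IsOpenImmersion.lift_fac _ _ _
  let ev' : Γ(C, U) ⟶ CommRingCat.of k := Spec.preimage (e₁ ≫ U.toSpecΓ)
  have hev' : Spec.map ev' = e₁ ≫ U.toSpecΓ := Spec.map_preimage _
  have heps : e = Spec.map ev' ≫ hU.fromSpec := by
    rw [hev', Category.assoc, hU.toSpecΓ_fromSpec, he₁]
  refine ⟨ev'.hom, ?_, ?_, ?_⟩
  · have h1 : Spec.map (CommRingCat.ofHom (toΓ c U) ≫ ev') = Spec.map (𝟙 _) := by
      rw [Spec.map_comp, ← fromSpec_comp_eq c hU, ← Category.assoc, ← heps, he, Spec.map_id]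
    have h2 := Spec.map_injective h1
    exact congrArg CommRingCat.Hom.hom h2
  · by_contra hne
    apply hy
    rw [heps]
    have : (Spec.map ev') (IsLocalRing.closedPoint k) ∈ hU.fromSpec ⁻¹ᵁ C.basicOpen y := by
      rw [hU.fromSpec_preimage_basicOpen]
      show y ∉ ((Spec.map ev') (IsLocalRing.closedPoint k)).asIdeal
      intro hmem'
      have : ev'.hom y ∈ IsLocalRing.maximalIdeal k := hmem'
      rw [IsLocalRing.maximalIdeal_eq_bot] at this
      exact hne this
    exact this
  · exact heps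

end Ev

/-- **LA-CHARTS.** Every smooth proper integral curve over an algebraically closed field with
a rational point `e` has a two-chart atlas whose chart at infinity contains `e`. -/
theorem nonempty_twoChart [IsAlgClosed k] [IsProper c] [SmoothOfRelativeDimension 1 c]
    [IsIntegral C] (e : Spec (CommRingCat.of k) ⟶ C) (he : e ≫ c = 𝟙 _) :
    Nonempty (TwoChart c e) := by
  have hcl : IsClosed ({e (IsLocalRing.closedPoint k)} : Set C) :=
    (pointEquivClosedPoint c ⟨e, he⟩).2
  have hgen : e (IsLocalRing.closedPoint k) ≠ genericPoint C :=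
    ne_genericPoint_of_isClosed c _ hcl
  have hval : ∀ p : C, p ≠ genericPoint C → ValuationRing (C.presheaf.stalk p) := fun p hp => by
    have := isDiscreteValuationRing_stalk k c p hp
    infer_instance
  have hnf : ¬ IsField (C.presheaf.stalk (e (IsLocalRing.closedPoint k))) := by
    have := isDiscreteValuationRing_stalk k c _ hgen
    exact IsDiscreteValuationRing.not_isField _
  obtain ⟨U₀, U₁, x, y, hp₁, hpy, -, cover, hx, hy, xy, hne₀, hne₁⟩ :=
    helper2911.exists_two_opens (e (IsLocalRing.closedPoint k)) hval hnf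
  have hyc : ∀ b : k, y ≠ toΓ c U₁ b :=
    ne_toΓ_of_notMem_basicOpen c U₀ U₁ y _ hp₁ hpy hy
  have hxc : ∀ a : k, x ≠ toΓ c U₀ a := ne_toΓ_of_mul_eq_one c U₀ U₁ x y hx xy hyc
  obtain ⟨aff₀, fin₀⟩ := chart_finite c U₀ U₁ x y cover hy xy hxc
  obtain ⟨aff₁, fin₁⟩ := chart_finite' c U₀ U₁ x y cover hx xy hyc
  obtain ⟨ev, hev, hevy, heps⟩ := exists_ev c aff₁ e he hp₁ y hpy
  exact ⟨{ U₀ := U₀, U₁ := U₁, x := x, y := y, affine₀ := aff₀, affine₁ := aff₁,
           nonempty₀ := hne₀, nonempty₁ := hne₁, cover := cover, basicOpen_x := hx,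
           basicOpen_y := hy, xy := xy, finite₀ := fin₀, finite₁ := fin₁, ev := ev,
           ev_toΓ := hev, ev_y := hevy, eps := heps }⟩

end Fermat.Agent.S25.helper9237
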