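import Mathlib

/-!
# Tensor products of domains over an algebraically closed field, and geometric integrality

Algebra (Mathlib only):

* `exists_algHom_apply_ne_zero`: `k`-points separate the elements of a reduced finitely generated
  algebra over an algebraically closed field `k`.
* `isDomain_tensorProduct_of_isAlgClosed`: `k` algebraically closed, `A` a finitely generated
  `k`-algebra which is a domain, `B` any `k`-algebra which is a domain; then `A ⊗[k] B` is a
  domain.  Proof (Nullstellensatz evaluation): expand elements of `A ⊗[k] B` in an `A`-basis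
  coming from a `k`-basis of `B`; a `k`-point `χ : A →ₐ[k] k` induces a ring homomorphism
  `A ⊗[k] B → B` acting as `χ` on coordinates.

Schemes (Mathlib only):

* `geometricallyIntegral_of_isAlgClosed`: an integral scheme locally of finite type over an
  algebraically closed field is geometrically integral.
* `irreducibleSpace_of_open_cover`: a space covered by preirreducible opens meeting pairwise is
  irreducible.
* `geometricallyConnected_of_surjective`, `geometricallyIrreducible_of_surjective`: the target of
  a surjective morphism from a geometrically connected (irreducible) scheme is geometrically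
  connected (irreducible).
-/

set_option autoImplicit false

open TensorProduct CategoryTheory CategoryTheory.Limits AlgebraicGeometry

universe u

namespace Fermat.Agent.S25.helper9344

section Points

variable {k : Type*} [Field k] [IsAlgClosed k]

/-- `k`-points separate the elements of a reduced finitely generated algebra over an
algebraically closed field. -/
theorem exists_algHom_apply_ne_zero (A : Type*) [CommRing A] [Algebra k A]
    [Algebra.FiniteType k A] [IsReduced A] {x : A} (hx : x ≠ 0) :
    ∃ χ : A →ₐ[k] k, χ x ≠ 0 := by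
  have : IsJacobsonRing A := isJacobsonRing_of_finiteType (A := k) (B := A)
  have hjac : (⊥ : Ideal A).jacobson = ⊥ :=
    IsJacobsonRing.out inferInstance (Ideal.isRadical_bot (R := A))
  have hx' : x ∉ (⊥ : Ideal A).jacobson := by rw [hjac]; simpa using hx
  obtain ⟨m, hm, hxm⟩ : ∃ m : Ideal A, m.IsMaximal ∧ x ∉ m := by
    by_contra hcon
    push Not at hcon
    exact hx' (by
      rw [Ideal.jacobson, Ideal.mem_sInf]
      intro J hJ
      exact hcon J hJ.2)
  have := hm
  let _ : Field (A ⧸ m) := Ideal.Quotient.field m
  have : Algebra.FiniteType k (A ⧸ m) :=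
    Algebra.FiniteType.of_surjective (Ideal.Quotient.mkₐ k m) (Ideal.Quotient.mkₐ_surjective k m)
  have : Module.Finite k (A ⧸ m) := finite_of_finite_type_of_isJacobsonRing k (A ⧸ m)
  have : Algebra.IsIntegral k (A ⧸ m) := Algebra.IsIntegral.of_finite k (A ⧸ m)
  have hbij : Function.Bijective (algebraMap k (A ⧸ m)) :=
    IsAlgClosed.algebraMap_bijective_of_isIntegral
  let e : k ≃ₐ[k] (A ⧸ m) := AlgEquiv.ofBijective (Algebra.ofId k (A ⧸ m)) hbij
  refine ⟨(e.symm : (A ⧸ m) →ₐ[k] k).comp (Ideal.Quotient.mkₐ k m), ?_⟩
  intro h0
  apply hxm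
  have h1 : e.symm (Ideal.Quotient.mk m x) = 0 := h0
  have h2 : Ideal.Quotient.mk m x = 0 := by
    simpa using congrArg e h1
  exact Ideal.Quotient.eq_zero_iff_mem.mp h2

end Points

section Tensor

variable {k : Type*} [Field k] (A B : Type*) [CommRing A] [CommRing B] [Algebra k A] [Algebra k B]

/-- The ring homomorphism `A ⊗[k] B → B` induced by a `k`-point of `A`. -/
noncomputable def evalPoint (χ : A →ₐ[k] k) : A ⊗[k] B →ₐ[k] B :=
  (Algebra.TensorProduct.lid k B : k ⊗[k] B →ₐ[k] B).comp
    (Algebra.TensorProduct.map χ (AlgHom.id k B))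

variable {A B}

@[simp]
theorem evalPoint_tmul (χ : A →ₐ[k] k) (a : A) (b : B) :
    evalPoint A B χ (a ⊗ₜ[k] b) = χ a • b := by
  simp [evalPoint]

/-- Coordinates of `evalPoint χ f` in a `k`-basis of `B` are `χ` applied to the coordinates of
`f` in the induced `A`-basis of `A ⊗[k] B`. -/
theorem repr_evalPoint {ι : Type*} (b : Module.Basis ι k B) (χ : A →ₐ[k] k) (f : A ⊗[k] B)
    (i : ι) :
    b.repr (evalPoint A B χ f) i = χ ((Algebra.TensorProduct.basis A b).repr f i) := by
  induction f using TensorProduct.induction_on with
  | zero => simp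
  | tmul a m =>
    rw [evalPoint_tmul, map_smul, Finsupp.smul_apply, smul_eq_mul,
      Algebra.TensorProduct.basis_repr_tmul]
    simp [Finsupp.smul_apply, Finsupp.mapRange_apply, map_mul]
  | add x y hx hy =>
    simp only [map_add, Finsupp.add_apply, hx, hy]

end Tensor

section Main

variable {k : Type*} [Field k] [IsAlgClosed k]

/-- **Tensor domain.**  Over an algebraically closed field, the tensor product of a finitely
generated domain with an arbitrary domain is a domain. -/
theorem isDomain_tensorProduct_of_isAlgClosed (A B : Type*) [CommRing A] [CommRing B]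
    [Algebra k A] [Algebra k B] [Algebra.FiniteType k A] [IsDomain A] [IsDomain B] :
    IsDomain (A ⊗[k] B) := by
  classical
  let b := Module.Free.chooseBasis k B
  let bA := Algebra.TensorProduct.basis A b
  have : Nontrivial (A ⊗[k] B) := by
    have hne : Nonempty (Module.Free.ChooseBasisIndex k B) := by
      by_contra hemp
      rw [not_nonempty_iff] at hemp
      have : (1 : B) = 0 := b.ext_elem (fun i => (hemp.false i).elim)
      exact one_ne_zero this
    obtain ⟨i⟩ := hne
    exact ⟨⟨bA i, 0, bA.ne_zero i⟩⟩
  have : NoZeroDivisors (A ⊗[k] B) := by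
    refine ⟨fun {f g} hfg => ?_⟩
    by_contra hcon
    push Not at hcon
    obtain ⟨hf, hg⟩ := hcon
    obtain ⟨i, hi⟩ : ∃ i, bA.repr f i ≠ 0 := by
      by_contra h
      push Not at h
      exact hf (bA.ext_elem (fun i => by simpa using h i))
    obtain ⟨j, hj⟩ : ∃ j, bA.repr g j ≠ 0 := by
      by_contra h
      push Not at h
      exact hg (bA.ext_elem (fun i => by simpa using h i))
    obtain ⟨χ, hχ⟩ := exists_algHom_apply_ne_zero (k := k) A (mul_ne_zero hi hj)
    rw [map_mul] at hχ
    have h1 : evalPoint A B χ f ≠ 0 := by
      intro h0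
      have := repr_evalPoint b χ f i
      rw [h0] at this
      exact (left_ne_zero_of_mul hχ) (by simpa using this.symm)
    have h2 : evalPoint A B χ g ≠ 0 := by
      intro h0
      have := repr_evalPoint b χ g j
      rw [h0] at this
      exact (right_ne_zero_of_mul hχ) (by simpa using this.symm)
    have h3 : evalPoint A B χ f * evalPoint A B χ g = 0 := by
      rw [← map_mul, hfg, map_zero]
    exact (mul_ne_zero h1 h2) h3
  exact NoZeroDivisors.to_isDomain _

/-- The same with the factors swapped. -/
theorem isDomain_tensorProduct_of_isAlgClosed' (A B : Type*) [CommRing A] [CommRing B]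
    [Algebra k A] [Algebra k B] [Algebra.FiniteType k A] [IsDomain A] [IsDomain B] :
    IsDomain (B ⊗[k] A) := by
  have := isDomain_tensorProduct_of_isAlgClosed (k := k) A B
  exact (Algebra.TensorProduct.comm k B A).toRingEquiv.toMulEquiv.isDomain _

end Main

section Schemes

theorem isIntegral_pullback_Spec (k K : Type u) [Field k] [IsAlgClosed k] [Field K] [Algebra k K]
    (A : CommRingCat.{u}) (φ : CommRingCat.of k ⟶ A) (hφ : φ.hom.FiniteType) [IsDomain A] :
    IsIntegral (pullback (Spec.map φ) (Spec.map (CommRingCat.ofHom (algebraMap k K)))) := by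
  algebraize [φ.hom]
  have hdom : IsDomain (A ⊗[k] K) := isDomain_tensorProduct_of_isAlgClosed (k := k) A K
  have hint : IsIntegral (Spec (CommRingCat.of (A ⊗[k] K))) :=
    (affine_isIntegral_iff _).mpr hdom
  have e := pullbackSpecIso k A K
  have hφ' : Spec.map (CommRingCat.ofHom (algebraMap k A)) = Spec.map φ := rfl
  rw [hφ'] at e
  exact IsIntegral.of_isIso e.inv

theorem isIntegral_pullback_of_isAffine (k K : Type u) [Field k] [IsAlgClosed k] [Field K]
    [Algebra k K] {Z : Scheme.{u}} [IsAffine Z] [IsIntegral Z] (h : Z ⟶ Spec (CommRingCat.of k))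
    [LocallyOfFiniteType h] :
    IsIntegral (pullback h (Spec.map (CommRingCat.ofHom (algebraMap k K)))) := by
  let A : CommRingCat := Γ(Z, ⊤)
  let e : Z ≅ Spec A := Z.isoSpec
  obtain ⟨φ, hφ⟩ := Spec.map_surjective (e.inv ≫ h)
  have h1 : LocallyOfFiniteType (Spec.map φ) := by rw [hφ]; infer_instance
  have hft : φ.hom.FiniteType := (HasRingHomProperty.Spec_iff (P := @LocallyOfFiniteType)).mp h1
  have h2 : IsIntegral (Spec A) := IsIntegral.of_isIso e.hom
  have : IsDomain A := (affine_isIntegral_iff A).mp h2
  have key := isIntegral_pullback_Spec k K A φ hft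
  let g := Spec.map (CommRingCat.ofHom (algebraMap k K))
  let m : pullback (Spec.map φ) g ⟶ pullback h g :=
    pullback.map (Spec.map φ) g h g e.inv (𝟙 _) (𝟙 _) (by rw [hφ]; simp) (by simp)
  have : IsIso m := by dsimp only [m]; infer_instance
  exact IsIntegral.of_isIso m

/-- A space covered by preirreducible open sets which meet pairwise (when nonempty) is
irreducible. -/
theorem irreducibleSpace_of_open_cover {Y : Type*} [TopologicalSpace Y] [Nonempty Y] {ι : Type*}
    (V : ι → Set Y) (hopen : ∀ i, IsOpen (V i)) (hcov : ∀ y, ∃ i, y ∈ V i)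
    (hirr : ∀ i, IsPreirreducible (V i))
    (hmeet : ∀ i j, (V i).Nonempty → (V j).Nonempty → (V i ∩ V j).Nonempty) :
    IrreducibleSpace Y := by
  refine { isPreirreducible_univ := ?_, toNonempty := inferInstance }
  rintro u v hu hv ⟨y1, -, hy1⟩ ⟨y2, -, hy2⟩
  obtain ⟨i, hi⟩ := hcov y1
  obtain ⟨j, hj⟩ := hcov y2
  obtain ⟨y0, hy0i, hy0j⟩ := hmeet i j ⟨y1, hi⟩ ⟨y2, hj⟩
  obtain ⟨y3, hy3i, hy3u, hy3j⟩ := hirr i u (V j) hu (hopen j) ⟨y1, hi, hy1⟩ ⟨y0, hy0i, hy0j⟩
  obtain ⟨y4, hy4j, hy4u, hy4v⟩ := hirr j u v hu hv ⟨y3, hy3j, hy3u⟩ ⟨y2, hj, hy2⟩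
  exact ⟨y4, trivial, hy4u, hy4v⟩

/-- **Integral and locally of finite type over an algebraically closed field implies
geometrically integral.** -/
theorem geometricallyIntegral_of_isAlgClosed {k : Type u} [Field k] [IsAlgClosed k]
    {X : Scheme.{u}} (f : X ⟶ Spec (CommRingCat.of k)) [IsIntegral X] [LocallyOfFiniteType f] :
    GeometricallyIntegral f := by
  have hclosed : ObjectProperty.IsClosedUnderIsomorphisms (C := Scheme.{u}) (IsIntegral ·) :=
    ⟨fun e h => @IsIntegral.of_isIso _ _ h e.hom _⟩
  refine ⟨(geometrically_iff_of_commRing_of_isClosedUnderIsomorphisms).mpr fun K _ _ => ?_⟩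
  let g := Spec.map (CommRingCat.ofHom (algebraMap k K))
  let π : pullback f g ⟶ X := pullback.fst f g
  have hpiece : ∀ i, Nonempty (X.affineCover.X i) →
      IsIntegral (pullback π (X.affineCover.f i)) := by
    intro i hne
    have : IsIntegral (X.affineCover.X i) := isIntegral_of_isOpenImmersion (X.affineCover.f i)
    have key : IsIntegral (pullback (X.affineCover.f i ≫ f) g) :=
      isIntegral_pullback_of_isAffine k K (X.affineCover.f i ≫ f)
    let e : pullback π (X.affineCover.f i) ≅ pullback (X.affineCover.f i ≫ f) g :=
      (pullbackSymmetry π (X.affineCover.f i)) ≪≫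
        pullbackRightPullbackFstIso f g (X.affineCover.f i)
    exact IsIntegral.of_isIso e.inv
  have hempty : ∀ i, ¬ Nonempty (X.affineCover.X i) →
      IsEmpty ↥(pullback π (X.affineCover.f i)) := by
    intro i hne
    rw [not_nonempty_iff] at hne
    exact Function.isEmpty (pullback.snd π (X.affineCover.f i))
  have hπ : Function.Surjective π := π.surjective
  have : Nonempty ↥(pullback f g) := by
    obtain ⟨x⟩ : Nonempty X := inferInstance
    obtain ⟨y, -⟩ := hπ x
    exact ⟨y⟩
  have hred : IsReduced (pullback f g) := by
    have h0 : ∀ i : X.affineCover.I₀, IsReduced (pullback π (X.affineCover.f i)) := by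
      intro i
      by_cases hne : Nonempty (X.affineCover.X i)
      · have := hpiece i hne
        infer_instance
      · have := hempty i hne
        have : IsReduced (X.affineCover.X i) := isReduced_of_isOpenImmersion (X.affineCover.f i)
        exact isReduced_of_isOpenImmersion (pullback.snd π (X.affineCover.f i))
    have : ∀ i, IsReduced ((X.affineCover.pullback₁ π).X i) := fun i => h0 i
    exact IsReduced.of_openCover _ (X.affineCover.pullback₁ π)
  have hrange : ∀ i, Set.range (pullback.fst π (X.affineCover.f i)) =
      π ⁻¹' Set.range (X.affineCover.f i) :=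
    fun i => Scheme.Pullback.range_fst π (X.affineCover.f i)
  have hirr : IrreducibleSpace ↥(pullback f g) := by
    refine irreducibleSpace_of_open_cover
      (fun i => Set.range (pullback.fst π (X.affineCover.f i)))
      (fun i => (pullback.fst π (X.affineCover.f i)).isOpenEmbedding.isOpen_range)
      (fun y => ⟨X.affineCover.idx (π y), ?_⟩) ?_ ?_
    · rw [hrange]
      exact X.affineCover.covers (π y)
    · intro i
      by_cases hne : Nonempty (X.affineCover.X i)
      · have := hpiece i hne
        rw [← Set.image_univ]
        exact ((IrreducibleSpace.isIrreducible_univ _).image _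
          (pullback.fst π (X.affineCover.f i)).continuous.continuousOn).isPreirreducible
      · have := hempty i hne
        rw [Set.range_eq_empty]
        exact isPreirreducible_empty
    · intro i j hi hj
      simp only [hrange] at hi hj ⊢
      obtain ⟨y1, hy1⟩ := hi
      obtain ⟨y2, hy2⟩ := hj
      obtain ⟨x, hx1, hx2⟩ : (Set.range (X.affineCover.f i) ∩
          Set.range (X.affineCover.f j)).Nonempty :=
        nonempty_preirreducible_inter
          (X.affineCover.f i).isOpenEmbedding.isOpen_range
          (X.affineCover.f j).isOpenEmbedding.isOpen_range ⟨_, hy1⟩ ⟨_, hy2⟩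
      obtain ⟨y, rfl⟩ := hπ x
      exact ⟨y, hx1, hx2⟩
  exact isIntegral_of_irreducibleSpace_of_isReduced _

theorem geometricallyConnected_of_surjective {W J S : Scheme.{u}} (φ : W ⟶ J) (j : J ⟶ S)
    [Surjective φ] [GeometricallyConnected (φ ≫ j)] : GeometricallyConnected j := by
  refine ⟨geometrically_iff_of_isClosedUnderIsomorphisms.mpr fun K _ y => ?_⟩
  have h1 : ConnectedSpace ↥(pullback (φ ≫ j) y) :=
    pullback_of_geometrically (GeometricallyConnected.geometrically_connectedSpace (f := φ ≫ j)) K y
  have h2 : ConnectedSpace ↥(pullback φ (pullback.fst j y)) :=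
    (pullbackRightPullbackFstIso j y φ).hom.homeomorph.symm.surjective.connectedSpace
      (pullbackRightPullbackFstIso j y φ).hom.homeomorph.symm.continuous
  exact (pullback.snd φ (pullback.fst j y)).surjective.connectedSpace
    (pullback.snd φ (pullback.fst j y)).continuous

theorem geometricallyIrreducible_of_surjective {W J S : Scheme.{u}} (φ : W ⟶ J) (j : J ⟶ S)
    [Surjective φ] [GeometricallyIrreducible (φ ≫ j)] : GeometricallyIrreducible j := by
  refine ⟨geometrically_iff_of_isClosedUnderIsomorphisms.mpr fun K _ y => ?_⟩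
  have h1 : IrreducibleSpace ↥(pullback (φ ≫ j) y) :=
    pullback_of_geometrically (GeometricallyIrreducible.geometrically_irreducibleSpace (f := φ ≫ j)) K y
  have h2 : IrreducibleSpace ↥(pullback φ (pullback.fst j y)) :=
    ((pullbackRightPullbackFstIso j y φ).hom.homeomorph.irreducibleSpace_iff).mpr h1
  have hs := (pullback.snd φ (pullback.fst j y)).surjective
  have hirr := (IrreducibleSpace.isIrreducible_univ ↥(pullback φ (pullback.fst j y))).image _
    (pullback.snd φ (pullback.fst j y)).continuous.continuousOn
  rw [Set.image_univ, hs.range_eq] at hirr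
  exact (irreducibleSpace_def _).mpr hirr

end Schemes

end Fermat.Agent.S25.helper9344
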