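import Fermat.Agent.S25.helper1804_AlgApi
import Fermat.Agent.S25.helper9607_GlueBridge
import Fermat.Agent.S25.helper905_LatticeCoh

/-!
# S25, leaf LC-BRIDGE: from a `GlueDatum` to lattice cohomology (helper9404)

For `G : helper2945.GlueDatum D B` the lattice view `(N, T, Λ₀, Λ₁)` of `helper1804_AlgApi`
(`N = G.M₀₁`, `T` = multiplication by `x`, `Λ₀ = range ρ₀`, `Λ₁ = range ρ₁`) satisfies the
hypotheses of the lattice-cohomology bricks of `helper905_LatticeCoh`:

* (BR3) `nonempty_latticeTriv₀ : Nonempty (LatticeTriv (T G) (Λ₀ G))`,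
  `nonempty_latticeTriv₁ : Nonempty (LatticeTriv (T G).symm (Λ₁ G))`, `isLatticePair`;
* (BR4) the corollaries at the level of `GlueDatum`: `H¹` is a finite `B`-module, Serre vanishing
  and negative vanishing for the twisted lattices `tw (T G) (Λ₁ G) m`, `H¹ = 0 ⟹ H⁰` finite
  projective, and finite projectivity of `H¹` for very negative twists.

Inputs: `helper9607_GlueBridge` (the chart modules are equivariant retracts of finite free
`B[X]`-modules) and `helper905.LatticeTriv.nonempty_of_retract`.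
-/

set_option autoImplicit false

namespace Fermat.Agent.S25.helper9404

open Fermat.Agent.S25.helper1705 Fermat.Agent.S25.helper2945
open Fermat.Agent.S25.helper1804.Lattice Fermat.Agent.S25.helper905

universe u

variable {k : Type u} [Field k] {D : CurveDatum k} {B : Type u} [CommRing B] [Algebra k B]
  (G : GlueDatum D B)

/-! ### (BR3) The two lattices of a glue datum are trivializable -/

theorem ne_zero_of_transcendental {R : Type*} [CommRing R] [Algebra k R] {a : R}
    (h : Transcendental k a) : a ≠ 0 := by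
  rintro rfl
  exact h isAlgebraic_zero

/-- The lattice of the first chart is trivializable (hypothesis-passing form). -/
theorem nonempty_latticeTriv₀_of_transcendental (hx : Transcendental k D.x) :
    Nonempty (LatticeTriv (T G) (Λ₀ G)) := by
  obtain ⟨r, s, π, hπs, hsξ, hπX⟩ := helper9607.isRetractOfFree_X₀ G hx
  exact LatticeTriv.nonempty_of_retract (T G) (helper9607.X₀ G) G.ρ₀B
    (fun m => by rw [helper9607.ρ₀B_X₀, T_apply']; rfl)
    (ρ₀_injective_of_ne_zero G (ne_zero_of_transcendental hx)) (exh₀ G) s π hπs hsξ hπX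

/-- The lattice of the chart at infinity is trivializable (hypothesis-passing form). -/
theorem nonempty_latticeTriv₁_of_transcendental (hy : Transcendental k D.y) :
    Nonempty (LatticeTriv (T G).symm (Λ₁ G)) := by
  obtain ⟨r, s, π, hπs, hsξ, hπX⟩ := helper9607.isRetractOfFree_Y₁ G hy
  exact LatticeTriv.nonempty_of_retract (T G).symm (helper9607.Y₁ G) G.ρ₁B
    (fun m => by rw [helper9607.ρ₁B_Y₁, T_symm_apply']; rfl)
    (ρ₁_injective_of_ne_zero G (ne_zero_of_transcendental hy))
    (fun n => by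
      obtain ⟨j, hj⟩ := exh₁ G n
      exact ⟨j, by rw [symm_zpow]; exact hj⟩) s π hπs hsξ hπX

/-- **(BR3)** The lattice of the first chart is trivializable. -/
theorem nonempty_latticeTriv₀ [IsAlgClosed k] : Nonempty (LatticeTriv (T G) (Λ₀ G)) :=
  nonempty_latticeTriv₀_of_transcendental G (helper1167.x_transcendental D)

/-- **(BR3)** The lattice of the chart at infinity is trivializable. -/
theorem nonempty_latticeTriv₁ [IsAlgClosed k] : Nonempty (LatticeTriv (T G).symm (Λ₁ G)) :=
  nonempty_latticeTriv₁_of_transcendental G (helper1167.y_transcendental D)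

/-- **(BR3)** The weak lattice-pair hypotheses hold for every glue datum. -/
theorem isLatticePair [IsAlgClosed k] : IsLatticePair (T G) (Λ₀ G) (Λ₁ G) := by
  obtain ⟨c₀⟩ := nonempty_latticeTriv₀ G
  obtain ⟨c₁⟩ := nonempty_latticeTriv₁ G
  exact c₀.isLatticePair c₁

/-! ### (BR4) Corollaries at the level of `GlueDatum` -/

/-- **(BR4)** `H¹` of a glue datum is a finite `B`-module (any `k`-algebra `B`). -/
theorem H1_finite [IsAlgClosed k] : Module.Finite B G.H1 :=
  haveI := (isLatticePair G).finite_quotient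
  Module.Finite.equiv (H1Equiv G).symm

/-- **(BR4) Serre vanishing**, lattice form: `Λ₀ + T^m Λ₁ = N` for all large `m`. -/
theorem exists_sup_tw_eq_top [IsAlgClosed k] :
    ∃ m₀ : ℕ, ∀ m : ℤ, (m₀ : ℤ) ≤ m → Λ₀ G ⊔ tw (T G) (Λ₁ G) m = ⊤ :=
  (isLatticePair G).exists_sup_tw_eq_top

/-- **(BR4) Negative vanishing**, lattice form: `Λ₀ ∩ T^(-m) Λ₁ = 0` for all large `m`. -/
theorem exists_inf_tw_eq_bot [IsAlgClosed k] :
    ∃ m₀ : ℕ, ∀ m : ℤ, (m₀ : ℤ) ≤ m → Λ₀ G ⊓ tw (T G) (Λ₁ G) (-m) = ⊥ := by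
  obtain ⟨c₀⟩ := nonempty_latticeTriv₀ G
  obtain ⟨c₁⟩ := nonempty_latticeTriv₁ G
  exact c₀.exists_inf_tw_eq_bot c₁

/-- **(BR4)** For all sufficiently negative twists, `H¹` (in lattice form) is a finite projective
`B`-module. -/
theorem exists_finite_projective_quotient [IsAlgClosed k] :
    ∃ m₀ : ℕ, ∀ m : ℤ, (m₀ : ℤ) ≤ m →
      Module.Finite B (G.M₀₁ ⧸ (Λ₀ G ⊔ tw (T G) (Λ₁ G) (-m))) ∧
      Module.Projective B (G.M₀₁ ⧸ (Λ₀ G ⊔ tw (T G) (Λ₁ G) (-m))) := by
  obtain ⟨c₀⟩ := nonempty_latticeTriv₀ G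
  obtain ⟨c₁⟩ := nonempty_latticeTriv₁ G
  exact c₀.exists_finite_projective_quotient c₁

/-- **(BR4)** If `Λ₀ + Λ₁ = N` (i.e. `H¹ = 0`) then `Λ₀ ∩ Λ₁` is a finite projective
`B`-module. -/
theorem inf_finite_projective [IsAlgClosed k] (h : Λ₀ G ⊔ Λ₁ G = ⊤) :
    Module.Finite B ↥(Λ₀ G ⊓ Λ₁ G) ∧ Module.Projective B ↥(Λ₀ G ⊓ Λ₁ G) := by
  obtain ⟨c₀⟩ := nonempty_latticeTriv₀ G
  obtain ⟨c₁⟩ := nonempty_latticeTriv₁ G
  exact c₀.inf_finite_projective c₁ h

/-- **(BR4)** If `H¹ = 0` then `H⁰` is a finite projective `B`-module (`Subsingleton` form). -/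
theorem H0_finite_projective_of_subsingleton_H1 [IsAlgClosed k] (h : Subsingleton G.H1) :
    Module.Finite B G.H0 ∧ Module.Projective B G.H0 := by
  obtain ⟨hf, hp⟩ := inf_finite_projective G ((subsingleton_H1_iff G).mp h)
  exact ⟨Module.Finite.equiv (H0Equiv G).symm, Module.Projective.of_equiv (H0Equiv G).symm⟩

end Fermat.Agent.S25.helper9404
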