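import Fermat.Agent.S25.helper985_LGSpec
import Fermat.Agent.S25.helper7579_AffineReduction

/-!
# S25, layer G: quasi-compactness and geometric irreducibility from ONE bounded family
(backup of leaf LG-QCPT, helper9454)

Frozen vocabulary only, for an ARBITRARY base ring `R` and an ARBITRARY cut `Pc`
(so it applies both to `algEquivZeroCut` and to any auxiliary "degree zero" cut).

If `D` represents the cut `Pc` and ONE affine family `M₀` over `Spec B₀` (in the cut) meets every
point of the cut over every algebraically closed field (`BoundedBy Pc M₀`), then the classifying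
map `Spec B₀ ⟶ D.P` is surjective.  Consequences: `D.P` is quasi-compact, `D.toBase` is
quasi-compact, and `D.toBase` is geometrically irreducible / geometrically connected / irreducible
as soon as `Spec B₀ ⟶ Spec R` is.
-/

set_option autoImplicit false

universe u

open CategoryTheory CategoryTheory.Limits AlgebraicGeometry AlgebraicGeometry.RelPicard
  NeronModelInfra GoodReductionJacobian

namespace Fermat.Agent.S25.helper9454

open Fermat.Agent.S25.helper1705 Fermat.Agent.S25.helper985 Fermat.Agent.S25.helper7579

/-! ### Generic topology -/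

/-- A morphism through which every algebraically closed point of the target factors is
surjective. -/
theorem surjective_of_algClosed_points {X Y : Scheme.{u}} (g : X ⟶ Y)
    (H : ∀ (K : Type u) [Field K] [IsAlgClosed K] (s : Spec (CommRingCat.of K) ⟶ Y),
      ∃ s' : Spec (CommRingCat.of K) ⟶ X, s' ≫ g = s) : Surjective g := by
  refine ⟨fun y => ?_⟩
  let K := AlgebraicClosure (Y.residueField y)
  let s : Spec (CommRingCat.of K) ⟶ Y :=
    Spec.map (CommRingCat.ofHom (algebraMap (Y.residueField y) K)) ≫ Y.fromSpecResidueField y
  obtain ⟨s', hs'⟩ := H K s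
  obtain ⟨p⟩ : Nonempty (Spec (CommRingCat.of K)) := inferInstance
  refine ⟨s' p, ?_⟩
  have h1 : (s' ≫ g) p = s p := by rw [hs']
  rw [Scheme.Hom.comp_apply] at h1
  rw [h1]
  exact Scheme.fromSpecResidueField_apply y _

set_option backward.isDefEq.respectTransparency.types false in
/-- Geometric irreducibility descends along a surjection. -/
theorem geometricallyIrreducible_of_surjective {X Y S : Scheme.{u}} (g : X ⟶ Y) (j : Y ⟶ S)
    [Surjective g] [GeometricallyIrreducible (g ≫ j)] : GeometricallyIrreducible j := by
  constructor
  intro K _ y Z fst snd hP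
  have hsq : IsPullback (pullback.fst fst g) (pullback.snd fst g) fst g :=
    IsPullback.of_hasPullback _ _
  have hbig : IsPullback (pullback.snd fst g) (pullback.fst fst g ≫ snd) (g ≫ j) y :=
    hsq.flip.paste_vert hP
  have hirr : IrreducibleSpace ↥(pullback fst g) :=
    GeometricallyIrreducible.geometrically_irreducibleSpace (f := g ≫ j) y _ _ hbig
  have hsurj : Surjective (pullback.fst fst g) := inferInstance
  exact (pullback.fst fst g).surjective.irreducibleSpace (pullback.fst fst g).continuous

set_option backward.isDefEq.respectTransparency.types false in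
/-- Geometric connectedness descends along a surjection. -/
theorem geometricallyConnected_of_surjective {X Y S : Scheme.{u}} (g : X ⟶ Y) (j : Y ⟶ S)
    [Surjective g] [GeometricallyConnected (g ≫ j)] : GeometricallyConnected j := by
  constructor
  intro K _ y Z fst snd hP
  have hsq : IsPullback (pullback.fst fst g) (pullback.snd fst g) fst g :=
    IsPullback.of_hasPullback _ _
  have hbig : IsPullback (pullback.snd fst g) (pullback.fst fst g ≫ snd) (g ≫ j) y :=
    hsq.flip.paste_vert hP
  have hconn : ConnectedSpace ↥(pullback fst g) :=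
    GeometricallyConnected.geometrically_connectedSpace (f := g ≫ j) y _ _ hbig
  have hsurj : Surjective (pullback.fst fst g) := inferInstance
  exact (pullback.fst fst g).surjective.connectedSpace (pullback.fst fst g).continuous

/-! ### One bounded family -/

section Bounded

variable {R : Type u} [CommRing R] {C : Scheme.{u}} {c : C ⟶ Spec (CommRingCat.of R)}
  {ε : SchemeHomOver (𝟙 (Spec (CommRingCat.of R))) c}

/-- The family `M₀` over `Spec B₀` meets every point of the cut `Pc` over every algebraically
closed field: each such point is the pullback of `M₀` along some `B₀ → K`. -/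
def BoundedBy (Pc : SubPicCondition c ε) {B₀ : Type u} [CommRing B₀] [Algebra R B₀]
    (M₀ : RigidifiedLineBundle c ε (specStr R B₀)) : Prop :=
  ∀ (K : Type u) [Field K] [IsAlgClosed K] [Algebra R K]
    (M : RigidifiedLineBundle c ε (specStr R K)), Pc.P (specStr R K) M →
    ∃ φ : B₀ →ₐ[R] K, Nonempty ((M₀.pullbackAlong (specHomOver φ)).L ≅ M.L)

variable {Pc : SubPicCondition c ε} {D : RelativePic0Designation R c}
  {B₀ : Type u} [CommRing B₀] [Algebra R B₀] {M₀ : RigidifiedLineBundle c ε (specStr R B₀)}

/-- Every algebraically closed point of a representing scheme lifts along the classifying map of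
a bounding family. -/
theorem exists_lift_of_boundedBy (h : RepresentsRelSubPic c ε Pc D)
    (hM₀ : Pc.P (specStr R B₀) M₀) (hbd : BoundedBy Pc M₀)
    (K : Type u) [Field K] [IsAlgClosed K] (s : Spec (CommRingCat.of K) ⟶ D.P) :
    ∃ s' : Spec (CommRingCat.of K) ⟶ Spec (CommRingCat.of B₀),
      s' ≫ (h.classify (specStr R B₀) M₀ hM₀).1 = s := by
  let ρ : CommRingCat.of R ⟶ CommRingCat.of K := Spec.preimage (s ≫ D.toBase)
  let _ : Algebra R K := ρ.hom.toAlgebra
  have hρ : s ≫ D.toBase = specStr R K := by
    have h1 : CommRingCat.ofHom (algebraMap R K) = ρ := rfl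
    rw [specStr, h1, Spec.map_preimage]
  let σ : SchemeHomOver (specStr R K) D.toBase := ⟨s, hρ⟩
  have hM : Pc.P (specStr R K) (h.poincare.pullbackAlong σ) :=
    Pc.pullback_mem _ _ σ _ h.poincare_mem
  obtain ⟨φ, ⟨e⟩⟩ := hbd K (h.poincare.pullbackAlong σ) hM
  obtain ⟨e₀⟩ := h.classify_spec (specStr R B₀) M₀ hM₀
  have h1 : postComp (h.classify (specStr R B₀) M₀ hM₀) (specHomOver φ) =
      h.classify (specStr R K) (h.poincare.pullbackAlong σ) hM :=
    h.classify_unique _ _ hM _
      ⟨(pullbackAlongCompIso h.poincare (h.classify (specStr R B₀) M₀ hM₀) (specHomOver φ)).symm ≪≫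
        (Scheme.Modules.pullback (baseChangeSnd c (specHomOver φ))).mapIso e₀ ≪≫ e⟩
  have h2 : σ = h.classify (specStr R K) (h.poincare.pullbackAlong σ) hM :=
    h.classify_unique _ _ hM σ ⟨Iso.refl _⟩
  exact ⟨(specHomOver φ).1, congrArg Subtype.val (h1.trans h2.symm)⟩

/-- The classifying map of a bounding family is surjective. -/
theorem surjective_classify_of_boundedBy (h : RepresentsRelSubPic c ε Pc D)
    (hM₀ : Pc.P (specStr R B₀) M₀) (hbd : BoundedBy Pc M₀) :
    Surjective (h.classify (specStr R B₀) M₀ hM₀).1 :=
  surjective_of_algClosed_points _ fun K _ _ s => exists_lift_of_boundedBy h hM₀ hbd K s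

/-- A representing scheme with a bounding family is quasi-compact. -/
theorem compactSpace_of_boundedBy (h : RepresentsRelSubPic c ε Pc D)
    (hM₀ : Pc.P (specStr R B₀) M₀) (hbd : BoundedBy Pc M₀) : CompactSpace D.P := by
  have hs := surjective_classify_of_boundedBy h hM₀ hbd
  exact (h.classify (specStr R B₀) M₀ hM₀).1.surjective.compactSpace
    (h.classify (specStr R B₀) M₀ hM₀).1.continuous

set_option backward.isDefEq.respectTransparency.types false in
/-- A representing scheme with a bounding family is quasi-compact over the base. -/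
theorem quasiCompact_of_boundedBy (h : RepresentsRelSubPic c ε Pc D)
    (hM₀ : Pc.P (specStr R B₀) M₀) (hbd : BoundedBy Pc M₀) : QuasiCompact D.toBase := by
  have := compactSpace_of_boundedBy h hM₀ hbd
  exact (HasAffineProperty.iff_of_isAffine (P := @QuasiCompact)).mpr this

/-- A representing scheme with a geometrically irreducible bounding family is geometrically
irreducible. -/
theorem geometricallyIrreducible_of_boundedBy (h : RepresentsRelSubPic c ε Pc D)
    (hM₀ : Pc.P (specStr R B₀) M₀) (hbd : BoundedBy Pc M₀)
    [hB₀ : GeometricallyIrreducible (specStr R B₀)] : GeometricallyIrreducible D.toBase := by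
  have hs := surjective_classify_of_boundedBy h hM₀ hbd
  have : GeometricallyIrreducible ((h.classify (specStr R B₀) M₀ hM₀).1 ≫ D.toBase) := by
    rw [(h.classify (specStr R B₀) M₀ hM₀).2]; exact hB₀
  exact geometricallyIrreducible_of_surjective (h.classify (specStr R B₀) M₀ hM₀).1 D.toBase

/-- A representing scheme with a geometrically connected bounding family is geometrically
connected. -/
theorem geometricallyConnected_of_boundedBy (h : RepresentsRelSubPic c ε Pc D)
    (hM₀ : Pc.P (specStr R B₀) M₀) (hbd : BoundedBy Pc M₀)
    [hB₀ : GeometricallyConnected (specStr R B₀)] : GeometricallyConnected D.toBase := by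
  have hs := surjective_classify_of_boundedBy h hM₀ hbd
  have : GeometricallyConnected ((h.classify (specStr R B₀) M₀ hM₀).1 ≫ D.toBase) := by
    rw [(h.classify (specStr R B₀) M₀ hM₀).2]; exact hB₀
  exact geometricallyConnected_of_surjective (h.classify (specStr R B₀) M₀ hM₀).1 D.toBase

/-- A representing scheme with an irreducible bounding family is irreducible. -/
theorem irreducibleSpace_of_boundedBy (h : RepresentsRelSubPic c ε Pc D)
    (hM₀ : Pc.P (specStr R B₀) M₀) (hbd : BoundedBy Pc M₀) [IsDomain B₀] :
    IrreducibleSpace D.P := by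
  have hs := surjective_classify_of_boundedBy h hM₀ hbd
  have : IrreducibleSpace ↥(Spec (CommRingCat.of B₀)) := inferInstance
  exact (h.classify (specStr R B₀) M₀ hM₀).1.surjective.irreducibleSpace
    (h.classify (specStr R B₀) M₀ hM₀).1.continuous

end Bounded

/-! ### The Spec statements -/

/-- `Stmt_Bounded → Stmt_QC` (wiring of `helper985_LGSpec`). -/
theorem stmt_QC_of_bounded (hB : Stmt_Bounded.{u}) : Stmt_QC.{u} := by
  intro k _ C c hc ε D ⟨h⟩
  obtain ⟨B₀, _, _, M₀, hM₀, hbd⟩ := hB k c hc ε
  exact quasiCompact_of_boundedBy h hM₀ (fun K _ _ _ M hM => hbd K M hM)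

end Fermat.Agent.S25.helper9454
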