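import Fermat.Agent.S25.helper9473_ChartsAffCore
import Fermat.Agent.S25.helper2945_AlgDefs

/-!
# S25, leaf CHARTS-AFF: wiring of `Stmt_ChartsAff` from the dictionary and the algebraic charts
(helper9473)

`chartModel_of_dictionary` builds the chart model of `helper9473_ChartsAffCore` from

* the fields of the dictionary between invertible modules on `C ×ₖ Spec B` and two-chart glue
  data (`helper2945.GlueDatum`): `Models`, `exists_model`, `exists_sheaf`, `iso_iff`,
  `baseChange`, `rig_iff`;
* the comparison of the two cuts: `FibrewiseAlgEquivZero M ↔ G.DegZero` for models;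
* an algebraic chart family: finitely generated `k`-algebras `W i` with rigidified glue data of
  degree zero `P i`, which are monomorphisms, open and jointly covering.

All inputs are explicit hypotheses, in the shapes announced for part III of the specification,
so that `Stmt_ChartsAff` follows by one application.
-/

set_option autoImplicit false

universe u

open CategoryTheory CategoryTheory.Limits AlgebraicGeometry AlgebraicGeometry.RelPicard
  NeronModelInfra GoodReductionJacobian

namespace Fermat.Agent.S25.helper9473

open Fermat.Agent.S25.helper1705 Fermat.Agent.S25.helper2945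

variable {k : Type u} [Field k] {C : Scheme.{u}} {c : C ⟶ Spec (CommRingCat.of k)}
  {ε : SchemeHomOver (𝟙 (Spec (CommRingCat.of k))) c}

/-- The chart model of the cut `algEquivZeroCut`, from the dictionary fields, the comparison of
cuts and an algebraic chart family. -/
theorem chartModel_of_dictionary (D : CurveDatum k)
    (Models : ∀ (B : Type u) [CommRing B] [Algebra k B],
      (pullback c (tB k B)).Modules → GlueDatum D B → Prop)
    (exists_model : ∀ (B : Type u) [CommRing B] [Algebra k B]
      (L : (pullback c (tB k B)).Modules), Scheme.Modules.IsInvertible L → ∃ G, Models B L G)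
    (exists_sheaf : ∀ (B : Type u) [CommRing B] [Algebra k B] (G : GlueDatum D B),
      ∃ L : (pullback c (tB k B)).Modules, Scheme.Modules.IsInvertible L ∧ Models B L G)
    (iso_iff : ∀ (B : Type u) [CommRing B] [Algebra k B]
      (L L' : (pullback c (tB k B)).Modules) (G G' : GlueDatum D B),
      Models B L G → Models B L' G' → (Nonempty (L ≅ L') ↔ G.Equiv G'))
    (baseChange : ∀ {B B' : Type u} [CommRing B] [Algebra k B] [CommRing B'] [Algebra k B']
      (φ : B →ₐ[k] B') (L : (pullback c (tB k B)).Modules) (G : GlueDatum D B),
      Models B L G →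
        Models B' ((Scheme.Modules.pullback (baseChangeSnd c (tBHom φ))).obj L) (G.baseChange φ))
    (rig_iff : ∀ (B : Type u) [CommRing B] [Algebra k B]
      (L : (pullback c (tB k B)).Modules) (G : GlueDatum D B), Models B L G →
      (Nonempty ((Scheme.Modules.pullback (rigSection c (tB k B) ε)).obj L ≅
          SheafOfModules.unit (Spec (CommRingCat.of B)).ringCatSheaf) ↔ G.IsRig))
    (faez : ∀ (B : Type u) [CommRing B] [Algebra k B]
      (M : RigidifiedLineBundle c ε (tB k B)) (G : GlueDatum D B), Models B M.L G →
      (FibrewiseAlgEquivZero M ↔ G.DegZero))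
    (ι : Type u) (W : ι → Type u) [∀ i, CommRing (W i)] [∀ i, Algebra k (W i)]
    (finiteType : ∀ i, Algebra.FiniteType k (W i))
    (P : ∀ i, GlueDatum D (W i)) (rig : ∀ i, (P i).IsRig) (degZero : ∀ i, (P i).DegZero)
    (mono : ∀ (i : ι) (B : Type u) [CommRing B] [Algebra k B] (φ φ' : W i →ₐ[k] B),
      ((P i).baseChange φ).Equiv ((P i).baseChange φ') → φ = φ')
    (open_cover : ∀ (B : Type u) [CommRing B] [Algebra k B] (G : GlueDatum D B),
      G.IsRig → G.DegZero →
      ∃ U : ι → Set (PrimeSpectrum B), (∀ i, IsOpen (U i)) ∧
        (∀ (i : ι) (B' : Type u) [CommRing B'] [Algebra k B'] (φ : B →ₐ[k] B'),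
          (∀ p : PrimeSpectrum B', PrimeSpectrum.comap φ.toRingHom p ∈ U i) ↔
            ∃ γ : W i →ₐ[k] B', ((P i).baseChange γ).Equiv (G.baseChange φ)) ∧
        (⋃ i, U i) = Set.univ) :
    Nonempty (ChartModel.{u, u + 1} (algEquivZeroCut c ε)) := by
  refine ⟨{
    Dat := fun B _ _ => GlueDatum D B
    eqv := fun G G' => G.Equiv G'
    bc := fun φ G => G.baseChange φ
    Models := fun B _ _ M G => Models B M.L G
    exists_model := fun B _ _ M _ => exists_model B M.L M.isInvertible
    iso_iff := fun B _ _ M M' G G' h h' => iso_iff B M.L M'.L G G' h h'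
    models_bc := fun φ M G h => baseChange φ M.L G h
    ι := ι
    W := W
    finiteType := finiteType
    Gu := P
    exists_bundle := ?_
    mono := mono
    open_cover := ?_ }⟩
  · intro i
    obtain ⟨L, hL, hmod⟩ := exists_sheaf (W i) (P i)
    let M : RigidifiedLineBundle c ε (tB k (W i)) :=
      ⟨L, hL, (rig_iff (W i) L (P i) hmod).mpr (rig i)⟩
    exact ⟨M, (faez (W i) M (P i) hmod).mpr (degZero i), hmod⟩
  · intro B _ _ M G hM hG
    exact open_cover B G ((rig_iff B M.L G hG).mp M.rigidified) ((faez B M G hG).mp hM)

end Fermat.Agent.S25.helper9473
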