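/-
S25 leaf LC-DEGHOM (helper9533), part 1: Fredholm index of linear maps over a field.
`IsFred f` : kernel and cokernel finite-dimensional; `ind f = dim ker f - dim coker f`.
Composition formula, two-of-three, commutative squares, product of injective maps.
Mathlib only.
-/
import Mathlib

namespace Fermat.Agent.S25.helper9533

open Module

section Fredholm

variable {K : Type*} [Field K]
variable {U V W : Type*} [AddCommGroup U] [Module K U] [AddCommGroup V] [Module K V]
  [AddCommGroup W] [Module K W]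

/-- A linear map over a field with finite-dimensional kernel and cokernel. -/
def IsFred (f : U →ₗ[K] V) : Prop :=
  FiniteDimensional K (LinearMap.ker f) ∧ FiniteDimensional K (V ⧸ LinearMap.range f)

/-- The index `dim ker - dim coker` of a linear map over a field. -/
noncomputable def ind (f : U →ₗ[K] V) : ℤ :=
  (finrank K (LinearMap.ker f) : ℤ) - (finrank K (V ⧸ LinearMap.range f) : ℤ)

theorem finiteDimensional_of_ker_range (h : U →ₗ[K] V) [FiniteDimensional K (LinearMap.ker h)]
    [FiniteDimensional K (LinearMap.range h)] : FiniteDimensional K U := by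
  have : Module.Finite K (U ⧸ LinearMap.ker h) := Module.Finite.equiv h.quotKerEquivRange.symm
  exact Module.Finite.of_submodule_quotient (LinearMap.ker h)

theorem ker_mkQ_comp_subtype (R N : Submodule K V) :
    LinearMap.ker (R.mkQ ∘ₗ N.subtype) = (R ⊓ N).comap N.subtype := by
  rw [LinearMap.ker_comp, Submodule.ker_mkQ]
  ext ⟨v, hv⟩
  simp

theorem range_mkQ_comp_subtype (R N : Submodule K V) :
    LinearMap.range (R.mkQ ∘ₗ N.subtype) = N.map R.mkQ := by
  rw [LinearMap.range_comp, Submodule.range_subtype]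

/-- The lattice index lemma. -/
theorem lattice_index (R N : Submodule K V) [FiniteDimensional K N]
    [FiniteDimensional K (V ⧸ R)] :
    (finrank K ↥(R ⊓ N) : ℤ) - finrank K (V ⧸ (R ⊔ N)) = finrank K N - finrank K (V ⧸ R) := by
  have h1 := LinearMap.finrank_range_add_finrank_ker (R.mkQ ∘ₗ N.subtype)
  have e1 : finrank K (LinearMap.ker (R.mkQ ∘ₗ N.subtype)) = finrank K ↥(R ⊓ N) := by
    rw [ker_mkQ_comp_subtype]
    exact (Submodule.comapSubtypeEquivOfLe (inf_le_right : R ⊓ N ≤ N)).finrank_eq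
  have e3 : finrank K (LinearMap.range (R.mkQ ∘ₗ N.subtype)) = finrank K ↥(N.map R.mkQ) := by
    rw [range_mkQ_comp_subtype]
  have h2 := Submodule.finrank_quotient_add_finrank (N.map R.mkQ)
  have e2 : finrank K ((V ⧸ R) ⧸ N.map R.mkQ) = finrank K (V ⧸ (R ⊔ N)) :=
    (Submodule.quotientQuotientEquivQuotientSup R N).finrank_eq
  omega

theorem range_comp_subtype_ker_comp (f : U →ₗ[K] V) (g : V →ₗ[K] W) :
    LinearMap.range (f ∘ₗ (LinearMap.ker (g ∘ₗ f)).subtype) =
      LinearMap.range f ⊓ LinearMap.ker g := by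
  rw [LinearMap.range_comp, Submodule.range_subtype, LinearMap.ker_comp, Submodule.map_comap_eq]

theorem finrank_ker_comp (f : U →ₗ[K] V) (g : V →ₗ[K] W) [FiniteDimensional K (LinearMap.ker f)]
    [FiniteDimensional K ↥(LinearMap.range f ⊓ LinearMap.ker g)] :
    FiniteDimensional K (LinearMap.ker (g ∘ₗ f)) ∧
      finrank K (LinearMap.ker (g ∘ₗ f)) =
        finrank K (LinearMap.ker f) + finrank K ↥(LinearMap.range f ⊓ LinearMap.ker g) := by
  have hr := range_comp_subtype_ker_comp f g
  have hk : LinearMap.ker (f ∘ₗ (LinearMap.ker (g ∘ₗ f)).subtype) =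
      (LinearMap.ker f).comap (LinearMap.ker (g ∘ₗ f)).subtype :=
    LinearMap.ker_comp _ _
  have hle : LinearMap.ker f ≤ LinearMap.ker (g ∘ₗ f) := by
    intro u hu
    simp [LinearMap.mem_ker.mp hu]
  have : FiniteDimensional K (LinearMap.ker (f ∘ₗ (LinearMap.ker (g ∘ₗ f)).subtype)) := by
    rw [hk]
    exact Module.Finite.equiv (Submodule.comapSubtypeEquivOfLe hle).symm
  have : FiniteDimensional K (LinearMap.range (f ∘ₗ (LinearMap.ker (g ∘ₗ f)).subtype)) := by
    rw [hr]
    infer_instance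
  have : FiniteDimensional K (LinearMap.ker (g ∘ₗ f)) :=
    finiteDimensional_of_ker_range (f ∘ₗ (LinearMap.ker (g ∘ₗ f)).subtype)
  refine ⟨inferInstance, ?_⟩
  have h1 := LinearMap.finrank_range_add_finrank_ker (f ∘ₗ (LinearMap.ker (g ∘ₗ f)).subtype)
  have e1 : finrank K (LinearMap.ker (f ∘ₗ (LinearMap.ker (g ∘ₗ f)).subtype)) =
      finrank K (LinearMap.ker f) := by
    rw [hk]
    exact (Submodule.comapSubtypeEquivOfLe hle).finrank_eq
  have e2 : finrank K (LinearMap.range (f ∘ₗ (LinearMap.ker (g ∘ₗ f)).subtype)) =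
      finrank K ↥(LinearMap.range f ⊓ LinearMap.ker g) := by
    rw [hr]
  omega

/-- `V ⧸ (range f ⊔ ker g)` is the image of `range g` in `W ⧸ range (g ∘ f)`. -/
noncomputable def quotSupEquiv (f : U →ₗ[K] V) (g : V →ₗ[K] W) :
    (V ⧸ (LinearMap.range f ⊔ LinearMap.ker g)) ≃ₗ[K]
      ↥((LinearMap.range g).map (LinearMap.range (g ∘ₗ f)).mkQ) :=
  have hr : LinearMap.range ((LinearMap.range (g ∘ₗ f)).mkQ ∘ₗ g) =
      (LinearMap.range g).map (LinearMap.range (g ∘ₗ f)).mkQ :=
    LinearMap.range_comp _ _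
  have hk : LinearMap.ker ((LinearMap.range (g ∘ₗ f)).mkQ ∘ₗ g) =
      LinearMap.range f ⊔ LinearMap.ker g := by
    rw [LinearMap.ker_comp, Submodule.ker_mkQ, LinearMap.range_comp, Submodule.comap_map_eq]
  (Submodule.quotEquivOfEq _ _ hk.symm).trans
    ((LinearMap.quotKerEquivRange _).trans (LinearEquiv.ofEq _ _ hr))

theorem finrank_coker_comp (f : U →ₗ[K] V) (g : V →ₗ[K] W)
    [FiniteDimensional K (W ⧸ LinearMap.range g)]
    [FiniteDimensional K (V ⧸ (LinearMap.range f ⊔ LinearMap.ker g))] :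
    FiniteDimensional K (W ⧸ LinearMap.range (g ∘ₗ f)) ∧
      finrank K (W ⧸ LinearMap.range (g ∘ₗ f)) =
        finrank K (W ⧸ LinearMap.range g) +
          finrank K (V ⧸ (LinearMap.range f ⊔ LinearMap.ker g)) := by
  have hle : LinearMap.range (g ∘ₗ f) ≤ LinearMap.range g := LinearMap.range_comp_le_range f g
  have e1 := quotSupEquiv f g
  have e2 := Submodule.quotientQuotientEquivQuotient _ _ hle
  have : FiniteDimensional K ↥((LinearMap.range g).map (LinearMap.range (g ∘ₗ f)).mkQ) :=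
    Module.Finite.equiv e1
  have : FiniteDimensional K ((W ⧸ LinearMap.range (g ∘ₗ f)) ⧸
      (LinearMap.range g).map (LinearMap.range (g ∘ₗ f)).mkQ) := Module.Finite.equiv e2.symm
  have : FiniteDimensional K (W ⧸ LinearMap.range (g ∘ₗ f)) :=
    Module.Finite.of_submodule_quotient ((LinearMap.range g).map (LinearMap.range (g ∘ₗ f)).mkQ)
  refine ⟨inferInstance, ?_⟩
  have h1 := Submodule.finrank_quotient_add_finrank
    ((LinearMap.range g).map (LinearMap.range (g ∘ₗ f)).mkQ)
  have h2 := e1.finrank_eq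
  have h3 := e2.finrank_eq
  omega

/-- Composition of Fredholm maps: Fredholm, and the index is additive. -/
theorem IsFred.comp {f : U →ₗ[K] V} {g : V →ₗ[K] W} (hf : IsFred f) (hg : IsFred g) :
    IsFred (g ∘ₗ f) ∧ ind (g ∘ₗ f) = ind g + ind f := by
  obtain ⟨hf1, hf2⟩ := hf
  obtain ⟨hg1, hg2⟩ := hg
  have := hf1
  have := hf2
  have := hg1
  have := hg2
  have : FiniteDimensional K ↥(LinearMap.range f ⊓ LinearMap.ker g) :=
    Submodule.finiteDimensional_of_le inf_le_right
  have : FiniteDimensional K (V ⧸ (LinearMap.range f ⊔ LinearMap.ker g)) :=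
    Module.Finite.equiv (Submodule.quotientQuotientEquivQuotientSup _ _)
  obtain ⟨h1, h2⟩ := finrank_ker_comp f g
  obtain ⟨h3, h4⟩ := finrank_coker_comp f g
  refine ⟨⟨h1, h3⟩, ?_⟩
  have h5 := lattice_index (LinearMap.range f) (LinearMap.ker g)
  unfold ind
  omega

/-- Two-of-three: `g ∘ f` and `g` Fredholm imply `f` Fredholm. -/
theorem IsFred.of_comp_right {f : U →ₗ[K] V} {g : V →ₗ[K] W} (hgf : IsFred (g ∘ₗ f))
    (hg : IsFred g) : IsFred f := by
  obtain ⟨h1, h2⟩ := hgf
  obtain ⟨hg1, hg2⟩ := hg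
  have := h1
  have := h2
  have := hg1
  have hle : LinearMap.ker f ≤ LinearMap.ker (g ∘ₗ f) := by
    intro u hu
    simp [LinearMap.mem_ker.mp hu]
  refine ⟨Submodule.finiteDimensional_of_le hle, ?_⟩
  have : FiniteDimensional K (V ⧸ (LinearMap.range f ⊔ LinearMap.ker g)) :=
    Module.Finite.equiv (quotSupEquiv f g).symm
  have : FiniteDimensional K ((V ⧸ LinearMap.range f) ⧸
      (LinearMap.ker g).map (LinearMap.range f).mkQ) :=
    Module.Finite.equiv (Submodule.quotientQuotientEquivQuotientSup _ _).symm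
  exact Module.Finite.of_submodule_quotient ((LinearMap.ker g).map (LinearMap.range f).mkQ)

/-- Two-of-three: `g ∘ f` and `f` Fredholm imply `g` Fredholm. -/
theorem IsFred.of_comp_left {f : U →ₗ[K] V} {g : V →ₗ[K] W} (hgf : IsFred (g ∘ₗ f))
    (hf : IsFred f) : IsFred g := by
  obtain ⟨h1, h2⟩ := hgf
  obtain ⟨hf1, hf2⟩ := hf
  have := h1
  have := h2
  have := hf2
  have hle : LinearMap.range (g ∘ₗ f) ≤ LinearMap.range g := LinearMap.range_comp_le_range f g
  refine ⟨?_, Module.Finite.equiv (Submodule.quotientQuotientEquivQuotient _ _ hle)⟩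
  have : FiniteDimensional K ↥(LinearMap.range f ⊓ LinearMap.ker g) := by
    rw [← range_comp_subtype_ker_comp]
    infer_instance
  have : FiniteDimensional K
      (LinearMap.ker ((LinearMap.range f).mkQ ∘ₗ (LinearMap.ker g).subtype)) := by
    rw [ker_mkQ_comp_subtype]
    exact Module.Finite.equiv (Submodule.comapSubtypeEquivOfLe inf_le_right).symm
  exact finiteDimensional_of_ker_range ((LinearMap.range f).mkQ ∘ₗ (LinearMap.ker g).subtype)

theorem isFred_of_injective {f : U →ₗ[K] V} (hf : Function.Injective f)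
    [FiniteDimensional K (V ⧸ LinearMap.range f)] :
    IsFred f ∧ ind f = -(finrank K (V ⧸ LinearMap.range f) : ℤ) := by
  have hk : LinearMap.ker f = ⊥ := LinearMap.ker_eq_bot.mpr hf
  refine ⟨⟨by rw [hk]; infer_instance, inferInstance⟩, ?_⟩
  unfold ind
  rw [hk, finrank_bot]
  simp

theorem isFred_of_bijective {f : U →ₗ[K] V} (hf : Function.Bijective f) :
    IsFred f ∧ ind f = 0 := by
  have hr : LinearMap.range f = ⊤ := LinearMap.range_eq_top.mpr hf.2
  have : Subsingleton (V ⧸ LinearMap.range f) := by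
    rw [hr]
    infer_instance
  obtain ⟨h1, h2⟩ := isFred_of_injective hf.1
  refine ⟨h1, ?_⟩
  rw [h2, finrank_zero_of_subsingleton]
  simp

/-- Commutative square `β ∘ d₁ = d₂ ∘ α` with Fredholm vertical maps. -/
theorem IsFred.square {E₁ F₁ E₂ F₂ : Type*} [AddCommGroup E₁] [Module K E₁] [AddCommGroup F₁]
    [Module K F₁] [AddCommGroup E₂] [Module K E₂] [AddCommGroup F₂] [Module K F₂]
    {d₁ : E₁ →ₗ[K] F₁} {d₂ : E₂ →ₗ[K] F₂} {α : E₁ →ₗ[K] E₂} {β : F₁ →ₗ[K] F₂}
    (h : β ∘ₗ d₁ = d₂ ∘ₗ α) (hα : IsFred α) (hβ : IsFred β) :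
    (IsFred d₁ ↔ IsFred d₂) ∧ (IsFred d₁ → ind d₂ + ind α = ind β + ind d₁) := by
  have key : IsFred d₁ → IsFred d₂ := fun h1 => by
    have h2 := (h1.comp hβ).1
    rw [h] at h2
    exact h2.of_comp_left hα
  refine ⟨⟨key, fun h2 => ?_⟩, fun h1 => ?_⟩
  · have h3 := (hα.comp h2).1
    rw [← h] at h3
    exact h3.of_comp_right hβ
  · have h2 := key h1
    have e1 := (h1.comp hβ).2
    have e2 := (hα.comp h2).2
    rw [h] at e1
    rw [e1] at e2
    exact e2.symm

/-- Cokernel of a product map. -/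
noncomputable def cokerProdMapEquiv {U' V' : Type*} [AddCommGroup U'] [Module K U']
    [AddCommGroup V'] [Module K V'] (f : U →ₗ[K] V) (g : U' →ₗ[K] V') :
    ((V × V') ⧸ LinearMap.range (f.prodMap g)) ≃ₗ[K]
      (V ⧸ LinearMap.range f) × (V' ⧸ LinearMap.range g) :=
  have hk : LinearMap.ker ((LinearMap.range f).mkQ.prodMap (LinearMap.range g).mkQ) =
      LinearMap.range (f.prodMap g) := by
    rw [LinearMap.ker_prodMap, Submodule.ker_mkQ, Submodule.ker_mkQ, LinearMap.range_prodMap]
  (Submodule.quotEquivOfEq _ _ hk.symm).trans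
    (LinearMap.quotKerEquivOfSurjective _
      (Function.Surjective.prodMap (Submodule.mkQ_surjective _) (Submodule.mkQ_surjective _)))

theorem isFred_prodMap_of_injective {U' V' : Type*} [AddCommGroup U'] [Module K U']
    [AddCommGroup V'] [Module K V'] {f : U →ₗ[K] V} {g : U' →ₗ[K] V'}
    (hf : Function.Injective f) (hg : Function.Injective g)
    [FiniteDimensional K (V ⧸ LinearMap.range f)] [FiniteDimensional K (V' ⧸ LinearMap.range g)] :
    IsFred (f.prodMap g) ∧ ind (f.prodMap g) =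
      -((finrank K (V ⧸ LinearMap.range f) : ℤ) + finrank K (V' ⧸ LinearMap.range g)) := by
  have hinj : Function.Injective (f.prodMap g) := Function.Injective.prodMap hf hg
  have : FiniteDimensional K ((V × V') ⧸ LinearMap.range (f.prodMap g)) :=
    Module.Finite.equiv (cokerProdMapEquiv f g).symm
  obtain ⟨h1, h2⟩ := isFred_of_injective hinj
  refine ⟨h1, ?_⟩
  rw [h2, (cokerProdMapEquiv f g).finrank_eq, Module.finrank_prod]
  push_cast
  ring

end Fredholm

end Fermat.Agent.S25.helper9533
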