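/-
S25 leaf LC-DEGHOM (helper9533): degree of the Hom datum of two two-chart line bundles over a
field.  Part 2: invertible modules over a domain (rank-one toolkit), the local length lemma.
-/
import Mathlib
import Fermat.Agent.S25.helper9533_Fredholm

namespace Fermat.Agent.S25.helper9533

open Module TensorProduct

section RankOne

variable {A : Type*} [CommRing A] {M : Type*} [AddCommGroup M] [Module A M]
  [Module.Invertible A M]

/-- The rank-one identity on an invertible module. -/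
theorem dual_apply_smul_comm (f : Module.Dual A M) (u v : M) : f u • v = f v • u := by
  have h := Module.Invertible.tmul_comm (R := A) (m₁ := u) (m₂ := v)
  have h2 := congrArg (TensorProduct.lift ((LinearMap.lsmul A M).comp f)) h
  simpa using h2

variable (A M) in
theorem exists_sum_dual_apply_eq_one :
    ∃ S : Finset (Module.Dual A M × M), ∑ i ∈ S, i.1 i.2 = 1 := by
  obtain ⟨S, hS⟩ := ((Module.Invertible.linearEquiv A M).symm 1).exists_finset
  refine ⟨S, ?_⟩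
  have hS' : 1 = ∑ i ∈ S, i.1 i.2 := by
    simpa [LinearEquiv.symm_apply_eq, Module.Invertible.linearEquiv] using hS
  exact hS'.symm

theorem eq_sum_dual_smul {S : Finset (Module.Dual A M × M)} (hS : ∑ i ∈ S, i.1 i.2 = 1)
    (u : M) : u = ∑ i ∈ S, i.1 u • i.2 := by
  calc u = (∑ i ∈ S, i.1 i.2) • u := by rw [hS, one_smul]
    _ = ∑ i ∈ S, i.1 i.2 • u := Finset.sum_smul ..
    _ = ∑ i ∈ S, i.1 u • i.2 :=
      Finset.sum_congr rfl (fun i _ => dual_apply_smul_comm i.1 i.2 u)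

theorem exists_dual_apply_ne_zero {u : M} (hu : u ≠ 0) : ∃ f : Module.Dual A M, f u ≠ 0 := by
  obtain ⟨S, hS⟩ := exists_sum_dual_apply_eq_one A M
  by_contra h
  simp only [not_exists, not_not] at h
  exact hu (by rw [eq_sum_dual_smul hS u]; simp [h])

theorem smul_eq_zero_of_invertible [IsDomain A] {a : A} {u : M} (h : a • u = 0) :
    a = 0 ∨ u = 0 := by
  by_cases ha : a = 0
  · exact Or.inl ha
  right
  obtain ⟨S, hS⟩ := exists_sum_dual_apply_eq_one A M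
  rw [eq_sum_dual_smul hS u]
  refine Finset.sum_eq_zero (fun i _ => ?_)
  have h0 : a * i.1 u = 0 := by rw [← smul_eq_mul, ← map_smul, h, map_zero]
  rw [(mul_eq_zero.mp h0).resolve_left ha, zero_smul]

variable {M' M'' : Type*} [AddCommGroup M'] [Module A M'] [Module.Invertible A M']
  [AddCommGroup M''] [Module A M''] [Module.Invertible A M'']

/-- A nonzero linear map between invertible modules over a domain is injective. -/
theorem injective_of_ne_zero [IsDomain A] (σ : M' →ₗ[A] M'') (hσ : σ ≠ 0) :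
    Function.Injective σ := by
  rw [injective_iff_map_eq_zero]
  intro u hu
  by_contra hne
  obtain ⟨f, hf⟩ := exists_dual_apply_ne_zero (A := A) hne
  apply hσ
  ext v
  have h1 : f u • σ v = 0 := by
    rw [← map_smul, dual_apply_smul_comm f u v, map_smul, hu, smul_zero]
  exact (smul_eq_zero_of_invertible h1).resolve_left hf

/-- The cokernel of a nonzero map between invertible modules over a domain is killed by a
nonzero element. -/
theorem exists_smul_mem_range [IsDomain A] (σ : M' →ₗ[A] M'') (hσ : σ ≠ 0) :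
    ∃ a : A, a ≠ 0 ∧ ∀ w : M'', a • w ∈ LinearMap.range σ := by
  obtain ⟨u, hu⟩ : ∃ u, σ u ≠ 0 := by
    by_contra h
    simp only [not_exists, not_not] at h
    exact hσ (LinearMap.ext h)
  obtain ⟨g, hg⟩ := exists_dual_apply_ne_zero (A := A) hu
  refine ⟨g (σ u), hg, fun w => ⟨g w • u, ?_⟩⟩
  rw [map_smul, dual_apply_smul_comm g (σ u) w]

end RankOne

section Length

variable (K : Type*) [Field K] {A : Type*} [CommRing A] [Algebra K A]

/-- A finite `A`-module killed by `a` with `A ⧸ (a)` finite-dimensional is finite-dimensional. -/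
theorem finite_of_smul_eq_zero {Q : Type*} [AddCommGroup Q] [Module A Q] [Module K Q]
    [IsScalarTower K A Q] [Module.Finite A Q] (a : A)
    [Module.Finite K (A ⧸ Ideal.span {a})] (h : ∀ q : Q, a • q = 0) : Module.Finite K Q := by
  have ht : Module.IsTorsionBySet A Q (Ideal.span {a} : Ideal A) := by
    rw [← Module.isTorsionBySet_iff_is_torsion_by_span, Module.isTorsionBySet_singleton_iff]
    intro q
    exact h q
  let _ := ht.module
  have : IsScalarTower K (A ⧸ Ideal.span {a}) Q := ht.isScalarTower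
  have : IsScalarTower A (A ⧸ Ideal.span {a}) Q := ht.isScalarTower
  have : Module.Finite (A ⧸ Ideal.span {a}) Q := Module.Finite.of_restrictScalars_finite A _ Q
  exact Module.Finite.trans (A ⧸ Ideal.span {a}) Q

variable {M : Type*} [AddCommGroup M] [Module A M] [Module.Invertible A M]
variable {Q : Type*} [AddCommGroup Q] [Module A Q] [Module K Q] [IsScalarTower K A Q]

/-- The local length lemma: for `M` invertible over `A` and `Q` an `A`-module which is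
finite-dimensional over the field `K`, evaluation at a suitable element of `M` identifies
`Hom_A(M, Q)` with `Q`. -/
theorem exists_eval_bijective [FiniteDimensional K Q] :
    ∃ m₀ : M, Function.Bijective (fun f : M →ₗ[A] Q => f m₀) := by
  classical
  let φ : A →ₐ[K] Module.End K Q := Algebra.lsmul K K Q
  let I : Ideal A := RingHom.ker φ
  have hI : ∀ a ∈ I, ∀ q : Q, a • q = 0 := fun a ha q => by
    have h0 : φ a = 0 := ha
    simpa [φ] using LinearMap.congr_fun h0 q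
  have : Module.Finite K (A ⧸ I) :=
    Module.Finite.of_injective (Ideal.kerLiftAlg φ).toLinearMap (Ideal.kerLiftAlg_injective φ)
  have : IsArtinianRing (A ⧸ I) := IsArtinianRing.of_finite K (A ⧸ I)
  obtain ⟨e⟩ := Module.Invertible.free_iff_linearEquiv.mp
    (inferInstance : Module.Free (A ⧸ I) ((A ⧸ I) ⊗[A] M))
  let π : M →ₗ[A] (A ⧸ I) ⊗[A] M := TensorProduct.mk A (A ⧸ I) M 1
  have hπ : Function.Surjective π := by
    intro t
    induction t using TensorProduct.induction_on with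
    | zero => exact ⟨0, map_zero _⟩
    | tmul a m =>
      obtain ⟨a, rfl⟩ := Ideal.Quotient.mk_surjective a
      refine ⟨a • m, ?_⟩
      have h1 : (Ideal.Quotient.mk I a) = a • (1 : A ⧸ I) := by
        rw [Algebra.smul_def, mul_one]; rfl
      rw [h1, TensorProduct.smul_tmul]
      rfl
    | add t₁ t₂ h₁ h₂ =>
      obtain ⟨m₁, rfl⟩ := h₁
      obtain ⟨m₂, rfl⟩ := h₂
      exact ⟨m₁ + m₂, map_add _ _ _⟩
  let g : M →ₗ[A] A ⧸ I := (e.restrictScalars A).toLinearMap ∘ₗ π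
  have hg : Function.Surjective g := (e.restrictScalars A).surjective.comp hπ
  obtain ⟨m₀, hm₀⟩ := hg 1
  refine ⟨m₀, ?_, ?_⟩
  · -- injectivity
    intro f₁ f₂ h12
    have key : ∀ f : M →ₗ[A] Q, f m₀ = 0 → f = 0 := by
      intro f hf
      let B : A ⧸ I →ₗ[A] M →ₗ[A] Q :=
        Submodule.liftQ I (LinearMap.toSpanSingleton A (M →ₗ[A] Q) f) (fun a ha => by
          rw [LinearMap.mem_ker]
          ext m
          simpa using hI a ha (f m))
      let F : (A ⧸ I) ⊗[A] M →ₗ[A] Q := TensorProduct.lift B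
      have hF : ∀ m, F (π m) = f m := fun m => by
        change (TensorProduct.lift B) ((1 : A ⧸ I) ⊗ₜ[A] m) = f m
        rw [TensorProduct.lift.tmul]
        change (Submodule.liftQ I (LinearMap.toSpanSingleton A (M →ₗ[A] Q) f) _)
          (Submodule.Quotient.mk 1) m = f m
        rw [Submodule.liftQ_apply]
        simp
      ext m
      obtain ⟨a, ha⟩ := Ideal.Quotient.mk_surjective (g m)
      have h1 : g (m - a • m₀) = 0 := by
        rw [map_sub, map_smul, hm₀, ← ha, Algebra.smul_def, mul_one]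
        exact sub_self _
      have h2 : π (m - a • m₀) = 0 := by
        have h3 : e (π (m - a • m₀)) = 0 := h1
        exact e.map_eq_zero_iff.mp h3
      have h4 : f (m - a • m₀) = 0 := by rw [← hF, h2, map_zero]
      rw [map_sub, map_smul, hf, smul_zero, sub_zero] at h4
      simpa using h4
    have h0 := key (f₁ - f₂) (by simpa [sub_eq_zero] using h12)
    exact sub_eq_zero.mp h0
  · -- surjectivity
    intro q
    let ℓ : A ⧸ I →ₗ[A] Q := Submodule.liftQ I (LinearMap.toSpanSingleton A Q q) (fun a ha => by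
      rw [LinearMap.mem_ker]
      simpa using hI a ha q)
    refine ⟨ℓ ∘ₗ g, ?_⟩
    change ℓ (g m₀) = q
    rw [hm₀]
    change (Submodule.liftQ I (LinearMap.toSpanSingleton A Q q) _) (Submodule.Quotient.mk 1) = q
    rw [Submodule.liftQ_apply]
    simp

end Length

section PostComp

variable (K : Type*) [Field K] {A : Type*} [CommRing A] [Algebra K A]
variable (M : Type*) [AddCommGroup M] [Module A M]
variable {M' M'' : Type*} [AddCommGroup M'] [Module A M'] [Module K M'] [IsScalarTower K A M']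
  [AddCommGroup M''] [Module A M''] [Module K M''] [IsScalarTower K A M'']

/-- Post-composition with an `A`-linear map, as a `K`-linear map of Hom spaces. -/
noncomputable def postComp (σ : M' →ₗ[A] M'') : (M →ₗ[A] M') →ₗ[K] (M →ₗ[A] M'') :=
  LinearMap.compRight K σ

@[simp]
theorem postComp_apply (σ : M' →ₗ[A] M'') (f : M →ₗ[A] M') : postComp K M σ f = σ ∘ₗ f := rfl

theorem postComp_injective {σ : M' →ₗ[A] M''} (hσ : Function.Injective σ) :
    Function.Injective (postComp K M σ) := by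
  intro f g h
  ext m
  exact hσ (LinearMap.congr_fun h m)

/-- The cokernel of post-composition with an injective `σ` is `Hom(M, coker σ)` for `M`
projective. -/
noncomputable def cokerPostCompEquiv [Module.Projective A M] {σ : M' →ₗ[A] M''}
    (hσ : Function.Injective σ) :
    ((M →ₗ[A] M'') ⧸ LinearMap.range (postComp K M σ)) ≃ₗ[K]
      (M →ₗ[A] (M'' ⧸ LinearMap.range σ)) :=
  have hs : Function.Surjective (postComp K M (LinearMap.range σ).mkQ) := fun g => by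
    obtain ⟨h, hh⟩ := Module.projective_lifting_property (LinearMap.range σ).mkQ g
      (Submodule.mkQ_surjective _)
    exact ⟨h, hh⟩
  have hk : LinearMap.ker (postComp K M (LinearMap.range σ).mkQ) =
      LinearMap.range (postComp K M σ) := by
    ext f
    constructor
    · intro hf
      have hmem : ∀ m, f m ∈ LinearMap.range σ := fun m => by
        have h0 := LinearMap.congr_fun (LinearMap.mem_ker.mp hf) m
        simpa using h0
      refine ⟨(LinearEquiv.ofInjective σ hσ).symm.toLinearMap ∘ₗ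
        (f.codRestrict (LinearMap.range σ) hmem), ?_⟩
      ext m
      have h1 := (LinearEquiv.ofInjective σ hσ).apply_symm_apply ⟨f m, hmem m⟩
      exact congrArg Subtype.val h1
    · rintro ⟨h, rfl⟩
      rw [LinearMap.mem_ker]
      ext m
      simp
  (Submodule.quotEquivOfEq _ _ hk.symm).trans (LinearMap.quotKerEquivOfSurjective _ hs)

/-- Post-composition with an injective map with finite-dimensional cokernel, from an invertible
module: Fredholm of index `- dim coker σ`. -/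
theorem isFred_postComp [Module.Invertible A M] {σ : M' →ₗ[A] M''} (hσ : Function.Injective σ)
    [FiniteDimensional K (M'' ⧸ LinearMap.range σ)] :
    FiniteDimensional K ((M →ₗ[A] M'') ⧸ LinearMap.range (postComp K M σ)) ∧
      finrank K ((M →ₗ[A] M'') ⧸ LinearMap.range (postComp K M σ)) =
        finrank K (M'' ⧸ LinearMap.range σ) := by
  obtain ⟨m₀, hm₀⟩ := exists_eval_bijective K (A := A) (M := M) (Q := M'' ⧸ LinearMap.range σ)
  let ev : (M →ₗ[A] (M'' ⧸ LinearMap.range σ)) ≃ₗ[K] (M'' ⧸ LinearMap.range σ) :=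
    LinearEquiv.ofBijective (LinearMap.applyₗ' K m₀) hm₀
  let e := (cokerPostCompEquiv K M hσ).trans ev
  exact ⟨Module.Finite.equiv e.symm, e.finrank_eq⟩

/-- An injective `A`-linear map with finite-dimensional cokernel, seen as a `K`-linear map. -/
theorem isFred_restrictScalars {σ : M' →ₗ[A] M''}
    [FiniteDimensional K (M'' ⧸ LinearMap.range σ)] :
    FiniteDimensional K (M'' ⧸ LinearMap.range (σ.restrictScalars K)) ∧
      finrank K (M'' ⧸ LinearMap.range (σ.restrictScalars K)) =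
        finrank K (M'' ⧸ LinearMap.range σ) := by
  let e := Submodule.Quotient.restrictScalarsEquiv K (LinearMap.range σ)
  exact ⟨Module.Finite.equiv e.symm, e.finrank_eq⟩

/-- Under (R2), a nonzero map between invertible modules over a domain has finite-dimensional
cokernel. -/
theorem finite_coker_of_ne_zero [IsDomain A]
    (hR2 : ∀ a : A, a ≠ 0 → Module.Finite K (A ⧸ Ideal.span {a}))
    [Module.Invertible A M'] [Module.Invertible A M''] (σ : M' →ₗ[A] M'') (hσ : σ ≠ 0) :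
    Module.Finite K (M'' ⧸ LinearMap.range σ) := by
  obtain ⟨a, ha, h⟩ := exists_smul_mem_range σ hσ
  have := hR2 a ha
  refine finite_of_smul_eq_zero K a (fun q => ?_)
  obtain ⟨w, rfl⟩ := Submodule.Quotient.mk_surjective _ q
  rw [← Submodule.Quotient.mk_smul]
  exact (Submodule.Quotient.mk_eq_zero _).mpr (h w)

end PostComp

section Cech

variable {K : Type*} [Field K] {U V W : Type*} [AddCommGroup U] [Module K U]
  [AddCommGroup V] [Module K V] [AddCommGroup W] [Module K W]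

/-- The Čech differential `(u, v) ↦ f u - g v` of a two-chart datum. -/
def cech (f : U →ₗ[K] W) (g : V →ₗ[K] W) : (U × V) →ₗ[K] W := f.coprod (-g)

@[simp]
theorem cech_apply (f : U →ₗ[K] W) (g : V →ₗ[K] W) (p : U × V) :
    cech f g p = f p.1 - g p.2 := by
  simp [cech, sub_eq_add_neg]

end Cech

section Modification

variable {K : Type*} [Field K]
variable {A₀ A₁ A₀₁ : Type*} [CommRing A₀] [CommRing A₁] [CommRing A₀₁]
  [Algebra K A₀] [Algebra K A₁] [Algebra K A₀₁]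
variable {M₀ M₁ M₀₁ : Type*} [AddCommGroup M₀] [Module A₀ M₀] [Module.Invertible A₀ M₀]
  [AddCommGroup M₁] [Module A₁ M₁] [Module.Invertible A₁ M₁]
  [AddCommGroup M₀₁] [Module A₀₁ M₀₁] [Module.Invertible A₀₁ M₀₁]
variable {N₀ N₁ N₀₁ : Type*}
  [AddCommGroup N₀] [Module A₀ N₀] [Module K N₀] [IsScalarTower K A₀ N₀]
  [AddCommGroup N₁] [Module A₁ N₁] [Module K N₁] [IsScalarTower K A₁ N₁]
  [AddCommGroup N₀₁] [Module A₀₁ N₀₁] [Module K N₀₁] [IsScalarTower K A₀₁ N₀₁]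
variable {P₀ P₁ P₀₁ : Type*}
  [AddCommGroup P₀] [Module A₀ P₀] [Module K P₀] [IsScalarTower K A₀ P₀]
  [AddCommGroup P₁] [Module A₁ P₁] [Module K P₁] [IsScalarTower K A₁ P₁]
  [AddCommGroup P₀₁] [Module A₀₁ P₀₁] [Module K P₀₁] [IsScalarTower K A₀₁ P₀₁]

/-- Invariance under modifications of the target: for a morphism `σ : N → P` of two-chart
data which is injective with finite-dimensional cokernel on all three charts, the difference
`χ(Hom(M, -)) - χ(-)` is the same for `N` and `P` (and finiteness transfers both ways). -/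
theorem mod_invariance
    (r₀ : M₀ → M₀₁) (r₁ : M₁ → M₀₁)
    (hspan₀ : Submodule.span A₀₁ (Set.range r₀) = ⊤)
    (hspan₁ : Submodule.span A₀₁ (Set.range r₁) = ⊤)
    (ρ₀ : N₀ →ₗ[K] N₀₁) (ρ₁ : N₁ →ₗ[K] N₀₁) (ρ₀' : P₀ →ₗ[K] P₀₁) (ρ₁' : P₁ →ₗ[K] P₀₁)
    (σ₀ : N₀ →ₗ[A₀] P₀) (σ₁ : N₁ →ₗ[A₁] P₁) (σ₀₁ : N₀₁ →ₗ[A₀₁] P₀₁)
    (hσ₀ : ∀ a, σ₀₁ (ρ₀ a) = ρ₀' (σ₀ a)) (hσ₁ : ∀ b, σ₀₁ (ρ₁ b) = ρ₁' (σ₁ b))
    (inj₀ : Function.Injective σ₀) (inj₁ : Function.Injective σ₁)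
    (inj₀₁ : Function.Injective σ₀₁)
    [FiniteDimensional K (P₀ ⧸ LinearMap.range σ₀)]
    [FiniteDimensional K (P₁ ⧸ LinearMap.range σ₁)]
    [FiniteDimensional K (P₀₁ ⧸ LinearMap.range σ₀₁)]
    (E₀ : (M₀ →ₗ[A₀] N₀) →ₗ[K] (M₀₁ →ₗ[A₀₁] N₀₁))
    (E₁ : (M₁ →ₗ[A₁] N₁) →ₗ[K] (M₀₁ →ₗ[A₀₁] N₀₁))
    (hE₀ : ∀ f a, E₀ f (r₀ a) = ρ₀ (f a)) (hE₁ : ∀ f b, E₁ f (r₁ b) = ρ₁ (f b))
    (E₀' : (M₀ →ₗ[A₀] P₀) →ₗ[K] (M₀₁ →ₗ[A₀₁] P₀₁))
    (E₁' : (M₁ →ₗ[A₁] P₁) →ₗ[K] (M₀₁ →ₗ[A₀₁] P₀₁))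
    (hE₀' : ∀ f a, E₀' f (r₀ a) = ρ₀' (f a)) (hE₁' : ∀ f b, E₁' f (r₁ b) = ρ₁' (f b)) :
    (IsFred (cech ρ₀ ρ₁) ↔ IsFred (cech ρ₀' ρ₁')) ∧
    (IsFred (cech E₀ E₁) ↔ IsFred (cech E₀' E₁')) ∧
    (IsFred (cech ρ₀ ρ₁) → IsFred (cech E₀ E₁) →
      ind (cech E₀' E₁') - ind (cech ρ₀' ρ₁') = ind (cech E₀ E₁) - ind (cech ρ₀ ρ₁)) := by
  -- module level
  obtain ⟨f0, q0⟩ := isFred_restrictScalars K (σ := σ₀)
  obtain ⟨f1, q1⟩ := isFred_restrictScalars K (σ := σ₁)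
  obtain ⟨f01, q01⟩ := isFred_restrictScalars K (σ := σ₀₁)
  have hα := isFred_prodMap_of_injective (f := σ₀.restrictScalars K)
    (g := σ₁.restrictScalars K) inj₀ inj₁
  have hβ := isFred_of_injective (f := σ₀₁.restrictScalars K) inj₀₁
  have hsq : (σ₀₁.restrictScalars K) ∘ₗ cech ρ₀ ρ₁ =
      cech ρ₀' ρ₁' ∘ₗ ((σ₀.restrictScalars K).prodMap (σ₁.restrictScalars K)) := by
    apply LinearMap.ext
    rintro ⟨a, b⟩
    simp [hσ₀, hσ₁]
  have S1 := IsFred.square hsq hα.1 hβ.1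
  -- Hom level
  obtain ⟨g0, p0⟩ := isFred_postComp K M₀ inj₀
  obtain ⟨g1, p1⟩ := isFred_postComp K M₁ inj₁
  obtain ⟨g01, p01⟩ := isFred_postComp K M₀₁ inj₀₁
  have hαH := isFred_prodMap_of_injective (postComp_injective K M₀ inj₀)
    (postComp_injective K M₁ inj₁)
  have hβH := isFred_of_injective (postComp_injective K M₀₁ inj₀₁)
  have c0 : ∀ f, σ₀₁ ∘ₗ E₀ f = E₀' (σ₀ ∘ₗ f) := fun f =>
    LinearMap.ext_on hspan₀ (by rintro _ ⟨a, rfl⟩; simp [hE₀, hE₀', hσ₀])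
  have c1 : ∀ f, σ₀₁ ∘ₗ E₁ f = E₁' (σ₁ ∘ₗ f) := fun f =>
    LinearMap.ext_on hspan₁ (by rintro _ ⟨b, rfl⟩; simp [hE₁, hE₁', hσ₁])
  have hsqH : postComp K M₀₁ σ₀₁ ∘ₗ cech E₀ E₁ =
      cech E₀' E₁' ∘ₗ ((postComp K M₀ σ₀).prodMap (postComp K M₁ σ₁)) := by
    apply LinearMap.ext
    rintro ⟨f, g⟩
    simp [c0, c1, LinearMap.comp_sub]
  have S2 := IsFred.square hsqH hαH.1 hβH.1
  refine ⟨S1.1, S2.1, fun h1 h2 => ?_⟩
  have e1 := S1.2 h1
  have e2 := S2.2 h2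
  rw [hα.2, hβ.2, q0, q1, q01] at e1
  rw [hαH.2, hβH.2, p0, p1, p01] at e2
  linarith

end Modification

section Bridge

variable {A : Type*} [CommRing A]

theorem nontrivial_of_invertible (A M : Type*) [CommRing A] [Nontrivial A] [AddCommGroup M]
    [Module A M] [Module.Invertible A M] : Nontrivial M := by
  by_contra h
  rw [not_nontrivial_iff_subsingleton] at h
  obtain ⟨S, hS⟩ := exists_sum_dual_apply_eq_one A M
  have h0 : ∑ i ∈ S, i.1 i.2 = (0 : A) :=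
    Finset.sum_eq_zero (fun i _ => by rw [Subsingleton.elim i.2 0, map_zero])
  exact one_ne_zero (hS.symm.trans h0)

theorem exists_hom_ne_zero (A M' M : Type*) [CommRing A] [IsDomain A] [AddCommGroup M']
    [Module A M'] [Module.Invertible A M'] [AddCommGroup M] [Module A M]
    [Module.Invertible A M] : ∃ f : M' →ₗ[A] M, f ≠ 0 := by
  have := nontrivial_of_invertible A M'
  have := nontrivial_of_invertible A M
  obtain ⟨u, hu⟩ := exists_ne (0 : M')
  obtain ⟨w, hw⟩ := exists_ne (0 : M)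
  obtain ⟨g, hg⟩ := exists_dual_apply_ne_zero (A := A) hu
  refine ⟨g.smulRight w, fun h => ?_⟩
  have h1 : g u • w = 0 := by
    have := LinearMap.congr_fun h u
    simpa using this
  rcases smul_eq_zero_of_invertible h1 with h2 | h2
  · exact hg h2
  · exact hw h2

theorem span_range_eq_top_of_isLocalizedModule {A' : Type*} [CommRing A'] [Algebra A A']
    (S : Submonoid A) [IsLocalization S A'] {M M' : Type*} [AddCommGroup M] [Module A M]
    [AddCommGroup M'] [Module A M'] [Module A' M'] [IsScalarTower A A' M']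
    (r : M →ₗ[A] M') [IsLocalizedModule S r] :
    Submodule.span A' (Set.range r) = ⊤ := by
  rw [eq_top_iff]
  intro z _
  obtain ⟨⟨m, s⟩, h⟩ := IsLocalizedModule.surj S r z
  have hu : IsUnit (algebraMap A A' s) := IsLocalization.map_units A' s
  have h1 : z = (↑hu.unit⁻¹ : A') • r m := by
    have h2 : algebraMap A A' s • z = r m := by
      rw [algebraMap_smul]
      exact h
    rw [← h2, smul_smul, hu.val_inv_mul, one_smul]
  rw [h1]
  exact Submodule.smul_mem _ _ (Submodule.subset_span ⟨m, rfl⟩)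

theorem injective_of_isLocalizedModule [IsDomain A] (S : Submonoid A) (hS : ∀ s : S, (s : A) ≠ 0)
    {M M' : Type*} [AddCommGroup M] [Module A M] [Module.Invertible A M]
    [AddCommGroup M'] [Module A M'] (r : M →ₗ[A] M') [IsLocalizedModule S r] :
    Function.Injective r := by
  rw [injective_iff_map_eq_zero]
  intro m hm
  obtain ⟨s, hs⟩ := (IsLocalizedModule.eq_zero_iff S r).mp hm
  exact (smul_eq_zero_of_invertible (A := A) hs).resolve_left (hS s)

variable {A₀ A₁ A₀₁ : Type*} [CommRing A₀] [CommRing A₁] [CommRing A₀₁]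
  [Algebra A₀ A₀₁] [Algebra A₁ A₀₁] [IsDomain A₀] [IsDomain A₁] [IsDomain A₀₁]
variable {M₀ M₁ M₀₁ : Type*}
  [AddCommGroup M₀] [Module A₀ M₀] [Module.Invertible A₀ M₀]
  [AddCommGroup M₁] [Module A₁ M₁] [Module.Invertible A₁ M₁]
  [AddCommGroup M₀₁] [Module A₀₁ M₀₁] [Module.Invertible A₀₁ M₀₁]
  [Module A₀ M₀₁] [IsScalarTower A₀ A₀₁ M₀₁] [Module A₁ M₀₁] [IsScalarTower A₁ A₀₁ M₀₁]
variable {N₀ N₁ N₀₁ : Type*}
  [AddCommGroup N₀] [Module A₀ N₀] [Module.Invertible A₀ N₀]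
  [AddCommGroup N₁] [Module A₁ N₁] [Module.Invertible A₁ N₁]
  [AddCommGroup N₀₁] [Module A₀₁ N₀₁] [Module.Invertible A₀₁ N₀₁]
  [Module A₀ N₀₁] [IsScalarTower A₀ A₀₁ N₀₁] [Module A₁ N₀₁] [IsScalarTower A₁ A₀₁ N₀₁]

/-- The bridge: between any two two-chart invertible data `N` and `M` over domains there is a
chartwise nonzero morphism `N → M(m)` for some twist `m`, where `M(m)` has gluing maps
`r₀` and `x ^ m • r₁`. -/
theorem exists_bridge (x : A₀) (y : A₁) [IsLocalization.Away x A₀₁] [IsLocalization.Away y A₀₁]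
    (hxy : algebraMap A₀ A₀₁ x * algebraMap A₁ A₀₁ y = 1)
    (r₀ : M₀ →ₗ[A₀] M₀₁) (r₁ : M₁ →ₗ[A₁] M₀₁)
    [IsLocalizedModule (Submonoid.powers x) r₀] [IsLocalizedModule (Submonoid.powers y) r₁]
    (r₀' : N₀ →ₗ[A₀] N₀₁) (r₁' : N₁ →ₗ[A₁] N₀₁)
    [IsLocalizedModule (Submonoid.powers x) r₀'] [IsLocalizedModule (Submonoid.powers y) r₁'] :
    ∃ (m : ℕ) (f₀ : N₀ →ₗ[A₀] M₀) (f₁ : N₁ →ₗ[A₁] M₁) (f₀₁ : N₀₁ →ₗ[A₀₁] M₀₁),
      f₀ ≠ 0 ∧ f₁ ≠ 0 ∧ f₀₁ ≠ 0 ∧ (∀ a, f₀₁ (r₀' a) = r₀ (f₀ a)) ∧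
      (∀ b, f₀₁ (r₁' b) = algebraMap A₀ A₀₁ (x ^ m) • r₁ (f₁ b)) := by
  classical
  have hx : x ≠ 0 := by
    rintro rfl
    simp at hxy
  obtain ⟨f₀, hf₀⟩ := exists_hom_ne_zero A₀ N₀ M₀
  let f₀₁ : N₀₁ →ₗ[A₀₁] M₀₁ :=
    IsLocalizedModule.mapExtendScalars (Submonoid.powers x) r₀' r₀ A₀₁ f₀
  have h₀ : ∀ a, f₀₁ (r₀' a) = r₀ (f₀ a) := fun a => by
    simp only [f₀₁, IsLocalizedModule.mapExtendScalars_apply_apply, IsLocalizedModule.map_apply]
  let g : N₁ →ₗ[A₁] M₀₁ := (f₀₁.restrictScalars A₁) ∘ₗ r₁'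
  have : Module.FinitePresentation A₁ N₁ := Module.finitePresentation_of_projective A₁ N₁
  obtain ⟨f₁, s, hs⟩ :=
    Module.FinitePresentation.exists_lift_of_isLocalizedModule (Submonoid.powers y) r₁ g
  obtain ⟨m, hm⟩ := s.2
  have h₁ : ∀ b, f₀₁ (r₁' b) = algebraMap A₀ A₀₁ (x ^ m) • r₁ (f₁ b) := fun b => by
    have e1 : r₁ (f₁ b) = (y ^ m) • f₀₁ (r₁' b) := by
      have h2 := LinearMap.congr_fun hs b
      rw [LinearMap.smul_apply, Submonoid.smul_def, ← hm] at h2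
      exact h2
    have e2 : algebraMap A₀ A₀₁ (x ^ m) * algebraMap A₁ A₀₁ (y ^ m) = 1 := by
      rw [map_pow, map_pow, ← mul_pow, hxy, one_pow]
    rw [e1, ← algebraMap_smul A₀₁ (y ^ m) (f₀₁ (r₁' b)), smul_smul, e2, one_smul]
  have r₀inj : Function.Injective r₀ :=
    injective_of_isLocalizedModule (Submonoid.powers x)
      (by rintro ⟨_, n, rfl⟩; exact pow_ne_zero n hx) r₀
  have hf₀₁ : f₀₁ ≠ 0 := by
    intro h
    apply hf₀
    ext a
    apply r₀inj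
    rw [← h₀, h]
    simp
  have hf₁ : f₁ ≠ 0 := by
    intro h
    apply hf₀₁
    refine LinearMap.ext_on
      (span_range_eq_top_of_isLocalizedModule (A' := A₀₁) (Submonoid.powers y) r₁') ?_
    rintro _ ⟨b, rfl⟩
    rw [h₁, h]
    simp
  exact ⟨m, f₀, f₁, f₀₁, hf₀, hf₁, hf₀₁, h₀, h₁⟩

end Bridge

section Main

variable {K : Type*} [Field K]
variable {A₀ A₁ A₀₁ : Type*} [CommRing A₀] [CommRing A₁] [CommRing A₀₁]
  [Algebra K A₀] [Algebra K A₁] [Algebra K A₀₁] [Algebra A₀ A₀₁] [Algebra A₁ A₀₁]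
  [IsScalarTower K A₀ A₀₁] [IsScalarTower K A₁ A₀₁]
  [IsDomain A₀] [IsDomain A₁] [IsDomain A₀₁]
variable {M₀ M₁ M₀₁ : Type*}
  [AddCommGroup M₀] [Module A₀ M₀] [Module K M₀] [IsScalarTower K A₀ M₀]
  [Module.Invertible A₀ M₀]
  [AddCommGroup M₁] [Module A₁ M₁] [Module K M₁] [IsScalarTower K A₁ M₁]
  [Module.Invertible A₁ M₁]
  [AddCommGroup M₀₁] [Module A₀₁ M₀₁] [Module K M₀₁] [IsScalarTower K A₀₁ M₀₁]
  [Module.Invertible A₀₁ M₀₁]
  [Module A₀ M₀₁] [IsScalarTower A₀ A₀₁ M₀₁] [IsScalarTower K A₀ M₀₁]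
  [Module A₁ M₀₁] [IsScalarTower A₁ A₀₁ M₀₁] [IsScalarTower K A₁ M₀₁]
variable {N₀ N₁ N₀₁ : Type*}
  [AddCommGroup N₀] [Module A₀ N₀] [Module K N₀] [IsScalarTower K A₀ N₀]
  [Module.Invertible A₀ N₀]
  [AddCommGroup N₁] [Module A₁ N₁] [Module K N₁] [IsScalarTower K A₁ N₁]
  [Module.Invertible A₁ N₁]
  [AddCommGroup N₀₁] [Module A₀₁ N₀₁] [Module K N₀₁] [IsScalarTower K A₀₁ N₀₁]
  [Module.Invertible A₀₁ N₀₁]
  [Module A₀ N₀₁] [IsScalarTower A₀ A₀₁ N₀₁] [IsScalarTower K A₀ N₀₁]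
  [Module A₁ N₀₁] [IsScalarTower A₁ A₀₁ N₀₁] [IsScalarTower K A₁ N₀₁]

variable (K A₀ A₁ A₀₁) in
/-- The Čech complex of the unit datum `(A₀, A₁, A₀₁)`. -/
def cechUnit : (A₀ × A₁) →ₗ[K] A₀₁ :=
  cech (IsScalarTower.toAlgHom K A₀ A₀₁).toLinearMap (IsScalarTower.toAlgHom K A₁ A₀₁).toLinearMap

/-- **Degree of the Hom datum over a field.**  `G = (M₀, M₁, M₀₁; r₀, r₁)` and
`G' = (N₀, N₁, N₀₁; r₀', r₁')` two-chart invertible data over domains `A₀, A₁, A₀₁` with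
`A₀₁ = A₀[1/x] = A₁[1/y]`, `x y = 1`, and (R2) every quotient by a nonzero principal ideal is
finite-dimensional over `K`.  For ANY `K`-linear restriction maps `E₀, E₁` of the Hom datum
(characterised by `E_i f (r_i m) = r_i' (f m)`): if the Čech complexes of `G` and of the unit
datum are Fredholm, so are those of `Hom(G, G')` and `G'`, and
`χ(Hom(G, G')) = χ(G') - χ(G) + χ(O)`. -/
theorem isFred_cech_hom (x : A₀) (y : A₁) [IsLocalization.Away x A₀₁] [IsLocalization.Away y A₀₁]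
    (hxy : algebraMap A₀ A₀₁ x * algebraMap A₁ A₀₁ y = 1)
    (hR₀ : ∀ a : A₀, a ≠ 0 → Module.Finite K (A₀ ⧸ Ideal.span {a}))
    (hR₁ : ∀ a : A₁, a ≠ 0 → Module.Finite K (A₁ ⧸ Ideal.span {a}))
    (hR₀₁ : ∀ a : A₀₁, a ≠ 0 → Module.Finite K (A₀₁ ⧸ Ideal.span {a}))
    (r₀ : M₀ →ₗ[A₀] M₀₁) (r₁ : M₁ →ₗ[A₁] M₀₁)
    [IsLocalizedModule (Submonoid.powers x) r₀] [IsLocalizedModule (Submonoid.powers y) r₁]
    (r₀' : N₀ →ₗ[A₀] N₀₁) (r₁' : N₁ →ₗ[A₁] N₀₁)
    [IsLocalizedModule (Submonoid.powers x) r₀'] [IsLocalizedModule (Submonoid.powers y) r₁']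
    (E₀ : (M₀ →ₗ[A₀] N₀) →ₗ[K] (M₀₁ →ₗ[A₀₁] N₀₁))
    (E₁ : (M₁ →ₗ[A₁] N₁) →ₗ[K] (M₀₁ →ₗ[A₀₁] N₀₁))
    (hE₀ : ∀ f a, E₀ f (r₀ a) = r₀' (f a)) (hE₁ : ∀ f b, E₁ f (r₁ b) = r₁' (f b))
    (hG : IsFred (cech (r₀.restrictScalars K) (r₁.restrictScalars K)))
    (hO : IsFred (cechUnit K A₀ A₁ A₀₁)) :
    IsFred (cech E₀ E₁) ∧ IsFred (cech (r₀'.restrictScalars K) (r₁'.restrictScalars K)) ∧
      ind (cech E₀ E₁) = ind (cech (r₀'.restrictScalars K) (r₁'.restrictScalars K)) -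
        ind (cech (r₀.restrictScalars K) (r₁.restrictScalars K)) + ind (cechUnit K A₀ A₁ A₀₁) := by
  classical
  obtain ⟨m, f₀, f₁, f₀₁, hf₀, hf₁, hf₀₁, h₀, h₁⟩ := exists_bridge x y hxy r₀ r₁ r₀' r₁'
  have hy : y ≠ 0 := by
    rintro rfl
    simp at hxy
  have huy : algebraMap A₀ A₀₁ (x ^ m) * algebraMap A₁ A₀₁ (y ^ m) = 1 := by
    rw [map_pow, map_pow, ← mul_pow, hxy, one_pow]
  have sp₀ : Submodule.span A₀₁ (Set.range r₀) = ⊤ :=
    span_range_eq_top_of_isLocalizedModule (A' := A₀₁) (Submonoid.powers x) r₀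
  have sp₁ : Submodule.span A₀₁ (Set.range r₁) = ⊤ :=
    span_range_eq_top_of_isLocalizedModule (A' := A₀₁) (Submonoid.powers y) r₁
  -- the twisted gluing map of `G(m)`
  let ρm : M₁ →ₗ[K] M₀₁ :=
    ((LinearMap.lsmul A₀₁ M₀₁ (algebraMap A₀ A₀₁ (x ^ m))).restrictScalars K) ∘ₗ
      (r₁.restrictScalars K)
  have hρm : ∀ b, ρm b = algebraMap A₀ A₀₁ (x ^ m) • r₁ b := fun b => rfl
  -- restriction maps of `Hom(G, G)` and `Hom(G, G(m))`
  let EG₀ : (M₀ →ₗ[A₀] M₀) →ₗ[K] (M₀₁ →ₗ[A₀₁] M₀₁) :=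
    (IsLocalizedModule.mapExtendScalars (Submonoid.powers x) r₀ r₀ A₀₁).restrictScalars K
  let EG₁ : (M₁ →ₗ[A₁] M₁) →ₗ[K] (M₀₁ →ₗ[A₀₁] M₀₁) :=
    (IsLocalizedModule.mapExtendScalars (Submonoid.powers y) r₁ r₁ A₀₁).restrictScalars K
  have hEG₀ : ∀ f a, EG₀ f (r₀ a) = r₀ (f a) := fun f a => by
    simp only [EG₀, LinearMap.restrictScalars_apply,
      IsLocalizedModule.mapExtendScalars_apply_apply, IsLocalizedModule.map_apply]
  have hEG₁ : ∀ f b, EG₁ f (r₁ b) = r₁ (f b) := fun f b => by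
    simp only [EG₁, LinearMap.restrictScalars_apply,
      IsLocalizedModule.mapExtendScalars_apply_apply, IsLocalizedModule.map_apply]
  let Em₁ : (M₁ →ₗ[A₁] M₁) →ₗ[K] (M₀₁ →ₗ[A₀₁] M₀₁) :=
    ((LinearMap.lsmul A₀₁ (M₀₁ →ₗ[A₀₁] M₀₁) (algebraMap A₀ A₀₁ (x ^ m))).restrictScalars K) ∘ₗ EG₁
  have hEm₁ : ∀ f b, Em₁ f (r₁ b) = ρm (f b) := fun f b => by
    change algebraMap A₀ A₀₁ (x ^ m) • (EG₁ f (r₁ b)) = _
    rw [hEG₁, hρm]
  -- the modification `ι : G → G(m)`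
  have := nontrivial_of_invertible A₀ M₀
  have := nontrivial_of_invertible A₁ M₁
  have := nontrivial_of_invertible A₀₁ M₀₁
  let ι₁ : M₁ →ₗ[A₁] M₁ := LinearMap.lsmul A₁ M₁ (y ^ m)
  have hι₀ : (LinearMap.id : M₀ →ₗ[A₀] M₀) ≠ 0 := by
    intro h
    obtain ⟨w, hw⟩ := exists_ne (0 : M₀)
    exact hw (LinearMap.congr_fun h w)
  have hι₀₁ : (LinearMap.id : M₀₁ →ₗ[A₀₁] M₀₁) ≠ 0 := by
    intro h
    obtain ⟨w, hw⟩ := exists_ne (0 : M₀₁)
    exact hw (LinearMap.congr_fun h w)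
  have hι₁ : ι₁ ≠ 0 := by
    intro h
    obtain ⟨w, hw⟩ := exists_ne (0 : M₁)
    have h1 : y ^ m • w = 0 := LinearMap.congr_fun h w
    exact hw ((smul_eq_zero_of_invertible h1).resolve_left (pow_ne_zero m hy))
  have hcι : ∀ b, (LinearMap.id : M₀₁ →ₗ[A₀₁] M₀₁) ((r₁.restrictScalars K) b) = ρm (ι₁ b) := by
    intro b
    change r₁ b = algebraMap A₀ A₀₁ (x ^ m) • r₁ (y ^ m • b)
    rw [map_smul, ← algebraMap_smul A₀₁ (y ^ m) (r₁ b), smul_smul, huy, one_smul]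
  have Fι₀ := finite_coker_of_ne_zero K hR₀ (LinearMap.id : M₀ →ₗ[A₀] M₀) hι₀
  have Fι₁ := finite_coker_of_ne_zero K hR₁ ι₁ hι₁
  have Fι₀₁ := finite_coker_of_ne_zero K hR₀₁ (LinearMap.id : M₀₁ →ₗ[A₀₁] M₀₁) hι₀₁
  have Sι := mod_invariance (K := K) (⇑r₀) (⇑r₁) sp₀ sp₁
    (r₀.restrictScalars K) (r₁.restrictScalars K) (r₀.restrictScalars K) ρm
    (LinearMap.id : M₀ →ₗ[A₀] M₀) ι₁ (LinearMap.id : M₀₁ →ₗ[A₀₁] M₀₁)
    (fun a => rfl) hcι
    (injective_of_ne_zero _ hι₀) (injective_of_ne_zero _ hι₁) (injective_of_ne_zero _ hι₀₁)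
    EG₀ EG₁ hEG₀ hEG₁ EG₀ Em₁ hEG₀ hEm₁
  -- the modification `τ : G' → G(m)`
  have Fτ₀ := finite_coker_of_ne_zero K hR₀ f₀ hf₀
  have Fτ₁ := finite_coker_of_ne_zero K hR₁ f₁ hf₁
  have Fτ₀₁ := finite_coker_of_ne_zero K hR₀₁ f₀₁ hf₀₁
  have Sτ := mod_invariance (K := K) (⇑r₀) (⇑r₁) sp₀ sp₁
    (r₀'.restrictScalars K) (r₁'.restrictScalars K) (r₀.restrictScalars K) ρm
    f₀ f₁ f₀₁ h₀ h₁
    (injective_of_ne_zero _ hf₀) (injective_of_ne_zero _ hf₁) (injective_of_ne_zero _ hf₀₁)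
    E₀ E₁ hE₀ hE₁ EG₀ Em₁ hEG₀ hEm₁
  -- `Hom(G, G)` is the unit datum
  let e₀ : A₀ →ₗ[K] (M₀ →ₗ[A₀] M₀) := (LinearMap.lsmul A₀ M₀).restrictScalars K
  let e₁ : A₁ →ₗ[K] (M₁ →ₗ[A₁] M₁) := (LinearMap.lsmul A₁ M₁).restrictScalars K
  let e₀₁ : A₀₁ →ₗ[K] (M₀₁ →ₗ[A₀₁] M₀₁) := (LinearMap.lsmul A₀₁ M₀₁).restrictScalars K
  have be₀ : Function.Bijective e₀ := Module.Invertible.toModuleEnd_bijective A₀ M₀
  have be₁ : Function.Bijective e₁ := Module.Invertible.toModuleEnd_bijective A₁ M₁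
  have be₀₁ : Function.Bijective e₀₁ := Module.Invertible.toModuleEnd_bijective A₀₁ M₀₁
  have c₀ : ∀ a : A₀, EG₀ (e₀ a) = e₀₁ (algebraMap A₀ A₀₁ a) := fun a =>
    LinearMap.ext_on sp₀ (by
      rintro _ ⟨w, rfl⟩
      rw [hEG₀]
      change r₀ (a • w) = algebraMap A₀ A₀₁ a • r₀ w
      rw [map_smul, algebraMap_smul])
  have c₁ : ∀ b : A₁, EG₁ (e₁ b) = e₀₁ (algebraMap A₁ A₀₁ b) := fun b =>
    LinearMap.ext_on sp₁ (by
      rintro _ ⟨w, rfl⟩
      rw [hEG₁]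
      change r₁ (b • w) = algebraMap A₁ A₀₁ b • r₁ w
      rw [map_smul, algebraMap_smul])
  have hsqO : e₀₁ ∘ₗ cechUnit K A₀ A₁ A₀₁ = cech EG₀ EG₁ ∘ₗ (e₀.prodMap e₁) := by
    apply LinearMap.ext
    rintro ⟨a, b⟩
    simp [cechUnit, c₀, c₁]
  have hbE : Function.Bijective (e₀.prodMap e₁) := by
    rw [LinearMap.coe_prodMap]
    exact Function.Bijective.prodMap be₀ be₁
  have SO := IsFred.square hsqO (isFred_of_bijective hbE).1 (isFred_of_bijective be₀₁).1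
  -- assembly
  have hGG : IsFred (cech EG₀ EG₁) := SO.1.mp hO
  have iGG : ind (cech EG₀ EG₁) = ind (cechUnit K A₀ A₁ A₀₁) := by
    have h := SO.2 hO
    rw [(isFred_of_bijective hbE).2, (isFred_of_bijective be₀₁).2] at h
    linarith
  have hGm : IsFred (cech (r₀.restrictScalars K) ρm) := Sι.1.mp hG
  have hHm : IsFred (cech EG₀ Em₁) := Sι.2.1.mp hGG
  have hG' : IsFred (cech (r₀'.restrictScalars K) (r₁'.restrictScalars K)) := Sτ.1.mpr hGm
  have hH : IsFred (cech E₀ E₁) := Sτ.2.1.mpr hHm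
  refine ⟨hH, hG', ?_⟩
  have e1 := Sι.2.2 hG hGG
  have e2 := Sτ.2.2 hG' hH
  linarith

end Main

end Fermat.Agent.S25.helper9533
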