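/-
S25 brick U13 (helper9546): smooth + (geometrically) connected over a field ⟹ (geometrically) integral.
Mathlib only, statement-agnostic.

Algebra: a smooth algebra `S` over a field `K` is, Zariski-locally, a domain:
for every prime `q` of `S` there is `g ∉ q` such that `S[1/g]` is a domain.
Route: `S[1/f]` is étale over a polynomial ring `P` (Mathlib local structure theorem); smooth base change
commutes with integral closure (Mathlib), so `S[1/f]` is integrally closed in `S[1/f] ⊗_P Frac P`, a finite
product of fields; hence the idempotents of that product lie in `S[1/f]`.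
-/
import Mathlib

set_option autoImplicit false

namespace Fermat.Agent.S25.helper9546

open TensorProduct

/-- Abstract core: a ring embedded in a finite product of fields and containing all idempotents of
the product is, near every prime, a domain (witnessed by an element `u` outside the prime). -/
theorem exists_notMem_of_embedding_pi {T : Type*} [CommRing T] {I : Type*} [Finite I]
    {L : I → Type*} [∀ i, Field (L i)] (ι : T →+* (∀ i, L i)) (hι : Function.Injective ι)
    (hid : ∀ e : (∀ i, L i), IsIdempotentElem e → ∃ t : T, ι t = e) (q : Ideal T) [hq : q.IsPrime] :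
    ∃ u : T, u ∉ q ∧ ∀ a b : T, a * b = 0 → u * a = 0 ∨ u * b = 0 := by
  classical
  have := Fintype.ofFinite I
  have hex : ∀ i : I, ∃ u : T, ι u = Pi.single i 1 := fun i =>
    hid _ (by
      show Pi.single i (1 : L i) * Pi.single i 1 = Pi.single i 1
      rw [← Pi.single_mul, mul_one])
  choose u hu using hex
  have hsum : ∑ i, u i = 1 := by
    apply hι
    rw [map_sum, map_one]
    simp_rw [hu]
    exact Finset.univ_sum_single 1
  obtain ⟨i, hi⟩ : ∃ i, u i ∉ q := by
    by_contra h
    simp only [not_exists, not_not] at h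
    have h1 : (1 : T) ∈ q := hsum ▸ q.sum_mem (fun i _ => h i)
    exact hq.ne_top ((Ideal.eq_top_iff_one _).mpr h1)
  refine ⟨u i, hi, fun a b hab => ?_⟩
  have h0 : ι a i * ι b i = 0 := by
    have := congrArg (fun z => ι z i) hab
    simpa using this
  have key : ∀ c : T, ι c i = 0 → u i * c = 0 := by
    intro c hc
    apply hι
    rw [map_mul, map_zero, hu]
    funext j
    by_cases hj : j = i
    · subst hj; simp [hc]
    · simp [Pi.single_eq_of_ne hj]
  rcases mul_eq_zero.mp h0 with h | h
  · exact Or.inl (key a h)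
  · exact Or.inr (key b h)

/-- An étale algebra over an integrally closed domain is, near every prime, a domain. -/
theorem exists_notMem_of_etale {P T : Type*} [CommRing P] [IsDomain P] [IsIntegrallyClosed P]
    [CommRing T] [Algebra P T] [Algebra.Etale P T] (q : Ideal T) [q.IsPrime] :
    ∃ u : T, u ∉ q ∧ ∀ a b : T, a * b = 0 → u * a = 0 ∨ u * b = 0 := by
  let F := FractionRing P
  have hE : Algebra.Etale F (F ⊗[P] T) := inferInstance
  obtain ⟨I, hI, L, instF, instA, e, -⟩ := (Algebra.Etale.iff_exists_algEquiv_prod F (F ⊗[P] T)).mp hE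
  let c : T ⊗[P] F ≃+* F ⊗[P] T := (Algebra.TensorProduct.comm P T F).toRingEquiv
  let ψ : T ⊗[P] F ≃+* (∀ i, L i) := c.trans e.toRingEquiv
  let incl : T →+* T ⊗[P] F := (Algebra.TensorProduct.includeLeft : T →ₐ[P] T ⊗[P] F).toRingHom
  have hincl : Function.Injective incl :=
    Algebra.TensorProduct.includeLeft_injective (S := P) (IsFractionRing.injective P F)
  let ι : T →+* (∀ i, L i) := ψ.toRingHom.comp incl
  have hι : Function.Injective ι := ψ.injective.comp hincl
  -- every element of `T ⊗ integralClosure P F` is a pure tensor `t ⊗ 1`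
  have key : ∀ w : T ⊗[P] integralClosure P F, ∃ t : T,
      ((TensorProduct.toIntegralClosure P T F w : integralClosure T (T ⊗[P] F)) : T ⊗[P] F)
        = t ⊗ₜ[P] (1 : F) := by
    intro w
    induction w with
    | zero => exact ⟨0, by simp⟩
    | tmul t b =>
      have hb : (b : F) ∈ (⊥ : Subalgebra P F) :=
        (IsIntegrallyClosed.integralClosure_eq_bot P F) ▸ b.2
      obtain ⟨p, hp⟩ := Algebra.mem_bot.mp hb
      refine ⟨p • t, ?_⟩
      simp only [TensorProduct.toIntegralClosure, AlgHom.coe_codRestrict,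
        Algebra.TensorProduct.map_tmul, AlgHom.coe_id, id_eq, Subalgebra.coe_val]
      rw [← hp, Algebra.algebraMap_eq_smul_one, TensorProduct.smul_tmul]
    | add x y hx hy =>
      obtain ⟨a, ha⟩ := hx
      obtain ⟨b, hb⟩ := hy
      exact ⟨a + b, by simp only [map_add, Subalgebra.coe_add, ha, hb, TensorProduct.add_tmul]⟩
  have hid : ∀ e' : (∀ i, L i), IsIdempotentElem e' → ∃ t : T, ι t = e' := by
    intro e' he'
    have hz : IsIdempotentElem (ψ.symm e') := by
      show ψ.symm e' * ψ.symm e' = ψ.symm e'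
      rw [← map_mul, he'.eq]
    have hint : IsIntegral T (ψ.symm e') := by
      refine ⟨Polynomial.X ^ 2 - Polynomial.X, ?_, ?_⟩
      · exact Polynomial.monic_X_pow_sub
          (lt_of_le_of_lt Polynomial.degree_X_le (by norm_num))
      · simp [pow_two, hz.eq]
    obtain ⟨w, hw⟩ := (TensorProduct.toIntegralClosure_bijective_of_smooth
      (R := P) (S := T) (B := F)).2 ⟨ψ.symm e', hint⟩
    obtain ⟨t, ht⟩ := key w
    refine ⟨t, ?_⟩
    rw [hw] at ht
    show ψ (incl t) = e'
    have : incl t = ψ.symm e' := ht.symm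
    rw [this, RingEquiv.apply_symm_apply]
  exact exists_notMem_of_embedding_pi ι hι hid q

/-- **Smooth algebras over a field are locally domains**: for every prime `q` of a smooth
`K`-algebra `S` (`K` a field) there is `g ∉ q` such that `S[1/g]` has no zero divisors, stated
elementwise. -/
theorem exists_notMem_forall_mul_eq_zero (K S : Type*) [Field K] [CommRing S] [Algebra K S]
    [Algebra.Smooth K S] (q : Ideal S) [hq : q.IsPrime] :
    ∃ g : S, g ∉ q ∧ ∀ a b : S, a * b = 0 →
      (∃ n : ℕ, g ^ n * a = 0) ∨ (∃ n : ℕ, g ^ n * b = 0) := by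
  obtain ⟨f, hfq, n, alg, tower, hstd⟩ :=
    Algebra.IsSmoothAt.exists_isStandardEtale_mvPolynomial (R := K) (p := q)
  let _ := alg
  have hq' : (q.map (algebraMap S (Localization.Away f))).IsPrime :=
    IsLocalization.isPrime_of_isPrime_disjoint (.powers f) _ _ hq
      ((Ideal.disjoint_powers_iff_notMem_of_isPrime _).mpr hfq)
  obtain ⟨u, huq, hu⟩ := exists_notMem_of_etale (P := MvPolynomial (Fin n) K)
    (T := Localization.Away f) (q.map (algebraMap S (Localization.Away f)))
  obtain ⟨m, g', hg'⟩ := IsLocalization.Away.surj f u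
  have hunit : IsUnit (algebraMap S (Localization.Away f) f ^ m) :=
    IsLocalization.Away.algebraMap_pow_isUnit f m
  have key : ∀ c : S, u * algebraMap S (Localization.Away f) c = 0 → ∃ k : ℕ, (f * g') ^ k * c = 0 := by
    intro c hc
    have h1 : algebraMap S (Localization.Away f) (g' * c) = 0 := by
      rw [map_mul, ← hg']
      linear_combination (algebraMap S (Localization.Away f) f ^ m) * hc
    obtain ⟨⟨_, j, rfl⟩, hj⟩ := (IsLocalization.map_eq_zero_iff (.powers f) (Localization.Away f) _).mp h1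
    refine ⟨j + 1, ?_⟩
    have hj' : f ^ j * (g' * c) = 0 := hj
    calc (f * g') ^ (j + 1) * c = f * g' ^ j * (f ^ j * (g' * c)) := by ring
      _ = 0 := by rw [hj', mul_zero]
  refine ⟨f * g', ?_, ?_⟩
  · intro h
    rcases hq.mem_or_mem h with h | h
    · exact hfq h
    · have h2 : u * algebraMap S (Localization.Away f) f ^ m ∈ q.map (algebraMap S (Localization.Away f)) := by
        rw [hg']; exact Ideal.mem_map_of_mem _ h
      rcases hq'.mem_or_mem h2 with h3 | h3
      · exact huq h3
      · exact hq'.ne_top (Ideal.eq_top_of_isUnit_mem _ h3 hunit)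
  · intro a b hab
    have hab' : algebraMap S (Localization.Away f) a * algebraMap S (Localization.Away f) b = 0 := by
      rw [← map_mul, hab, map_zero]
    rcases hu _ _ hab' with h | h
    · exact Or.inl (key a h)
    · exact Or.inr (key b h)

/-- A localization in which products vanish only for a reason visible in the base ring is a domain. -/
theorem isDomain_of_isLocalization {S : Type*} [CommRing S] (M : Submonoid S) (A : Type*)
    [CommRing A] [Algebra S A] [IsLocalization M A] (h0 : (0 : S) ∉ M)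
    (h : ∀ a b : S, a * b = 0 → (∃ m ∈ M, m * a = 0) ∨ (∃ m ∈ M, m * b = 0)) : IsDomain A := by
  have hnt : Nontrivial A := by
    refine ⟨⟨0, 1, fun h01 => ?_⟩⟩
    have h1 : algebraMap S A 1 = 0 := by rw [map_one]; exact h01.symm
    obtain ⟨m, hm⟩ := (IsLocalization.map_eq_zero_iff M A _).mp h1
    rw [mul_one] at hm
    exact h0 (hm ▸ m.2)
  have hzero : ∀ (x : A) (a : S) (s : M), x * algebraMap S A s = algebraMap S A a →
      (∃ m ∈ M, m * a = 0) → x = 0 := by
    intro x a s hx ⟨m, hm, hma⟩
    have h1 : algebraMap S A m * algebraMap S A a = 0 := by rw [← map_mul, hma, map_zero]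
    have hu : IsUnit (algebraMap S A m) := IsLocalization.map_units A ⟨m, hm⟩
    have h2 : algebraMap S A a = 0 := (hu.mul_right_eq_zero).mp h1
    have hs : IsUnit (algebraMap S A s) := IsLocalization.map_units A s
    rw [h2] at hx
    exact (hs.mul_left_eq_zero).mp hx
  have hnzd : NoZeroDivisors A := by
    refine ⟨fun {x y} hxy => ?_⟩
    obtain ⟨⟨a, s⟩, hx⟩ := IsLocalization.surj M x
    obtain ⟨⟨b, t⟩, hy⟩ := IsLocalization.surj M y
    have h1 : algebraMap S A (a * b) = 0 := by
      rw [map_mul, ← hx, ← hy]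
      linear_combination (algebraMap S A s * algebraMap S A t) * hxy
    obtain ⟨r, hr⟩ := (IsLocalization.map_eq_zero_iff M A _).mp h1
    have h2 : ((r : S) * a) * b = 0 := by rw [mul_assoc]; exact hr
    rcases h _ _ h2 with ⟨m, hm, hma⟩ | ⟨m, hm, hmb⟩
    · left
      exact hzero x a s hx ⟨m * r, M.mul_mem hm r.2, by rw [mul_assoc]; exact hma⟩
    · right
      exact hzero y b t hy ⟨m, hm, hmb⟩
  exact NoZeroDivisors.to_isDomain A

/-- For a smooth algebra over a field, near every prime some basic open localization is a domain. -/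
theorem exists_notMem_isDomain_away (K S : Type*) [Field K] [CommRing S] [Algebra K S]
    [Algebra.Smooth K S] (q : Ideal S) [hq : q.IsPrime] :
    ∃ g : S, g ∉ q ∧ ∀ (A : Type*) [CommRing A] [Algebra S A] [IsLocalization.Away g A], IsDomain A := by
  obtain ⟨g, hg, h⟩ := exists_notMem_forall_mul_eq_zero K S q
  refine ⟨g, hg, fun A _ _ _ => ?_⟩
  refine isDomain_of_isLocalization (Submonoid.powers g) A ?_ ?_
  · rintro ⟨k, hk⟩
    have hk' : g ^ k = 0 := hk
    exact hg (hq.mem_of_pow_mem k (by rw [hk']; exact q.zero_mem))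
  · intro a b hab
    rcases h a b hab with ⟨k, hk⟩ | ⟨k, hk⟩
    · exact Or.inl ⟨g ^ k, ⟨k, rfl⟩, hk⟩
    · exact Or.inr ⟨g ^ k, ⟨k, rfl⟩, hk⟩

/-- The local rings of a smooth algebra over a field are domains. -/
theorem isDomain_localization_atPrime_of_smooth (K S : Type*) [Field K] [CommRing S] [Algebra K S]
    [Algebra.Smooth K S] (q : Ideal S) [hq : q.IsPrime] (A : Type*) [CommRing A] [Algebra S A]
    [IsLocalization.AtPrime A q] : IsDomain A := by
  obtain ⟨g, hg, h⟩ := exists_notMem_forall_mul_eq_zero K S q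
  refine isDomain_of_isLocalization q.primeCompl A ?_ ?_
  · intro h0; exact h0 q.zero_mem
  · intro a b hab
    have hmem : ∀ k : ℕ, g ^ k ∈ q.primeCompl := fun k hk => hg (hq.mem_of_pow_mem k hk)
    rcases h a b hab with ⟨k, hk⟩ | ⟨k, hk⟩
    · exact Or.inl ⟨g ^ k, hmem k, hk⟩
    · exact Or.inr ⟨g ^ k, hmem k, hk⟩

theorem isDomain_localizationAtPrime_of_smooth (K S : Type*) [Field K] [CommRing S] [Algebra K S]
    [Algebra.Smooth K S] (q : Ideal S) [q.IsPrime] : IsDomain (Localization.AtPrime q) :=
  isDomain_localization_atPrime_of_smooth K S q _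

/-! ### Topology: connected + locally irreducible ⟹ irreducible -/

/-- A connected space in which every point has an irreducible open neighbourhood is irreducible. -/
theorem irreducibleSpace_of_connectedSpace_of_locally {X : Type*} [TopologicalSpace X]
    [ConnectedSpace X]
    (h : ∀ x : X, ∃ U : Set X, IsOpen U ∧ x ∈ U ∧ IsIrreducible U) : IrreducibleSpace X := by
  -- any two irreducible opens meet
  have hmeet : ∀ O₀ O : Set X, IsOpen O₀ → IsIrreducible O₀ → IsOpen O → IsIrreducible O →
      (O ∩ O₀).Nonempty := by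
    intro O₀ O hO₀ hirr₀ hO hirr
    let A : Set X := ⋃₀ {W | IsOpen W ∧ IsIrreducible W ∧ (W ∩ O₀).Nonempty}
    let B : Set X := ⋃₀ {W | IsOpen W ∧ IsIrreducible W ∧ ¬ (W ∩ O₀).Nonempty}
    have hA : IsOpen A := isOpen_sUnion fun W hW => hW.1
    have hB : IsOpen B := isOpen_sUnion fun W hW => hW.1
    have hAB : A ∪ B = Set.univ := by
      refine Set.eq_univ_of_forall fun x => ?_
      obtain ⟨U, hU, hxU, hUirr⟩ := h x
      by_cases hc : (U ∩ O₀).Nonempty
      · exact Or.inl ⟨U, ⟨hU, hUirr, hc⟩, hxU⟩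
      · exact Or.inr ⟨U, ⟨hU, hUirr, hc⟩, hxU⟩
    have hdisj : Disjoint A B := by
      rw [Set.disjoint_left]
      rintro z ⟨W, ⟨hW, hWirr, hWO⟩, hzW⟩ ⟨W', ⟨hW', hW'irr, hW'O⟩, hzW'⟩
      apply hW'O
      -- in the irreducible `W`: `W ∩ W'` and `W ∩ O₀` are nonempty
      obtain ⟨y, hyW, hyW', hyO⟩ := hWirr.2 W' O₀ hW' hO₀ ⟨z, hzW, hzW'⟩ hWO
      exact ⟨y, hyW', hyO⟩
    have hAclopen : IsClopen A := by
      refine ⟨?_, hA⟩
      have : A = Bᶜ := by
        ext z
        constructor
        · intro hz hzB; exact (Set.disjoint_left.mp hdisj) hz hzB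
        · intro hz
          rcases (hAB ▸ Set.mem_univ z : z ∈ A ∪ B) with hzA | hzB
          · exact hzA
          · exact absurd hzB hz
      rw [this]; exact hB.isClosed_compl
    have hAne : A.Nonempty := by
      obtain ⟨z, hz⟩ := hirr₀.1
      exact ⟨z, O₀, ⟨hO₀, hirr₀, ⟨z, hz, hz⟩⟩, hz⟩
    have hAuniv : A = Set.univ := hAclopen.eq_univ hAne
    obtain ⟨x, hx⟩ := hirr.1
    obtain ⟨W, ⟨hW, hWirr, hWO⟩, hxW⟩ : x ∈ A := hAuniv ▸ Set.mem_univ x
    obtain ⟨y, -, hyO, hyO₀⟩ := hWirr.2 O O₀ hO hO₀ ⟨x, hxW, hx⟩ hWO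
    exact ⟨y, hyO, hyO₀⟩
  refine { isPreirreducible_univ := ?_, toNonempty := inferInstance }
  rintro u v hu hv ⟨x, -, hxu⟩ ⟨y, -, hyv⟩
  obtain ⟨Ox, hOx, hxOx, hOxirr⟩ := h x
  obtain ⟨Oy, hOy, hyOy, hOyirr⟩ := h y
  have h1 : (Ox ∩ Oy).Nonempty := hmeet Oy Ox hOy hOyirr hOx hOxirr
  obtain ⟨z, -, hzu, hzOy⟩ := hOxirr.2 u Oy hu hOy ⟨x, hxOx, hxu⟩ h1
  obtain ⟨w, -, hwu, hwv⟩ := hOyirr.2 u v hu hv ⟨z, hzOy, hzu⟩ ⟨y, hyOy, hyv⟩
  exact ⟨w, Set.mem_univ w, hwu, hwv⟩

/-! ### Schemes -/

open AlgebraicGeometry CategoryTheory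

universe u

/-- An affine open whose ring of sections is a domain is irreducible (as a subset). -/
theorem isIrreducible_of_isAffineOpen_of_isDomain {X : Scheme.{u}} {V : X.Opens}
    (hV : IsAffineOpen V) [IsDomain Γ(X, V)] : IsIrreducible (V : Set X) := by
  have h1 : IsIrreducible (Set.univ : Set (Spec Γ(X, V))) :=
    (inferInstance : IrreducibleSpace (PrimeSpectrum Γ(X, V))).isIrreducible_univ
  have h2 := h1.image hV.fromSpec hV.fromSpec.continuous.continuousOn
  rwa [Set.image_univ, hV.range_fromSpec] at h2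

/-- A scheme smooth over a field is covered by affine opens whose rings of sections are domains. -/
theorem exists_isAffineOpen_isDomain_of_smooth {K : Type u} [Field K] {X : Scheme.{u}}
    (f : X ⟶ Spec (CommRingCat.of K)) [Smooth f] (x : X) :
    ∃ V : X.Opens, x ∈ V ∧ IsAffineOpen V ∧ IsDomain Γ(X, V) := by
  obtain ⟨_, ⟨U, hU', rfl⟩, hxU, -⟩ :=
    X.isBasis_affineOpens.exists_subset_of_mem_open (Set.mem_univ x) isOpen_univ
  have hU : IsAffineOpen U := hU'
  have hsm : (f.appLE ⊤ U le_top).hom.Smooth := f.smooth_appLE (isAffineOpen_top _) hU le_top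
  let e : K ≃+* Γ(Spec (CommRingCat.of K), ⊤) :=
    (Scheme.ΓSpecIso (CommRingCat.of K)).symm.commRingCatIsoToRingEquiv
  let φ : K →+* Γ(X, U) := (f.appLE ⊤ U le_top).hom.comp e.toRingHom
  have hφ : φ.Smooth := RingHom.Smooth.propertyIsLocal.respectsIso.2 _ e hsm
  algebraize [φ]
  obtain ⟨g, hg, hdom⟩ :=
    exists_notMem_isDomain_away.{u, u, u} K Γ(X, U) (hU.primeIdealOf ⟨x, hxU⟩).asIdeal
  refine ⟨X.basicOpen g, ?_, hU.basicOpen g, ?_⟩
  · have h1 : hU.primeIdealOf ⟨x, hxU⟩ ∈ hU.fromSpec ⁻¹ᵁ X.basicOpen g := by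
      rw [hU.fromSpec_preimage_basicOpen]
      exact hg
    have h2 := hU.fromSpec_primeIdealOf ⟨x, hxU⟩
    have h3 : hU.fromSpec (hU.primeIdealOf ⟨x, hxU⟩) ∈ X.basicOpen g := h1
    rw [h2] at h3
    exact h3
  · have := hU.isLocalization_basicOpen g
    exact hdom Γ(X, X.basicOpen g)

/-- The stalks of a scheme smooth over a field are domains. -/
theorem isDomain_stalk_of_smooth {K : Type u} [Field K] {X : Scheme.{u}}
    (f : X ⟶ Spec (CommRingCat.of K)) [Smooth f] (x : X) : IsDomain (X.presheaf.stalk x) := by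
  obtain ⟨V, hxV, hV, hdom⟩ := exists_isAffineOpen_isDomain_of_smooth f x
  let _ := X.presheaf.algebra_section_stalk ⟨x, hxV⟩
  have := hV.isLocalization_stalk ⟨x, hxV⟩
  exact IsLocalization.isDomain_of_le_nonZeroDivisors (M := (hV.primeIdealOf ⟨x, hxV⟩).asIdeal.primeCompl)
    _ (Ideal.primeCompl_le_nonZeroDivisors _)

/-- **Smooth + connected over a field ⟹ integral.** -/
theorem isIntegral_of_smooth_of_connectedSpace {K : Type u} [Field K] {X : Scheme.{u}}
    (f : X ⟶ Spec (CommRingCat.of K)) [Smooth f] [ConnectedSpace X] : IsIntegral X := by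
  have hirr : IrreducibleSpace X := by
    refine irreducibleSpace_of_connectedSpace_of_locally fun x => ?_
    obtain ⟨V, hxV, hV, hdom⟩ := exists_isAffineOpen_isDomain_of_smooth f x
    exact ⟨V, V.2, hxV, isIrreducible_of_isAffineOpen_of_isDomain hV⟩
  have hred : ∀ x : X, _root_.IsReduced (X.presheaf.stalk x) := by
    intro x
    have : IsDomain (X.presheaf.stalk x) := isDomain_stalk_of_smooth f x
    infer_instance
  have := isReduced_of_isReduced_stalk X
  exact isIntegral_of_irreducibleSpace_of_isReduced X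

/-- Smooth over a field ⟹ reduced (no connectedness needed). -/
theorem isReduced_of_smooth {K : Type u} [Field K] {X : Scheme.{u}}
    (f : X ⟶ Spec (CommRingCat.of K)) [Smooth f] : AlgebraicGeometry.IsReduced X := by
  have hred : ∀ x : X, _root_.IsReduced (X.presheaf.stalk x) := by
    intro x
    have : IsDomain (X.presheaf.stalk x) := isDomain_stalk_of_smooth f x
    infer_instance
  exact isReduced_of_isReduced_stalk X

/-- **U13**: a smooth, geometrically connected morphism is geometrically integral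
(any base scheme; for `Y = Spec k` this is "smooth + geometrically connected over a field
⟹ geometrically integral"). -/
theorem geometricallyIntegral_of_smooth_of_geometricallyConnected {X Y : Scheme.{u}} (f : X ⟶ Y)
    [Smooth f] [GeometricallyConnected f] : GeometricallyIntegral f := by
  refine ⟨fun K _ y Z fst snd hP => ?_⟩
  have hsm : Smooth snd := MorphismProperty.of_isPullback hP inferInstance
  have hconn : ConnectedSpace Z :=
    GeometricallyConnected.geometrically_connectedSpace (f := f) y fst snd hP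
  exact isIntegral_of_smooth_of_connectedSpace snd

/-- Smooth morphisms are geometrically reduced. -/
theorem geometricallyReduced_of_smooth {X Y : Scheme.{u}} (f : X ⟶ Y) [Smooth f] :
    GeometricallyReduced f := by
  refine ⟨fun K _ y Z fst snd hP => ?_⟩
  have hsm : Smooth snd := MorphismProperty.of_isPullback hP inferInstance
  exact isReduced_of_smooth snd

end Fermat.Agent.S25.helper9546
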