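import Fermat.Agent.S25.helper9577_ExistsSheafOf
import Fermat.Agent.S25.helper263_GlueSections

/-!
S25, leaf U14 (`Stmt_ExistsSheaf`), wiring in EXISTENTIAL form (helper9577).

`stmt_ExistsSheaf_of_exists R h : helper7939.Stmt_ExistsSheaf R`, where `h` provides, for every
`B` and every `G : GlueDatum D B`, SOME invertible module `L` on `C ×ₖ Spec B` together with
additive bijections of its sections over the two chart opens and their overlap with `G.M₀`,
`G.M₁`, `G.M₀₁` (the five clauses of `Stmt_GlueSections`, stated at the realization).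
Any chart-level construction (not only `glueTilde`) plugs in here.
-/

set_option autoImplicit false

universe u

open CategoryTheory CategoryTheory.Limits AlgebraicGeometry

namespace Fermat.Agent.S25.helper9577

noncomputable section

open AlgebraicGeometry.RelPicard NeronModelInfra Fermat.Agent.S25.helper1705
  Fermat.Agent.S25.helper2911 Fermat.Agent.S25.helper2945 Fermat.Agent.S25.helper7939

variable {k : Type u} [Field k] {C : Scheme.{u}} {c : C ⟶ Spec (CommRingCat.of k)}
  {ε : SchemeHomOver (𝟙 (Spec (CommRingCat.of k))) c} {D : CurveDatum k}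

/-- **Field `exists_sheaf` of the dictionary (leaf U14), existential wiring**: it suffices to
produce, for every `G`, some invertible `L` whose sections over the chart opens
`(realChart₀ R B).opensRange`, `(realChart₁ R B).opensRange` and their intersection are
`G.M₀`, `G.M₁`, `G.M₀₁`, semilinearly for `chartRingHom` (resp. the `appLE` of the overlap
chart), with restriction maps `G.ρ₀`, `G.ρ₁`. -/
theorem stmt_ExistsSheaf_of_exists (R : Realization c ε D)
    (h : ∀ (B : Type u) [CommRing B] [Algebra k B] (G : GlueDatum D B),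
      ∃ L : (pullback c (specStr k B)).Modules, Scheme.Modules.IsInvertible L ∧
        ∃ (σ₀ : Γ(L, (realChart₀ R B).opensRange) ≃+ G.M₀)
          (σ₁ : Γ(L, (realChart₁ R B).opensRange) ≃+ G.M₁)
          (σ₀₁ : Γ(L, (realChart₀ R B).opensRange ⊓ (realChart₁ R B).opensRange) ≃+ G.M₀₁),
          (∀ (a : Γ(pullback c (specStr k B), (realChart₀ R B).opensRange))
              (s : Γ(L, (realChart₀ R B).opensRange)),
            σ₀ (a • s) = (chartRingHom (realChart₀ R B)).hom a • σ₀ s) ∧
          (∀ (a : Γ(pullback c (specStr k B), (realChart₁ R B).opensRange))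
              (s : Γ(L, (realChart₁ R B).opensRange)),
            σ₁ (a • s) = (chartRingHom (realChart₁ R B)).hom a • σ₁ s) ∧
          (∀ (a : Γ(pullback c (specStr k B),
                (realChart₀ R B).opensRange ⊓ (realChart₁ R B).opensRange))
              (s : Γ(L, (realChart₀ R B).opensRange ⊓ (realChart₁ R B).opensRange)),
            σ₀₁ (a • s) = (Scheme.ΓSpecIso (CommRingCat.of (D.A₀₁ B))).hom
              ((Spec.map (CommRingCat.ofHom (D.res₀ B).toRingHom) ≫ realChart₀ R B).appLE
                ((realChart₀ R B).opensRange ⊓ (realChart₁ R B).opensRange) ⊤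
                (top_le_preimage_inf (realChart_isPullback R B)) a) • σ₀₁ s) ∧
          (∀ s : Γ(L, (realChart₀ R B).opensRange),
            σ₀₁ (L.presheaf.map (homOfLE (inf_le_left :
              (realChart₀ R B).opensRange ⊓ (realChart₁ R B).opensRange ≤
                (realChart₀ R B).opensRange)).op s) = G.ρ₀ (σ₀ s)) ∧
          (∀ s : Γ(L, (realChart₁ R B).opensRange),
            σ₀₁ (L.presheaf.map (homOfLE (inf_le_right :
              (realChart₀ R B).opensRange ⊓ (realChart₁ R B).opensRange ≤
                (realChart₁ R B).opensRange)).op s) = G.ρ₁ (σ₁ s))) :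
    Stmt_ExistsSheaf R := by
  intro B _ _ G
  obtain ⟨L, hinv, σ₀, σ₁, σ₀₁, hs₀, hs₁, hs₀₁, hc₀, hc₁⟩ := h B G
  refine ⟨L, hinv, hinv, ⟨?_⟩⟩
  exact
    { e₀ := σ₀
      e₁ := σ₁
      e₀₁ := σ₀₁
      smul₀ := hs₀
      smul₁ := hs₁
      smul₀₁ := fun r s => by
        refine (hs₀₁ r s).trans ?_
        rw [γ₀₁_eq_appLE R B r]
        rfl
      comm₀ := hc₀
      comm₁ := hc₁ }

/-- **The chart-level sections statement** (proved by helper263 in
`helper263_GlueSections.glueSections_tilde`). -/
theorem stmt_GlueSections : Stmt_GlueSections.{u} :=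
  fun hpb N₀ N₁ N₀₁ ρ₀ ρ₁ x y h₀ h₁ =>
    Fermat.Agent.S25.helper263.glueSections_tilde hpb N₀ N₁ N₀₁ ρ₀ ρ₁ x y h₀ h₁

/-- **Field `exists_sheaf` of the dictionary (leaf U14)**: every two-chart gluing datum is
modelled by an invertible module on `C ×ₖ Spec B`. -/
theorem stmt_ExistsSheaf (R : Realization c ε D) : Stmt_ExistsSheaf R :=
  stmt_ExistsSheaf_of stmt_GlueSections R

end

end Fermat.Agent.S25.helper9577
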