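import Fermat.Agent.S25.helper9577_TwoChartGlue
import Fermat.Agent.S25.helper7939_Models

/-!
S25, leaf U14 (`Stmt_ExistsSheaf`), top-down half (helper9577).

* `Stmt_GlueSections` : the CHART-LEVEL statement (general scheme `X`, two affine charts, no
  `CurveDatum`): the sections of `glueTilde` over the two chart opens and over their overlap are
  `N₀`, `N₁`, `N₀₁`, semilinearly, with restriction maps `ρ₀`, `ρ₁`.
* `stmt_ExistsSheaf_of : Stmt_GlueSections → ∀ R, helper7939.Stmt_ExistsSheaf R` : the wiring to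
  `Realization` / `GlueDatum` / `γ₀, γ₁, γ₀₁`.
-/

set_option autoImplicit false

universe u

open CategoryTheory CategoryTheory.Limits AlgebraicGeometry

namespace Fermat.Agent.S25.helper9577

noncomputable section

section Chart

variable {X : Scheme.{u}} {A₀ A₁ A₀₁ : CommRingCat.{u}} {r₀ : A₀ ⟶ A₀₁} {r₁ : A₁ ⟶ A₀₁}
  {j₀ : Spec A₀ ⟶ X} {j₁ : Spec A₁ ⟶ X}

/-- The overlap chart `Spec A₀₁ ⟶ X` lands in the intersection of the two chart opens. -/
lemma top_le_preimage_inf [IsOpenImmersion j₀] [IsOpenImmersion j₁]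
    (hpb : IsPullback (Spec.map r₀) (Spec.map r₁) j₀ j₁) :
    (⊤ : (Spec A₀₁).Opens) ≤ (Spec.map r₀ ≫ j₀) ⁻¹ᵁ (j₀.opensRange ⊓ j₁.opensRange) := by
  intro p _
  refine ⟨⟨(Spec.map r₀).base p, ?_⟩, ⟨(Spec.map r₁).base p, ?_⟩⟩
  · simp
  · have := congrArg (fun g : Spec A₀₁ ⟶ X => g.base p) hpb.w
    simpa using this.symm

end Chart

/-- **Chart-level sections of the two-chart gluing** (general scheme, no `CurveDatum`): for the
module `L := glueTilde hpb N₀ N₁ N₀₁ (extendIso h₀) (extendIso h₁)`, the sections over the chart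
opens `U₀ := j₀.opensRange`, `U₁ := j₁.opensRange` and over `U₀ ⊓ U₁` are `N₀`, `N₁`, `N₀₁`,
semilinearly for the chart ring maps, and the restriction maps become `ρ₀`, `ρ₁`. -/
def Stmt_GlueSections : Prop :=
  ∀ {X : Scheme.{u}} {A₀ A₁ A₀₁ : CommRingCat.{u}} {r₀ : A₀ ⟶ A₀₁} {r₁ : A₁ ⟶ A₀₁}
    {j₀ : Spec A₀ ⟶ X} {j₁ : Spec A₁ ⟶ X} [IsOpenImmersion j₀] [IsOpenImmersion j₁]
    (hpb : IsPullback (Spec.map r₀) (Spec.map r₁) j₀ j₁)
    (N₀ : ModuleCat.{u} A₀) (N₁ : ModuleCat.{u} A₁) (N₀₁ : ModuleCat.{u} A₀₁)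
    (ρ₀ : N₀ ⟶ (ModuleCat.restrictScalars r₀.hom).obj N₀₁)
    (ρ₁ : N₁ ⟶ (ModuleCat.restrictScalars r₁.hom).obj N₀₁) (x : A₀) (y : A₁)
    (h₀ : IsLocAt r₀.hom ρ₀ x) (h₁ : IsLocAt r₁.hom ρ₁ y),
    ∃ (σ₀ : Γ(glueTilde hpb N₀ N₁ N₀₁ (extendIso h₀) (extendIso h₁), j₀.opensRange) ≃+ N₀)
      (σ₁ : Γ(glueTilde hpb N₀ N₁ N₀₁ (extendIso h₀) (extendIso h₁), j₁.opensRange) ≃+ N₁)
      (σ₀₁ : Γ(glueTilde hpb N₀ N₁ N₀₁ (extendIso h₀) (extendIso h₁),
        j₀.opensRange ⊓ j₁.opensRange) ≃+ N₀₁),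
      (∀ (c : Γ(X, j₀.opensRange))
          (s : Γ(glueTilde hpb N₀ N₁ N₀₁ (extendIso h₀) (extendIso h₁), j₀.opensRange)),
        σ₀ (c • s) = (helper7939.chartRingHom j₀).hom c • σ₀ s) ∧
      (∀ (c : Γ(X, j₁.opensRange))
          (s : Γ(glueTilde hpb N₀ N₁ N₀₁ (extendIso h₀) (extendIso h₁), j₁.opensRange)),
        σ₁ (c • s) = (helper7939.chartRingHom j₁).hom c • σ₁ s) ∧
      (∀ (c : Γ(X, j₀.opensRange ⊓ j₁.opensRange))
          (s : Γ(glueTilde hpb N₀ N₁ N₀₁ (extendIso h₀) (extendIso h₁),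
            j₀.opensRange ⊓ j₁.opensRange)),
        σ₀₁ (c • s) = (Scheme.ΓSpecIso A₀₁).hom ((Spec.map r₀ ≫ j₀).appLE
          (j₀.opensRange ⊓ j₁.opensRange) ⊤ (top_le_preimage_inf hpb) c) • σ₀₁ s) ∧
      (∀ s : Γ(glueTilde hpb N₀ N₁ N₀₁ (extendIso h₀) (extendIso h₁), j₀.opensRange),
        σ₀₁ ((glueTilde hpb N₀ N₁ N₀₁ (extendIso h₀) (extendIso h₁)).presheaf.map
          (homOfLE (inf_le_left : j₀.opensRange ⊓ j₁.opensRange ≤ j₀.opensRange)).op s) =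
          ρ₀.hom (σ₀ s)) ∧
      (∀ s : Γ(glueTilde hpb N₀ N₁ N₀₁ (extendIso h₀) (extendIso h₁), j₁.opensRange),
        σ₀₁ ((glueTilde hpb N₀ N₁ N₀₁ (extendIso h₀) (extendIso h₁)).presheaf.map
          (homOfLE (inf_le_right : j₀.opensRange ⊓ j₁.opensRange ≤ j₁.opensRange)).op s) =
          ρ₁.hom (σ₁ s))

section Wiring

open AlgebraicGeometry.RelPicard NeronModelInfra Fermat.Agent.S25.helper1705
  Fermat.Agent.S25.helper2911 Fermat.Agent.S25.helper2945 Fermat.Agent.S25.helper7939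

variable {k : Type u} [Field k] {C : Scheme.{u}} {c : C ⟶ Spec (CommRingCat.of k)}
  {ε : SchemeHomOver (𝟙 (Spec (CommRingCat.of k))) c} {D : CurveDatum k}

/-- `γ₀₁` in `appLE` form. -/
lemma γ₀₁_eq_appLE (R : Realization c ε D) (B : Type u) [CommRing B] [Algebra k B]
    (r : Γ(pullback c (specStr k B), U₀₁ R B)) :
    γ₀₁ R B r = (Scheme.ΓSpecIso (CommRingCat.of (D.A₀₁ B))).hom
      ((Spec.map (CommRingCat.ofHom (D.res₀ B).toRingHom) ≫ realChart₀ R B).appLE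
        ((realChart₀ R B).opensRange ⊓ (realChart₁ R B).opensRange) ⊤
        (top_le_preimage_inf (realChart_isPullback R B)) r) := by
  have h := Scheme.Hom.map_appLE (realChart₀₁ R B)
    (top_le_preimage_opensRange (realChart₀₁ R B))
    (eqToHom (opensRange_realChart₀₁ R B)).op
  have h2 := congrArg (fun f => (Scheme.ΓSpecIso (CommRingCat.of (D.A₀₁ B))).hom (f.hom r)) h
  exact h2

/-- **Field `exists_sheaf` of the dictionary (leaf U14), from the chart-level sections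
statement**: every two-chart gluing datum `G` is modelled by the invertible module
`glueTilde` glued from the tildes of `G.M₀`, `G.M₁` along `G.ρ₀`, `G.ρ₁`. -/
theorem stmt_ExistsSheaf_of (h : Stmt_GlueSections.{u}) (R : Realization c ε D) :
    Stmt_ExistsSheaf R := by
  intro B _ _ G
  have hpb := realChart_isPullback R B
  let N₀ : ModuleCat.{u} (CommRingCat.of (D.A₀ B)) := ModuleCat.of (D.A₀ B) G.M₀
  let N₁ : ModuleCat.{u} (CommRingCat.of (D.A₁ B)) := ModuleCat.of (D.A₁ B) G.M₁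
  let N₀₁ : ModuleCat.{u} (CommRingCat.of (D.A₀₁ B)) := ModuleCat.of (D.A₀₁ B) G.M₀₁
  have h₀ := isLocAt_of_isLocalizedModule (S := D.A₀₁ B) (N := ModuleCat.of (D.A₀ B) G.M₀)
    (xB D B) G.ρ₀
  have h₁ := isLocAt_of_isLocalizedModule (S := D.A₀₁ B) (N := ModuleCat.of (D.A₁ B) G.M₁)
    (yB D B) G.ρ₁
  obtain ⟨σ₀, σ₁, σ₀₁, hs₀, hs₁, hs₀₁, hc₀, hc₁⟩ :=
    h hpb N₀ N₁ N₀₁ _ _ (xB D B) (yB D B) h₀ h₁
  have i₀ : Module.Invertible (CommRingCat.of (D.A₀ B)) N₀ := G.inv₀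
  have i₁ : Module.Invertible (CommRingCat.of (D.A₁ B)) N₁ := G.inv₁
  have hinv : Scheme.Modules.IsInvertible
      (glueTilde hpb N₀ N₁ N₀₁ (extendIso h₀) (extendIso h₁)) :=
    isInvertible_glueTilde hpb N₀ N₁ N₀₁ _ _ (realChart_cover R B)
  refine ⟨glueTilde hpb N₀ N₁ N₀₁ (extendIso h₀) (extendIso h₁), hinv, hinv, ⟨?_⟩⟩
  exact
    { e₀ := σ₀
      e₁ := σ₁
      e₀₁ := σ₀₁
      smul₀ := hs₀
      smul₁ := hs₁
      smul₀₁ := fun r s => by
        refine (hs₀₁ r s).trans ?_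
        rw [γ₀₁_eq_appLE R B r]
        rfl
      comm₀ := hc₀
      comm₁ := hc₁ }

end Wiring

end

end Fermat.Agent.S25.helper9577
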