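import Mathlib
import Fermat.Prelude.Def_AlgebraicGeometry_RelativePicardFunctor
import Fermat.Agent.S25.helper7939_TildeBaseChange

set_option autoImplicit false

universe u

open CategoryTheory CategoryTheory.Limits AlgebraicGeometry

namespace Fermat.Agent.S25.helper9577

noncomputable section

/-! ## Sections of fibre products of modules -/

/-- The sections functor over an open subset, valued in abelian groups. -/
def secFunctor (X : Scheme.{u}) (W : X.Opens) : X.Modules ⥤ Ab.{u} :=
  Scheme.Modules.toPresheaf X ⋙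
    (CategoryTheory.evaluation (TopologicalSpace.Opens ↥X)ᵒᵖ Ab.{u}).obj (Opposite.op W)

lemma secFunctor_map {X : Scheme.{u}} (W : X.Opens) {M N : X.Modules} (φ : M ⟶ N) :
    (secFunctor X W).map φ = φ.app W := rfl

instance secFunctor_preservesLimits (X : Scheme.{u}) (W : X.Opens) :
    PreservesLimits (secFunctor X W) := by
  have i1 : PreservesLimits
      ((CategoryTheory.evaluation (TopologicalSpace.Opens ↥X)ᵒᵖ Ab.{u}).obj (Opposite.op W)) :=
    inferInstance
  unfold secFunctor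
  exact comp_preservesLimits _ _

/-- In a pullback square of `𝒪_X`-modules, if one leg is bijective on sections over `W`,
so is the opposite projection. -/
lemma isIso_app_fst_of_isPullback {X : Scheme.{u}} {P F G H : X.Modules} {fst : P ⟶ F}
    {snd : P ⟶ G} {f : F ⟶ H} {g : G ⟶ H} (h : IsPullback fst snd f g) (W : X.Opens)
    (hg : IsIso (g.app W)) : IsIso (fst.app W) := by
  have h' := h.map (secFunctor X W)
  have : IsIso ((secFunctor X W).map g) := hg
  exact h'.isIso_fst_of_isIso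

lemma isIso_app_snd_of_isPullback {X : Scheme.{u}} {P F G H : X.Modules} {fst : P ⟶ F}
    {snd : P ⟶ G} {f : F ⟶ H} {g : G ⟶ H} (h : IsPullback fst snd f g) (W : X.Opens)
    (hf : IsIso (f.app W)) : IsIso (snd.app W) :=
  isIso_app_fst_of_isPullback h.flip W hf

/-! ## The adjoint of a restriction isomorphism -/

/-- Restriction maps of a module between equal opens are isomorphisms. -/
lemma isIso_presheaf_map_of_eq {X : Scheme.{u}} (M : X.Modules) {U V : X.Opens} (h : U = V)
    (hle : U ≤ V) : IsIso (M.presheaf.map (homOfLE hle).op) := by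
  subst h
  have : homOfLE hle = 𝟙 U := rfl
  rw [this, op_id, M.presheaf.map_id]
  infer_instance

/-- For an open immersion `s : U ⟶ Y`, the map `M ⟶ s_* N` adjoint to `κ : M|_U ⟶ N`. -/
def toPushforward {U Y : Scheme.{u}} (s : U ⟶ Y) [IsOpenImmersion s] {M : Y.Modules}
    {N : U.Modules} (κ : M.restrict s ⟶ N) : M ⟶ (Scheme.Modules.pushforward s).obj N :=
  (Scheme.Modules.restrictAdjunction s).unit.app M ≫ (Scheme.Modules.pushforward s).map κ

lemma toPushforward_app {U Y : Scheme.{u}} (s : U ⟶ Y) [IsOpenImmersion s] {M : Y.Modules}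
    {N : U.Modules} (κ : M.restrict s ⟶ N) (V : Y.Opens) :
    (toPushforward s κ).app V =
      M.presheaf.map (homOfLE (s.image_preimage_le V)).op ≫ κ.app (s ⁻¹ᵁ V) := rfl

/-- If `κ` is an isomorphism, `M ⟶ s_* N` is bijective on sections over opens inside the
range of `s`. -/
lemma isIso_toPushforward_app {U Y : Scheme.{u}} (s : U ⟶ Y) [IsOpenImmersion s] {M : Y.Modules}
    {N : U.Modules} (κ : M.restrict s ⟶ N) [IsIso κ] (V : Y.Opens) (hV : V ≤ s.opensRange) :
    IsIso ((toPushforward s κ).app V) := by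
  rw [toPushforward_app]
  have h1 : s ''ᵁ (s ⁻¹ᵁ V) = V := by
    rw [Scheme.Hom.image_preimage_eq_opensRange_inf]
    exact inf_eq_right.mpr hV
  have i1 := isIso_presheaf_map_of_eq M h1 (s.image_preimage_le V)
  have i2 : IsIso (κ.app (s ⁻¹ᵁ V)) := inferInstance
  exact @IsIso.comp_isIso _ _ _ _ _ _ _ i1 i2

/-! ## Two-chart gluing of modules: the general construction

`X` is covered by two open immersions `j₀ : U₀ ⟶ X`, `j₁ : U₁ ⟶ X` with overlap `U₀₁`
(`IsPullback s₀ s₁ j₀ j₁`). Given modules `M₀`, `M₁`, `M₀₁` on the three pieces and "restriction"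
maps `b₀ : M₀ ⟶ s₀_* M₀₁`, `b₁ : M₁ ⟶ s₁_* M₀₁` which are bijective on sections over opens inside
the overlap, the fibre product `j₀_* M₀ ×_{j₀₁_* M₀₁} j₁_* M₁` restricts to `M₀` on `U₀` and to
`M₁` on `U₁`. No cocycle condition is involved. -/

section Glue

/-- In a pullback square of schemes, the range of the first projection is the preimage of the
range of the opposite map. -/
lemma range_fst_of_isPullback {P Y Z S : Scheme.{u}} {fst : P ⟶ Y} {snd : P ⟶ Z} {f : Y ⟶ S}
    {g : Z ⟶ S} (h : IsPullback fst snd f g) :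
    Set.range fst.base = f.base ⁻¹' Set.range g.base := by
  have h1 : fst = h.isoPullback.hom ≫ pullback.fst f g := (h.isoPullback_hom_fst).symm
  rw [← Scheme.Pullback.range_fst f g, h1]
  simp only [Scheme.Hom.comp_base, TopCat.coe_comp]
  rw [Set.range_comp, Set.range_eq_univ.mpr, Set.image_univ]
  exact (h.isoPullback.hom.homeomorph).surjective

variable {X U₀ U₁ U₀₁ : Scheme.{u}} {s₀ : U₀₁ ⟶ U₀} {s₁ : U₀₁ ⟶ U₁} {j₀ : U₀ ⟶ X} {j₁ : U₁ ⟶ X}

/-- The first projection of a pullback square whose opposite side is an open immersion is an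
open immersion. -/
lemma isOpenImmersion_fst_of_isPullback [IsOpenImmersion j₁] (hpb : IsPullback s₀ s₁ j₀ j₁) :
    IsOpenImmersion s₀ :=
  MorphismProperty.of_isPullback (P := @IsOpenImmersion) hpb.flip ‹_›

/-- The second projection of a pullback square whose opposite side is an open immersion is an
open immersion. -/
lemma isOpenImmersion_snd_of_isPullback [IsOpenImmersion j₀] (hpb : IsPullback s₀ s₁ j₀ j₁) :
    IsOpenImmersion s₁ :=
  MorphismProperty.of_isPullback (P := @IsOpenImmersion) hpb ‹_›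

variable (hpb : IsPullback s₀ s₁ j₀ j₁)
  {M₀ : U₀.Modules} {M₁ : U₁.Modules} {M₀₁ : U₀₁.Modules}
  (b₀ : M₀ ⟶ (Scheme.Modules.pushforward s₀).obj M₀₁)
  (b₁ : M₁ ⟶ (Scheme.Modules.pushforward s₁).obj M₀₁)

/-- The restriction map from the first chart to the overlap, pushed forward to `X`. -/
def a₀ (j₀ : U₀ ⟶ X) (b₀ : M₀ ⟶ (Scheme.Modules.pushforward s₀).obj M₀₁) :
    (Scheme.Modules.pushforward j₀).obj M₀ ⟶ (Scheme.Modules.pushforward (s₀ ≫ j₀)).obj M₀₁ :=
  (Scheme.Modules.pushforward j₀).map b₀ ≫ (Scheme.Modules.pushforwardComp s₀ j₀).hom.app M₀₁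

include hpb in
/-- The restriction map from the second chart to the overlap, pushed forward to `X`. -/
def a₁ : (Scheme.Modules.pushforward j₁).obj M₁ ⟶
    (Scheme.Modules.pushforward (s₀ ≫ j₀)).obj M₀₁ :=
  (Scheme.Modules.pushforward j₁).map b₁ ≫ (Scheme.Modules.pushforwardComp s₁ j₁).hom.app M₀₁ ≫
    (Scheme.Modules.pushforwardCongr hpb.w.symm).hom.app M₀₁

/-- The glued module: the fibre product of the pushforwards of `M₀` and `M₁` over the
pushforward of `M₀₁`. -/
def glue : X.Modules := Limits.pullback (a₀ j₀ b₀) (a₁ hpb b₁)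

/-- The projection of the glued module to the pushforward from the first chart. -/
def glueFst : glue hpb b₀ b₁ ⟶ (Scheme.Modules.pushforward j₀).obj M₀ :=
  pullback.fst _ _

/-- The projection of the glued module to the pushforward from the second chart. -/
def glueSnd : glue hpb b₀ b₁ ⟶ (Scheme.Modules.pushforward j₁).obj M₁ :=
  pullback.snd _ _

lemma glue_isPullback :
    IsPullback (glueFst hpb b₀ b₁) (glueSnd hpb b₀ b₁) (a₀ j₀ b₀) (a₁ hpb b₁) :=
  IsPullback.of_hasPullback _ _

lemma glue_condition : glueFst hpb b₀ b₁ ≫ a₀ j₀ b₀ = glueSnd hpb b₀ b₁ ≫ a₁ hpb b₁ :=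
  pullback.condition

lemma a₀_app (W : X.Opens) : (a₀ j₀ b₀).app W = b₀.app (j₀ ⁻¹ᵁ W) := by
  have h : (a₀ j₀ b₀).app W = b₀.app (j₀ ⁻¹ᵁ W) ≫ 𝟙 _ := rfl
  rw [h, Category.comp_id]

lemma a₁_app (W : X.Opens) : (a₁ hpb b₁).app W = b₁.app (j₁ ⁻¹ᵁ W) ≫
    ((Scheme.Modules.pushforwardCongr hpb.w.symm).hom.app M₀₁).app W := by
  have h : (a₁ hpb b₁).app W = b₁.app (j₁ ⁻¹ᵁ W) ≫ 𝟙 _ ≫
        ((Scheme.Modules.pushforwardCongr hpb.w.symm).hom.app M₀₁).app W := rfl
  rw [h, Category.id_comp]

include hpb in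
lemma preimage_subset_range_s₀ (W : X.Opens) (hW : (W : Set X) ⊆ Set.range j₁.base) :
    ((j₀ ⁻¹ᵁ W : U₀.Opens) : Set U₀) ⊆ Set.range s₀.base := by
  intro p hp
  rw [range_fst_of_isPullback hpb]
  exact hW hp

include hpb in
lemma preimage_subset_range_s₁ (W : X.Opens) (hW : (W : Set X) ⊆ Set.range j₀.base) :
    ((j₁ ⁻¹ᵁ W : U₁.Opens) : Set U₁) ⊆ Set.range s₁.base := by
  intro p hp
  rw [range_fst_of_isPullback hpb.flip]
  exact hW hp

variable (hb₀ : ∀ V : U₀.Opens, (V : Set U₀) ⊆ Set.range s₀.base → IsIso (b₀.app V))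
  (hb₁ : ∀ V : U₁.Opens, (V : Set U₁) ⊆ Set.range s₁.base → IsIso (b₁.app V))

include hpb hb₀ in
lemma isIso_a₀_app (W : X.Opens) (hW : (W : Set X) ⊆ Set.range j₁.base) :
    IsIso ((a₀ j₀ b₀).app W) := by
  rw [a₀_app]
  exact hb₀ _ (preimage_subset_range_s₀ hpb W hW)

include hb₁ in
lemma isIso_a₁_app (W : X.Opens) (hW : (W : Set X) ⊆ Set.range j₀.base) :
    IsIso ((a₁ hpb b₁).app W) := by
  rw [a₁_app]
  have i1 := hb₁ _ (preimage_subset_range_s₁ hpb W hW)
  have i2 : IsIso (((Scheme.Modules.pushforwardCongr hpb.w.symm).hom.app M₀₁).app W) :=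
    inferInstance
  exact @IsIso.comp_isIso _ _ _ _ _ _ _ i1 i2

include hb₁ in
/-- The projection to the first chart is bijective on sections over opens inside the first
chart. -/
lemma isIso_glueFst_app (W : X.Opens) (hW : (W : Set X) ⊆ Set.range j₀.base) :
    IsIso ((glueFst hpb b₀ b₁).app W) :=
  isIso_app_fst_of_isPullback (glue_isPullback hpb b₀ b₁) W (isIso_a₁_app hpb b₁ hb₁ W hW)

include hb₀ in
/-- The projection to the second chart is bijective on sections over opens inside the second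
chart. -/
lemma isIso_glueSnd_app (W : X.Opens) (hW : (W : Set X) ⊆ Set.range j₁.base) :
    IsIso ((glueSnd hpb b₀ b₁).app W) :=
  isIso_app_snd_of_isPullback (glue_isPullback hpb b₀ b₁) W (isIso_a₀_app hpb b₀ hb₀ W hW)

/-- A morphism of modules which is bijective on sections over all opens inside the range of
an open immersion restricts to an isomorphism. -/
lemma isIso_restrict_map {U Y : Scheme.{u}} (j : U ⟶ Y) [IsOpenImmersion j] {M N : Y.Modules}
    (φ : M ⟶ N) (h : ∀ W : Y.Opens, (W : Set Y) ⊆ Set.range j.base → IsIso (φ.app W)) :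
    IsIso ((Scheme.Modules.restrictFunctor j).map φ) := by
  rw [Scheme.Modules.Hom.isIso_iff_isIso_app]
  intro V
  exact h (j ''ᵁ V) (Scheme.Hom.image_le_opensRange _ _)

/-- **Restriction to a chart.** If `p : L ⟶ j_* N` is bijective on sections over all opens
inside the range of the open immersion `j`, then `L|_U ≅ N`. -/
def restrictIsoOfIsIsoApp {U Y : Scheme.{u}} (j : U ⟶ Y) [IsOpenImmersion j] {L : Y.Modules}
    {N : U.Modules} (p : L ⟶ (Scheme.Modules.pushforward j).obj N)
    (h : ∀ W : Y.Opens, (W : Set Y) ⊆ Set.range j.base → IsIso (p.app W)) :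
    L.restrict j ≅ N :=
  haveI := isIso_restrict_map j p h
  asIso ((Scheme.Modules.restrictFunctor j).map p) ≪≫
    (Scheme.Modules.restrictFunctorAdjCounitIso j).app N

/-- Pullback form of `restrictIsoOfIsIsoApp`. -/
def pullbackIsoOfIsIsoApp {U Y : Scheme.{u}} (j : U ⟶ Y) [IsOpenImmersion j] {L : Y.Modules}
    {N : U.Modules} (p : L ⟶ (Scheme.Modules.pushforward j).obj N)
    (h : ∀ W : Y.Opens, (W : Set Y) ⊆ Set.range j.base → IsIso (p.app W)) :
    (Scheme.Modules.pullback j).obj L ≅ N :=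
  (Scheme.Modules.restrictFunctorIsoPullback j).symm.app L ≪≫ restrictIsoOfIsIsoApp j p h

variable [IsOpenImmersion j₀] [IsOpenImmersion j₁]

/-- The restriction of the glued module to the first chart is `M₀`. -/
def glueRestrictIso₀ : (glue hpb b₀ b₁).restrict j₀ ≅ M₀ :=
  restrictIsoOfIsIsoApp j₀ (glueFst hpb b₀ b₁) (isIso_glueFst_app hpb b₀ b₁ hb₁)

/-- The restriction of the glued module to the second chart is `M₁`. -/
def glueRestrictIso₁ : (glue hpb b₀ b₁).restrict j₁ ≅ M₁ :=
  restrictIsoOfIsIsoApp j₁ (glueSnd hpb b₀ b₁) (isIso_glueSnd_app hpb b₀ b₁ hb₀)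

/-- The pullback of the glued module to the first chart is `M₀`. -/
def gluePullbackIso₀ : (Scheme.Modules.pullback j₀).obj (glue hpb b₀ b₁) ≅ M₀ :=
  pullbackIsoOfIsIsoApp j₀ (glueFst hpb b₀ b₁) (isIso_glueFst_app hpb b₀ b₁ hb₁)

/-- The pullback of the glued module to the second chart is `M₁`. -/
def gluePullbackIso₁ : (Scheme.Modules.pullback j₁).obj (glue hpb b₀ b₁) ≅ M₁ :=
  pullbackIsoOfIsIsoApp j₁ (glueSnd hpb b₀ b₁) (isIso_glueSnd_app hpb b₀ b₁ hb₀)

end Glue

/-! ## Extension of scalars along a localization, elementwise -/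

section ExtendScalars

open ModuleCat.ExtendRestrictScalarsAdj ChangeOfRings TensorProduct

variable {R S : Type u} [CommRing R] [CommRing S] (f : R →+* S) {N : ModuleCat.{u} R}
  {N' : ModuleCat.{u} S} (ρ : N ⟶ (ModuleCat.restrictScalars f).obj N')

/-- The `S`-linear map `S ⊗ N ⟶ N'`, `s ⊗ n ↦ s • ρ n`, adjoint to a semilinear map `ρ`. -/
def extendMap : (ModuleCat.extendScalars f).obj N ⟶ N' := HomEquiv.fromExtendScalars f ρ

/-- A pure tensor in the extension of scalars. -/
def tm (s : S) (n : N) : (ModuleCat.extendScalars f).obj N := s ⊗ₜ[R,f] n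

lemma extendMap_tm (s : S) (n : N) :
    (extendMap f ρ).hom (tm f s n) = s • (show N' from ρ.hom n) := rfl

lemma tm_shift (a : R) (s : S) (n : N) : tm f (f a * s) n = tm f s (a • n) := by
  let m1 : Module R S := Module.compHom S f
  exact TensorProduct.smul_tmul (R := R) (R' := R) (M := S) (N := N) a s n

lemma tm_zero (s : S) : tm f s (0 : N) = 0 := by
  let m1 : Module R S := Module.compHom S f
  exact TensorProduct.tmul_zero (R := R) (M := S) (N := N) s

lemma tm_add (s : S) (n₁ n₂ : N) : tm f s (n₁ + n₂) = tm f s n₁ + tm f s n₂ := by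
  let m1 : Module R S := Module.compHom S f
  exact TensorProduct.tmul_add (R := R) (M := S) (N := N) s n₁ n₂

lemma tm_induction {motive : (ModuleCat.extendScalars f).obj N → Prop} (zero : motive 0)
    (tmul : ∀ s n, motive (tm f s n))
    (add : ∀ z₁ z₂, motive z₁ → motive z₂ → motive (z₁ + z₂))
    (z : (ModuleCat.extendScalars f).obj N) : motive z :=
  @TensorProduct.induction_on R _ S N _ _ (Module.compHom S f) _ motive z zero tmul add

/-- Elementwise localization hypotheses for a semilinear map `ρ : N → N'` along `f : R →+* S`: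
`S` and `N'` are obtained from `R` and `N` by inverting `x`. (No algebra instance and no
`IsLocalizedModule` instance is needed to state it.) -/
structure IsLocAt (x : R) : Prop where
  unit : IsUnit (f x)
  surj_ring : ∀ s : S, ∃ (k : ℕ) (a : R), f x ^ k * s = f a
  surj : ∀ n' : N', ∃ (k : ℕ) (n : N), f x ^ k • n' = (show N' from ρ.hom n)
  inj : ∀ n : N, ρ.hom n = 0 → ∃ k : ℕ, x ^ k • n = 0

variable {f ρ}

lemma tm_pow_shift {x : R} {u : S} (hu : u * f x = 1) (k j : ℕ) (m : N) :
    tm f (u ^ k) m = tm f (u ^ (k + j)) (x ^ j • m) := by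
  rw [← tm_shift, map_pow]
  congr 1
  rw [pow_add, mul_comm (f x ^ j), mul_assoc, ← mul_pow, hu, one_pow, mul_one]

/-- Every element of `S ⊗ N` is of the form `u ^ k ⊗ m` when `S` is obtained from `R` by
inverting `x` (with `u * f x = 1`). -/
lemma exists_eq_pow_tm {x : R} {u : S} (hu : u * f x = 1)
    (hS : ∀ s : S, ∃ (k : ℕ) (a : R), f x ^ k * s = f a)
    (z : (ModuleCat.extendScalars f).obj N) :
    ∃ (k : ℕ) (m : N), z = tm f (u ^ k) m := by
  have hpow : ∀ k : ℕ, u ^ k * f x ^ k = 1 := fun k => by rw [← mul_pow, hu, one_pow]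
  induction z using tm_induction with
  | zero => exact ⟨0, 0, (tm_zero _ _).symm⟩
  | tmul s n =>
    obtain ⟨k, a, hka⟩ := hS s
    refine ⟨k, a • n, ?_⟩
    rw [← tm_shift]
    congr 1
    rw [← hka, mul_comm (f x ^ k), mul_assoc, mul_comm (f x ^ k), hpow, mul_one]
  | add z₁ z₂ h₁ h₂ =>
    obtain ⟨k₁, m₁, rfl⟩ := h₁
    obtain ⟨k₂, m₂, rfl⟩ := h₂
    refine ⟨k₁ + k₂, x ^ k₂ • m₁ + x ^ k₁ • m₂, ?_⟩
    rw [tm_add, ← tm_pow_shift hu, add_comm k₁ k₂, ← tm_pow_shift hu]

/-- A semilinear map which is a localization at `x` induces an isomorphism from the extension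
of scalars. -/
theorem isIso_extendMap {x : R} (h : IsLocAt f ρ x) : IsIso (extendMap f ρ) := by
  obtain ⟨u, hu⟩ := h.unit.exists_left_inv
  have hpow : ∀ k : ℕ, u ^ k * f x ^ k = 1 := fun k => by rw [← mul_pow, hu, one_pow]
  rw [ConcreteCategory.isIso_iff_bijective]
  constructor
  · rw [injective_iff_map_eq_zero]
    intro z hz
    obtain ⟨k, m, rfl⟩ := exists_eq_pow_tm hu h.surj_ring z
    have h1 : u ^ k • (show N' from ρ.hom m) = 0 := hz
    have h2 : ρ.hom m = 0 := by
      have h3 : (show N' from ρ.hom m) = (f x ^ k * u ^ k) • (show N' from ρ.hom m) := by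
        rw [mul_comm, hpow, one_smul]
      rw [mul_smul, h1, smul_zero] at h3
      exact h3
    obtain ⟨j, hj⟩ := h.inj m h2
    rw [tm_pow_shift hu k j, hj, tm_zero]
  · intro n'
    obtain ⟨k, n, hkn⟩ := h.surj n'
    refine ⟨tm f (u ^ k) n, ?_⟩
    change u ^ k • (show N' from ρ.hom n) = n'
    rw [← hkn, ← mul_smul, hpow, one_smul]

/-- The isomorphism `S ⊗ N ≅ N'` attached to a localization-type semilinear map. -/
def extendIso {x : R} (h : IsLocAt f ρ x) : (ModuleCat.extendScalars f).obj N ≅ N' :=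
  haveI := isIso_extendMap h
  asIso (extendMap f ρ)

end ExtendScalars

/-! ## Local triviality -/

section Invertible

/-- Local triviality (Prelude `IsInvertible`) can be tested on arbitrary open immersions. -/
theorem isInvertible_of_locally {X : Scheme.{u}} (L : X.Modules)
    (h : ∀ x : X, ∃ (Y : Scheme.{u}) (j : Y ⟶ X) (_ : IsOpenImmersion j), x ∈ Set.range j.base ∧
      Nonempty ((Scheme.Modules.pullback j).obj L ≅ SheafOfModules.unit Y.ringCatSheaf)) :
    Scheme.Modules.IsInvertible L := by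
  refine ⟨fun x => ?_⟩
  obtain ⟨Y, j, hj, hx, ⟨e⟩⟩ := h x
  refine ⟨j.opensRange, hx, ⟨?_⟩⟩
  have hfac : j.isoOpensRange.inv ≫ j = j.opensRange.ι := Scheme.Hom.isoOpensRange_inv_comp j
  exact (Scheme.Modules.pullbackCongr hfac.symm).app L ≪≫
    ((Scheme.Modules.pullbackComp j.isoOpensRange.inv j).app L).symm ≪≫
    (Scheme.Modules.pullback j.isoOpensRange.inv).mapIso e ≪≫
    Scheme.Modules.pullbackUnitIso _

/-- `IsInvertible` is invariant under isomorphism. -/
theorem isInvertible_of_iso {X : Scheme.{u}} {L L' : X.Modules} (e : L ≅ L')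
    (h : Scheme.Modules.IsInvertible L) : Scheme.Modules.IsInvertible L' := by
  refine ⟨fun x => ?_⟩
  obtain ⟨U, hx, ⟨t⟩⟩ := h.exists_trivialization x
  exact ⟨U, hx, ⟨(Scheme.Modules.pullback U.ι).mapIso e.symm ≪≫ t⟩⟩

/-- If the pullback of `L` along an open immersion `j` is invertible, then `L` is trivial near
every point of the range of `j`. -/
theorem exists_trivialization_of_pullback {X Y : Scheme.{u}} (j : Y ⟶ X) [IsOpenImmersion j]
    (L : X.Modules) (h : Scheme.Modules.IsInvertible ((Scheme.Modules.pullback j).obj L)) (y : Y) :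
    ∃ (Y' : Scheme.{u}) (j' : Y' ⟶ X) (_ : IsOpenImmersion j'), j.base y ∈ Set.range j'.base ∧
      Nonempty ((Scheme.Modules.pullback j').obj L ≅ SheafOfModules.unit Y'.ringCatSheaf) := by
  obtain ⟨U, hy, ⟨t⟩⟩ := h.exists_trivialization y
  refine ⟨U.toScheme, U.ι ≫ j, inferInstance, ⟨⟨y, hy⟩, rfl⟩, ⟨?_⟩⟩
  exact ((Scheme.Modules.pullbackComp U.ι j).app L).symm ≪≫ t

/-- Invertibility can be checked on a jointly surjective pair of open immersions. -/
theorem isInvertible_of_two_charts {X U₀ U₁ : Scheme.{u}} (j₀ : U₀ ⟶ X) (j₁ : U₁ ⟶ X)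
    [IsOpenImmersion j₀] [IsOpenImmersion j₁]
    (hcover : ∀ p : X, p ∈ Set.range j₀.base ∨ p ∈ Set.range j₁.base) (L : X.Modules)
    (h₀ : Scheme.Modules.IsInvertible ((Scheme.Modules.pullback j₀).obj L))
    (h₁ : Scheme.Modules.IsInvertible ((Scheme.Modules.pullback j₁).obj L)) :
    Scheme.Modules.IsInvertible L := by
  refine isInvertible_of_locally L fun p => ?_
  rcases hcover p with ⟨y, rfl⟩ | ⟨y, rfl⟩
  · exact exists_trivialization_of_pullback j₀ L h₀ y
  · exact exists_trivialization_of_pullback j₁ L h₁ y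

end Invertible

/-! ## Adapter from `IsLocalizedModule`, and tildes of invertible modules -/

section Adapter

variable {R S : Type u} [CommRing R] [CommRing S] [Algebra R S] {N : ModuleCat.{u} R}
  {N' : Type u} [AddCommGroup N'] [Module R N'] [Module S N'] [IsScalarTower R S N']

/-- An `R`-linear map into an `S`-module, as a morphism into the restriction of scalars. -/
def homOfLinearMap (ρ : N →ₗ[R] N') :
    N ⟶ (ModuleCat.restrictScalars (algebraMap R S)).obj (ModuleCat.of S N') :=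
  ModuleCat.ofHom (Y := (ModuleCat.restrictScalars (algebraMap R S)).obj (ModuleCat.of S N'))
    { toFun := fun n => ρ n
      map_add' := ρ.map_add
      map_smul' := fun r n => by
        change ρ (r • n) = algebraMap R S r • ρ n
        rw [ρ.map_smul, algebraMap_smul] }

/-- Adapter: an `IsLocalizedModule` at the powers of `x` (with `S = R[1/x]`) satisfies the
elementwise hypotheses `IsLocAt`. -/
theorem isLocAt_of_isLocalizedModule (x : R) [IsLocalization.Away x S] (ρ : N →ₗ[R] N')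
    [IsLocalizedModule (.powers x) ρ] :
    IsLocAt (algebraMap R S) (homOfLinearMap (S := S) ρ) x where
  unit := IsLocalization.Away.algebraMap_isUnit x
  surj_ring s := by
    obtain ⟨n, a, h⟩ := IsLocalization.Away.surj x s
    exact ⟨n, a, by rw [mul_comm]; exact h⟩
  surj n' := by
    obtain ⟨⟨n, ⟨_, k, rfl⟩⟩, h⟩ := IsLocalizedModule.surj (.powers x) ρ n'
    refine ⟨k, n, ?_⟩
    change algebraMap R S x ^ k • n' = ρ n
    rw [← h, ← map_pow, algebraMap_smul]
    rfl
  inj n hn := by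
    have h0 : ρ n = 0 := hn
    obtain ⟨⟨_, k, rfl⟩, hk⟩ := (IsLocalizedModule.eq_zero_iff (.powers x) ρ).mp h0
    exact ⟨k, hk⟩

end Adapter

/-- The pullback of `Ñ` along `Spec S ⟶ Spec A` is trivial as soon as `S ⊗ N ≅ S`. -/
def pullbackTildeUnitIso {A S : CommRingCat.{u}} (φ : A ⟶ S) (N : ModuleCat.{u} A)
    (θ : (ModuleCat.extendScalars φ.hom).obj N ≅ ModuleCat.of S S) :
    (Scheme.Modules.pullback (Spec.map φ)).obj (tilde N) ≅
      SheafOfModules.unit (Spec S).ringCatSheaf :=
  (helper7939.tildePullbackIso φ).app N ≪≫ (tilde.functor S).mapIso θ ≪≫ tildeSelf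

/-- **The tilde of an invertible module is locally trivial** (Prelude `IsInvertible`). -/
theorem isInvertible_tilde {A : CommRingCat.{u}} (N : ModuleCat.{u} A) [Module.Invertible A N] :
    Scheme.Modules.IsInvertible (tilde N) := by
  refine isInvertible_of_locally _ fun x => ?_
  obtain ⟨s, hs, hfree⟩ := Module.Invertible.exists_finset_free_localization A N
  have hex : ∃ r ∈ s, r ∉ x.asIdeal := by
    by_contra hcon
    simp only [not_exists, not_and, not_not] at hcon
    have h1 : Ideal.span (s : Set A) ≤ x.asIdeal := Ideal.span_le.mpr fun r hr => hcon r hr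
    rw [hs] at h1
    exact x.isPrime.ne_top (top_le_iff.mp h1)
  obtain ⟨r, hr, hrx⟩ := hex
  have := hfree r hr
  obtain ⟨e⟩ := Module.Invertible.free_iff_linearEquiv.mp (hfree r hr)
  let ρ : N →ₗ[A] Localization.Away r :=
    (e.restrictScalars A).toLinearMap ∘ₗ LocalizedModule.mkLinearMap (.powers r) N
  have : IsLocalizedModule (.powers r) ρ :=
    IsLocalizedModule.of_linearEquiv (.powers r) (LocalizedModule.mkLinearMap (.powers r) N)
      (e.restrictScalars A)
  let θ := extendIso (isLocAt_of_isLocalizedModule (S := Localization.Away r) r ρ)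
  refine ⟨Spec (CommRingCat.of (Localization.Away r)),
    Spec.map (CommRingCat.ofHom (algebraMap A (Localization.Away r))), inferInstance, ?_, ⟨?_⟩⟩
  · have h2 := Scheme.Hom.opensRange_localizationAway (R := A) r
    have h3 : x ∈ (PrimeSpectrum.basicOpen r : TopologicalSpace.Opens (PrimeSpectrum A)) := hrx
    rw [← h2] at h3
    exact h3
  · exact pullbackTildeUnitIso (CommRingCat.ofHom (algebraMap A (Localization.Away r))) N θ

/-! ## Two-chart gluing of tildes -/

section TildeGlue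

/-- The comparison isomorphism `(Ñ)|_{Spec A'} ≅ Ñ'` for a base change `θ` along a ring map
`r : A ⟶ A'` inducing an open immersion. -/
def kappa {A A' : CommRingCat.{u}} (r : A ⟶ A') [IsOpenImmersion (Spec.map r)]
    (N : ModuleCat.{u} A) (N' : ModuleCat.{u} A')
    (θ : (ModuleCat.extendScalars r.hom).obj N ≅ N') :
    (tilde N).restrict (Spec.map r) ≅ tilde N' :=
  (Scheme.Modules.restrictFunctorIsoPullback (Spec.map r)).app (tilde N) ≪≫
    (helper7939.tildePullbackIso r).app N ≪≫ (tilde.functor A').mapIso θ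

/-- The restriction map `Ñ ⟶ (Spec r)_* Ñ'` attached to a base change `θ`. -/
def tildeRes {A A' : CommRingCat.{u}} (r : A ⟶ A') [IsOpenImmersion (Spec.map r)]
    (N : ModuleCat.{u} A) (N' : ModuleCat.{u} A')
    (θ : (ModuleCat.extendScalars r.hom).obj N ≅ N') :
    tilde N ⟶ (Scheme.Modules.pushforward (Spec.map r)).obj (tilde N') :=
  toPushforward (Spec.map r) (kappa r N N' θ).hom

lemma isIso_tildeRes_app {A A' : CommRingCat.{u}} (r : A ⟶ A') [IsOpenImmersion (Spec.map r)]
    (N : ModuleCat.{u} A) (N' : ModuleCat.{u} A')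
    (θ : (ModuleCat.extendScalars r.hom).obj N ≅ N') (V : (Spec A).Opens)
    (hV : (V : Set (Spec A)) ⊆ Set.range (Spec.map r).base) :
    IsIso ((tildeRes r N N' θ).app V) :=
  isIso_toPushforward_app _ _ _ hV

variable {X : Scheme.{u}} {A₀ A₁ A₀₁ : CommRingCat.{u}} {r₀ : A₀ ⟶ A₀₁} {r₁ : A₁ ⟶ A₀₁}
  {j₀ : Spec A₀ ⟶ X} {j₁ : Spec A₁ ⟶ X} [IsOpenImmersion j₀] [IsOpenImmersion j₁]
  (hpb : IsPullback (Spec.map r₀) (Spec.map r₁) j₀ j₁)
  (N₀ : ModuleCat.{u} A₀) (N₁ : ModuleCat.{u} A₁) (N₀₁ : ModuleCat.{u} A₀₁)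
  (θ₀ : (ModuleCat.extendScalars r₀.hom).obj N₀ ≅ N₀₁)
  (θ₁ : (ModuleCat.extendScalars r₁.hom).obj N₁ ≅ N₀₁)

/-- **Two-chart gluing of tildes**: the module on `X` glued from `Ñ₀` on `Spec A₀` and `Ñ₁` on
`Spec A₁` along the base-change isomorphisms `θ₀`, `θ₁`. -/
def glueTilde : X.Modules :=
  haveI := isOpenImmersion_fst_of_isPullback hpb
  haveI := isOpenImmersion_snd_of_isPullback hpb
  glue hpb (tildeRes r₀ N₀ N₀₁ θ₀) (tildeRes r₁ N₁ N₀₁ θ₁)

/-- The glued module pulls back to `Ñ₀` on the first chart. -/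
def glueTildePullbackIso₀ :
    (Scheme.Modules.pullback j₀).obj (glueTilde hpb N₀ N₁ N₀₁ θ₀ θ₁) ≅ tilde N₀ :=
  haveI := isOpenImmersion_fst_of_isPullback hpb
  haveI := isOpenImmersion_snd_of_isPullback hpb
  gluePullbackIso₀ hpb (tildeRes r₀ N₀ N₀₁ θ₀) (tildeRes r₁ N₁ N₀₁ θ₁)
    (isIso_tildeRes_app r₁ N₁ N₀₁ θ₁)

/-- The glued module pulls back to `Ñ₁` on the second chart. -/
def glueTildePullbackIso₁ :
    (Scheme.Modules.pullback j₁).obj (glueTilde hpb N₀ N₁ N₀₁ θ₀ θ₁) ≅ tilde N₁ :=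
  haveI := isOpenImmersion_fst_of_isPullback hpb
  haveI := isOpenImmersion_snd_of_isPullback hpb
  gluePullbackIso₁ hpb (tildeRes r₀ N₀ N₀₁ θ₀) (tildeRes r₁ N₁ N₀₁ θ₁)
    (isIso_tildeRes_app r₀ N₀ N₀₁ θ₀)

/-- **Invertibility of the glued module** (Prelude sense) when `N₀`, `N₁` are invertible
modules and the two charts cover `X`. -/
theorem isInvertible_glueTilde
    (hcover : ∀ p : X, p ∈ Set.range j₀.base ∨ p ∈ Set.range j₁.base)
    [Module.Invertible A₀ N₀] [Module.Invertible A₁ N₁] :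
    Scheme.Modules.IsInvertible (glueTilde hpb N₀ N₁ N₀₁ θ₀ θ₁) :=
  isInvertible_of_two_charts j₀ j₁ hcover _
    (isInvertible_of_iso (glueTildePullbackIso₀ hpb N₀ N₁ N₀₁ θ₀ θ₁).symm (isInvertible_tilde N₀))
    (isInvertible_of_iso (glueTildePullbackIso₁ hpb N₀ N₁ N₀₁ θ₀ θ₁).symm (isInvertible_tilde N₁))

include hpb in
/-- **Essential surjectivity of the two-chart dictionary, existence form.** Elementwise
localization hypotheses; no instances beyond the two invertible modules. -/
theorem exists_invertible_of_isLocAt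
    (hcover : ∀ p : X, p ∈ Set.range j₀.base ∨ p ∈ Set.range j₁.base)
    [Module.Invertible A₀ N₀] [Module.Invertible A₁ N₁]
    (ρ₀ : N₀ ⟶ (ModuleCat.restrictScalars r₀.hom).obj N₀₁)
    (ρ₁ : N₁ ⟶ (ModuleCat.restrictScalars r₁.hom).obj N₀₁) (x : A₀) (y : A₁)
    (h₀ : IsLocAt r₀.hom ρ₀ x) (h₁ : IsLocAt r₁.hom ρ₁ y) :
    ∃ L : X.Modules, Scheme.Modules.IsInvertible L ∧
      Nonempty ((Scheme.Modules.pullback j₀).obj L ≅ tilde N₀) ∧
      Nonempty ((Scheme.Modules.pullback j₁).obj L ≅ tilde N₁) :=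
  ⟨glueTilde hpb N₀ N₁ N₀₁ (extendIso h₀) (extendIso h₁),
    isInvertible_glueTilde hpb N₀ N₁ N₀₁ _ _ hcover,
    ⟨glueTildePullbackIso₀ hpb N₀ N₁ N₀₁ _ _⟩, ⟨glueTildePullbackIso₁ hpb N₀ N₁ N₀₁ _ _⟩⟩

end TildeGlue

end

end Fermat.Agent.S25.helper9577
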