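import Fermat.Agent.S25.helper743_AlgApi
import Fermat.Agent.S25.helper1397_HomGlue

/-!
# S25 / U5a (OPEN clause): spreading out an isomorphism of two-chart bundles (helper9598)

`spread_equiv_univ` : let `C'` be a localization of the `k`-algebra `C` at a submonoid `S` and
`H`, `H'` two-chart line bundles over `C` which become isomorphic over `C'`.  Then there is
`c ∈ S` such that `H` and `H'` become isomorphic over EVERY `k`-algebra `C''` in which `c` is
invertible.  (`spread_equiv` : the special case `C'' = Localization.Away c`.)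

This is the limit argument behind "`(FG)` alone implies that chart loci are open".
-/

set_option autoImplicit false
set_option linter.style.haveILetI false

open TensorProduct

namespace Fermat.Agent.S25.helper9598

open Fermat.Agent.S25.helper1705 Fermat.Agent.S25.helper2945

universe u

/-! ## Generic algebra -/

section Generic

variable {R : Type*} [CommRing R] (T : Submonoid R) {R' : Type*} [CommRing R'] [Algebra R R']
  [IsLocalization T R'] {M N : Type*} [AddCommGroup M] [Module R M] [AddCommGroup N] [Module R N]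

/-- Lifting an isomorphism between localizations of finitely presented modules to a linear map
with a one-sided inverse up to denominators. -/
theorem exists_lift_tensor_equiv [Module.FinitePresentation R M] [Module.FinitePresentation R N]
    (e : R' ⊗[R] M ≃ₗ[R'] R' ⊗[R] N) :
    ∃ (τ : M →ₗ[R] N) (s : R) (τ' : N →ₗ[R] M) (d : R), s ∈ T ∧ d ∈ T ∧
      (∀ z : R' ⊗[R] M, τ.baseChange R' z = algebraMap R R' s • e z) ∧
      (∀ n, τ (τ' n) = d • n) := by
  let f : M →ₗ[R] R' ⊗[R] M := TensorProduct.mk R R' M 1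
  let g : N →ₗ[R] R' ⊗[R] N := TensorProduct.mk R R' N 1
  let eR : R' ⊗[R] M ≃ₗ[R] R' ⊗[R] N := e.restrictScalars R
  obtain ⟨τ, s, hτ⟩ := Module.FinitePresentation.exists_lift_of_isLocalizedModule T g
    (eR.toLinearMap ∘ₗ f)
  obtain ⟨τ₁, s', hτ₁⟩ := Module.FinitePresentation.exists_lift_of_isLocalizedModule T f
    (eR.symm.toLinearMap ∘ₗ g)
  have h1 : ∀ m, (1 : R') ⊗ₜ[R] τ m = (s : R) • e (1 ⊗ₜ m) := fun m => by
    have := LinearMap.congr_fun hτ m
    simpa [f, g, eR, Submonoid.smul_def] using this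
  have h2 : ∀ n, (1 : R') ⊗ₜ[R] τ₁ n = (s' : R) • e.symm (1 ⊗ₜ n) := fun n => by
    have := LinearMap.congr_fun hτ₁ n
    simpa [f, g, eR, Submonoid.smul_def] using this
  have hcomp : g ∘ₗ (τ ∘ₗ τ₁) = g ∘ₗ (((s : R) * (s' : R)) • LinearMap.id) := by
    ext n
    simp only [LinearMap.coe_comp, Function.comp_apply, LinearMap.smul_apply, LinearMap.id_coe,
      id_eq, g, TensorProduct.mk_apply]
    have h3 : e ((s' : R) • e.symm (1 ⊗ₜ n)) = (s' : R) • ((1 : R') ⊗ₜ[R] n) := by
      have h := (e.restrictScalars R).map_smul (s' : R) (e.symm (1 ⊗ₜ n))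
      rw [LinearEquiv.restrictScalars_apply, LinearEquiv.restrictScalars_apply,
        LinearEquiv.apply_symm_apply] at h
      exact h
    rw [h1, h2, h3, smul_smul, TensorProduct.tmul_smul]
  obtain ⟨u, hu⟩ := Module.Finite.exists_smul_of_comp_eq_of_isLocalizedModule T g _ _ hcomp
  refine ⟨τ, s, (u : R) • τ₁, (u : R) * ((s : R) * (s' : R)), s.2,
    T.mul_mem u.2 (T.mul_mem s.2 s'.2), ?_, ?_⟩
  · intro z
    induction z using TensorProduct.induction_on with
    | zero => simp
    | tmul x m =>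
      have hx : x ⊗ₜ[R] m = x • ((1 : R') ⊗ₜ[R] m) := by
        rw [TensorProduct.smul_tmul', smul_eq_mul, mul_one]
      have hx' : x ⊗ₜ[R] τ m = x • ((1 : R') ⊗ₜ[R] τ m) := by
        rw [TensorProduct.smul_tmul', smul_eq_mul, mul_one]
      rw [LinearMap.baseChange_tmul, hx', h1, hx, map_smul, ← algebraMap_smul R' (s : R),
        smul_comm]
    | add x y hx hy => simp only [map_add, smul_add, hx, hy]
  · intro n
    have := LinearMap.congr_fun hu n
    simp only [Submonoid.smul_def, LinearMap.smul_apply, LinearMap.coe_comp, Function.comp_apply,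
      LinearMap.id_coe, id_eq] at this
    rw [LinearMap.smul_apply, map_smul, this, smul_smul]

/-- A linear map with a one-sided inverse up to a scalar that becomes a unit is surjective after
base change. -/
theorem baseChange_surjective_of_comp {R : Type*} [CommRing R] {R'' : Type*} [CommRing R'']
    [Algebra R R''] {M N : Type*} [AddCommGroup M] [Module R M] [AddCommGroup N] [Module R N]
    (φ : M →ₗ[R] N) (φ' : N →ₗ[R] M) (r : R) (hr : IsUnit (algebraMap R R'' r))
    (h : ∀ n, φ (φ' n) = r • n) : Function.Surjective (φ.baseChange R'') := by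
  intro w
  obtain ⟨v, hv⟩ := hr.exists_left_inv
  have key : ∀ w : R'' ⊗[R] N, φ.baseChange R'' (φ'.baseChange R'' w) = algebraMap R R'' r • w := by
    intro w
    induction w using TensorProduct.induction_on with
    | zero => simp
    | tmul a n =>
      simp only [LinearMap.baseChange_tmul, h]
      rw [TensorProduct.tmul_smul, TensorProduct.smul_tmul', TensorProduct.smul_tmul',
        Algebra.smul_def, smul_eq_mul]
    | add x y hx hy => simp only [map_add, smul_add, hx, hy]
  refine ⟨φ'.baseChange R'' (v • w), ?_⟩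
  rw [map_smul, map_smul, key, smul_smul, hv, one_smul]

end Generic

variable {k : Type u} [Field k] {D : CurveDatum k}

/-! ## The chart rings of a localization -/

section Loc

variable {C C' : Type u} [CommRing C] [Algebra k C] [CommRing C'] [Algebra k C']
  [Algebra C C'] [IsScalarTower k C C'] (S : Submonoid C) [IsLocalization S C']

variable (D) in
/-- `R₀ ⊗ C'` is the localization of `R₀ ⊗ C` at the image of `S`. -/
theorem isLocalization_A₀ :
    letI := algA₀ D (IsScalarTower.toAlgHom k C C')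
    IsLocalization (Algebra.algebraMapSubmonoid (D.A₀ C) S) (D.A₀ C') := by
  letI := algA₀ D (IsScalarTower.toAlgHom k C C')
  have : IsScalarTower D.R₀ (D.A₀ C) (D.A₀ C') :=
    IsScalarTower.of_algebraMap_eq fun r => by
      simp [Algebra.TensorProduct.algebraMap_apply, RingHom.algebraMap_toAlgebra]
  refine IsLocalization.tensorProduct_tensorProduct_right k D.R₀ S C' ?_
  ext b
  simp [RingHom.algebraMap_toAlgebra]

variable (D) in
/-- `R₁ ⊗ C'` is the localization of `R₁ ⊗ C` at the image of `S`. -/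
theorem isLocalization_A₁ :
    letI := algA₁ D (IsScalarTower.toAlgHom k C C')
    IsLocalization (Algebra.algebraMapSubmonoid (D.A₁ C) S) (D.A₁ C') := by
  letI := algA₁ D (IsScalarTower.toAlgHom k C C')
  have : IsScalarTower D.R₁ (D.A₁ C) (D.A₁ C') :=
    IsScalarTower.of_algebraMap_eq fun r => by
      simp [Algebra.TensorProduct.algebraMap_apply, RingHom.algebraMap_toAlgebra]
  refine IsLocalization.tensorProduct_tensorProduct_right k D.R₁ S C' ?_
  ext b
  simp [RingHom.algebraMap_toAlgebra]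

variable (D) in
/-- `R₀₁ ⊗ C'` is the localization of `R₀₁ ⊗ C` at the image of `S`. -/
theorem isLocalization_A₀₁ :
    letI := algA₀₁ D (IsScalarTower.toAlgHom k C C')
    IsLocalization (Algebra.algebraMapSubmonoid (D.A₀₁ C) S) (D.A₀₁ C') := by
  letI := algA₀₁ D (IsScalarTower.toAlgHom k C C')
  have : IsScalarTower D.R₀₁ (D.A₀₁ C) (D.A₀₁ C') :=
    IsScalarTower.of_algebraMap_eq fun r => by
      simp [Algebra.TensorProduct.algebraMap_apply, RingHom.algebraMap_toAlgebra]
  refine IsLocalization.tensorProduct_tensorProduct_right k D.R₀₁ S C' ?_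
  ext b
  simp [RingHom.algebraMap_toAlgebra]

end Loc

/-! ## Overlap maps of scalar multiples of a morphism -/

section Overlap

variable {B : Type u} [CommRing B] [Algebra k B] {G₁ G₂ : GlueDatum D B}

theorem homRes₀_eq_smul (ε : helper1397.Mor G₁ G₂) (r : B) (f₀ : G₁.M₀ →ₗ[D.A₀ B] G₂.M₀)
    (h : ∀ m, f₀ m = algebraMap B (D.A₀ B) r • ε.f₀ m) :
    helper1397.homRes₀ G₁ G₂ f₀ = algebraMap B (D.A₀₁ B) r • ε.f₀₁ := by
  apply helper1397.ext_ρ₀ G₁ G₂
  intro m
  rw [helper1397.homRes₀_apply, h, map_smul, LinearMap.smul_apply, ε.comm₀]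
  exact (G₂.smul_def₀₁_₀ r _).symm.trans (G₂.smul_def₀₁ r _)

theorem homRes₁_eq_smul (ε : helper1397.Mor G₁ G₂) (r : B) (f₁ : G₁.M₁ →ₗ[D.A₁ B] G₂.M₁)
    (h : ∀ m, f₁ m = algebraMap B (D.A₁ B) r • ε.f₁ m) :
    helper1397.homRes₁ G₁ G₂ f₁ = algebraMap B (D.A₀₁ B) r • ε.f₀₁ := by
  apply helper1397.ext_ρ₁ G₁ G₂
  intro m
  rw [helper1397.homRes₁_apply, h, map_smul, LinearMap.smul_apply, ε.comm₁]
  exact (G₂.smul_def₀₁_₁ r _).symm.trans (G₂.smul_def₀₁ r _)

end Overlap

/-! ## Spreading out an isomorphism -/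

section Spread

variable {C C' : Type u} [CommRing C] [Algebra k C] [CommRing C'] [Algebra k C']
  [Algebra C C'] [IsScalarTower k C C']

/-- **Spreading out an isomorphism.** If two two-chart line bundles over `C` become isomorphic
over a localization `C'` of `C` at `S`, then there is `c ∈ S` such that they become isomorphic
over every `k`-algebra `C''` in which `c` is invertible. -/
theorem spread_equiv_univ (S : Submonoid C) [IsLocalization S C'] (H H' : GlueDatum D C)
    (h : (H.baseChange (IsScalarTower.toAlgHom k C C')).Equiv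
      (H'.baseChange (IsScalarTower.toAlgHom k C C'))) :
    ∃ c ∈ S, ∀ (C'' : Type u) [CommRing C''] [Algebra k C''] (ψ : C →ₐ[k] C''), IsUnit (ψ c) →
      (H.baseChange ψ).Equiv (H'.baseChange ψ) := by
  obtain ⟨e⟩ := h
  letI := algA₀ D (IsScalarTower.toAlgHom k C C')
  letI := algA₁ D (IsScalarTower.toAlgHom k C C')
  letI := algA₀₁ D (IsScalarTower.toAlgHom k C C')
  haveI := isLocalization_A₀ D S (C' := C')
  haveI := isLocalization_A₁ D S (C' := C')
  haveI := isLocalization_A₀₁ D S (C' := C')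
  haveI : Module.FinitePresentation (D.A₀ C) H.M₀ := Module.finitePresentation_of_projective _ _
  haveI : Module.FinitePresentation (D.A₀ C) H'.M₀ := Module.finitePresentation_of_projective _ _
  haveI : Module.FinitePresentation (D.A₁ C) H.M₁ := Module.finitePresentation_of_projective _ _
  haveI : Module.FinitePresentation (D.A₁ C) H'.M₁ := Module.finitePresentation_of_projective _ _
  haveI := helper1397.invertible_M₀₁ H
  -- the two charts
  obtain ⟨τ₀, s₀, τ₀', d₀, hs₀, hd₀, hτ₀, hτ₀'⟩ :=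
    exists_lift_tensor_equiv (Algebra.algebraMapSubmonoid (D.A₀ C) S) (R' := D.A₀ C') e.e₀
  obtain ⟨τ₁, s₁, τ₁', d₁, hs₁, hd₁, hτ₁, hτ₁'⟩ :=
    exists_lift_tensor_equiv (Algebra.algebraMapSubmonoid (D.A₁ C) S) (R' := D.A₁ C') e.e₁
  obtain ⟨a₀, ha₀, rfl⟩ := hs₀
  obtain ⟨c₀, hc₀, rfl⟩ := hd₀
  obtain ⟨a₁, ha₁, rfl⟩ := hs₁
  obtain ⟨c₁, hc₁, rfl⟩ := hd₁
  -- common denominator `a₀ * a₁`
  let σ₀ : H.M₀ →ₗ[D.A₀ C] H'.M₀ := algebraMap C (D.A₀ C) a₁ • τ₀
  let σ₁ : H.M₁ →ₗ[D.A₁ C] H'.M₁ := algebraMap C (D.A₁ C) a₀ • τ₁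
  let ε : helper1397.Mor (H.baseChange (IsScalarTower.toAlgHom k C C'))
      (H'.baseChange (IsScalarTower.toAlgHom k C C')) := helper1397.Mor.ofIso e
  have hσ₀ : ∀ z, σ₀.baseChange (D.A₀ C') z =
      algebraMap C' (D.A₀ C') (algebraMap C C' (a₀ * a₁)) • ε.f₀ z := by
    intro z
    have h1 : σ₀.baseChange (D.A₀ C') z = algebraMap C (D.A₀ C) a₁ • τ₀.baseChange (D.A₀ C') z := by
      simp only [σ₀, LinearMap.baseChange_smul, LinearMap.smul_apply]
    have h2 : algebraMap (D.A₀ C) (D.A₀ C') (algebraMap C (D.A₀ C) a₁) *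
        algebraMap (D.A₀ C) (D.A₀ C') (algebraMap C (D.A₀ C) a₀) =
        algebraMap C' (D.A₀ C') (algebraMap C C' (a₀ * a₁)) := by
      rw [← map_mul, ← map_mul, mul_comm a₁ a₀]
      rfl
    rw [h1, hτ₀, ← algebraMap_smul (D.A₀ C') (algebraMap C (D.A₀ C) a₁), smul_smul, h2]
    rfl
  have hσ₁ : ∀ z, σ₁.baseChange (D.A₁ C') z =
      algebraMap C' (D.A₁ C') (algebraMap C C' (a₀ * a₁)) • ε.f₁ z := by
    intro z
    have h1 : σ₁.baseChange (D.A₁ C') z = algebraMap C (D.A₁ C) a₀ • τ₁.baseChange (D.A₁ C') z := by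
      simp only [σ₁, LinearMap.baseChange_smul, LinearMap.smul_apply]
    have h2 : algebraMap (D.A₁ C) (D.A₁ C') (algebraMap C (D.A₁ C) a₀) *
        algebraMap (D.A₁ C) (D.A₁ C') (algebraMap C (D.A₁ C) a₁) =
        algebraMap C' (D.A₁ C') (algebraMap C C' (a₀ * a₁)) := by
      rw [← map_mul, ← map_mul]
      rfl
    rw [h1, hτ₁, ← algebraMap_smul (D.A₁ C') (algebraMap C (D.A₁ C) a₀), smul_smul, h2]
    rfl
  -- the two overlap maps agree after localization
  have hP : (helper1397.homRes₀ H H' σ₀).baseChange (D.A₀₁ C') =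
      (helper1397.homRes₁ H H' σ₁).baseChange (D.A₀₁ C') := by
    rw [← helper1397.homRes₀_baseChange, ← helper1397.homRes₁_baseChange,
      homRes₀_eq_smul ε _ _ hσ₀, homRes₁_eq_smul ε _ _ hσ₁]
  have hPQ : (TensorProduct.mk (D.A₀₁ C) (D.A₀₁ C') H'.M₀₁ 1) ∘ₗ (helper1397.homRes₀ H H' σ₀) =
      (TensorProduct.mk (D.A₀₁ C) (D.A₀₁ C') H'.M₀₁ 1) ∘ₗ (helper1397.homRes₁ H H' σ₁) := by
    ext n
    have := LinearMap.congr_fun hP ((1 : D.A₀₁ C') ⊗ₜ[D.A₀₁ C] n)
    simpa using this
  obtain ⟨t, ht⟩ := Module.Finite.exists_smul_of_comp_eq_of_isLocalizedModule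
    (Algebra.algebraMapSubmonoid (D.A₀₁ C) S)
    (TensorProduct.mk (D.A₀₁ C) (D.A₀₁ C') H'.M₀₁ 1) _ _ hPQ
  obtain ⟨b, hb, hbt⟩ := Submonoid.mem_map.mp t.2
  have ht' : algebraMap C (D.A₀₁ C) b • helper1397.homRes₀ H H' σ₀ =
      algebraMap C (D.A₀₁ C) b • helper1397.homRes₁ H H' σ₁ := by
    have := ht
    rw [Submonoid.smul_def, Submonoid.smul_def, ← hbt] at this
    exact this
  -- the morphism over `C`
  let τ : helper1397.Mor H H' :=
    { f₀ := algebraMap C (D.A₀ C) b • σ₀
      f₁ := algebraMap C (D.A₁ C) b • σ₁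
      f₀₁ := algebraMap C (D.A₀₁ C) b • helper1397.homRes₀ H H' σ₀
      comm₀ := fun m => by
        rw [LinearMap.smul_apply, LinearMap.smul_apply, helper1397.homRes₀_apply, map_smul]
        exact (H'.smul_def₀₁ b _).symm.trans (H'.smul_def₀₁_₀ b _)
      comm₁ := fun m => by
        rw [ht', LinearMap.smul_apply, LinearMap.smul_apply, helper1397.homRes₁_apply, map_smul]
        exact (H'.smul_def₀₁ b _).symm.trans (H'.smul_def₀₁_₁ b _) }
  have hτ₀c : ∀ n, τ.f₀ (τ₀' n) = algebraMap C (D.A₀ C) (b * a₁ * c₀) • n := by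
    intro n
    change (algebraMap C (D.A₀ C) b • (algebraMap C (D.A₀ C) a₁ • τ₀)) (τ₀' n) = _
    rw [LinearMap.smul_apply, LinearMap.smul_apply, hτ₀', smul_smul, smul_smul, ← map_mul,
      ← map_mul]
  have hτ₁c : ∀ n, τ.f₁ (τ₁' n) = algebraMap C (D.A₁ C) (b * a₀ * c₁) • n := by
    intro n
    change (algebraMap C (D.A₁ C) b • (algebraMap C (D.A₁ C) a₀ • τ₁)) (τ₁' n) = _
    rw [LinearMap.smul_apply, LinearMap.smul_apply, hτ₁', smul_smul, smul_smul, ← map_mul,
      ← map_mul]
  refine ⟨(b * a₁ * c₀) * (b * a₀ * c₁), S.mul_mem (S.mul_mem (S.mul_mem hb ha₁) hc₀)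
    (S.mul_mem (S.mul_mem hb ha₀) hc₁), fun C'' _ _ ψ hψ => ?_⟩
  rw [map_mul] at hψ
  have hu₀ : IsUnit (ψ (b * a₁ * c₀)) := isUnit_of_mul_isUnit_left hψ
  have hu₁ : IsUnit (ψ (b * a₀ * c₁)) := isUnit_of_mul_isUnit_right hψ
  refine helper1397.Mor.equiv_of_surjective (τ.baseChange ψ) ?_ ?_
  · letI := algA₀ D ψ
    refine baseChange_surjective_of_comp (R'' := D.A₀ C'') τ.f₀ τ₀'
      (algebraMap C (D.A₀ C) (b * a₁ * c₀)) ?_ hτ₀c
    exact hu₀.map (algebraMap C'' (D.A₀ C''))
  · letI := algA₁ D ψ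
    refine baseChange_surjective_of_comp (R'' := D.A₁ C'') τ.f₁ τ₁'
      (algebraMap C (D.A₁ C) (b * a₀ * c₁)) ?_ hτ₁c
    exact hu₁.map (algebraMap C'' (D.A₁ C''))

/-- **Spreading out an isomorphism**, `Localization.Away` form: if two two-chart line bundles
over `C` become isomorphic over a localization `C'` of `C` at `S`, they become isomorphic over
`C[1/c]` for some `c ∈ S`. -/
theorem spread_equiv (S : Submonoid C) [IsLocalization S C'] (H H' : GlueDatum D C)
    (h : (H.baseChange (IsScalarTower.toAlgHom k C C')).Equiv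
      (H'.baseChange (IsScalarTower.toAlgHom k C C'))) :
    ∃ c ∈ S, (H.baseChange (IsScalarTower.toAlgHom k C (Localization.Away c))).Equiv
      (H'.baseChange (IsScalarTower.toAlgHom k C (Localization.Away c))) := by
  obtain ⟨c, hc, hu⟩ := spread_equiv_univ S H H' h
  exact ⟨c, hc, hu (Localization.Away c) (IsScalarTower.toAlgHom k C (Localization.Away c))
    (IsLocalization.Away.algebraMap_isUnit c)⟩

end Spread

end Fermat.Agent.S25.helper9598
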