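import Mathlib
import Fermat.Agent.S25.helper4193_HomGlue

/-!
# Sectionwise toolkit for sheaves of modules on a scheme (S25, helper9610)

Everything here is statement-agnostic (Mathlib + `helper4193_HomGlue` only).

* `resR`, `res` : restriction of functions / of sections, with sheaf-gluing lemmas.
* `IsGen M W s` : `s` generates `M` on the open `W` (freely, on every smaller open).
* `SecHom M N Y` : a morphism `M|_Y ⟶ N|_Y` given sectionwise on the opens `W ≤ Y`.
* `SecHom.existsUnique_ratio` : two sectionwise morphisms `M|_Y ⟶ N|_Y`, the second one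
  bijective, differ by a unique function `a ∈ Γ(X, Y)` when `M` is locally generated by one
  section (sectionwise form of `End(L) = Γ(X, 𝒪)` for invertible `L`).
* `ev σ r W` : the evaluation maps `Γ(L, W) → Γ(T, σ⁻¹W)` of a morphism `r : L ⟶ σ_* 𝒪_T`
  (e.g. the transpose of a rigidification `σ^* L ≅ 𝒪_T`); `GoodGen σ r` : local generators
  evaluate to units; `goodGen_of_iso` : true for the transpose of a rigidification (E1).
* `exists_unit_evRatio` (normalisation), `SecHom.eq_of_ev_eq` (uniqueness of rigidified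
  sectionwise isomorphisms), `nonempty_iso_of_secHom` (abstract `LocIso`).
* `secHomOfRestrict`, `exists_secHom_of_pullback_iso` : from isomorphisms of restrictions /
  pullbacks along an open immersion to sectionwise morphisms.
-/

set_option autoImplicit false
universe u
open CategoryTheory AlgebraicGeometry TopologicalSpace

namespace Fermat.Agent.S25.helper9610

open Fermat.Agent.S25.helper4193 (res res_apply res_res res_smul abSheaf hom_app_res)

variable {X : Scheme.{u}}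

/-- Restriction of functions, as a ring homomorphism. -/
noncomputable def resR (X : Scheme.{u}) {V W : X.Opens} (h : W ≤ V) : Γ(X, V) →+* Γ(X, W) :=
  (X.presheaf.map (homOfLE h).op).hom

lemma resR_apply {V W : X.Opens} (h : W ≤ V) (a : Γ(X, V)) :
    resR X h a = X.presheaf.map (homOfLE h).op a := rfl

@[simp] lemma resR_resR {V W W' : X.Opens} (h : W ≤ V) (h' : W' ≤ W) (a : Γ(X, V)) :
    resR X h' (resR X h a) = resR X (h'.trans h) a := by
  simp only [resR_apply]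
  rw [← ConcreteCategory.comp_apply, ← X.presheaf.map_comp]
  rfl

@[simp] lemma resR_self {V : X.Opens} (a : Γ(X, V)) : resR X (le_refl V) a = a := by
  have : (homOfLE (le_refl V)).op = 𝟙 (Opposite.op V) := rfl
  simp only [resR_apply, this, X.presheaf.map_id]
  rfl

@[simp] lemma res_self (M : X.Modules) {V : X.Opens} (s : Γ(M, V)) : res M (le_refl V) s = s := by
  have : (homOfLE (le_refl V)).op = 𝟙 (Opposite.op V) := rfl
  simp only [res_apply, this, M.presheaf.map_id]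
  rfl

lemma res_smul' (M : X.Modules) {V W : X.Opens} (h : W ≤ V) (r : Γ(X, V)) (s : Γ(M, V)) :
    res M h (r • s) = resR X h r • res M h s :=
  res_smul M h r s

/-- Functions are determined locally. -/
lemma resR_eq_of_cover {ι : Type*} (U : ι → X.Opens) (V : X.Opens) (hUV : ∀ i, U i ≤ V)
    (hcov : V ≤ ⨆ i, U i) (a b : Γ(X, V)) (h : ∀ i, resR X (hUV i) a = resR X (hUV i) b) :
    a = b :=
  TopCat.Sheaf.eq_of_locally_eq' X.sheaf U V (fun i => homOfLE (hUV i)) hcov a b h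

/-- Compatible functions glue uniquely. -/
lemma existsUnique_glue_resR {ι : Type*} (U : ι → X.Opens) (V : X.Opens) (hUV : ∀ i, U i ≤ V)
    (hcov : V ≤ ⨆ i, U i) (a : ∀ i, Γ(X, U i))
    (compat : ∀ i j, resR X (inf_le_left : U i ⊓ U j ≤ U i) (a i) =
      resR X (inf_le_right : U i ⊓ U j ≤ U j) (a j)) :
    ∃! b : Γ(X, V), ∀ i, resR X (hUV i) b = a i :=
  TopCat.Sheaf.existsUnique_gluing' X.sheaf U V (fun i => homOfLE (hUV i)) hcov a compat

/-- Sections of a sheaf of modules are determined locally. -/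
lemma res_eq_of_cover (M : X.Modules) {ι : Type*} (U : ι → X.Opens) (V : X.Opens)
    (hUV : ∀ i, U i ≤ V) (hcov : V ≤ ⨆ i, U i) (s t : Γ(M, V))
    (h : ∀ i, res M (hUV i) s = res M (hUV i) t) : s = t :=
  TopCat.Sheaf.eq_of_locally_eq' (abSheaf M) U V (fun i => homOfLE (hUV i)) hcov s t h

/-- `s` generates `M` on `W`: on every open `W' ≤ W`, every section is a unique multiple of
the restriction of `s`. -/
def IsGen (M : X.Modules) (W : X.Opens) (s : Γ(M, W)) : Prop :=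
  ∀ (W' : X.Opens) (h : W' ≤ W), Function.Bijective (fun a : Γ(X, W') => a • res M h s)

lemma IsGen.res {M : X.Modules} {W : X.Opens} {s : Γ(M, W)} (hs : IsGen M W s)
    {W' : X.Opens} (h : W' ≤ W) : IsGen M W' (res M h s) := by
  intro W'' h'
  simpa only [res_res] using hs W'' (h'.trans h)

lemma IsGen.exists_smul_eq {M : X.Modules} {W : X.Opens} {s : Γ(M, W)} (hs : IsGen M W s)
    (t : Γ(M, W)) : ∃ a : Γ(X, W), a • s = t := by
  obtain ⟨a, ha⟩ := (hs W le_rfl).2 t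
  exact ⟨a, by simpa only [res_self] using ha⟩

lemma IsGen.smul_injective {M : X.Modules} {W : X.Opens} {s : Γ(M, W)} (hs : IsGen M W s)
    {a b : Γ(X, W)} (h : a • s = b • s) : a = b := by
  apply (hs W le_rfl).1
  simpa only [res_self] using h

/-- A morphism `M|_Y ⟶ N|_Y` given sectionwise: additive maps `Γ(M, W) → Γ(N, W)` for all opens
`W ≤ Y`, compatible with restriction and linear over the functions. -/
structure SecHom (M N : X.Modules) (Y : X.Opens) where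
  /-- the maps on sections -/
  app : ∀ W : X.Opens, W ≤ Y → (Γ(M, W) →+ Γ(N, W))
  app_res : ∀ (W W' : X.Opens) (hW : W ≤ Y) (h : W' ≤ W) (s : Γ(M, W)),
    res N h (app W hW s) = app W' (h.trans hW) (res M h s)
  app_smul : ∀ (W : X.Opens) (hW : W ≤ Y) (r : Γ(X, W)) (s : Γ(M, W)),
    app W hW (r • s) = r • app W hW s

namespace SecHom

variable {M N : X.Modules} {Y : X.Opens}

/-- All components are bijective. -/
def IsBij (ψ : SecHom M N Y) : Prop :=
  ∀ (W : X.Opens) (hW : W ≤ Y), Function.Bijective (ψ.app W hW)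

/-- Restriction of a sectionwise morphism to a smaller open. -/
def restrict (ψ : SecHom M N Y) {Y' : X.Opens} (h : Y' ≤ Y) : SecHom M N Y' where
  app W hW := ψ.app W (hW.trans h)
  app_res W W' hW h' s := ψ.app_res W W' (hW.trans h) h' s
  app_smul W hW r s := ψ.app_smul W (hW.trans h) r s

lemma IsBij.restrict {ψ : SecHom M N Y} (hψ : ψ.IsBij) {Y' : X.Opens} (h : Y' ≤ Y) :
    (ψ.restrict h).IsBij := fun W hW => hψ W (hW.trans h)

/-- A bijective sectionwise morphism maps generators to generators. -/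
lemma isGen_app {ψ : SecHom M N Y} (hψ : ψ.IsBij) {W : X.Opens} (hW : W ≤ Y) {s : Γ(M, W)}
    (hs : IsGen M W s) : IsGen N W (ψ.app W hW s) := by
  intro W' h
  have : (fun a : Γ(X, W') => a • res N h (ψ.app W hW s)) =
      (ψ.app W' (h.trans hW)) ∘ (fun a : Γ(X, W') => a • res M h s) := by
    funext a
    simp only [Function.comp_apply, ψ.app_res, ψ.app_smul]
  rw [this]
  exact (hψ W' (h.trans hW)).comp (hs W' h)

/-- `ψ = a • ψ'` on all opens contained in `W`. -/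
def Ratio (ψ ψ' : SecHom M N Y) (W : X.Opens) (hW : W ≤ Y) (a : Γ(X, W)) : Prop :=
  ∀ (W' : X.Opens) (h : W' ≤ W) (s : Γ(M, W')),
    ψ.app W' (h.trans hW) s = resR X h a • ψ'.app W' (h.trans hW) s

lemma Ratio.res {ψ ψ' : SecHom M N Y} {W : X.Opens} {hW : W ≤ Y} {a : Γ(X, W)}
    (H : Ratio ψ ψ' W hW a) {W₁ : X.Opens} (h₁ : W₁ ≤ W) :
    Ratio ψ ψ' W₁ (h₁.trans hW) (resR X h₁ a) := by
  intro W' h s
  rw [resR_resR]
  exact H W' (h.trans h₁) s

lemma ratio_of_isGen {ψ ψ' : SecHom M N Y} {W : X.Opens} {hW : W ≤ Y} {s₀ : Γ(M, W)}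
    (hs₀ : IsGen M W s₀) {a : Γ(X, W)} (h₀ : ψ.app W hW s₀ = a • ψ'.app W hW s₀) :
    Ratio ψ ψ' W hW a := by
  intro W' h s
  obtain ⟨c, rfl⟩ := (hs₀.res h).exists_smul_eq s
  rw [ψ.app_smul, ψ'.app_smul, ← ψ.app_res W W' hW h, ← ψ'.app_res W W' hW h, h₀, res_smul',
    smul_comm]

lemma Ratio.unique {ψ ψ' : SecHom M N Y} (hψ' : ψ'.IsBij) {W : X.Opens} {hW : W ≤ Y}
    {s₀ : Γ(M, W)} (hs₀ : IsGen M W s₀) {a b : Γ(X, W)} (Ha : Ratio ψ ψ' W hW a)
    (Hb : Ratio ψ ψ' W hW b) : a = b := by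
  have h1 := Ha W le_rfl s₀
  have h2 := Hb W le_rfl s₀
  rw [resR_self] at h1 h2
  exact (isGen_app hψ' hW hs₀).smul_injective (h1.symm.trans h2)

/-- **Ratio lemma.** If `M` is locally generated by one section on `Y`, then two sectionwise
morphisms `ψ ψ' : M|_Y ⟶ N|_Y` with `ψ'` bijective differ by a unique function on `Y`. -/
theorem existsUnique_ratio
    (hM : ∀ x ∈ Y, ∃ W : X.Opens, x ∈ W ∧ W ≤ Y ∧ ∃ s : Γ(M, W), IsGen M W s)
    (ψ ψ' : SecHom M N Y) (hψ' : ψ'.IsBij) :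
    ∃! a : Γ(X, Y), Ratio ψ ψ' Y le_rfl a := by
  choose Wf hxW hWY sf hgen using fun x : Y => hM x.1 x.2
  have hcov : Y ≤ ⨆ x : Y, Wf x := fun x hx => Opens.mem_iSup.mpr ⟨⟨x, hx⟩, hxW ⟨x, hx⟩⟩
  -- local ratios
  have hloc : ∀ x : Y, ∃ a : Γ(X, Wf x), Ratio ψ ψ' (Wf x) (hWY x) a := by
    intro x
    obtain ⟨a, ha⟩ := (isGen_app hψ' (hWY x) (hgen x)).exists_smul_eq (ψ.app _ (hWY x) (sf x))
    exact ⟨a, ratio_of_isGen (hgen x) ha.symm⟩
  choose af haf using hloc
  have compat : ∀ x y : Y, resR X (inf_le_left : Wf x ⊓ Wf y ≤ Wf x) (af x) =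
      resR X (inf_le_right : Wf x ⊓ Wf y ≤ Wf y) (af y) := by
    intro x y
    exact Ratio.unique hψ' ((hgen x).res inf_le_left) ((haf x).res inf_le_left)
      ((haf y).res inf_le_right)
  obtain ⟨a, ha, hauniq⟩ := existsUnique_glue_resR Wf Y hWY hcov af compat
  refine ⟨a, ?_, ?_⟩
  · intro W hW s
    refine res_eq_of_cover N (fun x : Y => W ⊓ Wf x) W (fun _ => inf_le_left) ?_ _ _ ?_
    · intro z hz
      obtain ⟨x, hx⟩ := Opens.mem_iSup.mp (hcov (hW hz))
      exact Opens.mem_iSup.mpr ⟨x, ⟨hz, hx⟩⟩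
    · intro x
      rw [res_smul', ψ.app_res, ψ'.app_res, resR_resR]
      have := haf x (W ⊓ Wf x) inf_le_right (res M inf_le_left s)
      rw [this, ← ha x, resR_resR]
  · intro b hb
    apply hauniq
    intro x
    exact Ratio.unique hψ' (hgen x) (hb.res (hWY x)) (haf x)

end SecHom

section Units
variable {X : Scheme.{u}}

/-- A function that is locally a unit is a unit. -/
lemma isUnit_of_cover {ι : Type*} (U : ι → X.Opens) (V : X.Opens) (hUV : ∀ i, U i ≤ V)
    (hcov : V ≤ ⨆ i, U i) (f : Γ(X, V)) (h : ∀ i, IsUnit (resR X (hUV i) f)) : IsUnit f := by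
  choose g hg using fun i => (h i).exists_right_inv
  have compat : ∀ i j, resR X (inf_le_left : U i ⊓ U j ≤ U i) (g i) =
      resR X (inf_le_right : U i ⊓ U j ≤ U j) (g j) := by
    intro i j
    have h1 : resR X ((inf_le_left : U i ⊓ U j ≤ U i).trans (hUV i)) f *
        resR X (inf_le_left : U i ⊓ U j ≤ U i) (g i) = 1 := by
      rw [← resR_resR (hUV i) inf_le_left, ← map_mul, hg, map_one]
    have h2 : resR X ((inf_le_left : U i ⊓ U j ≤ U i).trans (hUV i)) f *
        resR X (inf_le_right : U i ⊓ U j ≤ U j) (g j) = 1 := by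
      rw [show resR X ((inf_le_left : U i ⊓ U j ≤ U i).trans (hUV i)) f =
        resR X (inf_le_right : U i ⊓ U j ≤ U j) (resR X (hUV j) f) from (resR_resR _ _ _).symm,
        ← map_mul, hg, map_one]
    exact left_inv_eq_right_inv (by rw [mul_comm]; exact h1) h2
  obtain ⟨b, hb, -⟩ := existsUnique_glue_resR U V hUV hcov g compat
  refine IsUnit.of_mul_eq_one b (resR_eq_of_cover U V hUV hcov _ _ fun i => ?_)
  rw [map_mul, hb, hg, map_one]

end Units

section Eval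

variable {X T : Scheme.{u}} (σ : T ⟶ X) {L : X.Modules}

/-- The structure sheaf as a module over itself. -/
noncomputable abbrev OO (T : Scheme.{u}) : T.Modules := SheafOfModules.unit.{u} T.ringCatSheaf

/-- The evaluation maps `Γ(L, W) → Γ(T, σ⁻¹ W)` of a morphism `r : L ⟶ σ_* 𝒪_T`. -/
noncomputable def ev (r : L ⟶ (Scheme.Modules.pushforward σ).obj (OO T)) (W : X.Opens) :
    Γ(L, W) →+ Γ(T, σ ⁻¹ᵁ W) :=
  (r.app W).hom

lemma ev_smul (r : L ⟶ (Scheme.Modules.pushforward σ).obj (OO T)) (W : X.Opens)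
    (a : Γ(X, W)) (s : Γ(L, W)) : ev σ r W (a • s) = σ.app W a * ev σ r W s := by
  have := Scheme.Modules.Hom.app_smul r a s
  exact this

lemma ev_res (r : L ⟶ (Scheme.Modules.pushforward σ).obj (OO T)) {W W' : X.Opens}
    (h : W' ≤ W) (s : Γ(L, W)) :
    ev σ r W' (res L h s) = resR T (σ.preimage_mono h) (ev σ r W s) := by
  have := hom_app_res r h s
  exact this.symm

/-- `r : L ⟶ σ_* 𝒪_T` is *rigidifying*: every point of `X` has a neighbourhood on which `L` has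
a generator whose evaluation is a unit. -/
def GoodGen (r : L ⟶ (Scheme.Modules.pushforward σ).obj (OO T)) : Prop :=
  ∀ x : X, ∃ W : X.Opens, x ∈ W ∧ ∃ s : Γ(L, W), IsGen L W s ∧ IsUnit (ev σ r W s)

variable {σ}

/-- For a rigidifying `r`, every local generator has unit evaluation. -/
lemma GoodGen.isUnit_ev {r : L ⟶ (Scheme.Modules.pushforward σ).obj (OO T)} (hr : GoodGen σ r)
    {W : X.Opens} {s : Γ(L, W)} (hs : IsGen L W s) : IsUnit (ev σ r W s) := by
  choose Wf hxW sf hgen hunit using hr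
  refine isUnit_of_cover (fun y : (σ ⁻¹ᵁ W : T.Opens) => σ ⁻¹ᵁ (W ⊓ Wf (σ.base y.1))) (σ ⁻¹ᵁ W)
    (fun _ => σ.preimage_mono inf_le_left) ?_ _ fun y => ?_
  · intro z hz
    exact Opens.mem_iSup.mpr ⟨⟨z, hz⟩, ⟨hz, hxW (σ.base z)⟩⟩
  · set x := σ.base y.1
    rw [← ev_res σ r (inf_le_left : W ⊓ Wf x ≤ W)]
    obtain ⟨c, hc⟩ := ((hgen x).res (inf_le_right : W ⊓ Wf x ≤ Wf x)).exists_smul_eq
      (res L (inf_le_left : W ⊓ Wf x ≤ W) s)
    obtain ⟨d, hd⟩ := (hs.res (inf_le_left : W ⊓ Wf x ≤ W)).exists_smul_eq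
      (res L (inf_le_right : W ⊓ Wf x ≤ Wf x) (sf x))
    have hcd : c * d = 1 := by
      apply (hs.res (inf_le_left : W ⊓ Wf x ≤ W)).smul_injective
      rw [mul_smul, hd, hc, one_smul]
    rw [← hc, ev_smul, ev_res]
    exact ((IsUnit.of_mul_eq_one d hcd).map (σ.app _).hom).mul ((hunit x).map _)

/-- A rigidifying `r` provides generators on small opens inside any given open. -/
lemma GoodGen.exists_isGen_le {r : L ⟶ (Scheme.Modules.pushforward σ).obj (OO T)}
    (hr : GoodGen σ r) (Y : X.Opens) :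
    ∀ x ∈ Y, ∃ W : X.Opens, x ∈ W ∧ W ≤ Y ∧ ∃ s : Γ(L, W), IsGen L W s := by
  intro x hx
  obtain ⟨W, hxW, s, hs, -⟩ := hr x
  exact ⟨W ⊓ Y, ⟨hxW, hx⟩, inf_le_right, res L inf_le_left s, hs.res _⟩

end Eval

section Rigid

variable {X T : Scheme.{u}} (π : X ⟶ T) (σ : T ⟶ X) (hσ : σ ≫ π = 𝟙 T) {L L' : X.Modules}

include hσ in
lemma preimage_preimage_of_section (V : T.Opens) : σ ⁻¹ᵁ (π ⁻¹ᵁ V) = V := by
  rw [← Scheme.Hom.comp_preimage, hσ]
  rfl

include hσ in
lemma preimage_le_of_le_preimage {V : T.Opens} {W : X.Opens} (hW : W ≤ π ⁻¹ᵁ V) :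
    σ ⁻¹ᵁ W ≤ V :=
  (σ.preimage_mono hW).trans (preimage_preimage_of_section π σ hσ V).le

lemma appLE_apply_of_eq_id {T : Scheme.{u}} (f : T ⟶ T) (hf : f = 𝟙 T) (U V : T.Opens)
    (e : V ≤ f ⁻¹ᵁ U) (b : Γ(T, U)) :
    f.appLE U V e b = resR T (show V ≤ U by subst hf; exact e) b := by
  subst hf
  rfl

/-- `σ^♯ ∘ π^♯ = id`, in restricted form. -/
lemma app_resR_app {V : T.Opens} {W : X.Opens} (hW : W ≤ π ⁻¹ᵁ V) (b : Γ(T, V)) :
    σ.app W (resR X hW (π.app V b)) = resR T (preimage_le_of_le_preimage π σ hσ hW) b := by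
  have h1 := Scheme.Hom.appLE_comp_appLE σ π V W (σ ⁻¹ᵁ W) hW le_rfl
  rw [Scheme.Hom.appLE_eq_app] at h1
  have h2 := congr($h1 b)
  rw [appLE_apply_of_eq_id (σ ≫ π) hσ] at h2
  exact h2

variable {π σ}

/-- `ev r' ∘ ψ = w • ev r` on all opens contained in `W`. -/
def EvRatio (r : L ⟶ (Scheme.Modules.pushforward σ).obj (OO T))
    (r' : L' ⟶ (Scheme.Modules.pushforward σ).obj (OO T)) {Y : X.Opens} (ψ : SecHom L L' Y)
    (W : X.Opens) (hW : W ≤ Y) (w : Γ(T, σ ⁻¹ᵁ W)) : Prop :=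
  ∀ (W' : X.Opens) (h : W' ≤ W) (s : Γ(L, W')),
    ev σ r' W' (ψ.app W' (h.trans hW) s) = resR T (σ.preimage_mono h) w * ev σ r W' s

lemma EvRatio.res {r : L ⟶ (Scheme.Modules.pushforward σ).obj (OO T)}
    {r' : L' ⟶ (Scheme.Modules.pushforward σ).obj (OO T)} {Y : X.Opens} {ψ : SecHom L L' Y}
    {W : X.Opens} {hW : W ≤ Y} {w : Γ(T, σ ⁻¹ᵁ W)} (H : EvRatio r r' ψ W hW w)
    {W₁ : X.Opens} (h₁ : W₁ ≤ W) :
    EvRatio r r' ψ W₁ (h₁.trans hW) (resR T (σ.preimage_mono h₁) w) := by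
  intro W' h s
  rw [resR_resR]
  exact H W' (h.trans h₁) s

lemma evRatio_of_isGen {r : L ⟶ (Scheme.Modules.pushforward σ).obj (OO T)}
    {r' : L' ⟶ (Scheme.Modules.pushforward σ).obj (OO T)} {Y : X.Opens} {ψ : SecHom L L' Y}
    {W : X.Opens} {hW : W ≤ Y} {s₀ : Γ(L, W)} (hs₀ : IsGen L W s₀) {w : Γ(T, σ ⁻¹ᵁ W)}
    (h₀ : ev σ r' W (ψ.app W hW s₀) = w * ev σ r W s₀) : EvRatio r r' ψ W hW w := by
  intro W' h s
  obtain ⟨c, rfl⟩ := (hs₀.res h).exists_smul_eq s
  rw [ψ.app_smul, ev_smul, ev_smul, ← ψ.app_res W W' hW h, ev_res, ev_res, h₀, map_mul]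
  ring

lemma EvRatio.unique {r : L ⟶ (Scheme.Modules.pushforward σ).obj (OO T)}
    {r' : L' ⟶ (Scheme.Modules.pushforward σ).obj (OO T)} {Y : X.Opens} {ψ : SecHom L L' Y}
    {W : X.Opens} {hW : W ≤ Y} {s₀ : Γ(L, W)} (hu : IsUnit (ev σ r W s₀))
    {w w' : Γ(T, σ ⁻¹ᵁ W)} (H : EvRatio r r' ψ W hW w) (H' : EvRatio r r' ψ W hW w') :
    w = w' := by
  have h1 := H W le_rfl s₀
  have h2 := H' W le_rfl s₀
  rw [resR_self] at h1 h2
  exact hu.mul_right_cancel (h1.symm.trans h2)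

include hσ in
/-- **Normalisation.** A sectionwise isomorphism `ψ : L|_{π⁻¹V} ≅ L'|_{π⁻¹V}` multiplies the
evaluations by a unit of `Γ(T, V)`. -/
theorem exists_unit_evRatio {r : L ⟶ (Scheme.Modules.pushforward σ).obj (OO T)}
    {r' : L' ⟶ (Scheme.Modules.pushforward σ).obj (OO T)} (hr : GoodGen σ r)
    (hr' : GoodGen σ r') (V : T.Opens) (ψ : SecHom L L' (π ⁻¹ᵁ V)) (hψ : ψ.IsBij) :
    ∃ w : Γ(T, V), IsUnit w ∧ ∀ (W : X.Opens) (hW : W ≤ π ⁻¹ᵁ V) (s : Γ(L, W)),
      ev σ r' W (ψ.app W hW s) =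
        resR T (preimage_le_of_le_preimage π σ hσ hW) w * ev σ r W s := by
  have hmem : ∀ y : V, σ.base y.1 ∈ π ⁻¹ᵁ V := fun y => by
    have : y.1 ∈ σ ⁻¹ᵁ (π ⁻¹ᵁ V) := by
      rw [preimage_preimage_of_section π σ hσ V]; exact y.2
    exact this
  choose Wf hxW hWY sf hgen using fun y : V => hr.exists_isGen_le (π ⁻¹ᵁ V) _ (hmem y)
  have hUV : ∀ y : V, σ ⁻¹ᵁ (Wf y) ≤ V := fun y => preimage_le_of_le_preimage π σ hσ (hWY y)
  have hcov : V ≤ ⨆ y : V, σ ⁻¹ᵁ (Wf y) :=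
    fun z hz => Opens.mem_iSup.mpr ⟨⟨z, hz⟩, hxW ⟨z, hz⟩⟩
  have hu : ∀ y : V, IsUnit (ev σ r (Wf y) (sf y)) := fun y => hr.isUnit_ev (hgen y)
  have hu' : ∀ y : V, IsUnit (ev σ r' (Wf y) (ψ.app (Wf y) (hWY y) (sf y))) :=
    fun y => hr'.isUnit_ev (SecHom.isGen_app hψ (hWY y) (hgen y))
  -- local ratios
  let wf : ∀ y : V, Γ(T, σ ⁻¹ᵁ (Wf y)) := fun y =>
    ev σ r' (Wf y) (ψ.app (Wf y) (hWY y) (sf y)) * ((hu y).unit⁻¹ : Units _)
  have hwf : ∀ y : V, EvRatio r r' ψ (Wf y) (hWY y) (wf y) := fun y =>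
    evRatio_of_isGen (hgen y) (by
      simp only [wf]
      rw [mul_assoc, IsUnit.val_inv_mul, mul_one])
  have compat : ∀ y y' : V,
      resR T (inf_le_left : σ ⁻¹ᵁ (Wf y) ⊓ σ ⁻¹ᵁ (Wf y') ≤ σ ⁻¹ᵁ (Wf y)) (wf y) =
      resR T (inf_le_right : σ ⁻¹ᵁ (Wf y) ⊓ σ ⁻¹ᵁ (Wf y') ≤ σ ⁻¹ᵁ (Wf y')) (wf y') := by
    intro y y'
    have hu₀ : IsUnit (ev σ r (Wf y ⊓ Wf y') (res L inf_le_left (sf y))) := by
      rw [ev_res]; exact (hu y).map _
    exact EvRatio.unique hu₀ ((hwf y).res inf_le_left) ((hwf y').res inf_le_right)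
  obtain ⟨w, hw, -⟩ := existsUnique_glue_resR (fun y : V => σ ⁻¹ᵁ (Wf y)) V hUV hcov wf compat
  refine ⟨w, ?_, ?_⟩
  · refine isUnit_of_cover (fun y : V => σ ⁻¹ᵁ (Wf y)) V hUV hcov w fun y => ?_
    rw [hw y]
    exact (hu' y).mul (Units.isUnit _)
  · intro W hW s
    have hσW : σ ⁻¹ᵁ W ≤ V := preimage_le_of_le_preimage π σ hσ hW
    refine resR_eq_of_cover (fun y : V => σ ⁻¹ᵁ (W ⊓ Wf y)) (σ ⁻¹ᵁ W)
      (fun _ => σ.preimage_mono inf_le_left) ?_ _ _ fun y => ?_
    · intro z hz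
      exact Opens.mem_iSup.mpr ⟨⟨z, hσW hz⟩, ⟨hz, hxW ⟨z, hσW hz⟩⟩⟩
    · rw [map_mul, ← ev_res σ r' (inf_le_left : W ⊓ Wf y ≤ W),
        ← ev_res σ r (inf_le_left : W ⊓ Wf y ≤ W), ψ.app_res W (W ⊓ Wf y) hW inf_le_left,
        hwf y (W ⊓ Wf y) inf_le_right (res L inf_le_left s), ← hw y, resR_resR, resR_resR]

include hσ in
/-- **Uniqueness.** Two sectionwise isomorphisms `L|_{π⁻¹V} ≅ L'|_{π⁻¹V}` compatible with the
evaluations are equal, provided every function on `π⁻¹V` comes from `V`. -/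
theorem SecHom.eq_of_ev_eq (hΓ : ∀ V : T.Opens, Function.Surjective (π.app V).hom)
    {r : L ⟶ (Scheme.Modules.pushforward σ).obj (OO T)}
    {r' : L' ⟶ (Scheme.Modules.pushforward σ).obj (OO T)} (hr : GoodGen σ r)
    (V : T.Opens) (ψ₁ ψ₂ : SecHom L L' (π ⁻¹ᵁ V)) (hψ₂ : ψ₂.IsBij)
    (h₁ : ∀ (W : X.Opens) (hW : W ≤ π ⁻¹ᵁ V) (s : Γ(L, W)),
      ev σ r' W (ψ₁.app W hW s) = ev σ r W s)
    (h₂ : ∀ (W : X.Opens) (hW : W ≤ π ⁻¹ᵁ V) (s : Γ(L, W)),
      ev σ r' W (ψ₂.app W hW s) = ev σ r W s)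
    (W : X.Opens) (hW : W ≤ π ⁻¹ᵁ V) (s : Γ(L, W)) :
    ψ₁.app W hW s = ψ₂.app W hW s := by
  obtain ⟨a, ha, -⟩ := SecHom.existsUnique_ratio (hr.exists_isGen_le (π ⁻¹ᵁ V)) ψ₁ ψ₂ hψ₂
  obtain ⟨b, rfl⟩ := hΓ V a
  have hmem : ∀ y : V, σ.base y.1 ∈ π ⁻¹ᵁ V := fun y => by
    have : y.1 ∈ σ ⁻¹ᵁ (π ⁻¹ᵁ V) := by
      rw [preimage_preimage_of_section π σ hσ V]; exact y.2
    exact this
  choose Wf hxW hWY sf hgen using fun y : V => hr.exists_isGen_le (π ⁻¹ᵁ V) _ (hmem y)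
  have hUV : ∀ y : V, σ ⁻¹ᵁ (Wf y) ≤ V := fun y => preimage_le_of_le_preimage π σ hσ (hWY y)
  have hcov : V ≤ ⨆ y : V, σ ⁻¹ᵁ (Wf y) :=
    fun z hz => Opens.mem_iSup.mpr ⟨⟨z, hz⟩, hxW ⟨z, hz⟩⟩
  have hb : b = 1 := by
    refine resR_eq_of_cover (fun y : V => σ ⁻¹ᵁ (Wf y)) V hUV hcov _ _ fun y => ?_
    have hu : IsUnit (ev σ r (Wf y) (sf y)) := hr.isUnit_ev (hgen y)
    have e1 := h₁ (Wf y) (hWY y) (sf y)
    rw [ha (Wf y) (hWY y) (sf y), ev_smul, app_resR_app π σ hσ, h₂] at e1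
    rw [map_one]
    exact hu.mul_right_cancel (e1.trans (one_mul _).symm)
  subst hb
  rw [ha W hW s, map_one, map_one, one_smul]

/-- Rescaling a sectionwise morphism by a function on `Y`. -/
noncomputable def SecHom.smul {M N : X.Modules} {Y : X.Opens} (a : Γ(X, Y))
    (ψ : SecHom M N Y) : SecHom M N Y where
  app W hW := (DistribSMul.toAddMonoidHom Γ(N, W) (resR X hW a)).comp (ψ.app W hW)
  app_res W W' hW h s := by
    change res N h (resR X hW a • ψ.app W hW s) = resR X (h.trans hW) a • ψ.app W' _ (res M h s)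
    rw [res_smul', resR_resR, ψ.app_res]
  app_smul W hW r s := by
    change resR X hW a • ψ.app W hW (r • s) = r • (resR X hW a • ψ.app W hW s)
    rw [ψ.app_smul, smul_comm]

lemma SecHom.smul_app {M N : X.Modules} {Y : X.Opens} (a : Γ(X, Y)) (ψ : SecHom M N Y)
    (W : X.Opens) (hW : W ≤ Y) (s : Γ(M, W)) :
    (SecHom.smul a ψ).app W hW s = resR X hW a • ψ.app W hW s := rfl

lemma SecHom.IsBij.smul {M N : X.Modules} {Y : X.Opens} {a : Γ(X, Y)} (ha : IsUnit a)
    {ψ : SecHom M N Y} (hψ : ψ.IsBij) : (SecHom.smul a ψ).IsBij := by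
  intro W hW
  have hu : IsUnit (resR X hW a) := ha.map _
  have : ⇑((SecHom.smul a ψ).app W hW) = (fun t : Γ(N, W) => hu.unit • t) ∘ ψ.app W hW := by
    funext s; rfl
  rw [this]
  exact (MulAction.bijective hu.unit).comp (hψ W hW)

include hσ in
/-- **Abstract form of `LocIso`.** Let `π : X ⟶ T` have a section `σ`, with every function on
`π⁻¹V` coming from `V`. Let `L`, `L'` be `𝒪_X`-modules with rigidifying maps `r`, `r'`
to `σ_* 𝒪_T`. If `L` and `L'` are sectionwise isomorphic over `π⁻¹(V i)` for an open cover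
`V i` of `T`, then `L ≅ L'`. -/
theorem nonempty_iso_of_secHom (hΓ : ∀ V : T.Opens, Function.Surjective (π.app V).hom)
    {r : L ⟶ (Scheme.Modules.pushforward σ).obj (OO T)}
    {r' : L' ⟶ (Scheme.Modules.pushforward σ).obj (OO T)} (hr : GoodGen σ r)
    (hr' : GoodGen σ r') {ι : Type*} (V : ι → T.Opens) (hV : ⨆ i, V i = ⊤)
    (ψ : ∀ i, SecHom L L' (π ⁻¹ᵁ V i)) (hψ : ∀ i, (ψ i).IsBij) : Nonempty (L ≅ L') := by
  choose w hw hwr using fun i => exists_unit_evRatio hσ hr hr' (V i) (ψ i) (hψ i)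
  -- normalised isomorphisms
  let a : ∀ i, Γ(X, π ⁻¹ᵁ V i) := fun i => π.app (V i) ((hw i).unit⁻¹ : Units _)
  have ha : ∀ i, IsUnit (a i) := fun i => (Units.isUnit _).map _
  let ψ' : ∀ i, SecHom L L' (π ⁻¹ᵁ V i) := fun i => SecHom.smul (a i) (ψ i)
  have hψ' : ∀ i, (ψ' i).IsBij := fun i => (hψ i).smul (ha i)
  have hrig : ∀ i (W : X.Opens) (hW : W ≤ π ⁻¹ᵁ V i) (s : Γ(L, W)),
      ev σ r' W ((ψ' i).app W hW s) = ev σ r W s := by
    intro i W hW s
    rw [SecHom.smul_app, ev_smul, app_resR_app π σ hσ, hwr i W hW s, ← mul_assoc, ← map_mul,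
      IsUnit.val_inv_mul, map_one, one_mul]
  -- agreement on overlaps
  have hagree : ∀ i j (W : X.Opens) (hi : W ≤ π ⁻¹ᵁ V i) (hj : W ≤ π ⁻¹ᵁ V j) (s : Γ(L, W)),
      (ψ' i).app W hi s = (ψ' j).app W hj s := by
    intro i j W hi hj s
    have hle₁ : π ⁻¹ᵁ (V i ⊓ V j) ≤ π ⁻¹ᵁ V i := π.preimage_mono inf_le_left
    have hle₂ : π ⁻¹ᵁ (V i ⊓ V j) ≤ π ⁻¹ᵁ V j := π.preimage_mono inf_le_right
    exact SecHom.eq_of_ev_eq hσ hΓ hr (V i ⊓ V j) ((ψ' i).restrict hle₁) ((ψ' j).restrict hle₂)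
      ((hψ' j).restrict hle₂) (fun W hW s => hrig i W (hW.trans hle₁) s)
      (fun W hW s => hrig j W (hW.trans hle₂) s) W (le_inf hi hj) s
  -- glue
  have hU : ⨆ i, π ⁻¹ᵁ V i = ⊤ := by
    rw [← Scheme.Hom.preimage_iSup, hV]; rfl
  let Ψ : helper4193.LocalHom L L' (fun i => π ⁻¹ᵁ V i) :=
    { app := fun W hW => (ψ' hW.choose).app W hW.choose_spec
      app_res := fun W W' hW hW' h s => by
        rw [(ψ' hW.choose).app_res W W' hW.choose_spec h s]
        exact hagree _ _ W' _ _ _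
      app_smul := fun W hW r s => (ψ' hW.choose).app_smul W hW.choose_spec r s }
  exact ⟨helper4193.glueIso hU Ψ fun W hW => hψ' hW.choose W hW.choose_spec⟩

end Rigid

section Converter

variable {X Y : Scheme.{u}} (g : Y ⟶ X) [IsOpenImmersion g] {M N : X.Modules}

lemma res_bijective_of_le_of_le (M : X.Modules) {A B : X.Opens} (h1 : A ≤ B) (h2 : B ≤ A) :
    Function.Bijective (res M h1) := by
  refine ⟨fun s t hst => ?_, fun s => ⟨res M h2 s, ?_⟩⟩
  · have := congrArg (res M h2) hst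
    simpa only [res_res, res_self] using this
  · simp only [res_res, res_self]

lemma le_image_preimage_of_le_opensRange {W : X.Opens} (hW : W ≤ g.opensRange) :
    W ≤ g ''ᵁ (g ⁻¹ᵁ W) := by
  rw [Scheme.Hom.image_preimage_eq_opensRange_inf]
  exact le_inf hW le_rfl

/-- The maps on sections induced by a morphism of restrictions, typed in the ambient scheme. -/
noncomputable def restrictApp (e : M.restrict g ⟶ N.restrict g) (U : Y.Opens) :
    Γ(M, g ''ᵁ U) →+ Γ(N, g ''ᵁ U) :=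
  (e.app U).hom

/-- A morphism of restrictions is linear for the module structure of the ambient scheme. -/
lemma restrictApp_smul (e : M.restrict g ⟶ N.restrict g) (U : Y.Opens)
    (r : Γ(X, g ''ᵁ U)) (t : Γ(M, g ''ᵁ U)) :
    restrictApp g e U (r • t) = r • restrictApp g e U t := by
  have h1 := Scheme.Modules.smul_restrictAppIso_inv_apply g M U r t
  have h2 := Scheme.Modules.smul_restrictAppIso_inv_apply g N U r (restrictApp g e U t)
  have h3 := Scheme.Modules.Hom.app_smul e ((g.appIso U).hom r) (show Γ(M.restrict g, U) from t)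
  exact (congrArg (e.app U).hom h1).trans (h3.trans h2.symm)

/-- A morphism of restrictions is compatible with the restriction maps of the ambient scheme. -/
lemma restrictApp_res (e : M.restrict g ⟶ N.restrict g) {U U' : Y.Opens} (h : U' ≤ U)
    (t : Γ(M, g ''ᵁ U)) :
    restrictApp g e U' (res M (g.image_mono h) t) =
      res N (g.image_mono h) (restrictApp g e U t) :=
  (hom_app_res e h (show Γ(M.restrict g, U) from t)).symm

lemma restrictApp_bijective (e : M.restrict g ⟶ N.restrict g) [IsIso e] (U : Y.Opens) :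
    Function.Bijective (restrictApp g e U) :=
  ConcreteCategory.bijective_of_isIso (e.app U)

/-- A morphism `M|_Y ⟶ N|_Y` between the restrictions along an open immersion `g : Y ⟶ X`,
viewed sectionwise on the opens of `X` contained in the range of `g`. -/
noncomputable def secHomOfRestrict (e : M.restrict g ⟶ N.restrict g) :
    SecHom M N g.opensRange where
  app W hW := (res N (le_image_preimage_of_le_opensRange g hW)).comp
    ((restrictApp g e (g ⁻¹ᵁ W)).comp (res M (g.image_preimage_le W)))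
  app_res W W' hW h s := by
    have hpre : g ⁻¹ᵁ W' ≤ g ⁻¹ᵁ W := g.preimage_mono h
    change res N h (res N _ (restrictApp g e (g ⁻¹ᵁ W) (res M _ s))) =
      res N _ (restrictApp g e (g ⁻¹ᵁ W') (res M _ (res M h s)))
    have := restrictApp_res g e hpre (res M (g.image_preimage_le W) s)
    rw [res_res] at this
    rw [res_res, res_res, this, res_res]
  app_smul W hW r s := by
    change res N _ (restrictApp g e (g ⁻¹ᵁ W) (res M _ (r • s))) =
      r • res N _ (restrictApp g e (g ⁻¹ᵁ W) (res M _ s))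
    rw [res_smul', restrictApp_smul, res_smul', resR_resR, resR_self]

lemma secHomOfRestrict_isBij (e : M.restrict g ⟶ N.restrict g) [IsIso e] :
    (secHomOfRestrict g e).IsBij := by
  intro W hW
  have h1 : Function.Bijective (res M (g.image_preimage_le W)) :=
    res_bijective_of_le_of_le M _ (le_image_preimage_of_le_opensRange g hW)
  have h2 : Function.Bijective (res N (le_image_preimage_of_le_opensRange g hW)) :=
    res_bijective_of_le_of_le N _ (g.image_preimage_le W)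
  exact h2.comp ((restrictApp_bijective g e _).comp h1)

/-- An isomorphism between the pullbacks of `M` and `N` along an open immersion `g` gives a
bijective sectionwise morphism on the range of `g`. -/
theorem exists_secHom_of_pullback_iso
    (e : (Scheme.Modules.pullback g).obj M ≅ (Scheme.Modules.pullback g).obj N) :
    ∃ ψ : SecHom M N g.opensRange, ψ.IsBij := by
  let e' : M.restrict g ≅ N.restrict g :=
    (Scheme.Modules.restrictFunctorIsoPullback g).app M ≪≫ e ≪≫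
      ((Scheme.Modules.restrictFunctorIsoPullback g).app N).symm
  exact ⟨secHomOfRestrict g e'.hom, secHomOfRestrict_isBij g e'.hom⟩

end Converter

section Trivialization

variable {X T : Scheme.{u}} (σ : T ⟶ X) (L : X.Modules)

/-- The coordinate morphism `L ⟶ j_* 𝒪_U` of a trivialization of `L` on an open `U`. -/
noncomputable def coordHom (U : X.Opens) (e : L.restrict U.ι ≅ OO U.toScheme) :
    L ⟶ (Scheme.Modules.pushforward U.ι).obj (OO U.toScheme) :=
  (Scheme.Modules.restrictAdjunction U.ι).homEquiv L (OO U.toScheme) e.hom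

lemma ev_coordHom (U : X.Opens) (e : L.restrict U.ι ≅ OO U.toScheme) (W : X.Opens)
    (s : Γ(L, W)) :
    ev U.ι (coordHom L U e) W s = (e.hom.app (U.ι ⁻¹ᵁ W)).hom (res L (U.ι.image_preimage_le W) s) :=
  rfl

lemma ev_coordHom_bijective (U : X.Opens) (e : L.restrict U.ι ≅ OO U.toScheme) {W : X.Opens}
    (hW : W ≤ U) : Function.Bijective (ev U.ι (coordHom L U e) W) := by
  have hW' : W ≤ U.ι.opensRange := by rw [Scheme.Opens.opensRange_ι]; exact hW
  have h1 : Function.Bijective (res L (U.ι.image_preimage_le W)) :=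
    res_bijective_of_le_of_le L _ (le_image_preimage_of_le_opensRange U.ι hW')
  have h2 : Function.Bijective (e.hom.app (U.ι ⁻¹ᵁ W)).hom :=
    ConcreteCategory.bijective_of_isIso (e.hom.app (U.ι ⁻¹ᵁ W))
  exact h2.comp h1

/-- A trivialization of `L` on `U` gives a generator of `L` on `U` with coordinate `1`. -/
lemma exists_isGen_of_trivialization (U : X.Opens) (e : L.restrict U.ι ≅ OO U.toScheme) :
    ∃ s : Γ(L, U), IsGen L U s ∧ ev U.ι (coordHom L U e) U s = 1 := by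
  obtain ⟨s, hs⟩ := (ev_coordHom_bijective L U e le_rfl).2 1
  refine ⟨s, fun W' h => ?_, hs⟩
  have hW' : W' ≤ U.ι.opensRange := by rw [Scheme.Opens.opensRange_ι]; exact h
  have hbij : Function.Bijective (U.ι.app W').hom :=
    haveI := U.ι.isIso_app W' hW'
    ConcreteCategory.bijective_of_isIso (U.ι.app W')
  have hcomp : (ev U.ι (coordHom L U e) W') ∘ (fun a : Γ(X, W') => a • res L h s) =
      (U.ι.app W').hom := by
    funext a
    simp only [Function.comp_apply]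
    rw [ev_smul, ev_res, hs, map_one, mul_one]
  have := hbij
  rw [← hcomp] at this
  exact (Function.Bijective.of_comp_iff' (ev_coordHom_bijective L U e h) _).mp this

lemma unit_presheaf_map_one {V : Scheme.{u}} {A B : V.Opens} (i : Opposite.op A ⟶ Opposite.op B) :
    ((OO V).presheaf.map i).hom (1 : Γ(V, A)) = (1 : Γ(V, B)) :=
  map_one (V.presheaf.map i).hom

lemma ev_one_smul {V T : Scheme.{u}} (j : V ⟶ T) (m : OO T ⟶ (Scheme.Modules.pushforward j).obj (OO V))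
    (V' : T.Opens) (a : Γ(T, V')) :
    ev j m V' (show Γ(OO T, V') from a) =
      j.app V' a * ev j m V' (show Γ(OO T, V') from (1 : Γ(T, V'))) := by
  have h := ev_smul j m V' a (show Γ(OO T, V') from (1 : Γ(T, V')))
  have h1 : a • (show Γ(OO T, V') from (1 : Γ(T, V'))) = (show Γ(OO T, V') from a) :=
    mul_one a
  rw [h1] at h
  exact h

/-- **Key lemma (E1).** Let `ρ : σ^* L ≅ 𝒪_T` be a rigidification and `r : L ⟶ σ_* 𝒪_T` its
transpose. If `L` is trivialized on the open `U`, the generator `s` of `L` on `U` with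
coordinate `1` has evaluation `r(s)` a unit of `Γ(T, σ⁻¹U)`. -/
theorem isUnit_ev_of_trivialization (ρ : (Scheme.Modules.pullback σ).obj L ≅ OO T)
    (U : X.Opens) (e : L.restrict U.ι ≅ OO U.toScheme) (s : Γ(L, U))
    (hs : ev U.ι (coordHom L U e) U s = 1) :
    IsUnit (ev σ ((Scheme.Modules.pullbackPushforwardAdjunction σ).homEquiv L (OO T) ρ.hom)
      U s) := by
  set r := (Scheme.Modules.pullbackPushforwardAdjunction σ).homEquiv L (OO T) ρ.hom with hr
  let V : T.Opens := σ ⁻¹ᵁ U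
  let σU : V.toScheme ⟶ U.toScheme := σ ∣_ U
  let θ : OO U.toScheme ⟶ (Scheme.Modules.pushforward σU).obj (OO V.toScheme) :=
    SheafOfModules.unitToPushforwardObjUnit σU.toRingCatSheafHom
  let Q : T.Modules := (Scheme.Modules.pushforward V.ι).obj (OO V.toScheme)
  let Φ : L ⟶ (Scheme.Modules.pushforward σ).obj Q :=
    coordHom L U e ≫ (Scheme.Modules.pushforward U.ι).map θ ≫
      (Scheme.Modules.pushforwardComp σU U.ι).hom.app (OO V.toScheme) ≫
      (Scheme.Modules.pushforwardCongr (morphismRestrict_ι σ U)).hom.app (OO V.toScheme) ≫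
      (Scheme.Modules.pushforwardComp V.ι σ).inv.app (OO V.toScheme)
  let m : OO T ⟶ Q :=
    ρ.inv ≫ ((Scheme.Modules.pullbackPushforwardAdjunction σ).homEquiv L Q).symm Φ
  have hfac : r ≫ (Scheme.Modules.pushforward σ).map m = Φ := by
    rw [hr, ← Adjunction.homEquiv_naturality_right]
    simp only [m, Iso.hom_inv_id_assoc, Equiv.apply_symm_apply]
  have h1 : (Φ.app U).hom s = ev V.ι m (σ ⁻¹ᵁ U) (ev σ r U s) := by
    rw [← hfac]; rfl
  have h2 : (Φ.app U).hom s = (1 : Γ(V.toScheme, V.ι ⁻¹ᵁ (σ ⁻¹ᵁ U))) := by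
    have h3 : (Φ.app U).hom s =
        ((OO V.toScheme).presheaf.map (eqToHom (show V.ι ⁻¹ᵁ (σ ⁻¹ᵁ U) = σU ⁻¹ᵁ (U.ι ⁻¹ᵁ U) by
          change (V.ι ≫ σ) ⁻¹ᵁ U = (σU ≫ U.ι) ⁻¹ᵁ U
          rw [morphismRestrict_ι])).op).hom
          ((θ.app (U.ι ⁻¹ᵁ U)).hom (ev U.ι (coordHom L U e) U s)) := rfl
    rw [h3, hs]
    have h4 : (θ.app (U.ι ⁻¹ᵁ U)).hom (1 : Γ(U.toScheme, U.ι ⁻¹ᵁ U)) =
        (1 : Γ(V.toScheme, σU ⁻¹ᵁ (U.ι ⁻¹ᵁ U))) := map_one (σU.app (U.ι ⁻¹ᵁ U)).hom
    rw [h4]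
    exact unit_presheaf_map_one _
  rw [h2, ev_one_smul] at h1
  -- `V.ι^♯ (r s) * μ = 1` and `V.ι^♯` is bijective
  have hbij : Function.Bijective (V.ι.app (σ ⁻¹ᵁ U)).hom :=
    haveI := V.ι.isIso_app (σ ⁻¹ᵁ U) (by rw [Scheme.Opens.opensRange_ι])
    ConcreteCategory.bijective_of_isIso (V.ι.app (σ ⁻¹ᵁ U))
  obtain ⟨ν, hν⟩ := hbij.2 (ev V.ι m (σ ⁻¹ᵁ U)
    (show Γ(OO T, σ ⁻¹ᵁ U) from (1 : Γ(T, σ ⁻¹ᵁ U))))
  refine IsUnit.of_mul_eq_one ν (hbij.1 ?_)
  rw [map_mul, hν, map_one]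
  exact h1.symm

end Trivialization

section GoodGenOfIso

variable {X T : Scheme.{u}} (σ : T ⟶ X) (L : X.Modules)

/-- **Rigidifications are rigidifying.** If `L` is locally trivial (in the sense of the
restriction/pullback to opens) and `ρ : σ^* L ≅ 𝒪_T`, then the transpose `L ⟶ σ_* 𝒪_T` of `ρ`
sends local generators to units. -/
theorem goodGen_of_iso
    (hL : ∀ x : X, ∃ U : X.Opens, x ∈ U ∧
      Nonempty ((Scheme.Modules.pullback U.ι).obj L ≅ OO U.toScheme))
    (ρ : (Scheme.Modules.pullback σ).obj L ≅ OO T) :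
    GoodGen σ ((Scheme.Modules.pullbackPushforwardAdjunction σ).homEquiv L (OO T) ρ.hom) := by
  intro x
  obtain ⟨U, hxU, ⟨e⟩⟩ := hL x
  let e' : L.restrict U.ι ≅ OO U.toScheme :=
    (Scheme.Modules.restrictFunctorIsoPullback U.ι).app L ≪≫ e
  obtain ⟨s, hgen, hs⟩ := exists_isGen_of_trivialization L U e'
  exact ⟨U, hxU, s, hgen, isUnit_ev_of_trivialization σ L ρ U e' s hs⟩

end GoodGenOfIso

end Fermat.Agent.S25.helper9610
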