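import Fermat.Agent.S25.helper1705_Spec2
import Fermat.Agent.S25.helper9610_SecTools
import Fermat.Agent.S25.helper9610_GammaProd

/-!
# `Stmt_LocIso` (S25, leaf L0-LOCISO, helper9610)

Separatedness of the rigidified Picard functor of the curve for the Zariski topology:
two rigidified line bundles on `C ×ₖ T` that are isomorphic over every member of an open cover
of `T` are isomorphic.

* `locIso_of_surjective_app` : for any base ring `R`, any `c : C ⟶ Spec R` and any section `ε`,
  `LocIso c ε` holds as soon as every function on `pr₂⁻¹ V ⊆ C ×_R T` comes from `V ⊆ T`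
  (for all `R`-schemes `T` and all opens `V`).
* `stmt_LocIso : helper1705.Stmt_LocIso` : the curve case, by `helper9610_GammaProd`.

The proof never restricts a rigidification to an overlap (no pseudofunctor coherence): the
rigidifications are transposed once to morphisms `L ⟶ σ_* 𝒪_T` and everything else happens on
sections over opens, see `helper9610_SecTools`.
-/

set_option autoImplicit false
universe u
open CategoryTheory CategoryTheory.Limits AlgebraicGeometry AlgebraicGeometry.RelPicard
  NeronModelInfra TopologicalSpace

namespace Fermat.Agent.S25.helper9610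

section BaseChange

variable {R : Type u} [CommRing R] {C T T' : Scheme.{u}} (c : C ⟶ Spec (CommRingCat.of R))
  (t : T ⟶ Spec (CommRingCat.of R)) (f : T' ⟶ T)

/-- `baseChangeSnd c ⟨f, rfl⟩ : C ×_R T' ⟶ C ×_R T` is the base change of `f : T' ⟶ T` along the
second projection. -/
lemma isPullback_baseChangeSnd :
    IsPullback (baseChangeSnd c (⟨f, rfl⟩ : SchemeHomOver (f ≫ t) t)) (pullback.snd c (f ≫ t))
      (pullback.snd c t) f := by
  have hfst : baseChangeSnd c (⟨f, rfl⟩ : SchemeHomOver (f ≫ t) t) ≫ pullback.fst c t =
      pullback.fst c (f ≫ t) := by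
    simp only [baseChangeSnd, pullback.lift_fst, Category.comp_id]
  have hsnd : baseChangeSnd c (⟨f, rfl⟩ : SchemeHomOver (f ≫ t) t) ≫ pullback.snd c t =
      pullback.snd c (f ≫ t) ≫ f := by
    simp only [baseChangeSnd, pullback.lift_snd]
  refine IsPullback.of_right ?_ hsnd (IsPullback.of_hasPullback c t)
  rw [hfst]
  exact IsPullback.of_hasPullback c (f ≫ t)

lemma isOpenImmersion_baseChangeSnd [IsOpenImmersion f] :
    IsOpenImmersion (baseChangeSnd c (⟨f, rfl⟩ : SchemeHomOver (f ≫ t) t)) :=
  MorphismProperty.of_isPullback (P := @IsOpenImmersion) (isPullback_baseChangeSnd c t f).flip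
    inferInstance

lemma preimage_opensRange_le_opensRange_baseChangeSnd [IsOpenImmersion f] :
    haveI := isOpenImmersion_baseChangeSnd c t f
    (pullback.snd c t) ⁻¹ᵁ f.opensRange ≤
      (baseChangeSnd c (⟨f, rfl⟩ : SchemeHomOver (f ≫ t) t)).opensRange := by
  intro x hx
  obtain ⟨y, hy⟩ := hx
  obtain ⟨p, hp, -⟩ :=
    Scheme.exists_preimage_of_isPullback (isPullback_baseChangeSnd c t f) x y hy.symm
  exact ⟨p, hp⟩

end BaseChange

section Main

variable {R : Type u} [CommRing R] {C : Scheme.{u}} (c : C ⟶ Spec (CommRingCat.of R))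
  (ε : SchemeHomOver (𝟙 (Spec (CommRingCat.of R))) c)

/-- **`LocIso` from global sections.** If for every `R`-scheme `T` and every open `V ⊆ T` every
function on `pr₂⁻¹ V ⊆ C ×_R T` is pulled back from `V`, then rigidified line bundles on
`C ×_R T` that are isomorphic locally on `T` are isomorphic. -/
theorem locIso_of_surjective_app
    (hΓ : ∀ {T : Scheme.{u}} (t : T ⟶ Spec (CommRingCat.of R)) (V : T.Opens),
      Function.Surjective ((pullback.snd c t).app V).hom) :
    helper1705.LocIso c ε := by
  intro T t M M' 𝒰 h
  have hσ : rigSection c t ε ≫ pullback.snd c t = 𝟙 T := by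
    simp only [rigSection, pullback.lift_snd]
  obtain ⟨ρ⟩ := M.rigidified
  obtain ⟨ρ'⟩ := M'.rigidified
  have hr := goodGen_of_iso (rigSection c t ε) M.L M.isInvertible.exists_trivialization ρ
  have hr' := goodGen_of_iso (rigSection c t ε) M'.L M'.isInvertible.exists_trivialization ρ'
  have e := fun i => (h i).some
  have hex := fun i =>
    haveI := isOpenImmersion_baseChangeSnd c t (𝒰.f i)
    exists_secHom_of_pullback_iso
      (baseChangeSnd c (⟨𝒰.f i, rfl⟩ : SchemeHomOver (𝒰.f i ≫ t) t)) (e i)
  exact nonempty_iso_of_secHom (π := pullback.snd c t) (σ := rigSection c t ε) hσ (hΓ t) hr hr'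
    (fun i => (𝒰.f i).opensRange) 𝒰.iSup_opensRange
    (fun i => (hex i).choose.restrict
      (preimage_opensRange_le_opensRange_baseChangeSnd c t (𝒰.f i)))
    (fun i => ((hex i).choose_spec).restrict
      (preimage_opensRange_le_opensRange_baseChangeSnd c t (𝒰.f i)))

end Main

/-- **`Stmt_LocIso`** for the curve of S25. -/
theorem stmt_LocIso : helper1705.Stmt_LocIso.{u} := by
  intro k _ C c hc ε
  have := hc.algClosed
  have := hc.proper
  have := hc.integral
  exact @locIso_of_surjective_app k _ C c ε
    (fun t V => (bijective_app_snd_of_isProper k c t V).2)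

end Fermat.Agent.S25.helper9610
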