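import Fermat.Agent.S25.helper69_ChartGlue
import Fermat.Agent.S25.helper622_PointTwist
import Fermat.Agent.S25.helper8663_PointDecompCurve
import Fermat.Agent.S25.helper7973_PointFactor

/-!
# S25, step S-PEEL of the point decomposition U9a (helper9692)

`k` algebraically closed, `D : CurveDatum k`.

* `exists_mor_twList` : for every `k`-algebra `B`, datum `N` over `B` and list `L` of `B`-points
  of the first chart, the composite of the inclusions `N(-P₁ - ⋯ - P_d) → N` is a morphism,
  surjective modulo `y`, whose colon ideal is the product of the graph ideals of the points.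
* `equiv_twList_iff` / `peel` : over an algebraically closed field `K ⊇ k`, a morphism
  `τ : G → N` which is surjective modulo `y` exhibits `G` as the iterated point twist
  `N(-P₁ - ⋯ - P_d)` with `d = dim_K (N.M₀ / τ₀ G.M₀)` points.

Route: `helper69.chart_of_mor` (`G ≈ N(-D_I)` for the colon ideal `I`), the decomposition of `I`
into point ideals (`helper8663`), and `helper69.equiv_twist_iff` applied to the composite of the
point-twist inclusions.
-/

set_option autoImplicit false

universe u

open TensorProduct Fermat.Agent.S25.helper1705 Fermat.Agent.S25.helper2945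

namespace Fermat.Agent.S25.helper9692

open Fermat.Agent.S25

section Comp

variable {k : Type u} [Field k] {D : CurveDatum k} {B : Type u} [CommRing B] [Algebra k B]

/-- Surjectivity modulo `y` is stable under composition. -/
theorem surjModY_comp {G G' G'' : GlueDatum D B} (g : helper8573.Mor G' G'')
    (f : helper8573.Mor G G') (hg : g.SurjModY) (hf : f.SurjModY) : (g.comp f).SurjModY := by
  intro n
  obtain ⟨m', n₁, hn⟩ := hg n
  obtain ⟨m, m'', hm⟩ := hf m'
  refine ⟨m, g.f₁ m'' + n₁, ?_⟩
  change n = g.f₁ (f.f₁ m) + yB D B • (g.f₁ m'' + n₁)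
  rw [hn, hm, map_add, map_smul, smul_add]
  abel

/-- The identity morphism. -/
def morId (G : GlueDatum D B) : helper8573.Mor G G where
  f₀ := LinearMap.id
  f₁ := LinearMap.id
  f₀₁ := LinearMap.id
  comm₀ := fun _ => rfl
  comm₁ := fun _ => rfl

theorem surjModY_morId (G : GlueDatum D B) : (morId G).SurjModY :=
  fun n => ⟨n, 0, by simp [morId]⟩

end Comp

section TwList

variable {k : Type u} [Field k] [IsAlgClosed k] {D : CurveDatum k} {B : Type u} [CommRing B]
  [Algebra k B]

/-- The composite of the inclusions `N(-P₁ - ⋯ - P_d) → N` of an iterated point twist: it is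
surjective modulo `y` and its colon ideal is the product of the graph ideals of the points. -/
theorem exists_mor_twList (L : List (D.R₀ →ₐ[k] B)) :
    ∀ N : GlueDatum D B, ∃ σ : helper8573.Mor ((helper622.pointTwist D).twList N L) N,
      σ.SurjModY ∧ (LinearMap.range σ.f₀).colon (Set.univ : Set N.M₀) =
        (L.map (helper6871.pointIdeal₀ D)).prod := by
  induction L with
  | nil =>
    intro N
    change ∃ σ : helper8573.Mor N N, σ.SurjModY ∧
      (LinearMap.range σ.f₀).colon (Set.univ : Set N.M₀) =
        (([] : List (D.R₀ →ₐ[k] B)).map (helper6871.pointIdeal₀ D)).prod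
    refine ⟨morId N, surjModY_morId N, ?_⟩
    have h1 : LinearMap.range (morId N).f₀ = ⊤ := LinearMap.range_id
    rw [h1, List.map_nil, List.prod_nil, Ideal.one_eq_top]
    rw [← Submodule.top_smul (⊤ : Submodule (D.A₀ B) N.M₀)]
    exact helper69.colon_ideal_smul_top (N := N.M₀) (⊤ : Ideal (D.A₀ B))
  | cons p L ih =>
    intro N
    change ∃ σ : helper8573.Mor ((helper622.pointTwist D).twList (helper622.tw₀ N p) L) N,
      σ.SurjModY ∧ (LinearMap.range σ.f₀).colon (Set.univ : Set N.M₀) =
        ((p :: L).map (helper6871.pointIdeal₀ D)).prod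
    obtain ⟨σ', hσ', hcol⟩ := ih (helper622.tw₀ N p)
    have hinvp := helper622.invertible_pointIdeal₀ (D := D) p
    refine ⟨(helper622.tw₀Incl N p).comp σ', surjModY_comp _ _ ?_ hσ', ?_⟩
    · exact helper622.surjModY_twist₀Incl N (helper6871.pointIdeal₀ D p)
    · have hr' : LinearMap.range σ'.f₀ =
          (L.map (helper6871.pointIdeal₀ D)).prod •
            (⊤ : Submodule (D.A₀ B) (helper622.tw₀ N p).M₀) := by
        rw [← hcol]
        exact (helper69.colon_smul_top _).symm
      have hr : LinearMap.range ((helper622.tw₀Incl N p).comp σ').f₀ =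
          ((L.map (helper6871.pointIdeal₀ D)).prod * helper6871.pointIdeal₀ D p) •
            (⊤ : Submodule (D.A₀ B) N.M₀) := by
        change LinearMap.range ((helper622.tw₀Incl N p).f₀ ∘ₗ σ'.f₀) = _
        rw [LinearMap.range_comp, hr', Submodule.map_smul'', Submodule.map_top,
          helper622.range_tw₀Incl_f₀, Submodule.mul_smul]
      rw [hr, helper69.colon_ideal_smul_top, List.map_cons, List.prod_cons, mul_comm]

end TwList

section Peel

variable {k : Type u} [Field k] [IsAlgClosed k] {D : CurveDatum k}
  {K : Type u} [Field K] [IsAlgClosed K] [Algebra k K]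

/-- **S-PEEL, without the nonvanishing hypothesis.** Over an algebraically closed field `K ⊇ k`,
a morphism `τ : G → N` of two-chart line bundles which is surjective modulo `y` on the chart at
infinity exhibits `G` as an iterated point twist of `N` by exactly
`finrank K (N.M₀ ⧸ range τ.f₀)` `K`-points of the first chart. -/
theorem peel' (G N : GlueDatum D K) (τ : helper8573.Mor G N) (hy : τ.SurjModY) :
    ∃ L : List (D.R₀ →ₐ[k] K), L.length = Module.finrank K (N.M₀ ⧸ LinearMap.range τ.f₀) ∧
      G.Equiv ((helper622.pointTwist D).twList N L) := by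
  obtain ⟨I, hIinv, hI₁inv, h, -, hIfin, -, -, -, h₀, -, hu, he⟩ := helper69.chart_of_mor τ hy
  obtain ⟨L, hL, hprod⟩ := helper8663.exists_list_pointIdeal₀_prod_eq D I
  obtain ⟨σ, hσ, hcolon⟩ := exists_mor_twList L N
  refine ⟨L, ?_, he.trans
    ((helper69.equiv_twist_iff _ N I h hu).mpr ⟨σ, hσ, hcolon.trans hprod⟩).symm⟩
  rw [hL, ← (helper7973.finite_and_finrank_quotient_smul_top (K := K) (A := D.A₀ K) N.M₀ I).2]
  exact ((Submodule.quotEquivOfEq _ _ h₀).restrictScalars K).finrank_eq.symm

/-- **S-PEEL** in the shape of the LC5 integration plan. -/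
theorem peel (G N : GlueDatum D K) (τ : helper8573.Mor G N) (_h0 : τ.f₀ ≠ 0)
    (hy : τ.SurjModY) :
    ∃ L : List (D.R₀ →ₐ[k] K), L.length = Module.finrank K (N.M₀ ⧸ LinearMap.range τ.f₀) ∧
      G.Equiv ((helper622.pointTwist D).twList N L) :=
  peel' G N τ hy

end Peel

end Fermat.Agent.S25.helper9692
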