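import Fermat.Agent.S25.helper9692_PointFactor
import Fermat.Agent.S25.helper5597_DivisorIdealCurve
import Fermat.Agent.S25.helper7530_PointIdeals

/-!
# S25, sub-leaf U9a-FACT, curve form (helper9692)

`D : CurveDatum k` (`k` algebraically closed), `K` an algebraically closed field over `k`.
Every ideal `I` of `D.A₀ K = R₀ ⊗ K` with finite-dimensional quotient is the product of exactly
`finrank K (A₀ K ⧸ I)` graph ideals `helper7530.ptIdeal (P i)` of `K`-points
`P i : D.R₀ →ₐ[k] K` of the first chart (`exists_points_prod_eq₀`), and its chart-at-infinity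
ideal `helper622.atInfty` is the product of the `helper7530.ptIdealOpp (P i)`
(`atInfty_prod_ptIdeal₀`, valid over every `k`-algebra `B`). Same statements for the chart at
infinity with the charts swapped (`…₁`).
-/

set_option autoImplicit false

universe u

open TensorProduct Fermat.Agent.S25.helper1705 Fermat.Agent.S25.helper2945

namespace Fermat.Agent.S25.helper9692

open Fermat.Agent.S25

section Points

variable {k : Type u} [Field k] (D : CurveDatum k) {B : Type u} [CommRing B] [Algebra k B]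

/-- A `B`-algebra point `q` of `D.A₀ B` is evaluation at the `B`-point `q ∘ (r ↦ r ⊗ 1)`. -/
theorem evT_eq_of_algHom₀ (q : D.A₀ B →ₐ[B] B) (z : D.A₀ B) :
    helper7530.evT ((q.restrictScalars k).comp
      (Algebra.TensorProduct.includeLeft : D.R₀ →ₐ[k] D.R₀ ⊗[k] B)) z = q z := by
  induction z using TensorProduct.induction_on with
  | zero => simp
  | tmul a b =>
    have h1 : (a ⊗ₜ[k] b : D.A₀ B) = (a ⊗ₜ[k] (1 : B)) * algebraMap B (D.A₀ B) b := by
      rw [algebraMap_B_A₀, Algebra.TensorProduct.tmul_mul_tmul, mul_one, one_mul]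
    rw [helper7530.evT_tmul, h1, map_mul, AlgHom.commutes]
    rfl
  | add z₁ z₂ h₁ h₂ => rw [map_add, map_add, h₁, h₂]

/-- The kernel of a `B`-algebra point of `D.A₀ B` is a graph ideal. -/
theorem exists_ker_eq_ptIdeal₀ (q : D.A₀ B →ₐ[B] B) :
    ∃ p : D.R₀ →ₐ[k] B, RingHom.ker q = helper7530.ptIdeal p := by
  refine ⟨(q.restrictScalars k).comp Algebra.TensorProduct.includeLeft, ?_⟩
  ext z
  rw [RingHom.mem_ker, helper7530.mem_ptIdeal, evT_eq_of_algHom₀]

/-- Same for the chart at infinity. -/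
theorem evT_eq_of_algHom₁ (q : D.A₁ B →ₐ[B] B) (z : D.A₁ B) :
    helper7530.evT ((q.restrictScalars k).comp
      (Algebra.TensorProduct.includeLeft : D.R₁ →ₐ[k] D.R₁ ⊗[k] B)) z = q z := by
  induction z using TensorProduct.induction_on with
  | zero => simp
  | tmul a b =>
    have h1 : (a ⊗ₜ[k] b : D.A₁ B) = (a ⊗ₜ[k] (1 : B)) * algebraMap B (D.A₁ B) b := by
      rw [algebraMap_B_A₁, Algebra.TensorProduct.tmul_mul_tmul, mul_one, one_mul]
    rw [helper7530.evT_tmul, h1, map_mul, AlgHom.commutes]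
    rfl
  | add z₁ z₂ h₁ h₂ => rw [map_add, map_add, h₁, h₂]

theorem exists_ker_eq_ptIdeal₁ (q : D.A₁ B →ₐ[B] B) :
    ∃ p : D.R₁ →ₐ[k] B, RingHom.ker q = helper7530.ptIdeal p := by
  refine ⟨(q.restrictScalars k).comp Algebra.TensorProduct.includeLeft, ?_⟩
  ext z
  rw [RingHom.mem_ker, helper7530.mem_ptIdeal, evT_eq_of_algHom₁]

/-- Evaluation at a `B`-point of the first chart, as a `B`-algebra map. -/
noncomputable def evB₀ (p : D.R₀ →ₐ[k] B) : D.A₀ B →ₐ[B] B :=
  { (helper7530.evT p : D.A₀ B →+* B) with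
    commutes' := fun b => by
      change helper7530.evT p (algebraMap B (D.A₀ B) b) = b
      rw [algebraMap_B_A₀, helper7530.evT_tmul, map_one, one_mul] }

theorem evB₀_apply (p : D.R₀ →ₐ[k] B) (z : D.A₀ B) : evB₀ D p z = helper7530.evT p z := rfl

theorem ker_evB₀ (p : D.R₀ →ₐ[k] B) : RingHom.ker (evB₀ D p) = helper7530.ptIdeal p := rfl

/-- Evaluation at a `B`-point of the chart at infinity, as a `B`-algebra map. -/
noncomputable def evB₁ (p : D.R₁ →ₐ[k] B) : D.A₁ B →ₐ[B] B :=
  { (helper7530.evT p : D.A₁ B →+* B) with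
    commutes' := fun b => by
      change helper7530.evT p (algebraMap B (D.A₁ B) b) = b
      rw [algebraMap_B_A₁, helper7530.evT_tmul, map_one, one_mul] }

theorem evB₁_apply (p : D.R₁ →ₐ[k] B) (z : D.A₁ B) : evB₁ D p z = helper7530.evT p z := rfl

theorem ker_evB₁ (p : D.R₁ →ₐ[k] B) : RingHom.ker (evB₁ D p) = helper7530.ptIdeal p := rfl

end Points

section Factor

variable {k : Type u} [Field k] [IsAlgClosed k] (D : CurveDatum k)
  {K : Type u} [Field K] [IsAlgClosed K] [Algebra k K]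

/-- (F4) **Factorisation into points, first chart.** Over an algebraically closed field `K ⊇ k`,
an ideal `I` of `D.A₀ K` with finite-dimensional quotient is the product of exactly
`finrank K (D.A₀ K ⧸ I)` graph ideals of `K`-points of the first chart. -/
theorem exists_points_prod_eq₀ (I : Ideal (D.A₀ K)) [Module.Finite K (D.A₀ K ⧸ I)] :
    ∃ P : Fin (Module.finrank K (D.A₀ K ⧸ I)) → (D.R₀ →ₐ[k] K),
      I = ∏ i, helper7530.ptIdeal (P i) := by
  obtain ⟨Q, hQ⟩ := exists_points_prod_eq (K := K) (A := D.A₀ K)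
    (fun J _ => helper5597.ideal_invertible₀ D J) I
  choose P hP using fun i => exists_ker_eq_ptIdeal₀ D (Q i)
  exact ⟨P, hQ.trans (Finset.prod_congr rfl fun i _ => hP i)⟩

/-- (F4) **Factorisation into points, chart at infinity.** -/
theorem exists_points_prod_eq₁ (I : Ideal (D.A₁ K)) [Module.Finite K (D.A₁ K ⧸ I)] :
    ∃ P : Fin (Module.finrank K (D.A₁ K ⧸ I)) → (D.R₁ →ₐ[k] K),
      I = ∏ i, helper7530.ptIdeal (P i) := by
  obtain ⟨Q, hQ⟩ := exists_points_prod_eq (K := K) (A := D.A₁ K)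
    (fun J _ => helper5597.ideal_invertible₁ D J) I
  choose P hP using fun i => exists_ker_eq_ptIdeal₁ D (Q i)
  exact ⟨P, hQ.trans (Finset.prod_congr rfl fun i _ => hP i)⟩

end Factor

section Count

variable {k : Type u} [Field k] [IsAlgClosed k] (D : CurveDatum k)
  {K : Type u} [Field K] [Algebra k K]

/-- A product of `d` graph ideals of `K`-points of the first chart has colength exactly `d`
(`K` any field over `k`). -/
theorem finrank_quotient_prod_ptIdeal₀ {d : ℕ} (P : Fin d → (D.R₀ →ₐ[k] K)) :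
    Module.Finite K (D.A₀ K ⧸ ∏ i, helper7530.ptIdeal (P i)) ∧
      Module.finrank K (D.A₀ K ⧸ ∏ i, helper7530.ptIdeal (P i)) = d :=
  finrank_quotient_prod_ker (K := K) (A := D.A₀ K)
    (fun J _ => helper5597.ideal_invertible₀ D J) d (fun i => evB₀ D (P i))

/-- Same for the chart at infinity. -/
theorem finrank_quotient_prod_ptIdeal₁ {d : ℕ} (P : Fin d → (D.R₁ →ₐ[k] K)) :
    Module.Finite K (D.A₁ K ⧸ ∏ i, helper7530.ptIdeal (P i)) ∧
      Module.finrank K (D.A₁ K ⧸ ∏ i, helper7530.ptIdeal (P i)) = d :=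
  finrank_quotient_prod_ker (K := K) (A := D.A₁ K)
    (fun J _ => helper5597.ideal_invertible₁ D J) d (fun i => evB₁ D (P i))

end Count

section AtInfty

variable {k : Type u} [Field k] (D : CurveDatum k) (B : Type u) [CommRing B] [Algebra k B]

/-- The chart-at-infinity ideal of the graph of a point of the first chart, in the vocabulary of
`helper622` and of `helper7530`, is the same ideal. -/
theorem atInfty_ptIdeal₀ (p : D.R₀ →ₐ[k] B) :
    helper622.atInfty (D.A₁ B) (D.A₀₁ B) (helper7530.ptIdeal p) =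
      helper7530.ptIdealOpp D.R₁ D.R₀₁ p :=
  rfl

/-- The graph of a point of the first chart does not meet `V(y)`. -/
theorem exists_mem_atInfty_ptIdeal₀ (p : D.R₀ →ₐ[k] B) :
    ∃ u ∈ helper622.atInfty (D.A₁ B) (D.A₀₁ B) (helper7530.ptIdeal p),
      u - 1 ∈ Ideal.span {yB D B} := by
  refine ⟨1 - (D.y ⊗ₜ[k] (1 : B)) * (1 ⊗ₜ[k] p D.x),
    helper7530.one_sub_mem_ptIdealOpp D.x D.y D.xy p, ?_⟩
  have : (1 - (D.y ⊗ₜ[k] (1 : B)) * (1 ⊗ₜ[k] p D.x) - 1 : D.A₁ B) =
      yB D B * (-(1 ⊗ₜ[k] p D.x)) := by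
    rw [yB]; ring
  rw [this]
  exact Ideal.mul_mem_right _ _ (Ideal.mem_span_singleton_self _)

/-- (F5, curve form) The chart-at-infinity ideal of a product of graph ideals of points of the
first chart is the product of their chart-at-infinity ideals; valid over every `k`-algebra `B`. -/
theorem atInfty_prod_ptIdeal₀ {d : ℕ} (P : Fin d → (D.R₀ →ₐ[k] B)) :
    helper622.atInfty (D.A₁ B) (D.A₀₁ B) (∏ i, helper7530.ptIdeal (P i)) =
      ∏ i, helper7530.ptIdealOpp D.R₁ D.R₀₁ (P i) :=
  (atInfty_prod (A₁ := D.A₁ B) (A₀₁ := D.A₀₁ B) (yB D B) Finset.univ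
    (fun i => helper7530.ptIdeal (P i)) fun i _ => exists_mem_atInfty_ptIdeal₀ D B (P i)).1

/-- The product of graph ideals of points of the first chart does not meet `V(y)`. -/
theorem exists_mem_atInfty_prod_ptIdeal₀ {d : ℕ} (P : Fin d → (D.R₀ →ₐ[k] B)) :
    ∃ u ∈ helper622.atInfty (D.A₁ B) (D.A₀₁ B) (∏ i, helper7530.ptIdeal (P i)),
      u - 1 ∈ Ideal.span {yB D B} :=
  (atInfty_prod (A₁ := D.A₁ B) (A₀₁ := D.A₀₁ B) (yB D B) Finset.univ
    (fun i => helper7530.ptIdeal (P i)) fun i _ => exists_mem_atInfty_ptIdeal₀ D B (P i)).2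

end AtInfty

end Fermat.Agent.S25.helper9692
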