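import Fermat.Agent.S25.helper985_LGSpec
import Fermat.Agent.S25.helper7579_AffineReduction
import Fermat.Agent.S25.helper7343_QcptSurj
import Fermat.Agent.S25.helper2317_SmoothWiring
import Fermat.Agent.S25.helper665_SepWiring
import Fermat.Agent.S25.helper3788_UCWiring
import Fermat.Agent.S25.helper8183_GC

/-!
# S25, layer G: assembly (sub-architect helper985)

The four property statements of `helper1705_Spec` from the four frozen-vocabulary statements of
`helper985_LGSpec`:

* `stmt_QC_of_bounded`   : `Stmt_Bounded → Stmt_QC`                         (W-QC)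
* `lg_of_frozen`         : `Stmt_LiftSqZero → Stmt_ValUniq → Stmt_Bounded → Stmt_ValExistAC →
                            Stmt_Smooth ∧ Stmt_Sep ∧ Stmt_UC ∧ Stmt_GC`

using the landed wirings `helper2317_SmoothWiring` (W-SMOOTH), `helper665_SepWiring` (W-SEP),
`helper3788_UCWiring` (W-UC) and `helper8183_GC` (GC, unconditional).
-/

set_option autoImplicit false

universe u

open CategoryTheory CategoryTheory.Limits AlgebraicGeometry AlgebraicGeometry.RelPicard
  NeronModelInfra GoodReductionJacobian

namespace Fermat.Agent.S25.helper985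

open Fermat.Agent.S25.helper1705

/-- **W-QC.** One affine family through which every geometric point of the functor factors
makes any representing scheme quasi-compact. -/
theorem stmt_QC_of_bounded (h : Stmt_Bounded.{u}) : Stmt_QC.{u} := by
  intro k _ C c hc ε D hD
  obtain ⟨hrep⟩ := hD
  obtain ⟨B₀, _, _, M₀, hM₀, hall⟩ := h k c hc ε
  let g₀ : SchemeHomOver (specStr k B₀) D.toBase := hrep.classify (specStr k B₀) M₀ hM₀
  obtain ⟨e₀⟩ := hrep.classify_spec (specStr k B₀) M₀ hM₀
  have hsurj : Surjective g₀.1 := by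
    refine helper7343.surjective_of_geometric_points' g₀.1 fun K _ _ s => ?_
    obtain ⟨ψ, hψ⟩ := Spec.map_surjective (s ≫ D.toBase)
    let _ : Algebra k K := ψ.hom.toAlgebra
    have hs : s ≫ D.toBase = specStr k K := hψ.symm
    let sK : SchemeHomOver (specStr k K) D.toBase := ⟨s, hs⟩
    have hM : FibrewiseAlgEquivZero (hrep.poincare.pullbackAlong sK) :=
      (algEquivZeroCut c ε).pullback_mem _ _ sK _ hrep.poincare_mem
    obtain ⟨φ, ⟨e⟩⟩ := hall K (hrep.poincare.pullbackAlong sK) hM
    refine ⟨(specHomOver φ).1, ?_⟩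
    have key : postComp g₀ (specHomOver φ) = sK :=
      hrep.ext_of_iso _ _ _
        ⟨(helper7579.pullbackAlongCompIso hrep.poincare g₀ (specHomOver φ)).symm ≪≫
          (Scheme.Modules.pullback (baseChangeSnd c (specHomOver φ))).mapIso e₀ ≪≫ e⟩
    exact congrArg Subtype.val key
  exact helper7343.quasiCompact_of_surjective_of_compactSpace g₀.1 D.toBase

/-- **LG assembly.** The four property statements of the Spec from the four frozen-vocabulary
statements of `helper985_LGSpec`. -/
theorem lg_of_frozen (hLift : Stmt_LiftSqZero.{u}) (hVU : Stmt_ValUniq.{u})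
    (hB : Stmt_Bounded.{u}) (hVE : Stmt_ValExistAC.{u}) :
    Stmt_Smooth.{u} ∧ Stmt_Sep.{u} ∧ Stmt_UC.{u} ∧ Stmt_GC.{u} :=
  ⟨helper2317.stmt_Smooth_of_liftSqZero hLift, helper665.stmt_Sep_of_LGSpec hVU,
    helper3788.stmt_UC_of (stmt_QC_of_bounded hB) hVE, helper8183.stmt_GC⟩

/-- **Top assembly in LG form.** S25 from `Stmt_Rep` and the four frozen-vocabulary
statements. -/
theorem stmt_S25_of_frozen (hRep : Stmt_Rep.{u}) (hLift : Stmt_LiftSqZero.{u})
    (hVU : Stmt_ValUniq.{u}) (hB : Stmt_Bounded.{u}) (hVE : Stmt_ValExistAC.{u}) :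
    Stmt_S25.{u} :=
  let h := lg_of_frozen hLift hVU hB hVE
  stmt_S25_of hRep h.1 h.2.1 h.2.2.1 h.2.2.2

end Fermat.Agent.S25.helper985
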