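import Fermat.Agent.S25.helper985_LGSpec
import Fermat.Agent.S25.helper665_SepWiring

/-!
# S25, layer G: small frozen-vocabulary wiring lemmas (helper985)

* `faez_of_pullbackAlong` (F1): the cut `FibrewiseAlgEquivZero` can be tested after pulling back
  along a morphism through which every geometric point lifts;
* `exists_lift_of_sq_zero`: geometric points of `Spec B` lift to `Spec (B ⧸ I)` when `I ^ 2 = 0`;
* `faez_of_sq_zero`: hence a bundle on `C × Spec B` is in the cut as soon as its restriction to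
  `C × Spec (B ⧸ I)` is;
* `stmt_valUniq_adapter`, `stmt_Sep_of_valUniq`: the LGSpec form of valuative uniqueness gives
  `Stmt_Sep` (through `helper665_SepWiring`).
-/

set_option autoImplicit false

universe u

open CategoryTheory CategoryTheory.Limits AlgebraicGeometry AlgebraicGeometry.RelPicard
  NeronModelInfra GoodReductionJacobian

namespace Fermat.Agent.S25.helper985

open Fermat.Agent.S25.helper1705

section F1

variable {R : Type u} [CommRing R] {C : Scheme.{u}} {c : C ⟶ Spec (CommRingCat.of R)}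
  {ε : SchemeHomOver (𝟙 (Spec (CommRingCat.of R))) c}

/-- One geometric point: if `s = s' ≫ ψ` and the fibre of `M.pullbackAlong ψ` at `s'` is
algebraically equivalent to zero, so is the fibre of `M` at `s`. -/
theorem isAlgEquivZero_fibre_of_pullbackAlong {T T' : Scheme.{u}}
    {t : T ⟶ Spec (CommRingCat.of R)} {t' : T' ⟶ Spec (CommRingCat.of R)}
    (ψ : SchemeHomOver t' t) (M : RigidifiedLineBundle c ε t)
    {K : Type u} [Field K] (s' : Spec (CommRingCat.of K) ⟶ T')
    (h : IsAlgEquivZero (fibreAt c t' s')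
      ((Scheme.Modules.pullback (pullback.fst (pullback.snd c t') s')).obj
        (M.pullbackAlong ψ).L)) :
    IsAlgEquivZero (fibreAt c t (s' ≫ ψ.1))
      ((Scheme.Modules.pullback (pullback.fst (pullback.snd c t) (s' ≫ ψ.1))).obj M.L) := by
  -- the comparison map between the two fibres (it is an isomorphism, but we only need it)
  have w : (pullback.fst (pullback.snd c t) (s' ≫ ψ.1) ≫ pullback.fst c t) ≫ c =
      (pullback.snd (pullback.snd c t) (s' ≫ ψ.1) ≫ s') ≫ t' := by
    have h1 : pullback.fst (pullback.snd c t) (s' ≫ ψ.1) ≫ pullback.snd c t =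
        pullback.snd (pullback.snd c t) (s' ≫ ψ.1) ≫ s' ≫ ψ.1 := pullback.condition
    rw [Category.assoc, pullback.condition, ← Category.assoc, h1, Category.assoc, Category.assoc,
      Category.assoc, ψ.2]
  let i : Limits.pullback (pullback.snd c t) (s' ≫ ψ.1) ⟶ Limits.pullback (pullback.snd c t') s' :=
    pullback.lift
      (pullback.lift (pullback.fst (pullback.snd c t) (s' ≫ ψ.1) ≫ pullback.fst c t)
        (pullback.snd (pullback.snd c t) (s' ≫ ψ.1) ≫ s') w)
      (pullback.snd (pullback.snd c t) (s' ≫ ψ.1))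
      (by rw [pullback.lift_snd])
  have hi : i ≫ fibreAt c t' s' = fibreAt c t (s' ≫ ψ.1) := by
    simp only [i, fibreAt, pullback.lift_snd]
  have hfst : i ≫ pullback.fst (pullback.snd c t') s' ≫ baseChangeSnd c ψ =
      pullback.fst (pullback.snd c t) (s' ≫ ψ.1) := by
    apply pullback.hom_ext
    · simp only [i, baseChangeSnd, Category.assoc, pullback.lift_fst, pullback.lift_fst_assoc,
        Category.comp_id]
    · have h1 : pullback.fst (pullback.snd c t) (s' ≫ ψ.1) ≫ pullback.snd c t =
          pullback.snd (pullback.snd c t) (s' ≫ ψ.1) ≫ s' ≫ ψ.1 := pullback.condition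
      simp only [i, baseChangeSnd, Category.assoc, pullback.lift_snd, pullback.lift_fst_assoc,
        pullback.lift_snd_assoc, h1]
  refine IsAlgEquivZero.of_iso ?_ (h.pullback i hi)
  exact (Scheme.Modules.pullbackComp _ _).app _ ≪≫
    (Scheme.Modules.pullbackComp _ _).app M.L ≪≫
    (Scheme.Modules.pullbackCongr (by rw [Category.assoc]; exact hfst)).app M.L

/-- **F1.** The cut can be tested after pulling back along a morphism through which every
geometric point lifts. -/
theorem faez_of_pullbackAlong {T T' : Scheme.{u}}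
    {t : T ⟶ Spec (CommRingCat.of R)} {t' : T' ⟶ Spec (CommRingCat.of R)}
    (ψ : SchemeHomOver t' t) (M : RigidifiedLineBundle c ε t)
    (hψ : ∀ (K : Type u) [Field K] [IsAlgClosed K] (s : Spec (CommRingCat.of K) ⟶ T),
      ∃ s' : Spec (CommRingCat.of K) ⟶ T', s' ≫ ψ.1 = s)
    (h : FibrewiseAlgEquivZero (M.pullbackAlong ψ)) : FibrewiseAlgEquivZero M := by
  intro K _ _ s
  obtain ⟨s', rfl⟩ := hψ K s
  exact isAlgEquivZero_fibre_of_pullbackAlong ψ M s' (h K s')

end F1

section SqZero

variable {k : Type u} [CommRing k] {B : Type u} [CommRing B] [Algebra k B]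

/-- Geometric points of `Spec B` lift to `Spec (B ⧸ I)` when `I ^ 2 = 0`. -/
theorem exists_lift_of_sq_zero (I : Ideal B) (hI : I ^ 2 = ⊥) (K : Type u) [Field K]
    (s : Spec (CommRingCat.of K) ⟶ Spec (CommRingCat.of B)) :
    ∃ s' : Spec (CommRingCat.of K) ⟶ Spec (CommRingCat.of (B ⧸ I)),
      s' ≫ (specHomOver (Ideal.Quotient.mkₐ k I)).1 = s := by
  obtain ⟨φ, rfl⟩ := Spec.map_surjective s
  have hker : ∀ a ∈ I, φ.hom a = 0 := by
    intro a ha
    have h1 : a * a ∈ I ^ 2 := by rw [pow_two]; exact Ideal.mul_mem_mul ha ha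
    rw [hI] at h1
    have h2 : φ.hom a * φ.hom a = 0 := by
      rw [← map_mul, (Submodule.mem_bot B).mp h1, map_zero]
    exact mul_self_eq_zero.mp h2
  refine ⟨Spec.map (CommRingCat.ofHom (Ideal.Quotient.lift I φ.hom hker)), ?_⟩
  rw [specHomOver_val, ← Spec.map_comp]
  congr 1

variable {C : Scheme.{u}} {c : C ⟶ Spec (CommRingCat.of k)}
  {ε : SchemeHomOver (𝟙 (Spec (CommRingCat.of k))) c}

/-- A bundle on `C × Spec B` is in the cut as soon as its restriction to `C × Spec (B ⧸ I)` is,
when `I ^ 2 = 0`. -/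
theorem faez_of_sq_zero (I : Ideal B) (hI : I ^ 2 = ⊥)
    (M' : RigidifiedLineBundle c ε (specStr k B))
    (h : FibrewiseAlgEquivZero (M'.pullbackAlong (specHomOver (Ideal.Quotient.mkₐ k I)))) :
    FibrewiseAlgEquivZero M' :=
  faez_of_pullbackAlong _ M' (fun K _ _ s => exists_lift_of_sq_zero I hI K s) h

end SqZero

section Sep

/-- Transport of an isomorphism of pullbacks along a propositional equality of base maps. -/
theorem iso_pullbackAlong_transport {R : Type u} [CommRing R] {C : Scheme.{u}}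
    {c : C ⟶ Spec (CommRingCat.of R)} {ε : SchemeHomOver (𝟙 (Spec (CommRingCat.of R))) c}
    {T T' : Scheme.{u}} {t : T ⟶ Spec (CommRingCat.of R)} {t₁ t₂ : T' ⟶ Spec (CommRingCat.of R)}
    (ht : t₁ = t₂) (M M' : RigidifiedLineBundle c ε t) (ψ₁ : SchemeHomOver t₁ t)
    (ψ₂ : SchemeHomOver t₂ t) (hψ : ψ₁.1 = ψ₂.1)
    (h : Nonempty ((M.pullbackAlong ψ₁).L ≅ (M'.pullbackAlong ψ₁).L)) :
    Nonempty ((M.pullbackAlong ψ₂).L ≅ (M'.pullbackAlong ψ₂).L) := by
  subst ht
  obtain rfl : ψ₁ = ψ₂ := Subtype.ext hψ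
  exact h

/-- The LGSpec form of valuative uniqueness implies the form consumed by
`helper665_SepWiring`. -/
theorem stmt_valUniq_adapter (h : Stmt_ValUniq.{u}) : helper665.Stmt_ValUniq.{u} := by
  intro k _ C c hc ε V _ _ _ K _ _ _ t M M' hM hM' hiso
  obtain ⟨φ, rfl⟩ := Spec.map_surjective t
  let _ : Algebra k V := φ.hom.toAlgebra
  let _ : Algebra k K := ((algebraMap V K).comp φ.hom).toAlgebra
  have : IsScalarTower k V K := IsScalarTower.of_algebraMap_eq (fun _ => rfl)
  have ht : Spec.map (CommRingCat.ofHom (algebraMap V K)) ≫ Spec.map φ = specStr k K := by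
    rw [← Spec.map_comp]
    rfl
  exact h k c hc ε V K M M' hM hM'
    (iso_pullbackAlong_transport ht M M' (helper665.genHom V K (Spec.map φ))
      (specHomOver (IsScalarTower.toAlgHom k V K)) rfl hiso)

/-- **W-SEP.** `Stmt_Sep` from the LGSpec form of valuative uniqueness. -/
theorem stmt_Sep_of_valUniq (h : Stmt_ValUniq.{u}) : Stmt_Sep.{u} :=
  helper665.stmt_Sep_of_valUniq (stmt_valUniq_adapter h)

end Sep

end Fermat.Agent.S25.helper985
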